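import Fermat.Agent.Cor.KW3

/-!
# The Kronecker–Weber theorem

`kroneckerWeber` : every finite abelian extension of `ℚ` is contained in a cyclotomic field.

Proof.  It is enough to show that every character `χ` of `Gal(ℚ̄/ℚ)` with values in a cyclic group of prime
power order `r^n` is trivial on `Gal(ℚ̄/ℚ(ζ_N))` for some `N`.  KW1: the inertia group at `ℓ ≠ r` acts
through a cyclic `r`-group killed by `ℓ - 1`, and `ℚ(ζ_ℓ)` is totally ramified at `ℓ` (Minkowski), so `χ`
can be multiplied by a character of `Gal(ℚ(ζ_ℓ)/ℚ)` such that it becomes unramified at `ℓ`.  KW2: if `χ` is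
unramified outside `r`, one reduces by induction on `n` to characters of order `r`.  KW3: for odd `r` there
are at most `r` characters of order dividing `r` unramified outside `r`, by the Greenberg–Wiles formula.
For `r = 2` a quadratic field unramified outside `2` is `ℚ(√d)`, `d ∈ {-1, 2, -2}` (`core_two`).

No statement file imports this one.
-/

set_option autoImplicit false
set_option linter.style.haveILetI false

namespace Fermat.Agent.Cor.KW

open Fermat.Agent.CC (Qb GQ)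

section Two

/-- a quadratic character unramified outside `2` is trivial on `Gal(ℚ̄/ℚ(ζ₈))` -/
theorem quad_trivial (χ : GQ →* Multiplicative (ZMod 2)) (hχ : Cts χ)
    (hur : ∀ p : ℕ, p.Prime → p ≠ 2 → Unr χ p) {g : GQ} (hg : ∀ ζ : Qb, ζ ^ 8 = 1 → g ζ = ζ) :
    χ g = 1 := by
  classical
  let f : GQ → Qb := fun σ => (-1) ^ (Multiplicative.toAdd (χ σ)).val
  have hf1 : ∀ σ, χ σ = 1 → f σ = 1 := by
    intro σ hσ
    change (-1 : Qb) ^ (Multiplicative.toAdd (χ σ)).val = 1
    rw [hσ, toAdd_one, ZMod.val_zero, pow_zero]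
  have hf : ∀ σ τ, f (σ * τ) = f σ * σ (f τ) := by
    intro σ τ
    change (-1 : Qb) ^ (Multiplicative.toAdd (χ (σ * τ))).val =
      (-1) ^ (Multiplicative.toAdd (χ σ)).val * σ ((-1) ^ (Multiplicative.toAdd (χ τ)).val)
    rw [map_mul, toAdd_mul, ZMod.val_add, map_pow, map_neg, map_one, ← pow_add,
      ← pow_eq_pow_mod _ (by norm_num : (-1 : Qb) ^ 2 = 1)]
  obtain ⟨α, a, hα0, ha, hα⟩ := exists_root Nat.prime_two f (fun σ => by
      change ((-1 : Qb) ^ (Multiplicative.toAdd (χ σ)).val) ^ 2 = 1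
      rw [← pow_mul, mul_comm, pow_mul, neg_one_sq, one_pow]) hf χ.ker hχ (fun σ hσ => hf1 σ hσ)
  have ha0 : a ≠ 0 := by
    rintro rfl
    rw [Rat.cast_zero] at ha
    exact pow_ne_zero 2 hα0 ha.symm
  have hval : ∀ q : ℕ, q.Prime → q ≠ 2 → (2 : ℤ) ∣ padicValRat q a := by
    intro q hq hq2
    obtain ⟨A, hA⟩ := H05.exists_liesOverPrime Qb hq
    exact dvd_padic (p := 2) hq hA hα0 (fun σ hσ => by
      rw [hα σ, hf1 σ (hur q hq hq2 A hA hσ), one_mul]) ha
  -- `√2 ∈ ℚ(ζ₈)`
  obtain ⟨ζ, hζ⟩ := DS.exists_primitive 8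
  have hζ0 : ζ ≠ 0 := hζ.ne_zero (by norm_num)
  have hζ4 : ζ ^ 4 = -1 := by
    have h1 : (ζ ^ 4) ^ 2 = 1 := by rw [← pow_mul]; exact hζ.pow_eq_one
    have h2 : (ζ ^ 4 - 1) * (ζ ^ 4 + 1) = 0 := by linear_combination h1
    rcases mul_eq_zero.mp h2 with h | h
    · exact absurd (sub_eq_zero.mp h) (hζ.pow_ne_one_of_pos_of_lt (by norm_num) (by norm_num))
    · exact eq_neg_of_add_eq_zero_left h
  have hs2 : (ζ + ζ⁻¹) ^ 2 = 2 := by
    have h1 : (ζ + ζ⁻¹) ^ 2 = 2 + ζ⁻¹ ^ 2 * (ζ ^ 4 + 1) := by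
      field_simp
      ring
    rw [h1, hζ4]
    ring
  have hs0 : ζ + ζ⁻¹ ≠ 0 := by
    intro h
    rw [h] at hs2
    norm_num at hs2
  have hgs : g (ζ + ζ⁻¹) = ζ + ζ⁻¹ := by
    rw [map_add, map_inv₀, hg ζ hζ.pow_eq_one]
  -- `α` is fixed by `g`
  have key : ∀ (s : Qb) (c b : ℚ), s ≠ 0 → g s = s → s ^ 2 = c → b ≠ 0 →
      (b ^ 2 = a / c ∨ b ^ 2 = -(a / c)) → g α = α := by
    intro s c b hs hgs hsc hb hbc
    have hb' : (b : Qb) ≠ 0 := by exact_mod_cast hb
    have hc0 : (c : Qb) ≠ 0 := by rw [← hsc]; exact pow_ne_zero 2 hs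
    have h1 : (α / (s * b)) ^ 4 = 1 := by
      have h2 : ((α / (s * b)) ^ 2) ^ 2 = 1 := by
        rw [div_pow, mul_pow, ← ha, hsc]
        rcases hbc with h | h
        · have h3 : (b : Qb) ^ 2 = a / c := by exact_mod_cast congrArg (fun x : ℚ => (x : Qb)) h
          rw [h3, mul_div_cancel₀ _ hc0, div_self, one_pow]
          exact_mod_cast ha0
        · have h3 : (b : Qb) ^ 2 = -(a / c) := by
            exact_mod_cast congrArg (fun x : ℚ => (x : Qb)) h
          rw [h3, mul_neg, mul_div_cancel₀ _ hc0, div_neg, div_self, neg_one_sq]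
          exact_mod_cast ha0
      rw [← h2, ← pow_mul]
    have h2 := hg (α / (s * b)) (by
      rw [show (8 : ℕ) = 4 * 2 by norm_num, pow_mul, h1, one_pow])
    rw [map_div₀, map_mul, hgs, map_ratCast] at h2
    exact (div_left_inj' (mul_ne_zero hs hb')).mp h2
  have hgα : g α = α := by
    by_cases h2 : (2 : ℤ) ∣ padicValRat 2 a
    · obtain ⟨b, hb0, hb⟩ := H12.rat_eq_pow_of_dvd two_ne_zero a ha0 fun q hq => by
        by_cases hq2 : q = 2
        · rw [hq2]; exact h2
        · exact hval q hq hq2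
      exact key 1 1 b one_ne_zero (map_one g) (by simp) hb0 (by simpa using hb)
    · have h3 : a / 2 ≠ 0 := div_ne_zero ha0 two_ne_zero
      obtain ⟨b, hb0, hb⟩ := H12.rat_eq_pow_of_dvd two_ne_zero (a / 2) h3 fun q hq => by
        haveI : Fact q.Prime := ⟨hq⟩
        rw [padicValRat.div ha0 two_ne_zero]
        by_cases hq2 : q = 2
        · subst hq2
          have h4 : padicValRat 2 (2 : ℚ) = 1 := by
            have := padicValRat.self (p := 2) (by norm_num)
            exact_mod_cast this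
          rw [h4]
          push_cast
          omega
        · have h4 : padicValRat q (2 : ℚ) = 0 := by
            have h5 : padicValRat q ((2 : ℕ) : ℚ) = 0 := by
              rw [padicValRat.of_nat, padicValNat.eq_zero_of_not_dvd]
              · rfl
              · intro h
                exact hq2 ((Nat.prime_dvd_prime_iff_eq hq Nat.prime_two).mp h)
            exact_mod_cast h5
          rw [h4, sub_zero]
          exact hval q hq hq2
      exact key (ζ + ζ⁻¹) 2 b hs0 hgs (by rw [hs2]; norm_num) hb0 hb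
  -- conclusion
  have h1 := hα g
  rw [hgα] at h1
  have h2 : f g = 1 := mul_right_cancel₀ hα0 (by rw [one_mul]; exact h1.symm)
  have h3 : ∀ x : ZMod 2, (-1 : Qb) ^ x.val = 1 → x = 0 := by
    intro x hx
    fin_cases x
    · rfl
    · exfalso
      change (-1 : Qb) ^ 1 = 1 at hx
      norm_num at hx
  exact h3 _ h2

/-- **the core statement for `p = 2`** -/
theorem core_two : Core 2 := by
  classical
  intro χ ψ hχ hψ hχu hψu hχc hψc hψ1
  obtain ⟨u5, hu5⟩ : ∃ u5 : (ZMod 8)ˣ, u5 = ZMod.unitOfCoprime 5 (by norm_num) := ⟨_, rfl⟩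
  have hall : ∀ u : (ZMod 8)ˣ, u = 1 ∨ u = -1 ∨ u = u5 ∨ u = -u5 := by
    subst hu5
    decide
  have hfac : ∀ θ : GQ →* Multiplicative (ZMod 2), Cts θ →
      (∀ p : ℕ, p.Prime → p ≠ 2 → Unr θ p) → ∀ g h, DS.cyc 8 g = DS.cyc 8 h → θ g = θ h := by
    intro θ hθ hθu g h hgh
    have h1 : DS.cyc 8 (h⁻¹ * g) = 1 := by rw [map_mul, map_inv, hgh, inv_mul_cancel]
    have h2 := quad_trivial θ hθ hθu (g := h⁻¹ * g) fun ζ hζ => by
      rw [DS.cyc_spec (m := 8) _ hζ, h1, Units.val_one]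
      haveI : Fact (1 < 8) := ⟨by norm_num⟩
      rw [ZMod.val_one, pow_one]
    rw [map_mul, map_inv] at h2
    exact (inv_mul_eq_one.mp h2).symm
  obtain ⟨g₀, hg₀⟩ := DS.cyc_surjective 8 u5
  have hcase : ∀ θ : GQ →* Multiplicative (ZMod 2), Cts θ →
      (∀ p : ℕ, p.Prime → p ≠ 2 → Unr θ p) → θ cc = 1 → ∀ g,
      ((DS.cyc 8 g = 1 ∨ DS.cyc 8 g = -1) → θ g = 1) ∧
      ((DS.cyc 8 g = u5 ∨ DS.cyc 8 g = -u5) → θ g = θ g₀) := by
    intro θ hθ hθu hθc g
    refine ⟨?_, ?_⟩
    · rintro (h | h)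
      · rw [hfac θ hθ hθu g 1 (by rw [h, map_one]), map_one]
      · rw [hfac θ hθ hθu g cc (by rw [h, cyc_cc]), hθc]
    · rintro (h | h)
      · exact hfac θ hθ hθu g g₀ (by rw [h, hg₀])
      · rw [hfac θ hθ hθu g (cc * g₀) (by rw [h, map_mul, cyc_cc, hg₀, neg_one_mul]), map_mul,
          hθc, one_mul]
  have hψg : ψ g₀ ≠ 1 := by
    intro h
    apply hψ1
    ext g
    change ψ g = 1
    obtain ⟨h1, h2⟩ := hcase ψ hψ hψu hψc g
    rcases hall (DS.cyc 8 g) with h3 | h3 | h3 | h3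
    · exact h1 (Or.inl h3)
    · exact h1 (Or.inr h3)
    · rw [h2 (Or.inl h3), h]
    · rw [h2 (Or.inr h3), h]
  have hm : ∃ m : ℤ, χ g₀ = ψ g₀ ^ m := by
    have h1 : ∀ x y : Multiplicative (ZMod 2), y ≠ 1 → x = 1 ∨ x = y := by decide
    rcases h1 (χ g₀) (ψ g₀) hψg with h | h
    · exact ⟨0, by rw [h, zpow_zero]⟩
    · exact ⟨1, by rw [h, zpow_one]⟩
  obtain ⟨m, hm⟩ := hm
  refine ⟨m, fun g => ?_⟩
  obtain ⟨h1, h2⟩ := hcase χ hχ hχu hχc g
  obtain ⟨h1', h2'⟩ := hcase ψ hψ hψu hψc g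
  rcases hall (DS.cyc 8 g) with h3 | h3 | h3 | h3
  · rw [h1 (Or.inl h3), h1' (Or.inl h3), one_zpow]
  · rw [h1 (Or.inr h3), h1' (Or.inr h3), one_zpow]
  · rw [h2 (Or.inl h3), h2' (Or.inl h3), hm]
  · rw [h2 (Or.inr h3), h2' (Or.inr h3), hm]

end Two

theorem core {r : ℕ} (hr : r.Prime) : Core r := by
  haveI : Fact r.Prime := ⟨hr⟩
  by_cases h2 : r = 2
  · subst h2
    exact core_two
  · exact core_odd h2

/-- every character with values in a cyclic group of prime power order is cyclotomic -/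
theorem cyc_prime_pow {r : ℕ} (hr : r.Prime) (n : ℕ) (M : Type) [CommGroup M] [Finite M]
    [IsCyclic M] (hM : Nat.card M = r ^ n) (χ : GQ →* M) (hχ : Cts χ) : Cyc χ :=
  cyc_of_core hr (core hr) n M hM χ hχ

/-- **Kronecker–Weber for characters**: every continuous homomorphism from `Gal(ℚ̄/ℚ)` to a finite
abelian group is trivial on the absolute Galois group of a cyclotomic field. -/
theorem cyc_of_cts {M : Type} [CommGroup M] [Finite M] (χ : GQ →* M) (hχ : Cts χ) : Cyc χ := by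
  classical
  obtain ⟨ι, hι, p, hp, e, ⟨E⟩⟩ := AddCommGroup.equiv_directSum_zmod_of_finite (Additive M)
  -- the components
  let comp : ∀ i, M →* Multiplicative (ZMod (p i ^ e i)) := fun i =>
    AddMonoidHom.toMultiplicativeRight
      ((DFinsupp.evalAddMonoidHom (β := fun i => ZMod (p i ^ e i)) i).comp E.toAddMonoidHom)
  have hcomp : ∀ x : M, (∀ i, comp i x = 1) → x = 1 := by
    intro x hx
    have h1 : E (Additive.ofMul x) = 0 := by
      apply DFinsupp.ext
      intro i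
      exact hx i
    have h2 := (map_eq_zero_iff E E.injective).mp h1
    exact h2
  have hc : ∀ i, Cyc ((comp i).comp χ) := by
    intro i
    haveI : NeZero (p i ^ e i) := ⟨pow_ne_zero _ (hp i).ne_zero⟩
    refine cyc_prime_pow (hp i) (e i) _ ?_ _ (hχ.comp _)
    rw [Nat.card_eq_fintype_card, Fintype.card_multiplicative, ZMod.card]
  choose n hn hng using hc
  refine ⟨∏ i, n i, Finset.prod_pos fun i _ => hn i, fun g hg => hcomp _ fun i => ?_⟩
  refine hng i g fun ζ hζ => hg ζ ?_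
  obtain ⟨k, hk⟩ := Finset.dvd_prod_of_mem n (Finset.mem_univ i)
  rw [hk, pow_mul, hζ, one_pow]

/-- Kronecker–Weber for open subgroups: an open normal subgroup of `Gal(ℚ̄/ℚ)` with abelian quotient
contains `Gal(ℚ̄/ℚ(ζ_n))` for some `n` -/
theorem kroneckerWeber_subgroup (U : Subgroup GQ) [U.Normal] (hU : IsOpen (U : Set GQ))
    (hcomm : ∀ x y : GQ, x⁻¹ * y⁻¹ * x * y ∈ U) :
    ∃ n : ℕ, 0 < n ∧ ∀ g : GQ, (∀ ζ : Qb, ζ ^ n = 1 → g ζ = ζ) → g ∈ U := by
  classical
  obtain ⟨F, hF, hFU⟩ := exists_field hU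
  haveI : U.FiniteIndex := by
    rw [← hFU]
    exact CC.fixingSubgroup_finiteIndex F
  letI : CommGroup (GQ ⧸ U) :=
    { (inferInstance : Group (GQ ⧸ U)) with
      mul_comm := fun a b => by
        obtain ⟨x, rfl⟩ := QuotientGroup.mk_surjective a
        obtain ⟨y, rfl⟩ := QuotientGroup.mk_surjective b
        have h1 : (QuotientGroup.mk (y * x) : GQ ⧸ U) = QuotientGroup.mk (x * y) := by
          rw [QuotientGroup.eq]
          have h2 := hcomm x y
          have h3 : (y * x)⁻¹ * (x * y) = x⁻¹ * y⁻¹ * x * y := by group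
          rwa [h3]
        exact h1.symm }
  haveI : Finite (GQ ⧸ U) := inferInstance
  let ρ : GQ →* GQ ⧸ U := QuotientGroup.mk' U
  have hρ : Cts ρ := by
    have h1 : ρ.ker = U := QuotientGroup.ker_mk' U
    rw [Cts, h1]
    exact hU
  obtain ⟨n, hn, h⟩ := cyc_of_cts ρ hρ
  exact ⟨n, hn, fun g hg => (QuotientGroup.eq_one_iff g).mp (h g hg)⟩

/-- **The Kronecker–Weber theorem**: every finite abelian extension of `ℚ` is contained in a cyclotomic
field. -/
theorem kroneckerWeber (K : Type*) [Field K] [NumberField K] [IsAbelianGalois ℚ K] :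
    ∃ n : ℕ, 0 < n ∧ Nonempty (K →ₐ[ℚ] CyclotomicField n ℚ) := by
  classical
  have hgal : IsGalois ℚ Qb := H51.isGalois_Qbar
  let i : K →ₐ[ℚ] Qb := IsAlgClosed.lift
  letI : Algebra K Qb := i.toRingHom.toAlgebra
  haveI : IsScalarTower ℚ K Qb := IsScalarTower.of_algebraMap_eq fun x => (i.commutes x).symm
  let ρ : GQ →* (K ≃ₐ[ℚ] K) := AlgEquiv.restrictNormalHom K
  have hρ : ∀ (g : GQ) (x : K), i (ρ g x) = g (i x) := fun g x =>
    AlgEquiv.restrictNormal_commutes g K x
  have hopen : IsOpen (ρ.ker : Set GQ) := by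
    haveI : FiniteDimensional ℚ i.fieldRange :=
      (AlgEquiv.ofInjectiveField i).toLinearEquiv.finiteDimensional
    refine Subgroup.isOpen_mono (H₁ := i.fieldRange.fixingSubgroup) ?_
      (IntermediateField.fixingSubgroup_isOpen _)
    intro g hg
    rw [MonoidHom.mem_ker]
    ext x
    apply i.toRingHom.injective
    change i (ρ g x) = i x
    rw [hρ]
    exact (IntermediateField.mem_fixingSubgroup_iff _ g).mp hg _ ⟨x, rfl⟩
  obtain ⟨n, hn, h⟩ := kroneckerWeber_subgroup ρ.ker hopen fun x y => by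
    rw [MonoidHom.mem_ker, map_mul, map_mul, map_mul, map_inv, map_inv,
      mul_assoc, IsMulCommutative.is_comm.comm (ρ x) (ρ y)]
    group
  haveI : NeZero n := ⟨hn.ne'⟩
  have hmem : ∀ x : K, i x ∈ DS.cycF n := by
    intro x
    rw [← InfiniteGalois.fixedField_fixingSubgroup (DS.cycF n),
      IntermediateField.mem_fixedField_iff]
    intro g hg
    have h1 : g ∈ ρ.ker := by
      refine h g fun ζ hζ => ?_
      have hprim := (DS.exists_primitive n).choose_spec
      have h2 : g (DS.exists_primitive n).choose = (DS.exists_primitive n).choose :=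
        (IntermediateField.mem_fixingSubgroup_iff _ _).mp hg _
          (IntermediateField.mem_adjoin_simple_self ℚ _)
      obtain ⟨j, -, rfl⟩ := hprim.eq_pow_of_pow_eq_one hζ
      rw [map_pow, h2]
    rw [MonoidHom.mem_ker] at h1
    rw [← hρ, h1]
    rfl
  haveI := DS.cycF_isCyclotomic n
  haveI : NeZero ((n : ℕ) : ℚ) := ⟨Nat.cast_ne_zero.mpr (NeZero.ne n)⟩
  haveI : IsCyclotomicExtension {n} ℚ (CyclotomicField n ℚ) :=
    CyclotomicField.isCyclotomicExtension n ℚ
  let f : K →+* DS.cycF n := i.toRingHom.codRestrict (DS.cycF n) hmem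
  let f' : DS.cycF n →+* CyclotomicField n ℚ :=
    (IsCyclotomicExtension.algEquiv {n} ℚ (DS.cycF n) (CyclotomicField n ℚ) :
      DS.cycF n →+* CyclotomicField n ℚ)
  exact ⟨n, hn, ⟨(f'.comp f).toRatAlgHom⟩⟩

end Fermat.Agent.Cor.KW
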