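import Fermat.Agent.Cor.Bauer
import Fermat.Agent.Cor.KroneckerWeber

/-!
# Abelian extensions of `ℚ` and congruence conditions

`abelian_iff_congruence` : a finite Galois extension `K/ℚ` is abelian if and only if the primes which
split completely in `K` are given, with finitely many exceptions, by congruence conditions.
-/

set_option autoImplicit false
set_option linter.unusedSectionVars false
set_option linter.style.haveILetI false

open scoped Classical nonZeroDivisors Topology Pointwise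

namespace Fermat.Agent.Cor.Cheb

open NumberField Filter IsDedekindDomain Module IntermediateField Fermat.Agent.CFT Fermat.Agent.H03
  Fermat.Agent.ZC Fermat.Agent.H25 Fermat.Agent.DS Ideal MulAction

noncomputable section

theorem split_iff_frob {K : Type*} [Field K] [NumberField K] [IsGalois ℚ K] {p : ℕ}
    (hp : p.Prime) (hur : Algebra.IsUnramifiedIn (𝓞 K) (Ideal.span {(p : ℤ)})) {g : Gal(K/ℚ)}
    (hg : p ∈ FrobSet g) :
    (primesOver (Ideal.span {(p : ℤ)}) (𝓞 K)).ncard = finrank ℚ K ↔ g = 1 := by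
  obtain ⟨P, hP, hPo, hφ⟩ := hg
  have hstab : stabilizer Gal(K/ℚ) P = Subgroup.zpowers g := frob_generates hp hur P g hφ
  have horb : MulAction.orbit Gal(K/ℚ) P = primesOver (Ideal.span {(p : ℤ)}) (𝓞 K) := by
    ext Q
    constructor
    · rintro ⟨t, rfl⟩
      exact ⟨inferInstance, inferInstance⟩
    · intro hQ
      have hQ1 := hQ.1
      have hQ2 := hQ.2
      obtain ⟨t, ht⟩ := Algebra.IsInvariant.exists_smul_of_under_eq ℤ (𝓞 K) Gal(K/ℚ) P Q
        (by rw [← hPo.over, ← hQ2.over])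
      exact ⟨t, ht.symm⟩
  have h1 : (primesOver (Ideal.span {(p : ℤ)}) (𝓞 K)).ncard *
      Nat.card (stabilizer Gal(K/ℚ) P) = finrank ℚ K := by
    rw [← IsGalois.card_aut_eq_finrank, ← horb, ← Nat.card_coe_set_eq, ← Nat.card_prod]
    exact Nat.card_congr (MulAction.orbitProdStabilizerEquivGroup Gal(K/ℚ) P)
  have h0 : 0 < finrank ℚ K := finrank_pos
  constructor
  · intro h2
    rw [h2, hstab, Nat.card_zpowers] at h1
    have h3 : orderOf g = 1 := Nat.eq_of_mul_eq_mul_left h0 (by rw [h1, mul_one])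
    exact orderOf_eq_one_iff.mp h3
  · rintro rfl
    rw [hstab, Nat.card_zpowers, orderOf_one, mul_one] at h1
    exact h1

theorem exists_rho (K : Type*) [Field K] [NumberField K] [IsGalois ℚ K] :
    ∃ ρ : GQ →* Gal(K/ℚ), Function.Surjective ρ ∧ IsOpen (ρ.ker : Set GQ) ∧
      ∀ p : ℕ, p.Prime → ∀ (A : ValuationSubring Qb) (φ : GQ), A.LiesOverPrime p →
        A.IsFrobeniusAt φ p → p ∈ FrobSet (ρ φ) := by
  let i : K →ₐ[ℚ] Qb := IsAlgClosed.lift
  let F : IntermediateField ℚ Qb := i.fieldRange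
  let e : K ≃ₐ[ℚ] F := AlgEquiv.ofInjectiveField i
  haveI : FiniteDimensional ℚ F := Module.Finite.equiv e.toLinearEquiv
  haveI : NumberField F := { to_charZero := inferInstance, to_finiteDimensional := inferInstance }
  haveI : IsGalois ℚ F := IsGalois.of_algEquiv e
  let ρ : GQ →* Gal(K/ℚ) := e.symm.autCongr.toMonoidHom.comp (AlgEquiv.restrictNormalHom F)
  refine ⟨ρ, ?_, ?_, ?_⟩
  · exact e.symm.autCongr.surjective.comp (AlgEquiv.restrictNormalHom_surjective Qb)
  · refine Subgroup.isOpen_mono (fun b hb => ?_) (IntermediateField.fixingSubgroup_isOpen F)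
    rw [← restrict_eq_one_iff] at hb
    change e.symm.autCongr (AlgEquiv.restrictNormalHom F b) = 1
    rw [hb, map_one]
  · intro p hp A φ hA hφ
    have h := frobSet_of_isFrobeniusAt F hp hA hφ
    rw [← frobSet_transport e.symm] at h
    exact h

/-- **Abelian extensions of `ℚ` are those whose splitting law is a congruence condition.** -/
theorem abelian_iff_congruence (K : Type*) [Field K] [NumberField K] [IsGalois ℚ K] :
    (∀ g h : Gal(K/ℚ), g * h = h * g) ↔
      ∃ (m : ℕ) (_ : 0 < m) (H : Set (ZMod m)) (Z : Finset ℕ), ∀ p : ℕ, p.Prime → p ∉ Z →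
        ((primesOver (Ideal.span {(p : ℤ)}) (𝓞 K)).ncard = finrank ℚ K ↔ (p : ZMod m) ∈ H) := by
  obtain ⟨ρ, hsurj, hopen, hfrob⟩ := exists_rho K
  have hur : ∀ p : ℕ, p.Prime → p ∉ (discr K).natAbs.divisors →
      Algebra.IsUnramifiedIn (𝓞 K) (Ideal.span {(p : ℤ)}) := by
    intro p hp hpZ
    have hdisc : ¬ (p : ℤ) ∣ discr K := by
      intro h
      apply hpZ
      rw [Nat.mem_divisors]
      exact ⟨Int.natCast_dvd.mp h, Int.natAbs_ne_zero.mpr (discr_ne_zero K)⟩
    exact (not_dvd_discr_iff_isUnramifiedIn K (𝓞 K) (Nat.prime_iff_prime_int.mp hp)).mp hdisc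
  constructor
  · intro hab
    obtain ⟨n, hn, hKW⟩ := KW.kroneckerWeber_subgroup ρ.ker hopen (fun x y => by
      rw [MonoidHom.mem_ker, map_mul, map_mul, map_mul, map_inv, map_inv, mul_assoc,
        hab (ρ x) (ρ y), ← mul_inv_rev, inv_mul_cancel])
    haveI : NeZero n := ⟨hn.ne'⟩
    have hker : ∀ g : GQ, cyc n g = 1 → ρ g = 1 := by
      intro g hg
      refine hKW g fun x hx => ?_
      rw [cyc_spec g hx, hg, Units.val_one, ZMod.val_one_eq_one_mod, ← pow_eq_pow_mod 1 hx, pow_one]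
    refine ⟨n, hn, {a : ZMod n | ∃ σ : GQ, ρ σ = 1 ∧ ((cyc n σ : (ZMod n)ˣ) : ZMod n) = a},
      n.divisors ∪ (discr K).natAbs.divisors, fun p hp hpZ => ?_⟩
    rw [Finset.mem_union, not_or] at hpZ
    have hpn : ¬ p ∣ n := fun h => hpZ.1 (Nat.mem_divisors.mpr ⟨h, hn.ne'⟩)
    have hcop : p.Coprime n := (Nat.Prime.coprime_iff_not_dvd hp).mpr hpn
    obtain ⟨A, hA⟩ := Fermat.Agent.H05.exists_liesOverPrime Qb hp
    obtain ⟨φ, hφ⟩ := Fermat.Agent.H05.exists_isFrobeniusAt hp hA
    have hcyc : ((cyc n φ : (ZMod n)ˣ) : ZMod n) = p := by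
      rw [cyc_frob hp hpn hA hφ hcop, ZMod.coe_unitOfCoprime]
    rw [split_iff_frob hp (hur p hp hpZ.2) (hfrob p hp A φ hA hφ), Set.mem_ofPred_eq]
    constructor
    · intro h
      exact ⟨φ, h, hcyc⟩
    · rintro ⟨σ, hσ, hσ'⟩
      have h1 : cyc n (σ⁻¹ * φ) = 1 := by
        rw [map_mul, map_inv, inv_mul_eq_one]
        exact Units.ext (hσ'.trans hcyc.symm)
      have h2 := hker _ h1
      rw [map_mul, map_inv, hσ, inv_one, one_mul] at h2
      exact h2
  · rintro ⟨m, hm, H, Z, hH⟩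
    haveI : NeZero m := ⟨hm.ne'⟩
    have hU : IsOpen ((ρ.ker ⊓ (cyc m).ker : Subgroup GQ) : Set GQ) := by
      rw [Subgroup.coe_inf]
      exact hopen.inter (isOpen_ker_cyc m)
    set T : Finset ℕ := Z ∪ (m.divisors ∪ (discr K).natAbs.divisors) with hT
    have key : ∀ σ : GQ, cyc m σ = 1 → ∃ p : ℕ, (p : ZMod m) = 1 ∧ ((p : ZMod m) ∈ H ↔ ρ σ = 1) := by
      intro σ hσ
      obtain ⟨p, A, φ, hp, hpT, hA, hφ, hmem⟩ := exists_frobenius_dense hU σ T
      rw [hT, Finset.mem_union, Finset.mem_union, not_or, not_or] at hpT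
      have hpm : ¬ p ∣ m := fun h => hpT.2.1 (Nat.mem_divisors.mpr ⟨h, hm.ne'⟩)
      have hcop : p.Coprime m := (Nat.Prime.coprime_iff_not_dvd hp).mpr hpm
      have h1 : ρ φ = ρ σ := by
        have : ρ (σ⁻¹ * φ) = 1 := hmem.1
        rw [map_mul, map_inv, inv_mul_eq_one] at this
        exact this.symm
      have h2 : cyc m φ = 1 := by
        have : cyc m (σ⁻¹ * φ) = 1 := hmem.2
        rw [map_mul, map_inv, inv_mul_eq_one] at this
        rw [← this, hσ]
      have h3 : (p : ZMod m) = 1 := by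
        rw [cyc_frob hp hpm hA hφ hcop] at h2
        have := congrArg (fun u : (ZMod m)ˣ => (u : ZMod m)) h2
        simpa using this
      refine ⟨p, h3, ?_⟩
      rw [← hH p hp hpT.1, split_iff_frob hp (hur p hp hpT.2.2) (hfrob p hp A φ hA hφ), h1]
    have h1H : (1 : ZMod m) ∈ H := by
      obtain ⟨p, hp1, hp2⟩ := key 1 (map_one _)
      rw [← hp1]
      exact hp2.mpr (map_one _)
    have hker : ∀ σ : GQ, cyc m σ = 1 → ρ σ = 1 := by
      intro σ hσ
      obtain ⟨p, hp1, hp2⟩ := key σ hσ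
      rw [hp1] at hp2
      exact hp2.mp h1H
    intro g h
    obtain ⟨a, rfl⟩ := hsurj g
    obtain ⟨b, rfl⟩ := hsurj h
    have h1 := hker (a * b * (b * a)⁻¹) (by
      rw [map_mul, map_inv, map_mul, map_mul, mul_comm (cyc m a), mul_inv_cancel])
    rw [map_mul, map_inv, mul_inv_eq_one, map_mul, map_mul] at h1
    exact h1

end

end Fermat.Agent.Cor.Cheb
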