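import Mathlib

/-!
# Irreducible subgroups of `GL₂(𝔽_p)` containing a transvection

`Fermat.Agent.Cor.Surj.exists_eq`: a representation `ρ : Γ → GL(V)`, `dim V = 2` over `𝔽_p`, which is irreducible,
whose determinant is surjective and whose image contains a nontrivial unipotent element, is surjective.

This file is not used by any of the statement files.
-/

set_option autoImplicit false

namespace Fermat.Agent.Cor.Surj

open Module

section Alg

variable {K : Type*} [Field K]

/-- `SL₂(K)` is generated by the elementary matrices. -/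
theorem mem_of_det_one (S : Submonoid (Matrix (Fin 2) (Fin 2) K))
    (hU : ∀ x : K, !![1, x; 0, 1] ∈ S) (hL : ∀ y : K, !![1, 0; y, 1] ∈ S)
    {A : Matrix (Fin 2) (Fin 2) K} (hA : A.det = 1) : A ∈ S := by
  have key : ∀ B : Matrix (Fin 2) (Fin 2) K, B.det = 1 → B 1 0 ≠ 0 → B ∈ S := by
    intro B hB hc
    have h1 : B = !![1, (B 0 0 - 1) / B 1 0; 0, 1] * !![1, 0; B 1 0, 1] *
        !![1, (B 1 1 - 1) / B 1 0; 0, 1] := by
      rw [Matrix.det_fin_two] at hB
      ext i j
      fin_cases i <;> fin_cases j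
      · simp [Matrix.mul_apply, Fin.sum_univ_two]
        field_simp
        ring
      · simp [Matrix.mul_apply, Fin.sum_univ_two]
        field_simp
        linear_combination -hB
      · simp [Matrix.mul_apply, Fin.sum_univ_two]
      · simp [Matrix.mul_apply, Fin.sum_univ_two]
        field_simp
        ring
    rw [h1]
    exact S.mul_mem (S.mul_mem (hU _) (hL _)) (hU _)
  by_cases hc : A 1 0 = 0
  · have h2 : A = !![1, 0; -1, 1] * (!![1, 0; 1, 1] * A) := by
      rw [← mul_assoc]
      ext i j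
      fin_cases i <;> fin_cases j <;> simp [Matrix.mul_apply, Fin.sum_univ_two]
    have h0 : A 0 0 ≠ 0 := by
      intro h0
      rw [Matrix.det_fin_two, h0, hc] at hA
      simp at hA
    rw [h2]
    refine S.mul_mem (hL _) (key _ ?_ ?_)
    · rw [Matrix.det_mul, hA, Matrix.det_fin_two]
      simp
    · simpa [Matrix.mul_apply, Fin.sum_univ_two, hc] using h0
  · exact key A hA hc

end Alg

section Rep

variable {Γ : Type*} [Group Γ] {p : ℕ} [hp : Fact p.Prime] {V : Type*} [AddCommGroup V]
  [Module (ZMod p) V]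

/-- the image of a vector under a nilpotent endomorphism of a plane, in a basis whose first vector is killed -/
theorem nilp_aux {V : Type*} [AddCommGroup V] {K : Type*} [Field K] [Module K V]
    (b : Basis (Fin 2) K V) (n : End K V) (hn : n * n = 0) (h0 : n (b 0) = 0) :
    ∃ a : K, n (b 1) = a • b 0 := by
  have h1 : n (b 1) = b.repr (n (b 1)) 0 • b 0 + b.repr (n (b 1)) 1 • b 1 := by
    conv_lhs => rw [← b.sum_repr (n (b 1))]
    rw [Fin.sum_univ_two]
  have h2 : n (n (b 1)) = 0 := by
    rw [← Module.End.mul_apply, hn, LinearMap.zero_apply]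
  have h3 : b.repr (n (b 1)) 1 • n (b 1) = 0 := by
    rw [h1, map_add, map_smul, map_smul, h0, smul_zero, zero_add] at h2
    exact h2
  rcases smul_eq_zero.mp h3 with h4 | h4
  · exact ⟨b.repr (n (b 1)) 0, by rw [h4, zero_smul, add_zero] at h1; exact h1⟩
  · exact ⟨0, by rw [h4, zero_smul]⟩

/-- **Irreducible representations with a transvection.** -/
theorem exists_eq (h2 : finrank (ZMod p) V = 2) (ρ : Γ →* End (ZMod p) V)
    (hirr : ∀ N : Submodule (ZMod p) V, (∀ g, ∀ x ∈ N, ρ g x ∈ N) → N = ⊥ ∨ N = ⊤)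
    {σ : Γ} (hσ1 : ρ σ ≠ 1) (hσ2 : (ρ σ - 1) * (ρ σ - 1) = 0)
    (hdet : ∀ d : ZMod p, d ≠ 0 → ∃ g, LinearMap.det (ρ g) = d)
    (f : V ≃ₗ[ZMod p] V) : ∃ g, ∀ x, ρ g x = f x := by
  classical
  have : FiniteDimensional (ZMod p) V := FiniteDimensional.of_finrank_pos (by rw [h2]; norm_num)
  set n : End (ZMod p) V := ρ σ - 1 with hn
  have hn0 : n ≠ 0 := sub_ne_zero.mpr hσ1
  obtain ⟨v, hv⟩ : ∃ v, n v ≠ 0 := by
    by_contra! h
    exact hn0 (LinearMap.ext h)
  set w := n v with hw
  have hnw : n w = 0 := by rw [hw, ← Module.End.mul_apply, hσ2, LinearMap.zero_apply]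
  -- a conjugate with another axis
  obtain ⟨g, hg⟩ : ∃ g, ρ g w ∉ Submodule.span (ZMod p) {w} := by
    by_contra! h
    rcases hirr (Submodule.span (ZMod p) {w}) (fun g x hx => by
      obtain ⟨c, rfl⟩ := Submodule.mem_span_singleton.mp hx
      rw [map_smul]
      exact Submodule.smul_mem _ _ (h g)) with h3 | h3
    · exact hv (Submodule.span_singleton_eq_bot.mp h3)
    · have h4 := finrank_span_singleton (K := ZMod p) hv
      rw [h3, finrank_top, h2] at h4
      norm_num at h4
  set w' := ρ g w with hw'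
  have hli : LinearIndependent (ZMod p) ![w, w'] := by
    rw [LinearIndependent.pair_iff' hv]
    intro a ha
    exact hg (by rw [← ha]; exact Submodule.smul_mem _ _ (Submodule.mem_span_singleton_self _))
  set b : Basis (Fin 2) (ZMod p) V :=
    basisOfLinearIndependentOfCardEqFinrank hli (by rw [Fintype.card_fin, h2]) with hb
  have hb0 : b 0 = w := by simp [hb]
  have hb1 : b 1 = w' := by simp [hb]
  have hρinv : ∀ (h : Γ) x, ρ h⁻¹ (ρ h x) = x := fun h x => by
    rw [← Module.End.mul_apply, ← map_mul, inv_mul_cancel, map_one, Module.End.one_apply]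
  have hρinv' : ∀ (h : Γ) x, ρ h (ρ h⁻¹ x) = x := fun h x => by
    rw [← Module.End.mul_apply, ← map_mul, mul_inv_cancel, map_one, Module.End.one_apply]
  obtain ⟨α, hα⟩ := nilp_aux b n hσ2 (by rw [hb0, hnw])
  have hα0 : α ≠ 0 := by
    rintro rfl
    rw [zero_smul] at hα
    apply hn0
    refine b.ext fun i => ?_
    fin_cases i
    · change n (b 0) = 0
      rw [hb0, hnw]
    · exact hα
  -- the conjugate
  set n' : End (ZMod p) V := ρ (g * σ * g⁻¹) - 1 with hn'
  have hn'x : ∀ x, n' x = ρ g (n (ρ g⁻¹ x)) := fun x => by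
    rw [hn', hn, LinearMap.sub_apply, LinearMap.sub_apply, map_mul, map_mul, Module.End.mul_apply,
      Module.End.mul_apply, Module.End.one_apply, Module.End.one_apply, map_sub, hρinv']
  have hn'2 : n' * n' = 0 := by
    refine LinearMap.ext fun x => ?_
    rw [Module.End.mul_apply, hn'x, hn'x, hρinv, ← Module.End.mul_apply n n, hσ2, LinearMap.zero_apply,
      map_zero, LinearMap.zero_apply]
  have hn'w' : n' w' = 0 := by rw [hn'x, hw', hρinv, hnw, map_zero]
  let b' : Basis (Fin 2) (ZMod p) V := b.reindex (Equiv.swap 0 1)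
  have hb'0 : b' 0 = w' := by simp [b', hb1]
  have hb'1 : b' 1 = w := by simp [b', hb0]
  obtain ⟨β, hβ⟩ := nilp_aux b' n' hn'2 (by rw [hb'0, hn'w'])
  rw [hb'0, hb'1] at hβ
  rw [hb0, hb1] at hα
  have hβ0 : β ≠ 0 := by
    rintro rfl
    rw [zero_smul] at hβ
    apply hn0
    have h5 : n' = 0 := by
      refine b.ext fun i => ?_
      fin_cases i
      · change n' (b 0) = 0
        rw [hb0, hβ]
      · change n' (b 1) = 0
        rw [hb1, hn'w']
    refine LinearMap.ext fun x => ?_
    have h6 := congrArg (fun m : End (ZMod p) V => ρ g⁻¹ (m (ρ g x))) h5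
    simp only [LinearMap.zero_apply, map_zero] at h6
    rw [hn'x, hρinv, hρinv] at h6
    rw [h6, LinearMap.zero_apply]
  -- the matrices
  let R : Γ →* Matrix (Fin 2) (Fin 2) (ZMod p) :=
    ((LinearMap.toMatrixAlgEquiv b : End (ZMod p) V ≃ₐ[ZMod p] _) : End (ZMod p) V →* _).comp ρ
  have hR : ∀ h, R h = LinearMap.toMatrixAlgEquiv b (ρ h) := fun _ => rfl
  have hRσ : ∀ k : ℕ, R (σ ^ k) = !![1, k * α; 0, 1] := by
    have h7 : R σ = !![1, α; 0, 1] := by
      have e0 : ρ σ (b 0) = b 0 := by
        have := hnw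
        rw [hn, LinearMap.sub_apply, sub_eq_zero, Module.End.one_apply, ← hb0] at this
        exact this
      have e1 : ρ σ (b 1) = α • b 0 + b 1 := by
        have := hα
        rw [hn, LinearMap.sub_apply, sub_eq_iff_eq_add, Module.End.one_apply, ← hb0, ← hb1] at this
        exact this
      ext i j
      rw [hR, LinearMap.toMatrixAlgEquiv_apply]
      fin_cases j
      · change b.repr (ρ σ (b 0)) i = _
        rw [e0]
        fin_cases i <;> simp
      · change b.repr (ρ σ (b 1)) i = _
        rw [e1]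
        fin_cases i <;> simp
    intro k
    induction k with
    | zero => 
      rw [pow_zero, map_one]
      ext i j
      fin_cases i <;> fin_cases j <;> simp
    | succ k ih =>
      rw [pow_succ, map_mul, ih, h7]
      ext i j
      fin_cases i <;> fin_cases j <;> simp [Matrix.mul_apply, Fin.sum_univ_two]
      ring
  have hRσ' : ∀ k : ℕ, R ((g * σ * g⁻¹) ^ k) = !![1, 0; k * β, 1] := by
    have h7 : R (g * σ * g⁻¹) = !![1, 0; β, 1] := by
      have e0 : ρ (g * σ * g⁻¹) (b 1) = b 1 := by
        have := hn'w'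
        rw [hn', LinearMap.sub_apply, sub_eq_zero, Module.End.one_apply, ← hb1] at this
        exact this
      have e1 : ρ (g * σ * g⁻¹) (b 0) = β • b 1 + b 0 := by
        have := hβ
        rw [hn', LinearMap.sub_apply, sub_eq_iff_eq_add, Module.End.one_apply, ← hb0, ← hb1] at this
        exact this
      ext i j
      rw [hR, LinearMap.toMatrixAlgEquiv_apply]
      fin_cases j
      · change b.repr (ρ (g * σ * g⁻¹) (b 0)) i = _
        rw [e1]
        fin_cases i <;> simp
      · change b.repr (ρ (g * σ * g⁻¹) (b 1)) i = _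
        rw [e0]
        fin_cases i <;> simp
    intro k
    induction k with
    | zero => 
      rw [pow_zero, map_one]
      ext i j
      fin_cases i <;> fin_cases j <;> simp
    | succ k ih =>
      rw [pow_succ, map_mul, ih, h7]
      ext i j
      fin_cases i <;> fin_cases j <;> simp [Matrix.mul_apply, Fin.sum_univ_two]
      ring
  have hU : ∀ x : ZMod p, !![1, x; 0, 1] ∈ MonoidHom.mrange R := by
    intro x
    refine ⟨σ ^ (x / α).val, ?_⟩
    rw [hRσ, ZMod.natCast_zmod_val, div_mul_cancel₀ _ hα0]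
  have hL : ∀ y : ZMod p, !![1, 0; y, 1] ∈ MonoidHom.mrange R := by
    intro y
    refine ⟨(g * σ * g⁻¹) ^ (y / β).val, ?_⟩
    rw [hRσ', ZMod.natCast_zmod_val, div_mul_cancel₀ _ hβ0]
  -- the determinant
  have hf0 : LinearMap.det (f : End (ZMod p) V) ≠ 0 := (LinearEquiv.isUnit_det' f).ne_zero
  obtain ⟨g₀, hg₀⟩ := hdet _ hf0
  have hdd : LinearMap.det (ρ g₀) * LinearMap.det (ρ g₀⁻¹) = 1 := by
    rw [← map_mul, ← map_mul, mul_inv_cancel, map_one, map_one]
  have hM : (LinearMap.toMatrixAlgEquiv b ((f : End (ZMod p) V) * ρ g₀⁻¹)).det = 1 := by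
    change (LinearMap.toMatrix b b ((f : End (ZMod p) V) * ρ g₀⁻¹)).det = 1
    rw [LinearMap.det_toMatrix, map_mul, ← hg₀, hdd]
  obtain ⟨g₁, hg₁⟩ := mem_of_det_one (MonoidHom.mrange R) hU hL hM
  rw [hR] at hg₁
  have h8 := (LinearMap.toMatrixAlgEquiv b).injective hg₁
  refine ⟨g₁ * g₀, fun x => ?_⟩
  rw [map_mul, Module.End.mul_apply, h8, Module.End.mul_apply, hρinv]
  rfl

end Rep

end Fermat.Agent.Cor.Surj
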