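import Mathlib
import Fermat.Agent.Cor.SurjAlg

/-!
# Serre's lemma: lifting surjectivity from `GL₂(𝔽_p)` to `GL₂(ℤ_p)`, `p ≥ 5`

This file is not used by any of the statement files.
-/

set_option autoImplicit false

namespace Fermat.Agent.Cor.Surj

open Matrix Polynomial

theorem one_add_X_pow (A : Type*) [CommRing A] (k : ℕ) : ∃ Z : A[X], (1 + X) ^ k =
    1 + C (k : A) * X + C (k.choose 2 : A) * X ^ 2 + C (k.choose 3 : A) * X ^ 3 + X ^ 4 * Z := by
  induction k with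
  | zero => exact ⟨0, by simp⟩
  | succ k ih =>
    obtain ⟨Z, hZ⟩ := ih
    refine ⟨C (k.choose 3 : A) + Z * (1 + X), ?_⟩
    have h2 : (k + 1).choose 2 = k + k.choose 2 := by
      rw [Nat.choose_succ_succ' k 1, Nat.choose_one_right]
    have h3 : (k + 1).choose 3 = k.choose 2 + k.choose 3 := Nat.choose_succ_succ' k 2
    rw [pow_succ, hZ, h2, h3]
    push_cast
    simp only [map_add, map_one]
    ring

theorem one_add_pow' (A : Type*) {R : Type*} [CommRing A] [Ring R] [Algebra A R] (y : R) (k : ℕ) :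
    ∃ Z : R, (1 + y) ^ k = 1 + (k : A) • y + (k.choose 2 : A) • y ^ 2 +
      (k.choose 3 : A) • y ^ 3 + y ^ 4 * Z := by
  obtain ⟨Z, hZ⟩ := one_add_X_pow A k
  refine ⟨aeval y Z, ?_⟩
  have h := congrArg (aeval (R := A) y) hZ
  simpa only [map_pow, map_add, map_one, map_mul, aeval_X, aeval_C, ← Algebra.smul_def] using h

variable {p : ℕ} [hp : Fact p.Prime]

/-- congruence modulo `p ^ n` -/
def Cong (n : ℕ) (X Y : Matrix (Fin 2) (Fin 2) ℤ_[p]) : Prop :=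
  ∃ B : Matrix (Fin 2) (Fin 2) ℤ_[p], X = Y + (p : ℤ_[p]) ^ n • B

namespace Cong

variable {n : ℕ} {X Y Z X' Y' : Matrix (Fin 2) (Fin 2) ℤ_[p]}

theorem refl (n : ℕ) (X : Matrix (Fin 2) (Fin 2) ℤ_[p]) : Cong n X X := ⟨0, by simp⟩

theorem symm (h : Cong n X Y) : Cong n Y X := by
  obtain ⟨B, rfl⟩ := h
  exact ⟨-B, by simp⟩

theorem trans (h : Cong n X Y) (h' : Cong n Y Z) : Cong n X Z := by
  obtain ⟨B, rfl⟩ := h
  obtain ⟨B', rfl⟩ := h'
  exact ⟨B' + B, by rw [smul_add, add_assoc]⟩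

theorem mul (h : Cong n X X') (h' : Cong n Y Y') : Cong n (X * Y) (X' * Y') := by
  obtain ⟨B, rfl⟩ := h
  obtain ⟨B', rfl⟩ := h'
  refine ⟨X' * B' + B * Y' + (p : ℤ_[p]) ^ n • (B * B'), ?_⟩
  simp only [mul_add, add_mul, smul_mul_assoc, mul_smul_comm, smul_add]
  abel

theorem of_le {m : ℕ} (h : Cong n X Y) (hm : m ≤ n) : Cong m X Y := by
  obtain ⟨B, rfl⟩ := h
  obtain ⟨k, rfl⟩ := Nat.exists_eq_add_of_le hm
  exact ⟨(p : ℤ_[p]) ^ k • B, by rw [smul_smul, ← pow_add]⟩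

/-- cancellation of an invertible factor -/
theorem cancel (h : Cong n (X * Y) (X' * Y)) (hY : Y * Y' = 1) : Cong n X X' := by
  have h1 := h.mul (refl n Y')
  rwa [mul_assoc, mul_assoc, hY, mul_one, mul_one] at h1

/-- the first step: `(1 + u)^p ≡ 1 + pu mod p²` if `u² = 0` -/
theorem pow_p_zero (hp5 : 5 ≤ p) {u : Matrix (Fin 2) (Fin 2) ℤ_[p]} (hu : u * u = 0)
    (h : Cong 1 X (1 + u)) : Cong 2 (X ^ p) (1 + (p : ℤ_[p]) • u) := by
  obtain ⟨B, hB⟩ := h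
  rw [pow_one] at hB
  set v := u + (p : ℤ_[p]) • B with hv
  have hX : X = 1 + v := by rw [hB, hv, add_assoc]
  obtain ⟨Z, hZ⟩ := one_add_pow' ℤ_[p] v p
  set w := u * B + B * u + (p : ℤ_[p]) • (B * B) with hw
  have hv2 : v ^ 2 = (p : ℤ_[p]) • w := by
    rw [sq, hv, hw]
    simp only [mul_add, add_mul, smul_mul_assoc, mul_smul_comm, smul_add, hu]
    abel
  have hv3 : v ^ 3 = (p : ℤ_[p]) • (v * w) := by
    rw [pow_succ', hv2, mul_smul_comm]
  have hv4 : v ^ 4 = (p : ℤ_[p]) ^ 2 • (w * w) := by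
    have : v ^ 4 = v ^ 2 * v ^ 2 := by rw [← pow_add]
    rw [this, hv2, smul_mul_assoc, mul_smul_comm, smul_smul, sq]
  obtain ⟨c₂, hc₂⟩ := hp.out.dvd_choose_self (k := 2) two_ne_zero (by omega)
  obtain ⟨c₃, hc₃⟩ := hp.out.dvd_choose_self (k := 3) three_ne_zero (by omega)
  refine ⟨B + (c₂ : ℤ_[p]) • w + (c₃ : ℤ_[p]) • (v * w) + w * w * Z, ?_⟩
  rw [hX, hZ, hv2, hv3, hv4, hc₂, hc₃, hv]
  push_cast
  simp only [smul_mul_assoc]
  module

/-- the inductive step -/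
theorem pow_p_succ (hp5 : 5 ≤ p) {u : Matrix (Fin 2) (Fin 2) ℤ_[p]} {m : ℕ}
    (h : Cong (m + 2) X (1 + (p : ℤ_[p]) ^ (m + 1) • u)) :
    Cong (m + 3) (X ^ p) (1 + (p : ℤ_[p]) ^ (m + 2) • u) := by
  obtain ⟨B, hB⟩ := h
  set v := u + (p : ℤ_[p]) • B with hv
  set y := (p : ℤ_[p]) ^ (m + 1) • v with hy
  have hX : X = 1 + y := by
    rw [hB, hy, hv]
    module
  obtain ⟨Z, hZ⟩ := one_add_pow' ℤ_[p] y p
  obtain ⟨c₂, hc₂⟩ := hp.out.dvd_choose_self (k := 2) two_ne_zero (by omega)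
  refine ⟨B + ((p : ℤ_[p]) ^ m * (c₂ : ℤ_[p])) • v ^ 2 +
    ((p : ℤ_[p]) ^ (2 * m) * (p.choose 3 : ℤ_[p])) • v ^ 3 +
    ((p : ℤ_[p]) ^ (3 * m + 1)) • (v ^ 4 * Z), ?_⟩
  rw [hX, hZ, hc₂, hy, _root_.smul_pow, _root_.smul_pow, _root_.smul_pow]
  push_cast
  simp only [smul_mul_assoc]
  rw [hv]
  module

end Cong

theorem cong_zero (X Y : Matrix (Fin 2) (Fin 2) ℤ_[p]) : Cong 0 X Y := ⟨X - Y, by simp⟩

/-- congruence modulo `p` in terms of the residue field -/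
theorem cong_one_iff {X Y : Matrix (Fin 2) (Fin 2) ℤ_[p]} :
    Cong 1 X Y ↔ X.map (PadicInt.toZMod (p := p)) = Y.map (PadicInt.toZMod (p := p)) := by
  constructor
  · rintro ⟨B, rfl⟩
    ext i j
    simp [Matrix.map_apply]
  · intro h
    have h1 : ∀ i j, ∃ b : ℤ_[p], X i j = Y i j + p * b := by
      intro i j
      have h2 := congrFun (congrFun h i) j
      rw [Matrix.map_apply, Matrix.map_apply, ← sub_eq_zero, ← map_sub, ← RingHom.mem_ker,
        PadicInt.ker_toZMod, PadicInt.maximalIdeal_eq_span_p, Ideal.mem_span_singleton] at h2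
      obtain ⟨b, hb⟩ := h2
      exact ⟨b, by rw [← hb]; ring⟩
    choose b hb using h1
    refine ⟨Matrix.of b, ?_⟩
    ext i j
    simp [hb]

section Main

variable {Γ : Type*} [Group Γ] (M : Γ →* Matrix (Fin 2) (Fin 2) ℤ_[p])

theorem det_mul_det_inv (g : Γ) : (M g).det * (M g⁻¹).det = 1 := by
  rw [← det_mul, ← map_mul, mul_inv_cancel, map_one, det_one]

/-- `1 + p ^ n u` is realised modulo `p ^ (n+1)` by an element of determinant one. -/
def Lev (n : ℕ) (u : Matrix (Fin 2) (Fin 2) ℤ_[p]) : Prop :=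
  ∃ τ : Γ, (M τ).det = 1 ∧ Cong (n + 1) (M τ) (1 + (p : ℤ_[p]) ^ n • u)

variable {M}

theorem lev_zero (hM : ∀ A : Matrix (Fin 2) (Fin 2) ℤ_[p], IsUnit A.det → ∃ σ, Cong 1 (M σ) A)
    {u D D' : Matrix (Fin 2) (Fin 2) ℤ_[p]} (hu : u * u = 0) (h1 : (1 + u).det = 1)
    (hDD : D * D' = 1) (hD : IsUnit D.det) (hDu : D * u = (2 : ℤ_[p]) • (u * D)) : Lev M 0 u := by
  obtain ⟨δ, hδ⟩ := hM D hD
  obtain ⟨η, hη⟩ := hM (1 + u) (by rw [h1]; exact isUnit_one)
  refine ⟨δ * η * δ⁻¹ * η⁻¹, ?_, ?_⟩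
  · rw [map_mul, map_mul, map_mul, det_mul, det_mul, det_mul]
    have e1 := det_mul_det_inv M δ
    have e2 := det_mul_det_inv M η
    calc (M δ).det * (M η).det * (M δ⁻¹).det * (M η⁻¹).det
        = ((M δ).det * (M δ⁻¹).det) * ((M η).det * (M η⁻¹).det) := by ring
      _ = 1 := by rw [e1, e2, one_mul]
  · rw [zero_add, pow_zero, one_smul]
    have hY : ((1 + u) * D) * (D' * (1 - u)) = 1 := by
      rw [mul_assoc, ← mul_assoc D, hDD, one_mul, mul_sub, mul_one, add_mul, one_mul, hu, add_zero,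
        add_sub_cancel_right]
    refine Cong.cancel (Y := (1 + u) * D) ?_ hY
    have e3 : M (δ * η * δ⁻¹ * η⁻¹) * (M η * M δ) = M δ * M η := by
      rw [← map_mul, ← map_mul, ← map_mul]
      congr 1
      group
    have e4 : D * (1 + u) = (1 + u) * ((1 + u) * D) := by
      rw [← mul_assoc, mul_add, mul_one, hDu]
      simp only [add_mul, mul_add, one_mul, mul_one, hu, two_smul]
      simp only [zero_mul]
      abel
    have e5 := (Cong.refl 1 (M (δ * η * δ⁻¹ * η⁻¹))).mul (hη.mul hδ)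
    rw [e3] at e5
    have e6 := hδ.mul hη
    rw [e4] at e6
    exact e5.symm.trans e6

theorem lev_one (hp5 : 5 ≤ p) {u : Matrix (Fin 2) (Fin 2) ℤ_[p]} (hu : u * u = 0)
    (h : Lev M 0 u) : Lev M 1 u := by
  obtain ⟨τ, h1, h2⟩ := h
  rw [zero_add, pow_zero, one_smul] at h2
  refine ⟨τ ^ p, by rw [map_pow, det_pow, h1, one_pow], ?_⟩
  rw [map_pow, pow_one]
  exact Cong.pow_p_zero hp5 hu h2

theorem lev_succ (hp5 : 5 ≤ p) {u : Matrix (Fin 2) (Fin 2) ℤ_[p]} {m : ℕ}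
    (h : Lev M (m + 1) u) : Lev M (m + 2) u := by
  obtain ⟨τ, h1, h2⟩ := h
  refine ⟨τ ^ p, by rw [map_pow, det_pow, h1, one_pow], ?_⟩
  rw [map_pow]
  exact Cong.pow_p_succ hp5 h2

theorem lev_nilp (hp5 : 5 ≤ p) {u : Matrix (Fin 2) (Fin 2) ℤ_[p]} (hu : u * u = 0)
    (h : Lev M 0 u) (m : ℕ) : Lev M (m + 1) u := by
  induction m with
  | zero => exact lev_one hp5 hu h
  | succ m ih => exact lev_succ hp5 ih

theorem lev_add {u u' : Matrix (Fin 2) (Fin 2) ℤ_[p]} {m : ℕ}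
    (h : Lev M (m + 1) u) (h' : Lev M (m + 1) u') : Lev M (m + 1) (u + u') := by
  obtain ⟨τ, h1, h2⟩ := h
  obtain ⟨τ', h1', h2'⟩ := h'
  refine ⟨τ * τ', by rw [map_mul, det_mul, h1, h1', one_mul], ?_⟩
  rw [map_mul]
  refine (h2.mul h2').trans ⟨(p : ℤ_[p]) ^ m • (u * u'), ?_⟩
  simp only [mul_add, add_mul, one_mul, mul_one, smul_mul_assoc, mul_smul_comm]
  module

theorem lev_congr {u C : Matrix (Fin 2) (Fin 2) ℤ_[p]} {m : ℕ}
    (h : Lev M m u) : Lev M m (u + (p : ℤ_[p]) • C) := by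
  obtain ⟨τ, h1, h2⟩ := h
  refine ⟨τ, h1, h2.trans ⟨-C, ?_⟩⟩
  module

theorem isUnit_two (hp2 : p ≠ 2) : IsUnit (2 : ℤ_[p]) := by
  rw [PadicInt.isUnit_iff]
  have h : ‖((2 : ℕ) : ℤ_[p])‖ = 1 := by
    rw [PadicInt.norm_natCast_eq_one_iff]
    exact (Nat.coprime_primes hp.out Nat.prime_two).mpr hp2
  exact_mod_cast h

theorem nilp_e (x : ℤ_[p]) : (!![0, x; 0, 0] : Matrix (Fin 2) (Fin 2) ℤ_[p]) * !![0, x; 0, 0] = 0 := by
  ext i j; fin_cases i <;> fin_cases j <;> simp [Matrix.mul_apply, Fin.sum_univ_two]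

theorem nilp_f (x : ℤ_[p]) : (!![0, 0; x, 0] : Matrix (Fin 2) (Fin 2) ℤ_[p]) * !![0, 0; x, 0] = 0 := by
  ext i j; fin_cases i <;> fin_cases j <;> simp [Matrix.mul_apply, Fin.sum_univ_two]

theorem nilp_n (x : ℤ_[p]) : (!![x, -x; x, -x] : Matrix (Fin 2) (Fin 2) ℤ_[p]) * !![x, -x; x, -x] = 0 := by
  ext i j; fin_cases i <;> fin_cases j <;> simp [Matrix.mul_apply, Fin.sum_univ_two]

variable (hM : ∀ A : Matrix (Fin 2) (Fin 2) ℤ_[p], IsUnit A.det → ∃ σ, Cong 1 (M σ) A)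

include hM

theorem lev_e (hp2 : p ≠ 2) (x : ℤ_[p]) : Lev M 0 !![0, x; 0, 0] := by
  obtain ⟨c, hc⟩ := (isUnit_two hp2).exists_right_inv
  refine lev_zero hM (D := !![2, 0; 0, 1]) (D' := !![c, 0; 0, 1]) ?_ ?_ ?_ ?_ ?_
  · ext i j; fin_cases i <;> fin_cases j <;> simp [Matrix.mul_apply, Fin.sum_univ_two]
  · simp [det_fin_two]
  · ext i j; fin_cases i <;> fin_cases j <;> simp [Matrix.mul_apply, Fin.sum_univ_two, hc]
  · simpa [det_fin_two] using isUnit_two hp2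
  · ext i j; fin_cases i <;> fin_cases j <;> simp [Matrix.mul_apply, Fin.sum_univ_two]

theorem lev_f (hp2 : p ≠ 2) (x : ℤ_[p]) : Lev M 0 !![0, 0; x, 0] := by
  obtain ⟨c, hc⟩ := (isUnit_two hp2).exists_right_inv
  refine lev_zero hM (D := !![1, 0; 0, 2]) (D' := !![1, 0; 0, c]) ?_ ?_ ?_ ?_ ?_
  · ext i j; fin_cases i <;> fin_cases j <;> simp [Matrix.mul_apply, Fin.sum_univ_two]
  · simp [det_fin_two]
  · ext i j; fin_cases i <;> fin_cases j <;> simp [Matrix.mul_apply, Fin.sum_univ_two, hc]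
  · simpa [det_fin_two] using isUnit_two hp2
  · ext i j; fin_cases i <;> fin_cases j <;> simp [Matrix.mul_apply, Fin.sum_univ_two]

theorem lev_n (hp2 : p ≠ 2) (x : ℤ_[p]) : Lev M 0 !![x, -x; x, -x] := by
  obtain ⟨c, hc⟩ := (isUnit_two hp2).exists_right_inv
  refine lev_zero hM (D := !![2, 0; 1, 1]) (D' := !![c, 0; -c, 1]) ?_ ?_ ?_ ?_ ?_
  · ext i j; fin_cases i <;> fin_cases j <;> simp [Matrix.mul_apply, Fin.sum_univ_two]
  · simp [det_fin_two]
    ring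
  · ext i j; fin_cases i <;> fin_cases j <;> simp [Matrix.mul_apply, Fin.sum_univ_two, hc]
  · simpa [det_fin_two] using isUnit_two hp2
  · ext i j
    fin_cases i <;> fin_cases j <;> simp [Matrix.mul_apply, Fin.sum_univ_two] <;> ring

theorem lev_of_trace (hp5 : 5 ≤ p) (B : Matrix (Fin 2) (Fin 2) ℤ_[p]) (t : ℤ_[p])
    (ht : B 0 0 + B 1 1 = p * t) (m : ℕ) : Lev M (m + 1) B := by
  have hp2 : p ≠ 2 := by omega
  have h := lev_congr (C := !![0, 0; 0, t]) (lev_add (lev_add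
    (lev_nilp hp5 (nilp_n (B 0 0)) (lev_n hM hp2 (B 0 0)) m)
    (lev_nilp hp5 (nilp_e (B 0 1 + B 0 0)) (lev_e hM hp2 (B 0 1 + B 0 0)) m))
    (lev_nilp hp5 (nilp_f (B 1 0 - B 0 0)) (lev_f hM hp2 (B 1 0 - B 0 0)) m))
  convert h using 1
  ext i j
  fin_cases i <;> fin_cases j <;> simp
  linear_combination ht

/-- all of `SL₂(ℤ_p)` is approximated -/
theorem exists_sl (hp5 : 5 ≤ p) (n : ℕ) (A : Matrix (Fin 2) (Fin 2) ℤ_[p]) (hA : A.det = 1) :
    ∃ τ : Γ, (M τ).det = 1 ∧ Cong n (M τ) A := by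
  have hp2 : p ≠ 2 := by omega
  induction n with
  | zero => exact ⟨1, by rw [map_one, det_one], cong_zero _ _⟩
  | succ n ih =>
    rcases Nat.eq_zero_or_pos n with rfl | hn
    · -- modulo `p`
      let S : Submonoid (Matrix (Fin 2) (Fin 2) (ZMod p)) :=
        { carrier := {X | ∃ τ : Γ, (M τ).det = 1 ∧ (M τ).map (PadicInt.toZMod (p := p)) = X}
          one_mem' := ⟨1, by rw [map_one, det_one], by
            rw [map_one]
            exact (PadicInt.toZMod (p := p)).mapMatrix.map_one⟩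
          mul_mem' := by
            rintro _ _ ⟨τ, h1, rfl⟩ ⟨τ', h1', rfl⟩
            refine ⟨τ * τ', by rw [map_mul, det_mul, h1, h1', one_mul], ?_⟩
            rw [map_mul]
            exact (PadicInt.toZMod (p := p)).mapMatrix.map_mul _ _ }
      have hmem : A.map (PadicInt.toZMod (p := p)) ∈ S := by
        apply mem_of_det_one S
        · intro x
          obtain ⟨τ, h1, h2⟩ := lev_e hM hp2 ((x.val : ℕ) : ℤ_[p])
          rw [zero_add, cong_one_iff] at h2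
          refine ⟨τ, h1, h2.trans ?_⟩
          ext i j
          fin_cases i <;> fin_cases j <;> simp
        · intro x
          obtain ⟨τ, h1, h2⟩ := lev_f hM hp2 ((x.val : ℕ) : ℤ_[p])
          rw [zero_add, cong_one_iff] at h2
          refine ⟨τ, h1, h2.trans ?_⟩
          ext i j
          fin_cases i <;> fin_cases j <;> simp
        · have h3 := (PadicInt.toZMod (p := p)).map_det A
          rw [hA, map_one] at h3
          exact h3.symm
      obtain ⟨τ, h1, h2⟩ := hmem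
      exact ⟨τ, h1, by rw [zero_add, cong_one_iff]; exact h2⟩
    · obtain ⟨m, rfl⟩ : ∃ m, n = m + 1 := ⟨n - 1, by omega⟩
      obtain ⟨τ, h1, B₀, hB₀⟩ := ih
      set B := -(M τ⁻¹ * B₀) with hB
      have hinv : M τ⁻¹ * M τ = 1 := by rw [← map_mul, inv_mul_cancel, map_one]
      have hinv' : M τ * M τ⁻¹ = 1 := by rw [← map_mul, mul_inv_cancel, map_one]
      have hA' : M τ⁻¹ * A = 1 + (p : ℤ_[p]) ^ (m + 1) • B := by
        have : A = M τ - (p : ℤ_[p]) ^ (m + 1) • B₀ := by rw [hB₀, add_sub_cancel_right]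
        rw [this, mul_sub, hinv, mul_smul_comm, hB, smul_neg, sub_eq_add_neg]
      have hdet : (1 + (p : ℤ_[p]) ^ (m + 1) • B).det = 1 := by
        rw [← hA', det_mul, hA, mul_one]
        have := det_mul_det_inv M τ
        rwa [h1, one_mul] at this
      have hp0 : (p : ℤ_[p]) ≠ 0 := by exact_mod_cast hp.out.ne_zero
      have htr : B 0 0 + B 1 1 = p * (-(p : ℤ_[p]) ^ m * B.det) := by
        rw [det_fin_two] at hdet
        simp only [Matrix.add_apply, Matrix.smul_apply, Matrix.one_apply_eq, smul_eq_mul,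
          Matrix.one_apply_ne (show (0 : Fin 2) ≠ 1 by decide),
          Matrix.one_apply_ne (show (1 : Fin 2) ≠ 0 by decide), zero_add] at hdet
        apply mul_left_cancel₀ (pow_ne_zero (m + 1) hp0)
        rw [det_fin_two]
        linear_combination hdet
      obtain ⟨τ', h1', h2'⟩ := lev_of_trace hM hp5 B _ htr m
      refine ⟨τ * τ', by rw [map_mul, det_mul, h1, h1', one_mul], ?_⟩
      rw [map_mul]
      have h3 := (Cong.refl (m + 1 + 1) (M τ)).mul h2'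
      rw [← hA', ← mul_assoc, hinv', one_mul] at h3
      exact h3

/-- **Serre's lemma** for `GL₂`, `p ≥ 5`: if `M : Γ → GL₂(ℤ_p)` is surjective modulo `p` and its determinant is
surjective modulo all powers of `p`, then `M` is surjective modulo all powers of `p`. -/
theorem exists_gl (hp5 : 5 ≤ p)
    (hdet : ∀ d : ℤ_[p], IsUnit d → ∀ n : ℕ, ∃ σ : Γ, (p : ℤ_[p]) ^ n ∣ (M σ).det - d)
    (A : Matrix (Fin 2) (Fin 2) ℤ_[p]) (hA : IsUnit A.det) (n : ℕ) :
    ∃ σ : Γ, Cong n (M σ) A := by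
  obtain ⟨σ₁, c, hc⟩ := hdet A.det hA n
  set A' := M σ₁⁻¹ * A with hA'
  have e1 := det_mul_det_inv M σ₁
  have hd : IsUnit A'.det := by
    rw [hA', det_mul]
    exact (IsUnit.of_mul_eq_one (M σ₁).det (by rw [mul_comm]; exact e1)).mul hA
  obtain ⟨e, he⟩ := hd.exists_right_inv
  have hd1 : A'.det = 1 - (p : ℤ_[p]) ^ n * (c * (M σ₁⁻¹).det) := by
    rw [hA', det_mul]
    linear_combination -(M σ₁⁻¹).det * hc + e1
  obtain ⟨τ, h1, h2⟩ := exists_sl hM hp5 n (!![e, 0; 0, 1] * A') (by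
    rw [det_mul, det_fin_two_of]
    linear_combination he)
  have h3 : Cong n (!![e, 0; 0, 1] * A') A' := by
    refine ⟨!![e * (c * (M σ₁⁻¹).det), 0; 0, 0] * A', ?_⟩
    have h4 : (!![e, 0; 0, 1] : Matrix (Fin 2) (Fin 2) ℤ_[p]) =
        1 + (p : ℤ_[p]) ^ n • !![e * (c * (M σ₁⁻¹).det), 0; 0, 0] := by
      ext i j
      fin_cases i <;> fin_cases j <;> simp
      linear_combination he + e * (-hd1)
    rw [h4, add_mul, one_mul, smul_mul_assoc]
  refine ⟨σ₁ * τ, ?_⟩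
  rw [map_mul]
  have h5 := (Cong.refl n (M σ₁)).mul (h2.trans h3)
  have e2 : M σ₁ * A' = A := by
    rw [hA', ← mul_assoc, ← map_mul, mul_inv_cancel, map_one, one_mul]
  rwa [e2] at h5

end Main

end Fermat.Agent.Cor.Surj
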