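import Mathlib
import Fermat.Agent.Cor.SurjAdicAlg

/-!
# Families of representations `Γ → GL₂(ℤ_p)`, `p ∈ s`: surjectivity of the product

Let `M_p : Γ → GL₂(ℤ_p)`, `p ∈ s`, be homomorphisms, `s` a finite set of primes `≥ 5`. If every `M_p` is surjective
modulo `p` and the determinants `(det M_p)_{p ∈ s}` are simultaneously surjective modulo all powers of the `p`'s, then
`(M_p)_{p ∈ s}` is surjective modulo all powers of the `p`'s (`exists_gl_fin`).

The proof is elementary (no simplicity of `PSL₂(𝔽_p)`): a transvection at the largest prime `p` is killed at the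
other primes by raising it to a power which is prime to `p`.

This file is not used by any of the statement files.
-/

set_option autoImplicit false

namespace Fermat.Agent.Cor.Surj

open Matrix
open scoped commutatorElement

/-- `SL₂` of a local ring is generated by the elementary matrices. -/
theorem mem_of_det_one_local {R : Type*} [CommRing R] [IsLocalRing R]
    (S : Submonoid (Matrix (Fin 2) (Fin 2) R))
    (hU : ∀ x : R, !![1, x; 0, 1] ∈ S) (hL : ∀ y : R, !![1, 0; y, 1] ∈ S)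
    {A : Matrix (Fin 2) (Fin 2) R} (hA : A.det = 1) : A ∈ S := by
  have key : ∀ B : Matrix (Fin 2) (Fin 2) R, B.det = 1 → IsUnit (B 1 0) → B ∈ S := by
    intro B hB hc
    obtain ⟨c', hc'⟩ := hc.exists_right_inv
    have h1 : B = !![1, (B 0 0 - 1) * c'; 0, 1] * !![1, 0; B 1 0, 1] *
        !![1, (B 1 1 - 1) * c'; 0, 1] := by
      rw [Matrix.det_fin_two] at hB
      ext i j
      fin_cases i <;> fin_cases j
      · simp [Matrix.mul_apply, Fin.sum_univ_two]
        linear_combination (1 - B 0 0) * hc'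
      · simp [Matrix.mul_apply, Fin.sum_univ_two]
        linear_combination (-B 0 1 - (B 0 0 - 1) * (B 1 1 - 1) * c') * hc' - c' * hB
      · simp [Matrix.mul_apply, Fin.sum_univ_two]
      · simp [Matrix.mul_apply, Fin.sum_univ_two]
        linear_combination (1 - B 1 1) * hc'
    rw [h1]
    exact S.mul_mem (S.mul_mem (hU _) (hL _)) (hU _)
  by_cases hc : IsUnit (A 1 0)
  · exact key A hA hc
  · have h2 : A = !![1, 0; -1, 1] * (!![1, 0; 1, 1] * A) := by
      rw [← mul_assoc]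
      ext i j
      fin_cases i <;> fin_cases j <;> simp [Matrix.mul_apply, Fin.sum_univ_two]
    have hc2 : ∀ x : R, ¬ IsUnit (x * A 1 0) := fun x h => hc (isUnit_of_mul_isUnit_right h)
    have h0 : IsUnit (A 0 0) := by
      rw [Matrix.det_fin_two] at hA
      have h3 : A 0 0 * A 1 1 + -A 0 1 * A 1 0 = 1 := by linear_combination hA
      rcases IsLocalRing.isUnit_or_isUnit_of_add_one h3 with h | h
      · exact isUnit_of_mul_isUnit_left h
      · exact absurd h (hc2 _)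
    rw [h2]
    refine S.mul_mem (hL _) (key _ ?_ ?_)
    · rw [Matrix.det_mul, hA, Matrix.det_fin_two]
      simp
    · have h4 : (A 0 0 + A 1 0) + -1 * A 1 0 = A 0 0 := by ring
      rw [← h4] at h0
      rcases IsLocalRing.isUnit_or_isUnit_of_isUnit_add h0 with h | h
      · simpa [Matrix.mul_apply, Fin.sum_univ_two] using h
      · exact absurd h (hc2 _)

section One

variable {p : ℕ} [hp : Fact p.Prime]

theorem Cong.pow {n : ℕ} {X Y : Matrix (Fin 2) (Fin 2) ℤ_[p]} (h : Cong n X Y) (k : ℕ) :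
    Cong n (X ^ k) (Y ^ k) := by
  induction k with
  | zero => rw [pow_zero, pow_zero]; exact Cong.refl _ _
  | succ k ih => rw [pow_succ, pow_succ]; exact ih.mul h

/-- the exponent of `GL₂(𝔽_p)` (a multiple of it) -/
theorem pow_card (X : Matrix (Fin 2) (Fin 2) ℤ_[p]) (hX : IsUnit X.det) :
    Cong 1 (X ^ ((p ^ 2 - 1) * (p ^ 2 - p))) 1 := by
  rw [cong_one_iff]
  have h1 : IsUnit (X.map (PadicInt.toZMod (p := p))) := by
    rw [Matrix.isUnit_iff_isUnit_det]
    have h := (PadicInt.toZMod (p := p)).map_det X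
    have h' : (X.map (PadicInt.toZMod (p := p))).det = PadicInt.toZMod X.det := h.symm
    rw [h']
    exact hX.map _
  obtain ⟨g, hg⟩ := h1
  have h2 : g ^ Nat.card (GL (Fin 2) (ZMod p)) = 1 := pow_card_eq_one'
  rw [Matrix.card_GL_field, Fin.prod_univ_two, ZMod.card] at h2
  have h3 := congrArg Units.val h2
  simp only [Fin.val_zero, Fin.val_one, pow_zero, pow_one, Units.val_pow_eq_pow_val,
    Units.val_one] at h3
  rw [hg] at h3
  have h4 : (X ^ ((p ^ 2 - 1) * (p ^ 2 - p))).map (PadicInt.toZMod (p := p)) =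
      (X.map (PadicInt.toZMod (p := p))) ^ ((p ^ 2 - 1) * (p ^ 2 - p)) :=
    map_pow (PadicInt.toZMod (p := p)).mapMatrix X _
  have h5 : (1 : Matrix (Fin 2) (Fin 2) ℤ_[p]).map (PadicInt.toZMod (p := p)) = 1 :=
    map_one (PadicInt.toZMod (p := p)).mapMatrix
  rw [h4, h3, h5]

theorem pow_cong_one (hp5 : 5 ≤ p) (X : Matrix (Fin 2) (Fin 2) ℤ_[p]) (hX : IsUnit X.det)
    (n : ℕ) : Cong (n + 1) (X ^ ((p ^ 2 - 1) * (p ^ 2 - p) * p ^ n)) 1 := by
  induction n with
  | zero => rw [pow_zero, mul_one]; exact pow_card X hX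
  | succ n ih =>
    obtain ⟨B, hB⟩ := ih
    have h1 := Cong.pow_p_succ hp5 (m := n) (u := B)
      (X := X ^ ((p ^ 2 - 1) * (p ^ 2 - p) * p ^ n)) (by rw [hB]; exact Cong.refl _ _)
    rw [pow_succ p n, ← mul_assoc, pow_mul]
    exact (h1.of_le (Nat.le_succ _)).trans ⟨B, rfl⟩

theorem pow_cong_one_of_dvd (hp5 : 5 ≤ p) {X : Matrix (Fin 2) (Fin 2) ℤ_[p]} (hX : IsUnit X.det)
    {n N : ℕ} (hN : (p ^ 2 - 1) * (p ^ 2 - p) * p ^ n ∣ N) : Cong n (X ^ N) 1 := by
  obtain ⟨k, rfl⟩ := hN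
  rw [pow_mul]
  have h := ((pow_cong_one hp5 X hX n).of_le (Nat.le_succ n)).pow k
  rwa [one_pow] at h

theorem upper_pow {R : Type*} [CommRing R] (x : R) (k : ℕ) :
    (!![1, x; 0, 1] : Matrix (Fin 2) (Fin 2) R) ^ k = !![1, k * x; 0, 1] := by
  induction k with
  | zero => ext i j; fin_cases i <;> fin_cases j <;> simp
  | succ k ih =>
    rw [pow_succ, ih]
    ext i j
    fin_cases i <;> fin_cases j <;> simp [Matrix.mul_apply, Fin.sum_univ_two]
    ring

theorem lower_pow {R : Type*} [CommRing R] (x : R) (k : ℕ) :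
    (!![1, 0; x, 1] : Matrix (Fin 2) (Fin 2) R) ^ k = !![1, 0; k * x, 1] := by
  induction k with
  | zero => ext i j; fin_cases i <;> fin_cases j <;> simp
  | succ k ih =>
    rw [pow_succ, ih]
    ext i j
    fin_cases i <;> fin_cases j <;> simp [Matrix.mul_apply, Fin.sum_univ_two]
    ring

variable {Γ : Type*} [Group Γ]

/-- elementary matrices are approximated by commutators -/
def Elem (M : Γ →* Matrix (Fin 2) (Fin 2) ℤ_[p]) : Prop :=
  ∀ (x : ℤ_[p]) (n : ℕ), (∃ τ ∈ commutator Γ, Cong n (M τ) !![1, x; 0, 1]) ∧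
    (∃ τ ∈ commutator Γ, Cong n (M τ) !![1, 0; x, 1])

theorem exists_comm {M : Γ →* Matrix (Fin 2) (Fin 2) ℤ_[p]} {n : ℕ}
    (hM : ∀ A : Matrix (Fin 2) (Fin 2) ℤ_[p], IsUnit A.det → ∃ σ, Cong n (M σ) A)
    {U U' D D' : Matrix (Fin 2) (Fin 2) ℤ_[p]} (hU : U * U' = 1) (hD : D * D' = 1)
    (hDU : D * U = U * (U * D)) : ∃ τ ∈ commutator Γ, Cong n (M τ) U := by
  have hd : ∀ X X' : Matrix (Fin 2) (Fin 2) ℤ_[p], X * X' = 1 → IsUnit X.det := fun X X' h =>
    IsUnit.of_mul_eq_one X'.det (by rw [← det_mul, h, det_one])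
  obtain ⟨δ, hδ⟩ := hM D (hd _ _ hD)
  obtain ⟨η, hη⟩ := hM U (hd _ _ hU)
  refine ⟨⁅δ, η⁆, Subgroup.commutator_mem_commutator (Subgroup.mem_top _) (Subgroup.mem_top _), ?_⟩
  have hY : (U * D) * (D' * U') = 1 := by
    rw [mul_assoc, ← mul_assoc D, hD, one_mul, hU]
  refine Cong.cancel (Y := U * D) ?_ hY
  have e3 : M ⁅δ, η⁆ * (M η * M δ) = M δ * M η := by
    rw [← map_mul, ← map_mul, ← map_mul, commutatorElement_def]
    congr 1
    group
  have e5 := (Cong.refl n (M ⁅δ, η⁆)).mul (hη.mul hδ)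
  rw [e3] at e5
  have e6 := hδ.mul hη
  rw [hDU] at e6
  exact e5.symm.trans e6

theorem elem_of_gl {M : Γ →* Matrix (Fin 2) (Fin 2) ℤ_[p]} (hp2 : p ≠ 2)
    (hM : ∀ (A : Matrix (Fin 2) (Fin 2) ℤ_[p]), IsUnit A.det → ∀ n, ∃ σ, Cong n (M σ) A) :
    Elem M := by
  obtain ⟨c, hc⟩ := (isUnit_two hp2).exists_right_inv
  intro x n
  constructor
  · refine exists_comm (fun A hA => hM A hA n) (U' := !![1, -x; 0, 1]) (D := !![2, 0; 0, 1])
      (D' := !![c, 0; 0, 1]) ?_ ?_ ?_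
    · ext i j; fin_cases i <;> fin_cases j <;> simp [Matrix.mul_apply, Fin.sum_univ_two]
    · ext i j; fin_cases i <;> fin_cases j <;> simp [Matrix.mul_apply, Fin.sum_univ_two, hc]
    · ext i j; fin_cases i <;> fin_cases j <;> simp [Matrix.mul_apply, Fin.sum_univ_two, two_mul]
  · refine exists_comm (fun A hA => hM A hA n) (U' := !![1, 0; -x, 1]) (D := !![1, 0; 0, 2])
      (D' := !![1, 0; 0, c]) ?_ ?_ ?_
    · ext i j; fin_cases i <;> fin_cases j <;> simp [Matrix.mul_apply, Fin.sum_univ_two]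
    · ext i j; fin_cases i <;> fin_cases j <;> simp [Matrix.mul_apply, Fin.sum_univ_two, hc]
    · ext i j; fin_cases i <;> fin_cases j <;> simp [Matrix.mul_apply, Fin.sum_univ_two, two_mul]

end One

section Family

variable {Γ : Type*} [Group Γ] (M : ∀ (p : ℕ) [Fact p.Prime], Γ →* Matrix (Fin 2) (Fin 2) ℤ_[p])

theorem coprime_exp {p q : ℕ} (hp : p.Prime) (hq : q.Prime) (hq5 : 5 ≤ q) (hqp : q < p) (n : ℕ) :
    p.Coprime ((q ^ 2 - 1) * (q ^ 2 - q) * q ^ n) := by
  have h1 : q ^ 2 - 1 = (q + 1) * (q - 1) := by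
    have := Nat.sq_sub_sq q 1
    rwa [one_pow] at this
  have h2 : q ^ 2 - q = q * (q - 1) := by rw [Nat.mul_sub, mul_one, sq]
  have h3 : p.Coprime (q - 1) := by
    rw [Nat.Prime.coprime_iff_not_dvd hp]
    intro h
    have := Nat.le_of_dvd (by omega) h
    omega
  have h4 : p.Coprime (q + 1) := by
    rw [Nat.Prime.coprime_iff_not_dvd hp]
    intro h
    have := Nat.le_of_dvd (by omega) h
    have h5 : p = q + 1 := by omega
    rcases hq.eq_two_or_odd with h | h
    · omega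
    · rcases hp.eq_two_or_odd with h' | h'
      · omega
      · omega
  have h5 : p.Coprime q := (Nat.coprime_primes hp hq).mpr (by omega)
  rw [h1, h2]
  exact ((h4.mul_right h3).mul_right (h5.mul_right h3)).mul_right (h5.pow_right n)

variable {M} in
theorem det_comm {p : ℕ} [Fact p.Prime] {g : Γ} (hg : g ∈ commutator Γ) : (M p g).det = 1 := by
  have h := Abelianization.commutator_subset_ker
    (MonoidHom.toHomUnits ((Matrix.detMonoidHom (n := Fin 2) (R := ℤ_[p])).comp (M p))) hg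
  exact congrArg Units.val ((MonoidHom.mem_ker).mp h)

/-- the first step: the largest prime -/
theorem exists_elem_fin {p : ℕ} [hp : Fact p.Prime] (hE : Elem (M p)) {s : Finset ℕ}
    (hs : ∀ q ∈ s, q.Prime ∧ 5 ≤ q ∧ q < p) (n : ℕ) {A : Matrix (Fin 2) (Fin 2) ℤ_[p]}
    (hA : A.det = 1) : ∃ τ ∈ commutator Γ, Cong n (M p τ) A ∧
      ∀ (q : ℕ) [Fact q.Prime], q ∈ s → Cong n (M q τ) 1 := by
  set N : ℕ := ∏ q ∈ s, (q ^ 2 - 1) * (q ^ 2 - q) * q ^ n with hN
  have hpN : IsUnit (N : ℤ_[p]) := by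
    rw [PadicInt.isUnit_iff, PadicInt.norm_natCast_eq_one_iff]
    exact Nat.Coprime.prod_right fun q hq => coprime_exp hp.out (hs q hq).1 (hs q hq).2.1
      (hs q hq).2.2 n
  obtain ⟨c, hc⟩ := hpN.exists_right_inv
  have hkill : ∀ (τ : Γ) (q : ℕ) [Fact q.Prime], q ∈ s → Cong n (M q (τ ^ N)) 1 := by
    intro τ q _ hq
    rw [map_pow]
    exact pow_cong_one_of_dvd (hs q hq).2.1 (IsUnit.of_mul_eq_one _ (det_mul_det_inv (M q) τ))
      (Finset.dvd_prod_of_mem (fun q => (q ^ 2 - 1) * (q ^ 2 - q) * q ^ n) hq)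
  let S : Submonoid (Matrix (Fin 2) (Fin 2) ℤ_[p]) :=
    { carrier := {A | ∃ τ ∈ commutator Γ, Cong n (M p τ) A ∧
        ∀ (q : ℕ) [Fact q.Prime], q ∈ s → Cong n (M q τ) 1}
      one_mem' := ⟨1, one_mem _, by rw [map_one]; exact Cong.refl _ _, fun q _ _ => by
        rw [map_one]; exact Cong.refl _ _⟩
      mul_mem' := by
        rintro A B ⟨τ, h1, h2, h3⟩ ⟨τ', h1', h2', h3'⟩
        refine ⟨τ * τ', mul_mem h1 h1', ?_, fun q _ hq => ?_⟩
        · rw [map_mul]
          exact h2.mul h2'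
        · rw [map_mul]
          have h4 := (h3 q hq).mul (h3' q hq)
          rwa [mul_one] at h4 }
  have hmem : A ∈ S := by
    refine mem_of_det_one_local S ?_ ?_ hA
    · intro x
      obtain ⟨τ, h1, h2⟩ := (hE (c * x) n).1
      refine ⟨τ ^ N, pow_mem h1 N, ?_, hkill τ⟩
      rw [map_pow]
      have h3 := h2.pow N
      rwa [upper_pow, ← mul_assoc, hc, one_mul] at h3
    · intro x
      obtain ⟨τ, h1, h2⟩ := (hE (c * x) n).2
      refine ⟨τ ^ N, pow_mem h1 N, ?_, hkill τ⟩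
      rw [map_pow]
      have h3 := h2.pow N
      rwa [lower_pow, ← mul_assoc, hc, one_mul] at h3
  exact hmem

theorem exists_sl_fin (s : Finset ℕ) (hs : ∀ q ∈ s, q.Prime ∧ 5 ≤ q)
    (hE : ∀ (q : ℕ) [Fact q.Prime], q ∈ s → Elem (M q)) (n : ℕ)
    (A : ∀ (q : ℕ) [Fact q.Prime], Matrix (Fin 2) (Fin 2) ℤ_[q])
    (hA : ∀ (q : ℕ) [Fact q.Prime], q ∈ s → (A q).det = 1) :
    ∃ τ ∈ commutator Γ, ∀ (q : ℕ) [Fact q.Prime], q ∈ s → Cong n (M q τ) (A q) := by
  induction s using Finset.induction_on_max with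
  | empty => exact ⟨1, one_mem _, fun q _ hq => absurd hq (Finset.notMem_empty q)⟩
  | insert p s hps ih =>
    have hp : Fact p.Prime := ⟨(hs p (Finset.mem_insert_self p s)).1⟩
    obtain ⟨τ, h1, h2⟩ := ih (fun q hq => hs q (Finset.mem_insert_of_mem hq))
      (fun q _ hq => hE q (Finset.mem_insert_of_mem hq))
      (fun q _ hq => hA q (Finset.mem_insert_of_mem hq))
    obtain ⟨τ', h1', h2', h3'⟩ := exists_elem_fin M (hE p (Finset.mem_insert_self p s)) (s := s)
      (fun q hq => ⟨(hs q (Finset.mem_insert_of_mem hq)).1, (hs q (Finset.mem_insert_of_mem hq)).2,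
        hps q hq⟩) n (A := M p τ⁻¹ * A p) (by
        rw [det_mul, det_comm (inv_mem h1), one_mul, hA p (Finset.mem_insert_self p s)])
    refine ⟨τ * τ', mul_mem h1 h1', fun q _ hq => ?_⟩
    rw [map_mul]
    rcases Finset.mem_insert.mp hq with rfl | hq
    · have h4 := (Cong.refl n (M q τ)).mul h2'
      have e2 : M q τ * (M q τ⁻¹ * A q) = A q := by
        rw [← mul_assoc, ← map_mul, mul_inv_cancel, map_one, one_mul]
      rwa [e2] at h4
    · have h4 := (h2 q hq).mul (h3' q hq)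
      rwa [mul_one] at h4

theorem exists_det_one {p : ℕ} [Fact p.Prime] {n : ℕ} {A : Matrix (Fin 2) (Fin 2) ℤ_[p]}
    (hA : IsUnit A.det) {c : ℤ_[p]} (hc : A.det = 1 + (p : ℤ_[p]) ^ n * c) :
    ∃ B : Matrix (Fin 2) (Fin 2) ℤ_[p], B.det = 1 ∧ Cong n B A := by
  obtain ⟨e, he⟩ := hA.exists_right_inv
  refine ⟨!![e, 0; 0, 1] * A, ?_, !![-(e * c), 0; 0, 0] * A, ?_⟩
  · rw [det_mul, det_fin_two_of]
    linear_combination he
  · have h4 : (!![e, 0; 0, 1] : Matrix (Fin 2) (Fin 2) ℤ_[p]) =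
        1 + (p : ℤ_[p]) ^ n • !![-(e * c), 0; 0, 0] := by
      ext i j
      fin_cases i <;> fin_cases j <;> simp
      linear_combination he - e * hc
    rw [h4, add_mul, one_mul, smul_mul_assoc]

/-- **Independence**: a finite family of `p`-adic representations of dimension two which are surjective modulo `p`,
`p ≥ 5`. -/
theorem exists_gl_fin (s : Finset ℕ) (hs : ∀ q ∈ s, q.Prime ∧ 5 ≤ q)
    (hE : ∀ (q : ℕ) [Fact q.Prime], q ∈ s → Elem (M q)) (n : ℕ)
    (A : ∀ (q : ℕ) [Fact q.Prime], Matrix (Fin 2) (Fin 2) ℤ_[q])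
    (hA : ∀ (q : ℕ) [Fact q.Prime], q ∈ s → IsUnit (A q).det)
    (hdet : ∃ σ : Γ, ∀ (q : ℕ) [Fact q.Prime], q ∈ s →
      (q : ℤ_[q]) ^ n ∣ (M q σ).det - (A q).det) :
    ∃ σ : Γ, ∀ (q : ℕ) [Fact q.Prime], q ∈ s → Cong n (M q σ) (A q) := by
  classical
  obtain ⟨σ₁, hσ₁⟩ := hdet
  have h1 : ∀ (q : ℕ) [Fact q.Prime], q ∈ s → ∃ B : Matrix (Fin 2) (Fin 2) ℤ_[q], B.det = 1 ∧
      Cong n B (M q σ₁⁻¹ * A q) := by
    intro q _ hq
    obtain ⟨c, hc⟩ := hσ₁ q hq
    have e1 := det_mul_det_inv (M q) σ₁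
    apply exists_det_one (c := -(c * (M q σ₁⁻¹).det))
    · rw [det_mul]
      exact (IsUnit.of_mul_eq_one (M q σ₁).det (by rw [mul_comm]; exact e1)).mul (hA q hq)
    · rw [det_mul]
      linear_combination -(M q σ₁⁻¹).det * hc + e1
  choose B hB1 hB2 using h1
  obtain ⟨τ, -, hτ⟩ := exists_sl_fin M s hs hE n (fun q _ => if h : q ∈ s then B q h else 1)
    (fun q _ hq => by rw [dif_pos hq]; exact hB1 q hq)
  refine ⟨σ₁ * τ, fun q _ hq => ?_⟩
  have h2 := hτ q hq
  rw [dif_pos hq] at h2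
  rw [map_mul]
  have h5 := (Cong.refl n (M q σ₁)).mul (h2.trans (hB2 q hq))
  have e2 : M q σ₁ * (M q σ₁⁻¹ * A q) = A q := by
    rw [← mul_assoc, ← map_mul, mul_inv_cancel, map_one, one_mul]
  rwa [e2] at h5

end Family

end Fermat.Agent.Cor.Surj
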