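import Mathlib
import Fermat.Agent.Cor.SurjAlg
import Fermat.Agent.H24S.LowerSq
import Fermat.Agent.H23.S39.Main
import Fermat.Agent.MainConductor

/-!
# Surjectivity of the mod `p` representations of semistable elliptic curves

`Fermat.Agent.Cor.Surj.surjective` (Serre, *Propriétés galoisiennes*, Prop. 21): let `W` be a semistable elliptic
curve over `ℚ` and `p` an odd prime such that `W[p]` is irreducible. Then `Gal(ℚ̄/ℚ) → Aut(W[p]) ≅ GL₂(𝔽_p)` is
surjective.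

Proof (different from Serre's). If the image contained no transvection, `W[p]` would be unramified outside `p` and its
restriction to the inertia groups at `p` would be either semisimple or irreducible, in any case peu ramifiée; by the
modularity of `W` and level lowering there would be an eigenform of weight two and level `2`.

This file is not used by any of the statement files.
-/

set_option autoImplicit false
set_option linter.style.haveILetI false

noncomputable section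

namespace Fermat.Agent.Cor.Surj

open WeierstrassCurve WeierstrassCurve.Affine WeierstrassCurve.Affine.Point
open Fermat.Agent.Ell Fermat.Agent.H12.LL Fermat.Agent.H11N Matrix
open Fermat.Agent.EGal (VV rho)

local notation "Qb" => AlgebraicClosure ℚ
local notation "Γq" => AlgebraicClosure ℚ ≃ₐ[ℚ] AlgebraicClosure ℚ

variable {W : WeierstrassCurve ℤ} {p : ℕ} [hp : Fact p.Prime]

variable (p) in
/-- the matrices of the Galois action on `W[p]` -/
def mat (hΔ : W.Δ ≠ 0) : Γq →* Matrix (Fin 2) (Fin 2) (ZMod p) :=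
  MR (tB (p := p) hΔ) (PadicInt.toZMod (p := p))

theorem mat_eq (hΔ : W.Δ ≠ 0) (σ : Γq) : haveI := isElliptic_WQ hΔ
    mat p hΔ σ = mtx (redBasis (tB (p := p) hΔ)) (rho (WQ W) p σ) := by
  haveI := isElliptic_WQ hΔ
  exact MR_toZMod _ σ

/-- Without transvections in the image, `W[p]` is peu ramifiée at `p`. -/
theorem peuAt_of_no (hΔ : W.Δ ≠ 0) (hirr : W.ModRepIsIrreducible p) (hp2 : p ≠ 2)
    (hno : ∀ σ : Γq, (mat p hΔ σ - 1) * (mat p hΔ σ - 1) = 0 → mat p hΔ σ = 1) :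
    Fermat.Agent.H23.S39.PeuAt W p hΔ hirr hp2 := by
  intro D hpD hΔD A hA ζ hζ v₁ v₂ hv₁ hI
  rw [mrepCurve_ρ] at hI ⊢
  change ∀ σ ∈ A.inertiaSubgroupIn ℚ, ∀ v, ∃ c : ZMod p, mat p hΔ σ *ᵥ v - v = c • v₁ at hI
  have hp0 : p ≠ 0 := hp.out.ne_zero
  have hcyc : ∀ σ : Γq, ∃ c : ℕ, σ ζ = ζ ^ c := by
    intro σ
    have hz : (σ ζ) ^ p = 1 := by rw [← map_pow, hζ.pow_eq_one, map_one]
    haveI : NeZero p := ⟨hp0⟩
    obtain ⟨m, -, hm⟩ := hζ.eq_pow_of_pow_eq_one hz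
    exact ⟨m, hm.symm⟩
  have hdet : ∀ (σ : Γq) (c : ℕ), σ ζ = ζ ^ c → (mat p hΔ σ).det = (c : ZMod p) :=
    fun σ c hc => det_MR_cyc hΔ hirr hζ hc
  have hζp : ∀ m n : ℕ, (m : ZMod p) = n → ζ ^ m = ζ ^ n := by
    intro m n h
    rw [ZMod.natCast_eq_natCast_iff] at h
    rw [pow_eq_pow_mod m hζ.pow_eq_one, h, ← pow_eq_pow_mod n hζ.pow_eq_one]
  have hline : ∀ σ ∈ A.inertiaSubgroupIn ℚ, mat p hΔ σ *ᵥ v₁ = (mat p hΔ σ).det • v₁ :=
    fun σ hσ => Fermat.Agent.H23.GR.mulVec_line _ (hI σ hσ)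
  have hv0 : ∀ c : ZMod p, c • v₁ = 0 → c = 0 := fun c h => (smul_eq_zero.mp h).resolve_right hv₁
  -- an element of inertia with determinant `≠ 1`
  obtain ⟨σ₀, hσ₀, ξ, hξ1, hξ2⟩ := Fermat.Agent.H05.exists_inertia_moves hp.out hp2 hA
  have hd0 : (mat p hΔ σ₀).det ≠ 1 := by
    intro h
    obtain ⟨c₀, hc₀⟩ := hcyc σ₀
    rw [hdet σ₀ c₀ hc₀, ← Nat.cast_one] at h
    have h1 := hζp _ _ h
    rw [pow_one] at h1
    haveI : NeZero p := ⟨hp0⟩
    obtain ⟨i, -, rfl⟩ := hζ.eq_pow_of_pow_eq_one hξ1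
    exact hξ2 (by rw [map_pow, hc₀, h1])
  set d₀ := (mat p hΔ σ₀).det with hd₀
  obtain ⟨b₀, hb₀⟩ := hI σ₀ hσ₀ v₂
  have hd1 : 1 - d₀ ≠ 0 := sub_ne_zero.mpr (Ne.symm hd0)
  set k := b₀ / (1 - d₀) with hk
  have hkb : b₀ = k * (1 - d₀) := by rw [hk, div_mul_cancel₀ _ hd1]
  set v' : Fin 2 → ZMod p := v₂ + k • v₁ with hv'
  have h1 : mat p hΔ σ₀ *ᵥ v' = v' := by
    rw [hv', mulVec_add, mulVec_smul, hline σ₀ hσ₀, sub_eq_iff_eq_add.mp hb₀, ← hd₀, hkb]
    module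
  have h2 : ∀ σ ∈ A.inertiaSubgroupIn ℚ, mat p hΔ σ *ᵥ v' = v' := by
    intro σ hσ
    have hcomm : mat p hΔ σ * mat p hΔ σ₀ = mat p hΔ σ₀ * mat p hΔ σ := by
      set τ := σ * σ₀ * σ⁻¹ * σ₀⁻¹ with hτ
      have hτI : τ ∈ A.inertiaSubgroupIn ℚ :=
        mul_mem (mul_mem (mul_mem hσ hσ₀) (inv_mem hσ)) (inv_mem hσ₀)
      have hdτ : (mat p hΔ τ).det = 1 := by
        have e : ∀ g : Γq, (mat p hΔ g).det * (mat p hΔ g⁻¹).det = 1 := fun g => by
          rw [← det_mul, ← map_mul, mul_inv_cancel, map_one, det_one]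
        rw [hτ, map_mul, map_mul, map_mul, det_mul, det_mul, det_mul]
        have e1 := e σ
        have e2 := e σ₀
        calc (mat p hΔ σ).det * (mat p hΔ σ₀).det * (mat p hΔ σ⁻¹).det * (mat p hΔ σ₀⁻¹).det
            = ((mat p hΔ σ).det * (mat p hΔ σ⁻¹).det) *
              ((mat p hΔ σ₀).det * (mat p hΔ σ₀⁻¹).det) := by ring
          _ = 1 := by rw [e1, e2, one_mul]
      have hτ1 : mat p hΔ τ = 1 := by
        apply hno
        apply Matrix.mulVec_injective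
        funext v
        obtain ⟨c, hc⟩ := hI τ hτI v
        rw [← mulVec_mulVec, sub_mulVec _ _ v, one_mulVec, hc, mulVec_smul, sub_mulVec, one_mulVec,
          hline τ hτI, hdτ, one_smul, sub_self, smul_zero, zero_mulVec]
      have e3 : σ * σ₀ = τ * (σ₀ * σ) := by rw [hτ]; group
      rw [← map_mul, e3, map_mul, hτ1, one_mul, map_mul]
    obtain ⟨e, he⟩ := hI σ hσ v'
    have he' := sub_eq_iff_eq_add.mp he
    have h3 : mat p hΔ σ₀ *ᵥ (mat p hΔ σ *ᵥ v') = mat p hΔ σ *ᵥ v' := by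
      rw [mulVec_mulVec, ← hcomm, ← mulVec_mulVec, h1]
    rw [he', mulVec_add, mulVec_smul, hline σ₀ hσ₀, h1, ← hd₀] at h3
    have h4 : (e * (d₀ - 1)) • v₁ = 0 := by
      have h5 := sub_eq_zero.mpr h3
      rw [← h5]
      module
    have h6 : e = 0 := (mul_eq_zero.mp (hv0 _ h4)).resolve_right (sub_ne_zero.mpr hd0)
    rw [he', h6, zero_smul, zero_add]
  -- the unit
  have hu : ∀ m : ℕ, ζ ^ m ∈ A := fun m => Fermat.Agent.H05.mem_of_pow_eq_one A hp0 (by
    rw [← pow_mul, mul_comm, pow_mul, hζ.pow_eq_one, one_pow])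
  have hζ0 : ζ ≠ 0 := hζ.ne_zero hp0
  refine ⟨ζ ^ (-k).val, hu _, ?_, pow_ne_zero _ hζ0, ?_, ?_⟩
  · exact Fermat.Agent.H05.mem_of_pow_eq_one A hp0 (by
      rw [inv_pow, ← pow_mul, mul_comm, pow_mul, hζ.pow_eq_one, one_pow, inv_one])
  · rw [← pow_mul, mul_comm, pow_mul, hζ.pow_eq_one, one_pow]
    exact one_mem _
  · intro σ hσ b hb
    change mat p hΔ σ *ᵥ v₂ = v₂ + (b : ZMod p) • v₁ at hb
    obtain ⟨c, hc⟩ := hcyc σ
    rw [map_pow, hc, ← pow_mul, ← pow_add]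
    apply hζp
    have h7 := h2 σ hσ
    rw [hv', mulVec_add, mulVec_smul, hline σ hσ, hb, hdet σ c hc] at h7
    have h8 : ((b : ZMod p) - k * (1 - c)) • v₁ = 0 := by
      have h5 := sub_eq_zero.mpr h7
      rw [← h5]
      module
    have h9 := hv0 _ h8
    push_cast
    rw [ZMod.natCast_zmod_val]
    linear_combination -h9

/-- Without transvections in the image, `W[p]` is unramified outside `p`. -/
theorem unrAt_of_no (hΔ : W.Δ ≠ 0) (hss : W.IsSemistableModel)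
    (hno : ∀ σ : Γq, (mat p hΔ σ - 1) * (mat p hΔ σ - 1) = 0 → mat p hΔ σ = 1) {q : ℕ}
    (hq : q.Prime) (hqp : q ≠ p) : UnrAt W p q := by
  haveI := isElliptic_WQ hΔ
  intro A hA σ hσ
  apply (MR_toZMod_eq_one_iff (tB (p := p) hΔ) σ).mp
  apply hno
  obtain ⟨F, h1, h2⟩ := Fermat.Agent.H09.inertia_away (W₀ := WQ W) (map_WQ W) hΔ hss hp.out hq hqp
    hA hσ
  have h3 : (rho (WQ W) p σ - 1) * (rho (WQ W) p σ - 1) = 0 := by
    refine LinearMap.ext fun x => ?_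
    have h4 := h2 _ (h1 x)
    rw [Module.End.mul_apply, LinearMap.zero_apply]
    change σ • ((σ • x : VV (WQ W) p) - x) - ((σ • x : VV (WQ W) p) - x) = 0
    exact sub_eq_zero.mpr h4
  rw [mat_eq hΔ σ, ← map_one (mtx (redBasis (tB (p := p) hΔ))), ← map_sub, ← map_mul, h3, _root_.map_zero]

/-- **Existence of a transvection** in the image of the Galois group. -/
theorem exists_transvection (hΔ : W.Δ ≠ 0) (hss : W.IsSemistableModel)
    (hirr : W.ModRepIsIrreducible p) (hp2 : p ≠ 2) :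
    ∃ σ : Γq, mat p hΔ σ ≠ 1 ∧ (mat p hΔ σ - 1) * (mat p hΔ σ - 1) = 0 := by
  by_contra hcon
  have hno : ∀ σ : Γq, (mat p hΔ σ - 1) * (mat p hΔ σ - 1) = 0 → mat p hΔ σ = 1 := by
    intro σ h
    by_contra h'
    exact hcon ⟨σ, h', h⟩
  obtain ⟨N, hN⟩ := Fermat.Agent.H24S.exists_min hΔ hss hirr hp2
  have hNp : N ∣ p := by
    rw [← Nat.prod_primeFactors_of_squarefree hN.sq]
    have hsub : N.primeFactors ⊆ {p} := by
      intro q hq
      rw [Finset.mem_singleton]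
      by_contra hqp
      exact hN.ram q (Nat.prime_of_mem_primeFactors hq) hqp (Nat.dvd_of_mem_primeFactors hq)
        (unrAt_of_no hΔ hss hno (Nat.prime_of_mem_primeFactors hq) hqp)
    have h := Finset.prod_dvd_prod_of_subset _ _ (fun q : ℕ => q) hsub
    rwa [Finset.prod_singleton] at h
  have h1 : W.IsResiduallyModularOfLevel p (2 * p) :=
    Fermat.Agent.H18R.isResiduallyModular_mono hΔ hirr hN.rm (hNp.trans (dvd_mul_left p 2))
      (mul_ne_zero two_ne_zero hp.out.ne_zero)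
  have h2 : W.IsResiduallyModularOfLevel p 2 :=
    Fermat.Agent.H23.S39.lower_even hΔ hirr hp2 (peuAt_of_no hΔ hirr hp2 hno) two_ne_zero
      (dvd_refl 2) (fun h => hp2 ((Nat.prime_dvd_prime_iff_eq hp.out Nat.prime_two).mp h)) h1
  obtain ⟨f, 𝔪, hf, -⟩ := h2
  exact Fermat.Agent.Main.not_isNormalizedEigenform Fermat.Agent.Main.genus_two f hf

/-- The determinant is surjective. -/
theorem exists_det (hΔ : W.Δ ≠ 0) (hirr : W.ModRepIsIrreducible p) (d : ZMod p) (hd : d ≠ 0) :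
    ∃ σ : Γq, LinearMap.det (rho (WQ W) p σ) = d := by
  haveI := isElliptic_WQ hΔ
  haveI : NeZero p := ⟨hp.out.ne_zero⟩
  obtain ⟨ℓ, hℓp, hℓ, hℓd⟩ := Nat.forall_exists_prime_gt_and_eq_mod (q := p) (a := d)
    (isUnit_iff_ne_zero.mpr hd) p
  obtain ⟨A, hA⟩ := Fermat.Agent.H05.exists_liesOverPrime Qb hℓ
  obtain ⟨φ, hφ⟩ := Fermat.Agent.H05.exists_isFrobeniusAt (L := Qb) hℓ hA
  refine ⟨φ, ?_⟩
  have h1 := det_MR_frob hΔ hirr hℓ (ne_of_gt hℓp) hA hφ
  rw [MR_toZMod, det_mtx] at h1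
  rw [h1, hℓd]

/-- **Surjectivity** (Serre): for a semistable `W` and an odd prime `p` with `W[p]` irreducible, every
`𝔽_p`-linear automorphism of `W[p]` is induced by an element of `Gal(ℚ̄/ℚ)`. -/
theorem surjective (hΔ : W.Δ ≠ 0) (hss : W.IsSemistableModel) (hirr : W.ModRepIsIrreducible p)
    (hp2 : p ≠ 2) (f : VV (WQ W) p ≃ₗ[ZMod p] VV (WQ W) p) :
    ∃ σ : Γq, ∀ x : VV (WQ W) p, σ • x = f x := by
  haveI := isElliptic_WQ hΔ
  obtain ⟨σ, h1, h2⟩ := exists_transvection hΔ hss hirr hp2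
  set m := mtx (redBasis (tB (p := p) hΔ)) with hm
  have hσ1 : rho (WQ W) p σ ≠ 1 := by
    intro h
    apply h1
    rw [mat_eq hΔ σ, h, map_one]
  have hσ2 : (rho (WQ W) p σ - 1) * (rho (WQ W) p σ - 1) = 0 := by
    apply m.injective
    rw [map_mul, map_sub, map_one, _root_.map_zero, hm, ← mat_eq hΔ σ, h2]
  obtain ⟨g, hg⟩ := exists_eq (Fermat.Agent.Frob.finrank_torsionBy (K := Qb) (WQ W) p) (rho (WQ W) p)
    (fun N hN => hirr.2 N fun g x hx => hN g x hx) hσ1 hσ2 (exists_det hΔ hirr) f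
  exact ⟨g, hg⟩

/-- **Surjectivity**, explicit form: let `W` be an integral Weierstrass equation, semistable, `Δ ≠ 0`, and `p` an odd
prime such that `W[p]` has no Galois stable line. Then every linear automorphism of the plane `W[p]` over `𝔽_p` is
induced by an element of `Gal(ℚ̄/ℚ)`. -/
theorem galois_surjective (W : WeierstrassCurve ℤ) (hΔ : W.Δ ≠ 0) (hss : W.IsSemistableModel)
    {p : ℕ} (hp : p.Prime) (hp2 : p ≠ 2) (hirr : W.ModRepIsIrreducible p)
    (f : Submodule.torsionBy ℤ ((W.map (Int.castRingHom ℚ))⁄(AlgebraicClosure ℚ)).Point (p : ℤ) ≃ₗ[ZMod p]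
      Submodule.torsionBy ℤ ((W.map (Int.castRingHom ℚ))⁄(AlgebraicClosure ℚ)).Point (p : ℤ)) :
    ∃ σ : AlgebraicClosure ℚ ≃ₐ[ℚ] AlgebraicClosure ℚ, ∀ x, σ • x = f x :=
  haveI : Fact p.Prime := ⟨hp⟩
  surjective hΔ hss hirr hp2 f

end Fermat.Agent.Cor.Surj
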