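import Mathlib
import Fermat.Agent.Cor.Surj
import Fermat.Agent.Cor.SurjAdicAlg

/-!
# Surjectivity of the `p`-adic representations of semistable elliptic curves, `p ≥ 5`

`Fermat.Agent.Cor.Surj.surjective_adic`: let `W` be a semistable elliptic curve over `ℚ` and `p ≥ 5` a prime such that
`W[p]` is irreducible. Then `Gal(ℚ̄/ℚ) → Aut(T_p W) ≅ GL₂(ℤ_p)` is surjective.

`Fermat.Agent.Cor.Surj.galois_surjective_pow`: under the same hypotheses, for every `n`, every automorphism of the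
group `W[pⁿ]` is induced by an element of `Gal(ℚ̄/ℚ)`.

This file is not used by any of the statement files.
-/

set_option autoImplicit false
set_option linter.style.haveILetI false

noncomputable section

namespace Fermat.Agent.Cor.Surj

open WeierstrassCurve WeierstrassCurve.Affine WeierstrassCurve.Affine.Point
open Fermat.Agent.Ell Fermat.Agent.H12.LL Fermat.Agent.H11N Matrix
open Fermat.Agent.EGal (VV rho)

local notation "Qb" => AlgebraicClosure ℚ
local notation "Γq" => AlgebraicClosure ℚ ≃ₐ[ℚ] AlgebraicClosure ℚ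

variable {W : WeierstrassCurve ℤ} {p : ℕ} [hp : Fact p.Prime]

theorem cong_iff {n : ℕ} {X Y : Matrix (Fin 2) (Fin 2) ℤ_[p]} :
    Cong n X Y ↔ ∀ i j, (p : ℤ_[p]) ^ n ∣ X i j - Y i j := by
  constructor
  · rintro ⟨B, rfl⟩ i j
    exact ⟨B i j, by simp⟩
  · intro h
    choose b hb using h
    refine ⟨Matrix.of b, ?_⟩
    ext i j
    simp [← hb]

variable (p) in
/-- the matrices of the Galois action on the Tate module -/
def matZ (hΔ : W.Δ ≠ 0) : Γq →* Matrix (Fin 2) (Fin 2) ℤ_[p] :=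
  ((mtx (tB (p := p) hΔ)).toRingEquiv.toRingHom.toMonoidHom).comp (rr (WQ W) p)

theorem matZ_apply (hΔ : W.Δ ≠ 0) (σ : Γq) :
    matZ p hΔ σ = mtx (tB (p := p) hΔ) (rr (WQ W) p σ) := rfl

theorem matZ_mod (hΔ : W.Δ ≠ 0) (σ : Γq) :
    (matZ p hΔ σ).map (PadicInt.toZMod (p := p)) = mat p hΔ σ := by
  haveI := isElliptic_WQ hΔ
  rw [mat_eq hΔ σ, mtx_rho]
  rfl

/-- surjectivity modulo `p`, in terms of matrices -/
theorem exists_mod (hΔ : W.Δ ≠ 0) (hss : W.IsSemistableModel) (hirr : W.ModRepIsIrreducible p)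
    (hp2 : p ≠ 2) (A : Matrix (Fin 2) (Fin 2) ℤ_[p]) (hA : IsUnit A.det) :
    ∃ σ : Γq, Cong 1 (matZ p hΔ σ) A := by
  haveI := isElliptic_WQ hΔ
  set m := mtx (redBasis (tB (p := p) hΔ)) with hm
  set f := m.symm (A.map (PadicInt.toZMod (p := p))) with hf'
  have hf : m f = A.map (PadicInt.toZMod (p := p)) := m.apply_symm_apply _
  have hdet : LinearMap.det f ≠ 0 := by
    rw [← det_mtx (redBasis (tB (p := p) hΔ)) f, ← hm, hf]
    have h := (PadicInt.toZMod (p := p)).map_det A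
    have h' : (A.map (PadicInt.toZMod (p := p))).det = PadicInt.toZMod A.det := h.symm
    rw [h']
    exact (hA.map (PadicInt.toZMod (p := p))).ne_zero
  haveI : Module.Finite (ZMod p) (VV (WQ W) p) := .of_basis (redBasis (tB (p := p) hΔ))
  obtain ⟨σ, hσ⟩ := surjective hΔ hss hirr hp2 (LinearMap.equivOfDetNeZero f hdet)
  refine ⟨σ, ?_⟩
  have h1 : rho (WQ W) p σ = f := LinearMap.ext hσ
  rw [cong_one_iff, matZ_mod, mat_eq, h1, ← hm, hf]

/-- the determinant is surjective modulo all powers of `p` -/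
theorem exists_det_adic (hΔ : W.Δ ≠ 0) (hirr : W.ModRepIsIrreducible p) (d : ℤ_[p])
    (hd : IsUnit d) (n : ℕ) : ∃ σ : Γq, (p : ℤ_[p]) ^ n ∣ (matZ p hΔ σ).det - d := by
  haveI := isElliptic_WQ hΔ
  haveI : NeZero (p ^ n) := ⟨pow_ne_zero _ hp.out.ne_zero⟩
  obtain ⟨ℓ, hℓp, hℓ, hℓd⟩ := Nat.forall_exists_prime_gt_and_eq_mod (q := p ^ n)
    (a := PadicInt.toZModPow n d) (hd.map (PadicInt.toZModPow n)) p
  obtain ⟨A, hA⟩ := Fermat.Agent.H05.exists_liesOverPrime Qb hℓ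
  obtain ⟨φ, hφ⟩ := Fermat.Agent.H05.exists_isFrobeniusAt (L := Qb) hℓ hA
  refine ⟨φ, ?_⟩
  have h1 : LinearMap.det (rr (WQ W) p φ) = (ℓ : ℤ_[p]) :=
    zRep_det_frob hΔ hirr hℓ (ne_of_gt hℓp) hA hφ
  rw [matZ_apply, det_mtx, h1, ← Ideal.mem_span_singleton, ← PadicInt.ker_toZModPow,
    RingHom.mem_ker, map_sub, map_natCast, hℓd, sub_self]

/-- the matrix of `σ` modulo `p ^ n` is locally constant -/
theorem exists_level (hΔ : W.Δ ≠ 0) (n : ℕ) : ∃ L : IntermediateField ℚ Qb,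
    FiniteDimensional ℚ L ∧ ∀ σ τ : Γq, (∀ x ∈ L, σ x = τ x) →
      Cong n (matZ p hΔ σ) (matZ p hΔ τ) := by
  haveI := isElliptic_WQ hΔ
  obtain ⟨L, hL, h⟩ := exists_level_field (WQ W) (p ^ n) (pow_ne_zero _ hp.out.ne_zero)
  refine ⟨L, hL, fun σ τ hστ => ?_⟩
  rw [cong_iff]
  intro i j
  apply mtx_congr (tB (p := p) hΔ)
  intro v
  have h1 : (rr (WQ W) p σ v - rr (WQ W) p τ v).1 n = 0 := by
    change σ • v.1 n - τ • v.1 n = 0
    rw [h σ τ hστ _ (TateMod.tors v n), sub_self]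
  obtain ⟨g, hg⟩ := TateMod.exists_eq_pow_smul h1
  exact ⟨g, hg.symm⟩

theorem isClosed_cong (hΔ : W.Δ ≠ 0) (A : Matrix (Fin 2) (Fin 2) ℤ_[p]) (n : ℕ) :
    IsClosed {σ : Γq | Cong n (matZ p hΔ σ) A} := by
  obtain ⟨L, hL, h⟩ := exists_level (p := p) hΔ n
  rw [← isOpen_compl_iff, isOpen_iff_mem_nhds]
  intro σ hσ
  have ho : IsOpen ((fun τ : Γq => σ⁻¹ * τ) ⁻¹' (L.fixingSubgroup : Set Γq)) :=
    (IntermediateField.fixingSubgroup_isOpen L).preimage (continuous_const_mul _)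
  have hσm : σ ∈ (fun τ : Γq => σ⁻¹ * τ) ⁻¹' (L.fixingSubgroup : Set Γq) := by
    change σ⁻¹ * σ ∈ L.fixingSubgroup
    rw [inv_mul_cancel]
    exact one_mem _
  refine Filter.mem_of_superset (ho.mem_nhds hσm) ?_
  intro τ hτ hc
  apply hσ
  refine (h σ τ ?_).trans hc
  intro x hx
  have h1 : (σ⁻¹ * τ) x = x := (IntermediateField.mem_fixingSubgroup_iff L _).mp hτ x hx
  have h2 := congrArg σ h1
  rw [← AlgEquiv.mul_apply, ← mul_assoc, mul_inv_cancel, one_mul] at h2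
  exact h2.symm

/-- **Surjectivity** of the `p`-adic representation, in terms of matrices. -/
theorem exists_matZ_eq (hΔ : W.Δ ≠ 0) (hss : W.IsSemistableModel)
    (hirr : W.ModRepIsIrreducible p) (hp5 : 5 ≤ p) (A : Matrix (Fin 2) (Fin 2) ℤ_[p])
    (hA : IsUnit A.det) : ∃ σ : Γq, matZ p hΔ σ = A := by
  have hp2 : p ≠ 2 := by omega
  have hne : (⋂ n : ℕ, {σ : Γq | Cong n (matZ p hΔ σ) A}).Nonempty := by
    apply IsCompact.nonempty_iInter_of_sequence_nonempty_isCompact_isClosed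
    · intro n σ hσ
      exact Cong.of_le hσ (Nat.le_succ n)
    · intro n
      exact exists_gl (exists_mod hΔ hss hirr hp2) hp5 (exists_det_adic hΔ hirr) A hA n
    · exact (isClosed_cong hΔ A 0).isCompact
    · exact isClosed_cong hΔ A
  obtain ⟨σ, hσ⟩ := hne
  rw [Set.mem_iInter] at hσ
  refine ⟨σ, ?_⟩
  ext i j
  exact eq_of_dvd fun n => cong_iff.mp (hσ n) i j

/-- **Surjectivity** of the `p`-adic representation (Serre): for a semistable `W` and a prime `p ≥ 5` with `W[p]`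
irreducible, every `ℤ_p`-linear automorphism of the Tate module of `W` is induced by an element of `Gal(ℚ̄/ℚ)`. -/
theorem surjective_adic (hΔ : W.Δ ≠ 0) (hss : W.IsSemistableModel)
    (hirr : W.ModRepIsIrreducible p) (hp5 : 5 ≤ p) (f : TT (WQ W) p ≃ₗ[ℤ_[p]] TT (WQ W) p) :
    ∃ σ : Γq, ∀ v : TT (WQ W) p, rr (WQ W) p σ v = f v := by
  set m := mtx (tB (p := p) hΔ) with hm
  obtain ⟨σ, hσ⟩ := exists_matZ_eq hΔ hss hirr hp5 (m (f : Module.End ℤ_[p] (TT (WQ W) p))) (by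
    rw [hm, det_mtx]
    exact LinearEquiv.isUnit_det' f)
  refine ⟨σ, fun v => ?_⟩
  rw [matZ_apply, ← hm] at hσ
  exact congrArg (fun g : Module.End ℤ_[p] (TT (WQ W) p) => g v) (m.injective hσ)

/-- **Surjectivity**, explicit form: let `W` be an integral Weierstrass equation, semistable, `Δ ≠ 0`, and `p ≥ 5` a
prime such that `W[p]` has no Galois stable line. Then for every `n`, every automorphism of the group `W[pⁿ]` is
induced by an element of `Gal(ℚ̄/ℚ)`. -/
theorem galois_surjective_pow (W : WeierstrassCurve ℤ) (hΔ : W.Δ ≠ 0) (hss : W.IsSemistableModel)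
    {p : ℕ} (hp : p.Prime) (hp5 : 5 ≤ p) (hirr : W.ModRepIsIrreducible p) (n : ℕ)
    (f : Submodule.torsionBy ℤ ((W.map (Int.castRingHom ℚ))⁄(AlgebraicClosure ℚ)).Point ((p ^ n : ℕ) : ℤ) ≃+
      Submodule.torsionBy ℤ ((W.map (Int.castRingHom ℚ))⁄(AlgebraicClosure ℚ)).Point ((p ^ n : ℕ) : ℤ)) :
    ∃ σ : AlgebraicClosure ℚ ≃ₐ[ℚ] AlgebraicClosure ℚ, ∀ x, σ • x = f x := by
  haveI : Fact p.Prime := ⟨hp⟩
  haveI := isElliptic_WQ hΔ
  rcases Nat.eq_zero_or_pos n with rfl | hn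
  · have h0 : ∀ x : Submodule.torsionBy ℤ (Pts (WQ W)) ((p ^ 0 : ℕ) : ℤ), x = 0 := by
      rintro ⟨x, hx⟩
      rw [Submodule.mem_torsionBy_iff, natCast_zsmul, pow_zero, one_smul] at hx
      exact Subtype.ext hx
    exact ⟨1, fun x => (h0 _).trans (h0 _).symm⟩
  -- the reduction
  have hr : ∀ v : TT (WQ W) p, v.1 n ∈ Submodule.torsionBy ℤ (Pts (WQ W)) ((p ^ n : ℕ) : ℤ) := by
    intro v
    rw [Submodule.mem_torsionBy_iff, natCast_zsmul]
    exact TateMod.tors v n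
  let r : TT (WQ W) p → Submodule.torsionBy ℤ (Pts (WQ W)) ((p ^ n : ℕ) : ℤ) := fun v => ⟨v.1 n, hr v⟩
  have hlift : ∀ x : Submodule.torsionBy ℤ (Pts (WQ W)) ((p ^ n : ℕ) : ℤ), ∃ v, r v = x := by
    rintro ⟨x, hx⟩
    have hx' := hx
    rw [Submodule.mem_torsionBy_iff, natCast_zsmul] at hx'
    obtain ⟨v, hv⟩ := TateMod.exists_lift (pts_div (WQ W) p) hx'
    exact ⟨v, Subtype.ext hv⟩
  have hlift' : ∀ i, ∃ t, r t = f (r (tB (p := p) hΔ i)) := fun i => hlift _
  choose t ht using hlift'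
  set F : TT (WQ W) p →ₗ[ℤ_[p]] TT (WQ W) p := (tB (p := p) hΔ).constr ℤ_[p] t with hF
  have key : ∀ v, r (F v) = f (r v) := by
    intro v
    have hv : v ∈ Submodule.span ℤ_[p] (Set.range (tB (p := p) hΔ)) := by
      rw [(tB (p := p) hΔ).span_eq]
      trivial
    induction hv using Submodule.span_induction with
    | mem v hv =>
      obtain ⟨i, rfl⟩ := hv
      rw [hF, Module.Basis.constr_basis, ht]
    | zero =>
      rw [_root_.map_zero]
      exact (_root_.map_zero f).symm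
    | add v w _ _ hv hw =>
      rw [_root_.map_add]
      have h1 : ∀ v w, r (v + w) = r v + r w := fun _ _ => rfl
      rw [h1, h1, _root_.map_add, hv, hw]
    | smul c v _ hv =>
      rw [_root_.map_smul]
      have h1 : ∀ v, r (c • v) = (c.appr n) • r v := fun v =>
        Subtype.ext (TateMod.smul_level' c v n)
      rw [h1, h1, map_nsmul, hv]
  haveI : Module.Finite ℤ_[p] (TT (WQ W) p) := .of_basis (tB (p := p) hΔ)
  have hsurj : Function.Surjective F := by
    rw [← LinearMap.range_eq_top, ← top_le_iff]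
    refine Submodule.le_of_le_smul_of_le_jacobson_bot (I := IsLocalRing.maximalIdeal ℤ_[p])
      Module.Finite.fg_top (IsLocalRing.maximalIdeal_le_jacobson _) ?_
    intro y _
    obtain ⟨v, hv⟩ := hlift (f.symm (r y))
    have h1 : r (F v) = r y := by rw [key, hv, AddEquiv.apply_symm_apply]
    have h2 : (y - F v).1 n = 0 := by
      change y.1 n - (F v).1 n = 0
      rw [sub_eq_zero]
      exact (congrArg Subtype.val h1).symm
    rw [← TateMod.mem_smul_top_iff] at h2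
    have h3 := Submodule.smul_mono_left (N := (⊤ : Submodule ℤ_[p] (TT (WQ W) p)))
      (Ideal.pow_le_self (I := IsLocalRing.maximalIdeal ℤ_[p]) hn.ne') h2
    rw [show y = F v + (y - F v) by abel]
    exact Submodule.add_mem_sup ⟨v, rfl⟩ h3
  have hinj : Function.Injective F := OrzechProperty.injective_of_surjective_endomorphism F hsurj
  obtain ⟨σ, hσ⟩ := surjective_adic hΔ hss hirr hp5 (LinearEquiv.ofBijective F ⟨hinj, hsurj⟩)
  refine ⟨σ, fun x => ?_⟩
  obtain ⟨v, rfl⟩ := hlift x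
  rw [← key]
  exact congrArg r (hσ v)

end Fermat.Agent.Cor.Surj
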