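import Mathlib
import Fermat.Agent.Cor.SurjAdic
import Fermat.Agent.Cor.AdelicAlg

/-!
# Surjectivity of the adelic representation of a semistable elliptic curve, outside of `2`, `3` and the reducible primes

`Fermat.Agent.Cor.Surj.adelic_surjective`: let `W` be a semistable elliptic curve over `ℚ` and `S` a set (possibly
infinite) of primes `p ≥ 5` such that `W[p]` is irreducible for all `p ∈ S`. Then
`Gal(ℚ̄/ℚ) → ∏_{p ∈ S} Aut(T_p W) ≅ ∏_{p ∈ S} GL₂(ℤ_p)` is surjective.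

`Fermat.Agent.Cor.Surj.galois_surjective_tors`: explicit form: if `N` is coprime to `6` and `W[p]` is irreducible for
all primes `p ∣ N`, then every automorphism of the group `W[N]` is induced by an element of `Gal(ℚ̄/ℚ)`.

This file is not used by any of the statement files.
-/

set_option autoImplicit false
set_option linter.style.haveILetI false

noncomputable section

namespace Fermat.Agent.Cor.Surj

open WeierstrassCurve WeierstrassCurve.Affine WeierstrassCurve.Affine.Point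
open Fermat.Agent.Ell Fermat.Agent.H12.LL Fermat.Agent.H11N Matrix
open Fermat.Agent.EGal (VV rho)

local notation "Qb" => AlgebraicClosure ℚ
local notation "Γq" => AlgebraicClosure ℚ ≃ₐ[ℚ] AlgebraicClosure ℚ

variable {W : WeierstrassCurve ℤ}

/-- The determinants are simultaneously surjective (Dirichlet's theorem). -/
theorem exists_det_fin (hΔ : W.Δ ≠ 0) (s : Finset ℕ) (hs : ∀ q ∈ s, q.Prime)
    (hirr : ∀ q ∈ s, W.ModRepIsIrreducible q) (n : ℕ) (d : ∀ (q : ℕ) [Fact q.Prime], ℤ_[q])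
    (hd : ∀ (q : ℕ) [Fact q.Prime], q ∈ s → IsUnit (d q)) :
    ∃ σ : Γq, ∀ (q : ℕ) [Fact q.Prime], q ∈ s →
      (q : ℤ_[q]) ^ n ∣ (matZ q hΔ σ).det - d q := by
  classical
  haveI := isElliptic_WQ hΔ
  let a : ℕ → ℕ := fun q => if h : q.Prime then
    (haveI : Fact q.Prime := ⟨h⟩; (PadicInt.toZModPow n (d q)).val) else 0
  obtain ⟨k, hk⟩ := Nat.chineseRemainderOfFinset a (fun q => q ^ n) s
    (fun q hq => pow_ne_zero n (hs q hq).ne_zero) (fun q hq q' hq' hne =>
      Nat.Coprime.pow n n ((Nat.coprime_primes (hs q hq) (hs q' hq')).mpr hne))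
  have hk' : ∀ (q : ℕ) [Fact q.Prime], q ∈ s →
      (k : ZMod (q ^ n)) = PadicInt.toZModPow n (d q) := by
    intro q hqf hq
    haveI : NeZero (q ^ n) := ⟨pow_ne_zero n hqf.out.ne_zero⟩
    have h1 := (ZMod.natCast_eq_natCast_iff _ _ _).mpr (hk q hq)
    rw [h1]
    have h2 : a q = (PadicInt.toZModPow n (d q)).val := dif_pos hqf.out
    rw [h2, ZMod.natCast_zmod_val]
  set Q : ℕ := ∏ q ∈ s, q ^ n with hQ
  haveI : NeZero Q := ⟨Finset.prod_ne_zero_iff.mpr fun q hq => pow_ne_zero n (hs q hq).ne_zero⟩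
  have hu : IsUnit (k : ZMod Q) := by
    rw [ZMod.isUnit_iff_coprime]
    refine Nat.Coprime.prod_right fun q hq => ?_
    haveI : Fact q.Prime := ⟨hs q hq⟩
    rw [← ZMod.isUnit_iff_coprime, hk' q hq]
    exact (hd q hq).map _
  obtain ⟨ℓ, hℓs, hℓ, hℓk⟩ := Nat.forall_exists_prime_gt_and_eq_mod (q := Q)
    (a := (k : ZMod Q)) hu (∑ q ∈ s, q)
  obtain ⟨A, hA⟩ := Fermat.Agent.H05.exists_liesOverPrime Qb hℓ
  obtain ⟨φ, hφ⟩ := Fermat.Agent.H05.exists_isFrobeniusAt (L := Qb) hℓ hA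
  refine ⟨φ, fun q hqf hq => ?_⟩
  have hqℓ : ℓ ≠ q := by
    have := Finset.single_le_sum (f := fun q : ℕ => q) (fun _ _ => Nat.zero_le _) hq
    have h3 : q ≤ ∑ q ∈ s, q := this
    omega
  have h1 : LinearMap.det (rr (WQ W) q φ) = (ℓ : ℤ_[q]) :=
    zRep_det_frob hΔ (hirr q hq) hℓ hqℓ hA hφ
  have h2 : (ℓ : ZMod (q ^ n)) = (k : ZMod (q ^ n)) := by
    rw [ZMod.natCast_eq_natCast_iff] at hℓk ⊢
    exact hℓk.of_dvd (Finset.dvd_prod_of_mem (fun q => q ^ n) hq)
  rw [matZ_apply, det_mtx, h1, ← Ideal.mem_span_singleton, ← PadicInt.ker_toZModPow,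
    RingHom.mem_ker, map_sub, map_natCast, h2, hk' q hq, sub_self]

/-- **Adelic surjectivity**, in terms of matrices. -/
theorem exists_matZ_eq_adelic (hΔ : W.Δ ≠ 0) (hss : W.IsSemistableModel) (S : Set ℕ)
    (hS : ∀ q ∈ S, q.Prime ∧ 5 ≤ q ∧ W.ModRepIsIrreducible q)
    (A : ∀ (q : ℕ) [Fact q.Prime], Matrix (Fin 2) (Fin 2) ℤ_[q])
    (hA : ∀ (q : ℕ) [Fact q.Prime], q ∈ S → IsUnit (A q).det) :
    ∃ σ : Γq, ∀ (q : ℕ) [Fact q.Prime], q ∈ S → matZ q hΔ σ = A q := by
  classical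
  let C : ℕ → Set Γq := fun n =>
    {σ : Γq | ∀ (q : ℕ) (_ : Fact q.Prime), q ∈ S → q ≤ n → Cong n (matZ q hΔ σ) (A q)}
  have hcl : ∀ n, IsClosed (C n) := by
    intro n
    have h1 : C n = ⋂ (q : ℕ) (_ : Fact q.Prime) (_ : q ∈ S) (_ : q ≤ n),
        {σ : Γq | Cong n (matZ q hΔ σ) (A q)} := by
      ext σ
      simp only [C, Set.mem_iInter, Set.mem_ofPred_eq]
    rw [h1]
    exact isClosed_iInter fun q => isClosed_iInter fun _ => isClosed_iInter fun _ =>
      isClosed_iInter fun _ => isClosed_cong hΔ (A q) n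
  have hne : (⋂ n : ℕ, C n).Nonempty := by
    apply IsCompact.nonempty_iInter_of_sequence_nonempty_isCompact_isClosed
    · intro n σ hσ q hqf hq hqn
      exact (hσ q hqf hq (hqn.trans (Nat.le_succ n))).of_le (Nat.le_succ n)
    · intro n
      set s : Finset ℕ := (Finset.range (n + 1)).filter (· ∈ S) with hsdef
      have hsS : ∀ q ∈ s, q ∈ S := fun q hq => (Finset.mem_filter.mp hq).2
      obtain ⟨σ, hσ⟩ := exists_gl_fin (Γ := Γq) (fun q _ => matZ q hΔ) s
        (fun q hq => ⟨(hS q (hsS q hq)).1, (hS q (hsS q hq)).2.1⟩)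
        (fun q hqf hq => elem_of_gl (by have := (hS q (hsS q hq)).2.1; omega) fun A hA n =>
          exists_gl (exists_mod hΔ hss (hS q (hsS q hq)).2.2
            (by have := (hS q (hsS q hq)).2.1; omega)) (hS q (hsS q hq)).2.1
            (exists_det_adic hΔ (hS q (hsS q hq)).2.2) A hA n) n A
        (fun q _ hq => hA q (hsS q hq))
        (exists_det_fin hΔ s (fun q hq => (hS q (hsS q hq)).1)
          (fun q hq => (hS q (hsS q hq)).2.2) n (fun q _ => (A q).det)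
          (fun q _ hq => hA q (hsS q hq)))
      refine ⟨σ, fun q hqf hq hqn => hσ q ?_⟩
      rw [hsdef, Finset.mem_filter, Finset.mem_range]
      exact ⟨by omega, hq⟩
    · exact (hcl 0).isCompact
    · exact hcl
  obtain ⟨σ, hσ⟩ := hne
  rw [Set.mem_iInter] at hσ
  refine ⟨σ, fun q hqf hq => ?_⟩
  ext i j
  refine eq_of_dvd fun n => ?_
  have h1 := (hσ (max n q) q hqf hq (le_max_right n q)).of_le (le_max_left n q)
  exact cong_iff.mp h1 i j

/-- **Adelic surjectivity**: `W` semistable, `S` a set of primes `p ≥ 5` with `W[p]` irreducible: every family of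
automorphisms of the Tate modules `T_p W`, `p ∈ S`, is induced by an element of `Gal(ℚ̄/ℚ)`. -/
theorem adelic_surjective (hΔ : W.Δ ≠ 0) (hss : W.IsSemistableModel) (S : Set ℕ)
    (hS : ∀ q ∈ S, q.Prime ∧ 5 ≤ q ∧ W.ModRepIsIrreducible q)
    (f : ∀ (q : ℕ) [Fact q.Prime], TT (WQ W) q ≃ₗ[ℤ_[q]] TT (WQ W) q) :
    ∃ σ : Γq, ∀ (q : ℕ) [Fact q.Prime], q ∈ S → ∀ v : TT (WQ W) q,
      rr (WQ W) q σ v = f q v := by
  obtain ⟨σ, hσ⟩ := exists_matZ_eq_adelic hΔ hss S hS
    (fun q _ => mtx (tB (p := q) hΔ) (f q : Module.End ℤ_[q] (TT (WQ W) q))) (fun q _ _ => by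
      rw [det_mtx]
      exact LinearEquiv.isUnit_det' (f q))
  refine ⟨σ, fun q _ hq v => ?_⟩
  have h1 := hσ q hq
  rw [matZ_apply] at h1
  exact congrArg (fun g : Module.End ℤ_[q] (TT (WQ W) q) => g v)
    ((mtx (tB (p := q) hΔ)).injective h1)

end Fermat.Agent.Cor.Surj
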