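import Mathlib
import Fermat.Agent.Cor.Adelic

/-!
# The Galois group of `ℚ(W[N])` for a semistable elliptic curve `W` over `ℚ`

`Fermat.Agent.Cor.Surj.galois_surjective_tors`: let `W` be a semistable Weierstrass equation over `ℤ`, `Δ ≠ 0`, `N` an
integer coprime to `6` such that `W[p]` is irreducible for all primes `p ∣ N`. Then every automorphism of the group
`W[N]` is induced by an element of `Gal(ℚ̄/ℚ)`.

This file is not used by any of the statement files.
-/

set_option autoImplicit false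
set_option linter.style.haveILetI false

noncomputable section

namespace Fermat.Agent.Cor.Surj

open WeierstrassCurve WeierstrassCurve.Affine WeierstrassCurve.Affine.Point
open Fermat.Agent.Ell Fermat.Agent.H12.LL Fermat.Agent.H11N Matrix

local notation "Qb" => AlgebraicClosure ℚ
local notation "Γq" => AlgebraicClosure ℚ ≃ₐ[ℚ] AlgebraicClosure ℚ

theorem tors_le {P : Type*} [AddCommGroup P] {N d : ℕ} (hd : d ∣ N) :
    Submodule.torsionBy ℤ P (d : ℤ) ≤ Submodule.torsionBy ℤ P (N : ℤ) := by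
  intro x hx
  obtain ⟨k, rfl⟩ := hd
  rw [Submodule.mem_torsionBy_iff, natCast_zsmul] at hx ⊢
  rw [mul_comm, mul_smul, hx, smul_zero]

/-- the restriction of an endomorphism of `P[N]` to `P[d]`, `d ∣ N` -/
def restrTors {P : Type*} [AddCommGroup P] {N d : ℕ} (hd : d ∣ N)
    (f : Submodule.torsionBy ℤ P (N : ℤ) →+ Submodule.torsionBy ℤ P (N : ℤ)) :
    Submodule.torsionBy ℤ P (d : ℤ) →ₗ[ℤ] Submodule.torsionBy ℤ P (d : ℤ) :=
  LinearMap.codRestrict _ ((Submodule.subtype _).comp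
    (f.toIntLinearMap.comp (Submodule.inclusion (tors_le hd)))) (by
    intro x
    have hx : (d : ℤ) • x = 0 := Submodule.smul_torsionBy _ x
    rw [Submodule.mem_torsionBy_iff, ← LinearMap.map_smul, hx, LinearMap.map_zero])

theorem restrTors_coe {P : Type*} [AddCommGroup P] {N d : ℕ} (hd : d ∣ N)
    (f : Submodule.torsionBy ℤ P (N : ℤ) →+ Submodule.torsionBy ℤ P (N : ℤ))
    (x : Submodule.torsionBy ℤ P (d : ℤ)) (y : Submodule.torsionBy ℤ P (N : ℤ))
    (h : (x : P) = y) : (restrTors hd f x : P) = f y := by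
  have h1 : Submodule.inclusion (tors_le hd) x = y := Subtype.ext h
  rw [← h1]
  rfl

/-- restriction of automorphisms -/
def restrEquiv {P : Type*} [AddCommGroup P] {N d : ℕ} (hd : d ∣ N)
    (f : Submodule.torsionBy ℤ P (N : ℤ) ≃+ Submodule.torsionBy ℤ P (N : ℤ)) :
    Submodule.torsionBy ℤ P (d : ℤ) ≃+ Submodule.torsionBy ℤ P (d : ℤ) :=
  AddEquiv.ofBijective (restrTors hd f.toAddMonoidHom).toAddMonoidHom (by
    constructor
    · intro x y hxy
      have h1 : (restrTors hd f.toAddMonoidHom x : P) = restrTors hd f.toAddMonoidHom y :=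
        congrArg (fun z : Submodule.torsionBy ℤ P (d : ℤ) => (z : P)) hxy
      rw [restrTors_coe hd _ x (Submodule.inclusion (tors_le hd) x) rfl,
        restrTors_coe hd _ y (Submodule.inclusion (tors_le hd) y) rfl] at h1
      have h2 := f.injective (Subtype.ext h1)
      exact Submodule.inclusion_injective (tors_le hd) h2
    · intro y
      refine ⟨restrTors hd f.symm.toAddMonoidHom y, Subtype.ext ?_⟩
      have h1 := restrTors_coe hd f.symm.toAddMonoidHom y (Submodule.inclusion (tors_le hd) y) rfl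
      have h2 := restrTors_coe hd f.toAddMonoidHom _ (f.symm (Submodule.inclusion (tors_le hd) y)) h1
      exact h2.trans (congrArg (fun z : Submodule.torsionBy ℤ P (N : ℤ) => (z : P))
        (f.apply_symm_apply (Submodule.inclusion (tors_le hd) y))))

theorem restrEquiv_coe {P : Type*} [AddCommGroup P] {N d : ℕ} (hd : d ∣ N)
    (f : Submodule.torsionBy ℤ P (N : ℤ) ≃+ Submodule.torsionBy ℤ P (N : ℤ))
    (x : Submodule.torsionBy ℤ P (d : ℤ)) (y : Submodule.torsionBy ℤ P (N : ℤ))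
    (h : (x : P) = y) : (restrEquiv hd f x : P) = f y :=
  restrTors_coe hd f.toAddMonoidHom x y h

variable {W : WeierstrassCurve ℤ}

theorem tors_mem {p : ℕ} [Fact p.Prime] (v : TT (WQ W) p) (n : ℕ) :
    v.1 n ∈ Submodule.torsionBy ℤ (Pts (WQ W)) ((p ^ n : ℕ) : ℤ) := by
  rw [Submodule.mem_torsionBy_iff, natCast_zsmul]
  exact TateMod.tors v n

/-- Every automorphism of `W[pⁿ]` lifts to the Tate module. -/
theorem exists_lift_aut (hΔ : W.Δ ≠ 0) {p : ℕ} [hp : Fact p.Prime] {n : ℕ} (hn : n ≠ 0)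
    (f : Submodule.torsionBy ℤ (Pts (WQ W)) ((p ^ n : ℕ) : ℤ) ≃+
      Submodule.torsionBy ℤ (Pts (WQ W)) ((p ^ n : ℕ) : ℤ)) :
    ∃ F : TT (WQ W) p ≃ₗ[ℤ_[p]] TT (WQ W) p, ∀ v : TT (WQ W) p,
      (F v).1 n = (f ⟨v.1 n, tors_mem v n⟩ : Pts (WQ W)) := by
  haveI := isElliptic_WQ hΔ
  let r : TT (WQ W) p → Submodule.torsionBy ℤ (Pts (WQ W)) ((p ^ n : ℕ) : ℤ) :=
    fun v => ⟨v.1 n, tors_mem v n⟩
  have hlift : ∀ x : Submodule.torsionBy ℤ (Pts (WQ W)) ((p ^ n : ℕ) : ℤ), ∃ v, r v = x := by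
    rintro ⟨x, hx⟩
    have hx' := hx
    rw [Submodule.mem_torsionBy_iff, natCast_zsmul] at hx'
    obtain ⟨v, hv⟩ := TateMod.exists_lift (pts_div (WQ W) p) hx'
    exact ⟨v, Subtype.ext hv⟩
  have hlift' : ∀ i, ∃ t, r t = f (r (tB (p := p) hΔ i)) := fun i => hlift _
  choose t ht using hlift'
  set F : TT (WQ W) p →ₗ[ℤ_[p]] TT (WQ W) p := (tB (p := p) hΔ).constr ℤ_[p] t with hF
  have key : ∀ v, r (F v) = f (r v) := by
    intro v
    have hv : v ∈ Submodule.span ℤ_[p] (Set.range (tB (p := p) hΔ)) := by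
      rw [(tB (p := p) hΔ).span_eq]
      trivial
    induction hv using Submodule.span_induction with
    | mem v hv =>
      obtain ⟨i, rfl⟩ := hv
      rw [hF, Module.Basis.constr_basis, ht]
    | zero =>
      rw [_root_.map_zero]
      exact (_root_.map_zero f).symm
    | add v w _ _ hv hw =>
      rw [_root_.map_add]
      have h1 : ∀ v w, r (v + w) = r v + r w := fun _ _ => rfl
      rw [h1, h1, _root_.map_add, hv, hw]
    | smul c v _ hv =>
      rw [_root_.map_smul]
      have h1 : ∀ v, r (c • v) = (c.appr n) • r v := fun v =>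
        Subtype.ext (TateMod.smul_level' c v n)
      rw [h1, h1, map_nsmul, hv]
  haveI : Module.Finite ℤ_[p] (TT (WQ W) p) := .of_basis (tB (p := p) hΔ)
  have hsurj : Function.Surjective F := by
    rw [← LinearMap.range_eq_top, ← top_le_iff]
    refine Submodule.le_of_le_smul_of_le_jacobson_bot (I := IsLocalRing.maximalIdeal ℤ_[p])
      Module.Finite.fg_top (IsLocalRing.maximalIdeal_le_jacobson _) ?_
    intro y _
    obtain ⟨v, hv⟩ := hlift (f.symm (r y))
    have h1 : r (F v) = r y := by rw [key, hv, AddEquiv.apply_symm_apply]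
    have h2 : (y - F v).1 n = 0 := by
      change y.1 n - (F v).1 n = 0
      rw [sub_eq_zero]
      exact (congrArg Subtype.val h1).symm
    rw [← TateMod.mem_smul_top_iff] at h2
    have h3 := Submodule.smul_mono_left (N := (⊤ : Submodule ℤ_[p] (TT (WQ W) p)))
      (Ideal.pow_le_self (I := IsLocalRing.maximalIdeal ℤ_[p]) hn) h2
    rw [show y = F v + (y - F v) by abel]
    exact Submodule.add_mem_sup ⟨v, rfl⟩ h3
  have hinj : Function.Injective F := OrzechProperty.injective_of_surjective_endomorphism F hsurj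
  exact ⟨LinearEquiv.ofBijective F ⟨hinj, hsurj⟩, fun v => congrArg Subtype.val (key v)⟩

/-- **The Galois group of `ℚ(W[N])`**: let `W` be an integral Weierstrass equation, semistable, `Δ ≠ 0`, and `N` a
positive integer prime to `6` such that `W[p]` has no Galois stable line for all primes `p ∣ N`. Then every
automorphism of the group `W[N] ≅ (ℤ/N)²` is induced by an element of `Gal(ℚ̄/ℚ)`. -/
theorem galois_surjective_tors (W : WeierstrassCurve ℤ) (hΔ : W.Δ ≠ 0)
    (hss : W.IsSemistableModel) {N : ℕ} (hN : N.Coprime 6)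
    (hirr : ∀ p : ℕ, p.Prime → p ∣ N → W.ModRepIsIrreducible p)
    (f : Submodule.torsionBy ℤ ((W.map (Int.castRingHom ℚ))⁄(AlgebraicClosure ℚ)).Point (N : ℤ) ≃+
      Submodule.torsionBy ℤ ((W.map (Int.castRingHom ℚ))⁄(AlgebraicClosure ℚ)).Point (N : ℤ)) :
    ∃ σ : AlgebraicClosure ℚ ≃ₐ[ℚ] AlgebraicClosure ℚ, ∀ x, σ • x = f x := by
  classical
  haveI := isElliptic_WQ hΔ
  have hN0 : N ≠ 0 := by
    rintro rfl
    norm_num at hN
  set S : Set ℕ := {q | q.Prime ∧ q ∣ N} with hSdef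
  have hS : ∀ q ∈ S, q.Prime ∧ 5 ≤ q ∧ W.ModRepIsIrreducible q := by
    rintro q ⟨hq, hqN⟩
    refine ⟨hq, ?_, hirr q hq hqN⟩
    have h6 : q.Coprime 6 := Nat.Coprime.coprime_dvd_left hqN hN
    by_contra hlt
    have h2 := hq.two_le
    have hlt' : q < 5 := by omega
    interval_cases q <;> revert h6 hq <;> decide
  have hF : ∀ (q : ℕ) [Fact q.Prime], ∃ F : TT (WQ W) q ≃ₗ[ℤ_[q]] TT (WQ W) q, q ∣ N →
      ∀ v : TT (WQ W) q, (F v).1 (N.factorization q) =
        (restrEquiv (Nat.ordProj_dvd N q) f ⟨v.1 _, tors_mem v _⟩ : Pts (WQ W)) := by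
    intro q hqf
    by_cases hqN : q ∣ N
    · obtain ⟨F, hF⟩ := exists_lift_aut hΔ (hqf.out.factorization_pos_of_dvd hN0 hqN).ne'
        (restrEquiv (Nat.ordProj_dvd N q) f)
      exact ⟨F, fun _ => hF⟩
    · exact ⟨LinearEquiv.refl _ _, fun h => absurd h hqN⟩
  choose F hF using hF
  obtain ⟨σ, hσ⟩ := adelic_surjective hΔ hss S hS F
  refine ⟨σ, fun x => ?_⟩
  apply Subtype.ext
  set y : Pts (WQ W) := σ • (x : Pts (WQ W)) - (f x : Pts (WQ W)) with hy
  suffices hy0 : y = 0 from sub_eq_zero.mp hy0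
  have hNx : N • (x : Pts (WQ W)) = 0 := by
    have := x.2
    rwa [Submodule.mem_torsionBy_iff, natCast_zsmul] at this
  have hNfx : N • (f x : Pts (WQ W)) = 0 := by
    have := (f x).2
    rwa [Submodule.mem_torsionBy_iff, natCast_zsmul] at this
  have hsm : ∀ (k : ℕ) (z : Pts (WQ W)), k • (σ • z) = σ • (k • z) := fun k z =>
    (map_nsmul (DistribSMul.toAddMonoidHom (Pts (WQ W)) σ) k z).symm
  have hNy : N • y = 0 := by
    rw [hy, nsmul_sub, hNfx, hsm, hNx, sub_zero]
    exact smul_zero (A := Pts (WQ W)) σ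
  have hqy : ∀ q : ℕ, q.Prime → q ∣ N → (N / q ^ N.factorization q) • y = 0 := by
    intro q hq hqN
    haveI : Fact q.Prime := ⟨hq⟩
    set k := N.factorization q with hk
    set c := N / q ^ k with hc
    have hcN : q ^ k * c = N := Nat.ordProj_mul_ordCompl_eq_self N q
    -- the point `c x ∈ W[q ^ k]`
    have hcx : q ^ k • (c • (x : Pts (WQ W))) = 0 := by rw [← mul_smul, hcN, hNx]
    obtain ⟨v, hv⟩ := TateMod.exists_lift (pts_div (WQ W) q) hcx
    have h1 := hσ q ⟨hq, hqN⟩ v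
    have h2 : σ • v.1 k = (F q v).1 k := congrArg (fun w : TT (WQ W) q => w.1 k) h1
    rw [hF q hqN v, restrEquiv_coe (Nat.ordProj_dvd N q) f _ (c • x) hv, map_nsmul] at h2
    rw [hy, nsmul_sub, hsm, ← hv, h2, sub_eq_zero]
    rfl
  -- the order of `y`
  rw [← AddMonoid.addOrderOf_eq_one_iff]
  by_contra hne
  obtain ⟨q, hq, hqy'⟩ := Nat.exists_prime_and_dvd hne
  have h1 : q ∣ N := hqy'.trans (addOrderOf_dvd_of_nsmul_eq_zero hNy)
  exact Nat.not_dvd_ordCompl hq hN0 (hqy'.trans (addOrderOf_dvd_of_nsmul_eq_zero (hqy q hq h1)))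

end Fermat.Agent.Cor.Surj
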