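import Mathlib
import Fermat.Agent.Cor.AdelicTors

/-!
# Consequences of the surjectivity of the Galois representations of semistable elliptic curves

Let `W` be a semistable elliptic curve over `ℚ`.

* `tors_independent`: the fields `ℚ(W[N])` and `ℚ(W[M])` are linearly disjoint over `ℚ` for `N`, `M` coprime (both
  coprime to `6` and with `W[p]` irreducible for all primes `p ∣ N M`);
* `no_abelian_torsion`: for `N` odd with `W[p]` irreducible for all `p ∣ N`, the curve `W` has no nonzero `N`-torsion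
  point over the maximal abelian extension of `ℚ`;
* `scalar_of_commute`: for `p ≥ 5` with `W[p]` irreducible, every endomorphism of `T_p W` which commutes with an open
  (or only finite index) subgroup of `Gal(ℚ̄/ℚ)` is a scalar (no potential complex multiplication).

This file is not used by any of the statement files.
-/

set_option autoImplicit false
set_option linter.style.haveILetI false

noncomputable section

namespace Fermat.Agent.Cor.Surj

open WeierstrassCurve WeierstrassCurve.Affine WeierstrassCurve.Affine.Point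
open Fermat.Agent.Ell Fermat.Agent.H12.LL Fermat.Agent.H11N Matrix
open Fermat.Agent.EGal (VV rho)

local notation "Qb" => AlgebraicClosure ℚ
local notation "Γq" => AlgebraicClosure ℚ ≃ₐ[ℚ] AlgebraicClosure ℚ

variable {W : WeierstrassCurve ℤ}

/-- Two Galois automorphisms which agree on the Tate modules `T_q W`, `q ∣ N`, agree on `W[N]`. -/
theorem agree_of_tate (hΔ : W.Δ ≠ 0) {N : ℕ} (hN0 : N ≠ 0) {σ τ : Γq}
    (h : ∀ (q : ℕ) [Fact q.Prime], q ∣ N → ∀ v : TT (WQ W) q, rr (WQ W) q σ v = rr (WQ W) q τ v)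
    {x : Pts (WQ W)} (hx : N • x = 0) : σ • x = τ • x := by
  haveI := isElliptic_WQ hΔ
  set y : Pts (WQ W) := σ • x - τ • x with hy
  suffices hy0 : y = 0 from sub_eq_zero.mp hy0
  have hsm : ∀ (ρ : Γq) (k : ℕ) (z : Pts (WQ W)), k • (ρ • z) = ρ • (k • z) := fun ρ k z =>
    (map_nsmul (DistribSMul.toAddMonoidHom (Pts (WQ W)) ρ) k z).symm
  have hs0 : ∀ ρ : Γq, ρ • (0 : Pts (WQ W)) = 0 := fun ρ => smul_zero (A := Pts (WQ W)) ρ
  have hNy : N • y = 0 := by
    rw [hy, nsmul_sub, hsm, hsm, hx, hs0, hs0, sub_zero]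
  have hqy : ∀ q : ℕ, q.Prime → q ∣ N → (N / q ^ N.factorization q) • y = 0 := by
    intro q hq hqN
    haveI : Fact q.Prime := ⟨hq⟩
    set k := N.factorization q with hk
    set c := N / q ^ k with hc
    have hcN : q ^ k * c = N := Nat.ordProj_mul_ordCompl_eq_self N q
    have hcx : q ^ k • (c • x) = 0 := by rw [← mul_smul, hcN, hx]
    obtain ⟨v, hv⟩ := TateMod.exists_lift (pts_div (WQ W) q) hcx
    have h2 : σ • v.1 k = τ • v.1 k := congrArg (fun w : TT (WQ W) q => w.1 k) (h q hqN v)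
    rw [hy, nsmul_sub, hsm, hsm, ← hv, h2, sub_self]
  rw [← AddMonoid.addOrderOf_eq_one_iff]
  by_contra hne
  obtain ⟨q, hq, hqy'⟩ := Nat.exists_prime_and_dvd hne
  have h1 : q ∣ N := hqy'.trans (addOrderOf_dvd_of_nsmul_eq_zero hNy)
  exact Nat.not_dvd_ordCompl hq hN0 (hqy'.trans (addOrderOf_dvd_of_nsmul_eq_zero (hqy q hq h1)))

theorem five_le_of_dvd {N q : ℕ} (hN : N.Coprime 6) (hq : q.Prime) (hqN : q ∣ N) : 5 ≤ q := by
  have h6 : q.Coprime 6 := Nat.Coprime.coprime_dvd_left hqN hN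
  by_contra hlt
  have h2 := hq.two_le
  have hlt' : q < 5 := by omega
  interval_cases q <;> revert h6 hq <;> decide

/-- **Linear disjointness** of the fields `ℚ(W[N])` and `ℚ(W[M])`, `N` and `M` coprime. -/
theorem tors_independent (W : WeierstrassCurve ℤ) (hΔ : W.Δ ≠ 0) (hss : W.IsSemistableModel)
    {N M : ℕ} (hN : N.Coprime 6) (hM : M.Coprime 6) (hNM : N.Coprime M)
    (hirrN : ∀ p : ℕ, p.Prime → p ∣ N → W.ModRepIsIrreducible p)
    (hirrM : ∀ p : ℕ, p.Prime → p ∣ M → W.ModRepIsIrreducible p)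
    (σ τ : AlgebraicClosure ℚ ≃ₐ[ℚ] AlgebraicClosure ℚ) :
    ∃ ρ : AlgebraicClosure ℚ ≃ₐ[ℚ] AlgebraicClosure ℚ,
      (∀ x : ((W.map (Int.castRingHom ℚ))⁄(AlgebraicClosure ℚ)).Point, N • x = 0 → ρ • x = σ • x) ∧
      (∀ x : ((W.map (Int.castRingHom ℚ))⁄(AlgebraicClosure ℚ)).Point, M • x = 0 → ρ • x = τ • x) := by
  classical
  haveI := isElliptic_WQ hΔ
  have hN0 : N ≠ 0 := by
    rintro rfl
    norm_num at hN
  have hM0 : M ≠ 0 := by
    rintro rfl
    norm_num at hM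
  obtain ⟨ρ, hρ⟩ := exists_matZ_eq_adelic hΔ hss {q | q.Prime ∧ (q ∣ N ∨ q ∣ M)} (by
      rintro q ⟨hq, h | h⟩
      · exact ⟨hq, five_le_of_dvd hN hq h, hirrN q hq h⟩
      · exact ⟨hq, five_le_of_dvd hM hq h, hirrM q hq h⟩)
    (fun q _ => if q ∣ N then matZ q hΔ σ else matZ q hΔ τ) (fun q hqf _ => by
      split_ifs
      · exact IsUnit.of_mul_eq_one _ (det_mul_det_inv (matZ q hΔ) σ)
      · exact IsUnit.of_mul_eq_one _ (det_mul_det_inv (matZ q hΔ) τ))
  have hinj : ∀ (q : ℕ) [Fact q.Prime] (ρ σ : Γq), matZ q hΔ ρ = matZ q hΔ σ →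
      ∀ v : TT (WQ W) q, rr (WQ W) q ρ v = rr (WQ W) q σ v := by
    intro q _ ρ σ h1 v
    rw [matZ_apply, matZ_apply] at h1
    exact congrArg (fun g : Module.End ℤ_[q] (TT (WQ W) q) => g v)
      ((mtx (tB (p := q) hΔ)).injective h1)
  refine ⟨ρ, fun x hx => ?_, fun x hx => ?_⟩
  · refine agree_of_tate hΔ hN0 (fun q hqf hqN => hinj q ρ σ ?_) hx
    rw [hρ q ⟨hqf.out, Or.inl hqN⟩, if_pos hqN]
  · refine agree_of_tate hΔ hM0 (fun q hqf hqM => hinj q ρ τ ?_) hx
    have hqN : ¬ q ∣ N := fun hqN => by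
      have := Nat.dvd_gcd hqN hqM
      rw [hNM] at this
      exact hqf.out.one_lt.ne' (Nat.dvd_one.mp this)
    rw [hρ q ⟨hqf.out, Or.inr hqM⟩, if_neg hqN]

/-- The fixed points of the commutator subgroup in `W[p]`, `p` odd and `W[p]` irreducible. -/
theorem no_abelian_torsion_prime (hΔ : W.Δ ≠ 0) (hss : W.IsSemistableModel) {p : ℕ}
    [hp : Fact p.Prime] (hp2 : p ≠ 2) (hirr : W.ModRepIsIrreducible p) (x : VV (WQ W) p)
    (hx : ∀ σ τ : Γq, (σ * τ * σ⁻¹ * τ⁻¹) • x = x) : x = 0 := by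
  haveI := isElliptic_WQ hΔ
  -- the fixed space of the commutators
  let F : Submodule (ZMod p) (VV (WQ W) p) :=
    { carrier := {x | ∀ σ τ : Γq, rho (WQ W) p (σ * τ * σ⁻¹ * τ⁻¹) x = x}
      zero_mem' := fun σ τ => LinearMap.map_zero _
      add_mem' := fun {a b} ha hb σ τ => by rw [LinearMap.map_add, ha, hb]
      smul_mem' := fun c a ha σ τ => by rw [LinearMap.map_smul, ha] }
  have hF : ∀ (g : Γq), ∀ y ∈ F, g • y ∈ F := by
    intro g y hy σ τ
    have h1 : σ * τ * σ⁻¹ * τ⁻¹ * g =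
        g * ((g⁻¹ * σ * g) * (g⁻¹ * τ * g) * (g⁻¹ * σ * g)⁻¹ * (g⁻¹ * τ * g)⁻¹) := by group
    change rho (WQ W) p (σ * τ * σ⁻¹ * τ⁻¹) (rho (WQ W) p g y) = rho (WQ W) p g y
    rw [← Module.End.mul_apply, ← map_mul, h1, map_mul, Module.End.mul_apply,
      hy (g⁻¹ * σ * g) (g⁻¹ * τ * g)]
  rcases hirr.2 F hF with h | h
  · have : x ∈ F := hx
    rwa [h, Submodule.mem_bot] at this
  · exfalso
    -- the image is commutative
    have hcomm : ∀ σ τ : Γq, mat p hΔ σ * mat p hΔ τ = mat p hΔ τ * mat p hΔ σ := by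
      intro σ τ
      have h1 : rho (WQ W) p (σ * τ * σ⁻¹ * τ⁻¹) = 1 := by
        refine LinearMap.ext fun y => ?_
        have hy : y ∈ F := by rw [h]; trivial
        exact hy σ τ
      have h2 : mat p hΔ (σ * τ * σ⁻¹ * τ⁻¹) = 1 := by rw [mat_eq, h1, map_one]
      have h3 : σ * τ = (σ * τ * σ⁻¹ * τ⁻¹) * (τ * σ) := by group
      rw [← map_mul, h3, map_mul, h2, one_mul, map_mul]
    haveI : Module.Finite (ZMod p) (VV (WQ W) p) := .of_basis (redBasis (tB (p := p) hΔ))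
    have hall : ∀ A : Matrix (Fin 2) (Fin 2) (ZMod p), A.det ≠ 0 → ∃ σ : Γq, mat p hΔ σ = A := by
      intro A hA
      set m := mtx (redBasis (tB (p := p) hΔ)) with hm
      have hf : m (m.symm A) = A := m.apply_symm_apply _
      have hdet : LinearMap.det (m.symm A) ≠ 0 := by
        rw [← det_mtx (redBasis (tB (p := p) hΔ)), ← hm, hf]
        exact hA
      obtain ⟨σ, hσ⟩ := surjective hΔ hss hirr hp2 (LinearMap.equivOfDetNeZero _ hdet)
      have h1 : rho (WQ W) p σ = m.symm A := LinearMap.ext hσ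
      exact ⟨σ, by rw [mat_eq, h1, ← hm, hf]⟩
    obtain ⟨σ, hσ⟩ := hall !![1, 1; 0, 1] (by simp [det_fin_two])
    obtain ⟨τ, hτ⟩ := hall !![1, 0; 1, 1] (by simp [det_fin_two])
    have h1 := hcomm σ τ
    rw [hσ, hτ] at h1
    have h2 := congrFun (congrFun h1 0) 0
    simp [Matrix.mul_apply, Fin.sum_univ_two] at h2

/-- **No torsion over abelian extensions**: let `W` be semistable and `N` odd with `W[p]` irreducible for all primes
`p ∣ N`. Then no nonzero point of `W[N]` is fixed by all the commutators of `Gal(ℚ̄/ℚ)`, i.e. `W(ℚᵃᵇ)[N] = 0`. -/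
theorem no_abelian_torsion (W : WeierstrassCurve ℤ) (hΔ : W.Δ ≠ 0) (hss : W.IsSemistableModel)
    {N : ℕ} (hN : Odd N) (hirr : ∀ p : ℕ, p.Prime → p ∣ N → W.ModRepIsIrreducible p)
    (x : ((W.map (Int.castRingHom ℚ))⁄(AlgebraicClosure ℚ)).Point) (hNx : N • x = 0)
    (hx : ∀ σ τ : AlgebraicClosure ℚ ≃ₐ[ℚ] AlgebraicClosure ℚ, (σ * τ * σ⁻¹ * τ⁻¹) • x = x) :
    x = 0 := by
  rw [← AddMonoid.addOrderOf_eq_one_iff]
  by_contra hne
  obtain ⟨q, hq, hqx⟩ := Nat.exists_prime_and_dvd hne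
  have hqN : q ∣ N := hqx.trans (addOrderOf_dvd_of_nsmul_eq_zero hNx)
  have hN0 : N ≠ 0 := by rintro rfl; simp at hN
  have hq2 : q ≠ 2 := by
    rintro rfl
    exact (Nat.not_even_iff_odd.mpr hN) (even_iff_two_dvd.mpr hqN)
  haveI : Fact q.Prime := ⟨hq⟩
  obtain ⟨k, hk⟩ := hqx
  have hord : 0 < addOrderOf x := Nat.pos_of_ne_zero fun h => hN0 (by
    have := addOrderOf_dvd_of_nsmul_eq_zero hNx
    rw [h] at this
    exact Nat.eq_zero_of_zero_dvd this)
  have hy : q • (k • x) = 0 := by rw [← mul_smul, ← hk, addOrderOf_nsmul_eq_zero]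
  have hmem : k • x ∈ Submodule.torsionBy ℤ (Pts (WQ W)) (q : ℤ) := by
    rw [Submodule.mem_torsionBy_iff, natCast_zsmul]
    exact hy
  have h0 := no_abelian_torsion_prime hΔ hss hq2 (hirr q hq hqN) ⟨k • x, hmem⟩ (fun σ τ => by
    apply Subtype.ext
    change (σ * τ * σ⁻¹ * τ⁻¹) • (k • x : Pts (WQ W)) = k • x
    have h1 : (σ * τ * σ⁻¹ * τ⁻¹) • (k • x : Pts (WQ W)) =
        k • ((σ * τ * σ⁻¹ * τ⁻¹) • x : Pts (WQ W)) :=
      map_nsmul (DistribSMul.toAddMonoidHom (Pts (WQ W)) (σ * τ * σ⁻¹ * τ⁻¹)) k x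
    rw [h1]
    exact congrArg (fun z : Pts (WQ W) => k • z) (hx σ τ))
  have h1 : k • x = 0 := congrArg Subtype.val h0
  have h2 : addOrderOf x ∣ k := addOrderOf_dvd_of_nsmul_eq_zero h1
  have hk0 : 0 < k := by
    rcases Nat.eq_zero_or_pos k with rfl | h
    · rw [mul_zero] at hk
      omega
    · exact h
  have h3 := Nat.le_of_dvd hk0 h2
  rw [hk] at h3
  have := hq.two_le
  nlinarith

/-- **No potential complex multiplication**: `W` semistable, `p ≥ 5` with `W[p]` irreducible: every endomorphism of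
the Tate module `T_p W` which commutes with a subgroup of finite index of `Gal(ℚ̄/ℚ)` is a scalar. -/
theorem scalar_of_commute (hΔ : W.Δ ≠ 0) (hss : W.IsSemistableModel) {p : ℕ}
    [hp : Fact p.Prime] (hp5 : 5 ≤ p) (hirr : W.ModRepIsIrreducible p) (H : Subgroup Γq)
    [H.FiniteIndex] (g : Module.End ℤ_[p] (TT (WQ W) p))
    (hg : ∀ σ ∈ H, g * rr (WQ W) p σ = rr (WQ W) p σ * g) : ∃ c : ℤ_[p], g = c • 1 := by
  set m := mtx (tB (p := p) hΔ) with hm
  set G := m g with hG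
  have hcomm : ∀ σ ∈ H, G * matZ p hΔ σ = matZ p hΔ σ * G := by
    intro σ hσ
    rw [matZ_apply, hG, hm, ← map_mul, hg σ hσ, map_mul]
  obtain ⟨τ, hτ⟩ := exists_matZ_eq hΔ hss hirr hp5 !![1, 1; 0, 1] (by simp [det_fin_two])
  obtain ⟨τ', hτ'⟩ := exists_matZ_eq hΔ hss hirr hp5 !![1, 0; 1, 1] (by simp [det_fin_two])
  obtain ⟨k, hk0, -, hk⟩ := H.exists_pow_mem_of_index_ne_zero Subgroup.FiniteIndex.index_ne_zero τ
  obtain ⟨k', hk0', -, hk'⟩ :=
    H.exists_pow_mem_of_index_ne_zero Subgroup.FiniteIndex.index_ne_zero τ'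
  have h1 := hcomm _ hk
  have h2 := hcomm _ hk'
  rw [map_pow, hτ, upper_pow, mul_one] at h1
  rw [map_pow, hτ', lower_pow, mul_one] at h2
  have hkp : (k : ℤ_[p]) ≠ 0 := by exact_mod_cast hk0.ne'
  have hkp' : (k' : ℤ_[p]) ≠ 0 := by exact_mod_cast hk0'.ne'
  have e1 := congrFun (congrFun h1 0) 0
  have e2 := congrFun (congrFun h1 0) 1
  have e3 := congrFun (congrFun h2 0) 0
  simp [Matrix.mul_apply, Fin.sum_univ_two] at e1 e2 e3
  have h10 : G 1 0 = 0 := by
    rcases e1 with h | h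
    · exact absurd h (by exact_mod_cast hkp)
    · exact h
  have h01 : G 0 1 = 0 := by
    rcases e3 with h | h
    · exact h
    · exact absurd h (by exact_mod_cast hkp')
  have h11 : G 0 0 = G 1 1 := by
    apply mul_right_cancel₀ hkp
    linear_combination e2
  refine ⟨G 0 0, m.injective ?_⟩
  rw [← hG, map_smul, map_one]
  ext i j
  fin_cases i <;> fin_cases j <;> simp [h10, h01, h11]

end Fermat.Agent.Cor.Surj
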