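import Fermat.Agent.Cor.Chebotarev

/-!
# Consequences of Chebotarev's theorem

* `infinite_frobenius` : every element of `Gal(L/ℚ)` is a Frobenius element at infinitely many primes;
* `exists_frobenius_dense` : the Frobenius elements outside a finite set of primes are dense in the
  absolute Galois group of `ℚ`.
-/

set_option autoImplicit false
set_option linter.unusedSectionVars false
set_option linter.style.haveILetI false

open scoped Classical nonZeroDivisors Topology Pointwise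

namespace Fermat.Agent.Cor.Cheb

open NumberField Filter IsDedekindDomain Module IntermediateField Fermat.Agent.CFT Fermat.Agent.H03
  Fermat.Agent.ZC Fermat.Agent.H25 Fermat.Agent.DS Ideal MulAction

noncomputable section

theorem infinite_frobSet (F : IntermediateField ℚ Qb) [NumberField F] [IsGalois ℚ F]
    (g : Gal(F/ℚ)) : {p : ℕ | p.Prime ∧ p ∈ FrobSet g}.Infinite := by
  intro hfin
  obtain ⟨C, hC⟩ := bddQ_finite hfin
  obtain ⟨E, hE⟩ := exists_lower_class1 F g (ε := 1 / 2) (by norm_num)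
  have h1 : ∀ᶠ s in 𝓝[>] (1 : ℝ), ell s ≤ 2 *
      ((Nat.card (Subgroup.centralizer {g} : Subgroup Gal(F/ℚ)) : ℝ) * C + E) := by
    filter_upwards [hC, hE] with s h1 h2
    have h3 : qsum (FrobSet g) s = qsum {p : ℕ | p.Prime ∧ p ∈ FrobSet g} s := by
      rw [qsum, qsum]
      refine tsum_congr fun p => ?_
      by_cases h : (p : ℕ) ∈ FrobSet g
      · rw [if_pos h, if_pos (show (p : ℕ) ∈ {p : ℕ | p.Prime ∧ p ∈ FrobSet g} from ⟨p.2, h⟩)]
      · rw [if_neg h, if_neg fun h' => h h'.2]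
    rw [← h3] at h1
    have h4 := mul_le_mul_of_nonneg_left h1 (Nat.cast_nonneg (α := ℝ)
      (Nat.card (Subgroup.centralizer {g} : Subgroup Gal(F/ℚ))))
    linarith
  obtain ⟨s, h2, h3⟩ := (h1.and (tendsto_ell.eventually_gt_atTop (2 *
      ((Nat.card (Subgroup.centralizer {g} : Subgroup Gal(F/ℚ)) : ℝ) * C + E)))).exists
  linarith

/-- every element is a Frobenius element at infinitely many primes -/
theorem infinite_frobenius (L : Type*) [Field L] [NumberField L] [IsGalois ℚ L] (g : Gal(L/ℚ)) :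
    {p : ℕ | p.Prime ∧ ∃ P : Ideal (𝓞 L), P.IsPrime ∧ P.LiesOver (Ideal.span {(p : ℤ)}) ∧
      IsArithFrobAt ℤ g P}.Infinite := by
  let i : L →ₐ[ℚ] Qb := IsAlgClosed.lift
  let F : IntermediateField ℚ Qb := i.fieldRange
  let e : L ≃ₐ[ℚ] F := AlgEquiv.ofInjectiveField i
  haveI : FiniteDimensional ℚ F := Module.Finite.equiv e.toLinearEquiv
  haveI : NumberField F := { to_charZero := inferInstance, to_finiteDimensional := inferInstance }
  haveI : IsGalois ℚ F := IsGalois.of_algEquiv e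
  have h := infinite_frobSet F (e.autCongr g)
  rw [frobSet_transport e g] at h
  exact h

/-- **Frobenius elements are dense**, normal fields. -/
theorem exists_frobenius_of_normal (F : IntermediateField ℚ Qb) [FiniteDimensional ℚ F]
    [IsGalois ℚ F] (σ : GQ) (T : Finset ℕ) : ∃ (ℓ : ℕ) (A : ValuationSubring Qb) (φ : GQ),
      ℓ.Prime ∧ ℓ ∉ T ∧ A.LiesOverPrime ℓ ∧ A.IsFrobeniusAt φ ℓ ∧
        σ⁻¹ * φ ∈ F.fixingSubgroup := by
  haveI : NumberField F := { to_charZero := inferInstance, to_finiteDimensional := inferInstance }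
  have h := infinite_frobSet F (AlgEquiv.restrictNormalHom F σ)
  obtain ⟨p, ⟨hp, P, hP, hPo, hφ⟩, hpT⟩ :=
    h.exists_notMem_finset (T ∪ (discr F).natAbs.divisors)
  rw [Finset.mem_union, not_or] at hpT
  have hdisc : ¬ (p : ℤ) ∣ discr F := by
    intro h
    apply hpT.2
    rw [Nat.mem_divisors]
    exact ⟨Int.natCast_dvd.mp h, Int.natAbs_ne_zero.mpr (discr_ne_zero F)⟩
  have hur : Algebra.IsUnramifiedIn (𝓞 F) (Ideal.span {(p : ℤ)}) :=
    (not_dvd_discr_iff_isUnramifiedIn F (𝓞 F) (Nat.prime_iff_prime_int.mp hp)).mp hdisc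
  obtain ⟨A, φ, hA, hF, hres⟩ := exists_lift_frob F hp hur hP hPo hφ
  exact ⟨p, A, φ, hp, hpT.1, hA, hF, (restrict_eq_iff F).mp hres.symm⟩

/-- **Frobenius elements are dense** in the absolute Galois group of `ℚ`. -/
theorem exists_frobenius_dense {U : Subgroup GQ} (hU : IsOpen (U : Set GQ)) (σ : GQ)
    (T : Finset ℕ) : ∃ (ℓ : ℕ) (A : ValuationSubring Qb) (φ : GQ),
      ℓ.Prime ∧ ℓ ∉ T ∧ A.LiesOverPrime ℓ ∧ A.IsFrobeniusAt φ ℓ ∧ σ⁻¹ * φ ∈ U := by
  have hg : IsGalois ℚ Qb := H51.isGalois_Qbar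
  obtain ⟨E, hE1, hE2, hE3⟩ := (krullTopology_mem_nhds_one_iff_of_normal ℚ Qb (U : Set GQ)).mp
    (hU.mem_nhds U.one_mem)
  haveI : IsGalois ℚ E := { to_isSeparable := inferInstance, to_normal := hE2 }
  obtain ⟨ℓ, A, φ, h1, h2, h3, h4, h5⟩ := exists_frobenius_of_normal E σ T
  exact ⟨ℓ, A, φ, h1, h2, h3, h4, hE3 h5⟩

/-- **Frobenius elements are dense**, infinitely many primes. -/
theorem infinite_frobenius_dense {U : Subgroup GQ} (hU : IsOpen (U : Set GQ)) (σ : GQ) :
    {ℓ : ℕ | ℓ.Prime ∧ ∃ (A : ValuationSubring Qb) (φ : GQ), A.LiesOverPrime ℓ ∧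
      A.IsFrobeniusAt φ ℓ ∧ σ⁻¹ * φ ∈ U}.Infinite := by
  intro hfin
  obtain ⟨ℓ, A, φ, h1, h2, h3, h4, h5⟩ := exists_frobenius_dense hU σ hfin.toFinset
  exact h2 (hfin.mem_toFinset.mpr ⟨h1, A, φ, h3, h4, h5⟩)

end

end Fermat.Agent.Cor.Cheb
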