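import Fermat.Agent.Cor.ChebotarevNF
import Fermat.Agent.Cor.ChebotarevGal

/-!
# Densities of sets of primes defined by Galois representations

* `density_of_hom` : let `ρ` be a homomorphism from the absolute Galois group of `ℚ` to a finite group
  `G`, with open kernel, `C ⊆ G`, and `S` a set such that, outside a finite set of primes, `p ∈ S` iff
  `ρ(Frob_p) ∈ C`.  Then `S` has Dirichlet density `|C ∩ im ρ| / |im ρ|`.
* `density_arith` : Dirichlet's theorem on arithmetic progressions (Dirichlet density `1/φ(m)`).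
-/

set_option autoImplicit false
set_option linter.unusedSectionVars false
set_option linter.style.haveILetI false

open scoped Classical nonZeroDivisors Topology Pointwise

namespace Fermat.Agent.Cor.Cheb

open NumberField Filter IsDedekindDomain Module IntermediateField Fermat.Agent.CFT Fermat.Agent.H03
  Fermat.Agent.ZC Fermat.Agent.H25 Fermat.Agent.DS Ideal MulAction

noncomputable section

/-- the primes which belong to `S` have Dirichlet density `δ` -/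
def HasDensity (S : Set ℕ) (δ : ℝ) : Prop :=
  Tendsto (fun s : ℝ => (∑' p : Nat.Primes, if (p : ℕ) ∈ S then 1 / ((p : ℕ) : ℝ) ^ s else 0) /
    ∑' p : Nat.Primes, 1 / ((p : ℕ) : ℝ) ^ s) (𝓝[>] 1) (𝓝 δ)

theorem hasDensity_iff {S : Set ℕ} {δ : ℝ} : HasDensity S δ ↔
    Tendsto (fun s : ℝ => qsum S s / qsum Set.univ s) (𝓝[>] 1) (𝓝 δ) := by
  rw [HasDensity]
  refine tendsto_congr fun s => ?_
  rw [qsum, qsum]
  simp only [Set.mem_univ, if_true]

theorem tendsto_of_bounds2 {f t : ℝ → ℝ} {a : ℝ}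
    (hlow : ∀ ε : ℝ, 0 < ε → ∃ E : ℝ, ∀ᶠ s in 𝓝[>] (1 : ℝ), (a - ε) * ell s - E ≤ f s)
    (hup : ∀ ε : ℝ, 0 < ε → ∃ E : ℝ, ∀ᶠ s in 𝓝[>] (1 : ℝ), f s ≤ (a + ε) * ell s + E)
    (ht : ∃ C : ℝ, ∀ᶠ s in 𝓝[>] (1 : ℝ), |t s - ell s| ≤ C) :
    Tendsto (fun s : ℝ => f s / t s) (𝓝[>] 1) (𝓝 a) := by
  have h1 : Tendsto (fun s : ℝ => f s / ell s) (𝓝[>] 1) (𝓝 a) := by
    rw [Metric.tendsto_nhds]
    intro ε hε
    obtain ⟨E₁, hE₁⟩ := hlow (ε / 4) (by positivity)
    obtain ⟨E₂, hE₂⟩ := hup (ε / 4) (by positivity)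
    filter_upwards [hE₁, hE₂, tendsto_ell.eventually_gt_atTop 0,
      tendsto_ell.eventually_gt_atTop (4 * (|E₁| + |E₂|) / ε)] with s h1 h2 h3 h4
    rw [Real.dist_eq, abs_lt]
    have h5 : 4 * (|E₁| + |E₂|) < ell s * ε := by rwa [div_lt_iff₀ hε] at h4
    have h6 := le_abs_self E₁
    have h7 := le_abs_self E₂
    have h8 := abs_nonneg E₁
    have h9 := abs_nonneg E₂
    constructor
    · rw [lt_sub_iff_add_lt, lt_div_iff₀ h3]
      nlinarith
    · rw [sub_lt_iff_lt_add, div_lt_iff₀ h3]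
      nlinarith
  have h2 : Tendsto (fun s : ℝ => t s / ell s) (𝓝[>] 1) (𝓝 1) := by
    obtain ⟨C, hC⟩ := ht
    rw [Metric.tendsto_nhds]
    intro ε hε
    filter_upwards [hC, tendsto_ell.eventually_gt_atTop 0,
      tendsto_ell.eventually_gt_atTop (C / ε)] with s h1 h3 h4
    rw [Real.dist_eq, div_sub_one h3.ne', abs_div, abs_of_pos h3, div_lt_iff₀ h3]
    rw [div_lt_iff₀ hε] at h4
    rw [mul_comm]
    exact h1.trans_lt h4
  have h3 := h1.div h2 one_ne_zero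
  rw [div_one] at h3
  refine h3.congr' ?_
  filter_upwards [tendsto_ell.eventually_gt_atTop 0] with s hs
  simp only [Pi.div_apply]
  rw [div_div_div_cancel_right₀ hs.ne']

section field

variable (F : IntermediateField ℚ Qb) [NumberField F] [IsGalois ℚ F]

/-- **Chebotarev**, lower bound for class functions -/
theorem cheb1 (φ : Gal(F/ℚ) → ℝ) (h0 : ∀ g, 0 ≤ φ g) (hconj : ∀ g h, φ (h * g * h⁻¹) = φ g)
    (b : ℕ → ℝ) (hb0 : ∀ p, 0 ≤ b p) (Z : Finset ℕ)
    (hb : ∀ p : ℕ, p.Prime → p ∉ Z → ∀ g, p ∈ FrobSet g → φ g ≤ b p)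
    (hsum : ∀ s : ℝ, 1 < s → Summable fun p : Nat.Primes => b p * (1 / ((p : ℕ) : ℝ) ^ s))
    {ε : ℝ} (hε : 0 < ε) :
    ∃ E : ℝ, ∀ᶠ s in 𝓝[>] (1 : ℝ),
      (1 - ε) * ((∑ g, φ g) / Nat.card Gal(F/ℚ)) * ell s - E ≤
        ∑' p : Nat.Primes, b p * (1 / ((p : ℕ) : ℝ) ^ s) := by
  have hG0 : (0 : ℝ) < Nat.card Gal(F/ℚ) := by exact_mod_cast Nat.card_pos
  choose E hE using fun g : Gal(F/ℚ) => exists_lower_class1 F g hε
  set W : Set ℕ := (Z : Set ℕ) ∪ ((discr F).natAbs.divisors : Set ℕ) with hW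
  obtain ⟨Cw, hCw⟩ := bddQ_finite (T := W) (Z.finite_toSet.union (Finset.finite_toSet _))
  have hE' : ∀ᶠ s in 𝓝[>] (1 : ℝ), ∀ g : Gal(F/ℚ), (1 - ε) * ell s - E g ≤
      (Nat.card (Subgroup.centralizer {g} : Subgroup Gal(F/ℚ)) : ℝ) *
        qsum (FrobSet g) s := eventually_all.mpr hE
  set M : ℝ := ∑ g : Gal(F/ℚ), φ g *
    (Nat.card (Subgroup.centralizer {g} : Subgroup Gal(F/ℚ)) : ℝ) with hM
  have hM0 : 0 ≤ M := Finset.sum_nonneg fun g _ => mul_nonneg (h0 g) (Nat.cast_nonneg _)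
  refine ⟨(∑ g, φ g * E g) / Nat.card Gal(F/ℚ) + M * Cw / Nat.card Gal(F/ℚ), ?_⟩
  filter_upwards [hE', hCw, eventually_Ioc] with s h1 h2 hs
  -- the main comparison
  have hmain : ∑ g : Gal(F/ℚ), φ g *
      (Nat.card (Subgroup.centralizer {g} : Subgroup Gal(F/ℚ)) : ℝ) * qsum (FrobSet g) s ≤
      Nat.card Gal(F/ℚ) * ∑' p : Nat.Primes, b p * (1 / ((p : ℕ) : ℝ) ^ s) + M * qsum W s := by
    simp only [qsum]
    simp_rw [← tsum_mul_left]
    rw [← Summable.tsum_finsetSum fun g _ => (summable_qsum (FrobSet g) hs.1).mul_left _,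
      ← ((hsum s hs.1).mul_left _).tsum_add ((summable_qsum W hs.1).mul_left _)]
    refine Summable.tsum_le_tsum (fun p => ?_)
      (summable_sum fun g _ => (summable_qsum (FrobSet g) hs.1).mul_left _)
      (((hsum s hs.1).mul_left _).add ((summable_qsum W hs.1).mul_left _))
    have hp0 : 0 ≤ 1 / ((p : ℕ) : ℝ) ^ s := by positivity
    have e : ∀ g : Gal(F/ℚ), φ g *
        (Nat.card (Subgroup.centralizer {g} : Subgroup Gal(F/ℚ)) : ℝ) *
          (if (p : ℕ) ∈ FrobSet g then 1 / ((p : ℕ) : ℝ) ^ s else 0) =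
        φ g * (Nat.card (Subgroup.centralizer {g} : Subgroup Gal(F/ℚ)) : ℝ) *
          (if (p : ℕ) ∈ FrobSet g then 1 else 0) * (1 / ((p : ℕ) : ℝ) ^ s) := by
      intro g
      split_ifs <;> ring
    rw [Finset.sum_congr rfl fun g _ => e g, ← Finset.sum_mul]
    by_cases hpW : (p : ℕ) ∈ W
    · rw [if_pos hpW]
      have h3 : ∑ g : Gal(F/ℚ), φ g *
          (Nat.card (Subgroup.centralizer {g} : Subgroup Gal(F/ℚ)) : ℝ) *
          (if (p : ℕ) ∈ FrobSet g then 1 else 0) ≤ M := by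
        refine Finset.sum_le_sum fun g _ => ?_
        refine mul_le_of_le_one_right (mul_nonneg (h0 g) (Nat.cast_nonneg _)) ?_
        split_ifs <;> norm_num
      have h4 := mul_le_mul_of_nonneg_right h3 hp0
      have h5 : 0 ≤ (Nat.card Gal(F/ℚ) : ℝ) * (b p * (1 / ((p : ℕ) : ℝ) ^ s)) :=
        mul_nonneg hG0.le (mul_nonneg (hb0 p) hp0)
      linarith
    · rw [if_neg hpW, mul_zero, add_zero]
      rw [hW, Set.mem_union, not_or] at hpW
      have hdisc : ¬ ((p : ℕ) : ℤ) ∣ discr F := by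
        intro h
        apply hpW.2
        rw [Finset.mem_coe, Nat.mem_divisors]
        exact ⟨Int.natCast_dvd.mp h, Int.natAbs_ne_zero.mpr (discr_ne_zero F)⟩
      have hur : Algebra.IsUnramifiedIn (𝓞 F) (Ideal.span {((p : ℕ) : ℤ)}) :=
        (not_dvd_discr_iff_isUnramifiedIn F (𝓞 F) (Nat.prime_iff_prime_int.mp p.2)).mp hdisc
      have h3 := sum_frob_le p.2 hur φ h0 hconj (hb0 p) (hb p p.2 hpW.1)
      have h4 := mul_le_mul_of_nonneg_right h3 hp0
      rw [mul_assoc] at h4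
      exact h4
  have h3 : ∑ g : Gal(F/ℚ), φ g * ((1 - ε) * ell s - E g) ≤
      ∑ g : Gal(F/ℚ), φ g *
      (Nat.card (Subgroup.centralizer {g} : Subgroup Gal(F/ℚ)) : ℝ) * qsum (FrobSet g) s := by
    refine Finset.sum_le_sum fun g _ => ?_
    have := mul_le_mul_of_nonneg_left (h1 g) (h0 g)
    refine this.trans (le_of_eq (by ring))
  have h4 : ∑ g : Gal(F/ℚ), φ g * ((1 - ε) * ell s - E g) =
      (1 - ε) * ell s * (∑ g, φ g) - ∑ g, φ g * E g := by
    rw [Finset.mul_sum, ← Finset.sum_sub_distrib]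
    refine Finset.sum_congr rfl fun g _ => ?_
    ring
  rw [h4] at h3
  have h5 := mul_le_mul_of_nonneg_left h2 hM0
  have h6 : (Nat.card Gal(F/ℚ) : ℝ) * ((1 - ε) * ((∑ g, φ g) / Nat.card Gal(F/ℚ)) * ell s -
      ((∑ g, φ g * E g) / Nat.card Gal(F/ℚ) + M * Cw / Nat.card Gal(F/ℚ))) =
      (1 - ε) * ell s * (∑ g, φ g) - ∑ g, φ g * E g - M * Cw := by
    field_simp
    ring
  have h7 : (Nat.card Gal(F/ℚ) : ℝ) * ((1 - ε) * ((∑ g, φ g) / Nat.card Gal(F/ℚ)) * ell s -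
      ((∑ g, φ g * E g) / Nat.card Gal(F/ℚ) + M * Cw / Nat.card Gal(F/ℚ))) ≤
      (Nat.card Gal(F/ℚ) : ℝ) * ∑' p : Nat.Primes, b p * (1 / ((p : ℕ) : ℝ) ^ s) := by
    rw [h6]
    linarith
  exact le_of_mul_le_mul_left h7 hG0

theorem FrobSet_conj {L : Type*} [Field L] [NumberField L] [IsGalois ℚ L] {p : ℕ} {g : Gal(L/ℚ)}
    (h : p ∈ FrobSet g) (t : Gal(L/ℚ)) : p ∈ FrobSet (t * g * t⁻¹) := by
  obtain ⟨P, hP, hPo, hφ⟩ := h
  exact ⟨t • P, inferInstance, inferInstance, hφ.conj t⟩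

theorem lower_of_frob (C : Set Gal(F/ℚ)) (S : Set ℕ) (Z : Finset ℕ)
    (hS : ∀ p : ℕ, p.Prime → p ∉ Z → ∀ g : Gal(F/ℚ), p ∈ FrobSet g → (p ∈ S ↔ g ∈ C))
    {ε : ℝ} (hε : 0 < ε) : ∃ E : ℝ, ∀ᶠ s in 𝓝[>] (1 : ℝ),
      (1 - ε) * ((Nat.card C : ℝ) / Nat.card Gal(F/ℚ)) * ell s - E ≤ qsum S s := by
  have hC : ∀ g ∈ C, ∀ t : Gal(F/ℚ), t * g * t⁻¹ ∈ C := by
    intro g hg t
    obtain ⟨p, ⟨hp, hpg⟩, hpZ⟩ := (infinite_frobSet F g).exists_notMem_finset Z
    exact (hS p hp hpZ _ (FrobSet_conj hpg t)).mp ((hS p hp hpZ g hpg).mpr hg)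
  have h := cheb1 F (fun g => if g ∈ C then 1 else 0) (fun g => by split_ifs <;> norm_num)
    (fun g t => by
      by_cases hg : g ∈ C
      · rw [if_pos hg, if_pos (hC g hg t)]
      · rw [if_neg hg, if_neg fun h' => hg (by
          have := hC _ h' t⁻¹
          simpa [mul_assoc] using this)])
    (fun p => if p ∈ S then 1 else 0) (fun p => by split_ifs <;> norm_num) Z
    (fun p hp hpZ g hg => by
      by_cases hgC : g ∈ C
      · rw [if_pos hgC, if_pos ((hS p hp hpZ g hg).mpr hgC)]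
      · rw [if_neg hgC]
        split_ifs <;> norm_num)
    (fun s hs => by
      refine (summable_qsum S hs).congr fun p => ?_
      split_ifs <;> simp) hε
  obtain ⟨E, hE⟩ := h
  refine ⟨E, ?_⟩
  filter_upwards [hE] with s hs
  have e1 : ∑ g : Gal(F/ℚ), (if g ∈ C then (1 : ℝ) else 0) = Nat.card C := by
    rw [Finset.sum_boole, Nat.card_eq_fintype_card, Fintype.card_subtype]
  have e2 : ∑' p : Nat.Primes, (if (p : ℕ) ∈ S then (1 : ℝ) else 0) * (1 / ((p : ℕ) : ℝ) ^ s) =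
      qsum S s := by
    rw [qsum]
    refine tsum_congr fun p => ?_
    split_ifs <;> simp
  rw [e1, e2] at hs
  exact hs

/-- sets of primes defined by a condition on the Frobenius elements -/
theorem density_of_frob (C : Set Gal(F/ℚ)) (S : Set ℕ) (Z : Finset ℕ)
    (hS : ∀ p : ℕ, p.Prime → p ∉ Z → ∀ g : Gal(F/ℚ), p ∈ FrobSet g → (p ∈ S ↔ g ∈ C)) :
    HasDensity S ((Nat.card C : ℝ) / Nat.card Gal(F/ℚ)) := by
  rw [hasDensity_iff]
  have hG0 : (0 : ℝ) < Nat.card Gal(F/ℚ) := by exact_mod_cast Nat.card_pos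
  set a : ℝ := (Nat.card C : ℝ) / Nat.card Gal(F/ℚ) with ha
  have hcard : Nat.card C + Nat.card (Cᶜ : Set Gal(F/ℚ)) = Nat.card Gal(F/ℚ) := by
    rw [Nat.card_coe_set_eq, Nat.card_coe_set_eq]
    exact Set.ncard_add_ncard_compl C
  have ha' : (Nat.card (Cᶜ : Set Gal(F/ℚ)) : ℝ) / Nat.card Gal(F/ℚ) = 1 - a := by
    rw [ha, eq_sub_iff_add_eq, ← add_div, div_eq_one_iff_eq hG0.ne', add_comm]
    exact_mod_cast hcard
  have ha0 : 0 ≤ a := div_nonneg (Nat.cast_nonneg _) hG0.le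
  have ha1 : 0 ≤ 1 - a := by
    rw [← ha']
    exact div_nonneg (Nat.cast_nonneg _) hG0.le
  refine tendsto_of_bounds2 (fun ε hε => ?_) (fun ε hε => ?_) qsum_univ_bound
  · obtain ⟨E, hE⟩ := lower_of_frob F C S Z hS hε
    refine ⟨E, ?_⟩
    filter_upwards [hE, tendsto_ell.eventually_ge_atTop 0] with s h1 h2
    rw [← ha] at h1
    have h3 : 0 ≤ ε * (1 - a) * ell s := mul_nonneg (mul_nonneg hε.le ha1) h2
    nlinarith
  · obtain ⟨E, hE⟩ := lower_of_frob F Cᶜ Sᶜ Z (fun p hp hpZ g hg => not_congr (hS p hp hpZ g hg)) hε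
    obtain ⟨U, hU⟩ := qsum_univ_bound
    refine ⟨E + U, ?_⟩
    filter_upwards [hE, hU, tendsto_ell.eventually_ge_atTop 0, eventually_Ioc] with s h1 h2 h3 hs
    rw [ha'] at h1
    have h4 : qsum S s + qsum Sᶜ s = qsum Set.univ s := by
      rw [qsum, qsum, qsum, ← (summable_qsum S hs.1).tsum_add (summable_qsum Sᶜ hs.1)]
      refine tsum_congr fun p => ?_
      by_cases hp : (p : ℕ) ∈ S
      · rw [if_pos hp, if_neg (fun h => h hp), if_pos (Set.mem_univ _), add_zero]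
      · rw [if_neg hp, if_pos (show (p : ℕ) ∈ Sᶜ from hp), if_pos (Set.mem_univ _), zero_add]
    have h5 := (abs_le.mp h2).2
    have h6 : 0 ≤ ε * a * ell s := mul_nonneg (mul_nonneg hε.le ha0) h3
    nlinarith

end field

/-- the number field cut out by a homomorphism with open kernel -/
theorem exists_field_of_hom {G : Type*} [Group G] (ρ : GQ →* G)
    (hρ : IsOpen (ρ.ker : Set GQ)) :
    ∃ (F : IntermediateField ℚ Qb) (_ : NumberField F) (_ : IsGalois ℚ F) (r : Gal(F/ℚ) →* G),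
      Function.Injective r ∧ ∀ σ : GQ, r (AlgEquiv.restrictNormalHom F σ) = ρ σ := by
  have hg : IsGalois ℚ Qb := H51.isGalois_Qbar
  obtain ⟨E, hE1, hE2, hE3⟩ := (krullTopology_mem_nhds_one_iff_of_normal ℚ Qb
    (ρ.ker : Set GQ)).mp (hρ.mem_nhds ρ.ker.one_mem)
  let F : IntermediateField ℚ Qb := fixedField ρ.ker
  have hfix : F.fixingSubgroup = ρ.ker :=
    InfiniteGalois.fixingSubgroup_fixedField ⟨ρ.ker, Subgroup.isClosed_of_isOpen _ hρ⟩
  have hle : F ≤ E := by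
    rw [← InfiniteGalois.fixedField_fixingSubgroup E]
    exact fixedField_antitone hE3
  haveI : FiniteDimensional ℚ F :=
    Module.Finite.of_injective (inclusion hle).toLinearMap (inclusion hle).injective
  haveI : NumberField F := { to_charZero := inferInstance, to_finiteDimensional := inferInstance }
  haveI : IsGalois ℚ F := IsGalois.of_fixedField_normal_subgroup ρ.ker
  let r : Gal(F/ℚ) →* G := (AlgEquiv.restrictNormalHom (F := ℚ) (K₁ := Qb) F).liftOfSurjective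
    (AlgEquiv.restrictNormalHom_surjective (F := ℚ) (K₁ := F) Qb) ⟨ρ, by
      rw [ker_restrict, hfix]⟩
  have hr : ∀ σ : GQ, r (AlgEquiv.restrictNormalHom F σ) = ρ σ :=
    fun σ => MonoidHom.liftOfRightInverse_comp_apply _ _ _ _ σ
  refine ⟨F, inferInstance, inferInstance, r, ?_, hr⟩
  rw [injective_iff_map_eq_one]
  intro g hg1
  obtain ⟨σ, rfl⟩ := AlgEquiv.restrictNormalHom_surjective (F := ℚ) (K₁ := F) Qb g
  rw [hr] at hg1
  rw [restrict_eq_one_iff, hfix]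
  exact hg1

/-- **Chebotarev's theorem for Galois representations with finite image** -/
theorem density_of_hom {G : Type*} [Group G] (ρ : GQ →* G) (hρ : IsOpen (ρ.ker : Set GQ))
    (C : Set G) (S : Set ℕ) (Z : Finset ℕ)
    (hS : ∀ p : ℕ, p.Prime → p ∉ Z → ∀ (A : ValuationSubring Qb) (φ : GQ), A.LiesOverPrime p →
      A.IsFrobeniusAt φ p → (p ∈ S ↔ ρ φ ∈ C)) :
    HasDensity S ((Nat.card {g : ρ.range // (g : G) ∈ C} : ℝ) / Nat.card ρ.range) := by
  obtain ⟨F, _, _, r, hinj, hr⟩ := exists_field_of_hom ρ hρ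
  have h := density_of_frob F (r ⁻¹' C) S (Z ∪ (discr F).natAbs.divisors) (by
    intro p hp hpZ g hg
    rw [Finset.mem_union, not_or] at hpZ
    obtain ⟨P, hP, hPo, hφ⟩ := hg
    have hdisc : ¬ (p : ℤ) ∣ discr F := by
      intro h
      apply hpZ.2
      rw [Nat.mem_divisors]
      exact ⟨Int.natCast_dvd.mp h, Int.natAbs_ne_zero.mpr (discr_ne_zero F)⟩
    have hur : Algebra.IsUnramifiedIn (𝓞 F) (Ideal.span {(p : ℤ)}) :=
      (not_dvd_discr_iff_isUnramifiedIn F (𝓞 F) (Nat.prime_iff_prime_int.mp hp)).mp hdisc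
    obtain ⟨A, φ, hA, hF, hres⟩ := exists_lift_frob F hp hur hP hPo hφ
    rw [hS p hp hpZ.1 A φ hA hF, Set.mem_preimage, ← hres, hr])
  have hmem : ∀ g : Gal(F/ℚ), r g ∈ ρ.range := by
    intro g
    obtain ⟨σ, rfl⟩ := AlgEquiv.restrictNormalHom_surjective (F := ℚ) (K₁ := F) Qb g
    exact ⟨σ, (hr σ).symm⟩
  let e : Gal(F/ℚ) ≃ ρ.range := Equiv.ofBijective (fun g => ⟨r g, hmem g⟩)
    ⟨fun a b hab => hinj (congrArg Subtype.val hab), by
      rintro ⟨_, σ, rfl⟩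
      exact ⟨AlgEquiv.restrictNormalHom F σ, Subtype.ext (hr σ)⟩⟩
  have e1 : Nat.card (r ⁻¹' C : Set Gal(F/ℚ)) = Nat.card {g : ρ.range // (g : G) ∈ C} :=
    Nat.card_congr (e.subtypeEquiv fun g => Iff.rfl)
  rw [e1, Nat.card_congr e] at h
  exact h

/-- the surjective case -/
theorem density_of_surjective {G : Type*} [Group G] (ρ : GQ →* G)
    (hρ : IsOpen (ρ.ker : Set GQ)) (hsurj : Function.Surjective ρ)
    (C : Set G) (S : Set ℕ) (Z : Finset ℕ)
    (hS : ∀ p : ℕ, p.Prime → p ∉ Z → ∀ (A : ValuationSubring Qb) (φ : GQ), A.LiesOverPrime p →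
      A.IsFrobeniusAt φ p → (p ∈ S ↔ ρ φ ∈ C)) :
    HasDensity S ((Nat.card C : ℝ) / Nat.card G) := by
  have h := density_of_hom ρ hρ C S Z hS
  have hmem : ∀ g : G, g ∈ ρ.range := fun g => hsurj g
  have e1 : Nat.card {g : ρ.range // (g : G) ∈ C} = Nat.card C :=
    Nat.card_congr ((Equiv.subtypeUnivEquiv hmem).subtypeEquiv fun g => Iff.rfl)
  rw [e1, Nat.card_congr (Equiv.subtypeUnivEquiv hmem)] at h
  exact h

theorem isOpen_ker_cyc (m : ℕ) [NeZero m] : IsOpen ((cyc m).ker : Set GQ) := by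
  haveI := finite_cycF (m := m)
  refine Subgroup.isOpen_mono (fun b hb => ?_) (IntermediateField.fixingSubgroup_isOpen (cycF m))
  have h4 : b (exists_primitive m).choose = (exists_primitive m).choose ^ 1 := by
    rw [pow_one]
    exact (mem_fixingSubgroup_iff _ _).mp hb _ (mem_adjoin_simple_self ℚ _)
  rw [MonoidHom.mem_ker, cyc_eq_of (exists_primitive m).choose_spec (Nat.coprime_one_left m) h4]
  ext
  simp

/-- **Dirichlet's density theorem for arithmetic progressions** -/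
theorem density_arith (m : ℕ) [NeZero m] (u : (ZMod m)ˣ) :
    HasDensity {p : ℕ | (p : ZMod m) = u} (1 / (Nat.totient m : ℝ)) := by
  have h := density_of_surjective (cyc m) (isOpen_ker_cyc m) (cyc_surjective m) {u}
    {p : ℕ | (p : ZMod m) = u} m.divisors (by
      intro p hp hpZ A φ hA hφ
      have hpm : ¬ p ∣ m := fun h => hpZ (Nat.mem_divisors.mpr ⟨h, NeZero.ne m⟩)
      have hcop : p.Coprime m := (Nat.Prime.coprime_iff_not_dvd hp).mpr hpm
      rw [Set.mem_ofPred_eq, Set.mem_singleton_iff, cyc_frob hp hpm hA hφ hcop, Units.ext_iff,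
        ZMod.coe_unitOfCoprime])
  rw [Nat.card_eq_fintype_card (α := (ZMod m)ˣ), ZMod.card_units_eq_totient] at h
  simpa using h

end

end Fermat.Agent.Cor.Cheb
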