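import Mathlib
import Fermat.Agent.H09.S12Red

set_option autoImplicit false

/-!
# The endgame for all curves `y² + xy = x³ + ((B - A - 1)/4) x² - (AB/16) x`, `32 ∣ B`

A Galois stable line of prime order `p ≥ 5` cannot be contained in `E₀` everywhere.
-/

namespace Fermat.Agent.Cor.FullTwo

open Polynomial WeierstrassCurve WeierstrassCurve.Affine WeierstrassCurve.Affine.Point
open Fermat.Agent.H08 Fermat.Agent.H05 Fermat.Agent.H09

local notation "Qb" => AlgebraicClosure ℚ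

/-- The equation of `W` is `y² + xy = x³ + ((B - A - 1)/4) x² - (AB/16) x`. -/
structure FreyForm (W : WeierstrassCurve ℤ) (A B : ℤ) : Prop where
  a₁ : W.a₁ = 1
  a₃ : W.a₃ = 0
  a₆ : W.a₆ = 0
  a₂ : 4 * W.a₂ = B - A - 1
  a₄ : 16 * W.a₄ = -(A * B)

namespace FreyForm

variable {W : WeierstrassCurve ℤ} {A B : ℤ} (h : FreyForm W A B)
include h

theorem b₂ : W.b₂ = B - A := by
  rw [WeierstrassCurve.b₂, h.a₁]; linear_combination h.a₂

theorem b₄ : 8 * W.b₄ = -(A * B) := by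
  rw [WeierstrassCurve.b₄, h.a₃]; linear_combination h.a₄

theorem b₆ : W.b₆ = 0 := by
  rw [WeierstrassCurve.b₆, h.a₃, h.a₆]; ring

theorem c₄ : W.c₄ = A ^ 2 + A * B + B ^ 2 := by
  rw [WeierstrassCurve.c₄, h.b₂]; linear_combination (-3) * h.b₄

theorem Δ : 256 * W.Δ = (A * B * (A + B)) ^ 2 := by
  have e8 : 4 * W.b₈ = -(W.b₄) ^ 2 := by
    rw [WeierstrassCurve.b_relation, h.b₆]; ring
  have h4 := h.b₄
  have e : 256 * W.Δ = 64 * (-(W.b₂ ^ 2) * (4 * W.b₈)) - 4 * (8 * W.b₄) ^ 3 := by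
    rw [WeierstrassCurve.Δ, h.b₆]; ring
  rw [e, e8, h.b₂, h.b₄]
  have e' : 64 * (-((B - A) ^ 2) * -(W.b₄) ^ 2) = (B - A) ^ 2 * (8 * W.b₄) ^ 2 := by ring
  rw [e', h.b₄]; ring

theorem odd_A (hB : (2 : ℤ) ∣ B) : Odd A := by
  obtain ⟨k, rfl⟩ := hB
  have := h.a₂
  refine ⟨k - 2 * W.a₂ - 1, ?_⟩
  omega

theorem mod_four (hB : (4 : ℤ) ∣ B) : A % 4 = 3 := by
  obtain ⟨k, rfl⟩ := hB
  have := h.a₂
  omega

end FreyForm

section

variable {W : WeierstrassCurve ℤ} {a b : ℤ}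

theorem twoRoots (h : FreyForm W a b) :
    TwoRoots ((W.map (Int.castRingHom ℚ))⁄Qb) 0 ((a : Qb) / 4) (-(b : Qb) / 4) := by
  have e2 : ((W.map (Int.castRingHom ℚ))⁄Qb).b₂ = (b : Qb) - (a : Qb) := by
    rw [← map_int_Qb, map_b₂, h.b₂]; simp
  have e4 : ((W.map (Int.castRingHom ℚ))⁄Qb).b₄ = -((b : Qb) * (a : Qb)) / 8 := by
    rw [← map_int_Qb, map_b₄, eq_div_iff (by norm_num), mul_comm]
    have : ((8 * W.b₄ : ℤ) : Qb) = ((-(a * b) : ℤ) : Qb) := by rw [h.b₄]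
    push_cast at this
    rw [Int.coe_castRingHom, this]; ring
  have e6 : ((W.map (Int.castRingHom ℚ))⁄Qb).b₆ = 0 := by
    rw [← map_int_Qb, map_b₆, h.b₆]; simp
  refine ⟨?_, ?_, ?_⟩
  · rw [e2]; ring
  · rw [e4]; ring
  · rw [e6]; ring

/-- **Endgame.** A Galois stable line in the `p`-torsion of the curve
`y² + xy = x³ + ((b - a - 1)/4) x² - (ab/16) x`, `32 ∣ b`, cannot have nonsingular
reduction everywhere. -/
theorem endgame (h : FreyForm W a b) (hΔ0 : W.Δ ≠ 0) (h32 : (32 : ℤ) ∣ b) {p : ℕ} (hp : p.Prime)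
    (hp5 : 5 ≤ p) {P₀ : ((W.map (Int.castRingHom ℚ))⁄Qb).Point} (hord : addOrderOf P₀ = p)
    (hσ : ∀ σ : Qb ≃ₐ[ℚ] Qb, ∀ Q ∈ cyc p P₀, σ • Q ∈ cyc p P₀)
    (H : ∀ ℓ : ℕ, ℓ.Prime → ∀ A : ValuationSubring Qb, A.LiesOverPrime ℓ →
      ∀ Q ∈ cyc p P₀, A.valuation (px Q) ≤ 1 → NonsingularRed A.valuation Q) : False := by
  have hgal : IsGalois ℚ Qb := { to_normal := { splits' := fun x => IsAlgClosed.splits _ } }
  have hp_odd : Odd p := hp.odd_of_ne_two (by omega)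
  obtain ⟨r, hr⟩ := hp_odd
  have hp_odd : Odd p := hp.odd_of_ne_two (by omega)
  have hmap := map_int_Qb W
  have hb0 : b ≠ 0 := by
    rintro rfl
    have := h.Δ
    apply hΔ0
    simpa using this
  have haodd : Odd a := h.odd_A (dvd_trans (by norm_num) h32)
  have hΔ : ((W.map (Int.castRingHom ℚ))⁄Qb).Δ ≠ 0 := Δ_Qb_ne_zero hΔ0
  have hpP : p • P₀ = 0 := by rw [← hord]; exact addOrderOf_nsmul_eq_zero P₀
  have hP0 : P₀ ≠ 0 := by
    rintro rfl
    rw [addOrderOf_zero] at hord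
    omega
  have htwo := twoRoots h
  set e₂ : Qb := (a : Qb) / 4 with he₂
  set e₃ : Qb := -(b : Qb) / 4 with he₃
  have hmem : ∀ Q ∈ cyc p P₀, Q ≠ 0 ∧ p • Q = 0 := by
    intro Q hQ
    obtain ⟨k, hk, rfl⟩ := Finset.mem_image.mp hQ
    rw [Finset.mem_Ico] at hk
    constructor
    · intro h0
      have : p ∣ k := by rw [← hord]; exact addOrderOf_dvd_of_nsmul_eq_zero h0
      have := Nat.le_of_dvd (by omega) this
      omega
    · rw [smul_comm, hpP, smul_zero]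
  have hint : ∀ A : ValuationSubring Qb,
      IsIntegralFor A.valuation ((W.map (Int.castRingHom ℚ))⁄Qb) :=
    fun A => isIntegralFor_of_int hmap
  -- individual factors away from 2
  have hbnd : ∀ A : ValuationSubring Qb, ∀ z : ℤ, A.valuation (z : Qb) ≤ 1 := fun A z =>
    (A.valuation_le_one_iff _).mpr (intCast_mem A z)
  have hroots : ∀ e ∈ ({0, e₂, e₃} : Set Qb), 4 * e ^ 3 +
      ((W.map (Int.castRingHom ℚ))⁄Qb).b₂ * e ^ 2 +
      2 * ((W.map (Int.castRingHom ℚ))⁄Qb).b₄ * e +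
      ((W.map (Int.castRingHom ℚ))⁄Qb).b₆ = 0 := by
    intro e he
    rw [htwo.b₂, htwo.b₄, htwo.b₆]
    simp only [Set.mem_insert_iff, Set.mem_singleton_iff] at he
    rcases he with rfl | rfl | rfl <;> ring
  have hodd : ∀ ℓ : ℕ, ℓ.Prime → ℓ ≠ 2 → ∀ A : ValuationSubring Qb, A.LiesOverPrime ℓ →
      ∀ Q ∈ cyc p P₀, ∀ e ∈ ({0, e₂, e₃} : Set Qb),
        A.valuation (px Q - e) = max 1 (A.valuation (px Q)) := by
    intro ℓ hℓ hℓ2 A hA Q hQ e he
    have hv4 : A.valuation (4 : Qb) = 1 := by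
      have := val_intCast_eq_one (c := 4) hℓ hA (by
        intro h
        have h' : ℓ ∣ 2 ^ 2 := by exact_mod_cast h
        exact hℓ2 ((Nat.prime_dvd_prime_iff_eq hℓ Nat.prime_two).mp (hℓ.dvd_of_dvd_pow h')))
      exact_mod_cast this
    have hve : A.valuation e ≤ 1 := by
      simp only [Set.mem_insert_iff, Set.mem_singleton_iff] at he
      rcases he with rfl | rfl | rfl
      · simp
      · rw [he₂, map_div₀, hv4, div_one]; exact hbnd A a
      · rw [he₃, map_div₀, hv4, div_one, Valuation.map_neg]; exact hbnd A b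
    rcases le_or_gt (A.valuation (px Q)) 1 with hx | hx
    · rw [max_eq_left hx]
      obtain ⟨T, hT0, hT, hTe⟩ := exists_two_torsion hΔ two_ne_zero (hroots e he)
      rw [← hTe] at hve ⊢
      exact val_sub_two_torsion (hint A) hp_odd (hmem Q hQ).2 (hmem Q hQ).1 hx
        (H ℓ hℓ A hA Q hQ hx) hT0 hT hve
    · rw [max_eq_right hx.le]
      exact A.valuation.map_sub_eq_of_lt_left (lt_of_le_of_lt hve hx)
  -- individual factors at 2
  have htwoadic : ∀ A : ValuationSubring Qb, A.LiesOverPrime 2 → ∀ Q ∈ cyc p P₀,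
      A.valuation (px Q) = 1 ∧ A.valuation (px Q - e₃) = 1 ∧
        A.valuation (4 * (px Q - e₂)) = 1 := by
    intro A hA Q hQ
    have hv2 : A.valuation (2 : Qb) < 1 := by
      have := val_intCast_lt_one (c := 2) hA (by norm_num)
      exact_mod_cast this
    have hvp : A.valuation (p : Qb) = 1 :=
      val_prime_eq_one hp Nat.prime_two (by omega) hA
    have hx : A.valuation (px Q) ≤ 1 := val_px_le_one_of_torsion (hint A) (hmem Q hQ).2 hvp
    have hy := val_py_le_one (hint A) hx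
    have hns := H 2 Nat.prime_two A hA Q hQ hx
    obtain ⟨k, hk⟩ := h32
    have hv4' : (4 : Qb) ≠ 0 := by norm_num
    have hve3 : A.valuation e₃ < 1 := by
      have : e₃ = 2 * ((-(4 * k) : ℤ) : Qb) := by
        rw [he₃, hk]; push_cast; ring
      rw [this]
      exact v_mul_lt_one_left hv2 (hbnd A _)
    have h1 : ((W.map (Int.castRingHom ℚ))⁄Qb).a₁ = 1 := by
      rw [← map_int_Qb, _root_.WeierstrassCurve.map_a₁, h.a₁]; simp
    have h3 : ((W.map (Int.castRingHom ℚ))⁄Qb).a₃ = 0 := by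
      rw [← map_int_Qb, _root_.WeierstrassCurve.map_a₃, h.a₃]; simp
    have h6 : ((W.map (Int.castRingHom ℚ))⁄Qb).a₆ = 0 := by
      rw [← map_int_Qb, _root_.WeierstrassCurve.map_a₆, h.a₆]; simp
    have ha4 : ((W.map (Int.castRingHom ℚ))⁄Qb).a₄ = 2 * ((-(a * k) : ℤ) : Qb) := by
      have : ((W.map (Int.castRingHom ℚ))⁄Qb).b₄ =
        2 * ((W.map (Int.castRingHom ℚ))⁄Qb).a₄ + ((W.map (Int.castRingHom ℚ))⁄Qb).a₁ *
        ((W.map (Int.castRingHom ℚ))⁄Qb).a₃ := rfl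
      rw [htwo.b₄, h3, he₂, he₃, hk] at this
      apply mul_left_cancel₀ (two_ne_zero (α := Qb))
      push_cast at this ⊢
      linear_combination -this
    have hva4 : A.valuation ((W.map (Int.castRingHom ℚ))⁄Qb).a₄ < 1 := by
      rw [ha4]; exact v_mul_lt_one_left hv2 (hbnd A _)
    have hx1 : A.valuation (px Q) = 1 := by
      by_contra hne
      have hxlt : A.valuation (px Q) < 1 := lt_of_le_of_ne hx hne
      have heqn := eqn_of_ne_zero (hmem Q hQ).1
      rw [h1, h3, h6] at heqn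
      have hylt : A.valuation (py Q) < 1 := by
        by_contra hc
        have hy1 : A.valuation (py Q) = 1 := le_antisymm hy (not_lt.mp hc)
        have e : (py Q) ^ 2 = px Q ^ 3 + ((W.map (Int.castRingHom ℚ))⁄Qb).a₂ * px Q ^ 2 +
            ((W.map (Int.castRingHom ℚ))⁄Qb).a₄ * px Q - px Q * py Q := by
          linear_combination heqn
        have h7 : A.valuation ((py Q) ^ 2) < 1 := by
          rw [e]
          refine v_sub_lt_one (v_add_lt_one (v_add_lt_one (v_pow_lt_one hxlt three_ne_zero)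
            (v_mul_lt_one_right (hint A).h₂ (v_pow_lt_one hxlt two_ne_zero)))
            (v_mul_lt_one_left hva4 hx)) (v_mul_lt_one_left hxlt hy)
        rw [map_pow, hy1, one_pow] at h7
        exact lt_irrefl _ h7
      rcases hns with h7 | h7
      · rw [H08.psi2, h1, h3, one_mul, add_zero] at h7
        have : A.valuation (2 * py Q + px Q) < 1 :=
          v_add_lt_one (v_mul_lt_one_right (v_ofNat_le_one _ 2) hylt) hxlt
        rw [h7] at this; exact lt_irrefl _ this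
      · rw [H08.phiX, h1, one_mul] at h7
        have : A.valuation (3 * px Q ^ 2 + 2 * ((W.map (Int.castRingHom ℚ))⁄Qb).a₂ * px Q +
            ((W.map (Int.castRingHom ℚ))⁄Qb).a₄ - py Q) < 1 := by
          refine v_sub_lt_one (v_add_lt_one (v_add_lt_one (v_mul_lt_one_right
            (v_ofNat_le_one _ 3) (v_pow_lt_one hxlt two_ne_zero)) (v_mul_lt_one_right
            (v_mul_le_one (v_ofNat_le_one _ 2) (hint A).h₂) hxlt)) hva4) hylt
        rw [h7] at this; exact lt_irrefl _ this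
    refine ⟨hx1, ?_, ?_⟩
    · rw [A.valuation.map_sub_eq_of_lt_left (by rw [hx1]; exact hve3), hx1]
    · have hva : A.valuation (a : Qb) = 1 := by
        apply val_intCast_eq_one Nat.prime_two hA
        intro h
        rw [← Int.not_even_iff_odd, even_iff_two_dvd] at haodd
        exact haodd (by exact_mod_cast h)
      have e : 4 * (px Q - e₂) = 2 * (2 * px Q) - a := by rw [he₂]; ring
      rw [e, A.valuation.map_sub_swap, A.valuation.map_sub_eq_of_lt_left, hva]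
      rw [hva]
      exact v_mul_lt_one_left hv2 (v_mul_le_one (v_ofNat_le_one _ 2) hx)
  -- the rational numbers
  obtain ⟨q₁, hq₁⟩ := prod_rational (cyc p P₀) hσ 0
  obtain ⟨q₂, hq₂⟩ := prod_rational (cyc p P₀) hσ ((a : ℚ) / 4)
  obtain ⟨q₃, hq₃⟩ := prod_rational (cyc p P₀) hσ (-(b : ℚ) / 4)
  have k₁ : (q₁ : Qb) = ∏ Q ∈ cyc p P₀, (px Q - 0) := by rw [hq₁]; push_cast; rfl
  have k₂ : (q₂ : Qb) = ∏ Q ∈ cyc p P₀, (px Q - e₂) := by rw [hq₂, he₂]; push_cast; rfl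
  have k₃ : (q₃ : Qb) = ∏ Q ∈ cyc p P₀, (px Q - e₃) := by rw [hq₃, he₃]; push_cast; rfl
  have hcardc : (cyc p P₀).card = p - 1 := by
    unfold cyc
    rw [Finset.card_image_of_injOn (cyc_injOn hord), Nat.card_Ico]
  have hne : ∀ e ∈ ({0, e₂, e₃} : Set Qb), ∏ Q ∈ cyc p P₀, (px Q - e) ≠ 0 := by
    intro e he
    rw [Finset.prod_ne_zero_iff]
    intro Q hQ h0
    obtain ⟨A, hA⟩ := exists_liesOverPrime Qb Nat.prime_three
    have := hodd 3 Nat.prime_three (by norm_num) A hA Q hQ e he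
    rw [h0, _root_.map_zero] at this
    have h1 : (1 : A.ValueGroup) ≤ max 1 (A.valuation (px Q)) := le_max_left _ _
    rw [← this] at h1
    exact absurd h1 (by simp)
  have hq1 : q₁ ≠ 0 := by
    rintro rfl; exact hne 0 (by simp) (by rw [← k₁]; simp)
  have r3 : (q₃ / q₁) ^ 2 = 1 := by
    apply rat_unit (F := Qb)
    intro ℓ hℓ
    obtain ⟨A, hA⟩ := exists_liesOverPrime Qb hℓ
    refine ⟨A, hA, ?_⟩
    have hkey : A.valuation (q₃ : Qb) = A.valuation (q₁ : Qb) := by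
      rw [k₁, k₃, map_prod, map_prod]
      apply Finset.prod_congr rfl
      intro Q hQ
      by_cases h2 : ℓ = 2
      · subst h2
        rw [(htwoadic A hA Q hQ).2.1, sub_zero, (htwoadic A hA Q hQ).1]
      · rw [hodd ℓ hℓ h2 A hA Q hQ e₃ (by simp), hodd ℓ hℓ h2 A hA Q hQ 0 (by simp)]
    push_cast
    rw [map_div₀, hkey, div_self]
    rw [Valuation.ne_zero_iff]
    exact_mod_cast hq1
  have r2 : (q₂ * 4 ^ (p - 1) / q₁) ^ 2 = 1 := by
    apply rat_unit (F := Qb)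
    intro ℓ hℓ
    obtain ⟨A, hA⟩ := exists_liesOverPrime Qb hℓ
    refine ⟨A, hA, ?_⟩
    have hkey : A.valuation ((q₂ : Qb) * 4 ^ (p - 1)) = A.valuation (q₁ : Qb) := by
      rw [k₁, k₂, ← hcardc, ← Finset.prod_const, ← Finset.prod_mul_distrib, map_prod, map_prod]
      apply Finset.prod_congr rfl
      intro Q hQ
      by_cases h2 : ℓ = 2
      · subst h2
        rw [mul_comm, (htwoadic A hA Q hQ).2.2, sub_zero, (htwoadic A hA Q hQ).1]
      · have hv4 : A.valuation (4 : Qb) = 1 := by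
          have := val_intCast_eq_one (c := 4) hℓ hA (by
            intro h
            have h' : ℓ ∣ 2 ^ 2 := by exact_mod_cast h
            exact h2 ((Nat.prime_dvd_prime_iff_eq hℓ Nat.prime_two).mp (hℓ.dvd_of_dvd_pow h')))
          exact_mod_cast this
        rw [map_mul, hv4, mul_one, hodd ℓ hℓ h2 A hA Q hQ e₂ (by simp),
          hodd ℓ hℓ h2 A hA Q hQ 0 (by simp)]
    push_cast
    rw [map_div₀, hkey, div_self]
    rw [Valuation.ne_zero_iff]
    exact_mod_cast hq1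
  -- the three term relation
  have hPi : ∀ e, Pi' r P₀ e ^ 2 = ∏ Q ∈ cyc p P₀, (px Q - e) := fun e =>
    (prod_cyc hr hord e).symm
  have hrel := three_term_relation hΔ htwo hr hp hp5 hP0 hpP (fun e he h0 => by
    apply hne e he
    rw [← hPi, h0]; ring)
  have e4 : ∀ e, Pi' r P₀ e ^ 4 = (∏ Q ∈ cyc p P₀, (px Q - e)) ^ 2 := by
    intro e; rw [← hPi]; ring
  rw [e4, e4, e4, ← k₁, ← k₂, ← k₃] at hrel
  have hrelQ : ((a : ℚ) / 4 - 0) ^ p * q₃ ^ 2 + (-(b : ℚ) / 4 - (a : ℚ) / 4) ^ p * q₁ ^ 2 +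
      (0 - -(b : ℚ) / 4) ^ p * q₂ ^ 2 = 0 := by
    have : (((((a : ℚ) / 4 - 0) ^ p * q₃ ^ 2 + (-(b : ℚ) / 4 - (a : ℚ) / 4) ^ p * q₁ ^ 2 +
      (0 - -(b : ℚ) / 4) ^ p * q₂ ^ 2 : ℚ)) : Qb) = 0 := by
      push_cast
      rw [he₂, he₃] at hrel
      exact hrel
    exact_mod_cast this
  have s3 : q₃ ^ 2 = q₁ ^ 2 := by
    rw [div_pow] at r3
    exact (div_eq_one_iff_eq (pow_ne_zero 2 hq1)).mp r3
  have s2 : q₂ ^ 2 * 16 ^ (p - 1) = q₁ ^ 2 := by
    rw [div_pow] at r2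
    have := (div_eq_one_iff_eq (pow_ne_zero 2 hq1)).mp r2
    rw [← this, mul_pow, ← pow_mul, mul_comm (p - 1) 2, pow_mul]
    norm_num
  have hfin : (16 : ℚ) ^ (p - 1) * ((a : ℚ) ^ p - (a + b) ^ p) + (b : ℚ) ^ p = 0 := by
    have hq12 : q₁ ^ 2 ≠ 0 := pow_ne_zero 2 hq1
    have h4p : (4 : ℚ) ^ p ≠ 0 := by positivity
    apply mul_left_cancel₀ hq12
    have t1 : ((a : ℚ) / 4 - 0) ^ p = (a : ℚ) ^ p / 4 ^ p := by rw [sub_zero, div_pow]
    have t2 : (-(b : ℚ) / 4 - (a : ℚ) / 4) ^ p = -(a + b : ℚ) ^ p / 4 ^ p := by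
      rw [← sub_div, div_pow]
      have : (-(b : ℚ) - a) = -(a + b) := by ring
      rw [this, hp_odd.neg_pow]
    have t3 : (0 - -(b : ℚ) / 4) ^ p = (b : ℚ) ^ p / 4 ^ p := by
      have : (0 - -(b : ℚ) / 4) = b / 4 := by ring
      rw [this, div_pow]
    rw [t1, t2, t3, s3] at hrelQ
    have hrel2 : (a : ℚ) ^ p * q₁ ^ 2 - (a + b : ℚ) ^ p * q₁ ^ 2 +
        (b : ℚ) ^ p * q₂ ^ 2 = 0 := by
      have h5 : ((a : ℚ) ^ p * q₁ ^ 2 - (a + b : ℚ) ^ p * q₁ ^ 2 +
        (b : ℚ) ^ p * q₂ ^ 2) / 4 ^ p = 0 := by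
        rw [← hrelQ]; ring
      rcases div_eq_zero_iff.mp h5 with h6 | h6
      · exact h6
      · exact absurd h6 h4p
    linear_combination 16 ^ (p - 1) * hrel2 - (b : ℚ) ^ p * s2
  have hfinZ : 16 ^ (p - 1) * (a ^ p - (a + b) ^ p) + b ^ p = 0 := by
    exact_mod_cast hfin
  exact no_sol hp_odd (by omega) (A := a) (B := b) haodd h32 hb0 hfinZ

end

end Fermat.Agent.Cor.FullTwo
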