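import Mathlib
import Fermat.Agent.Cor.FullTwoA
import Fermat.Agent.H12.Main

set_option autoImplicit false

/-!
# Stable lines with trivial quotient in semistable curves

For a semistable elliptic curve over `ℚ` and a prime `p ≥ 11`, `p ≠ 13`, a Galois stable line of
the `p`-torsion with trivial quotient is contained in `E₀` at every place.
-/

namespace Fermat.Agent.Cor.FullTwo

open Polynomial WeierstrassCurve WeierstrassCurve.Affine WeierstrassCurve.Affine.Point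
open Fermat.Agent.H08 Fermat.Agent.H05 Fermat.Agent.H09 Fermat.Agent.H12

local notation "Qb" => AlgebraicClosure ℚ

variable {W : WeierstrassCurve ℤ} {p : ℕ}

/-- the subgroup of points attached to a subspace of the `p`-torsion -/
noncomputable def lineOf (N : Submodule (ZMod p) (Submodule.torsionBy ℤ
    ((W.map (Int.castRingHom ℚ))⁄Qb).Point (p : ℤ))) :
    AddSubgroup ((W.map (Int.castRingHom ℚ))⁄Qb).Point :=
  N.toAddSubgroup.map (Submodule.subtype (Submodule.torsionBy ℤ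
      ((W.map (Int.castRingHom ℚ))⁄Qb).Point (p : ℤ))).toAddMonoidHom

variable {N : Submodule (ZMod p) (Submodule.torsionBy ℤ
    ((W.map (Int.castRingHom ℚ))⁄Qb).Point (p : ℤ))}

theorem mem_lineOf {Q : ((W.map (Int.castRingHom ℚ))⁄Qb).Point} :
    Q ∈ lineOf N ↔ ∃ x ∈ N, (x : ((W.map (Int.castRingHom ℚ))⁄Qb).Point) = Q := Iff.rfl

theorem card_lineOf (hrN : Nat.card N = p) : Nat.card (lineOf N) = p := by
  refine Eq.trans ?_ hrN
  symm
  refine Nat.card_congr (Equiv.ofBijective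
    (fun x : N => (⟨(x.1 : ((W.map (Int.castRingHom ℚ))⁄Qb).Point),
      mem_lineOf.mpr ⟨x.1, x.2, rfl⟩⟩ : lineOf N)) ⟨?_, ?_⟩)
  · intro x y hxy
    have h1 := congrArg (fun z : lineOf N => (z : ((W.map (Int.castRingHom ℚ))⁄Qb).Point)) hxy
    exact Subtype.ext (Subtype.ext h1)
  · rintro ⟨Q, hQ⟩
    obtain ⟨x, hx, rfl⟩ := mem_lineOf.mp hQ
    exact ⟨⟨x, hx⟩, rfl⟩

/-- the data of a proper nonzero subspace `N`: it is a line -/
theorem line_facts (hp : p.Prime) (hp3 : 3 ≤ p) (hb : N ≠ ⊥) (ht : N ≠ ⊤) :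
    IsAtom N ∧ IsCoatom N ∧ Nat.card N = p ∧ Finite (Submodule.torsionBy ℤ
      ((W.map (Int.castRingHom ℚ))⁄Qb).Point (p : ℤ)) := by
  have hfact : Fact p.Prime := ⟨hp⟩
  obtain ⟨hfinM, hrank⟩ := finrank_torsion (L := Qb) (W₀ := W.map (Int.castRingHom ℚ))
    (p := p) hp3
  obtain ⟨hatom, hcoatom, hrN⟩ := atom_coatom hrank hb ht
  obtain ⟨hfin, -⟩ := finite_torsion (L := Qb) (W₀ := W.map (Int.castRingHom ℚ)) hp hp3
  refine ⟨hatom, hcoatom, ?_, hfin⟩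
  rw [Module.natCard_eq_pow_finrank (K := ZMod p), hrN, Nat.card_zmod, pow_one]

theorem cofixedLine_lineOf (hp : p.Prime) (hp3 : 3 ≤ p) (hb : N ≠ ⊥) (ht : N ≠ ⊤)
    (hN : IsGaloisStable ℚ N)
    (hcof : ∀ (σ : Qb ≃ₐ[ℚ] Qb) (x : Submodule.torsionBy ℤ
      ((W.map (Int.castRingHom ℚ))⁄Qb).Point (p : ℤ)), σ • x - x ∈ N) :
    CofixedLine W p (lineOf N) := by
  obtain ⟨-, -, hcard, -⟩ := line_facts hp hp3 hb ht
  refine ⟨card_lineOf hcard, ?_, ?_⟩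
  · intro σ Q hQ
    obtain ⟨x, hx, rfl⟩ := mem_lineOf.mp hQ
    exact mem_lineOf.mpr ⟨σ • x, hN σ x hx, rfl⟩
  · intro σ Q hQ
    exact mem_lineOf.mpr ⟨σ • (⟨Q, mem_torsion_iff.mpr hQ⟩ : Submodule.torsionBy ℤ
      ((W.map (Int.castRingHom ℚ))⁄Qb).Point (p : ℤ)) - ⟨Q, mem_torsion_iff.mpr hQ⟩,
      hcof σ _, rfl⟩

/-- bad reduction at small primes -/
theorem dvd_Δ_of_cofixed (hp : p.Prime) (hp3 : 3 ≤ p) (ht : N ≠ ⊤)
    (hcof : ∀ (σ : Qb ≃ₐ[ℚ] Qb) (x : Submodule.torsionBy ℤ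
      ((W.map (Int.castRingHom ℚ))⁄Qb).Point (p : ℤ)), σ • x - x ∈ N)
    {ℓ : ℕ} (hℓ : ℓ.Prime) (hbig : ℓ ^ 2 < p - 1) : (ℓ : ℤ) ∣ W.Δ := by
  by_contra h3
  obtain ⟨A, hA⟩ := exists_liesOverPrime Qb hℓ
  have hv3 : A.valuation ((W.map (Int.castRingHom ℚ))⁄Qb).Δ = 1 := by
    rw [← map_int_Qb, map_Δ]
    exact Fermat.Agent.H09.val_intCast_eq_one hℓ hA h3
  have hne : ℓ ≠ p := by
    rintro rfl
    have := hℓ.two_le
    have : ℓ ≤ ℓ ^ 2 := by nlinarith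
    omega
  obtain ⟨hfin, -⟩ := finite_torsion (L := Qb) (W₀ := W.map (Int.castRingHom ℚ)) hp hp3
  exact not_good_of_cofixed hp hℓ hA (val_prime_eq_one hp hℓ hne hA)
    (isIntegralFor_of_int (map_int_Qb W)) hv3 ht hcof hfin hbig

/-- the generator of a line, as a point, and its nonzero multiples -/
theorem mem_cyc_iff (hp : p.Prime) {C : AddSubgroup ((W.map (Int.castRingHom ℚ))⁄Qb).Point}
    (hC : Nat.card C = p) {P₀ : ((W.map (Int.castRingHom ℚ))⁄Qb).Point}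
    (hord : addOrderOf P₀ = p) (hP0C : P₀ ∈ C) (Q : ((W.map (Int.castRingHom ℚ))⁄Qb).Point) :
    Q ∈ cyc p P₀ ↔ Q ∈ C ∧ Q ≠ 0 := by
  have hfinC : Finite C := Nat.finite_of_card_ne_zero (by rw [hC]; exact hp.ne_zero)
  have hp0 := hp.pos
  constructor
  · intro hQ
    obtain ⟨k, hk, rfl⟩ := Finset.mem_image.mp hQ
    refine ⟨C.nsmul_mem hP0C k, ?_⟩
    rw [Finset.mem_Ico] at hk
    intro h0
    have : p ∣ k := by rw [← hord]; exact addOrderOf_dvd_of_nsmul_eq_zero h0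
    have := Nat.le_of_dvd (by omega) this
    omega
  · rintro ⟨hQ, hQ0⟩
    have hle : AddSubgroup.zmultiples P₀ ≤ C := by
      rw [AddSubgroup.zmultiples_le]; exact hP0C
    have heq : AddSubgroup.zmultiples P₀ = C := by
      apply AddSubgroup.eq_of_le_of_card_ge hle
      rw [hC, Nat.card_zmultiples, hord]
    rw [← heq, AddSubgroup.mem_zmultiples_iff] at hQ
    obtain ⟨k, rfl⟩ := hQ
    have hk := Int.emod_nonneg k (b := (p : ℤ)) (by exact_mod_cast hp.ne_zero)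
    have hk2 := Int.emod_lt_of_pos k (b := (p : ℤ)) (by exact_mod_cast hp0)
    obtain ⟨m, hm⟩ := Int.eq_ofNat_of_zero_le hk
    have hkm : k • P₀ = m • P₀ := by
      have h1 := mod_addOrderOf_zsmul P₀ k
      rw [hord, hm, natCast_zsmul] at h1
      exact h1.symm
    rw [hkm] at hQ0 ⊢
    refine Finset.mem_image.mpr ⟨m, ?_, rfl⟩
    rw [Finset.mem_Ico]
    constructor
    · rw [Nat.one_le_iff_ne_zero]
      rintro rfl
      exact hQ0 (zero_nsmul _)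
    · rw [hm] at hk2; exact_mod_cast hk2

/-- **Type I everywhere.** `W` semistable, `p ≥ 11`, `p ≠ 13`: a Galois stable line in the
`p`-torsion with trivial quotient has nonsingular reduction at every place. -/
theorem nonsingularRed_of_cofixed (hΔ0 : W.Δ ≠ 0) (hss : W.IsSemistableModel) (hp : p.Prime)
    (hp11 : 11 ≤ p) (hp13 : p ≠ 13) (hb : N ≠ ⊥) (ht : N ≠ ⊤) (hN : IsGaloisStable ℚ N)
    (hcof : ∀ (σ : Qb ≃ₐ[ℚ] Qb) (x : Submodule.torsionBy ℤ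
      ((W.map (Int.castRingHom ℚ))⁄Qb).Point (p : ℤ)), σ • x - x ∈ N) :
    ∀ ℓ : ℕ, ℓ.Prime → ∀ A : ValuationSubring Qb, A.LiesOverPrime ℓ →
      ∀ Q ∈ lineOf N, Q ≠ 0 → A.valuation (px Q) ≤ 1 → NonsingularRed A.valuation Q := by
  have hfact : Fact p.Prime := ⟨hp⟩
  have : NeZero p := ⟨hp.ne_zero⟩
  have hgal : IsGalois ℚ Qb := { to_normal := { splits' := fun x => IsAlgClosed.splits _ } }
  obtain ⟨hatom, hcoatom, hcardN, hfin⟩ := line_facts hp (by omega) hb ht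
  have hC := cofixedLine_lineOf hp (by omega) hb ht hN hcof
  have hint : ∀ A : ValuationSubring Qb,
      IsIntegralFor A.valuation ((W.map (Int.castRingHom ℚ))⁄Qb) :=
    fun A => isIntegralFor_of_int (map_int_Qb W)
  have h2 : (2 : ℤ) ∣ W.Δ := by
    exact_mod_cast dvd_Δ_of_cofixed (W := W) hp (by omega) ht hcof Nat.prime_two (by omega)
  have h3 : (3 : ℤ) ∣ W.Δ := by
    exact_mod_cast dvd_Δ_of_cofixed (W := W) hp (by omega) ht hcof Nat.prime_three (by omega)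
  have h2c : ¬ (2 : ℤ) ∣ W.c₄ := by exact_mod_cast hss 2 Nat.prime_two (by exact_mod_cast h2)
  have h3c : ¬ (3 : ℤ) ∣ W.c₄ := by exact_mod_cast hss 3 Nat.prime_three (by exact_mod_cast h3)
  have htype : ∀ ℓ : ℕ, ℓ.Prime → ℓ ≠ p → (ℓ : ℤ) ∣ W.Δ → ¬ p ∣ ℓ ^ 2 - 1 →
      ∀ A : ValuationSubring Qb, A.LiesOverPrime ℓ → TypeI W (lineOf N) A := by
    intro ℓ hℓ hℓp hℓΔ hnd A hA
    by_contra hcon
    exact hnd (hC.dvd_of_not_inZeroComponentAt hΔ0 hp (by omega) hℓ hℓp hℓΔ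
      (hss ℓ hℓ hℓΔ) hA hcon)
  have hI2 := htype 2 Nat.prime_two (by omega) (by exact_mod_cast h2) (by
      intro h; have := Nat.le_of_dvd (by norm_num) h; omega)
  have hI3 := htype 3 Nat.prime_three (by omega) (by exact_mod_cast h3) (by
      intro h; have := Nat.le_of_dvd (by norm_num) h; omega)
  have hall : ∀ ℓ : ℕ, ℓ.Prime → ℓ ≠ p → (ℓ : ℤ) ∣ W.Δ → ∀ A : ValuationSubring Qb,
      A.LiesOverPrime ℓ → TypeI W (lineOf N) A := by
    intro ℓ hℓ hℓp hℓΔ A hA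
    by_cases hd : p ∣ ℓ ^ 2 - 1
    · exact ((allInputs hp (by omega) (by omega)).no_switch hp (by omega) (by omega) (by omega)
        (by omega) (by omega) W hΔ0 h2 h2c h3 h3c (lineOf N) hC.card hC.stable hℓ hd hℓΔ
        (hss ℓ hℓ hℓΔ) A hA).1 hI2 hI3
    · exact htype ℓ hℓ hℓp hℓΔ hd A hA
  -- a generator
  obtain ⟨x₀, hx₀N, hx₀⟩ := (Submodule.ne_bot_iff N).mp hb
  have hP0 : (x₀ : ((W.map (Int.castRingHom ℚ))⁄Qb).Point) ≠ 0 :=
    fun h' => hx₀ (Subtype.ext h')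
  have hpP : p • (x₀ : ((W.map (Int.castRingHom ℚ))⁄Qb).Point) = 0 := mem_torsion_iff.mp x₀.2
  have hord : addOrderOf (x₀ : ((W.map (Int.castRingHom ℚ))⁄Qb).Point) = p :=
    addOrderOf_eq_prime hpP hP0
  intro ℓ hℓ A hA Q hQ hQ0 hx
  by_cases hℓΔ : (ℓ : ℤ) ∣ W.Δ
  · by_cases hℓp : ℓ = p
    · subst hℓp
      obtain ⟨-, r, t, α, β, hnd⟩ := exists_nodeData_int hΔ0 hp hℓΔ (hss _ hp hℓΔ) hA
      have hnf : ¬ ∀ σ : Qb ≃ₐ[ℚ] Qb, ∀ x ∈ N, σ • x = x := by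
        intro hf
        obtain ⟨A₂, hA₂⟩ := exists_liesOverPrime Qb Nat.prime_two
        have h5 := dvd_of_rational_inZeroComponentAt hp hΔ0
          (Q := (x₀ : ((W.map (Int.castRingHom ℚ))⁄Qb).Point))
          (fun σ => congrArg Subtype.val (hf σ x₀ hx₀N)) hord Nat.prime_two (by omega)
          (by exact_mod_cast h2) (by exact_mod_cast h2c) hA₂
          (hI2 A₂ hA₂ _ (mem_lineOf.mpr ⟨x₀, hx₀N, rfl⟩))
        have := Nat.le_of_dvd (by norm_num) h5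
        omega
      obtain ⟨x, hx', rfl⟩ := mem_lineOf.mp hQ
      exact (nodeE0_iff_nonsingularRed hnd).mp (nodeE0_at_p (map_int_Qb W) hΔ0 hss (by omega) hN
        hatom hcoatom hnf hA hnd x hx') hQ0 hx
    · exact inZeroComponentAt_iff.mp (hall ℓ hℓ hℓp hℓΔ A hA Q hQ) hQ0 hx
  · have hv : A.valuation ((W.map (Int.castRingHom ℚ))⁄Qb).Δ = 1 := by
      rw [← map_int_Qb, map_Δ]
      exact Fermat.Agent.H09.val_intCast_eq_one hℓ hA hℓΔ
    exact nonsingularRed_of_Δ (hint A) hv hQ0 hx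

/-- No Galois stable line with trivial quotient in the `p`-torsion of a semistable curve
`y² + xy = x³ + ((B - A - 1)/4) x² - (AB/16) x`, `16 ∣ B`, for `p ≥ 11`, `p ≠ 13`. -/
theorem not_cofixed {A B : ℤ} (hF : FreyForm W A B) (h16 : (16 : ℤ) ∣ B) (hΔ0 : W.Δ ≠ 0)
    (hss : W.IsSemistableModel) (hp : p.Prime) (hp11 : 11 ≤ p) (hp13 : p ≠ 13) :
    ¬ HasGaloisStableCofixedLine (K := Qb) ℚ (W.map (Int.castRingHom ℚ)) p := by
  rintro ⟨N, hN, hb, ht, hcof⟩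
  have hfact : Fact p.Prime := ⟨hp⟩
  obtain ⟨hatom, hcoatom, hcardN, hfin⟩ := line_facts hp (by omega) hb ht
  have hC := cofixedLine_lineOf hp (by omega) hb ht hN hcof
  have h2 : (2 : ℤ) ∣ W.Δ := by
    exact_mod_cast dvd_Δ_of_cofixed (W := W) hp (by omega) ht hcof Nat.prime_two (by omega)
  have h32 : (32 : ℤ) ∣ B := by
    obtain ⟨k, rfl⟩ := h16
    have hA := hF.odd_A (dvd_trans (by norm_num) (dvd_mul_right (16 : ℤ) k))
    have hD := hF.Δ
    have e : (A * (16 * k) * (A + 16 * k)) ^ 2 = 256 * (A * k * (A + 16 * k)) ^ 2 := by ring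
    rw [e] at hD
    have hD' : W.Δ = (A * k * (A + 16 * k)) ^ 2 := by linarith
    rw [hD'] at h2
    have h3 := Int.prime_two.dvd_of_dvd_pow h2
    have hA2 : ¬ (2 : ℤ) ∣ A := by
      rw [← even_iff_two_dvd, Int.not_even_iff_odd]; exact hA
    have hA3 : ¬ (2 : ℤ) ∣ A + 16 * k := by
      intro h
      apply hA2
      have : A = (A + 16 * k) - 2 * (8 * k) := by ring
      rw [this]
      exact dvd_sub h (dvd_mul_right _ _)
    rcases Int.prime_two.dvd_or_dvd h3 with h4 | h4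
    · rcases Int.prime_two.dvd_or_dvd h4 with h5 | h5
      · exact absurd h5 hA2
      · obtain ⟨m, rfl⟩ := h5
        exact ⟨m, by ring⟩
    · exact absurd h4 hA3
  obtain ⟨x₀, hx₀N, hx₀⟩ := (Submodule.ne_bot_iff N).mp hb
  have hP0 : (x₀ : ((W.map (Int.castRingHom ℚ))⁄Qb).Point) ≠ 0 :=
    fun h' => hx₀ (Subtype.ext h')
  have hpP : p • (x₀ : ((W.map (Int.castRingHom ℚ))⁄Qb).Point) = 0 := mem_torsion_iff.mp x₀.2
  have hord : addOrderOf (x₀ : ((W.map (Int.castRingHom ℚ))⁄Qb).Point) = p :=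
    addOrderOf_eq_prime hpP hP0
  have hcyc := mem_cyc_iff hp hC.card hord (mem_lineOf.mpr ⟨x₀, hx₀N, rfl⟩)
  refine endgame hF hΔ0 h32 hp (by omega) hord ?_ ?_
  · intro σ Q hQ
    rw [hcyc] at hQ ⊢
    exact ⟨hC.stable σ Q hQ.1, smul_ne_zero' σ hQ.2⟩
  · intro ℓ hℓ A' hA' Q hQ hx
    rw [hcyc] at hQ
    exact nonsingularRed_of_cofixed hΔ0 hss hp hp11 hp13 hb ht hN hcof ℓ hℓ A' hA' Q hQ.1 hQ.2 hx

end Fermat.Agent.Cor.FullTwo
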