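import Mathlib
import Fermat.Agent.Cor.FullTwoB
import Fermat.Agent.Ell.Resid
import Fermat.Agent.Ell.Det
import Fermat.Agent.S14
import Fermat.Agent.S15

set_option autoImplicit false

/-!
# Rational points of order `p ≥ 11`, `p ≠ 13`, on semistable curves

If a semistable elliptic curve over `ℚ` has a rational point of prime order `p ≥ 11`, `p ≠ 13`,
then `E[p] ≅ ℤ/p ⊕ μ_p`; in particular there is also a Galois stable line with trivial quotient.
-/

namespace Fermat.Agent.Cor.FullTwo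

open Polynomial WeierstrassCurve WeierstrassCurve.Affine WeierstrassCurve.Affine.Point
open Fermat.Agent.H08 Fermat.Agent.H05 Fermat.Agent.H09 Fermat.Agent.H12
open Fermat.Agent.Ell (WQ TT rr lev1 lev1_smul lev1_rr lev1_surjective)

local notation "Qb" => AlgebraicClosure ℚ
local notation "GQ" => AlgebraicClosure ℚ ≃ₐ[ℚ] AlgebraicClosure ℚ

variable {W : WeierstrassCurve ℤ} {p : ℕ}

set_option quotPrecheck false in
local notation "VT" => (Submodule.torsionBy ℤ (Affine.Point ((W.map (Int.castRingHom ℚ))⁄Qb)) (p : ℤ))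

/-- a fixed point of order `p`: bad reduction at small primes -/
theorem dvd_Δ_of_fixed (hp : p.Prime) {Q : ((W.map (Int.castRingHom ℚ))⁄Qb).Point}
    (hQ0 : Q ≠ 0) (hpQ : p • Q = 0) (hfix : ∀ σ : GQ, σ • Q = Q)
    {ℓ : ℕ} (hℓ : ℓ.Prime) (hbig : ℓ ^ 2 < p - 1) : (ℓ : ℤ) ∣ W.Δ := by
  by_contra h3
  obtain ⟨A, hA⟩ := exists_liesOverPrime Qb hℓ
  have hgal : IsGalois ℚ Qb := { to_normal := { splits' := fun x => IsAlgClosed.splits _ } }
  have hv3 : A.valuation ((W.map (Int.castRingHom ℚ))⁄Qb).Δ = 1 := by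
    rw [← map_int_Qb, map_Δ]
    exact Fermat.Agent.H09.val_intCast_eq_one hℓ hA h3
  have hne : ℓ ≠ p := by
    rintro rfl
    have := hℓ.two_le
    have : ℓ ≤ ℓ ^ 2 := by nlinarith
    omega
  obtain ⟨σ, hσ⟩ := exists_isFrobeniusAt hℓ hA
  exact no_fixed_of_good hp hℓ (val_prime_eq_one hp hℓ hne hA)
    (isIntegralFor_of_int (map_int_Qb W)) hv3 hσ hQ0 hpQ (hfix σ) hbig

/-- the `p`-adic representation contains nonscalar elements -/
theorem exists_nonscalar [hpf : Fact p.Prime] (hΔ0 : W.Δ ≠ 0) (hss : W.IsSemistableModel)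
    (hp11 : 11 ≤ p) {x₀ : VT} (hx₀ : x₀ ≠ 0) (hfix : ∀ σ : GQ, σ • x₀ = x₀) :
    ∃ g : GQ, ∀ c : ℤ_[p], rr (WQ W) p g ≠ c • 1 := by
  have hp := hpf.out
  have hgal : IsGalois ℚ Qb := { to_normal := { splits' := fun x => IsAlgClosed.splits _ } }
  have hell := Fermat.Agent.Ell.isElliptic_WQ hΔ0
  by_contra hcon
  push Not at hcon
  have hall : ∀ (σ : GQ) (x : VT), σ • x = x := by
    intro σ
    obtain ⟨c, hc⟩ := hcon σ
    have h1 : ∀ x : VT, σ • x = (PadicInt.toZMod c : ZMod p) • x := by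
      intro x
      obtain ⟨f, hf⟩ := lev1_surjective (E := WQ W) (p := p) x
      have h2 := lev1_rr (E := WQ W) σ f
      rw [hc] at h2
      have h3 : lev1 (WQ W) p (c • f) = σ • lev1 (WQ W) p f := h2
      rw [lev1_smul, hf] at h3
      exact h3.symm
    have h2 : ((PadicInt.toZMod c : ZMod p) - 1) • x₀ = 0 := by
      rw [sub_smul, one_smul, ← h1, hfix, sub_self]
    have h3 : (PadicInt.toZMod c : ZMod p) = 1 := by
      rcases smul_eq_zero.mp h2 with h | h
      · exact sub_eq_zero.mp h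
      · exact absurd h hx₀
    intro x
    rw [h1, h3, one_smul]
  have h2 : (2 : ℤ) ∣ W.Δ := by
    exact_mod_cast dvd_Δ_of_fixed hp (Q := (x₀ : ((W.map (Int.castRingHom ℚ))⁄Qb).Point))
      (fun h' => hx₀ (Subtype.ext h')) (mem_torsion_iff.mp x₀.2)
      (fun σ => congrArg Subtype.val (hfix σ)) Nat.prime_two (by omega)
  obtain ⟨A, hA⟩ := exists_liesOverPrime Qb Nat.prime_two
  obtain ⟨hc₄, r, t, α, β, h⟩ := exists_nodeData_int hΔ0 Nat.prime_two (by exact_mod_cast h2)
    (hss 2 Nat.prime_two (by exact_mod_cast h2)) hA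
  have hvp := val_prime_eq_one hp Nat.prime_two (by omega) hA
  obtain ⟨P, hP0, hpP, hPE⟩ := exists_torsion_nodeE0 h (Δ_Qb_ne_zero hΔ0) hc₄ hp (by omega) hvp
  obtain ⟨σ, hσ⟩ := exists_isFrobeniusAt Nat.prime_two hA
  have h5 := dvd_of_frob_fixed Nat.prime_two hσ h hp hvp hP0 hpP hPE
    (congrArg Subtype.val (hall σ ⟨P, mem_torsion_iff.mpr hpP⟩))
  have := Nat.le_of_dvd (by norm_num) h5
  omega

/-- **The quotient by a fixed line is cyclotomic.** -/
theorem cyclo_quot [hpf : Fact p.Prime] (hΔ0 : W.Δ ≠ 0) (hss : W.IsSemistableModel)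
    (hp11 : 11 ≤ p) {N : Submodule (ZMod p) VT} (hb : N ≠ ⊥) (ht : N ≠ ⊤)
    (hfix : ∀ σ : GQ, ∀ x ∈ N, σ • x = x) (σ : GQ) (x : VT) :
    σ • x - (ExtCitation.cycloExp p σ : ZMod p) • x ∈ N := by
  have hp := hpf.out
  have : NeZero p := ⟨hp.ne_zero⟩
  have hell := Fermat.Agent.Ell.isElliptic_WQ hΔ0
  obtain ⟨hatom, hcoatom, -, -⟩ := line_facts hp (by omega) hb ht
  obtain ⟨x₀, hx₀N, hx₀⟩ := (Submodule.ne_bot_iff N).mp hb
  have hns := exists_nonscalar hΔ0 hss hp11 hx₀ (fun σ => hfix σ x₀ hx₀N)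
  have hcyc : ∀ μ : Qb, μ ^ p ^ 1 = 1 → σ μ = μ ^ (ExtCitation.cycloExp p σ) := by
    intro μ hμ
    rw [pow_one] at hμ
    have hμu : IsUnit μ := IsUnit.of_pow_eq_one hμ hp.ne_zero
    obtain ⟨u, rfl⟩ := hμu
    have hu : u ∈ rootsOfUnity p Qb := by
      rw [mem_rootsOfUnity]
      exact Units.ext (by simpa using hμ)
    exact modularCyclotomicCharacter.spec (n := p) (L := Qb)
      (ExtCitation.card_rootsOfUnity_eq_self p) (σ : Qb ≃+* Qb) hu
  obtain ⟨e, he⟩ := Fermat.Agent.Ell.det_dvd (Fermat.Agent.Ell.isModel_WQ W) hns σ 1 _ hcyc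
  have hdet : (PadicInt.toZMod (LinearMap.det (rr (WQ W) p σ)) : ZMod p) =
      (ExtCitation.cycloExp p σ : ZMod p) := by
    have h1 := congrArg (PadicInt.toZMod (p := p)) he
    rw [map_sub, map_natCast, map_mul, map_pow, map_natCast, ZMod.natCast_self, pow_one,
      zero_mul] at h1
    exact sub_eq_zero.mp h1
  set d : ZMod p := (ExtCitation.cycloExp p σ : ZMod p) with hd
  set t : ZMod p := PadicInt.toZMod (LinearMap.trace ℤ_[p] (TT (WQ W) p) (rr (WQ W) p σ)) with ht'
  have hrel : ∀ x : VT, σ • (σ • x) - t • (σ • x) + d • x = 0 := by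
    intro x
    obtain ⟨f, hf⟩ := lev1_surjective (E := WQ W) (p := p) x
    have h1 := Fermat.Agent.Ell.end_ch (Fermat.Agent.Ell.tateBasis (WQ W) p) (rr (WQ W) p σ)
    have h2 := congrArg (fun g => lev1 (WQ W) p (g f)) h1
    have h3 : lev1 (WQ W) p (rr (WQ W) p σ (rr (WQ W) p σ f)
      - (LinearMap.trace ℤ_[p] (TT (WQ W) p) (rr (WQ W) p σ)) • (rr (WQ W) p σ f)
      + (LinearMap.det (rr (WQ W) p σ)) • f) = 0 := by
      rw [← map_zero (lev1 (WQ W) p)]
      exact h2
    rw [map_add, map_sub, lev1_smul, lev1_smul, hdet, lev1_rr, lev1_rr, hf] at h3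
    exact h3
  have hσN : σ • x₀ = x₀ := hfix σ x₀ hx₀N
  have htd : t = 1 + d := by
    have h1 := hrel x₀
    rw [hσN, hσN] at h1
    have h2 : (1 - t + d) • x₀ = 0 := by
      rw [add_smul, sub_smul, one_smul]; exact h1
    rcases smul_eq_zero.mp h2 with h | h
    · linear_combination -h
    · exact absurd h hx₀
  set y : VT := σ • x - d • x with hy
  have hsmul : ∀ (c : ZMod p) (z : VT), σ • (c • z) = c • (σ • z) := by
    intro c z
    exact (Fermat.Agent.EGal.rho (WQ W) p σ).map_smul c z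
  have hσy : σ • y = y := by
    have h1 := hrel x
    rw [htd, add_smul, one_smul] at h1
    rw [hy, smul_sub, hsmul]
    rw [← sub_eq_zero]
    rw [← h1]
    abel
  by_contra hyN
  -- `V = N + ⟨y⟩` is fixed by `σ`
  have htop : N ⊔ Submodule.span (ZMod p) {y} = ⊤ := by
    apply hcoatom.2
    refine lt_of_le_of_ne le_sup_left ?_
    intro h
    apply hyN
    rw [h]
    exact Submodule.mem_sup_right (Submodule.mem_span_singleton_self y)
  have hfixall : ∀ z : VT, σ • z = z := by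
    intro z
    have hz : z ∈ N ⊔ Submodule.span (ZMod p) {y} := by rw [htop]; trivial
    obtain ⟨u, hu, v, hv, rfl⟩ := Submodule.mem_sup.mp hz
    obtain ⟨c, rfl⟩ := Submodule.mem_span_singleton.mp hv
    rw [smul_add, hfix σ u hu, hsmul, hσy]
  apply hyN
  have hy2 : y = (1 - d) • x := by rw [hy, hfixall, sub_smul, one_smul]
  -- `d = 1`
  have h1 : (PadicInt.toZMod (LinearMap.det (rr (WQ W) p σ)) : ZMod p) = 1 := by
    have hm := Fermat.Agent.Ell.mtx_rho (Fermat.Agent.Ell.tateBasis (WQ W) p) σ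
    have hid : Fermat.Agent.EGal.rho (WQ W) p σ = 1 := by
      apply LinearMap.ext
      intro z
      exact hfixall z
    rw [hid, map_one] at hm
    have h2 := congrArg Matrix.det hm
    rw [Matrix.det_one] at h2
    rw [← Fermat.Agent.Ell.det_mtx (Fermat.Agent.Ell.tateBasis (WQ W) p)]
    rw [RingHom.map_det]
    exact h2.symm
  rw [hdet] at h1
  rw [hy2, h1, sub_self, zero_smul]
  exact zero_mem _

/-- cofixed at one place above `p` implies cofixed -/
theorem cofixed_of_inertia [Fact p.Prime] (hΔ0 : W.Δ ≠ 0) (hss : W.IsSemistableModel)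
    (hp5 : 5 ≤ p) {N : Submodule (ZMod p) VT} (hN : IsGaloisStable ℚ N) (hatom : IsAtom N)
    (hcoatom : IsCoatom N) {A₀ : ValuationSubring Qb} (hA₀ : A₀.LiesOverPrime p)
    (hI : ∀ σ ∈ A₀.inertiaSubgroupIn ℚ, ∀ x : VT, σ • x - x ∈ N) :
    ∀ (σ : GQ) (x : VT), σ • x - x ∈ N := by
  have hp := (inferInstance : Fact p.Prime).out
  have hgal : IsGalois ℚ Qb := { to_normal := { splits' := fun x => IsAlgClosed.splits _ } }
  obtain ⟨K, hKo, hK⟩ := exists_open_fix (L := Qb) (W₀ := W.map (Int.castRingHom ℚ)) hp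
    (by omega)
  have hnorm := cofixSub_normal N hN
  have htop : cofixSub N hN = ⊤ := by
    apply minkowski
    · refine Subgroup.isOpen_mono (H₁ := K) ?_ hKo
      intro σ hσ x
      rw [hK σ hσ x, sub_self]; exact zero_mem _
    · intro ℓ hℓ A hA σ hσ
      by_cases hℓp : ℓ = p
      · subst hℓp
        obtain ⟨g, rfl⟩ := exists_smul_eq hℓ hA₀ hA
        have hτ := inertia_conj hσ
        intro x
        have h1 := hI _ hτ (g⁻¹ • x)
        have e : σ • x - x = g • ((g⁻¹ * σ * g) • (g⁻¹ • x) - g⁻¹ • x) := by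
          rw [tsmul_sub, tsmul_inv_smul, tmul_smul, tmul_smul, tsmul_inv_smul, tsmul_inv_smul]
        rw [e]
        exact hN g _ h1
      · obtain ⟨F', h1, h2⟩ := inertia_away (p := p) (map_int_Qb W) hΔ0 hss hp hℓ hℓp hA hσ
        exact (alg_away hatom hcoatom (actHom p σ) h1 h2 (fun x hx => hN σ x hx)).2
  intro σ
  have : σ ∈ cofixSub N hN := by rw [htop]; trivial
  exact this

/-- a fixed line is not contained in `E₀` at the places of bad reduction prime to `p` -/
theorem not_nodeE0_of_fixed (hp : p.Prime) (hΔ0 : W.Δ ≠ 0) (hss : W.IsSemistableModel)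
    (hp11 : 11 ≤ p) (hp13 : p ≠ 13) {Q : ((W.map (Int.castRingHom ℚ))⁄Qb).Point}
    (hQ0 : Q ≠ 0) (hpQ : p • Q = 0) (hfix : ∀ σ : GQ, σ • Q = Q)
    {ℓ : ℕ} (hℓ : ℓ.Prime) (hℓp : ℓ ≠ p) (hℓΔ : (ℓ : ℤ) ∣ W.Δ)
    {A : ValuationSubring Qb} (hA : A.LiesOverPrime ℓ) : ¬ W.InZeroComponentAt A Q := by
  have hord : addOrderOf Q = p := by
    have : Fact p.Prime := ⟨hp⟩
    exact addOrderOf_eq_prime hpQ hQ0
  have h2 : ((2 : ℕ) : ℤ) ∣ W.Δ := dvd_Δ_of_fixed hp hQ0 hpQ hfix Nat.prime_two (by omega)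
  have h3 : ((3 : ℕ) : ℤ) ∣ W.Δ := dvd_Δ_of_fixed hp hQ0 hpQ hfix Nat.prime_three (by omega)
  have h2c := hss 2 Nat.prime_two h2
  have h3c := hss 3 Nat.prime_three h3
  refine Fermat.Agent.S15.result hp (by simp; omega) W hΔ0 Q hfix hord (by exact_mod_cast h2)
    (by exact_mod_cast h2c) ?_ (by exact_mod_cast h3) (by exact_mod_cast h3c) ?_ hℓ hℓp hℓΔ
    (hss ℓ hℓ hℓΔ) A hA
  · intro A₂ hA₂ hin
    have h5 := dvd_of_rational_inZeroComponentAt hp hΔ0 hfix hord Nat.prime_two (by omega)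
      h2 h2c hA₂ hin
    have := Nat.le_of_dvd (by norm_num) h5
    omega
  · intro A₃ hA₃ hin
    have h5 := dvd_of_rational_inZeroComponentAt hp hΔ0 hfix hord Nat.prime_three (by omega)
      h3 h3c hA₃ hin
    have := Nat.le_of_dvd (by norm_num) h5
    omega

/-- **`E[p] = ℤ/p ⊕ μ_p`.** A semistable curve with a fixed line in the `p`-torsion, `p ≥ 11`,
`p ≠ 13`, has a Galois stable complement of this line, which is a line with trivial quotient. -/
theorem cofixed_of_fixed [hpf : Fact p.Prime] (hΔ0 : W.Δ ≠ 0) (hss : W.IsSemistableModel)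
    (hp11 : 11 ≤ p) (hp13 : p ≠ 13) {N : Submodule (ZMod p) VT} (hb : N ≠ ⊥) (ht : N ≠ ⊤)
    (hfix : ∀ σ : GQ, ∀ x ∈ N, σ • x = x) :
    HasGaloisStableCofixedLine (K := Qb) ℚ (W.map (Int.castRingHom ℚ)) p := by
  have hp := hpf.out
  have hell := Fermat.Agent.Ell.isElliptic_WQ hΔ0
  have hint : ∀ A : ValuationSubring Qb,
      IsIntegralFor A.valuation ((W.map (Int.castRingHom ℚ))⁄Qb) :=
    fun A => isIntegralFor_of_int (map_int_Qb W)
  have hN : IsGaloisStable ℚ N := fun σ x hx => by rw [hfix σ x hx]; exact hx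
  by_cases hcof : ∀ (σ : GQ) (x : VT), σ • x - x ∈ N
  · exact ⟨N, hN, hb, ht, hcof⟩
  obtain ⟨hatom, hcoatom, hcardN, hfin⟩ := line_facts hp (by omega) hb ht
  obtain ⟨x₀, hx₀N, hx₀⟩ := (Submodule.ne_bot_iff N).mp hb
  have hP0 : (x₀ : ((W.map (Int.castRingHom ℚ))⁄Qb).Point) ≠ 0 :=
    fun h' => hx₀ (Subtype.ext h')
  have hpP : p • (x₀ : ((W.map (Int.castRingHom ℚ))⁄Qb).Point) = 0 := mem_torsion_iff.mp x₀.2
  have hcompl : ∀ {F : Submodule (ZMod p) VT}, F ≠ ⊤ → ¬ F ≤ N → IsCompl N F := by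
    intro F hF hFN
    refine ⟨(alg_at hatom hcoatom hF).resolve_left hFN, ?_⟩
    rw [codisjoint_iff]
    apply hcoatom.2
    exact lt_of_le_of_ne le_sup_left (fun h => hFN (by rw [h]; exact le_sup_right))
  have hadm : ExtCitation.IsAdmissibleExtensionCts p VT N := by
    refine { stable := hN, fixed_sub := hfix, cyclo_quot := ?_, card_sub := hcardN,
             card_total := ?_, unramified_outside := ?_, locally_split := ?_,
             open_kernel := ?_ }
    · exact cyclo_quot hΔ0 hss hp11 hb ht hfix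
    · rw [Module.natCard_eq_pow_finrank (K := ZMod p), Nat.card_zmod]
      congr 1
      exact Fermat.Agent.Frob.finrank_torsionBy (K := Qb) (WQ W) p
    · intro ℓ hℓ hℓp A hA σ hσ x
      have hvp := val_prime_eq_one hp hℓ hℓp hA
      by_cases hℓΔ : (ℓ : ℤ) ∣ W.Δ
      · obtain ⟨hc₄, r, t, α, β, h⟩ := exists_nodeData_int hΔ0 hℓ hℓΔ (hss ℓ hℓ hℓΔ) hA
        obtain ⟨P, hP0', hpP', hPE⟩ := exists_torsion_nodeE0 h (Δ_Qb_ne_zero hΔ0) hc₄ hp
          (by omega) hvp
        have hnN : ∀ z ∈ N, z ≠ 0 → ¬ NodeE0 A.valuation r t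
            (z : ((W.map (Int.castRingHom ℚ))⁄Qb).Point) := by
          intro z hz hz0 hzE
          exact not_nodeE0_of_fixed hp hΔ0 hss hp11 hp13
            (Q := (z : ((W.map (Int.castRingHom ℚ))⁄Qb).Point))
            (fun h' => hz0 (Subtype.ext h')) (mem_torsion_iff.mp z.2)
            (fun σ => congrArg Subtype.val (hfix σ z hz)) hℓ hℓp hℓΔ hA
            (inZeroComponentAt_iff.mpr ((nodeE0_iff_nonsingularRed h).mp hzE))
        have hFN : ¬ pull p (nodeE0Sub h) ≤ N := by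
          intro hle
          exact hnN ⟨P, mem_torsion_iff.mpr hpP'⟩ (hle hPE)
            (fun h' => hP0' (congrArg Subtype.val h')) hPE
        have hFt : pull p (nodeE0Sub h) ≠ ⊤ := by
          intro htop
          have : x₀ ∈ pull p (nodeE0Sub h) := by rw [htop]; trivial
          exact hnN x₀ hx₀N hx₀ this
        have hx : x ∈ N ⊔ pull p (nodeE0Sub h) := by
          rw [(hcompl hFt hFN).sup_eq_top]; trivial
        obtain ⟨u, hu, v, hv, rfl⟩ := Submodule.mem_sup.mp hx
        rw [smul_add, hfix σ u hu]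
        congr 1
        have h3 := inE1_smul_sub_of_nodeE0 hσ h
          (P := (v : ((W.map (Int.castRingHom ℚ))⁄Qb).Point)) hv
        have h4 : p • (σ • (v : ((W.map (Int.castRingHom ℚ))⁄Qb).Point) - v) = 0 :=
          mem_torsion_iff.mp (actHom p σ v - v).2
        exact sub_eq_zero.mp (Subtype.ext (InE1.eq_zero_of_torsion (hint A) h3 h4 hvp))
      · have hv : A.valuation ((W.map (Int.castRingHom ℚ))⁄Qb).Δ = 1 := by
          rw [← map_int_Qb, map_Δ]
          exact Fermat.Agent.H09.val_intCast_eq_one hℓ hA hℓΔ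
        have h3 := inE1_smul_sub_of_good (hint A) hv hσ
          (x : ((W.map (Int.castRingHom ℚ))⁄Qb).Point)
        have h4 : p • (σ • (x : ((W.map (Int.castRingHom ℚ))⁄Qb).Point) - x) = 0 :=
          mem_torsion_iff.mp (actHom p σ x - x).2
        exact sub_eq_zero.mp (Subtype.ext (InE1.eq_zero_of_torsion (hint A) h3 h4 hvp))
    · intro A hA
      have key : ∀ F : Submodule (ZMod p) VT, F ≠ ⊤ →
          (∀ σ ∈ A.inertiaSubgroupIn ℚ, ∀ x : VT, σ • x - x ∈ F) →
          (∀ σ ∈ A.decompositionSubgroup ℚ, ∀ x ∈ F, σ • x ∈ F) →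
          ∃ C' : Submodule (ZMod p) VT,
            (∀ σ ∈ A.decompositionSubgroup ℚ, ∀ x ∈ C', σ • x ∈ C') ∧ IsCompl N C' := by
        intro F hF hI hD
        refine ⟨F, hD, hcompl hF ?_⟩
        intro hFN
        exact hcof (cofixed_of_inertia hΔ0 hss (by omega) hN hatom hcoatom hA
          (fun σ hσ x => hFN (hI σ hσ x)))
      by_cases hpΔ : (p : ℤ) ∣ W.Δ
      · obtain ⟨hc₄, r, t, α, β, h⟩ := exists_nodeData_int hΔ0 hp hpΔ (hss p hp hpΔ) hA
        refine key (pull p (nodeE0Sub h)) ?_ ?_ ?_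
        · have hv2 : A.valuation (2 : Qb) = 1 := by
            have := Fermat.Agent.H09.val_intCast_eq_one (L := Qb) (c := 2) hp hA (by
              intro h
              have h' : p ∣ 2 := by exact_mod_cast h
              have := Nat.le_of_dvd (by norm_num) h'
              omega)
            exact_mod_cast this
          obtain ⟨P, hP0', hPp, hPE⟩ := exists_torsion_not_nodeE0 h (Δ_Qb_ne_zero hΔ0) hv2 hc₄
            (hp.odd_of_ne_two (by omega)) (by omega)
          intro htop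
          have hmem : (⟨P, mem_torsion_iff.mpr hPp⟩ : VT) ∈ pull p (nodeE0Sub h) := by
            rw [htop]; trivial
          exact hPE hmem
        · intro σ hσ x
          rw [mem_pull]
          exact nodeE0_smul_sub hσ h (x : ((W.map (Int.castRingHom ℚ))⁄Qb).Point)
        · intro σ hσ x hx
          rw [mem_pull] at hx ⊢
          exact nodeE0_smul hσ h hx
      · have hv : A.valuation ((W.map (Int.castRingHom ℚ))⁄Qb).Δ = 1 := by
          rw [← map_int_Qb, map_Δ]
          exact Fermat.Agent.H09.val_intCast_eq_one hp hA hpΔ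
        refine key (pull p (E1 A.valuation _ (hint A))) ?_ ?_ ?_
        · have hord : addOrderOf (x₀ : ((W.map (Int.castRingHom ℚ))⁄Qb).Point) = p :=
            addOrderOf_eq_prime hpP hP0
          have hcyc := mem_cyc_iff hp (card_lineOf hcardN) hord (mem_lineOf.mpr ⟨x₀, hx₀N, rfl⟩)
          have hfixl : ∀ Q ∈ lineOf N, p • Q = 0 ∧ ∀ σ : GQ, σ • Q = Q := by
            intro Q hQ
            obtain ⟨z, hz, rfl⟩ := mem_lineOf.mp hQ
            exact ⟨mem_torsion_iff.mp z.2, fun σ => congrArg Subtype.val (hfix σ z hz)⟩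
          obtain ⟨P, hP0', hPp, hPx⟩ := exists_torsion_not_E1 (map_int_Qb W) hp (by omega) hA hv
            (cyc p (x₀ : ((W.map (Int.castRingHom ℚ))⁄Qb).Point))
            (fun P hP => ((hcyc P).mp hP).2) (fun P hP => (hfixl P ((hcyc P).mp hP).1).1)
            (fun σ P hP => by rw [(hfixl P ((hcyc P).mp hP).1).2 σ]; exact hP)
            (by
              unfold cyc
              rw [Finset.card_image_of_injOn (cyc_injOn hord), Nat.card_Ico])
          intro htop
          have hmem : (⟨P, mem_torsion_iff.mpr hPp⟩ : VT) ∈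
              pull p (E1 A.valuation _ (hint A)) := by
            rw [htop]; trivial
          rw [mem_pull] at hmem
          rcases hmem with h3 | h3
          · exact hP0' h3
          · exact absurd h3 (not_lt.mpr hPx)
        · intro σ hσ x
          rw [mem_pull]
          exact inE1_smul_sub_of_good (hint A) hv hσ
            (x : ((W.map (Int.castRingHom ℚ))⁄Qb).Point)
        · intro σ hσ x hx
          rw [mem_pull] at hx ⊢
          exact inE1_smul hσ hx
    · obtain ⟨K, hKo, hK⟩ := exists_open_fix (L := Qb) (W₀ := W.map (Int.castRingHom ℚ)) hp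
        (by omega)
      let H : Subgroup GQ :=
        { carrier := {σ | ∀ v : VT, σ • v = v}
          mul_mem' := fun {a b} ha hb v => by rw [mul_smul, hb, ha]
          one_mem' := fun v => one_smul _ v
          inv_mem' := fun {a} ha v => by rw [inv_smul_eq_iff, ha] }
      exact Subgroup.isOpen_mono (H₁ := K) (H₂ := H) (fun σ hσ v => hK σ hσ v) hKo
  obtain ⟨C', hC', hcomp⟩ := Fermat.Agent.S14.result (p := p) (by omega) VT N hadm
  refine ⟨C', hC', ?_, ?_, ?_⟩
  · rintro rfl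
    exact ht (by simpa using hcomp.sup_eq_top)
  · rintro rfl
    exact hb (by simpa using hcomp.inf_eq_bot)
  · intro σ x
    have hx : x ∈ N ⊔ C' := by rw [hcomp.sup_eq_top]; trivial
    obtain ⟨u, hu, v, hv, rfl⟩ := Submodule.mem_sup.mp hx
    rw [smul_add, hfix σ u hu, add_sub_add_left_eq_sub]
    exact sub_mem (hC' σ v hv) hv

end Fermat.Agent.Cor.FullTwo
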