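import Mathlib
import Fermat.Agent.Cor.FullTwoC

set_option autoImplicit false

/-!
# Irreducibility of `E[p]` for semistable curves with full rational `2`-torsion

Let `W` be a semistable Weierstrass equation over `ℤ` of an elliptic curve all whose points of order
two are rational and `p` a prime, `p ≥ 11`, `p ≠ 13`. Then `E[p]` is irreducible.
-/

namespace Fermat.Agent.Cor.FullTwo

open Polynomial WeierstrassCurve WeierstrassCurve.Affine WeierstrassCurve.Affine.Point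
open Fermat.Agent.H08 Fermat.Agent.H05 Fermat.Agent.H09 Fermat.Agent.H12

local notation "Qb" => AlgebraicClosure ℚ

variable {W : WeierstrassCurve ℤ} {p : ℕ}

/-- A semistable curve with reducible `p`-torsion, `p ≥ 11`, `p ≠ 13`, has a Galois stable line with
trivial quotient. -/
theorem cofixed_of_reducible (hΔ0 : W.Δ ≠ 0) (hss : W.IsSemistableModel) (hp : p.Prime)
    (hp11 : 11 ≤ p) (hp13 : p ≠ 13)
    (hred : ¬ GaloisRepIsIrreducible (K := Qb) ℚ (W.map (Int.castRingHom ℚ)) p) :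
    HasGaloisStableCofixedLine (K := Qb) ℚ (W.map (Int.castRingHom ℚ)) p := by
  classical
  have hfact : Fact p.Prime := ⟨hp⟩
  have hnt : Nontrivial
      (Submodule.torsionBy ℤ ((W.map (Int.castRingHom ℚ))⁄Qb).Point (p : ℤ)) := by
    obtain ⟨Q, hQ, hpQ⟩ := exists_torsion (W := ((W.map (Int.castRingHom ℚ))⁄Qb))
      (Δ_Qb_ne_zero hΔ0) (hp.odd_of_ne_two (by omega))
      (by omega) (Nat.cast_ne_zero.mpr hp.ne_zero)
    exact ⟨⟨⟨Q, mem_torsion_iff.mpr hpQ⟩, 0, fun h => hQ (congrArg Subtype.val h)⟩⟩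
  have hex : ∃ N : Submodule (ZMod p)
      (Submodule.torsionBy ℤ ((W.map (Int.castRingHom ℚ))⁄Qb).Point (p : ℤ)),
      IsGaloisStable ℚ N ∧ N ≠ ⊥ ∧ N ≠ ⊤ := by
    by_contra hcon
    apply hred
    refine ⟨hnt, fun N hN => ?_⟩
    by_contra h
    push Not at h
    exact hcon ⟨N, hN, h.1, h.2⟩
  obtain ⟨N, hN, hb, ht⟩ := hex
  rcases dichotomy (map_int_Qb W) hΔ0 hss (by omega) N hN hb ht with h | h
  · exact cofixed_of_fixed hΔ0 hss hp11 hp13 hb ht h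
  · exact ⟨N, hN, hb, ht, h⟩

/-- The curves `y² + xy = x³ + ((B - A - 1)/4) x² - (AB/16) x`, `16 ∣ B`. -/
theorem irreducible_of_freyForm {A B : ℤ} (hF : FreyForm W A B) (h16 : (16 : ℤ) ∣ B)
    (hΔ0 : W.Δ ≠ 0) (hss : W.IsSemistableModel) (hp : p.Prime) (hp11 : 11 ≤ p)
    (hp13 : p ≠ 13) :
    GaloisRepIsIrreducible (K := Qb) ℚ (W.map (Int.castRingHom ℚ)) p := by
  by_contra hred
  exact not_cofixed hF h16 hΔ0 hss hp hp11 hp13
    (cofixed_of_reducible hΔ0 hss hp hp11 hp13 hred)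

/-- Unbundled version. -/
theorem irreducible {W : WeierstrassCurve ℤ} (hss : W.IsSemistableModel) (hΔ : W.Δ ≠ 0)
    {A B : ℤ} (h1 : W.a₁ = 1) (h3 : W.a₃ = 0) (h6 : W.a₆ = 0) (h2 : 4 * W.a₂ = B - A - 1)
    (h4 : 16 * W.a₄ = -(A * B)) (hB : (16 : ℤ) ∣ B) {p : ℕ} (hp : p.Prime) (hp11 : 11 ≤ p)
    (hp13 : p ≠ 13) :
    GaloisRepIsIrreducible (K := AlgebraicClosure ℚ) ℚ (W.map (Int.castRingHom ℚ)) p :=
  irreducible_of_freyForm ⟨h1, h3, h6, h2, h4⟩ hB hΔ hss hp hp11 hp13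

/-- The equation is semistable if `A` and `B` are coprime and `16 ∣ B`. -/
theorem FreyForm.isSemistableModel {A B : ℤ} (hF : FreyForm W A B) (hAB : IsCoprime A B) :
    W.IsSemistableModel := by
  intro ℓ hℓ hℓΔ hℓc
  have hℓ' : Prime (ℓ : ℤ) := Nat.prime_iff_prime_int.mp hℓ
  rw [hF.c₄] at hℓc
  have h1 : (ℓ : ℤ) ∣ (A * B * (A + B)) ^ 2 := by
    rw [← hF.Δ]; exact dvd_mul_of_dvd_right hℓΔ _
  have h2 := hℓ'.dvd_of_dvd_pow h1
  have key : ∀ x y : ℤ, IsCoprime x y → (ℓ : ℤ) ∣ x → ¬ (ℓ : ℤ) ∣ y := by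
    intro x y hxy hx hy
    exact hℓ'.not_isUnit (hxy.isUnit_of_dvd' hx hy)
  rcases hℓ'.dvd_or_dvd h2 with h | h
  · rcases hℓ'.dvd_or_dvd h with h | h
    · have : (ℓ : ℤ) ∣ B ^ 2 := by
        have e : B ^ 2 = (A ^ 2 + A * B + B ^ 2) - A * (A + B) := by ring
        rw [e]; exact dvd_sub hℓc (dvd_mul_of_dvd_left h _)
      exact key A B hAB h (hℓ'.dvd_of_dvd_pow this)
    · have : (ℓ : ℤ) ∣ A ^ 2 := by
        have e : A ^ 2 = (A ^ 2 + A * B + B ^ 2) - B * (A + B) := by ring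
        rw [e]; exact dvd_sub hℓc (dvd_mul_of_dvd_left h _)
      exact key A B hAB (hℓ'.dvd_of_dvd_pow this) h
  · have : (ℓ : ℤ) ∣ A ^ 2 := by
      have e : A ^ 2 = (A ^ 2 + A * B + B ^ 2) - B * (A + B) := by ring
      rw [e]; exact dvd_sub hℓc (dvd_mul_of_dvd_right h _)
    have hA := hℓ'.dvd_of_dvd_pow this
    exact key A B hAB hA ((dvd_add_right hA).mp h)

end Fermat.Agent.Cor.FullTwo
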