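import Mathlib
import Fermat.Agent.Cor.FullTwo

set_option autoImplicit false

/-!
# Rational points of order `p` on semistable curves: one step of the isogeny chain

The local input at `p` is an abstract property (`Local`) which is inherited by the quotient by
the line `≅ μ_p`.
-/

namespace Fermat.Agent.Cor.Mazur

open Polynomial WeierstrassCurve WeierstrassCurve.Affine WeierstrassCurve.Affine.Point
open Fermat.Agent.H08 Fermat.Agent.H05 Fermat.Agent.H09 Fermat.Agent.H12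
open Fermat.Agent.Cor.FullTwo
open Fermat.Agent.Ell (WQ TT rr lev1 lev1_smul lev1_rr lev1_surjective Pts)
open Fermat.Agent.EGal (VV fixMu mem_fixMu fixMu_normal)
open scoped Pointwise

local notation "Qb" => AlgebraicClosure ℚ
local notation "GQ" => AlgebraicClosure ℚ ≃ₐ[ℚ] AlgebraicClosure ℚ

variable {W : WeierstrassCurve ℤ} {p : ℕ}

/-- `ℚ(ζ_p)/ℚ` is ramified at every place above `p` -/
theorem exists_inertia_mu (hp : p.Prime) (hp3 : 3 ≤ p) {A₀ : ValuationSubring Qb}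
    (hA₀ : A₀.LiesOverPrime p) : ∃ σ ∈ A₀.inertiaSubgroupIn ℚ, σ ∉ fixMu p := by
  by_contra hcon
  push Not at hcon
  have hgal : IsGalois ℚ Qb := { to_normal := { splits' := fun x => IsAlgClosed.splits _ } }
  have : NeZero p := ⟨hp.ne_zero⟩
  obtain ⟨ζ, hζ⟩ := Fermat.Agent.EGal.exists_primRoot hp.ne_zero
  have hnorm := fixMu_normal p
  have hmem : ∀ σ : GQ, σ ∈ fixMu p ↔ σ ζ = ζ := by
    intro σ
    rw [mem_fixMu]
    constructor
    · intro h; exact h ζ hζ.pow_eq_one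
    · intro h x hx
      obtain ⟨b, -, rfl⟩ := hζ.eq_pow_of_pow_eq_one hx
      rw [map_pow, h]
  have hopen : IsOpen (fixMu p : Set GQ) := by
    have h1 : (fixMu p : Set GQ) = MulAction.stabilizer GQ ζ := by
      ext σ
      exact hmem σ
    rw [h1]
    exact stabilizer_isOpen_of_isIntegral (K := ℚ) (L := Qb) _
  have htop : fixMu p = ⊤ := by
    apply minkowski _ hopen
    intro ℓ hℓ A hA σ hσ
    by_cases hℓp : ℓ = p
    · subst hℓp
      obtain ⟨g, rfl⟩ := exists_smul_eq hℓ hA₀ hA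
      have h1 := hcon _ (inertia_conj hσ)
      have h2 := hnorm.conj_mem _ h1 g
      have e : g * (g⁻¹ * σ * g) * g⁻¹ = σ := by group
      rwa [e] at h2
    · rw [mem_fixMu]
      intro x hx
      exact inertia_apply_rootOfUnity hℓ hA (fun h => hℓp
        ((Nat.prime_dvd_prime_iff_eq hℓ hp).mp h)) hσ hx
  have hfix : ∀ σ : GQ, σ ζ = ζ := by
    intro σ
    rw [← hmem, htop]; trivial
  obtain ⟨q, hq⟩ := IntermediateField.mem_bot.mp ((InfiniteGalois.mem_bot_iff_fixed (k := ℚ) _).mpr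
    hfix)
  have hq1 : q ^ p = 1 := by
    apply (algebraMap ℚ Qb).injective
    rw [map_pow, hq, hζ.pow_eq_one, map_one]
  have hq2 : q = 1 := by
    have hodd : Odd p := hp.odd_of_ne_two (by omega)
    exact hodd.strictMono_pow.injective (by simpa using hq1)
  rw [hq2, map_one] at hq
  exact hζ.ne_one hp.one_lt hq.symm

/-- `σ` acts on `p`-th roots of unity through `cycloExp` -/
theorem cycloExp_spec [hpf : Fact p.Prime] (σ : GQ) {μ : Qb} (hμ : μ ^ p = 1) :
    σ μ = μ ^ (ExtCitation.cycloExp p σ) := by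
  have hp := hpf.out
  have : NeZero p := ⟨hp.ne_zero⟩
  obtain ⟨u, rfl⟩ := IsUnit.of_pow_eq_one hμ hp.ne_zero
  have hu : u ∈ rootsOfUnity p Qb := by
    rw [mem_rootsOfUnity]
    exact Units.ext (by simpa using hμ)
  exact modularCyclotomicCharacter.spec (n := p) (L := Qb)
    (ExtCitation.card_rootsOfUnity_eq_self p) (σ : Qb ≃+* Qb) hu

theorem exists_inertia_cyclo [hpf : Fact p.Prime] (hp3 : 3 ≤ p) {A₀ : ValuationSubring Qb}
    (hA₀ : A₀.LiesOverPrime p) : ∃ σ ∈ A₀.inertiaSubgroupIn ℚ,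
      (ExtCitation.cycloExp p σ : ZMod p) ≠ 1 := by
  obtain ⟨σ, hσ, hne⟩ := exists_inertia_mu hpf.out hp3 hA₀
  refine ⟨σ, hσ, fun h1 => hne ?_⟩
  rw [mem_fixMu]
  intro x hx
  rw [cycloExp_spec σ hx]
  have h2 : ExtCitation.cycloExp p σ ≡ 1 [MOD p] := by
    rw [← ZMod.natCast_eq_natCast_iff]
    simpa using h1
  calc x ^ (ExtCitation.cycloExp p σ) = x ^ 1 := pow_eq_pow_of_modEq h2 hx
    _ = x := pow_one x

/-- the `p`-adic representation contains nonscalar elements -/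
theorem exists_nonscalar' [hpf : Fact p.Prime] (hΔ0 : W.Δ ≠ 0) (h2c : ¬ (2 : ℤ) ∣ W.c₄)
    (hp11 : 11 ≤ p) {x₀ : VV (WQ W) p} (hx₀ : x₀ ≠ 0) (hfix : ∀ σ : GQ, σ • x₀ = x₀) :
    ∃ g : GQ, ∀ c : ℤ_[p], rr (WQ W) p g ≠ c • 1 := by
  have hp := hpf.out
  have hgal : IsGalois ℚ Qb := { to_normal := { splits' := fun x => IsAlgClosed.splits _ } }
  have hell := Fermat.Agent.Ell.isElliptic_WQ hΔ0
  by_contra hcon
  push Not at hcon
  have hall : ∀ (σ : GQ) (x : VV (WQ W) p), σ • x = x := by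
    intro σ
    obtain ⟨c, hc⟩ := hcon σ
    have h1 : ∀ x : VV (WQ W) p, σ • x = (PadicInt.toZMod c : ZMod p) • x := by
      intro x
      obtain ⟨f, hf⟩ := lev1_surjective (E := WQ W) (p := p) x
      have h2 := lev1_rr (E := WQ W) σ f
      rw [hc] at h2
      have h3 : lev1 (WQ W) p (c • f) = σ • lev1 (WQ W) p f := h2
      rw [lev1_smul, hf] at h3
      exact h3.symm
    have h2 : ((PadicInt.toZMod c : ZMod p) - 1) • x₀ = 0 := by
      rw [sub_smul, one_smul, ← h1, hfix, sub_self]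
    have h3 : (PadicInt.toZMod c : ZMod p) = 1 := by
      rcases smul_eq_zero.mp h2 with h | h
      · exact sub_eq_zero.mp h
      · exact absurd h hx₀
    intro x
    rw [h1, h3, one_smul]
  have h2 : ((2 : ℕ) : ℤ) ∣ W.Δ := dvd_Δ_of_fixed hp
      (Q := (x₀ : ((W.map (Int.castRingHom ℚ))⁄Qb).Point))
      (fun h' => hx₀ (Subtype.ext h')) (mem_torsion_iff.mp x₀.2)
      (fun σ => congrArg Subtype.val (hfix σ)) Nat.prime_two (by omega)
  obtain ⟨A, hA⟩ := exists_liesOverPrime Qb Nat.prime_two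
  obtain ⟨hc₄, r, t, α, β, h⟩ := exists_nodeData_int hΔ0 Nat.prime_two h2
    (by exact_mod_cast h2c) hA
  have hvp := val_prime_eq_one hp Nat.prime_two (by omega) hA
  obtain ⟨P, hP0, hpP, hPE⟩ := exists_torsion_nodeE0 h (Δ_Qb_ne_zero hΔ0) hc₄ hp (by omega) hvp
  obtain ⟨σ, hσ⟩ := exists_isFrobeniusAt Nat.prime_two hA
  have h5 := dvd_of_frob_fixed Nat.prime_two hσ h hp hvp hP0 hpP hPE
    (congrArg Subtype.val (hall σ ⟨P, mem_torsion_iff.mpr hpP⟩))
  have := Nat.le_of_dvd (by norm_num) h5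
  omega

/-- **The quotient by a fixed line is cyclotomic.** -/
theorem cyclo_quot' [hpf : Fact p.Prime] (hΔ0 : W.Δ ≠ 0) (h2c : ¬ (2 : ℤ) ∣ W.c₄)
    (hp11 : 11 ≤ p) {N : Submodule (ZMod p) (VV (WQ W) p)} (hb : N ≠ ⊥) (ht : N ≠ ⊤)
    (hfix : ∀ σ : GQ, ∀ x ∈ N, σ • x = x) (σ : GQ) (x : VV (WQ W) p) :
    σ • x - (ExtCitation.cycloExp p σ : ZMod p) • x ∈ N := by
  have hp := hpf.out
  have : NeZero p := ⟨hp.ne_zero⟩
  have hell := Fermat.Agent.Ell.isElliptic_WQ hΔ0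
  obtain ⟨hatom, hcoatom, -, -⟩ := line_facts hp (by omega) hb ht
  obtain ⟨x₀, hx₀N, hx₀⟩ := (Submodule.ne_bot_iff N).mp hb
  have hns := exists_nonscalar' hΔ0 h2c hp11 hx₀ (fun σ => hfix σ x₀ hx₀N)
  have hcyc : ∀ μ : Qb, μ ^ p ^ 1 = 1 → σ μ = μ ^ (ExtCitation.cycloExp p σ) := by
    intro μ hμ
    rw [pow_one] at hμ
    exact cycloExp_spec σ hμ
  obtain ⟨e, he⟩ := Fermat.Agent.Ell.det_dvd (Fermat.Agent.Ell.isModel_WQ W) hns σ 1 _ hcyc
  have hdet : (PadicInt.toZMod (LinearMap.det (rr (WQ W) p σ)) : ZMod p) =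
      (ExtCitation.cycloExp p σ : ZMod p) := by
    have h1 := congrArg (PadicInt.toZMod (p := p)) he
    rw [map_sub, map_natCast, map_mul, map_pow, map_natCast, ZMod.natCast_self, pow_one,
      zero_mul] at h1
    exact sub_eq_zero.mp h1
  set d : ZMod p := (ExtCitation.cycloExp p σ : ZMod p) with hd
  set t : ZMod p := PadicInt.toZMod (LinearMap.trace ℤ_[p] (TT (WQ W) p) (rr (WQ W) p σ)) with ht'
  have hrel : ∀ x : VV (WQ W) p, σ • (σ • x) - t • (σ • x) + d • x = 0 := by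
    intro x
    obtain ⟨f, hf⟩ := lev1_surjective (E := WQ W) (p := p) x
    have h1 := Fermat.Agent.Ell.end_ch (Fermat.Agent.Ell.tateBasis (WQ W) p) (rr (WQ W) p σ)
    have h2 := congrArg (fun g => lev1 (WQ W) p (g f)) h1
    have h3 : lev1 (WQ W) p (rr (WQ W) p σ (rr (WQ W) p σ f)
      - (LinearMap.trace ℤ_[p] (TT (WQ W) p) (rr (WQ W) p σ)) • (rr (WQ W) p σ f)
      + (LinearMap.det (rr (WQ W) p σ)) • f) = 0 := by
      rw [← map_zero (lev1 (WQ W) p)]
      exact h2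
    rw [map_add, map_sub, lev1_smul, lev1_smul, hdet, lev1_rr, lev1_rr, hf] at h3
    exact h3
  have hσN : σ • x₀ = x₀ := hfix σ x₀ hx₀N
  have htd : t = 1 + d := by
    have h1 := hrel x₀
    rw [hσN, hσN] at h1
    have h2 : (1 - t + d) • x₀ = 0 := by
      rw [add_smul, sub_smul, one_smul]; exact h1
    rcases smul_eq_zero.mp h2 with h | h
    · linear_combination -h
    · exact absurd h hx₀
  set y : VV (WQ W) p := σ • x - d • x with hy
  have hsmul : ∀ (c : ZMod p) (z : VV (WQ W) p), σ • (c • z) = c • (σ • z) := by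
    intro c z
    exact (Fermat.Agent.EGal.rho (WQ W) p σ).map_smul c z
  have hσy : σ • y = y := by
    have h1 := hrel x
    rw [htd, add_smul, one_smul] at h1
    rw [hy, smul_sub, hsmul]
    rw [← sub_eq_zero]
    rw [← h1]
    abel
  by_contra hyN
  have htop : N ⊔ Submodule.span (ZMod p) {y} = ⊤ := by
    apply hcoatom.2
    refine lt_of_le_of_ne le_sup_left ?_
    intro h
    apply hyN
    rw [h]
    exact Submodule.mem_sup_right (Submodule.mem_span_singleton_self y)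
  have hfixall : ∀ z : VV (WQ W) p, σ • z = z := by
    intro z
    have hz : z ∈ N ⊔ Submodule.span (ZMod p) {y} := by rw [htop]; trivial
    obtain ⟨u, hu, v, hv, rfl⟩ := Submodule.mem_sup.mp hz
    obtain ⟨c, rfl⟩ := Submodule.mem_span_singleton.mp hv
    rw [smul_add, hfix σ u hu, hsmul, hσy]
  apply hyN
  have hy2 : y = (1 - d) • x := by rw [hy, hfixall, sub_smul, one_smul]
  have h1 : (PadicInt.toZMod (LinearMap.det (rr (WQ W) p σ)) : ZMod p) = 1 := by
    have hm := Fermat.Agent.Ell.mtx_rho (Fermat.Agent.Ell.tateBasis (WQ W) p) σ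
    have hid : Fermat.Agent.EGal.rho (WQ W) p σ = 1 := by
      apply LinearMap.ext
      intro z
      exact hfixall z
    rw [hid, map_one] at hm
    have h2 := congrArg Matrix.det hm
    rw [Matrix.det_one] at h2
    rw [← Fermat.Agent.Ell.det_mtx (Fermat.Agent.Ell.tateBasis (WQ W) p)]
    rw [RingHom.map_det]
    exact h2.symm
  rw [hdet] at h1
  rw [hy2, h1, sub_self, zero_smul]
  exact zero_mem _

/-- the local condition at `p` -/
def Local (p : ℕ) (W : WeierstrassCurve ℤ) (P : Pts (WQ W)) : Prop :=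
  ∀ A : ValuationSubring Qb, A.LiesOverPrime p → ∃ F : AddSubgroup (Pts (WQ W)),
    (∀ σ ∈ A.decompositionSubgroup ℚ, ∀ x ∈ F, σ • x ∈ F) ∧
    (∀ σ ∈ A.inertiaSubgroupIn ℚ, ∀ x, (∃ k : ℕ, p ^ k • x = 0) → σ • x - x ∈ F) ∧ P ∉ F

/-- a curve, semistable away from `p`, with a rational point of order `p` -/
structure State (p : ℕ) (W : WeierstrassCurve ℤ) (P : Pts (WQ W)) : Prop where
  Δ : W.Δ ≠ 0
  ss : ∀ ℓ : ℕ, ℓ.Prime → ℓ ≠ p → (ℓ : ℤ) ∣ W.Δ → ¬ (ℓ : ℤ) ∣ W.c₄
  fix : ∀ σ : GQ, σ • P = P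
  ne : P ≠ 0
  tors : p • P = 0
  loc : Local p W P

namespace State

variable {P : Pts (WQ W)} (h : State p W P)
include h

theorem two_dvd (hp : p.Prime) (hp11 : 11 ≤ p) : ((2 : ℕ) : ℤ) ∣ W.Δ :=
  dvd_Δ_of_fixed hp h.ne h.tors h.fix Nat.prime_two (by omega)

theorem three_dvd (hp : p.Prime) (hp11 : 11 ≤ p) : ((3 : ℕ) : ℤ) ∣ W.Δ :=
  dvd_Δ_of_fixed hp h.ne h.tors h.fix Nat.prime_three (by omega)

theorem ord (hp : p.Prime) : addOrderOf P = p := by
  have : Fact p.Prime := ⟨hp⟩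
  exact addOrderOf_eq_prime h.tors h.ne

/-- the rational point is outside the zero component (S15) -/
theorem not_zeroComponent (hp : p.Prime) (hp11 : 11 ≤ p) (hp13 : p ≠ 13)
    {ℓ : ℕ} (hℓ : ℓ.Prime) (hℓp : ℓ ≠ p) (hℓΔ : (ℓ : ℤ) ∣ W.Δ)
    {A : ValuationSubring Qb} (hA : A.LiesOverPrime ℓ) : ¬ W.InZeroComponentAt A P := by
  have h2 := h.two_dvd hp hp11
  have h3 := h.three_dvd hp hp11
  have h2c := h.ss 2 Nat.prime_two (by omega) h2
  have h3c := h.ss 3 Nat.prime_three (by omega) h3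
  refine Fermat.Agent.S15.result hp (by simp; omega) W h.Δ P h.fix (h.ord hp)
    (by exact_mod_cast h2) (by exact_mod_cast h2c) ?_ (by exact_mod_cast h3)
    (by exact_mod_cast h3c) ?_ hℓ hℓp hℓΔ (h.ss ℓ hℓ hℓp hℓΔ) A hA
  · intro A₂ hA₂ hin
    have h5 := dvd_of_rational_inZeroComponentAt hp h.Δ h.fix (h.ord hp) Nat.prime_two (by omega)
      h2 h2c hA₂ hin
    have := Nat.le_of_dvd (by norm_num) h5
    omega
  · intro A₃ hA₃ hin
    have h5 := dvd_of_rational_inZeroComponentAt hp h.Δ h.fix (h.ord hp) Nat.prime_three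
      (by omega) h3 h3c hA₃ hin
    have := Nat.le_of_dvd (by norm_num) h5
    omega

end State

end Fermat.Agent.Cor.Mazur
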