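import Mathlib
import Fermat.Agent.Cor.MazurA

set_option autoImplicit false

/-!
# The line `≅ μ_p`, and the step of the isogeny chain
-/

namespace Fermat.Agent.Cor.Mazur

open Polynomial WeierstrassCurve WeierstrassCurve.Affine WeierstrassCurve.Affine.Point
open Fermat.Agent.H08 Fermat.Agent.H05 Fermat.Agent.H09 Fermat.Agent.H12
open Fermat.Agent.Cor.FullTwo
open Fermat.Agent.Ell (WQ TT rr lev1 lev1_smul lev1_rr lev1_surjective Pts)
open Fermat.Agent.EGal (VV fixMu mem_fixMu fixMu_normal)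
open scoped Pointwise

local notation "Qb" => AlgebraicClosure ℚ
local notation "GQ" => AlgebraicClosure ℚ ≃ₐ[ℚ] AlgebraicClosure ℚ

variable {W : WeierstrassCurve ℤ} {p : ℕ}

/-- type I everywhere away from `p` -/
theorem typeI_of_cofixed (hΔ0 : W.Δ ≠ 0)
    (hss : ∀ ℓ : ℕ, ℓ.Prime → ℓ ≠ p → (ℓ : ℤ) ∣ W.Δ → ¬ (ℓ : ℤ) ∣ W.c₄) (hp : p.Prime)
    (hp11 : 11 ≤ p) (hp13 : p ≠ 13) {C : AddSubgroup (Pts (WQ W))} (hC : CofixedLine W p C)
    (h2 : ((2 : ℕ) : ℤ) ∣ W.Δ) (h3 : ((3 : ℕ) : ℤ) ∣ W.Δ) :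
    ∀ ℓ : ℕ, ℓ.Prime → ℓ ≠ p → (ℓ : ℤ) ∣ W.Δ → ∀ A : ValuationSubring Qb,
      A.LiesOverPrime ℓ → TypeI W C A := by
  have : NeZero p := ⟨hp.ne_zero⟩
  have h2c := hss 2 Nat.prime_two (by omega) h2
  have h3c := hss 3 Nat.prime_three (by omega) h3
  have htype : ∀ ℓ : ℕ, ℓ.Prime → ℓ ≠ p → (ℓ : ℤ) ∣ W.Δ → ¬ p ∣ ℓ ^ 2 - 1 →
      ∀ A : ValuationSubring Qb, A.LiesOverPrime ℓ → TypeI W C A := by
    intro ℓ hℓ hℓp hℓΔ hnd A hA
    by_contra hcon
    exact hnd (hC.dvd_of_not_inZeroComponentAt hΔ0 hp (by omega) hℓ hℓp hℓΔ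
      (hss ℓ hℓ hℓp hℓΔ) hA hcon)
  have hI2 := htype 2 Nat.prime_two (by omega) h2 (by
      intro h; have := Nat.le_of_dvd (by norm_num) h; omega)
  have hI3 := htype 3 Nat.prime_three (by omega) h3 (by
      intro h; have := Nat.le_of_dvd (by norm_num) h; omega)
  intro ℓ hℓ hℓp hℓΔ A hA
  by_cases hd : p ∣ ℓ ^ 2 - 1
  · exact ((allInputs hp (by omega) (by omega)).no_switch hp (by omega) (by omega) (by omega)
      (by omega) (by omega) W hΔ0 (by exact_mod_cast h2) (by exact_mod_cast h2c)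
      (by exact_mod_cast h3) (by exact_mod_cast h3c) C hC.card hC.stable hℓ hd hℓΔ
      (hss ℓ hℓ hℓp hℓΔ) A hA).1 hI2 hI3
  · exact htype ℓ hℓ hℓp hℓΔ hd A hA

theorem nsmul_eq_zmod_smul' (c : ZMod p) [NeZero p] (x : VV (WQ W) p) :
    ((c • x : VV (WQ W) p) : Pts (WQ W)) = c.val • (x : Pts (WQ W)) := by
  conv_lhs => rw [← ZMod.natCast_zmod_val c]
  rw [Nat.cast_smul_eq_nsmul]
  rfl

/-- the output of the descent and of S14 for a curve with a rational point of order `p` -/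
structure MuLine (p : ℕ) [Fact p.Prime] (W : WeierstrassCurve ℤ) (P : Pts (WQ W))
    (C : AddSubgroup (Pts (WQ W))) : Prop where
  line : CofixedLine W p C
  notMem : P ∉ C
  dec : ∀ x : Pts (WQ W), p • x = 0 → ∃ n : ℕ, ∃ c ∈ C, x = n • P + c
  cyclo : ∀ σ : GQ, ∀ c ∈ C, σ • c = ExtCitation.cycloExp p σ • c
  typeI : ∀ ℓ : ℕ, ℓ.Prime → ℓ ≠ p → (ℓ : ℤ) ∣ W.Δ → ∀ A : ValuationSubring Qb,
      A.LiesOverPrime ℓ → TypeI W C A

theorem State.exists_muLine [hpf : Fact p.Prime] {P : Pts (WQ W)} (h : State p W P)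
    (hp11 : 11 ≤ p) (hp13 : p ≠ 13) : ∃ C : AddSubgroup (Pts (WQ W)), MuLine p W P C := by
  have hp := hpf.out
  have : NeZero p := ⟨hp.ne_zero⟩
  have hell := Fermat.Agent.Ell.isElliptic_WQ h.Δ
  have hint : ∀ A : ValuationSubring Qb,
      IsIntegralFor A.valuation ((W.map (Int.castRingHom ℚ))⁄Qb) :=
    fun A => isIntegralFor_of_int (map_int_Qb W)
  have h2 := h.two_dvd hp hp11
  have h3 := h.three_dvd hp hp11
  have h2c : ¬ (2 : ℤ) ∣ W.c₄ := by exact_mod_cast h.ss 2 Nat.prime_two (by omega) h2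
  let x₀ : VV (WQ W) p := ⟨P, mem_torsion_iff.mpr h.tors⟩
  have hx₀ : x₀ ≠ 0 := fun h' => h.ne (congrArg Subtype.val h')
  let N : Submodule (ZMod p) (VV (WQ W) p) := Submodule.span (ZMod p) {x₀}
  have hsmul : ∀ (σ : GQ) (c : ZMod p) (z : VV (WQ W) p), σ • (c • z) = c • (σ • z) := by
    intro σ c z
    exact (Fermat.Agent.EGal.rho (WQ W) p σ).map_smul c z
  have hb : N ≠ ⊥ := by
    intro hN
    exact hx₀ (Submodule.span_singleton_eq_bot.mp hN)
  have h2rk : Module.finrank (ZMod p) (VV (WQ W) p) = 2 :=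
    Fermat.Agent.Frob.finrank_torsionBy (K := Qb) (WQ W) p
  have ht : N ≠ ⊤ := by
    intro hN
    have h4 : Module.finrank (ZMod p) N = 1 := finrank_span_singleton hx₀
    rw [hN, finrank_top, h2rk] at h4
    omega
  have hfix : ∀ σ : GQ, ∀ x ∈ N, σ • x = x := by
    intro σ x hx
    obtain ⟨c, rfl⟩ := Submodule.mem_span_singleton.mp hx
    rw [hsmul]
    congr 1
    exact Subtype.ext (h.fix σ)
  have hN : IsGaloisStable ℚ N := fun σ x hx => by rw [hfix σ x hx]; exact hx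
  obtain ⟨hatom, hcoatom, hcardN, hfin⟩ := line_facts hp (by omega) hb ht
  have hx₀N : x₀ ∈ N := Submodule.mem_span_singleton_self x₀
  have hcyc := cyclo_quot' h.Δ h2c hp11 hb ht hfix
  have hcompl : ∀ {F : Submodule (ZMod p) (VV (WQ W) p)}, F ≠ ⊤ → ¬ F ≤ N → IsCompl N F := by
    intro F hF hFN
    refine ⟨(alg_at hatom hcoatom hF).resolve_left hFN, ?_⟩
    rw [codisjoint_iff]
    apply hcoatom.2
    exact lt_of_le_of_ne le_sup_left (fun h => hFN (by rw [h]; exact le_sup_right))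
  have hadm : ExtCitation.IsAdmissibleExtensionCts p (VV (WQ W) p) N := by
    refine { stable := hN, fixed_sub := hfix, cyclo_quot := hcyc, card_sub := hcardN,
             card_total := ?_, unramified_outside := ?_, locally_split := ?_,
             open_kernel := ?_ }
    · rw [Module.natCard_eq_pow_finrank (K := ZMod p), Nat.card_zmod, h2rk]
    · intro ℓ hℓ hℓp A hA σ hσ x
      have hvp := val_prime_eq_one hp hℓ hℓp hA
      by_cases hℓΔ : (ℓ : ℤ) ∣ W.Δ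
      · obtain ⟨hc₄, r, t, α, β, hnd⟩ := exists_nodeData_int h.Δ hℓ hℓΔ (h.ss ℓ hℓ hℓp hℓΔ) hA
        obtain ⟨R, hR0, hpR, hRE⟩ := exists_torsion_nodeE0 hnd (Δ_Qb_ne_zero h.Δ) hc₄ hp
          (by omega) hvp
        have hP : x₀ ∉ pull p (nodeE0Sub hnd) := by
          intro hxE
          exact h.not_zeroComponent hp hp11 hp13 hℓ hℓp hℓΔ hA
            (inZeroComponentAt_iff.mpr ((nodeE0_iff_nonsingularRed hnd).mp hxE))
        have hFt : pull p (nodeE0Sub hnd) ≠ ⊤ := by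
          intro htop
          exact hP (by rw [htop]; trivial)
        have hFN : ¬ pull p (nodeE0Sub hnd) ≤ N := by
          intro hle
          rcases hatom.le_iff.mp hle with h5 | h5
          · have h6 : (⟨R, mem_torsion_iff.mpr hpR⟩ : VV (WQ W) p) ∈
                pull p (nodeE0Sub hnd) := hRE
            rw [h5, Submodule.mem_bot] at h6
            exact hR0 (congrArg Subtype.val h6)
          · exact hP (by rw [h5]; exact hx₀N)
        have hx : x ∈ N ⊔ pull p (nodeE0Sub hnd) := by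
          rw [(hcompl hFt hFN).sup_eq_top]; trivial
        obtain ⟨u, hu, v, hv, rfl⟩ := Submodule.mem_sup.mp hx
        rw [smul_add, hfix σ u hu]
        congr 1
        have h3 := inE1_smul_sub_of_nodeE0 hσ hnd (P := (v : Pts (WQ W))) hv
        have h4 : p • (σ • (v : Pts (WQ W)) - v) = 0 :=
          mem_torsion_iff.mp (actHom p σ v - v).2
        exact sub_eq_zero.mp (Subtype.ext (InE1.eq_zero_of_torsion (hint A) h3 h4 hvp))
      · have hv : A.valuation ((W.map (Int.castRingHom ℚ))⁄Qb).Δ = 1 := by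
          rw [← map_int_Qb, map_Δ]
          exact Fermat.Agent.H09.val_intCast_eq_one hℓ hA hℓΔ
        have h3 := inE1_smul_sub_of_good (hint A) hv hσ (x : Pts (WQ W))
        have h4 : p • (σ • (x : Pts (WQ W)) - x) = 0 :=
          mem_torsion_iff.mp (actHom p σ x - x).2
        exact sub_eq_zero.mp (Subtype.ext (InE1.eq_zero_of_torsion (hint A) h3 h4 hvp))
    · intro A hA
      obtain ⟨F, hFD, hFI, hFP⟩ := h.loc A hA
      have hP : x₀ ∉ pull p F := hFP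
      refine ⟨pull p F, fun σ hσ x hx => hFD σ hσ _ hx, hcompl ?_ ?_⟩
      · intro htop
        exact hP (by rw [htop]; trivial)
      · intro hle
        rcases hatom.le_iff.mp hle with h5 | h5
        · -- inertia acts trivially: contradiction with ramification of `μ_p`
          obtain ⟨σ, hσ, hne⟩ := exists_inertia_cyclo (p := p) (by omega) hA
          apply ht
          rw [eq_top_iff]
          intro x _
          have h6 : σ • x - x ∈ pull p F := by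
            rw [mem_pull]
            exact hFI σ hσ _ ⟨1, by rw [pow_one]; exact mem_torsion_iff.mp x.2⟩
          rw [h5, Submodule.mem_bot, sub_eq_zero] at h6
          have h7 := hcyc σ x
          rw [h6] at h7
          have h8 : (1 - (ExtCitation.cycloExp p σ : ZMod p)) • x ∈ N := by
            rw [sub_smul, one_smul]; exact h7
          exact (Submodule.smul_mem_iff N (sub_ne_zero.mpr hne.symm)).mp h8
        · exact hP (by rw [h5]; exact hx₀N)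
    · obtain ⟨K, hKo, hK⟩ := exists_open_fix (L := Qb) (W₀ := W.map (Int.castRingHom ℚ)) hp
        (by omega)
      let H : Subgroup GQ :=
        { carrier := {σ | ∀ v : VV (WQ W) p, σ • v = v}
          mul_mem' := fun {a b} ha hb v => by rw [mul_smul, hb, ha]
          one_mem' := fun v => one_smul _ v
          inv_mem' := fun {a} ha v => by rw [inv_smul_eq_iff, ha] }
      exact Subgroup.isOpen_mono (H₁ := K) (H₂ := H) (fun σ hσ v => hK σ hσ v) hKo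
  obtain ⟨C', hC', hcomp⟩ := Fermat.Agent.S14.result (p := p) (by omega) (VV (WQ W) p) N hadm
  have hCb : C' ≠ ⊥ := by
    rintro rfl
    exact ht (by simpa using hcomp.sup_eq_top)
  have hCt : C' ≠ ⊤ := by
    rintro rfl
    exact hb (by simpa using hcomp.inf_eq_bot)
  have hcof : ∀ (σ : GQ) (x : VV (WQ W) p), σ • x - x ∈ C' := by
    intro σ x
    have hx : x ∈ N ⊔ C' := by rw [hcomp.sup_eq_top]; trivial
    obtain ⟨u, hu, v, hv, rfl⟩ := Submodule.mem_sup.mp hx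
    rw [smul_add, hfix σ u hu, add_sub_add_left_eq_sub]
    exact sub_mem (hC' σ v hv) hv
  have hline : CofixedLine W p (lineOf C') :=
    cofixedLine_lineOf hp (by omega) hCb hCt hC' hcof
  refine ⟨lineOf C', hline, ?_, ?_, ?_, typeI_of_cofixed h.Δ h.ss hp hp11 hp13 hline h2 h3⟩
  · intro hP
    obtain ⟨z, hz, hzP⟩ := mem_lineOf.mp hP
    have hzx : z = x₀ := Subtype.ext hzP
    have : x₀ ∈ N ⊓ C' := ⟨hx₀N, hzx ▸ hz⟩
    rw [hcomp.inf_eq_bot, Submodule.mem_bot] at this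
    exact hx₀ this
  · intro x hx
    have hx' : (⟨x, mem_torsion_iff.mpr hx⟩ : VV (WQ W) p) ∈ N ⊔ C' := by
      rw [hcomp.sup_eq_top]; trivial
    obtain ⟨u, hu, v, hv, huv⟩ := Submodule.mem_sup.mp hx'
    obtain ⟨c, rfl⟩ := Submodule.mem_span_singleton.mp hu
    refine ⟨c.val, v, mem_lineOf.mpr ⟨v, hv, rfl⟩, ?_⟩
    have h5 : x = ((c • x₀ : VV (WQ W) p) : Pts (WQ W)) + v := (congrArg (Subtype.val) huv).symm
    rw [nsmul_eq_zmod_smul'] at h5
    exact h5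
  · intro σ c hc
    obtain ⟨z, hz, rfl⟩ := mem_lineOf.mp hc
    have h5 : σ • z - (ExtCitation.cycloExp p σ : ZMod p) • z ∈ N ⊓ C' :=
      ⟨hcyc σ z, sub_mem (hC' σ z hz) (Submodule.smul_mem _ _ hz)⟩
    rw [hcomp.inf_eq_bot, Submodule.mem_bot, sub_eq_zero, Nat.cast_smul_eq_nsmul] at h5
    exact congrArg Subtype.val h5

/-- the quotient of `E` by a Galois stable line `C` -/
structure IsQuot (p : ℕ) (W W' : WeierstrassCurve ℤ) (C : AddSubgroup (Pts (WQ W)))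
    (φ : Pts (WQ W) →+ Pts (WQ W')) : Prop where
  Δ : W'.Δ ≠ 0
  good : ∀ ℓ : ℕ, ℓ.Prime → ℓ ≠ p → ¬ (ℓ : ℤ) ∣ W.Δ → ¬ (ℓ : ℤ) ∣ W'.Δ
  mult : ∀ ℓ : ℕ, ℓ.Prime → ℓ ≠ p → (ℓ : ℤ) ∣ W.Δ → ¬ (ℓ : ℤ) ∣ W.c₄ →
    (∀ A : ValuationSubring Qb, A.LiesOverPrime ℓ → TypeI W C A) → ¬ (ℓ : ℤ) ∣ W'.c₄
  ker : ∀ x, φ x = 0 ↔ x ∈ C
  equiv : ∀ (σ : GQ) x, φ (σ • x) = σ • φ x
  surj : ∀ y, (∃ k : ℕ, p ^ k • y = 0) → ∃ x, φ x = y

/-- existence of quotients -/
def QuotExists (p : ℕ) : Prop :=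
  ∀ W : WeierstrassCurve ℤ, W.Δ ≠ 0 → ∀ C : AddSubgroup (Pts (WQ W)), Nat.card C = p →
    (∀ σ : GQ, ∀ x ∈ C, σ • x ∈ C) → ∃ (W' : WeierstrassCurve ℤ)
      (φ : Pts (WQ W) →+ Pts (WQ W')), IsQuot p W W' C φ

/-- the local groups at `p` contain `C` -/
theorem le_of_cyclo [hpf : Fact p.Prime] (hp3 : 3 ≤ p) {C : AddSubgroup (Pts (WQ W))}
    (hCp : ∀ c ∈ C, p • c = 0) (hcyc : ∀ σ : GQ, ∀ c ∈ C, σ • c = ExtCitation.cycloExp p σ • c)
    {A : ValuationSubring Qb} (hA : A.LiesOverPrime p) {F : AddSubgroup (Pts (WQ W))}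
    (hFI : ∀ σ ∈ A.inertiaSubgroupIn ℚ, ∀ x, (∃ k : ℕ, p ^ k • x = 0) → σ • x - x ∈ F) :
    C ≤ F := by
  have hp := hpf.out
  have : NeZero p := ⟨hp.ne_zero⟩
  obtain ⟨σ, hσ, hne⟩ := exists_inertia_cyclo (p := p) hp3 hA
  intro c hc
  have h1 := hFI σ hσ c ⟨1, by rw [pow_one]; exact hCp c hc⟩
  rw [hcyc σ c hc] at h1
  -- `(χ - 1) c ∈ F`
  obtain ⟨m, hm⟩ : ∃ m : ℕ, (m : ZMod p) * ((ExtCitation.cycloExp p σ : ZMod p) - 1) = 1 := by
    refine ⟨(((ExtCitation.cycloExp p σ : ZMod p) - 1)⁻¹).val, ?_⟩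
    rw [ZMod.natCast_zmod_val]
    exact inv_mul_cancel₀ (sub_ne_zero.mpr hne)
  have h2 : m • (ExtCitation.cycloExp p σ • c - c) = c := by
    have h3 : ((m : ℤ) * ((ExtCitation.cycloExp p σ : ℤ) - 1) - 1) • c = 0 := by
      have h4 : (p : ℤ) ∣ ((m : ℤ) * ((ExtCitation.cycloExp p σ : ℤ) - 1) - 1) := by
        rw [← ZMod.intCast_zmod_eq_zero_iff_dvd]
        push_cast
        rw [hm, sub_self]
      obtain ⟨e, he⟩ := h4
      rw [he, mul_comm, mul_zsmul, natCast_zsmul, hCp c hc, zsmul_zero]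
    rw [sub_smul, one_smul, sub_eq_zero, mul_smul, sub_smul, one_smul, natCast_zsmul,
      natCast_zsmul] at h3
    exact h3
  rw [← h2]
  exact F.nsmul_mem h1 m

/-- **The step.** -/
theorem State.quot [hpf : Fact p.Prime] {P : Pts (WQ W)} (h : State p W P) (hp11 : 11 ≤ p)
    {C : AddSubgroup (Pts (WQ W))} (hC : MuLine p W P C) {W' : WeierstrassCurve ℤ}
    {φ : Pts (WQ W) →+ Pts (WQ W')} (hφ : IsQuot p W W' C φ) : State p W' (φ P) := by
  have hCp : ∀ c ∈ C, p • c = 0 := fun c hc => hC.line.nsmul_eq_zero hc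
  refine ⟨hφ.Δ, ?_, ?_, ?_, ?_, ?_⟩
  · intro ℓ hℓ hℓp hℓΔ'
    have hℓΔ : (ℓ : ℤ) ∣ W.Δ := by
      by_contra hcon
      exact hφ.good ℓ hℓ hℓp hcon hℓΔ'
    exact hφ.mult ℓ hℓ hℓp hℓΔ (h.ss ℓ hℓ hℓp hℓΔ) (hC.typeI ℓ hℓ hℓp hℓΔ)
  · intro σ
    rw [← hφ.equiv, h.fix]
  · intro h0
    exact hC.notMem ((hφ.ker P).mp h0)
  · rw [← map_nsmul, h.tors, _root_.map_zero]
  · intro A hA
    obtain ⟨F, hFD, hFI, hFP⟩ := h.loc A hA
    have hCF : C ≤ F := le_of_cyclo (by omega) hCp hC.cyclo hA hFI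
    refine ⟨F.map φ, ?_, ?_, ?_⟩
    · rintro σ hσ _ ⟨x, hx, rfl⟩
      exact ⟨σ • x, hFD σ hσ x hx, hφ.equiv σ x⟩
    · rintro σ hσ y ⟨k, hk⟩
      obtain ⟨x, rfl⟩ := hφ.surj y ⟨k, hk⟩
      refine ⟨σ • x - x, hFI σ hσ x ⟨k + 1, ?_⟩, ?_⟩
      · rw [← map_nsmul, hφ.ker] at hk
        rw [pow_succ', mul_nsmul, ← hCp _ hk, smul_comm]
      · rw [map_sub, hφ.equiv]
    · rintro ⟨x, hx, hxP⟩
      have h1 : P - x ∈ C := by
        rw [← hφ.ker, map_sub, hxP, sub_self]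
      apply hFP
      have := F.add_mem (hCF h1) hx
      rwa [sub_add_cancel] at this

end Fermat.Agent.Cor.Mazur
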