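import Mathlib
import Fermat.Agent.Cor.MazurB

set_option autoImplicit false

/-!
# The isogeny chain and the contradiction
-/

namespace Fermat.Agent.Cor.Mazur

open Polynomial WeierstrassCurve WeierstrassCurve.Affine WeierstrassCurve.Affine.Point
open Fermat.Agent.H08 Fermat.Agent.H05 Fermat.Agent.H09 Fermat.Agent.H12
open Fermat.Agent.Cor.FullTwo
open Fermat.Agent.Ell (WQ Pts)
open Fermat.Agent.EGal (VV)
open scoped Pointwise

local notation "Qb" => AlgebraicClosure ℚ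
local notation "GQ" => AlgebraicClosure ℚ ≃ₐ[ℚ] AlgebraicClosure ℚ

variable {W : WeierstrassCurve ℤ} {p : ℕ}

theorem card_of_surj {G H : Type*} [AddCommGroup G] [AddCommGroup H] (f : G →+ H)
    (hf : Function.Surjective f) : Nat.card G = Nat.card f.ker * Nat.card H := by
  rw [AddSubgroup.card_eq_card_quotient_mul_card_addSubgroup f.ker,
    Nat.card_congr (QuotientAddGroup.quotientKerEquivOfSurjective f hf).toEquiv, mul_comm]

/-- finitely many points are fixed by an open subgroup -/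
theorem exists_open_fix_set {S : Set (Pts (WQ W))} (hS : S.Finite) :
    ∃ K : Subgroup GQ, IsOpen (K : Set GQ) ∧ ∀ σ ∈ K, ∀ x ∈ S, σ • x = x := by
  have hfin : Finite S := hS
  refine ⟨⨅ x : S, MulAction.stabilizer GQ (px (x : Pts (WQ W))) ⊓
      MulAction.stabilizer GQ (py (x : Pts (WQ W))), ?_, ?_⟩
  · rw [Subgroup.coe_iInf]
    apply isOpen_iInter_of_finite
    intro x
    rw [Subgroup.coe_inf]
    exact (stabilizer_isOpen_of_isIntegral (K := ℚ) (L := Qb) _).inter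
      (stabilizer_isOpen_of_isIntegral (K := ℚ) (L := Qb) _)
  · intro σ hσ x hx
    rw [Subgroup.mem_iInf] at hσ
    obtain ⟨h1, h2⟩ := hσ ⟨x, hx⟩
    have h3 := Fermat.Agent.EGal.smul_eq_of_agree (σ := σ) (τ := 1) (P := x) h1 h2
    rwa [one_smul] at h3

/-- A finite Galois stable subgroup on which all inertia groups act trivially is fixed. -/
theorem fix_of_inertia {Q : AddSubgroup (Pts (WQ W))} (hfin : (Q : Set (Pts (WQ W))).Finite)
    (hst : ∀ σ : GQ, ∀ x ∈ Q, σ • x ∈ Q)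
    (hI : ∀ ℓ : ℕ, ℓ.Prime → ∀ A : ValuationSubring Qb, A.LiesOverPrime ℓ →
      ∀ σ ∈ A.inertiaSubgroupIn ℚ, ∀ x ∈ Q, σ • x = x) :
    ∀ σ : GQ, ∀ x ∈ Q, σ • x = x := by
  have hgal : IsGalois ℚ Qb := { to_normal := { splits' := fun x => IsAlgClosed.splits _ } }
  obtain ⟨K, hKo, hK⟩ := exists_open_fix_set hfin
  let H : Subgroup GQ :=
    { carrier := {σ | ∀ x ∈ Q, σ • x = x}
      mul_mem' := fun {a b} ha hb x hx => by rw [mul_smul, hb x hx, ha x hx]
      one_mem' := fun x _ => one_smul _ x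
      inv_mem' := fun {a} ha x hx => by rw [inv_smul_eq_iff, ha x hx] }
  have hnorm : H.Normal := ⟨fun a ha g x hx => by
    have h1 : g⁻¹ • x ∈ Q := hst g⁻¹ x hx
    rw [mul_smul, mul_smul, ha _ h1, smul_inv_smul]⟩
  have htop : H = ⊤ := by
    apply minkowski
    · exact Subgroup.isOpen_mono (H₁ := K) (H₂ := H) (fun σ hσ x hx => hK σ hσ x hx) hKo
    · intro ℓ hℓ A hA σ hσ x hx
      exact hI ℓ hℓ A hA σ hσ x hx
  intro σ
  have : σ ∈ H := by rw [htop]; trivial
  exact this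

/-- a stage of the chain -/
structure Chain (p n : ℕ) (T : ℕ → Prop) (W : WeierstrassCurve ℤ) (P : Pts (WQ W))
    (Q : AddSubgroup (Pts (WQ W))) : Prop where
  st : State p W P
  good : ∀ ℓ : ℕ, ℓ.Prime → ℓ ≠ p → T ℓ → ¬ (ℓ : ℤ) ∣ W.Δ
  card : Nat.card Q = p ^ n
  fix : ∀ σ : GQ, ∀ x ∈ Q, σ • x = x

theorem Chain.succ [hpf : Fact p.Prime] (hp11 : 11 ≤ p) (hp13 : p ≠ 13) (hq : QuotExists p)
    {n : ℕ} {T : ℕ → Prop} {P : Pts (WQ W)} {Q : AddSubgroup (Pts (WQ W))}
    (h : Chain p n T W P Q) : ∃ (W' : WeierstrassCurve ℤ) (P' : Pts (WQ W'))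
      (Q' : AddSubgroup (Pts (WQ W'))), Chain p (n + 1) T W' P' Q' := by
  have hp := hpf.out
  have hp0 := hp.pos
  have hgal : IsGalois ℚ Qb := { to_normal := { splits' := fun x => IsAlgClosed.splits _ } }
  have hell := Fermat.Agent.Ell.isElliptic_WQ h.st.Δ
  obtain ⟨C, hC⟩ := h.st.exists_muLine hp11 hp13
  obtain ⟨W', φ, hφ⟩ := hq W h.st.Δ C hC.line.card hC.line.stable
  have hst' := h.st.quot hp11 hC hφ
  have hCp : ∀ c ∈ C, p • c = 0 := fun c hc => hC.line.nsmul_eq_zero hc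
  let mulp : Pts (WQ W) →+ Pts (WQ W) := nsmulAddMonoidHom p
  have hmulp : ∀ x, mulp x = p • x := fun x => rfl
  let G : AddSubgroup (Pts (WQ W)) := Q.comap mulp
  have hG : ∀ x, x ∈ G ↔ p • x ∈ Q := fun x => Iff.rfl
  -- cardinality of `G`
  have hcardG : Nat.card G = p ^ (n + 2) := by
    let g : G →+ Q := (mulp.comp G.subtype).codRestrict Q (fun x => x.2)
    have hg : Function.Surjective g := by
      rintro ⟨y, hy⟩
      obtain ⟨x, hx⟩ := Fermat.Agent.Frob.nsmul_surjective (K := Qb) (WQ W) hp.ne_zero y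
      refine ⟨⟨x, ?_⟩, Subtype.ext hx⟩
      rw [hG, hx]; exact hy
    rw [card_of_surj g hg, h.card]
    have hker : Nat.card g.ker = p ^ 2 := by
      rw [← Fermat.Agent.Frob.card_torsion (K := Qb) (WQ W) hp.ne_zero]
      refine Nat.card_congr ⟨fun x => ⟨x.1.1, congrArg Subtype.val x.2⟩,
        fun x => ⟨⟨x.1, (hG _).mpr (by rw [x.2]; exact Q.zero_mem)⟩, Subtype.ext x.2⟩,
        fun x => rfl, fun x => rfl⟩
    rw [hker]; ring
  have hcardQ' : Nat.card (G.map φ) = p ^ (n + 1) := by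
    have h1 := card_of_surj (φ.addSubgroupMap G) (φ.addSubgroupMap_surjective G)
    have hker : Nat.card (φ.addSubgroupMap G).ker = p := by
      rw [← hC.line.card]
      refine Nat.card_congr ⟨fun x => ⟨x.1.1, (hφ.ker _).mp (congrArg Subtype.val x.2)⟩,
        fun c => ⟨⟨c.1, (hG _).mpr (by rw [hCp _ c.2]; exact Q.zero_mem)⟩,
          Subtype.ext ((hφ.ker _).mpr c.2)⟩, fun x => rfl, fun x => rfl⟩
    rw [hcardG, hker] at h1
    have h2 : p * p ^ (n + 1) = p * Nat.card (G.map φ) := by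
      rw [← h1]; ring
    exact (Nat.eq_of_mul_eq_mul_left hp0 h2).symm
  -- Galois action on `G.map φ`
  have hact : ∀ y ∈ G.map φ, ∀ σ : GQ, ∃ m : ℕ, σ • y = y + m • φ P := by
    rintro _ ⟨x, hx, rfl⟩ σ
    have h1 : p • (σ • x - x) = 0 := by
      have h2 : p • x ∈ Q := hx
      have h3 := h.fix σ _ h2
      have h4 : p • (σ • x) = σ • (p • x) := by
        have := map_nsmul (DistribSMul.toAddMonoidHom (Pts (WQ W)) σ) p x
        exact this.symm
      rw [nsmul_sub, h4, h3, sub_self]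
    obtain ⟨m, c, hc, hm⟩ := hC.dec _ h1
    refine ⟨m, ?_⟩
    have h5 : σ • x = x + (m • P + c) := by rw [← hm]; abel
    rw [← hφ.equiv, h5, _root_.map_add, _root_.map_add, (hφ.ker c).mpr hc, add_zero, map_nsmul]
  have hPmem : φ P ∈ G.map φ :=
    ⟨P, (hG P).mpr (by rw [h.st.tors]; exact Q.zero_mem), rfl⟩
  have hmult : ∀ (F : AddSubgroup (Pts (WQ W'))), φ P ∉ F → ∀ m : ℕ, m • φ P ∈ F →
      m • φ P = 0 := by
    intro F hF m hm
    by_contra hne
    apply hF
    have hcop : Nat.Coprime m p := by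
      rw [Nat.coprime_comm]
      refine (Nat.Prime.coprime_iff_not_dvd hp).mpr fun hd => hne ?_
      obtain ⟨e, rfl⟩ := hd
      rw [mul_nsmul, ← map_nsmul, h.st.tors, _root_.map_zero, nsmul_zero]
    have hord : addOrderOf (φ P) = p := hst'.ord hp
    obtain ⟨e, he⟩ := Nat.exists_mul_mod_eq_one_of_coprime hcop hp.one_lt
    have e1 : φ P = e • (m • φ P) := by
      rw [← mul_nsmul, ← mod_addOrderOf_nsmul, hord, he.2, one_nsmul]
    rw [e1]
    exact F.nsmul_mem hm e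
  have hfix' : ∀ σ : GQ, ∀ y ∈ G.map φ, σ • y = y := by
    apply fix_of_inertia
    · have : Finite (G.map φ) := Nat.finite_of_card_ne_zero (by
        rw [hcardQ']; exact pow_ne_zero _ hp.ne_zero)
      exact Set.toFinite _
    · intro σ y hy
      obtain ⟨m, hm⟩ := hact y hy σ
      rw [hm]
      exact (G.map φ).add_mem hy ((G.map φ).nsmul_mem hPmem m)
    · intro ℓ hℓ A hA σ hσ y hy
      obtain ⟨m, hm⟩ := hact y hy σ
      have hsub : σ • y - y = m • φ P := by rw [hm]; abel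
      have htors : p • (σ • y - y) = 0 := by
        rw [hsub, smul_comm, hst'.tors, nsmul_zero]
      suffices hz : σ • y - y = 0 from sub_eq_zero.mp hz
      by_cases hℓp : ℓ = p
      · subst hℓp
        obtain ⟨F, -, hFI, hFP⟩ := hst'.loc A hA
        have h1 := hFI σ hσ y ⟨n + 1, by
          have h3 : Nat.card (G.map φ) • (⟨y, hy⟩ : G.map φ) = 0 := card_nsmul_eq_zero'
          rw [hcardQ'] at h3
          exact congrArg Subtype.val h3⟩
        rw [hsub] at h1 ⊢
        exact hmult F hFP m h1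
      · have hvp := val_prime_eq_one hp hℓ hℓp hA
        by_cases hℓΔ : (ℓ : ℤ) ∣ W'.Δ
        · obtain ⟨hc₄, r, t, α, β, hnd⟩ := exists_nodeData_int hst'.Δ hℓ hℓΔ
            (hst'.ss ℓ hℓ hℓp hℓΔ) hA
          have h1 : σ • y - y ∈ nodeE0Sub hnd := nodeE0_smul_sub hσ hnd y
          rw [hsub] at h1 ⊢
          refine hmult (nodeE0Sub hnd) ?_ m h1
          intro hPE
          exact hst'.not_zeroComponent hp hp11 hp13 hℓ hℓp hℓΔ hA
            (inZeroComponentAt_iff.mpr ((nodeE0_iff_nonsingularRed hnd).mp hPE))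
        · have hv : A.valuation ((W'.map (Int.castRingHom ℚ))⁄Qb).Δ = 1 := by
            rw [← map_int_Qb, map_Δ]
            exact Fermat.Agent.H09.val_intCast_eq_one hℓ hA hℓΔ
          exact InE1.eq_zero_of_torsion (isIntegralFor_of_int (map_int_Qb W'))
            (inE1_smul_sub_of_good (isIntegralFor_of_int (map_int_Qb W')) hv hσ y) htors hvp
  refine ⟨W', φ P, G.map φ, hst', ?_, hcardQ', hfix'⟩
  intro ℓ hℓ hℓp hT
  exact hφ.good ℓ hℓ hℓp (h.good ℓ hℓ hℓp hT)

/-- a fixed finite subgroup of order prime to `ℓ` injects into the points mod `ℓ` -/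
theorem card_le_of_good [hpf : Fact p.Prime] {n : ℕ} {Q : AddSubgroup (Pts (WQ W))}
    (hcard : Nat.card Q = p ^ n) (hfix : ∀ σ : GQ, ∀ x ∈ Q, σ • x = x) {ℓ : ℕ} (hℓ : ℓ.Prime)
    (hℓp : ℓ ≠ p) (hℓΔ : ¬ (ℓ : ℤ) ∣ W.Δ) : p ^ n ≤ ℓ ^ 2 + 1 := by
  classical
  have hp := hpf.out
  have hgal : IsGalois ℚ Qb := { to_normal := { splits' := fun x => IsAlgClosed.splits _ } }
  obtain ⟨A, hA⟩ := exists_liesOverPrime Qb hℓ
  obtain ⟨σ, hσ⟩ := exists_isFrobeniusAt hℓ hA
  have hW : IsIntegralFor A.valuation ((W.map (Int.castRingHom ℚ))⁄Qb) :=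
    isIntegralFor_of_int (map_int_Qb W)
  have hΔ : A.valuation ((W.map (Int.castRingHom ℚ))⁄Qb).Δ = 1 := by
    rw [← map_int_Qb, map_Δ]
    exact Fermat.Agent.H09.val_intCast_eq_one hℓ hA hℓΔ
  have hvp : A.valuation ((p ^ n : ℕ) : Qb) = 1 := by
    have := val_prime_eq_one hp hℓ hℓp hA
    push_cast
    rw [map_pow, this, one_pow]
  have htor : ∀ x ∈ Q, (p ^ n) • x = 0 := by
    intro x hx
    have h3 : Nat.card Q • (⟨x, hx⟩ : Q) = 0 := card_nsmul_eq_zero'
    rw [hcard] at h3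
    exact congrArg Subtype.val h3
  have hx : ∀ x ∈ Q, A.valuation (px x) ≤ 1 := fun x hx =>
    val_px_le_one_of_torsion hW (htor x hx) hvp
  have hy : ∀ x ∈ Q, A.valuation (py x) ≤ 1 := fun x hx' => val_py_le_one hW (hx x hx')
  set T : Finset (IsLocalRing.ResidueField A) :=
    (X ^ ℓ - X : (IsLocalRing.ResidueField A)[X]).roots.toFinset with hT
  have hpol : (X ^ ℓ - X : (IsLocalRing.ResidueField A)[X]) ≠ 0 :=
    FiniteField.X_pow_card_sub_X_ne_zero _ hℓ.one_lt
  have hTcard : T.card ≤ ℓ := by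
    refine (Multiset.toFinset_card_le _).trans ((Polynomial.card_roots' _).trans ?_)
    rw [FiniteField.X_pow_card_sub_X_natDegree_eq _ hℓ.one_lt]
  have hmemT : ∀ z : A, A.valuation ((z : Qb) ^ ℓ - z) < 1 → IsLocalRing.residue A z ∈ T := by
    intro z hz
    rw [hT, Multiset.mem_toFinset, mem_roots hpol, IsRoot.def, eval_sub, eval_pow, eval_X,
      ← map_pow, ← map_sub, IsLocalRing.residue_eq_zero_iff, ValuationSubring.valuation_lt_one_iff]
    exact hz
  have hfixval : ∀ z : Qb, σ z = z → A.valuation z ≤ 1 → A.valuation (z ^ ℓ - z) < 1 := by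
    intro z hz hvz
    have := frob_val_sub hσ hvz
    rw [hz, ← neg_sub, Valuation.map_neg] at this
    exact this
  have hfinQ : Finite Q := Nat.finite_of_card_ne_zero (by
    rw [hcard]; exact pow_ne_zero _ hp.ne_zero)
  have := Fintype.ofFinite Q
  let f : Q → IsLocalRing.ResidueField A × IsLocalRing.ResidueField A := fun x =>
    (IsLocalRing.residue A ⟨px x.1, (A.valuation_le_one_iff _).mp (hx _ x.2)⟩,
      IsLocalRing.residue A ⟨py x.1, (A.valuation_le_one_iff _).mp (hy _ x.2)⟩)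
  by_contra hcon
  push Not at hcon
  have hcardE : ((Finset.univ : Finset Q).erase 0).card = p ^ n - 1 := by
    rw [Finset.card_erase_of_mem (Finset.mem_univ _), Finset.card_univ,
      ← Nat.card_eq_fintype_card, hcard]
  obtain ⟨i, hi, j, hj, hij, hfij⟩ := Finset.exists_ne_map_eq_of_card_lt_of_maps_to
    (s := (Finset.univ : Finset Q).erase 0) (t := T ×ˢ T) (f := f) (by
      rw [Finset.card_product, hcardE]
      calc T.card * T.card ≤ ℓ * ℓ := Nat.mul_le_mul hTcard hTcard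
        _ = ℓ ^ 2 := (pow_two ℓ).symm
        _ < p ^ n - 1 := by omega) (by
      intro k _
      simp only [Finset.mem_coe, Finset.mem_product, f]
      refine ⟨hmemT _ (hfixval _ ?_ (hx _ k.2)), hmemT _ (hfixval _ ?_ (hy _ k.2))⟩
      · have h1 := Fermat.Agent.H09.px_smul σ (k : Pts (WQ W))
        rw [hfix σ _ k.2] at h1
        exact h1.symm
      · have h1 := Fermat.Agent.H09.py_smul σ (k : Pts (WQ W))
        rw [hfix σ _ k.2] at h1
        exact h1.symm)
  have hi0 : (i : Pts (WQ W)) ≠ 0 := fun h => (Finset.mem_erase.mp hi).1 (Subtype.ext h)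
  have hj0 : (j : Pts (WQ W)) ≠ 0 := fun h => (Finset.mem_erase.mp hj).1 (Subtype.ext h)
  simp only [f, Prod.mk.injEq] at hfij
  obtain ⟨h1, h2⟩ := hfij
  rw [eq_comm, ← sub_eq_zero, ← map_sub, IsLocalRing.residue_eq_zero_iff,
    ValuationSubring.valuation_lt_one_iff] at h1 h2
  have h3 : InE1 A.valuation ((j : Pts (WQ W)) - (i : Pts (WQ W))) :=
    inE1_sub_of_congr hW hj0 hi0 (hx _ j.2) h1 h2 (nonsingularRed_of_Δ hW hΔ hj0 (hx _ j.2))
  have h5 := InE1.eq_zero_of_torsion hW h3 (htor _ (Q.sub_mem j.2 i.2)) hvp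
  exact hij (Subtype.ext (sub_eq_zero.mp h5).symm)

/-- **No rational point of order `p`** on a curve satisfying `State`. -/
theorem no_state [hpf : Fact p.Prime] (hp11 : 11 ≤ p) (hp13 : p ≠ 13) (hq : QuotExists p)
    {P : Pts (WQ W)} (h : State p W P) : False := by
  have hp := hpf.out
  have hch : ∀ n : ℕ, ∃ (W' : WeierstrassCurve ℤ) (P' : Pts (WQ W'))
      (Q' : AddSubgroup (Pts (WQ W'))),
      Chain p n (fun ℓ => ¬ (ℓ : ℤ) ∣ W.Δ) W' P' Q' := by
    intro n
    induction n with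
    | zero =>
      refine ⟨W, P, ⊥, h, fun ℓ _ _ h => h, ?_, ?_⟩
      · rw [pow_zero]; exact Nat.card_unique
      · intro σ x hx
        rw [AddSubgroup.mem_bot] at hx
        rw [hx]; rfl
    | succ n ih =>
      obtain ⟨W', P', Q', h'⟩ := ih
      exact h'.succ hp11 hp13 hq
  obtain ⟨ℓ, hℓge, hℓ⟩ := Nat.exists_infinite_primes (W.Δ.natAbs + p + 1)
  have hℓp : ℓ ≠ p := by omega
  have hℓΔ : ¬ (ℓ : ℤ) ∣ W.Δ := by
    intro hd
    have h1 := Int.natAbs_dvd_natAbs.mpr hd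
    rw [Int.natAbs_natCast] at h1
    have h2 := Nat.le_of_dvd (Int.natAbs_pos.mpr h.Δ) h1
    omega
  obtain ⟨W', P', Q', h'⟩ := hch (ℓ ^ 2 + 2)
  have h1 := card_le_of_good h'.card h'.fix hℓ hℓp (h'.good ℓ hℓ hℓp hℓΔ)
  have h2 : ℓ ^ 2 + 2 < p ^ (ℓ ^ 2 + 2) := Nat.lt_pow_self hp.one_lt
  omega

end Fermat.Agent.Cor.Mazur
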