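import Mathlib
import Fermat.Agent.Cor.MazurC

set_option autoImplicit false

/-!
# The start of the chain
-/

namespace Fermat.Agent.Cor.Mazur

open Polynomial WeierstrassCurve WeierstrassCurve.Affine WeierstrassCurve.Affine.Point
open Fermat.Agent.H08 Fermat.Agent.H05 Fermat.Agent.H09 Fermat.Agent.H12
open Fermat.Agent.Cor.FullTwo
open Fermat.Agent.Ell (WQ Pts)
open Fermat.Agent.EGal (VV)
open scoped Pointwise

local notation "Qb" => AlgebraicClosure ℚ
local notation "GQ" => AlgebraicClosure ℚ ≃ₐ[ℚ] AlgebraicClosure ℚ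

variable {W : WeierstrassCurve ℤ} {p : ℕ}

/-- The quotient of a semistable curve by a line with trivial quotient satisfies `State`. -/
theorem exists_state [hpf : Fact p.Prime] (hΔ0 : W.Δ ≠ 0) (hss : W.IsSemistableModel)
    (hp11 : 11 ≤ p) (hp13 : p ≠ 13) (hq : QuotExists p)
    (hcl : HasGaloisStableCofixedLine (K := Qb) ℚ (W.map (Int.castRingHom ℚ)) p) :
    ∃ (W' : WeierstrassCurve ℤ) (P' : Pts (WQ W')), State p W' P' := by
  have hp := hpf.out
  have hgal : IsGalois ℚ Qb := { to_normal := { splits' := fun x => IsAlgClosed.splits _ } }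
  obtain ⟨N, hN, hb, ht, hcof⟩ := hcl
  obtain ⟨hatom, hcoatom, hcardN, hfin⟩ := line_facts hp (by omega) hb ht
  have hC := cofixedLine_lineOf hp (by omega) hb ht hN hcof
  have hint : ∀ A : ValuationSubring Qb,
      IsIntegralFor A.valuation ((W.map (Int.castRingHom ℚ))⁄Qb) :=
    fun A => isIntegralFor_of_int (map_int_Qb W)
  have h2 : ((2 : ℕ) : ℤ) ∣ W.Δ :=
    dvd_Δ_of_cofixed (W := W) hp (by omega) ht hcof Nat.prime_two (by omega)
  have h3 : ((3 : ℕ) : ℤ) ∣ W.Δ :=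
    dvd_Δ_of_cofixed (W := W) hp (by omega) ht hcof Nat.prime_three (by omega)
  have h2c := hss 2 Nat.prime_two h2
  have htypeI := typeI_of_cofixed hΔ0 (fun ℓ hℓ _ h => hss ℓ hℓ h) hp hp11 hp13 hC h2 h3
  obtain ⟨W', φ, hφ⟩ := hq W hΔ0 (lineOf N) hC.card hC.stable
  -- generators
  obtain ⟨x₀, hx₀N, hx₀⟩ := (Submodule.ne_bot_iff N).mp hb
  have hP0 : (x₀ : Pts (WQ W)) ≠ 0 := fun h' => hx₀ (Subtype.ext h')
  have hpP : p • (x₀ : Pts (WQ W)) = 0 := mem_torsion_iff.mp x₀.2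
  have hord : addOrderOf (x₀ : Pts (WQ W)) = p := addOrderOf_eq_prime hpP hP0
  have hnf : ¬ ∀ σ : GQ, ∀ x ∈ N, σ • x = x := by
    intro hf
    obtain ⟨A₂, hA₂⟩ := exists_liesOverPrime Qb Nat.prime_two
    have h5 := dvd_of_rational_inZeroComponentAt hp hΔ0 (Q := (x₀ : Pts (WQ W)))
      (fun σ => congrArg Subtype.val (hf σ x₀ hx₀N)) hord Nat.prime_two (by omega)
      h2 h2c hA₂ (htypeI 2 Nat.prime_two (by omega) h2 A₂ hA₂ _ (mem_lineOf.mpr ⟨x₀, hx₀N, rfl⟩))
    have := Nat.le_of_dvd (by norm_num) h5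
    omega
  obtain ⟨x₁, hx₁⟩ : ∃ x₁ : VV (WQ W) p, x₁ ∉ N := by
    by_contra hcon
    push Not at hcon
    exact ht (eq_top_iff.mpr fun x _ => hcon x)
  have hx₁C : (x₁ : Pts (WQ W)) ∉ lineOf N := by
    intro h
    obtain ⟨z, hz, hzx⟩ := mem_lineOf.mp h
    exact hx₁ ((Subtype.ext hzx : z = x₁) ▸ hz)
  refine ⟨W', φ x₁, hφ.Δ, ?_, ?_, ?_, ?_, ?_⟩
  · intro ℓ hℓ hℓp hℓΔ'
    have hℓΔ : (ℓ : ℤ) ∣ W.Δ := by
      by_contra hcon
      exact hφ.good ℓ hℓ hℓp hcon hℓΔ'
    exact hφ.mult ℓ hℓ hℓp hℓΔ (hss ℓ hℓ hℓΔ) (htypeI ℓ hℓ hℓp hℓΔ)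
  · intro σ
    rw [← hφ.equiv, ← sub_eq_zero, ← map_sub, hφ.ker]
    exact hC.cofixed σ _ (mem_torsion_iff.mp x₁.2)
  · intro h0
    exact hx₁C ((hφ.ker _).mp h0)
  · rw [← map_nsmul, mem_torsion_iff.mp x₁.2, _root_.map_zero]
  · intro A hA
    have key : ∀ F : AddSubgroup (Pts (WQ W)), N ≤ pull p F → pull p F ≠ ⊤ →
        (∀ σ ∈ A.decompositionSubgroup ℚ, ∀ x ∈ F, σ • x ∈ F) →
        (∀ σ ∈ A.inertiaSubgroupIn ℚ, ∀ x, σ • x - x ∈ F) →
        ∃ F' : AddSubgroup (Pts (WQ W')),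
          (∀ σ ∈ A.decompositionSubgroup ℚ, ∀ x ∈ F', σ • x ∈ F') ∧
          (∀ σ ∈ A.inertiaSubgroupIn ℚ, ∀ x, (∃ k : ℕ, p ^ k • x = 0) → σ • x - x ∈ F') ∧
          φ x₁ ∉ F' := by
      intro F hNF hFt hFD hFI
      refine ⟨F.map φ, ?_, ?_, ?_⟩
      · rintro σ hσ _ ⟨x, hx, rfl⟩
        exact ⟨σ • x, hFD σ hσ x hx, hφ.equiv σ x⟩
      · rintro σ hσ y ⟨k, hk⟩
        obtain ⟨x, rfl⟩ := hφ.surj y ⟨k, hk⟩
        exact ⟨σ • x - x, hFI σ hσ x, by rw [map_sub, hφ.equiv]⟩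
      · rintro ⟨x, hx, hxP⟩
        have h1 : (x₁ : Pts (WQ W)) - x ∈ lineOf N := by
          rw [← hφ.ker, map_sub, hxP, sub_self]
        obtain ⟨z, hz, hzx⟩ := mem_lineOf.mp h1
        have h4 : (z : Pts (WQ W)) ∈ F := hNF hz
        have h5 : (x₁ : Pts (WQ W)) ∈ F := by
          have := F.add_mem h4 hx
          rwa [hzx, sub_add_cancel] at this
        apply hFt
        apply hcoatom.2
        refine lt_of_le_of_ne hNF ?_
        intro h6
        exact hx₁ (h6 ▸ h5)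
    by_cases hpΔ : (p : ℤ) ∣ W.Δ
    · obtain ⟨hc₄, r, t, α, β, h⟩ := exists_nodeData_int hΔ0 hp hpΔ (hss p hp hpΔ) hA
      refine key (nodeE0Sub h) ?_ ?_ ?_ ?_
      · intro x hx
        exact nodeE0_at_p (map_int_Qb W) hΔ0 hss (by omega) hN hatom hcoatom hnf hA h x hx
      · have hv2 : A.valuation (2 : Qb) = 1 := by
          have := Fermat.Agent.H09.val_intCast_eq_one (L := Qb) (c := 2) hp hA (by
            intro h
            have h' : p ∣ 2 := by exact_mod_cast h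
            have := Nat.le_of_dvd (by norm_num) h'
            omega)
          exact_mod_cast this
        obtain ⟨R, hR0, hpR, hRE⟩ := exists_torsion_not_nodeE0 h (Δ_Qb_ne_zero hΔ0) hv2 hc₄
          (hp.odd_of_ne_two (by omega)) (by omega)
        intro htop
        have hmem : (⟨R, mem_torsion_iff.mpr hpR⟩ : VV (WQ W) p) ∈ pull p (nodeE0Sub h) := by
          rw [htop]; trivial
        exact hRE hmem
      · intro σ hσ x hx
        exact nodeE0_smul hσ h hx
      · intro σ hσ x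
        exact nodeE0_smul_sub hσ h x
    · have hv : A.valuation ((W.map (Int.castRingHom ℚ))⁄Qb).Δ = 1 := by
        rw [← map_int_Qb, map_Δ]
        exact Fermat.Agent.H09.val_intCast_eq_one hp hA hpΔ
      refine key (E1 A.valuation _ (hint A)) ?_ ?_ ?_ ?_
      · by_contra hNF
        have hdisj : Disjoint N (pull p (E1 A.valuation _ (hint A))) :=
          (hatom.not_le_iff_disjoint).mp hNF
        refine hnf (fix_of_disjoint (map_int_Qb W) hΔ0 hss (by omega) hN hatom hcoatom hA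
          (F := pull p (E1 A.valuation _ (hint A))) (fun σ hσ x => ?_) hdisj)
        rw [mem_pull]
        exact inE1_smul_sub_of_good (hint A) hv hσ (x : Pts (WQ W))
      · have hcyc := mem_cyc_iff hp hC.card hord (mem_lineOf.mpr ⟨x₀, hx₀N, rfl⟩)
        obtain ⟨R, hR0, hpR, hRx⟩ := exists_torsion_not_E1 (map_int_Qb W) hp (by omega) hA hv
          (cyc p (x₀ : Pts (WQ W)))
          (fun R hR => ((hcyc R).mp hR).2)
          (fun R hR => hC.nsmul_eq_zero ((hcyc R).mp hR).1)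
          (fun σ R hR => (hcyc _).mpr
            ⟨hC.stable σ R ((hcyc R).mp hR).1, Fermat.Agent.H09.smul_ne_zero' σ ((hcyc R).mp hR).2⟩)
          (by
            unfold cyc
            rw [Finset.card_image_of_injOn (cyc_injOn hord), Nat.card_Ico])
        intro htop
        have hmem : (⟨R, mem_torsion_iff.mpr hpR⟩ : VV (WQ W) p) ∈
            pull p (E1 A.valuation _ (hint A)) := by
          rw [htop]; trivial
        rw [mem_pull] at hmem
        rcases hmem with h3 | h3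
        · exact hR0 h3
        · exact absurd h3 (not_lt.mpr hRx)
      · intro σ hσ x hx
        exact inE1_smul hσ hx
      · intro σ hσ x
        exact inE1_smul_sub_of_good (hint A) hv hσ x

/-- **Mazur's theorem for semistable curves**, given the existence of quotients. -/
theorem irreducible_of_quotExists (hΔ0 : W.Δ ≠ 0) (hss : W.IsSemistableModel)
    (hp : p.Prime) (hp11 : 11 ≤ p) (hp13 : p ≠ 13) (hq : QuotExists p) :
    GaloisRepIsIrreducible (K := Qb) ℚ (W.map (Int.castRingHom ℚ)) p := by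
  have : Fact p.Prime := ⟨hp⟩
  by_contra hred
  obtain ⟨W', P', h⟩ := exists_state hΔ0 hss hp11 hp13 hq
    (cofixed_of_reducible hΔ0 hss hp hp11 hp13 hred)
  exact no_state hp11 hp13 hq h

end Fermat.Agent.Cor.Mazur
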