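import Mathlib
import Fermat.Agent.H24.Velu2
import Fermat.Agent.H08.Congruence

/-!
# Velu's isogeny over `ℂ` on points

Let `V` be an elliptic curve over `ℂ` and `C` a subgroup of odd prime order `N`. If `V'` has the
invariants `c₄ = u⁴ veluC4 V C`, `c₆ = u⁶ veluC6 V C` there is a surjective homomorphism
`φ : V(ℂ) → V'(ℂ)` with kernel `C`, given by Velu's formulas:
`x(φ P) + b₂'/12 = u² (x(P) + b₂/12 + ∑_{Q ∈ C, Q ≠ 0} (x(P + Q) - x(Q)))`,
`ψ₂(φ P) = u³ ∑_{Q ∈ C} ψ₂(P + Q)`.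

This file is not used by any of the statement files.
-/

set_option autoImplicit false

open WeierstrassCurve WeierstrassCurve.Affine WeierstrassCurve.Affine.Point
open UpperHalfPlane hiding I
open PeriodPair Filter Topology
open scoped Real

noncomputable section

namespace Fermat.Agent.Cor.VeluC

open Fermat.Agent.H24
open Fermat.Agent.H14 (pp gR coe_gR_smul)
open Fermat.Agent.H08 (px py psi2)

/-! ### `℘` is surjective -/

/-- **`℘` takes every value.** -/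
theorem P_surjective (L : PeriodPair) (c : ℂ) : ∃ z, z ∉ L.lattice ∧ L.weierstrassP z = c := by
  by_contra! hcon
  have hP0 : ∀ z, z ∉ L.lattice → L.weierstrassP z - c ≠ 0 := fun z hz =>
    sub_ne_zero.mpr (hcon z hz)
  let f : ℂ → ℂ := fun z => (L.weierstrassP z - c)⁻¹
  have hmer : Meromorphic f := by
    intro z
    have h1 := L.meromorphic_weierstrassP z
    exact (h1.sub (MeromorphicAt.const c z)).inv
  have hper : ∀ l ∈ L.lattice, ∀ z, f (z + l) = f z := by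
    intro l hl z
    have := L.weierstrassP_add_coe z ⟨l, hl⟩
    simp only [f]
    rw [this]
  have hgood : ∀ z, z ∉ L.lattice → Tendsto f (𝓝[≠] z) (𝓝 (f z)) := by
    intro z hz
    have h1 : ContinuousAt L.weierstrassP z := (L.analyticOnNhd_weierstrassP z hz).continuousAt
    have h2 : ContinuousAt f z := (h1.sub continuousAt_const).inv₀ (hP0 z hz)
    exact h2.tendsto.mono_left nhdsWithin_le_nhds
  have hzero : Tendsto f (𝓝[≠] 0) (𝓝 0) := by
    rw [tendsto_zero_iff_norm_tendsto_zero]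
    have h1 : Tendsto (fun z => ‖L.weierstrassP z - c‖) (𝓝[≠] 0) atTop := by
      refine tendsto_atTop_mono (fun z => norm_sub_norm_le _ _) ?_
      exact tendsto_atTop_add_const_right _ (-‖c‖) (tendsto_P_atTop L)
    refine (tendsto_inv_atTop_zero.comp h1).congr fun z => ?_
    simp [f]
  have hbad : ∀ z, z ∈ L.lattice → Tendsto f (𝓝[≠] z) (𝓝 0) := by
    intro z hz
    have h1 : Tendsto (fun u => u - z) (𝓝[≠] z) (𝓝[≠] 0) := by
      rw [tendsto_nhdsWithin_iff]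
      refine ⟨?_, ?_⟩
      · have : ContinuousAt (fun u : ℂ => u - z) z := by fun_prop
        have := this.tendsto.mono_left (nhdsWithin_le_nhds (s := {z}ᶜ))
        simpa using this
      · filter_upwards [self_mem_nhdsWithin] with u hu
        exact sub_ne_zero.mpr hu
    refine (hzero.comp h1).congr fun u => ?_
    have := hper z hz (u - z)
    rw [sub_add_cancel] at this
    exact this.symm
  have hlim : ∀ z, ∃ c, Tendsto f (𝓝[≠] z) (𝓝 c) := by
    intro z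
    by_cases hz : z ∈ L.lattice
    · exact ⟨0, hbad z hz⟩
    · exact ⟨f z, hgood z hz⟩
  have hz1 := L.ω₁_div_two_notMem_lattice
  have key := liouville_lim L hmer hper hlim hzero (L.ω₁ / 2)
  have h2 := tendsto_nhds_unique key (hgood _ hz1)
  exact inv_ne_zero (hP0 _ hz1) h2.symm

section Phi

variable {L : PeriodPair} {V : WeierstrassCurve ℂ}

/-- **the uniformisation is surjective** -/
theorem Phi_surjective (h4 : V.c₄ = 12 * L.g₂) (h6 : V.c₆ = 216 * L.g₃) (hΔ : V.Δ ≠ 0) :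
    Function.Surjective (Phi h4 h6 hΔ) := by
  intro P
  rcases P with _ | ⟨x, y, h⟩
  · exact ⟨0, map_zero _⟩
  · obtain ⟨z, hz, hP⟩ := P_surjective L (x + V.b₂ / 12)
    have hx : L.weierstrassP z - V.b₂ / 12 = x := by rw [hP]; ring
    have e1 := (equation_iff _ _).mp (equation_P h4 h6 hz)
    have e2 := (equation_iff _ _).mp h.1
    have e0 := Phi_of_notMem h4 h6 hΔ hz
    rw [hx] at e1
    set y₁ : ℂ := (L.derivWeierstrassP z - V.a₁ * x - V.a₃) / 2 with hy₁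
    have hprod : (y - y₁) * (y + y₁ + V.a₁ * x + V.a₃) = 0 := by linear_combination e2 - e1
    rcases mul_eq_zero.mp hprod with h0 | h0
    · refine ⟨z, ?_⟩
      rw [e0, some.injEq]
      refine ⟨hx, ?_⟩
      rw [hx]
      exact (sub_eq_zero.mp h0).symm
    · refine ⟨-z, ?_⟩
      rw [map_neg, e0, neg_some, some.injEq]
      refine ⟨hx, ?_⟩
      rw [negY, hx]
      have e3 : V.toAffine.a₁ = V.a₁ := rfl
      have e4 : V.toAffine.a₃ = V.a₃ := rfl
      rw [e3, e4]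
      linear_combination -h0

lemma px_Phi (h4 : V.c₄ = 12 * L.g₂) (h6 : V.c₆ = 216 * L.g₃) (hΔ : V.Δ ≠ 0) {z : ℂ}
    (hz : z ∉ L.lattice) : px (Phi h4 h6 hΔ z) = L.weierstrassP z - V.b₂ / 12 := by
  rw [Phi_of_notMem h4 h6 hΔ hz]; rfl

lemma psi2_Phi (h4 : V.c₄ = 12 * L.g₂) (h6 : V.c₆ = 216 * L.g₃) (hΔ : V.Δ ≠ 0) {z : ℂ}
    (hz : z ∉ L.lattice) : psi2 (Phi h4 h6 hΔ z) = L.derivWeierstrassP z := by
  rw [Phi_of_notMem h4 h6 hΔ hz]
  change 2 * ((L.derivWeierstrassP z - V.a₁ * (L.weierstrassP z - V.b₂ / 12) - V.a₃) / 2) +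
    V.a₁ * (L.weierstrassP z - V.b₂ / 12) + V.a₃ = _
  ring

end Phi

/-! ### the superlattice -/

section Super

variable {L M : PeriodPair} {N : ℕ} [NeZero N]

lemma super_sub (h : IsSuper L M N) (z : ℂ) (p : Fin N × L.lattice) :
    z - ((superEquiv L M N p : M.lattice) : ℂ) = z - (p.1 : ℕ) * M.ω₂ - p.2 := by
  rw [coe_superEquiv h]; ring

theorem P_super (h : IsSuper L M N) (z : ℂ) : M.weierstrassP z =
    ∑ i ∈ Finset.range N, (L.weierstrassP (z - i * M.ω₂) - L.weierstrassP (i * M.ω₂)) := by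
  have hs := (superEquiv L M N).hasSum_iff.mpr (M.hasSum_weierstrassP z)
  have h2 : HasSum (fun p : Fin N × L.lattice =>
      (1 / (z - (p.1 : ℕ) * M.ω₂ - p.2) ^ 2 - 1 / ((0 - (p.1 : ℕ) * M.ω₂ - p.2) ^ 2)))
      (M.weierstrassP z) := by
    refine Eq.mp (congrArg (fun F => HasSum F (M.weierstrassP z)) (funext fun p => ?_)) hs
    have e1 := super_sub h z p
    have e2 := super_sub h 0 p
    have e3 : ((superEquiv L M N p : M.lattice) : ℂ) ^ 2 =
      (0 - ((superEquiv L M N p : M.lattice) : ℂ)) ^ 2 := by ring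
    simp only [Function.comp_apply]
    rw [e3, e1, e2]
  have h3 : ∀ i : Fin N, HasSum (fun l : L.lattice =>
      (1 / (z - (i : ℕ) * M.ω₂ - l) ^ 2 - 1 / ((0 - (i : ℕ) * M.ω₂ - l) ^ 2)))
      (L.weierstrassP (z - (i : ℕ) * M.ω₂) - L.weierstrassP (0 - (i : ℕ) * M.ω₂)) := by
    intro i
    have e1 := L.hasSum_weierstrassP (z - (i : ℕ) * M.ω₂)
    have e2 := L.hasSum_weierstrassP (0 - (i : ℕ) * M.ω₂)
    refine Eq.mp (congrArg (fun F => HasSum F _) (funext fun l => ?_)) (e1.sub e2)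
    ring
  have h4 := h2.prod_fiberwise h3
  have h5 := h4.unique (hasSum_fintype _)
  rw [h5, Fin.sum_univ_eq_sum_range
    (fun i => L.weierstrassP (z - i * M.ω₂) - L.weierstrassP (0 - i * M.ω₂)) N]
  refine Finset.sum_congr rfl fun i _ => ?_
  rw [zero_sub, L.weierstrassP_neg]

theorem dP_super (h : IsSuper L M N) (z : ℂ) : M.derivWeierstrassP z =
    ∑ i ∈ Finset.range N, L.derivWeierstrassP (z - i * M.ω₂) := by
  have hs := (superEquiv L M N).hasSum_iff.mpr (M.hasSum_derivWeierstrassP z)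
  have h2 : HasSum (fun p : Fin N × L.lattice => (-2 / (z - (p.1 : ℕ) * M.ω₂ - p.2) ^ 3))
      (M.derivWeierstrassP z) := by
    refine Eq.mp (congrArg (fun F => HasSum F (M.derivWeierstrassP z)) (funext fun p => ?_)) hs
    simp only [Function.comp_apply]
    rw [super_sub h z p]
  have h4 := h2.prod_fiberwise fun i => L.hasSum_derivWeierstrassP (z - (i : ℕ) * M.ω₂)
  have h5 := h4.unique (hasSum_fintype _)
  rw [h5, Fin.sum_univ_eq_sum_range (fun i => L.derivWeierstrassP (z - i * M.ω₂)) N]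

/-- `℘_M(z) = ℘_L(z) + ∑_{0 < i < N} (℘_L(z + iω) - ℘_L(iω))` -/
theorem P_super' (h : IsSuper L M N) (z : ℂ) : M.weierstrassP z =
    L.weierstrassP z + ∑ i ∈ Finset.Ico 1 N,
      (L.weierstrassP (z + i * M.ω₂) - L.weierstrassP (i * M.ω₂)) := by
  rw [← M.weierstrassP_neg, P_super h, Finset.range_eq_Ico,
    Finset.sum_eq_sum_Ico_succ_bot (Nat.pos_of_ne_zero (NeZero.ne N))]
  congr 1
  · rw [Nat.cast_zero, zero_mul, sub_zero, L.weierstrassP_zero, sub_zero, L.weierstrassP_neg]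
  · refine Finset.sum_congr rfl fun i _ => ?_
    rw [← L.weierstrassP_neg]
    congr 2
    ring

/-- `℘'_M(z) = ∑_i ℘'_L(z + iω)` -/
theorem dP_super' (h : IsSuper L M N) (z : ℂ) : M.derivWeierstrassP z =
    ∑ i ∈ Finset.range N, L.derivWeierstrassP (z + i * M.ω₂) := by
  have h1 := M.derivWeierstrassP_neg z
  have h2 : M.derivWeierstrassP z = -M.derivWeierstrassP (-z) := by rw [h1, neg_neg]
  rw [h2, dP_super h, ← Finset.sum_neg_distrib]
  refine Finset.sum_congr rfl fun i _ => ?_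
  rw [← L.derivWeierstrassP_neg]
  congr 1
  ring

end Super

/-! ### scaling -/

section Scale

variable {M M' : PeriodPair} {u : ℂ}

/-- `M' → M`, `m ↦ u m` -/
def scaleEquiv (M M' : PeriodPair) : M'.lattice ≃ M.lattice :=
  M'.latticeEquivProd.toEquiv.trans M.latticeEquivProd.symm.toEquiv

lemma coe_scaleEquiv (h1 : M.ω₁ = u * M'.ω₁) (h2 : M.ω₂ = u * M'.ω₂) (m : M'.lattice) :
    ((scaleEquiv M M' m : M.lattice) : ℂ) = u * (m : ℂ) := by
  obtain ⟨q, rfl⟩ := M'.latticeEquivProd.symm.surjective m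
  have e1 : scaleEquiv M M' (M'.latticeEquivProd.symm q) = M.latticeEquivProd.symm q := by
    simp [scaleEquiv]
  rw [e1, M.latticeEquiv_symm_apply, M'.latticeEquiv_symm_apply, h1, h2]
  ring

lemma mem_scale (hu : u ≠ 0) (h1 : M.ω₁ = u * M'.ω₁) (h2 : M.ω₂ = u * M'.ω₂) {z : ℂ} :
    z / u ∈ M'.lattice ↔ z ∈ M.lattice := by
  rw [PeriodPair.mem_lattice, PeriodPair.mem_lattice]
  refine exists_congr fun a => exists_congr fun b => ?_
  rw [eq_div_iff hu, h1, h2]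
  constructor
  · intro h
    rw [← h]; ring
  · intro h
    rw [← h]; ring

theorem P_scale (hu : u ≠ 0) (h1 : M.ω₁ = u * M'.ω₁) (h2 : M.ω₂ = u * M'.ω₂) (z : ℂ) :
    M'.weierstrassP (z / u) = u ^ 2 * M.weierstrassP z := by
  rw [PeriodPair.weierstrassP, PeriodPair.weierstrassP, ← (scaleEquiv M M').tsum_eq,
    ← tsum_mul_left]
  refine tsum_congr fun m => ?_
  rw [coe_scaleEquiv h1 h2]
  have e1 : z - u * (m : ℂ) = u * (z / u - m) := by field_simp
  rw [e1, mul_pow, mul_pow]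
  have hu2 : u ^ 2 ≠ 0 := pow_ne_zero _ hu
  rw [one_div, one_div, one_div, one_div, mul_inv, mul_inv, ← mul_sub, ← mul_assoc,
    mul_inv_cancel₀ hu2, one_mul]

theorem dP_scale (hu : u ≠ 0) (h1 : M.ω₁ = u * M'.ω₁) (h2 : M.ω₂ = u * M'.ω₂) (z : ℂ) :
    M'.derivWeierstrassP (z / u) = u ^ 3 * M.derivWeierstrassP z := by
  rw [← (M'.hasSum_derivWeierstrassP (z / u)).tsum_eq, ← (M.hasSum_derivWeierstrassP z).tsum_eq,
    ← (scaleEquiv M M').tsum_eq, ← tsum_mul_left]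
  refine tsum_congr fun m => ?_
  rw [coe_scaleEquiv h1 h2]
  have e1 : z - u * (m : ℂ) = u * (z / u - m) := by field_simp
  rw [e1, mul_pow]
  have hu3 : u ^ 3 ≠ 0 := pow_ne_zero _ hu
  generalize (z / u - (m : ℂ)) ^ 3 = w
  rw [div_eq_mul_inv, div_eq_mul_inv, mul_inv]
  have e2 : u ^ 3 * (-2 * ((u ^ 3)⁻¹ * w⁻¹)) = (u ^ 3 * (u ^ 3)⁻¹) * (-2 * w⁻¹) := by ring
  rw [e2, mul_inv_cancel₀ hu3, one_mul]

end Scale

/-! ### sums over the subgroup -/

lemma finsum_subgroup_ne {G : Type*} [AddCommGroup G] {k : Type*} [AddCommMonoid k] {N : ℕ}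
    (hN : N.Prime) {C : AddSubgroup G} (hC : Nat.card C = N) {P : G} (hP : P ∈ C) (hP0 : P ≠ 0)
    (f : G → k) : ∑ᶠ Q ∈ (C : Set G) \ {0}, f Q = ∑ i ∈ Finset.Ico 1 N, f (i • P) := by
  obtain ⟨hset, hinj⟩ := subgroup_eq_image hN hC hP hP0
  have hsub : (Finset.Ico 1 N : Set ℕ) ⊆ (Finset.range N : Set ℕ) := by
    intro i hi
    simp only [Finset.coe_Ico, Set.mem_Ico] at hi
    simp only [Finset.coe_range, Set.mem_Iio]
    exact hi.2
  have h1 : (C : Set G) \ {0} = (fun i : ℕ => i • P) '' (Finset.Ico 1 N : Set ℕ) := by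
    rw [hset]
    ext Q
    simp only [Set.mem_sdiff, Set.mem_image, Set.mem_singleton_iff, Finset.coe_range, Set.mem_Iio,
      Finset.coe_Ico, Set.mem_Ico]
    constructor
    · rintro ⟨⟨i, hi, rfl⟩, hQ⟩
      refine ⟨i, ⟨?_, hi⟩, rfl⟩
      rcases Nat.eq_zero_or_pos i with h | h
      · subst h
        exact absurd (zero_nsmul P) hQ
      · exact h
    · rintro ⟨i, ⟨hi1, hi⟩, rfl⟩
      refine ⟨⟨i, hi, rfl⟩, fun h0 => ?_⟩
      have h2 : i = 0 := hinj (by simpa using hi) (by simpa using hN.pos)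
        (by simpa using h0)
      omega
  rw [h1, finsum_mem_image (hinj.mono hsub), finsum_mem_coe_finset]

/-! ### the isogeny -/

/-- **Velu's isogeny over `ℂ`.** -/
theorem velu_isog' {V V' : WeierstrassCurve ℂ} (hΔ : V.Δ ≠ 0) {N : ℕ} [NeZero N] (hN : N.Prime)
    (hN2 : N ≠ 2) {C : AddSubgroup V.toAffine.Point} (hC : Nat.card C = N) {u : ℂ} (hu : u ≠ 0)
    (h4 : V'.c₄ = u ^ 4 * veluC4 V.toAffine (C : Set V.toAffine.Point))
    (h6 : V'.c₆ = u ^ 6 * veluC6 V.toAffine (C : Set V.toAffine.Point)) :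
    V'.Δ ≠ 0 ∧ ∃ φ : V.toAffine.Point →+ V'.toAffine.Point,
      φ.ker = C ∧ Function.Surjective φ ∧ ∀ P ∉ C,
        px (φ P) + V'.b₂ / 12 = u ^ 2 * (px P + V.b₂ / 12 +
          ∑ᶠ Q ∈ (C : Set V.toAffine.Point) \ {0}, (px (P + Q) - px Q)) ∧
        psi2 (φ P) = u ^ 3 * ∑ᶠ Q ∈ (C : Set V.toAffine.Point), psi2 (P + Q) := by
  obtain ⟨P₀, hPC, hP0, hPN⟩ := exists_gen_of_card hN hC
  obtain ⟨τ, l, hl, k4, k6, hP⟩ := uniformise hΔ hN hN2 P₀ hPN hP0
  have hN0 : (N : ℂ) ≠ 0 := by exact_mod_cast hN.ne_zero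
  have hl' : l / N ≠ 0 := div_ne_zero hl hN0
  have hl'' : l / N / u ≠ 0 := div_ne_zero hl' hu
  have hs := isSuper_pp τ l hl hl'
  have hPω : Phi k4 k6 hΔ (pp (gR N • τ) (l / N) hl').ω₂ = P₀ := by rw [hP]; rfl
  have hmem : Phi k4 k6 hΔ (pp (gR N • τ) (l / N) hl').ω₂ ∈ C := by rw [hPω]; exact hPC
  have e4 := veluC4_complex k4 k6 hΔ hN hs hC hmem
  have e6 := veluC6_complex k4 k6 hΔ hN hs hC hmem
  have s1 : (pp (gR N • τ) (l / N) hl').ω₁ = u * (pp (gR N • τ) (l / N / u) hl'').ω₁ := by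
    change l / N * ((gR N • τ : ℍ) : ℂ) = u * (l / N / u * ((gR N • τ : ℍ) : ℂ))
    field_simp
  have s2 : (pp (gR N • τ) (l / N) hl').ω₂ = u * (pp (gR N • τ) (l / N / u) hl'').ω₂ := by
    change l / N = u * (l / N / u)
    field_simp
  have f4 : V'.c₄ = 12 * (pp (gR N • τ) (l / N / u) hl'').g₂ := by
    rw [h4, e4, c4_pp, c4_pp]
    field_simp
  have f6 : V'.c₆ = 216 * (pp (gR N • τ) (l / N / u) hl'').g₃ := by
    rw [h6, e6, c6_pp, c6_pp]
    field_simp
  have hΔ' : V'.Δ ≠ 0 := by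
    intro h0
    have := V'.c_relation
    rw [h0, f4, f6] at this
    apply disc_pp_ne (gR N • τ) (l / N / u) hl''
    linear_combination -this / 1728
  refine ⟨hΔ', ?_⟩
  generalize pp τ l hl = L at *
  generalize pp (gR N • τ) (l / N) hl' = M at *
  generalize pp (gR N • τ) (l / N / u) hl'' = M' at *
  have hsurj := Phi_surjective k4 k6 hΔ
  have hsurj' := Phi_surjective f4 f6 hΔ'
  -- `Phi z ∈ C ↔ z ∈ M`
  have hCiff : ∀ z : ℂ, Phi k4 k6 hΔ z ∈ C ↔ z ∈ M.lattice := by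
    intro z
    rw [hs.mem_iff]
    constructor
    · intro hz
      have hz' : -Phi k4 k6 hΔ z ∈ (C : Set V.toAffine.Point) := C.neg_mem hz
      rw [(subgroup_eq_image hN hC hPC hP0).1] at hz'
      obtain ⟨i, hi, hi'⟩ := hz'
      refine ⟨i, by simpa using hi, ?_⟩
      rw [← Phi_eq_zero_iff k4 k6 hΔ, map_add, ← nsmul_eq_mul, map_nsmul, hPω]
      have hi'' : i • P₀ = -Phi k4 k6 hΔ z := hi'
      rw [hi'', add_neg_cancel]
    · rintro ⟨i, _, hi⟩
      rw [← Phi_eq_zero_iff k4 k6 hΔ, map_add, ← nsmul_eq_mul, map_nsmul, hPω] at hi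
      rw [eq_neg_of_add_eq_zero_left hi]
      exact C.neg_mem (C.nsmul_mem hPC i)
  let g : ℂ →+ V'.toAffine.Point := (Phi f4 f6 hΔ').comp (AddMonoidHom.mulRight u⁻¹)
  have hg : ∀ z, g z = Phi f4 f6 hΔ' (z / u) := fun z => by
    rw [div_eq_mul_inv]; rfl
  have hg0 : ∀ z, g z = 0 ↔ z ∈ M.lattice := fun z => by
    rw [hg, Phi_eq_zero_iff, mem_scale hu s1 s2]
  have hle : (Phi k4 k6 hΔ).ker ≤ g.ker := by
    intro z hz
    rw [AddMonoidHom.mem_ker] at hz ⊢
    rw [hg0]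
    exact hs.le ((Phi_eq_zero_iff k4 k6 hΔ).mp hz)
  let φ : V.toAffine.Point →+ V'.toAffine.Point :=
    (Phi k4 k6 hΔ).liftOfRightInverse (Function.surjInv hsurj)
      (Function.rightInverse_surjInv hsurj) ⟨g, hle⟩
  have hφ : ∀ z, φ (Phi k4 k6 hΔ z) = g z := fun z =>
    AddMonoidHom.liftOfRightInverse_comp_apply _ _ _ _ z
  refine ⟨φ, ?_, ?_, ?_⟩
  · ext Q
    obtain ⟨z, rfl⟩ := hsurj Q
    rw [AddMonoidHom.mem_ker, hφ, hg0, hCiff]
  · intro Q
    obtain ⟨w, rfl⟩ := hsurj' Q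
    refine ⟨Phi k4 k6 hΔ (w * u), ?_⟩
    rw [hφ, hg, mul_div_cancel_right₀ _ hu]
  · intro P hPC'
    obtain ⟨z, rfl⟩ := hsurj P
    have hz : z ∉ M.lattice := fun h => hPC' ((hCiff z).mpr h)
    have hzi : ∀ i : ℕ, i < N → z + i * M.ω₂ ∉ L.lattice := fun i hi h =>
      hz (hs.mem_iff.mpr ⟨i, hi, h⟩)
    have hz0 : z ∉ L.lattice := by
      have := hzi 0 hN.pos
      simpa using this
    have hz' : z / u ∉ M'.lattice := fun h => hz ((mem_scale hu s1 s2).mp h)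
    have hadd : ∀ i : ℕ, Phi k4 k6 hΔ z + i • P₀ = Phi k4 k6 hΔ (z + i * M.ω₂) := by
      intro i
      rw [map_add, ← nsmul_eq_mul, map_nsmul, hPω]
    constructor
    · rw [hφ, hg, px_Phi f4 f6 hΔ' hz', P_scale hu s1 s2, P_super' hs,
        finsum_subgroup_ne hN hC hPC hP0, px_Phi k4 k6 hΔ hz0]
      have e : ∀ i ∈ Finset.Ico 1 N, px (Phi k4 k6 hΔ z + i • P₀) - px (i • P₀) =
          L.weierstrassP (z + i * M.ω₂) - L.weierstrassP (i * M.ω₂) := by
        intro i hi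
        rw [Finset.mem_Ico] at hi
        have h1 := notMem_of_super hs (i := i) (by omega) hi.2
        have h2 : i • P₀ = Phi k4 k6 hΔ (i * M.ω₂) := by
          rw [← nsmul_eq_mul, map_nsmul, hPω]
        rw [hadd, px_Phi k4 k6 hΔ (hzi i hi.2), h2, px_Phi k4 k6 hΔ h1]
        ring
      rw [Finset.sum_congr rfl e]
      ring
    · rw [hφ, hg, psi2_Phi f4 f6 hΔ' hz', dP_scale hu s1 s2, dP_super' hs,
        finsum_subgroup hN hC hPC hP0]
      congr 1
      refine Finset.sum_congr rfl fun i hi => ?_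
      rw [Finset.mem_range] at hi
      rw [hadd, psi2_Phi k4 k6 hΔ (hzi i hi)]

theorem velu_isog {V V' : WeierstrassCurve ℂ} (hΔ : V.Δ ≠ 0) {N : ℕ} [NeZero N] (hN : N.Prime)
    (hN2 : N ≠ 2) {C : AddSubgroup V.toAffine.Point} (hC : Nat.card C = N) {u : ℂ} (hu : u ≠ 0)
    (h4 : V'.c₄ = u ^ 4 * veluC4 V.toAffine (C : Set V.toAffine.Point))
    (h6 : V'.c₆ = u ^ 6 * veluC6 V.toAffine (C : Set V.toAffine.Point)) :
    ∃ φ : V.toAffine.Point →+ V'.toAffine.Point,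
      φ.ker = C ∧ Function.Surjective φ ∧ ∀ P ∉ C,
        px (φ P) + V'.b₂ / 12 = u ^ 2 * (px P + V.b₂ / 12 +
          ∑ᶠ Q ∈ (C : Set V.toAffine.Point) \ {0}, (px (P + Q) - px Q)) ∧
        psi2 (φ P) = u ^ 3 * ∑ᶠ Q ∈ (C : Set V.toAffine.Point), psi2 (P + Q) :=
  (velu_isog' hΔ hN hN2 hC hu h4 h6).2

end Fermat.Agent.Cor.VeluC
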