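import Mathlib
import Fermat.Agent.H09.TypeJ

set_option autoImplicit false

/-!
# An integral model of the quotient of an elliptic curve over `ℚ` by a Galois stable subgroup of
prime order

Velu's formulas `a₄' = a₄ - 5t`, `a₆' = a₆ - b₂ t - 7w` with
`t = ∑ (6x² + b₂x + b₄)`, `w = ∑ (10x³ + 2b₂x² + 3b₄x + b₆)`, sums over `(C \ {0}) / ±1`.
-/

namespace Fermat.Agent.Cor.VeluZ

open Polynomial WeierstrassCurve WeierstrassCurve.Affine WeierstrassCurve.Affine.Point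
open Fermat.Agent.H08 Fermat.Agent.H05 Fermat.Agent.H09

local notation "Qb" => AlgebraicClosure ℚ

section Rational

/-- a Galois invariant algebraic number is rational -/
theorem exists_rat {z : Qb} (h : ∀ σ : Qb ≃ₐ[ℚ] Qb, σ z = z) : ∃ q : ℚ, (q : Qb) = z := by
  have hgal : IsGalois ℚ Qb := { to_normal := { splits' := fun x => IsAlgClosed.splits _ } }
  have hcbot := (InfiniteGalois.mem_bot_iff_fixed (k := ℚ) _).mpr h
  obtain ⟨q, hq⟩ := IntermediateField.mem_bot.mp hcbot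
  exact ⟨q, by rw [← hq]; simp⟩

/-- a rational number which is integral outside `p` has a power of `p` as denominator -/
theorem exists_pow_mul {p : ℕ} {q : ℚ} (h : ∀ ℓ : ℕ, ℓ.Prime → ℓ ≠ p →
    ∃ A : ValuationSubring Qb, A.LiesOverPrime ℓ ∧ A.valuation (q : Qb) ≤ 1) :
    ∃ m : ℕ, ∀ n : ℕ, m ≤ n → ∃ z : ℤ, (z : ℚ) = (p : ℚ) ^ n * q := by
  have hden : ∀ ℓ : ℕ, ℓ.Prime → ℓ ∣ q.den → ℓ = p := by
    intro ℓ hℓ hd
    by_contra hℓp
    obtain ⟨A, hA, hv⟩ := h ℓ hℓ hℓp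
    have hnum : ¬ (ℓ : ℤ) ∣ q.num := by
      intro hd2
      have h1 : ℓ ∣ q.num.natAbs := Int.natCast_dvd.mp hd2
      have h3 := Nat.dvd_gcd h1 hd
      rw [q.reduced] at h3
      exact hℓ.one_lt.ne' (Nat.dvd_one.mp h3)
    have h1 := Fermat.Agent.H09.val_intCast_lt_one (c := (q.den : ℤ)) hA (by exact_mod_cast hd)
    have h2 := Fermat.Agent.H09.val_intCast_eq_one hℓ hA hnum
    rw [Rat.cast_def, map_div₀, h2] at hv
    rw [Int.cast_natCast] at h1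
    have hden0 : A.valuation ((q.den : ℕ) : Qb) ≠ 0 :=
      (Valuation.ne_zero_iff _).mpr (Nat.cast_ne_zero.mpr q.den_ne_zero)
    rw [one_div] at hv
    have h3 := (inv_le_one₀ (zero_lt_iff.mpr hden0)).mp hv
    exact absurd h1 (not_lt.mpr h3)
  have hpow := Nat.eq_prime_pow_of_unique_prime_dvd q.den_ne_zero
    (fun {d} hd hdd => hden d hd hdd)
  refine ⟨q.den.primeFactorsList.length, fun n hn => ?_⟩
  obtain ⟨k, rfl⟩ := Nat.exists_eq_add_of_le hn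
  refine ⟨(p : ℤ) ^ k * q.num, ?_⟩
  have e : (q.den : ℚ) = (p : ℚ) ^ q.den.primeFactorsList.length := by
    exact_mod_cast hpow
  have h0 : (q.den : ℚ) ≠ 0 := Nat.cast_ne_zero.mpr q.den_ne_zero
  have hq : q * (q.den : ℚ) = q.num := Rat.mul_den_eq_num q
  push_cast
  rw [pow_add, ← e, ← hq]
  ring

/-- a sum over a symmetric sequence -/
theorem sum_symm {F : Type*} [AddCommMonoid F] {p r : ℕ} (hr : p = 2 * r + 1) (f : ℕ → F)
    (hf : ∀ i, 1 ≤ i → i < p → f (p - i) = f i) :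
    ∑ i ∈ Finset.Ico 1 p, f i = 2 • ∑ i ∈ Finset.Ico 1 (r + 1), f i := by
  have h1 : ∑ j ∈ Finset.Ico 1 (r + 1), f (2 * r + 1 - j) =
      ∑ j ∈ Finset.Ico (r + 1) (2 * r + 1), f j := by
    have := Finset.sum_Ico_reflect f 1 (m := r + 1) (n := 2 * r + 1) (by omega)
    rw [this]
    congr 1
    congr 1
    all_goals omega
  have h2 : ∑ j ∈ Finset.Ico 1 (r + 1), f (2 * r + 1 - j) = ∑ j ∈ Finset.Ico 1 (r + 1), f j := by
    apply Finset.sum_congr rfl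
    intro j hj
    rw [Finset.mem_Ico] at hj
    have := hf j hj.1 (by omega)
    rwa [hr] at this
  rw [hr, ← Finset.sum_Ico_consecutive f (show 1 ≤ r + 1 by omega) (show r + 1 ≤ 2 * r + 1 by omega),
    ← h1, h2, two_nsmul]

end Rational

section Field

variable {F : Type*} [Field F] [CharZero F] {E : WeierstrassCurve.Affine F}

theorem t6_eq {P : E.Point} (hP : P ≠ 0) :
    H24.t6 P = 252 * E.b₂ * (6 * px P ^ 2 + E.b₂ * px P + E.b₄) +
      3024 * (10 * px P ^ 3 + 2 * E.b₂ * px P ^ 2 + 3 * E.b₄ * px P + E.b₆) := by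
  rcases P with _ | ⟨x, y, h⟩
  · exact absurd rfl hP
  · rw [H24.t6_some, WeierstrassCurve.c₄, WeierstrassCurve.c₆]
    change _ = 252 * E.b₂ * (6 * x ^ 2 + E.b₂ * x + E.b₄) +
      3024 * (10 * x ^ 3 + 2 * E.b₂ * x ^ 2 + 3 * E.b₄ * x + E.b₆)
    field_simp
    ring

variable [DecidableEq F]

omit [CharZero F] in
theorem mem_cyc_iff {p : ℕ} (hp : p.Prime) {C : AddSubgroup E.Point} (hC : Nat.card C = p)
    {T : E.Point} (hT : T ∈ C) (hT0 : T ≠ 0) (hord : addOrderOf T = p) {Q : E.Point} :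
    Q ∈ cyc p T ↔ Q ∈ C ∧ Q ≠ 0 := by
  constructor
  · intro hQ
    obtain ⟨k, -, -, rfl, h0, -⟩ := mem_cyc hord hQ
    exact ⟨C.nsmul_mem hT k, h0⟩
  · rintro ⟨hQ, hQ0⟩
    have h1 : Q ∈ (C : Set E.Point) := hQ
    rw [(H24.subgroup_eq_image hp hC hT hT0).1] at h1
    obtain ⟨i, hi, rfl⟩ := h1
    refine Finset.mem_image.mpr ⟨i, ?_, rfl⟩
    rw [Finset.mem_Ico]
    refine ⟨?_, by simpa using hi⟩
    rw [Nat.one_le_iff_ne_zero]
    rintro rfl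
    exact hQ0 (zero_nsmul T)

omit [CharZero F] in
theorem px_sub_smul {p : ℕ} {T : E.Point} (hpT : p • T = 0) {i : ℕ} (hi : i < p) :
    px ((p - i) • T) = px (i • T) := by
  have e : (p - i) • T = -(i • T) := by
    rw [eq_neg_iff_add_eq_zero, ← add_nsmul, Nat.sub_add_cancel hi.le, hpT]
  rw [e, px_neg]

/-- Velu's `t` -/
noncomputable def vt (E : WeierstrassCurve.Affine F) (r : ℕ) (T : E.Point) : F :=
  ∑ i ∈ Finset.Ico 1 (r + 1), (6 * px (i • T) ^ 2 + E.b₂ * px (i • T) + E.b₄)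

/-- Velu's `w` -/
noncomputable def vw (E : WeierstrassCurve.Affine F) (r : ℕ) (T : E.Point) : F :=
  ∑ i ∈ Finset.Ico 1 (r + 1),
    (10 * px (i • T) ^ 3 + 2 * E.b₂ * px (i • T) ^ 2 + 3 * E.b₄ * px (i • T) + E.b₆)

omit [CharZero F] in
theorem two_vt {p r : ℕ} (hr : p = 2 * r + 1) {T : E.Point} (hpT : p • T = 0) :
    ∑ i ∈ Finset.Ico 1 p, (6 * px (i • T) ^ 2 + E.b₂ * px (i • T) + E.b₄) = 2 * vt E r T := by
  rw [sum_symm hr _ (fun i h1 h2 => by rw [px_sub_smul hpT h2]), two_nsmul, vt, two_mul]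

omit [CharZero F] in
theorem two_vw {p r : ℕ} (hr : p = 2 * r + 1) {T : E.Point} (hpT : p • T = 0) :
    ∑ i ∈ Finset.Ico 1 p, (10 * px (i • T) ^ 3 + 2 * E.b₂ * px (i • T) ^ 2 +
      3 * E.b₄ * px (i • T) + E.b₆) = 2 * vw E r T := by
  rw [sum_symm hr _ (fun i h1 h2 => by rw [px_sub_smul hpT h2]), two_nsmul, vw]
  exact (two_mul _).symm

omit [CharZero F] in
theorem smul_ne_zero_of_lt {p : ℕ} {T : E.Point} (hord : addOrderOf T = p) {i : ℕ}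
    (hi : i ∈ Finset.Ico 1 p) : i • T ≠ 0 := by
  intro h0
  rw [Finset.mem_Ico] at hi
  have : p ∣ i := by rw [← hord]; exact addOrderOf_dvd_of_nsmul_eq_zero h0
  have := Nat.le_of_dvd (by omega) this
  omega

theorem veluC4_eq_vt {p r : ℕ} (hp : p.Prime) (hr : p = 2 * r + 1) {C : AddSubgroup E.Point}
    (hC : Nat.card C = p) {T : E.Point} (hT : T ∈ C) (hT0 : T ≠ 0) (hord : addOrderOf T = p) :
    H24.veluC4 E (C : Set E.Point) = E.c₄ + 240 * vt E r T := by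
  have hpT : p • T = 0 := by rw [← hord]; exact addOrderOf_nsmul_eq_zero T
  rw [H24.veluC4, H24.finsum_subgroup hp hC hT hT0, Finset.range_eq_Ico,
    Finset.sum_eq_sum_Ico_succ_bot hp.pos, zero_nsmul, H24.t4_zero, _root_.zero_add]
  have e : ∑ i ∈ Finset.Ico (0 + 1) p, H24.t4 (i • T) =
      120 * ∑ i ∈ Finset.Ico 1 p, (6 * px (i • T) ^ 2 + E.b₂ * px (i • T) + E.b₄) := by
    rw [Finset.mul_sum]
    exact Finset.sum_congr rfl fun i hi => t4_eq (smul_ne_zero_of_lt hord hi)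
  rw [e, two_vt hr hpT]
  ring

theorem veluC6_eq_vt {p r : ℕ} (hp : p.Prime) (hr : p = 2 * r + 1) {C : AddSubgroup E.Point}
    (hC : Nat.card C = p) {T : E.Point} (hT : T ∈ C) (hT0 : T ≠ 0) (hord : addOrderOf T = p) :
    H24.veluC6 E (C : Set E.Point) = E.c₆ + 504 * E.b₂ * vt E r T + 6048 * vw E r T := by
  have hpT : p • T = 0 := by rw [← hord]; exact addOrderOf_nsmul_eq_zero T
  rw [H24.veluC6, H24.finsum_subgroup hp hC hT hT0, Finset.range_eq_Ico,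
    Finset.sum_eq_sum_Ico_succ_bot hp.pos, zero_nsmul, H24.t6_zero, _root_.zero_add]
  have e : ∑ i ∈ Finset.Ico (0 + 1) p, H24.t6 (i • T) =
      252 * E.b₂ * ∑ i ∈ Finset.Ico 1 p, (6 * px (i • T) ^ 2 + E.b₂ * px (i • T) + E.b₄) +
      3024 * ∑ i ∈ Finset.Ico 1 p, (10 * px (i • T) ^ 3 + 2 * E.b₂ * px (i • T) ^ 2 +
        3 * E.b₄ * px (i • T) + E.b₆) := by
    rw [Finset.mul_sum, Finset.mul_sum, ← Finset.sum_add_distrib]
    exact Finset.sum_congr rfl fun i hi => t6_eq (smul_ne_zero_of_lt hord hi)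
  rw [e, two_vt hr hpT, two_vw hr hpT]
  ring

end Field

section Galois

variable {W₀ : WeierstrassCurve.Affine ℚ}

/-- Galois invariance of symmetric sums over a stable cyclic group -/
theorem sum_fixed {p : ℕ} (hp : p.Prime) {C : AddSubgroup (W₀⁄Qb).Point} (hC : Nat.card C = p)
    (hst : ∀ σ : Qb ≃ₐ[ℚ] Qb, ∀ Q ∈ C, σ • Q ∈ C) {T : (W₀⁄Qb).Point} (hT : T ∈ C) (hT0 : T ≠ 0)
    (hord : addOrderOf T = p) {g : Qb → Qb} (σ : Qb ≃ₐ[ℚ] Qb) (hg : ∀ x, σ (g x) = g (σ x)) :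
    σ (∑ i ∈ Finset.Ico 1 p, g (px (i • T))) = ∑ i ∈ Finset.Ico 1 p, g (px (i • T)) := by
  have e : ∑ i ∈ Finset.Ico 1 p, g (px (i • T)) = ∑ Q ∈ cyc p T, g (px Q) := by
    unfold cyc
    rw [Finset.sum_image (cyc_injOn hord)]
  have hinj := smul_pt_injective (W₀ := W₀) σ
  have himg : (cyc p T).image (fun P => σ • P) = cyc p T := by
    apply Finset.eq_of_subset_of_card_le
    · intro Q hQ
      obtain ⟨P, hP, rfl⟩ := Finset.mem_image.mp hQ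
      rw [mem_cyc_iff hp hC hT hT0 hord] at hP ⊢
      exact ⟨hst σ P hP.1, Fermat.Agent.H09.smul_ne_zero' σ hP.2⟩
    · rw [Finset.card_image_of_injective _ hinj]
  rw [e, map_sum]
  calc ∑ P ∈ cyc p T, σ (g (px P)) = ∑ P ∈ cyc p T, g (px (σ • P)) := by
        apply Finset.sum_congr rfl
        intro P _
        rw [px_smul, hg]
    _ = ∑ Q ∈ (cyc p T).image (fun P => σ • P), g (px Q) := by
        rw [Finset.sum_image (fun a _ b _ h => hinj h)]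
    _ = ∑ P ∈ cyc p T, g (px P) := by rw [himg]

variable {W : WeierstrassCurve ℤ} {p r : ℕ}
  {C : AddSubgroup ((W.map (Int.castRingHom ℚ))⁄Qb).Point}
  {T : ((W.map (Int.castRingHom ℚ))⁄Qb).Point}

theorem b₂_Qb : ((W.map (Int.castRingHom ℚ))⁄Qb).b₂ = (W.b₂ : Qb) := by
  rw [← map_int_Qb, map_b₂]; rfl
theorem b₄_Qb : ((W.map (Int.castRingHom ℚ))⁄Qb).b₄ = (W.b₄ : Qb) := by
  rw [← map_int_Qb, map_b₄]; rfl
theorem b₆_Qb : ((W.map (Int.castRingHom ℚ))⁄Qb).b₆ = (W.b₆ : Qb) := by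
  rw [← map_int_Qb, map_b₆]; rfl
theorem c₄_Qb : ((W.map (Int.castRingHom ℚ))⁄Qb).c₄ = (W.c₄ : Qb) := by
  rw [← map_int_Qb, map_c₄]; rfl
theorem c₆_Qb : ((W.map (Int.castRingHom ℚ))⁄Qb).c₆ = (W.c₆ : Qb) := by
  rw [← map_int_Qb, map_c₆]; rfl
theorem Δ_Qb : ((W.map (Int.castRingHom ℚ))⁄Qb).Δ = (W.Δ : Qb) := by
  rw [← map_int_Qb, map_Δ]; rfl

theorem vt_rat (hp : p.Prime) (hr : p = 2 * r + 1) (hC : Nat.card C = p)
    (hst : ∀ σ : Qb ≃ₐ[ℚ] Qb, ∀ Q ∈ C, σ • Q ∈ C) (hT : T ∈ C) (hT0 : T ≠ 0)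
    (hord : addOrderOf T = p) :
    ∃ q : ℚ, (q : Qb) = vt ((W.map (Int.castRingHom ℚ))⁄Qb) r T := by
  have hpT : p • T = 0 := by rw [← hord]; exact addOrderOf_nsmul_eq_zero T
  apply exists_rat
  intro σ
  have h1 := sum_fixed hp hC hst hT hT0 hord σ
    (g := fun x => 6 * x ^ 2 + ((W.map (Int.castRingHom ℚ))⁄Qb).b₂ * x +
      ((W.map (Int.castRingHom ℚ))⁄Qb).b₄) (by
      intro x
      simp only [b₂_Qb, b₄_Qb, map_add, map_mul, map_pow, map_ofNat, map_intCast])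
  rw [two_vt hr hpT, map_mul, map_ofNat] at h1
  exact mul_left_cancel₀ two_ne_zero h1

theorem vw_rat (hp : p.Prime) (hr : p = 2 * r + 1) (hC : Nat.card C = p)
    (hst : ∀ σ : Qb ≃ₐ[ℚ] Qb, ∀ Q ∈ C, σ • Q ∈ C) (hT : T ∈ C) (hT0 : T ≠ 0)
    (hord : addOrderOf T = p) :
    ∃ q : ℚ, (q : Qb) = vw ((W.map (Int.castRingHom ℚ))⁄Qb) r T := by
  have hpT : p • T = 0 := by rw [← hord]; exact addOrderOf_nsmul_eq_zero T
  apply exists_rat
  intro σ
  have h1 := sum_fixed hp hC hst hT hT0 hord σ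
    (g := fun x => 10 * x ^ 3 + 2 * ((W.map (Int.castRingHom ℚ))⁄Qb).b₂ * x ^ 2 +
      3 * ((W.map (Int.castRingHom ℚ))⁄Qb).b₄ * x +
      ((W.map (Int.castRingHom ℚ))⁄Qb).b₆) (by
      intro x
      simp only [b₂_Qb, b₄_Qb, b₆_Qb, map_add, map_mul, map_pow, map_ofNat, map_intCast])
  rw [two_vw hr hpT, map_mul, map_ofNat] at h1
  exact mul_left_cancel₀ two_ne_zero h1

/-- the scaled Velu model -/
def model (W : WeierstrassCurve ℤ) (u t w : ℤ) : WeierstrassCurve ℤ :=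
  ⟨u * W.a₁, u ^ 2 * W.a₂, u ^ 3 * W.a₃, u ^ 4 * W.a₄ - 5 * t,
    u ^ 6 * W.a₆ - u ^ 2 * W.b₂ * t - 7 * w⟩

theorem model_c₄ (W : WeierstrassCurve ℤ) (u t w : ℤ) :
    (model W u t w).c₄ = u ^ 4 * W.c₄ + 240 * t := by
  simp only [model, WeierstrassCurve.c₄, WeierstrassCurve.b₂, WeierstrassCurve.b₄]
  ring

theorem model_c₆ (W : WeierstrassCurve ℤ) (u t w : ℤ) :
    (model W u t w).c₆ = u ^ 6 * W.c₆ + 504 * u ^ 2 * W.b₂ * t + 6048 * w := by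
  simp only [model, WeierstrassCurve.c₆, WeierstrassCurve.b₂, WeierstrassCurve.b₄,
    WeierstrassCurve.b₆]
  ring

/-- **The integral model of the quotient** of `W` by a Galois stable subgroup of prime order
`p ≠ 2`. -/
theorem exists_model (hΔ : W.Δ ≠ 0) (hp : p.Prime) (hp2 : p ≠ 2) (hC : Nat.card C = p)
    (hst : ∀ σ : Qb ≃ₐ[ℚ] Qb, ∀ Q ∈ C, σ • Q ∈ C) :
    ∃ (W' : WeierstrassCurve ℤ) (k : ℕ),
      (W'.c₄ : Qb) = ((p : Qb) ^ k) ^ 4 *
        H24.veluC4 ((W.map (Int.castRingHom ℚ))⁄Qb) (C : Set _) ∧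
      (W'.c₆ : Qb) = ((p : Qb) ^ k) ^ 6 *
        H24.veluC6 ((W.map (Int.castRingHom ℚ))⁄Qb) (C : Set _) ∧
      (W'.Δ : Qb) = ((p : Qb) ^ k) ^ 12 *
        H24.veluD ((W.map (Int.castRingHom ℚ))⁄Qb) (C : Set _) ∧
      W'.Δ ≠ 0 ∧ ∀ ℓ : ℕ, ℓ.Prime → ℓ ≠ p →
        (¬ (ℓ : ℤ) ∣ W.Δ → ¬ (ℓ : ℤ) ∣ W'.Δ) ∧
        ((ℓ : ℤ) ∣ W.Δ → ¬ (ℓ : ℤ) ∣ W.c₄ →
          (∃ A : ValuationSubring Qb, A.LiesOverPrime ℓ ∧ ∀ Q ∈ C, W.InZeroComponentAt A Q) →
          (ℓ : ℤ) ∣ W'.Δ ∧ ¬ (ℓ : ℤ) ∣ W'.c₄) := by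
  obtain ⟨T, hT, hT0, hpT⟩ := H24.exists_gen_of_card hp hC
  have hfact : Fact p.Prime := ⟨hp⟩
  have hord : addOrderOf T = p := addOrderOf_eq_prime hpT hT0
  obtain ⟨r, hr⟩ := hp.odd_of_ne_two hp2
  obtain ⟨qt, hqt⟩ := vt_rat hp hr hC hst hT hT0 hord
  obtain ⟨qw, hqw⟩ := vw_rat hp hr hC hst hT hT0 hord
  have hint : ∀ A : ValuationSubring Qb, IsIntegralFor A.valuation ((W.map (Int.castRingHom ℚ))⁄Qb) :=
    fun A => isIntegralFor_of_int (map_int_Qb W)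
  have hbnd : ∀ A : ValuationSubring Qb, ∀ z : ℤ, A.valuation (z : Qb) ≤ 1 := fun A z =>
    (A.valuation_le_one_iff _).mpr (intCast_mem A z)
  have hx : ∀ ℓ : ℕ, ℓ.Prime → ℓ ≠ p → ∀ A : ValuationSubring Qb, A.LiesOverPrime ℓ →
      ∀ Q ∈ C, A.valuation (px Q) ≤ 1 := by
    intro ℓ hℓ hℓp A hA Q hQ
    have hpQ : p • Q = 0 := by
      have hfin : Finite C := Nat.finite_of_card_ne_zero (by rw [hC]; exact hp.ne_zero)
      have h1 : Nat.card C • (⟨Q, hQ⟩ : C) = 0 := card_nsmul_eq_zero'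
      rw [hC] at h1
      exact congrArg Subtype.val h1
    exact val_px_le_one_of_torsion (hint A) hpQ (val_prime_eq_one hp hℓ hℓp hA)
  obtain ⟨m₁, hm₁⟩ := exists_pow_mul (p := p) (q := qt) (by
    intro ℓ hℓ hℓp
    obtain ⟨A, hA⟩ := exists_liesOverPrime Qb hℓ
    refine ⟨A, hA, ?_⟩
    rw [hqt, A.valuation_le_one_iff]
    refine sum_mem fun i hi => ?_
    have h1 := (A.valuation_le_one_iff _).mp (hx ℓ hℓ hℓp A hA (i • T) (C.nsmul_mem hT i))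
    rw [b₂_Qb, b₄_Qb]
    exact add_mem (add_mem (mul_mem (natCast_mem A 6) (pow_mem h1 2))
      (mul_mem (intCast_mem A _) h1)) (intCast_mem A _))
  obtain ⟨m₂, hm₂⟩ := exists_pow_mul (p := p) (q := qw) (by
    intro ℓ hℓ hℓp
    obtain ⟨A, hA⟩ := exists_liesOverPrime Qb hℓ
    refine ⟨A, hA, ?_⟩
    rw [hqw, A.valuation_le_one_iff]
    refine sum_mem fun i hi => ?_
    have h1 := (A.valuation_le_one_iff _).mp (hx ℓ hℓ hℓp A hA (i • T) (C.nsmul_mem hT i))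
    rw [b₂_Qb, b₄_Qb, b₆_Qb]
    exact add_mem (add_mem (add_mem (mul_mem (natCast_mem A 10) (pow_mem h1 3))
      (mul_mem (mul_mem (natCast_mem A 2) (intCast_mem A _)) (pow_mem h1 2)))
      (mul_mem (mul_mem (natCast_mem A 3) (intCast_mem A _)) h1)) (intCast_mem A _))
  set k := m₁ + m₂ with hk
  obtain ⟨t, ht⟩ := hm₁ (4 * k) (by omega)
  obtain ⟨w, hw⟩ := hm₂ (6 * k) (by omega)
  have ht' : (t : Qb) = ((p : Qb) ^ k) ^ 4 * vt ((W.map (Int.castRingHom ℚ))⁄Qb) r T := by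
    rw [← hqt, ← pow_mul, mul_comm k 4]
    exact_mod_cast congrArg (fun q : ℚ => (q : Qb)) ht
  have hw' : (w : Qb) = ((p : Qb) ^ k) ^ 6 * vw ((W.map (Int.castRingHom ℚ))⁄Qb) r T := by
    rw [← hqw, ← pow_mul, mul_comm k 6]
    exact_mod_cast congrArg (fun q : ℚ => (q : Qb)) hw
  set W' := model W ((p : ℤ) ^ k) t w with hW'
  have hc4 : (W'.c₄ : Qb) = ((p : Qb) ^ k) ^ 4 * H24.veluC4 ((W.map (Int.castRingHom ℚ))⁄Qb) (C : Set _) := by
    rw [hW', model_c₄, veluC4_eq_vt hp hr hC hT hT0 hord, c₄_Qb]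
    push_cast
    rw [ht']
    ring
  have hc6 : (W'.c₆ : Qb) = ((p : Qb) ^ k) ^ 6 * H24.veluC6 ((W.map (Int.castRingHom ℚ))⁄Qb) (C : Set _) := by
    rw [hW', model_c₆, veluC6_eq_vt hp hr hC hT hT0 hord, c₆_Qb, b₂_Qb]
    push_cast
    rw [ht', hw']
    ring
  have hD : (W'.Δ : Qb) = ((p : Qb) ^ k) ^ 12 * H24.veluD ((W.map (Int.castRingHom ℚ))⁄Qb) (C : Set _) := by
    have h1 := congrArg (fun z : ℤ => (z : Qb)) W'.c_relation
    push_cast at h1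
    rw [hc4, hc6] at h1
    rw [H24.veluD]
    field_simp
    linear_combination h1
  have hdisc := velu_disc_int hΔ hp hp2 hC
  have hΔ0 : ((W.map (Int.castRingHom ℚ))⁄Qb).Δ ≠ 0 := Δ_Qb_ne_zero hΔ
  have hu0 : (p : Qb) ^ k ≠ 0 := pow_ne_zero _ (Nat.cast_ne_zero.mpr hp.ne_zero)
  have hvD0 : H24.veluD ((W.map (Int.castRingHom ℚ))⁄Qb) (C : Set _) ≠ 0 := by
    intro h0
    rw [h0, zero_mul] at hdisc
    exact pow_ne_zero _ hΔ0 hdisc.symm
  have hD0 : W'.Δ ≠ 0 := by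
    intro h0
    rw [h0, Int.cast_zero] at hD
    exact mul_ne_zero (pow_ne_zero _ hu0) hvD0 hD.symm
  refine ⟨W', k, hc4, hc6, hD, hD0, fun ℓ hℓ hℓp => ⟨fun hg => ?_, fun hℓΔ hℓc₄ hI => ?_⟩⟩
  · obtain ⟨A, hA⟩ := exists_liesOverPrime Qb hℓ
    have hvp := val_prime_eq_one hp hℓ hℓp hA
    intro hd
    have h1 : A.valuation (W'.Δ : Qb) < 1 := Fermat.Agent.H09.val_intCast_lt_one hA hd
    rw [hD, map_mul, map_pow, map_pow, hvp, one_pow, one_pow, one_mul] at h1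
    have h2 := congrArg A.valuation hdisc
    rw [map_mul, map_pow, Δ_Qb, Fermat.Agent.H09.val_intCast_eq_one hℓ hA hg, one_pow] at h2
    have h3 : A.valuation (∏ᶠ Q ∈ (C : Set ((W.map (Int.castRingHom ℚ))⁄Qb).Point), H24.ps Q ^ 4) ≤ 1 := by
      rw [prodPs_eq hp hC hT hT0 hord, map_prod]
      apply Finset.prod_le_one'
      intro Q hQ
      rw [mem_cyc_iff hp hC hT hT0 hord] at hQ
      have h4 := hx ℓ hℓ hℓp A hA Q hQ.1
      have h5 := val_py_le_one (hint A) h4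
      rw [map_pow]
      apply pow_le_one'
      rw [A.valuation_le_one_iff]
      have h4' := (A.valuation_le_one_iff _).mp h4
      have h5' := (A.valuation_le_one_iff _).mp h5
      have a1 : ((W.map (Int.castRingHom ℚ))⁄Qb).a₁ ∈ A := (A.valuation_le_one_iff _).mp (hint A).h₁
      have a3 : ((W.map (Int.castRingHom ℚ))⁄Qb).a₃ ∈ A := (A.valuation_le_one_iff _).mp (hint A).h₃
      exact add_mem (add_mem (mul_mem (natCast_mem A 2) h5') (mul_mem a1 h4')) a3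
    have h6 : A.valuation (H24.veluD ((W.map (Int.castRingHom ℚ))⁄Qb) (C : Set _)) *
        A.valuation (∏ᶠ Q ∈ (C : Set ((W.map (Int.castRingHom ℚ))⁄Qb).Point), H24.ps Q ^ 4) < 1 :=
      mul_lt_one_of_lt_of_le h1 h3
    rw [h2] at h6
    exact lt_irrefl _ h6
  · obtain ⟨A, hA, hI⟩ := hI
    have hvp := val_prime_eq_one hp hℓ hℓp hA
    obtain ⟨hc₄, ρ, τ, α, β, hnd⟩ := exists_nodeData_int hΔ hℓ hℓΔ hℓc₄ hA
    obtain ⟨h1, h2⟩ := typeI_core hnd hp hp2 hvp hC (fun Q hQ =>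
      (nodeE0_iff_nonsingularRed hnd).mpr (inZeroComponentAt_iff.mp (hI Q hQ)))
    constructor
    · by_contra hd
      have h3 := Fermat.Agent.H09.val_intCast_eq_one hℓ hA hd
      rw [hD, map_mul, map_pow, map_pow, hvp, one_pow, one_pow, one_mul] at h3
      have h4 := congrArg A.valuation hdisc
      rw [map_mul, h2, mul_one, map_pow, h3, Δ_Qb] at h4
      have h5 := Fermat.Agent.H09.val_intCast_lt_one hA hℓΔ
      have h6 := pow_lt_one₀ zero_le h5 hp.ne_zero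
      rw [← h4] at h6
      exact lt_irrefl _ h6
    · intro hd
      have h3 := Fermat.Agent.H09.val_intCast_lt_one hA hd
      rw [hc4, map_mul, map_pow, map_pow, hvp, one_pow, one_pow, one_mul, h1] at h3
      exact lt_irrefl _ h3

end Galois

end Fermat.Agent.Cor.VeluZ
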