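import Mathlib
import Fermat.Agent.Cor.VeluZ
import Fermat.Agent.Cor.VeluC
import Fermat.Agent.Frob.Generic
import Fermat.Agent.Frob.Reduction
import Fermat.Agent.Frob.Torsion

set_option autoImplicit false

/-!
# Descent of the Velu isogeny from `ℂ` to `ℚ̄`, Galois equivariance
-/

open WeierstrassCurve WeierstrassCurve.Affine WeierstrassCurve.Affine.Point

namespace Fermat.Agent.Cor.VeluD

open Fermat.Agent.H08 Fermat.Agent.Frob

local notation "Qb" => AlgebraicClosure ℚ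

section Map

variable {W₀ : WeierstrassCurve.Affine ℚ}

theorem psi2_map (f : Qb →ₐ[ℚ] ℂ) (P : (W₀⁄Qb).Point) :
    psi2 (Point.map (W' := W₀) f P) = f (psi2 P) := by
  have h1 : f ((W₀⁄Qb).a₁) = (W₀⁄ℂ).a₁ := AlgHom.commutes f W₀.a₁
  have h3 : f ((W₀⁄Qb).a₃) = (W₀⁄ℂ).a₃ := AlgHom.commutes f W₀.a₃
  rw [psi2, psi2, px_map, py_map, map_add, map_add, map_mul, map_mul, map_ofNat, h1, h3]

/-- descent of a point with algebraic coordinates -/
theorem exists_descent (f : Qb →ₐ[ℚ] ℂ) {R : (W₀⁄ℂ).Point} (hR : R ≠ 0) {X Z : Qb}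
    (hX : px R = f X) (hZ : psi2 R = f Z) :
    ∃ P : (W₀⁄Qb).Point, Point.map (W' := W₀) f P = R := by
  have hinj : Function.Injective f := f.toRingHom.injective
  obtain ⟨x, y, h, rfl⟩ := exists_eq_some hR
  rw [px_some] at hX
  subst hX
  have h1 : f ((W₀⁄Qb).a₁) = (W₀⁄ℂ).a₁ := AlgHom.commutes f W₀.a₁
  have h3 : f ((W₀⁄Qb).a₃) = (W₀⁄ℂ).a₃ := AlgHom.commutes f W₀.a₃
  have hy : y = f ((Z - (W₀⁄Qb).a₁ * X - (W₀⁄Qb).a₃) / 2) := by
    rw [psi2, px_some, py_some] at hZ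
    rw [map_div₀, map_sub, map_sub, map_mul, h1, h3, map_ofNat, ← hZ]
    ring
  subst hy
  have h' : (W₀⁄Qb).Nonsingular X ((Z - (W₀⁄Qb).a₁ * X - (W₀⁄Qb).a₃) / 2) :=
    (W₀.baseChange_nonsingular hinj _ _).mp h
  exact ⟨Point.some _ _ h', rfl⟩

/-- points are determined by `x` and `ψ₂` -/
theorem ext_psi2 {F : Type*} [Field F] [CharZero F] {E : WeierstrassCurve.Affine F}
    {P Q : E.Point} (hP : P ≠ 0) (hQ : Q ≠ 0) (hx : px P = px Q) (hy : psi2 P = psi2 Q) :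
    P = Q := by
  apply pt_ext hP hQ hx
  rw [psi2, psi2, hx] at hy
  have h2 : (2 : F) * py P = 2 * py Q := by linear_combination hy
  exact mul_left_cancel₀ two_ne_zero h2

end Map

section Main

variable {W W' : WeierstrassCurve ℤ} {p : ℕ}
  {C : AddSubgroup ((W.map (Int.castRingHom ℚ))⁄Qb).Point}

/-- torsion points over `ℂ` are defined over `ℚ̄` -/
theorem exists_of_torsion (hΔ : W.Δ ≠ 0) (f : Qb →ₐ[ℚ] ℂ) {n : ℕ} (hn : n ≠ 0)
    {R : ((W.map (Int.castRingHom ℚ))⁄ℂ).Point} (hR : n • R = 0) :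
    ∃ P : ((W.map (Int.castRingHom ℚ))⁄Qb).Point,
      Point.map (W' := W.map (Int.castRingHom ℚ)) f P = R := by
  have hE : (W.map (Int.castRingHom ℚ)).IsElliptic :=
    ⟨by rw [map_Δ]; exact isUnit_iff_ne_zero.mpr (by simpa using hΔ)⟩
  have h1 := card_torsion (K := Qb) (W.map (Int.castRingHom ℚ)) hn
  have h2 := card_torsion (K := ℂ) (W.map (Int.castRingHom ℚ)) hn
  have hinj := Point.map_injective (W' := W.map (Int.castRingHom ℚ)) f
  let g : {P : ((W.map (Int.castRingHom ℚ))⁄Qb).Point // n • P = 0} →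
      {P : ((W.map (Int.castRingHom ℚ))⁄ℂ).Point // n • P = 0} :=
    fun P => ⟨Point.map (W' := W.map (Int.castRingHom ℚ)) f P.1, by
      rw [← map_nsmul, P.2, Point.map_zero]⟩
  have hg : Function.Injective g := fun P Q h => Subtype.ext (hinj (congrArg Subtype.val h))
  have hfin : Finite {P : ((W.map (Int.castRingHom ℚ))⁄ℂ).Point // n • P = 0} :=
    Nat.finite_of_card_ne_zero (by rw [h2]; positivity)
  have hbij : Function.Bijective g := by
    rw [Nat.bijective_iff_injective_and_card]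
    exact ⟨hg, by rw [h1, h2]⟩
  obtain ⟨P, hP⟩ := hbij.2 ⟨R, hR⟩
  exact ⟨P.1, congrArg Subtype.val hP⟩

theorem exists_isog_u {u : ℚ} (hu : u ≠ 0) (hΔ : W.Δ ≠ 0)
    (hp : p.Prime) (hp2 : p ≠ 2) (hC : Nat.card C = p)
    (hst : ∀ σ : Qb ≃ₐ[ℚ] Qb, ∀ Q ∈ C, σ • Q ∈ C)
    (h4 : (W'.c₄ : Qb) = (u : Qb) ^ 4 *
        H24.veluC4 ((W.map (Int.castRingHom ℚ))⁄Qb) (C : Set _))
    (h6 : (W'.c₆ : Qb) = (u : Qb) ^ 6 *
        H24.veluC6 ((W.map (Int.castRingHom ℚ))⁄Qb) (C : Set _)) :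
    ∃ φ : ((W.map (Int.castRingHom ℚ))⁄Qb).Point →+ ((W'.map (Int.castRingHom ℚ))⁄Qb).Point,
      (∀ P, φ P = 0 ↔ P ∈ C) ∧ (∀ (σ : Qb ≃ₐ[ℚ] Qb) P, φ (σ • P) = σ • φ P) ∧
      ∀ (Q : ((W'.map (Int.castRingHom ℚ))⁄Qb).Point) (n : ℕ), n ≠ 0 → n • Q = 0 →
        ∃ P, φ P = Q := by
  have hne : NeZero p := ⟨hp.ne_zero⟩
  have halg : Algebra.IsAlgebraic ℚ Qb := AlgebraicClosure.isAlgebraic ℚ
  let f : Qb →ₐ[ℚ] ℂ := IsAlgClosed.lift (R := ℚ) (S := Qb) (M := ℂ)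
  have hinj : Function.Injective f := f.toRingHom.injective
  have hfin : Finite C := Nat.finite_of_card_ne_zero (by rw [hC]; exact hp.ne_zero)
  have hfin' : (C : Set ((W.map (Int.castRingHom ℚ))⁄Qb).Point).Finite := Set.toFinite _
  have hΔ' : ((W.map (Int.castRingHom ℚ))⁄ℂ).Δ ≠ 0 := by
    have : ((W.map (Int.castRingHom ℚ))⁄ℂ).Δ = algebraMap ℚ ℂ (W.map (Int.castRingHom ℚ)).Δ :=
      WeierstrassCurve.map_Δ (W.map (Int.castRingHom ℚ)) _
    rw [this, Ne, map_eq_zero_iff _ (algebraMap ℚ ℂ).injective, map_Δ]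
    simpa using hΔ
  set C' := C.map (Point.map (W' := W.map (Int.castRingHom ℚ)) f) with hC'
  have e : ((C' : AddSubgroup ((W.map (Int.castRingHom ℚ))⁄ℂ).Point) :
      Set ((W.map (Int.castRingHom ℚ))⁄ℂ).Point) =
    Point.map (W' := W.map (Int.castRingHom ℚ)) f ''
      (C : Set ((W.map (Int.castRingHom ℚ))⁄Qb).Point) := rfl
  have hmem : ∀ P, Point.map (W' := W.map (Int.castRingHom ℚ)) f P ∈ C' ↔ P ∈ C := by
    intro P
    constructor
    · rintro ⟨Q, hQ, hQP⟩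
      rwa [← Point.map_injective (W' := W.map (Int.castRingHom ℚ)) f hQP]
    · intro hP
      exact ⟨P, hP, rfl⟩
  have huC : ((u : ℚ) : ℂ) ≠ 0 := by exact_mod_cast hu
  have h4' : ((W'.map (Int.castRingHom ℚ))⁄ℂ).c₄ = ((u : ℚ) : ℂ) ^ 4 *
      H24.veluC4 ((W.map (Int.castRingHom ℚ))⁄ℂ) (C' : Set _) := by
    rw [e, H24.veluC4_map f hfin', ← H24.map_c4_eq f, VeluZ.c₄_Qb, h4, map_mul, map_pow,
      map_ratCast]
  have h6' : ((W'.map (Int.castRingHom ℚ))⁄ℂ).c₆ = ((u : ℚ) : ℂ) ^ 6 *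
      H24.veluC6 ((W.map (Int.castRingHom ℚ))⁄ℂ) (C' : Set _) := by
    rw [e, H24.veluC6_map f hfin', ← H24.map_c6_eq f, VeluZ.c₆_Qb, h6, map_mul, map_pow,
      map_ratCast]
  obtain ⟨φc, hker, hsurj, hform⟩ := VeluC.velu_isog (V := ((W.map (Int.castRingHom ℚ))⁄ℂ))
    (V' := ((W'.map (Int.castRingHom ℚ))⁄ℂ)) hΔ' hp hp2 (C := C')
    (by rw [hC', H24.card_map_point, hC]) huC h4' h6'
  -- the values
  have hcoord : ∀ P, P ∉ C →
      px (φc (Point.map (W' := W.map (Int.castRingHom ℚ)) f P)) =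
        f ((u : Qb) ^ 2 * (px P + ((W.map (Int.castRingHom ℚ))⁄Qb).b₂ / 12 +
          ∑ᶠ Q ∈ (C : Set ((W.map (Int.castRingHom ℚ))⁄Qb).Point) \ {0},
            (px (P + Q) - px Q)) - ((W'.map (Int.castRingHom ℚ))⁄Qb).b₂ / 12) ∧
      psi2 (φc (Point.map (W' := W.map (Int.castRingHom ℚ)) f P)) =
        f ((u : Qb) ^ 3 * ∑ᶠ Q ∈ (C : Set ((W.map (Int.castRingHom ℚ))⁄Qb).Point),
          psi2 (P + Q)) := by
    intro P hP
    obtain ⟨h1, h2⟩ := hform (Point.map (W' := W.map (Int.castRingHom ℚ)) f P)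
      (fun h => hP ((hmem P).mp h))
    have hset : ((C' : Set ((W.map (Int.castRingHom ℚ))⁄ℂ).Point) \ {0}) =
        Point.map (W' := W.map (Int.castRingHom ℚ)) f ''
          ((C : Set ((W.map (Int.castRingHom ℚ))⁄Qb).Point) \ {0}) := by
      rw [Set.image_sdiff (Point.map_injective (W' := W.map (Int.castRingHom ℚ)) f), e,
        Set.image_singleton, Point.map_zero]
    have hs1 : ∑ᶠ Q ∈ (C' : Set ((W.map (Int.castRingHom ℚ))⁄ℂ).Point) \ {0},
        (px (Point.map (W' := W.map (Int.castRingHom ℚ)) f P + Q) - px Q) =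
        f (∑ᶠ Q ∈ (C : Set ((W.map (Int.castRingHom ℚ))⁄Qb).Point) \ {0},
          (px (P + Q) - px Q)) := by
      have h := AddMonoidHom.map_finsum_mem (fun Q => px (P + Q) - px Q)
        ((f : Qb →+* ℂ) : Qb →+ ℂ) (hfin'.subset (Set.sdiff_subset (t := {0})))
      rw [hset, finsum_mem_image
        ((Point.map_injective (W' := W.map (Int.castRingHom ℚ)) f).injOn)]
      refine Eq.trans ?_ h.symm
      refine finsum_mem_congr rfl fun Q _ => ?_
      rw [← map_add, px_map, px_map]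
      exact (map_sub f _ _).symm
    have hs2 : ∑ᶠ Q ∈ (C' : Set ((W.map (Int.castRingHom ℚ))⁄ℂ).Point),
        psi2 (Point.map (W' := W.map (Int.castRingHom ℚ)) f P + Q) =
        f (∑ᶠ Q ∈ (C : Set ((W.map (Int.castRingHom ℚ))⁄Qb).Point), psi2 (P + Q)) := by
      have h := AddMonoidHom.map_finsum_mem (fun Q => psi2 (P + Q))
        ((f : Qb →+* ℂ) : Qb →+ ℂ) hfin'
      rw [e, finsum_mem_image
        ((Point.map_injective (W' := W.map (Int.castRingHom ℚ)) f).injOn)]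
      refine Eq.trans ?_ h.symm
      refine finsum_mem_congr rfl fun Q _ => ?_
      rw [← map_add, psi2_map]
      rfl
    have e1 : ((W.map (Int.castRingHom ℚ))⁄ℂ).b₂ =
        f ((W.map (Int.castRingHom ℚ))⁄Qb).b₂ := (H24.map_b2_eq f).symm
    have e2 : ((W'.map (Int.castRingHom ℚ))⁄ℂ).b₂ =
        f ((W'.map (Int.castRingHom ℚ))⁄Qb).b₂ := (H24.map_b2_eq f).symm
    rw [hs1, px_map] at h1
    rw [hs2] at h2
    constructor
    · rw [map_sub, map_mul, map_add, map_add, map_div₀, map_div₀, map_pow, map_ratCast,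
        map_ofNat, ← e1, ← e2, ← h1]
      ring
    · rw [map_mul, map_pow, map_ratCast]
      exact h2
  have hφ0 : ∀ P, φc (Point.map (W' := W.map (Int.castRingHom ℚ)) f P) = 0 ↔ P ∈ C := by
    intro P
    rw [← AddMonoidHom.mem_ker, hker, hmem]
  have hex : ∀ P : ((W.map (Int.castRingHom ℚ))⁄Qb).Point,
      ∃ R : ((W'.map (Int.castRingHom ℚ))⁄Qb).Point,
        Point.map (W' := W'.map (Int.castRingHom ℚ)) f R =
          φc (Point.map (W' := W.map (Int.castRingHom ℚ)) f P) := by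
    intro P
    by_cases hP : P ∈ C
    · exact ⟨0, by rw [Point.map_zero, (hφ0 P).mpr hP]⟩
    · obtain ⟨h1, h2⟩ := hcoord P hP
      exact exists_descent f (fun h => hP ((hφ0 P).mp h)) h1 h2
  choose g hg using hex
  have hginj := Point.map_injective (W' := W'.map (Int.castRingHom ℚ)) f
  let φ : ((W.map (Int.castRingHom ℚ))⁄Qb).Point →+
      ((W'.map (Int.castRingHom ℚ))⁄Qb).Point :=
    { toFun := g
      map_zero' := by
        apply hginj
        rw [hg, Point.map_zero, _root_.map_zero, Point.map_zero]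
      map_add' := by
        intro P Q
        apply hginj
        rw [hg, map_add, map_add, map_add, hg, hg] }
  have hφg : ∀ P, Point.map (W' := W'.map (Int.castRingHom ℚ)) f (φ P) =
      φc (Point.map (W' := W.map (Int.castRingHom ℚ)) f P) := hg
  have hφC : ∀ P, φ P = 0 ↔ P ∈ C := by
    intro P
    rw [← hφ0, ← hφg]
    constructor
    · intro h; rw [h, Point.map_zero]
    · intro h
      apply hginj
      rw [h, Point.map_zero]
  have hcoord' : ∀ P, P ∉ C →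
      px (φ P) = (u : Qb) ^ 2 * (px P + ((W.map (Int.castRingHom ℚ))⁄Qb).b₂ / 12 +
          ∑ᶠ Q ∈ (C : Set ((W.map (Int.castRingHom ℚ))⁄Qb).Point) \ {0},
            (px (P + Q) - px Q)) - ((W'.map (Int.castRingHom ℚ))⁄Qb).b₂ / 12 ∧
      psi2 (φ P) = (u : Qb) ^ 3 * ∑ᶠ Q ∈ (C : Set ((W.map (Int.castRingHom ℚ))⁄Qb).Point),
          psi2 (P + Q) := by
    intro P hP
    obtain ⟨h1, h2⟩ := hcoord P hP
    rw [← hφg, px_map] at h1
    rw [← hφg, psi2_map] at h2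
    exact ⟨hinj h1, hinj h2⟩
  refine ⟨φ, hφC, ?_, ?_⟩
  · intro σ P
    by_cases hP : P ∈ C
    · rw [(hφC P).mpr hP, (hφC _).mpr (hst σ P hP)]
      exact (H09.smul_zero_pt σ).symm
    · have hstiff : ∀ Q, σ • Q ∈ C ↔ Q ∈ C := by
        intro Q
        constructor
        · intro hQ
          have := hst σ⁻¹ _ hQ
          rwa [inv_smul_smul] at this
        · exact hst σ Q
      have hσP : σ • P ∉ C := fun h => hP ((hstiff P).mp h)
      have hφP : φ P ≠ 0 := fun h => hP ((hφC P).mp h)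
      have hφσP : φ (σ • P) ≠ 0 := fun h => hσP ((hφC _).mp h)
      obtain ⟨h1, h2⟩ := hcoord' P hP
      obtain ⟨h3, h4⟩ := hcoord' (σ • P) hσP
      have hσs : ∀ Q : ((W.map (Int.castRingHom ℚ))⁄Qb).Point, σ • Q = 0 ↔ Q = 0 := fun Q => by
        constructor
        · intro h
          by_contra hne
          exact H09.smul_ne_zero' σ hne h
        · rintro rfl
          exact H09.smul_zero_pt σ
      have hbij1 : Set.BijOn (fun Q => σ • Q)
          ((C : Set ((W.map (Int.castRingHom ℚ))⁄Qb).Point) \ {0})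
          ((C : Set ((W.map (Int.castRingHom ℚ))⁄Qb).Point) \ {0}) := by
        refine ⟨fun Q hQ => ⟨hst σ Q hQ.1, fun h => hQ.2 ((hσs Q).mp h)⟩,
          fun a _ b _ h => smul_left_cancel σ h, fun Q hQ => ⟨σ⁻¹ • Q, ⟨hst σ⁻¹ Q hQ.1, ?_⟩,
            smul_inv_smul σ Q⟩⟩
        intro h
        apply hQ.2
        have h5 : σ⁻¹ • Q = 0 := h
        have h6 := (hσs _).mpr h5
        rwa [smul_inv_smul] at h6
      have hbij2 : Set.BijOn (fun Q => σ • Q)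
          (C : Set ((W.map (Int.castRingHom ℚ))⁄Qb).Point)
          (C : Set ((W.map (Int.castRingHom ℚ))⁄Qb).Point) :=
        ⟨fun Q hQ => hst σ Q hQ, fun a _ b _ h => smul_left_cancel σ h,
          fun Q hQ => ⟨σ⁻¹ • Q, hst σ⁻¹ Q hQ, smul_inv_smul σ Q⟩⟩
      have hs1 : σ (∑ᶠ Q ∈ (C : Set ((W.map (Int.castRingHom ℚ))⁄Qb).Point) \ {0},
          (px (P + Q) - px Q)) =
          ∑ᶠ Q ∈ (C : Set ((W.map (Int.castRingHom ℚ))⁄Qb).Point) \ {0},
            (px (σ • P + Q) - px Q) := by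
        have h := AddMonoidHom.map_finsum_mem (fun Q => px (P + Q) - px Q)
          ((σ : Qb →+* Qb) : Qb →+ Qb) (hfin'.subset (Set.sdiff_subset (t := {0})))
        refine Eq.trans h ?_
        refine finsum_mem_eq_of_bijOn _ hbij1 fun Q _ => ?_
        have e3 : σ • P + σ • Q = σ • (P + Q) := (smul_add σ P Q).symm
        change σ (px (P + Q) - px Q) = px (σ • P + σ • Q) - px (σ • Q)
        rw [e3, px_smul, px_smul, map_sub]
      have hs2 : σ (∑ᶠ Q ∈ (C : Set ((W.map (Int.castRingHom ℚ))⁄Qb).Point), psi2 (P + Q)) =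
          ∑ᶠ Q ∈ (C : Set ((W.map (Int.castRingHom ℚ))⁄Qb).Point), psi2 (σ • P + Q) := by
        have h := AddMonoidHom.map_finsum_mem (fun Q => psi2 (P + Q))
          ((σ : Qb →+* Qb) : Qb →+ Qb) hfin'
        refine Eq.trans h ?_
        refine finsum_mem_eq_of_bijOn _ hbij2 fun Q _ => ?_
        have e3 : σ • P + σ • Q = σ • (P + Q) := (smul_add σ P Q).symm
        change σ (psi2 (P + Q)) = psi2 (σ • P + σ • Q)
        rw [e3, psi2_smul]
      have hb : σ ((W.map (Int.castRingHom ℚ))⁄Qb).b₂ = ((W.map (Int.castRingHom ℚ))⁄Qb).b₂ := by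
        rw [VeluZ.b₂_Qb, map_intCast]
      have hb' : σ ((W'.map (Int.castRingHom ℚ))⁄Qb).b₂ =
          ((W'.map (Int.castRingHom ℚ))⁄Qb).b₂ := by
        rw [VeluZ.b₂_Qb, map_intCast]
      apply ext_psi2 hφσP (H09.smul_ne_zero' σ hφP)
      · rw [h3, px_smul σ (φ P), h1, map_sub, map_mul, map_add, map_add, map_div₀, map_div₀, map_pow,
          map_ratCast, map_ofNat, hb, hb', hs1, px_smul]
      · rw [h4, psi2_smul (P := φ P), h2, map_mul, map_pow, map_ratCast, hs2]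

  · intro Q n hn hQ
    obtain ⟨R, hR⟩ := hsurj (Point.map (W' := W'.map (Int.castRingHom ℚ)) f Q)
    have hRn : (p * n) • R = 0 := by
      have h1 : n • R ∈ C' := by
        rw [← hker, AddMonoidHom.mem_ker, map_nsmul, hR, ← map_nsmul, hQ, Point.map_zero]
      rw [mul_nsmul']
      rw [← hker] at h1
      obtain ⟨S, hS, hSR⟩ := (hker ▸ h1 : n • R ∈ C')
      have hS0 : p • S = 0 := by
        have h2 : Nat.card C • (⟨S, hS⟩ : C) = 0 := card_nsmul_eq_zero'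
        rw [hC] at h2
        exact congrArg Subtype.val h2
      rw [← hSR, ← map_nsmul, hS0, Point.map_zero]
    have hpn : p * n ≠ 0 := mul_ne_zero hp.ne_zero hn
    obtain ⟨P, hP⟩ := exists_of_torsion hΔ f hpn hRn
    refine ⟨P, hginj ?_⟩
    rw [hφg, hP, hR]

/-- **The Velu isogeny over `ℚ̄`**: Galois equivariant, kernel `C`, surjective on torsion. -/
theorem exists_isog {k : ℕ} (hΔ : W.Δ ≠ 0) (hp : p.Prime) (hp2 : p ≠ 2) (hC : Nat.card C = p)
    (hst : ∀ σ : Qb ≃ₐ[ℚ] Qb, ∀ Q ∈ C, σ • Q ∈ C)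
    (h4 : (W'.c₄ : Qb) = ((p : Qb) ^ k) ^ 4 *
        H24.veluC4 ((W.map (Int.castRingHom ℚ))⁄Qb) (C : Set _))
    (h6 : (W'.c₆ : Qb) = ((p : Qb) ^ k) ^ 6 *
        H24.veluC6 ((W.map (Int.castRingHom ℚ))⁄Qb) (C : Set _)) :
    ∃ φ : ((W.map (Int.castRingHom ℚ))⁄Qb).Point →+ ((W'.map (Int.castRingHom ℚ))⁄Qb).Point,
      (∀ P, φ P = 0 ↔ P ∈ C) ∧ (∀ (σ : Qb ≃ₐ[ℚ] Qb) P, φ (σ • P) = σ • φ P) ∧
      ∀ (Q : ((W'.map (Int.castRingHom ℚ))⁄Qb).Point) (n : ℕ), n ≠ 0 → n • Q = 0 →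
        ∃ P, φ P = Q := by
  have hu : ((p : ℚ) ^ k) ≠ 0 := pow_ne_zero _ (Nat.cast_ne_zero.mpr hp.ne_zero)
  refine exists_isog_u hu hΔ hp hp2 hC hst ?_ ?_
  · rw [h4]; push_cast; rfl
  · rw [h6]; push_cast; rfl

/-- **The quotient curve.** For `W` over `ℤ` with `Δ ≠ 0` and a Galois stable subgroup `C` of
`W(ℚ̄)` of prime order `p ≠ 2` there are a curve `W'` over `ℤ` and a Galois equivariant
homomorphism `φ : W(ℚ̄) → W'(ℚ̄)` with kernel `C`, surjective on torsion; `W'` has good reduction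
at the good primes `ℓ ≠ p` of `W`, and multiplicative reduction at the multiplicative primes
`ℓ ≠ p` of `W` at which `C` is contained in the zero component. -/
theorem exists_quot (hΔ : W.Δ ≠ 0) (hp : p.Prime) (hp2 : p ≠ 2) (hC : Nat.card C = p)
    (hst : ∀ σ : Qb ≃ₐ[ℚ] Qb, ∀ Q ∈ C, σ • Q ∈ C) :
    ∃ (W' : WeierstrassCurve ℤ)
      (φ : ((W.map (Int.castRingHom ℚ))⁄Qb).Point →+ ((W'.map (Int.castRingHom ℚ))⁄Qb).Point),
      W'.Δ ≠ 0 ∧
      (∀ ℓ : ℕ, ℓ.Prime → ℓ ≠ p → ¬ (ℓ : ℤ) ∣ W.Δ → ¬ (ℓ : ℤ) ∣ W'.Δ) ∧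
      (∀ ℓ : ℕ, ℓ.Prime → ℓ ≠ p → (ℓ : ℤ) ∣ W.Δ → ¬ (ℓ : ℤ) ∣ W.c₄ →
          (∃ A : ValuationSubring Qb, A.LiesOverPrime ℓ ∧ ∀ Q ∈ C, W.InZeroComponentAt A Q) →
          (ℓ : ℤ) ∣ W'.Δ ∧ ¬ (ℓ : ℤ) ∣ W'.c₄) ∧
      (∀ P, φ P = 0 ↔ P ∈ C) ∧ (∀ (σ : Qb ≃ₐ[ℚ] Qb) P, φ (σ • P) = σ • φ P) ∧
      ∀ (Q : ((W'.map (Int.castRingHom ℚ))⁄Qb).Point) (n : ℕ), n ≠ 0 → n • Q = 0 →
        ∃ P, φ P = Q := by
  obtain ⟨W', k, h4, h6, -, hΔ', hℓ⟩ := VeluZ.exists_model hΔ hp hp2 hC hst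
  obtain ⟨φ, h1, h2, h3⟩ := exists_isog hΔ hp hp2 hC hst h4 h6
  exact ⟨W', φ, hΔ', fun ℓ hl hlp => (hℓ ℓ hl hlp).1, fun ℓ hl hlp => (hℓ ℓ hl hlp).2, h1, h2, h3⟩

end Main

end Fermat.Agent.Cor.VeluD
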