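import Mathlib
import Fermat.Agent.Cor.MazurD
import Fermat.Agent.Cor.VeluD

set_option autoImplicit false

/-!
# Mazur's theorem for semistable elliptic curves

Let `W` be a semistable elliptic curve over `ℚ` and `p ≥ 11` a prime, `p ≠ 13`. Then `W[p]` is an
irreducible Galois module; in particular `W(ℚ)` has no point of order `p`.

This file is not used by any of the statement files.
-/

namespace Fermat.Agent.Cor.Mazur

open Polynomial WeierstrassCurve WeierstrassCurve.Affine WeierstrassCurve.Affine.Point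
open Fermat.Agent.H08 Fermat.Agent.H05 Fermat.Agent.H09 Fermat.Agent.H12
open Fermat.Agent.Cor.FullTwo
open Fermat.Agent.Ell (WQ Pts)
open Fermat.Agent.EGal (VV)
open scoped Pointwise

local notation "Qb" => AlgebraicClosure ℚ
local notation "GQ" => AlgebraicClosure ℚ ≃ₐ[ℚ] AlgebraicClosure ℚ

variable {W : WeierstrassCurve ℤ} {p : ℕ}

/-- Quotients by Galois stable subgroups of order `p` exist. -/
theorem quotExists (hp : p.Prime) (hp2 : p ≠ 2) : QuotExists p := by
  intro W hΔ C hC hst
  obtain ⟨W', φ, h1, h2, h3, h4, h5, h6⟩ := VeluD.exists_quot hΔ hp hp2 hC hst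
  refine ⟨W', φ, h1, h2, fun ℓ hℓ hℓp hd hc hI => ?_, h4, h5, fun y hy => ?_⟩
  · obtain ⟨A, hA⟩ := exists_liesOverPrime Qb hℓ
    exact (h3 ℓ hℓ hℓp hd hc ⟨A, hA, hI A hA⟩).2
  · obtain ⟨k, hk⟩ := hy
    exact h6 y (p ^ k) (pow_ne_zero _ hp.ne_zero) hk

/-- **Mazur's theorem for semistable elliptic curves.** Let `W` be a semistable elliptic curve
over `ℚ` and `p ≥ 11` a prime number different from `13`. Then the Galois module `W[p]` is
irreducible. -/
theorem irreducible (hΔ : W.Δ ≠ 0) (hss : W.IsSemistableModel)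
    (hp : p.Prime) (hp11 : 11 ≤ p) (hp13 : p ≠ 13) :
    GaloisRepIsIrreducible (K := Qb) ℚ (W.map (Int.castRingHom ℚ)) p :=
  irreducible_of_quotExists hΔ hss hp hp11 hp13 (quotExists hp (by omega))

theorem modRep_irreducible (hΔ : W.Δ ≠ 0) (hss : W.IsSemistableModel)
    (hp : p.Prime) (hp11 : 11 ≤ p) (hp13 : p ≠ 13) : W.ModRepIsIrreducible p :=
  irreducible hΔ hss hp hp11 hp13

end Fermat.Agent.Cor.Mazur
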