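import Mathlib
import Fermat.Agent.Cor.AdelicApp
import Fermat.Agent.Cor.Mazur

/-!
# Uniform surjectivity for all semistable elliptic curves over `ℚ`

With Mazur's theorem for semistable curves (`Fermat.Agent.Cor.Mazur`: `W[p]` is irreducible for all primes `p ≥ 11`,
`p ≠ 13`) the results of `Cor.SurjAdic`, `Cor.Adelic`, `Cor.AdelicTors` and `Cor.AdelicApp` become unconditional.
Let `W` be any semistable elliptic curve over `ℚ`.

* `adelic_uniform`: `Gal(ℚ̄/ℚ) → ∏_{p ≥ 11, p ≠ 13} Aut(T_p W)` is surjective;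
* `tors_uniform`: for every `N` all whose prime factors are `≥ 11` and `≠ 13`, every automorphism of the group `W[N]`
  is induced by an element of `Gal(ℚ̄/ℚ)`;
* `independent_uniform`: the fields `ℚ(W[N])` and `ℚ(W[M])` are linearly disjoint, `N`, `M` coprime as above;
* `no_torsion_abelian`: for every abelian extension `K` of `ℚ` (finite or infinite) the group `W(K)` has no element of
  prime order `p ≥ 11`, `p ≠ 13`;
* `scalar_uniform`: every endomorphism of `T_p W`, `p ≥ 11`, `p ≠ 13`, which commutes with a subgroup of finite index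
  of `Gal(ℚ̄/ℚ)` is a scalar: no potential complex multiplication.

This file is not used by any of the statement files.
-/

set_option autoImplicit false
set_option linter.style.haveILetI false

noncomputable section

namespace Fermat.Agent.Cor.Surj

open WeierstrassCurve WeierstrassCurve.Affine WeierstrassCurve.Affine.Point
open Fermat.Agent.Ell

local notation "Qb" => AlgebraicClosure ℚ
local notation "Γq" => AlgebraicClosure ℚ ≃ₐ[ℚ] AlgebraicClosure ℚ

/-- **Uniform adelic surjectivity**: for every semistable elliptic curve `W` over `ℚ`, every family of automorphisms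
of the Tate modules `T_p W`, `p ≥ 11`, `p ≠ 13`, is induced by an element of `Gal(ℚ̄/ℚ)`. -/
theorem adelic_uniform (W : WeierstrassCurve ℤ) (hΔ : W.Δ ≠ 0) (hss : W.IsSemistableModel)
    (f : ∀ (q : ℕ) [Fact q.Prime], TT (WQ W) q ≃ₗ[ℤ_[q]] TT (WQ W) q) :
    ∃ σ : AlgebraicClosure ℚ ≃ₐ[ℚ] AlgebraicClosure ℚ, ∀ (q : ℕ) [Fact q.Prime], 11 ≤ q →
      q ≠ 13 → ∀ v : TT (WQ W) q, rr (WQ W) q σ v = f q v := by
  obtain ⟨σ, hσ⟩ := adelic_surjective hΔ hss {q | q.Prime ∧ 11 ≤ q ∧ q ≠ 13} (by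
    rintro q ⟨hq, h11, h13⟩
    exact ⟨hq, by omega, Mazur.modRep_irreducible hΔ hss hq h11 h13⟩) f
  exact ⟨σ, fun q hqf h11 h13 => hσ q ⟨hqf.out, h11, h13⟩⟩

/-- **Uniform `p`-adic surjectivity.** -/
theorem adic_uniform (W : WeierstrassCurve ℤ) (hΔ : W.Δ ≠ 0) (hss : W.IsSemistableModel) {p : ℕ}
    [hp : Fact p.Prime] (hp11 : 11 ≤ p) (hp13 : p ≠ 13)
    (f : TT (WQ W) p ≃ₗ[ℤ_[p]] TT (WQ W) p) :
    ∃ σ : AlgebraicClosure ℚ ≃ₐ[ℚ] AlgebraicClosure ℚ, ∀ v : TT (WQ W) p,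
      rr (WQ W) p σ v = f v :=
  surjective_adic hΔ hss (Mazur.modRep_irreducible hΔ hss hp.out hp11 hp13) (by omega) f

theorem coprime_six_of {N : ℕ} (hN : ∀ p : ℕ, p.Prime → p ∣ N → 11 ≤ p ∧ p ≠ 13) :
    N.Coprime 6 := by
  refine Nat.Coprime.symm (Nat.coprime_of_dvd fun k hk hk6 hkN => ?_)
  have h1 := (hN k hk hkN).1
  have h2 := Nat.le_of_dvd (by norm_num) hk6
  omega

/-- **The Galois group of `ℚ(W[N])`**, uniform version: let `W` be any semistable elliptic curve over `ℚ` and `N` an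
integer all whose prime factors are `≥ 11` and `≠ 13`. Then every automorphism of the group `W[N] ≅ (ℤ/N)²` is
induced by an element of `Gal(ℚ̄/ℚ)`. -/
theorem tors_uniform (W : WeierstrassCurve ℤ) (hΔ : W.Δ ≠ 0) (hss : W.IsSemistableModel) {N : ℕ}
    (hN : ∀ p : ℕ, p.Prime → p ∣ N → 11 ≤ p ∧ p ≠ 13)
    (f : Submodule.torsionBy ℤ ((W.map (Int.castRingHom ℚ))⁄(AlgebraicClosure ℚ)).Point (N : ℤ) ≃+
      Submodule.torsionBy ℤ ((W.map (Int.castRingHom ℚ))⁄(AlgebraicClosure ℚ)).Point (N : ℤ)) :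
    ∃ σ : AlgebraicClosure ℚ ≃ₐ[ℚ] AlgebraicClosure ℚ, ∀ x, σ • x = f x :=
  galois_surjective_tors W hΔ hss (coprime_six_of hN) (fun p hp hpN =>
    Mazur.modRep_irreducible hΔ hss hp (hN p hp hpN).1 (hN p hp hpN).2) f

/-- **Linear disjointness**, uniform version. -/
theorem independent_uniform (W : WeierstrassCurve ℤ) (hΔ : W.Δ ≠ 0) (hss : W.IsSemistableModel)
    {N M : ℕ} (hNM : N.Coprime M) (hN : ∀ p : ℕ, p.Prime → p ∣ N → 11 ≤ p ∧ p ≠ 13)
    (hM : ∀ p : ℕ, p.Prime → p ∣ M → 11 ≤ p ∧ p ≠ 13)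
    (σ τ : AlgebraicClosure ℚ ≃ₐ[ℚ] AlgebraicClosure ℚ) :
    ∃ ρ : AlgebraicClosure ℚ ≃ₐ[ℚ] AlgebraicClosure ℚ,
      (∀ x : ((W.map (Int.castRingHom ℚ))⁄(AlgebraicClosure ℚ)).Point, N • x = 0 → ρ • x = σ • x) ∧
      (∀ x : ((W.map (Int.castRingHom ℚ))⁄(AlgebraicClosure ℚ)).Point, M • x = 0 → ρ • x = τ • x) :=
  tors_independent W hΔ hss (coprime_six_of hN) (coprime_six_of hM) hNM
    (fun p hp h => Mazur.modRep_irreducible hΔ hss hp (hN p hp h).1 (hN p hp h).2)
    (fun p hp h => Mazur.modRep_irreducible hΔ hss hp (hM p hp h).1 (hM p hp h).2) σ τ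

/-- **No potential complex multiplication**, uniform version. -/
theorem scalar_uniform (W : WeierstrassCurve ℤ) (hΔ : W.Δ ≠ 0) (hss : W.IsSemistableModel)
    {p : ℕ} [hp : Fact p.Prime] (hp11 : 11 ≤ p) (hp13 : p ≠ 13)
    (H : Subgroup (AlgebraicClosure ℚ ≃ₐ[ℚ] AlgebraicClosure ℚ)) [H.FiniteIndex]
    (g : Module.End ℤ_[p] (TT (WQ W) p))
    (hg : ∀ σ ∈ H, g * rr (WQ W) p σ = rr (WQ W) p σ * g) : ∃ c : ℤ_[p], g = c • 1 :=
  scalar_of_commute hΔ hss (by omega) (Mazur.modRep_irreducible hΔ hss hp.out hp11 hp13) H g hg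

/-- Commutators of `Gal(ℚ̄/ℚ)` fix all abelian extensions of `ℚ`. -/
theorem commutator_fixes {K : Type*} [Field K] [Algebra ℚ K] [IsAbelianGalois ℚ K]
    (i : K →ₐ[ℚ] Qb) (σ τ : Γq) (x : K) : (σ * τ * σ⁻¹ * τ⁻¹) (i x) = i x := by
  letI : Algebra K Qb := i.toRingHom.toAlgebra
  haveI : IsScalarTower ℚ K Qb := IsScalarTower.of_algebraMap_eq fun x => (i.commutes x).symm
  set ρ := σ * τ * σ⁻¹ * τ⁻¹ with hρ
  have h1 : AlgEquiv.restrictNormalHom K ρ = 1 := by
    have h2 : ∀ a b : K ≃ₐ[ℚ] K, a * b = b * a := fun a b => IsMulCommutative.is_comm.comm a b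
    rw [hρ, map_mul, map_mul, map_mul, map_inv, map_inv, h2 (AlgEquiv.restrictNormalHom K σ)]
    group
  have h3 := AlgEquiv.restrictNormal_commutes ρ K x
  have h4 : ρ.restrictNormal K = 1 := h1
  rw [h4] at h3
  exact h3.symm

/-- **No torsion over abelian extensions** of `ℚ`, conditional version: let `W` be a semistable elliptic curve over
`ℚ`, `p` an odd prime with `W[p]` irreducible and `K` an abelian extension of `ℚ` (finite or infinite). Then `W(K)`
has no point of order `p`. -/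
theorem no_torsion_abelian_of_irreducible (W : WeierstrassCurve ℤ) (hΔ : W.Δ ≠ 0)
    (hss : W.IsSemistableModel) {p : ℕ} (hp : p.Prime) (hp2 : p ≠ 2)
    (hirr : W.ModRepIsIrreducible p) (K : Type*) [Field K] [DecidableEq K] [Algebra ℚ K]
    [IsAbelianGalois ℚ K] (P : ((W.map (Int.castRingHom ℚ))⁄K).Point) (hP : p • P = 0) :
    P = 0 := by
  classical
  let i : K →ₐ[ℚ] Qb := IsAlgClosed.lift
  apply Point.map_injective (W' := W.map (Int.castRingHom ℚ)) i
  rw [Point.map_zero]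
  have h1 : p • Point.map (W' := W.map (Int.castRingHom ℚ)) i P = 0 := by
    rw [← map_nsmul, hP, Point.map_zero]
  refine no_abelian_torsion W hΔ hss (hp.odd_of_ne_two hp2) (fun q hq hqp => ?_) _ h1
    (fun σ τ => ?_)
  · rwa [(Nat.prime_dvd_prime_iff_eq hq hp).mp hqp]
  · rw [algEquiv_smul_def, Point.map_map]
    congr 1
    refine congrArg _ (AlgHom.ext fun x => ?_)
    exact commutator_fixes i σ τ x

/-- **No torsion over abelian extensions** of `ℚ`: let `W` be any semistable elliptic curve over `ℚ` and `K` an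
abelian extension of `ℚ` (finite or infinite). Then `W(K)` has no point of prime order `p ≥ 11`, `p ≠ 13`. -/
theorem no_torsion_abelian (W : WeierstrassCurve ℤ) (hΔ : W.Δ ≠ 0) (hss : W.IsSemistableModel)
    {p : ℕ} (hp : p.Prime) (hp11 : 11 ≤ p) (hp13 : p ≠ 13) (K : Type*) [Field K]
    [DecidableEq K] [Algebra ℚ K] [IsAbelianGalois ℚ K]
    (P : ((W.map (Int.castRingHom ℚ))⁄K).Point) (hP : p • P = 0) : P = 0 :=
  no_torsion_abelian_of_irreducible W hΔ hss hp (by omega)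
    (Mazur.modRep_irreducible hΔ hss hp hp11 hp13) K P hP

end Fermat.Agent.Cor.Surj
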