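import Fermat.Agent.Cor.SmallConductor
import Fermat.Agent.H23.EigenChar
import Fermat.Agent.Frob.Count

/-!
# Eigenforms of weight two and small level

The first Hecke eigenvalues of the normalised eigenforms of level `11, 14, 15, 17, 19, 21, 22, 26, 34, 38`, obtained from
the modularity of explicit elliptic curves, from the dimension formula, and from counting points over `𝔽₂, 𝔽₃, 𝔽₅`.

This file is not used by any of the statement files.
-/

set_option autoImplicit false

namespace Fermat.Agent.Cor.EigenTable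

open ModularCurve ModularFormClass CongruenceSubgroup WeierstrassCurve
open Fermat.Agent.Main Fermat.Agent.Cor.GenusOne Fermat.Agent.Cor.SmallConductor

/-! ### Counting points -/

/-- number of affine solutions over `𝔽_ℓ` -/
def cnt (ℓ : ℕ) [NeZero ℓ] (a1 a2 a3 a4 a6 : ZMod ℓ) : ℕ :=
  ∑ x : ZMod ℓ, (Finset.univ.filter
    (fun y : ZMod ℓ => y ^ 2 + a1 * x * y + a3 * y = x ^ 3 + a2 * x ^ 2 + a4 * x + a6)).card

theorem apOfModel_eq (W : WeierstrassCurve ℤ) (ℓ : ℕ) [hℓ : Fact ℓ.Prime] (h : ¬ (ℓ : ℤ) ∣ W.Δ) :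
    W.apOfModel ℓ = ℓ - (cnt ℓ (W.a₁ : ZMod ℓ) (W.a₂ : ZMod ℓ) (W.a₃ : ZMod ℓ) (W.a₄ : ZMod ℓ)
      (W.a₆ : ZMod ℓ) : ℤ) := by
  have hV : (W.reductionMod ℓ).Δ ≠ 0 := by
    rw [WeierstrassCurve.reductionMod, WeierstrassCurve.map_Δ]
    intro h1
    exact h ((ZMod.intCast_zmod_eq_zero_iff_dvd W.Δ ℓ).mp h1)
  have hell : (W.reductionMod ℓ).IsElliptic := ⟨isUnit_iff_ne_zero.mpr hV⟩
  have hell' : (W.reductionMod ℓ).toAffine.IsElliptic := hell
  have h2 : Nat.card (ZMod ℓ) = ℓ := Nat.card_zmod ℓ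
  have h3 : Nat.card (W.reductionMod ℓ).toAffine.Point =
      1 + cnt ℓ (W.a₁ : ZMod ℓ) (W.a₂ : ZMod ℓ) (W.a₃ : ZMod ℓ) (W.a₄ : ZMod ℓ) (W.a₆ : ZMod ℓ) := by
    rw [Frob.card_point_eq]
    congr 1
    unfold cnt
    refine Finset.sum_congr rfl fun x _ => ?_
    congr 1
    ext y
    rw [Frob.mem_fib, Finset.mem_filter, WeierstrassCurve.Affine.equation_iff]
    simp [reductionMod]
  rw [apOfModel, WeierstrassCurve.traceOfFrobenius, WeierstrassCurve.card, h3, h2]
  push_cast
  ring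

/-! ### More explicit curves -/

/-- `y² + xy + y = x³`, of conductor `26` -/
def E26a : WeierstrassCurve ℤ := ⟨1, 0, 1, 0, 0⟩

/-- `y² + xy + y = x³ - x² - 3x + 3`, of conductor `26` -/
def E26b : WeierstrassCurve ℤ := ⟨1, -1, 1, -3, 3⟩

/-- `y² + xy = x³ - 3x + 1`, of conductor `34` -/
def E34 : WeierstrassCurve ℤ := ⟨1, 0, 0, -3, 1⟩

/-- `y² + xy + y = x³ - 16x + 22`, of conductor `38` -/
def E38a : WeierstrassCurve ℤ := ⟨1, 0, 1, -16, 22⟩

/-- `y² + xy + y = x³ + x² + 1`, of conductor `38` -/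
def E38b : WeierstrassCurve ℤ := ⟨1, 1, 1, 0, 1⟩

theorem E26a_Δ : E26a.Δ = -26 := by norm_num [E26a, WeierstrassCurve.Δ, b₂, b₄, b₆, b₈]
theorem E26b_Δ : E26b.Δ = -1664 := by norm_num [E26b, WeierstrassCurve.Δ, b₂, b₄, b₆, b₈]
theorem E34_Δ : E34.Δ = 1088 := by norm_num [E34, WeierstrassCurve.Δ, b₂, b₄, b₆, b₈]
theorem E38a_Δ : E38a.Δ = -152 := by norm_num [E38a, WeierstrassCurve.Δ, b₂, b₄, b₆, b₈]
theorem E38b_Δ : E38b.Δ = -608 := by norm_num [E38b, WeierstrassCurve.Δ, b₂, b₄, b₆, b₈]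

theorem E26a_c₄ : E26a.c₄ = -23 := by norm_num [E26a, WeierstrassCurve.c₄, b₂, b₄]
theorem E26b_c₄ : E26b.c₄ = 129 := by norm_num [E26b, WeierstrassCurve.c₄, b₂, b₄]
theorem E34_c₄ : E34.c₄ = 145 := by norm_num [E34, WeierstrassCurve.c₄, b₂, b₄]
theorem E38a_c₄ : E38a.c₄ = 745 := by norm_num [E38a, WeierstrassCurve.c₄, b₂, b₄]
theorem E38b_c₄ : E38b.c₄ = 1 := by norm_num [E38b, WeierstrassCurve.c₄, b₂, b₄]

theorem E26a_semistable : E26a.IsSemistableModel :=
  isSemistableModel_of_gcd (by rw [E26a_Δ, E26a_c₄]; decide)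
theorem E26b_semistable : E26b.IsSemistableModel :=
  isSemistableModel_of_gcd (by rw [E26b_Δ, E26b_c₄]; decide)
theorem E34_semistable : E34.IsSemistableModel :=
  isSemistableModel_of_gcd (by rw [E34_Δ, E34_c₄]; decide)
theorem E38a_semistable : E38a.IsSemistableModel :=
  isSemistableModel_of_gcd (by rw [E38a_Δ, E38a_c₄]; decide)
theorem E38b_semistable : E38b.IsSemistableModel :=
  isSemistableModel_of_gcd (by rw [E38b_Δ, E38b_c₄]; decide)

theorem conductorLevel_E26a : E26a.conductorLevel = 26 := by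
  rw [conductorLevel_eq _ (by rw [E26a_Δ]; norm_num), E26a_Δ]; decide +kernel
theorem conductorLevel_E26b : E26b.conductorLevel = 26 := by
  rw [conductorLevel_eq _ (by rw [E26b_Δ]; norm_num), E26b_Δ]; decide +kernel
theorem conductorLevel_E34 : E34.conductorLevel = 34 := by
  rw [conductorLevel_eq _ (by rw [E34_Δ]; norm_num), E34_Δ]; decide +kernel
theorem conductorLevel_E38a : E38a.conductorLevel = 38 := by
  rw [conductorLevel_eq _ (by rw [E38a_Δ]; norm_num), E38a_Δ]; decide +kernel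
theorem conductorLevel_E38b : E38b.conductorLevel = 38 := by
  rw [conductorLevel_eq _ (by rw [E38b_Δ]; norm_num), E38b_Δ]; decide +kernel

/-- the value of `a_ℓ` from a count of points -/
theorem apOfModel_of_cnt {W : WeierstrassCurve ℤ} {D : ℤ} {ℓ : ℕ} (hℓ : ℓ.Prime) (hD : W.Δ = D)
    (h : ¬ (ℓ : ℤ) ∣ D) {n : ℤ}
    (hn : haveI : NeZero ℓ := ⟨hℓ.ne_zero⟩
      (ℓ : ℤ) - (cnt ℓ (W.a₁ : ZMod ℓ) (W.a₂ : ZMod ℓ) (W.a₃ : ZMod ℓ) (W.a₄ : ZMod ℓ)
      (W.a₆ : ZMod ℓ) : ℤ) = n) : W.apOfModel ℓ = n := by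
  have : Fact ℓ.Prime := ⟨hℓ⟩
  subst hD
  exact (apOfModel_eq W ℓ h).trans hn

theorem E11_a2 : E11.apOfModel 2 = -2 :=
  apOfModel_of_cnt (by norm_num) E11_Δ (by norm_num) (by decide)
theorem E11_a3 : E11.apOfModel 3 = -1 :=
  apOfModel_of_cnt (by norm_num) E11_Δ (by norm_num) (by decide)
theorem E11_a5 : E11.apOfModel 5 = 1 :=
  apOfModel_of_cnt (by norm_num) E11_Δ (by norm_num) (by decide)
theorem E14_a3 : E14.apOfModel 3 = -2 :=
  apOfModel_of_cnt (by norm_num) E14_Δ (by norm_num) (by decide)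
theorem E14_a5 : E14.apOfModel 5 = 0 :=
  apOfModel_of_cnt (by norm_num) E14_Δ (by norm_num) (by decide)
theorem E15_a2 : E15.apOfModel 2 = -1 :=
  apOfModel_of_cnt (by norm_num) E15_Δ (by norm_num) (by decide)
theorem E15_a7 : E15.apOfModel 7 = 0 :=
  apOfModel_of_cnt (by norm_num) E15_Δ (by norm_num) (by decide)
theorem E17_a2 : E17.apOfModel 2 = -1 :=
  apOfModel_of_cnt (by norm_num) E17_Δ (by norm_num) (by decide)
theorem E17_a3 : E17.apOfModel 3 = 0 :=
  apOfModel_of_cnt (by norm_num) E17_Δ (by norm_num) (by decide)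
theorem E17_a5 : E17.apOfModel 5 = -2 :=
  apOfModel_of_cnt (by norm_num) E17_Δ (by norm_num) (by decide)
theorem E19_a2 : E19.apOfModel 2 = 0 :=
  apOfModel_of_cnt (by norm_num) E19_Δ (by norm_num) (by decide)
theorem E19_a3 : E19.apOfModel 3 = -2 :=
  apOfModel_of_cnt (by norm_num) E19_Δ (by norm_num) (by decide)
theorem E19_a5 : E19.apOfModel 5 = 3 :=
  apOfModel_of_cnt (by norm_num) E19_Δ (by norm_num) (by decide)
theorem E21_a2 : E21.apOfModel 2 = -1 :=
  apOfModel_of_cnt (by norm_num) E21_Δ (by norm_num) (by decide)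
theorem E21_a5 : E21.apOfModel 5 = -2 :=
  apOfModel_of_cnt (by norm_num) E21_Δ (by norm_num) (by decide)
theorem E26a_a3 : E26a.apOfModel 3 = 1 :=
  apOfModel_of_cnt (by norm_num) E26a_Δ (by norm_num) (by decide)
theorem E26a_a5 : E26a.apOfModel 5 = -3 :=
  apOfModel_of_cnt (by norm_num) E26a_Δ (by norm_num) (by decide)
theorem E26b_a3 : E26b.apOfModel 3 = -3 :=
  apOfModel_of_cnt (by norm_num) E26b_Δ (by norm_num) (by decide)
theorem E26b_a5 : E26b.apOfModel 5 = -1 :=
  apOfModel_of_cnt (by norm_num) E26b_Δ (by norm_num) (by decide)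
theorem E34_a3 : E34.apOfModel 3 = -2 :=
  apOfModel_of_cnt (by norm_num) E34_Δ (by norm_num) (by decide)
theorem E34_a5 : E34.apOfModel 5 = 0 :=
  apOfModel_of_cnt (by norm_num) E34_Δ (by norm_num) (by decide)
theorem E38a_a3 : E38a.apOfModel 3 = 1 :=
  apOfModel_of_cnt (by norm_num) E38a_Δ (by norm_num) (by decide)
theorem E38a_a5 : E38a.apOfModel 5 = 0 :=
  apOfModel_of_cnt (by norm_num) E38a_Δ (by norm_num) (by decide)
theorem E38b_a3 : E38b.apOfModel 3 = -1 :=
  apOfModel_of_cnt (by norm_num) E38b_Δ (by norm_num) (by decide)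
theorem E38b_a5 : E38b.apOfModel 5 = -4 :=
  apOfModel_of_cnt (by norm_num) E38b_Δ (by norm_num) (by decide)

/-! ### Existence of eigenforms -/

theorem exists_form {W : WeierstrassCurve ℤ} {N : ℕ} {D : ℤ} (hD : W.Δ = D) (hD0 : D ≠ 0)
    (hW : W.IsSemistableModel) (hN : W.conductorLevel = N) :
    ∃ f : CuspForm (Gamma0 N) 2, f.IsNormalizedEigenform ∧
      ∀ (ℓ : ℕ) (n : ℤ), ℓ.Prime → ¬ ℓ ∣ N → W.apOfModel ℓ = n → qCoeff f ℓ = (n : ℂ) := by
  subst hN
  obtain ⟨f, hf, h⟩ := modular_conductorLevel W (by rw [hD]; exact hD0) hW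
  exact ⟨f, hf, fun ℓ n hℓ hℓN hn => by rw [h ℓ hℓ hℓN, hn]⟩

/-! ### Levels of genus one -/

/-- the eigenvalues of the unique normalised eigenform of a level of genus one -/
theorem coeff_of_genus_one {W : WeierstrassCurve ℤ} {N : ℕ} [NeZero N] {D : ℤ} (hD : W.Δ = D)
    (hD0 : D ≠ 0) (hW : W.IsSemistableModel) (hN : W.conductorLevel = N)
    (hg : genusFormula N = 1) {ℓ : ℕ} {n : ℤ} (h : W.apOfModel ℓ = n) (hℓ : ℓ.Prime)
    (hℓN : ¬ ℓ ∣ N) {f : CuspForm (Gamma0 N) 2} (hf : f.IsNormalizedEigenform) :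
    qCoeff f ℓ = (n : ℂ) := by
  obtain ⟨g, hg', h'⟩ := exists_form hD hD0 hW hN
  rw [eigenform_unique hg hf hg']
  exact h' ℓ n hℓ hℓN h

/-- `a_2 = -2` at level `11` -/
theorem a2_eleven {f : CuspForm (Gamma0 11) 2} (hf : f.IsNormalizedEigenform) :
    qCoeff f 2 = -2 := by
  rw [coeff_of_genus_one E11_Δ (by norm_num) E11_semistable conductorLevel_E11 genus_eleven
    E11_a2 (by norm_num) (by norm_num) hf]
  norm_num

/-- `a_3 = -1` at level `11` -/
theorem a3_eleven {f : CuspForm (Gamma0 11) 2} (hf : f.IsNormalizedEigenform) :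
    qCoeff f 3 = -1 := by
  rw [coeff_of_genus_one E11_Δ (by norm_num) E11_semistable conductorLevel_E11 genus_eleven
    E11_a3 (by norm_num) (by norm_num) hf]
  norm_num

/-- `a_5 = 1` at level `11` -/
theorem a5_eleven {f : CuspForm (Gamma0 11) 2} (hf : f.IsNormalizedEigenform) :
    qCoeff f 5 = 1 := by
  rw [coeff_of_genus_one E11_Δ (by norm_num) E11_semistable conductorLevel_E11 genus_eleven
    E11_a5 (by norm_num) (by norm_num) hf]
  norm_num

/-- `a_3 = -2` at level `14` -/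
theorem a3_fourteen {f : CuspForm (Gamma0 14) 2} (hf : f.IsNormalizedEigenform) :
    qCoeff f 3 = -2 := by
  rw [coeff_of_genus_one E14_Δ (by norm_num) E14_semistable conductorLevel_E14 genus_fourteen
    E14_a3 (by norm_num) (by norm_num) hf]
  norm_num

/-- `a_5 = 0` at level `14` -/
theorem a5_fourteen {f : CuspForm (Gamma0 14) 2} (hf : f.IsNormalizedEigenform) :
    qCoeff f 5 = 0 := by
  rw [coeff_of_genus_one E14_Δ (by norm_num) E14_semistable conductorLevel_E14 genus_fourteen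
    E14_a5 (by norm_num) (by norm_num) hf]
  norm_num

/-- `a_2 = -1` at level `15` -/
theorem a2_fifteen {f : CuspForm (Gamma0 15) 2} (hf : f.IsNormalizedEigenform) :
    qCoeff f 2 = -1 := by
  rw [coeff_of_genus_one E15_Δ (by norm_num) E15_semistable conductorLevel_E15 genus_fifteen
    E15_a2 (by norm_num) (by norm_num) hf]
  norm_num

/-- `a_7 = 0` at level `15` -/
theorem a7_fifteen {f : CuspForm (Gamma0 15) 2} (hf : f.IsNormalizedEigenform) :
    qCoeff f 7 = 0 := by
  rw [coeff_of_genus_one E15_Δ (by norm_num) E15_semistable conductorLevel_E15 genus_fifteen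
    E15_a7 (by norm_num) (by norm_num) hf]
  norm_num

/-- `a_2 = -1` at level `17` -/
theorem a2_seventeen {f : CuspForm (Gamma0 17) 2} (hf : f.IsNormalizedEigenform) :
    qCoeff f 2 = -1 := by
  rw [coeff_of_genus_one E17_Δ (by norm_num) E17_semistable conductorLevel_E17 genus_seventeen
    E17_a2 (by norm_num) (by norm_num) hf]
  norm_num

/-- `a_3 = 0` at level `17` -/
theorem a3_seventeen {f : CuspForm (Gamma0 17) 2} (hf : f.IsNormalizedEigenform) :
    qCoeff f 3 = 0 := by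
  rw [coeff_of_genus_one E17_Δ (by norm_num) E17_semistable conductorLevel_E17 genus_seventeen
    E17_a3 (by norm_num) (by norm_num) hf]
  norm_num

/-- `a_5 = -2` at level `17` -/
theorem a5_seventeen {f : CuspForm (Gamma0 17) 2} (hf : f.IsNormalizedEigenform) :
    qCoeff f 5 = -2 := by
  rw [coeff_of_genus_one E17_Δ (by norm_num) E17_semistable conductorLevel_E17 genus_seventeen
    E17_a5 (by norm_num) (by norm_num) hf]
  norm_num

/-- `a_2 = 0` at level `19` -/
theorem a2_nineteen {f : CuspForm (Gamma0 19) 2} (hf : f.IsNormalizedEigenform) :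
    qCoeff f 2 = 0 := by
  rw [coeff_of_genus_one E19_Δ (by norm_num) E19_semistable conductorLevel_E19 genus_nineteen
    E19_a2 (by norm_num) (by norm_num) hf]
  norm_num

/-- `a_3 = -2` at level `19` -/
theorem a3_nineteen {f : CuspForm (Gamma0 19) 2} (hf : f.IsNormalizedEigenform) :
    qCoeff f 3 = -2 := by
  rw [coeff_of_genus_one E19_Δ (by norm_num) E19_semistable conductorLevel_E19 genus_nineteen
    E19_a3 (by norm_num) (by norm_num) hf]
  norm_num

/-- `a_5 = 3` at level `19` -/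
theorem a5_nineteen {f : CuspForm (Gamma0 19) 2} (hf : f.IsNormalizedEigenform) :
    qCoeff f 5 = 3 := by
  rw [coeff_of_genus_one E19_Δ (by norm_num) E19_semistable conductorLevel_E19 genus_nineteen
    E19_a5 (by norm_num) (by norm_num) hf]
  norm_num

/-- `a_2 = -1` at level `21` -/
theorem a2_twentyone {f : CuspForm (Gamma0 21) 2} (hf : f.IsNormalizedEigenform) :
    qCoeff f 2 = -1 := by
  rw [coeff_of_genus_one E21_Δ (by norm_num) E21_semistable conductorLevel_E21 genus_twentyone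
    E21_a2 (by norm_num) (by norm_num) hf]
  norm_num

/-- `a_5 = -2` at level `21` -/
theorem a5_twentyone {f : CuspForm (Gamma0 21) 2} (hf : f.IsNormalizedEigenform) :
    qCoeff f 5 = -2 := by
  rw [coeff_of_genus_one E21_Δ (by norm_num) E21_semistable conductorLevel_E21 genus_twentyone
    E21_a5 (by norm_num) (by norm_num) hf]
  norm_num

/-! ### Linear algebra -/

section Lin

variable {N : ℕ} [NeZero N]

/-- the coefficients as linear functionals -/
noncomputable def coeffL (N : ℕ) [NeZero N] (n : ℕ) : CuspForm (Gamma0 N) 2 →ₗ[ℂ] ℂ where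
  toFun f := qCoeff f n
  map_add' f g := H22.cusp_qCoeff_add f g n
  map_smul' c f := H22.cusp_qCoeff_smul c f n

theorem coeffL_apply (n : ℕ) (f : CuspForm (Gamma0 N) 2) : coeffL N n f = qCoeff f n := rfl

theorem qCoeff_sum {r : ℕ} (c : Fin r → ℂ) (F : Fin r → CuspForm (Gamma0 N) 2) (n : ℕ) :
    qCoeff (∑ i, c i • F i : CuspForm (Gamma0 N) 2) n = ∑ i, c i * qCoeff (F i) n := by
  have h := map_sum (coeffL N n) (fun i => c i • F i) Finset.univ
  simp only [map_smul, smul_eq_mul, coeffL_apply] at h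
  exact h

/-- linearly independent families of the right size are bases -/
theorem exists_combination {r : ℕ} (hg : genusFormula N = r)
    {F : Fin r → CuspForm (Gamma0 N) 2}
    (hF : ∀ c : Fin r → ℂ, (∀ n, ∑ i, c i * qCoeff (F i) n = 0) → ∀ i, c i = 0)
    (f : CuspForm (Gamma0 N) 2) : ∃ c : Fin r → ℂ, ∀ n, qCoeff f n = ∑ i, c i * qCoeff (F i) n := by
  have hr : Module.finrank ℂ (CuspForm (Gamma0 N) 2) = r := by
    exact_mod_cast (Fermat.Agent.S20.result N).trans hg
  have : FiniteDimensional ℂ (CuspForm (Gamma0 N) 2) :=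
    Fermat.Agent.H22.finiteDimensional_cuspForm N 2
  have hF' : LinearIndependent ℂ F := by
    rw [Fintype.linearIndependent_iff]
    intro c hc
    refine hF c fun n => ?_
    rw [← qCoeff_sum, hc]
    exact map_zero (coeffL N n)
  have h1 := hF'.span_eq_top_of_card_eq_finrank' (by rw [hr, Fintype.card_fin])
  have h2 : f ∈ Submodule.span ℂ (Set.range F) := by rw [h1]; trivial
  obtain ⟨c, hc⟩ := (Submodule.mem_span_range_iff_exists_fun ℂ).mp h2
  exact ⟨c, fun n => by rw [← hc, qCoeff_sum]⟩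

end Lin

theorem genus_twentysix : genusFormula 26 = 2 :=
  genus_eq (a := 42) (b := 2) (c := 0) (d := 4) (by decide +kernel) (by decide) (by decide)
    (by decide +kernel) (by norm_num)

theorem genus_thirtyfour : genusFormula 34 = 3 :=
  genus_eq (a := 54) (b := 2) (c := 0) (d := 4) (by decide +kernel) (by decide) (by decide)
    (by decide +kernel) (by norm_num)

theorem genus_thirtyeight : genusFormula 38 = 4 :=
  genus_eq (a := 60) (b := 0) (c := 0) (d := 4) (by decide +kernel) (by decide) (by decide)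
    (by decide +kernel) (by norm_num)

/-! ### Level 22 -/

/-- **Level `22`**: all forms are old, and the odd coefficients of a form with `a₁ = 1` are those of the form of
level `11`. -/
theorem coeff_twentytwo {f : CuspForm (Gamma0 22) 2} (h1 : qCoeff f 1 = 1)
    {h : CuspForm (Gamma0 11) 2} (hh : h.IsNormalizedEigenform) {n : ℕ} (hn : ¬ 2 ∣ n) :
    qCoeff f n = qCoeff h n := by
  obtain ⟨h₁, e1⟩ : ∃ g : CuspForm (Gamma0 22) 2, ∀ n, qCoeff g n = qCoeff h n :=
    ⟨AL.degen (M := 11) (N := 22) (d := 1) one_pos (by norm_num) 2 h, fun n => by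
      rw [AL.qCoeff_degen, if_pos (one_dvd n), Nat.div_one]⟩
  obtain ⟨h₂, e2⟩ : ∃ g : CuspForm (Gamma0 22) 2,
      ∀ n, qCoeff g n = if 2 ∣ n then qCoeff h (n / 2) else 0 :=
    ⟨AL.degen (M := 11) (N := 22) (d := 2) two_pos (by norm_num) 2 h, AL.qCoeff_degen _ _ _⟩
  obtain ⟨c, hc⟩ := exists_combination (r := 2) (by exact_mod_cast genus_twentytwo)
    (F := ![h₁, h₂]) (by
      intro c hc
      simp only [Fin.sum_univ_two, Matrix.cons_val_zero, Matrix.cons_val_one] at hc
      have k1 := hc 1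
      rw [e1, e2, if_neg (by norm_num), hh.qCoeff_one] at k1
      have k2 := hc 2
      rw [e1, e2, if_pos dvd_rfl, Nat.div_self two_pos, hh.qCoeff_one] at k2
      have k1' : c 0 = 0 := by linear_combination k1
      have k2' : c 1 = 0 := by
        rw [k1'] at k2
        linear_combination k2
      intro i
      fin_cases i
      · exact k1'
      · exact k2') f
  simp only [Fin.sum_univ_two, Matrix.cons_val_zero, Matrix.cons_val_one] at hc
  have k1 := hc 1
  rw [e1, e2, if_neg (by norm_num), hh.qCoeff_one, h1] at k1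
  have k1' : c 0 = 1 := by linear_combination -k1
  rw [hc, e1, e2, if_neg hn, k1']
  ring

/-- `a₃ = -1` at level `22` -/
theorem a3_twentytwo {f : CuspForm (Gamma0 22) 2} (hf : f.IsNormalizedEigenform) :
    qCoeff f 3 = -1 := by
  obtain ⟨h, hh⟩ := exists_eleven
  rw [coeff_twentytwo hf.qCoeff_one hh (by norm_num), a3_eleven hh]

/-- `a₅ = 1` at level `22` -/
theorem a5_twentytwo {f : CuspForm (Gamma0 22) 2} (hf : f.IsNormalizedEigenform) :
    qCoeff f 5 = 1 := by
  obtain ⟨h, hh⟩ := exists_eleven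
  rw [coeff_twentytwo hf.qCoeff_one hh (by norm_num), a5_eleven hh]

/-! ### Level 26 -/

/-- **Level `26`**: the eigenvalues `(a₃, a₅)` of a normalised eigenform are `(1, -3)` or `(-3, -1)`. -/
theorem coeff_twentysix {f : CuspForm (Gamma0 26) 2} (hf : f.IsNormalizedEigenform) :
    (qCoeff f 3 = 1 ∧ qCoeff f 5 = -3) ∨ (qCoeff f 3 = -3 ∧ qCoeff f 5 = -1) := by
  obtain ⟨g₁, hg₁, k₁⟩ := exists_form E26a_Δ (by norm_num) E26a_semistable conductorLevel_E26a
  obtain ⟨g₂, hg₂, k₂⟩ := exists_form E26b_Δ (by norm_num) E26b_semistable conductorLevel_E26b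
  have a3 := k₁ 3 _ (by norm_num) (by norm_num) E26a_a3
  have a5 := k₁ 5 _ (by norm_num) (by norm_num) E26a_a5
  have b3 := k₂ 3 _ (by norm_num) (by norm_num) E26b_a3
  have b5 := k₂ 5 _ (by norm_num) (by norm_num) E26b_a5
  push_cast at a3 a5 b3 b5
  obtain ⟨c, hc⟩ := exists_combination (r := 2) (by exact_mod_cast genus_twentysix)
    (F := ![g₁, g₂]) (by
      intro c hc
      simp only [Fin.sum_univ_two, Matrix.cons_val_zero, Matrix.cons_val_one] at hc
      have k1 := hc 1
      rw [hg₁.qCoeff_one, hg₂.qCoeff_one] at k1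
      have k3 := hc 3
      rw [a3, b3] at k3
      intro i
      fin_cases i
      · change c 0 = 0
        linear_combination (3 * k1 + k3) / 4
      · change c 1 = 0
        linear_combination (k1 - k3) / 4) f
  simp only [Fin.sum_univ_two, Matrix.cons_val_zero, Matrix.cons_val_one] at hc
  have h1 := hc 1
  rw [hf.qCoeff_one, hg₁.qCoeff_one, hg₂.qCoeff_one] at h1
  -- the relation `a₉ = a₃² - 3`
  have r9 := hf.qCoeff_prime_pow_of_not_dvd 3 0 (by norm_num) (by norm_num)
  have r9₁ := hg₁.qCoeff_prime_pow_of_not_dvd 3 0 (by norm_num) (by norm_num)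
  have r9₂ := hg₂.qCoeff_prime_pow_of_not_dvd 3 0 (by norm_num) (by norm_num)
  simp only [zero_add, pow_one, pow_zero, hf.qCoeff_one, hg₁.qCoeff_one, hg₂.qCoeff_one,
    Nat.cast_ofNat, mul_one] at r9 r9₁ r9₂
  have h3 := hc 3
  have h5 := hc 5
  have h9 := hc (3 ^ 2)
  rw [r9, r9₁, r9₂, h3, a3, b3] at h9
  rw [a3, b3] at h3
  rw [a5, b5] at h5
  have hprod : c 0 * c 1 = 0 := by
    have e0 : c 0 = 1 - c 1 := by linear_combination -h1
    rw [e0] at h9 ⊢
    linear_combination -h9 / 16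
  rcases mul_eq_zero.mp hprod with h0 | h0
  · right
    rw [h3, h5]
    constructor
    · linear_combination 3 * h1 + (4 * h0)
    · linear_combination h1 - 2 * h0
  · left
    rw [h3, h5]
    constructor
    · linear_combination -h1 - 4 * h0
    · linear_combination 3 * h1 + 2 * h0

end Fermat.Agent.Cor.EigenTable
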