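import Mathlib
import Fermat.Agent.H09.S12Red
import Fermat.Prelude.Def_FLTPrelim_Modularity

set_option autoImplicit false

/-!
# The general Frey curve `y² + xy = x³ + (B - A - 1)/4 x² - AB/16 x`

`A`, `B` are coprime integers with `A ≡ 3 (mod 4)`, `16 ∣ B` and `AB(A + B) ≠ 0`.
-/

namespace Fermat.Agent.Cor.H09

open WeierstrassCurve

/-- `W` is the minimal Weierstrass equation of the Frey curve `y² = x(x - A)(x + B)`. -/
structure IsFrey (W : WeierstrassCurve ℤ) (A B : ℤ) : Prop where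
  a₁ : W.a₁ = 1
  a₃ : W.a₃ = 0
  a₆ : W.a₆ = 0
  a₂ : 4 * W.a₂ = B - A - 1
  a₄ : 16 * W.a₄ = -(A * B)
  cop : IsCoprime A B
  ne : A * B * (A + B) ≠ 0
  h16 : (16 : ℤ) ∣ B

/-- the minimal Weierstrass equation of the Frey curve `y² = x(x - A)(x + B)` -/
def FW (A B : ℤ) : WeierstrassCurve ℤ := ⟨1, (B - A - 1) / 4, 0, -(A * B) / 16, 0⟩

theorem isFrey_FW {A B : ℤ} (hA : A % 4 = 3) (hB : (16 : ℤ) ∣ B) (hcop : IsCoprime A B)
    (h0 : A * B * (A + B) ≠ 0) : IsFrey (FW A B) A B where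
  a₁ := rfl
  a₃ := rfl
  a₆ := rfl
  a₂ := by
    have h : (4 : ℤ) ∣ B - A - 1 := by omega
    exact Int.mul_ediv_cancel' h
  a₄ := by
    have h : (16 : ℤ) ∣ -(A * B) := (Dvd.dvd.mul_left hB A).neg_right
    exact Int.mul_ediv_cancel' h
  cop := hcop
  ne := h0
  h16 := hB

namespace IsFrey

variable {W : WeierstrassCurve ℤ} {A B : ℤ} (h : IsFrey W A B)

include h

theorem mod_four : A % 4 = 3 := by
  have h1 := h.a₂
  have h2 := h.h16
  omega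

theorem odd : Odd A := by
  have h1 := h.mod_four
  rw [Int.odd_iff]
  omega

theorem b₂ : W.b₂ = B - A := by
  have h1 := h.a₂
  simp only [WeierstrassCurve.b₂, h.a₁]
  linarith

theorem b₄ : 8 * W.b₄ = -(A * B) := by
  have h1 := h.a₄
  simp only [WeierstrassCurve.b₄, h.a₁, h.a₃]
  linarith

theorem b₆ : W.b₆ = 0 := by
  simp only [WeierstrassCurve.b₆, h.a₃, h.a₆]
  ring

theorem c₄ : W.c₄ = A ^ 2 + A * B + B ^ 2 := by
  have h1 := h.b₂
  have h2 := h.b₄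
  rw [WeierstrassCurve.c₄, h1]
  linear_combination (-3) * h2

theorem Δ : 2 ^ 8 * W.Δ = (A * B * (A + B)) ^ 2 := by
  have h2 := h.a₂
  have h4 := h.a₄
  simp only [WeierstrassCurve.Δ, WeierstrassCurve.b₂, WeierstrassCurve.b₄, WeierstrassCurve.b₆,
    WeierstrassCurve.b₈, h.a₁, h.a₃, h.a₆]
  generalize W.a₂ = x at *
  generalize W.a₄ = y at *
  have key : (1 : ℤ) ^ 2 + 4 * x = B - A := by linarith
  rw [key]
  have : (2 : ℤ) ^ 8 * (-(B - A) ^ 2 * (1 ^ 2 * 0 + 4 * x * 0 - 1 * 0 * y + x * 0 ^ 2 - y ^ 2) -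
      8 * (2 * y + 1 * 0) ^ 3 - 27 * (0 ^ 2 + 4 * 0) ^ 2 +
      9 * (B - A) * (2 * y + 1 * 0) * (0 ^ 2 + 4 * 0)) =
      (B - A) ^ 2 * (16 * y) ^ 2 - 4 * (16 * y) ^ 3 := by ring
  rw [this, h4]
  ring

theorem Δ_ne_zero : W.Δ ≠ 0 := by
  intro h0
  have := h.Δ
  rw [h0, mul_zero] at this
  exact pow_ne_zero _ h.ne this.symm

theorem B_ne_zero : B ≠ 0 := by
  rintro rfl
  exact h.ne (by ring)

theorem dvd_of_dvd_Δ {q : ℕ} (hq : q.Prime) (hd : (q : ℤ) ∣ W.Δ) :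
    (q : ℤ) ∣ A * B * (A + B) := by
  have h1 : (q : ℤ) ∣ (A * B * (A + B)) ^ 2 := by
    rw [← h.Δ]; exact Dvd.dvd.mul_left hd _
  exact (Nat.prime_iff_prime_int.mp hq).dvd_of_dvd_pow h1

/-- The Frey curve is semistable. -/
theorem semistable : W.IsSemistableModel := by
  intro q hq hΔ hc4
  have hqp := Nat.prime_iff_prime_int.mp hq
  have habc := h.dvd_of_dvd_Δ hq hΔ
  rw [h.c₄] at hc4
  have hgcd : ¬ ((q : ℤ) ∣ A ∧ (q : ℤ) ∣ B) := by
    rintro ⟨h1, h2⟩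
    exact hqp.not_isUnit (h.cop.isUnit_of_dvd' h1 h2)
  rcases hqp.dvd_or_dvd habc with h' | h'
  · rcases hqp.dvd_or_dvd h' with h' | h'
    · have h2 : (q : ℤ) ∣ B ^ 2 := by
        have : B ^ 2 = (A ^ 2 + A * B + B ^ 2) - A * (A + B) := by ring
        rw [this]
        exact dvd_sub hc4 (Dvd.dvd.mul_right h' _)
      exact hgcd ⟨h', hqp.dvd_of_dvd_pow h2⟩
    · have h2 : (q : ℤ) ∣ A ^ 2 := by
        have : A ^ 2 = (A ^ 2 + A * B + B ^ 2) - B * (A + B) := by ring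
        rw [this]
        exact dvd_sub hc4 (Dvd.dvd.mul_right h' _)
      exact hgcd ⟨hqp.dvd_of_dvd_pow h2, h'⟩
  · have h2 : (q : ℤ) ∣ A * B := by
      have : A * B = (A + B) * (A + B) - (A ^ 2 + A * B + B ^ 2) := by ring
      rw [this]
      exact dvd_sub (Dvd.dvd.mul_right h' _) hc4
    rcases hqp.dvd_or_dvd h2 with h3 | h3
    · exact hgcd ⟨h3, (dvd_add_right h3).mp h'⟩
    · exact hgcd ⟨(dvd_add_left h3).mp h', h3⟩

theorem Δ' {k : ℤ} (hk : B = 16 * k) : W.Δ = (A * k * (A + B)) ^ 2 := by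
  have h1 := h.Δ
  have h2 : (2 : ℤ) ^ 8 * W.Δ = 2 ^ 8 * (A * k * (A + B)) ^ 2 := by
    rw [h1, hk]; ring
  exact mul_left_cancel₀ (by norm_num) h2

theorem thirty_two_dvd_iff : (2 : ℤ) ∣ W.Δ ↔ (32 : ℤ) ∣ B := by
  obtain ⟨k, hk⟩ := h.h16
  rw [h.Δ' hk]
  have hA := h.mod_four
  have h2 : ¬ (2 : ℤ) ∣ A := by omega
  have h3 : ¬ (2 : ℤ) ∣ A + B := by omega
  constructor
  · intro hd
    have hd' := Int.prime_two.dvd_of_dvd_pow hd
    rcases Int.prime_two.dvd_or_dvd hd' with h4 | h4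
    · rcases Int.prime_two.dvd_or_dvd h4 with h5 | h5
      · exact absurd h5 h2
      · omega
    · exact absurd h4 h3
  · intro hd
    have hk2 : (2 : ℤ) ∣ k := by omega
    exact dvd_pow (Dvd.dvd.mul_right (Dvd.dvd.mul_left hk2 _) _) two_ne_zero

end IsFrey

end Fermat.Agent.Cor.H09
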