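import Mathlib
import Fermat.Agent.Cor.H09End
import Fermat.Agent.H12.Main

set_option autoImplicit false

/-!
# The mod `p` representation of the general Frey curve is irreducible
-/

namespace Fermat.Agent.Cor.H09

open Polynomial WeierstrassCurve WeierstrassCurve.Affine WeierstrassCurve.Affine.Point
open Fermat.Agent.H08 Fermat.Agent.H05 Fermat.Agent.H09

local notation "Qb" => AlgebraicClosure ℚ

/-- The `p`-torsion of the Frey curve `E_{A,B}` has no Galois stable line with trivial quotient,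
for all primes `p ≥ 11`, `p ≠ 13`. -/
theorem no_cofixed {W : WeierstrassCurve ℤ} {A₀ B₀ : ℤ} (hF : IsFrey W A₀ B₀) {p : ℕ}
    (pp : p.Prime) (hp11 : 11 ≤ p) (hp13 : p ≠ 13) :
    ¬ HasGaloisStableCofixedLine (K := Qb) ℚ (W.map (Int.castRingHom ℚ)) p := by
  intro hcl
  have hfact : Fact p.Prime := ⟨pp⟩
  have hne : NeZero p := ⟨pp.ne_zero⟩
  have hp5 : 5 ≤ p := by omega
  have hgal : IsGalois ℚ Qb := { to_normal := { splits' := fun x => IsAlgClosed.splits _ } }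
  have hΔ0 : W.Δ ≠ 0 := hF.Δ_ne_zero
  have hss : W.IsSemistableModel := hF.semistable
  obtain ⟨N, hN, hb, ht, hcof⟩ := hcl
  obtain ⟨hfinM, hrank⟩ := finrank_torsion (L := Qb) (W₀ := W.map (Int.castRingHom ℚ))
    (p := p) (by omega)
  obtain ⟨hatom, hcoatom, hrN⟩ := atom_coatom hrank hb ht
  obtain ⟨hfin, -⟩ := finite_torsion (L := Qb) (W₀ := W.map (Int.castRingHom ℚ)) pp
    (by omega)
  have hint : ∀ A : ValuationSubring Qb,
      IsIntegralFor A.valuation ((W.map (Int.castRingHom ℚ))⁄Qb) :=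
    fun A => isIntegralFor_of_int (map_int_Qb W)
  -- the subgroup
  let C : AddSubgroup ((W.map (Int.castRingHom ℚ))⁄Qb).Point :=
    N.toAddSubgroup.map (Submodule.subtype (Submodule.torsionBy ℤ
      ((W.map (Int.castRingHom ℚ))⁄Qb).Point (p : ℤ))).toAddMonoidHom
  have hmemC : ∀ Q, Q ∈ C ↔ ∃ x ∈ N, (x : ((W.map (Int.castRingHom ℚ))⁄Qb).Point) = Q := by
    intro Q
    rfl
  have hcardN : Nat.card N = p := by
    rw [Module.natCard_eq_pow_finrank (K := ZMod p), hrN, Nat.card_zmod, pow_one]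
  have hC : CofixedLine W p C := by
    refine ⟨?_, ?_, ?_⟩
    · rw [← hcardN]
      symm
      refine Nat.card_congr (Equiv.ofBijective
        (fun x : N => (⟨(x.1 : ((W.map (Int.castRingHom ℚ))⁄Qb).Point),
          (hmemC _).mpr ⟨x.1, x.2, rfl⟩⟩ : C)) ⟨?_, ?_⟩)
      · intro x y hxy
        have h1 := congrArg (fun z : C => (z : ((W.map (Int.castRingHom ℚ))⁄Qb).Point)) hxy
        exact Subtype.ext (Subtype.ext h1)
      · rintro ⟨Q, hQ⟩
        obtain ⟨x, hx, rfl⟩ := (hmemC Q).mp hQ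
        exact ⟨⟨x, hx⟩, rfl⟩
    · intro σ Q hQ
      obtain ⟨x, hx, rfl⟩ := (hmemC Q).mp hQ
      exact (hmemC _).mpr ⟨σ • x, hN σ x hx, rfl⟩
    · intro σ Q hQ
      exact (hmemC _).mpr ⟨σ • (⟨Q, mem_torsion_iff.mpr hQ⟩ : Submodule.torsionBy ℤ
        ((W.map (Int.castRingHom ℚ))⁄Qb).Point (p : ℤ)) - ⟨Q, mem_torsion_iff.mpr hQ⟩,
        hcof σ _, rfl⟩
  -- multiplicative reduction at 2
  have h2 : (2 : ℤ) ∣ W.Δ := by
    by_contra h2
    obtain ⟨A, hA⟩ := exists_liesOverPrime Qb Nat.prime_two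
    have hv2 : A.valuation ((W.map (Int.castRingHom ℚ))⁄Qb).Δ = 1 := by
      rw [← map_int_Qb, map_Δ]
      exact Fermat.Agent.H09.val_intCast_eq_one Nat.prime_two hA h2
    exact not_good_of_cofixed pp Nat.prime_two hA
      (val_prime_eq_one pp Nat.prime_two (by omega) hA) (hint A) hv2 ht hcof hfin (by omega)
  have h32 : (32 : ℤ) ∣ B₀ := hF.thirty_two_dvd_iff.mp h2
  -- multiplicative reduction at 3
  have h3 : (3 : ℤ) ∣ W.Δ := by
    by_contra h3
    obtain ⟨A, hA⟩ := exists_liesOverPrime Qb Nat.prime_three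
    have hv3 : A.valuation ((W.map (Int.castRingHom ℚ))⁄Qb).Δ = 1 := by
      rw [← map_int_Qb, map_Δ]
      exact Fermat.Agent.H09.val_intCast_eq_one Nat.prime_three hA h3
    exact not_good_of_cofixed pp Nat.prime_three hA
      (val_prime_eq_one pp Nat.prime_three (by omega) hA) (hint A) hv3 ht hcof hfin (by omega)
  have htype : ∀ ℓ : ℕ, ℓ.Prime → ℓ ≠ p → (ℓ : ℤ) ∣ W.Δ → ¬ p ∣ ℓ ^ 2 - 1 →
      ∀ A : ValuationSubring Qb, A.LiesOverPrime ℓ → ∀ Q ∈ C, W.InZeroComponentAt A Q := by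
    intro ℓ hℓ hℓp hℓΔ hnd A hA
    by_contra hcon
    exact hnd (hC.dvd_of_not_inZeroComponentAt hΔ0 pp (by omega) hℓ hℓp hℓΔ
      (hss ℓ hℓ hℓΔ) hA hcon)
  have hI2 := htype 2 Nat.prime_two (by omega) h2 (by
    intro h; have := Nat.le_of_dvd (by norm_num) h; omega)
  have hI3 := htype 3 Nat.prime_three (by omega) h3 (by
    intro h; have := Nat.le_of_dvd (by norm_num) h; omega)
  have hall : ∀ ℓ : ℕ, ℓ.Prime → ℓ ≠ p → (ℓ : ℤ) ∣ W.Δ → ¬ (ℓ : ℤ) ∣ W.c₄ →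
      ∀ A : ValuationSubring Qb, A.LiesOverPrime ℓ → ∀ Q ∈ C, W.InZeroComponentAt A Q := by
    intro ℓ hℓ hℓp hℓΔ hℓc₄ A hA
    by_contra hcon
    have hd := hC.dvd_of_not_inZeroComponentAt hΔ0 pp (by omega) hℓ hℓp hℓΔ hℓc₄ hA hcon
    have hkey := ((Fermat.Agent.H12.allInputs pp (by omega) (by omega)).no_switch pp (by omega)
      (by omega) (by omega) (by omega) hp13
      W hΔ0 h2 (hss 2 Nat.prime_two h2) h3 (hss 3 Nat.prime_three h3) C hC.card
      hC.stable hℓ hd hℓΔ hℓc₄ A hA).1 hI2 hI3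
    exact hcon hkey
  -- a generator
  obtain ⟨x₀, hx₀N, hx₀⟩ := (Submodule.ne_bot_iff N).mp hb
  have hP0 : (x₀ : ((W.map (Int.castRingHom ℚ))⁄Qb).Point) ≠ 0 :=
    fun h' => hx₀ (Subtype.ext h')
  have hpP : p • (x₀ : ((W.map (Int.castRingHom ℚ))⁄Qb).Point) = 0 := mem_torsion_iff.mp x₀.2
  have hord : addOrderOf (x₀ : ((W.map (Int.castRingHom ℚ))⁄Qb).Point) = p :=
    addOrderOf_eq_prime hpP hP0
  have hfinC : Finite C := Nat.finite_of_card_ne_zero (by rw [hC.card]; exact pp.ne_zero)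
  have hP0C : (x₀ : ((W.map (Int.castRingHom ℚ))⁄Qb).Point) ∈ C :=
    (hmemC _).mpr ⟨x₀, hx₀N, rfl⟩
  have hcyc : ∀ Q, Q ∈ cyc p (x₀ : ((W.map (Int.castRingHom ℚ))⁄Qb).Point) ↔
      Q ∈ C ∧ Q ≠ 0 := by
    intro Q
    constructor
    · intro hQ
      obtain ⟨k, hk, rfl⟩ := Finset.mem_image.mp hQ
      refine ⟨C.nsmul_mem hP0C k, ?_⟩
      rw [Finset.mem_Ico] at hk
      intro h0
      have : p ∣ k := by rw [← hord]; exact addOrderOf_dvd_of_nsmul_eq_zero h0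
      have := Nat.le_of_dvd (by omega) this
      omega
    · rintro ⟨hQ, hQ0⟩
      have hle : AddSubgroup.zmultiples (x₀ : ((W.map (Int.castRingHom ℚ))⁄Qb).Point) ≤ C := by
        rw [AddSubgroup.zmultiples_le]; exact hP0C
      have heq : AddSubgroup.zmultiples (x₀ : ((W.map (Int.castRingHom ℚ))⁄Qb).Point) = C := by
        apply AddSubgroup.eq_of_le_of_card_ge hle
        rw [hC.card, Nat.card_zmultiples, hord]
      rw [← heq, AddSubgroup.mem_zmultiples_iff] at hQ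
      obtain ⟨k, rfl⟩ := hQ
      have hk := Int.emod_nonneg k (b := (p : ℤ)) (by exact_mod_cast pp.ne_zero)
      have hk2 := Int.emod_lt_of_pos k (b := (p : ℤ)) (by exact_mod_cast pp.pos)
      obtain ⟨m, hm⟩ := Int.eq_ofNat_of_zero_le hk
      have hkm : k • (x₀ : ((W.map (Int.castRingHom ℚ))⁄Qb).Point) =
          m • (x₀ : ((W.map (Int.castRingHom ℚ))⁄Qb).Point) := by
        have h1 := mod_addOrderOf_zsmul (x₀ : ((W.map (Int.castRingHom ℚ))⁄Qb).Point) k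
        rw [hord, hm, natCast_zsmul] at h1
        exact h1.symm
      rw [hkm] at hQ0 ⊢
      refine Finset.mem_image.mpr ⟨m, ?_, rfl⟩
      rw [Finset.mem_Ico]
      constructor
      · rw [Nat.one_le_iff_ne_zero]
        rintro rfl
        exact hQ0 (zero_smul _ _)
      · rw [hm] at hk2; exact_mod_cast hk2
  have hnf : ¬ ∀ σ : Qb ≃ₐ[ℚ] Qb, ∀ x ∈ N, σ • x = x := by
    intro hf
    obtain ⟨A, hA⟩ := exists_liesOverPrime Qb Nat.prime_two
    have hd := dvd_of_rational_inZeroComponentAt pp hΔ0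
      (fun σ => congrArg Subtype.val (hf σ x₀ hx₀N)) hord Nat.prime_two (by omega) h2
      (hss 2 Nat.prime_two h2) hA (hI2 A hA _ hP0C)
    have := Nat.le_of_dvd (by norm_num) hd
    omega
  refine endgame hF h32 pp hp5 hord ?_ ?_
  · intro σ Q hQ
    rw [hcyc] at hQ ⊢
    exact ⟨hC.stable σ Q hQ.1, smul_ne_zero' σ hQ.2⟩
  · intro ℓ hℓ A hA Q hQ hx
    rw [hcyc] at hQ
    by_cases hℓΔ : (ℓ : ℤ) ∣ W.Δ
    · by_cases hℓp : ℓ = p
      · subst hℓp
        obtain ⟨-, r, t, α, β, hnd⟩ := exists_nodeData_int hΔ0 pp hℓΔ (hss _ pp hℓΔ) hA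
        obtain ⟨x, hx', rfl⟩ := (hmemC Q).mp hQ.1
        exact (nodeE0_iff_nonsingularRed hnd).mp (nodeE0_at_p (map_int_Qb W) hΔ0 hss hp5 hN
          hatom hcoatom hnf hA hnd x hx') hQ.2 hx
      · exact inZeroComponentAt_iff.mp (hall ℓ hℓ hℓp hℓΔ (hss ℓ hℓ hℓΔ) A hA Q hQ.1) hQ.2 hx
    · have hv : A.valuation ((W.map (Int.castRingHom ℚ))⁄Qb).Δ = 1 := by
        rw [← map_int_Qb, map_Δ]
        exact Fermat.Agent.H09.val_intCast_eq_one hℓ hA hℓΔ
      exact nonsingularRed_of_Δ (hint A) hv hQ.2 hx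

/-- A semistable curve without rational point of order `p` and without Galois stable line with
trivial quotient has irreducible `p`-torsion. -/
theorem irreducible_of {W : WeierstrassCurve ℤ} (hΔ0 : W.Δ ≠ 0) (hss : W.IsSemistableModel)
    {p : ℕ} (pp : p.Prime) (hp5 : 5 ≤ p)
    (hfix : ∀ P₀ : ((W.map (Int.castRingHom ℚ))⁄Qb).Point, P₀ ≠ 0 → p • P₀ = 0 →
      (∀ σ : Qb ≃ₐ[ℚ] Qb, σ • P₀ = P₀) → False)
    (hcof : ¬ HasGaloisStableCofixedLine (K := Qb) ℚ (W.map (Int.castRingHom ℚ)) p) :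
    GaloisRepIsIrreducible (K := Qb) ℚ (W.map (Int.castRingHom ℚ)) p := by
  have hfact : Fact p.Prime := ⟨pp⟩
  have hgal : IsGalois ℚ Qb := { to_normal := { splits' := fun x => IsAlgClosed.splits _ } }
  have hΔ := Δ_Qb_ne_zero hΔ0
  have hnt : Nontrivial (Submodule.torsionBy ℤ
      ((W.map (Int.castRingHom ℚ))⁄Qb).Point (p : ℤ)) := by
    obtain ⟨Q, hQ, hpQ⟩ := exists_torsion (W := ((W.map (Int.castRingHom ℚ))⁄Qb)) hΔ
      (pp.odd_of_ne_two (by omega)) (by omega) (Nat.cast_ne_zero.mpr pp.ne_zero)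
    exact ⟨⟨⟨Q, mem_torsion_iff.mpr hpQ⟩, 0, fun h => hQ (congrArg Subtype.val h)⟩⟩
  refine ⟨hnt, fun N hN => ?_⟩
  by_contra hcon
  push Not at hcon
  obtain ⟨hb, ht⟩ := hcon
  rcases dichotomy (map_int_Qb W) hΔ0 hss hp5 N hN hb ht with h | h
  · obtain ⟨x, hxN, hx0⟩ := (Submodule.ne_bot_iff N).mp hb
    exact hfix x (fun h' => hx0 (Subtype.ext h')) (mem_torsion_iff.mp x.2)
      (fun σ => congrArg Subtype.val (h σ x hxN))
  · exact hcof ⟨N, hN, hb, ht, h⟩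

local notation "v₂" => Rat.padicValuation 2

theorem Vn_padicValInt {x : ℤ} (hx : x ≠ 0) : Vn v₂ (padicValInt 2 x) (x : ℚ) := by
  have hfin : FiniteMultiplicity (2 : ℤ) x := Int.finiteMultiplicity_iff.mpr ⟨by norm_num, hx⟩
  obtain ⟨c, hc, hd⟩ := hfin.exists_eq_pow_mul_and_not_dvd
  have hval : padicValInt 2 x = multiplicity ((2 : ℕ) : ℤ) x :=
    padicValInt.of_ne_one_ne_zero (by norm_num) hx
  have hval' : padicValInt 2 x = multiplicity (2 : ℤ) x := by exact_mod_cast hval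
  have hV2 : Vn v₂ 1 (2 : ℚ) := by
    have := Rat.padicValuation_self 2
    unfold Vn
    exact_mod_cast this
  have hVc : Vn v₂ 0 (c : ℚ) := by
    unfold Vn
    rw [_root_.neg_zero, WithZero.exp_zero, Rat.padicValuation_cast,
      Int.padicValuation_eq_one_iff]
    exact_mod_cast hd
  have h := (hV2.pow (multiplicity (2 : ℤ) x)).mul hVc
  rw [← hval', mul_one, add_zero] at h
  have e : (x : ℚ) = 2 ^ padicValInt 2 x * (c : ℚ) := by
    rw [hval']
    exact_mod_cast hc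
  rw [e]
  exact h

/-- The Frey curve `E_{A,B}` has no rational point of prime order `p ≥ 7` if
`p ∤ v₂(B) - 4`. -/
theorem no_rational {W : WeierstrassCurve ℤ} {A₀ B₀ : ℤ} (hF : IsFrey W A₀ B₀) {p : ℕ}
    (pp : p.Prime) (hp7 : 7 ≤ p) (hv : ¬ (p : ℤ) ∣ (padicValInt 2 B₀ : ℤ) - 4)
    {P₀ : ((W.map (Int.castRingHom ℚ))⁄Qb).Point} (h0 : P₀ ≠ 0) (hpP : p • P₀ = 0)
    (hσ : ∀ σ : Qb ≃ₐ[ℚ] Qb, σ • P₀ = P₀) : False := by
  have hgal : IsGalois ℚ Qb := { to_normal := { splits' := fun x => IsAlgClosed.splits _ } }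
  by_cases h2 : (2 : ℤ) ∣ W.Δ
  · obtain ⟨Q, hQ, hpQ⟩ := exists_rational_point h0 hσ hpP
    have h32 : (32 : ℤ) ∣ B₀ := hF.thirty_two_dvd_iff.mp h2
    have hVA : Vn v₂ 0 (A₀ : ℚ) := by
      unfold Vn
      rw [_root_.neg_zero, WithZero.exp_zero, Rat.padicValuation_cast,
        Int.padicValuation_eq_one_iff]
      have := hF.mod_four
      intro h
      have h' : (2 : ℤ) ∣ A₀ := by exact_mod_cast h
      omega
    have hVB := Vn_padicValInt hF.B_ne_zero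
    have hV2 : Vn v₂ 1 (2 : ℚ) := by
      have := Rat.padicValuation_self 2
      unfold Vn
      exact_mod_cast this
    have h16 : Vn v₂ 4 (16 : ℚ) := by
      have := hV2.pow 4
      norm_num at this
      exact this
    have h5 : 5 ≤ padicValInt 2 B₀ := by
      have h1 : ((2 : ℕ) : ℤ) ^ 5 ∣ B₀ := by norm_num; exact h32
      have h2' := (padicValInt_dvd_iff (p := 2) 5 B₀).mp h1
      rcases h2' with h3 | h3
      · exact absurd h3 hF.B_ne_zero
      · exact h3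
    have hprod : Vn v₂ (padicValInt 2 B₀) ((16 : ℚ) * (W.a₄ : ℚ)) := by
      have h1 := (hVA.mul hVB).neg
      rw [zero_add] at h1
      have e1 : (16 : ℚ) * (W.a₄ : ℚ) = -((A₀ : ℚ) * (B₀ : ℚ)) := by
        exact_mod_cast hF.a₄
      rw [e1]
      exact h1
    refine no_rational_torsion (W := ((W.map (Int.castRingHom ℚ))⁄ℚ))
      (m := (padicValInt 2 B₀ : ℤ) - 4) (p := p) ?_ ?_ ?_ ?_ ?_ (by omega) pp (by omega) hv hQ hpQ
    · change ((W.a₁ : ℤ) : ℚ) = 1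
      rw [hF.a₁]; simp
    · change ((W.a₃ : ℤ) : ℚ) = 0
      rw [hF.a₃]; simp
    · change ((W.a₆ : ℤ) : ℚ) = 0
      rw [hF.a₆]; simp
    · rw [Dn_zero_iff]
      change Rat.padicValuation 2 ((W.a₂ : ℤ) : ℚ) ≤ 1
      rw [Rat.padicValuation_cast]
      exact Int.padicValuation_le_one 2 _
    · change Vn v₂ _ ((W.a₄ : ℤ) : ℚ)
      exact hprod.of_mul h16
  · obtain ⟨A, hA⟩ := exists_liesOverPrime Qb Nat.prime_two
    have hv2 : A.valuation ((W.map (Int.castRingHom ℚ))⁄Qb).Δ = 1 := by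
      rw [← map_int_Qb, map_Δ]
      exact Fermat.Agent.H09.val_intCast_eq_one Nat.prime_two hA h2
    obtain ⟨σ, hσA⟩ := exists_isFrobeniusAt Nat.prime_two hA
    exact no_fixed_of_good pp Nat.prime_two (val_prime_eq_one pp Nat.prime_two (by omega) hA)
      (isIntegralFor_of_int (map_int_Qb W)) hv2 hσA h0 hpP (hσ σ) (by omega)

/-- The mod `p` representation of the Frey curve `E_{A,B}` is irreducible for every prime
`p ≥ 11`, `p ≠ 13` with `p ∤ v₂(B) - 4`. -/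
theorem irreducible {W : WeierstrassCurve ℤ} {A₀ B₀ : ℤ} (hF : IsFrey W A₀ B₀) {p : ℕ}
    (pp : p.Prime) (hp11 : 11 ≤ p) (hp13 : p ≠ 13)
    (hv : ¬ (p : ℤ) ∣ (padicValInt 2 B₀ : ℤ) - 4) :
    GaloisRepIsIrreducible (K := Qb) ℚ (W.map (Int.castRingHom ℚ)) p :=
  irreducible_of hF.Δ_ne_zero hF.semistable pp (by omega)
    (fun _ h0 hpP hσ => no_rational hF pp (by omega) hv h0 hpP hσ) (no_cofixed hF pp hp11 hp13)

theorem irr {A B : ℤ} (hA : A % 4 = 3) (hB : (16 : ℤ) ∣ B) (hcop : IsCoprime A B)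
    (h0 : A * B * (A + B) ≠ 0) {p : ℕ} [Fact p.Prime] (hp11 : 11 ≤ p) (hp13 : p ≠ 13)
    (hv : ¬ (p : ℤ) ∣ (padicValInt 2 B : ℤ) - 4) : (FW A B).ModRepIsIrreducible p :=
  irreducible (isFrey_FW hA hB hcop h0) Fact.out hp11 hp13 hv

theorem irr' {W : WeierstrassCurve ℤ} {A B : ℤ} (h1 : W.a₁ = 1) (h3 : W.a₃ = 0)
    (h6 : W.a₆ = 0) (h2 : 4 * W.a₂ = B - A - 1) (h4 : 16 * W.a₄ = -(A * B))
    (hB : (16 : ℤ) ∣ B) (hcop : IsCoprime A B) (h0 : A * B * (A + B) ≠ 0) {p : ℕ}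
    [Fact p.Prime] (hp11 : 11 ≤ p) (hp13 : p ≠ 13)
    (hv : ¬ (p : ℤ) ∣ (padicValInt 2 B : ℤ) - 4) : W.ModRepIsIrreducible p :=
  irreducible ⟨h1, h3, h6, h2, h4, hcop, h0, hB⟩ Fact.out hp11 hp13 hv

end Fermat.Agent.Cor.H09
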