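import Mathlib
import Fermat.Agent.Frob.Relation

/-!
# Hasse's bound

The degree form of the endomorphisms `m φ + n` of an elliptic curve over a finite field, `φ` the Frobenius
endomorphism, and Hasse's bound `|q + 1 - #E(𝔽_q)| ≤ 2 √q`.

This file is not used by any of the statement files.
-/

set_option autoImplicit false

namespace Fermat.Agent.Cor.Bounds

open Polynomial WeierstrassCurve WeierstrassCurve.Affine WeierstrassCurve.Affine.Point
open Fermat.Agent.Frob Fermat.Agent.H08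

universe u v

section Generic

variable {F : Type*} {K : Type*} {L : Type u} [Field F] [Field K] [Field L]
  [Algebra F K] [Algebra K L] [Algebra F L] [IsScalarTower F K L] {W : WeierstrassCurve.Affine F}

/-- **The degree of `m φ + n`** is `q m² + a m n + n²`, where `a = q + 1 - #E(F)`. -/
theorem ht_comb (g : Gen W K L) [DecidableEq L] [DecidableEq K] [Fintype F] [W.IsElliptic]
    [IsAlgClosed K] (m n : ℤ) :
    g.ht (m • Fr g.Q + n • g.Q) = (Fintype.card F : ℤ) * m ^ 2 +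
      ((Fintype.card F : ℤ) + 1 - (Nat.card W.Point : ℤ)) * (m * n) + n ^ 2 := by
  have hpar := g.htG_par
  let Q0 : g.Gm := ⟨g.Q, g.Q_mem⟩
  let Q1 : g.Gm := ⟨Fr g.Q, g.Fr_mem g.Q_mem⟩
  have h0 : g.htG Q0 = 1 := g.ht_Q
  have h1 : g.htG Q1 = Fintype.card F := by
    have : g.htG Q1 = Fintype.card F * g.ht g.Q := g.ht_Fr g.Q_mem
    rw [this, g.ht_Q, mul_one]
  have hsub : g.htG (Q1 - Q0) = Nat.card W.Point := g.ht_main.1
  have b10 : polarB g.htG Q1 Q0 = (Fintype.card F : ℤ) + 1 - (Nat.card W.Point : ℤ) := by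
    have := h_sub hpar Q1 Q0
    rw [hsub, h1, h0] at this; linarith
  have h2 : g.ht (m • Fr g.Q + n • g.Q) = g.htG (m • Q1 + n • Q0) := rfl
  rw [h2, h_add hpar, h_zsmul hpar, h_zsmul hpar, polarB_zsmul_left hpar, polarB_zsmul_right hpar,
    h0, h1, b10]
  ring

end Generic

section Bound

variable {F : Type v} [Field F] [Fintype F]

/-- The degree form `q m² + a m n + n²` is positive. -/
theorem degreeForm_nonneg (W : WeierstrassCurve F) (hΔ : W.Δ ≠ 0) (m n : ℤ) :
    0 ≤ (Fintype.card F : ℤ) * m ^ 2 + W.traceOfFrobenius * (m * n) + n ^ 2 := by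
  classical
  have : W.IsElliptic := ⟨isUnit_iff_ne_zero.mpr hΔ⟩
  have g : Gen W.toAffine (AlgebraicClosure F)
    (WeierstrassCurve.Affine.FunctionField (W.toAffine⁄(AlgebraicClosure F))) := genFF W.toAffine _
  have h := ht_comb g m n
  have h0 := g.ht_nonneg (m • Fr g.Q + n • g.Q)
  rw [h] at h0
  rw [traceOfFrobenius, Nat.card_eq_fintype_card (α := F)]
  exact h0

/-- **Hasse's bound**: `a² ≤ 4 q` for `a = q + 1 - #E(𝔽_q)`. -/
theorem hasse_sq_le (W : WeierstrassCurve F) (hΔ : W.Δ ≠ 0) :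
    W.traceOfFrobenius ^ 2 ≤ 4 * Fintype.card F := by
  have h := degreeForm_nonneg W hΔ 2 (-W.traceOfFrobenius)
  nlinarith

/-- **Hasse's bound**: `|a| ≤ 2 √q`. -/
theorem abs_trace_le (W : WeierstrassCurve F) (hΔ : W.Δ ≠ 0) :
    |(W.traceOfFrobenius : ℝ)| ≤ 2 * √(Fintype.card F) := by
  have h := hasse_sq_le W hΔ
  have h2 : ((W.traceOfFrobenius : ℝ)) ^ 2 ≤ 4 * Fintype.card F := by exact_mod_cast h
  rw [← Real.sqrt_sq_eq_abs]
  calc √((W.traceOfFrobenius : ℝ) ^ 2) ≤ √(4 * Fintype.card F) := Real.sqrt_le_sqrt h2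
    _ = 2 * √(Fintype.card F) := by
      rw [Real.sqrt_mul (by norm_num)]
      congr 1
      rw [show (4 : ℝ) = 2 ^ 2 by norm_num, Real.sqrt_sq (by norm_num)]

/-- **Hasse's theorem**: `|#E(𝔽_q) - (q + 1)| ≤ 2 √q`. -/
theorem abs_card_sub_le (W : WeierstrassCurve F) (hΔ : W.Δ ≠ 0) :
    |(Nat.card W.toAffine.Point : ℝ) - (Fintype.card F + 1)| ≤ 2 * √(Fintype.card F) := by
  have h := abs_trace_le W hΔ
  rw [traceOfFrobenius, card, Nat.card_eq_fintype_card (α := F)] at h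
  push_cast at h
  rw [abs_sub_comm]
  exact h

end Bound

section Integral

/-- **Hasse's bound** for the reduction of an integral Weierstrass equation at a good prime; the
inequality is strict. -/
theorem apOfModel_sq_lt (W : WeierstrassCurve ℤ) {p : ℕ} (hp : p.Prime) (hgood : W.IsGoodPrimeFor p) :
    W.apOfModel p ^ 2 < 4 * p := by
  have := Fact.mk hp
  have hΔ : (W.reductionMod p).Δ ≠ 0 := by
    rw [reductionMod, WeierstrassCurve.map_Δ]
    intro h
    apply hgood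
    rw [eq_intCast] at h
    exact (ZMod.intCast_zmod_eq_zero_iff_dvd _ _).mp h
  have h := hasse_sq_le (W.reductionMod p) hΔ
  rw [ZMod.card] at h
  refine lt_of_le_of_ne h fun heq => ?_
  -- `4 p` is not a square
  have h1 : (p : ℤ) ∣ W.apOfModel p := by
    apply (Nat.prime_iff_prime_int.mp hp).dvd_of_dvd_pow (n := 2)
    exact ⟨4, by rw [heq]; ring⟩
  obtain ⟨c, hc⟩ := h1
  have h2 : (p : ℤ) * (c * c) = 4 := by
    have hp0 : (p : ℤ) ≠ 0 := by exact_mod_cast hp.ne_zero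
    have h3 : (p : ℤ) * ((p : ℤ) * (c * c)) = (p : ℤ) * 4 := by
      have h4 : (W.apOfModel p) ^ 2 = 4 * p := heq
      rw [hc] at h4
      linear_combination h4
    exact mul_left_cancel₀ hp0 h3
  have h5 : (p : ℤ) ∣ 2 := by
    have h6 : (p : ℤ) ∣ 2 ^ 2 := ⟨c * c, by rw [h2]; norm_num⟩
    exact (Nat.prime_iff_prime_int.mp hp).dvd_of_dvd_pow h6
  have h7 : p = 2 := by
    have : p ∣ 2 := by exact_mod_cast h5
    exact (Nat.prime_dvd_prime_iff_eq hp Nat.prime_two).mp this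
  rw [h7] at h2
  push_cast at h2
  have h8 : c * c = 2 := by linarith
  have h9 : c ≤ 1 := by nlinarith
  have h10 : -1 ≤ c := by nlinarith
  interval_cases c <;> norm_num at h8

/-- **Hasse's bound** `|a_p| < 2 √p` at a good prime. -/
theorem abs_apOfModel_lt (W : WeierstrassCurve ℤ) {p : ℕ} (hp : p.Prime)
    (hgood : W.IsGoodPrimeFor p) : |(W.apOfModel p : ℝ)| < 2 * √p := by
  have h := apOfModel_sq_lt W hp hgood
  have h2 : ((W.apOfModel p : ℝ)) ^ 2 < 4 * p := by exact_mod_cast h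
  rw [← Real.sqrt_sq_eq_abs]
  calc √((W.apOfModel p : ℝ) ^ 2) < √(4 * p) := Real.sqrt_lt_sqrt (sq_nonneg _) h2
    _ = 2 * √p := by
      rw [Real.sqrt_mul (by norm_num)]
      congr 1
      rw [show (4 : ℝ) = 2 ^ 2 by norm_num, Real.sqrt_sq (by norm_num)]

/-- A good prime `p ≥ 5` with `p ∣ a_p` (supersingular reduction) has `a_p = 0`. -/
theorem apOfModel_eq_zero_of_dvd (W : WeierstrassCurve ℤ) {p : ℕ} (hp : p.Prime)
    (hgood : W.IsGoodPrimeFor p) (h5 : 5 ≤ p) (h : (p : ℤ) ∣ W.apOfModel p) :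
    W.apOfModel p = 0 := by
  obtain ⟨c, hc⟩ := h
  have h1 := apOfModel_sq_lt W hp hgood
  rw [hc] at h1 ⊢
  have hp5 : (5 : ℤ) ≤ p := by exact_mod_cast h5
  have h2 : c ^ 2 < 1 := by
    by_contra h3
    push Not at h3
    have h4 : (p : ℤ) ^ 2 * 1 ≤ (p : ℤ) ^ 2 * c ^ 2 := mul_le_mul_of_nonneg_left h3 (sq_nonneg _)
    have h6 : 5 * (p : ℤ) ≤ (p : ℤ) ^ 2 := by nlinarith
    rw [mul_pow] at h1
    linarith
  have h3 : c = 0 := by nlinarith [sq_nonneg c, sq_nonneg (c - 1), sq_nonneg (c + 1)]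
  rw [h3, mul_zero]

end Integral

end Fermat.Agent.Cor.Bounds
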