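import Fermat.Agent.Cor.H07Serre
import Fermat.Agent.Cor.H09Irr
import Fermat.Agent.Cor.Hasse

/-!
# Semistable elliptic curves whose discriminant is a perfect power

After Serre and Mestre–Oesterlé: let `W` be a semistable elliptic curve over `ℚ` and `p ≥ 5` a
prime dividing all valuations of the discriminant.  Then `W[p]` is reducible and `p` divides
`#W(𝔽_ℓ)` for all good primes `ℓ ≠ p`.  In particular `p = 5` if `W` has good reduction at `2`,
and `p ≤ 7` if `W` has good reduction at `3` or at `5`.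
-/

set_option autoImplicit false

noncomputable section

namespace Fermat.Agent.Cor.H07

open WeierstrassCurve WeierstrassCurve.Affine WeierstrassCurve.Affine.Point
open Fermat.Agent.H05 Fermat.Agent.H09

local notation "Qb" => AlgebraicClosure ℚ

variable {W : WeierstrassCurve ℤ} {p : ℕ}

/-- if `W[p]` is reducible, there is a rational point of order `p` or a stable line with trivial
quotient -/
theorem fixed_or_cofixed (hΔ0 : W.Δ ≠ 0) (hss : W.IsSemistableModel) (pp : p.Prime)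
    (hp5 : 5 ≤ p) (hred : ¬ W.ModRepIsIrreducible p) :
    (∃ P₀ : ((W.map (Int.castRingHom ℚ))⁄Qb).Point, P₀ ≠ 0 ∧ p • P₀ = 0 ∧
      ∀ σ : Qb ≃ₐ[ℚ] Qb, σ • P₀ = P₀) ∨
    HasGaloisStableCofixedLine (K := Qb) ℚ (W.map (Int.castRingHom ℚ)) p := by
  by_contra! h
  refine hred (Cor.H09.irreducible_of hΔ0 hss pp hp5 (fun P₀ h0 hpP hσ => ?_) h.2)
  obtain ⟨σ, hσ'⟩ := h.1 P₀ h0 hpP
  exact hσ' (hσ σ)

/-- **The Eisenstein congruence**: if `W[p]` is reducible, `p` divides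
`#W(𝔽_ℓ) = ℓ + 1 - a_ℓ(W)` for every good prime `ℓ ≠ p`. -/
theorem dvd_card_of_reducible (hΔ0 : W.Δ ≠ 0) (hss : W.IsSemistableModel) (pp : p.Prime)
    (hp5 : 5 ≤ p) (hred : ¬ W.ModRepIsIrreducible p) {ℓ : ℕ} (hℓ : ℓ.Prime)
    (hgood : ¬ (ℓ : ℤ) ∣ W.Δ) (hℓp : ℓ ≠ p) : (p : ℤ) ∣ ℓ + 1 - W.apOfModel ℓ := by
  have hfact : Fact p.Prime := ⟨pp⟩
  have hgal : IsGalois ℚ Qb := { to_normal := { splits' := fun x => IsAlgClosed.splits _ } }
  obtain ⟨A, hA⟩ := exists_liesOverPrime Qb hℓ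
  obtain ⟨φ, hφ⟩ := exists_isFrobeniusAt hℓ hA
  have hℓd : ¬ ℓ ∣ p := fun h => hℓp ((Nat.prime_dvd_prime_iff_eq hℓ pp).mp h)
  rcases fixed_or_cofixed hΔ0 hss pp hp5 hred with ⟨P, hP0, hpP, hfix⟩ | ⟨N, hN, hb, ht, hcof⟩
  · have h := Frob.frobenius_relation_torsion W hℓ hgood hA hφ hℓd P hpP
    rw [hfix φ, hfix φ] at h
    have h2 : ((ℓ : ℤ) + 1 - W.apOfModel ℓ) • P = 0 := by
      rw [← h]; module
    have hord : addOrderOf P = p := addOrderOf_eq_prime hpP hP0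
    have h3 := addOrderOf_dvd_iff_zsmul_eq_zero.mpr h2
    rwa [hord] at h3
  · obtain ⟨x, hx⟩ : ∃ x, x ∉ N := by
      by_contra! h
      exact ht (eq_top_iff.mpr fun x _ => h x)
    have h := Frob.frobenius_relation_torsion W hℓ hgood hA hφ hℓd
      (x : ((W.map (Int.castRingHom ℚ))⁄Qb).Point) (mem_torsion_iff.mp x.2)
    have h' : φ • (φ • x) - W.apOfModel ℓ • (φ • x) + (ℓ : ℤ) • x = 0 := Subtype.ext h
    have h1 : φ • x - x ∈ N := hcof φ x
    have h2 : φ • (φ • x) - φ • x ∈ N := hcof φ (φ • x)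
    have h3 : ((ℓ : ℤ) + 1 - W.apOfModel ℓ) • x ∈ N := by
      have key : ∀ y z : Submodule.torsionBy ℤ ((W.map (Int.castRingHom ℚ))⁄Qb).Point (p : ℤ),
          z - W.apOfModel ℓ • y + (ℓ : ℤ) • x = 0 → ((ℓ : ℤ) + 1 - W.apOfModel ℓ) • x =
            (W.apOfModel ℓ - 1) • (y - x) - (z - y) := by
        intro y z hyz
        have e2 : ((ℓ : ℤ) + 1 - W.apOfModel ℓ) • x =
          (z - W.apOfModel ℓ • y + (ℓ : ℤ) • x) + ((W.apOfModel ℓ - 1) • (y - x) - (z - y)) := by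
          module
        rw [e2, hyz, zero_add]
      have e := key _ _ h'
      rw [e]
      exact N.sub_mem (zsmul_mem h1 _) h2
    by_contra hd
    apply hx
    have hc : (((ℓ : ℤ) + 1 - W.apOfModel ℓ : ℤ) : ZMod p) ≠ 0 := by
      rw [Ne, ZMod.intCast_zmod_eq_zero_iff_dvd]; exact hd
    have h4 : (((ℓ : ℤ) + 1 - W.apOfModel ℓ : ℤ) : ZMod p) • x ∈ N := by
      rw [Int.cast_smul_eq_zsmul]; exact h3
    have h5 := N.smul_mem (((ℓ : ℤ) + 1 - W.apOfModel ℓ : ℤ) : ZMod p)⁻¹ h4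
    rwa [smul_smul, inv_mul_cancel₀ hc, one_smul] at h5

/-- the number of points of the reduction at a good prime is positive and at most
`ℓ + 1 + 2 √ℓ` -/
theorem card_bounds (W : WeierstrassCurve ℤ) {ℓ : ℕ} (hℓ : ℓ.Prime) (hgood : ¬ (ℓ : ℤ) ∣ W.Δ)
    {B : ℤ} (hB : 0 ≤ B) (hB2 : 4 * (ℓ : ℤ) ≤ (B + 1) ^ 2) :
    0 < (ℓ : ℤ) + 1 - W.apOfModel ℓ ∧ (ℓ : ℤ) + 1 - W.apOfModel ℓ ≤ ℓ + 1 + B := by
  have h := Cor.Bounds.apOfModel_sq_lt W hℓ hgood
  have h0 : (2 : ℤ) ≤ ℓ := by exact_mod_cast hℓ.two_le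
  constructor
  · by_contra hc
    push Not at hc
    have h1 : (ℓ : ℤ) + 1 ≤ W.apOfModel ℓ := by linarith
    nlinarith [sq_nonneg ((ℓ : ℤ) - 1)]
  · by_contra hc
    push Not at hc
    have h1 : W.apOfModel ℓ ≤ -(B + 1) := by linarith
    nlinarith

/-- reducible `W[p]` and a small good prime -/
theorem le_of_reducible (hΔ0 : W.Δ ≠ 0) (hss : W.IsSemistableModel) (pp : p.Prime)
    (hp5 : 5 ≤ p) (hred : ¬ W.ModRepIsIrreducible p) {ℓ : ℕ} (hℓ : ℓ.Prime)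
    (hgood : ¬ (ℓ : ℤ) ∣ W.Δ) (hℓp : ℓ ≠ p) {B : ℤ} (hB : 0 ≤ B)
    (hB2 : 4 * (ℓ : ℤ) ≤ (B + 1) ^ 2) : (p : ℤ) ≤ ℓ + 1 + B := by
  obtain ⟨h1, h2⟩ := card_bounds W hℓ hgood hB hB2
  exact (Int.le_of_dvd h1 (dvd_card_of_reducible hΔ0 hss pp hp5 hred hℓ hgood hℓp)).trans h2

/-- a prime between `5` and `8` (resp. `10`) -/
theorem prime_le_seven (pp : p.Prime) (h : p ≤ 10) : p ≤ 7 := by
  by_contra! hc
  interval_cases p <;> revert pp <;> decide

/-- **Semistable curves with good reduction at `2` and reducible `W[p]`**: `p ≤ 5`. -/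
theorem le_five_of_reducible (hΔ0 : W.Δ ≠ 0) (hss : W.IsSemistableModel) (pp : p.Prime)
    (hred : p ≠ 3 → p ≠ 2 → ¬ W.ModRepIsIrreducible p) (h2 : ¬ (2 : ℤ) ∣ W.Δ) : p ≤ 5 := by
  by_contra! hp
  have h := le_of_reducible hΔ0 hss pp hp.le (hred (by omega) (by omega)) Nat.prime_two
    (by exact_mod_cast h2) (by omega) (B := 2) (by norm_num) (by norm_num)
  push_cast at h
  omega

/-- semistable curves with good reduction at `3` or `5` and reducible `W[p]`: `p ≤ 7` -/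
theorem le_seven_of_reducible (hΔ0 : W.Δ ≠ 0) (hss : W.IsSemistableModel) (pp : p.Prime)
    (hred : p ≠ 3 → p ≠ 2 → ¬ W.ModRepIsIrreducible p)
    (h3 : ¬ (3 : ℤ) ∣ W.Δ ∨ ¬ (5 : ℤ) ∣ W.Δ) : p ≤ 7 := by
  by_contra! hp
  rcases h3 with h3 | h3
  · have h := le_of_reducible hΔ0 hss pp (by omega) (hred (by omega) (by omega)) Nat.prime_three
      (by exact_mod_cast h3) (by omega) (B := 3) (by norm_num) (by norm_num)
    push_cast at h
    omega
  · have h := le_of_reducible hΔ0 hss pp (by omega) (hred (by omega) (by omega)) Nat.prime_five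
      (by exact_mod_cast h3) (by omega) (B := 4) (by norm_num) (by norm_num)
    push_cast at h
    have := prime_le_seven pp (by omega)
    omega

/-- **Perfect power discriminants** (Serre, Mestre–Oesterlé), good reduction at `2`: if a prime `p`
divides all the valuations of the discriminant of a semistable curve with good reduction at `2`,
then `p ≤ 5`. -/
theorem le_five (hΔ0 : W.Δ ≠ 0) (hss : W.IsSemistableModel) (pp : p.Prime)
    (h : ∀ q : ℕ, q.Prime → p ∣ padicValInt q W.Δ) (h2 : ¬ (2 : ℤ) ∣ W.Δ) : p ≤ 5 := by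
  have : Fact p.Prime := ⟨pp⟩
  exact le_five_of_reducible hΔ0 hss pp (fun _ hp2 => reducible hΔ0 hss hp2 h) h2

/-- **Perfect power discriminants**, good reduction at `3` or `5`. -/
theorem le_seven (hΔ0 : W.Δ ≠ 0) (hss : W.IsSemistableModel) (pp : p.Prime)
    (h : ∀ q : ℕ, q.Prime → p ∣ padicValInt q W.Δ)
    (h3 : ¬ (3 : ℤ) ∣ W.Δ ∨ ¬ (5 : ℤ) ∣ W.Δ) : p ≤ 7 := by
  have : Fact p.Prime := ⟨pp⟩
  exact le_seven_of_reducible hΔ0 hss pp (fun _ hp2 => reducible hΔ0 hss hp2 h) h3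

/-- if the discriminant of a semistable curve is `± m ^ p` with a prime `p ≥ 11`, the curve has bad
reduction at `2`, `3` and `5` -/
theorem thirty_dvd (hΔ0 : W.Δ ≠ 0) (hss : W.IsSemistableModel) (pp : p.Prime) (hp : 11 ≤ p)
    (h : ∀ q : ℕ, q.Prime → p ∣ padicValInt q W.Δ) : (30 : ℤ) ∣ W.Δ := by
  have h2 : (2 : ℤ) ∣ W.Δ := by
    by_contra h2
    have := le_five hΔ0 hss pp h h2
    omega
  have h3 : (3 : ℤ) ∣ W.Δ := by
    by_contra h3
    have := le_seven hΔ0 hss pp h (Or.inl h3)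
    omega
  have h5 : (5 : ℤ) ∣ W.Δ := by
    by_contra h5
    have := le_seven hΔ0 hss pp h (Or.inr h5)
    omega
  omega

/-- **Semistable curves of prime conductor**: if `Δ = ± ℓ ^ n` with `ℓ` prime, then all prime
factors of `n` are at most `5`. -/
theorem le_five_of_prime_conductor (hss : W.IsSemistableModel) {ℓ n : ℕ} (hℓ : ℓ.Prime)
    (hΔ : W.Δ.natAbs = ℓ ^ n) (pp : p.Prime) (hpn : p ∣ n) : p ≤ 5 := by
  have hΔ0 : W.Δ ≠ 0 := by
    intro h
    rw [h, Int.natAbs_zero] at hΔ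
    exact pow_ne_zero n hℓ.ne_zero hΔ.symm
  have hall : ∀ q : ℕ, q.Prime → p ∣ padicValInt q W.Δ := by
    intro q hq
    have : Fact q.Prime := ⟨hq⟩
    rw [padicValInt, hΔ, padicValNat.pow]
    exact hpn.mul_right _
  have hn0 : n ≠ 0 := by
    rintro rfl
    rw [pow_zero] at hΔ
    exact Main.natAbs_disc_ne_one W hΔ
  refine le_five hΔ0 hss pp hall fun h2 => ?_
  have h2' : 2 ∣ ℓ ^ n := by
    rw [← hΔ]; exact Int.natCast_dvd.mp (by exact_mod_cast h2)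
  have hℓ2 : ℓ = 2 :=
    ((Nat.prime_dvd_prime_iff_eq Nat.prime_two hℓ).mp (Nat.prime_two.dvd_of_dvd_pow h2')).symm
  have h11 := (Main.eleven_le_conductor W hΔ0 hss).1
  rw [hΔ, Nat.primeFactors_prime_pow hn0 hℓ, Finset.prod_singleton, hℓ2] at h11
  omega

end Fermat.Agent.Cor.H07
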