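import Mathlib

/-!
# Finite abelian groups with `d ^ r` elements killed by `d`

`nonempty_equiv`: an additive commutative group `T` killed by `n > 0` such that for every `d ∣ n` exactly `d ^ r`
elements are killed by `d` is isomorphic to `(ℤ/n)^r`.

This file is not used by any of the statement files.
-/

set_option autoImplicit false

namespace Fermat.Agent.Cor.Tors

universe u

/-- a vector space over `𝔽_p` with `p ^ r` elements -/
theorem exists_gen_aux {V : Type*} [AddCommGroup V] [Finite V] {p r : ℕ} [Fact p.Prime]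
    [Module (ZMod p) V] (h : Nat.card V = p ^ r) :
    ∃ b : Fin r → V, ∀ v : V, ∃ c : Fin r → ℕ, v = ∑ i, c i • b i := by
  have hfr : Module.finrank (ZMod p) V = r := by
    let _ := Fintype.ofFinite V
    have h2 := Module.card_eq_pow_finrank (K := ZMod p) (V := V)
    rw [ZMod.card, ← Nat.card_eq_fintype_card, h] at h2
    exact (Nat.pow_right_injective (Fact.out : p.Prime).two_le h2).symm
  let b := Module.finBasisOfFinrankEq (ZMod p) V hfr
  refine ⟨b, fun v => ⟨fun i => (b.repr v i).val, ?_⟩⟩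
  conv_lhs => rw [← b.sum_repr v]
  refine Finset.sum_congr rfl fun i _ => ?_
  rw [← Nat.cast_smul_eq_nsmul (ZMod p), ZMod.natCast_zmod_val]

/-- generators modulo `p` -/
theorem exists_gen_mod {T : Type*} [AddCommGroup T] [Finite T] {p r : ℕ} (hp : p.Prime)
    (h : Nat.card {x : T // p • x = 0} = p ^ r) :
    ∃ t : Fin r → T, ∀ x : T, ∃ (c : Fin r → ℕ) (y : T), x = ∑ i, c i • t i + p • y := by
  classical
  have := Fact.mk hp
  set f : T →+ T := nsmulAddMonoidHom p with hf
  have hV : ∀ v : T ⧸ f.range, p • v = 0 := by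
    intro v
    obtain ⟨x, rfl⟩ := QuotientAddGroup.mk_surjective v
    rw [← QuotientAddGroup.mk_nsmul]
    exact (QuotientAddGroup.eq_zero_iff _).mpr ⟨x, rfl⟩
  have hcard : Nat.card (T ⧸ f.range) = p ^ r := by
    have h1 : f.range.index = Nat.card f.ker := AddSubgroup.index_range
    rw [AddSubgroup.index] at h1
    rw [h1, ← h]
    exact Nat.card_congr (Equiv.subtypeEquivRight fun x => Iff.rfl)
  let _ : Module (ZMod p) (T ⧸ f.range) := AddCommGroup.zmodModule hV
  obtain ⟨b, hb⟩ := exists_gen_aux hcard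
  choose t ht using fun i => QuotientAddGroup.mk_surjective (b i)
  refine ⟨t, fun x => ?_⟩
  obtain ⟨c, hc⟩ := hb x
  refine ⟨c, ?_⟩
  have hx : ((x - ∑ i, c i • t i : T) : T ⧸ f.range) = 0 := by
    rw [QuotientAddGroup.mk_sub, sub_eq_zero, hc]
    change _ = (QuotientAddGroup.mk' f.range) _
    rw [map_sum]
    refine Finset.sum_congr rfl fun i _ => ?_
    rw [map_nsmul, QuotientAddGroup.mk'_apply, ht]
  obtain ⟨y, hy⟩ := (QuotientAddGroup.eq_zero_iff _).mp hx
  refine ⟨y, ?_⟩
  have hy' : p • y = x - ∑ i, c i • t i := hy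
  rw [hy']
  abel

/-- the prime power case, with the module structure as an argument -/
theorem nonempty_equiv_aux {T : Type*} [AddCommGroup T] {p r k q : ℕ} [NeZero q] (hq : q = p ^ k)
    [Module (ZMod q) T] (hp : p.Prime) (hk : 0 < k) (hT : ∀ x : T, q • x = 0)
    (hcard : ∀ d, d ∣ q → Nat.card {x : T // d • x = 0} = d ^ r) :
    Nonempty (T ≃+ (Fin r → ZMod q)) := by
  classical
  have hTc : Nat.card T = q ^ r := by
    rw [← hcard _ dvd_rfl]
    exact (Nat.card_congr (Equiv.subtypeUnivEquiv hT)).symm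
  have : Finite T := Nat.finite_of_card_ne_zero (by
    rw [hTc]
    exact pow_ne_zero r (NeZero.ne q))
  obtain ⟨t, ht⟩ := exists_gen_mod hp (hcard p (hq ▸ dvd_pow_self p hk.ne'))
  let φ : (Fin r → ZMod q) →ₗ[ZMod q] T := Fintype.linearCombination _ t
  have key : ∀ j : ℕ, ∀ x : T, ∃ (c : Fin r → ZMod q) (y : T), x = φ c + p ^ j • y := by
    intro j
    induction j with
    | zero => exact fun x => ⟨0, x, by simp⟩
    | succ j ih =>
      intro x
      obtain ⟨c, y, rfl⟩ := ih x
      obtain ⟨d, z, rfl⟩ := ht y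
      refine ⟨c + fun i => ((p ^ j * d i : ℕ) : ZMod q), z, ?_⟩
      have h1 : φ (fun i => ((p ^ j * d i : ℕ) : ZMod q)) = p ^ j • ∑ i, d i • t i := by
        rw [Fintype.linearCombination_apply, Finset.smul_sum]
        refine Finset.sum_congr rfl fun i _ => ?_
        rw [Nat.cast_smul_eq_nsmul, mul_smul]
      rw [map_add, h1, smul_add, pow_succ, mul_smul]
      abel
  have hsurj : Function.Surjective φ := by
    intro x
    obtain ⟨c, y, hx⟩ := key k x
    exact ⟨c, by rw [hx, ← hq, hT, add_zero]⟩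
  have hbij : Function.Bijective φ := by
    refine (Nat.bijective_iff_surjective_and_card _).mpr ⟨hsurj, ?_⟩
    rw [hTc, Nat.card_fun, Nat.card_zmod, Nat.card_fin]
  exact ⟨(LinearEquiv.ofBijective φ hbij).symm.toAddEquiv⟩

/-- the prime power case -/
theorem nonempty_equiv_prime_pow {T : Type*} [AddCommGroup T] {p r k : ℕ} (hp : p.Prime)
    (hk : 0 < k) (hT : ∀ x : T, p ^ k • x = 0)
    (hcard : ∀ d, d ∣ p ^ k → Nat.card {x : T // d • x = 0} = d ^ r) :
    Nonempty (T ≃+ (Fin r → ZMod (p ^ k))) := by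
  have : NeZero (p ^ k) := ⟨(pow_pos hp.pos k).ne'⟩
  let _ : Module (ZMod (p ^ k)) T := AddCommGroup.zmodModule hT
  exact nonempty_equiv_aux rfl hp hk hT hcard

/-- An additive commutative group killed by `n > 0` with exactly `d ^ r` elements killed by `d`, for every `d ∣ n`, is
isomorphic to `(ℤ/n)^r`. -/
theorem nonempty_equiv {r : ℕ} (n : ℕ) (hn : n ≠ 0) : ∀ (T : Type u) [AddCommGroup T],
    (∀ x : T, n • x = 0) → (∀ d, d ∣ n → Nat.card {x : T // d • x = 0} = d ^ r) →
    Nonempty (T ≃+ (Fin r → ZMod n)) := by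
  classical
  induction n using Nat.recOnPosPrimePosCoprime with
  | prime_pow p k hp hk =>
    intro T _ hT hcard
    exact nonempty_equiv_prime_pow hp hk hT hcard
  | zero => exact absurd rfl hn
  | one =>
    intro T _ hT _
    have h1 : Subsingleton T := ⟨fun x y => by rw [← one_nsmul x, ← one_nsmul y, hT, hT]⟩
    have h2 : Subsingleton (Fin r → ZMod 1) := inferInstance
    exact ⟨⟨⟨fun _ => 0, fun _ => 0, fun _ => Subsingleton.elim _ _, fun _ =>
      Subsingleton.elim _ _⟩, fun _ _ => Subsingleton.elim _ _⟩⟩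
  | coprime a b ha hb hab iha ihb =>
    intro T _ hT hcard
    have ha0 : a ≠ 0 := by omega
    have hb0 : b ≠ 0 := by omega
    -- the two parts
    have part : ∀ c, c ∣ a * b → c ≠ 0 → ((∀ (T : Type u) [AddCommGroup T],
        (∀ x : T, c • x = 0) → (∀ d, d ∣ c → Nat.card {x : T // d • x = 0} = d ^ r) →
        Nonempty (T ≃+ (Fin r → ZMod c)))) →
        Nonempty ((nsmulAddMonoidHom c : T →+ T).ker ≃+ (Fin r → ZMod c)) := by
      intro c hc hc0 ih
      refine ih _ (fun x => Subtype.ext x.2) fun d hd => ?_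
      rw [← hcard d (hd.trans hc)]
      refine Nat.card_congr ⟨fun x => ⟨x.1.1, congrArg Subtype.val x.2⟩, fun x => ⟨⟨x.1, ?_⟩,
        Subtype.ext x.2⟩, fun x => rfl, fun x => rfl⟩
      obtain ⟨e, rfl⟩ := hd
      change (d * e) • x.1 = 0
      rw [mul_comm, mul_smul, x.2, smul_zero]
    obtain ⟨ea⟩ := part a (Dvd.intro _ rfl) ha0 (iha ha0)
    obtain ⟨eb⟩ := part b (Dvd.intro_left _ rfl) hb0 (ihb hb0)
    -- the map
    let f : T →+ (nsmulAddMonoidHom a : T →+ T).ker × (nsmulAddMonoidHom b : T →+ T).ker :=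
      AddMonoidHom.prod
        ((nsmulAddMonoidHom b).codRestrict _ fun x => by
          change a • (b • x) = 0
          rw [← mul_smul, hT])
        ((nsmulAddMonoidHom a).codRestrict _ fun x => by
          change b • (a • x) = 0
          rw [← mul_smul, mul_comm, hT])
    have hinj : Function.Injective f := by
      rw [injective_iff_map_eq_zero]
      intro x hx
      have h1 : b • x = 0 := congrArg (fun z => (z.1 : T)) hx
      have h2 : a • x = 0 := congrArg (fun z => (z.2 : T)) hx
      have h3 : addOrderOf x ∣ Nat.gcd a b :=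
        Nat.dvd_gcd (addOrderOf_dvd_iff_nsmul_eq_zero.mpr h2)
          (addOrderOf_dvd_iff_nsmul_eq_zero.mpr h1)
      rw [hab.gcd_eq_one] at h3
      exact AddMonoid.addOrderOf_eq_one_iff.mp (Nat.dvd_one.mp h3)
    have : NeZero a := ⟨ha0⟩
    have : NeZero b := ⟨hb0⟩
    have hfa : Finite (nsmulAddMonoidHom a : T →+ T).ker := Finite.of_equiv _ ea.symm.toEquiv
    have hfb : Finite (nsmulAddMonoidHom b : T →+ T).ker := Finite.of_equiv _ eb.symm.toEquiv
    have hbij : Function.Bijective f := by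
      refine (Nat.bijective_iff_injective_and_card _).mpr ⟨hinj, ?_⟩
      have hTc : Nat.card T = (a * b) ^ r := by
        rw [← hcard _ dvd_rfl]
        exact (Nat.card_congr (Equiv.subtypeUnivEquiv hT)).symm
      rw [hTc, Nat.card_prod, Nat.card_congr ea.toEquiv, Nat.card_congr eb.toEquiv, Nat.card_fun,
        Nat.card_fun, Nat.card_zmod, Nat.card_zmod, Nat.card_fin, mul_pow]
    let g : (Fin r → ZMod (a * b)) ≃+ (Fin r → ZMod a) × (Fin r → ZMod b) :=
      { toFun := fun c => (fun i => (ZMod.chineseRemainder hab (c i)).1,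
          fun i => (ZMod.chineseRemainder hab (c i)).2)
        invFun := fun c i => (ZMod.chineseRemainder hab).symm (c.1 i, c.2 i)
        left_inv := fun c => by
          funext i
          simp
        right_inv := fun c => by
          ext i <;> simp
        map_add' := fun c d => by
          ext i <;> simp }
    exact ⟨(AddEquiv.ofBijective f hbij).trans ((ea.prodCongr eb).trans g.symm)⟩

/-- the torsion subgroup `A[n]` -/
theorem nonempty_equiv_ker {A : Type u} [AddCommGroup A] {r n : ℕ} (hn : n ≠ 0)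
    (h : ∀ d, d ∣ n → Nat.card {x : A // d • x = 0} = d ^ r) (T : AddSubgroup A)
    (hT : ∀ x, x ∈ T ↔ n • x = 0) : Nonempty (T ≃+ (Fin r → ZMod n)) := by
  refine nonempty_equiv n hn T (fun x => Subtype.ext ((hT _).mp x.2)) fun d hd => ?_
  rw [← h d hd]
  refine Nat.card_congr ⟨fun x => ⟨x.1.1, congrArg Subtype.val x.2⟩, fun x => ⟨⟨x.1, ?_⟩,
    Subtype.ext x.2⟩, fun x => rfl, fun x => rfl⟩
  obtain ⟨e, rfl⟩ := hd
  rw [hT, mul_comm, mul_smul, x.2, smul_zero]

end Fermat.Agent.Cor.Tors
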