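import Mathlib
import Fermat.Agent.Cor.AdelicMazur
import Fermat.Agent.Cor.TorsionStr
import Fermat.Agent.Cor.H07MO
import Fermat.Agent.Cor.EigenTable

/-!
# The inverse Galois problem for `GL₂(ℤ/N)`, `N` coprime to `6`

* `galois_group`: let `W` be a semistable elliptic curve over `ℚ` and `N` coprime to `6` with `W[p]` irreducible for
  all primes `p ∣ N`. Then there is a finite Galois extension `K` of `ℚ` (the field `ℚ(W[N])`) with
  `Gal(K/ℚ) ≅ GL₂(ℤ/N)`.
* `inverse_galois`: for every `N` coprime to `6` the group `GL₂(ℤ/N)` is a Galois group over `ℚ` (the curve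
  `y² + xy + y = x³ - x` of conductor `14`); `inverse_galois_quotient`: so are all its quotients, for instance
  `PGL₂(ℤ/N)` (`inverse_galois_PGL`).

This file is not used by any of the statement files.
-/

set_option autoImplicit false
set_option linter.style.haveILetI false

noncomputable section

namespace Fermat.Agent.Cor.InverseGalois

open WeierstrassCurve WeierstrassCurve.Affine WeierstrassCurve.Affine.Point
open Fermat.Agent.Ell Fermat.Agent.Cor.Surj
open Fermat.Agent.Cor.GenusOne (E14 E14_Δ E14_semistable)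
open Fermat.Agent.Cor.EigenTable (E14_a3)

local notation "Qb" => AlgebraicClosure ℚ
local notation "Γq" => AlgebraicClosure ℚ ≃ₐ[ℚ] AlgebraicClosure ℚ

/-- the group `W[N]` over `ℚ̄` -/
abbrev TorsN (W : WeierstrassCurve ℤ) (N : ℕ) : Type :=
  Submodule.torsionBy ℤ ((W.map (Int.castRingHom ℚ))⁄(AlgebraicClosure ℚ)).Point (N : ℤ)

/-- the action of a Galois automorphism on `W[N]` -/
def galEquiv (W : WeierstrassCurve ℤ) (N : ℕ)
    (σ : AlgebraicClosure ℚ ≃ₐ[ℚ] AlgebraicClosure ℚ) : TorsN W N ≃ₗ[ZMod N] TorsN W N where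
  toFun := fun x => σ • x
  invFun := fun x => σ⁻¹ • x
  left_inv := fun x => inv_smul_smul σ x
  right_inv := fun x => smul_inv_smul σ x
  map_add' := fun x y => smul_add σ x y
  map_smul' := fun c x => ZMod.map_smul (DistribSMul.toAddMonoidHom (TorsN W N) σ) c x

theorem galEquiv_apply (W : WeierstrassCurve ℤ) (N : ℕ) (σ : Γq) (x : TorsN W N) :
    galEquiv W N σ x = σ • x := rfl

/-- the Galois representation on `W[N]` -/
def galHom (W : WeierstrassCurve ℤ) (N : ℕ) :
    (AlgebraicClosure ℚ ≃ₐ[ℚ] AlgebraicClosure ℚ) →* (TorsN W N ≃ₗ[ZMod N] TorsN W N) where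
  toFun := galEquiv W N
  map_one' := LinearEquiv.ext fun x => by
    rw [galEquiv_apply, one_smul]
    rfl
  map_mul' σ τ := LinearEquiv.ext fun x => by
    rw [galEquiv_apply, mul_smul]
    rfl

theorem galHom_apply (W : WeierstrassCurve ℤ) (N : ℕ) (σ : Γq) (x : TorsN W N) :
    galHom W N σ x = σ • x := rfl

/-- A group `G` with a surjective homomorphism from `Gal(ℚ̄/ℚ)` whose kernel contains `Gal(ℚ̄/L)`, `L` a number
field, is a Galois group over `ℚ`. -/
theorem exists_field {G : Type*} [Group G] (f : Γq →* G) (hf : Function.Surjective f)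
    (L : IntermediateField ℚ Qb) [FiniteDimensional ℚ L] (hL : L.fixingSubgroup ≤ f.ker) :
    ∃ K : IntermediateField ℚ (AlgebraicClosure ℚ), FiniteDimensional ℚ K ∧ IsGalois ℚ K ∧
      Nonempty ((K ≃ₐ[ℚ] K) ≃* G) := by
  have ho : IsOpen (f.ker : Set Γq) :=
    Subgroup.isOpen_mono hL (IntermediateField.fixingSubgroup_isOpen L)
  let H : ClosedSubgroup (Qb ≃ₐ[ℚ] Qb) := ⟨f.ker, Subgroup.isClosed_of_isOpen _ ho⟩
  have hK : (IntermediateField.fixedField H.1).fixingSubgroup = H.1 :=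
    InfiniteGalois.fixingSubgroup_fixedField H
  haveI : H.Normal := inferInstanceAs f.ker.Normal
  have h1 : FiniteDimensional ℚ (IntermediateField.fixedField H.1) ∧
      IsGalois ℚ (IntermediateField.fixedField H.1) := by
    refine (InfiniteGalois.isOpen_and_normal_iff_finite_and_isGalois _).mp ?_
    rw [hK]
    exact ⟨ho, inferInstanceAs f.ker.Normal⟩
  exact ⟨IntermediateField.fixedField H.1, h1.1, h1.2,
    ⟨(InfiniteGalois.normalAutEquivQuotient H).symm.trans
      (QuotientGroup.quotientKerEquivOfSurjective f hf)⟩⟩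

/-- `Aut(W[N]) ≅ GL₂(ℤ/N)` -/
theorem nonempty_aut_equiv (W : WeierstrassCurve ℤ) (hΔ : W.Δ ≠ 0) {N : ℕ} (hN : N ≠ 0) :
    Nonempty ((TorsN W N ≃ₗ[ZMod N] TorsN W N) ≃* GL (Fin 2) (ZMod N)) := by
  haveI := isElliptic_WQ hΔ
  obtain ⟨e⟩ := Tors.nonempty_equiv (r := 2) N hN (TorsN W N) (fun x => by
    have := Submodule.smul_torsionBy (R := ℤ) _ x
    rwa [natCast_zsmul] at this) (fun d hd => by
    have hd0 : d ≠ 0 := by
      rintro rfl
      exact hN (Nat.eq_zero_of_zero_dvd hd)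
    rw [← Fermat.Agent.Frob.card_torsion (K := Qb) (WQ W) hd0]
    refine Nat.card_congr ⟨fun x => ⟨(x.1 : Pts (WQ W)), congrArg Subtype.val x.2⟩,
      fun x => ⟨⟨x.1, ?_⟩, Subtype.ext x.2⟩, fun x => rfl, fun x => rfl⟩
    obtain ⟨k, rfl⟩ := hd
    rw [Submodule.mem_torsionBy_iff, natCast_zsmul, mul_comm, mul_smul, x.2]
    exact nsmul_zero k)
  let e' : TorsN W N ≃ₗ[ZMod N] (Fin 2 → ZMod N) := e.toLinearEquiv (ZMod.map_smul e)
  exact ⟨((LinearMap.GeneralLinearGroup.generalLinearEquiv (ZMod N) (TorsN W N)).symm.trans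
    (LinearMap.GeneralLinearGroup.congrLinearEquiv e')).trans Matrix.GeneralLinearGroup.toLin.symm⟩

theorem exists_level_ker (W : WeierstrassCurve ℤ) (hΔ : W.Δ ≠ 0) {N : ℕ} (hN : N ≠ 0) :
    ∃ L : IntermediateField ℚ Qb, FiniteDimensional ℚ L ∧ L.fixingSubgroup ≤ (galHom W N).ker := by
  haveI := isElliptic_WQ hΔ
  obtain ⟨L, hL, h⟩ := exists_level_field (WQ W) N hN
  refine ⟨L, hL, fun σ hσ => ?_⟩
  rw [MonoidHom.mem_ker]
  refine LinearEquiv.ext fun x => Subtype.ext ?_
  have h1 := h σ 1 (fun y hy => (IntermediateField.mem_fixingSubgroup_iff L _).mp hσ y hy)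
    (x : Pts (WQ W)) (by
      have := x.2
      rwa [Submodule.mem_torsionBy_iff, natCast_zsmul] at this)
  rw [one_smul] at h1
  exact h1

/-- **The Galois group of `ℚ(W[N])`** is `GL₂(ℤ/N)`: `W` semistable, `N` coprime to `6`, `W[p]` irreducible for all
primes `p ∣ N`. -/
theorem galois_group (W : WeierstrassCurve ℤ) (hΔ : W.Δ ≠ 0) (hss : W.IsSemistableModel) {N : ℕ}
    (hN : N.Coprime 6) (hirr : ∀ p : ℕ, p.Prime → p ∣ N → W.ModRepIsIrreducible p) :
    ∃ K : IntermediateField ℚ (AlgebraicClosure ℚ), FiniteDimensional ℚ K ∧ IsGalois ℚ K ∧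
      Nonempty ((K ≃ₐ[ℚ] K) ≃* GL (Fin 2) (ZMod N)) := by
  have hN0 : N ≠ 0 := by
    rintro rfl
    norm_num at hN
  obtain ⟨e⟩ := nonempty_aut_equiv W hΔ hN0
  obtain ⟨L, hL, hker⟩ := exists_level_ker W hΔ hN0
  have hsurj : Function.Surjective (galHom W N) := by
    intro f
    obtain ⟨σ, hσ⟩ := galois_surjective_tors W hΔ hss hN hirr f.toAddEquiv
    exact ⟨σ, LinearEquiv.ext hσ⟩
  obtain ⟨K, h1, h2, ⟨g⟩⟩ := exists_field (galHom W N) hsurj L hker
  exact ⟨K, h1, h2, ⟨g.trans e⟩⟩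

/-- Quotients of Galois groups over `ℚ` are Galois groups over `ℚ`. -/
theorem exists_field_of_quotient {G G' : Type*} [Group G] [Group G'] (f : G →* G')
    (hf : Function.Surjective f)
    (h : ∃ K : IntermediateField ℚ (AlgebraicClosure ℚ), FiniteDimensional ℚ K ∧ IsGalois ℚ K ∧
      Nonempty ((K ≃ₐ[ℚ] K) ≃* G)) :
    ∃ K : IntermediateField ℚ (AlgebraicClosure ℚ), FiniteDimensional ℚ K ∧ IsGalois ℚ K ∧
      Nonempty ((K ≃ₐ[ℚ] K) ≃* G') := by
  obtain ⟨K, h1, h2, ⟨e⟩⟩ := h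
  let r : Γq →* (K ≃ₐ[ℚ] K) := AlgEquiv.restrictNormalHom K
  have hr : Function.Surjective r := AlgEquiv.restrictNormalHom_surjective Qb
  refine exists_field (f.comp (e.toMonoidHom.comp r)) ?_ K ?_
  · exact hf.comp (e.surjective.comp hr)
  · intro σ hσ
    have h3 : r σ = 1 := by
      refine AlgEquiv.ext fun x => (algebraMap K Qb).injective ?_
      have h4 : algebraMap K Qb (r σ x) = σ (algebraMap K Qb x) :=
        AlgEquiv.restrictNormal_commutes σ K x
      rw [h4]
      exact (IntermediateField.mem_fixingSubgroup_iff K _).mp hσ _ x.2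
    rw [MonoidHom.mem_ker, MonoidHom.comp_apply, MonoidHom.comp_apply, h3, map_one, map_one]

/-- For every semistable elliptic curve `W` over `ℚ` and every `N` all whose prime factors are `≥ 11` and `≠ 13`. -/
theorem galois_group_uniform (W : WeierstrassCurve ℤ) (hΔ : W.Δ ≠ 0) (hss : W.IsSemistableModel)
    {N : ℕ} (hN : ∀ p : ℕ, p.Prime → p ∣ N → 11 ≤ p ∧ p ≠ 13) :
    ∃ K : IntermediateField ℚ (AlgebraicClosure ℚ), FiniteDimensional ℚ K ∧ IsGalois ℚ K ∧
      Nonempty ((K ≃ₐ[ℚ] K) ≃* GL (Fin 2) (ZMod N)) :=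
  galois_group W hΔ hss (coprime_six_of hN) fun p hp hpN =>
    Mazur.modRep_irreducible hΔ hss hp (hN p hp hpN).1 (hN p hp hpN).2

/-- The curve `y² + xy + y = x³ - x` of conductor `14`: `W[p]` is irreducible for all primes `p ≥ 5`. -/
theorem E14_irreducible {p : ℕ} (hp : p.Prime) (hp5 : 5 ≤ p) :
    E14.ModRepIsIrreducible p := by
  by_contra hred
  have h := H07.dvd_card_of_reducible (by rw [E14_Δ]; norm_num) E14_semistable hp hp5 hred
    Nat.prime_three (by rw [E14_Δ]; norm_num) (by omega)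
  rw [E14_a3] at h
  have := Int.le_of_dvd (by norm_num) h
  have hp6 : p ≠ 6 := by
    rintro rfl
    norm_num at hp
  have hp5' : p = 5 := by
    norm_num at this
    omega
  rw [hp5'] at h
  norm_num at h

/-- **The inverse Galois problem for `GL₂(ℤ/N)`**: for every `N` coprime to `6` there is a finite Galois extension
of `ℚ` with Galois group `GL₂(ℤ/N)`. -/
theorem inverse_galois (N : ℕ) (hN : N.Coprime 6) :
    ∃ K : IntermediateField ℚ (AlgebraicClosure ℚ), FiniteDimensional ℚ K ∧ IsGalois ℚ K ∧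
      Nonempty ((K ≃ₐ[ℚ] K) ≃* GL (Fin 2) (ZMod N)) :=
  galois_group E14 (by rw [E14_Δ]; norm_num) E14_semistable hN fun _ hp hpN =>
    E14_irreducible hp (five_le_of_dvd hN hp hpN)

/-- Every quotient of `GL₂(ℤ/N)`, `N` coprime to `6`, is a Galois group over `ℚ`. -/
theorem inverse_galois_quotient (N : ℕ) (hN : N.Coprime 6) {G : Type*} [Group G]
    (f : GL (Fin 2) (ZMod N) →* G) (hf : Function.Surjective f) :
    ∃ K : IntermediateField ℚ (AlgebraicClosure ℚ), FiniteDimensional ℚ K ∧ IsGalois ℚ K ∧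
      Nonempty ((K ≃ₐ[ℚ] K) ≃* G) :=
  exists_field_of_quotient f hf (inverse_galois N hN)

/-- **`PGL₂(ℤ/N)`**, `N` coprime to `6`, is a Galois group over `ℚ`. -/
theorem inverse_galois_PGL (N : ℕ) (hN : N.Coprime 6) :
    ∃ K : IntermediateField ℚ (AlgebraicClosure ℚ), FiniteDimensional ℚ K ∧ IsGalois ℚ K ∧
      Nonempty ((K ≃ₐ[ℚ] K) ≃*
        (GL (Fin 2) (ZMod N) ⧸ Subgroup.center (GL (Fin 2) (ZMod N)))) :=
  inverse_galois_quotient N hN (QuotientGroup.mk' _) (QuotientGroup.mk'_surjective _)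

/-- `GL₂(𝔽_p)` is a Galois group over `ℚ` for every prime `p ≥ 5`. -/
theorem inverse_galois_prime (p : ℕ) (hp : p.Prime) (hp5 : 5 ≤ p) :
    ∃ K : IntermediateField ℚ (AlgebraicClosure ℚ), FiniteDimensional ℚ K ∧ IsGalois ℚ K ∧
      Nonempty ((K ≃ₐ[ℚ] K) ≃* GL (Fin 2) (ZMod p)) := by
  refine inverse_galois p ?_
  rw [Nat.Prime.coprime_iff_not_dvd hp]
  intro h
  have h1 := Nat.le_of_dvd (by norm_num) h
  interval_cases p <;> revert h hp <;> decide

end Fermat.Agent.Cor.InverseGalois
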