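import Mathlib
import Fermat.Agent.Cor.InverseGalois
import Fermat.Agent.Cor.ChebotarevGal

/-!
# Traces of Frobenius of semistable elliptic curves in residue classes

Let `W` be a semistable elliptic curve over `ℚ` and `N` an integer coprime to `6` such that `W[p]` is irreducible for
all primes `p ∣ N` (by Mazur's theorem for semistable curves: any integer whose prime factors are `≥ 11` and `≠ 13`).

* `infinite_frobenius_tors`: every automorphism of the group `W[N]` is the action of a Frobenius element at infinitely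
  many primes;
* `infinite_traces`: for every `t` and every `d` prime to `N` there are infinitely many primes `ℓ ≡ d (mod N)` of good
  reduction with `a_ℓ(W) ≡ t (mod N)`;
* `infinite_dvd_card`: for every `d` prime to `N` there are infinitely many primes `ℓ ≡ d (mod N)` with
  `N ∣ #W(𝔽_ℓ)`.

This file is not used by any of the statement files.
-/

set_option autoImplicit false
set_option linter.style.haveILetI false

noncomputable section

namespace Fermat.Agent.Cor.FrobTraces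

open WeierstrassCurve WeierstrassCurve.Affine WeierstrassCurve.Affine.Point
open Fermat.Agent.Ell Fermat.Agent.H12.LL Fermat.Agent.Cor.Surj Fermat.Agent.Cor.InverseGalois Matrix

local notation "Qb" => AlgebraicClosure ℚ
local notation "Γq" => AlgebraicClosure ℚ ≃ₐ[ℚ] AlgebraicClosure ℚ

/-- **Every automorphism of `W[N]` is a Frobenius** at infinitely many primes. -/
theorem infinite_frobenius_tors (W : WeierstrassCurve ℤ) (hΔ : W.Δ ≠ 0)
    (hss : W.IsSemistableModel) {N : ℕ} (hN : N.Coprime 6)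
    (hirr : ∀ p : ℕ, p.Prime → p ∣ N → W.ModRepIsIrreducible p)
    (f : TorsN W N ≃+ TorsN W N) :
    {ℓ : ℕ | ℓ.Prime ∧ ∃ (A : ValuationSubring (AlgebraicClosure ℚ))
      (φ : AlgebraicClosure ℚ ≃ₐ[ℚ] AlgebraicClosure ℚ), A.LiesOverPrime ℓ ∧
      A.IsFrobeniusAt φ ℓ ∧ ∀ x, φ • x = f x}.Infinite := by
  have hN0 : N ≠ 0 := by
    rintro rfl
    norm_num at hN
  obtain ⟨σ, hσ⟩ := galois_surjective_tors W hΔ hss hN hirr f
  obtain ⟨L, hL, hker⟩ := exists_level_ker W hΔ hN0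
  refine (Cheb.infinite_frobenius_dense
    (IntermediateField.fixingSubgroup_isOpen L) σ).mono ?_
  rintro ℓ ⟨hℓ, A, φ, hA, hφ, h⟩
  refine ⟨hℓ, A, φ, hA, hφ, fun x => ?_⟩
  have h1 := MonoidHom.mem_ker.mp (hker h)
  have h2 : galHom W N φ = galHom W N σ := by
    have : φ = σ * (σ⁻¹ * φ) := by group
    rw [this, map_mul, h1, mul_one]
  rw [← hσ x, ← galHom_apply, h2, galHom_apply]

/-- Frobenius elements with prescribed approximate matrices -/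
theorem infinite_matrices (W : WeierstrassCurve ℤ) (hΔ : W.Δ ≠ 0) (hss : W.IsSemistableModel)
    (s : Finset ℕ) (hs : ∀ q ∈ s, q.Prime ∧ 5 ≤ q ∧ W.ModRepIsIrreducible q) (n : ℕ)
    (A : ∀ (q : ℕ) [Fact q.Prime], Matrix (Fin 2) (Fin 2) ℤ_[q])
    (hA : ∀ (q : ℕ) [Fact q.Prime], q ∈ s → IsUnit (A q).det) :
    {ℓ : ℕ | ℓ.Prime ∧ ∃ (V : ValuationSubring Qb) (φ : Γq), V.LiesOverPrime ℓ ∧
      V.IsFrobeniusAt φ ℓ ∧ ∀ (q : ℕ) [Fact q.Prime], q ∈ s → Cong n (matZ q hΔ φ) (A q)}.Infinite := by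
  classical
  obtain ⟨σ, hσ⟩ := exists_matZ_eq_adelic hΔ hss (s : Set ℕ) (fun q hq => hs q hq) A
    (fun q _ hq => hA q hq)
  have hL : ∀ q : s, ∃ L : IntermediateField ℚ Qb, FiniteDimensional ℚ L ∧
      ∀ [Fact (q : ℕ).Prime], ∀ σ τ : Γq, (∀ x ∈ L, σ x = τ x) →
        Cong n (matZ q hΔ σ) (matZ q hΔ τ) := by
    rintro ⟨q, hq⟩
    haveI : Fact q.Prime := ⟨(hs q hq).1⟩
    obtain ⟨L, h1, h2⟩ := exists_level (p := q) hΔ n
    exact ⟨L, h1, fun {_} => h2⟩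
  choose L hL1 hL2 using hL
  let U : Subgroup Γq := ⨅ q : s, (L q).fixingSubgroup
  have hU : IsOpen (U : Set Γq) := by
    rw [Subgroup.coe_iInf]
    exact isOpen_iInter_of_finite fun q => IntermediateField.fixingSubgroup_isOpen (L q)
  refine (Cheb.infinite_frobenius_dense hU σ).mono ?_
  rintro ℓ ⟨hℓ, V, φ, hV, hφ, h⟩
  refine ⟨hℓ, V, φ, hV, hφ, fun q hqf hq => ?_⟩
  rw [← hσ q hq]
  have h1 : σ⁻¹ * φ ∈ (L ⟨q, hq⟩).fixingSubgroup := (Subgroup.mem_iInf.mp h) ⟨q, hq⟩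
  refine (hL2 ⟨q, hq⟩ σ φ (fun x hx => ?_)).symm
  have h2 : (σ⁻¹ * φ) x = x := (IntermediateField.mem_fixingSubgroup_iff _ _).mp h1 x hx
  have h3 := congrArg σ h2
  rw [← AlgEquiv.mul_apply, mul_inv_cancel_left] at h3
  exact h3.symm

theorem trace_congr {q : ℕ} [Fact q.Prime] {n : ℕ} {X Y : Matrix (Fin 2) (Fin 2) ℤ_[q]}
    (h : Cong n X Y) : (q : ℤ_[q]) ^ n ∣ X.trace - Y.trace := by
  obtain ⟨B, rfl⟩ := h
  exact ⟨B.trace, by rw [trace_add, trace_smul, add_sub_cancel_left, smul_eq_mul]⟩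

theorem det_congr {q : ℕ} [Fact q.Prime] {n : ℕ} {X Y : Matrix (Fin 2) (Fin 2) ℤ_[q]}
    (h : Cong n X Y) : (q : ℤ_[q]) ^ n ∣ X.det - Y.det := by
  rw [cong_iff] at h
  obtain ⟨a, ha⟩ := h 0 0
  obtain ⟨b, hb⟩ := h 0 1
  obtain ⟨c, hc⟩ := h 1 0
  obtain ⟨d, hd⟩ := h 1 1
  refine ⟨a * X 1 1 + Y 0 0 * d - b * X 1 0 - Y 0 1 * c, ?_⟩
  rw [det_fin_two, det_fin_two]
  linear_combination X 1 1 * ha + Y 0 0 * hd - X 1 0 * hb - Y 0 1 * hc

theorem int_dvd_of_padic {q : ℕ} [hq : Fact q.Prime] {n : ℕ} {k : ℤ}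
    (h : (q : ℤ_[q]) ^ n ∣ (k : ℤ_[q])) : ((q ^ n : ℕ) : ℤ) ∣ k := by
  rw [← Ideal.mem_span_singleton, ← PadicInt.ker_toZModPow, RingHom.mem_ker, map_intCast] at h
  exact (ZMod.intCast_zmod_eq_zero_iff_dvd k (q ^ n)).mp h

theorem dvd_of_forall {N : ℕ} (hN : N ≠ 0) {k : ℤ}
    (h : ∀ q : ℕ, q.Prime → q ∣ N → ((q ^ N : ℕ) : ℤ) ∣ k) : (N : ℤ) ∣ k := by
  rw [Int.natCast_dvd, Nat.dvd_iff_prime_pow_dvd_dvd]
  intro q m hq hm
  rcases Nat.eq_zero_or_pos m with rfl | hm0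
  · rw [pow_zero]
    exact one_dvd _
  · have h1 : m ≤ N := ((Nat.lt_pow_self hq.one_lt).le).trans
      (Nat.le_of_dvd (Nat.pos_of_ne_zero hN) hm)
    have h2 := h q hq ((dvd_pow_self q hm0.ne').trans hm)
    rw [Int.natCast_dvd] at h2
    exact (pow_dvd_pow q h1).trans h2

/-- **Traces of Frobenius in residue classes**: `W` semistable, `N` coprime to `6` and `W[p]` irreducible for all
primes `p ∣ N`; for every `t` and every `d` prime to `N` there are infinitely many primes `ℓ` of good reduction with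
`ℓ ≡ d` and `a_ℓ(W) ≡ t (mod N)`. -/
theorem infinite_traces (W : WeierstrassCurve ℤ) (hΔ : W.Δ ≠ 0) (hss : W.IsSemistableModel)
    {N : ℕ} (hN : N.Coprime 6) (hirr : ∀ p : ℕ, p.Prime → p ∣ N → W.ModRepIsIrreducible p)
    (t d : ℤ) (hd : IsCoprime d N) :
    {ℓ : ℕ | ℓ.Prime ∧ ¬ (ℓ : ℤ) ∣ W.Δ ∧ (ℓ : ℤ) ≡ d [ZMOD N] ∧
      W.apOfModel ℓ ≡ t [ZMOD N]}.Infinite := by
  haveI := isElliptic_WQ hΔ
  have hN0 : N ≠ 0 := by
    rintro rfl
    norm_num at hN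
  have hs : ∀ q ∈ N.primeFactors, q.Prime ∧ 5 ≤ q ∧ W.ModRepIsIrreducible q := by
    intro q hq
    have hq1 := Nat.prime_of_mem_primeFactors hq
    have hq2 := Nat.dvd_of_mem_primeFactors hq
    exact ⟨hq1, five_le_of_dvd hN hq1 hq2, hirr q hq1 hq2⟩
  have hinf := infinite_matrices W hΔ hss N.primeFactors hs N
    (fun q _ => !![(t : ℤ_[q]), -(d : ℤ_[q]); 1, 0]) (fun q hqf hq => by
      have h1 : (!![(t : ℤ_[q]), -(d : ℤ_[q]); 1, 0] : Matrix (Fin 2) (Fin 2) ℤ_[q]).det = d := by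
        rw [det_fin_two_of]
        ring
      rw [h1]
      have h2 : IsCoprime d (q : ℤ) :=
        hd.of_isCoprime_of_dvd_right (Int.natCast_dvd_natCast.mpr (Nat.dvd_of_mem_primeFactors hq))
      obtain ⟨a, b, hab⟩ := h2
      rw [PadicInt.isUnit_iff]
      by_contra hne
      have h3 : ‖(d : ℤ_[q])‖ < 1 := lt_of_le_of_ne (PadicInt.norm_le_one _) hne
      rw [PadicInt.norm_int_lt_one_iff_dvd] at h3
      have h4 : (q : ℤ) ∣ 1 := by
        rw [← hab]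
        exact dvd_add (dvd_mul_of_dvd_right h3 _) (dvd_mul_left _ _)
      exact hqf.out.one_lt.ne' (by exact_mod_cast Int.eq_one_of_dvd_one (by positivity) h4))
  have hbad : (({ℓ : ℕ | (ℓ : ℤ) ∣ W.Δ}) ∪ (N.primeFactors : Set ℕ)).Finite := by
    refine Set.Finite.union ?_ (Finset.finite_toSet _)
    refine (Finset.finite_toSet (W.Δ.natAbs.divisors)).subset fun ℓ hℓ => ?_
    rw [Finset.mem_coe, Nat.mem_divisors]
    exact ⟨Int.natCast_dvd.mp hℓ, Int.natAbs_ne_zero.mpr hΔ⟩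
  refine (hinf.sdiff hbad).mono ?_
  rintro ℓ ⟨⟨hℓ, V, φ, hV, hφ, h⟩, hℓbad⟩
  rw [Set.mem_union, not_or] at hℓbad
  obtain ⟨hℓΔ, hℓN⟩ := hℓbad
  have hℓΔ' : ¬ (ℓ : ℤ) ∣ W.Δ := hℓΔ
  have hgood : W.IsGoodPrimeFor ℓ := hℓΔ'
  have htr : ∀ (q : ℕ) [Fact q.Prime], q ∈ N.primeFactors →
      (q : ℤ_[q]) ^ N ∣ ((W.apOfModel ℓ - t : ℤ) : ℤ_[q]) ∧
      (q : ℤ_[q]) ^ N ∣ (((ℓ : ℤ) - d : ℤ) : ℤ_[q]) := by
    intro q hqf hq
    have hℓq : ℓ ≠ q := by
      rintro rfl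
      exact hℓN hq
    have h1 := trace_congr (h q hq)
    have h2 := det_congr (h q hq)
    rw [matZ_apply, trace_mtx, trace_fin_two_of, add_zero] at h1
    rw [matZ_apply, det_mtx, det_fin_two_of] at h2
    have h3 : LinearMap.trace ℤ_[q] (TT (WQ W) q) (rr (WQ W) q φ) = (W.apOfModel ℓ : ℤ_[q]) :=
      zRep_trace_frob hΔ (hs q hq).2.2 hℓ hgood hℓq hV hφ
    have h4 : LinearMap.det (rr (WQ W) q φ) = (ℓ : ℤ_[q]) :=
      zRep_det_frob hΔ (hs q hq).2.2 hℓ hℓq hV hφ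
    rw [h3] at h1
    rw [h4] at h2
    constructor
    · push_cast
      exact h1
    · have h5 : (((ℓ : ℤ) - d : ℤ) : ℤ_[q]) = (ℓ : ℤ_[q]) - (t * 0 - -(d : ℤ_[q]) * 1) := by
        push_cast
        ring
      rw [h5]
      exact h2
  refine ⟨hℓ, hℓΔ', ?_, ?_⟩
  · refine (Int.modEq_iff_dvd.mpr ?_).symm
    refine dvd_of_forall hN0 fun q hq hqN => ?_
    haveI : Fact q.Prime := ⟨hq⟩
    exact int_dvd_of_padic (htr q (Nat.mem_primeFactors.mpr ⟨hq, hqN, hN0⟩)).2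
  · refine (Int.modEq_iff_dvd.mpr ?_).symm
    refine dvd_of_forall hN0 fun q hq hqN => ?_
    haveI : Fact q.Prime := ⟨hq⟩
    exact int_dvd_of_padic (htr q (Nat.mem_primeFactors.mpr ⟨hq, hqN, hN0⟩)).1

/-- `N` divides the number of points for infinitely many `ℓ ≡ d (mod N)`. -/
theorem infinite_dvd_card (W : WeierstrassCurve ℤ) (hΔ : W.Δ ≠ 0) (hss : W.IsSemistableModel)
    {N : ℕ} (hN : N.Coprime 6) (hirr : ∀ p : ℕ, p.Prime → p ∣ N → W.ModRepIsIrreducible p)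
    (d : ℤ) (hd : IsCoprime d N) :
    {ℓ : ℕ | ℓ.Prime ∧ ¬ (ℓ : ℤ) ∣ W.Δ ∧ (ℓ : ℤ) ≡ d [ZMOD N] ∧
      (N : ℤ) ∣ ℓ + 1 - W.apOfModel ℓ}.Infinite := by
  refine (infinite_traces W hΔ hss hN hirr (d + 1) d hd).mono ?_
  rintro ℓ ⟨h1, h2, h3, h4⟩
  refine ⟨h1, h2, h3, ?_⟩
  have h5 := Int.modEq_iff_dvd.mp (h4.trans (h3.symm.add_right 1))
  exact h5

/-- **Uniform version**: any semistable elliptic curve `W` over `ℚ`, any `N` all whose prime factors are `≥ 11` and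
`≠ 13`. -/
theorem infinite_traces_uniform (W : WeierstrassCurve ℤ) (hΔ : W.Δ ≠ 0)
    (hss : W.IsSemistableModel) {N : ℕ} (hN : ∀ p : ℕ, p.Prime → p ∣ N → 11 ≤ p ∧ p ≠ 13)
    (t d : ℤ) (hd : IsCoprime d N) :
    {ℓ : ℕ | ℓ.Prime ∧ ¬ (ℓ : ℤ) ∣ W.Δ ∧ (ℓ : ℤ) ≡ d [ZMOD N] ∧
      W.apOfModel ℓ ≡ t [ZMOD N]}.Infinite :=
  infinite_traces W hΔ hss (coprime_six_of hN) (fun p hp hpN =>
    Mazur.modRep_irreducible hΔ hss hp (hN p hp hpN).1 (hN p hp hpN).2) t d hd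

/-- The curve `y² + xy + y = x³ - x` of conductor `14` and every modulus `N` coprime to `6`. -/
theorem infinite_traces_E14 {N : ℕ} (hN : N.Coprime 6) (t d : ℤ) (hd : IsCoprime d N) :
    {ℓ : ℕ | ℓ.Prime ∧ ¬ (ℓ : ℤ) ∣ GenusOne.E14.Δ ∧ (ℓ : ℤ) ≡ d [ZMOD N] ∧
      GenusOne.E14.apOfModel ℓ ≡ t [ZMOD N]}.Infinite :=
  infinite_traces GenusOne.E14 (by rw [GenusOne.E14_Δ]; norm_num) GenusOne.E14_semistable hN
    (fun _ hp hpN => E14_irreducible hp (five_le_of_dvd hN hp hpN)) t d hd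

end Fermat.Agent.Cor.FrobTraces
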