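import Mathlib
import Fermat.Agent.Cor.FrobTraces
import Fermat.Agent.Cor.ChebotarevDens

/-!
# Joint distribution of `ℓ` and `a_ℓ` modulo `N` for semistable elliptic curves

Let `W` be a semistable elliptic curve over `ℚ` and `N` an integer coprime to `6` such that `W[p]` is irreducible for
all primes `p ∣ N` (by Mazur's theorem for semistable curves: any integer whose prime factors are `≥ 11` and `≠ 13`).

* `rhoN`: the representation `Gal(ℚ̄/ℚ) → GL₂(ℤ/N)`; it is surjective (`rhoN_surjective`) with open kernel, and the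
  trace and the determinant of a Frobenius element at `ℓ ∤ N Δ` are `a_ℓ` and `ℓ` modulo `N`;
* `density_traces`: the set of primes `ℓ` with `ℓ ≡ d` and `a_ℓ(W) ≡ t (mod N)` has the Dirichlet density
  `#{M ∈ GL₂(ℤ/N) : tr M = t, det M = d} / #GL₂(ℤ/N)`.

This file is not used by any of the statement files.
-/

set_option autoImplicit false
set_option linter.style.haveILetI false

noncomputable section

namespace Fermat.Agent.Cor.FrobDensity

open WeierstrassCurve WeierstrassCurve.Affine WeierstrassCurve.Affine.Point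
open Fermat.Agent.Ell Fermat.Agent.H12.LL Fermat.Agent.Cor.Surj Fermat.Agent.Cor.InverseGalois Matrix

local notation "Qb" => AlgebraicClosure ℚ
local notation "Γq" => AlgebraicClosure ℚ ≃ₐ[ℚ] AlgebraicClosure ℚ

instance factPF {N : ℕ} (q : N.primeFactors) : Fact (q : ℕ).Prime :=
  ⟨Nat.prime_of_mem_primeFactors q.2⟩

/-- the ring `∏_{q ∣ N} ℤ_q` -/
abbrev RN (N : ℕ) : Type := ∀ q : N.primeFactors, ℤ_[(q : ℕ)]

/-- the projection `∏_{q ∣ N} ℤ_q → ℤ/N` -/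
def proj {N : ℕ} (hN : N ≠ 0) : RN N →+* ZMod N :=
  ((ZMod.equivPi N hN).symm : _ →+* ZMod N).comp
    (RingHom.pi fun q : N.primeFactors =>
      (PadicInt.toZModPow (p := (q : ℕ)) (N.factorization q)).comp
        (Pi.evalRingHom (fun q : N.primeFactors => ℤ_[(q : ℕ)]) q))

theorem equivPi_proj {N : ℕ} (hN : N ≠ 0) (x : RN N) (q : N.primeFactors) :
    ZMod.equivPi N hN (proj hN x) q = PadicInt.toZModPow (N.factorization q) (x q) := by
  change ZMod.equivPi N hN ((ZMod.equivPi N hN).symm _) q = _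
  rw [RingEquiv.apply_symm_apply]
  rfl

theorem proj_surjective {N : ℕ} (hN : N ≠ 0) : Function.Surjective (proj hN) := by
  intro x
  have h : ∀ q : N.primeFactors, ∃ z : ℤ_[(q : ℕ)],
      PadicInt.toZModPow (N.factorization q) z = ZMod.equivPi N hN x q := fun q =>
    ZMod.ringHom_surjective (PadicInt.toZModPow (p := (q : ℕ)) (N.factorization q)) _
  choose z hz using h
  refine ⟨z, (ZMod.equivPi N hN).injective (funext fun q => ?_)⟩
  rw [equivPi_proj, hz]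

variable {W : WeierstrassCurve ℤ}

/-- the matrices with coefficients in `∏_{q ∣ N} ℤ_q` -/
def matR (hΔ : W.Δ ≠ 0) (N : ℕ) : Γq →* Matrix (Fin 2) (Fin 2) (RN N) where
  toFun σ := Matrix.of fun i j q => matZ (q : ℕ) hΔ σ i j
  map_one' := by
    ext i j q
    change matZ (q : ℕ) hΔ 1 i j = _
    rw [map_one, Matrix.one_apply, Matrix.one_apply]
    split_ifs <;> rfl
  map_mul' σ τ := by
    ext i j q
    change matZ (q : ℕ) hΔ (σ * τ) i j = _
    rw [map_mul, Matrix.mul_apply, Matrix.mul_apply, Finset.sum_apply]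
    rfl

/-- the representation `Gal(ℚ̄/ℚ) → GL₂(ℤ/N)` -/
def rhoN (hΔ : W.Δ ≠ 0) {N : ℕ} (hN : N ≠ 0) : Γq →* GL (Fin 2) (ZMod N) :=
  MonoidHom.toHomUnits ((proj hN).mapMatrix.toMonoidHom.comp (matR hΔ N))

theorem rhoN_coe (hΔ : W.Δ ≠ 0) {N : ℕ} (hN : N ≠ 0) (σ : Γq) :
    (rhoN hΔ hN σ : Matrix (Fin 2) (Fin 2) (ZMod N)) = (matR hΔ N σ).map (proj hN) := rfl

theorem trace_rhoN (hΔ : W.Δ ≠ 0) {N : ℕ} (hN : N ≠ 0) (σ : Γq) :
    (rhoN hΔ hN σ : Matrix (Fin 2) (Fin 2) (ZMod N)).trace =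
      proj hN (fun q => (matZ (q : ℕ) hΔ σ).trace) := by
  rw [rhoN_coe, trace_fin_two, Matrix.map_apply, Matrix.map_apply, ← map_add]
  congr 1
  funext q
  rw [trace_fin_two]
  rfl

theorem det_rhoN (hΔ : W.Δ ≠ 0) {N : ℕ} (hN : N ≠ 0) (σ : Γq) :
    (rhoN hΔ hN σ : Matrix (Fin 2) (Fin 2) (ZMod N)).det =
      proj hN (fun q => (matZ (q : ℕ) hΔ σ).det) := by
  rw [rhoN_coe, det_fin_two, Matrix.map_apply, Matrix.map_apply, Matrix.map_apply,
    Matrix.map_apply, ← map_mul, ← map_mul, ← map_sub]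
  congr 1
  funext q
  rw [det_fin_two]
  rfl

/-- the trace and the determinant of Frobenius -/
theorem trace_frob_rhoN (hΔ : W.Δ ≠ 0) {N : ℕ} (hN : N ≠ 0)
    (hirr : ∀ p : ℕ, p.Prime → p ∣ N → W.ModRepIsIrreducible p) {ℓ : ℕ} (hℓ : ℓ.Prime)
    (hℓΔ : ¬ (ℓ : ℤ) ∣ W.Δ) (hℓN : ¬ ℓ ∣ N) {A : ValuationSubring Qb} (hA : A.LiesOverPrime ℓ)
    {φ : Γq} (hφ : A.IsFrobeniusAt φ ℓ) :
    (rhoN hΔ hN φ : Matrix (Fin 2) (Fin 2) (ZMod N)).trace = W.apOfModel ℓ ∧
      (rhoN hΔ hN φ : Matrix (Fin 2) (Fin 2) (ZMod N)).det = ℓ := by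
  haveI := isElliptic_WQ hΔ
  have hq : ∀ q : N.primeFactors, ℓ ≠ q := by
    rintro ⟨q, hq⟩ rfl
    exact hℓN (Nat.dvd_of_mem_primeFactors hq)
  constructor
  · rw [trace_rhoN]
    have h1 : (fun q : N.primeFactors => (matZ (q : ℕ) hΔ φ).trace) =
        ((W.apOfModel ℓ : ℤ) : RN N) := by
      funext q
      rw [matZ_apply, trace_mtx]
      exact zRep_trace_frob hΔ (hirr q (Nat.prime_of_mem_primeFactors q.2) (Nat.dvd_of_mem_primeFactors q.2)) hℓ hℓΔ (hq q)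
        hA hφ
    rw [h1, map_intCast]
  · rw [det_rhoN]
    have h1 : (fun q : N.primeFactors => (matZ (q : ℕ) hΔ φ).det) = ((ℓ : ℕ) : RN N) := by
      funext q
      rw [matZ_apply, det_mtx]
      exact zRep_det_frob hΔ (hirr q (Nat.prime_of_mem_primeFactors q.2) (Nat.dvd_of_mem_primeFactors q.2)) hℓ (hq q) hA hφ
    rw [h1, map_natCast]

theorem isOpen_ker (hΔ : W.Δ ≠ 0) {N : ℕ} (hN : N ≠ 0) :
    IsOpen ((rhoN hΔ hN).ker : Set Γq) := by
  have hL : ∀ q : N.primeFactors, ∃ L : IntermediateField ℚ Qb, FiniteDimensional ℚ L ∧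
      ∀ σ τ : Γq, (∀ x ∈ L, σ x = τ x) →
        Cong (N.factorization q) (matZ (q : ℕ) hΔ σ) (matZ (q : ℕ) hΔ τ) :=
    fun q => exists_level hΔ _
  choose L hL1 hL2 using hL
  have hU : IsOpen ((⨅ q : N.primeFactors, (L q).fixingSubgroup : Subgroup Γq) : Set Γq) := by
    rw [Subgroup.coe_iInf]
    exact isOpen_iInter_of_finite fun q => IntermediateField.fixingSubgroup_isOpen (L q)
  refine Subgroup.isOpen_mono (fun σ hσ => ?_) hU
  rw [MonoidHom.mem_ker]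
  apply Units.ext
  rw [rhoN_coe, Units.val_one]
  ext i j
  rw [Matrix.map_apply]
  apply (ZMod.equivPi N hN).injective
  funext q
  rw [equivPi_proj]
  have h0 : σ ∈ (L q).fixingSubgroup := (Subgroup.mem_iInf.mp hσ) q
  have h1 := hL2 q σ 1 (fun x hx => (IntermediateField.mem_fixingSubgroup_iff _ _).mp h0 x hx)
  rw [map_one, cong_iff] at h1
  have h2 := h1 i j
  rw [← Ideal.mem_span_singleton, ← PadicInt.ker_toZModPow, RingHom.mem_ker, map_sub,
    sub_eq_zero] at h2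
  refine h2.trans ?_
  rw [Matrix.one_apply, Matrix.one_apply]
  split_ifs
  · rw [map_one, map_one]
    rfl
  · rw [_root_.map_zero, _root_.map_zero]
    rfl

theorem rhoN_surjective (hΔ : W.Δ ≠ 0) (hss : W.IsSemistableModel) {N : ℕ} (hN : N.Coprime 6)
    (hN0 : N ≠ 0) (hirr : ∀ p : ℕ, p.Prime → p ∣ N → W.ModRepIsIrreducible p) :
    Function.Surjective (rhoN hΔ hN0) := by
  classical
  intro g
  choose A hA using fun i j => proj_surjective hN0
    ((g : Matrix (Fin 2) (Fin 2) (ZMod N)) i j)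
  have hdet : ∀ q : N.primeFactors, IsUnit (Matrix.of fun i j => A i j q).det := by
    intro q
    have h1 : proj hN0 (Matrix.of A).det = (g : Matrix (Fin 2) (Fin 2) (ZMod N)).det := by
      rw [det_fin_two, det_fin_two, map_sub, map_mul, map_mul, Matrix.of_apply, Matrix.of_apply,
        Matrix.of_apply, Matrix.of_apply, hA, hA, hA, hA]
    have h2 : IsUnit (g : Matrix (Fin 2) (Fin 2) (ZMod N)).det :=
      (Matrix.isUnit_iff_isUnit_det _).mp g.isUnit
    have h3 : IsUnit (ZMod.equivPi N hN0 (g : Matrix (Fin 2) (Fin 2) (ZMod N)).det q) :=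
      (h2.map (ZMod.equivPi N hN0)).map (Pi.evalRingHom
        (fun q : N.primeFactors => ZMod ((q : ℕ) ^ N.factorization q)) q)
    rw [← h1, equivPi_proj] at h3
    have h4 : (Matrix.of A).det q = (Matrix.of fun i j => A i j q).det := by
      rw [det_fin_two, det_fin_two]
      rfl
    rw [h4] at h3
    rw [PadicInt.isUnit_iff]
    by_contra hne
    have h5 : ‖(Matrix.of fun i j => A i j q).det‖ < 1 :=
      lt_of_le_of_ne (PadicInt.norm_le_one _) hne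
    rw [PadicInt.norm_lt_one_iff_dvd] at h5
    have h6 := map_dvd (PadicInt.toZModPow (p := (q : ℕ)) (N.factorization q)) h5
    have h7 := isUnit_of_dvd_unit h6 h3
    rw [map_natCast, ZMod.isUnit_iff_coprime] at h7
    have hq := Nat.prime_of_mem_primeFactors q.2
    have h8 : 0 < N.factorization q :=
      hq.factorization_pos_of_dvd hN0 (Nat.dvd_of_mem_primeFactors q.2)
    have h9 := Nat.dvd_gcd (dvd_refl (q : ℕ)) (dvd_pow_self (q : ℕ) h8.ne')
    rw [h7] at h9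
    exact hq.one_lt.ne' (Nat.dvd_one.mp h9)
  obtain ⟨σ, hσ⟩ := exists_matZ_eq_adelic hΔ hss (N.primeFactors : Set ℕ) (by
      intro q hq
      have hq1 := Nat.prime_of_mem_primeFactors hq
      have hq2 := Nat.dvd_of_mem_primeFactors hq
      exact ⟨hq1, five_le_of_dvd hN hq1 hq2, hirr q hq1 hq2⟩)
    (fun q _ => if h : q ∈ N.primeFactors then
      (Matrix.of fun i j => A i j ⟨q, h⟩ : Matrix (Fin 2) (Fin 2) ℤ_[q]) else 1)
    (fun q _ hq => by
      rw [dif_pos (Finset.mem_coe.mp hq)]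
      exact hdet ⟨q, hq⟩)
  refine ⟨σ, Units.ext ?_⟩
  rw [rhoN_coe]
  ext i j
  rw [Matrix.map_apply, ← hA i j]
  congr 1
  funext q
  have h1 := hσ q q.2
  rw [dif_pos q.2] at h1
  change matZ (q : ℕ) hΔ σ i j = A i j q
  rw [h1]
  rfl

/-- **Joint distribution of `ℓ` and `a_ℓ` modulo `N`**: `W` semistable, `N` coprime to `6`, `W[p]` irreducible for all
primes `p ∣ N`: the set of primes `ℓ` with `ℓ ≡ d` and `a_ℓ(W) ≡ t (mod N)` has the Dirichlet density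
`#{M ∈ GL₂(ℤ/N) : tr M = t, det M = d} / #GL₂(ℤ/N)`. -/
theorem density_traces (W : WeierstrassCurve ℤ) (hΔ : W.Δ ≠ 0) (hss : W.IsSemistableModel)
    {N : ℕ} (hN : N.Coprime 6) (hirr : ∀ p : ℕ, p.Prime → p ∣ N → W.ModRepIsIrreducible p)
    (t d : ZMod N) :
    Cheb.HasDensity {ℓ : ℕ | (ℓ : ZMod N) = d ∧ (W.apOfModel ℓ : ZMod N) = t}
      ((Nat.card {M : GL (Fin 2) (ZMod N) //
        (M : Matrix (Fin 2) (Fin 2) (ZMod N)).trace = t ∧
          (M : Matrix (Fin 2) (Fin 2) (ZMod N)).det = d} : ℝ) /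
        Nat.card (GL (Fin 2) (ZMod N))) := by
  have hN0 : N ≠ 0 := by
    rintro rfl
    norm_num at hN
  refine Cheb.density_of_surjective (rhoN hΔ hN0) (isOpen_ker hΔ hN0)
    (rhoN_surjective hΔ hss hN hN0 hirr)
    {M : GL (Fin 2) (ZMod N) | (M : Matrix (Fin 2) (Fin 2) (ZMod N)).trace = t ∧
      (M : Matrix (Fin 2) (Fin 2) (ZMod N)).det = d} _ (W.Δ.natAbs.divisors ∪ N.divisors) ?_
  intro ℓ hℓ hℓZ A φ hA hφ
  rw [Finset.mem_union, not_or, Nat.mem_divisors, Nat.mem_divisors] at hℓZ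
  have h1 : ¬ (ℓ : ℤ) ∣ W.Δ := fun h => hℓZ.1 ⟨Int.natCast_dvd.mp h, Int.natAbs_ne_zero.mpr hΔ⟩
  have h2 : ¬ ℓ ∣ N := fun h => hℓZ.2 ⟨h, hN0⟩
  obtain ⟨h3, h4⟩ := trace_frob_rhoN hΔ hN0 hirr hℓ h1 h2 hA hφ
  change ((ℓ : ZMod N) = d ∧ (W.apOfModel ℓ : ZMod N) = t) ↔
    ((rhoN hΔ hN0 φ : Matrix (Fin 2) (Fin 2) (ZMod N)).trace = t ∧
      (rhoN hΔ hN0 φ : Matrix (Fin 2) (Fin 2) (ZMod N)).det = d)
  rw [h3, h4, and_comm]

/-- The density of the primes `ℓ` with `N ∣ #W(𝔽_ℓ)`. -/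
theorem density_dvd_card (W : WeierstrassCurve ℤ) (hΔ : W.Δ ≠ 0) (hss : W.IsSemistableModel)
    {N : ℕ} (hN : N.Coprime 6) (hirr : ∀ p : ℕ, p.Prime → p ∣ N → W.ModRepIsIrreducible p) :
    Cheb.HasDensity {ℓ : ℕ | (N : ℤ) ∣ ℓ + 1 - W.apOfModel ℓ}
      ((Nat.card {M : GL (Fin 2) (ZMod N) //
        (1 - (M : Matrix (Fin 2) (Fin 2) (ZMod N))).det = 0} : ℝ) /
        Nat.card (GL (Fin 2) (ZMod N))) := by
  have hN0 : N ≠ 0 := by
    rintro rfl
    norm_num at hN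
  refine Cheb.density_of_surjective (rhoN hΔ hN0) (isOpen_ker hΔ hN0)
    (rhoN_surjective hΔ hss hN hN0 hirr)
    {M : GL (Fin 2) (ZMod N) | (1 - (M : Matrix (Fin 2) (Fin 2) (ZMod N))).det = 0} _
    (W.Δ.natAbs.divisors ∪ N.divisors) ?_
  intro ℓ hℓ hℓZ A φ hA hφ
  rw [Finset.mem_union, not_or, Nat.mem_divisors, Nat.mem_divisors] at hℓZ
  have h1 : ¬ (ℓ : ℤ) ∣ W.Δ := fun h => hℓZ.1 ⟨Int.natCast_dvd.mp h, Int.natAbs_ne_zero.mpr hΔ⟩
  have h2 : ¬ ℓ ∣ N := fun h => hℓZ.2 ⟨h, hN0⟩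
  obtain ⟨h3, h4⟩ := trace_frob_rhoN hΔ hN0 hirr hℓ h1 h2 hA hφ
  change ((N : ℤ) ∣ ℓ + 1 - W.apOfModel ℓ) ↔
    (1 - (rhoN hΔ hN0 φ : Matrix (Fin 2) (Fin 2) (ZMod N))).det = 0
  have h5 : (1 - (rhoN hΔ hN0 φ : Matrix (Fin 2) (Fin 2) (ZMod N))).det =
      ((ℓ + 1 - W.apOfModel ℓ : ℤ) : ZMod N) := by
    have h6 : (1 - (rhoN hΔ hN0 φ : Matrix (Fin 2) (Fin 2) (ZMod N))).det =
        1 - (rhoN hΔ hN0 φ : Matrix (Fin 2) (Fin 2) (ZMod N)).trace +
          (rhoN hΔ hN0 φ : Matrix (Fin 2) (Fin 2) (ZMod N)).det := by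
      rw [det_fin_two, det_fin_two, trace_fin_two]
      simp only [Matrix.sub_apply, Matrix.one_apply_eq,
        Matrix.one_apply_ne (show (0 : Fin 2) ≠ 1 by decide),
        Matrix.one_apply_ne (show (1 : Fin 2) ≠ 0 by decide)]
      ring
    rw [h6, h3, h4]
    push_cast
    ring
  rw [h5]
  exact (ZMod.intCast_zmod_eq_zero_iff_dvd _ N).symm

/-- **Uniform version**: any semistable elliptic curve `W` over `ℚ`, any `N` all whose prime factors are `≥ 11` and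
`≠ 13`. -/
theorem density_traces_uniform (W : WeierstrassCurve ℤ) (hΔ : W.Δ ≠ 0)
    (hss : W.IsSemistableModel) {N : ℕ} (hN : ∀ p : ℕ, p.Prime → p ∣ N → 11 ≤ p ∧ p ≠ 13)
    (t d : ZMod N) :
    Cheb.HasDensity {ℓ : ℕ | (ℓ : ZMod N) = d ∧ (W.apOfModel ℓ : ZMod N) = t}
      ((Nat.card {M : GL (Fin 2) (ZMod N) //
        (M : Matrix (Fin 2) (Fin 2) (ZMod N)).trace = t ∧
          (M : Matrix (Fin 2) (Fin 2) (ZMod N)).det = d} : ℝ) /
        Nat.card (GL (Fin 2) (ZMod N))) :=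
  density_traces W hΔ hss (coprime_six_of hN) (fun p hp hpN =>
    Mazur.modRep_irreducible hΔ hss hp (hN p hp hpN).1 (hN p hp hpN).2) t d

/-- The curve `y² + xy + y = x³ - x` of conductor `14` and every modulus `N` coprime to `6`. -/
theorem density_traces_E14 {N : ℕ} (hN : N.Coprime 6) (t d : ZMod N) :
    Cheb.HasDensity {ℓ : ℕ | (ℓ : ZMod N) = d ∧ (GenusOne.E14.apOfModel ℓ : ZMod N) = t}
      ((Nat.card {M : GL (Fin 2) (ZMod N) //
        (M : Matrix (Fin 2) (Fin 2) (ZMod N)).trace = t ∧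
          (M : Matrix (Fin 2) (Fin 2) (ZMod N)).det = d} : ℝ) /
        Nat.card (GL (Fin 2) (ZMod N))) :=
  density_traces GenusOne.E14 (by rw [GenusOne.E14_Δ]; norm_num) GenusOne.E14_semistable hN
    (fun _ hp hpN => E14_irreducible hp (five_le_of_dvd hN hp hpN)) t d

end Fermat.Agent.Cor.FrobDensity
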