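import Fermat.Agent.Cor.SerreAll
import Fermat.Agent.Cor.Mazur
import Fermat.Agent.Cor.SurjAdic

/-!
# Semistable elliptic curves with full rational `2`-torsion: all primes `p ≥ 5`

Let `W` be a semistable elliptic curve over `ℚ` all of whose points of order two are rational. Then for every prime
`p ≥ 5` the Galois module `W[p]` is irreducible (`p = 5`, `13`: the discriminant is a square; `p = 7`: `X₀(28)`;
`p ≥ 11`, `p ≠ 13`: Mazur's theorem, `Cor/Mazur.lean`), and therefore the Galois group of `ℚ` acts on `W[p]` through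
the full group `GL₂(𝔽_p)`, and on `W[p ^ n]` through the full group `GL₂(ℤ/p^n)`. In particular this holds for all Frey
curves.

This file is not used by any of the statement files.
-/

set_option autoImplicit false

namespace Fermat.Agent.Cor.H11

open WeierstrassCurve WeierstrassCurve.Affine WeierstrassCurve.Affine.Point

/-- All points of order two of `W` are rational: `4 x³ + b₂ x² + 2 b₄ x + b₆ = 4 (x - e₁)(x - e₂)(x - e₃)`. -/
def HasFullTwo (W : WeierstrassCurve ℤ) : Prop :=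
  ∃ e1 e2 e3 : ℚ, (W.b₂ : ℚ) = -4 * (e1 + e2 + e3) ∧ (W.b₄ : ℚ) = 2 * (e1 * e2 + e2 * e3 + e3 * e1) ∧
    (W.b₆ : ℚ) = -4 * (e1 * e2 * e3)

theorem disc_of_fullTwo {W : WeierstrassCurve ℤ} {e1 e2 e3 : ℚ} (h2 : (W.b₂ : ℚ) = -4 * (e1 + e2 + e3))
    (h4 : (W.b₄ : ℚ) = 2 * (e1 * e2 + e2 * e3 + e3 * e1)) (h6 : (W.b₆ : ℚ) = -4 * (e1 * e2 * e3)) :
    (W.Δ : ℚ) = (4 * ((e1 - e2) * (e2 - e3) * (e3 - e1))) ^ 2 := by
  have h8 : 4 * (W.b₈ : ℚ) = W.b₂ * W.b₆ - W.b₄ ^ 2 := by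
    exact_mod_cast congrArg (Int.cast : ℤ → ℚ) W.b_relation
  have h8' : (W.b₈ : ℚ) = (W.b₂ * W.b₆ - W.b₄ ^ 2) / 4 := by rw [← h8]; ring
  have hΔ : (W.Δ : ℚ) = -(W.b₂ : ℚ) ^ 2 * W.b₈ - 8 * (W.b₄ : ℚ) ^ 3 - 27 * (W.b₆ : ℚ) ^ 2 +
      9 * W.b₂ * W.b₄ * W.b₆ := by
    rw [WeierstrassCurve.Δ]; push_cast; ring
  rw [hΔ, h8', h2, h4, h6]
  ring

/-- **Semistable elliptic curves with full rational `2`-torsion** have irreducible mod `p` representations for all
primes `p ≥ 5`. -/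
theorem irreducible_of_fullTwo {W : WeierstrassCurve ℤ} (hΔ : W.Δ ≠ 0) (hss : W.IsSemistableModel)
    (h : HasFullTwo W) {p : ℕ} (hp : p.Prime) (hp5 : 5 ≤ p) : W.ModRepIsIrreducible p := by
  obtain ⟨e1, e2, e3, h2, h4, h6⟩ := h
  have hD := disc_of_fullTwo h2 h4 h6
  have hΔQ : (W.Δ : ℚ) ≠ 0 := by exact_mod_cast hΔ
  have hne : (e1 - e2) * (e2 - e3) * (e3 - e1) ≠ 0 := by
    intro h0
    rw [h0] at hD
    exact hΔQ (by rw [hD]; norm_num)
  by_cases h5 : p = 5
  · subst h5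
    exact H23.K1.modRepIsIrreducible_five W hD hΔ
  by_cases h7 : p = 7
  · subst h7
    exact Seven.modRepIsIrreducible_seven W h2 h4 h6
      (sub_ne_zero.mp (left_ne_zero_of_mul (left_ne_zero_of_mul hne)))
      (sub_ne_zero.mp (right_ne_zero_of_mul (left_ne_zero_of_mul hne)))
      (sub_ne_zero.mp (right_ne_zero_of_mul hne)) hΔ
  by_cases h13 : p = 13
  · subst h13
    exact Thirteen.modRepIsIrreducible_thirteen W hD hΔ
  have hp11 : 11 ≤ p := by
    by_contra hlt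
    interval_cases p
    · exact h5 rfl
    · exact absurd hp (by norm_num)
    · exact h7 rfl
    · exact absurd hp (by norm_num)
    · exact absurd hp (by norm_num)
    · exact absurd hp (by norm_num)
  exact Mazur.modRep_irreducible hΔ hss hp hp11 h13

/-- A semistable elliptic curve whose discriminant is a square has irreducible mod `p` representations for all primes
`p ≥ 5`, `p ≠ 7`. -/
theorem irreducible_of_square_disc {W : WeierstrassCurve ℤ} (hΔ : W.Δ ≠ 0) (hss : W.IsSemistableModel)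
    {δ : ℚ} (hδ : (W.Δ : ℚ) = δ ^ 2) {p : ℕ} (hp : p.Prime) (hp5 : 5 ≤ p) (hp7 : p ≠ 7) :
    W.ModRepIsIrreducible p := by
  by_cases h5 : p = 5
  · subst h5
    exact H23.K1.modRepIsIrreducible_five W hδ hΔ
  by_cases h13 : p = 13
  · subst h13
    exact Thirteen.modRepIsIrreducible_thirteen W hδ hΔ
  have hp11 : 11 ≤ p := by
    by_contra hlt
    interval_cases p
    · exact h5 rfl
    · exact absurd hp (by norm_num)
    · exact hp7 rfl
    · exact absurd hp (by norm_num)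
    · exact absurd hp (by norm_num)
    · exact absurd hp (by norm_num)
  exact Mazur.modRep_irreducible hΔ hss hp hp11 h13

/-- **Surjectivity**: for a semistable elliptic curve with full rational `2`-torsion and a prime `p ≥ 5`, every
`𝔽_p`-linear automorphism of `W[p]` comes from the Galois group of `ℚ`. -/
theorem surjective_of_fullTwo {W : WeierstrassCurve ℤ} (hΔ : W.Δ ≠ 0) (hss : W.IsSemistableModel)
    (h : HasFullTwo W) {p : ℕ} (hp : p.Prime) (hp5 : 5 ≤ p)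
    (f : Submodule.torsionBy ℤ ((W.map (Int.castRingHom ℚ))⁄(AlgebraicClosure ℚ)).Point (p : ℤ) ≃ₗ[ZMod p]
      Submodule.torsionBy ℤ ((W.map (Int.castRingHom ℚ))⁄(AlgebraicClosure ℚ)).Point (p : ℤ)) :
    ∃ σ : AlgebraicClosure ℚ ≃ₐ[ℚ] AlgebraicClosure ℚ, ∀ x, σ • x = f x :=
  Surj.galois_surjective W hΔ hss hp (by omega) (irreducible_of_fullTwo hΔ hss h hp hp5) f

/-- **Surjectivity** modulo `p ^ n`. -/
theorem surjective_pow_of_fullTwo {W : WeierstrassCurve ℤ} (hΔ : W.Δ ≠ 0) (hss : W.IsSemistableModel)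
    (h : HasFullTwo W) {p : ℕ} (hp : p.Prime) (hp5 : 5 ≤ p) (n : ℕ)
    (f : Submodule.torsionBy ℤ ((W.map (Int.castRingHom ℚ))⁄(AlgebraicClosure ℚ)).Point ((p ^ n : ℕ) : ℤ) ≃+
      Submodule.torsionBy ℤ ((W.map (Int.castRingHom ℚ))⁄(AlgebraicClosure ℚ)).Point ((p ^ n : ℕ) : ℤ)) :
    ∃ σ : AlgebraicClosure ℚ ≃ₐ[ℚ] AlgebraicClosure ℚ, ∀ x, σ • x = f x :=
  Surj.galois_surjective_pow W hΔ hss hp hp5 (irreducible_of_fullTwo hΔ hss h hp hp5) n f

/-- The Frey curves have full rational `2`-torsion. -/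
theorem fullTwo_FreyAB {A B : ℤ} (hA : A % 4 = 3) (hB : (16 : ℤ) ∣ B) : HasFullTwo (FreyAB A B) := by
  refine ⟨0, (A : ℚ) / 4, -(B : ℚ) / 4, ?_, ?_, ?_⟩
  · rw [frey_b₂ hA hB]
    push_cast
    ring
  · have h1 := congrArg (Int.cast : ℤ → ℚ) (frey_b₄ (A := A) hB)
    push_cast at h1
    linear_combination (1 / 8) * h1
  · rw [frey_b₆]
    norm_num

/-- **All Frey curves** `y² = x (x - A) (x + B)` (`A`, `B` coprime, `A ≡ 3 mod 4`, `16 ∣ B`) have irreducible mod `p`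
representations for all primes `p ≥ 5`. -/
theorem irreducible_FreyAB {A B : ℤ} (hcop : IsCoprime A B) (hA : A % 4 = 3) (hB : (16 : ℤ) ∣ B)
    (h0 : A * B * (A + B) ≠ 0) {p : ℕ} (hp : p.Prime) (hp5 : 5 ≤ p) :
    (FreyAB A B).ModRepIsIrreducible p :=
  irreducible_of_fullTwo (frey_disc_ne hA hB h0) (frey_semistable hA hB hcop) (fullTwo_FreyAB hA hB)
    hp hp5

end Fermat.Agent.Cor.H11
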