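import Mathlib
import Fermat.Agent.Cor.InverseGalois

/-!
# The profinite group `∏_{p ≥ 5} GL₂(ℤ_p)` is a Galois group over `ℚ`

* `exists_field_adelic`: let `W` be a semistable elliptic curve over `ℚ` and `S` a set of primes `p ≥ 5` such that
  `W[p]` is irreducible for all `p ∈ S`. There is a Galois extension `K` of `ℚ` whose Galois group is isomorphic, as a
  topological group, to `∏_{p ∈ S} GL₂(ℤ_p)`.
* `inverse_galois_adelic`: `∏_{p ≥ 5} GL₂(ℤ_p)` is a Galois group over `ℚ` (the curve `y² + xy + y = x³ - x`).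
* `inverse_galois_adic`: `GL₂(ℤ_p)` is a Galois group over `ℚ` for every prime `p ≥ 5`.

This file is not used by any of the statement files.
-/

set_option autoImplicit false
set_option linter.style.haveILetI false

noncomputable section

namespace Fermat.Agent.Cor.InverseGalois

open WeierstrassCurve WeierstrassCurve.Affine WeierstrassCurve.Affine.Point
open Fermat.Agent.Ell Fermat.Agent.Cor.Surj
open Fermat.Agent.Cor.GenusOne (E14 E14_Δ E14_semistable)

local notation "Qb" => AlgebraicClosure ℚ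
local notation "Γq" => AlgebraicClosure ℚ ≃ₐ[ℚ] AlgebraicClosure ℚ

/-- the primes in a set -/
abbrev PS (S : Set ℕ) : Type := {q : ℕ // q.Prime ∧ q ∈ S}

instance factPS {S : Set ℕ} (q : PS S) : Fact (q : ℕ).Prime := ⟨q.2.1⟩

variable {W : WeierstrassCurve ℤ}

/-- The representation on the Tate module is continuous. -/
theorem continuous_matZ (hΔ : W.Δ ≠ 0) {p : ℕ} [hp : Fact p.Prime] :
    Continuous (matZ p hΔ : Γq → Matrix (Fin 2) (Fin 2) ℤ_[p]) := by
  refine continuous_matrix fun i j => ?_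
  rw [continuous_iff_continuousAt]
  intro σ
  rw [Metric.continuousAt_iff']
  intro ε hε
  obtain ⟨n, hn⟩ := PadicInt.exists_pow_neg_lt p hε
  obtain ⟨L, hL, h⟩ := exists_level (p := p) hΔ n
  have ho : IsOpen ((fun τ : Γq => σ⁻¹ * τ) ⁻¹' (L.fixingSubgroup : Set Γq)) :=
    (IntermediateField.fixingSubgroup_isOpen L).preimage (continuous_const_mul _)
  have hσm : σ ∈ (fun τ : Γq => σ⁻¹ * τ) ⁻¹' (L.fixingSubgroup : Set Γq) := by
    change σ⁻¹ * σ ∈ L.fixingSubgroup
    rw [inv_mul_cancel]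
    exact one_mem _
  filter_upwards [ho.mem_nhds hσm] with τ hτ
  have h1 : Cong n (matZ p hΔ τ) (matZ p hΔ σ) := by
    refine h τ σ (fun x hx => ?_)
    have h1 : (σ⁻¹ * τ) x = x := (IntermediateField.mem_fixingSubgroup_iff L _).mp hτ x hx
    have h2 := congrArg σ h1
    rwa [← AlgEquiv.mul_apply, mul_inv_cancel_left] at h2
  have h2 := cong_iff.mp h1 i j
  rw [← Ideal.mem_span_singleton, ← PadicInt.norm_le_pow_iff_mem_span_pow] at h2
  rw [dist_eq_norm]
  exact h2.trans_lt hn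

/-- the adelic representation -/
def rhoAd (hΔ : W.Δ ≠ 0) (S : Set ℕ) : Γq →* (∀ q : PS S, GL (Fin 2) ℤ_[(q : ℕ)]) :=
  MonoidHom.pi fun q => MonoidHom.toHomUnits (matZ (q : ℕ) hΔ)

theorem continuous_rhoAd (hΔ : W.Δ ≠ 0) (S : Set ℕ) : Continuous (rhoAd hΔ S) := by
  refine continuous_pi fun q => ?_
  rw [Units.continuous_iff]
  constructor
  · exact continuous_matZ hΔ
  · have h : (fun σ : Γq => (((rhoAd hΔ S σ q)⁻¹ : GL (Fin 2) ℤ_[(q : ℕ)]) :
        Matrix (Fin 2) (Fin 2) ℤ_[(q : ℕ)])) = fun σ => matZ (q : ℕ) hΔ σ⁻¹ := by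
      funext σ
      have : (rhoAd hΔ S σ q)⁻¹ = rhoAd hΔ S σ⁻¹ q := by
        rw [map_inv]
        rfl
      rw [this]
      rfl
    exact h ▸ (continuous_matZ hΔ).comp continuous_inv

theorem rhoAd_surjective (hΔ : W.Δ ≠ 0) (hss : W.IsSemistableModel) (S : Set ℕ)
    (hS : ∀ q ∈ S, q.Prime → 5 ≤ q ∧ W.ModRepIsIrreducible q) :
    Function.Surjective (rhoAd hΔ S) := by
  classical
  intro g
  obtain ⟨σ, hσ⟩ := exists_matZ_eq_adelic hΔ hss {q | q.Prime ∧ q ∈ S}
    (fun q hq => ⟨hq.1, hS q hq.2 hq.1⟩)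
    (fun q _ => if h : q.Prime ∧ q ∈ S then
      ((g ⟨q, h⟩ : GL (Fin 2) ℤ_[q]) : Matrix (Fin 2) (Fin 2) ℤ_[q]) else 1)
    (fun q _ hq => by
      have hq' : q.Prime ∧ q ∈ S := hq
      rw [dif_pos hq']
      exact (Matrix.isUnit_iff_isUnit_det _).mp (g ⟨q, hq'⟩).isUnit)
  refine ⟨σ, funext fun q => Units.ext ?_⟩
  have h1 := hσ q q.2
  rw [dif_pos q.2] at h1
  exact h1

/-- A Hausdorff topological group which is a continuous quotient of `Gal(Ω/k)` is the Galois group of a Galois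
extension of `k`. -/
theorem exists_field_top_aux {k Ω : Type*} [Field k] [Field Ω] [Algebra k Ω] [IsGalois k Ω]
    {G : Type*} [Group G] [TopologicalSpace G] [T2Space G] (f : (Ω ≃ₐ[k] Ω) →* G)
    (hf : Function.Surjective f) (hc : Continuous f) :
    ∃ K : IntermediateField k Ω, IsGalois k K ∧ Nonempty ((K ≃ₐ[k] K) ≃ₜ* G) := by
  have hcl : IsClosed (f.ker : Set (Ω ≃ₐ[k] Ω)) := (isClosed_singleton (x := (1 : G))).preimage hc
  let H : ClosedSubgroup (Ω ≃ₐ[k] Ω) := ⟨f.ker, hcl⟩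
  haveI : H.Normal := inferInstanceAs f.ker.Normal
  have hK : (IntermediateField.fixedField H.1).fixingSubgroup = H.1 :=
    InfiniteGalois.fixingSubgroup_fixedField H
  haveI hgal : IsGalois k (IntermediateField.fixedField H.1) := by
    refine (InfiniteGalois.normal_iff_isGalois _).mp ?_
    rw [hK]
    exact inferInstanceAs f.ker.Normal
  let e : Gal((IntermediateField.fixedField H.1)/k) ≃* G :=
    (InfiniteGalois.normalAutEquivQuotient H).symm.trans
      (QuotientGroup.quotientKerEquivOfSurjective f hf)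
  let r : (Ω ≃ₐ[k] Ω) →* Gal((IntermediateField.fixedField H.1)/k) :=
    AlgEquiv.restrictNormalHom (IntermediateField.fixedField H.1)
  have her : ∀ σ, e (r σ) = f σ := by
    intro σ
    have h1 : (InfiniteGalois.normalAutEquivQuotient H).symm (r σ) = (σ : (Ω ≃ₐ[k] Ω) ⧸ H.1) := by
      rw [MulEquiv.symm_apply_eq]
      exact (InfiniteGalois.normalAutEquivQuotient_apply H σ).symm
    change QuotientGroup.quotientKerEquivOfSurjective f hf
      ((InfiniteGalois.normalAutEquivQuotient H).symm (r σ)) = f σ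
    rw [h1]
    rfl
  have hrc : Continuous r := InfiniteGalois.restrictNormalHom_continuous _
  have hrs : Function.Surjective r := AlgEquiv.restrictNormalHom_surjective Ω
  have hq : Topology.IsQuotientMap r := hrc.isClosedMap.isQuotientMap hrc hrs
  have hec : Continuous e := by
    rw [hq.continuous_iff]
    have : (e : _ → G) ∘ r = f := funext her
    rw [this]
    exact hc
  exact ⟨IntermediateField.fixedField H.1, hgal, ⟨{ e with
    continuous_toFun := hec
    continuous_invFun := (hec.homeoOfEquivCompactToT2 (f := e.toEquiv)).symm.continuous }⟩⟩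

/-- The case of `ℚ`. -/
theorem exists_field_top {G : Type*} [Group G] [TopologicalSpace G] [T2Space G] (f : Γq →* G)
    (hf : Function.Surjective f) (hc : Continuous f) :
    ∃ K : IntermediateField ℚ (AlgebraicClosure ℚ), IsGalois ℚ K ∧
      Nonempty ((K ≃ₐ[ℚ] K) ≃ₜ* G) :=
  exists_field_top_aux f hf hc

/-- **Adelic inverse Galois problem**: `W` semistable, `S` a set of primes `p ≥ 5` with `W[p]` irreducible: the
topological group `∏_{p ∈ S} GL₂(ℤ_p)` is a Galois group over `ℚ`. -/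
theorem exists_field_adelic (W : WeierstrassCurve ℤ) (hΔ : W.Δ ≠ 0) (hss : W.IsSemistableModel)
    (S : Set ℕ) (hS : ∀ q ∈ S, q.Prime → 5 ≤ q ∧ W.ModRepIsIrreducible q) :
    ∃ K : IntermediateField ℚ (AlgebraicClosure ℚ), IsGalois ℚ K ∧
      Nonempty ((K ≃ₐ[ℚ] K) ≃ₜ* (∀ q : PS S, GL (Fin 2) ℤ_[(q : ℕ)])) :=
  exists_field_top (rhoAd hΔ S) (rhoAd_surjective hΔ hss S hS) (continuous_rhoAd hΔ S)

/-- **The profinite group `∏_{p ≥ 5} GL₂(ℤ_p)`** is a Galois group over `ℚ`. -/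
theorem inverse_galois_adelic :
    ∃ K : IntermediateField ℚ (AlgebraicClosure ℚ), IsGalois ℚ K ∧
      Nonempty ((K ≃ₐ[ℚ] K) ≃ₜ* (∀ q : PS {p | 5 ≤ p}, GL (Fin 2) ℤ_[(q : ℕ)])) :=
  exists_field_adelic E14 (by rw [E14_Δ]; norm_num) E14_semistable _
    fun _ hq hqp => ⟨hq, E14_irreducible hqp hq⟩

/-- **`GL₂(ℤ_p)`** is a Galois group over `ℚ` for every prime `p ≥ 5`. -/
theorem inverse_galois_adic (p : ℕ) [hp : Fact p.Prime] (hp5 : 5 ≤ p) :
    ∃ K : IntermediateField ℚ (AlgebraicClosure ℚ), IsGalois ℚ K ∧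
      Nonempty ((K ≃ₐ[ℚ] K) ≃ₜ* GL (Fin 2) ℤ_[p]) := by
  have hirr := E14_irreducible hp.out hp5
  have hΔ : E14.Δ ≠ 0 := by rw [E14_Δ]; norm_num
  refine exists_field_top (MonoidHom.toHomUnits (matZ p hΔ)) (fun g => ?_) ?_
  · obtain ⟨σ, hσ⟩ := exists_matZ_eq hΔ E14_semistable hirr hp5
      (g : Matrix (Fin 2) (Fin 2) ℤ_[p]) ((Matrix.isUnit_iff_isUnit_det _).mp g.isUnit)
    exact ⟨σ, Units.ext hσ⟩
  · rw [Units.continuous_iff]
    constructor
    · exact continuous_matZ hΔ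
    · have h : (fun σ : Γq => (((MonoidHom.toHomUnits (matZ p hΔ) σ)⁻¹ : GL (Fin 2) ℤ_[p]) :
          Matrix (Fin 2) (Fin 2) ℤ_[p])) = fun σ => matZ p hΔ σ⁻¹ := by
        funext σ
        rw [← map_inv]
        rfl
      exact h ▸ (continuous_matZ hΔ).comp continuous_inv

end Fermat.Agent.Cor.InverseGalois
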