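import Mathlib
import Fermat.Agent.Cor.AdelicMazur

/-!
# Division points of semistable elliptic curves are not solvable by radicals

Let `W` be a semistable elliptic curve over `ℚ` and `p ≥ 5` a prime with `W[p]` irreducible (by Mazur's theorem for
semistable curves, any prime `p ≥ 11`, `p ≠ 13`).

* `no_torsion_solvable`: for every Galois extension `K` of `ℚ`, finite or infinite, whose Galois group is solvable,
  `W(K)` has no point of order `p`;
* `x_not_rad`, `y_not_rad`: let `P = (x, y)` be a point of order `p` of `W` over `ℚ̄`. Then neither `x` nor `y` is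
  expressible by radicals over `ℚ` (Mathlib's `solvableByRad`).

This file is not used by any of the statement files.
-/

set_option autoImplicit false
set_option linter.style.haveILetI false

noncomputable section

namespace Fermat.Agent.Cor.Radicals

open WeierstrassCurve WeierstrassCurve.Affine WeierstrassCurve.Affine.Point Polynomial
open Fermat.Agent.Ell Fermat.Agent.H12.LL Fermat.Agent.Cor.Surj Matrix
open Fermat.Agent.EGal (VV rho)
open scoped commutatorElement

local notation "Qb" => AlgebraicClosure ℚ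
local notation "Γq" => AlgebraicClosure ℚ ≃ₐ[ℚ] AlgebraicClosure ℚ

variable {W : WeierstrassCurve ℤ} {p : ℕ} [hp : Fact p.Prime]

/-- surjectivity modulo `p` in terms of matrices -/
theorem exists_mat_eq (hΔ : W.Δ ≠ 0) (hss : W.IsSemistableModel) (hirr : W.ModRepIsIrreducible p)
    (hp2 : p ≠ 2) (A : Matrix (Fin 2) (Fin 2) (ZMod p)) (hA : A.det ≠ 0) :
    ∃ σ : Γq, mat p hΔ σ = A := by
  haveI := isElliptic_WQ hΔ
  haveI : Module.Finite (ZMod p) (VV (WQ W) p) := .of_basis (redBasis (tB (p := p) hΔ))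
  set m := mtx (redBasis (tB (p := p) hΔ)) with hm
  have hf : m (m.symm A) = A := m.apply_symm_apply _
  have hdet : LinearMap.det (m.symm A) ≠ 0 := by
    rw [← det_mtx (redBasis (tB (p := p) hΔ)), ← hm, hf]
    exact hA
  obtain ⟨σ, hσ⟩ := surjective hΔ hss hirr hp2 (LinearMap.equivOfDetNeZero _ hdet)
  have h1 : rho (WQ W) p σ = m.symm A := LinearMap.ext hσ
  exact ⟨σ, by rw [mat_eq, h1, ← hm, hf]⟩

/-- **All the derived subgroups** of `Gal(ℚ̄/ℚ)` have an image containing `SL₂(𝔽_p)`. -/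
theorem exists_derived (hΔ : W.Δ ≠ 0) (hss : W.IsSemistableModel)
    (hirr : W.ModRepIsIrreducible p) (hp5 : 5 ≤ p) (n : ℕ) (B : Matrix (Fin 2) (Fin 2) (ZMod p))
    (hB : B.det = 1) : ∃ σ ∈ derivedSeries Γq n, mat p hΔ σ = B := by
  induction n generalizing B with
  | zero =>
    obtain ⟨σ, hσ⟩ := exists_mat_eq hΔ hss hirr (by omega) B (by rw [hB]; exact one_ne_zero)
    exact ⟨σ, Subgroup.mem_top _, hσ⟩
  | succ n ih =>
    have hcast : ∀ k : ℕ, 0 < k → k < p → (k : ZMod p) ≠ 0 := by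
      intro k hk hkp h
      rw [ZMod.natCast_eq_zero_iff] at h
      exact absurd (Nat.le_of_dvd hk h) (by omega)
    have h2 : (2 : ZMod p) ≠ 0 := by exact_mod_cast hcast 2 (by omega) (by omega)
    have h3 : (3 : ZMod p) ≠ 0 := by exact_mod_cast hcast 3 (by omega) (by omega)
    let S : Submonoid (Matrix (Fin 2) (Fin 2) (ZMod p)) :=
      { carrier := {B | ∃ σ ∈ derivedSeries Γq (n + 1), mat p hΔ σ = B}
        one_mem' := ⟨1, one_mem _, map_one _⟩
        mul_mem' := by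
          rintro _ _ ⟨σ, h1, rfl⟩ ⟨τ, h1', rfl⟩
          exact ⟨σ * τ, mul_mem h1 h1', map_mul _ _ _⟩ }
    -- commutators
    have key : ∀ U D X : Matrix (Fin 2) (Fin 2) (ZMod p), U.det = 1 → D.det = 1 →
        X * (U * D) = D * U → X ∈ S := by
      intro U D X hU hD hX
      obtain ⟨σ, h1, h1'⟩ := ih D hD
      obtain ⟨τ, h4, h4'⟩ := ih U hU
      refine ⟨⁅σ, τ⁆, Subgroup.commutator_mem_commutator h1 h4, ?_⟩
      have e1 : mat p hΔ ⁅σ, τ⁆ * (U * D) = D * U := by
        rw [← h1', ← h4', ← map_mul, ← map_mul, ← map_mul, commutatorElement_def]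
        congr 1
        group
      have e2 : IsUnit (U * D) := by
        rw [Matrix.isUnit_iff_isUnit_det, det_mul, hU, hD, one_mul]
        exact isUnit_one
      exact e2.mul_right_cancel (e1.trans hX.symm)
    have hmem : B ∈ S := by
      refine mem_of_det_one S (fun x => ?_) (fun x => ?_) hB
      · refine key !![1, x / 3; 0, 1] !![2, 0; 0, 1 / 2] _ (by simp [det_fin_two])
          (by rw [det_fin_two_of]; field_simp; ring) ?_
        ext i j
        fin_cases i <;> fin_cases j <;> simp [Matrix.mul_apply, Fin.sum_univ_two]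
        field_simp
        ring
      · refine key !![1, 0; x / 3, 1] !![1 / 2, 0; 0, 2] _ (by simp [det_fin_two])
          (by rw [det_fin_two_of]; field_simp; ring) ?_
        ext i j
        fin_cases i <;> fin_cases j <;> simp [Matrix.mul_apply, Fin.sum_univ_two]
        field_simp
        ring
    exact hmem

/-- Every nonzero point of `W[p]` is moved by a transvection in the `n`-th derived subgroup. -/
theorem exists_move (hΔ : W.Δ ≠ 0) (hss : W.IsSemistableModel) (hirr : W.ModRepIsIrreducible p)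
    (hp5 : 5 ≤ p) (n : ℕ) (x : VV (WQ W) p) (hx : x ≠ 0) :
    ∃ σ ∈ derivedSeries Γq n, ∃ Q : VV (WQ W) p, Q ≠ 0 ∧ σ • x = x + Q ∧ σ • Q = Q := by
  haveI := isElliptic_WQ hΔ
  obtain ⟨σ, hσ, hσm⟩ := exists_derived hΔ hss hirr hp5 n !![1, 1; 0, 1] (by simp [det_fin_two])
  obtain ⟨τ, hτ, hτm⟩ := exists_derived hΔ hss hirr hp5 n !![1, 0; 1, 1] (by simp [det_fin_two])
  set m := mtx (redBasis (tB (p := p) hΔ)) with hm
  set e : Module.End (ZMod p) (VV (WQ W) p) := rho (WQ W) p σ - 1 with he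
  set f : Module.End (ZMod p) (VV (WQ W) p) := rho (WQ W) p τ - 1 with hf
  have hme : m e = !![1, 1; 0, 1] - 1 := by
    rw [he, map_sub, map_one, ← hσm, mat_eq hΔ σ]
  have hmf : m f = !![1, 0; 1, 1] - 1 := by
    rw [hf, map_sub, map_one, ← hτm, mat_eq hΔ τ]
  have h1 : e * f + f * e = 1 := by
    apply m.injective
    rw [map_add, map_mul, map_mul, hme, hmf, map_one]
    ext i j
    fin_cases i <;> fin_cases j <;> simp [Matrix.mul_apply, Fin.sum_univ_two]
  have hee : e * e = 0 := by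
    apply m.injective
    rw [map_mul, hme, _root_.map_zero]
    ext i j
    fin_cases i <;> fin_cases j <;> simp [Matrix.mul_apply, Fin.sum_univ_two]
  have hff : f * f = 0 := by
    apply m.injective
    rw [map_mul, hmf, _root_.map_zero]
    ext i j
    fin_cases i <;> fin_cases j <;> simp [Matrix.mul_apply, Fin.sum_univ_two]
  have h2 : e (f x) + f (e x) = x := by
    have := congrArg (fun g : Module.End (ZMod p) (VV (WQ W) p) => g x) h1
    exact this
  by_cases hex : e x = 0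
  · have hfx : f x ≠ 0 := by
      intro hfx
      apply hx
      rw [← h2, hex, hfx, LinearMap.map_zero, LinearMap.map_zero, add_zero]
    refine ⟨τ, hτ, f x, hfx, ?_, ?_⟩
    · change τ • x = x + (τ • x - x)
      abel
    · have h3 : f (f x) = 0 := congrArg (fun g : Module.End (ZMod p) (VV (WQ W) p) => g x) hff
      change τ • (f x) - f x = 0 at h3
      exact sub_eq_zero.mp h3
  · refine ⟨σ, hσ, e x, hex, ?_, ?_⟩
    · change σ • x = x + (σ • x - x)
      abel
    · have h3 : e (e x) = 0 := congrArg (fun g : Module.End (ZMod p) (VV (WQ W) p) => g x) hee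
      change σ • (e x) - e x = 0 at h3
      exact sub_eq_zero.mp h3

/-- the automorphisms in the `n`-th derived subgroup fix a point of `W[p]` only if it is `0` -/
theorem eq_zero_of_fixed (W : WeierstrassCurve ℤ) (hΔ : W.Δ ≠ 0) (hss : W.IsSemistableModel)
    {p : ℕ} (hp : p.Prime) (hp5 : 5 ≤ p) (hirr : W.ModRepIsIrreducible p) (n : ℕ)
    (x : ((W.map (Int.castRingHom ℚ))⁄(AlgebraicClosure ℚ)).Point) (hpx : p • x = 0)
    (hx : ∀ σ ∈ derivedSeries (AlgebraicClosure ℚ ≃ₐ[ℚ] AlgebraicClosure ℚ) n, σ • x = x) :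
    x = 0 := by
  haveI : Fact p.Prime := ⟨hp⟩
  by_contra h0
  have hmem : x ∈ Submodule.torsionBy ℤ (Pts (WQ W)) (p : ℤ) := by
    rw [Submodule.mem_torsionBy_iff, natCast_zsmul]
    exact hpx
  obtain ⟨σ, hσ, Q, hQ0, h1, -⟩ := exists_move hΔ hss hirr hp5 n ⟨x, hmem⟩
    (fun h => h0 (congrArg Subtype.val h))
  apply hQ0
  have h2 : σ • (⟨x, hmem⟩ : VV (WQ W) p) = ⟨x, hmem⟩ := Subtype.ext (hx σ hσ)
  rw [h2] at h1
  exact (left_eq_add.mp h1)

/-- **No torsion over solvable extensions**: let `W` be a semistable elliptic curve over `ℚ`, `p ≥ 5` a prime with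
`W[p]` irreducible and `K` a Galois extension of `ℚ` (finite or infinite) with solvable Galois group. Then `W(K)` has
no point of order `p`. -/
theorem no_torsion_solvable (W : WeierstrassCurve ℤ) (hΔ : W.Δ ≠ 0) (hss : W.IsSemistableModel)
    {p : ℕ} (hp : p.Prime) (hp5 : 5 ≤ p) (hirr : W.ModRepIsIrreducible p) (K : Type*) [Field K]
    [DecidableEq K] [Algebra ℚ K] [IsGalois ℚ K] [Group.IsSolvable (K ≃ₐ[ℚ] K)]
    (P : ((W.map (Int.castRingHom ℚ))⁄K).Point) (hP : p • P = 0) : P = 0 := by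
  classical
  let i : K →ₐ[ℚ] Qb := IsAlgClosed.lift
  obtain ⟨n, hn⟩ := Group.IsSolvable.solvable (G := K ≃ₐ[ℚ] K)
  have hfix : ∀ σ ∈ derivedSeries Γq n, ∀ x : K, σ (i x) = i x := by
    intro σ hσ x
    letI : Algebra K Qb := i.toRingHom.toAlgebra
    haveI : IsScalarTower ℚ K Qb := IsScalarTower.of_algebraMap_eq fun x => (i.commutes x).symm
    have h1 : AlgEquiv.restrictNormalHom K σ ∈ derivedSeries (K ≃ₐ[ℚ] K) n :=
      map_derivedSeries_le_derivedSeries (AlgEquiv.restrictNormalHom K) n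
        (Subgroup.mem_map_of_mem _ hσ)
    rw [hn, Subgroup.mem_bot] at h1
    have h3 := AlgEquiv.restrictNormal_commutes σ K x
    have h4 : σ.restrictNormal K = 1 := h1
    rw [h4] at h3
    exact h3.symm
  apply Point.map_injective (W' := W.map (Int.castRingHom ℚ)) i
  rw [Point.map_zero]
  have h1 : p • Point.map (W' := W.map (Int.castRingHom ℚ)) i P = 0 := by
    rw [← map_nsmul, hP, Point.map_zero]
  refine eq_zero_of_fixed W hΔ hss hp hp5 hirr n _ h1 (fun σ hσ => ?_)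
  rw [algEquiv_smul_def, Point.map_map]
  exact congrArg (fun g : K →ₐ[ℚ] Qb => Point.map (W' := W.map (Int.castRingHom ℚ)) g P)
    (AlgHom.ext fun x => hfix σ hσ x)

/-- Uniform version: all semistable curves, all primes `p ≥ 11`, `p ≠ 13`. -/
theorem no_torsion_solvable_uniform (W : WeierstrassCurve ℤ) (hΔ : W.Δ ≠ 0)
    (hss : W.IsSemistableModel) {p : ℕ} (hp : p.Prime) (hp11 : 11 ≤ p) (hp13 : p ≠ 13)
    (K : Type*) [Field K] [DecidableEq K] [Algebra ℚ K] [IsGalois ℚ K]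
    [Group.IsSolvable (K ≃ₐ[ℚ] K)] (P : ((W.map (Int.castRingHom ℚ))⁄K).Point)
    (hP : p • P = 0) : P = 0 :=
  no_torsion_solvable W hΔ hss hp (by omega) (Mazur.modRep_irreducible hΔ hss hp hp11 hp13) K P hP

/-- An algebraic number which is expressible by radicals is fixed by some derived subgroup. -/
theorem exists_fixed_of_rad {α : Qb} (hα : α ∈ solvableByRad ℚ Qb) :
    ∃ n, ∀ σ ∈ derivedSeries Γq n, σ α = α := by
  haveI : Group.IsSolvable (minpoly ℚ α).Gal := isSolvable_gal_minpoly hα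
  obtain ⟨n, hn⟩ := Group.IsSolvable.solvable (G := (minpoly ℚ α).Gal)
  haveI : Fact (((minpoly ℚ α).map (algebraMap ℚ Qb)).Splits) := ⟨IsAlgClosed.splits _⟩
  refine ⟨n, fun σ hσ => ?_⟩
  have h1 : Polynomial.Gal.restrict (minpoly ℚ α) Qb σ ∈ derivedSeries (minpoly ℚ α).Gal n :=
    map_derivedSeries_le_derivedSeries (Polynomial.Gal.restrict (minpoly ℚ α) Qb) n
      (Subgroup.mem_map_of_mem _ hσ)
  rw [hn, Subgroup.mem_bot] at h1
  have hroot : α ∈ (minpoly ℚ α).rootSet Qb := by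
    rw [Polynomial.mem_rootSet_of_ne (minpoly.ne_zero (Algebra.IsIntegral.isIntegral α))]
    exact minpoly.aeval ℚ α
  have h2 := Polynomial.Gal.restrict_smul (p := minpoly ℚ α) (E := Qb) σ ⟨α, hroot⟩
  rw [h1, one_smul] at h2
  exact h2.symm

/-- A monic cubic polynomial over a field does not have four distinct roots. -/
theorem cubic_four {K : Type*} [Field K] {a b c x₀ x₁ x₂ x₃ : K}
    (h0 : x₀ ^ 3 + a * x₀ ^ 2 + b * x₀ + c = 0) (h1 : x₁ ^ 3 + a * x₁ ^ 2 + b * x₁ + c = 0)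
    (h2 : x₂ ^ 3 + a * x₂ ^ 2 + b * x₂ + c = 0) (h3 : x₃ ^ 3 + a * x₃ ^ 2 + b * x₃ + c = 0)
    (h01 : x₀ ≠ x₁) (h02 : x₀ ≠ x₂) (h03 : x₀ ≠ x₃) (h12 : x₁ ≠ x₂) (h13 : x₁ ≠ x₃)
    (h23 : x₂ ≠ x₃) : False := by
  have key : ∀ t : K, x₀ ≠ t → t ^ 3 + a * t ^ 2 + b * t + c = 0 →
      t ^ 2 + t * x₀ + x₀ ^ 2 + a * (t + x₀) + b = 0 := by
    intro t ht h
    apply mul_left_cancel₀ (sub_ne_zero.mpr ht.symm)
    linear_combination h - h0
  have key' : ∀ t : K, x₁ ≠ t → x₀ ≠ t → t ^ 3 + a * t ^ 2 + b * t + c = 0 →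
      t + x₁ + x₀ + a = 0 := by
    intro t ht ht0 h
    apply mul_left_cancel₀ (sub_ne_zero.mpr ht.symm)
    linear_combination key t ht0 h - key x₁ h01 h1
  apply h23
  linear_combination key' x₂ h12 h02 h2 - key' x₃ h13 h03 h3

/-- **The `y`-coordinate** of a point of order `p` is not expressible by radicals. -/
theorem y_not_rad (W : WeierstrassCurve ℤ) (hΔ : W.Δ ≠ 0) (hss : W.IsSemistableModel)
    {p : ℕ} (hp : p.Prime) (hp5 : 5 ≤ p) (hirr : W.ModRepIsIrreducible p)
    {x y : AlgebraicClosure ℚ}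
    (h : ((W.map (Int.castRingHom ℚ))⁄(AlgebraicClosure ℚ)).Nonsingular x y)
    (hP : p • (Point.some x y h) = 0) : y ∉ solvableByRad ℚ (AlgebraicClosure ℚ) := by
  intro hy
  haveI : Fact p.Prime := ⟨hp⟩
  obtain ⟨n, hn⟩ := exists_fixed_of_rad hy
  set P : Pts (WQ W) := Point.some x y h with hPdef
  have hP0 : P ≠ 0 := Point.some_ne_zero h
  have hmem : P ∈ Submodule.torsionBy ℤ (Pts (WQ W)) (p : ℤ) := by
    rw [Submodule.mem_torsionBy_iff, natCast_zsmul]
    exact hP
  obtain ⟨σ, hσ, Q, hQ0, h1, h2⟩ := exists_move hΔ hss hirr hp5 n ⟨P, hmem⟩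
    (fun h' => hP0 (congrArg Subtype.val h'))
  -- the orbit
  have hk : ∀ k : ℕ, (σ ^ k) • (⟨P, hmem⟩ : VV (WQ W) p) = ⟨P, hmem⟩ + k • Q := by
    intro k
    induction k with
    | zero => rw [pow_zero, one_smul, zero_smul, add_zero]
    | succ k ih =>
      have h3 : σ • (k • Q) = k • (σ • Q) :=
        map_nsmul (DistribSMul.toAddMonoidHom (VV (WQ W) p) σ) k Q
      rw [pow_succ', mul_smul, ih, smul_add, h1, h3, h2, add_smul, one_smul]
      abel
  have hinj : ∀ i j : ℕ, i < j → j < 4 → (σ ^ i) x ≠ (σ ^ j) x := by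
    intro i j hij hj he
    have hy' : ∀ k : ℕ, (σ ^ k) y = y := fun k => hn _ (pow_mem hσ k)
    have h4 : (σ ^ i) • P = (σ ^ j) • P := by
      rw [hPdef, algEquiv_smul_def, algEquiv_smul_def, Point.map_some, Point.map_some,
        Point.some.injEq]
      exact ⟨he, (hy' i).trans (hy' j).symm⟩
    have h5 : (σ ^ i) • (⟨P, hmem⟩ : VV (WQ W) p) = (σ ^ j) • (⟨P, hmem⟩ : VV (WQ W) p) :=
      Subtype.ext h4
    rw [hk, hk] at h5
    have h6 : (j - i) • Q = 0 := by
      have h7 := add_left_cancel h5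
      obtain ⟨d, rfl⟩ := Nat.exists_eq_add_of_lt hij
      have h8 : i + d + 1 - i = d + 1 := by omega
      rw [h8]
      have h9 : (i + d + 1) • Q = i • Q + (d + 1) • Q := by rw [← add_smul, add_assoc]
      rw [h9] at h7
      exact (left_eq_add.mp h7)
    have h7 : p • Q = 0 := by
      have := Submodule.smul_torsionBy (R := ℤ) _ Q
      rwa [natCast_zsmul] at this
    have hord : addOrderOf Q = p := addOrderOf_eq_prime h7 hQ0
    have h8 := addOrderOf_dvd_of_nsmul_eq_zero h6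
    rw [hord] at h8
    have := Nat.le_of_dvd (by omega) h8
    omega
  have heq : ∀ k : ℕ, ((σ ^ k) x) ^ 3 + ((W.map (Int.castRingHom ℚ))⁄Qb).a₂ * ((σ ^ k) x) ^ 2 +
      (((W.map (Int.castRingHom ℚ))⁄Qb).a₄ - ((W.map (Int.castRingHom ℚ))⁄Qb).a₁ * y) *
        ((σ ^ k) x) + (((W.map (Int.castRingHom ℚ))⁄Qb).a₆ - y ^ 2 -
          ((W.map (Int.castRingHom ℚ))⁄Qb).a₃ * y) = 0 := by
    intro k
    have hns : ((W.map (Int.castRingHom ℚ))⁄Qb).Nonsingular ((σ ^ k) x) ((σ ^ k) y) :=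
      (Affine.baseChange_nonsingular (W.map (Int.castRingHom ℚ)) (f := (σ ^ k).toAlgHom)
        (σ ^ k).injective x y).mpr h
    have h3 := (Affine.equation_iff _ _).mp hns.1
    rw [hn _ (pow_mem hσ k)] at h3
    linear_combination -h3
  exact cubic_four (heq 0) (heq 1) (heq 2) (heq 3) (hinj 0 1 (by omega) (by omega))
    (hinj 0 2 (by omega) (by omega)) (hinj 0 3 (by omega) (by omega))
    (hinj 1 2 (by omega) (by omega)) (hinj 1 3 (by omega) (by omega))
    (hinj 2 3 (by omega) (by omega))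

/-- **The `x`-coordinate** of a point of order `p` is not expressible by radicals. -/
theorem x_not_rad (W : WeierstrassCurve ℤ) (hΔ : W.Δ ≠ 0) (hss : W.IsSemistableModel)
    {p : ℕ} (hp : p.Prime) (hp5 : 5 ≤ p) (hirr : W.ModRepIsIrreducible p)
    {x y : AlgebraicClosure ℚ}
    (h : ((W.map (Int.castRingHom ℚ))⁄(AlgebraicClosure ℚ)).Nonsingular x y)
    (hP : p • (Point.some x y h) = 0) : x ∉ solvableByRad ℚ (AlgebraicClosure ℚ) := by
  intro hx
  apply y_not_rad W hΔ hss hp hp5 hirr h hP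
  set S := solvableByRad ℚ (AlgebraicClosure ℚ) with hS
  have hQ : ∀ r : ℚ, algebraMap ℚ Qb r ∈ S := fun r => algebraMap_mem S r
  have hZ : ∀ k : ℕ, (k : Qb) ∈ S := fun k => natCast_mem S k
  have h1 : ((W.map (Int.castRingHom ℚ))⁄Qb).a₁ ∈ S := hQ _
  have h2 : ((W.map (Int.castRingHom ℚ))⁄Qb).a₂ ∈ S := hQ _
  have h3 : ((W.map (Int.castRingHom ℚ))⁄Qb).a₃ ∈ S := hQ _
  have h4 : ((W.map (Int.castRingHom ℚ))⁄Qb).a₄ ∈ S := hQ _
  have h6 : ((W.map (Int.castRingHom ℚ))⁄Qb).a₆ ∈ S := hQ _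
  have heq := (Affine.equation_iff _ _).mp h.1
  set a₁ := ((W.map (Int.castRingHom ℚ))⁄Qb).a₁
  set a₂ := ((W.map (Int.castRingHom ℚ))⁄Qb).a₂
  set a₃ := ((W.map (Int.castRingHom ℚ))⁄Qb).a₃
  set a₄ := ((W.map (Int.castRingHom ℚ))⁄Qb).a₄
  set a₆ := ((W.map (Int.castRingHom ℚ))⁄Qb).a₆
  have h5 : (2 * y + (a₁ * x + a₃)) ^ 2 ∈ S := by
    have : (2 * y + (a₁ * x + a₃)) ^ 2 =
        ((4 : ℕ) : Qb) * (x ^ 3 + a₂ * x ^ 2 + a₄ * x + a₆) + (a₁ * x + a₃) ^ 2 := by
      push_cast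
      linear_combination 4 * heq
    rw [this]
    exact add_mem (mul_mem (hZ 4) (add_mem (add_mem (add_mem (pow_mem hx 3)
      (mul_mem h2 (pow_mem hx 2))) (mul_mem h4 hx)) h6)) (pow_mem (add_mem (mul_mem h1 hx) h3) 2)
  have h7 : 2 * y + (a₁ * x + a₃) ∈ S := solvableByRad.rad_mem two_ne_zero h5
  have h8 : y = (2 * y + (a₁ * x + a₃) - (a₁ * x + a₃)) * ((2 : ℕ) : Qb)⁻¹ := by
    push_cast
    field_simp
    ring
  rw [h8]
  exact mul_mem (sub_mem h7 (add_mem (mul_mem h1 hx) h3)) (inv_mem (hZ 2))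

/-- **Insolvability of the division equations**, uniform version: let `W` be any semistable elliptic curve over `ℚ`,
`p ≥ 11` a prime, `p ≠ 13`, and `P = (x, y)` a point of order `p` of `W` over `ℚ̄`. Then neither `x` nor `y` is
expressible by radicals over `ℚ`. -/
theorem not_rad_uniform (W : WeierstrassCurve ℤ) (hΔ : W.Δ ≠ 0) (hss : W.IsSemistableModel)
    {p : ℕ} (hp : p.Prime) (hp11 : 11 ≤ p) (hp13 : p ≠ 13) {x y : AlgebraicClosure ℚ}
    (h : ((W.map (Int.castRingHom ℚ))⁄(AlgebraicClosure ℚ)).Nonsingular x y)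
    (hP : p • (Point.some x y h) = 0) :
    x ∉ solvableByRad ℚ (AlgebraicClosure ℚ) ∧ y ∉ solvableByRad ℚ (AlgebraicClosure ℚ) :=
  ⟨x_not_rad W hΔ hss hp (by omega) (Mazur.modRep_irreducible hΔ hss hp hp11 hp13) h hP,
    y_not_rad W hΔ hss hp (by omega) (Mazur.modRep_irreducible hΔ hss hp hp11 hp13) h hP⟩

end Fermat.Agent.Cor.Radicals
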