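import Mathlib
import Fermat.Agent.Cor.AdelicMazur

/-!
# Torsion points of semistable elliptic curves over number fields

Let `W` be a semistable elliptic curve over `ℚ` and `p` an odd prime with `W[p]` irreducible (by Mazur's theorem for
semistable curves, any prime `p ≥ 11`, `p ≠ 13`). Let `K` be a number field.

* `sq_sub_one_dvd`: if `W(K)` has a point of order `p`, then `p² - 1` divides `[K : ℚ]`;
* `add_one_dvd`: if `W` has a subgroup of order `p` which is defined over `K`, then `p + 1` divides `[K : ℚ]`.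

This file is not used by any of the statement files.
-/

set_option autoImplicit false
set_option linter.style.haveILetI false

noncomputable section

namespace Fermat.Agent.Cor.TorsionDegree

open WeierstrassCurve WeierstrassCurve.Affine WeierstrassCurve.Affine.Point
open Fermat.Agent.Ell Fermat.Agent.H12.LL Fermat.Agent.Cor.Surj
open Fermat.Agent.EGal (VV rho)

local notation "Qb" => AlgebraicClosure ℚ
local notation "Γq" => AlgebraicClosure ℚ ≃ₐ[ℚ] AlgebraicClosure ℚ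

variable {W : WeierstrassCurve ℤ} {p : ℕ} [hp : Fact p.Prime]

/-- If all the fibres of `f : X → Y` are permuted by permutations of `X`, the number of elements of `Y` divides the
number of elements of `X`. -/
theorem card_dvd {X Y : Type*} [Finite X] [Finite Y] (f : X → Y)
    (ht : ∀ y y' : Y, ∃ g : Equiv.Perm X, ∀ x, f x = y ↔ f (g x) = y') :
    Nat.card Y ∣ Nat.card X := by
  classical
  rcases isEmpty_or_nonempty Y with hY | ⟨⟨y₀⟩⟩
  · haveI : IsEmpty X := ⟨fun x => hY.false (f x)⟩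
    simp
  · have h1 : ∀ y : Y, Nat.card {x : X // f x = y} = Nat.card {x : X // f x = y₀} := by
      intro y
      obtain ⟨g, hg⟩ := ht y y₀
      exact Nat.card_congr (g.subtypeEquiv hg)
    have := Fintype.ofFinite Y
    have h2 : Nat.card X = ∑ y : Y, Nat.card {x : X // f x = y} := by
      rw [← Nat.card_congr (Equiv.sigmaFiberEquiv f), Nat.card_sigma]
    rw [h2, Finset.sum_congr rfl fun y _ => h1 y, Finset.sum_const, Finset.card_univ,
      ← Nat.card_eq_fintype_card, smul_eq_mul]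
    exact dvd_mul_right _ _

/-- the permutation of the embeddings of a field given by a Galois automorphism -/
def permEmb {K : Type*} [Field K] [Algebra ℚ K] (σ : Γq) : Equiv.Perm (K →ₐ[ℚ] Qb) where
  toFun j := (σ : Qb →ₐ[ℚ] Qb).comp j
  invFun j := ((σ⁻¹ : Γq) : Qb →ₐ[ℚ] Qb).comp j
  left_inv j := AlgHom.ext fun x => σ.symm_apply_apply (j x)
  right_inv j := AlgHom.ext fun x => σ.apply_symm_apply (j x)

theorem card_emb (K : Type*) [Field K] [Algebra ℚ K] [FiniteDimensional ℚ K] :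
    Finite (K →ₐ[ℚ] Qb) ∧ Nat.card (K →ₐ[ℚ] Qb) = Module.finrank ℚ K := by
  exact ⟨inferInstance, (Nat.card_eq_fintype_card (α := K →ₐ[ℚ] Qb)).trans (AlgHom.card ℚ K Qb)⟩

/-- the Galois group acts transitively on the points of order `p` -/
theorem exists_smul_eq (hΔ : W.Δ ≠ 0) (hss : W.IsSemistableModel)
    (hirr : W.ModRepIsIrreducible p) (hp2 : p ≠ 2) {x y : VV (WQ W) p} (hx : x ≠ 0) (hy : y ≠ 0) :
    ∃ σ : Γq, σ • x = y := by
  haveI := isElliptic_WQ hΔ
  haveI : Module.Finite (ZMod p) (VV (WQ W) p) := .of_basis (redBasis (tB (p := p) hΔ))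
  obtain ⟨f, hf⟩ := Submodule.exists_linearEquiv_restrict_eq
    ((LinearEquiv.toSpanNonzeroSingleton (ZMod p) _ x hx).symm ≪≫ₗ
      (LinearEquiv.toSpanNonzeroSingleton (ZMod p) _ y hy))
  obtain ⟨σ, hσ⟩ := surjective hΔ hss hirr hp2 f
  refine ⟨σ, (hσ x).trans ?_⟩
  have h1 := hf ⟨x, Submodule.mem_span_singleton_self x⟩
  rw [← h1]
  have h2 : (LinearEquiv.toSpanNonzeroSingleton (ZMod p) _ x hx).symm
      ⟨x, Submodule.mem_span_singleton_self x⟩ = 1 := by
    rw [LinearEquiv.symm_apply_eq]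
    exact (LinearEquiv.toSpanNonzeroSingleton_one (ZMod p) _ x hx).symm
  rw [LinearEquiv.trans_apply, h2]
  exact congrArg Subtype.val (LinearEquiv.toSpanNonzeroSingleton_one (ZMod p) _ y hy)

theorem card_ne_zero (hΔ : W.Δ ≠ 0) :
    Finite {x : VV (WQ W) p // x ≠ 0} ∧ Nat.card {x : VV (WQ W) p // x ≠ 0} = p ^ 2 - 1 := by
  classical
  haveI := isElliptic_WQ hΔ
  have h1 : Nat.card (VV (WQ W) p) = p ^ 2 :=
    Fermat.Agent.Frob.card_torsionBy Qb (WQ W) hp.out.ne_zero
  haveI : Finite (VV (WQ W) p) := Nat.finite_of_card_ne_zero (by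
    rw [h1]; exact pow_ne_zero _ hp.out.ne_zero)
  haveI := Fintype.ofFinite (VV (WQ W) p)
  refine ⟨inferInstance, ?_⟩
  rw [Nat.card_eq_fintype_card, Fintype.card_subtype_compl, Fintype.card_subtype_eq,
    ← Nat.card_eq_fintype_card, h1]

/-- **Degrees of the points of order `p`**: let `W` be a semistable elliptic curve over `ℚ`, `p` an odd prime with
`W[p]` irreducible and `K` a number field such that `W(K)` has a point of order `p`. Then `p² - 1` divides
`[K : ℚ]`. -/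
theorem sq_sub_one_dvd (W : WeierstrassCurve ℤ) (hΔ : W.Δ ≠ 0) (hss : W.IsSemistableModel)
    {p : ℕ} (hp : p.Prime) (hp2 : p ≠ 2) (hirr : W.ModRepIsIrreducible p) (K : Type*) [Field K]
    [DecidableEq K] [Algebra ℚ K] [FiniteDimensional ℚ K]
    (P : ((W.map (Int.castRingHom ℚ))⁄K).Point) (hP0 : P ≠ 0) (hP : p • P = 0) :
    p ^ 2 - 1 ∣ Module.finrank ℚ K := by
  haveI : Fact p.Prime := ⟨hp⟩
  obtain ⟨hfin, hcard⟩ := card_emb K
  obtain ⟨hfin', hcard'⟩ := card_ne_zero (W := W) (p := p) hΔ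
  have hmem : ∀ j : K →ₐ[ℚ] Qb, Point.map (W' := W.map (Int.castRingHom ℚ)) j P ∈
      Submodule.torsionBy ℤ (Pts (WQ W)) (p : ℤ) := by
    intro j
    rw [Submodule.mem_torsionBy_iff, natCast_zsmul]
    have h1 : p • Point.map (W' := W.map (Int.castRingHom ℚ)) j P = 0 := by
      rw [← map_nsmul, hP, Point.map_zero]
    exact h1
  have hne : ∀ j : K →ₐ[ℚ] Qb, (⟨_, hmem j⟩ : VV (WQ W) p) ≠ 0 := by
    intro j h
    apply hP0
    apply Point.map_injective (W' := W.map (Int.castRingHom ℚ)) j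
    rw [Point.map_zero]
    exact congrArg Subtype.val h
  rw [← hcard, ← hcard']
  refine card_dvd (fun j => ⟨⟨_, hmem j⟩, hne j⟩) ?_
  rintro ⟨y, hy⟩ ⟨y', hy'⟩
  obtain ⟨σ, hσ⟩ := exists_smul_eq hΔ hss hirr hp2 hy hy'
  refine ⟨permEmb σ, fun j => ?_⟩
  have h1 : (⟨_, hmem (permEmb σ j)⟩ : VV (WQ W) p) = σ • (⟨_, hmem j⟩ : VV (WQ W) p) := by
    apply Subtype.ext
    change Point.map ((σ : Qb →ₐ[ℚ] Qb).comp j) P = σ • Point.map j P
    rw [← Point.map_map]
    rfl
  constructor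
  · intro h
    have h' : (⟨_, hmem j⟩ : VV (WQ W) p) = y := congrArg Subtype.val h
    refine Subtype.ext ?_
    change (⟨_, hmem (permEmb σ j)⟩ : VV (WQ W) p) = y'
    rw [h1, h', hσ]
  · intro h
    have h' : (⟨_, hmem (permEmb σ j)⟩ : VV (WQ W) p) = y' := congrArg Subtype.val h
    rw [h1, ← hσ] at h'
    exact Subtype.ext (MulAction.injective σ h')

/-- Every embedding of a field extends to an automorphism of `ℚ̄`. -/
theorem exists_extend {K : Type*} [Field K] [Algebra ℚ K] (i j : K →ₐ[ℚ] Qb) :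
    ∃ σ : Γq, ∀ x, σ (i x) = j x := by
  letI : Algebra K Qb := i.toRingHom.toAlgebra
  haveI : IsScalarTower ℚ K Qb := IsScalarTower.of_algebraMap_eq fun x => (i.commutes x).symm
  exact ⟨AlgEquiv.ofBijective (j.liftNormal Qb) (Algebra.IsAlgebraic.algHom_bijective _),
    fun x => j.liftNormal_commutes Qb x⟩

open scoped LinearAlgebra.Projectivization in
/-- **Degrees of the fields of definition of the subgroups of order `p`**: let `W` be a semistable elliptic curve over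
`ℚ`, `p` an odd prime with `W[p]` irreducible, `K` a number field and `i : K → ℚ̄` an embedding. If `W` has a
subgroup `C` of order `p` which is stable under `Gal(ℚ̄/i(K))`, then `p + 1` divides `[K : ℚ]`. -/
theorem add_one_dvd (W : WeierstrassCurve ℤ) (hΔ : W.Δ ≠ 0) (hss : W.IsSemistableModel)
    {p : ℕ} (hp : p.Prime) (hp2 : p ≠ 2) (hirr : W.ModRepIsIrreducible p) (K : Type*) [Field K]
    [Algebra ℚ K] [FiniteDimensional ℚ K] (i : K →ₐ[ℚ] AlgebraicClosure ℚ)
    (C : AddSubgroup ((W.map (Int.castRingHom ℚ))⁄(AlgebraicClosure ℚ)).Point)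
    (hC : Nat.card C = p)
    (hst : ∀ σ : AlgebraicClosure ℚ ≃ₐ[ℚ] AlgebraicClosure ℚ, (∀ x, σ (i x) = i x) →
      ∀ Q ∈ C, σ • Q ∈ C) : p + 1 ∣ Module.finrank ℚ K := by
  haveI : Fact p.Prime := ⟨hp⟩
  haveI := isElliptic_WQ hΔ
  haveI hfinV : Module.Finite (ZMod p) (VV (WQ W) p) := .of_basis (redBasis (tB (p := p) hΔ))
  haveI : Finite (VV (WQ W) p) := Module.finite_of_finite (ZMod p)
  obtain ⟨hfin, hcard⟩ := card_emb K
  -- a generator of `C`
  have hfinC : Finite C := Nat.finite_of_card_ne_zero (by rw [hC]; exact hp.ne_zero)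
  have hnt : Nontrivial C := by
    rw [← Finite.one_lt_card_iff_nontrivial, hC]
    exact hp.one_lt
  obtain ⟨⟨x₀, hx₀C⟩, hx₀⟩ := exists_ne (0 : C)
  have hx₀0 : x₀ ≠ 0 := fun h => hx₀ (Subtype.ext h)
  have hpC : ∀ Q ∈ C, p • Q = 0 := by
    intro Q hQ
    have h1 : Nat.card C • (⟨Q, hQ⟩ : C) = 0 := card_nsmul_eq_zero'
    rw [hC] at h1
    exact congrArg Subtype.val h1
  have hgen : ∀ Q ∈ C, ∃ k : ℕ, k • x₀ = Q := by
    intro Q hQ
    have h1 : (⟨Q, hQ⟩ : C) ∈ AddSubgroup.zmultiples (⟨x₀, hx₀C⟩ : C) := by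
      haveI : Fact (Nat.card C).Prime := ⟨by rw [hC]; exact hp⟩
      rw [zmultiples_eq_top_of_prime_card (p := p) hC hx₀]
      trivial
    rw [← mem_multiples_iff_mem_zmultiples] at h1
    obtain ⟨k, hk⟩ := AddSubmonoid.mem_multiples_iff _ _ |>.mp h1
    exact ⟨k, congrArg Subtype.val hk⟩
  set v₀ : VV (WQ W) p := ⟨x₀, by
    rw [Submodule.mem_torsionBy_iff, natCast_zsmul]
    exact hpC x₀ hx₀C⟩ with hv₀
  have hv₀0 : v₀ ≠ 0 := fun h => hx₀0 (congrArg Subtype.val h)
  have hne : ∀ (σ : Γq) (v : VV (WQ W) p), v ≠ 0 → σ • v ≠ 0 := by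
    intro σ v hv h
    exact hv (MulAction.injective σ (h.trans (smul_zero (A := VV (WQ W) p) σ).symm))
  -- equality of the lines
  have hline : ∀ σ τ : Γq, (∀ x, σ (i x) = τ (i x)) →
      ∃ k : ZMod p, k • (τ • v₀) = σ • v₀ := by
    intro σ τ h
    have h1 : (τ⁻¹ * σ) • x₀ ∈ C := by
      refine hst (τ⁻¹ * σ) (fun x => ?_) x₀ hx₀C
      change τ.symm (σ (i x)) = i x
      rw [h x]
      exact τ.symm_apply_apply _
    obtain ⟨k, hk⟩ := hgen _ h1
    refine ⟨(k : ZMod p), ?_⟩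
    have h2 : k • v₀ = (τ⁻¹ * σ) • v₀ := Subtype.ext hk
    have h3 : τ • (k • v₀) = k • (τ • v₀) :=
      map_nsmul (DistribSMul.toAddMonoidHom (VV (WQ W) p) τ) k v₀
    rw [Nat.cast_smul_eq_nsmul, ← h3, h2, ← mul_smul, mul_inv_cancel_left]
  choose s hs using fun j : K →ₐ[ℚ] Qb => exists_extend i j
  have hP : Nat.card (ℙ (ZMod p) (VV (WQ W) p)) = p + 1 := by
    rw [Projectivization.card_of_finrank_two _ _
      (Fermat.Agent.Frob.finrank_torsionBy (K := Qb) (WQ W) p), Nat.card_zmod]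
  haveI : Finite (ℙ (ZMod p) (VV (WQ W) p)) := Nat.finite_of_card_ne_zero (by rw [hP]; omega)
  rw [← hcard, ← hP]
  refine card_dvd (fun j => Projectivization.mk (ZMod p) (s j • v₀) (hne _ _ hv₀0)) ?_
  intro y y'
  induction y using Projectivization.ind with
  | h v hv =>
  induction y' using Projectivization.ind with
  | h v' hv' =>
  obtain ⟨σ, hσ⟩ := exists_smul_eq hΔ hss hirr hp2 hv hv'
  refine ⟨permEmb σ, fun j => ?_⟩
  rw [Projectivization.mk_eq_mk_iff', Projectivization.mk_eq_mk_iff']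
  have hσc : ∀ (τ : Γq) (c : ZMod p) (w : VV (WQ W) p), τ • (c • w) = c • (τ • w) := fun τ c w =>
    (rho (WQ W) p τ).map_smul c w
  obtain ⟨k, hk⟩ := hline (s (permEmb σ j)) (σ * s j) (fun x => by
    rw [hs]
    change σ (j x) = σ (s j (i x))
    rw [hs])
  have hk0 : k ≠ 0 := by
    rintro rfl
    rw [zero_smul] at hk
    exact hne _ _ hv₀0 hk.symm
  rw [← hk, ← hσ, mul_smul]
  constructor
  · rintro ⟨a, ha⟩
    exact ⟨k * a, by rw [← ha, hσc, mul_smul]⟩
  · rintro ⟨a, ha⟩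
    refine ⟨k⁻¹ * a, MulAction.injective σ ?_⟩
    change σ • ((k⁻¹ * a) • v) = σ • (s j • v₀)
    rw [hσc, mul_smul, ha, smul_smul, inv_mul_cancel₀ hk0, one_smul]

/-- **Uniform version**: let `W` be any semistable elliptic curve over `ℚ`, `p ≥ 11` a prime, `p ≠ 13`, and `K` a
number field such that `W(K)` has a point of order `p`. Then `p² - 1` divides `[K : ℚ]`. -/
theorem sq_sub_one_dvd_uniform (W : WeierstrassCurve ℤ) (hΔ : W.Δ ≠ 0)
    (hss : W.IsSemistableModel) {p : ℕ} (hp : p.Prime) (hp11 : 11 ≤ p) (hp13 : p ≠ 13)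
    (K : Type*) [Field K] [DecidableEq K] [Algebra ℚ K] [FiniteDimensional ℚ K]
    (P : ((W.map (Int.castRingHom ℚ))⁄K).Point) (hP0 : P ≠ 0) (hP : p • P = 0) :
    p ^ 2 - 1 ∣ Module.finrank ℚ K :=
  sq_sub_one_dvd W hΔ hss hp (by omega) (Mazur.modRep_irreducible hΔ hss hp hp11 hp13) K P hP0 hP

/-- **Uniform bound for the torsion over number fields**: `W` a semistable elliptic curve over `ℚ`, `K` a number field
of degree `< p² - 1`, `p ≥ 11` a prime, `p ≠ 13`. Then `W(K)` has no point of order `p`. -/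
theorem no_torsion_of_degree_lt (W : WeierstrassCurve ℤ) (hΔ : W.Δ ≠ 0)
    (hss : W.IsSemistableModel) {p : ℕ} (hp : p.Prime) (hp11 : 11 ≤ p) (hp13 : p ≠ 13)
    (K : Type*) [Field K] [DecidableEq K] [Algebra ℚ K] [FiniteDimensional ℚ K]
    (hK : Module.finrank ℚ K < p ^ 2 - 1)
    (P : ((W.map (Int.castRingHom ℚ))⁄K).Point) (hP : p • P = 0) : P = 0 := by
  by_contra hP0
  have h1 := Nat.le_of_dvd Module.finrank_pos
    (sq_sub_one_dvd_uniform W hΔ hss hp hp11 hp13 K P hP0 hP)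
  omega

/-- **Uniform version** for subgroups. -/
theorem add_one_dvd_uniform (W : WeierstrassCurve ℤ) (hΔ : W.Δ ≠ 0) (hss : W.IsSemistableModel)
    {p : ℕ} (hp : p.Prime) (hp11 : 11 ≤ p) (hp13 : p ≠ 13) (K : Type*) [Field K]
    [Algebra ℚ K] [FiniteDimensional ℚ K] (i : K →ₐ[ℚ] AlgebraicClosure ℚ)
    (C : AddSubgroup ((W.map (Int.castRingHom ℚ))⁄(AlgebraicClosure ℚ)).Point)
    (hC : Nat.card C = p)
    (hst : ∀ σ : AlgebraicClosure ℚ ≃ₐ[ℚ] AlgebraicClosure ℚ, (∀ x, σ (i x) = i x) →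
      ∀ Q ∈ C, σ • Q ∈ C) : p + 1 ∣ Module.finrank ℚ K :=
  add_one_dvd W hΔ hss hp (by omega) (Mazur.modRep_irreducible hΔ hss hp hp11 hp13) K i C hC hst

end Fermat.Agent.Cor.TorsionDegree
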