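import Mathlib
import Fermat.Agent.Cor.H11Full
import Fermat.Agent.Cor.FrobDensity
import Fermat.Agent.Cor.InverseGaloisAdelic
import Fermat.Agent.Cor.Radicals
import Fermat.Agent.Cor.TorsionDegree

/-!
# Semistable elliptic curves with full rational `2`-torsion: Galois images at all primes `p ≥ 5`

Let `W` be a semistable elliptic curve over `ℚ` all whose points of order two are rational, for instance a Frey curve.
By `Fermat.Agent.Cor.H11.irreducible_of_fullTwo` (helper11) `W[p]` is irreducible for ALL primes `p ≥ 5`. Hence: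

* `adelic`: `Gal(ℚ̄/ℚ) → ∏_{p ≥ 5} Aut(T_p W)` is surjective;
* `tors`, `galois_group`, `galois_group_adelic`: `Gal(ℚ(W[N])/ℚ) ≅ GL₂(ℤ/N)` for every `N` coprime to `6`, and there is a
  Galois extension (generated by all points of order prime to `6`) with Galois group `∏_{p ≥ 5} GL₂(ℤ_p)`;
* `not_rad`: the coordinates of a point of prime order `p ≥ 5` are not expressible by radicals;
* `sq_sub_one_dvd`: a point of order `p ≥ 5` is only defined over number fields whose degree is divisible by `p² - 1`;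
* `density_traces`: the joint distribution of `ℓ` and `a_ℓ` modulo every `N` coprime to `6`.

This file is not used by any of the statement files.
-/

set_option autoImplicit false
set_option linter.style.haveILetI false

noncomputable section

namespace Fermat.Agent.Cor.AdelicFull

open WeierstrassCurve WeierstrassCurve.Affine WeierstrassCurve.Affine.Point
open Fermat.Agent.Ell Fermat.Agent.Cor.Surj Fermat.Agent.Cor.InverseGalois
open Fermat.Agent.Cor.H11 (HasFullTwo irreducible_of_fullTwo)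

/-- **Adelic surjectivity** at all primes `p ≥ 5`. -/
theorem adelic (W : WeierstrassCurve ℤ) (hΔ : W.Δ ≠ 0) (hss : W.IsSemistableModel)
    (h2 : HasFullTwo W) (f : ∀ (q : ℕ) [Fact q.Prime], TT (WQ W) q ≃ₗ[ℤ_[q]] TT (WQ W) q) :
    ∃ σ : AlgebraicClosure ℚ ≃ₐ[ℚ] AlgebraicClosure ℚ, ∀ (q : ℕ) [Fact q.Prime], 5 ≤ q →
      ∀ v : TT (WQ W) q, rr (WQ W) q σ v = f q v := by
  obtain ⟨σ, hσ⟩ := adelic_surjective hΔ hss {q | q.Prime ∧ 5 ≤ q} (by
    rintro q ⟨hq, h5⟩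
    exact ⟨hq, h5, irreducible_of_fullTwo hΔ hss h2 hq h5⟩) f
  exact ⟨σ, fun q hqf h5 => hσ q ⟨hqf.out, h5⟩⟩

/-- Every automorphism of the group `W[N]`, `N` coprime to `6`, is induced by an element of `Gal(ℚ̄/ℚ)`. -/
theorem tors (W : WeierstrassCurve ℤ) (hΔ : W.Δ ≠ 0) (hss : W.IsSemistableModel)
    (h2 : HasFullTwo W) {N : ℕ} (hN : N.Coprime 6)
    (f : Submodule.torsionBy ℤ ((W.map (Int.castRingHom ℚ))⁄(AlgebraicClosure ℚ)).Point (N : ℤ) ≃+
      Submodule.torsionBy ℤ ((W.map (Int.castRingHom ℚ))⁄(AlgebraicClosure ℚ)).Point (N : ℤ)) :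
    ∃ σ : AlgebraicClosure ℚ ≃ₐ[ℚ] AlgebraicClosure ℚ, ∀ x, σ • x = f x :=
  galois_surjective_tors W hΔ hss hN
    (fun _ hp hpN => irreducible_of_fullTwo hΔ hss h2 hp (five_le_of_dvd hN hp hpN)) f

/-- `ℚ(W[N])` and `ℚ(W[M])` are linearly disjoint, `N` and `M` coprime and coprime to `6`. -/
theorem independent (W : WeierstrassCurve ℤ) (hΔ : W.Δ ≠ 0) (hss : W.IsSemistableModel)
    (h2 : HasFullTwo W) {N M : ℕ} (hN : N.Coprime 6) (hM : M.Coprime 6) (hNM : N.Coprime M)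
    (σ τ : AlgebraicClosure ℚ ≃ₐ[ℚ] AlgebraicClosure ℚ) :
    ∃ ρ : AlgebraicClosure ℚ ≃ₐ[ℚ] AlgebraicClosure ℚ,
      (∀ x : ((W.map (Int.castRingHom ℚ))⁄(AlgebraicClosure ℚ)).Point, N • x = 0 → ρ • x = σ • x) ∧
      (∀ x : ((W.map (Int.castRingHom ℚ))⁄(AlgebraicClosure ℚ)).Point, M • x = 0 → ρ • x = τ • x) :=
  tors_independent W hΔ hss hN hM hNM
    (fun _ hp h => irreducible_of_fullTwo hΔ hss h2 hp (five_le_of_dvd hN hp h))
    (fun _ hp h => irreducible_of_fullTwo hΔ hss h2 hp (five_le_of_dvd hM hp h)) σ τ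

/-- **`Gal(ℚ(W[N])/ℚ) ≅ GL₂(ℤ/N)`** for every `N` coprime to `6`. -/
theorem galois_group (W : WeierstrassCurve ℤ) (hΔ : W.Δ ≠ 0) (hss : W.IsSemistableModel)
    (h2 : HasFullTwo W) {N : ℕ} (hN : N.Coprime 6) :
    ∃ K : IntermediateField ℚ (AlgebraicClosure ℚ), FiniteDimensional ℚ K ∧ IsGalois ℚ K ∧
      Nonempty ((K ≃ₐ[ℚ] K) ≃* GL (Fin 2) (ZMod N)) :=
  InverseGalois.galois_group W hΔ hss hN
    fun _ hp hpN => irreducible_of_fullTwo hΔ hss h2 hp (five_le_of_dvd hN hp hpN)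

/-- The topological group `∏_{p ≥ 5} GL₂(ℤ_p)` as a Galois group, from `W`. -/
theorem galois_group_adelic (W : WeierstrassCurve ℤ) (hΔ : W.Δ ≠ 0) (hss : W.IsSemistableModel)
    (h2 : HasFullTwo W) :
    ∃ K : IntermediateField ℚ (AlgebraicClosure ℚ), IsGalois ℚ K ∧
      Nonempty ((K ≃ₐ[ℚ] K) ≃ₜ* (∀ q : PS {p | 5 ≤ p}, GL (Fin 2) ℤ_[(q : ℕ)])) :=
  exists_field_adelic W hΔ hss _ fun _ hq hqp => ⟨hq, irreducible_of_fullTwo hΔ hss h2 hqp hq⟩

/-- **Insolvability by radicals** of the points of prime order `p ≥ 5`. -/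
theorem not_rad (W : WeierstrassCurve ℤ) (hΔ : W.Δ ≠ 0) (hss : W.IsSemistableModel)
    (h2 : HasFullTwo W) {p : ℕ} (hp : p.Prime) (hp5 : 5 ≤ p) {x y : AlgebraicClosure ℚ}
    (h : ((W.map (Int.castRingHom ℚ))⁄(AlgebraicClosure ℚ)).Nonsingular x y)
    (hP : p • (Point.some x y h) = 0) :
    x ∉ solvableByRad ℚ (AlgebraicClosure ℚ) ∧ y ∉ solvableByRad ℚ (AlgebraicClosure ℚ) :=
  ⟨Radicals.x_not_rad W hΔ hss hp hp5 (irreducible_of_fullTwo hΔ hss h2 hp hp5) h hP,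
    Radicals.y_not_rad W hΔ hss hp hp5 (irreducible_of_fullTwo hΔ hss h2 hp hp5) h hP⟩

/-- **No torsion over solvable extensions**, `p ≥ 5`. -/
theorem no_torsion_solvable (W : WeierstrassCurve ℤ) (hΔ : W.Δ ≠ 0) (hss : W.IsSemistableModel)
    (h2 : HasFullTwo W) {p : ℕ} (hp : p.Prime) (hp5 : 5 ≤ p) (K : Type*) [Field K]
    [DecidableEq K] [Algebra ℚ K] [IsGalois ℚ K] [Group.IsSolvable (K ≃ₐ[ℚ] K)]
    (P : ((W.map (Int.castRingHom ℚ))⁄K).Point) (hP : p • P = 0) : P = 0 :=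
  Radicals.no_torsion_solvable W hΔ hss hp hp5 (irreducible_of_fullTwo hΔ hss h2 hp hp5) K P hP

/-- **Degrees of the points of order `p ≥ 5`**. -/
theorem sq_sub_one_dvd (W : WeierstrassCurve ℤ) (hΔ : W.Δ ≠ 0) (hss : W.IsSemistableModel)
    (h2 : HasFullTwo W) {p : ℕ} (hp : p.Prime) (hp5 : 5 ≤ p) (K : Type*) [Field K]
    [DecidableEq K] [Algebra ℚ K] [FiniteDimensional ℚ K]
    (P : ((W.map (Int.castRingHom ℚ))⁄K).Point) (hP0 : P ≠ 0) (hP : p • P = 0) :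
    p ^ 2 - 1 ∣ Module.finrank ℚ K :=
  TorsionDegree.sq_sub_one_dvd W hΔ hss hp (by omega) (irreducible_of_fullTwo hΔ hss h2 hp hp5)
    K P hP0 hP

/-- **Joint distribution of `ℓ` and `a_ℓ`** modulo every `N` coprime to `6`. -/
theorem density_traces (W : WeierstrassCurve ℤ) (hΔ : W.Δ ≠ 0) (hss : W.IsSemistableModel)
    (h2 : HasFullTwo W) {N : ℕ} (hN : N.Coprime 6) (t d : ZMod N) :
    Cheb.HasDensity {ℓ : ℕ | (ℓ : ZMod N) = d ∧ (W.apOfModel ℓ : ZMod N) = t}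
      ((Nat.card {M : GL (Fin 2) (ZMod N) //
        (M : Matrix (Fin 2) (Fin 2) (ZMod N)).trace = t ∧
          (M : Matrix (Fin 2) (Fin 2) (ZMod N)).det = d} : ℝ) /
        Nat.card (GL (Fin 2) (ZMod N))) :=
  FrobDensity.density_traces W hΔ hss hN
    (fun _ hp hpN => irreducible_of_fullTwo hΔ hss h2 hp (five_le_of_dvd hN hp hpN)) t d

end Fermat.Agent.Cor.AdelicFull
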