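import Mathlib.AlgebraicGeometry.EllipticCurve.Affine.Point
import Mathlib.Data.Set.Card
import Mathlib.Algebra.Field.ZMod
import Fermat.Prelude.Def_FLTPrelim_Modularity

/-!
# Affine points of reduced Weierstrass equations

Over a field a Weierstrass curve with `Δ = 0` and `c₄ ≠ 0` has exactly one singular point, the node
`((18b₆ - b₂b₄)/c₄, (b₂b₅ + 3b₇)/c₄)`. Hence, for an integral equation `W` and a prime `p`,
`p - #{(x, y) ∈ 𝔽_p² on W}` is `apOfModel p` if `p ∤ Δ` and `apOfModel p - 1` if `p ∣ Δ`, `p ∤ c₄`.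

This file is not used by any of the statement files.
-/

set_option autoImplicit false
set_option maxHeartbeats 400000

noncomputable section

namespace Fermat.Agent.Cor.AffCount

open WeierstrassCurve WeierstrassCurve.Affine

section field

variable {F : Type*} [Field F] (W : WeierstrassCurve.Affine F)

/-- the numerators of the coordinates of the node -/
def nX : F := 18 * W.b₆ - W.b₂ * W.b₄

def nY : F := W.b₂ * (W.a₁ * W.a₄ - 2 * W.a₂ * W.a₃) +
  3 * (W.a₁ * (W.a₃ ^ 2 - 12 * W.a₆) + 8 * W.a₃ * W.a₄)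

variable {W}

theorem not_nonsingular_iff {x y : F} (h : W.Equation x y) :
    ¬ W.Nonsingular x y ↔ W.a₁ * y - (3 * x ^ 2 + 2 * W.a₂ * x + W.a₄) = 0 ∧
      2 * y + W.a₁ * x + W.a₃ = 0 := by
  rw [nonsingular_iff']
  tauto

theorem nY_eq : 2 * nY W + W.a₁ * nX W + W.a₃ * W.c₄ = 0 := by
  simp only [nX, nY, c₄, b₂, b₄, b₆]
  ring

theorem nX_eq (hΔ : W.Δ = 0) : W.a₁ * nY W * W.c₄ -
    (3 * nX W ^ 2 + 2 * W.a₂ * nX W * W.c₄ + W.a₄ * W.c₄ ^ 2) = 0 := by
  have h : W.a₁ * nY W * W.c₄ -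
      (3 * nX W ^ 2 + 2 * W.a₂ * nX W * W.c₄ + W.a₄ * W.c₄ ^ 2) = 36 * W.Δ := by
    simp only [nX, nY, c₄, Δ, b₂, b₄, b₆, b₈]
    ring
  rw [h, hΔ, mul_zero]

theorem nE_eq (hΔ : W.Δ = 0) : nY W ^ 2 * W.c₄ + W.a₁ * nX W * nY W * W.c₄ +
    W.a₃ * nY W * W.c₄ ^ 2 - (nX W ^ 3 + W.a₂ * nX W ^ 2 * W.c₄ + W.a₄ * nX W * W.c₄ ^ 2 +
      W.a₆ * W.c₄ ^ 3) = 0 := by
  have h : nY W ^ 2 * W.c₄ + W.a₁ * nX W * nY W * W.c₄ +
    W.a₃ * nY W * W.c₄ ^ 2 - (nX W ^ 3 + W.a₂ * nX W ^ 2 * W.c₄ + W.a₄ * nX W * W.c₄ ^ 2 +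
      W.a₆ * W.c₄ ^ 3) = -W.c₆ * W.Δ := by
    simp only [nX, nY, c₄, c₆, Δ, b₂, b₄, b₆, b₈]
    ring
  rw [h, hΔ, mul_zero]

theorem x_eq {x y : F} (h : W.Equation x y) (hs : ¬ W.Nonsingular x y) :
    W.c₄ * x = nX W := by
  obtain ⟨h1, h2⟩ := (not_nonsingular_iff h).mp hs
  rw [equation_iff'] at h
  have h4 : 6 * x ^ 2 + W.b₂ * x + W.b₄ = 0 := by
    simp only [b₂, b₄]
    linear_combination (-2) * h1 + W.a₁ * h2
  have h6 : 4 * x ^ 3 + W.b₂ * x ^ 2 + 2 * W.b₄ * x + W.b₆ = 0 := by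
    simp only [b₂, b₄, b₆]
    linear_combination (-4) * h + (2 * y + W.a₁ * x + W.a₃) * h2
  rw [nX, c₄]
  linear_combination (-18) * h6 + (W.b₂ + 12 * x) * h4

theorem exists_singular (hΔ : W.Δ = 0) (hc : W.c₄ ≠ 0) :
    W.Equation (nX W / W.c₄) (nY W / W.c₄) ∧ ¬ W.Nonsingular (nX W / W.c₄) (nY W / W.c₄) := by
  have he : W.Equation (nX W / W.c₄) (nY W / W.c₄) := by
    rw [equation_iff']
    have h := nE_eq hΔ
    field_simp
    linear_combination h
  refine ⟨he, (not_nonsingular_iff he).mpr ⟨?_, ?_⟩⟩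
  · have h := nX_eq hΔ
    field_simp
    linear_combination h
  · have h := nY_eq (W := W)
    field_simp
    linear_combination h

theorem singular_unique (hc : W.c₄ ≠ 0) {x y x' y' : F} (h : W.Equation x y)
    (hs : ¬ W.Nonsingular x y) (h' : W.Equation x' y') (hs' : ¬ W.Nonsingular x' y') :
    x = x' ∧ y = y' := by
  have hx : x = x' := mul_left_cancel₀ hc ((x_eq h hs).trans (x_eq h' hs').symm)
  subst hx
  obtain ⟨h1, h2⟩ := (not_nonsingular_iff h).mp hs
  obtain ⟨h1', h2'⟩ := (not_nonsingular_iff h').mp hs'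
  refine ⟨rfl, mul_left_cancel₀ hc ?_⟩
  have e1 : W.a₁ * (y - y') = 0 := by linear_combination h1 - h1'
  have e2 : 2 * (y - y') = 0 := by linear_combination h2 - h2'
  rw [c₄, b₂, b₄]
  linear_combination (W.a₁ ^ 3 + 8 * W.a₁ * W.a₂ - 24 * W.a₃) * e1 +
    (8 * W.a₂ ^ 2 - 24 * W.a₄) * e2

theorem card_point [Finite F] (W : WeierstrassCurve.Affine F) :
    Nat.card W.Point = Nat.card {P : F × F // W.Nonsingular P.1 P.2} + 1 := by
  rw [Nat.card_congr (nonsingularPointEquiv W)]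
  exact Finite.card_option

theorem card_equation_of_ne [Finite F] (W : WeierstrassCurve.Affine F) (hΔ : W.Δ ≠ 0) :
    Nat.card {P : F × F // W.Equation P.1 P.2} =
      Nat.card {P : F × F // W.Nonsingular P.1 P.2} :=
  Nat.card_congr (Equiv.subtypeEquivRight fun _ => equation_iff_nonsingular_of_Δ_ne_zero hΔ)

theorem card_equation_of_eq [Finite F] (W : WeierstrassCurve.Affine F) (hΔ : W.Δ = 0)
    (hc : W.c₄ ≠ 0) : Nat.card {P : F × F // W.Equation P.1 P.2} =
      Nat.card {P : F × F // W.Nonsingular P.1 P.2} + 1 := by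
  obtain ⟨h1, h2⟩ := exists_singular hΔ hc
  have e : {P : F × F | W.Equation P.1 P.2} = insert (nX W / W.c₄, nY W / W.c₄)
      {P : F × F | W.Nonsingular P.1 P.2} := by
    ext ⟨x, y⟩
    simp only [Set.mem_ofPred_eq, Set.mem_insert_iff, Prod.mk.injEq]
    constructor
    · intro h
      by_cases hs : W.Nonsingular x y
      · exact Or.inr hs
      · exact Or.inl (singular_unique hc h hs h1 h2)
    · rintro (⟨rfl, rfl⟩ | h)
      · exact h1
      · exact h.1
  change Nat.card {P : F × F | W.Equation P.1 P.2} = Nat.card {P : F × F | W.Nonsingular P.1 P.2} + 1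
  rw [Nat.card_coe_set_eq, Nat.card_coe_set_eq, e, Set.ncard_insert_of_notMem]
  exact h2

end field

/-! ### Integral equations -/

variable (W : WeierstrassCurve ℤ)

/-- `p` minus the number of affine points of `W` over `𝔽_p` (the singular point, if any, is counted). -/
def ap (p : ℕ) : ℤ :=
  p - Nat.card {P : ZMod p × ZMod p // (W.reductionMod p).toAffine.Equation P.1 P.2}

variable {W}

theorem reductionMod_Δ (p : ℕ) : (W.reductionMod p).Δ = ((W.Δ : ℤ) : ZMod p) := by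
  rw [reductionMod, map_Δ]
  rfl

theorem reductionMod_c₄ (p : ℕ) : (W.reductionMod p).c₄ = ((W.c₄ : ℤ) : ZMod p) := by
  rw [reductionMod, map_c₄]
  rfl

/-- At a prime of good reduction `ap W p` is the trace of Frobenius. -/
theorem ap_eq_of_good {p : ℕ} (hp : p.Prime) (h : ¬ (p : ℤ) ∣ W.Δ) : ap W p = W.apOfModel p := by
  have := Fact.mk hp
  have hΔ : (W.reductionMod p).toAffine.Δ ≠ 0 := by
    change (W.reductionMod p).Δ ≠ 0
    rwa [reductionMod_Δ, Ne, ZMod.intCast_zmod_eq_zero_iff_dvd]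
  have h1 : (W.reductionMod p).card = Nat.card {P : ZMod p × ZMod p //
      (W.reductionMod p).toAffine.Nonsingular P.1 P.2} + 1 := card_point (F := ZMod p) (W.reductionMod p)
  rw [ap, apOfModel, traceOfFrobenius, h1, card_equation_of_ne (F := ZMod p) (W.reductionMod p) hΔ, Nat.card_zmod]
  push_cast
  ring

/-- At a prime of multiplicative reduction `ap W p = apOfModel p - 1`. -/
theorem ap_eq_of_bad {p : ℕ} (hp : p.Prime) (h : (p : ℤ) ∣ W.Δ) (hc : ¬ (p : ℤ) ∣ W.c₄) :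
    ap W p = W.apOfModel p - 1 := by
  have := Fact.mk hp
  have hΔ : (W.reductionMod p).toAffine.Δ = 0 := by
    change (W.reductionMod p).Δ = 0
    rwa [reductionMod_Δ, ZMod.intCast_zmod_eq_zero_iff_dvd]
  have hc' : (W.reductionMod p).toAffine.c₄ ≠ 0 := by
    change (W.reductionMod p).c₄ ≠ 0
    rwa [reductionMod_c₄, Ne, ZMod.intCast_zmod_eq_zero_iff_dvd]
  have h1 : (W.reductionMod p).card = Nat.card {P : ZMod p × ZMod p //
      (W.reductionMod p).toAffine.Nonsingular P.1 P.2} + 1 := card_point (F := ZMod p) (W.reductionMod p)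
  rw [ap, apOfModel, traceOfFrobenius, h1, card_equation_of_eq (F := ZMod p) (W.reductionMod p) hΔ hc', Nat.card_zmod]
  push_cast
  ring

end Fermat.Agent.Cor.AffCount
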