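import Mathlib
import Fermat.Agent.FF.T8

/-!
# The Riemann–Roch theorem with duality

`K` is an algebraically closed field of any characteristic and `F/K` a function field of one variable. A Weil
differential is a linear functional on the repartitions (adeles) vanishing on `A(D) + F` for some divisor `D`.

* `exists_twist`: the Weil differentials form a space of dimension one over `F`;
* `exists_divisor`: the divisor of a Weil differential;
* `riemannRoch_canonical`: **Riemann–Roch**: there is a divisor `W` with
  `ell D = deg D + 1 - g + ell (W - D)` for all `D`.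
* `degree_canonical`, `ell_canonical`, `canonical_unique`.

This file is not used by any of the statement files.
-/

set_option autoImplicit false
set_option linter.unusedSectionVars false

noncomputable section

namespace Fermat.Agent.Cor.RR

open AlgebraicCurve IsDedekindDomain WithZero
open Fermat.Agent.FF

variable {K F : Type*} [Field K] [Field F] [Algebra K F] [IsAlgClosed K] [FunField K F]

/-- the Weil differentials vanishing on `A(D) + F` -/
def Om (D : Divisor K F) : Submodule K (Module.Dual K (repartitions K F)) :=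
  (MM D).dualAnnihilator

theorem mem_Om {D : Divisor K F} {ω : Module.Dual K (repartitions K F)} :
    ω ∈ Om D ↔ (∀ α ∈ repartitionsOf D, ω α = 0) ∧ ∀ f : F, ω (pr f) = 0 := by
  unfold Om
  rw [Submodule.mem_dualAnnihilator]
  constructor
  · intro h
    exact ⟨fun α hα => h α (Submodule.mem_sup_left hα),
      fun f => h _ (Submodule.mem_sup_right (pr_mem f))⟩
  · rintro ⟨h1, h2⟩ α hα
    obtain ⟨β, hβ, γ, hγ, rfl⟩ := Submodule.mem_sup.mp hα
    obtain ⟨f, rfl⟩ := mem_P_iff.mp hγ
    rw [map_add, h1 β hβ, h2 f, add_zero]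

instance Om_finite (D : Divisor K F) : Module.Finite K (Om D) :=
  Module.Finite.equiv (MM D).dualQuotEquivDualAnnihilator

theorem finrank_Om (D : Divisor K F) : Module.finrank K (Om D) = hh D := by
  exact (MM D).dualQuotEquivDualAnnihilator.finrank_eq.symm.trans Subspace.dual_finrank_eq

theorem Om_anti {D E : Divisor K F} (h : D ≤ E) : Om E ≤ Om D := by
  intro ω hω
  rw [mem_Om] at hω ⊢
  exact ⟨fun α hα => hω.1 α (repartitionsOf_mono h hα), hω.2⟩

/-- multiplication of functionals by functions -/
def twist (f : F) (ω : Module.Dual K (repartitions K F)) : Module.Dual K (repartitions K F) :=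
  ω.comp (mulA f)

theorem twist_apply (f : F) (ω : Module.Dual K (repartitions K F)) (α : repartitions K F) :
    twist f ω α = ω (mulA f α) := rfl

theorem mulA_mulA (f g : F) (α : repartitions K F) : mulA f (mulA g α) = mulA (f * g) α := by
  apply Subtype.ext
  funext v
  simp [mul_assoc]

theorem twist_twist (f g : F) (ω : Module.Dual K (repartitions K F)) :
    twist f (twist g ω) = twist (g * f) ω := by
  refine LinearMap.ext fun α => ?_
  rw [twist_apply, twist_apply, twist_apply, mulA_mulA]

theorem twist_one (ω : Module.Dual K (repartitions K F)) : twist (1 : F) ω = ω := by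
  refine LinearMap.ext fun α => ?_
  rw [twist_apply]
  congr 1
  apply Subtype.ext
  funext v
  simp

theorem twist_inv_twist {f : F} (hf : f ≠ 0) (ω : Module.Dual K (repartitions K F)) :
    twist f⁻¹ (twist f ω) = ω := by
  rw [twist_twist, mul_inv_cancel₀ hf, twist_one]

theorem twist_mem {D E : Divisor K F} {f : F} (hf : f ∈ riemannRochSpace E)
    {ω : Module.Dual K (repartitions K F)} (hω : ω ∈ Om D) : twist f ω ∈ Om (D - E) := by
  rw [mem_Om] at hω ⊢
  refine ⟨fun α hα => ?_, fun g => ?_⟩
  · have h := mulA_mem hf hα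
    rw [sub_add_cancel] at h
    exact hω.1 _ h
  · rw [twist_apply, mulA_pr]
    exact hω.2 _

theorem mem_L_neg_div {f : F} (hf : f ≠ 0) : f ∈ riemannRochSpace (-div f : Divisor K F) := by
  intro v
  rw [Finsupp.neg_apply, div_apply, v.adicValuation_eq_exp_neg_ord hf]

theorem mem_L_iff_div {D : Divisor K F} {f : F} (hf : f ≠ 0) :
    f ∈ riemannRochSpace D ↔ 0 ≤ D + div f := by
  rw [mem_L_iff]
  constructor
  · intro h v
    have h1 := h v
    rw [v.adicValuation_le_exp_iff] at h1
    rw [Finsupp.add_apply, div_apply, Finsupp.zero_apply]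
    rcases h1 with h1 | h1
    · exact absurd h1 hf
    · omega
  · intro h v
    have h1 := h v
    rw [Finsupp.add_apply, div_apply, Finsupp.zero_apply] at h1
    rw [v.adicValuation_le_exp_iff]
    right
    omega

theorem div_inv {f : F} : (div f⁻¹ : Divisor K F) = -div f := by
  ext v
  rw [Finsupp.neg_apply, div_apply, div_apply, v.ord_inv]

/-- the map `f ↦ f ω` -/
def tw (ω : Module.Dual K (repartitions K F)) : F →ₗ[K] Module.Dual K (repartitions K F) where
  toFun f := twist f ω
  map_add' f g := by
    refine LinearMap.ext fun α => ?_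
    change ω (mulA (f + g) α) = ω (mulA f α) + ω (mulA g α)
    rw [← map_add]
    congr 1
    apply Subtype.ext
    funext v
    simp [add_mul]
  map_smul' c f := by
    refine LinearMap.ext fun α => ?_
    change ω (mulA (c • f) α) = c • ω (mulA f α)
    rw [← map_smul]
    congr 1
    apply Subtype.ext
    funext v
    change (c • f) * α.1 v = c • (f * α.1 v)
    rw [smul_mul_assoc]

theorem tw_apply (ω : Module.Dual K (repartitions K F)) (f : F) : tw ω f = twist f ω := rfl

theorem tw_injective {ω : Module.Dual K (repartitions K F)} (h0 : ω ≠ 0) :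
    Function.Injective (tw ω) := by
  rw [← LinearMap.ker_eq_bot]
  refine LinearMap.ker_eq_bot'.mpr fun f hf => ?_
  by_contra hf0
  apply h0
  have h1 : twist f ω = 0 := hf
  rw [← twist_inv_twist hf0 ω, h1]
  rfl

theorem finrank_map_tw {ω : Module.Dual K (repartitions K F)} (h0 : ω ≠ 0) (E : Divisor K F) :
    Module.finrank K ((riemannRochSpace E).map (tw ω)) = ell E :=
  (LinearEquiv.finrank_eq (Submodule.equivMapOfInjective (tw ω) (tw_injective h0) _)).symm

theorem map_tw_le {D E B : Divisor K F} {ω : Module.Dual K (repartitions K F)} (hω : ω ∈ Om D)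
    (hB : B = D - E) : (riemannRochSpace E).map (tw ω) ≤ Om B := by
  rintro _ ⟨f, hf, rfl⟩
  rw [hB]
  exact twist_mem hf hω

theorem ell_ge (D : Divisor K F) : Divisor.degree D + 1 - genusFF K F ≤ ell D := by
  have := riemannRoch D
  omega

/-- **The space of Weil differentials has dimension one over `F`.** -/
theorem exists_twist {D₁ D₂ : Divisor K F} {ω₁ ω₂ : Module.Dual K (repartitions K F)}
    (h1 : ω₁ ∈ Om D₁) (h2 : ω₂ ∈ Om D₂) (h0 : ω₁ ≠ 0) : ∃ f : F, ω₂ = twist f ω₁ := by
  by_cases h0' : ω₂ = 0
  · refine ⟨0, ?_⟩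
    rw [h0']
    refine LinearMap.ext fun α => ?_
    rw [twist_apply, LinearMap.zero_apply]
    have : mulA (0 : F) α = 0 := by
      apply Subtype.ext
      funext v
      simp
    rw [this, map_zero]
  obtain ⟨P⟩ := nonempty_place (K := K) (F := F)
  set n : ℕ := (3 * (genusFF K F : ℤ) - Divisor.degree D₁ - Divisor.degree D₂).toNat with hn
  set B : Divisor K F := Finsupp.single P (n : ℤ) with hB
  have hdB : Divisor.degree B = n := by
    rw [hB, Divisor.degree_single, deg_eq_one]
    simp
  have e1 : -B = D₁ - (D₁ + B) := by abel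
  have e2 : -B = D₂ - (D₂ + B) := by abel
  have hr₁ := map_tw_le h1 e1
  have hr₂ := map_tw_le h2 e2
  have hne : (riemannRochSpace (D₁ + B)).map (tw ω₁) ⊓ (riemannRochSpace (D₂ + B)).map (tw ω₂) ≠
      ⊥ := by
    intro hbot
    have h3 := Submodule.finrank_sup_add_finrank_inf_eq (K := K)
      ((riemannRochSpace (D₁ + B)).map (tw ω₁)) ((riemannRochSpace (D₂ + B)).map (tw ω₂))
    rw [hbot, finrank_bot, add_zero, finrank_map_tw h0, finrank_map_tw h0'] at h3
    have h4 := Submodule.finrank_mono (R := K) (sup_le hr₁ hr₂)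
    rw [h3, finrank_Om] at h4
    have h5 := riemannRoch (-B)
    have h6 : ell (-B) ≤ 1 := by
      rw [← ell_zero (K := K) (F := F)]
      apply Submodule.finrank_mono
      apply L_mono
      intro v
      rw [hB, Finsupp.neg_apply, Finsupp.zero_apply, Left.neg_nonpos_iff]
      rcases eq_or_ne v P with rfl | hv
      · rw [Finsupp.single_eq_same]
        positivity
      · rw [Finsupp.single_eq_of_ne hv]
    have h7 := ell_ge (D₁ + B)
    have h8 := ell_ge (D₂ + B)
    rw [map_neg] at h5
    rw [map_add] at h7 h8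
    rw [hdB] at h5 h7 h8
    have h9 : (n : ℤ) ≥ 3 * (genusFF K F : ℤ) - Divisor.degree D₁ - Divisor.degree D₂ := by
      rw [hn]
      exact Int.self_le_toNat _
    omega
  obtain ⟨η, ⟨⟨f₁, hf₁, hf₁'⟩, ⟨f₂, hf₂, hf₂'⟩⟩, hη⟩ := Submodule.exists_mem_ne_zero_of_ne_bot hne
  rw [tw_apply] at hf₁' hf₂'
  have hne2 : f₂ ≠ 0 := by
    intro h
    apply hη
    rw [← hf₂', ← tw_apply, h, map_zero]
  refine ⟨f₁ * f₂⁻¹, ?_⟩
  rw [← twist_twist, hf₁', ← hf₂', twist_inv_twist hne2]

/-- a Weil differential vanishing on `A(D) + F` with `deg D ≥ 2g` is zero -/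
theorem eq_zero_of_degree {D : Divisor K F} (hD : 2 * (genusFF K F : ℤ) ≤ Divisor.degree D)
    {ω : Module.Dual K (repartitions K F)} (hω : ω ∈ Om D) : ω = 0 := by
  have h1 : MM D = ⊤ := hh_eq_zero_iff.mp (hh_eq_zero_of_degree_ge hD)
  refine LinearMap.ext fun α => ?_
  have h2 : α ∈ MM D := by rw [h1]; trivial
  exact (Submodule.mem_dualAnnihilator ω).mp hω α h2

/-- **The divisor of a Weil differential.** -/
theorem exists_divisor {D₀ : Divisor K F} {ω : Module.Dual K (repartitions K F)} (h : ω ∈ Om D₀)
    (h0 : ω ≠ 0) : ∃ W : Divisor K F, ∀ D : Divisor K F, ω ∈ Om D ↔ D ≤ W := by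
  classical
  obtain ⟨n, ⟨W, hW, hWn⟩, hmax⟩ := Int.exists_greatest_of_bdd
    (P := fun n => ∃ D : Divisor K F, ω ∈ Om D ∧ Divisor.degree D = n)
    ⟨2 * (genusFF K F : ℤ), fun n ⟨D, hD, hn⟩ => by
      by_contra hcon
      exact h0 (eq_zero_of_degree (by omega) hD)⟩ ⟨_, D₀, h, rfl⟩
  refine ⟨W, fun D => ⟨fun hD => ?_, fun hD => Om_anti hD hW⟩⟩
  by_contra hle
  obtain ⟨v, hv⟩ : ∃ v, W v < D v := by
    by_contra! hcon
    exact hle hcon
  have hnew : ω ∈ Om (W + Finsupp.single v 1) := by
    rw [mem_Om] at hW hD ⊢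
    refine ⟨fun α hα => ?_, hW.2⟩
    have hβ : pt v (α.1 v) ∈ repartitionsOf D := by
      rw [pt_mem_A]
      have h1 := hα v
      change v.adicValuation (α.1 v) ≤ exp ((W + Finsupp.single v 1 : Divisor K F) v) at h1
      rw [add_single_apply_self] at h1
      exact h1.trans (exp_le_exp.mpr (by omega))
    have hγ : α - pt v (α.1 v) ∈ repartitionsOf W := by
      intro w
      change w.adicValuation (α.1 w - (pt v (α.1 v) : Place K F → F) w) ≤ _
      rcases eq_or_ne w v with rfl | hw
      · rw [pt_apply_self, sub_self, map_zero]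
        exact zero_le
      · rw [pt_apply_ne hw, sub_zero]
        have h1 := hα w
        change w.adicValuation (α.1 w) ≤ exp ((W + Finsupp.single v 1 : Divisor K F) w) at h1
        rwa [add_single_apply_ne W hw] at h1
    have h2 := hW.1 _ hγ
    rw [map_sub, hD.1 _ hβ, sub_zero] at h2
    exact h2
  have h3 := hmax _ ⟨_, hnew, rfl⟩
  rw [degree_add_single] at h3
  omega

theorem exists_ne_zero : ∃ (D : Divisor K F) (ω : Module.Dual K (repartitions K F)), ω ∈ Om D ∧ ω ≠ 0 := by
  obtain ⟨P⟩ := nonempty_place (K := K) (F := F)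
  set D : Divisor K F := Finsupp.single P (-2 : ℤ) with hD
  have h1 := riemannRoch D
  have h2 : Divisor.degree D = -2 := by
    rw [hD, Divisor.degree_single, deg_eq_one]
    simp
  rw [h2] at h1
  have h3 : 0 < Module.finrank K (Om D) := by
    rw [finrank_Om]
    omega
  have : Nontrivial (Om D) := Module.nontrivial_of_finrank_pos h3
  obtain ⟨ω, hω⟩ := exists_ne (0 : Om D)
  exact ⟨D, ω.1, ω.2, fun h => hω (Subtype.ext h)⟩

/-- **Duality.** -/
theorem hh_eq_ell {D₀ W : Divisor K F} {ω : Module.Dual K (repartitions K F)} (h : ω ∈ Om D₀)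
    (h0 : ω ≠ 0) (hW : ∀ D : Divisor K F, ω ∈ Om D ↔ D ≤ W) (D : Divisor K F) :
    hh D = ell (W - D) := by
  have hωW : ω ∈ Om W := (hW W).mpr le_rfl
  have e : D = W - (W - D) := by abel
  have hr : (riemannRochSpace (W - D)).map (tw ω) = Om D := by
    apply le_antisymm (map_tw_le hωW e)
    intro η hη
    obtain ⟨f, rfl⟩ := exists_twist h hη h0
    have hf : f ∈ riemannRochSpace (W - D) := by
      by_cases hf0 : f = 0
      · rw [hf0]
        exact Submodule.zero_mem _
      rw [mem_L_iff_div hf0]
      have h1 := twist_mem (mem_L_neg_div (K := K) (inv_ne_zero hf0)) hη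
      rw [twist_inv_twist hf0, hW, div_inv] at h1
      intro v
      have h2 := h1 v
      simp only [Finsupp.sub_apply, Finsupp.neg_apply, Finsupp.add_apply, Finsupp.zero_apply] at h2 ⊢
      omega
    exact ⟨f, hf, rfl⟩
  rw [← finrank_Om, ← hr, finrank_map_tw h0]

/-- **The Riemann–Roch theorem**: there is a (canonical) divisor `W` with
`ℓ(D) = deg D + 1 - g + ℓ(W - D)` for all `D`. -/
theorem riemannRoch_canonical : ∃ W : Divisor K F, ∀ D : Divisor K F,
    (ell D : ℤ) = Divisor.degree D + 1 - genusFF K F + ell (W - D) := by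
  obtain ⟨D₀, ω, h, h0⟩ := exists_ne_zero (K := K) (F := F)
  obtain ⟨W, hW⟩ := exists_divisor h h0
  refine ⟨W, fun D => ?_⟩
  have h1 := riemannRoch D
  rw [hh_eq_ell h h0 hW D] at h1
  omega

/-! ### Canonical divisors -/

theorem degree_nonneg {D : Divisor K F} (h : 0 ≤ D) : 0 ≤ Divisor.degree D := by
  rw [degree_eq_sum deg_eq_one]
  exact Finset.sum_nonneg fun v _ => h v

theorem eq_zero_of_degree_zero {D : Divisor K F} (h : 0 ≤ D) (hd : Divisor.degree D = 0) :
    D = 0 := by
  rw [degree_eq_sum deg_eq_one] at hd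
  have h1 := (Finset.sum_eq_zero_iff_of_nonneg (fun v _ => h v)).mp hd
  ext v
  by_cases hv : v ∈ D.support
  · exact h1 v hv
  · simpa using hv

theorem exists_effective_of_ell_pos {D : Divisor K F} (h : 0 < ell D) :
    ∃ f : F, f ≠ 0 ∧ 0 ≤ D + div f := by
  have : Nontrivial (riemannRochSpace D) := Module.nontrivial_of_finrank_pos (R := K) h
  obtain ⟨f, hf⟩ := exists_ne (0 : riemannRochSpace D)
  have hf0 : (f : F) ≠ 0 := fun h => hf (Subtype.ext h)
  exact ⟨f, hf0, (mem_L_iff_div hf0).mp f.2⟩

theorem ell_eq_zero_of_degree_neg {D : Divisor K F} (h : Divisor.degree D < 0) : ell D = 0 := by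
  by_contra hne
  obtain ⟨f, -, hf⟩ := exists_effective_of_ell_pos (Nat.pos_of_ne_zero hne)
  have := degree_nonneg hf
  rw [map_add, degree_div] at this
  omega

/-- a divisor of degree zero with a section is principal -/
theorem exists_eq_div {D : Divisor K F} (hd : Divisor.degree D = 0) (h : 0 < ell D) :
    ∃ f : F, f ≠ 0 ∧ D = div f := by
  obtain ⟨f, hf0, hf⟩ := exists_effective_of_ell_pos h
  have h1 := eq_zero_of_degree_zero hf (by rw [map_add, degree_div, hd, add_zero])
  refine ⟨f⁻¹, inv_ne_zero hf0, ?_⟩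
  rw [div_inv]
  exact eq_neg_of_add_eq_zero_left h1

/-- `W` is a canonical divisor. -/
def IsCanonical (W : Divisor K F) : Prop := ∀ D : Divisor K F,
  (ell D : ℤ) = Divisor.degree D + 1 - genusFF K F + ell (W - D)

theorem exists_isCanonical : ∃ W : Divisor K F, IsCanonical W := riemannRoch_canonical

namespace IsCanonical

variable {W : Divisor K F} (hW : IsCanonical W)

include hW

/-- `ℓ(W) = g` -/
theorem ell_eq : ell W = genusFF K F := by
  have h := hW 0
  rw [ell_zero, map_zero, sub_zero] at h
  omega

/-- `deg W = 2g - 2` -/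
theorem degree_eq : Divisor.degree W = 2 * (genusFF K F : ℤ) - 2 := by
  have h := hW W
  rw [sub_self, ell_zero, hW.ell_eq] at h
  omega

/-- `ℓ(D) = deg D + 1 - g` for `deg D > 2g - 2`. -/
theorem ell_of_degree_gt {D : Divisor K F} (h : 2 * (genusFF K F : ℤ) - 2 < Divisor.degree D) :
    (ell D : ℤ) = Divisor.degree D + 1 - genusFF K F := by
  have h1 := hW D
  rw [ell_eq_zero_of_degree_neg (D := W - D) (by rw [map_sub, hW.degree_eq]; omega)] at h1
  simpa using h1

/-- canonical divisors are the divisors linearly equivalent to `W` -/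
theorem add_div {f : F} (hf : f ≠ 0) : IsCanonical (W + div f) := by
  intro D
  have e : W + div f - D = (W - D) + div f := by abel
  rw [e, ell_add_div _ hf]
  exact hW D

end IsCanonical

/-- **The canonical class**: a divisor is canonical if and only if it is of degree `2g - 2` with `ℓ(W) = g` (or
`≥ g`). -/
theorem isCanonical_iff {W : Divisor K F} : IsCanonical W ↔
    Divisor.degree W = 2 * (genusFF K F : ℤ) - 2 ∧ genusFF K F ≤ ell W := by
  refine ⟨fun h => ⟨h.degree_eq, h.ell_eq.ge⟩, fun ⟨h1, h2⟩ => ?_⟩
  obtain ⟨W₀, h₀⟩ := exists_isCanonical (K := K) (F := F)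
  have h3 := h₀ W
  have h4 : 0 < ell (W₀ - W) := by omega
  obtain ⟨f, hf, h5⟩ := exists_eq_div (by rw [map_sub, h1, h₀.degree_eq, sub_self]) h4
  have h6 : W = W₀ + div f⁻¹ := by
    rw [div_inv, ← h5]
    abel
  rw [h6]
  exact h₀.add_div (inv_ne_zero hf)

/-- **Uniqueness of the canonical class.** -/
theorem IsCanonical.unique {W W' : Divisor K F} (hW : IsCanonical W) :
    IsCanonical W' ↔ ∃ f : F, f ≠ 0 ∧ W' = W + div f := by
  constructor
  · intro h
    have h3 := h W
    rw [hW.ell_eq, hW.degree_eq] at h3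
    obtain ⟨f, hf, h5⟩ := exists_eq_div (D := W' - W)
      (by rw [map_sub, h.degree_eq, hW.degree_eq, sub_self]) (by omega)
    exact ⟨f, hf, by rw [← h5]; abel⟩
  · rintro ⟨f, hf, rfl⟩
    exact hW.add_div hf

/-- the divisor of a Weil differential is canonical -/
theorem isCanonical_of_weil {D₀ W : Divisor K F} {ω : Module.Dual K (repartitions K F)}
    (h : ω ∈ Om D₀) (h0 : ω ≠ 0) (hW : ∀ D : Divisor K F, ω ∈ Om D ↔ D ≤ W) : IsCanonical W := by
  intro D
  have h1 := riemannRoch D
  rw [hh_eq_ell h h0 hW D] at h1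
  omega

/-- **Riemann's vanishing**, sharp form. -/
theorem ell_of_degree_gt {D : Divisor K F} (h : 2 * (genusFF K F : ℤ) - 2 < Divisor.degree D) :
    (ell D : ℤ) = Divisor.degree D + 1 - genusFF K F := by
  obtain ⟨W₀, h₀⟩ := exists_isCanonical (K := K) (F := F)
  exact h₀.ell_of_degree_gt h

/-- The dimension of `H¹(D)` is `ℓ(W - D)`. -/
theorem IsCanonical.hh_eq {W : Divisor K F} (hW : IsCanonical W) (D : Divisor K F) :
    hh D = ell (W - D) := by
  have h1 := riemannRoch D
  have h2 := hW D
  omega

/-- A divisor of degree `≥ 2g` has no base points. -/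
theorem exists_ord_eq_neg {D : Divisor K F} (h : 2 * (genusFF K F : ℤ) ≤ Divisor.degree D)
    (v : Place K F) : ∃ f : F, f ≠ 0 ∧ 0 ≤ D + div f ∧ v.ord f = -D v := by
  have h1 := ell_of_degree_gt (D := D) (by omega)
  have h2 : Divisor.degree (D - Finsupp.single v 1) + 1 = Divisor.degree D := by
    rw [← degree_add_single _ v, sub_add_cancel]
  have h3 := ell_of_degree_gt (D := D - Finsupp.single v 1) (by omega)
  obtain ⟨f, hf, hf'⟩ : ∃ f ∈ riemannRochSpace D, f ∉ riemannRochSpace (D - Finsupp.single v 1) := by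
    by_contra! hcon
    have h4 : ell D ≤ ell (D - Finsupp.single v 1) := Submodule.finrank_mono hcon
    omega
  have hf0 : f ≠ 0 := by
    rintro rfl
    exact hf' (Submodule.zero_mem _)
  rw [mem_L_iff_div hf0] at hf hf'
  refine ⟨f, hf0, hf, ?_⟩
  have h5 := hf v
  rw [Finsupp.add_apply, div_apply, Finsupp.zero_apply] at h5
  by_contra hne
  apply hf'
  intro w
  rw [Finsupp.add_apply, Finsupp.sub_apply, div_apply, Finsupp.zero_apply]
  rcases eq_or_ne w v with rfl | hw
  · rw [Finsupp.single_eq_same]
    omega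
  · rw [Finsupp.single_eq_of_ne hw]
    have h6 := hf w
    rw [Finsupp.add_apply, div_apply, Finsupp.zero_apply] at h6
    omega

/-! ### The Weierstrass gap theorem -/

/-- **The gap theorem**: for every place `P` there are exactly `g` integers `n ≥ 1` such that no function has `n P` as
its polar divisor. -/
theorem card_gaps (P : Place K F) :
    {n : ℕ | 1 ≤ n ∧ ¬ ∃ f : F, poles f = Finsupp.single P (n : ℤ)}.ncard = genusFF K F := by
  classical
  -- `n` is a gap iff `ℓ(nP) = ℓ((n-1)P)`
  have hgap : ∀ n : ℕ, (∃ f : F, poles f = (Finsupp.single P ((n + 1 : ℕ) : ℤ) : Divisor K F)) ↔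
      ell (Finsupp.single P ((n + 1 : ℕ) : ℤ) : Divisor K F) =
        ell (Finsupp.single P (n : ℤ) : Divisor K F) + 1 := by
    intro n
    have e : (Finsupp.single P ((n + 1 : ℕ) : ℤ) : Divisor K F) =
        Finsupp.single P (n : ℤ) + Finsupp.single P 1 := by
      rw [← Finsupp.single_add]
      push_cast
      rfl
    constructor
    · rintro ⟨f, hf⟩
      rcases ell_add_single (Finsupp.single P (n : ℤ) : Divisor K F) P with h | h
      · exfalso
        rw [← e] at h
        have hle : riemannRochSpace (Finsupp.single P (n : ℤ) : Divisor K F) ≤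
            riemannRochSpace (Finsupp.single P ((n + 1 : ℕ) : ℤ) : Divisor K F) := by
          rw [e]
          exact L_le_step _ _
        have h1 := Submodule.eq_of_le_of_finrank_eq hle h.symm
        have h2 : f ∈ riemannRochSpace (Finsupp.single P (n : ℤ) : Divisor K F) := by
          rw [h1, ← hf]
          exact mem_L_poles f
        have h3 := h2 P
        rw [P.adicValuation_le_exp_iff, Finsupp.single_eq_same] at h3
        have h4 := DFunLike.congr_fun hf P
        rw [poles_apply, Finsupp.single_eq_same] at h4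
        rcases h3 with h3 | h3
        · rw [h3] at h4
          simp at h4
          omega
        · push_cast at h4
          omega
      · rw [e]
        exact h
    · intro h
      obtain ⟨f, hf, hf'⟩ : ∃ f ∈ riemannRochSpace (Finsupp.single P ((n + 1 : ℕ) : ℤ) : Divisor K F),
          f ∉ riemannRochSpace (Finsupp.single P (n : ℤ) : Divisor K F) := by
        by_contra! hcon
        have h4 : ell (Finsupp.single P ((n + 1 : ℕ) : ℤ) : Divisor K F) ≤
            ell (Finsupp.single P (n : ℤ) : Divisor K F) := Submodule.finrank_mono hcon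
        omega
      have hf0 : f ≠ 0 := by
        rintro rfl
        exact hf' (Submodule.zero_mem _)
      rw [mem_L_iff_div hf0] at hf hf'
      refine ⟨f, ?_⟩
      ext w
      rw [poles_apply]
      have h6 := hf w
      rw [Finsupp.add_apply, div_apply, Finsupp.zero_apply] at h6
      rcases eq_or_ne w P with rfl | hw
      · rw [Finsupp.single_eq_same] at h6 ⊢
        have h7 : ¬ w.ord f ≥ -(n : ℤ) := by
          intro h8
          apply hf'
          intro u
          rw [Finsupp.add_apply, div_apply, Finsupp.zero_apply]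
          rcases eq_or_ne u w with rfl | hu
          · rw [Finsupp.single_eq_same]
            omega
          · have h9 := hf u
            rw [Finsupp.add_apply, div_apply, Finsupp.zero_apply, Finsupp.single_eq_of_ne hu] at h9
            rw [Finsupp.single_eq_of_ne hu]
            exact h9
        push_cast at h6 ⊢
        omega
      · rw [Finsupp.single_eq_of_ne hw] at h6 ⊢
        omega
  have hcount : ∀ N : ℕ, ((Finset.range N).filter fun n =>
      ¬ ∃ f : F, poles f = (Finsupp.single P ((n + 1 : ℕ) : ℤ) : Divisor K F)).card +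
      ell (Finsupp.single P (N : ℤ) : Divisor K F) = N + 1 := by
    intro N
    induction N with
    | zero => simp [ell_zero]
    | succ N ih =>
      have e : (Finsupp.single P ((N + 1 : ℕ) : ℤ) : Divisor K F) =
          Finsupp.single P (N : ℤ) + Finsupp.single P 1 := by
        rw [← Finsupp.single_add]
        push_cast
        rfl
      rw [Finset.range_add_one, Finset.filter_insert]
      split_ifs with h
      · rw [hgap] at h
        omega
      · rw [Finset.card_insert_of_notMem (by simp)]
        rw [hgap] at h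
        rcases ell_add_single (Finsupp.single P (N : ℤ) : Divisor K F) P with h1 | h1
        · rw [e]
          omega
        · rw [← e] at h1
          exact absurd h1 h
  have hd : ∀ m : ℕ, Divisor.degree (Finsupp.single P (m : ℤ) : Divisor K F) = m := by
    intro m
    rw [Divisor.degree_single, deg_eq_one]
    simp
  have hlarge : ∀ n : ℕ, 2 * genusFF K F ≤ n →
      ∃ f : F, poles f = (Finsupp.single P ((n + 1 : ℕ) : ℤ) : Divisor K F) := by
    intro n hn
    rw [hgap]
    have h1 := ell_of_degree_gt (D := (Finsupp.single P ((n + 1 : ℕ) : ℤ) : Divisor K F)) (by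
      rw [hd]; omega)
    have h2 := ell_of_degree_gt (D := (Finsupp.single P (n : ℤ) : Divisor K F)) (by
      rw [hd]; omega)
    rw [hd] at h1 h2
    omega
  have hset : {n : ℕ | 1 ≤ n ∧ ¬ ∃ f : F, poles f = (Finsupp.single P (n : ℤ) : Divisor K F)} =
      ((((Finset.range (2 * genusFF K F)).filter fun n =>
        ¬ ∃ f : F, poles f = (Finsupp.single P ((n + 1 : ℕ) : ℤ) : Divisor K F)).image
          fun n => n + 1 : Finset ℕ) : Set ℕ) := by
    ext n
    rw [Finset.coe_image, Finset.coe_filter]
    constructor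
    · rintro ⟨h1, h2⟩
      obtain ⟨m, rfl⟩ := Nat.exists_eq_add_of_le' h1
      refine ⟨m, ⟨?_, h2⟩, rfl⟩
      rw [Finset.mem_range]
      by_contra hcon
      exact h2 (hlarge m (by omega))
    · rintro ⟨m, ⟨h1, h2⟩, rfl⟩
      exact ⟨Nat.le_add_left 1 m, h2⟩
  rw [hset, Set.ncard_coe_finset, Finset.card_image_of_injective _ (fun a b h => by simpa using h)]
  have h1 := hcount (2 * genusFF K F)
  have h2 := ell_of_degree_gt (D := (Finsupp.single P ((2 * genusFF K F : ℕ) : ℤ) : Divisor K F)) (by
    rw [hd]
    omega)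
  rw [hd] at h2
  omega

end Fermat.Agent.Cor.RR
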