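import Mathlib
import Fermat.Agent.Cor.Duality
import Fermat.Agent.H18_Norm

/-!
# The Riemann–Hurwitz formula

`F/E` is a finite extension of function fields of one variable over an algebraically closed field `K` of
characteristic zero. `riemann_hurwitz`: `2 g(F) - 2 = [F : E] (2 g(E) - 2) + ∑ (e_w - 1)`.

This file is not used by any of the statement files.
-/

set_option autoImplicit false
set_option linter.unusedSectionVars false
set_option linter.style.haveILetI false

noncomputable section

namespace Fermat.Agent.Cor.RR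

open AlgebraicCurve IsDedekindDomain WithZero Polynomial
open Fermat.Agent Fermat.Agent.FF Fermat.Agent.H18

theorem lt_one_iff_ord {K L : Type*} [Field K] [Field L] [Algebra K L] (u : Place K L) {f : L}
    (hf : f ≠ 0) : u.adicValuation f < 1 ↔ 0 < u.ord f := by
  rw [u.adicValuation_eq_exp_neg_ord hf, show (1 : ℤᵐ⁰) = exp 0 from rfl, exp_lt_exp]
  omega

section Local

variable {K E F : Type*} [Field K] [Field E] [Field F] [Algebra K E] [Algebra K F]
  [Algebra E F] [IsScalarTower K E F] [IsAlgClosed K] [FunField K E] [FunField K F]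
  [FiniteDimensional E F] [Algebra.IsSeparable E F]

attribute [local instance 10] Fermat.Agent.H18.algebraVF
attribute [local instance] Fermat.Agent.H18.towerVEF
attribute [local instance] Fermat.Agent.H18.towerKVF

/-- the value at a place, as a ring homomorphism -/
def valHom (v : Place K E) : v.toValuationSubring →+* K where
  toFun x := val v (x : E)
  map_one' := val_one v
  map_mul' x y := val_mul (v.adicValuation_le_one_of_mem x.2) (v.adicValuation_le_one_of_mem y.2)
  map_zero' := val_zero v
  map_add' x y := val_add (v.adicValuation_le_one_of_mem x.2) (v.adicValuation_le_one_of_mem y.2)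

theorem valHom_algebraMap (v : Place K E) (c : K) :
    valHom v (algebraMap K v.toValuationSubring c) = c := val_algebraMap v c

theorem mem_intCl (v : Place K E) {z : F}
    (hz : ∀ w : Place K F, w.restrict E = v → w.adicValuation z ≤ 1) :
    ∃ y : intCl F v, algebraMap (intCl F v) F y = z := by
  refine HeightOneSpectrum.mem_integers_of_valuation_le_one F z fun P => ?_
  rw [← adicValuation_placeOfPrime K F P]
  exact hz _ ((restrict_eq_iff v _).mpr (algebraMap_mem_placeOfPrime K F P))

theorem inertiaDeg_eq_one (w : Place K F) : w.inertiaDeg E = 1 := by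
  have h := w.deg_restrict_mul_inertiaDeg (F := E)
  rw [FF.deg_eq_one, FF.deg_eq_one, one_mul] at h
  exact h

instance freeIntCl (v : Place K E) : Module.Free v.toValuationSubring (intCl F v) :=
  IsIntegralClosure.module_free v.toValuationSubring E F (intCl F v)

theorem exists_poly (v : Place K E) {z : F}
    (hz : ∀ w : Place K F, w.restrict E = v → w.adicValuation z ≤ 1) :
    v.adicValuation (Algebra.trace E F z) ≤ 1 ∧ ∃ P : K[X], P.Monic ∧
      (∀ c : K, v.adicValuation (Algebra.norm E (algebraMap K F c - z)) ≤ 1 ∧
        P.eval c = val v (Algebra.norm E (algebraMap K F c - z))) ∧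
      P.roots.sum = val v (Algebra.trace E F z) := by
  classical
  obtain ⟨y, rfl⟩ := mem_intCl v hz
  set R := v.toValuationSubring
  haveI : IsLocalization (Algebra.algebraMapSubmonoid (intCl F v) (nonZeroDivisors R)) F :=
    IsIntegralClosure.isLocalization R E F (intCl F v)
  have htr := Algebra.trace_localization R (nonZeroDivisors R) (Rₘ := E) (Sₘ := F) y
  have hnorm := fun a : intCl F v =>
    Algebra.norm_localization R (nonZeroDivisors R) (Rₘ := E) (Sₘ := F) a
  set b := Module.Free.chooseBasis R (intCl F v)
  set M := Algebra.leftMulMatrix b y with hM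
  have hne : Nonempty (Module.Free.ChooseBasisIndex R (intCl F v)) := inferInstance
  have hle : ∀ x : R, v.adicValuation (algebraMap R E x) ≤ 1 := fun x =>
    v.adicValuation_le_one_of_mem x.2
  set N := (valHom v).mapMatrix M with hN
  refine ⟨by rw [htr]; exact hle _, N.charpoly, N.charpoly_monic, fun c => ?_, ?_⟩
  · have e : algebraMap K F c - algebraMap (intCl F v) F y =
        algebraMap (intCl F v) F (algebraMap R (intCl F v) (algebraMap K R c) - y) := by
      rw [map_sub, ← IsScalarTower.algebraMap_apply R (intCl F v) F,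
        ← IsScalarTower.algebraMap_apply K R F]
    rw [e, hnorm]
    refine ⟨hle _, ?_⟩
    rw [Matrix.eval_charpoly]
    change _ = valHom v _
    rw [Algebra.norm_eq_matrix_det b, map_sub, AlgHom.commutes, RingHom.map_det, map_sub, ← hM,
      ← hN]
    congr 2
    ext i j
    rw [Matrix.scalar_apply, RingHom.mapMatrix_apply, Matrix.map_apply, Matrix.algebraMap_matrix_apply,
      Matrix.diagonal_apply]
    split_ifs
    · exact (valHom_algebraMap v c).symm
    · exact (valHom v).map_zero.symm
  · rw [← Matrix.trace_eq_sum_roots_charpoly, htr]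
    change _ = valHom v _
    rw [Algebra.trace_eq_matrix_trace b, ← hM, hN, Matrix.trace, Matrix.trace, map_sum]
    rfl

theorem norm_lt_iff (v : Place K E) {z : F}
    (hz : ∀ w : Place K F, w.restrict E = v → w.adicValuation z ≤ 1)
    (h1 : v.adicValuation (Algebra.norm E z) ≤ 1) :
    val v (Algebra.norm E z) = 0 ↔ ∃ w : Place K F, w.restrict E = v ∧ w.adicValuation z < 1 := by
  rw [val_eq_zero_iff h1]
  by_cases hz0 : z = 0
  · rw [hz0, Algebra.norm_zero, map_zero]
    obtain ⟨w, hw⟩ := exists_restrict_eq (F := F) v
    exact iff_of_true zero_lt_one ⟨w, hw, by rw [map_zero]; exact zero_lt_one⟩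
  have hN0 : Algebra.norm E z ≠ 0 := Algebra.norm_ne_zero_iff.mpr hz0
  have hnn : ∀ w ∈ (fiber_finite F v).toFinset, 0 ≤ (w.inertiaDeg E : ℤ) * w.ord z := by
    intro w hw
    rw [mem_fiberFinset] at hw
    have h2 := hz w hw
    rw [w.adicValuation_le_one_iff] at h2
    exact mul_nonneg (by positivity) (h2.resolve_left hz0)
  rw [lt_one_iff_ord v hN0, ord_norm v z hz0]
  constructor
  · intro h
    obtain ⟨w, hw, hw'⟩ := Finset.exists_ne_zero_of_sum_ne_zero h.ne'
    have h2 := hnn w hw
    rw [mem_fiberFinset] at hw
    refine ⟨w, hw, (lt_one_iff_ord w hz0).mpr ?_⟩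
    rw [inertiaDeg_eq_one, Nat.cast_one, one_mul] at h2 hw'
    omega
  · rintro ⟨w, hw, hw'⟩
    refine lt_of_lt_of_le ?_ (Finset.single_le_sum hnn (mem_fiberFinset.mpr hw))
    rw [inertiaDeg_eq_one, Nat.cast_one, one_mul]
    exact (lt_one_iff_ord w hz0).mp hw'

/-- the trace of an element integral above `v` -/
theorem trace_le_one (v : Place K E) {z : F}
    (hz : ∀ w : Place K F, w.restrict E = v → w.adicValuation z ≤ 1) :
    v.adicValuation (Algebra.trace E F z) ≤ 1 := (exists_poly v hz).1

/-- The reduction of the characteristic polynomial: its roots are the values. -/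
theorem exists_poly' (v : Place K E) {z : F}
    (hz : ∀ w : Place K F, w.restrict E = v → w.adicValuation z ≤ 1) :
    ∃ s : Multiset K, (∀ c, c ∈ s ↔ ∃ w : Place K F, w.restrict E = v ∧ val w z = c) ∧
      s.sum = val v (Algebra.trace E F z) := by
  obtain ⟨-, P, hP, h1, h2⟩ := exists_poly v hz
  refine ⟨P.roots, fun c => ?_, h2⟩
  rw [Polynomial.mem_roots hP.ne_zero, Polynomial.IsRoot.def, (h1 c).2]
  have hz' : ∀ w : Place K F, w.restrict E = v →
      w.adicValuation (algebraMap K F c - z) ≤ 1 := fun w hw =>
    (Valuation.map_sub _ _ _).trans (max_le (w.adicValuation_algebraMap_le_one c) (hz w hw))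
  rw [norm_lt_iff v hz' (h1 c).1]
  refine exists_congr fun w => and_congr_right fun hw => ?_
  rw [val_eq_iff (hz w hw), ← Valuation.map_neg, neg_sub]

/-- the trace of an element which vanishes at all places above `v` -/
theorem trace_lt_one (v : Place K E) {z : F}
    (hz : ∀ w : Place K F, w.restrict E = v → w.adicValuation z < 1) :
    v.adicValuation (Algebra.trace E F z) < 1 := by
  have hz' : ∀ w : Place K F, w.restrict E = v → w.adicValuation z ≤ 1 := fun w hw => (hz w hw).le
  obtain ⟨s, h1, h2⟩ := exists_poly' v hz'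
  rw [← val_eq_zero_iff (trace_le_one v hz'), ← h2]
  refine Multiset.sum_eq_zero fun c hc => ?_
  obtain ⟨w, hw, rfl⟩ := (h1 c).mp hc
  exact (val_eq_zero_iff (hz' w hw)).mpr (hz w hw)

theorem sum_zero_one {k : Type*} [Field k] [DecidableEq k] (s : Multiset k)
    (h : ∀ x ∈ s, x = 0 ∨ x = 1) : s.sum = (s.count 1 : k) := by
  induction s using Multiset.induction_on with
  | empty => simp
  | cons a s ih =>
    rw [Multiset.sum_cons, ih fun x hx => h x (Multiset.mem_cons_of_mem hx)]
    rcases h a (Multiset.mem_cons_self a s) with rfl | rfl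
    · rw [Multiset.count_cons_of_ne one_ne_zero, zero_add]
    · rw [Multiset.count_cons_self]
      push_cast
      ring

/-- the trace of an idempotent -/
theorem trace_eq_one [CharZero K] {w₀ : Place K F} {z : F} (h0 : w₀.adicValuation (z - 1) < 1)
    (hz : ∀ w : Place K F, w.restrict E = w₀.restrict E → w ≠ w₀ → w.adicValuation z < 1) :
    (w₀.restrict E).adicValuation (Algebra.trace E F z) = 1 := by
  classical
  have hv0 : val w₀ z = 1 := val_eq_of_lt (by rwa [map_one])
  have h0' : w₀.adicValuation z ≤ 1 := by
    have e : z = (z - 1) + 1 := by ring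
    rw [e]
    exact (Valuation.map_add _ _ _).trans (max_le h0.le (by rw [map_one]))
  have hz' : ∀ w : Place K F, w.restrict E = w₀.restrict E → w.adicValuation z ≤ 1 := by
    intro w hw
    by_cases h : w = w₀
    · rw [h]
      exact h0'
    · exact (hz w hw h).le
  obtain ⟨s, h1, h2⟩ := exists_poly' (w₀.restrict E) hz'
  rw [← val_ne_zero_iff (trace_le_one _ hz'), ← h2, sum_zero_one s]
  · have h3 : (1 : K) ∈ s := (h1 1).mpr ⟨w₀, rfl, hv0⟩
    exact Nat.cast_ne_zero.mpr (Multiset.count_pos.mpr h3).ne'
  · intro c hc
    obtain ⟨w, hw, rfl⟩ := (h1 c).mp hc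
    by_cases h : w = w₀
    · right
      rw [h, hv0]
    · left
      exact (val_eq_zero_iff (hz' w hw)).mpr (hz w hw h)

end Local

section Scale

variable {K E F : Type*} [Field K] [Field E] [Field F] [Algebra K E] [Algebra K F]
  [Algebra E F] [IsScalarTower K E F] [IsAlgClosed K] [FunField K E] [FunField K F]
  [FiniteDimensional E F] [Algebra.IsSeparable E F]

theorem val_algebraMap_le (w : Place K F) {g : E} {n : ℤ}
    (hg : (w.restrict E).adicValuation g ≤ exp n) :
    w.adicValuation (algebraMap E F g) ≤ exp (w.ramificationIndex E * n) := by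
  rw [Place.adicValuation_le_exp_iff] at hg ⊢
  rcases hg with hg | hg
  · left
    rw [hg, map_zero]
  · right
    rw [w.ord_restrict]
    have h0 : (0 : ℤ) ≤ w.ramificationIndex E := by positivity
    nlinarith

theorem val_algebraMap_unif (w : Place K F) (n : ℤ) :
    w.adicValuation (algebraMap E F (unif (w.restrict E) ^ n)) =
      exp (-(w.ramificationIndex E * n)) := by
  have h1 := val_unif_zpow (w.restrict E) n
  have h2 : unif (w.restrict E) ^ n ≠ 0 := by
    intro h
    rw [h, map_zero] at h1
    exact exp_ne_zero h1.symm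
  have h3 : (w.restrict E).ord (unif (w.restrict E) ^ n) = n := by
    rw [(w.restrict E).adicValuation_eq_exp_neg_ord h2, exp_inj] at h1
    omega
  have h4 : algebraMap E F (unif (w.restrict E) ^ n) ≠ 0 := (map_ne_zero (algebraMap E F)).mpr h2
  rw [w.adicValuation_eq_exp_neg_ord h4, w.ord_restrict, h3]

/-- **The trace and the different.** -/
theorem trace_le (v : Place K E) (n : ℤ) {z : F}
    (hz : ∀ w : Place K F, w.restrict E = v →
      w.adicValuation z < exp (w.ramificationIndex E * (n + 1))) :
    v.adicValuation (Algebra.trace E F z) ≤ exp n := by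
  rw [val_le_exp_iff_lt]
  set t := unif v ^ (n + 1) with ht
  have h1 : v.adicValuation (Algebra.trace E F (algebraMap E F t * z)) < 1 := by
    apply trace_lt_one
    intro w hw
    rw [map_mul, ht, ← hw, val_algebraMap_unif]
    have h2 := hz w hw
    calc exp (-(w.ramificationIndex E * (n + 1) : ℤ)) * w.adicValuation z
        < exp (-(w.ramificationIndex E * (n + 1) : ℤ)) * exp (w.ramificationIndex E * (n + 1)) :=
          mul_lt_mul_of_pos_left (by simpa using h2) (zero_lt_iff.mpr exp_ne_zero)
      _ = 1 := by rw [← exp_add, neg_add_cancel, exp_zero]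
  rw [← Algebra.smul_def, map_smul, smul_eq_mul, map_mul, ht, val_unif_zpow] at h1
  calc v.adicValuation (Algebra.trace E F z)
      = exp (n + 1) * (exp (-(n + 1)) * v.adicValuation (Algebra.trace E F z)) := by
        rw [← mul_assoc, ← exp_add, add_neg_cancel, exp_zero, one_mul]
    _ < exp (n + 1) * 1 := mul_lt_mul_of_pos_left h1 (zero_lt_iff.mpr exp_ne_zero)
    _ = exp (n + 1) := mul_one _

end Scale

section Fac

theorem exists_factor {k X V : Type*} [Field k] [AddCommGroup X] [Module k X] [AddCommGroup V]
    [Module k V] (N : Submodule k V) (j : X →ₗ[k] V) (l : X →ₗ[k] k)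
    (h : ∀ x, j x ∈ N → l x = 0) :
    ∃ ω : Module.Dual k V, (∀ ν ∈ N, ω ν = 0) ∧ ∀ x, ω (j x) = l x := by
  have hl : l ∈ (LinearMap.ker (N.mkQ ∘ₗ j)).dualAnnihilator := by
    rw [Submodule.mem_dualAnnihilator]
    intro x hx
    exact h x ((Submodule.Quotient.mk_eq_zero N).mp hx)
  rw [← LinearMap.range_dualMap_eq_dualAnnihilator_ker] at hl
  obtain ⟨η, hη⟩ := hl
  refine ⟨η ∘ₗ N.mkQ, fun ν hν => ?_, fun x => LinearMap.congr_fun hη x⟩
  rw [LinearMap.comp_apply, Submodule.mkQ_apply, (Submodule.Quotient.mk_eq_zero N).mpr hν, map_zero]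

end Fac

section Global

variable {K E F : Type*} [Field K] [Field E] [Field F] [Algebra K E] [Algebra K F]
  [Algebra E F] [IsScalarTower K E F] [IsAlgClosed K] [FunField K E] [FunField K F]
  [FiniteDimensional E F] [Algebra.IsSeparable E F]

variable (K E F) in
/-- repartitions of `F` which are constant on the fibres -/
def XX : Submodule K (Place K E → F) where
  carrier := {b | {v : Place K E | ∃ w : Place K F, w.restrict E = v ∧
    ¬ w.adicValuation (b v) ≤ 1}.Finite}
  add_mem' := by
    intro a b ha hb
    refine (Set.Finite.union ha hb).subset ?_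
    rintro v ⟨w, hw, hw'⟩
    by_contra hcon
    rw [Set.mem_union, not_or] at hcon
    have h1 : w.adicValuation (a v) ≤ 1 := by
      by_contra h
      exact hcon.1 ⟨w, hw, h⟩
    have h2 : w.adicValuation (b v) ≤ 1 := by
      by_contra h
      exact hcon.2 ⟨w, hw, h⟩
    exact hw' ((Valuation.map_add _ _ _).trans (max_le h1 h2))
  zero_mem' := by
    refine Set.Finite.subset Set.finite_empty ?_
    rintro v ⟨w, hw, hw'⟩
    exact hw' (by rw [Pi.zero_apply, map_zero]; exact zero_le)
  smul_mem' := by
    intro c b hb
    refine Set.Finite.subset hb ?_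
    rintro v ⟨w, hw, hw'⟩
    refine ⟨w, hw, fun h => hw' ?_⟩
    rw [Pi.smul_apply, Algebra.smul_def, map_mul]
    exact mul_le_one' (w.adicValuation_algebraMap_le_one c) h

/-- the map to the repartitions of `F` -/
def jj : XX K E F →ₗ[K] repartitions K F where
  toFun b := ⟨fun w => b.1 (w.restrict E), mem_repartitions_iff.mpr (by
    refine Set.Finite.subset (Set.Finite.preimage' (f := fun w : Place K F => w.restrict E) b.2
      fun v _ => fiber_finite F v) ?_
    intro w hw
    exact ⟨w, rfl, hw⟩)⟩
  map_add' a b := rfl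
  map_smul' c b := rfl

/-- the trace -/
def TT' : XX K E F →ₗ[K] repartitions K E where
  toFun b := ⟨fun v => Algebra.trace E F (b.1 v), mem_repartitions_iff.mpr (by
    refine Set.Finite.subset b.2 ?_
    intro v hv
    by_contra hcon
    apply hv
    apply trace_le_one v
    intro w hw
    by_contra h
    exact hcon ⟨w, hw, h⟩)⟩
  map_add' a b := by
    apply Subtype.ext
    funext v
    exact map_add (Algebra.trace E F) _ _
  map_smul' c b := by
    apply Subtype.ext
    funext v
    exact LinearMap.map_smul_of_tower (Algebra.trace E F) c (b.1 v)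

theorem jj_apply (b : XX K E F) (w : Place K F) : (jj b).1 w = b.1 (w.restrict E) := rfl

theorem TT'_apply (b : XX K E F) (v : Place K E) :
    (TT' b).1 v = Algebra.trace E F (b.1 v) := rfl

theorem TT'_mem {W₀ : Divisor K E} {b : XX K E F} (hb : ∀ w : Place K F,
    w.adicValuation (b.1 (w.restrict E)) <
      exp (w.ramificationIndex E * (W₀ (w.restrict E) + 1))) :
    TT' b ∈ repartitionsOf W₀ := by
  intro v
  change v.adicValuation (Algebra.trace E F (b.1 v)) ≤ _
  apply trace_le
  rintro w rfl
  exact hb w

/-- constant families -/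
def cst (f : F) : XX K E F := ⟨fun _ => f, by
  refine Set.Finite.subset ((finite_not_le (K := K) f).image fun w : Place K F => w.restrict E) ?_
  rintro v ⟨w, hw, hw'⟩
  exact ⟨w, hw', hw⟩⟩

/-- families supported at one place -/
def single' (v : Place K E) (f : F) : XX K E F := by
  classical
  exact ⟨Function.update 0 v f, by
    refine Set.Finite.subset (Set.finite_singleton v) ?_
    rintro u ⟨w, hw, hw'⟩
    by_contra hne
    exact hw' (by
      rw [Function.update_of_ne hne, Pi.zero_apply, map_zero]
      exact zero_le)⟩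

theorem single'_self (v : Place K E) (f : F) : (single' v f).1 v = f := by
  classical
  change Function.update (0 : Place K E → F) v f v = f
  rw [Function.update_self]

theorem single'_ne {u v : Place K E} (h : u ≠ v) (f : F) : (single' v f).1 u = 0 := by
  classical
  change Function.update (0 : Place K E → F) v f u = 0
  rw [Function.update_of_ne h, Pi.zero_apply]

/-- every repartition of `F` is approximated by one constant on the fibres -/
theorem exists_sub_mem_A (α : repartitions K F) (D : Divisor K F) :
    ∃ b : XX K E F, α - jj b ∈ repartitionsOf D := by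
  classical
  have hw : ∀ v : Place K E, ∃ f : F, ∀ w ∈ (fiber_finite F v).toFinset,
      w.adicValuation (f - α.1 w) < exp (D w) := fun v =>
    weak_approx _ _ _ fun _ _ => exp_ne_zero
  choose f hf using hw
  set B : Set (Place K E) := {v | ∃ w : Place K F, w.restrict E = v ∧
    ¬ w.adicValuation (α.1 w) ≤ exp (D w)} with hB
  have hBf : B.Finite := by
    refine Set.Finite.subset (((mem_repartitions_iff.mp α.2).union
      D.support.finite_toSet).image fun w : Place K F => w.restrict E) ?_
    rintro v ⟨w, hw, hw'⟩
    refine ⟨w, ?_, hw⟩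
    by_contra hcon
    rw [Set.mem_union, not_or] at hcon
    have h1 : w.adicValuation (α.1 w) ≤ 1 := by
      by_contra h
      exact hcon.1 h
    have h2 : D w = 0 := by
      by_contra h
      exact hcon.2 (Finsupp.mem_support_iff.mpr h)
    rw [h2, exp_zero] at hw'
    exact hw' h1
  refine ⟨⟨fun v => if v ∈ B then f v else 0, ?_⟩, fun w => ?_⟩
  · refine Set.Finite.subset hBf ?_
    rintro v ⟨w, hw, hw'⟩
    by_contra hcon
    change ¬ w.adicValuation (if v ∈ B then f v else 0) ≤ 1 at hw'
    rw [if_neg hcon, map_zero] at hw'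
    exact hw' zero_le
  · change w.adicValuation (α.1 w - if w.restrict E ∈ B then f (w.restrict E) else 0) ≤ _
    split_ifs with h
    · rw [← Valuation.map_neg, neg_sub]
      exact (hf _ w (mem_fiberFinset.mpr rfl)).le
    · rw [sub_zero]
      by_contra hcon
      exact h ⟨w, rfl, hcon⟩

/-- **The cotrace** of a Weil differential. -/
theorem exists_cotrace {W₀ : Divisor K E} {ω₀ : Module.Dual K (repartitions K E)}
    (h₀ : ω₀ ∈ Om W₀) : ∃ ω : Module.Dual K (repartitions K F),
      (∀ α ∈ repartitionsOf (Divisor.pullback F W₀), ω α = 0) ∧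
      ∀ b : XX K E F, ω (jj b) = ω₀ (TT' b) := by
  refine exists_factor (repartitionsOf (Divisor.pullback F W₀)) jj (ω₀ ∘ₗ TT') fun b hb => ?_
  change ω₀ (TT' b) = 0
  refine (mem_Om.mp h₀).1 _ (TT'_mem fun w => ?_)
  have h4 := hb w
  change w.adicValuation (b.1 (w.restrict E)) ≤ _ at h4
  refine lt_of_le_of_lt h4 ?_
  rw [Divisor.pullback_apply, exp_lt_exp]
  have h5 : 0 < w.ramificationIndex E := w.ramificationIndex_pos (F := E)
  have h6 : (0 : ℤ) < w.ramificationIndex E := by exact_mod_cast h5
  rw [mul_add, mul_one]
  omega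

theorem cotrace_mem {W₀ : Divisor K E} {ω₀ : Module.Dual K (repartitions K E)}
    (h₀ : ω₀ ∈ Om W₀) {ω : Module.Dual K (repartitions K F)}
    (h1 : ∀ α ∈ repartitionsOf (Divisor.pullback F W₀), ω α = 0)
    (h2 : ∀ b : XX K E F, ω (jj b) = ω₀ (TT' b)) {D : Divisor K F}
    (hD : ∀ w : Place K F, D w < w.ramificationIndex E * (W₀ (w.restrict E) + 1)) :
    ω ∈ Om D := by
  rw [mem_Om] at h₀ ⊢
  refine ⟨fun α hα => ?_, fun f => ?_⟩
  · obtain ⟨b, hb⟩ := exists_sub_mem_A (E := E) α (Divisor.pullback F W₀)
    have h3 : ω α = ω (jj b) := by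
      rw [← sub_eq_zero, ← map_sub]
      exact h1 _ hb
    rw [h3, h2]
    refine h₀.1 _ (TT'_mem fun w => ?_)
    have h4 : b.1 (w.restrict E) = α.1 w - (α - jj b).1 w := by
      change _ = α.1 w - (α.1 w - b.1 (w.restrict E))
      ring
    rw [h4]
    refine lt_of_le_of_lt (Valuation.map_sub _ _ _) (max_lt ?_ ?_)
    · exact lt_of_le_of_lt (hα w) (exp_lt_exp.mpr (hD w))
    · refine lt_of_le_of_lt (hb w) ?_
      rw [Divisor.pullback_apply, exp_lt_exp]
      have h5 : 0 < w.ramificationIndex E := w.ramificationIndex_pos (F := E)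
      have h6 : (0 : ℤ) < w.ramificationIndex E := by exact_mod_cast h5
      rw [mul_add, mul_one]
      omega
  · have h3 : (pr f : repartitions K F) = jj (cst (K := K) (E := E) f) := rfl
    rw [h3, h2]
    have h4 : TT' (cst (K := K) (E := E) f) = pr (Algebra.trace E F f) := rfl
    rw [h4]
    exact h₀.2 _

/-- the cotrace is not too small -/
theorem cotrace_not_mem [CharZero K] {W₀ : Divisor K E} {ω₀ : Module.Dual K (repartitions K E)}
    (hW : ∀ D : Divisor K E, ω₀ ∈ Om D ↔ D ≤ W₀) {ω : Module.Dual K (repartitions K F)}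
    (h2 : ∀ b : XX K E F, ω (jj b) = ω₀ (TT' b)) {D : Divisor K F} {w₀ : Place K F}
    (hD : Divisor.pullback F W₀ ≤ D)
    (hD' : w₀.ramificationIndex E * (W₀ (w₀.restrict E) + 1) ≤ D w₀) : ω ∉ Om D := by
  classical
  intro hω
  set v := w₀.restrict E with hv
  have h₀ : ω₀ ∈ Om W₀ := (hW W₀).mpr le_rfl
  have hcon : ω₀ ∈ Om (W₀ + Finsupp.single v 1) := by
    rw [mem_Om] at h₀ hω ⊢
    refine ⟨fun α hα => ?_, h₀.2⟩
    -- the idempotent
    obtain ⟨z, hz⟩ := weak_approx (fiber_finite F v).toFinset
      (fun w : Place K F => if w = w₀ then 1 else 0)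
      (fun w => exp (-(w.ramificationIndex E : ℤ))) fun _ _ => exp_ne_zero
    have hpos : ∀ w : Place K F, (0 : ℤ) < w.ramificationIndex E := fun w => by
      exact_mod_cast w.ramificationIndex_pos (F := E)
    have hlt : ∀ w : Place K F, exp (-(w.ramificationIndex E : ℤ)) < (1 : ℤᵐ⁰) := fun w => by
      rw [← exp_zero, exp_lt_exp]
      have := hpos w
      omega
    have hz0 : w₀.adicValuation (z - 1) < 1 := by
      have := hz w₀ (mem_fiberFinset.mpr rfl)
      rw [if_pos rfl] at this
      exact this.trans (hlt w₀)
    have hz1 : ∀ w : Place K F, w.restrict E = v → w ≠ w₀ →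
        w.adicValuation z < exp (-(w.ramificationIndex E : ℤ)) := by
      intro w hw hne
      have := hz w (mem_fiberFinset.mpr hw)
      rwa [if_neg hne, sub_zero] at this
    have htr := trace_eq_one hz0 fun w hw hne => (hz1 w hw hne).trans (hlt w)
    have htr0 : Algebra.trace E F z ≠ 0 := by
      intro h
      rw [h, map_zero] at htr
      exact zero_ne_one htr
    set g : E := α.1 v / Algebra.trace E F z with hg
    have hgv : v.adicValuation g ≤ exp (W₀ v + 1) := by
      have h3 := hα v
      change v.adicValuation (α.1 v) ≤ exp ((W₀ + Finsupp.single v 1 : Divisor K E) v) at h3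
      rw [add_single_apply_self] at h3
      rw [hg, map_div₀, htr, div_one]
      exact h3
    have hz0' : w₀.adicValuation z ≤ 1 := by
      have e : z = (z - 1) + 1 := by ring
      rw [e]
      exact (Valuation.map_add _ _ _).trans (max_le hz0.le (by rw [map_one]))
    set b : XX K E F := single' v (algebraMap E F g * z) with hb
    have hjb : jj b ∈ repartitionsOf D := by
      intro w
      change w.adicValuation (b.1 (w.restrict E)) ≤ _
      by_cases hw : w.restrict E = v
      · rw [hw, hb, single'_self, map_mul]
        have h4 := val_algebraMap_le (E := E) w (g := g) (n := W₀ v + 1) (by rw [hw]; exact hgv)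
        by_cases hne : w = w₀
        · rw [hne] at h4 ⊢
          calc w₀.adicValuation (algebraMap E F g) * w₀.adicValuation z
              ≤ exp (w₀.ramificationIndex E * (W₀ v + 1)) * 1 := mul_le_mul' h4 hz0'
            _ = exp (w₀.ramificationIndex E * (W₀ v + 1)) := mul_one _
            _ ≤ exp (D w₀) := exp_le_exp.mpr hD'
        · calc w.adicValuation (algebraMap E F g) * w.adicValuation z
              ≤ exp (w.ramificationIndex E * (W₀ v + 1)) * exp (-(w.ramificationIndex E : ℤ)) :=
                mul_le_mul' h4 (hz1 w hw hne).le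
            _ = exp (Divisor.pullback F W₀ w) := by
                rw [← exp_add, Divisor.pullback_apply, hw]
                congr 1
                ring
            _ ≤ exp (D w) := exp_le_exp.mpr (hD w)
      · rw [hb, single'_ne hw, map_zero]
        exact zero_le
    have hTb : TT' b = pt v (α.1 v) := by
      apply Subtype.ext
      funext u
      rw [TT'_apply]
      by_cases hu : u = v
      · rw [hu, hb, single'_self, ← Algebra.smul_def, map_smul, smul_eq_mul, hg,
          div_mul_cancel₀ _ htr0]
        exact (pt_apply_self v _).symm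
      · rw [hb, single'_ne hu, map_zero]
        exact (pt_apply_ne hu _).symm
    have hα' : α - pt v (α.1 v) ∈ repartitionsOf W₀ := by
      intro u
      change u.adicValuation (α.1 u - (pt v (α.1 v) : Place K E → E) u) ≤ _
      by_cases hu : u = v
      · rw [hu, pt_apply_self, sub_self, map_zero]
        exact zero_le
      · rw [pt_apply_ne hu, sub_zero]
        have h3 := hα u
        change u.adicValuation (α.1 u) ≤ exp ((W₀ + Finsupp.single v 1 : Divisor K E) u) at h3
        rwa [add_single_apply_ne W₀ hu] at h3
    have h5 := h₀.1 _ hα'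
    rw [map_sub, ← hTb, ← h2, hω.1 _ hjb, sub_zero] at h5
    exact h5
  have h6 := (hW _).mp hcon v
  rw [add_single_apply_self] at h6
  omega

/-- **The divisor of the cotrace**: there are canonical divisors `W` of `F` and `W₀` of `E` such that
`W = π^* W₀ + R`, `R = ∑ (e_w - 1) w`. -/
theorem exists_canonical_ramification [CharZero K] :
    ∃ (W₀ : Divisor K E) (W : Divisor K F), IsCanonical W₀ ∧ IsCanonical W ∧
      ∀ w : Place K F, W w = Divisor.pullback F W₀ w + (w.ramificationIndex E - 1) := by
  classical
  obtain ⟨D₀, ω₀, h, h0⟩ := exists_ne_zero (K := K) (F := E)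
  obtain ⟨W₀, hW₀⟩ := exists_divisor h h0
  have h₀ : ω₀ ∈ Om W₀ := (hW₀ W₀).mpr le_rfl
  obtain ⟨ω, h1, h2⟩ := exists_cotrace (F := F) h₀
  have hpos : ∀ w : Place K F, (0 : ℤ) < w.ramificationIndex E := fun w => by
    exact_mod_cast w.ramificationIndex_pos (F := E)
  have hmem : ω ∈ Om (Divisor.pullback F W₀) := cotrace_mem h₀ h1 h2 fun w => by
    rw [Divisor.pullback_apply, mul_add, mul_one]
    have := hpos w
    omega
  have hne : ω ≠ 0 := by
    rintro rfl
    obtain ⟨w₀⟩ := nonempty_place (K := K) (F := F)
    refine cotrace_not_mem hW₀ h2 (w₀ := w₀)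
      (D := Divisor.pullback F W₀ + Finsupp.single w₀ (w₀.ramificationIndex E : ℤ)) ?_ ?_
      (Submodule.zero_mem _)
    · intro w
      rw [Finsupp.add_apply]
      rcases eq_or_ne w w₀ with rfl | hw
      · rw [Finsupp.single_eq_same]
        have := hpos w
        omega
      · rw [Finsupp.single_eq_of_ne hw, add_zero]
    · rw [Finsupp.add_apply, Finsupp.single_eq_same, Divisor.pullback_apply, mul_add, mul_one]
  obtain ⟨W, hW⟩ := exists_divisor hmem hne
  refine ⟨W₀, W, isCanonical_of_weil h h0 hW₀, isCanonical_of_weil hmem hne hW, fun w => ?_⟩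
  have hge : Divisor.pullback F W₀ ≤ W := (hW _).mp hmem
  apply le_antisymm
  · by_contra hcon
    refine cotrace_not_mem hW₀ h2 (w₀ := w) hge ?_ ((hW W).mpr le_rfl)
    rw [Divisor.pullback_apply] at hcon
    rw [mul_add, mul_one]
    omega
  · have h3 : ω ∈ Om (Divisor.pullback F W₀ +
        Finsupp.single w ((w.ramificationIndex E : ℤ) - 1)) := cotrace_mem h₀ h1 h2 fun u => by
      rw [Finsupp.add_apply, Divisor.pullback_apply, mul_add, mul_one]
      have h5 := hpos u
      rcases eq_or_ne u w with rfl | hu
      · rw [Finsupp.single_eq_same]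
        omega
      · rw [Finsupp.single_eq_of_ne hu]
        omega
    have h4 := (hW _).mp h3 w
    rw [Finsupp.add_apply, Finsupp.single_eq_same] at h4
    exact h4

variable (K E F) in
/-- **The Riemann–Hurwitz formula** (separable form). -/
theorem riemann_hurwitz_sep [CharZero K] :
    {w : Place K F | w.ramificationIndex E ≠ 1}.Finite ∧
    2 * (genusFF K F : ℤ) - 2 = Module.finrank E F * (2 * (genusFF K E : ℤ) - 2) +
      ∑ᶠ w : Place K F, ((w.ramificationIndex E : ℤ) - 1) := by
  classical
  obtain ⟨W₀, W, h₀, h, hW⟩ := exists_canonical_ramification (K := K) (E := E) (F := F)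
  set R : Divisor K F := W - Divisor.pullback F W₀ with hR
  have hRw : ∀ w, R w = (w.ramificationIndex E : ℤ) - 1 := by
    intro w
    rw [hR, Finsupp.sub_apply, hW]
    ring
  refine ⟨R.support.finite_toSet.subset fun w hw => ?_, ?_⟩
  · rw [Finset.mem_coe, Finsupp.mem_support_iff, hRw]
    have h1 : w.ramificationIndex E ≠ 1 := hw
    omega
  · have h1 : ∑ᶠ w : Place K F, ((w.ramificationIndex E : ℤ) - 1) = Divisor.degree R := by
      rw [FF.degree_eq_sum FF.deg_eq_one, Finsupp.sum,
        finsum_eq_sum_of_support_subset (s := R.support)]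
      · exact Finset.sum_congr rfl fun w _ => (hRw w).symm
      · intro w hw
        rw [Function.mem_support, ← hRw] at hw
        exact Finsupp.mem_support_iff.mpr hw
    rw [h1, hR, map_sub, Divisor.degree_pullback, h.degree_eq, h₀.degree_eq]
    ring

end Global

/-- **The Riemann–Hurwitz formula**: let `K` be an algebraically closed field of characteristic zero and `F/E` a finite
extension of function fields of one variable over `K`. Only finitely many places of `F` are ramified over `E`, and
`2 g(F) - 2 = [F : E] (2 g(E) - 2) + ∑ (e_w - 1)`. -/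
theorem riemann_hurwitz (K E F : Type*) [Field K] [Field E] [Field F] [Algebra K E] [Algebra K F]
    [Algebra E F] [IsScalarTower K E F] [IsAlgClosed K] [CharZero K] [FunField K E] [FunField K F]
    [FiniteDimensional E F] :
    {w : Place K F | w.ramificationIndex E ≠ 1}.Finite ∧
    2 * (genusFF K F : ℤ) - 2 = Module.finrank E F * (2 * (genusFF K E : ℤ) - 2) +
      ∑ᶠ w : Place K F, ((w.ramificationIndex E : ℤ) - 1) := by
  haveI : CharZero E := charZero_of_injective_algebraMap (algebraMap K E).injective
  haveI : Algebra.IsSeparable E F := inferInstance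
  exact riemann_hurwitz_sep K E F

section Cor

variable (K E F : Type*) [Field K] [Field E] [Field F] [Algebra K E] [Algebra K F]
    [Algebra E F] [IsScalarTower K E F] [IsAlgClosed K] [CharZero K] [FunField K E] [FunField K F]
    [FiniteDimensional E F]

theorem finsum_ram_nonneg : 0 ≤ ∑ᶠ w : Place K F, ((w.ramificationIndex E : ℤ) - 1) :=
  finsum_nonneg fun w => by
    have := w.ramificationIndex_pos (F := E)
    omega

/-- the genus of a subfield is not larger -/
theorem genus_le : genusFF K E ≤ genusFF K F := by
  have h := (riemann_hurwitz K E F).2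
  have h1 := finsum_ram_nonneg K E F
  have h2 : 0 < Module.finrank E F := Module.finrank_pos
  rcases Nat.eq_zero_or_pos (genusFF K E) with h3 | h3
  · rw [h3]
    exact Nat.zero_le _
  · have h4 : (1 : ℤ) ≤ Module.finrank E F := by exact_mod_cast h2
    have h5 : (1 : ℤ) ≤ genusFF K E := by exact_mod_cast h3
    have h6 : (genusFF K E : ℤ) ≤ genusFF K F := by nlinarith
    exact_mod_cast h6

/-- an extension of degree `> 1` of a field of genus zero is ramified: the projective line is simply connected -/
theorem exists_ramified (h0 : genusFF K E = 0) (hn : 1 < Module.finrank E F) :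
    ∃ w : Place K F, 1 < w.ramificationIndex E := by
  by_contra! hcon
  have h := (riemann_hurwitz K E F).2
  have h1 : ∑ᶠ w : Place K F, ((w.ramificationIndex E : ℤ) - 1) = 0 := by
    refine finsum_eq_zero_of_forall_eq_zero fun w => ?_
    have h2 := w.ramificationIndex_pos (F := E)
    have h3 := hcon w
    omega
  rw [h1, h0] at h
  have h4 : (1 : ℤ) < Module.finrank E F := by exact_mod_cast hn
  push_cast at h
  have h5 : (0 : ℤ) ≤ genusFF K F := by positivity
  nlinarith

/-- de Franchis, easy part: if `g(F) = g(E) ≥ 2`, then `F = E`. -/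
theorem finrank_eq_one_of_genus_eq (h2 : 2 ≤ genusFF K E) (he : genusFF K F = genusFF K E) :
    Module.finrank E F = 1 := by
  have h := (riemann_hurwitz K E F).2
  have h1 := finsum_ram_nonneg K E F
  have h3 : 0 < Module.finrank E F := Module.finrank_pos
  rw [he] at h
  have h4 : (2 : ℤ) ≤ genusFF K E := by exact_mod_cast h2
  have h5 : (1 : ℤ) ≤ Module.finrank E F := by exact_mod_cast h3
  have h6 : (Module.finrank E F : ℤ) ≤ 1 := by nlinarith
  omega

end Cor

end Fermat.Agent.Cor.RR
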