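import Mathlib
import Fermat.Agent.Cor.Hurwitz
import Fermat.Agent.H18_Genus

/-!
# Curves of genus zero; Kähler differentials and canonical divisors

* `genus_eq_zero_iff`: a function field over an algebraically closed field (any characteristic) has genus zero if and
  only if it is rational;
* `isCanonical_kaehler` (characteristic zero): the divisor of a Kähler differential is a canonical divisor, so that
  `riemannRoch_kaehler`: `ell D = deg D + 1 - g + ell ((ω) - D)`;
* `genus_eq_genusFF`: the two definitions of the genus (by the degree of the divisor of a differential, and by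
  repartitions) agree;
* `finrank_regularDifferentials`: the space of regular differentials has dimension `g`.

This file is not used by any of the statement files.
-/

set_option autoImplicit false
set_option linter.unusedSectionVars false
set_option linter.style.haveILetI false

noncomputable section

namespace Fermat.Agent.Cor.RR

open AlgebraicCurve IsDedekindDomain WithZero Polynomial
open Fermat.Agent Fermat.Agent.FF Fermat.Agent.H18
open scoped IntermediateField

section GenusZero

variable {K F : Type*} [Field K] [Field F] [Algebra K F] [IsAlgClosed K] [FunField K F]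

/-- A rational function field has genus zero. -/
theorem genus_eq_zero_of_adjoin {x : F} (hx : Transcendental K x)
    (h1 : Module.finrank K⟮x⟯ F = 1) : genusFF K F = 0 := by
  have hdeg : Divisor.degree (poles x : Divisor K F) = 1 := by
    rw [degree_poles x hx, h1, Nat.cast_one]
  set n : ℕ := 2 * genusFF K F with hn
  have hmem : ∀ j : Fin (n + 1), x ^ (j : ℕ) ∈ riemannRochSpace (n • poles x : Divisor K F) := by
    intro j
    refine L_mono ?_ (pow_mem_L (mem_L_poles (K := K) x) (j : ℕ))
    intro v
    have h0 : 0 ≤ (poles x : Divisor K F) v := by rw [poles_apply]; exact le_max_right _ _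
    rw [Finsupp.smul_apply, Finsupp.smul_apply, nsmul_eq_mul, nsmul_eq_mul]
    apply mul_le_mul_of_nonneg_right _ h0
    have : (j : ℕ) ≤ n := by omega
    exact_mod_cast this
  have hind : LinearIndependent K (fun j : ℕ => x ^ j) := by
    have h2 := (linearIndependent_pow_gen hx).map' (IsScalarTower.toAlgHom K K⟮x⟯ F).toLinearMap
      (LinearMap.ker_eq_bot.mpr (algebraMap K⟮x⟯ F).injective)
    have e : (fun j : ℕ => x ^ j) = (IsScalarTower.toAlgHom K K⟮x⟯ F).toLinearMap ∘
        fun j : ℕ => IntermediateField.AdjoinSimple.gen K x ^ j := by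
      funext j
      change x ^ j = algebraMap K⟮x⟯ F (IntermediateField.AdjoinSimple.gen K x ^ j)
      rw [map_pow, IntermediateField.AdjoinSimple.algebraMap_gen]
    rw [e]
    exact h2
  have hind' : LinearIndependent K (fun j : Fin (n + 1) =>
      (⟨_, hmem j⟩ : riemannRochSpace (n • poles x : Divisor K F))) := by
    refine LinearIndependent.of_comp (riemannRochSpace (n • poles x : Divisor K F)).subtype ?_
    exact hind.comp (fun j : Fin (n + 1) => (j : ℕ)) Fin.val_injective
  have hcard := hind'.fintype_card_le_finrank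
  rw [Fintype.card_fin] at hcard
  have hcard' : n + 1 ≤ ell (n • poles x : Divisor K F) := hcard
  have hd : Divisor.degree (n • poles x : Divisor K F) = n := by
    rw [map_nsmul, hdeg, nsmul_eq_mul, mul_one]
  have h3 := ell_of_degree_gt (D := (n • poles x : Divisor K F)) (by rw [hd, hn]; push_cast; omega)
  rw [hd] at h3
  omega

/-- A function field of genus zero is rational. -/
theorem exists_adjoin_eq_top (h : genusFF K F = 0) :
    ∃ x : F, Transcendental K x ∧ K⟮x⟯ = ⊤ := by
  obtain ⟨P⟩ := nonempty_place (K := K) (F := F)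
  have hd : Divisor.degree (Finsupp.single P 1 : Divisor K F) = 1 := by
    rw [Divisor.degree_single, FF.deg_eq_one]
    simp
  obtain ⟨f, hf0, hf, hfP⟩ := exists_ord_eq_neg (D := (Finsupp.single P 1 : Divisor K F))
    (by rw [hd, h]; norm_num) P
  rw [Finsupp.single_eq_same] at hfP
  have hpoles : (poles f : Divisor K F) = Finsupp.single P 1 := by
    ext w
    rw [poles_apply]
    have h1 := hf w
    rw [Finsupp.add_apply, div_apply, Finsupp.zero_apply] at h1
    rcases eq_or_ne w P with rfl | hw
    · rw [Finsupp.single_eq_same, hfP]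
      norm_num
    · rw [Finsupp.single_eq_of_ne hw] at h1 ⊢
      omega
  have hx : Transcendental K f := by
    apply transcendental_of_not_mem_range
    rintro ⟨c, rfl⟩
    rw [ord_algebraMap'] at hfP
    omega
  refine ⟨f, hx, ?_⟩
  have h2 := degree_poles f hx
  rw [hpoles, hd] at h2
  have h3 : Module.finrank K⟮f⟯ F = 1 := by exact_mod_cast h2.symm
  exact IntermediateField.finrank_eq_one_iff_eq_top.mp h3

/-- **Genus zero**: over an algebraically closed field the function fields of genus zero are the rational ones. -/
theorem genus_eq_zero_iff : genusFF K F = 0 ↔ ∃ x : F, Transcendental K x ∧ K⟮x⟯ = ⊤ := by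
  refine ⟨exists_adjoin_eq_top, fun ⟨x, hx, h⟩ => genus_eq_zero_of_adjoin hx ?_⟩
  exact IntermediateField.finrank_eq_one_iff_eq_top.mpr h

end GenusZero

section Rational

variable (K : Type*) [Field K] [IsAlgClosed K]

theorem finrank_ratFunc : Module.finrank K⟮(RatFunc.X : RatFunc K)⟯ (RatFunc K) = 1 :=
  IntermediateField.finrank_eq_one_iff_eq_top.mpr RatFunc.adjoin_X

instance funField_ratFunc : FunField K (RatFunc K) where
  exists_finite := ⟨RatFunc.X, RatFunc.transcendental_X,
    Module.finite_of_finrank_pos (by rw [finrank_ratFunc]; exact one_pos)⟩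

theorem genus_ratFunc : genusFF K (RatFunc K) = 0 :=
  genus_eq_zero_of_adjoin RatFunc.transcendental_X (finrank_ratFunc K)

/-- `-2 ∞` is a canonical divisor of the line. -/
theorem isCanonical_inf :
    IsCanonical (Finsupp.single (infPlace K) (-2) : Divisor K (RatFunc K)) := by
  rw [isCanonical_iff, genus_ratFunc, Divisor.degree_single, FF.deg_eq_one]
  refine ⟨by norm_num, Nat.zero_le _⟩

end Rational

section Kaehler

variable {K F : Type*} [Field K] [Field F] [Algebra K F] [IsAlgClosed K] [CharZero K]
  [FunField K F]

theorem funField_exists : ∃ x : F, Transcendental K x ∧ FiniteDimensional K⟮x⟯ F :=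
  FunField.exists_finite

/-- the divisor of some differential is canonical -/
theorem exists_canonical_D : ∃ (ω : Ω[F⁄K]) (W : Divisor K F), ω ≠ 0 ∧ IsCanonical W ∧
    ∀ w : Place K F, W w = w.ordDifferential ω := by
  obtain ⟨x, hx, hfin⟩ := funField_exists (K := K) (F := F)
  haveI : Algebra.IsSeparable K⟮x⟯ F := separable_of_charZero x
  letI := ratFuncAlgebra x hx
  haveI := ratFuncAlgebra_tower x hx
  haveI := ratFuncAlgebra_finite x hx
  haveI := ratFuncAlgebra_separable x hx
  have hF := funField_exists (K := K) (F := F)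
  obtain ⟨W₀, W, h₀, h, hW⟩ := exists_canonical_ramification (K := K) (E := RatFunc K) (F := F)
  obtain ⟨f, hf, hfe⟩ := h₀.unique.mp (isCanonical_inf K)
  refine ⟨KaehlerDifferential.D K F (algebraMap (RatFunc K) F RatFunc.X),
    W + div (algebraMap (RatFunc K) F f), D_X_ne_zero hF,
    h.add_div ((map_ne_zero (algebraMap (RatFunc K) F)).mpr hf), fun w => ?_⟩
  have h1 : (W + div (algebraMap (RatFunc K) F f) : Divisor K F) w =
      w.ramificationIndex (RatFunc K) *
        (Finsupp.single (infPlace K) (-2) : Divisor K (RatFunc K)) (w.restrict (RatFunc K)) +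
      (w.ramificationIndex (RatFunc K) - 1) := by
    rw [Finsupp.add_apply, hW, div_apply, Divisor.pullback_apply, w.ord_restrict, hfe,
      Finsupp.add_apply, div_apply]
    ring
  rw [h1]
  rcases eq_ratPlace_or_infPlace (w.restrict (RatFunc K)) with ⟨c, hc⟩ | h3
  · rw [ord_D_finite hF w c hc, hc, Finsupp.single_eq_of_ne (ratPlace_ne_infPlace c)]
    ring
  · rw [ord_D_inf hF w h3, h3, Finsupp.single_eq_same]
    ring

/-- every nonzero Kähler differential has a divisor, which is canonical -/
theorem exists_isCanonical_kaehler {ω : Ω[F⁄K]} (hω : ω ≠ 0) : ∃ W : Divisor K F,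
    IsCanonical W ∧ ∀ w : Place K F, W w = w.ordDifferential ω := by
  have hF := funField_exists (K := K) (F := F)
  obtain ⟨ω₀, W, h0, hW, h⟩ := exists_canonical_D (K := K) (F := F)
  obtain ⟨c, hc, he⟩ := exists_eq_smul hF ω₀ ω h0 hω
  refine ⟨W + div c, hW.add_div hc, fun w => ?_⟩
  rw [Finsupp.add_apply, h, div_apply, he, ordDifferential_smul' hF w c hc ω₀ h0]
  ring

/-- differentials of function fields in characteristic zero have divisors -/
instance hasCanonicalDivisor_funField : HasCanonicalDivisor (K := K) (F := F) where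
  exists_divisor _ hω := (exists_isCanonical_kaehler hω).imp fun _ h => h.2

/-- **Kähler differentials and canonical divisors**: the divisor of a nonzero Kähler differential is canonical. -/
theorem isCanonical_kaehler {ω : Ω[F⁄K]} (hω : ω ≠ 0) : IsCanonical (canonicalDivisorOf hω) := by
  obtain ⟨W, hW, h⟩ := exists_isCanonical_kaehler hω
  have e : canonicalDivisorOf hω = W := by
    ext v
    rw [canonicalDivisorOf_apply, h]
  rw [e]
  exact hW

/-- **The Riemann–Roch theorem**, in terms of Kähler differentials. -/
theorem riemannRoch_kaehler {ω : Ω[F⁄K]} (hω : ω ≠ 0) (D : Divisor K F) :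
    (ell D : ℤ) = Divisor.degree D + 1 - genusFF K F + ell (canonicalDivisorOf hω - D) :=
  isCanonical_kaehler hω D

/-- The degree of the divisor of a differential is `2g - 2`. -/
theorem degree_kaehler {ω : Ω[F⁄K]} (hω : ω ≠ 0) :
    Divisor.degree (canonicalDivisorOf hω) = 2 * (genusFF K F : ℤ) - 2 :=
  (isCanonical_kaehler hω).degree_eq

variable (K F) in
/-- **The two definitions of the genus agree.** -/
theorem genus_eq_genusFF : genus K F = genusFF K F := by
  have hF := funField_exists (K := K) (F := F)
  have := nontrivial_kaehler hF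
  obtain ⟨ω, hω⟩ := exists_ne (0 : Ω[F⁄K])
  have h : ∃ ω : Ω[F⁄K], ω ≠ 0 := ⟨ω, hω⟩
  rw [genus, dif_pos h, degree_kaehler]
  omega

/-- regularity of a differential, in terms of the divisor of a given one -/
theorem regular_iff {ω₀ : Ω[F⁄K]} (h0 : ω₀ ≠ 0) {W : Divisor K F}
    (hW : ∀ w : Place K F, W w = w.ordDifferential ω₀) (f : F) :
    (f • ω₀ = 0 ∨ ∀ w : Place K F, 0 ≤ w.ordDifferential (f • ω₀)) ↔
      f ∈ riemannRochSpace W := by
  by_cases hf : f = 0
  · rw [hf, zero_smul]
    exact iff_of_true (Or.inl rfl) (Submodule.zero_mem _)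
  rw [mem_L_iff_div hf]
  have hne : f • ω₀ ≠ 0 := smul_ne_zero hf h0
  rw [or_iff_right hne]
  refine forall_congr' fun w => ?_
  rw [ordDifferential_smul' funField_exists w f hf ω₀ h0, Finsupp.add_apply, div_apply, hW,
    Finsupp.zero_apply, add_comm]

variable (K F) in
/-- the regular (holomorphic) differentials -/
def regularDifferentials : Submodule K Ω[F⁄K] where
  carrier := {ω | ω = 0 ∨ ∀ w : Place K F, 0 ≤ w.ordDifferential ω}
  zero_mem' := Or.inl rfl
  add_mem' := by
    intro ω ω' h h'
    obtain ⟨ω₀, W, h0, -, hW⟩ := exists_canonical_D (K := K) (F := F)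
    have key : ∀ η : Ω[F⁄K], ∃ f : F, η = f • ω₀ := by
      intro η
      by_cases hη : η = 0
      · exact ⟨0, by rw [hη, zero_smul]⟩
      · obtain ⟨c, -, he⟩ := exists_eq_smul funField_exists ω₀ η h0 hη
        exact ⟨c, he⟩
    obtain ⟨f, rfl⟩ := key ω
    obtain ⟨f', rfl⟩ := key ω'
    rw [Set.mem_ofPred_eq, regular_iff h0 hW] at h h'
    rw [Set.mem_ofPred_eq, ← add_smul, regular_iff h0 hW]
    exact Submodule.add_mem _ h h'
  smul_mem' := by
    intro c ω h
    obtain ⟨ω₀, W, h0, -, hW⟩ := exists_canonical_D (K := K) (F := F)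
    by_cases hω : ω = 0
    · left
      rw [hω, smul_zero]
    obtain ⟨f, -, rfl⟩ := exists_eq_smul funField_exists ω₀ ω h0 hω
    rw [Set.mem_ofPred_eq, regular_iff h0 hW] at h
    rw [Set.mem_ofPred_eq, ← smul_assoc, regular_iff h0 hW]
    exact Submodule.smul_mem _ c h

theorem mem_regularDifferentials {ω : Ω[F⁄K]} : ω ∈ regularDifferentials K F ↔
    ω = 0 ∨ ∀ w : Place K F, 0 ≤ w.ordDifferential ω := Iff.rfl

variable (K F) in
/-- **The space of regular differentials has dimension `g`.** -/
theorem finrank_regularDifferentials :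
    Module.finrank K (regularDifferentials K F) = genusFF K F := by
  obtain ⟨ω₀, W, h0, hWc, hW⟩ := exists_canonical_D (K := K) (F := F)
  let φ : F →ₗ[K] Ω[F⁄K] := (LinearMap.toSpanSingleton F Ω[F⁄K] ω₀).restrictScalars K
  have hφ : ∀ f, φ f = f • ω₀ := fun f => rfl
  have hinj : Function.Injective φ := by
    intro f g h
    rw [hφ, hφ, ← sub_eq_zero, ← sub_smul] at h
    exact sub_eq_zero.mp ((smul_eq_zero.mp h).resolve_right h0)
  have hmap : regularDifferentials K F = (riemannRochSpace W).map φ := by
    ext ω
    constructor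
    · intro h
      by_cases hω : ω = 0
      · rw [hω]
        exact Submodule.zero_mem _
      obtain ⟨f, -, rfl⟩ := exists_eq_smul funField_exists ω₀ ω h0 hω
      rw [mem_regularDifferentials, regular_iff h0 hW] at h
      exact ⟨f, h, rfl⟩
    · rintro ⟨f, hf, rfl⟩
      rw [hφ, mem_regularDifferentials, regular_iff h0 hW]
      exact hf
  rw [hmap, ← hWc.ell_eq]
  exact (LinearEquiv.finrank_eq (Submodule.equivMapOfInjective φ hinj _)).symm

end Kaehler

end Fermat.Agent.Cor.RR
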