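import Mathlib
import Fermat.Agent.Cor.Kaehler

/-!
# Fixed points of automorphisms, Clifford's theorem, curves of small genus

`F/K` is a function field of one variable of genus `g` over an algebraically closed field of any characteristic.

* `card_fixed_le`: an automorphism `σ ≠ 1` of `F/K` fixes at most `2g + 2` places;
* `ell_add_ell_le`, `clifford`: `ell D + ell E ≤ ell (D + E) + 1` for effective classes and Clifford's theorem
  `2 (ell D - 1) ≤ deg D` for special divisors;
* `exists_degree_two`: curves of genus one and two are double coverings of the line.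

This file is not used by any of the statement files.
-/

set_option autoImplicit false
set_option linter.unusedSectionVars false
set_option linter.style.haveILetI false

noncomputable section

namespace Fermat.Agent.Cor.RR

open AlgebraicCurve IsDedekindDomain WithZero
open Fermat.Agent.FF
open scoped IntermediateField

variable {K F : Type*} [Field K] [Field F] [Algebra K F] [IsAlgClosed K] [FunField K F]

section Fixed

theorem adicValuation_of_fixed {σ : F ≃ₐ[K] F} {w : Place K F} (hw : σ • w = w) (f : F) :
    w.adicValuation (σ f) = w.adicValuation f := by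
  by_cases hf : f = 0
  · rw [hf, map_zero]
  have h1 := Place.ord_smul σ w f
  rw [hw] at h1
  rw [w.adicValuation_eq_exp_neg_ord hf, w.adicValuation_eq_exp_neg_ord ((map_ne_zero σ).mpr hf), h1]

theorem sub_lt_one_of_fixed {σ : F ≃ₐ[K] F} {w : Place K F} (hw : σ • w = w) {f : F}
    (hf : w.adicValuation f ≤ 1) : w.adicValuation (σ f - f) < 1 := by
  have h1 := val_spec hf
  have h2 : w.adicValuation (σ f - algebraMap K F (val w f)) < 1 := by
    have e : σ f - algebraMap K F (val w f) = σ (f - algebraMap K F (val w f)) := by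
      rw [map_sub, AlgEquiv.commutes]
    rw [e, adicValuation_of_fixed hw]
    exact h1
  have e : σ f - f = (σ f - algebraMap K F (val w f)) - (f - algebraMap K F (val w f)) := by ring
  rw [e]
  exact lt_of_le_of_lt (Valuation.map_sub _ _ _) (max_lt h2 h1)

/-- a nontrivial automorphism moves some place -/
theorem exists_not_fixed {σ : F ≃ₐ[K] F} (hσ : σ ≠ 1) : ∃ P : Place K F, σ • P ≠ P := by
  by_contra! hcon
  apply hσ
  refine AlgEquiv.ext fun f => ?_
  rw [AlgEquiv.one_apply]
  by_contra hne
  have hne' : σ f - f ≠ 0 := sub_ne_zero.mpr hne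
  have hfin : {w : Place K F | w.ord (σ f - f) ≠ 0}.Finite := by
    refine (div (σ f - f) : Divisor K F).support.finite_toSet.subset fun w hw => ?_
    rw [Finset.mem_coe, Finsupp.mem_support_iff, div_apply]
    exact hw
  have hinf : (Set.univ : Set (Place K F)).Infinite := Set.infinite_univ
  apply hinf
  refine (hfin.union (finite_not_le (K := K) f)).subset fun w _ => ?_
  by_cases hw : w.adicValuation f ≤ 1
  · left
    have h1 := sub_lt_one_of_fixed (hcon w) hw
    rw [w.adicValuation_eq_exp_neg_ord hne', show (1 : ℤᵐ⁰) = exp 0 from rfl, exp_lt_exp] at h1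
    change w.ord (σ f - f) ≠ 0
    omega
  · right
    exact hw

/-- sections vanishing at a finite set of places -/
theorem card_zeros_le {D : Divisor K F} {h : F} (h0 : h ≠ 0) (hD : h ∈ riemannRochSpace D)
    (T : Finset (Place K F)) (hT : ∀ w ∈ T, D w = 0 ∧ w.adicValuation h < 1) :
    (T.card : ℤ) ≤ Divisor.degree D := by
  classical
  set E : Divisor K F := D - ∑ w ∈ T, Finsupp.single w 1 with hE
  have hsum : ∀ u : Place K F, (∑ w ∈ T, (Finsupp.single w 1 : Divisor K F)) u =
      if u ∈ T then 1 else 0 := by
    intro u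
    rw [Finsupp.finsetSum_apply]
    simp only [Finsupp.single_apply]
    rw [Finset.sum_ite_eq']
  have hmem : h ∈ riemannRochSpace E := by
    rw [mem_L_iff_div h0] at hD ⊢
    intro u
    have h1 := hD u
    rw [Finsupp.add_apply, div_apply, Finsupp.zero_apply] at h1
    rw [Finsupp.add_apply, div_apply, Finsupp.zero_apply, hE, Finsupp.sub_apply, hsum]
    split_ifs with hu
    · obtain ⟨h2, h3⟩ := hT u hu
      rw [u.adicValuation_eq_exp_neg_ord h0, show (1 : ℤᵐ⁰) = exp 0 from rfl, exp_lt_exp] at h3
      omega
    · omega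
  have hdeg : 0 ≤ Divisor.degree E := by
    by_contra hcon
    have h1 := ell_eq_zero_of_degree_neg (D := E) (by omega)
    rw [Module.finrank_zero_iff] at h1
    exact h0 (congrArg Subtype.val (Subsingleton.elim (⟨h, hmem⟩ : riemannRochSpace E) 0))
  have h2 : Divisor.degree (∑ w ∈ T, (Finsupp.single w 1 : Divisor K F)) = T.card := by
    rw [map_sum, Finset.sum_congr rfl (g := fun _ => (1 : ℤ)) (fun w _ => by
      rw [Divisor.degree_single, deg_eq_one]; simp)]
    simp
  rw [hE, map_sub, h2] at hdeg
  omega

/-- **Fixed points**: an automorphism `σ ≠ 1` of a function field of genus `g` over an algebraically closed field fixes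
at most `2g + 2` places. -/
theorem card_fixed_le {σ : F ≃ₐ[K] F} (hσ : σ ≠ 1) :
    {w : Place K F | σ • w = w}.Finite ∧
      {w : Place K F | σ • w = w}.ncard ≤ 2 * genusFF K F + 2 := by
  classical
  obtain ⟨P, hP⟩ := exists_not_fixed hσ
  set g := genusFF K F with hg
  set D₀ : Divisor K F := Finsupp.single P ((g : ℤ) + 1) with hD₀
  have hd₀ : Divisor.degree D₀ = g + 1 := by
    rw [hD₀, Divisor.degree_single, deg_eq_one]
    simp
  have hell : 2 ≤ ell D₀ := by
    have := ell_ge D₀
    rw [hd₀] at this
    omega
  obtain ⟨f, hf, hf'⟩ : ∃ f ∈ riemannRochSpace D₀, f ∉ riemannRochSpace (0 : Divisor K F) := by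
    by_contra! hcon
    have h4 : ell D₀ ≤ ell (0 : Divisor K F) := Submodule.finrank_mono hcon
    rw [ell_zero] at h4
    omega
  have hf0 : f ≠ 0 := by
    rintro rfl
    exact hf' (Submodule.zero_mem _)
  have hσf0 : σ f ≠ 0 := (map_ne_zero σ).mpr hf0
  -- the orders of `f`
  have hord : ∀ w : Place K F, w ≠ P → 0 ≤ w.ord f := by
    intro w hw
    have h1 := (mem_L_iff_div hf0).mp hf w
    rw [Finsupp.add_apply, div_apply, Finsupp.zero_apply, hD₀, Finsupp.single_eq_of_ne hw] at h1
    omega
  have hordP : -((g : ℤ) + 1) ≤ P.ord f ∧ P.ord f < 0 := by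
    refine ⟨?_, ?_⟩
    · have h1 := (mem_L_iff_div hf0).mp hf P
      rw [Finsupp.add_apply, div_apply, Finsupp.zero_apply, hD₀, Finsupp.single_eq_same] at h1
      omega
    · by_contra hcon
      apply hf'
      rw [mem_L_iff_div hf0]
      intro w
      rw [Finsupp.add_apply, div_apply, Finsupp.zero_apply]
      rcases eq_or_ne w P with rfl | hw
      · omega
      · have := hord w hw
        omega
  have hordσ : ∀ w : Place K F, w.ord (σ f) = (σ⁻¹ • w).ord f := by
    intro w
    have h1 := Place.ord_smul σ (σ⁻¹ • w) f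
    rw [smul_inv_smul] at h1
    exact h1
  set h : F := σ f - f with hh
  set D : Divisor K F := D₀ + Finsupp.single (σ • P) ((g : ℤ) + 1) with hD
  have hdeg : Divisor.degree D = 2 * g + 2 := by
    rw [hD, map_add, hd₀, Divisor.degree_single, deg_eq_one]
    push_cast
    ring
  have hpos : (0 : ℤ) ≤ (g : ℤ) + 1 := by positivity
  have hmem : h ∈ riemannRochSpace D := by
    refine Submodule.sub_mem _ ?_ ?_
    · rw [mem_L_iff_div hσf0]
      intro w
      rw [Finsupp.add_apply, div_apply, Finsupp.zero_apply, hordσ, hD, Finsupp.add_apply, hD₀]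
      have h5 : 0 ≤ (Finsupp.single P ((g : ℤ) + 1) : Divisor K F) w := by
        rw [Finsupp.single_apply]
        split_ifs <;> omega
      rcases eq_or_ne w (σ • P) with rfl | hw
      · rw [inv_smul_smul, Finsupp.single_eq_same]
        have := hordP.1
        omega
      · rw [Finsupp.single_eq_of_ne hw]
        have := hord (σ⁻¹ • w) (fun h6 => hw (by rw [← h6, smul_inv_smul]))
        omega
    · refine L_mono (D := D₀) ?_ hf
      intro w
      rw [hD, Finsupp.add_apply]
      have h5 : 0 ≤ (Finsupp.single (σ • P) ((g : ℤ) + 1) : Divisor K F) w := by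
        rw [Finsupp.single_apply]
        split_ifs <;> omega
      omega
  have hne : h ≠ 0 := by
    intro h6
    have h7 : σ f = f := sub_eq_zero.mp h6
    have h8 := hordσ P
    rw [h7] at h8
    have h9 := hord (σ⁻¹ • P) (fun h10 => hP (by
      conv_lhs => rw [← h10]
      rw [smul_inv_smul]))
    have := hordP.2
    omega
  have hfix : ∀ T : Finset (Place K F), (∀ w ∈ T, σ • w = w) → T.card ≤ 2 * g + 2 := by
    intro T hT
    have h1 := card_zeros_le hne hmem T fun w hw => by
      have hw' := hT w hw
      have hwP : w ≠ P := fun h6 => hP (by rw [← h6, hw'])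
      have hwσ : w ≠ σ • P := by
        intro h6
        apply hwP
        have h7 : σ • w = σ • P := by rw [hw', h6]
        exact (smul_left_cancel_iff σ).mp h7
      refine ⟨?_, sub_lt_one_of_fixed hw' ?_⟩
      · rw [hD, hD₀, Finsupp.add_apply, Finsupp.single_eq_of_ne hwP, Finsupp.single_eq_of_ne hwσ,
          add_zero]
      · rw [w.adicValuation_le_one_iff]
        exact Or.inr (hord w hwP)
    rw [hdeg] at h1
    omega
  have hfin : {w : Place K F | σ • w = w}.Finite := by
    by_contra hcon
    obtain ⟨T, hT, hc⟩ := Set.Infinite.exists_subset_card_eq hcon (2 * g + 3)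
    have := hfix T fun w hw => hT hw
    omega
  refine ⟨hfin, ?_⟩
  rw [Set.ncard_eq_toFinset_card _ hfin]
  exact hfix _ fun w hw => by simpa using hw

end Fixed

section Clifford

/-- a divisor without base points and the same sections -/
theorem exists_minimal {A : Divisor K F} (hA : 0 < ell A) : ∃ D : Divisor K F, D ≤ A ∧
    ell D = ell A ∧ ∀ P : Place K F, ell (D - Finsupp.single P 1) < ell D := by
  classical
  have hdeg : ∀ D : Divisor K F, 0 < ell D → 0 ≤ Divisor.degree D := by
    intro D hD
    by_contra hcon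
    have := ell_eq_zero_of_degree_neg (D := D) (by omega)
    omega
  have hex : ∃ n : ℕ, ∃ D : Divisor K F, D ≤ A ∧ ell D = ell A ∧ Divisor.degree D = n :=
    ⟨(Divisor.degree A).toNat, A, le_rfl, rfl, (Int.toNat_of_nonneg (hdeg A hA)).symm⟩
  obtain ⟨D, hDA, hD, hdD⟩ := Nat.find_spec hex
  refine ⟨D, hDA, hD, fun P => ?_⟩
  have hle : D - Finsupp.single P 1 ≤ D := by
    intro w
    rw [Finsupp.sub_apply]
    have h5 : 0 ≤ (Finsupp.single P 1 : Divisor K F) w := by
      rw [Finsupp.single_apply]
      split_ifs <;> omega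
    omega
  have h1 : ell (D - Finsupp.single P 1) ≤ ell D := Submodule.finrank_mono (L_mono hle)
  refine lt_of_le_of_ne h1 fun h2 => ?_
  have h3 : Divisor.degree (D - Finsupp.single P 1) + 1 = Divisor.degree D := by
    rw [← degree_add_single _ P, sub_add_cancel]
  have h4 := hdeg (D - Finsupp.single P 1) (by omega)
  refine Nat.find_min hex (m := (Divisor.degree (D - Finsupp.single P 1)).toNat) (by omega)
    ⟨D - Finsupp.single P 1, hle.trans hDA, h2.trans hD, (Int.toNat_of_nonneg h4).symm⟩

theorem ell_add_ell_le_aux {A B : Divisor K F} (hA : 0 < ell A) (hB0 : 0 ≤ B) :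
    ell A + ell B ≤ ell (A + B) + 1 := by
  classical
  obtain ⟨D, hDA, hD, hmin⟩ := exists_minimal hA
  -- a section without common zeros with `B`
  obtain ⟨z, hz, hzB⟩ : ∃ z ∈ riemannRochSpace D, ∀ P ∈ B.support,
      z ∉ riemannRochSpace (D - Finsupp.single P 1) := by
    by_contra! hcon
    let s : Finset (Subspace K (riemannRochSpace D)) := B.support.image fun P =>
      (riemannRochSpace (D - Finsupp.single P 1)).comap (riemannRochSpace D).subtype
    have hs : ⊤ ∈ s := by
      apply Subspace.top_mem_of_biUnion_eq_univ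
      rw [Set.eq_univ_iff_forall]
      intro z
      obtain ⟨P, hP, hz⟩ := hcon z.1 z.2
      exact Set.mem_biUnion (Finset.mem_image_of_mem _ hP) hz
    obtain ⟨P, hP, h1⟩ := Finset.mem_image.mp hs
    have h2 : riemannRochSpace D ≤ riemannRochSpace (D - Finsupp.single P 1) := by
      intro x hx
      have h3 : (⟨x, hx⟩ : riemannRochSpace D) ∈
          (riemannRochSpace (D - Finsupp.single P 1)).comap (riemannRochSpace D).subtype := by
        rw [h1]
        trivial
      exact h3
    have h3 : ell D ≤ ell (D - Finsupp.single P 1) := Submodule.finrank_mono h2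
    have := hmin P
    omega
  by_cases hz0 : z = 0
  · -- then `B = 0`
    have hB : B = 0 := by
      by_contra hne
      obtain ⟨P, hP⟩ := Finsupp.support_nonempty_iff.mpr hne
      apply hzB P hP
      rw [hz0]
      exact Submodule.zero_mem _
    rw [hB, ell_zero, add_zero]
  have hord : ∀ P ∈ B.support, P.ord z = -D P := by
    intro P hP
    have h1 := (mem_L_iff_div hz0).mp hz
    have h2 := h1 P
    rw [Finsupp.add_apply, div_apply, Finsupp.zero_apply] at h2
    by_contra hne
    apply hzB P hP
    rw [mem_L_iff_div hz0]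
    intro w
    have h3 := h1 w
    rw [Finsupp.add_apply, div_apply, Finsupp.zero_apply] at h3
    rw [Finsupp.add_apply, Finsupp.sub_apply, div_apply, Finsupp.zero_apply]
    rcases eq_or_ne w P with rfl | hw
    · rw [Finsupp.single_eq_same]
      omega
    · rw [Finsupp.single_eq_of_ne hw]
      omega
  let φ : F →ₗ[K] F := LinearMap.mulLeft K z
  have hφ : Function.Injective φ := fun x y h => mul_left_cancel₀ hz0 h
  set t : Submodule K F := (riemannRochSpace B).map φ with ht
  have hft : Module.finrank K t = ell B :=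
    (LinearEquiv.finrank_eq (Submodule.equivMapOfInjective φ hφ _)).symm
  have htfin : Module.Finite K t := Module.Finite.equiv (Submodule.equivMapOfInjective φ hφ _)
  have h1 := Submodule.finrank_sup_add_finrank_inf_eq (K := K) (riemannRochSpace D) t
  have hsup : riemannRochSpace D ⊔ t ≤ riemannRochSpace (A + B) := by
    apply sup_le
    · exact L_mono (hDA.trans (le_add_of_nonneg_right hB0))
    · rintro _ ⟨x, hx, rfl⟩
      exact L_mono (add_le_add_left hDA B) (mul_mem_L_add hz hx)
  have hinf : riemannRochSpace D ⊓ t ≤ Submodule.span K {z} := by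
    rintro _ ⟨hx1, ⟨x, hx, rfl⟩⟩
    have hx1' : z * x ∈ riemannRochSpace D := hx1
    have hx2 : x ∈ riemannRochSpace B := hx
    have h0 : x ∈ riemannRochSpace (0 : Divisor K F) := by
      by_cases hx0 : x = 0
      · rw [hx0]
        exact Submodule.zero_mem _
      rw [mem_L_iff_div hx0] at hx2 ⊢
      rw [mem_L_iff_div (mul_ne_zero hz0 hx0)] at hx1'
      intro w
      have h2 := hx2 w
      have h3 := hx1' w
      rw [Finsupp.add_apply, div_apply, Finsupp.zero_apply] at h2 h3
      rw [w.ord_mul hz0 hx0] at h3
      rw [Finsupp.add_apply, div_apply, Finsupp.zero_apply]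
      by_cases hw : w ∈ B.support
      · have h4 := hord w hw
        omega
      · rw [Finsupp.notMem_support_iff.mp hw] at h2
        omega
    rw [L_zero, Submodule.mem_span_singleton] at h0
    obtain ⟨c, rfl⟩ := h0
    change z * (c • 1) ∈ _
    rw [mul_smul_comm, mul_one]
    exact Submodule.smul_mem _ _ (Submodule.mem_span_singleton_self z)
  have h2 : Module.finrank K ↥(riemannRochSpace D ⊔ t) ≤ ell (A + B) := Submodule.finrank_mono hsup
  have h3 : Module.finrank K ↥(riemannRochSpace D ⊓ t) ≤ 1 := by
    rw [← finrank_span_singleton (K := K) hz0]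
    exact Submodule.finrank_mono hinf
  rw [hft] at h1
  have h4 : Module.finrank K (riemannRochSpace D) = ell A := hD
  omega

/-- `ℓ(A) + ℓ(B) ≤ ℓ(A + B) + 1` if `ℓ(A), ℓ(B) > 0`. -/
theorem ell_add_ell_le {A B : Divisor K F} (hA : 0 < ell A) (hB : 0 < ell B) :
    ell A + ell B ≤ ell (A + B) + 1 := by
  obtain ⟨f, hf, hf'⟩ := exists_effective_of_ell_pos hB
  have h := ell_add_ell_le_aux hA hf'
  rw [ell_add_div _ hf, ← add_assoc, ell_add_div _ hf] at h
  exact h

/-- **Clifford's theorem**: if `ℓ(D) > 0` and `ℓ(W - D) > 0`, `W` canonical, then `2 (ℓ(D) - 1) ≤ deg D`. -/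
theorem clifford {W D : Divisor K F} (hW : IsCanonical W) (h1 : 0 < ell D)
    (h2 : 0 < ell (W - D)) : 2 * ((ell D : ℤ) - 1) ≤ Divisor.degree D := by
  have h3 := ell_add_ell_le h1 h2
  rw [add_sub_cancel, hW.ell_eq] at h3
  have h4 := hW D
  omega

/-- Clifford's theorem, for all divisors of degree between `0` and `2g - 2`. -/
theorem clifford' {D : Divisor K F} (h0 : 0 ≤ Divisor.degree D)
    (h1 : Divisor.degree D ≤ 2 * (genusFF K F : ℤ) - 2) :
    2 * ((ell D : ℤ) - 1) ≤ Divisor.degree D := by
  obtain ⟨W, hW⟩ := exists_isCanonical (K := K) (F := F)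
  rcases Nat.eq_zero_or_pos (ell D) with h2 | h2
  · omega
  rcases Nat.eq_zero_or_pos (ell (W - D)) with h3 | h3
  · have h4 := hW D
    omega
  · exact clifford hW h2 h3

end Clifford

section Small

/-- a divisor of degree two with a pencil of sections -/
theorem exists_of_degree_two (hg : genusFF K F ≠ 0) {D : Divisor K F} (hd : Divisor.degree D = 2)
    (h : 2 ≤ ell D) : ∃ x : F, Transcendental K x ∧ Module.finrank K⟮x⟯ F = 2 := by
  obtain ⟨f, hf, hf'⟩ := exists_effective_of_ell_pos (D := D) (by omega)
  set D' : Divisor K F := D + div f with hD'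
  have h2 : 2 ≤ ell D' := by
    rw [hD', ell_add_div _ hf]
    exact h
  have hd' : Divisor.degree D' = 2 := by rw [hD', map_add, degree_div, add_zero, hd]
  obtain ⟨x, hx, hx'⟩ : ∃ x ∈ riemannRochSpace D', x ∉ riemannRochSpace (0 : Divisor K F) := by
    by_contra! hcon
    have h4 : ell D' ≤ ell (0 : Divisor K F) := Submodule.finrank_mono hcon
    rw [ell_zero] at h4
    omega
  have htr : Transcendental K x := by
    apply transcendental_of_not_mem_range
    rintro ⟨c, rfl⟩
    apply hx'
    intro w
    rw [Finsupp.zero_apply, exp_zero]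
    exact w.adicValuation_algebraMap_le_one c
  have hx0 : x ≠ 0 := by
    rintro rfl
    exact hx' (Submodule.zero_mem _)
  have hle : (poles x : Divisor K F) ≤ D' := by
    intro w
    rw [poles_apply]
    have h5 := (mem_L_iff_div hx0).mp hx w
    rw [Finsupp.add_apply, div_apply, Finsupp.zero_apply] at h5
    have h6 := hf' w
    rw [Finsupp.zero_apply] at h6
    omega
  have hdeg : Divisor.degree (poles x : Divisor K F) ≤ 2 := by
    have h7 := degree_nonneg (sub_nonneg.mpr hle)
    rw [map_sub, hd'] at h7
    omega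
  rw [degree_poles x htr] at hdeg
  refine ⟨x, htr, ?_⟩
  have h8 : Module.finrank K⟮x⟯ F ≤ 2 := by exact_mod_cast hdeg
  have hfin : FiniteDimensional K⟮x⟯ F := (isParam_of_transcendental htr).fin
  have h9 : 0 < Module.finrank K⟮x⟯ F := Module.finrank_pos
  have h10 : Module.finrank K⟮x⟯ F ≠ 1 := fun h => hg (genus_eq_zero_of_adjoin htr h)
  omega

/-- Curves of genus one and two are double coverings of the line. -/
theorem exists_degree_two (h1 : 1 ≤ genusFF K F) (h2 : genusFF K F ≤ 2) :
    ∃ x : F, Transcendental K x ∧ Module.finrank K⟮x⟯ F = 2 := by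
  rcases Nat.lt_or_ge (genusFF K F) 2 with h3 | h3
  · have hg : genusFF K F = 1 := by omega
    obtain ⟨P⟩ := nonempty_place (K := K) (F := F)
    have hd : Divisor.degree (Finsupp.single P 2 : Divisor K F) = 2 := by
      rw [Divisor.degree_single, deg_eq_one]
      simp
    refine exists_of_degree_two (by omega) hd ?_
    have := ell_ge (Finsupp.single P 2 : Divisor K F)
    rw [hd, hg] at this
    omega
  · have hg : genusFF K F = 2 := by omega
    obtain ⟨W, hW⟩ := exists_isCanonical (K := K) (F := F)
    refine exists_of_degree_two (by omega) (D := W) ?_ ?_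
    · rw [hW.degree_eq, hg]
      norm_num
    · rw [hW.ell_eq, hg]

end Small

end Fermat.Agent.Cor.RR
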