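import Mathlib
import Fermat.Agent.Cor.Hurwitz

/-!
# Hurwitz's automorphism theorem

`hurwitz_aut`: a finite group of automorphisms of a function field of genus `g ≥ 2` over an algebraically closed field
of characteristic zero has order at most `84 (g - 1)`.

This file is not used by any of the statement files.
-/

set_option autoImplicit false
set_option linter.unusedSectionVars false
set_option linter.style.haveILetI false

noncomputable section

namespace Fermat.Agent.Cor.RR

open AlgebraicCurve IsDedekindDomain WithZero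
open Fermat.Agent Fermat.Agent.FF Fermat.Agent.H18
open scoped IntermediateField

section Numeric

theorem three_aux {a b c : ℕ} (ha : 2 ≤ a) (hab : a ≤ b) (hbc : b ≤ c)
    (h : b * c + a * c + a * b < a * b * c) : 42 * (b * c + a * c + a * b) ≤ 41 * (a * b * c) := by
  rcases Nat.lt_or_ge a 4 with h4 | h4
  · interval_cases a
    · rcases Nat.lt_or_ge b 5 with h5 | h5
      · interval_cases b <;> omega
      · nlinarith
    · rcases Nat.lt_or_ge b 4 with h5 | h5
      · interval_cases b
        omega
      · nlinarith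
  · have h1 : 4 * (b * c) ≤ a * b * c := by nlinarith [Nat.zero_le (b * c)]
    have h2 : 4 * (a * c) ≤ a * b * c := by nlinarith [Nat.zero_le (a * c)]
    have h3 : 4 * (a * b) ≤ a * b * c := by nlinarith [Nat.zero_le (a * b)]
    omega

theorem three_rat {a b c : ℕ} (ha : 2 ≤ a) (hb : 2 ≤ b) (hc : 2 ≤ c)
    (h : (1 : ℚ) / a + 1 / b + 1 / c < 1) : (1 : ℚ) / a + 1 / b + 1 / c ≤ 41 / 42 := by
  -- sorted case
  have key : ∀ {a b c : ℕ}, 2 ≤ a → a ≤ b → b ≤ c → (1 : ℚ) / a + 1 / b + 1 / c < 1 →
      (1 : ℚ) / a + 1 / b + 1 / c ≤ 41 / 42 := by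
    intro a b c ha hab hbc h
    have ha' : (0 : ℚ) < a := by exact_mod_cast (by omega : 0 < a)
    have hb' : (0 : ℚ) < b := by exact_mod_cast (by omega : 0 < b)
    have hc' : (0 : ℚ) < c := by exact_mod_cast (by omega : 0 < c)
    have e : (1 : ℚ) / a + 1 / b + 1 / c = (b * c + a * c + a * b) / (a * b * c) := by
      field_simp
    rw [e, div_lt_one (by positivity)] at h
    rw [e, div_le_div_iff₀ (by positivity) (by norm_num)]
    have h1 : b * c + a * c + a * b < a * b * c := by exact_mod_cast h
    have h2 := three_aux ha hab hbc h1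
    have h3 : (42 : ℚ) * (b * c + a * c + a * b) ≤ 41 * (a * b * c) := by exact_mod_cast h2
    linarith
  rcases le_total a b with h1 | h1 <;> rcases le_total b c with h2 | h2 <;>
    rcases le_total a c with h3 | h3
  · exact key ha h1 h2 h
  · exact key ha h1 h2 h
  · have := key ha h3 h2 (by linarith)
    linarith
  · have := key hc h3 h1 (by linarith)
    linarith
  · have := key hb h1 h3 (by linarith)
    linarith
  · have := key hb h2 h3 (by linarith)
    linarith
  · have := key hc h2 h1 (by linarith)
    linarith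
  · have := key hc h2 h1 (by linarith)
    linarith

/-- the smallest positive value of `2 g₀ - 2 + ∑ (1 - 1 / e)` is `1 / 42` -/
theorem numeric {ι : Type*} [DecidableEq ι] (S : Finset ι) (e : ι → ℕ) (he : ∀ i ∈ S, 2 ≤ e i)
    (g₀ : ℕ) (h : (0 : ℚ) < 2 * g₀ - 2 + ∑ i ∈ S, (1 - 1 / (e i : ℚ))) :
    (1 : ℚ) / 42 ≤ 2 * g₀ - 2 + ∑ i ∈ S, (1 - 1 / (e i : ℚ)) := by
  have hterm : ∀ i ∈ S, (1 : ℚ) / 2 ≤ 1 - 1 / (e i : ℚ) := by
    intro i hi
    have h1 : (2 : ℚ) ≤ e i := by exact_mod_cast he i hi
    have h2 : (1 : ℚ) / e i ≤ 1 / 2 := one_div_le_one_div_of_le (by norm_num) h1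
    linarith
  have hterm' : ∀ i ∈ S, 1 - 1 / (e i : ℚ) < 1 := by
    intro i hi
    have h1 : (0 : ℚ) < e i := by
      have := he i hi
      exact_mod_cast (by omega : 0 < e i)
    have h2 : (0 : ℚ) < 1 / e i := by positivity
    linarith
  have hge : (S.card : ℚ) / 2 ≤ ∑ i ∈ S, (1 - 1 / (e i : ℚ)) := by
    have h1 := Finset.card_nsmul_le_sum S _ _ hterm
    rw [nsmul_eq_mul] at h1
    linarith
  have hle : ∑ i ∈ S, (1 - 1 / (e i : ℚ)) ≤ S.card := by
    have h1 := Finset.sum_le_card_nsmul S _ 1 fun i hi => (hterm' i hi).le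
    rw [nsmul_eq_mul, mul_one] at h1
    exact h1
  rcases Nat.lt_or_ge 1 g₀ with h2 | h2
  · have h3 : (2 : ℚ) ≤ g₀ := by exact_mod_cast h2
    have h4 : (0 : ℚ) ≤ (S.card : ℚ) / 2 := by positivity
    linarith
  interval_cases g₀
  · -- genus zero
    have hcard : 3 ≤ S.card := by
      by_contra hcon
      have h3 : (S.card : ℚ) ≤ 2 := by exact_mod_cast (by omega : S.card ≤ 2)
      push_cast at h
      linarith
    rcases Nat.lt_or_ge 4 S.card with h5 | h5
    · have h6 : (5 : ℚ) ≤ S.card := by exact_mod_cast h5
      push_cast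
      linarith
    · rcases Nat.lt_or_ge 3 S.card with h6 | h6
      · -- four points
        have hc4 : S.card = 4 := by omega
        obtain ⟨i₀, hi₀, h7⟩ : ∃ i ∈ S, 3 ≤ e i := by
          by_contra! hcon
          have h8 : ∑ i ∈ S, (1 - 1 / (e i : ℚ)) = ∑ i ∈ S, (1 / 2 : ℚ) := by
            refine Finset.sum_congr rfl fun i hi => ?_
            have h9 : e i = 2 := by
              have := he i hi
              have := hcon i hi
              omega
            rw [h9]
            norm_num
          rw [h8, Finset.sum_const, hc4] at h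
          norm_num at h
        rw [← Finset.add_sum_erase S _ hi₀]
        have h8 := Finset.card_nsmul_le_sum (S.erase i₀) (fun i => 1 - 1 / (e i : ℚ)) (1 / 2)
          fun i hi => hterm i (Finset.mem_of_mem_erase hi)
        rw [Finset.card_erase_of_mem hi₀, hc4] at h8
        have h9 : (3 : ℚ) ≤ e i₀ := by exact_mod_cast h7
        have h10 : (1 : ℚ) / e i₀ ≤ 1 / 3 := one_div_le_one_div_of_le (by norm_num) h9
        norm_num at h8 h10 ⊢
        linarith
      · -- three points
        have hc3 : S.card = 3 := by omega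
        obtain ⟨x, y, z, hxy, hxz, hyz, rfl⟩ := Finset.card_eq_three.mp hc3
        have hs : ∑ i ∈ ({x, y, z} : Finset ι), (1 - 1 / (e i : ℚ)) =
            3 - (1 / (e x : ℚ) + 1 / e y + 1 / e z) := by
          rw [Finset.sum_insert (by simp [hxy, hxz]), Finset.sum_insert (by simp [hyz]),
            Finset.sum_singleton]
          ring
        rw [hs] at h ⊢
        have h8 := three_rat (he x (by simp)) (he y (by simp)) (he z (by simp))
          (by push_cast at h; linarith)
        push_cast
        linarith
  · -- genus one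
    have hcard : 1 ≤ S.card := by
      by_contra hcon
      have h3 : S = ∅ := Finset.card_eq_zero.mp (by omega)
      rw [h3] at h
      norm_num at h
    have h3 : (1 : ℚ) ≤ S.card := by exact_mod_cast hcard
    push_cast
    linarith

end Numeric

section Galois

variable (K E F : Type*) [Field K] [Field E] [Field F] [Algebra K E] [Algebra K F]
  [Algebra E F] [IsScalarTower K E F] [IsAlgClosed K] [CharZero K] [FunField K E] [FunField K F]
  [FiniteDimensional E F]

/-- **The Riemann–Hurwitz formula for Galois extensions**: with `e_v` the ramification index above `v`,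
`2 g(F) - 2 = n (2 g(E) - 2 + ∑_v (1 - 1 / e_v))`. -/
theorem riemann_hurwitz_galois [IsGalois E F] : ∃ (S : Finset (Place K E)) (e : Place K E → ℕ),
    (∀ v ∈ S, 2 ≤ e v) ∧ (∀ w : Place K F, w.ramificationIndex E = e (w.restrict E)) ∧
    (∀ v ∉ S, e v = 1) ∧
    (2 * (genusFF K F : ℚ) - 2) = Module.finrank E F *
      (2 * (genusFF K E : ℚ) - 2 + ∑ v ∈ S, (1 - 1 / (e v : ℚ))) := by
  classical
  obtain ⟨hfin, hRH⟩ := riemann_hurwitz K E F
  have hex : ∀ v : Place K E, ∃ w : Place K F, w.restrict E = v := fun v => exists_restrict_eq v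
  choose W hW using hex
  set e : Place K E → ℕ := fun v => (W v).ramificationIndex E with he
  have hew : ∀ w : Place K F, w.ramificationIndex E = e (w.restrict E) := by
    intro w
    obtain ⟨σ, hσ⟩ := exists_gal_smul_eq (E := E) (W (w.restrict E)) w (hW _)
    conv_lhs => rw [← hσ]
    exact ramificationIndex_gal σ _
  have hepos : ∀ v, 0 < e v := fun v => (W v).ramificationIndex_pos (F := E)
  have hSfin : {v : Place K E | e v ≠ 1}.Finite := by
    refine (hfin.image fun w : Place K F => w.restrict E).subset fun v hv => ?_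
    exact ⟨W v, hv, hW v⟩
  set S : Finset (Place K E) := hSfin.toFinset with hS
  have hmemS : ∀ v, v ∈ S ↔ e v ≠ 1 := fun v => by simp [hS]
  refine ⟨S, e, fun v hv => ?_, hew, fun v hv => ?_, ?_⟩
  · have h1 := (hmemS v).mp hv
    have h2 := hepos v
    omega
  · by_contra h
    exact hv ((hmemS v).mpr h)
  · have hsum : ∑ᶠ w : Place K F, ((w.ramificationIndex E : ℤ) - 1) =
        ∑ v ∈ S, ∑ w ∈ (fiber_finite F v).toFinset, ((w.ramificationIndex E : ℤ) - 1) := by
      rw [← Finset.sum_biUnion]
      · refine finsum_eq_sum_of_support_subset _ fun w hw => ?_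
        rw [Finset.mem_coe, Finset.mem_biUnion]
        refine ⟨w.restrict E, (hmemS _).mpr ?_, mem_fiberFinset.mpr rfl⟩
        rw [← hew]
        intro h
        apply hw
        change (w.ramificationIndex E : ℤ) - 1 = 0
        rw [h]
        norm_num
      · intro v _ v' _ hne
        rw [Function.onFun, Finset.disjoint_left]
        intro w hw hw'
        exact hne ((mem_fiberFinset.mp hw).symm.trans (mem_fiberFinset.mp hw'))
    have hcard : ∀ v, (fiber_finite F v).toFinset.card * e v = Module.finrank E F := by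
      intro v
      have h1 := card_fiber_mul (E := E) (W v)
      rw [inertiaDeg_eq_one, mul_one, hW] at h1
      rw [← h1, ← Nat.card_eq_card_finite_toFinset]
      rfl
    have hterm : ∀ v ∈ S, ((∑ w ∈ (fiber_finite F v).toFinset,
        ((w.ramificationIndex E : ℤ) - 1) : ℤ) : ℚ) = Module.finrank E F * (1 - 1 / (e v : ℚ)) := by
      intro v _
      have h1 : ∑ w ∈ (fiber_finite F v).toFinset, ((w.ramificationIndex E : ℤ) - 1) =
          (fiber_finite F v).toFinset.card * ((e v : ℤ) - 1) := by
        rw [Finset.sum_congr rfl (g := fun _ => ((e v : ℤ) - 1)) (fun w hw => by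
          rw [hew, mem_fiberFinset.mp hw]), Finset.sum_const, nsmul_eq_mul]
      rw [h1, ← hcard v]
      have h2 : (e v : ℚ) ≠ 0 := by exact_mod_cast (hepos v).ne'
      push_cast
      rw [mul_assoc]
      congr 1
      rw [mul_sub, mul_one, mul_one_div_cancel h2]
    have h3 := congrArg (Int.cast : ℤ → ℚ) hRH
    rw [hsum] at h3
    push_cast at h3
    rw [h3, mul_add, Finset.mul_sum]
    congr 1
    refine Finset.sum_congr rfl fun v hv => ?_
    have h4 := hterm v hv
    push_cast at h4
    exact h4

/-- Hurwitz's bound for Galois extensions. -/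
theorem finrank_le_of_galois [IsGalois E F] (hg : 2 ≤ genusFF K F) :
    Module.finrank E F ≤ 84 * (genusFF K F - 1) := by
  classical
  obtain ⟨S, e, h2, -, -, h⟩ := riemann_hurwitz_galois K E F
  have hn : (0 : ℚ) < Module.finrank E F := by exact_mod_cast Module.finrank_pos
  have hg' : (2 : ℚ) ≤ genusFF K F := by exact_mod_cast hg
  have hpos : (0 : ℚ) < 2 * (genusFF K E : ℚ) - 2 + ∑ v ∈ S, (1 - 1 / (e v : ℚ)) := by
    by_contra hcon
    push Not at hcon
    have := mul_nonpos_of_nonneg_of_nonpos hn.le hcon
    linarith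
  have h3 := numeric S e h2 _ hpos
  have h4 : (Module.finrank E F : ℚ) * (1 / 42) ≤ 2 * (genusFF K F : ℚ) - 2 := by
    rw [h]
    exact mul_le_mul_of_nonneg_left h3 hn.le
  have h5 : (Module.finrank E F : ℚ) ≤ 84 * ((genusFF K F : ℚ) - 1) := by linarith
  have h6 : ((genusFF K F - 1 : ℕ) : ℚ) = (genusFF K F : ℚ) - 1 := by
    rw [Nat.cast_sub (by omega), Nat.cast_one]
  rw [← h6] at h5
  exact_mod_cast h5

end Galois

section Sub

/-- a subfield of finite index of a function field is a function field -/
theorem funField_of_finite_above (K E F : Type*) [Field K] [Field E] [Field F] [Algebra K E]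
    [Algebra K F] [Algebra E F] [IsScalarTower K E F] [FunField K F] [FiniteDimensional E F] :
    FunField K E := by
  obtain ⟨x, hx, -⟩ := FunField.exists_finite (K := K) (F := F)
  obtain ⟨y, hy⟩ : ∃ y : E, Transcendental K y := by
    by_contra! hcon
    have h1 : Algebra.IsAlgebraic K E := ⟨fun y => by
      have := hcon y
      rw [Transcendental, not_not] at this
      exact this⟩
    have h2 : Algebra.IsAlgebraic K F := Algebra.IsAlgebraic.trans K E F
    exact hx (h2.isAlgebraic x)
  refine ⟨⟨y, hy, ?_⟩⟩
  have hz : Transcendental K (algebraMap E F y) := fun h =>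
    hy ((isAlgebraic_algebraMap_iff (algebraMap E F).injective).mp h)
  have hfin : FiniteDimensional K⟮algebraMap E F y⟯ F := (isParam_of_transcendental hz).fin
  let φ : E →ₐ[K] F := IsScalarTower.toAlgHom K E F
  have hmap : K⟮y⟯.map φ = K⟮algebraMap E F y⟯ := by
    rw [IntermediateField.adjoin_map, Set.image_singleton]
    rfl
  let e₁ : K⟮y⟯ ≃ₐ[K] K⟮algebraMap E F y⟯ :=
    (K⟮y⟯.equivMap φ).trans (IntermediateField.equivOfEq hmap)
  have hfin' : Module.Finite K⟮y⟯ F :=
    Module.Finite.of_equiv_equiv e₁.symm.toRingEquiv (RingEquiv.refl F) (by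
      refine RingHom.ext fun a => ?_
      obtain ⟨b, rfl⟩ := e₁.surjective a
      change algebraMap K⟮y⟯ F (e₁.symm (e₁ b)) = ((e₁ b : K⟮algebraMap E F y⟯) : F)
      rw [AlgEquiv.symm_apply_apply]
      rfl)
  exact Module.Finite.of_injective (IsScalarTower.toAlgHom K⟮y⟯ E F).toLinearMap
    (algebraMap E F).injective

end Sub

/-- **Hurwitz's automorphism theorem** (1893): let `K` be algebraically closed of characteristic zero, `F/K` a function
field of one variable of genus `g ≥ 2`, and `G` a finite group acting faithfully on `F` over `K`. Then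
`#G ≤ 84 (g - 1)`. -/
theorem card_le_of_action (K F G : Type*) [Field K] [Field F] [Algebra K F] [IsAlgClosed K]
    [CharZero K] [FunField K F] [Group G] [Finite G] [MulSemiringAction G F] [FaithfulSMul G F]
    [SMulCommClass G K F] (hg : 2 ≤ genusFF K F) : Nat.card G ≤ 84 * (genusFF K F - 1) := by
  classical
  have : Fintype G := Fintype.ofFinite G
  let E := FixedPoints.subfield G F
  have hmem : ∀ c : K, algebraMap K F c ∈ E := by
    intro c σ
    rw [Algebra.algebraMap_eq_smul_one, smul_comm, smul_one]
  let _ : Algebra K E := ((algebraMap K F).codRestrict E hmem).toAlgebra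
  have _ : IsScalarTower K E F := IsScalarTower.of_algebraMap_eq fun _ => rfl
  have _ : FunField K E := funField_of_finite_above K E F
  have h := finrank_le_of_galois K E F hg
  rw [FixedPoints.finrank_eq_card] at h
  rw [Nat.card_eq_fintype_card]
  exact h

/-- **Hurwitz's automorphism theorem**, for finite subgroups of `Aut(F/K)`. -/
theorem hurwitz_aut (K F : Type*) [Field K] [Field F] [Algebra K F] [IsAlgClosed K]
    [CharZero K] [FunField K F] (hg : 2 ≤ genusFF K F) (G : Subgroup (F ≃ₐ[K] F)) [Finite G] :
    Nat.card G ≤ 84 * (genusFF K F - 1) :=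
  card_le_of_action K F G hg

end Fermat.Agent.Cor.RR
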