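import Mathlib
import Fermat.Agent.Cor.Clifford
import Fermat.Agent.Cor.HurwitzAut

/-!
# Automorphisms fixing a place have finite order

`isOfFinOrder_of_fixed`: let `F/K` be a function field of genus `g ≥ 1`, `K` algebraically closed of characteristic
zero. An automorphism of `F/K` fixing a place has finite order.

Proof: let `d > 0` be the smallest pole order at `P` of a function `x` regular outside `P`. Every automorphism fixing `P`
acts on `x` by an affine transformation, hence permutes the places where `x` is ramified (outside the poles). By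
the Riemann-Hurwitz formula there are two of them where `x` has different values; a power of `σ` fixes these two
places, hence fixes `x`, and `F` is finite over `K(x)`.

This file is not used by any of the statement files.
-/

set_option autoImplicit false
set_option linter.unusedSectionVars false
set_option linter.style.haveILetI false

noncomputable section

namespace Fermat.Agent.Cor.RR

open AlgebraicCurve IsDedekindDomain WithZero
open Fermat.Agent Fermat.Agent.FF Fermat.Agent.H18
open scoped IntermediateField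

section AnyChar

variable {K F : Type*} [Field K] [Field F] [Algebra K F] [IsAlgClosed K] [FunField K F]

/-- the smallest pole number at `P` and the action of the automorphisms fixing `P` -/
theorem exists_min_pole (P : Place K F) : ∃ (d : ℕ) (x : F), 0 < d ∧
    (poles x : Divisor K F) = Finsupp.single P (d : ℤ) ∧ Transcendental K x ∧
    ∀ σ : F ≃ₐ[K] F, σ • P = P → ∃ a b : K, a ≠ 0 ∧
      σ x = algebraMap K F a * x + algebraMap K F b := by
  classical
  have hex : ∃ n : ℕ, 0 < n ∧ ∃ f : F, (poles f : Divisor K F) = Finsupp.single P (n : ℤ) := by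
    have hd : Divisor.degree (Finsupp.single P ((2 * genusFF K F + 1 : ℕ) : ℤ) : Divisor K F) =
        (2 * genusFF K F + 1 : ℕ) := by
      rw [Divisor.degree_single, FF.deg_eq_one]
      simp
    obtain ⟨f, hf0, hf, hfP⟩ := exists_ord_eq_neg
      (D := (Finsupp.single P ((2 * genusFF K F + 1 : ℕ) : ℤ) : Divisor K F))
      (by rw [hd]; push_cast; omega) P
    refine ⟨2 * genusFF K F + 1, by omega, f, ?_⟩
    rw [Finsupp.single_eq_same] at hfP
    ext w
    rw [poles_apply]
    have h1 := hf w
    rw [Finsupp.add_apply, div_apply, Finsupp.zero_apply] at h1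
    rcases eq_or_ne w P with rfl | hw
    · rw [Finsupp.single_eq_same, hfP]
      omega
    · rw [Finsupp.single_eq_of_ne hw] at h1 ⊢
      omega
  obtain ⟨hd, x, hx⟩ := Nat.find_spec hex
  set d := Nat.find hex with hdef
  have hmin : ∀ m : ℕ, 0 < m → m < d → ¬ ∃ f : F, (poles f : Divisor K F) =
      Finsupp.single P (m : ℤ) := fun m hm hmd h => Nat.find_min hex hmd ⟨hm, h⟩
  have hxP : P.ord x = -(d : ℤ) := by
    have h1 := DFunLike.congr_fun hx P
    rw [poles_apply, Finsupp.single_eq_same] at h1
    omega
  have hxw : ∀ w : Place K F, w ≠ P → 0 ≤ w.ord x := by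
    intro w hw
    have h1 := DFunLike.congr_fun hx w
    rw [poles_apply, Finsupp.single_eq_of_ne hw] at h1
    omega
  have htr : Transcendental K x := by
    apply transcendental_of_not_mem_range
    rintro ⟨c, rfl⟩
    rw [ord_algebraMap'] at hxP
    omega
  have hx0 : x ≠ 0 := by
    rintro rfl
    exact htr isAlgebraic_zero
  -- functions with a small pole at `P` only are constant
  have hconst : ∀ f : F, (∀ w : Place K F, w ≠ P → w.adicValuation f ≤ 1) →
      P.adicValuation f < exp (d : ℤ) → f ∈ Set.range (algebraMap K F) := by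
    intro f h1 h2
    by_contra hcon
    have htf := transcendental_of_not_mem_range hcon
    obtain ⟨v, hv⟩ := exists_pole htf
    have hf0 : f ≠ 0 := by
      rintro rfl
      exact htf isAlgebraic_zero
    have hvP : v = P := by
      by_contra hne
      have h3 := h1 v hne
      rw [v.adicValuation_le_one_iff] at h3
      rcases h3 with h3 | h3
      · exact hf0 h3
      · omega
    rw [hvP] at hv
    rw [P.adicValuation_eq_exp_neg_ord hf0, exp_lt_exp] at h2
    refine hmin (-P.ord f).toNat (by omega) (by omega) ⟨f, ?_⟩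
    ext w
    rw [poles_apply]
    rcases eq_or_ne w P with rfl | hw
    · rw [Finsupp.single_eq_same]
      omega
    · rw [Finsupp.single_eq_of_ne hw]
      have h3 := h1 w hw
      rw [w.adicValuation_le_one_iff] at h3
      have h4 := h3.resolve_left hf0
      omega
  refine ⟨d, x, hd, hx, htr, fun σ hσ => ?_⟩
  have hσP : P.adicValuation (σ x) = exp (d : ℤ) := by
    rw [adicValuation_of_fixed hσ, P.adicValuation_eq_exp_neg_ord hx0, hxP, neg_neg]
  have hxP' : P.adicValuation x = exp (d : ℤ) := by
    rw [P.adicValuation_eq_exp_neg_ord hx0, hxP, neg_neg]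
  obtain ⟨a, ha⟩ := exists_sub_smul (n := (d : ℤ) - 1) (by rw [sub_add_cancel]; exact hσP.le)
    (by rw [sub_add_cancel]; exact hxP')
  have hσw : ∀ w : Place K F, w ≠ P → w.adicValuation (σ x) ≤ 1 := by
    intro w hw
    rw [w.adicValuation_le_one_iff]
    right
    have h1 := Place.ord_smul σ (σ⁻¹ • w) x
    rw [smul_inv_smul] at h1
    rw [h1]
    apply hxw
    intro h2
    apply hw
    rw [← hσ, ← h2, smul_inv_smul]
  obtain ⟨b, hb⟩ := hconst (σ x - a • x) (fun w hw => by
    refine (Valuation.map_sub _ _ _).trans (max_le (hσw w hw) ?_)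
    rw [Algebra.smul_def, map_mul]
    refine mul_le_one' (w.adicValuation_algebraMap_le_one a) ?_
    rw [w.adicValuation_le_one_iff]
    exact Or.inr (hxw w hw)) (lt_of_le_of_lt ha (exp_lt_exp.mpr (by omega)))
  have hσx : σ x = algebraMap K F a * x + algebraMap K F b := by
    rw [hb, Algebra.smul_def]
    ring
  refine ⟨a, b, ?_, hσx⟩
  rintro rfl
  rw [map_zero, zero_mul, zero_add] at hσx
  have h1 := P.adicValuation_algebraMap_le_one b
  rw [← hσx, hσP, show (1 : ℤᵐ⁰) = exp 0 from rfl, exp_le_exp] at h1
  omega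

end AnyChar

section CharZero

variable {K F : Type*} [Field K] [Field F] [Algebra K F] [IsAlgClosed K] [CharZero K]
  [FunField K F]

/-- the finite places where `x` is ramified -/
def ramSet (x : F) : Set (Place K F) :=
  {w | w.adicValuation x ≤ 1 ∧ 2 ≤ w.ord (x - algebraMap K F (val w x))}

theorem ramSet_spec (hg : 1 ≤ genusFF K F) {x : F} (hx : Transcendental K x) :
    (ramSet (K := K) x).Finite ∧ ∃ w₁ ∈ ramSet (K := K) x, ∃ w₂ ∈ ramSet (K := K) x,
      val w₁ x ≠ val w₂ x := by
  classical
  have hfin : FiniteDimensional K⟮x⟯ F := (isParam_of_transcendental hx).fin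
  haveI : Algebra.IsSeparable K⟮x⟯ F := separable_of_charZero x
  letI := ratFuncAlgebra x hx
  haveI := ratFuncAlgebra_tower x hx
  haveI := ratFuncAlgebra_finite x hx
  haveI := ratFuncAlgebra_separable x hx
  have hX : algebraMap (RatFunc K) F RatFunc.X = x := ratFuncAlgebra_X x hx
  obtain ⟨hram, hRH⟩ := riemann_hurwitz K (RatFunc K) F
  rw [genus_ratFunc] at hRH
  have hx0 : x ≠ 0 := by
    rintro rfl
    exact hx isAlgebraic_zero
  -- places over the finite points
  have hres : ∀ w : Place K F, w.adicValuation x ≤ 1 →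
      w.restrict (RatFunc K) = ratPlace (val w x) := by
    intro w hw
    rw [restrict_eq_ratPlace_iff, hX]
    have h1 := val_spec hw
    have h2 : x - algebraMap K F (val w x) ≠ 0 := fun h =>
      not_mem_range_of_transcendental hx _ (sub_eq_zero.mp h)
    rw [w.adicValuation_eq_exp_neg_ord h2, show (1 : ℤᵐ⁰) = exp 0 from rfl, exp_lt_exp] at h1
    omega
  have hord : ∀ w : Place K F, w.adicValuation x ≤ 1 →
      w.ord (x - algebraMap K F (val w x)) = w.ramificationIndex (RatFunc K) := by
    intro w hw
    have h1 := ord_eq_ramificationIndex w (val w x) (hres w hw)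
    rw [hX] at h1
    exact h1
  refine ⟨hram.subset fun w hw => ?_, ?_⟩
  · have h1 := hw.2
    rw [hord w hw.1] at h1
    change w.ramificationIndex (RatFunc K) ≠ 1
    omega
  · by_contra! hcon
    obtain ⟨c₀, hc₀⟩ : ∃ c₀ : K, ∀ w ∈ ramSet (K := K) x, val w x = c₀ := by
      rcases (ramSet (K := K) x).eq_empty_or_nonempty with h | ⟨w₀, hw₀⟩
      · exact ⟨0, fun w hw => by rw [h] at hw; exact absurd hw (Set.notMem_empty w)⟩
      · exact ⟨val w₀ x, fun w hw => hcon w hw w₀ hw₀⟩
    set T₁ := (fiber_finite F (infPlace K)).toFinset with hT₁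
    set T₂ := (fiber_finite F (ratPlace c₀)).toFinset with hT₂
    have hsupp : Function.support (fun w : Place K F =>
        ((w.ramificationIndex (RatFunc K) : ℤ) - 1)) ⊆ ((T₁ ∪ T₂ : Finset (Place K F)) :
          Set (Place K F)) := by
      intro w hw
      rw [Finset.mem_coe, Finset.mem_union, mem_fiberFinset, mem_fiberFinset]
      have hpos := w.ramificationIndex_pos (F := RatFunc K)
      have hw' : (w.ramificationIndex (RatFunc K) : ℤ) - 1 ≠ 0 := hw
      by_cases hwx : w.adicValuation x ≤ 1
      · right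
        rw [hres w hwx, hc₀ w ⟨hwx, by rw [hord w hwx]; omega⟩]
      · left
        rw [restrict_eq_infPlace_iff, hX]
        exact (w.not_adicValuation_le_one_iff).mp hwx
    rw [finsum_eq_sum_of_support_subset _ hsupp] at hRH
    have hdisj : Disjoint T₁ T₂ := by
      rw [Finset.disjoint_left]
      intro w h1 h2
      rw [mem_fiberFinset] at h1 h2
      exact ratPlace_ne_infPlace c₀ (h2.symm.trans h1)
    rw [Finset.sum_union hdisj] at hRH
    have hfib : ∀ v : Place K (RatFunc K), ∑ w ∈ (fiber_finite F v).toFinset,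
        ((w.ramificationIndex (RatFunc K) : ℤ) - 1) ≤ (Module.finrank (RatFunc K) F : ℤ) - 1 := by
      intro v
      rw [Finset.sum_sub_distrib, ← sum_ramificationIndex_eq F v]
      obtain ⟨w, hw⟩ := exists_restrict_eq (F := F) v
      have h1 : 0 < (fiber_finite F v).toFinset.card :=
        Finset.card_pos.mpr ⟨w, mem_fiberFinset.mpr hw⟩
      rw [Finset.sum_const, nsmul_eq_mul, mul_one]
      push_cast
      omega
    have h1 := hfib (infPlace K)
    have h2 := hfib (ratPlace c₀)
    have hg' : (1 : ℤ) ≤ genusFF K F := by exact_mod_cast hg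
    rw [← hT₁] at h1
    rw [← hT₂] at h2
    rw [Nat.cast_zero, mul_zero, zero_sub] at hRH
    linarith

/-- an automorphism acting on `x` by an affine transformation permutes the ramified places of `x` -/
theorem smul_mem_ramSet {x : F} (hx : Transcendental K x) {σ : F ≃ₐ[K] F} {a b : K} (ha : a ≠ 0)
    (hσ : σ x = algebraMap K F a * x + algebraMap K F b) {w : Place K F}
    (hw : w ∈ ramSet (K := K) x) :
    σ • w ∈ ramSet (K := K) x ∧ a * val (σ • w) x + b = val w x := by
  set c := val w x with hc
  have ha' : algebraMap K F a ≠ 0 := by simpa using ha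
  have hne : ∀ e : K, x - algebraMap K F e ≠ 0 := fun e h =>
    not_mem_range_of_transcendental hx _ (sub_eq_zero.mp h)
  have h1 : σ (x - algebraMap K F c) = algebraMap K F a * (x - algebraMap K F ((c - b) / a)) := by
    rw [map_sub, hσ, AlgEquiv.commutes, map_div₀, map_sub]
    field_simp
    ring
  have h2 := Place.ord_smul σ w (x - algebraMap K F c)
  rw [h1, (σ • w).ord_mul ha' (hne _), ord_algebraMap', zero_add] at h2
  have h3 : (2 : ℤ) ≤ (σ • w).ord (x - algebraMap K F ((c - b) / a)) := by
    rw [h2]
    exact hw.2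
  have h4 : (σ • w).adicValuation (x - algebraMap K F ((c - b) / a)) < 1 := by
    rw [(σ • w).adicValuation_eq_exp_neg_ord (hne _), show (1 : ℤᵐ⁰) = exp 0 from rfl, exp_lt_exp]
    omega
  have h5 : val (σ • w) x = (c - b) / a := val_eq_of_lt h4
  refine ⟨⟨?_, ?_⟩, ?_⟩
  · have h6 : x = (x - algebraMap K F ((c - b) / a)) + algebraMap K F ((c - b) / a) := by ring
    rw [h6]
    exact (Valuation.map_add _ _ _).trans (max_le h4.le ((σ • w).adicValuation_algebraMap_le_one _))
  · rw [h5]
    exact h3
  · rw [h5]
    field_simp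
    ring

/-- **An automorphism fixing a place has finite order**, if the genus is at least one. -/
theorem isOfFinOrder_of_fixed (hg : 1 ≤ genusFF K F) {σ : F ≃ₐ[K] F} {P : Place K F}
    (hσ : σ • P = P) : IsOfFinOrder σ := by
  classical
  obtain ⟨d, x, hd, hxP, hx, hact⟩ := exists_min_pole P
  obtain ⟨hfin, w₁, hw₁, w₂, hw₂, hne⟩ := ramSet_spec hg hx
  have hpow : ∀ n : ℕ, (σ ^ n) • P = P := by
    intro n
    induction n with
    | zero => rw [pow_zero, one_smul]
    | succ n ih => rw [pow_succ, mul_smul, hσ, ih]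
  have hmem : ∀ (n : ℕ) (w : Place K F), w ∈ ramSet (K := K) x →
      (σ ^ n) • w ∈ ramSet (K := K) x := by
    intro n w hw
    obtain ⟨a, b, ha, hab⟩ := hact (σ ^ n) (hpow n)
    exact (smul_mem_ramSet hx ha hab hw).1
  obtain ⟨i, -, j, -, hij, hEq⟩ := (Set.infinite_univ (α := ℕ)).exists_lt_map_eq_of_mapsTo
    (f := fun n : ℕ => ((σ ^ n) • w₁, (σ ^ n) • w₂))
    (t := ramSet (K := K) x ×ˢ ramSet (K := K) x)
    (fun n _ => ⟨hmem n w₁ hw₁, hmem n w₂ hw₂⟩) (hfin.prod hfin)
  obtain ⟨m, rfl⟩ : ∃ m, j = i + m := ⟨j - i, by omega⟩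
  have hm : m ≠ 0 := by omega
  have hf : ∀ w : Place K F, (σ ^ i) • w = (σ ^ (i + m)) • w → (σ ^ m) • w = w := by
    intro w h
    rw [pow_add, mul_smul] at h
    exact (smul_left_cancel (σ ^ i) h).symm
  have h1 : (σ ^ m) • w₁ = w₁ := hf w₁ (congrArg Prod.fst hEq)
  have h2 : (σ ^ m) • w₂ = w₂ := hf w₂ (congrArg Prod.snd hEq)
  obtain ⟨a, b, ha, hab⟩ := hact (σ ^ m) (hpow m)
  have h3 := (smul_mem_ramSet hx ha hab hw₁).2
  have h4 := (smul_mem_ramSet hx ha hab hw₂).2
  rw [h1] at h3
  rw [h2] at h4
  have ha1 : a = 1 := by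
    have h5 : (a - 1) * (val w₁ x - val w₂ x) = 0 := by linear_combination h3 - h4
    rcases mul_eq_zero.mp h5 with h6 | h6
    · exact sub_eq_zero.mp h6
    · exact absurd (sub_eq_zero.mp h6) hne
  have hb0 : b = 0 := by
    rw [ha1] at h3
    linear_combination h3
  have hfx : (σ ^ m) x = x := by
    rw [hab, ha1, hb0, map_one, map_zero, one_mul, add_zero]
  have hmemF : σ ^ m ∈ (K⟮x⟯).fixingSubgroup := by
    have hle : K⟮x⟯ ≤ IntermediateField.fixedField (Subgroup.zpowers (σ ^ m)) := by
      rw [IntermediateField.adjoin_simple_le_iff, IntermediateField.mem_fixedField_iff]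
      intro τ hτ
      have h5 : Subgroup.zpowers (σ ^ m) ≤ MulAction.stabilizer (F ≃ₐ[K] F) x := by
        rw [Subgroup.zpowers_le]
        exact hfx
      exact h5 hτ
    rw [IntermediateField.mem_fixingSubgroup_iff]
    intro y hy
    exact (IntermediateField.mem_fixedField_iff _ _).mp (hle hy) _ (Subgroup.mem_zpowers _)
  haveI : FiniteDimensional K⟮x⟯ F := (isParam_of_transcendental hx).fin
  haveI : Finite (K⟮x⟯).fixingSubgroup :=
    Finite.of_equiv _ (IntermediateField.fixingSubgroupEquiv K⟮x⟯).toEquiv.symm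
  have h6 : IsOfFinOrder (⟨σ ^ m, hmemF⟩ : (K⟮x⟯).fixingSubgroup) := isOfFinOrder_of_finite _
  have h7 : IsOfFinOrder (σ ^ m) := by
    have h8 := (K⟮x⟯).fixingSubgroup.subtype.isOfFinOrder h6
    exact h8
  rcases isOfFinOrder_pow.mp h7 with h8 | h8
  · exact h8
  · exact absurd h8 hm

end CharZero

end Fermat.Agent.Cor.RR
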