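import Mathlib

/-!
# Burnside's theorem: linear groups of finite exponent are finite

`finite_of_pow_eq_one`: let `V` be a finite dimensional vector space over an algebraically closed field of
characteristic zero and `S` a multiplicatively closed set of endomorphisms with `T ^ N = 1` for all `T` in `S`. Then
`S` is finite.

Proof: the traces of elements of `S` are sums of `N`-th roots of unity, hence belong to a finite set. Let `b` be a
basis of the span of `S` with elements in `S`. The map `T ↦ (tr (T β))` (`β` in `b`) is injective on `S`: if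
`tr (T a) = tr (T' a)` for all `a` in the span of `S`, then `tr ((u - 1) c) = 0` for `u = T'⁻¹ T` and all `c` in the
span; the idempotent `1 - e`, `e = (1/N) ∑ u ^ i`, is of this form, hence it is zero and `u = u e = e = 1`.

This file is not used by any of the statement files.
-/

set_option autoImplicit false
set_option linter.style.haveILetI false

noncomputable section

namespace Fermat.Agent.Cor.RR.Burnside

open Polynomial

variable {K V : Type*} [Field K] [IsAlgClosed K] [CharZero K] [AddCommGroup V] [Module K V]
  [FiniteDimensional K V]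

omit [CharZero K] in
/-- the traces of the endomorphisms of order dividing `N` form a finite set -/
theorem finite_traces {N : ℕ} (hN : N ≠ 0) :
    {t : K | ∃ T : Module.End K V, T ^ N = 1 ∧ LinearMap.trace K V T = t}.Finite := by
  classical
  set R : Finset K := (nthRoots N (1 : K)).toFinset with hR
  set M : Multiset K := Module.finrank K V • R.val with hM
  refine (M.powerset.toFinset.image Multiset.sum).finite_toSet.subset ?_
  rintro t ⟨T, hT, rfl⟩
  rw [Finset.mem_coe, Finset.mem_image]
  refine ⟨T.charpoly.roots, ?_, ?_⟩
  · rw [Multiset.mem_toFinset, Multiset.mem_powerset, Multiset.le_iff_count]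
    intro a
    by_cases ha : a ∈ T.charpoly.roots
    · have h1 : T.HasEigenvalue a := by
        rw [Module.End.hasEigenvalue_iff_isRoot_charpoly]
        exact isRoot_of_mem_roots ha
      obtain ⟨v, hv⟩ := h1.exists_hasEigenvector
      have h2 := hv.pow_apply N
      rw [hT, Module.End.one_apply] at h2
      have h3 : a ^ N = 1 := by
        have h4 : (a ^ N - 1) • v = 0 := by rw [sub_smul, one_smul, ← h2, sub_self]
        rcases smul_eq_zero.mp h4 with h5 | h5
        · exact sub_eq_zero.mp h5
        · exact absurd h5 hv.2
      have h6 : a ∈ R := by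
        rw [hR, Multiset.mem_toFinset, mem_nthRoots (Nat.pos_of_ne_zero hN)]
        exact h3
      rw [hM, Multiset.count_nsmul, Multiset.count_eq_one_of_mem R.nodup h6, mul_one]
      calc T.charpoly.roots.count a ≤ T.charpoly.roots.card := Multiset.count_le_card _ _
        _ ≤ T.charpoly.natDegree := card_roots' _
        _ = _ := T.charpoly_natDegree
    · rw [Multiset.count_eq_zero_of_notMem ha]
      exact Nat.zero_le _
  · let b := Module.finBasis K V
    rw [← LinearMap.charpoly_toMatrix T b, LinearMap.trace_eq_matrix_trace K b T,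
      Matrix.trace_eq_sum_roots_charpoly]

/-- **Burnside's theorem**: a linear group of finite exponent is finite. -/
theorem finite_of_pow_eq_one (S : Submonoid (Module.End K V)) {N : ℕ} (hN : N ≠ 0)
    (h : ∀ T ∈ S, T ^ N = 1) : (S : Set (Module.End K V)).Finite := by
  classical
  obtain ⟨b, hbS, hspan, hli⟩ := exists_linearIndependent K (S : Set (Module.End K V))
  have hb : b.Finite := hli.setFinite
  haveI : Finite b := hb
  have hmap : Set.MapsTo (fun (T : Module.End K V) (β : b) => LinearMap.trace K V (T * β.1))
      (S : Set (Module.End K V))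
      (Set.univ.pi fun _ : b => {t : K | ∃ T : Module.End K V, T ^ N = 1 ∧
        LinearMap.trace K V T = t}) := by
    intro T hT β _
    exact ⟨T * β.1, h _ (S.mul_mem hT (hbS β.2)), rfl⟩
  refine Set.Finite.of_injOn hmap ?_ (Set.Finite.pi fun _ => finite_traces hN)
  intro T hT T' hT' hEq
  have h1 : ∀ a ∈ Submodule.span K (S : Set (Module.End K V)),
      LinearMap.trace K V (T * a) = LinearMap.trace K V (T' * a) := by
    intro a ha
    rw [← hspan] at ha
    induction ha using Submodule.span_induction with
    | mem x hx => exact congrFun hEq ⟨x, hx⟩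
    | zero => simp
    | add x y _ _ hx hy => rw [mul_add, mul_add, map_add, map_add, hx, hy]
    | smul c x _ hx => rw [mul_smul_comm, mul_smul_comm, map_smul, map_smul, hx]
  have hspanmul : ∀ a ∈ Submodule.span K (S : Set (Module.End K V)), ∀ s ∈ S,
      a * s ∈ Submodule.span K (S : Set (Module.End K V)) := by
    intro a ha s hs
    induction ha using Submodule.span_induction with
    | mem x hx => exact Submodule.subset_span (S.mul_mem hx hs)
    | zero => rw [zero_mul]; exact Submodule.zero_mem _
    | add x y _ _ hx hy => rw [add_mul]; exact Submodule.add_mem _ hx hy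
    | smul c x _ hx => rw [smul_mul_assoc]; exact Submodule.smul_mem _ _ hx
  obtain ⟨n, rfl⟩ : ∃ n, N = n + 1 := ⟨N - 1, by omega⟩
  set u := T' ^ n * T with hu
  have huS : u ∈ S := S.mul_mem (S.pow_mem hT' n) hT
  have hTu : T' * u = T := by rw [hu, ← mul_assoc, ← pow_succ', h T' hT', one_mul]
  have hu1 : u ^ (n + 1) = 1 := h u huS
  suffices hu' : u = 1 by
    rw [hu', mul_one] at hTu
    exact hTu.symm
  set e : Module.End K V := ((n + 1 : ℕ) : K)⁻¹ • ∑ i ∈ Finset.range (n + 1), u ^ i with he
  have hue : u * e = e := by
    rw [he, mul_smul_comm, Finset.mul_sum]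
    congr 1
    have h2 : ∑ i ∈ Finset.range (n + 1), u * u ^ i = ∑ i ∈ Finset.range (n + 1), u ^ (i + 1) :=
      Finset.sum_congr rfl fun i _ => (pow_succ' u i).symm
    rw [h2, Finset.sum_range_succ, hu1, Finset.sum_range_succ' (fun i => u ^ i), pow_zero]
  have huie : ∀ i : ℕ, u ^ i * e = e := by
    intro i
    induction i with
    | zero => rw [pow_zero, one_mul]
    | succ i ih => rw [pow_succ, mul_assoc, hue, ih]
  have hN0 : ((n + 1 : ℕ) : K) ≠ 0 := by exact_mod_cast Nat.succ_ne_zero n
  have hee : IsIdempotentElem e := by
    change e * e = e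
    nth_rewrite 1 [he]
    rw [smul_mul_assoc, Finset.sum_mul, Finset.sum_congr rfl fun i _ => huie i, Finset.sum_const,
      Finset.card_range, ← Nat.cast_smul_eq_nsmul K, smul_smul, inv_mul_cancel₀ hN0, one_smul]
  set c : Module.End K V := ((n + 1 : ℕ) : K)⁻¹ •
    ∑ i ∈ Finset.range (n + 1), ∑ j ∈ Finset.range i, u ^ j with hc
  have hcs : c ∈ Submodule.span K (S : Set (Module.End K V)) :=
    Submodule.smul_mem _ _ (Submodule.sum_mem _ fun i _ => Submodule.sum_mem _ fun j _ =>
      Submodule.subset_span (S.pow_mem huS j))
  have hce : (u - 1) * c = e - 1 := by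
    rw [hc, mul_smul_comm, Finset.mul_sum]
    have h2 : ∀ i ∈ Finset.range (n + 1), (u - 1) * ∑ j ∈ Finset.range i, u ^ j = u ^ i - 1 :=
      fun i _ => mul_geom_sum u i
    rw [Finset.sum_congr rfl h2, Finset.sum_sub_distrib, smul_sub, ← he, Finset.sum_const,
      Finset.card_range, ← Nat.cast_smul_eq_nsmul K, smul_smul, inv_mul_cancel₀ hN0, one_smul]
  have htr : LinearMap.trace K V (e - 1) = 0 := by
    have h2 := h1 (c * T' ^ n) (hspanmul c hcs _ (S.pow_mem hT' n))
    have h3 : LinearMap.trace K V (T * (c * T' ^ n)) = LinearMap.trace K V (u * c) := by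
      rw [← hTu, show T' * u * (c * T' ^ n) = (T' * (u * c)) * T' ^ n by simp only [mul_assoc],
        LinearMap.trace_mul_comm, ← mul_assoc, ← pow_succ, h T' hT', one_mul]
    have h4 : LinearMap.trace K V (T' * (c * T' ^ n)) = LinearMap.trace K V c := by
      rw [← mul_assoc, LinearMap.trace_mul_comm, ← mul_assoc, ← pow_succ, h T' hT', one_mul]
    rw [← hce, sub_mul, one_mul, map_sub, ← h3, ← h4, h2, sub_self]
  have h5 : (1 : Module.End K V) - e = 0 := by
    refine LinearMap.IsIdempotentElem.eq_zero_of_trace_eq_zero hee.one_sub ?_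
    have h6 : (1 : Module.End K V) - e = -(e - 1) := by abel
    rw [h6, map_neg, htr, neg_zero]
  have h6 : e = 1 := (sub_eq_zero.mp h5).symm
  rw [h6, mul_one] at hue
  exact hue

end Fermat.Agent.Cor.RR.Burnside
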