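import Mathlib
import Fermat.Agent.Cor.AutStab
import Fermat.Agent.Cor.BurnsideExp

/-!
# A curve of genus at least two has finitely many automorphisms

`finite_aut`: let `F/K` be a function field of genus `g ≥ 2`, `K` algebraically closed of characteristic zero. The
group of automorphisms of `F/K` is finite; `card_aut_le`: it has at most `84 (g - 1)` elements.

Proof: let `W` be a canonical divisor. For every automorphism `σ` there is a function `h` such that
`f ↦ h σ(f)` is an automorphism of the vector space `L(W)`, of dimension `g`; it is unique up to scalars. An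
eigenvector `f` gives an effective divisor `W + div f` of degree `2g - 2 > 0` invariant under `σ`. So a power of `σ`
fixes a place, and `σ` has finite order by `isOfFinOrder_of_fixed`; the order is at most `84 (g - 1)` by the bound of
Hurwitz. The automorphisms `f ↦ h σ(f)` of determinant one form a linear group of finite exponent, which is finite
by Burnside's theorem. Two automorphisms `σ`, `τ` defining the same element agree on the ratio of two elements of
`L(W)`, hence for given `σ` there are finitely many `τ`.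

This file is not used by any of the statement files.
-/

set_option autoImplicit false
set_option linter.unusedSectionVars false
set_option linter.style.haveILetI false

noncomputable section

namespace Fermat.Agent.Cor.RR

open AlgebraicCurve IsDedekindDomain WithZero
open Fermat.Agent Fermat.Agent.FF Fermat.Agent.H18
open scoped IntermediateField

section AnyChar

variable {K F : Type*} [Field K] [Field F] [Algebra K F] [IsAlgClosed K] [FunField K F]

theorem adicValuation_smul (σ : F ≃ₐ[K] F) (w : Place K F) (f : F) :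
    (σ • w).adicValuation (σ f) = w.adicValuation f := by
  rcases eq_or_ne f 0 with rfl | hf
  · rw [map_zero, map_zero, map_zero]
  · have hf' : σ f ≠ 0 := by simpa using hf
    rw [(σ • w).adicValuation_eq_exp_neg_ord hf', w.adicValuation_eq_exp_neg_ord hf,
      Place.ord_smul]

theorem map_mem_smul {σ : F ≃ₐ[K] F} {D : Divisor K F} {f : F} (hf : f ∈ riemannRochSpace D) :
    σ f ∈ riemannRochSpace (σ • D) := by
  rw [mem_L_iff] at hf ⊢
  intro v
  have h1 := hf (σ⁻¹ • v)
  rw [← adicValuation_smul σ, smul_inv_smul] at h1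
  rw [Divisor.smul_apply]
  exact h1

theorem isCanonical_smul {W : Divisor K F} (hW : IsCanonical W) (σ : F ≃ₐ[K] F) :
    IsCanonical (σ • W) := by
  rw [isCanonical_iff] at hW ⊢
  refine ⟨by rw [Divisor.degree_smul]; exact hW.1, hW.2.trans ?_⟩
  have h : ∀ f ∈ riemannRochSpace W, σ.toLinearMap f ∈ riemannRochSpace (σ • W) :=
    fun f hf => map_mem_smul hf
  exact LinearMap.finrank_le_finrank_of_injective (f := σ.toLinearMap.restrict h)
    (fun a b hab => Subtype.ext (σ.injective (congrArg Subtype.val hab)))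

/-- `T` is a semi-linear transformation `f ↦ h σ(f)` -/
def Cov (W : Divisor K F) (σ : F ≃ₐ[K] F) (T : Module.End K (riemannRochSpace W)) : Prop :=
  ∃ h : F, ∀ f : riemannRochSpace W, (T f : F) = h * σ f

variable {W : Divisor K F}

theorem Cov.one : Cov W 1 1 := ⟨1, fun f => by simp⟩

theorem Cov.mul {σ τ : F ≃ₐ[K] F} {T T' : Module.End K (riemannRochSpace W)} (h1 : Cov W σ T)
    (h2 : Cov W τ T') : Cov W (σ * τ) (T * T') := by
  obtain ⟨h, h1⟩ := h1
  obtain ⟨h', h2⟩ := h2
  refine ⟨h * σ h', fun f => ?_⟩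
  rw [Module.End.mul_apply, h1, h2, map_mul, mul_assoc]
  rfl

theorem Cov.pow {σ : F ≃ₐ[K] F} {T : Module.End K (riemannRochSpace W)} (h1 : Cov W σ T) (n : ℕ) :
    Cov W (σ ^ n) (T ^ n) := by
  induction n with
  | zero => rw [pow_zero, pow_zero]; exact Cov.one
  | succ n ih => rw [pow_succ, pow_succ]; exact ih.mul h1

theorem Cov.smul {σ : F ≃ₐ[K] F} {T : Module.End K (riemannRochSpace W)} (h1 : Cov W σ T) (c : K) :
    Cov W σ (c • T) := by
  obtain ⟨h, h1⟩ := h1
  refine ⟨algebraMap K F c * h, fun f => ?_⟩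
  rw [LinearMap.smul_apply, Submodule.coe_smul, h1, Algebra.smul_def, mul_assoc]

/-- every automorphism acts on `L(W)`, `W` canonical -/
theorem exists_cov (hW : IsCanonical W) (σ : F ≃ₐ[K] F) :
    ∃ (h : F) (T : Module.End K (riemannRochSpace W)), h ≠ 0 ∧ σ • W = W + div h ∧
      (∀ f : riemannRochSpace W, (T f : F) = h * σ f) ∧ Function.Injective T := by
  obtain ⟨h, h0, hh⟩ := hW.unique.mp (isCanonical_smul hW σ)
  have hmem : ∀ f ∈ riemannRochSpace W, h * σ f ∈ riemannRochSpace W := by
    intro f hf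
    have h1 := map_mem_smul (σ := σ) hf
    rw [mem_L_iff] at h1 ⊢
    intro v
    have h2 := h1 v
    rw [hh, Finsupp.add_apply, div_apply, exp_add] at h2
    rw [map_mul, v.adicValuation_eq_exp_neg_ord h0]
    calc exp (-v.ord h) * v.adicValuation (σ f) ≤ exp (-v.ord h) * (exp (W v) * exp (v.ord h)) :=
          mul_le_mul_right h2 _
      _ = exp (W v) := by
          rw [← exp_add, ← exp_add]
          congr 1
          ring
  let T : Module.End K (riemannRochSpace W) :=
    { toFun := fun f => ⟨h * σ f, hmem f f.2⟩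
      map_add' := fun f f' => Subtype.ext (by
        change h * σ (f + f') = h * σ f + h * σ f'
        rw [map_add, mul_add])
      map_smul' := fun c f => Subtype.ext (by
        change h * σ (c • (f : F)) = c • (h * σ f)
        rw [map_smul, mul_smul_comm]) }
  refine ⟨h, T, h0, hh, fun f => rfl, fun f f' hff => ?_⟩
  have h1 : h * σ f = h * σ f' := congrArg Subtype.val hff
  exact Subtype.ext (σ.injective (mul_left_cancel₀ h0 h1))

theorem exists_eigen (hW : IsCanonical W) (hg : 1 ≤ genusFF K F)
    (T : Module.End K (riemannRochSpace W)) : ∃ (c : K) (v : riemannRochSpace W),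
      v ≠ 0 ∧ T v = c • v := by
  have h1 : 0 < Module.finrank K (riemannRochSpace W) := by
    have := hW.ell_eq
    change Module.finrank K (riemannRochSpace W) = _ at this
    omega
  haveI : Nontrivial (riemannRochSpace W) := Module.nontrivial_of_finrank_pos h1
  obtain ⟨c, hc⟩ := Module.End.exists_eigenvalue T
  obtain ⟨v, hv⟩ := hc.exists_hasEigenvector
  exact ⟨c, v, hv.2, hv.apply_eq_smul⟩

/-- a semi-linear transformation over the identity is a scalar -/
theorem Cov.eq_smul (hW : IsCanonical W) (hg : 1 ≤ genusFF K F)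
    {T : Module.End K (riemannRochSpace W)} (h : Cov W 1 T) : ∃ c : K, T = c • 1 := by
  obtain ⟨a, ha⟩ := h
  obtain ⟨c, v, hv, hc⟩ := exists_eigen hW hg T
  have h1 := ha v
  rw [hc, Submodule.coe_smul, Algebra.smul_def, AlgEquiv.one_apply] at h1
  have hv' : (v : F) ≠ 0 := fun h => hv (Subtype.ext h)
  have h2 : algebraMap K F c = a := mul_right_cancel₀ hv' h1
  refine ⟨c, LinearMap.ext fun f => Subtype.ext ?_⟩
  rw [ha f, ← h2, AlgEquiv.one_apply, LinearMap.smul_apply, Module.End.one_apply,
    Submodule.coe_smul, Algebra.smul_def]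

theorem exists_cov_det (hW : IsCanonical W) (hg : 1 ≤ genusFF K F) (σ : F ≃ₐ[K] F) :
    ∃ T : Module.End K (riemannRochSpace W), Cov W σ T ∧ LinearMap.det T = 1 := by
  obtain ⟨h, T, h0, hh, hT, hinj⟩ := exists_cov hW σ
  have h1 : IsUnit (LinearMap.det T) := by
    have h2 : IsUnit T := (LinearMap.isUnit_iff_ker_eq_bot T).mpr (LinearMap.ker_eq_bot.mpr hinj)
    exact h2.map LinearMap.det
  have hr : Module.finrank K (riemannRochSpace W) ≠ 0 := by
    have := hW.ell_eq
    change Module.finrank K (riemannRochSpace W) = _ at this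
    omega
  obtain ⟨c, hc⟩ := IsAlgClosed.exists_pow_nat_eq (LinearMap.det T)⁻¹ (Nat.pos_of_ne_zero hr)
  refine ⟨c • T, Cov.smul ⟨h, hT⟩ c, ?_⟩
  rw [LinearMap.det_smul, hc, inv_mul_cancel₀ h1.ne_zero]

theorem Cov.pow_eq_one (hW : IsCanonical W) (hg : 1 ≤ genusFF K F) {σ : F ≃ₐ[K] F}
    {T : Module.End K (riemannRochSpace W)} (h : Cov W σ T) (hdet : LinearMap.det T = 1) {N : ℕ}
    (hN : σ ^ N = 1) : T ^ (N * Module.finrank K (riemannRochSpace W)) = 1 := by
  have h1 := h.pow N
  rw [hN] at h1
  obtain ⟨c, hc⟩ := h1.eq_smul hW hg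
  have h2 : c ^ Module.finrank K (riemannRochSpace W) = 1 := by
    have h3 : LinearMap.det (T ^ N) = 1 := by rw [map_pow, hdet, one_pow]
    rw [hc, LinearMap.det_smul, map_one, mul_one] at h3
    exact h3
  rw [pow_mul, hc, smul_pow, one_pow, h2, one_smul]

end AnyChar

section CharZero

variable {K F : Type*} [Field K] [Field F] [Algebra K F] [IsAlgClosed K] [CharZero K]
  [FunField K F]

/-- **Every automorphism of a curve of genus at least two has finite order.** -/
theorem isOfFinOrder_aut (hg : 2 ≤ genusFF K F) (σ : F ≃ₐ[K] F) : IsOfFinOrder σ := by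
  classical
  obtain ⟨W, hW⟩ := exists_isCanonical (K := K) (F := F)
  obtain ⟨h, T, h0, hh, hT, hinj⟩ := exists_cov hW σ
  obtain ⟨c, v, hv, hc⟩ := exists_eigen hW (by omega) T
  have hv' : (v : F) ≠ 0 := fun h => hv (Subtype.ext h)
  have hc0 : c ≠ 0 := by
    rintro rfl
    rw [zero_smul] at hc
    exact hv (hinj (by rw [hc, map_zero]))
  have hc0' : algebraMap K F c ≠ 0 := by simpa using hc0
  have h1 : h * σ v = algebraMap K F c * v := by
    rw [← hT v, hc, Submodule.coe_smul, Algebra.smul_def]
  set E : Divisor K F := W + div (v : F) with hE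
  have hEσ : ∀ w : Place K F, E (σ • w) = E w := by
    intro w
    have h2 := DFunLike.congr_fun hh (σ • w)
    rw [Divisor.smul_apply_smul, Finsupp.add_apply, div_apply] at h2
    have h3 : (σ • w).ord (h * σ v) = (σ • w).ord (algebraMap K F c * v) := by rw [h1]
    have hσv : σ (v : F) ≠ 0 := by simpa using hv'
    rw [(σ • w).ord_mul h0 hσv, Place.ord_smul, (σ • w).ord_mul hc0' hv', ord_algebraMap',
      zero_add] at h3
    rw [hE, Finsupp.add_apply, Finsupp.add_apply, div_apply, div_apply]
    omega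
  have hdeg : Divisor.degree E = 2 * (genusFF K F : ℤ) - 2 := by
    rw [hE, map_add, degree_div, hW.degree_eq, add_zero]
  obtain ⟨P, hP⟩ : ∃ P, E P ≠ 0 := by
    by_contra! hcon
    have h2 : E = 0 := Finsupp.ext hcon
    rw [h2, map_zero] at hdeg
    omega
  have hpow : ∀ n : ℕ, E ((σ ^ n) • P) = E P := by
    intro n
    induction n with
    | zero => rw [pow_zero, one_smul]
    | succ n ih => rw [pow_succ', mul_smul, hEσ, ih]
  obtain ⟨i, -, j, -, hij, hEq⟩ := (Set.infinite_univ (α := ℕ)).exists_lt_map_eq_of_mapsTo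
    (f := fun n : ℕ => (σ ^ n) • P) (t := (E.support : Set (Place K F)))
    (fun n _ => by
      rw [Finset.mem_coe, Finsupp.mem_support_iff, hpow]
      exact hP) E.support.finite_toSet
  obtain ⟨m, rfl⟩ : ∃ m, j = i + m := ⟨j - i, by omega⟩
  have hm : m ≠ 0 := by omega
  have h2 : (σ ^ m) • P = P := by
    have h3 : (σ ^ i) • P = (σ ^ (i + m)) • P := hEq
    rw [pow_add, mul_smul] at h3
    exact (smul_left_cancel (σ ^ i) h3).symm
  rcases isOfFinOrder_pow.mp (isOfFinOrder_of_fixed (by omega) h2) with h8 | h8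
  · exact h8
  · exact absurd h8 hm

/-- the order of an automorphism is at most `84 (g - 1)` -/
theorem orderOf_le (hg : 2 ≤ genusFF K F) (σ : F ≃ₐ[K] F) :
    orderOf σ ≤ 84 * (genusFF K F - 1) := by
  haveI : Finite (Subgroup.zpowers σ) := (finite_zpowers.mpr (isOfFinOrder_aut hg σ)).to_subtype
  rw [← Nat.card_zpowers]
  exact hurwitz_aut K F hg (Subgroup.zpowers σ)

theorem pow_factorial (hg : 2 ≤ genusFF K F) (σ : F ≃ₐ[K] F) :
    σ ^ (Nat.factorial (84 * (genusFF K F - 1))) = 1 :=
  orderOf_dvd_iff_pow_eq_one.mp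
    (Nat.dvd_factorial (isOfFinOrder_aut hg σ).orderOf_pos (orderOf_le hg σ))

/-- finitely many automorphisms have a given value at a nonconstant function -/
theorem finite_setOf_apply_eq {x : F} (hx : Transcendental K x) (y : F) :
    {σ : F ≃ₐ[K] F | σ x = y}.Finite := by
  rcases {σ : F ≃ₐ[K] F | σ x = y}.eq_empty_or_nonempty with h | ⟨σ₀, h₀⟩
  · rw [h]
    exact Set.finite_empty
  haveI : FiniteDimensional K⟮x⟯ F := (isParam_of_transcendental hx).fin
  haveI : Finite (K⟮x⟯).fixingSubgroup :=
    Finite.of_equiv _ (IntermediateField.fixingSubgroupEquiv K⟮x⟯).toEquiv.symm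
  have hfin : ((K⟮x⟯).fixingSubgroup : Set (F ≃ₐ[K] F)).Finite := Set.toFinite _
  refine (hfin.image (fun τ => σ₀ * τ)).subset fun σ hσ => ?_
  refine ⟨σ₀⁻¹ * σ, ?_, by simp⟩
  have hfx : (σ₀⁻¹ * σ) x = x := by
    rw [AlgEquiv.mul_apply, show σ x = y from hσ, ← show σ₀ x = y from h₀]
    exact σ₀.symm_apply_apply x
  have hle : K⟮x⟯ ≤ IntermediateField.fixedField (Subgroup.zpowers (σ₀⁻¹ * σ)) := by
    rw [IntermediateField.adjoin_simple_le_iff, IntermediateField.mem_fixedField_iff]
    intro τ hτ
    have h5 : Subgroup.zpowers (σ₀⁻¹ * σ) ≤ MulAction.stabilizer (F ≃ₐ[K] F) x := by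
      rw [Subgroup.zpowers_le]
      exact hfx
    exact h5 hτ
  rw [SetLike.mem_coe, IntermediateField.mem_fixingSubgroup_iff]
  intro y hy
  exact (IntermediateField.mem_fixedField_iff _ _).mp (hle hy) _ (Subgroup.mem_zpowers _)

/-- **A curve of genus at least two has finitely many automorphisms.** -/
theorem finite_aut (hg : 2 ≤ genusFF K F) : Finite (F ≃ₐ[K] F) := by
  classical
  obtain ⟨W, hW⟩ := exists_isCanonical (K := K) (F := F)
  have hr : Module.finrank K (riemannRochSpace W) = genusFF K F := hW.ell_eq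
  let S : Submonoid (Module.End K (riemannRochSpace W)) :=
    { carrier := {T | LinearMap.det T = 1 ∧ ∃ σ : F ≃ₐ[K] F, Cov W σ T}
      one_mem' := ⟨map_one _, 1, Cov.one⟩
      mul_mem' := fun {a b} ha hb => ⟨by rw [map_mul, ha.1, hb.1, mul_one], by
        obtain ⟨-, σ, hσ⟩ := ha
        obtain ⟨-, τ, hτ⟩ := hb
        exact ⟨σ * τ, hσ.mul hτ⟩⟩ }
  have hS : (S : Set (Module.End K (riemannRochSpace W))).Finite := by
    refine Burnside.finite_of_pow_eq_one S
      (N := Nat.factorial (84 * (genusFF K F - 1)) * Module.finrank K (riemannRochSpace W)) ?_ ?_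
    · rw [hr]
      exact Nat.mul_ne_zero (Nat.factorial_ne_zero _) (by omega)
    · rintro T ⟨hdet, σ, hσ⟩
      exact hσ.pow_eq_one hW (by omega) hdet (pow_factorial hg σ)
  have hex := fun σ : F ≃ₐ[K] F => exists_cov_det hW (by omega) σ
  choose T hTc hTd using hex
  -- the ratio of two independent elements
  obtain ⟨c₀, f₁, hf₁, -⟩ := exists_eigen hW (by omega) (1 : Module.End K (riemannRochSpace W))
  obtain ⟨f₂, hf₂⟩ := exists_linearIndependent_pair_of_one_lt_finrank (R := K)
    (M := riemannRochSpace W) (by omega) hf₁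
  have hf₁' : (f₁ : F) ≠ 0 := fun h => hf₁ (Subtype.ext h)
  have hx : Transcendental K ((f₂ : F) / f₁) := by
    apply transcendental_of_not_mem_range
    rintro ⟨c, hc⟩
    rw [eq_div_iff hf₁'] at hc
    rw [LinearIndependent.pair_iff] at hf₂
    have h1 := (hf₂ c (-1) (Subtype.ext (by
      rw [Submodule.coe_add, Submodule.coe_smul, Submodule.coe_smul, Algebra.smul_def, hc]
      simp))).2
    exact absurd h1 (by simp)
  have hfin : (Set.univ : Set (F ≃ₐ[K] F)).Finite := by
    refine Set.Finite.of_finite_fibers T (hS.subset ?_) ?_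
    · rintro _ ⟨σ, -, rfl⟩
      exact ⟨hTd σ, σ, hTc σ⟩
    · rintro _ ⟨σ₀, -, rfl⟩
      refine (finite_setOf_apply_eq hx (σ₀ ((f₂ : F) / f₁))).subset ?_
      rintro σ ⟨-, hσ⟩
      have hσ' : T σ = T σ₀ := hσ
      obtain ⟨h, hh⟩ := hTc σ
      obtain ⟨h', hh'⟩ := hTc σ₀
      have hne : (T σ f₁ : F) ≠ 0 := by
        intro h1
        have h2 : T σ f₁ = 0 := Subtype.ext h1
        have h3 : IsUnit (LinearMap.det (T σ)) := by rw [hTd]; exact isUnit_one
        have h4 : IsUnit (T σ) := (LinearMap.isUnit_iff_isUnit_det _).mpr h3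
        have h5 := LinearMap.ker_eq_bot.mp ((LinearMap.isUnit_iff_ker_eq_bot _).mp h4)
        exact hf₁ (h5 (by rw [h2, map_zero]))
      have hh0 : h ≠ 0 := by
        rintro rfl
        rw [hh, zero_mul] at hne
        exact hne rfl
      have hh0' : h' ≠ 0 := by
        rintro rfl
        rw [hσ', hh', zero_mul] at hne
        exact hne rfl
      have e1 : h * σ f₁ = h' * σ₀ f₁ := by rw [← hh, ← hh', hσ']
      have e2 : h * σ f₂ = h' * σ₀ f₂ := by rw [← hh, ← hh', hσ']
      change σ ((f₂ : F) / f₁) = σ₀ ((f₂ : F) / f₁)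
      rw [map_div₀, map_div₀, ← mul_div_mul_left _ _ hh0, e1, e2, mul_div_mul_left _ _ hh0']
  exact Set.finite_univ_iff.mp hfin

/-- **Hurwitz**: a curve of genus `g ≥ 2` has at most `84 (g - 1)` automorphisms. -/
theorem card_aut_le (hg : 2 ≤ genusFF K F) :
    Finite (F ≃ₐ[K] F) ∧ Nat.card (F ≃ₐ[K] F) ≤ 84 * (genusFF K F - 1) := by
  haveI := finite_aut hg
  refine ⟨finite_aut hg, ?_⟩
  have h := hurwitz_aut K F hg (⊤ : Subgroup (F ≃ₐ[K] F))
  rwa [Subgroup.card_top] at h

end CharZero

end Fermat.Agent.Cor.RR
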