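import Mathlib
import Fermat.Agent.Cor.Clifford
import Fermat.Agent.Cor.Kaehler

/-!
# Curves of genus one are plane cubics

`exists_weierstrass`: let `F/K` be a function field of genus one, `K` algebraically closed (of any characteristic), and
`P` a place of `F/K`. There is a Weierstrass curve over `K` without singular points, with an equation satisfied by
functions `x`, `y` with a pole of order two, respectively three, at `P` and no other pole, and `F = K(x, y)`.

Proof: by the Riemann-Roch theorem there are functions `x`, `y` with these poles; `y ^ 2` and `x ^ 3` have the same pole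
order, and subtracting multiples of `x ^ 3`, `x y`, `x ^ 2`, `y`, `x` from `y ^ 2` one gets a function with at most a
simple pole, that is a constant. Since `[F : K(x)] = 2` and `[F : K(y)] = 3`, `F = K(x, y)`. If `(a, b)` were a singular
point, `F` would be generated by `(y - b)/(x - a)`, hence of genus zero.

This file is not used by any of the statement files.
-/

set_option autoImplicit false
set_option linter.unusedSectionVars false
set_option linter.style.haveILetI false

noncomputable section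

namespace Fermat.Agent.Cor.RR

open AlgebraicCurve IsDedekindDomain WithZero
open Fermat.Agent Fermat.Agent.FF Fermat.Agent.H18
open scoped IntermediateField

variable {K F : Type*} [Field K] [Field F] [Algebra K F] [IsAlgClosed K] [FunField K F]

theorem exists_order (hg : genusFF K F = 1) (P : Place K F) {n : ℕ} (hn : 2 ≤ n) :
    ∃ f : F, f ≠ 0 ∧ P.ord f = -(n : ℤ) ∧ ∀ w : Place K F, w ≠ P → w.adicValuation f ≤ 1 := by
  have hd : Divisor.degree (Finsupp.single P (n : ℤ) : Divisor K F) = n := by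
    rw [Divisor.degree_single, FF.deg_eq_one]
    simp
  obtain ⟨f, hf0, hf, hfP⟩ := exists_ord_eq_neg (D := (Finsupp.single P (n : ℤ) : Divisor K F))
    (by rw [hd, hg]; push_cast; omega) P
  rw [Finsupp.single_eq_same] at hfP
  refine ⟨f, hf0, hfP, fun w hw => ?_⟩
  have h1 := hf w
  rw [Finsupp.add_apply, div_apply, Finsupp.zero_apply, Finsupp.single_eq_of_ne hw] at h1
  rw [w.adicValuation_le_one_iff]
  right
  omega

/-- no function of a curve of genus one has a single simple pole -/
theorem mem_range_of_simple (hg : genusFF K F = 1) {P : Place K F} {f : F}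
    (h1 : ∀ w : Place K F, w ≠ P → w.adicValuation f ≤ 1) (h2 : P.adicValuation f ≤ exp 1) :
    f ∈ Set.range (algebraMap K F) := by
  have hd : Divisor.degree (Finsupp.single P 1 : Divisor K F) = 1 := by
    rw [Divisor.degree_single, FF.deg_eq_one]
    simp
  have hell : ell (Finsupp.single P 1 : Divisor K F) = 1 := by
    have := ell_of_degree_gt (D := (Finsupp.single P 1 : Divisor K F)) (by rw [hd, hg]; norm_num)
    rw [hd, hg] at this
    omega
  have hmem : ∀ e : F, (∀ w : Place K F, w ≠ P → w.adicValuation e ≤ 1) →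
      P.adicValuation e ≤ exp 1 → e ∈ riemannRochSpace (Finsupp.single P 1 : Divisor K F) := by
    intro e h3 h4
    rw [mem_L_iff]
    intro w
    rcases eq_or_ne w P with rfl | hw
    · rw [Finsupp.single_eq_same]
      exact h4
    · rw [Finsupp.single_eq_of_ne hw, exp_zero]
      exact h3 w hw
  have h1mem : (1 : F) ∈ riemannRochSpace (Finsupp.single P 1 : Divisor K F) := by
    refine hmem 1 (fun w _ => by rw [map_one]) ?_
    rw [map_one, show (1 : ℤᵐ⁰) = exp 0 from rfl, exp_le_exp]
    norm_num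
  have hone : (⟨1, h1mem⟩ : riemannRochSpace (Finsupp.single P 1 : Divisor K F)) ≠ 0 := by
    intro h
    exact one_ne_zero (congrArg Subtype.val h)
  obtain ⟨c, hc⟩ := (finrank_eq_one_iff_of_nonzero' _ hone).mp hell ⟨f, hmem f h1 h2⟩
  refine ⟨c, ?_⟩
  have h3 : c • (1 : F) = f := congrArg Subtype.val hc
  rw [← h3, Algebra.smul_def, mul_one]

theorem transcendental_of_ord {P : Place K F} {f : F} (h : P.ord f ≠ 0) : Transcendental K f := by
  apply transcendental_of_not_mem_range
  rintro ⟨c, rfl⟩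
  exact h (ord_algebraMap' P c)

/-- the degree over `K(f)`, `f` a function with a single pole -/
theorem finrank_of_ord {P : Place K F} {f : F} {n : ℕ} (hn : n ≠ 0) (hP : P.ord f = -(n : ℤ))
    (h : ∀ w : Place K F, w ≠ P → w.adicValuation f ≤ 1) : Module.finrank K⟮f⟯ F = n := by
  have htr : Transcendental K f := transcendental_of_ord (P := P) (by omega)
  have hf0 : f ≠ 0 := by
    rintro rfl
    exact htr isAlgebraic_zero
  have h1 : (poles f : Divisor K F) = Finsupp.single P (n : ℤ) := by
    ext w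
    rw [poles_apply]
    rcases eq_or_ne w P with rfl | hw
    · rw [Finsupp.single_eq_same]
      omega
    · rw [Finsupp.single_eq_of_ne hw]
      have h3 := h w hw
      rw [w.adicValuation_le_one_iff] at h3
      have h4 := h3.resolve_left hf0
      omega
  have h2 := degree_poles f htr
  rw [h1, Divisor.degree_single, FF.deg_eq_one] at h2
  have h3 : (n : ℤ) = Module.finrank K⟮f⟯ F := by simpa using h2
  exact_mod_cast h3.symm

theorem adjoin_pair_eq_top {x y : F} (h2 : Module.finrank K⟮x⟯ F = 2)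
    (h3 : Module.finrank K⟮y⟯ F = 3) : IntermediateField.adjoin K {x, y} = ⊤ := by
  have hx : K⟮x⟯ ≤ IntermediateField.adjoin K {x, y} :=
    IntermediateField.adjoin.mono _ _ _ (by simp)
  have hy : K⟮y⟯ ≤ IntermediateField.adjoin K {x, y} :=
    IntermediateField.adjoin.mono _ _ _ (by simp)
  have e1 := IntermediateField.relfinrank_mul_finrank_top hx
  have e2 := IntermediateField.relfinrank_mul_finrank_top hy
  rw [h2] at e1
  rw [h3] at e2
  have d1 : Module.finrank (IntermediateField.adjoin K {x, y}) F ∣ 2 := Dvd.intro_left _ e1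
  have d2 : Module.finrank (IntermediateField.adjoin K {x, y}) F ∣ 3 := Dvd.intro_left _ e2
  have d3 := Nat.dvd_gcd d1 d2
  rw [← IntermediateField.finrank_eq_one_iff_eq_top]
  exact Nat.dvd_one.mp d3

/-- the cubic is smooth -/
theorem nonsingular_of_genus (hg : genusFF K F = 1) {V : WeierstrassCurve K} {x y : F}
    (hx : Transcendental K x) (hV : (V.map (algebraMap K F)).toAffine.Equation x y)
    (htop : IntermediateField.adjoin K {x, y} = ⊤) {a b : K} (hab : V.toAffine.Equation a b) :
    V.toAffine.Nonsingular a b := by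
  by_contra hcon
  rw [WeierstrassCurve.Affine.nonsingular_iff] at hcon
  push Not at hcon
  obtain ⟨h1, h2⟩ := hcon hab
  rw [WeierstrassCurve.Affine.equation_iff] at hV hab
  set A := algebraMap K F with hA
  have hV' : y ^ 2 + A V.a₁ * x * y + A V.a₃ * y = x ^ 3 + A V.a₂ * x ^ 2 + A V.a₄ * x + A V.a₆ :=
    hV
  have h1' := congrArg A h1
  have h2' := congrArg A h2
  have hab' := congrArg A hab
  simp only [map_mul, map_add, map_pow, map_neg, map_sub, map_ofNat] at h1' h2' hab'
  have hX : x - A a ≠ 0 := fun h => not_mem_range_of_transcendental hx _ (sub_eq_zero.mp h)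
  set t := (y - A b) / (x - A a) with ht
  have htX : t * (x - A a) = y - A b := div_mul_cancel₀ _ hX
  have key : (y - A b) ^ 2 + A V.a₁ * (x - A a) * (y - A b) =
      (x - A a) ^ 3 + (3 * A a + A V.a₂) * (x - A a) ^ 2 := by
    linear_combination hV' - hab' - (x - A a) * h1' - (y - A b) * h2'
  have key2 : x = t ^ 2 + A V.a₁ * t - (3 * A a + A V.a₂) + A a := by
    have h3 : (x - A a) ^ 2 * (t ^ 2 + A V.a₁ * t - (3 * A a + A V.a₂) + A a - x) = 0 := by
      have h4 : (t * (x - A a)) ^ 2 + A V.a₁ * (x - A a) * (t * (x - A a)) =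
        (x - A a) ^ 3 + (3 * A a + A V.a₂) * (x - A a) ^ 2 := by rw [htX]; exact key
      linear_combination h4
    rcases mul_eq_zero.mp h3 with h4 | h4
    · exact absurd (pow_eq_zero_iff (two_ne_zero)|>.mp h4) hX
    · exact (sub_eq_zero.mp h4).symm
  have hAm : ∀ c : K, A c ∈ K⟮t⟯ := fun c => (K⟮t⟯).algebraMap_mem c
  have htm : t ∈ K⟮t⟯ := IntermediateField.mem_adjoin_simple_self K t
  have h3m : (3 : F) ∈ K⟮t⟯ := by
    have := hAm 3
    rwa [hA, map_ofNat] at this
  have hxm : x ∈ K⟮t⟯ := by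
    rw [key2]
    exact add_mem (sub_mem (add_mem (pow_mem htm 2) (mul_mem (hAm _) htm))
      (add_mem (mul_mem h3m (hAm _)) (hAm _))) (hAm _)
  have hym : y ∈ K⟮t⟯ := by
    have h4 : y = t * (x - A a) + A b := by rw [htX]; ring
    rw [h4]
    exact add_mem (mul_mem htm (sub_mem hxm (hAm _))) (hAm _)
  have htop' : K⟮t⟯ = ⊤ := by
    rw [eq_top_iff, ← htop, IntermediateField.adjoin_le_iff]
    rintro z (rfl | rfl)
    · exact hxm
    · exact hym
  have htt : Transcendental K t := by
    apply transcendental_of_not_mem_range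
    rintro ⟨c, hc⟩
    apply not_mem_range_of_transcendental hx (c ^ 2 + V.a₁ * c - (3 * a + V.a₂) + a)
    rw [key2, ← hc]
    simp only [map_mul, map_add, map_pow, map_sub, map_ofNat, hA]
  have h0 := genus_eq_zero_iff.mpr ⟨t, htt, htop'⟩
  omega

/-- **Curves of genus one are smooth plane cubics.** -/
theorem exists_weierstrass (hg : genusFF K F = 1) (P : Place K F) :
    ∃ (V : WeierstrassCurve K) (x y : F),
      (V.map (algebraMap K F)).toAffine.Equation x y ∧
      (∀ a b : K, V.toAffine.Equation a b → V.toAffine.Nonsingular a b) ∧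
      IntermediateField.adjoin K {x, y} = ⊤ ∧
      P.ord x = -2 ∧ P.ord y = -3 ∧
      (∀ w : Place K F, w ≠ P → w.adicValuation x ≤ 1 ∧ w.adicValuation y ≤ 1) := by
  obtain ⟨x, hx0, hxP, hxw⟩ := exists_order hg P (n := 2) le_rfl
  obtain ⟨y, hy0, hyP, hyw⟩ := exists_order hg P (n := 3) (by norm_num)
  have hvx : P.adicValuation x = exp 2 := by
    rw [P.adicValuation_eq_exp_neg_ord hx0, hxP]
    norm_num
  have hvy : P.adicValuation y = exp 3 := by
    rw [P.adicValuation_eq_exp_neg_ord hy0, hyP]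
    norm_num
  obtain ⟨c₀, h0⟩ := exists_sub_smul (v := P) (f := y ^ 2) (g := x ^ 3) (n := 5)
    (by rw [map_pow, hvy, ← exp_nsmul]; exact (by norm_num : exp (2 • (3 : ℤ)) ≤ exp (5 + 1)))
    (by rw [map_pow, hvx, ← exp_nsmul]; norm_num)
  obtain ⟨c₁, h1⟩ := exists_sub_smul (v := P) (f := y ^ 2 - c₀ • x ^ 3) (g := x * y) (n := 4)
    (by norm_num; exact h0) (by rw [map_mul, hvx, hvy, ← exp_add]; norm_num)
  obtain ⟨c₂, h2⟩ := exists_sub_smul (v := P) (f := y ^ 2 - c₀ • x ^ 3 - c₁ • (x * y))
    (g := x ^ 2) (n := 3) (by norm_num; exact h1) (by rw [map_pow, hvx, ← exp_nsmul]; norm_num)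
  obtain ⟨c₃, h3⟩ := exists_sub_smul (v := P) (f := y ^ 2 - c₀ • x ^ 3 - c₁ • (x * y) - c₂ • x ^ 2)
    (g := y) (n := 2) (by norm_num; exact h2) (by rw [hvy]; norm_num)
  obtain ⟨c₄, h4⟩ := exists_sub_smul (v := P)
    (f := y ^ 2 - c₀ • x ^ 3 - c₁ • (x * y) - c₂ • x ^ 2 - c₃ • y)
    (g := x) (n := 1) (by norm_num; exact h3) (by rw [hvx]; norm_num)
  have hc₀ : c₀ ≠ 0 := by
    rintro rfl
    rw [zero_smul, sub_zero, map_pow, hvy, ← exp_nsmul, exp_le_exp] at h0
    norm_num at h0
  have hreg : ∀ w : Place K F, w ≠ P →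
      w.adicValuation (y ^ 2 - c₀ • x ^ 3 - c₁ • (x * y) - c₂ • x ^ 2 - c₃ • y - c₄ • x) ≤ 1 := by
    intro w hw
    have ex := hxw w hw
    have ey := hyw w hw
    have hs : ∀ (c : K) (f : F), w.adicValuation f ≤ 1 → w.adicValuation (c • f) ≤ 1 := by
      intro c f hf
      rw [Algebra.smul_def, map_mul]
      exact mul_le_one' (w.adicValuation_algebraMap_le_one c) hf
    have hsub : ∀ f f' : F, w.adicValuation f ≤ 1 → w.adicValuation f' ≤ 1 →
        w.adicValuation (f - f') ≤ 1 := fun f f' h h' =>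
      (Valuation.map_sub _ _ _).trans (max_le h h')
    refine hsub _ _ (hsub _ _ (hsub _ _ (hsub _ _ (hsub _ _ ?_ (hs _ _ ?_)) (hs _ _ ?_))
      (hs _ _ ?_)) (hs _ _ ey)) (hs _ _ ex)
    · rw [map_pow]; exact pow_le_one' ey 2
    · rw [map_pow]; exact pow_le_one' ex 3
    · rw [map_mul]; exact mul_le_one' ex ey
    · rw [map_pow]; exact pow_le_one' ex 2
  obtain ⟨c₅, h5⟩ := mem_range_of_simple hg hreg h4
  set A := algebraMap K F with hA
  simp only [Algebra.smul_def, ← hA] at h5
  have hA0 : A c₀ ≠ 0 := by simpa [hA] using hc₀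
  let V : WeierstrassCurve K := ⟨-c₁, c₂, -(c₃ * c₀), c₄ * c₀, c₅ * c₀ ^ 2⟩
  have hordx : P.ord (A c₀ * x) = -2 := by
    rw [P.ord_mul hA0 hx0, hxP, hA, ord_algebraMap']
    norm_num
  have hordy : P.ord (A c₀ * y) = -3 := by
    rw [P.ord_mul hA0 hy0, hyP, hA, ord_algebraMap']
    norm_num
  have hwx : ∀ w : Place K F, w ≠ P → w.adicValuation (A c₀ * x) ≤ 1 := fun w hw => by
    rw [map_mul]
    exact mul_le_one' (w.adicValuation_algebraMap_le_one c₀) (hxw w hw)
  have hwy : ∀ w : Place K F, w ≠ P → w.adicValuation (A c₀ * y) ≤ 1 := fun w hw => by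
    rw [map_mul]
    exact mul_le_one' (w.adicValuation_algebraMap_le_one c₀) (hyw w hw)
  have hV : (V.map A).toAffine.Equation (A c₀ * x) (A c₀ * y) := by
    rw [WeierstrassCurve.Affine.equation_iff]
    change (A c₀ * y) ^ 2 + A (-c₁) * (A c₀ * x) * (A c₀ * y) + A (-(c₃ * c₀)) * (A c₀ * y) =
      (A c₀ * x) ^ 3 + A c₂ * (A c₀ * x) ^ 2 + A (c₄ * c₀) * (A c₀ * x) + A (c₅ * c₀ ^ 2)
    simp only [map_neg, map_mul, map_pow]
    linear_combination -(A c₀) ^ 2 * h5
  have htop : IntermediateField.adjoin K {A c₀ * x, A c₀ * y} = ⊤ :=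
    adjoin_pair_eq_top (finrank_of_ord (P := P) (n := 2) two_ne_zero (by rw [hordx]; norm_num) hwx)
      (finrank_of_ord (P := P) (n := 3) three_ne_zero (by rw [hordy]; norm_num) hwy)
  exact ⟨V, A c₀ * x, A c₀ * y, hV, fun a b hab => nonsingular_of_genus hg
    (transcendental_of_ord (P := P) (by rw [hordx]; norm_num)) hV htop hab, htop, hordx, hordy,
    fun w hw => ⟨hwx w hw, hwy w hw⟩⟩

end Fermat.Agent.Cor.RR
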