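import Mathlib
import Fermat.Agent.Cor.WeierstrassModel

/-!
# The group structure of a curve of genus one

Let `F/K` be a function field, `K` algebraically closed of any characteristic, and `O` a place.

* `abel_injective`: if the genus is at least one, the map `P ↦ [P - O]` from the places to `Pic⁰` is injective;
* `abel_bijective`: if the genus is one, it is bijective.

This file is not used by any of the statement files.
-/

set_option autoImplicit false
set_option linter.unusedSectionVars false
set_option linter.style.haveILetI false

noncomputable section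

namespace Fermat.Agent.Cor.RR

open AlgebraicCurve IsDedekindDomain
open Fermat.Agent Fermat.Agent.FF Fermat.Agent.H18
open scoped IntermediateField

variable {K F : Type*} [Field K] [Field F] [Algebra K F] [IsAlgClosed K] [FunField K F]

theorem degree_single_one (P : Place K F) :
    Divisor.degree (Finsupp.single P 1 : Divisor K F) = 1 := by
  rw [Divisor.degree_single, FF.deg_eq_one]
  simp

theorem eq_single_of_degree_one {D : Divisor K F} (h : 0 ≤ D) (hd : Divisor.degree D = 1) :
    ∃ P : Place K F, D = Finsupp.single P 1 := by
  obtain ⟨P, hP⟩ : ∃ P, D P ≠ 0 := by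
    by_contra! hcon
    have h2 : D = 0 := Finsupp.ext hcon
    rw [h2, map_zero] at hd
    omega
  refine ⟨P, ?_⟩
  have h1 : 0 ≤ D - Finsupp.single P 1 := by
    intro v
    rw [Finsupp.zero_apply, Finsupp.sub_apply]
    have hv := h v
    rw [Finsupp.zero_apply] at hv
    rcases eq_or_ne v P with rfl | hne
    · rw [Finsupp.single_eq_same]
      omega
    · rw [Finsupp.single_eq_of_ne hne]
      omega
  have h2 := eq_zero_of_degree_zero h1 (by rw [map_sub, hd, degree_single_one, sub_self])
  exact sub_eq_zero.mp h2

/-- the class of `P - O` -/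
def abel (O P : Place K F) : Pic0 K F :=
  Pic0.mk ⟨Finsupp.single P 1 - Finsupp.single O 1, by
    rw [Divisor.mem_degZero, map_sub, degree_single_one, degree_single_one, sub_self]⟩

theorem abel_injective (hg : 1 ≤ genusFF K F) (O : Place K F) :
    Function.Injective (abel (K := K) O) := by
  intro P P' h
  by_contra hne
  have h1 := QuotientAddGroup.eq.mp h
  rw [AddSubgroup.mem_addSubgroupOf] at h1
  obtain ⟨f, hf, hfv⟩ := h1
  have hfv' : ∀ v : Place K F, v.ord f =
      (Finsupp.single P' 1 : Divisor K F) v - (Finsupp.single P 1 : Divisor K F) v := by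
    intro v
    rw [← hfv v]
    change (-((Finsupp.single P 1 : Divisor K F) - Finsupp.single O 1) +
      ((Finsupp.single P' 1 : Divisor K F) - Finsupp.single O 1) : Divisor K F) v = _
    simp only [Finsupp.add_apply, Finsupp.neg_apply, Finsupp.sub_apply]
    ring
  have hP : P.ord f = -((1 : ℕ) : ℤ) := by
    rw [hfv', Finsupp.single_eq_of_ne hne, Finsupp.single_eq_same]
    norm_num
  have hw : ∀ w : Place K F, w ≠ P → w.adicValuation f ≤ 1 := by
    intro w hw
    rw [w.adicValuation_le_one_iff]
    right
    rw [hfv', Finsupp.single_eq_of_ne hw, sub_zero]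
    rcases eq_or_ne w P' with rfl | h2
    · rw [Finsupp.single_eq_same]
      norm_num
    · rw [Finsupp.single_eq_of_ne h2]
  have h3 := finrank_of_ord one_ne_zero hP hw
  have h4 := genus_eq_zero_of_adjoin (transcendental_of_ord (P := P) (by rw [hP]; norm_num)) h3
  omega

/-- **The points of a curve of genus one are its divisor classes of degree zero.** -/
theorem abel_bijective (hg : genusFF K F = 1) (O : Place K F) :
    Function.Bijective (abel (K := K) O) := by
  refine ⟨abel_injective (by omega) O, fun c => ?_⟩
  obtain ⟨⟨D, hD⟩, rfl⟩ := QuotientAddGroup.mk_surjective c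
  have hd : Divisor.degree (D + Finsupp.single O 1) = 1 := by
    rw [map_add, Divisor.mem_degZero.mp hD, degree_single_one, zero_add]
  have hell : 0 < ell (D + Finsupp.single O 1) := by
    have := ell_of_degree_gt (D := D + Finsupp.single O 1) (by rw [hd, hg]; norm_num)
    rw [hd, hg] at this
    omega
  obtain ⟨f, hf, hfe⟩ := exists_effective_of_ell_pos hell
  obtain ⟨P, hP⟩ := eq_single_of_degree_one hfe (by rw [map_add, hd, degree_div, add_zero])
  refine ⟨P, ?_⟩
  apply QuotientAddGroup.eq.mpr
  rw [AddSubgroup.mem_addSubgroupOf]
  refine ⟨f⁻¹, inv_ne_zero hf, fun v => ?_⟩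
  change (-((Finsupp.single P 1 : Divisor K F) - Finsupp.single O 1) + D : Divisor K F) v = _
  have h1 := DFunLike.congr_fun hP v
  have h2 := DFunLike.congr_fun (div_inv (K := K) (f := f)) v
  rw [Finsupp.add_apply, Finsupp.add_apply, div_apply] at h1
  rw [Finsupp.neg_apply, div_apply, div_apply] at h2
  rw [Finsupp.add_apply, Finsupp.neg_apply, Finsupp.sub_apply, h2]
  omega

end Fermat.Agent.Cor.RR
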