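import Mathlib
import Fermat.Agent.Cor.AutFinite

/-!
# The automorphisms fixing a place form a finite group

`finite_stabilizer`: let `F/K` be a function field of genus `g ≥ 1`, `K` algebraically closed of characteristic
zero, and `P` a place. The group of automorphisms of `F/K` fixing `P` is finite. For `g = 1` this is the finiteness of
the automorphism group of an elliptic curve.

This file is not used by any of the statement files.
-/

set_option autoImplicit false
set_option linter.unusedSectionVars false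
set_option linter.style.haveILetI false

noncomputable section

namespace Fermat.Agent.Cor.RR

open AlgebraicCurve IsDedekindDomain
open Fermat.Agent Fermat.Agent.FF Fermat.Agent.H18
open scoped IntermediateField

variable {K F : Type*} [Field K] [Field F] [Algebra K F] [IsAlgClosed K] [CharZero K]
  [FunField K F]

/-- **The automorphisms fixing a place form a finite group**, genus at least one. -/
theorem finite_stabilizer (hg : 1 ≤ genusFF K F) (P : Place K F) :
    Finite (MulAction.stabilizer (F ≃ₐ[K] F) P) := by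
  classical
  obtain ⟨d, x, hd, hxP, hx, hact⟩ := exists_min_pole P
  obtain ⟨hfin, w₁, hw₁, w₂, hw₂, hne⟩ := ramSet_spec hg hx
  have hS : ((MulAction.stabilizer (F ≃ₐ[K] F) P : Subgroup (F ≃ₐ[K] F)) :
      Set (F ≃ₐ[K] F)).Finite := by
    refine Set.Finite.of_finite_fibers (fun σ : F ≃ₐ[K] F => (σ • w₁, σ • w₂))
      ((hfin.prod hfin).subset ?_) ?_
    · rintro _ ⟨σ, hσ, rfl⟩
      obtain ⟨a, b, ha, hab⟩ := hact σ hσ
      exact ⟨(smul_mem_ramSet hx ha hab hw₁).1, (smul_mem_ramSet hx ha hab hw₂).1⟩
    · rintro _ ⟨σ₀, hσ₀, rfl⟩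
      refine (finite_setOf_apply_eq hx (σ₀ x)).subset ?_
      rintro σ ⟨hσ, hσw⟩
      have hP₀ : σ₀ • P = P := hσ₀
      have hP : σ • P = P := hσ
      have hw : (σ • w₁, σ • w₂) = (σ₀ • w₁, σ₀ • w₂) := hσw
      have e1 : σ • w₁ = σ₀ • w₁ := congrArg Prod.fst hw
      have e2 : σ • w₂ = σ₀ • w₂ := congrArg Prod.snd hw
      have hτP : (σ₀⁻¹ * σ) • P = P := by rw [mul_smul, hP, ← hP₀, inv_smul_smul, hP₀]
      have hτ1 : (σ₀⁻¹ * σ) • w₁ = w₁ := by rw [mul_smul, e1, inv_smul_smul]
      have hτ2 : (σ₀⁻¹ * σ) • w₂ = w₂ := by rw [mul_smul, e2, inv_smul_smul]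
      obtain ⟨a, b, ha, hab⟩ := hact _ hτP
      have h3 := (smul_mem_ramSet hx ha hab hw₁).2
      have h4 := (smul_mem_ramSet hx ha hab hw₂).2
      rw [hτ1] at h3
      rw [hτ2] at h4
      have ha1 : a = 1 := by
        have h5 : (a - 1) * (val w₁ x - val w₂ x) = 0 := by linear_combination h3 - h4
        rcases mul_eq_zero.mp h5 with h6 | h6
        · exact sub_eq_zero.mp h6
        · exact absurd (sub_eq_zero.mp h6) hne
      have hb0 : b = 0 := by
        rw [ha1] at h3
        linear_combination h3
      have hfx : (σ₀⁻¹ * σ) x = x := by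
        rw [hab, ha1, hb0, map_one, map_zero, one_mul, add_zero]
      have h6 : σ₀ ((σ₀⁻¹ * σ) x) = σ₀ x := by rw [hfx]
      rw [← AlgEquiv.mul_apply, mul_inv_cancel_left] at h6
      exact h6
  exact hS.to_subtype

end Fermat.Agent.Cor.RR
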