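import Mathlib
import Fermat.Agent.Cor.GenusOnePic
import Fermat.Agent.Cor.StabFinite

/-!
# The automorphisms of a curve of genus one act transitively

`exists_aut_smul_eq`: let `F/K` be a function field of genus one, `K` algebraically closed of characteristic zero. For all
places `P`, `Q` there is an automorphism `σ` of `F/K` with `σ P = Q`.

`infinite_aut`: there are infinitely many automorphisms (those fixing a place are finitely many, see
`finite_stabilizer`).

Proof: there is a function `f` with poles `P + Q`, and `F/K(f)` is a quadratic extension; its automorphism exchanges `P`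
and `Q`.

This file is not used by any of the statement files.
-/

set_option autoImplicit false
set_option linter.unusedSectionVars false
set_option linter.style.haveILetI false

noncomputable section

namespace Fermat.Agent.Cor.RR

open AlgebraicCurve IsDedekindDomain
open Fermat.Agent Fermat.Agent.FF Fermat.Agent.H18
open scoped IntermediateField

variable {K F : Type*} [Field K] [Field F] [Algebra K F] [IsAlgClosed K] [CharZero K]
  [FunField K F]

/-- **The automorphisms of a curve of genus one act transitively on the places.** -/
theorem exists_aut_smul_eq (hg : genusFF K F = 1) (P Q : Place K F) :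
    ∃ σ : F ≃ₐ[K] F, σ • P = Q := by
  rcases eq_or_ne P Q with rfl | hPQ
  · exact ⟨1, one_smul _ _⟩
  set D : Divisor K F := Finsupp.single P 1 + Finsupp.single Q 1 with hD
  have hdD : Divisor.degree D = 2 := by
    rw [hD, map_add, degree_single_one, degree_single_one]
    norm_num
  obtain ⟨f, hf0, hf, hfP⟩ := exists_ord_eq_neg (D := D) (by rw [hdD, hg]; norm_num) P
  have hDP : D P = 1 := by
    rw [hD, Finsupp.add_apply, Finsupp.single_eq_same, Finsupp.single_eq_of_ne hPQ]
    norm_num
  have hDQ : D Q = 1 := by
    rw [hD, Finsupp.add_apply, Finsupp.single_eq_same, Finsupp.single_eq_of_ne hPQ.symm]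
    norm_num
  have hDw : ∀ w : Place K F, w ≠ P → w ≠ Q → D w = 0 := by
    intro w h1 h2
    rw [hD, Finsupp.add_apply, Finsupp.single_eq_of_ne h1, Finsupp.single_eq_of_ne h2, add_zero]
  rw [hDP] at hfP
  have hord : ∀ w : Place K F, 0 ≤ D w + w.ord f := fun w => by
    have := hf w
    rwa [Finsupp.add_apply, div_apply, Finsupp.zero_apply] at this
  have hx : Transcendental K f := transcendental_of_ord (P := P) (by rw [hfP]; norm_num)
  have hfQ : Q.ord f = -1 := by
    by_contra hne
    have h1 := hord Q
    rw [hDQ] at h1
    have h2 : 0 ≤ Q.ord f := by omega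
    have h3 : Module.finrank K⟮f⟯ F = 1 := by
      refine finrank_of_ord (P := P) one_ne_zero (by rw [hfP]; norm_num) fun w hw => ?_
      rw [w.adicValuation_le_one_iff]
      right
      rcases eq_or_ne w Q with rfl | hwQ
      · exact h2
      · have := hord w
        rw [hDw w hw hwQ] at this
        omega
    have h4 := genus_eq_zero_of_adjoin hx h3
    omega
  have hpoles : (poles f : Divisor K F) = D := by
    ext w
    rw [poles_apply]
    rcases eq_or_ne w P with rfl | hwP
    · rw [hfP, hDP]
      norm_num
    · rcases eq_or_ne w Q with rfl | hwQ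
      · rw [hfQ, hDQ]
        norm_num
      · have := hord w
        rw [hDw w hwP hwQ] at this ⊢
        omega
  have hdeg := degree_poles f hx
  rw [hpoles, hdD] at hdeg
  have h2 : Module.finrank K⟮f⟯ F = 2 := by exact_mod_cast hdeg.symm
  haveI : FiniteDimensional K⟮f⟯ F := (isParam_of_transcendental hx).fin
  haveI : Algebra.IsSeparable K⟮f⟯ F := separable_of_charZero f
  letI := ratFuncAlgebra f hx
  haveI := ratFuncAlgebra_tower f hx
  haveI := ratFuncAlgebra_finite f hx
  haveI := ratFuncAlgebra_separable f hx
  have hX : algebraMap (RatFunc K) F RatFunc.X = f := ratFuncAlgebra_X f hx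
  haveI : Algebra.IsQuadraticExtension (RatFunc K) F := by
    constructor
    rw [ratFuncAlgebra_finrank f hx, h2]
  haveI : IsGalois (RatFunc K) F := inferInstance
  have hP : P.restrict (RatFunc K) = infPlace K := by
    rw [restrict_eq_infPlace_iff, hX, hfP]
    norm_num
  have hQ : Q.restrict (RatFunc K) = infPlace K := by
    rw [restrict_eq_infPlace_iff, hX, hfQ]
    norm_num
  obtain ⟨σ, hσ⟩ := exists_gal_smul_eq (E := RatFunc K) P Q (by rw [hP, hQ])
  exact ⟨σ.restrictScalars K, hσ⟩

/-- a curve of genus one has infinitely many automorphisms -/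
theorem infinite_aut (hg : genusFF K F = 1) : Infinite (F ≃ₐ[K] F) := by
  obtain ⟨P⟩ := nonempty_place (K := K) (F := F)
  exact Infinite.of_surjective (fun σ : F ≃ₐ[K] F => σ • P) (exists_aut_smul_eq hg P)

end Fermat.Agent.Cor.RR
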