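import Mathlib
import Fermat.Agent.Cor.GenusOneAut

/-!
# The automorphism group of a curve is finite if and only if the genus is at least two

`finite_aut_iff`, for function fields over an algebraically closed field of characteristic zero.

This file is not used by any of the statement files.
-/

set_option autoImplicit false
set_option linter.unusedSectionVars false
set_option linter.style.haveILetI false

noncomputable section

namespace Fermat.Agent.Cor.RR

open AlgebraicCurve IsDedekindDomain WithZero
open Fermat.Agent Fermat.Agent.FF Fermat.Agent.H18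
open scoped IntermediateField

variable {K F : Type*} [Field K] [Field F] [Algebra K F] [IsAlgClosed K] [CharZero K]
  [FunField K F]

/-- the involution defined by a function with two simple poles -/
theorem exists_aut_of_poles {P Q : Place K F} {f : F} (hP1 : P.ord f = -1) (hQ1 : Q.ord f = -1)
    (hpoles : (poles f : Divisor K F) = Finsupp.single P 1 + Finsupp.single Q 1) :
    ∃ σ : F ≃ₐ[K] F, σ • P = Q := by
  have hx : Transcendental K f := transcendental_of_ord (P := P) (by rw [hP1]; norm_num)
  have hdeg := degree_poles f hx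
  rw [hpoles, map_add, degree_single_one, degree_single_one] at hdeg
  have h2 : Module.finrank K⟮f⟯ F = 2 := by
    have h3 : (Module.finrank K⟮f⟯ F : ℤ) = 2 := by rw [← hdeg]; norm_num
    exact_mod_cast h3
  haveI : FiniteDimensional K⟮f⟯ F := (isParam_of_transcendental hx).fin
  haveI : Algebra.IsSeparable K⟮f⟯ F := separable_of_charZero f
  letI := ratFuncAlgebra f hx
  haveI := ratFuncAlgebra_tower f hx
  haveI := ratFuncAlgebra_finite f hx
  haveI := ratFuncAlgebra_separable f hx
  have hX : algebraMap (RatFunc K) F RatFunc.X = f := ratFuncAlgebra_X f hx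
  haveI : Algebra.IsQuadraticExtension (RatFunc K) F := by
    constructor
    rw [ratFuncAlgebra_finrank f hx, h2]
  haveI : IsGalois (RatFunc K) F := inferInstance
  have hP : P.restrict (RatFunc K) = infPlace K := by
    rw [restrict_eq_infPlace_iff, hX, hP1]
    norm_num
  have hQ : Q.restrict (RatFunc K) = infPlace K := by
    rw [restrict_eq_infPlace_iff, hX, hQ1]
    norm_num
  obtain ⟨σ, hσ⟩ := exists_gal_smul_eq (E := RatFunc K) P Q (by rw [hP, hQ])
  exact ⟨σ.restrictScalars K, hσ⟩

theorem exists_simple_pole (hg : genusFF K F = 0) (P : Place K F) : ∃ f : F, f ≠ 0 ∧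
    P.adicValuation f = exp 1 ∧ ∀ w : Place K F, w ≠ P → w.adicValuation f ≤ 1 := by
  obtain ⟨f, hf0, hf, hfP⟩ := exists_ord_eq_neg (D := (Finsupp.single P 1 : Divisor K F))
    (by rw [degree_single_one, hg]; norm_num) P
  rw [Finsupp.single_eq_same] at hfP
  refine ⟨f, hf0, by rw [P.adicValuation_eq_exp_neg_ord hf0, hfP, neg_neg], fun w hw => ?_⟩
  have h1 := hf w
  rw [Finsupp.add_apply, div_apply, Finsupp.zero_apply, Finsupp.single_eq_of_ne hw] at h1
  rw [w.adicValuation_le_one_iff]
  right
  omega

/-- the automorphisms of the line act transitively on the places -/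
theorem exists_aut_smul_eq_zero (hg : genusFF K F = 0) (P Q : Place K F) :
    ∃ σ : F ≃ₐ[K] F, σ • P = Q := by
  rcases eq_or_ne P Q with rfl | hPQ
  · exact ⟨1, one_smul _ _⟩
  obtain ⟨f₁, h10, h1P, h1w⟩ := exists_simple_pole hg P
  obtain ⟨f₂, h20, h2Q, h2w⟩ := exists_simple_pole hg Q
  have hlt : (1 : ℤᵐ⁰) < exp 1 := by
    rw [show (1 : ℤᵐ⁰) = exp 0 from rfl, exp_lt_exp]
    norm_num
  have hvP : P.adicValuation (f₁ + f₂) = exp 1 := by
    rw [Valuation.map_add_eq_of_lt_left _ (by rw [h1P]; exact (h2w P hPQ).trans_lt hlt), h1P]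
  have hvQ : Q.adicValuation (f₁ + f₂) = exp 1 := by
    rw [Valuation.map_add_eq_of_lt_right _ (by rw [h2Q]; exact (h1w Q hPQ.symm).trans_lt hlt), h2Q]
  have hne : f₁ + f₂ ≠ 0 := by
    intro h
    rw [h, map_zero] at hvP
    exact exp_ne_zero hvP.symm
  have hoP : P.ord (f₁ + f₂) = -1 := by
    rw [P.adicValuation_eq_exp_neg_ord hne, exp_inj] at hvP
    omega
  have hoQ : Q.ord (f₁ + f₂) = -1 := by
    rw [Q.adicValuation_eq_exp_neg_ord hne, exp_inj] at hvQ
    omega
  refine exists_aut_of_poles hoP hoQ ?_
  ext w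
  rw [poles_apply, Finsupp.add_apply]
  rcases eq_or_ne w P with rfl | hwP
  · rw [hoP, Finsupp.single_eq_same, Finsupp.single_eq_of_ne hPQ]
    norm_num
  · rcases eq_or_ne w Q with rfl | hwQ
    · rw [hoQ, Finsupp.single_eq_same, Finsupp.single_eq_of_ne hPQ.symm]
      norm_num
    · rw [Finsupp.single_eq_of_ne hwP, Finsupp.single_eq_of_ne hwQ]
      have h3 : w.adicValuation (f₁ + f₂) ≤ 1 :=
        (Valuation.map_add _ _ _).trans (max_le (h1w w hwP) (h2w w hwQ))
      rw [w.adicValuation_le_one_iff] at h3
      have h4 := h3.resolve_left hne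
      omega

/-- **The automorphism group of a curve is finite if and only if its genus is at least two.** -/
theorem finite_aut_iff : Finite (F ≃ₐ[K] F) ↔ 2 ≤ genusFF K F := by
  refine ⟨fun h => ?_, finite_aut⟩
  by_contra hlt
  obtain ⟨P⟩ := nonempty_place (K := K) (F := F)
  have hinf : Infinite (F ≃ₐ[K] F) := by
    rcases Nat.eq_zero_or_pos (genusFF K F) with h0 | h0
    · exact Infinite.of_surjective (fun σ : F ≃ₐ[K] F => σ • P) (exists_aut_smul_eq_zero h0 P)
    · exact infinite_aut (by omega)
  exact hinf.not_finite h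

end Fermat.Agent.Cor.RR
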