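import Fermat.Agent.Cor.Trace
import Fermat.Agent.LM.Match

/-!
# The eigenvalue of a newform at a prime exactly dividing the level: Galois side

Let `g` be a newform of level `M` whose eigenvalues are the traces of Frobenius of an elliptic
curve `W` at almost all primes and let `q` be a prime exactly dividing `M`.  Then the trace of a
Frobenius element at `q` on the `p`-adic Tate module (`p ≠ q`) is `(q + 1) a_q(g)`.
-/

set_option autoImplicit false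
set_option linter.style.haveILetI false
set_option linter.unusedSectionVars false
set_option maxSynthPendingDepth 3

noncomputable section

namespace Fermat.Agent.Cor.Bad

open CongruenceSubgroup ModularFormClass ModularCurve IsLocalRing
open Fermat.Agent.Ell Fermat.Agent.EGal Fermat.Agent.H05 Fermat.Agent.LM

variable {M : ℕ} [NeZero M] {g : CuspForm (Gamma0 M) 2}

theorem eigenCharC_U (hg : g.IsNormalizedEigenform)
    {S : Set ℕ} {ℓ : ℕ} (hℓ : ℓ.Prime) (hℓN : ℓ ∣ M) (hℓS : ℓ ∉ S) :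
    H23.eigenCharC hg S (CuspForm.heckeAlgebra.U hℓ hℓN hℓS) = qCoeff ⇑g ℓ := by
  rw [H23.eigenCharC_apply]
  change qCoeff ⇑(CuspForm.heckeULin 2 hℓN g) 1 = _
  rw [H23.heckeULin_eigen hg hℓ hℓN, H22.cusp_qCoeff_smul, hg.qCoeff_one, mul_one]

theorem eigenCharC_incS (hg : g.IsNormalizedEigenform) {S S' : Set ℕ} (h : S' ⊆ S)
    (x : CuspForm.heckeAlgebra M 2 S) :
    H23.eigenCharC hg S' (incS M h x) = H23.eigenCharC hg S x := by
  rw [H23.eigenCharC_apply, H23.eigenCharC_apply, coe_incS]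

/-- the character of the Hecke algebra attached to a form with integral eigenvalues. -/
theorem exists_intChar' (hg : g.IsNormalizedEigenform) (S : Set ℕ)
    (h : ∀ ℓ : ℕ, ℓ.Prime → ℓ ∉ S → ∃ z : ℤ, qCoeff g ℓ = z) :
    ∃ π₀ : CuspForm.heckeAlgebra M 2 S →+* ℤ,
      ∀ x, (π₀ x : ℂ) = H23.eigenCharC hg S x := by
  apply exists_intFactor
  intro x
  obtain ⟨t, rfl⟩ := RR.awayEval_surjective M S x
  induction t using MvPolynomial.induction_on with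
  | C a =>
    refine ⟨a, ?_⟩
    have h1 : (MvPolynomial.C a : RR.AwayAlg S) = (a : RR.AwayAlg S) := by
      simp
    rw [h1, map_intCast, map_intCast]
  | add p q hp hq =>
    obtain ⟨a, ha⟩ := hp
    obtain ⟨b, hb⟩ := hq
    exact ⟨a + b, by rw [map_add, map_add, ha, hb, Int.cast_add]⟩
  | mul_X p i hp =>
    obtain ⟨a, ha⟩ := hp
    obtain ⟨z, hz⟩ := h i.1 i.1.2 i.2
    refine ⟨a * z, ?_⟩
    rw [map_mul, map_mul, ha, RR.awayEval_X, Int.cast_mul, ← hz]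
    congr 1
    by_cases hi : (i.1 : ℕ) ∣ M
    · rw [RR.awayGen_of_dvd _ _ hi]
      exact eigenCharC_U hg i.1.2 hi i.2
    · rw [RR.awayGen_of_not_dvd _ _ hi]
      exact H23.eigenCharC_T hg i.1.2 hi i.2

variable {W : WeierstrassCurve ℤ}

/-- **The trace of Frobenius at a prime exactly dividing the level.** -/
theorem trace_zRep_new {p : ℕ} [hp : Fact p.Prime] (hΔ : W.Δ ≠ 0)
    (hns : ∃ g : GQ, ∀ c : ℤ_[p], rr (WQ W) p g ≠ c • 1) (hg : g.IsNewform) {D : ℕ} (hD : D ≠ 0)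
    (h : ∀ ℓ : ℕ, ℓ.Prime → ¬ ℓ ∣ M → ¬ ℓ ∣ D →
      W.IsGoodPrimeFor ℓ ∧ qCoeff g ℓ = (W.apOfModel ℓ : ℂ)) {q : ℕ} (hq : q.Prime)
    (hqp : q ≠ p) (hqM : q ∣ M) (hq2 : ¬ q ^ 2 ∣ M)
    {A : ValuationSubring (AlgebraicClosure ℚ)} (hA : A.LiesOverPrime q) {φ : GQ}
    (hφ : A.IsFrobeniusAt φ q) {z : ℤ} (hz : qCoeff g q = z) :
    LinearMap.trace ℤ_[p] (zRep W hΔ p).V ((zRep W hΔ p).ρ φ) = ((q : ℤ_[p]) + 1) * z := by
  classical
  let S : Finset ℕ := insert p (M.primeFactors ∪ D.primeFactors)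
  have hpS : p ∈ S := Finset.mem_insert_self _ _
  have hMS : ∀ q : ℕ, q.Prime → q ∣ M → q ∈ S := fun q hq hqM =>
    Finset.mem_insert_of_mem (Finset.mem_union_left _
      (Nat.mem_primeFactors.mpr ⟨hq, hqM, NeZero.ne M⟩))
  have hDS : ∀ q : ℕ, q.Prime → q ∣ D → q ∈ S := fun q hq hqD =>
    Finset.mem_insert_of_mem (Finset.mem_union_right _ (Nat.mem_primeFactors.mpr ⟨hq, hqD, hD⟩))
  let S' : Set ℕ := (↑S : Set ℕ) \ {q}
  have hSS : S' ⊆ (↑S : Set ℕ) := Set.sdiff_subset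
  have hqS : q ∈ (↑S : Set ℕ) := by exact_mod_cast hMS q hq hqM
  have hqS' : q ∉ S' := fun hh => hh.2 rfl
  obtain ⟨π₀, hπ₀⟩ := exists_intChar' hg.1 S' (fun ℓ hℓ hℓS => by
    by_cases hℓq : ℓ = q
    · exact ⟨z, by rw [hℓq]; exact hz⟩
    · have hℓS1 : ℓ ∉ S := fun hh => hℓS ⟨by exact_mod_cast hh, hℓq⟩
      exact ⟨_, (h ℓ hℓ (fun hd => hℓS1 (hMS ℓ hℓ hd)) (fun hd => hℓS1 (hDS ℓ hℓ hd))).2⟩)
  have hπU : π₀ (CuspForm.heckeAlgebra.U hq hqM hqS') = z := by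
    have h2 := hπ₀ (CuspForm.heckeAlgebra.U hq hqM hqS')
    rw [eigenCharC_U hg.1 hq hqM hqS', hz] at h2
    exact_mod_cast h2
  have hρ : ∀ (ℓ : ℕ) (hℓ : ℓ.Prime) (hℓM : ¬ ℓ ∣ M) (hℓS : ℓ ∉ (↑S : Set ℕ)),
      ∀ A : ValuationSubring (AlgebraicClosure ℚ), A.LiesOverPrime ℓ →
        ∀ σ : GQ, A.IsFrobeniusAt σ ℓ → LinearMap.charpoly ((zRep W hΔ p).ρ σ) =
          Polynomial.X ^ 2 - Polynomial.C (((Int.castRingHom ℤ_[p]).comp π₀)
            (CuspForm.heckeAlgebra.T hℓ hℓM (fun h => hℓS (hSS h)))) * Polynomial.X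
            + Polynomial.C ((ℓ : ℤ_[p])) := by
    intro ℓ hℓ hℓM hℓS A hA σ hσ
    have hℓD : ¬ ℓ ∣ D := fun hd => hℓS (by exact_mod_cast hDS ℓ hℓ hd)
    have hℓp : ℓ ≠ p := fun hh => hℓS (by rw [hh]; exact_mod_cast hpS)
    obtain ⟨h1, h2⟩ := h ℓ hℓ hℓM hℓD
    have h3 : π₀ (CuspForm.heckeAlgebra.T hℓ hℓM (fun h => hℓS (hSS h))) = W.apOfModel ℓ := by
      have h4 := hπ₀ (CuspForm.heckeAlgebra.T hℓ hℓM (fun h => hℓS (hSS h)))
      rw [H23.eigenCharC_T hg.1 hℓ hℓM (fun h => hℓS (hSS h)), h2] at h4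
      exact_mod_cast h4
    rw [zRep_charpoly_of_ns hΔ hns hℓ h1 hℓp hA hσ, RingHom.comp_apply, h3]
    rfl
  have hinput : NewInputU p M S' q (CuspForm.heckeAlgebra.U hq hqM hqS')
      ((Int.castRingHom ℤ_[p]).comp π₀) := by
    haveI : Fact q.Prime := ⟨hq⟩
    obtain ⟨M', hM'0, hcop, hM⟩ := exists_factor hq hqM hq2
    haveI : NeZero M' := ⟨hM'0⟩
    have hne : M' ≠ M := by
      rw [hM]
      intro h
      have : M' * 1 = M' * q := by rw [mul_one]; exact h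
      exact hq.one_lt.ne (Nat.eq_of_mul_eq_mul_left (Nat.pos_of_ne_zero hM'0) this)
    obtain ⟨t₀, ht₀S, ht₀, ht₀g⟩ := exists_separating hg (M := M') ⟨q, hM⟩ hne
      (S := (↑S : Set ℕ)) S.finite_toSet
    have hπ : ((Int.castRingHom ℤ_[p]).comp π₀)
        (incS M hSS (awayEval M (↑S : Set ℕ) ⟨t₀, ht₀S⟩)) ≠ 0 := by
      intro h0
      rw [RingHom.comp_apply, eq_intCast, Int.cast_eq_zero] at h0
      have h1 := hπ₀ (incS M hSS (awayEval M (↑S : Set ℕ) ⟨t₀, ht₀S⟩))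
      rw [h0, eigenCharC_incS, chig_awayEval (H23.eigenCharC hg.1 _)
        (fun ℓ hℓ hℓM hℓS => H23.eigenCharC_T hg.1 hℓ hℓM hℓS) hMS] at h1
      exact ht₀g (by rw [← h1, Int.cast_zero])
    clear hρ hπU hg ht₀g hz h hπ₀ 
    clear_value S'
    subst hM
    exact newInputU hp.out hq hqp hcop hSS hqS hqS' natCast_mem_maximalIdeal _ ⟨t₀, ht₀S⟩ ht₀ hπ
  have key := trace_of_input hp.out hSS hpS hMS (zRep W hΔ p) ((Int.castRingHom ℤ_[p]).comp π₀)
    hρ q hq hqp _ hinput A hA φ hφ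
  rw [key, RingHom.comp_apply, hπU]
  rfl

end Fermat.Agent.Cor.Bad
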