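import Fermat.Agent.Cor.BadCount
import Fermat.Agent.LM.ERep

/-!
# The trace of Frobenius of an elliptic curve at a prime of multiplicative reduction
-/

set_option autoImplicit false
set_option linter.style.haveILetI false
set_option linter.unusedSectionVars false

noncomputable section

namespace Fermat.Agent.Cor.Bad

open IsLocalRing
open WeierstrassCurve WeierstrassCurve.Affine WeierstrassCurve.Affine.Point
open Fermat.Agent.H08 Fermat.Agent.H09 Fermat.Agent.EGal Fermat.Agent.Ell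
open scoped Pointwise

section Trace

variable {W : WeierstrassCurve ℤ} {p : ℕ} [hp : Fact p.Prime] {A : ValuationSubring Qb}
  {r t α β : Qb}

/-- the trace of an element of the decomposition group at a multiplicative place in terms of
node data -/
theorem trace_of_node (hΔ : W.Δ ≠ 0) {q : ℕ} (hq : q.Prime)
    (hc₄ : ¬ (q : ℤ) ∣ W.c₄) (hns : ∃ g : GQ, ∀ c : ℤ_[p], rr (WQ W) p g ≠ c • 1)
    (hA : A.LiesOverPrime q) (h : NodeData A.valuation ((WQ W)⁄Qb) r t α β) {σ : GQ}
    (hσ : σ • A = A) :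
    LinearMap.trace ℤ_[p] (TT (WQ W) p) (rr (WQ W) p σ) =
      (LinearMap.det (rr (WQ W) p σ) + 1) * (sg α σ : ℤ_[p]) := by
  have hell := isElliptic_WQ hΔ
  have h2 : A.valuation ((WQ W)⁄Qb).c₄ = 1 := by
    rw [← map_WQ, WeierstrassCurve.map_c₄]; exact H09.val_intCast_eq_one hq hA hc₄
  obtain ⟨b, hb⟩ := exists_basis_of_saturated (tateBasis (WQ W) p) (LL_saturated h)
    (LL_ne_bot (isModel_WQ W) hns h hq hA) (LL_ne_top h h2 hq hA)
  have h3 : b 0 ∈ LL p h := by rw [hb]; exact Submodule.mem_span_singleton_self _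
  have h4 := LL_stable h hσ h3
  rw [hb] at h4
  obtain ⟨x, hx⟩ := Submodule.mem_span_singleton.mp h4
  have h5 := rr_sub_sg_mem h hσ (b 1)
  rw [hb] at h5
  obtain ⟨h6, h8⟩ := det_of_triangular b hx.symm h5
  rw [h6, h8]
  have h7 : (sg α σ : ℤ_[p]) * (sg α σ : ℤ_[p]) = 1 := by exact_mod_cast sg_mul_self α σ
  linear_combination (-x) * h7

end Trace

section Count

variable {W : WeierstrassCurve ℤ} {q : ℕ} {A : ValuationSubring Qb} {r t α β : Qb}

theorem residue_pow {φ : GQ} (hφ : A.IsFrobeniusAt φ q) {z w : Qb} (hz : z ∈ A) (hw : w ∈ A)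
    (h : φ z = w) : residue A ⟨z, hz⟩ ^ q = residue A ⟨w, hw⟩ := by
  have h1 := frob_val_sub hφ ((A.valuation_le_one_iff _).mpr hz)
  rw [h] at h1
  symm
  rw [← map_pow, ← sub_eq_zero, ← map_sub, residue_eq_zero_iff]
  exact (ValuationSubring.valuation_lt_one_iff A _).mpr h1

theorem coeff_node (W : WeierstrassCurve ℤ) : ((WQ W)⁄Qb).a₁ = (W.a₁ : Qb) ∧
    ((WQ W)⁄Qb).a₂ = (W.a₂ : Qb) ∧ ((WQ W)⁄Qb).a₃ = (W.a₃ : Qb) ∧
    ((WQ W)⁄Qb).a₄ = (W.a₄ : Qb) ∧ ((WQ W)⁄Qb).a₆ = (W.a₆ : Qb) := by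
  rw [← map_WQ]
  exact ⟨rfl, rfl, rfl, rfl, rfl⟩

/-- **The number of points at a multiplicative prime.** -/
theorem apOfModel_node (hq : q.Prime) (hA : A.LiesOverPrime q)
    (h : NodeData A.valuation ((WQ W)⁄Qb) r t α β) {φ : GQ} (hφ : A.IsFrobeniusAt φ q) :
    W.apOfModel q = 1 + sg α φ := by
  classical
  haveI : Fact q.Prime := ⟨hq⟩
  haveI : CharP (ResidueField A) q := H05.charP_residueField hq hA
  obtain ⟨c1, c2, c3, c4, c6⟩ := coeff_node W
  have hσ := Fermat.Agent.H09.frob_smul_eq hφ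
  obtain ⟨hfr, hft⟩ := node_fixed_decomp hσ h
  have hrA : r ∈ A := (A.valuation_le_one_iff _).mp h.hr
  have htA : t ∈ A := (A.valuation_le_one_iff _).mp h.ht
  have hαA : α ∈ A := (A.valuation_le_one_iff _).mp h.slopes.hα
  have hβA : β ∈ A := (A.valuation_le_one_iff _).mp h.slopes.hβ
  set r' : A := ⟨r, hrA⟩ with hr'
  set t' : A := ⟨t, htA⟩ with ht'
  set α' : A := ⟨α, hαA⟩ with hα'
  set β' : A := ⟨β, hβA⟩ with hβ'
  -- the equations over `A`
  have e3 : (W.a₃ : A) + r' * W.a₁ + 2 * t' = 0 := by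
    have h3 : ((WQ W)⁄Qb).a₃ + r * ((WQ W)⁄Qb).a₁ + 2 * t = 0 := h.slopes.a₃
    rw [c1, c3] at h3
    apply Subtype.ext
    push_cast
    exact h3
  have e4 : (W.a₄ : A) + 2 * r' * W.a₂ - t' * W.a₁ + 3 * r' ^ 2 = 0 := by
    have h4 : ((WQ W)⁄Qb).a₄ + 2 * r * ((WQ W)⁄Qb).a₂ - t * ((WQ W)⁄Qb).a₁ + 3 * r ^ 2 = 0 :=
      h.slopes.a₄
    rw [c1, c2, c4] at h4
    apply Subtype.ext
    push_cast
    exact h4
  have e6 : residue A ((W.a₆ : A) + r' * W.a₄ + r' ^ 2 * W.a₂ + r' ^ 3 - t' * W.a₃ - t' ^ 2 -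
      r' * t' * W.a₁) = 0 := by
    have h6 : A.valuation (((WQ W)⁄Qb).a₆ + r * ((WQ W)⁄Qb).a₄ + r ^ 2 * ((WQ W)⁄Qb).a₂ + r ^ 3 -
      t * ((WQ W)⁄Qb).a₃ - t ^ 2 - r * t * ((WQ W)⁄Qb).a₁) < 1 := h.a₆
    rw [c1, c2, c3, c4, c6] at h6
    rw [residue_eq_zero_iff]
    refine (ValuationSubring.valuation_lt_one_iff A _).mpr ?_
    push_cast
    exact h6
  have es : α' + β' = -(W.a₁ : A) := by
    have h1 : α + β = -((WQ W)⁄Qb).a₁ := h.slopes.sum
    rw [c1] at h1
    apply Subtype.ext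
    push_cast
    exact h1
  have ep : α' * β' = -((W.a₂ : A) + 3 * r') := by
    have h1 : α * β = -(((WQ W)⁄Qb).a₂ + 3 * r) := h.slopes.prod
    rw [c2] at h1
    apply Subtype.ext
    push_cast
    exact h1
  have hne : residue A α' ≠ residue A β' := by
    intro h0
    have h1 : residue A (β' - α') = 0 := by rw [map_sub, h0, sub_self]
    rw [residue_eq_zero_iff] at h1
    have h2 := (ValuationSubring.valuation_lt_one_iff A _).mp h1
    have h3 : A.valuation (β - α) < 1 := h2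
    rw [h.slopes.diff] at h3
    exact lt_irrefl _ h3
  -- descent to the prime field
  let c : ZMod q →+* ResidueField A := ZMod.castHom (dvd_refl q) (ResidueField A)
  have hc : Function.Injective c := c.injective
  have hci : ∀ n : ℤ, c (n : ZMod q) = (n : ResidueField A) := fun n => map_intCast c n
  have hdesc : ∀ x : ResidueField A, x ^ q = x → ∃ y : ZMod q, c y = x := by
    intro x hx
    have h1 : x ∈ (⊥ : Subfield (ResidueField A)) :=
      (Subfield.mem_bot_iff_pow_eq_self (ResidueField A) q).mpr hx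
    have h2 : (⊥ : Subfield (ResidueField A)) ≤ c.fieldRange := bot_le
    exact h2 h1
  obtain ⟨r₀, hr₀⟩ := hdesc (residue A r') (residue_pow hφ hrA hrA hfr)
  obtain ⟨t₀, ht₀⟩ := hdesc (residue A t') (residue_pow hφ htA htA hft)
  set V := (W.reductionMod q).toAffine with hV
  have v1 : V.a₁ = (W.a₁ : ZMod q) := rfl
  have v2 : V.a₂ = (W.a₂ : ZMod q) := rfl
  have v3 : V.a₃ = (W.a₃ : ZMod q) := rfl
  have v4 : V.a₄ = (W.a₄ : ZMod q) := rfl
  have v6 : V.a₆ = (W.a₆ : ZMod q) := rfl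
  have hsing : SingAt V r₀ t₀ := by
    refine ⟨hc ?_, hc ?_, hc ?_⟩
    · have := congrArg (residue A) e3
      simp only [map_add, map_mul, map_intCast, map_ofNat, _root_.map_zero] at this
      simp only [v1, v3, map_add, map_mul, hci, map_ofNat, hr₀, ht₀, _root_.map_zero]
      exact this
    · have := congrArg (residue A) e4
      simp only [map_add, map_sub, map_mul, map_pow, map_intCast, map_ofNat,
        _root_.map_zero] at this
      simp only [v1, v2, v4, map_add, map_sub, map_mul, map_pow, hci, map_ofNat, hr₀, ht₀,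
        _root_.map_zero]
      exact this
    · have := e6
      simp only [map_add, map_sub, map_mul, map_pow, map_intCast, map_ofNat] at this
      simp only [v1, v2, v3, v4, v6, map_add, map_sub, map_mul, map_pow, hci, hr₀, ht₀,
        _root_.map_zero]
      exact this
  have hqf : ∀ m : ZMod q, c (qf V r₀ m) = (c m - residue A α') * (c m - residue A β') := by
    intro m
    have h1 := congrArg (residue A) es
    have h2 := congrArg (residue A) ep
    simp only [map_add, map_mul, map_neg, map_intCast, map_ofNat] at h1 h2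
    unfold qf
    simp only [v1, v2, map_add, map_sub, map_mul, map_pow, hci, map_ofNat, hr₀]
    linear_combination (c m) * h1 - h2
  rw [apOfModel_sing hsing]
  rcases slopes_dichotomy hσ h with ⟨h1, h2⟩ | ⟨h1, h2⟩
  · have hs : sg α φ = 1 := by unfold sg; rw [if_pos h1]
    obtain ⟨α₀, hα₀⟩ := hdesc (residue A α') (residue_pow hφ hαA hαA h1)
    obtain ⟨β₀, hβ₀⟩ := hdesc (residue A β') (residue_pow hφ hβA hβA h2)
    have hne0 : α₀ ≠ β₀ := by
      rintro rfl
      exact hne (hα₀.symm.trans hβ₀)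
    have hset : ∀ m : ZMod q, qf V r₀ m = 0 ↔ m ∈ ({α₀, β₀} : Finset (ZMod q)) := by
      intro m
      rw [Finset.mem_insert, Finset.mem_singleton, ← hc.eq_iff (b := (0 : ZMod q)), hqf,
        _root_.map_zero, mul_eq_zero, sub_eq_zero, sub_eq_zero, ← hα₀, ← hβ₀, hc.eq_iff,
        hc.eq_iff]
    rw [Nat.card_congr (Equiv.subtypeEquivRight hset), hs]
    have : Nat.card {m : ZMod q // m ∈ ({α₀, β₀} : Finset (ZMod q))} = 2 := by
      rw [Nat.card_eq_fintype_card, Fintype.card_coe, Finset.card_pair hne0]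
    rw [this]
    norm_num
  · have hs : sg α φ = -1 := by
      unfold sg
      rw [if_neg]
      rw [h1]
      exact (slopes_ne h).symm
    rw [hs]
    have hemp : IsEmpty {m : ZMod q // qf V r₀ m = 0} := by
      refine ⟨fun m => ?_⟩
      obtain ⟨m, hm⟩ := m
      have h3 := hqf m
      rw [hm, _root_.map_zero] at h3
      have hmq : c m ^ q = c m := by rw [← map_pow, ZMod.pow_card]
      rcases mul_eq_zero.mp h3.symm with h4 | h4
      · have h5 : c m = residue A α' := sub_eq_zero.mp h4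
        rw [h5] at hmq
        exact hne (hmq.symm.trans (residue_pow hφ hαA hβA h1))
      · have h5 : c m = residue A β' := sub_eq_zero.mp h4
        rw [h5] at hmq
        exact hne ((residue_pow hφ hβA hαA h2).symm.trans hmq)
    rw [Nat.card_eq_zero.mpr (Or.inl hemp)]
    norm_num

/-- **The trace of Frobenius at a multiplicative prime.** -/
theorem trace_zRep_mult {p : ℕ} [hp : Fact p.Prime] (hΔ : W.Δ ≠ 0)
    (hns : ∃ g : GQ, ∀ c : ℤ_[p], rr (WQ W) p g ≠ c • 1) (hq : q.Prime) (hqp : q ≠ p)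
    (hqΔ : (q : ℤ) ∣ W.Δ) (hss : ¬ (q : ℤ) ∣ W.c₄)
    (hA : A.LiesOverPrime q) {φ : GQ} (hφ : A.IsFrobeniusAt φ q) :
    LinearMap.trace ℤ_[p] (zRep W hΔ p).V ((zRep W hΔ p).ρ φ) =
      ((q : ℤ_[p]) + 1) * ((W.apOfModel q - 1 : ℤ) : ℤ_[p]) := by
  have hint : IsIntegralFor A.valuation ((WQ W)⁄Qb) := isIntegralFor_of_int (map_WQ W)
  have h0 : ((WQ W)⁄Qb).Δ ≠ 0 := by
    rw [← map_WQ, WeierstrassCurve.map_Δ]; simpa using hΔ
  have h1 : A.valuation ((WQ W)⁄Qb).Δ < 1 := by
    rw [← map_WQ, WeierstrassCurve.map_Δ]; exact H09.val_intCast_lt_one hA hqΔ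
  have h2 : A.valuation ((WQ W)⁄Qb).c₄ = 1 := by
    rw [← map_WQ, WeierstrassCurve.map_c₄]; exact H09.val_intCast_eq_one hq hA hss
  obtain ⟨r, t, α, β, h⟩ := exists_nodeData hint h0 h1 h2
  have h3 := trace_of_node (p := p) hΔ hq hss hns hA h (Fermat.Agent.H09.frob_smul_eq hφ)
  have h4 : LinearMap.det (rr (WQ W) p φ) = (q : ℤ_[p]) := LM.zRep_det_of_ns hΔ hns hq hqp hA hφ
  rw [h4] at h3
  rw [apOfModel_node hq hA h hφ, add_sub_cancel_left]
  exact h3

end Count

end Fermat.Agent.Cor.Bad
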