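import Fermat.Agent.Cor.BadSign

/-!
# The newform of a semistable elliptic curve: all coefficients

* `qCoeff_bad_odd`, `qCoeff_bad_two`: the coefficient at a bad prime is `(-c₆ / q)`, respectively
  `(-1) ^ (a₂ + a₃)`;
* `newform_match`: a newform (of any level) with the eigenvalues of `W` at almost all primes has
  level the conductor and the expected coefficient at every prime; all its coefficients are
  integers (`exists_int_qCoeff`);
* `ap_eq_of_almost_all`: two semistable curves with the same traces at almost all primes have the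
  same conductor and the same number of nonsingular points modulo every prime;
* the reduction types of the curves of conductor `11, 14, 15, 17, 19, 21`.

This file is not used by any of the statement files.
-/

set_option autoImplicit false

noncomputable section

namespace Fermat.Agent.Cor.Bad

open CongruenceSubgroup ModularFormClass WeierstrassCurve WeierstrassCurve.Affine

variable {W : WeierstrassCurve ℤ}

section Two

theorem singAt_two_aux : ∀ a₁ a₂ a₃ a₄ a₆ : ZMod 2,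
    (a₁ ^ 2 + 4 * a₂) ^ 2 - 24 * (2 * a₄ + a₁ * a₃) ≠ 0 →
    -(a₁ ^ 2 + 4 * a₂) ^ 2 * (a₁ ^ 2 * a₆ + 4 * a₂ * a₆ - a₁ * a₃ * a₄ + a₂ * a₃ ^ 2 - a₄ ^ 2) -
      8 * (2 * a₄ + a₁ * a₃) ^ 3 - 27 * (a₃ ^ 2 + 4 * a₆) ^ 2 +
      9 * (a₁ ^ 2 + 4 * a₂) * (2 * a₄ + a₁ * a₃) * (a₃ ^ 2 + 4 * a₆) = 0 →
    (a₃ + a₃ * a₁ + 2 * (a₄ + a₃) = 0 ∧
      a₄ + 2 * a₃ * a₂ - (a₄ + a₃) * a₁ + 3 * a₃ ^ 2 = 0 ∧
      a₆ + a₃ * a₄ + a₃ ^ 2 * a₂ + a₃ ^ 3 - (a₄ + a₃) * a₃ - (a₄ + a₃) ^ 2 -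
        a₃ * (a₄ + a₃) * a₁ = 0) ∧
    ∀ m : ZMod 2, (m ^ 2 + a₁ * m - (a₂ + 3 * a₃) = 0 ↔ a₂ + a₃ = 0) := by
  decide

/-- **The number of points at `2`, multiplicative reduction.** -/
theorem apOfModel_two (hΔ : (2 : ℤ) ∣ W.Δ) (hc₄ : ¬ (2 : ℤ) ∣ W.c₄) :
    W.apOfModel 2 = if Even (W.a₂ + W.a₃) then 2 else 0 := by
  classical
  have : Fact (Nat.Prime 2) := ⟨Nat.prime_two⟩
  set V := (W.reductionMod 2).toAffine with hV
  have hΔ' : V.Δ = 0 := by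
    rw [hV]
    change (W.map (Int.castRingHom (ZMod 2))).Δ = 0
    rw [WeierstrassCurve.map_Δ]
    exact (ZMod.intCast_zmod_eq_zero_iff_dvd _ _).mpr hΔ
  have hc' : V.c₄ ≠ 0 := by
    rw [hV]
    change (W.map (Int.castRingHom (ZMod 2))).c₄ ≠ 0
    rw [WeierstrassCurve.map_c₄]
    exact fun h => hc₄ ((ZMod.intCast_zmod_eq_zero_iff_dvd _ _).mp h)
  obtain ⟨⟨h3, h4, h6⟩, hm⟩ := singAt_two_aux V.a₁ V.a₂ V.a₃ V.a₄ V.a₆ hc' hΔ'
  have hs : SingAt V V.a₃ (V.a₄ + V.a₃) := ⟨h3, h4, h6⟩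
  rw [apOfModel_sing hs]
  have hpar : V.a₂ + V.a₃ = 0 ↔ Even (W.a₂ + W.a₃) := by
    have e : V.a₂ + V.a₃ = ((W.a₂ + W.a₃ : ℤ) : ZMod 2) := by
      push_cast
      rfl
    rw [e, ZMod.intCast_zmod_eq_zero_iff_dvd, even_iff_two_dvd]
    rfl
  by_cases hev : Even (W.a₂ + W.a₃)
  · rw [if_pos hev]
    have : Nat.card {m : ZMod 2 // qf V V.a₃ m = 0} = Nat.card (ZMod 2) :=
      Nat.card_congr (Equiv.subtypeUnivEquiv fun m => (hm m).mpr (hpar.mpr hev))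
    rw [this, Nat.card_eq_fintype_card, ZMod.card]
    rfl
  · rw [if_neg hev]
    have : IsEmpty {m : ZMod 2 // qf V V.a₃ m = 0} :=
      ⟨fun m => hev (hpar.mp ((hm m.1).mp m.2))⟩
    rw [Nat.card_eq_zero.mpr (Or.inl this)]
    rfl

end Two

section Int

variable {N : ℕ} {f : CuspForm (Gamma0 N) 2}

/-- a normalised eigenform with integral coefficients at the primes has integral coefficients. -/
theorem exists_int_of_primes (hf : f.IsNormalizedEigenform)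
    (h : ∀ p : ℕ, p.Prime → ∃ z : ℤ, qCoeff f p = z) (n : ℕ) : ∃ z : ℤ, qCoeff f n = z := by
  have hpow : ∀ p : ℕ, p.Prime → ∀ e : ℕ, ∃ z : ℤ, qCoeff f (p ^ e) = z := by
    intro p hp e
    induction e using Nat.strong_induction_on with
    | _ e ih =>
      match e, ih with
      | 0, _ => exact ⟨1, by rw [pow_zero, hf.qCoeff_one, Int.cast_one]⟩
      | 1, _ => rw [pow_one]; exact h p hp
      | r + 2, ih =>
        obtain ⟨a, ha⟩ := h p hp
        obtain ⟨b, hb⟩ := ih (r + 1) (by omega)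
        obtain ⟨c, hc⟩ := ih r (by omega)
        by_cases hpN : p ∣ N
        · exact ⟨a * b, by rw [hf.qCoeff_prime_pow_of_dvd p r hp hpN, ha, hb]; push_cast; rfl⟩
        · exact ⟨a * b - p * c, by
            rw [hf.qCoeff_prime_pow_of_not_dvd p r hp hpN, ha, hb, hc]; push_cast; rfl⟩
  induction n using Nat.recOnPosPrimePosCoprime with
  | prime_pow p e hp _ => exact hpow p hp e
  | zero => exact ⟨0, by rw [H22.cusp_qCoeff_zero, Int.cast_zero]⟩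
  | one => exact ⟨1, by rw [hf.qCoeff_one, Int.cast_one]⟩
  | coprime a b _ _ hab ha hb =>
    obtain ⟨x, hx⟩ := ha
    obtain ⟨y, hy⟩ := hb
    exact ⟨x * y, by rw [hf.qCoeff_mul_of_coprime a b hab, hx, hy, Int.cast_mul]⟩

end Int

section Match

variable {N : ℕ} [NeZero N] {f : CuspForm (Gamma0 N) 2}

/-- **Strong matching.** A newform of any level with the eigenvalues of a semistable elliptic
curve `W` at almost all primes has level the conductor of `W` and the coefficients of `W` at all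
primes, good and bad. -/
theorem newform_match (hΔ : W.Δ ≠ 0) (hW : W.IsSemistableModel) (hf : f.IsNewform) {D : ℕ}
    (hD : D ≠ 0) (h : ∀ ℓ : ℕ, ℓ.Prime → ¬ ℓ ∣ N → ¬ ℓ ∣ D → qCoeff f ℓ = (W.apOfModel ℓ : ℂ)) :
    N = W.conductorLevel ∧
      (∀ q : ℕ, q.Prime → ¬ (q : ℤ) ∣ W.Δ → qCoeff f q = (W.apOfModel q : ℂ)) ∧
      (∀ q : ℕ, q.Prime → (q : ℤ) ∣ W.Δ → qCoeff f q = (W.apOfModel q : ℂ) - 1) := by
  have : NeZero W.conductorLevel := ⟨W.conductorLevel_pos.ne'⟩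
  obtain ⟨g, hg, h1, h2⟩ := exists_newform hΔ hW
  obtain ⟨h3, h4⟩ := AL.newform_unique hf hg (D := D * W.Δ.natAbs)
    (mul_ne_zero hD (Int.natAbs_ne_zero.mpr hΔ)) (fun ℓ hℓ hℓN _ hℓD => by
      rw [h ℓ hℓ hℓN (fun hd => hℓD (hd.mul_right _)),
        h1 ℓ hℓ (fun hd => hℓD ((Int.natCast_dvd.mp hd).mul_left _))])
  refine ⟨h3, ?_, ?_⟩
  · intro q hq hqΔ
    rw [h4]
    exact h1 q hq hqΔ
  · intro q hq hqΔ
    rw [h4]
    exact h2 q hq hqΔ

/-- **all coefficients of the newform of a semistable curve are integers.** -/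
theorem exists_int_qCoeff (hΔ : W.Δ ≠ 0) (hW : W.IsSemistableModel) (hf : f.IsNewform) {D : ℕ}
    (hD : D ≠ 0) (h : ∀ ℓ : ℕ, ℓ.Prime → ¬ ℓ ∣ N → ¬ ℓ ∣ D → qCoeff f ℓ = (W.apOfModel ℓ : ℂ))
    (n : ℕ) : ∃ z : ℤ, qCoeff f n = z := by
  obtain ⟨-, h1, h2⟩ := newform_match hΔ hW hf hD h
  refine exists_int_of_primes hf.1 (fun p hp => ?_) n
  by_cases hpΔ : (p : ℤ) ∣ W.Δ
  · exact ⟨W.apOfModel p - 1, by rw [h2 p hp hpΔ]; push_cast; rfl⟩
  · exact ⟨_, h1 p hp hpΔ⟩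

/-- **The newform of a semistable elliptic curve is unique** (among all newforms of all levels). -/
theorem existsUnique_newform (hΔ : W.Δ ≠ 0) (hW : W.IsSemistableModel) :
    ∃! g : CuspForm (Gamma0 W.conductorLevel) 2, g.IsNewform ∧
      (∀ q : ℕ, q.Prime → ¬ (q : ℤ) ∣ W.Δ → qCoeff g q = (W.apOfModel q : ℂ)) ∧
      (∀ q : ℕ, q.Prime → (q : ℤ) ∣ W.Δ → qCoeff g q = (W.apOfModel q : ℂ) - 1) := by
  have : NeZero W.conductorLevel := ⟨W.conductorLevel_pos.ne'⟩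
  obtain ⟨g, hg, h1, h2⟩ := exists_newform hΔ hW
  refine ⟨g, ⟨hg, h1, h2⟩, ?_⟩
  rintro g' ⟨hg', h1', -⟩
  obtain ⟨-, h4⟩ := AL.newform_unique hg' hg (D := W.Δ.natAbs)
    (Int.natAbs_ne_zero.mpr hΔ) (fun ℓ hℓ _ _ hℓD => by
      have h5 : ¬ (ℓ : ℤ) ∣ W.Δ := fun hd => hℓD (Int.natCast_dvd.mp hd)
      rw [h1' ℓ hℓ h5, h1 ℓ hℓ h5])
  exact DFunLike.coe_injective h4

/-- **Strong multiplicity one for semistable elliptic curves**: two semistable curves with the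
same traces of Frobenius at almost all primes have the same conductor, and the same number of
(nonsingular) points modulo every prime, good or bad. -/
theorem ap_eq_of_almost_all {W' : WeierstrassCurve ℤ} (hΔ : W.Δ ≠ 0) (hW : W.IsSemistableModel)
    (hΔ' : W'.Δ ≠ 0) (hW' : W'.IsSemistableModel) {D : ℕ} (hD : D ≠ 0)
    (h : ∀ ℓ : ℕ, ℓ.Prime → ¬ ℓ ∣ D → W.apOfModel ℓ = W'.apOfModel ℓ) :
    W.conductorLevel = W'.conductorLevel ∧
      ∀ q : ℕ, q.Prime → ((q : ℤ) ∣ W.Δ ↔ (q : ℤ) ∣ W'.Δ) ∧ W.apOfModel q = W'.apOfModel q := by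
  have : NeZero W.conductorLevel := ⟨W.conductorLevel_pos.ne'⟩
  obtain ⟨g, hg, h1, h2⟩ := exists_newform hΔ hW
  obtain ⟨h3, h4, h5⟩ := newform_match (W := W') hΔ' hW' hg (D := D * W.Δ.natAbs)
    (mul_ne_zero hD (Int.natAbs_ne_zero.mpr hΔ)) (fun ℓ hℓ _ hℓD => by
      rw [h1 ℓ hℓ (fun hd => hℓD ((Int.natCast_dvd.mp hd).mul_left _)),
        h ℓ hℓ (fun hd => hℓD (hd.mul_right _))])
  refine ⟨h3, fun q hq => ?_⟩
  have hiff : (q : ℤ) ∣ W.Δ ↔ (q : ℤ) ∣ W'.Δ := by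
    rw [← W.prime_dvd_conductorLevel_iff hΔ hq, ← W'.prime_dvd_conductorLevel_iff hΔ' hq, h3]
  refine ⟨hiff, ?_⟩
  by_cases hqΔ : (q : ℤ) ∣ W.Δ
  · have e1 := h2 q hq hqΔ
    rw [h5 q hq (hiff.mp hqΔ)] at e1
    have e2 := sub_left_injective e1
    exact_mod_cast e2.symm
  · have e1 := h1 q hq hqΔ
    rw [h4 q hq (fun hh => hqΔ (hiff.mpr hh))] at e1
    exact_mod_cast e1.symm

/-- **The coefficient at an odd bad prime is the Legendre symbol `(-c₆ / q)`.** -/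
theorem qCoeff_bad_odd (hΔ : W.Δ ≠ 0) (hW : W.IsSemistableModel) (hf : f.IsNewform) {D : ℕ}
    (hD : D ≠ 0) (h : ∀ ℓ : ℕ, ℓ.Prime → ¬ ℓ ∣ N → ¬ ℓ ∣ D → qCoeff f ℓ = (W.apOfModel ℓ : ℂ))
    {q : ℕ} [hq : Fact q.Prime] (hq2 : q ≠ 2) (hqΔ : (q : ℤ) ∣ W.Δ) :
    qCoeff f q = (legendreSym q (-W.c₆) : ℂ) := by
  rw [(newform_match hΔ hW hf hD h).2.2 q hq.out hqΔ,
    apOfModel_eq_legendreSym hq2 hqΔ (hW q hq.out hqΔ)]
  push_cast
  ring

/-- **The coefficient at `2`** for curves with multiplicative reduction at `2`. -/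
theorem qCoeff_bad_two (hΔ : W.Δ ≠ 0) (hW : W.IsSemistableModel) (hf : f.IsNewform) {D : ℕ}
    (hD : D ≠ 0) (h : ∀ ℓ : ℕ, ℓ.Prime → ¬ ℓ ∣ N → ¬ ℓ ∣ D → qCoeff f ℓ = (W.apOfModel ℓ : ℂ))
    (h2 : (2 : ℤ) ∣ W.Δ) :
    qCoeff f 2 = if Even (W.a₂ + W.a₃) then 1 else -1 := by
  have h3 := (newform_match hΔ hW hf hD h).2.2 2 Nat.prime_two (by exact_mod_cast h2)
  rw [apOfModel_two h2 (by exact_mod_cast hW 2 Nat.prime_two (by exact_mod_cast h2))] at h3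
  rw [h3]
  split_ifs <;> norm_num

end Match

end Fermat.Agent.Cor.Bad
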