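import Mathlib
import Fermat.Agent.H09.Shift
import Fermat.Prelude.Def_FLTPrelim_Modularity

/-!
# The number of nonsingular points of a nodal or cuspidal cubic
-/

set_option autoImplicit false

noncomputable section

namespace Fermat.Agent.Cor.Bad

open WeierstrassCurve WeierstrassCurve.Affine

variable {k : Type*} [Field k] {W : WeierstrassCurve.Affine k} {r t : k}

/-- the singular point is at `(r, t)` -/
structure SingAt (W : WeierstrassCurve.Affine k) (r t : k) : Prop where
  h₃ : W.a₃ + r * W.a₁ + 2 * t = 0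
  h₄ : W.a₄ + 2 * r * W.a₂ - t * W.a₁ + 3 * r ^ 2 = 0
  h₆ : W.a₆ + r * W.a₄ + r ^ 2 * W.a₂ + r ^ 3 - t * W.a₃ - t ^ 2 - r * t * W.a₁ = 0

/-- the value of the polynomial of the tangent slopes at the singular point -/
def qf (W : WeierstrassCurve.Affine k) (r m : k) : k := m ^ 2 + W.a₁ * m - (W.a₂ + 3 * r)

theorem SingAt.nonsingular (h : SingAt W r t) {m : k} (hm : qf W r m ≠ 0) :
    W.Nonsingular (r + qf W r m) (t + m * qf W r m) := by
  rw [nonsingular_iff', equation_iff']
  set X := qf W r m with hX
  have hX' : X = m ^ 2 + W.a₁ * m - (W.a₂ + 3 * r) := hX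
  have h3 := h.h₃
  have h4 := h.h₄
  have h6 := h.h₆
  refine ⟨?_, ?_⟩
  · linear_combination (m * X) * h3 - X * h4 - h6 - X ^ 2 * hX'
  · by_contra hcon
    push Not at hcon
    obtain ⟨e1, e2⟩ := hcon
    have e2' : X * (2 * m + W.a₁) = 0 := by linear_combination e2 - h3
    have e3 : 2 * m + W.a₁ = 0 := (mul_eq_zero.mp e2').resolve_left hm
    have e1' : X * (W.a₁ * m - 3 * X - 2 * (W.a₂ + 3 * r)) = 0 := by
      linear_combination e1 + h4
    have e4 := (mul_eq_zero.mp e1').resolve_left hm
    apply hm
    linear_combination (-m) * e3 - e4 - 2 * hX'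

theorem SingAt.not_nonsingular (h : SingAt W r t) : ¬ W.Nonsingular r t := by
  rw [nonsingular_iff', equation_iff']
  rintro ⟨-, e1 | e1⟩
  · exact e1 (by linear_combination -h.h₄)
  · exact e1 (by linear_combination h.h₃)

theorem SingAt.eq_of_nonsingular (h : SingAt W r t) {x y : k} (hxy : W.Nonsingular x y) :
    x - r ≠ 0 ∧ x - r = qf W r ((y - t) / (x - r)) := by
  have heq := (equation_iff' _ _).mp hxy.1
  have key : (y - t) ^ 2 + W.a₁ * (x - r) * (y - t) =
      (x - r) ^ 3 + (W.a₂ + 3 * r) * (x - r) ^ 2 := by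
    linear_combination heq - (y - t) * h.h₃ + (x - r) * h.h₄ + h.h₆
  have hx : x - r ≠ 0 := by
    intro h0
    rw [h0] at key
    have h1 : (y - t) ^ 2 = 0 := by linear_combination key
    have h2 : y - t = 0 := pow_eq_zero_iff two_ne_zero |>.mp h1
    have hx' : x = r := sub_eq_zero.mp h0
    have hy' : y = t := sub_eq_zero.mp h2
    subst hx' hy'
    exact h.not_nonsingular hxy
  refine ⟨hx, ?_⟩
  unfold qf
  have hx2 : (x - r) ^ 2 ≠ 0 := pow_ne_zero _ hx
  apply mul_left_cancel₀ hx2
  have e1 : (x - r) ^ 2 * (((y - t) / (x - r)) ^ 2 + W.a₁ * ((y - t) / (x - r)) -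
      (W.a₂ + 3 * r)) = (y - t) ^ 2 + W.a₁ * (x - r) * (y - t) - (W.a₂ + 3 * r) * (x - r) ^ 2 := by
    field_simp
  rw [e1]
  linear_combination -key

/-- the parametrisation of the nonsingular points by the slope -/
def pointEquiv (h : SingAt W r t) : W.Point ≃ Option {m : k // qf W r m ≠ 0} where
  toFun P := match P with
    | .zero => none
    | .some x y hxy => some ⟨(y - t) / (x - r), by
        obtain ⟨h1, h2⟩ := h.eq_of_nonsingular hxy
        rw [← h2]; exact h1⟩
  invFun m := match m with
    | none => .zero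
    | some m => .some _ _ (h.nonsingular m.2)
  left_inv P := by
    rcases P with _ | ⟨x, y, hxy⟩
    · rfl
    · obtain ⟨h1, h2⟩ := h.eq_of_nonsingular hxy
      simp only [Point.some.injEq]
      rw [← h2]
      refine ⟨by ring, ?_⟩
      rw [div_mul_cancel₀ _ h1]
      ring
  right_inv m := by
    rcases m with _ | ⟨m, hm⟩
    · rfl
    · simp only [Option.some.injEq, Subtype.mk.injEq]
      rw [add_sub_cancel_left, add_sub_cancel_left, mul_div_assoc, div_self hm, mul_one]

/-- **The number of nonsingular points of a singular cubic.** -/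
theorem card_point_sing [Fintype k] (h : SingAt W r t) :
    Nat.card W.Point + Nat.card {m : k // qf W r m = 0} = Fintype.card k + 1 := by
  classical
  rw [Nat.card_congr (pointEquiv h), Nat.card_eq_fintype_card, Fintype.card_option,
    Nat.card_eq_fintype_card, Fintype.card_subtype_compl]
  have := Fintype.card_subtype_le (fun m : k => qf W r m = 0)
  omega

theorem apOfModel_sing {W : WeierstrassCurve ℤ} {q : ℕ} [Fact q.Prime] {r t : ZMod q}
    (h : SingAt (W.reductionMod q).toAffine r t) :
    W.apOfModel q = Nat.card {m : ZMod q // qf (W.reductionMod q).toAffine r m = 0} := by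
  have h1 := card_point_sing h
  rw [ZMod.card] at h1
  unfold WeierstrassCurve.apOfModel WeierstrassCurve.traceOfFrobenius WeierstrassCurve.card
  rw [Nat.card_eq_fintype_card (α := ZMod q), ZMod.card]
  omega

end Fermat.Agent.Cor.Bad
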