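import Mathlib
import Fermat.Agent.H16.LR.NF
import Fermat.Agent.AL.Newform

/-!
# Atkin–Lehner signs of newforms

Let `f` be a newform of weight two and level `Γ₀(N)`.

* For every exact divisor `Q` of `N` (`Q ∣ N`, `Q` and `N / Q` coprime) and every Atkin–Lehner
  matrix `w = (Q x, y; N z, Q t)` of determinant `Q` one has `f ∣ w = ε_Q f` with a sign
  `ε_Q = ±1` which does not depend on `w`; the signs are multiplicative in `Q`.
* For a prime `q ∣ N` with `q² ∤ N` one has `ε_q = -a_q(f)`; in particular `a_q(f) = ±1`.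
* For `q² ∣ N` one has `a_q(f) = 0`. Hence `CuspForm.NewformBadPrimeCoeff N` for every `N ≠ 0`.
* For `Q = N` (Fricke involution): `f(-1/(N z)) = ε_N N z² f(z)`; if `N` is squarefree then
  `ε_N = ∏_{q ∣ N} (-a_q(f))`.

This file is not used by any of the statement files.
-/

set_option autoImplicit false

open UpperHalfPlane hiding I
open Matrix ModularGroup CongruenceSubgroup Function
open ModularFormClass (qCoeff)
open scoped MatrixGroups ModularForm

noncomputable section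

namespace Fermat.Agent.Cor.RootNumber

open Fermat.Agent.H16.LR Fermat.Agent.H16

/-! ### Atkin–Lehner operators on cusp forms -/

theorem coprime_of_WQ {M Q : ℕ} (w : RA.WQ M Q) : Q.Coprime M := by
  rw [← Nat.isCoprime_iff_coprime]
  exact ⟨w.x * w.t, -(w.y * w.z), by have := w.det; linear_combination this⟩

section Bundle

variable {M Q N : ℕ} [NeZero N]

theorem ne_zero_right (h : M * Q = N) : Q ≠ 0 := by
  rintro rfl
  exact NeZero.ne N (by rw [← h, mul_zero])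

theorem ne_zero_left (h : M * Q = N) : M ≠ 0 := by
  rintro rfl
  exact NeZero.ne N (by rw [← h, zero_mul])

/-- the transform of a cusp form by an Atkin–Lehner matrix is a cusp form -/
theorem exists_act (h : M * Q = N) (w : RA.WQ M Q) (f : CuspForm (Gamma0 N) 2) :
    ∃ g : CuspForm (Gamma0 N) 2, ⇑g = sla.act w.mat ⇑f := by
  have hQ := ne_zero_right h
  subst h
  exact Cus.bundle ((cus_coe f).act (mq_w_mem hQ w)) ((inv_coe f).inv_WQ hQ w)

theorem coe_T {ℓ : ℕ} (hℓ : ℓ.Prime) (hℓN : ¬ ℓ ∣ N) (f : CuspForm (Gamma0 N) 2) :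
    ⇑(CuspForm.heckeTLin 2 hℓ hℓN f) = sla.TT ℓ ⇑f := by
  have := H22.coe_heckeFormsGen_apply ⟨ℓ, hℓ⟩ f
  rw [CuspForm.heckeFormsGen_of_not_dvd (ℓ := ⟨ℓ, hℓ⟩) hℓN, if_neg hℓN] at this
  rw [sla_TT_eq hℓ.ne_zero]
  exact this

theorem coe_U {ℓ : ℕ} (hℓ : ℓ.Prime) (hℓN : ℓ ∣ N) (f : CuspForm (Gamma0 N) 2) :
    ⇑(CuspForm.heckeULin 2 hℓN f) = sla.UU ℓ ⇑f := by
  have := H22.coe_heckeFormsGen_apply ⟨ℓ, hℓ⟩ f
  rw [CuspForm.heckeFormsGen_of_dvd (q := ⟨ℓ, hℓ⟩) hℓN, if_pos hℓN] at this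
  rw [sla_UU_eq hℓ.ne_zero]
  exact this

/-- a normalised eigenform is an eigenvector of `U_q` -/
theorem eigenform_U {f : CuspForm (Gamma0 N) 2} (hf : f.IsNormalizedEigenform) {q : ℕ}
    (hq : q.Prime) (hqN : q ∣ N) : sla.UU q ⇑f = qCoeff f q • ⇑f := by
  have := H22.heckeFormsGen_eigenform hf ⟨q, hq⟩
  rw [CuspForm.heckeFormsGen_of_dvd (q := ⟨q, hq⟩) hqN] at this
  rw [← coe_U hq hqN f]
  exact congrArg DFunLike.coe this

theorem eigenform_T {f : CuspForm (Gamma0 N) 2} (hf : f.IsNormalizedEigenform) {ℓ : ℕ}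
    (hℓ : ℓ.Prime) (hℓN : ¬ ℓ ∣ N) : sla.TT ℓ ⇑f = qCoeff f ℓ • ⇑f := by
  rw [← coe_T hℓ hℓN f]
  exact congrArg DFunLike.coe (AL.eigenform_T hf hℓ hℓN)

omit [NeZero N] in
theorem coprime_of_not_dvd {ℓ : ℕ} (hℓ : ℓ.Prime) (h : M * Q = N) (hℓN : ¬ ℓ ∣ N) :
    ℓ.Coprime M ∧ ℓ.Coprime Q := by
  constructor
  · rw [Nat.Prime.coprime_iff_not_dvd hℓ]
    intro hh
    exact hℓN (h ▸ hh.mul_right Q)
  · rw [Nat.Prime.coprime_iff_not_dvd hℓ]
    intro hh
    exact hℓN (h ▸ hh.mul_left M)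

theorem TT_act (h : M * Q = N) (w : RA.WQ M Q) (f : CuspForm (Gamma0 N) 2) {ℓ : ℕ}
    (hℓ : ℓ.Prime) (hℓN : ¬ ℓ ∣ N) :
    sla.TT ℓ (sla.act w.mat ⇑f) = sla.act w.mat (sla.TT ℓ ⇑f) := by
  have hQ := ne_zero_right h
  have hc := (coprime_of_not_dvd hℓ h hℓN).2
  have h1 := inv_coe (CuspForm.heckeTLin 2 hℓ hℓN f)
  rw [coe_T hℓ hℓN] at h1
  subst h
  exact RA.TT_w hQ hℓ.ne_zero (coprime_of_WQ w) hc (inv_coe f) h1 w

/-- **The Atkin–Lehner operators act on a newform by signs.** -/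
theorem exists_sign (h : M * Q = N) (w : RA.WQ M Q) {f : CuspForm (Gamma0 N) 2}
    (hf : f.IsNewform) : ∃ ε : ℂ, (ε = 1 ∨ ε = -1) ∧ sla.act w.mat ⇑f = ε • ⇑f := by
  have hQ := ne_zero_right h
  obtain ⟨g, hg⟩ := exists_act h w f
  have hm := mq_w_mem hQ w
  have h1 := AL.strong_multiplicity_one hf one_ne_zero g (fun ℓ hℓ hℓN _ ↦ by
    apply DFunLike.coe_injective
    rw [coe_T hℓ hℓN, hg, TT_act h w f hℓ hℓN, eigenform_T hf.1 hℓ hℓN, sla_smul hm, ← hg]
    rfl)
  have h2 : sla.act w.mat ⇑f = qCoeff g 1 • ⇑f := by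
    rw [← hg]
    conv_lhs => rw [h1]
    rfl
  refine ⟨qCoeff g 1, ?_, h2⟩
  have h3 : sla.act w.mat (sla.act w.mat ⇑f) = ⇑f := by
    subst h
    exact (inv_coe f).WQ_WQ hQ w
  rw [h2, sla_smul hm, h2, smul_smul] at h3
  have h4 : (qCoeff g 1 * qCoeff g 1 - 1) • f = 0 := by
    apply DFunLike.coe_injective
    change (qCoeff g 1 * qCoeff g 1 - 1) • ⇑f = 0
    rw [sub_smul, h3, one_smul, sub_self]
  have h5 := (smul_eq_zero.mp h4).resolve_right hf.ne_zero
  exact mul_self_eq_one_iff.mp (sub_eq_zero.mp h5)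

/-- the sign does not depend on the matrix -/
theorem act_indep (h : M * Q = N) (w w' : RA.WQ M Q) (f : CuspForm (Gamma0 N) 2) :
    sla.act w.mat ⇑f = sla.act w'.mat ⇑f := by
  have hQ := ne_zero_right h
  subst h
  exact (inv_coe f).act_WQ hQ w w'

end Bundle

/-! ### Products of Atkin–Lehner matrices -/

/-- the product of Atkin–Lehner matrices for coprime exact divisors -/
def wqMul {M Q Q' : ℕ} (w : RA.WQ (M * Q') Q) (w' : RA.WQ (M * Q) Q') : RA.WQ M (Q * Q') where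
  x := w.x * w'.x + M * w.y * w'.z
  y := Q * w.x * w'.y + Q' * w.y * w'.t
  z := Q' * w.z * w'.x + Q * w.t * w'.z
  t := w.t * w'.t + M * w.z * w'.y
  det := by
    have h1 := w.det
    have h2 := w'.det
    push_cast at h1 h2 ⊢
    linear_combination (Q' * w'.x * w'.t - M * Q * w'.y * w'.z) * h1 + h2

theorem wqMul_mat {M Q Q' : ℕ} (hQ : Q ≠ 0) (hQ' : Q' ≠ 0) (w : RA.WQ (M * Q') Q)
    (w' : RA.WQ (M * Q) Q') : (wqMul w w').mat = w.mat * w'.mat := by
  rw [RA.WQ.mat, RA.WQ.mat, RA.WQ.mat]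
  symm
  apply gq_mul' (w.det_ne hQ) (w'.det_ne hQ')
  all_goals
    simp only [wqMul]
    push_cast
    ring

/-! ### Exact prime divisors -/

section Prime

variable {M q N : ℕ} [NeZero N]

/-- the trace of a newform to a lower level vanishes -/
theorem tr_newform (h : M * q = N) [NeZero (M * q)] (hq : q.Prime) (hqM : q.Coprime M)
    {f : CuspForm (Gamma0 N) 2} (hf : f.IsNewform) : sla.tr M q ⇑f = 0 := by
  have hM0 := ne_zero_left h
  have : NeZero M := ⟨hM0⟩
  have hinv : sla.Inv (M * q) ⇑f := by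
    have := inv_coe f
    subst h
    exact this
  obtain ⟨g, hg⟩ := Cus.bundle (M := M) ((cus_coe f).tr M q) (RA.tr_inv hqM hinv)
  have hdvd : M ∣ N := ⟨q, h.symm⟩
  have hne : M ≠ N := by
    rintro rfl
    have : M * q = M * 1 := by rw [h, mul_one]
    exact hq.one_lt.ne' (Nat.eq_of_mul_eq_mul_left (Nat.pos_of_ne_zero hM0) this)
  have h1 : g = 0 := by
    refine AL.no_proper_level hf hdvd hne (D := q) hq.ne_zero g ?_
    intro ℓ hℓ hℓM hℓq
    have hℓN : ¬ ℓ ∣ N := by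
      rw [← h]
      intro hh
      rcases (Nat.Prime.dvd_mul hℓ).mp hh with h2 | h2
      · exact hℓM h2
      · exact hℓq h2
    have hc := (coprime_of_not_dvd hℓ h hℓN).2
    apply DFunLike.coe_injective
    rw [coe_T hℓ hℓM, hg]
    have h2 : sla.Inv (M * q) (sla.TT ℓ ⇑f) := by
      have h3 := inv_coe (CuspForm.heckeTLin 2 hℓ hℓN f)
      rw [coe_T hℓ hℓN] at h3
      subst h
      exact h3
    have h3 := RA.tr_TT hqM hq hℓ.ne_zero hc hinv h2
    rw [← h3, eigenform_T hf.1 hℓ hℓN, tr_smul, ← hg]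
    rfl
  rw [← hg, h1]
  rfl

/-- **`ε_q = -a_q`** for a prime `q` dividing `N` exactly. -/
theorem sign_prime (h : M * q = N) (hq : q.Prime) (w : RA.WQ M q)
    {f : CuspForm (Gamma0 N) 2} (hf : f.IsNewform) :
    sla.act w.mat ⇑f = (-qCoeff f q) • ⇑f := by
  have : NeZero (M * q) := ⟨by rw [h]; exact NeZero.ne N⟩
  have hqM := coprime_of_WQ w
  obtain ⟨ε, -, h1⟩ := exists_sign h w hf
  have hinv : sla.Inv (M * q) ⇑f := by
    have := inv_coe f
    subst h
    exact this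
  have h2 := tr_newform h hq hqM hf
  have hK : sla.Ker M q w ⇑f := ⟨hinv, h2, by rw [h1, tr_smul, h2, smul_zero]⟩
  have h3 := hK.UU_q hqM hq
  rw [eigenform_U hf.1 hq (Dvd.intro_left M h)] at h3
  have h4 : sla.act w.mat ⇑f = -(qCoeff f q • ⇑f) := by rw [h3, neg_neg]
  rw [h4]
  exact (_root_.neg_smul _ _).symm

/-- `a_q = ±1` for a newform and a prime `q` dividing the level exactly. -/
theorem sq_eq_one_of_exact (h : M * q = N) (hq : q.Prime) (hqM : q.Coprime M)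
    {f : CuspForm (Gamma0 N) 2} (hf : f.IsNewform) : qCoeff f q ^ 2 = 1 := by
  obtain ⟨w, -, -⟩ := RA.exists_WQ hqM 1 (Nat.coprime_one_right q)
  obtain ⟨ε, hε, h1⟩ := exists_sign h w hf
  rw [sign_prime h hq w hf] at h1
  have h2 : (-qCoeff f q - ε) • f = 0 := by
    apply DFunLike.coe_injective
    change (-qCoeff f q - ε) • ⇑f = 0
    rw [sub_smul, h1, sub_self]
  have h3 := sub_eq_zero.mp ((smul_eq_zero.mp h2).resolve_right hf.ne_zero)
  have h4 : qCoeff f q = -ε := by rw [← h3, neg_neg]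
  rw [h4, neg_sq]
  rcases hε with rfl | rfl <;> norm_num

end Prime

/-! ### The signs -/

section Signs

variable {N : ℕ} [NeZero N]

/-- `Q` is an exact divisor of `N` -/
def Exact (N Q : ℕ) : Prop := Q ∣ N ∧ Q.Coprime (N / Q)

omit [NeZero N] in
theorem Exact.mul_eq {Q : ℕ} (h : Exact N Q) : N / Q * Q = N := Nat.div_mul_cancel h.1

/-- the sign `ε_Q(f)`: the eigenvalue of the Atkin–Lehner operators `W_Q` on `f` -/
def sign (f : CuspForm (Gamma0 N) 2) (Q : ℕ) : ℂ := by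
  classical
  exact if h : ∃ ε : ℂ, ∀ w : RA.WQ (N / Q) Q, sla.act w.mat ⇑f = ε • ⇑f then h.choose else 0

theorem sign_spec {f : CuspForm (Gamma0 N) 2} (hf : f.IsNewform) {Q : ℕ} (hQ : Exact N Q)
    (w : RA.WQ (N / Q) Q) : sla.act w.mat ⇑f = sign f Q • ⇑f := by
  obtain ⟨ε, -, h1⟩ := exists_sign hQ.mul_eq w hf
  have h : ∃ ε : ℂ, ∀ w : RA.WQ (N / Q) Q, sla.act w.mat ⇑f = ε • ⇑f :=
    ⟨ε, fun w' ↦ by rw [act_indep hQ.mul_eq w' w f, h1]⟩
  rw [sign, dif_pos h]
  exact h.choose_spec w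

omit [NeZero N] in
theorem smul_inj {f : CuspForm (Gamma0 N) 2} (hf : f ≠ 0) {a b : ℂ} (h : a • ⇑f = b • ⇑f) :
    a = b := by
  have h2 : (a - b) • f = 0 := by
    apply DFunLike.coe_injective
    change (a - b) • ⇑f = 0
    rw [sub_smul, h, sub_self]
  exact sub_eq_zero.mp ((smul_eq_zero.mp h2).resolve_right hf)

theorem sign_eq_of {f : CuspForm (Gamma0 N) 2} (hf : f.IsNewform) {Q : ℕ} (hQ : Exact N Q)
    {M : ℕ} (h : M * Q = N) (w : RA.WQ M Q) {ε : ℂ} (hε : sla.act w.mat ⇑f = ε • ⇑f) :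
    sign f Q = ε := by
  have hM : M = N / Q := by
    rw [← h, Nat.mul_div_cancel _ (Nat.pos_of_ne_zero (ne_zero_right h))]
  subst hM
  exact smul_inj hf.ne_zero ((sign_spec hf hQ w).symm.trans hε)

/-- the signs are `±1` -/
theorem sign_eq_one_or {f : CuspForm (Gamma0 N) 2} (hf : f.IsNewform) {Q : ℕ} (hQ : Exact N Q) :
    sign f Q = 1 ∨ sign f Q = -1 := by
  obtain ⟨w, -, -⟩ := RA.exists_WQ hQ.2 1 (Nat.coprime_one_right Q)
  obtain ⟨ε, hε, h1⟩ := exists_sign hQ.mul_eq w hf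
  rw [sign_eq_of hf hQ hQ.mul_eq w h1]
  exact hε

theorem sign_sq {f : CuspForm (Gamma0 N) 2} (hf : f.IsNewform) {Q : ℕ} (hQ : Exact N Q) :
    sign f Q ^ 2 = 1 := by
  rcases sign_eq_one_or hf hQ with h | h <;> rw [h] <;> norm_num

/-- the sign at a prime dividing the level exactly -/
theorem sign_of_prime {f : CuspForm (Gamma0 N) 2} (hf : f.IsNewform) {q : ℕ} (hq : q.Prime)
    (hqN : Exact N q) : sign f q = -qCoeff f q := by
  obtain ⟨w, -, -⟩ := RA.exists_WQ hqN.2 1 (Nat.coprime_one_right q)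
  exact sign_eq_of hf hqN hqN.mul_eq w (sign_prime hqN.mul_eq hq w hf)

/-- **Multiplicativity of the signs.** -/
theorem sign_mul {f : CuspForm (Gamma0 N) 2} (hf : f.IsNewform) {Q Q' : ℕ} (hQ : Exact N Q)
    (hQ' : Exact N Q') (hc : Q.Coprime Q') :
    Exact N (Q * Q') ∧ sign f (Q * Q') = sign f Q * sign f Q' := by
  have hQQ : Q * Q' ∣ N := hc.mul_dvd_of_dvd_of_dvd hQ.1 hQ'.1
  obtain ⟨M, hM⟩ := hQQ
  have h1 : (M * Q') * Q = N := by rw [hM]; ring
  have h2 : (M * Q) * Q' = N := by rw [hM]; ring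
  have h3 : M * (Q * Q') = N := by rw [hM]; ring
  have hQ0 := ne_zero_right h1
  have hQ0' := ne_zero_right h2
  have e1 : N / Q = M * Q' := by rw [← h1, Nat.mul_div_cancel _ (Nat.pos_of_ne_zero hQ0)]
  have e2 : N / Q' = M * Q := by rw [← h2, Nat.mul_div_cancel _ (Nat.pos_of_ne_zero hQ0')]
  have e3 : N / (Q * Q') = M := by
    rw [← h3, Nat.mul_div_cancel _ (Nat.pos_of_ne_zero (ne_zero_right h3))]
  have c1 : Q.Coprime (M * Q') := e1 ▸ hQ.2
  have c2 : Q'.Coprime (M * Q) := e2 ▸ hQ'.2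
  have hE : Exact N (Q * Q') := ⟨⟨M, hM⟩, by
    rw [e3]
    exact Nat.Coprime.mul_left (Nat.Coprime.coprime_mul_right_right c1)
      (Nat.Coprime.coprime_mul_right_right c2)⟩
  obtain ⟨w, -, -⟩ := RA.exists_WQ c1 1 (Nat.coprime_one_right Q)
  obtain ⟨w', -, -⟩ := RA.exists_WQ c2 1 (Nat.coprime_one_right Q')
  obtain ⟨ε, -, hε⟩ := exists_sign h1 w hf
  obtain ⟨ε', -, hε'⟩ := exists_sign h2 w' hf
  refine ⟨hE, ?_⟩
  refine sign_eq_of hf hE h3 (wqMul w w') ?_
  rw [wqMul_mat hQ0 hQ0', sla.act_mul, hε, sla_smul (mq_w_mem hQ0' w'), hε', smul_smul,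
    sign_eq_of hf hQ h1 w hε, sign_eq_of hf hQ' h2 w' hε']

omit [NeZero N] in
theorem exact_one : Exact N 1 := ⟨one_dvd N, Nat.coprime_one_left _⟩

theorem sign_one {f : CuspForm (Gamma0 N) 2} (hf : f.IsNewform) : sign f 1 = 1 := by
  have h := (sign_mul hf exact_one exact_one (Nat.coprime_one_left 1)).2
  rw [mul_one] at h
  rcases sign_eq_one_or hf (exact_one (N := N)) with h1 | h1
  · exact h1
  · rw [h1] at h
    norm_num at h

theorem exact_ordProj {q : ℕ} (hq : q.Prime) : Exact N (ordProj[q] N) :=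
  ⟨Nat.ordProj_dvd N q, Nat.Coprime.pow_left _ (Nat.coprime_ordCompl hq (NeZero.ne N))⟩

theorem sign_prod {f : CuspForm (Gamma0 N) 2} (hf : f.IsNewform) (S : Finset ℕ)
    (hS : S ⊆ N.primeFactors) : Exact N (∏ q ∈ S, ordProj[q] N) ∧
      sign f (∏ q ∈ S, ordProj[q] N) = ∏ q ∈ S, sign f (ordProj[q] N) := by
  induction S using Finset.induction_on with
  | empty => exact ⟨exact_one, sign_one hf⟩
  | insert q S hq ih =>
    obtain ⟨h1, h2⟩ := ih ((Finset.subset_insert q S).trans hS)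
    have hqp : q.Prime := Nat.prime_of_mem_primeFactors (hS (Finset.mem_insert_self q S))
    have hc : (ordProj[q] N).Coprime (∏ q ∈ S, ordProj[q] N) := by
      refine Nat.Coprime.prod_right fun r hr ↦ ?_
      have hrp : r.Prime := Nat.prime_of_mem_primeFactors
        (hS (Finset.mem_insert_of_mem hr))
      refine Nat.Coprime.pow _ _ ((Nat.coprime_primes hqp hrp).mpr ?_)
      rintro rfl
      exact hq hr
    rw [Finset.prod_insert hq, Finset.prod_insert hq]
    obtain ⟨h3, h4⟩ := sign_mul hf (exact_ordProj hqp) h1 hc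
    exact ⟨h3, by rw [h4, h2]⟩

omit [NeZero N] in
theorem exact_self (hN : N ≠ 0) : Exact N N :=
  ⟨dvd_rfl, by rw [Nat.div_self (Nat.pos_of_ne_zero hN)]; exact Nat.coprime_one_right N⟩

/-- the global sign is the product of the local signs -/
theorem sign_self {f : CuspForm (Gamma0 N) 2} (hf : f.IsNewform) :
    sign f N = ∏ q ∈ N.primeFactors, sign f (ordProj[q] N) := by
  have h := (sign_prod hf N.primeFactors (Finset.Subset.refl _)).2
  rwa [show ∏ q ∈ N.primeFactors, ordProj[q] N = N from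
    Nat.prod_factorization_pow_eq_self (NeZero.ne N)] at h

/-- for squarefree level: `ε_N = ∏ (-a_q)` -/
theorem sign_self_of_squarefree {f : CuspForm (Gamma0 N) 2} (hf : f.IsNewform)
    (hN : Squarefree N) : sign f N = ∏ q ∈ N.primeFactors, (-qCoeff f q) := by
  rw [sign_self hf]
  refine Finset.prod_congr rfl fun q hq ↦ ?_
  have hqp := Nat.prime_of_mem_primeFactors hq
  have hv : N.factorization q = 1 :=
    Nat.factorization_eq_one_of_squarefree hN hqp (Nat.dvd_of_mem_primeFactors hq)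
  have h1 := exact_ordProj (N := N) hqp
  rw [hv, pow_one] at h1 ⊢
  exact sign_of_prime hf hqp h1

end Signs

/-! ### Primes whose square divides the level -/

section Square

/-- translations and multiplications by units do not change sums over `ZMod l` -/
theorem sum_range_affine {𝒳 : Type*} [AddCommMonoid 𝒳] {l : ℕ} (hl : 0 < l) (G : ℤ → 𝒳)
    (hG : ∀ b b' : ℤ, (l : ℤ) ∣ b - b' → G b = G b') {u : ℤ} (hu : IsCoprime u l) (s : ℤ) :
    ∑ b ∈ Finset.range l, G (u * b + s) = ∑ b ∈ Finset.range l, G b := by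
  have : NeZero l := ⟨hl.ne'⟩
  have key : ∀ H : ℤ → 𝒳, (∀ b b' : ℤ, (l : ℤ) ∣ b - b' → H b = H b') →
      ∑ b ∈ Finset.range l, H b = ∑ z : ZMod l, H z.val := by
    intro H hH
    rw [Finset.sum_range (fun b : ℕ ↦ H (b : ℤ))]
    refine Fintype.sum_equiv (ZMod.finEquiv l).toEquiv _ _ fun i ↦ ?_
    apply hH
    have h1 : ((ZMod.finEquiv l).toEquiv i).val = (i : ℕ) := by
      obtain ⟨n, rfl⟩ := Nat.exists_eq_succ_of_ne_zero hl.ne'
      rfl
    rw [h1]
    simp
  rw [sum_range_periodic hl (fun b ↦ G (b + s)) (fun b b' h ↦ hG _ _ (by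
    rw [add_sub_add_right_eq_sub]; exact h)) hu, key G hG, key (fun b ↦ G (b + s)) (fun b b' h ↦
      hG _ _ (by rw [add_sub_add_right_eq_sub]; exact h))]
  refine Fintype.sum_equiv (Equiv.addRight (s : ZMod l)) _ _ fun z ↦ ?_
  apply hG
  rw [← ZMod.intCast_zmod_eq_zero_iff_dvd]
  push_cast
  rw [ZMod.natCast_zmod_val, ZMod.natCast_zmod_val]
  simp

/-- `U_q` lowers the level from `L q` to `L` if `q ∣ L`. -/
theorem UU_lower {𝒳 : Type*} [AddCommGroup 𝒳] {A : RA 𝒳} {L q : ℕ} (hq : q ≠ 0) (hqL : q ∣ L)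
    {F : 𝒳} (hF : A.Inv (L * q) F) : A.Inv L (A.UU q F) := by
  intro γ hγ
  rw [mem_Gamma0_iff] at hγ
  obtain ⟨c, hc⟩ := hγ
  obtain ⟨e, he⟩ := hqL
  have hd := det_eq γ
  set a := γ 0 0
  set b := γ 0 1
  set d := γ 1 1
  have hc' : γ 1 0 = q * (e * c) := by rw [hc, he]; push_cast; ring
  have hq0 : (q : ℚ) ≠ 0 := by exact_mod_cast hq
  rw [hc'] at hd
  have hper : ∀ b b' : ℤ, (q : ℤ) ∣ b - b' → A.act (gq 1 b 0 q) F = A.act (gq 1 b' 0 q) F := by
    rintro b b' ⟨m, hm⟩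
    refine hF.act_left (a := 1) (b := m) (c := 0) (d := 1) (by ring) (dvd_zero _)
      (by simpa using hq) ?_ ?_ ?_ ?_
    · push_cast; ring
    · have : (b : ℚ) - b' = q * m := by exact_mod_cast hm
      push_cast; linear_combination -this
    · push_cast; ring
    · push_cast; ring
  have hcop : IsCoprime (d * d) (q : ℤ) := by
    have h1 : IsCoprime d (q : ℤ) := ⟨a, -(b * (e * c)), by linear_combination hd⟩
    exact h1.mul_left h1
  rw [RA.UU, map_sum]
  refine Eq.trans (Finset.sum_congr rfl fun j _ ↦ ?_)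
    (sum_range_affine (Nat.pos_of_ne_zero hq) (fun b : ℤ ↦ A.act (gq 1 b 0 q) F) hper hcop
      (d * b))
  have hdet : (a : ℚ) * d - b * ((q * (e * c) : ℤ) : ℚ) ≠ 0 := by
    have : (a : ℚ) * d - b * ((q * (e * c) : ℤ) : ℚ) = 1 := by exact_mod_cast hd
    rw [this]; exact one_ne_zero
  rw [← A.act_mul, ι_eq, hc', gq_mul' (by simpa using hq0) hdet rfl rfl rfl rfl]
  refine hF.act_left (a := a + j * (q * (e * c))) (b := -(b + j * d) ^ 2 * (e * c))
    (c := q * (q * (e * c))) (d := d - (d * d * j + d * b) * (q * (e * c))) ?_ ?_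
    (by simpa using hq0) ?_ ?_ ?_ ?_
  · linear_combination (1 - (b + j * d) * (q * (e * c))) * hd
  · rw [he]
    push_cast
    exact ⟨c, by ring⟩
  · push_cast; ring
  · have hd' : (a : ℚ) * d - b * (q * (e * c)) = 1 := by exact_mod_cast hd
    push_cast
    linear_combination (b + j * d) * hd'
  · push_cast; ring
  · push_cast; ring

variable {N : ℕ} [NeZero N]

/-- **`a_q(f) = 0`** for a newform `f` and a prime `q` whose square divides the level. -/
theorem qCoeff_eq_zero_of_sq_dvd {f : CuspForm (Gamma0 N) 2} (hf : f.IsNewform) {q : ℕ}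
    (hq : q.Prime) (hqN : q ^ 2 ∣ N) : qCoeff f q = 0 := by
  obtain ⟨m, hm⟩ := hqN
  set L := q * m with hL
  have hN : L * q = N := by rw [hm, hL]; ring
  have hL0 := ne_zero_left hN
  have : NeZero L := ⟨hL0⟩
  by_contra h0
  have hinv : sla.Inv (L * q) ⇑f := by rw [hN]; exact inv_coe f
  have h1 := UU_lower hq.ne_zero ⟨m, hL⟩ hinv
  have hqd : q ∣ N := ⟨L, by rw [← hN, mul_comm]⟩
  rw [eigenform_U hf.1 hq hqd] at h1
  have h2 : sla.Inv L ⇑f := by
    intro γ hγ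
    have h3 := h1 γ hγ
    rw [sla_smul (mq_ι_mem γ)] at h3
    funext z
    have h4 := congrFun h3 z
    exact mul_left_cancel₀ h0 h4
  obtain ⟨g, hg⟩ := Cus.bundle (cus_coe f) h2
  have hne : L ≠ N := by
    intro h
    rw [h] at hN
    have h5 : N * q = N * 1 := by rw [hN, mul_one]
    exact hq.one_lt.ne' (Nat.eq_of_mul_eq_mul_left (Nat.pos_of_ne_zero (NeZero.ne N)) h5)
  have h6 : g = 0 := by
    refine AL.no_proper_level hf ⟨q, hN.symm⟩ hne (D := q) hq.ne_zero g ?_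
    intro ℓ hℓ hℓL hℓq
    have hℓN : ¬ ℓ ∣ N := by
      rw [← hN]
      intro hh
      rcases (Nat.Prime.dvd_mul hℓ).mp hh with h2 | h2
      · exact hℓL h2
      · exact hℓq h2
    apply DFunLike.coe_injective
    rw [coe_T hℓ hℓL, hg, eigenform_T hf.1 hℓ hℓN, ← hg]
    rfl
  apply hf.ne_zero
  apply DFunLike.coe_injective
  rw [← hg, h6]
  rfl

/-- **The coefficients of a newform at the primes dividing the level** (the property
`CuspForm.NewformBadPrimeCoeff` of the prelude, for every level). -/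
theorem newformBadPrimeCoeff : CuspForm.NewformBadPrimeCoeff N := by
  intro f hf q hq hqN
  refine ⟨fun h2 ↦ ?_, fun h2 ↦ qCoeff_eq_zero_of_sq_dvd hf hq h2⟩
  obtain ⟨M, hM⟩ := hqN
  have hN : M * q = N := by rw [hM, mul_comm]
  refine sq_eq_one_of_exact hN hq ?_ hf
  rw [Nat.Prime.coprime_iff_not_dvd hq]
  rintro ⟨m, rfl⟩
  exact h2 ⟨m, by rw [hM]; ring⟩

/-- the same for `N ≠ 0` -/
theorem newformBadPrimeCoeff' {N : ℕ} (hN : N ≠ 0) : CuspForm.NewformBadPrimeCoeff N := by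
  have : NeZero N := ⟨hN⟩
  exact newformBadPrimeCoeff

end Square

/-! ### The Fricke involution -/

section Fricke

variable {N : ℕ} [NeZero N]

/-- the Fricke matrix `(0, -1; N, 0)` as an Atkin–Lehner matrix -/
def frickeW (N : ℕ) : RA.WQ 1 N := ⟨0, -1, 1, 0, by simp⟩

theorem mq_frickeW : mq (frickeW N).mat = H22.frickeGL N := by
  have hN : (N : ℚ) ≠ 0 := by exact_mod_cast NeZero.ne N
  apply Units.ext
  rw [RA.WQ.mat, val_mq_gq ((frickeW N).det_ne (NeZero.ne N)), H22.val_frickeGL]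
  simp [frickeW]

theorem slash_fricke (f : ℍ → ℂ) (z z' : ℍ) (hz : (z' : ℂ) = -1 / (N * z)) :
    (f ∣[(2 : ℤ)] H22.frickeGL N) z = ((N : ℂ) * (z : ℂ) ^ 2)⁻¹ * f z' := by
  have hN : (0 : ℝ) < N := by exact_mod_cast Nat.pos_of_ne_zero (NeZero.ne N)
  have hv := H22.val_frickeGL (N := N)
  have hdet : (H22.frickeGL N).det.val = (N : ℝ) := by
    rw [Matrix.GeneralLinearGroup.val_det_apply, hv, Matrix.det_fin_two_of]
    ring
  have hpos : 0 < (H22.frickeGL N).det.val := by rw [hdet]; exact hN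
  have e00 : (H22.frickeGL N) 0 0 = 0 := congrFun (congrFun hv 0) 0
  have e01 : (H22.frickeGL N) 0 1 = -1 := congrFun (congrFun hv 0) 1
  have e10 : (H22.frickeGL N) 1 0 = N := congrFun (congrFun hv 1) 0
  have e11 : (H22.frickeGL N) 1 1 = 0 := congrFun (congrFun hv 1) 1
  have hden : denom (H22.frickeGL N) z = N * z := by
    rw [UpperHalfPlane.denom, e10, e11]; simp
  have hsm : H22.frickeGL N • z = z' := by
    apply UpperHalfPlane.ext
    rw [UpperHalfPlane.coe_smul_of_det_pos hpos, hden, UpperHalfPlane.num, e00, e01, hz]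
    simp
  have hσ : ∀ x : ℂ, UpperHalfPlane.σ (H22.frickeGL N) x = x := fun x ↦ by
    rw [UpperHalfPlane.σ, if_pos hpos]; rfl
  have hN' : (N : ℂ) ≠ 0 := by exact_mod_cast NeZero.ne N
  have hz0 : (z : ℂ) ≠ 0 := z.ne_zero
  rw [ModularForm.slash_apply, hsm, hden, hdet, hσ, abs_of_pos hN]
  norm_num
  field_simp

/-- the point `-1 / (N z)` -/
theorem exists_fricke_point (z : ℍ) : ∃ z' : ℍ, (z' : ℂ) = -1 / (N * z) := by
  have hN : (0 : ℝ) < N := by exact_mod_cast Nat.pos_of_ne_zero (NeZero.ne N)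
  refine ⟨⟨-1 / (N * z), ?_⟩, rfl⟩
  have h1 : (-1 / (N * (z : ℂ))).im = z.im / (N * Complex.normSq z) := by
    rw [neg_div, one_div, Complex.neg_im, Complex.inv_im, Complex.normSq_mul]
    have e1 : ((N : ℂ) * z).im = N * z.im := by simp
    have e2 : Complex.normSq (N : ℂ) = N * N := by simp
    rw [e1, e2]
    have := hN.ne'
    have h0 : Complex.normSq (z : ℂ) ≠ 0 := (z.normSq_pos).ne'
    field_simp
  rw [h1]
  have := z.im_pos
  have := z.normSq_pos
  positivity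

/-- **The Fricke involution acts on a newform by a sign** `ε = ±1`, and `ε = ∏_{q ∣ N} (-a_q(f))`
if the level is squarefree. -/
theorem newform_slash_fricke {f : CuspForm (Gamma0 N) 2} (hf : f.IsNewform) :
    ⇑f ∣[(2 : ℤ)] H22.frickeGL N = sign f N • ⇑f := by
  have hE : Exact N N := exact_self (NeZero.ne N)
  obtain ⟨ε, -, h1⟩ := exists_sign (one_mul N) (frickeW N) hf
  rw [sign_eq_of hf hE (one_mul N) (frickeW N) h1, ← h1, sla_apply, mq_frickeW]

/-- the functional equation of a newform under `z ↦ -1 / (N z)` -/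
theorem newform_fricke {f : CuspForm (Gamma0 N) 2} (hf : f.IsNewform) (z z' : ℍ)
    (hz : (z' : ℂ) = -1 / (N * z)) : f z' = sign f N * (N * (z : ℂ) ^ 2 * f z) := by
  have h := congrFun (newform_slash_fricke hf) z
  rw [slash_fricke _ z z' hz] at h
  have hN' : (N : ℂ) ≠ 0 := by exact_mod_cast NeZero.ne N
  have hz0 : (z : ℂ) ≠ 0 := z.ne_zero
  have h2 : ((N : ℂ) * (z : ℂ) ^ 2)⁻¹ * f z' = sign f N * f z := h
  have h3 : (N : ℂ) * (z : ℂ) ^ 2 ≠ 0 := mul_ne_zero hN' (pow_ne_zero _ hz0)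
  rw [inv_mul_eq_iff_eq_mul₀ h3] at h2
  rw [h2]
  ring

end Fricke

end Fermat.Agent.Cor.RootNumber
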