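import Fermat.Agent.Cor.GenusOne
import Fermat.Agent.S51
import Fermat.Agent.LM.Match
import Fermat.Agent.AL.Level

/-!
# Semistable elliptic curves of conductor less than 23

* `exists_newform`: the eigenform attached to a semistable elliptic curve `W` over `ℚ` is a newform of level exactly
  the conductor of `W`;
* `conductorLevel_ne_22`: there is no semistable elliptic curve of conductor `22` (all cusp forms of weight `2` and
  level `22` are old);
* `conductorLevel_mem`: a semistable elliptic curve of conductor `< 23` has conductor `11, 14, 15, 17, 19` or `21`.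

This file is not used by any of the statement files.
-/

set_option autoImplicit false

namespace Fermat.Agent.Cor.SmallConductor

open ModularCurve ModularFormClass CongruenceSubgroup WeierstrassCurve
open Fermat.Agent.Main Fermat.Agent.Cor.GenusOne

/-- **The newform of a semistable elliptic curve** has level exactly the conductor. -/
theorem exists_newform (W : WeierstrassCurve ℤ) (hΔ : W.Δ ≠ 0) (hW : W.IsSemistableModel) :
    ∃ g : CuspForm (Gamma0 W.conductorLevel) 2, g.IsNewform ∧
      ∀ ℓ : ℕ, ℓ.Prime → ¬ ℓ ∣ W.conductorLevel → qCoeff g ℓ = (W.apOfModel ℓ : ℂ) := by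
  obtain ⟨f, hf, hfW⟩ := modular_conductorLevel W hΔ hW
  have hN : W.IsModularModelOfLevel W.conductorLevel :=
    ⟨f, hf, fun q hq _ hqN => hfW q hq hqN⟩
  obtain ⟨L, hL, g, D, hLN, hg, hD, h⟩ := LM.exists_newform_of_modular hΔ
    W.conductorLevel_pos.ne' hN
  have hsq : ∀ q : ℕ, q.Prime → ¬ q ^ 2 ∣ L := fun q hq hq2 =>
    Nat.squarefree_iff_prime_squarefree.mp W.squarefree_conductorLevel q hq
      (by rw [← pow_two]; exact hq2.trans hLN)
  have key : L = W.conductorLevel ∧ ∀ q : ℕ, q.Prime → W.IsGoodPrimeFor q →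
      qCoeff g q = (W.apOfModel q : ℂ) := by
    rcases S51.result W hΔ hW with h3 | h5
    · have : Fact (Nat.Prime 3) := ⟨by norm_num⟩
      exact LM.level_eq_of_squarefree (M := L) (g := g) hΔ hW (p := 3) (by norm_num) h3 hg hD h hsq
    · have : Fact (Nat.Prime 5) := ⟨by norm_num⟩
      exact LM.level_eq_of_squarefree (M := L) (g := g) hΔ hW (p := 5) (by norm_num) h5 hg hD h hsq
  obtain ⟨rfl, h2⟩ := key
  exact ⟨g, hg, fun ℓ hℓ hℓN => h2 ℓ hℓ fun h3 =>
    hℓN ((W.prime_dvd_conductorLevel_iff hΔ hℓ).mpr h3)⟩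

/-! ### Level 22 -/

lemma genus_eq {N a b c d : ℕ} {e : ℚ} [NeZero N] (ha : dedekindPsi N = a)
    (hb : (Finset.univ.filter fun x : ZMod N => x ^ 2 + 1 = 0).card = b)
    (hc : (Finset.univ.filter fun x : ZMod N => x ^ 2 + x + 1 = 0).card = c)
    (hd : cuspCount N = d) (h : (1 : ℚ) + a / 12 - b / 4 - c / 3 - d / 2 = e) :
    genusFormula N = e := by
  rw [genusFormula, nuTwo_eq, nuThree_eq, ha, hb, hc, hd, h]

theorem genus_twentytwo : genusFormula 22 = 2 :=
  genus_eq (a := 36) (b := 0) (c := 0) (d := 4) (by decide +kernel) (by decide) (by decide)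
    (by decide +kernel) (by norm_num)

/-- there is a normalised eigenform of level `11` -/
theorem exists_eleven : ∃ h : CuspForm (Gamma0 11) 2, h.IsNormalizedEigenform := by
  have h1 := modular_conductorLevel E11 (by rw [E11_Δ]; norm_num) E11_semistable
  rw [conductorLevel_E11] at h1
  obtain ⟨h, hh, -⟩ := h1
  exact ⟨h, hh⟩

/-- there is no newform of level `22` -/
theorem not_isNewform_22 (g : CuspForm (Gamma0 22) 2) : ¬ g.IsNewform := by
  intro hg
  obtain ⟨h, hh⟩ := exists_eleven
  have hr : Module.finrank ℂ (CuspForm (Gamma0 22) 2) = 2 := by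
    exact_mod_cast (Fermat.Agent.S20.result 22).trans genus_twentytwo
  have : FiniteDimensional ℂ (CuspForm (Gamma0 22) 2) :=
    Fermat.Agent.H22.finiteDimensional_cuspForm 22 2
  let h1 : CuspForm (Gamma0 22) 2 := AL.degen (M := 11) (N := 22) (d := 1) one_pos (by norm_num) 2 h
  let h2 : CuspForm (Gamma0 22) 2 := AL.degen (M := 11) (N := 22) (d := 2) two_pos (by norm_num) 2 h
  have e1 : ∀ n, qCoeff h1 n = qCoeff h n := fun n => by
    rw [AL.qCoeff_degen, if_pos (one_dvd n), Nat.div_one]
  have e2 : ∀ n, qCoeff h2 n = if 2 ∣ n then qCoeff h (n / 2) else 0 := fun n => AL.qCoeff_degen _ _ _ _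
  have hadd : ∀ (a b c : ℂ), a • g + b • h1 + c • h2 = 0 → ∀ n : ℕ,
      a * qCoeff g n + b * qCoeff h1 n + c * qCoeff h2 n = 0 := by
    intro a b c h0 n
    have h3 := congrArg (fun f : CuspForm (Gamma0 22) 2 => qCoeff f n) h0
    change qCoeff (a • g + b • h1 + c • h2 : CuspForm (Gamma0 22) 2) n =
      qCoeff (0 : CuspForm (Gamma0 22) 2) n at h3
    rw [H22.cusp_qCoeff_add, H22.cusp_qCoeff_add, H22.cusp_qCoeff_smul, H22.cusp_qCoeff_smul,
      H22.cusp_qCoeff_smul] at h3
    rw [h3]
    have h4 := H22.cusp_qCoeff_smul (0 : ℂ) g n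
    rw [zero_smul, zero_mul] at h4
    exact h4
  have hli : LinearIndependent ℂ ![g, h1, h2] := by
    rw [Fintype.linearIndependent_iff]
    intro c hc
    rw [Fin.sum_univ_three] at hc
    simp only [Matrix.cons_val_zero, Matrix.cons_val_one, Matrix.cons_val_two, Matrix.head_cons,
      Matrix.tail_cons] at hc
    have hc' := hadd _ _ _ hc
    have k1 := hc' 1
    rw [e1, e2, if_neg (by norm_num), hg.1.qCoeff_one, hh.qCoeff_one] at k1
    have k0 : c 0 = 0 := by
      by_contra hne
      refine hg.2 11 (by norm_num) (by norm_num) ⟨h, hh, fun ℓ hℓ hℓN => ?_⟩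
      have k2 := hc' ℓ
      rw [e1, e2, if_neg (fun h2ℓ => hℓN ?_)] at k2
      · apply mul_left_cancel₀ hne
        linear_combination k1 * qCoeff h ℓ - k2
      · have : ℓ = 2 := ((Nat.prime_dvd_prime_iff_eq Nat.prime_two hℓ).mp h2ℓ).symm
        rw [this]
        norm_num
    have k1' : c 1 = 0 := by linear_combination k1 - k0
    have k2' : c 2 = 0 := by
      have k2 := hc' 2
      rw [e1, e2, if_pos dvd_rfl, Nat.div_self two_pos, hh.qCoeff_one, k0, k1'] at k2
      linear_combination k2
    intro i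
    fin_cases i
    · exact k0
    · exact k1'
    · exact k2'
  have h3 := hli.fintype_card_le_finrank
  rw [hr] at h3
  simp at h3

/-- **There is no semistable elliptic curve of conductor `22`.** -/
theorem conductorLevel_ne_22 (W : WeierstrassCurve ℤ) (hΔ : W.Δ ≠ 0) (hW : W.IsSemistableModel) :
    W.conductorLevel ≠ 22 := by
  intro h
  have h1 := exists_newform W hΔ hW
  rw [h] at h1
  obtain ⟨g, hg, -⟩ := h1
  exact not_isNewform_22 g hg

/-- **Semistable conductors less than `23`.** -/
theorem conductorLevel_mem (W : WeierstrassCurve ℤ) (hΔ : W.Δ ≠ 0) (hW : W.IsSemistableModel)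
    (h : W.conductorLevel < 23) : W.conductorLevel ∈ ({11, 14, 15, 17, 19, 21} : Finset ℕ) := by
  have h1 := eleven_le_conductor W hΔ hW
  rw [← conductorLevel_eq W hΔ] at h1
  have h22 := conductorLevel_ne_22 W hΔ hW
  have hsq := W.squarefree_conductorLevel
  obtain ⟨h11, h13⟩ := h1
  generalize W.conductorLevel = N at *
  interval_cases N
  all_goals first
    | decide
    | exact absurd rfl h13
    | exact absurd rfl h22
    | exact absurd hsq (by decide +kernel)

/-- all these conductors occur -/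
theorem exists_of_mem {N : ℕ} (hN : N ∈ ({11, 14, 15, 17, 19, 21} : Finset ℕ)) :
    ∃ W : WeierstrassCurve ℤ, W.Δ ≠ 0 ∧ W.IsSemistableModel ∧ W.conductorLevel = N := by
  simp only [Finset.mem_insert, Finset.mem_singleton] at hN
  rcases hN with rfl | rfl | rfl | rfl | rfl | rfl
  · exact ⟨E11, by rw [E11_Δ]; norm_num, E11_semistable, conductorLevel_E11⟩
  · exact ⟨E14, by rw [E14_Δ]; norm_num, E14_semistable, conductorLevel_E14⟩
  · exact ⟨E15, by rw [E15_Δ]; norm_num, E15_semistable, conductorLevel_E15⟩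
  · exact ⟨E17, by rw [E17_Δ]; norm_num, E17_semistable, conductorLevel_E17⟩
  · exact ⟨E19, by rw [E19_Δ]; norm_num, E19_semistable, conductorLevel_E19⟩
  · exact ⟨E21, by rw [E21_Δ]; norm_num, E21_semistable, conductorLevel_E21⟩

end Fermat.Agent.Cor.SmallConductor
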