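import Fermat.Agent.Cor.BadA
import Fermat.Agent.Cor.BadB
import Fermat.Agent.Cor.RootNumber
import Fermat.Agent.Cor.SmallConductor

/-!
# The newform of a semistable elliptic curve at the bad primes

Let `W` be a semistable elliptic curve over `ℚ` (given by an integral model with `gcd(Δ, c₄) = 1`).
There is a newform `g` of weight two and of level exactly the conductor `N` of `W`, with
`a_q(g) = q + 1 - #W(𝔽_q)` for all `q ∤ N`, and `a_q(g) = 1` or `-1` for `q ∣ N`, according as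
the reduction at `q` is split or nonsplit multiplicative: `a_q(g) = q - #W^{ns}(𝔽_q)`, where
`W^{ns}` is the group of nonsingular points of the reduction (including the point at infinity).

This file is not used by any of the statement files.
-/

set_option autoImplicit false
set_option linter.style.haveILetI false
set_option linter.unusedSectionVars false

noncomputable section

namespace Fermat.Agent.Cor.Bad

open CongruenceSubgroup ModularFormClass ModularCurve IsLocalRing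
open Fermat.Agent.Ell Fermat.Agent.EGal Fermat.Agent.H05 Fermat.Agent.LM

variable {M : ℕ} [NeZero M] {g : CuspForm (Gamma0 M) 2} {W : WeierstrassCurve ℤ}

/-- the coefficient of a newform at a prime exactly dividing the level is an integer. -/
theorem exists_int_of_exact (hg : g.IsNewform) {q : ℕ} (hq : q.Prime) (hqM : q ∣ M)
    (hq2 : ¬ q ^ 2 ∣ M) : ∃ z : ℤ, qCoeff g q = z := by
  have h := (RootNumber.newformBadPrimeCoeff (N := M) g hg q hq hqM).1 hq2
  rcases sq_eq_one_iff.mp h with h1 | h1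
  · exact ⟨1, by rw [h1]; norm_num⟩
  · exact ⟨-1, by rw [h1]; norm_num⟩

/-- **The coefficient of the newform at a prime of multiplicative reduction.** -/
theorem qCoeff_eq_of_mult {p : ℕ} [hp : Fact p.Prime] (hΔ : W.Δ ≠ 0)
    (hns : ∃ g : GQ, ∀ c : ℤ_[p], rr (WQ W) p g ≠ c • 1) (hg : g.IsNewform) {D : ℕ} (hD : D ≠ 0)
    (h : ∀ ℓ : ℕ, ℓ.Prime → ¬ ℓ ∣ M → ¬ ℓ ∣ D →
      W.IsGoodPrimeFor ℓ ∧ qCoeff g ℓ = (W.apOfModel ℓ : ℂ)) {q : ℕ} (hq : q.Prime)
    (hqp : q ≠ p) (hqM : q ∣ M) (hq2 : ¬ q ^ 2 ∣ M) (hqΔ : (q : ℤ) ∣ W.Δ)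
    (hss : ¬ (q : ℤ) ∣ W.c₄) : qCoeff g q = (W.apOfModel q : ℂ) - 1 := by
  obtain ⟨z, hz⟩ := exists_int_of_exact hg hq hqM hq2
  haveI := H51.isGalois_Qbar
  obtain ⟨A, hA⟩ := exists_liesOverPrime (AlgebraicClosure ℚ) hq
  obtain ⟨φ, hφ⟩ := exists_isFrobeniusAt (L := AlgebraicClosure ℚ) hq hA
  have h1 := trace_zRep_new hΔ hns hg hD h hq hqp hqM hq2 hA hφ hz
  rw [trace_zRep_mult hΔ hns hq hqp hqΔ hss hA hφ] at h1
  have h2 : (q : ℤ_[p]) + 1 ≠ 0 := by exact_mod_cast (Nat.succ_ne_zero q)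
  have h3 : W.apOfModel q - 1 = z := by exact_mod_cast mul_left_cancel₀ h2 h1
  rw [hz, ← h3]
  push_cast
  rfl

/-- every prime has an auxiliary prime with a nonscalar Tate module (semistable curves). -/
theorem exists_aux' (hΔ : W.Δ ≠ 0) (hW : W.IsSemistableModel) (q : ℕ) :
    ∃ (r : ℕ) (_ : Fact r.Prime), q ≠ r ∧ ∃ g : GQ, ∀ c : ℤ_[r], rr (WQ W) r g ≠ c • 1 := by
  rcases S51.result W hΔ hW with h3 | h5
  · haveI : Fact (Nat.Prime 3) := ⟨by norm_num⟩
    exact exists_aux hΔ (p := 3) (by norm_num) h3 q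
  · haveI : Fact (Nat.Prime 5) := ⟨by norm_num⟩
    exact exists_aux hΔ (p := 5) (by norm_num) h5 q

/-- **The newform of a semistable elliptic curve at the bad primes**: let `g` be a newform of
level the conductor of `W` with the eigenvalues of `W` at the good primes. Then
`a_q(g) = a_q(W) - 1` for the bad primes, where `a_q(W) = q + 1 - #W^{ns}(𝔽_q)`; it is `1` if the
reduction is split multiplicative and `-1` if it is nonsplit. -/
theorem qCoeff_bad (hΔ : W.Δ ≠ 0) (hW : W.IsSemistableModel)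
    {g : CuspForm (Gamma0 W.conductorLevel) 2} (hg : g.IsNewform)
    (hgW : ∀ ℓ : ℕ, ℓ.Prime → ¬ ℓ ∣ W.conductorLevel → qCoeff g ℓ = (W.apOfModel ℓ : ℂ))
    {q : ℕ} (hq : q.Prime) (hqΔ : (q : ℤ) ∣ W.Δ) :
    qCoeff g q = (W.apOfModel q : ℂ) - 1 := by
  haveI : NeZero W.conductorLevel := ⟨W.conductorLevel_pos.ne'⟩
  obtain ⟨r, hr, hqr, hns⟩ := exists_aux' hΔ hW q
  refine qCoeff_eq_of_mult hΔ hns hg one_ne_zero (fun ℓ hℓ hℓN _ => ⟨fun h =>
    hℓN ((W.prime_dvd_conductorLevel_iff hΔ hℓ).mpr h), hgW ℓ hℓ hℓN⟩) hq hqr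
    ((W.prime_dvd_conductorLevel_iff hΔ hq).mpr hqΔ) (fun h2 => ?_) hqΔ (hW q hq hqΔ)
  exact Nat.squarefree_iff_prime_squarefree.mp W.squarefree_conductorLevel q hq
    (by rwa [← pow_two])

/-- **The newform of a semistable elliptic curve, at all primes.** -/
theorem exists_newform (hΔ : W.Δ ≠ 0) (hW : W.IsSemistableModel) :
    ∃ g : CuspForm (Gamma0 W.conductorLevel) 2, g.IsNewform ∧
      (∀ q : ℕ, q.Prime → ¬ (q : ℤ) ∣ W.Δ → qCoeff g q = (W.apOfModel q : ℂ)) ∧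
      (∀ q : ℕ, q.Prime → (q : ℤ) ∣ W.Δ → qCoeff g q = (W.apOfModel q : ℂ) - 1) := by
  obtain ⟨g, hg, hgW⟩ := SmallConductor.exists_newform W hΔ hW
  exact ⟨g, hg, fun q hq hqΔ => hgW q hq
    (fun h => hqΔ ((W.prime_dvd_conductorLevel_iff hΔ hq).mp h)),
    fun q hq hqΔ => qCoeff_bad hΔ hW hg hgW hq hqΔ⟩

/-- the same statement with the level existentially quantified -/
theorem exists_newform' (hΔ : W.Δ ≠ 0) (hW : W.IsSemistableModel) :
    ∃ N : ℕ, 0 < N ∧ Squarefree N ∧ (∀ q : ℕ, q.Prime → (q ∣ N ↔ (q : ℤ) ∣ W.Δ)) ∧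
      ∃ f : CuspForm (Gamma0 N) 2, f.IsNewform ∧
      (∀ q : ℕ, q.Prime → ¬ (q : ℤ) ∣ W.Δ → qCoeff f q = (W.apOfModel q : ℂ)) ∧
      (∀ q : ℕ, q.Prime → (q : ℤ) ∣ W.Δ → qCoeff f q = (W.apOfModel q : ℂ) - 1) :=
  ⟨W.conductorLevel, W.conductorLevel_pos, W.squarefree_conductorLevel,
    fun _ hq => W.prime_dvd_conductorLevel_iff hΔ hq, exists_newform hΔ hW⟩

end Fermat.Agent.Cor.Bad
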