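import Fermat.Agent.Cor.BadMain

/-!
# The reduction type at a prime of multiplicative reduction in terms of the coefficients

Let `W` be an integral Weierstrass equation and `q` a prime with `q ∣ Δ`, `q ∤ c₄`. The number
of nonsingular points of `W` modulo `q` is `q - ε` with `ε = (-c₆ / q)` (Legendre symbol) if `q` is
odd, and with `ε = (-1)^{a₂ + a₃}` if `q = 2`. Hence this is also the `q`-th coefficient of the
newform of `W` if `W` is semistable.

This file is not used by any of the statement files.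
-/

set_option autoImplicit false

noncomputable section

namespace Fermat.Agent.Cor.Bad

open CongruenceSubgroup ModularFormClass WeierstrassCurve WeierstrassCurve.Affine

section Field

variable {k : Type*} [Field k] {W : WeierstrassCurve.Affine k} {r t : k}

/-- the singular point is rational (characteristic `≠ 2`) -/
theorem exists_singAt (h2 : (2 : k) ≠ 0) (hΔ : W.Δ = 0) (hc : W.c₄ ≠ 0) :
    ∃ r t : k, SingAt W r t := by
  obtain ⟨r, hr⟩ : ∃ r : k, W.c₄ * r = 18 * W.b₆ - W.b₂ * W.b₄ :=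
    ⟨(18 * W.b₆ - W.b₂ * W.b₄) / W.c₄, mul_div_cancel₀ _ hc⟩
  obtain ⟨t, ht⟩ : ∃ t : k, 2 * t = -(W.a₁ * r + W.a₃) :=
    ⟨-(W.a₁ * r + W.a₃) / 2, mul_div_cancel₀ _ h2⟩
  have hrel := W.b_relation
  have hc4 : W.c₄ = W.b₂ ^ 2 - 24 * W.b₄ := rfl
  have hc6 : W.c₆ = -W.b₂ ^ 3 + 36 * W.b₂ * W.b₄ - 216 * W.b₆ := rfl
  have hD : W.Δ = -W.b₂ ^ 2 * W.b₈ - 8 * W.b₄ ^ 3 - 27 * W.b₆ ^ 2 + 9 * W.b₂ * W.b₄ * W.b₆ := rfl
  have h4 : (2 : k) * 2 ≠ 0 := mul_ne_zero h2 h2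
  have h3 : W.a₃ + r * W.a₁ + 2 * t = 0 := by linear_combination ht
  have f1 : 6 * r ^ 2 + W.b₂ * r + W.b₄ = 0 := by
    have : W.c₄ ^ 2 * (6 * r ^ 2 + W.b₂ * r + W.b₄) = 0 := by
      have e : W.c₄ ^ 2 * (6 * r ^ 2 + W.b₂ * r + W.b₄) =
          6 * (W.c₄ * r) ^ 2 + W.b₂ * W.c₄ * (W.c₄ * r) + W.b₄ * W.c₄ ^ 2 := by ring
      rw [e, hr, hc4]
      rw [hD] at hΔ
      linear_combination (-72) * hΔ - 18 * W.b₂ ^ 2 * hrel
    exact (mul_eq_zero.mp this).resolve_left (pow_ne_zero _ hc)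
  have f2 : 4 * r ^ 3 + W.b₂ * r ^ 2 + 2 * W.b₄ * r + W.b₆ = 0 := by
    have : W.c₄ ^ 3 * (4 * r ^ 3 + W.b₂ * r ^ 2 + 2 * W.b₄ * r + W.b₆) = 0 := by
      have e : W.c₄ ^ 3 * (4 * r ^ 3 + W.b₂ * r ^ 2 + 2 * W.b₄ * r + W.b₆) =
          4 * (W.c₄ * r) ^ 3 + W.b₂ * W.c₄ * (W.c₄ * r) ^ 2 + 2 * W.b₄ * W.c₄ ^ 2 * (W.c₄ * r) +
            W.b₆ * W.c₄ ^ 3 := by ring
      rw [e, hr, hc4]
      rw [hD] at hΔ
      linear_combination (4 * (-W.b₂ ^ 3 + 36 * W.b₂ * W.b₄ - 216 * W.b₆)) * hΔ +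
        W.b₂ ^ 2 * (-W.b₂ ^ 3 + 36 * W.b₂ * W.b₄ - 216 * W.b₆) * hrel
    exact (mul_eq_zero.mp this).resolve_left (pow_ne_zero _ hc)
  refine ⟨r, t, h3, ?_, ?_⟩
  · refine (mul_eq_zero.mp (?_ : (2 : k) * _ = 0)).resolve_left h2
    simp only [WeierstrassCurve.b₂, WeierstrassCurve.b₄] at f1
    linear_combination f1 - W.a₁ * h3
  · refine (mul_eq_zero.mp (?_ : ((2 : k) * 2) * _ = 0)).resolve_left h4
    simp only [WeierstrassCurve.b₂, WeierstrassCurve.b₄, WeierstrassCurve.b₆] at f2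
    linear_combination f2 - (W.a₃ + r * W.a₁ + 2 * t) * h3

/-- the discriminant of the polynomial of the tangent slopes -/
theorem SingAt.c₆_eq (h : SingAt W r t) : W.c₆ = -(W.b₂ + 12 * r) ^ 3 := by
  have h3 := h.h₃
  have h4 := h.h₄
  have h6 := h.h₆
  have f1 : 6 * r ^ 2 + W.b₂ * r + W.b₄ = 0 := by
    simp only [WeierstrassCurve.b₂, WeierstrassCurve.b₄]
    linear_combination 2 * h4 + W.a₁ * h3
  have f2 : 4 * r ^ 3 + W.b₂ * r ^ 2 + 2 * W.b₄ * r + W.b₆ = 0 := by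
    simp only [WeierstrassCurve.b₂, WeierstrassCurve.b₄, WeierstrassCurve.b₆]
    linear_combination 4 * h6 + (W.a₃ + r * W.a₁ + 2 * t) * h3
  have hc6 : W.c₆ = -W.b₂ ^ 3 + 36 * W.b₂ * W.b₄ - 216 * W.b₆ := rfl
  rw [hc6]
  linear_combination (36 * (W.b₂ + 12 * r)) * f1 - 216 * f2

theorem SingAt.c₄_eq (h : SingAt W r t) : W.c₄ = (W.b₂ + 12 * r) ^ 2 := by
  have h3 := h.h₃
  have h4 := h.h₄
  have f1 : 6 * r ^ 2 + W.b₂ * r + W.b₄ = 0 := by
    simp only [WeierstrassCurve.b₂, WeierstrassCurve.b₄]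
    linear_combination 2 * h4 + W.a₁ * h3
  have hc4 : W.c₄ = W.b₂ ^ 2 - 24 * W.b₄ := rfl
  rw [hc4]
  linear_combination (-24) * f1

/-- the slopes in terms of the square roots of the discriminant -/
def slopeEquiv (h2 : (2 : k) ≠ 0) (W : WeierstrassCurve.Affine k) (r : k) :
    {m : k // qf W r m = 0} ≃ {x : k // x ^ 2 = W.b₂ + 12 * r} where
  toFun m := ⟨2 * m + W.a₁, by
    have h := m.2
    unfold qf at h
    simp only [WeierstrassCurve.b₂]
    linear_combination 4 * h⟩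
  invFun x := ⟨(x - W.a₁) / 2, by
    have h := x.2
    simp only [WeierstrassCurve.b₂] at h
    unfold qf
    field_simp
    linear_combination h⟩
  left_inv m := by
    apply Subtype.ext
    simp only [add_sub_cancel_right]
    exact mul_div_cancel_left₀ _ h2
  right_inv x := by
    apply Subtype.ext
    simp only
    rw [mul_div_cancel₀ _ h2, sub_add_cancel]

end Field

variable {W : WeierstrassCurve ℤ} {q : ℕ} [hq : Fact q.Prime]

/-- **The number of points at an odd multiplicative prime.** -/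
theorem apOfModel_eq_legendreSym (hq2 : q ≠ 2) (hqΔ : (q : ℤ) ∣ W.Δ) (hc₄ : ¬ (q : ℤ) ∣ W.c₄) :
    W.apOfModel q = 1 + legendreSym q (-W.c₆) := by
  classical
  set V := (W.reductionMod q).toAffine with hV
  have h2 : (2 : ZMod q) ≠ 0 := by
    intro h
    have h' : ((2 : ℕ) : ZMod q) = 0 := by exact_mod_cast h
    rw [ZMod.natCast_eq_zero_iff] at h'
    exact hq2 ((Nat.prime_dvd_prime_iff_eq hq.out Nat.prime_two).mp h')
  have hΔ' : V.Δ = 0 := by
    rw [hV]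
    change (W.map (Int.castRingHom (ZMod q))).Δ = 0
    rw [WeierstrassCurve.map_Δ]
    exact (ZMod.intCast_zmod_eq_zero_iff_dvd _ _).mpr hqΔ
  have hc' : V.c₄ ≠ 0 := by
    rw [hV]
    change (W.map (Int.castRingHom (ZMod q))).c₄ ≠ 0
    rw [WeierstrassCurve.map_c₄]
    exact fun h => hc₄ ((ZMod.intCast_zmod_eq_zero_iff_dvd _ _).mp h)
  have hc6 : V.c₆ = (W.c₆ : ZMod q) := by
    rw [hV]
    change (W.map (Int.castRingHom (ZMod q))).c₆ = _
    rw [WeierstrassCurve.map_c₆]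
    rfl
  obtain ⟨r, t, h⟩ := exists_singAt h2 hΔ' hc'
  have hd0 : V.b₂ + 12 * r ≠ 0 := by
    intro h0
    apply hc'
    rw [h.c₄_eq, h0]
    ring
  rw [apOfModel_sing h, Nat.card_congr (slopeEquiv h2 V r)]
  have hchar : ringChar (ZMod q) ≠ 2 := by rwa [ZMod.ringChar_zmod_n]
  have h5 := quadraticChar_card_sqrts hchar (V.b₂ + 12 * r)
  have h6 : quadraticChar (ZMod q) (V.b₂ + 12 * r) = legendreSym q (-W.c₆) := by
    unfold legendreSym
    have e : ((-W.c₆ : ℤ) : ZMod q) = (V.b₂ + 12 * r) ^ 3 := by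
      rw [Int.cast_neg, ← hc6, h.c₆_eq, neg_neg]
    rw [e, map_pow]
    have e2 := quadraticChar_sq_one hd0
    linear_combination (-quadraticChar (ZMod q) (V.b₂ + 12 * r)) * e2
  rw [← h6, add_comm (1 : ℤ), ← h5, Set.toFinset_card, Nat.card_eq_fintype_card]
  rfl

end Fermat.Agent.Cor.Bad
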