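import Fermat.Agent.Cor.BadCor

/-!
# Reduction types of the semistable curves of conductor 11, 14, 15, 17, 19, 21

Every semistable elliptic curve over `ℚ` of conductor `11`, `17`, `19` has split multiplicative
reduction at the bad prime; for conductor `14` the reduction is nonsplit at `2` and split at `7`,
for conductor `15` nonsplit at `3` and split at `5`, for conductor `21` split at `3` and nonsplit
at `7`. (`apOfModel q = q + 1 - #W^{ns}(𝔽_q)` is `2` in the split and `0` in the nonsplit case.)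

This file is not used by any of the statement files.
-/

set_option autoImplicit false

noncomputable section

namespace Fermat.Agent.Cor.Bad

open WeierstrassCurve Fermat.Agent.Cor.GenusOne

variable {W : WeierstrassCurve ℤ}

/-- two semistable curves with the same conductor `N ∈ {11, 14, 15, 17, 19, 21}` have the same
number of nonsingular points modulo **every** prime. -/
theorem ap_eq_of_conductorLevel_eq' {W' : WeierstrassCurve ℤ} (hΔ : W.Δ ≠ 0)
    (hW : W.IsSemistableModel) (hΔ' : W'.Δ ≠ 0) (hW' : W'.IsSemistableModel)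
    (h : W.conductorLevel = W'.conductorLevel)
    (hN : W.conductorLevel ∈ ({11, 14, 15, 17, 19, 21} : Finset ℕ)) (q : ℕ) (hq : q.Prime) :
    W.apOfModel q = W'.apOfModel q :=
  ((ap_eq_of_almost_all hΔ hW hΔ' hW' W.conductorLevel_pos.ne' fun ℓ hℓ hg =>
    ap_eq_of_conductorLevel_eq W W' hΔ hΔ' hW hW' h hN ℓ hℓ hg).2 q hq).2

theorem E11_c₆ : E11.c₆ = -152 := by simp [E11, WeierstrassCurve.c₆, b₂, b₄, b₆]
theorem E14_c₆ : E14.c₆ = -253 := by simp [E14, WeierstrassCurve.c₆, b₂, b₄, b₆]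
theorem E15_c₆ : E15.c₆ = -161 := by simp [E15, WeierstrassCurve.c₆, b₂, b₄, b₆]
theorem E17_c₆ : E17.c₆ = -81 := by simp [E17, WeierstrassCurve.c₆, b₂, b₄, b₆]
theorem E19_c₆ : E19.c₆ = 8 := by simp [E19, WeierstrassCurve.c₆, b₂, b₄, b₆]
theorem E21_c₆ : E21.c₆ = 71 := by simp [E21, WeierstrassCurve.c₆, b₂, b₄, b₆]

theorem split_of {q : ℕ} [Fact q.Prime] (hq2 : q ≠ 2) (hqΔ : (q : ℤ) ∣ W.Δ)
    (hc₄ : ¬ (q : ℤ) ∣ W.c₄) (h0 : ((-W.c₆ : ℤ) : ZMod q) ≠ 0)
    (h : IsSquare ((-W.c₆ : ℤ) : ZMod q)) : W.apOfModel q = 2 := by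
  rw [apOfModel_eq_legendreSym hq2 hqΔ hc₄, (legendreSym.eq_one_iff q h0).mpr h]
  norm_num

theorem nonsplit_of {q : ℕ} [Fact q.Prime] (hq2 : q ≠ 2) (hqΔ : (q : ℤ) ∣ W.Δ)
    (hc₄ : ¬ (q : ℤ) ∣ W.c₄) (h : ¬ IsSquare ((-W.c₆ : ℤ) : ZMod q)) : W.apOfModel q = 0 := by
  rw [apOfModel_eq_legendreSym hq2 hqΔ hc₄, (legendreSym.eq_neg_one_iff q).mpr h]
  norm_num

local instance factThree : Fact (Nat.Prime 3) := ⟨by norm_num⟩
local instance factFive : Fact (Nat.Prime 5) := ⟨by norm_num⟩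
local instance factSeven : Fact (Nat.Prime 7) := ⟨by norm_num⟩
local instance factEleven : Fact (Nat.Prime 11) := ⟨by norm_num⟩
local instance factSeventeen : Fact (Nat.Prime 17) := ⟨by norm_num⟩
local instance factNineteen : Fact (Nat.Prime 19) := ⟨by norm_num⟩

theorem ap_eleven (hΔ : W.Δ ≠ 0) (hW : W.IsSemistableModel) (h : W.conductorLevel = 11) :
    W.apOfModel 11 = 2 := by
  rw [ap_eq_of_conductorLevel_eq' (W' := E11) hΔ hW (by rw [E11_Δ]; norm_num) E11_semistable
    (by rw [h, conductorLevel_E11]) (by rw [h]; decide) 11 (by norm_num)]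
  refine split_of (by norm_num) (by rw [E11_Δ]; norm_num) (by rw [E11_c₄]; norm_num) ?_ ?_ <;>
    rw [E11_c₆] <;> decide

theorem ap_fourteen (hΔ : W.Δ ≠ 0) (hW : W.IsSemistableModel) (h : W.conductorLevel = 14) :
    W.apOfModel 2 = 0 ∧ W.apOfModel 7 = 2 := by
  have key := ap_eq_of_conductorLevel_eq' (W' := E14) hΔ hW (by rw [E14_Δ]; norm_num)
    E14_semistable (by rw [h, conductorLevel_E14]) (by rw [h]; decide)
  rw [key 2 (by norm_num), key 7 (by norm_num)]
  constructor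
  · rw [apOfModel_two (by rw [E14_Δ]; norm_num) (by rw [E14_c₄]; norm_num), if_neg]
    simp only [E14]
    decide
  · refine split_of (by norm_num) (by rw [E14_Δ]; norm_num) (by rw [E14_c₄]; norm_num) ?_ ?_ <;>
      rw [E14_c₆] <;> decide

theorem ap_fifteen (hΔ : W.Δ ≠ 0) (hW : W.IsSemistableModel) (h : W.conductorLevel = 15) :
    W.apOfModel 3 = 0 ∧ W.apOfModel 5 = 2 := by
  have key := ap_eq_of_conductorLevel_eq' (W' := E15) hΔ hW (by rw [E15_Δ]; norm_num)
    E15_semistable (by rw [h, conductorLevel_E15]) (by rw [h]; decide)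
  rw [key 3 (by norm_num), key 5 (by norm_num)]
  constructor
  · refine nonsplit_of (by norm_num) (by rw [E15_Δ]; norm_num) (by rw [E15_c₄]; norm_num) ?_
    rw [E15_c₆]
    decide
  · refine split_of (by norm_num) (by rw [E15_Δ]; norm_num) (by rw [E15_c₄]; norm_num) ?_ ?_ <;>
      rw [E15_c₆] <;> decide

theorem ap_seventeen (hΔ : W.Δ ≠ 0) (hW : W.IsSemistableModel) (h : W.conductorLevel = 17) :
    W.apOfModel 17 = 2 := by
  rw [ap_eq_of_conductorLevel_eq' (W' := E17) hΔ hW (by rw [E17_Δ]; norm_num) E17_semistable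
    (by rw [h, conductorLevel_E17]) (by rw [h]; decide) 17 (by norm_num)]
  refine split_of (by norm_num) (by rw [E17_Δ]; norm_num) (by rw [E17_c₄]; norm_num) ?_ ?_ <;>
    rw [E17_c₆] <;> decide

theorem ap_nineteen (hΔ : W.Δ ≠ 0) (hW : W.IsSemistableModel) (h : W.conductorLevel = 19) :
    W.apOfModel 19 = 2 := by
  rw [ap_eq_of_conductorLevel_eq' (W' := E19) hΔ hW (by rw [E19_Δ]; norm_num) E19_semistable
    (by rw [h, conductorLevel_E19]) (by rw [h]; decide) 19 (by norm_num)]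
  refine split_of (by norm_num) (by rw [E19_Δ]; norm_num) (by rw [E19_c₄]; norm_num) ?_ ?_ <;>
    rw [E19_c₆] <;> decide

theorem ap_twentyone (hΔ : W.Δ ≠ 0) (hW : W.IsSemistableModel) (h : W.conductorLevel = 21) :
    W.apOfModel 3 = 2 ∧ W.apOfModel 7 = 0 := by
  have key := ap_eq_of_conductorLevel_eq' (W' := E21) hΔ hW (by rw [E21_Δ]; norm_num)
    E21_semistable (by rw [h, conductorLevel_E21]) (by rw [h]; decide)
  rw [key 3 (by norm_num), key 7 (by norm_num)]
  constructor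
  · refine split_of (by norm_num) (by rw [E21_Δ]; norm_num) (by rw [E21_c₄]; norm_num) ?_ ?_ <;>
      rw [E21_c₆] <;> decide
  · refine nonsplit_of (by norm_num) (by rw [E21_Δ]; norm_num) (by rw [E21_c₄]; norm_num) ?_
    rw [E21_c₆]
    decide

end Fermat.Agent.Cor.Bad
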