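import Fermat.Agent.Cor.ChebotarevDens

/-!
# Bauer's theorem

`bauer` : let `L`, `M` be finite Galois extensions of a number field `K`. If all primes of `K` which
split completely in `L`, with finitely many exceptions, split completely in `M`, then `M` embeds into
`L` over `K`.  Hence (`bauer_equiv`) a finite Galois extension of `K` is determined by the set of the
primes of `K` which split completely.
-/

set_option autoImplicit false
set_option linter.unusedSectionVars false
set_option linter.style.haveILetI false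

open scoped Classical nonZeroDivisors Topology Pointwise

namespace Fermat.Agent.Cor.Cheb

open NumberField Filter IsDedekindDomain Module IntermediateField Fermat.Agent.CFT Fermat.Agent.H03
  Fermat.Agent.ZC Fermat.Agent.H25 Fermat.Agent.DS Ideal MulAction

noncomputable section

section spl

variable {K L : Type*} [Field K] [NumberField K] [Field L] [NumberField L] [Algebra K L]

theorem fr_one_of_spl {v : HeightOneSpectrum (𝓞 K)} (hv : Spl K L v) :
    Fr (1 : Gal(L/K)) v := by
  obtain ⟨⟨P, hP⟩⟩ := (inferInstance : Nonempty (primesOver v.asIdeal (𝓞 L)))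
  have hP1 := hP.1
  have hP2 := hP.2
  have hN := absNorm_eq_of_spl hv P
  refine ⟨P, hP1, hP2, fun x => ?_⟩
  have hP0 : P ≠ ⊥ := by
    rintro rfl
    rw [absNorm_bot] at hN
    exact v.ne_bot (absNorm_eq_zero_iff.mp hN.symm)
  haveI : P.IsMaximal := Ideal.IsPrime.isMaximal hP1 hP0
  letI : Field (𝓞 L ⧸ P) := Ideal.Quotient.field _
  haveI : Finite (𝓞 L ⧸ P) := Ideal.finiteQuotientOfFreeOfNeBot _ hP0
  letI := Fintype.ofFinite (𝓞 L ⧸ P)
  have h1 : absNorm v.asIdeal = Fintype.card (𝓞 L ⧸ P) := by
    rw [← hN, absNorm_apply, Submodule.cardQuot_apply, Nat.card_eq_fintype_card]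
  rw [one_smul, ← Ideal.Quotient.eq, map_pow, h1, FiniteField.pow_card]

theorem spl_of_fr_one [IsGalois K L] {v : HeightOneSpectrum (𝓞 K)} (hg : Good L v)
    (h : Fr (1 : Gal(L/K)) v) : Spl K L v := by
  haveI : FiniteDimensional K L := Module.Finite.of_restrictScalars_finite ℚ K L
  haveI : Finite Gal(L/K) := inferInstance
  obtain ⟨P, hP, hPo, hx⟩ := h
  have hP0 : P ≠ ⊥ := by
    rintro rfl
    apply v.ne_bot
    rw [hPo.over]
    exact Ideal.comap_bot_of_injective _ (FaithfulSMul.algebraMap_injective (𝓞 K) (𝓞 L))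
  haveI : P.IsMaximal := Ideal.IsPrime.isMaximal hP hP0
  haveI : v.asIdeal.IsMaximal := v.isMaximal
  letI : Field (𝓞 L ⧸ P) := Ideal.Quotient.field _
  haveI : Finite (𝓞 L ⧸ P) := Ideal.finiteQuotientOfFreeOfNeBot _ hP0
  letI := Fintype.ofFinite (𝓞 L ⧸ P)
  letI : Field (𝓞 K ⧸ v.asIdeal) := Ideal.Quotient.field _
  haveI : Finite (𝓞 K ⧸ v.asIdeal) := Ideal.finiteQuotientOfFreeOfNeBot _ v.ne_bot
  letI := Fintype.ofFinite (𝓞 K ⧸ v.asIdeal)
  set q := absNorm v.asIdeal with hq
  have hq1 : 1 < q := by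
    have h0 : q ≠ 0 := by
      rw [hq, Ne, absNorm_eq_zero_iff]
      exact v.ne_bot
    have h1 : q ≠ 1 := by
      rw [hq, Ne, absNorm_eq_one_iff]
      exact v.isPrime.ne_top
    omega
  have hqK : Fintype.card (𝓞 K ⧸ v.asIdeal) = q := by
    rw [hq, absNorm_apply, Submodule.cardQuot_apply, Nat.card_eq_fintype_card]
  have hpow : ∀ y : 𝓞 L ⧸ P, y ^ q = y := by
    intro y
    obtain ⟨y, rfl⟩ := Ideal.Quotient.mk_surjective y
    rw [← map_pow]
    symm
    rw [Ideal.Quotient.eq]
    have := hx y
    rwa [one_smul] at this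
  have hle : Fintype.card (𝓞 L ⧸ P) ≤ q := by
    rw [← FiniteField.X_pow_card_sub_X_natDegree_eq (𝓞 L ⧸ P) hq1]
    refine Polynomial.card_le_degree_of_subset_roots fun y _ => ?_
    rw [Polynomial.mem_roots (FiniteField.X_pow_card_sub_X_ne_zero _ hq1)]
    simp [hpow y]
  -- surjectivity of the residue map
  let f : 𝓞 K ⧸ v.asIdeal →+* 𝓞 L ⧸ P := Ideal.quotientMap P (algebraMap (𝓞 K) (𝓞 L))
    (by rw [hPo.over])
  have hfs : Function.Surjective f := by
    have h1 : Function.Injective f := f.injective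
    have h2 := Fintype.card_le_of_injective f h1
    rw [hqK] at h2
    exact ((Fintype.bijective_iff_injective_and_card f).mpr
      ⟨h1, by rw [hqK]; exact le_antisymm h2 hle⟩).2
  have hres : ∀ x : 𝓞 L, ∃ a : 𝓞 K, x - algebraMap (𝓞 K) (𝓞 L) a ∈ P := by
    intro x
    obtain ⟨a, ha⟩ := hfs (Ideal.Quotient.mk P x)
    obtain ⟨a, rfl⟩ := Ideal.Quotient.mk_surjective a
    refine ⟨a, ?_⟩
    rw [← Ideal.Quotient.eq, ← ha]
    rfl
  have hstab : ∀ t : Gal(L/K), t • P = P → t = 1 := by
    intro t ht
    refine hg P hP hPo t fun x => ?_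
    obtain ⟨a, ha⟩ := hres x
    have h1 := Ideal.smul_mem_pointwise_smul t _ P ha
    rw [ht, smul_sub, smul_algebraMap] at h1
    have h2 := P.sub_mem h1 ha
    rwa [sub_sub_sub_cancel_right] at h2
  rw [Spl, ← IsGalois.card_aut_eq_finrank, ← Nat.card_coe_set_eq]
  refine (Nat.card_congr (Equiv.ofBijective (fun t : Gal(L/K) =>
    (⟨t • P, inferInstance, inferInstance⟩ : primesOver v.asIdeal (𝓞 L))) ⟨?_, ?_⟩)).symm
  · intro t t' htt
    have h1 : t • P = t' • P := congrArg Subtype.val htt
    have h2 := hstab (t'⁻¹ * t) (by rw [mul_smul, h1, inv_smul_smul])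
    exact (inv_mul_eq_one.mp h2).symm
  · rintro ⟨Q, hQ⟩
    have hQ1 := hQ.1
    have hQ2 := hQ.2
    obtain ⟨t, ht⟩ := Algebra.IsInvariant.exists_smul_of_under_eq (𝓞 K) (𝓞 L) Gal(L/K) P Q
      (by rw [← hPo.over, ← hQ2.over])
    exact ⟨t, Subtype.ext ht.symm⟩

/-- a prime splits completely iff its Frobenius is trivial (with finitely many exceptions). -/
theorem spl_iff [IsGalois K L] {v : HeightOneSpectrum (𝓞 K)} (hg : Good L v) :
    Spl K L v ↔ Fr (1 : Gal(L/K)) v := ⟨fr_one_of_spl, spl_of_fr_one hg⟩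

theorem eq_one_of_spl [IsGalois K L] {v : HeightOneSpectrum (𝓞 K)} (hg : Good L v)
    (h : Spl K L v) {g : Gal(L/K)} (hf : Fr g v) : g = 1 := by
  have h1 := (fr_one_of_spl h).isConj hg hf
  exact isConj_one_left.mp h1.symm

end spl

section tower

variable {K L M N : Type*} [Field K] [NumberField K] [Field L] [NumberField L] [Field M]
  [NumberField M] [Field N] [NumberField N] [IsGalois ℚ N] [Algebra K L] [Algebra K M]
  [Algebra K N] [Algebra L N] [Algebra M N] [IsScalarTower K L N] [IsScalarTower K M N]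
  [IsGalois K L] [IsGalois K M]

theorem restrict_eq_one (h : {v : HeightOneSpectrum (𝓞 K) | Spl K L v ∧ ¬ Spl K M v}.Finite)
    (σ : Gal(N/K)) (hσ : AlgEquiv.restrictNormalHom (F := K) (K₁ := N) L σ = 1) :
    AlgEquiv.restrictNormalHom (F := K) (K₁ := N) M σ = 1 := by
  haveI : IsGalois K N := IsGalois.tower_top_of_isGalois ℚ K N
  have hinf := chebotarev_deg_one K N σ
  obtain ⟨v, hv, hv'⟩ := (hinf.sdiff ((finite_not_good (K := K) (L := L)).union
    ((finite_not_good (K := K) (L := M)).union h))).nonempty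
  rw [Set.mem_union, Set.mem_union, not_or, not_or, Set.mem_ofPred_eq, Set.mem_ofPred_eq,
    Set.mem_ofPred_eq, not_not, not_not, not_and, not_not] at hv'
  obtain ⟨hL, hM, hLM⟩ := hv'
  have hf : Fr σ v := hv.2
  have h1 : Fr (AlgEquiv.restrictNormalHom (F := K) (K₁ := N) L σ) v := Fr.restrict hf
  have h2 : Fr (AlgEquiv.restrictNormalHom (F := K) (K₁ := N) M σ) v := Fr.restrict hf
  rw [hσ] at h1
  exact eq_one_of_spl hM (hLM (spl_of_fr_one hL h1)) h2

include N in
theorem bauer_tower (h : {v : HeightOneSpectrum (𝓞 K) | Spl K L v ∧ ¬ Spl K M v}.Finite) :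
    Nonempty (M →ₐ[K] L) := by
  haveI : FiniteDimensional L N := Module.Finite.of_restrictScalars_finite ℚ L N
  haveI : IsGalois L N := IsGalois.tower_top_of_isGalois ℚ L N
  have hfix : ∀ y : M, ∃ z : L, algebraMap L N z = algebraMap M N y := by
    intro y
    have h1 : algebraMap M N y ∈ (⊥ : IntermediateField L N) := by
      rw [IsGalois.mem_bot_iff_fixed]
      intro τ
      have h2 := restrict_eq_one h (AlgEquiv.restrictScalars K τ) (by
        apply AlgEquiv.ext
        intro z
        apply (algebraMap L N).injective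
        refine (AlgEquiv.restrictNormal_commutes (AlgEquiv.restrictScalars K τ) L z).trans ?_
        exact τ.commutes z)
      have h3 := AlgEquiv.restrictNormal_commutes (AlgEquiv.restrictScalars K τ) M y
      have h4 : (AlgEquiv.restrictScalars K τ).restrictNormal M = 1 := h2
      rw [h4] at h3
      exact h3.symm
    obtain ⟨z, hz⟩ := IntermediateField.mem_bot.mp h1
    exact ⟨z, hz⟩
  have hle : (IsScalarTower.toAlgHom K M N).fieldRange ≤ (IsScalarTower.toAlgHom K L N).fieldRange := by
    rintro _ ⟨y, rfl⟩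
    obtain ⟨z, hz⟩ := hfix y
    exact ⟨z, hz⟩
  exact ⟨((AlgEquiv.ofInjectiveField (IsScalarTower.toAlgHom K L N)).symm.toAlgHom.comp
    (inclusion hle)).comp (AlgEquiv.ofInjectiveField (IsScalarTower.toAlgHom K M N)).toAlgHom⟩

end tower

/-- **Bauer's theorem** -/
theorem bauer (K L M : Type*) [Field K] [NumberField K] [Field L] [NumberField L] [Field M]
    [NumberField M] [Algebra K L] [Algebra K M] [IsGalois K L] [IsGalois K M]
    (h : {v : HeightOneSpectrum (𝓞 K) | Spl K L v ∧ ¬ Spl K M v}.Finite) :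
    Nonempty (M →ₐ[K] L) := by
  haveI : FiniteDimensional K M := Module.Finite.of_restrictScalars_finite ℚ K M
  -- embeddings into `Qb`
  let i : L →ₐ[ℚ] Qb := IsAlgClosed.lift
  letI aK : Algebra K Qb := ((i : L →+* Qb).comp (algebraMap K L)).toAlgebra
  let j : M →ₐ[K] Qb := IsAlgClosed.lift
  let j' : M →ₐ[ℚ] Qb := (j : M →+* Qb).toRatAlgHom
  let F1 : IntermediateField ℚ Qb := i.fieldRange
  let F2 : IntermediateField ℚ Qb := j'.fieldRange
  haveI : FiniteDimensional ℚ F1 := Module.Finite.equiv (AlgEquiv.ofInjectiveField i).toLinearEquiv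
  haveI : FiniteDimensional ℚ F2 := Module.Finite.equiv (AlgEquiv.ofInjectiveField j').toLinearEquiv
  let F : IntermediateField ℚ Qb := F1 ⊔ F2
  haveI : FiniteDimensional ℚ F := IntermediateField.finiteDimensional_sup F1 F2
  haveI : IsGalois ℚ Qb := H51.isGalois_Qbar
  let N : IntermediateField ℚ Qb := IntermediateField.normalClosure ℚ F Qb
  haveI : FiniteDimensional ℚ N := normalClosure.is_finiteDimensional ℚ F Qb
  haveI : Normal ℚ N := normalClosure.normal ℚ F Qb
  haveI : NumberField N := { to_charZero := inferInstance, to_finiteDimensional := inferInstance }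
  haveI : IsGalois ℚ N := { to_isSeparable := inferInstance, to_normal := inferInstance }
  have h1 : F1 ≤ N := le_sup_left.trans F.le_normalClosure
  have h2 : F2 ≤ N := le_sup_right.trans F.le_normalClosure
  letI aL : Algebra L N :=
    (RingHom.codRestrict (i : L →+* Qb) N fun x => h1 ⟨x, rfl⟩).toAlgebra
  letI aM : Algebra M N :=
    (RingHom.codRestrict (j' : M →+* Qb) N fun x => h2 ⟨x, rfl⟩).toAlgebra
  letI aKN : Algebra K N := ((algebraMap L N).comp (algebraMap K L)).toAlgebra
  haveI : IsScalarTower K L N := IsScalarTower.of_algebraMap_eq fun x => rfl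
  haveI : IsScalarTower K M N := IsScalarTower.of_algebraMap_eq fun x => by
    apply Subtype.ext
    exact (j.commutes x).symm
  exact bauer_tower (N := N) h

/-- a finite Galois extension is determined by the primes which split completely -/
theorem bauer_equiv (K L M : Type*) [Field K] [NumberField K] [Field L] [NumberField L] [Field M]
    [NumberField M] [Algebra K L] [Algebra K M] [IsGalois K L] [IsGalois K M]
    (h : {v : HeightOneSpectrum (𝓞 K) | ¬ (Spl K L v ↔ Spl K M v)}.Finite) :
    Nonempty (L ≃ₐ[K] M) := by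
  haveI : FiniteDimensional K M := Module.Finite.of_restrictScalars_finite ℚ K M
  haveI : FiniteDimensional K L := Module.Finite.of_restrictScalars_finite ℚ K L
  obtain ⟨f⟩ := bauer K L M (h.subset fun v hv h' => hv.2 (h'.mp hv.1))
  obtain ⟨g⟩ := bauer K M L (h.subset fun v hv h' => hv.2 (h'.mpr hv.1))
  have h1 := LinearMap.finrank_le_finrank_of_injective (f := f.toLinearMap) f.injective
  have h2 := LinearMap.finrank_le_finrank_of_injective (f := g.toLinearMap) g.injective
  have h3 : Function.Bijective g :=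
    ⟨g.injective, (LinearMap.injective_iff_surjective_of_finrank_eq_finrank
      (f := g.toLinearMap) (le_antisymm h2 h1)).mp g.injective⟩
  exact ⟨AlgEquiv.ofBijective g h3⟩

end

end Fermat.Agent.Cor.Cheb
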