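import Fermat.Agent.Cor.ClassPoly

/-!
# Complex multiplication: the field `K(j(τ))` is an abelian extension of `K`

This file is not used by any of the statement files.

* `IsConj σ A B`: `B` is the lattice with `g₂(B) = σ(g₂(A))`, `g₃(B) = σ(g₃(A))`; conjugation of
  lattices is monotone (`IsConj.mono`) and semilinear (`IsConj.mul`);
* `inv_mul`: if `τ` is a root of the primitive form `(a, b, c)`, then
  `⟨1, τ⟩ · a ⟨1, τ̄⟩ = ⟨1, a τ⟩` is the order of discriminant `D = b² - 4 a c`;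
* `conj_comm`: two automorphisms of the field `ℂ` which fix `√D` commute on the singular moduli of
  discriminant `D`;
* `isAbelianGalois_singSet`, `isAbelianGalois_j`, `isAbelianGalois_of_quadratic`: if `K` is a
  subfield of `ℂ` which contains `√D`, then `K(j(τ))/K` is an abelian extension; in particular
  this holds for `K = ℚ(τ)`, `τ` imaginary quadratic.
-/

set_option autoImplicit false

noncomputable section

namespace Fermat.Agent.Cor.CM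

open UpperHalfPlane hiding I
open MatrixGroups ModularForm
open Fermat.Agent.H14 (pp)
open Fermat.Agent.H24

/-- the module generated by `1` and `z` -/
def M1 (z : ℂ) : Submodule ℤ ℂ := Submodule.span ℤ {1, z}

/-- the module generated by `α` -/
def pr (α : ℂ) : Submodule ℤ ℂ := Submodule.span ℤ {α}

theorem mem_M1 {z x : ℂ} : x ∈ M1 z ↔ ∃ m n : ℤ, (m : ℂ) + n * z = x := by
  rw [M1, Submodule.mem_span_pair]
  simp only [zsmul_eq_mul, mul_one]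

theorem pr_mul_pr (α β : ℂ) : pr α * pr β = pr (α * β) := by
  rw [pr, pr, pr, Submodule.span_mul_span, Set.singleton_mul_singleton]

theorem pr_one : pr 1 = 1 := Submodule.one_eq_span.symm

theorem mem_pr_mul {α x : ℂ} {A : Submodule ℤ ℂ} : x ∈ pr α * A ↔ ∃ z ∈ A, α * z = x :=
  Submodule.mem_span_singleton_mul

theorem pp_lattice (τ : ℍ) (l : ℂ) (hl : l ≠ 0) : (pp τ l hl).lattice = pr l * M1 τ := by
  ext x
  rw [mem_pp, mem_pr_mul]
  constructor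
  · rintro ⟨m, n, rfl⟩
    exact ⟨_, mem_M1.mpr ⟨n, m, rfl⟩, by ring⟩
  · rintro ⟨z, hz, rfl⟩
    obtain ⟨m, n, rfl⟩ := mem_M1.mp hz
    exact ⟨n, m, by ring⟩

/-- `B` is the lattice whose invariants are the images of the invariants of `A` -/
def IsConj (σ : ℂ →+* ℂ) (A B : Submodule ℤ ℂ) : Prop :=
  ∃ (τ : ℍ) (l : ℂ) (hl : l ≠ 0) (τ' : ℍ) (l' : ℂ) (hl' : l' ≠ 0),
    A = (pp τ l hl).lattice ∧ B = (pp τ' l' hl').lattice ∧
      (pp τ' l' hl').g₂ = σ (pp τ l hl).g₂ ∧ (pp τ' l' hl').g₃ = σ (pp τ l hl).g₃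

/-- conjugation of lattices is monotone -/
theorem IsConj.mono {σ : ℂ →+* ℂ} {A B A' B' : Submodule ℤ ℂ} (h : IsConj σ A B)
    (h' : IsConj σ A' B') (hle : A ≤ A') : B ≤ B' := by
  obtain ⟨τ, l, hl, τ₁, l₁, hl₁, rfl, rfl, h2, h3⟩ := h
  obtain ⟨τ', l', hl', τ₁', l₁', hl₁', rfl, rfl, h2', h3'⟩ := h'
  obtain ⟨M, hM, f2, f3⟩ := Tr.of_le hle σ _ h2 h3
  rwa [H14.lattice_eq (f2.trans h2'.symm) (f3.trans h3'.symm)] at hM

/-- conjugation of lattices is semilinear -/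
theorem IsConj.mul {σ : ℂ →+* ℂ} {A B : Submodule ℤ ℂ} (h : IsConj σ A B) {α : ℂ} (hα : α ≠ 0) :
    IsConj σ (pr α * A) (pr (σ α) * B) := by
  obtain ⟨τ, l, hl, τ₁, l₁, hl₁, rfl, rfl, h2, h3⟩ := h
  have hσα : σ α ≠ 0 := (map_ne_zero σ).mpr hα
  have e1 : l / α⁻¹ = α * l := by rw [div_inv_eq_mul, mul_comm]
  have e2 : l₁ / (σ α)⁻¹ = σ α * l₁ := by rw [div_inv_eq_mul, mul_comm]
  have k1 : l / α⁻¹ ≠ 0 := by rw [e1]; exact mul_ne_zero hα hl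
  have k2 : l₁ / (σ α)⁻¹ ≠ 0 := by rw [e2]; exact mul_ne_zero hσα hl₁
  refine ⟨τ, l / α⁻¹, k1, τ₁, l₁ / (σ α)⁻¹, k2, ?_, ?_, ?_, ?_⟩
  · rw [pp_lattice, pp_lattice, ← mul_assoc, pr_mul_pr, e1]
  · rw [pp_lattice, pp_lattice, ← mul_assoc, pr_mul_pr, e2]
  · rw [g₂_div τ₁ hl₁ (inv_ne_zero hσα) k2, g₂_div τ hl (inv_ne_zero hα) k1, map_mul, map_pow,
      map_inv₀, h2]
  · rw [g₃_div τ₁ hl₁ (inv_ne_zero hσα) k2, g₃_div τ hl (inv_ne_zero hα) k1, map_mul, map_pow,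
      map_inv₀, h3]

/-- the invariant of the conjugate lattice -/
theorem j_of_g {σ : ℂ →+* ℂ} {τ τ' : ℍ} {l l' : ℂ} {hl : l ≠ 0} {hl' : l' ≠ 0}
    (h2 : (pp τ' l' hl').g₂ = σ (pp τ l hl).g₂) (h3 : (pp τ' l' hl').g₃ = σ (pp τ l hl).g₃) :
    j τ' = σ (j τ) := by
  have e1 := j_mul_disc τ' l' hl'
  have e2 := congrArg σ (j_mul_disc τ l hl)
  simp only [map_sub, map_pow, map_mul, map_ofNat] at e2
  rw [← h2, ← h3, ← e1] at e2
  exact (mul_right_cancel₀ (disc_pp τ' l' hl') e2).symm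

theorem exists_isConj (σ : ℂ →+* ℂ) (τ : ℍ) (l : ℂ) (hl : l ≠ 0) :
    ∃ (τ' : ℍ) (l' : ℂ) (hl' : l' ≠ 0), IsConj σ (pp τ l hl).lattice (pp τ' l' hl').lattice ∧
      j τ' = σ (j τ) := by
  obtain ⟨τ', l', hl', e2, e3⟩ := exists_pp (c := 12 * σ (pp τ l hl).g₂)
    (d := 216 * σ (pp τ l hl).g₃) (by
      have := (map_ne_zero σ).mpr (disc_pp τ l hl)
      simpa only [map_sub, map_pow, map_mul, map_ofNat] using this)
  have e2' : (pp τ' l' hl').g₂ = σ (pp τ l hl).g₂ := mul_left_cancel₀ (by norm_num) e2.symm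
  have e3' : (pp τ' l' hl').g₃ = σ (pp τ l hl).g₃ := mul_left_cancel₀ (by norm_num) e3.symm
  exact ⟨τ', l', hl', ⟨τ, l, hl, τ', l', hl', rfl, rfl, e2', e3'⟩, j_of_g e2' e3'⟩

/-- homothetic lattices have the same invariant -/
theorem j_eq_of_homothety {τ τ' : ℍ} {l l' κ : ℂ} (hl : l ≠ 0) (hl' : l' ≠ 0) (hκ : κ ≠ 0)
    (h : (pp τ' l' hl').lattice = pr κ * (pp τ l hl).lattice) : j τ' = j τ := by
  rw [pp_lattice τ l hl, ← mul_assoc, pr_mul_pr, ← pp_lattice τ _ (mul_ne_zero hκ hl)] at h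
  obtain ⟨γ, rfl⟩ := exists_smul_of_lattice_eq h
  exact (j_smul γ τ').symm

/-- the image of a module -/
def mp (σ : ℂ →+* ℂ) (A : Submodule ℤ ℂ) : Submodule ℤ ℂ :=
  A.map (RingHom.toIntAlgHom σ).toLinearMap

theorem mp_mul (σ : ℂ →+* ℂ) (A B : Submodule ℤ ℂ) : mp σ (A * B) = mp σ A * mp σ B :=
  Submodule.map_mul _ _ _

theorem mp_pr (σ : ℂ →+* ℂ) (α : ℂ) : mp σ (pr α) = pr (σ α) := by
  rw [mp, pr, pr, Submodule.map_span, Set.image_singleton]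
  rfl

theorem mp_M1 (σ : ℂ →+* ℂ) (z : ℂ) : mp σ (M1 z) = M1 (σ z) := by
  rw [mp, M1, M1, Submodule.map_span, Set.image_pair]
  show Submodule.span ℤ {σ 1, σ z} = _
  rw [map_one]

theorem mp_mono (σ : ℂ →+* ℂ) {A B : Submodule ℤ ℂ} (h : A ≤ B) : mp σ A ≤ mp σ B :=
  Submodule.map_mono h

theorem mp_one (σ : ℂ →+* ℂ) : mp σ 1 = 1 := by
  rw [← pr_one, mp_pr, map_one]

/-- transport of a module of homomorphisms -/
theorem IsConj.mp_mul_le {σ : ℂ →+* ℂ} {X X' Y Y' H : Submodule ℤ ℂ} (hX : IsConj σ X X')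
    (hY : IsConj σ Y Y') (h : H * X ≤ Y) : mp σ H * X' ≤ Y' := by
  rw [Submodule.mul_le]
  rintro _ ⟨α, hα, rfl⟩ x hx
  by_cases h0 : α = 0
  · subst h0
    simp
  · have h1 : pr α * X ≤ Y := by
      refine le_trans ?_ h
      refine mul_le_mul_left ?_ X
      rw [pr, Submodule.span_singleton_le_iff_mem]
      exact hα
    exact (hX.mul h0).mono hY h1 (mem_pr_mul.mpr ⟨x, hx, rfl⟩)

/-- transport of an invertible module of homomorphisms -/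
theorem IsConj.eq_mp_mul {σ : ℂ →+* ℂ} {X X' Y Y' H H' : Submodule ℤ ℂ} (hX : IsConj σ X X')
    (hY : IsConj σ Y Y') (h1 : H * X ≤ Y) (h2 : H' * Y ≤ X) (h3 : 1 ≤ H * H') :
    Y' = mp σ H * X' := by
  apply le_antisymm _ (hX.mp_mul_le hY h1)
  have k1 : mp σ H' * Y' ≤ X' := hY.mp_mul_le hX h2
  calc Y' = 1 * Y' := (one_mul _).symm
    _ ≤ mp σ H * mp σ H' * Y' := by
      refine mul_le_mul_left ?_ Y'
      rw [← mp_mul, ← mp_one σ]
      exact mp_mono σ h3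
    _ = mp σ H * (mp σ H' * Y') := mul_assoc _ _ _
    _ ≤ mp σ H * X' := mul_le_mul_right k1 _


section order

theorem one_le_M1 (z : ℂ) : 1 ≤ M1 z :=
  Submodule.one_le.mpr (mem_M1.mpr ⟨1, 0, by push_cast; ring⟩)

theorem M1_le {z w : ℂ} (h : w ∈ M1 z) : M1 w ≤ M1 z := by
  rw [M1, Submodule.span_le]
  rintro x (rfl | rfl)
  · exact mem_M1.mpr ⟨1, 0, by push_cast; ring⟩
  · exact h

theorem root_cases {z δ : ℂ} {a b c D : ℤ} (h : (a : ℂ) * z ^ 2 + b * z + c = 0)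
    (hD : b ^ 2 - 4 * a * c = D) (hδ : δ ^ 2 = D) : 2 * a * z + b = δ ∨ 2 * a * z + b = -δ := by
  have h1 : (2 * a * z + b) ^ 2 = δ ^ 2 := by
    rw [hδ, ← hD]
    push_cast
    linear_combination 4 * a * h
  exact sq_eq_sq_iff_eq_or_eq_neg.mp h1

/-- the order of discriminant `D` -/
theorem order_eq {z δ : ℂ} {a b c D : ℤ} (h : (a : ℂ) * z ^ 2 + b * z + c = 0)
    (hD : b ^ 2 - 4 * a * c = D) (hδ : δ ^ 2 = D) : M1 (a * z) = M1 ((D + δ) / 2) := by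
  obtain ⟨e, he⟩ : ∃ e : ℤ, D - b = 2 * e := by
    obtain ⟨k, hk⟩ := Int.even_mul_pred_self b
    exact ⟨k - 2 * a * c, by rw [← hD]; linear_combination hk⟩
  have heC : (D : ℂ) - b = 2 * e := by exact_mod_cast congrArg (Int.cast : ℤ → ℂ) he
  rcases root_cases h hD hδ with h1 | h1
  · apply le_antisymm
    · exact M1_le (mem_M1.mpr ⟨-e - b, 1, by push_cast; linear_combination -h1 / 2 + heC / 2⟩)
    · exact M1_le (mem_M1.mpr ⟨e + b, 1, by push_cast; linear_combination h1 / 2 - heC / 2⟩)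
  · apply le_antisymm
    · exact M1_le (mem_M1.mpr ⟨e, -1, by push_cast; linear_combination -h1 / 2 - heC / 2⟩)
    · exact M1_le (mem_M1.mpr ⟨e, -1, by push_cast; linear_combination -h1 / 2 - heC / 2⟩)

theorem exists_bezout {a b c : ℤ} (hg : Int.gcd (Int.gcd a b) c = 1) :
    ∃ x y z : ℤ, x * a + y * b + z * c = 1 := by
  have hbez1 := Int.gcd_eq_gcd_ab a b
  have hbez2 := Int.gcd_eq_gcd_ab (Int.gcd a b) c
  rw [hg] at hbez2
  refine ⟨Int.gcdA a b * Int.gcdA (Int.gcd a b) c, Int.gcdB a b * Int.gcdA (Int.gcd a b) c,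
    Int.gcdB (Int.gcd a b) c, ?_⟩
  have hb : 1 = (a * Int.gcdA a b + b * Int.gcdB a b) * Int.gcdA (Int.gcd a b) c +
      c * Int.gcdB (Int.gcd a b) c := by
    rw [← hbez1]
    exact_mod_cast hbez2
  linear_combination -hb

theorem conj_root {τ : ℍ} {a b c : ℤ} (h : (a : ℂ) * (τ : ℂ) ^ 2 + b * τ + c = 0) :
    (a : ℂ) * (starRingEnd ℂ τ) ^ 2 + b * (starRingEnd ℂ τ) + c = 0 := by
  have := congrArg (starRingEnd ℂ) h
  simpa only [map_add, map_mul, map_pow, map_intCast, map_zero] using this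

theorem vieta {τ : ℍ} {a b c : ℤ} (h : (a : ℂ) * (τ : ℂ) ^ 2 + b * τ + c = 0) :
    (a : ℂ) * (τ + starRingEnd ℂ τ) = -b ∧ (a : ℂ) * (τ * starRingEnd ℂ τ) = c := by
  have h1 := conj_root h
  have hne : (τ : ℂ) - starRingEnd ℂ τ ≠ 0 := by
    intro h0
    have := congrArg Complex.im h0
    simp at this
    exact τ.im_pos.ne' this
  have h2 : (a : ℂ) * (τ + starRingEnd ℂ τ) = -b := by
    apply mul_left_cancel₀ hne
    linear_combination h - h1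
  exact ⟨h2, by linear_combination τ * h2 - h⟩

/-- **Primitive forms give invertible modules**: `⟨1, τ⟩ · a ⟨1, τ̄⟩ = ⟨1, a τ⟩`. -/
theorem inv_mul {τ : ℍ} {a b c : ℤ} (hg : Int.gcd (Int.gcd a b) c = 1)
    (h : (a : ℂ) * (τ : ℂ) ^ 2 + b * τ + c = 0) :
    M1 τ * (pr a * M1 (starRingEnd ℂ τ)) = M1 (a * τ) := by
  obtain ⟨h1, h2⟩ := vieta h
  set s := starRingEnd ℂ (τ : ℂ)
  apply le_antisymm
  · rw [Submodule.mul_le]
    intro m hm n hn
    obtain ⟨m0, m1, rfl⟩ := mem_M1.mp hm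
    obtain ⟨n', hn', rfl⟩ := mem_pr_mul.mp hn
    obtain ⟨n0, n1, rfl⟩ := mem_M1.mp hn'
    refine mem_M1.mpr ⟨a * m0 * n0 - m0 * n1 * b + m1 * n1 * c, m1 * n0 - m0 * n1, ?_⟩
    push_cast
    linear_combination (-(m0 * n1 : ℂ)) * h1 - (m1 * n1 : ℂ) * h2
  · have k1 : (1 : ℂ) ∈ M1 τ := mem_M1.mpr ⟨1, 0, by push_cast; ring⟩
    have k2 : (τ : ℂ) ∈ M1 τ := mem_M1.mpr ⟨0, 1, by push_cast; ring⟩
    have k3 : (a : ℂ) ∈ pr a * M1 s := mem_pr_mul.mpr ⟨1, mem_M1.mpr ⟨1, 0, by push_cast; ring⟩,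
      by ring⟩
    have k4 : (a : ℂ) * s ∈ pr a * M1 s := mem_pr_mul.mpr ⟨s, mem_M1.mpr ⟨0, 1, by push_cast; ring⟩,
      rfl⟩
    have p1 := Submodule.mul_mem_mul k1 k3
    have p2 := Submodule.mul_mem_mul k2 k3
    have p3 := Submodule.mul_mem_mul k1 k4
    have p4 := Submodule.mul_mem_mul k2 k4
    set P := M1 (τ : ℂ) * (pr a * M1 s)
    obtain ⟨x, y, z, hxyz⟩ := exists_bezout hg
    have hxyz' : (x : ℂ) * a + y * b + z * c = 1 := by exact_mod_cast hxyz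
    rw [M1, Submodule.span_le]
    rintro w (rfl | rfl)
    · have q : (1 : ℂ) = x • (1 * (a : ℂ)) + ((-y) • ((τ : ℂ) * a) + ((-y) • (1 * ((a : ℂ) * s)) +
          z • ((τ : ℂ) * (a * s)))) := by
        simp only [zsmul_eq_mul]
        push_cast
        linear_combination -hxyz' + (y : ℂ) * h1 - (z : ℂ) * h2
      show (1 : ℂ) ∈ P
      rw [q]
      exact P.add_mem (P.smul_mem _ p1) (P.add_mem (P.smul_mem _ p2)
        (P.add_mem (P.smul_mem _ p3) (P.smul_mem _ p4)))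
    · show (a : ℂ) * τ ∈ P
      rw [mul_comm]
      exact p2

theorem order_mul {τ : ℍ} {a b c : ℤ} (h : (a : ℂ) * (τ : ℂ) ^ 2 + b * τ + c = 0) :
    M1 (a * τ) * M1 τ ≤ M1 τ := by
  rw [Submodule.mul_le]
  intro m hm n hn
  obtain ⟨m0, m1, rfl⟩ := mem_M1.mp hm
  obtain ⟨n0, n1, rfl⟩ := mem_M1.mp hn
  refine mem_M1.mpr ⟨m0 * n0 - m1 * n1 * c, m0 * n1 + m1 * n0 * a - m1 * n1 * b, ?_⟩
  push_cast
  linear_combination (-(m1 * n1 : ℂ)) * h

theorem map_root {σ : ℂ →+* ℂ} {z δ : ℂ} {a b c D : ℤ} (ha : a ≠ 0)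
    (h : (a : ℂ) * z ^ 2 + b * z + c = 0) (hD : b ^ 2 - 4 * a * c = D) (hδ : δ ^ 2 = D)
    (hσ : σ δ = δ) : σ z = z := by
  have haC : (2 * a : ℂ) ≠ 0 := mul_ne_zero two_ne_zero (by exact_mod_cast ha)
  rcases root_cases h hD hδ with h1 | h1
  · have h2 := congrArg σ h1
    simp only [map_add, map_mul, map_intCast, map_ofNat, hσ] at h2
    apply mul_left_cancel₀ haC
    linear_combination h2 - h1
  · have h2 := congrArg σ h1
    simp only [map_add, map_mul, map_intCast, map_ofNat, map_neg, hσ] at h2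
    apply mul_left_cancel₀ haC
    linear_combination h2 - h1

end order

/-- the conjugate by `ρ` of the conjugate by `σ` of the lattice `⟨1, τ⟩` -/
theorem conj_conj {D : ℤ} {δ : ℂ} (hδ : δ ^ 2 = D) {ρ : ℂ →+* ℂ} (hρ : ρ δ = δ)
    {τ τ₁ τ₂ τ₁₂ : ℍ} {l₁ l₂ l₁₂ : ℂ} (hl₁ : l₁ ≠ 0)
    {a b c a₁ b₁ c₁ : ℤ} (ha : a ≠ 0) (ha₁ : a₁ ≠ 0)
    (hg : Int.gcd (Int.gcd a b) c = 1) (hg₁ : Int.gcd (Int.gcd a₁ b₁) c₁ = 1)
    (hD : b ^ 2 - 4 * a * c = D) (hD₁ : b₁ ^ 2 - 4 * a₁ * c₁ = D)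
    (h : (a : ℂ) * (τ : ℂ) ^ 2 + b * τ + c = 0) (h₁ : (a₁ : ℂ) * (τ₁ : ℂ) ^ 2 + b₁ * τ₁ + c₁ = 0)
    (hX : IsConj ρ (M1 τ) (pr l₂ * M1 τ₂)) (hY : IsConj ρ (pr l₁ * M1 τ₁) (pr l₁₂ * M1 τ₁₂)) :
    pr l₁₂ * M1 τ₁₂ = pr (ρ l₁ * l₂) * (M1 τ₁ * (pr a * M1 (starRingEnd ℂ τ)) * M1 τ₂) := by
  set J := pr a * M1 (starRingEnd ℂ τ) with hJ
  set J₁ := pr a₁ * M1 (starRingEnd ℂ τ₁) with hJ₁
  set O := M1 ((D + δ) / 2) with hO
  have e1 : M1 τ * J = O := by rw [hJ, inv_mul hg h, order_eq h hD hδ]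
  have e2 : M1 τ₁ * J₁ = O := by rw [hJ₁, inv_mul hg₁ h₁, order_eq h₁ hD₁ hδ]
  have e3 : O * M1 τ ≤ M1 τ := by rw [hO, ← order_eq h hD hδ]; exact order_mul h
  have e4 : O * M1 τ₁ ≤ M1 τ₁ := by rw [hO, ← order_eq h₁ hD₁ hδ]; exact order_mul h₁
  have e5 : pr l₁ * pr l₁⁻¹ = 1 := by rw [pr_mul_pr, mul_inv_cancel₀ hl₁, pr_one]
  have key := hX.eq_mp_mul hY (H := pr l₁ * M1 τ₁ * J) (H' := M1 τ * (pr l₁⁻¹ * J₁)) (by
      calc pr l₁ * M1 τ₁ * J * M1 τ = pr l₁ * (M1 τ * J * M1 τ₁) := by ring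
        _ ≤ pr l₁ * M1 τ₁ := by rw [e1]; exact mul_le_mul_right e4 _) (by
      calc M1 τ * (pr l₁⁻¹ * J₁) * (pr l₁ * M1 τ₁) =
            (pr l₁ * pr l₁⁻¹) * (M1 τ₁ * J₁ * M1 τ) := by ring
        _ ≤ M1 τ := by rw [e5, e2, one_mul]; exact e3) (by
      calc (1 : Submodule ℤ ℂ) = 1 * 1 := (one_mul 1).symm
        _ ≤ O * O := mul_le_mul' (one_le_M1 _) (one_le_M1 _)
        _ = (pr l₁ * pr l₁⁻¹) * ((M1 τ₁ * J₁) * (M1 τ * J)) := by rw [e5, e1, e2, one_mul]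
        _ = pr l₁ * M1 τ₁ * J * (M1 τ * (pr l₁⁻¹ * J₁)) := by ring)
  rw [key, mp_mul, mp_mul, mp_pr, mp_M1, map_root ha₁ h₁ hD₁ hδ hρ, hJ, mp_mul, mp_pr, mp_M1,
    map_intCast, map_root ha (conj_root h) hD hδ hρ, ← pr_mul_pr]
  ring

/-- **Automorphisms over `ℚ(√D)` commute on singular moduli.** -/
theorem conj_comm {D : ℤ} {τ : ℍ} (h : IsCM D τ) {δ : ℂ} (hδ : δ ^ 2 = D) (σ ρ : ℂ ≃+* ℂ)
    (hσ : σ δ = δ) (hρ : ρ δ = δ) : ρ (σ (j τ)) = σ (ρ (j τ)) := by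
  obtain ⟨τ₁, l₁, hl₁, c1, j1⟩ := exists_isConj (σ : ℂ →+* ℂ) τ 1 one_ne_zero
  obtain ⟨τ₂, l₂, hl₂, c2, j2⟩ := exists_isConj (ρ : ℂ →+* ℂ) τ 1 one_ne_zero
  obtain ⟨τ₁₂, l₁₂, hl₁₂, c12, j12⟩ := exists_isConj (ρ : ℂ →+* ℂ) τ₁ l₁ hl₁
  obtain ⟨τ₂₁, l₂₁, hl₂₁, c21, j21⟩ := exists_isConj (σ : ℂ →+* ℂ) τ₂ l₂ hl₂
  have hcm1 : IsCM D τ₁ := h.conj σ j1
  have hcm2 : IsCM D τ₂ := h.conj ρ j2
  obtain ⟨a, b, c, ha, hg, hD, hτ⟩ := h
  obtain ⟨a₁, b₁, c₁, ha₁, hg₁, hD₁, hτ₁⟩ := hcm1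
  obtain ⟨a₂, b₂, c₂, ha₂, hg₂, hD₂, hτ₂⟩ := hcm2
  rw [pp_lattice, pp_lattice, pr_one, one_mul] at c1 c2
  rw [pp_lattice, pp_lattice] at c12 c21
  have k1 := conj_conj hδ (ρ := (ρ : ℂ →+* ℂ)) hρ hl₁ ha.ne' ha₁.ne' hg hg₁ hD hD₁ hτ hτ₁
    c2 c12
  have k2 := conj_conj hδ (ρ := (σ : ℂ →+* ℂ)) hσ hl₂ ha.ne' ha₂.ne' hg hg₂ hD hD₂ hτ hτ₂
    c1 c21
  have hm1 : (ρ : ℂ →+* ℂ) l₁ * l₂ ≠ 0 := mul_ne_zero ((map_ne_zero _).mpr hl₁) hl₂
  have hm2 : (σ : ℂ →+* ℂ) l₂ * l₁ ≠ 0 := mul_ne_zero ((map_ne_zero _).mpr hl₂) hl₁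
  have hfin : j τ₂₁ = j τ₁₂ := by
    refine j_eq_of_homothety hl₁₂ hl₂₁ (κ := ((σ : ℂ →+* ℂ) l₂ * l₁) / ((ρ : ℂ →+* ℂ) l₁ * l₂))
      (div_ne_zero hm2 hm1) ?_
    rw [pp_lattice, pp_lattice, k1, k2, ← mul_assoc (pr (_ / _)), pr_mul_pr, div_mul_cancel₀ _ hm1]
    congr 1
    ring
  have r1 : j τ₁₂ = ρ (σ (j τ)) := by rw [j12, j1]; rfl
  have r2 : j τ₂₁ = σ (ρ (j τ)) := by rw [j21, j2]; rfl
  rw [← r1, ← r2, hfin]

section galois

open Polynomial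

/-- automorphisms of subfields of `ℂ` extend to `ℂ`. -/
theorem exists_extend {E : Type} [Field E] [Algebra E ℂ] (e : E ≃+* E) :
    ∃ σ : ℂ ≃+* ℂ, ∀ x, σ (algebraMap E ℂ x) = algebraMap E ℂ (e x) := by
  obtain ⟨B, hB⟩ := exists_isTranscendenceBasis E ℂ
  obtain ⟨σ, hσ⟩ := IntStr.exists_ringEquiv_of_transcendenceBasis (R := E) _ hB
    (MvPolynomial.mapEquiv _ e)
  refine ⟨σ, fun x => ?_⟩
  have := hσ (MvPolynomial.C x)
  simp only [MvPolynomial.aeval_C, MvPolynomial.mapEquiv_apply, MvPolynomial.map_C] at this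
  exact this

theorem rootSet_classPoly (K : IntermediateField ℚ ℂ) (D : ℤ) :
    ((classPoly D).map (Int.castRingHom K)).rootSet ℂ = singSet D := by
  ext x
  rw [mem_rootSet_of_ne ((classPoly_monic D).map (Int.castRingHom K)).ne_zero]
  have : aeval x ((classPoly D).map (Int.castRingHom K)) = aeval x (classPoly D) :=
    aeval_map_algebraMap K x (classPoly D)
  rw [this, classPoly_aeval_eq_zero_iff]

/-- **The singular moduli of discriminant `D` generate an abelian extension of every field which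
contains `√D`.** -/
theorem isAbelianGalois_singSet {D : ℤ} {δ : ℂ} (hδ : δ ^ 2 = D) (K : IntermediateField ℚ ℂ)
    (hK : δ ∈ K) : IsAbelianGalois K (IntermediateField.adjoin K (singSet D)) := by
  have hsplit : IsSplittingField K (IntermediateField.adjoin K (singSet D))
      ((classPoly D).map (Int.castRingHom K)) := by
    rw [← rootSet_classPoly K D]
    exact IntermediateField.adjoin_rootSet_isSplittingField (IsAlgClosed.splits _)
  have hnormal : Normal K (IntermediateField.adjoin K (singSet D)) :=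
    Normal.of_isSplittingField ((classPoly D).map (Int.castRingHom K))
  have hgal : IsGalois K (IntermediateField.adjoin K (singSet D)) := ⟨⟩
  refine { hgal with is_comm := ⟨fun e₁ e₂ => ?_⟩ }
  have hfix : ∀ e : Gal(IntermediateField.adjoin K (singSet D)/K), ∀ σ : ℂ ≃+* ℂ,
      (∀ x, σ (algebraMap (IntermediateField.adjoin K (singSet D)) ℂ x) =
        algebraMap (IntermediateField.adjoin K (singSet D)) ℂ (e x)) → σ δ = δ := by
    intro e σ hσ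
    have h1 := hσ (algebraMap K _ ⟨δ, hK⟩)
    rw [e.commutes] at h1
    exact h1
  obtain ⟨σ₁, h1⟩ := exists_extend e₁.toRingEquiv
  obtain ⟨σ₂, h2⟩ := exists_extend e₂.toRingEquiv
  have f1 := hfix e₁ σ₁ h1
  have f2 := hfix e₂ σ₂ h2
  have key : (e₁ * e₂ : Gal(IntermediateField.adjoin K (singSet D)/K)).toAlgHom =
      (e₂ * e₁ : Gal(IntermediateField.adjoin K (singSet D)/K)).toAlgHom := by
    refine IntermediateField.adjoin_algHom_ext K fun x hx => ?_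
    apply (algebraMap (IntermediateField.adjoin K (singSet D)) ℂ).injective
    show algebraMap _ ℂ (e₁ (e₂ ⟨x, _⟩)) = algebraMap _ ℂ (e₂ (e₁ ⟨x, _⟩))
    have g1 := h1 (e₂ ⟨x, IntermediateField.subset_adjoin _ _ hx⟩)
    have g2 := h2 ⟨x, IntermediateField.subset_adjoin _ _ hx⟩
    have g3 := h2 (e₁ ⟨x, IntermediateField.subset_adjoin _ _ hx⟩)
    have g4 := h1 ⟨x, IntermediateField.subset_adjoin _ _ hx⟩
    have g5 : σ₁ (σ₂ x) = σ₂ (σ₁ x) := by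
      obtain ⟨τ, hτ, hjτ⟩ := hx
      rw [← hjτ]
      exact conj_comm hτ hδ σ₂ σ₁ f2 f1
    have g2' : σ₂ x = algebraMap (IntermediateField.adjoin K (singSet D)) ℂ
      (e₂ ⟨x, IntermediateField.subset_adjoin _ _ hx⟩) := g2
    have g4' : σ₁ x = algebraMap (IntermediateField.adjoin K (singSet D)) ℂ
      (e₁ ⟨x, IntermediateField.subset_adjoin _ _ hx⟩) := g4
    rw [g2', g4'] at g5
    exact (g1.symm.trans g5).trans g3
  exact AlgEquiv.ext fun x => DFunLike.congr_fun key x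

/-- **The main theorem of complex multiplication** (weak form): if `τ` is quadratic of
discriminant `D` and the field `K` contains `√D`, then `K(j(τ))` is an abelian extension of `K`. -/
theorem isAbelianGalois_j {D : ℤ} {τ : ℍ} (h : IsCM D τ) {δ : ℂ} (hδ : δ ^ 2 = D)
    (K : IntermediateField ℚ ℂ) (hK : δ ∈ K) : IsAbelianGalois K (IntermediateField.adjoin K {j τ}) := by
  have h1 := isAbelianGalois_singSet hδ K hK
  have hle : IntermediateField.adjoin K {j τ} ≤ IntermediateField.adjoin K (singSet D) :=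
    IntermediateField.adjoin.mono _ _ _ (Set.singleton_subset_iff.mpr ⟨τ, h, rfl⟩)
  exact IsAbelianGalois.of_algHom (IntermediateField.inclusion hle)

/-- If `τ` is a root of `a τ² + b τ + c`, then `K(j(τ))/K` is abelian for `K = ℚ(τ)`. -/
theorem isAbelianGalois_of_quadratic {τ : ℍ} {a b c : ℤ} (ha : a ≠ 0)
    (h : (a : ℂ) * (τ : ℂ) ^ 2 + b * τ + c = 0) :
    IsAbelianGalois (IntermediateField.adjoin ℚ {(τ : ℂ)})
      (IntermediateField.adjoin (IntermediateField.adjoin ℚ {(τ : ℂ)}) {j τ}) := by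
  obtain ⟨k, D, hk, hD, hcm⟩ := exists_primitive ha h
  obtain ⟨a', b', c', ha', -, hD', h'⟩ := id hcm
  refine isAbelianGalois_j hcm (δ := 2 * a' * τ + b') ?_ _ ?_
  · rw [← hD']
    push_cast
    linear_combination 4 * a' * h'
  · have h1 : (τ : ℂ) ∈ IntermediateField.adjoin ℚ {(τ : ℂ)} :=
      IntermediateField.mem_adjoin_simple_self ℚ _
    exact add_mem (mul_mem (mul_mem (ofNat_mem _ 2) (intCast_mem _ a')) h1) (intCast_mem _ b')

end galois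

end Fermat.Agent.Cor.CM
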