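import Mathlib
import Fermat.Agent.Cor.Hasse
import Fermat.Agent.Frob.MulN

/-!
# The Weil conjectures for elliptic curves

Let `E` be an elliptic curve over a finite field with `q` elements, `a = q + 1 - #E(𝔽_q)`. There are complex numbers
`α`, `β` with `α + β = a`, `α β = q`, `|α| = |β| = √q` and `#E(𝔽_{q^n}) = q ^ n + 1 - α ^ n - β ^ n` for all `n`. The zeta
function is `(1 - a T + q T²) / ((1 - T) (1 - q T))`.

This file is not used by any of the statement files.
-/

set_option autoImplicit false

namespace Fermat.Agent.Cor.Bounds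

open Polynomial WeierstrassCurve WeierstrassCurve.Affine WeierstrassCurve.Affine.Point
open Fermat.Agent.Frob Fermat.Agent.H08

universe u v w

/-! ### The Lucas sequence -/

/-- `V n = α ^ n + β ^ n` for the roots `α`, `β` of `T ^ 2 - a T + q`. -/
def lucasV (a q : ℤ) : ℕ → ℤ
  | 0 => 2
  | 1 => a
  | (n + 2) => a * lucasV a q (n + 1) - q * lucasV a q n

lemma lucasV_eq {R : Type*} [Ring R] {x y : R} {a q : ℤ} (hc : Commute x y) (hs : x + y = a)
    (hd : x * y = q) (n : ℕ) : x ^ n + y ^ n = lucasV a q n := by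
  induction n using Nat.strong_induction_on with
  | _ n ih =>
    match n, ih with
    | 0, _ => simp only [pow_zero, lucasV]; norm_num
    | 1, _ => simpa [lucasV] using hs
    | (n + 2), ih =>
      have h1 := ih (n + 1) (by omega)
      have h2 := ih n (by omega)
      rw [lucasV, Int.cast_sub, Int.cast_mul, Int.cast_mul, ← h1, ← h2, ← hs, ← hd]
      have e1 : y * x ^ (n + 1) = x ^ (n + 1) * y := (hc.pow_left (n + 1)).eq.symm
      have e2 : x * y * y ^ n = x * y ^ (n + 1) := by rw [mul_assoc, ← pow_succ']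
      have e3 : x * y * x ^ n = x ^ (n + 1) * y := by
        rw [mul_assoc, (hc.pow_left n).eq.symm, ← mul_assoc, ← pow_succ']
      rw [add_mul, mul_add, mul_add, mul_add, e1, e2, e3, ← pow_succ', ← pow_succ',
        pow_succ' x (n + 1)]
      have e4 : x ^ (n + 1 + 1) = x * x ^ (n + 1) := pow_succ' x (n + 1)
      abel

/-! ### Transport of points along equalities of curves -/

section cast

variable {K : Type*} [Field K] [DecidableEq K] {W₁ W₂ : WeierstrassCurve.Affine K}

/-- points on equal curves -/
noncomputable def castPt (h : W₁ = W₂) : W₁.Point ≃+ W₂.Point := by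
  subst h; exact AddEquiv.refl _

lemma px_castPt (h : W₁ = W₂) (P : W₁.Point) : px (castPt h P) = px P := by
  subst h; rfl

lemma py_castPt (h : W₁ = W₂) (P : W₁.Point) : py (castPt h P) = py P := by
  subst h; rfl

end cast

/-! ### The trace over an extension -/

/-- the algebraic part of the argument -/
lemma kill_of_relations {A : Type*} [AddCommGroup A] (φ : A →+ A) {a q a' : ℤ} (n : ℕ)
    (hrel : ∀ P, φ (φ P) - a • φ P + q • P = 0)
    (hrel' : ∀ P, φ^[n] (φ^[n] P) - a' • φ^[n] P + (q ^ n) • P = 0) (P : A) :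
    ((a' - lucasV a q n) * q ^ n) • P = 0 := by
  let x : AddMonoid.End A := φ
  have hx : ∀ (k : ℕ) (Q : A), (x ^ k) Q = φ^[k] Q := fun k Q => by
    rw [AddMonoid.End.coe_pow]
    rfl
  have hrel1 : x * x - (a : AddMonoid.End A) * x + (q : AddMonoid.End A) = 0 := by
    ext Q
    exact hrel Q
  let y : AddMonoid.End A := (a : AddMonoid.End A) - x
  have hc : Commute x y := (Int.cast_commute a x).symm.sub_right (Commute.refl x)
  have hs : x + y = (a : ℤ) := add_sub_cancel x _
  have hd : x * y = (q : ℤ) := by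
    have h1 : x * (a : AddMonoid.End A) = a * x := (Int.cast_commute a x).eq.symm
    have h2 : x * y = x * a - x * x := mul_sub x _ _
    rw [h2, h1]
    have h3 : (a : AddMonoid.End A) * x - x * x = q - (x * x - a * x + q) := by abel
    rw [h3, hrel1, sub_zero]
  have hV := lucasV_eq hc hs hd n
  set V := lucasV a q n with hVdef
  have h1 : y ^ n * x ^ n = ((q ^ n : ℤ) : AddMonoid.End A) := by
    rw [← hc.symm.mul_pow, ← hc.eq, hd, Int.cast_pow]
  have h2 : x ^ n * x ^ n - (V : AddMonoid.End A) * x ^ n + ((q ^ n : ℤ) : AddMonoid.End A) = 0 := by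
    rw [← hV, ← h1, add_mul]
    abel
  have h3 : (x ^ n) ((x ^ n) P) - V • (x ^ n) P + (q ^ n : ℤ) • P = 0 := DFunLike.congr_fun h2 P
  have h4 : (a' - V) • (x ^ n) P = 0 := by
    have h5 := hrel' P
    rw [← hx, ← hx] at h5
    rw [sub_smul]
    have h6 : a' • (x ^ n) P - V • (x ^ n) P = ((x ^ n) ((x ^ n) P) - V • (x ^ n) P +
        (q ^ n : ℤ) • P) - ((x ^ n) ((x ^ n) P) - a' • (x ^ n) P + (q ^ n : ℤ) • P) := by abel
    rw [h6, h5, h3, sub_self]
  have h8 : (y ^ n) ((x ^ n) P) = (q ^ n : ℤ) • P := DFunLike.congr_fun h1 P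
  rw [mul_smul, ← h8, ← map_zsmul, h4, _root_.map_zero]

section main

variable {F : Type u} [Field F] [Fintype F] {F' : Type v} [Field F'] [Fintype F'] [Algebra F F']

/-- **The trace of Frobenius over an extension of degree `n`** is `α ^ n + β ^ n`. -/
theorem trace_map (W : WeierstrassCurve F) (hΔ : W.Δ ≠ 0) :
    (W.map (algebraMap F F')).traceOfFrobenius =
      lucasV W.traceOfFrobenius (Fintype.card F) (Module.finrank F F') := by
  classical
  set n := Module.finrank F F' with hn
  let K := AlgebraicClosure F'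
  have hell : W.IsElliptic := ⟨isUnit_iff_ne_zero.mpr hΔ⟩
  have hΔ' : (W.map (algebraMap F F')).Δ ≠ 0 := by
    rw [WeierstrassCurve.map_Δ]
    exact (_root_.map_ne_zero _).mpr hΔ
  have hcurve : (((W.map (algebraMap F F')).toAffine)⁄K : WeierstrassCurve.Affine K) =
      ((W.toAffine)⁄K : WeierstrassCurve.Affine K) := by
    change (W.map (algebraMap F F')).map (algebraMap F' K) = W.map (algebraMap F K)
    rw [WeierstrassCurve.map_map, ← IsScalarTower.algebraMap_eq]
  -- the two Frobenius endomorphisms
  let φ : ((W.toAffine)⁄K).Point →+ ((W.toAffine)⁄K).Point :=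
    Point.map (W' := W.toAffine) (FiniteField.frobeniusAlgHom F K)
  let e := castPt hcurve
  have hpow : ∀ (k : ℕ) (P : ((W.toAffine)⁄K).Point), P ≠ 0 → φ^[k] P ≠ 0 ∧
      px (φ^[k] P) = px P ^ (Fintype.card F ^ k) ∧
      py (φ^[k] P) = py P ^ (Fintype.card F ^ k) := by
    intro k
    induction k with
    | zero => intro P hP; simpa using hP
    | succ k ih =>
      intro P hP
      obtain ⟨h1, h2, h3⟩ := ih P hP
      rw [Function.iterate_succ_apply']
      refine ⟨map_ne_zero' _ h1, ?_, ?_⟩
      · change px (Point.map _ _) = _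
        rw [px_map, FiniteField.coe_frobeniusAlgHom]
        change px (φ^[k] P) ^ Fintype.card F = _
        rw [h2, ← pow_mul, ← pow_succ]
      · change py (Point.map _ _) = _
        rw [py_map, FiniteField.coe_frobeniusAlgHom]
        change py (φ^[k] P) ^ Fintype.card F = _
        rw [h3, ← pow_mul, ← pow_succ]
  have hcard : Fintype.card F' = Fintype.card F ^ n := by
    rw [hn]; exact Module.card_eq_pow_finrank
  have hcomp : ∀ P, e (Point.map (W' := (W.map (algebraMap F F')).toAffine)
      (FiniteField.frobeniusAlgHom F' K) P) = φ^[n] (e P) := by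
    intro P
    by_cases hP : P = 0
    · rw [hP, _root_.map_zero, _root_.map_zero]
      exact (Function.iterate_fixed (_root_.map_zero φ) n).symm
    have heP : e P ≠ 0 := (EmbeddingLike.map_ne_zero_iff (f := e)).mpr hP
    obtain ⟨h1, h2, h3⟩ := hpow n (e P) heP
    apply pt_ext ((EmbeddingLike.map_ne_zero_iff (f := e)).mpr (map_ne_zero' _ hP)) h1
    · rw [px_castPt, px_map, FiniteField.coe_frobeniusAlgHom, h2, px_castPt, ← hcard]
    · rw [py_castPt, py_map, FiniteField.coe_frobeniusAlgHom, h3, py_castPt, ← hcard]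
  have hkill := kill_of_relations φ (a := W.traceOfFrobenius) (q := (Fintype.card F : ℤ))
    (a' := (W.map (algebraMap F F')).traceOfFrobenius) n
    (fun P => frobenius_relation' (K := K) W hΔ P) (by
      intro P
      have h := frobenius_relation' (K := K) (W.map (algebraMap F F')) hΔ' (e.symm P)
      have h2 := congrArg e h
      rw [map_add, _root_.map_sub, map_zsmul, map_zsmul, hcomp, hcomp, e.apply_symm_apply,
        _root_.map_zero, hcard, Nat.cast_pow] at h2
      exact h2)
  set m := ((W.map (algebraMap F F')).traceOfFrobenius -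
    lucasV W.traceOfFrobenius (Fintype.card F) n) * (Fintype.card F : ℤ) ^ n with hmdef
  have hm : m = 0 := by
    by_contra hne
    obtain ⟨P, hP, -⟩ := exists_point_over (W := W.toAffine) (K := K) 0
    obtain ⟨Q, hQ⟩ := nsmul_surjective (K := K) W.toAffine (Int.natAbs_ne_zero.mpr hne) P
    apply hP
    rw [← hQ]
    rcases Int.natAbs_eq m with h | h
    · rw [← natCast_zsmul, ← h]; exact hkill Q
    · have h1 := hkill Q
      rw [h, neg_smul, neg_eq_zero, natCast_zsmul] at h1
      exact h1
  have hq0 : (Fintype.card F : ℤ) ^ n ≠ 0 :=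
    pow_ne_zero _ (by exact_mod_cast Fintype.card_ne_zero)
  rcases mul_eq_zero.mp hm with h | h
  · exact sub_eq_zero.mp h
  · exact absurd h hq0

end main

end Fermat.Agent.Cor.Bounds
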