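import Mathlib
import Fermat.Agent.Cor.Weil

/-!
# The zeta function of an elliptic curve over a finite field

Rationality, functional equation and Riemann hypothesis.

This file is not used by any of the statement files.
-/

set_option autoImplicit false

namespace Fermat.Agent.Cor.Bounds

open WeierstrassCurve

universe u v w

/-- the roots of the characteristic polynomial of Frobenius -/
lemma exists_roots_of_sq_le {a : ℤ} {q : ℕ} (h : a ^ 2 ≤ 4 * q) :
    ∃ α β : ℂ, α + β = a ∧ α * β = q ∧ ‖α‖ = √q ∧ ‖β‖ = √q := by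
  set s : ℝ := √(4 * q - a ^ 2) with hs
  have h1 : (0 : ℝ) ≤ 4 * q - a ^ 2 := by
    have : ((a ^ 2 : ℤ) : ℝ) ≤ ((4 * q : ℤ) : ℝ) := by exact_mod_cast h
    push_cast at this
    linarith
  have hs2 : s ^ 2 = 4 * q - a ^ 2 := Real.sq_sqrt h1
  set α : ℂ := ⟨a / 2, s / 2⟩ with hα
  have hn : Complex.normSq α = q := by
    rw [Complex.normSq_apply, hα]
    change (a / 2 : ℝ) * (a / 2) + s / 2 * (s / 2) = q
    nlinarith
  have hnorm : ‖α‖ = √q := by
    rw [Complex.norm_def, hn]
  refine ⟨α, (starRingEnd ℂ) α, ?_, ?_, hnorm, ?_⟩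
  · rw [Complex.add_conj]
    change ((2 * (a / 2 : ℝ) : ℝ) : ℂ) = a
    push_cast
    ring
  · rw [Complex.mul_conj, hn]
    simp
  · rw [Complex.norm_conj, hnorm]

section main

variable {F : Type u} [Field F] [Fintype F]

/-- **The Weil conjectures for elliptic curves** (numbers of points). -/
theorem weil (W : WeierstrassCurve F) (hΔ : W.Δ ≠ 0) :
    ∃ α β : ℂ, α + β = W.traceOfFrobenius ∧ α * β = Fintype.card F ∧
      ‖α‖ = √(Fintype.card F) ∧ ‖β‖ = √(Fintype.card F) ∧
      ∀ (F' : Type v) [Field F'] [Fintype F'] [Algebra F F'],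
        (Nat.card (W.map (algebraMap F F')).toAffine.Point : ℂ) =
          (Fintype.card F : ℂ) ^ Module.finrank F F' + 1 - α ^ Module.finrank F F' -
            β ^ Module.finrank F F' := by
  obtain ⟨α, β, h1, h2, h3, h4⟩ := exists_roots_of_sq_le (hasse_sq_le W hΔ)
  refine ⟨α, β, h1, h2, h3, h4, fun F' _ _ _ => ?_⟩
  have h5 := trace_map (F' := F') W hΔ
  have h6 := lucasV_eq (Commute.all α β) h1 (q := (Fintype.card F : ℤ)) (by rw [h2]; push_cast; rfl)
    (Module.finrank F F')
  rw [← h5, traceOfFrobenius, card, Nat.card_eq_fintype_card (α := F'),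
    Module.card_eq_pow_finrank (K := F) (V := F')] at h6
  push_cast at h6
  linear_combination h6

/-! ### The zeta function -/

open PowerSeries in
/-- `∑ V_{m+1} X ^ m` -/
lemma lucas_series (a q : ℤ) :
    (PowerSeries.mk fun m => (lucasV a q (m + 1) : ℚ)) * (1 - C (a : ℚ) * X + C (q : ℚ) * X ^ 2) =
      C (a : ℚ) - C (2 * q : ℚ) * X := by
  have h : (PowerSeries.mk fun m => (lucasV a q (m + 1) : ℚ)) * (1 - C (a : ℚ) * X + C (q : ℚ) * X ^ 2) =
      (PowerSeries.mk fun m => (lucasV a q (m + 1) : ℚ)) -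
        C (a : ℚ) * ((PowerSeries.mk fun m => (lucasV a q (m + 1) : ℚ)) * X) +
        C (q : ℚ) * ((PowerSeries.mk fun m => (lucasV a q (m + 1) : ℚ)) * X ^ 2) := by ring
  rw [h]
  ext m
  rw [map_add, map_sub, map_sub, coeff_C_mul, coeff_C_mul, coeff_C_mul, coeff_mk]
  match m with
  | 0 =>
    simp [lucasV]
  | 1 =>
    rw [coeff_succ_mul_X, coeff_mk, coeff_mul_X_pow', if_neg (by norm_num), coeff_one_X, coeff_C,
      if_neg (by norm_num)]
    simp only [lucasV]
    push_cast
    ring
  | (m + 2) =>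
    rw [coeff_succ_mul_X, coeff_mk, coeff_mul_X_pow, coeff_mk, coeff_C, if_neg (by omega), coeff_X,
      if_neg (by omega)]
    simp only [lucasV]
    push_cast
    ring

open PowerSeries in
lemma geom_series (r : ℚ) : (PowerSeries.mk fun m => r ^ (m + 1)) * (1 - C r * X) = C r := by
  have h : (PowerSeries.mk fun m => r ^ (m + 1)) * (1 - C r * X) =
      (PowerSeries.mk fun m => r ^ (m + 1)) - C r * ((PowerSeries.mk fun m => r ^ (m + 1)) * X) := by
    ring
  rw [h]
  ext m
  rw [map_sub, coeff_C_mul, coeff_mk]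
  match m with
  | 0 => simp
  | (m + 1) =>
    rw [coeff_succ_mul_X, coeff_mk, coeff_C, if_neg (by omega)]
    ring

variable (p : ℕ) [Fact p.Prime] [CharP F p]

/-- the number of points over the extension of degree `n` -/
noncomputable def cardExt (W : WeierstrassCurve F) (n : ℕ) : ℕ :=
  if h : n = 0 then 0 else
    haveI : NeZero n := ⟨h⟩
    Nat.card (W.map (algebraMap F (FiniteField.Extension F p n))).toAffine.Point

/-- **The zeta function** `exp (∑ #E(𝔽_{q^n}) T ^ n / n)`. -/
noncomputable def zetaSeries (W : WeierstrassCurve F) : PowerSeries ℚ :=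
  (PowerSeries.exp ℚ).subst (PowerSeries.mk fun n => (cardExt p W n : ℚ) / n)

lemma cardExt_eq (W : WeierstrassCurve F) (hΔ : W.Δ ≠ 0) (n : ℕ) :
    (cardExt p W (n + 1) : ℤ) = (Fintype.card F : ℤ) ^ (n + 1) + 1 -
      lucasV W.traceOfFrobenius (Fintype.card F) (n + 1) := by
  rw [cardExt, dif_neg (Nat.succ_ne_zero n)]
  have : NeZero (n + 1) := ⟨Nat.succ_ne_zero n⟩
  have : Fintype (FiniteField.Extension F p (n + 1)) := Fintype.ofFinite _
  have h := trace_map (F' := FiniteField.Extension F p (n + 1)) W hΔ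
  rw [traceOfFrobenius, card, FiniteField.natCard_extension, FiniteField.finrank_extension,
    Nat.card_eq_fintype_card (α := F)] at h
  push_cast at h
  linear_combination -h

open PowerSeries in
/-- **Rationality of the zeta function**: `Z(T) = (1 - a T + q T²) / ((1 - T) (1 - q T))`. -/
theorem zetaSeries_mul (W : WeierstrassCurve F) (hΔ : W.Δ ≠ 0) :
    zetaSeries p W * ((1 - X) * (1 - C (Fintype.card F : ℚ) * X)) =
      1 - C (W.traceOfFrobenius : ℚ) * X + C (Fintype.card F : ℚ) * X ^ 2 := by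
  set q : ℚ := (Fintype.card F : ℚ) with hq
  set a : ℚ := (W.traceOfFrobenius : ℚ) with ha
  set S : PowerSeries ℚ := PowerSeries.mk fun n => (cardExt p W n : ℚ) / n with hS
  have hS0 : constantCoeff S = 0 := by
    rw [← coeff_zero_eq_constantCoeff_apply, hS, coeff_mk]
    simp
  have hsub : HasSubst S := HasSubst.of_constantCoeff_zero' hS0
  have hZ : zetaSeries p W = (PowerSeries.exp ℚ).subst S := rfl
  have hdZ : d⁄dX ℚ (zetaSeries p W) = zetaSeries p W * d⁄dX ℚ S := by
    rw [hZ, derivative_subst hsub, derivative_exp]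
  have hZ0 : constantCoeff (zetaSeries p W) = 1 := by
    have h1 : (PowerSeries.exp ℚ).subst S = 1 + (PowerSeries.exp ℚ - 1).subst S := by
      rw [← coe_substAlgHom hsub, map_sub, map_one]
      ring
    have h2 : constantCoeff ((PowerSeries.exp ℚ - 1).subst S : PowerSeries ℚ) = 0 :=
      constantCoeff_subst_eq_zero hS0 _ (by simp)
    rw [hZ, h1, map_add, h2, map_one, add_zero]
  -- the derivative of `S`
  have hdS : d⁄dX ℚ S = (PowerSeries.mk fun m => q ^ (m + 1)) + (PowerSeries.mk fun m => 1 ^ (m + 1)) -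
      (PowerSeries.mk fun m => (lucasV W.traceOfFrobenius (Fintype.card F) (m + 1) : ℚ)) := by
    ext m
    rw [coeff_derivative, hS, coeff_mk, map_sub, map_add, coeff_mk, coeff_mk, coeff_mk, one_pow]
    have h1 := cardExt_eq p W hΔ m
    have h2 : ((cardExt p W (m + 1) : ℕ) : ℚ) = q ^ (m + 1) + 1 -
        (lucasV W.traceOfFrobenius (Fintype.card F) (m + 1) : ℚ) := by
      have h3 := congrArg (Int.cast (R := ℚ)) h1
      push_cast at h3
      exact h3
    rw [h2]
    have h4 : ((m : ℚ) + 1) ≠ 0 := by positivity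
    push_cast
    field_simp
  have hA := geom_series q
  have hB := geom_series 1
  have hC := lucas_series W.traceOfFrobenius (Fintype.card F)
  rw [map_one, one_mul] at hB
  have e1 : (((Fintype.card F : ℕ) : ℤ) : ℚ) = q := by push_cast; rfl
  rw [e1] at hC
  set A : PowerSeries ℚ := PowerSeries.mk fun m => q ^ (m + 1)
  set B : PowerSeries ℚ := PowerSeries.mk fun m => (1 : ℚ) ^ (m + 1)
  set V : PowerSeries ℚ := PowerSeries.mk fun m =>
    (lucasV W.traceOfFrobenius (Fintype.card F) (m + 1) : ℚ)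
  set Z := zetaSeries p W
  set P : PowerSeries ℚ := 1 - C a * X + C q * X ^ 2 with hP
  set D : PowerSeries ℚ := (1 - X) * (1 - C q * X) with hD
  have hdP : d⁄dX ℚ P = C (2 * q) * X - C a := by
    rw [hP]
    simp only [map_add, map_sub, Derivation.leibniz, derivative_C, derivative_X, derivative_pow,
      Derivation.map_one_eq_zero, smul_eq_mul]
    rw [map_mul, map_ofNat]
    push_cast
    ring
  have hdD : d⁄dX ℚ D = -(1 - C q * X) - C q * (1 - X) := by
    rw [hD]
    simp only [map_sub, Derivation.leibniz, derivative_C, derivative_X,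
      Derivation.map_one_eq_zero, smul_eq_mul]
    ring
  have hode : d⁄dX ℚ (Z * D) * P = Z * D * d⁄dX ℚ P := by
    rw [Derivation.leibniz, smul_eq_mul, smul_eq_mul, hdZ, hdS, hdP, hdD]
    rw [hD]
    linear_combination Z * P * (1 - X) * hA + Z * P * (1 - C q * X) * hB -
      Z * (1 - X) * (1 - C q * X) * hC
  have hP0 : constantCoeff P = 1 := by rw [hP]; simp
  have hD0 : constantCoeff D = 1 := by rw [hD]; simp
  have hPne : constantCoeff P ≠ 0 := by rw [hP0]; exact one_ne_zero
  have hg : Z * D * P⁻¹ = 1 := by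
    apply derivative.ext
    · rw [Derivation.leibniz, smul_eq_mul, smul_eq_mul, derivative_inv', Derivation.map_one_eq_zero]
      have h1 : P * P⁻¹ = 1 := PowerSeries.mul_inv_cancel P hPne
      linear_combination P⁻¹ ^ 2 * hode - P⁻¹ * d⁄dX ℚ (Z * D) * h1
    · rw [map_mul, map_mul, hZ0, hD0, constantCoeff_inv, hP0]
      simp
  have h1 : P * P⁻¹ = 1 := PowerSeries.mul_inv_cancel P hPne
  calc Z * D = (Z * D * P⁻¹) * P := by linear_combination -(Z * D) * h1
    _ = P := by rw [hg, one_mul]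

/-- **The functional equation** of the rational function `Z(T) = (1 - a T + q T²) / ((1 - T) (1 - q T))`:
`Z(1 / (q T)) = Z(T)`. -/
theorem zeta_functional_equation (W : WeierstrassCurve F) {T : ℂ} (hT : T ≠ 0) :
    (1 - (W.traceOfFrobenius : ℂ) * (1 / (Fintype.card F * T)) +
        (Fintype.card F : ℂ) * (1 / (Fintype.card F * T)) ^ 2) /
      ((1 - 1 / (Fintype.card F * T)) * (1 - (Fintype.card F : ℂ) * (1 / (Fintype.card F * T)))) =
    (1 - (W.traceOfFrobenius : ℂ) * T + (Fintype.card F : ℂ) * T ^ 2) /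
      ((1 - T) * (1 - (Fintype.card F : ℂ) * T)) := by
  have hq : (Fintype.card F : ℂ) ≠ 0 := by exact_mod_cast Fintype.card_ne_zero
  set q : ℂ := (Fintype.card F : ℂ)
  set a : ℂ := (W.traceOfFrobenius : ℂ)
  have h1 : (1 - a * (1 / (q * T)) + q * (1 / (q * T)) ^ 2) = (1 - a * T + q * T ^ 2) / (q * T ^ 2) := by
    field_simp
    ring
  have h2 : (1 - 1 / (q * T)) * (1 - q * (1 / (q * T))) = ((1 - T) * (1 - q * T)) / (q * T ^ 2) := by
    field_simp
    ring
  rw [h1, h2, div_div_div_cancel_right₀ (by positivity)]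

/-- **The Riemann hypothesis** for the zeta function of an elliptic curve over a finite field: all the zeros of
`1 - a q^(-s) + q^(1-2s)` have real part `1/2`. -/
theorem riemannHypothesis (W : WeierstrassCurve F) (hΔ : W.Δ ≠ 0) {s : ℂ}
    (h : 1 - (W.traceOfFrobenius : ℂ) * (Fintype.card F : ℂ) ^ (-s) +
      (Fintype.card F : ℂ) * ((Fintype.card F : ℂ) ^ (-s)) ^ 2 = 0) : s.re = 1 / 2 := by
  obtain ⟨α, β, h1, h2, h3, h4⟩ := exists_roots_of_sq_le (hasse_sq_le W hΔ)
  have hq1 : 1 < Fintype.card F := Fintype.one_lt_card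
  have hq1' : (1 : ℝ) < Fintype.card F := by exact_mod_cast hq1
  set T : ℂ := (Fintype.card F : ℂ) ^ (-s) with hT
  have hnT : ‖T‖ = (Fintype.card F : ℝ) ^ (-s.re) := by
    rw [hT, Complex.norm_natCast_cpow_of_pos (by omega), Complex.neg_re]
  have h5 : (1 - α * T) * (1 - β * T) = 0 := by
    rw [← h, ← h1, ← h2]; ring
  have key : ∀ γ : ℂ, ‖γ‖ = √(Fintype.card F) → 1 - γ * T = 0 → s.re = 1 / 2 := by
    intro γ hγ h6
    have h7 : ‖γ * T‖ = 1 := by rw [← sub_eq_zero.mp h6, norm_one]
    rw [norm_mul, hγ, hnT, Real.sqrt_eq_rpow, ← Real.rpow_add (by linarith)] at h7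
    have h8 := (Real.rpow_right_inj (by linarith) hq1'.ne').mp
      (h7.trans (Real.rpow_zero (Fintype.card F : ℝ)).symm)
    linarith
  rcases mul_eq_zero.mp h5 with h6 | h6
  · exact key α h3 h6
  · exact key β h4 h6

end main

end Fermat.Agent.Cor.Bounds
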