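import Mathlib
import Fermat.Agent.Cor.WeilZeta

/-!
# Supersingular elliptic curves: Deuring's criterion

Let `E` be an elliptic curve over a finite field of characteristic `p` with trace of Frobenius `a`. Then `p ∣ a` if and
only if `E` has no points of order `p` over the algebraic closure.

This file is not used by any of the statement files.
-/

set_option autoImplicit false

namespace Fermat.Agent.Cor.Bounds

open WeierstrassCurve WeierstrassCurve.Affine WeierstrassCurve.Affine.Point
open Fermat.Agent.Frob Fermat.Agent.H08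

universe u v

lemma lucasV_modEq {a q : ℤ} {p : ℕ} (hq : (p : ℤ) ∣ q) (n : ℕ) :
    lucasV a q (n + 1) ≡ a ^ (n + 1) [ZMOD p] := by
  induction n with
  | zero => simp [lucasV]
  | succ n ih =>
    have h1 : lucasV a q (n + 1 + 1) = a * lucasV a q (n + 1) - q * lucasV a q n := rfl
    rw [h1, pow_succ']
    have h2 : q * lucasV a q n ≡ 0 [ZMOD p] := (Int.modEq_zero_iff_dvd).mpr (Dvd.dvd.mul_right hq _)
    have h3 := (ih.mul_left a).sub h2
    rwa [sub_zero] at h3

section main

variable {F : Type u} [Field F] [Fintype F] {p : ℕ}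

lemma dvd_card_field [CharP F p] : (p : ℤ) ∣ (Fintype.card F : ℤ) := by
  have h : p ∣ Fintype.card F := by
    rw [← CharP.cast_eq_zero_iff F p]
    exact FiniteField.cast_card_eq_zero F
  exact_mod_cast h

variable [hp : Fact p.Prime] [CharP F p]

omit hp in
/-- **Supersingular implies no `p`-torsion.** -/
theorem eq_zero_of_dvd_trace (W : WeierstrassCurve F) (hΔ : W.Δ ≠ 0)
    (h : (p : ℤ) ∣ W.traceOfFrobenius) {K : Type v} [Field K] [IsAlgClosed K] [Algebra F K]
    [DecidableEq K] {P : (W⁄K).Point} (hP : p • P = 0) : P = 0 := by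
  have hrel := frobenius_relation' (K := K) W hΔ P
  set φ : (W⁄K).Point →+ (W⁄K).Point :=
    Point.map (W' := W.toAffine) (FiniteField.frobeniusAlgHom F K) with hφ
  have h1 : W.traceOfFrobenius • φ P = 0 := by
    obtain ⟨c, hc⟩ := h
    have h3 : (p : ℤ) • φ P = 0 := by rw [natCast_zsmul, ← map_nsmul, hP, _root_.map_zero]
    rw [hc, mul_comm, mul_smul, h3, smul_zero]
  have h2 : (Fintype.card F : ℤ) • P = 0 := by
    obtain ⟨c, hc⟩ := dvd_card_field (F := F) (p := p)
    rw [hc, mul_comm, mul_smul, natCast_zsmul, hP, smul_zero]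
  rw [h1, h2, sub_zero, add_zero] at hrel
  by_contra hne
  exact map_ne_zero' (W := W.toAffine) _ (map_ne_zero' (W := W.toAffine) _ hne) hrel

/-- **Ordinary implies `p`-torsion.** -/
theorem exists_torsion_of_not_dvd (W : WeierstrassCurve F) (hΔ : W.Δ ≠ 0)
    (h : ¬ (p : ℤ) ∣ W.traceOfFrobenius) {K : Type v} [Field K] [IsAlgClosed K] [Algebra F K]
    [DecidableEq K] : ∃ P : (W⁄K).Point, P ≠ 0 ∧ p • P = 0 := by
  have hp1 : 1 ≤ p - 1 := by have := hp.out.two_le; omega
  have : NeZero (p - 1) := ⟨by omega⟩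
  let F' := FiniteField.Extension F p (p - 1)
  have : Fintype F' := Fintype.ofFinite _
  classical
  -- the number of points over `F'` is divisible by `p`
  have hcard : p ∣ Nat.card (W.map (algebraMap F F')).toAffine.Point := by
    have h1 := trace_map (F' := F') W hΔ
    rw [traceOfFrobenius, card, FiniteField.natCard_extension, FiniteField.finrank_extension,
      Nat.card_eq_fintype_card (α := F)] at h1
    obtain ⟨m, hm⟩ : ∃ m, p - 1 = m + 1 := ⟨p - 2, by have := hp.out.two_le; omega⟩
    have h2 := lucasV_modEq (a := W.traceOfFrobenius) (dvd_card_field (F := F) (p := p)) m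
    rw [← hm, ← h1] at h2
    have h3 : W.traceOfFrobenius ^ (p - 1) ≡ 1 [ZMOD p] := by
      apply Int.ModEq.pow_card_sub_one_eq_one hp.out
      rw [isCoprime_comm]
      exact (Nat.prime_iff_prime_int.mp hp.out).coprime_iff_not_dvd.mpr h
    have h4 := h2.trans h3
    have h5 : ((Fintype.card F ^ (p - 1) : ℕ) : ℤ) ≡ 0 [ZMOD p] := by
      rw [Int.modEq_zero_iff_dvd]
      push_cast
      exact (dvd_card_field (F := F) (p := p)).trans (dvd_pow_self _ (by omega))
    have h6 : ((Nat.card (W.map (algebraMap F F')).toAffine.Point : ℕ) : ℤ) ≡ 0 [ZMOD p] := by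
      have h7 := ((h5.add_right 1).sub h4)
      have e1 : ((Fintype.card F ^ (p - 1) : ℕ) : ℤ) + 1 -
          (((Fintype.card F ^ (p - 1) : ℕ) : ℤ) + 1 -
            (Nat.card (W.map (algebraMap F F')).toAffine.Point : ℕ)) =
          (Nat.card (W.map (algebraMap F F')).toAffine.Point : ℕ) := by ring
      rw [e1] at h7
      exact h7
    rw [Int.modEq_zero_iff_dvd] at h6
    exact_mod_cast h6
  obtain ⟨P, hP⟩ := exists_prime_addOrderOf_dvd_card' (G := (W.map (algebraMap F F')).toAffine.Point)
    p hcard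
  -- transport to `K`
  let ι : F' →ₐ[F] K := IsAlgClosed.lift
  have hP0 : P ≠ 0 := by
    rintro rfl
    rw [addOrderOf_zero] at hP
    exact hp.out.one_lt.ne hP
  have hpP : p • P = 0 :=
    (congrArg (fun k : ℕ => k • P) hP).symm.trans (addOrderOf_nsmul_eq_zero P)
  refine ⟨Point.map (W' := W.toAffine) ι P, map_ne_zero' (W := W.toAffine) ι hP0, ?_⟩
  exact (map_nsmul (Point.map (W' := W.toAffine) ι) p P).symm.trans
    ((congrArg (Point.map (W' := W.toAffine) ι) hpP).trans (_root_.map_zero _))

/-- **Deuring's criterion**: `E` has no points of order `p` over the algebraic closure if and only if `p` divides the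
trace of Frobenius. -/
theorem deuring (W : WeierstrassCurve F) (hΔ : W.Δ ≠ 0) (K : Type v) [Field K] [IsAlgClosed K]
    [Algebra F K] [DecidableEq K] :
    (∀ P : (W⁄K).Point, p • P = 0 → P = 0) ↔ (p : ℤ) ∣ W.traceOfFrobenius := by
  constructor
  · intro h
    by_contra hcon
    obtain ⟨P, hP, hpP⟩ := exists_torsion_of_not_dvd W hΔ hcon (K := K)
    exact hP (h P hpP)
  · intro h P hP
    exact eq_zero_of_dvd_trace W hΔ h hP

end main

/-- **Deuring's criterion over `ℚ`**: for a good prime `p ≥ 5` the reduction of `W` modulo `p` has no points of order `p`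
over an algebraic closure of `𝔽_p` if and only if `a_p(W) = 0`. -/
theorem deuring_int (W : WeierstrassCurve ℤ) {p : ℕ} [hp : Fact p.Prime] (h5 : 5 ≤ p)
    (hgood : W.IsGoodPrimeFor p) (K : Type v) [Field K] [IsAlgClosed K] [Algebra (ZMod p) K]
    [DecidableEq K] :
    (∀ P : ((W.reductionMod p)⁄K).Point, p • P = 0 → P = 0) ↔ W.apOfModel p = 0 := by
  have hΔ : (W.reductionMod p).Δ ≠ 0 := by
    rw [reductionMod, WeierstrassCurve.map_Δ]
    intro h
    apply hgood
    rw [eq_intCast] at h
    exact (ZMod.intCast_zmod_eq_zero_iff_dvd _ _).mp h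
  rw [deuring (p := p) (W.reductionMod p) hΔ K]
  constructor
  · exact apOfModel_eq_zero_of_dvd W hp.out hgood h5
  · intro h
    change (p : ℤ) ∣ W.apOfModel p
    rw [h]
    exact dvd_zero _

/-- a supersingular curve over `𝔽_p`, `p ≥ 5`, has `p + 1` points over `𝔽_p` and `(p + 1)²` points over `𝔽_{p²}` -/
theorem card_of_apOfModel_eq_zero (W : WeierstrassCurve ℤ) {p : ℕ} [hp : Fact p.Prime]
    (hgood : W.IsGoodPrimeFor p) (h0 : W.apOfModel p = 0) (F' : Type v) [Field F'] [Fintype F']
    [Algebra (ZMod p) F'] (h2 : Module.finrank (ZMod p) F' = 2) :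
    Nat.card (W.reductionMod p).toAffine.Point = p + 1 ∧
      Nat.card ((W.reductionMod p).map (algebraMap (ZMod p) F')).toAffine.Point = (p + 1) ^ 2 := by
  have hΔ : (W.reductionMod p).Δ ≠ 0 := by
    rw [reductionMod, WeierstrassCurve.map_Δ]
    intro h
    apply hgood
    rw [eq_intCast] at h
    exact (ZMod.intCast_zmod_eq_zero_iff_dvd _ _).mp h
  have h1 : (W.reductionMod p).traceOfFrobenius = 0 := h0
  constructor
  · have h3 := h1
    rw [traceOfFrobenius, card, Nat.card_zmod] at h3
    have : ((p + 1 : ℕ) : ℤ) = Nat.card (W.reductionMod p).toAffine.Point := by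
      push_cast; linarith
    exact_mod_cast this.symm
  · have h3 := trace_map (F' := F') (W.reductionMod p) hΔ
    rw [h1, h2, traceOfFrobenius, card, Nat.card_eq_fintype_card (α := F'),
      Module.card_eq_pow_finrank (K := ZMod p) (V := F'), h2, ZMod.card] at h3
    simp only [lucasV] at h3
    have : (((p + 1) ^ 2 : ℕ) : ℤ) =
        Nat.card ((W.reductionMod p).map (algebraMap (ZMod p) F')).toAffine.Point := by
      push_cast at h3 ⊢; linarith
    exact_mod_cast this.symm

end Fermat.Agent.Cor.Bounds
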