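import Mathlib
import Fermat.Agent.Cor.WeilZeta
import Fermat.Agent.Frob.MulN

/-!
# Kernels of the endomorphisms `u φ + v` of an elliptic curve over a finite field

`ker (u φ + v)` has at most `deg (u φ + v) = q u² + a u v + v²` elements.

This file is not used by any of the statement files.
-/

set_option autoImplicit false
set_option linter.style.haveILetI false

namespace Fermat.Agent.Cor.Bounds

open Polynomial WeierstrassCurve WeierstrassCurve.Affine WeierstrassCurve.Affine.Point
open Fermat.Agent.Frob Fermat.Agent.H08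

universe u v w

section Generic

variable {F : Type*} {K : Type*} {L : Type u} [Field F] [Field K] [Field L]
  [Algebra F K] [Algebra K L] [Algebra F L] [IsScalarTower F K L] {W : WeierstrassCurve.Affine F}

/-- the endomorphism `u φ + v` -/
noncomputable def comb [Fintype F] {B : Type*} [Field B] [Algebra F B] [DecidableEq B] (u v : ℤ) :
    (W⁄B).Point →+ (W⁄B).Point := u • (Fr : (W⁄B).Point →+ (W⁄B).Point) + v • AddMonoidHom.id _

lemma comb_apply [Fintype F] {B : Type*} [Field B] [Algebra F B] [DecidableEq B] (u v : ℤ)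
    (P : (W⁄B).Point) : comb u v P = u • Fr P + v • P := by
  rw [comb, AddMonoidHom.add_apply, AddMonoidHom.smul_apply, AddMonoidHom.smul_apply,
    AddMonoidHom.id_apply]

lemma map_comb [Fintype F] {B C : Type*} [Field B] [Algebra F B] [DecidableEq B] [Field C]
    [Algebra F C] [DecidableEq C] (s : B →ₐ[F] C) (u v : ℤ) (P : (W⁄B).Point) :
    Point.map s (comb u v P) = comb u v (Point.map s P) := by
  rw [comb_apply, comb_apply, map_add, map_zsmul, map_zsmul, map_Fr]

/-- **Specialisation** of `(u φ + v) Q`, `Q` the generic point. -/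
theorem spec_comb (g : Gen W K L) [DecidableEq L] [DecidableEq K] [Fintype F] [W.IsElliptic]
    {u v : ℤ} {X' Z' : K[X]} (h : Rep g.ι (comb u v g.Q) X' Z') {P : (W⁄K).Point} (hP : P ≠ 0) :
    xa (comb u v P) * Z'.eval (px P) = xb (comb u v P) * X'.eval (px P) := by
  classical
  obtain ⟨A, hA, hx⟩ := g.exists_place (px P)
  letI : Algebra K (IsLocalRing.ResidueField A) := (Gen.cst hA).toAlgebra
  letI : Algebra F (IsLocalRing.ResidueField A) := ((Gen.cst hA).comp (algebraMap F K)).toAlgebra
  haveI : IsScalarTower F K (IsLocalRing.ResidueField A) := .of_algebraMap_eq (fun _ => rfl)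
  haveI hell : (W⁄(IsLocalRing.ResidueField A)).IsElliptic :=
    inferInstanceAs (W.map (algebraMap F (IsLocalRing.ResidueField A))).IsElliptic
  have hcoef : ∀ r : F, Rz A (algebraMap F L r) (algebraMap F (IsLocalRing.ResidueField A) r) := by
    intro r
    rw [IsScalarTower.algebraMap_apply F K L]
    exact Gen.rz_cst hA _
  have hE : RedCurve A (W⁄L) (W⁄(IsLocalRing.ResidueField A)) :=
    ⟨hcoef _, hcoef _, hcoef _, hcoef _, hcoef _⟩
  let bar : (W⁄K).Point →+ (W⁄(IsLocalRing.ResidueField A)).Point :=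
    Point.map (IsScalarTower.toAlgHom F K (IsLocalRing.ResidueField A))
  have hbarx : ∀ R : (W⁄K).Point, px (bar R) = Gen.cst hA (px R) := fun R => px_map _ R
  have hQ0 := g.Q_ne_zero
  have hredQ := redTo_redHom hE g.Q
  set Q' := redHom hE g.Q with hQ'
  have hxc : Rz A g.x (Gen.cst hA (px P)) := by
    apply (Gen.rz_cst hA _).of_sub_lt
    rw [Valuation.map_sub_swap]; exact hx
  have hQ'0 : Q' ≠ 0 := by
    intro h0
    rcases hredQ.inE1_iff.mpr h0 with h1 | h1
    · exact hQ0 h1
    · rw [Gen.px_Q] at h1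
      exact absurd hxc.le (not_le.mpr h1)
  obtain ⟨-, hQx, hQy⟩ := hredQ.integral hQ'0
  rw [Gen.px_Q] at hQx
  have hbarP : bar P ≠ 0 := map_ne_zero' _ hP
  have hpm : Q' = bar P ∨ Q' = -bar P := by
    rw [← px_eq_iff hQ'0 hbarP, hbarx]
    exact hQx.unique hxc
  -- the reduction commutes with Frobenius
  have hredF : ∀ R : (W⁄L).Point, redHom hE (Fr R) = Fr (redHom hE R) := by
    intro R
    apply redHom_eq_of_redTo
    have h := redTo_redHom hE R
    set R' := redHom hE R
    rcases h with ⟨h1, h2⟩ | ⟨h1, h2, h3, h4⟩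
    · left
      rw [h2, _root_.map_zero]
      exact ⟨Gen.inE1_Fr h1, rfl⟩
    · right
      refine ⟨Fr_ne_zero h1, Fr_ne_zero h2, ?_, ?_⟩
      · rw [px_Fr, px_Fr]; exact h3.pow _
      · rw [py_Fr, py_Fr]; exact h4.pow _
  have hcomb : redHom hE (comb u v g.Q) = comb u v Q' := by
    rw [comb_apply, comb_apply, map_add, map_zsmul, map_zsmul, hredF]
  have hbarc : comb u v (bar P) = bar (comb u v P) := (map_comb _ u v P).symm
  have hnQ : redHom hE (comb u v g.Q) = bar (comb u v P) ∨
      redHom hE (comb u v g.Q) = - bar (comb u v P) := by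
    rw [hcomb]
    rcases hpm with h1 | h1
    · left; rw [h1, hbarc]
    · right; rw [h1, _root_.map_neg, hbarc]
  have hred := redTo_redHom hE (comb u v g.Q)
  by_cases hnP : comb u v P = 0
  · rw [hnP, xa_zero, xb_zero, one_mul, zero_mul]
    apply g.eval_eq_zero_of_inE1 hA hx h
    rw [← redHom_eq_zero_iff hE]
    rcases hnQ with h1 | h1
    · rw [h1, hnP, _root_.map_zero]
    · rw [h1, hnP, _root_.map_zero, _root_.neg_zero]
  · have hbn : bar (comb u v P) ≠ 0 := map_ne_zero' _ hnP
    have hne : redHom hE (comb u v g.Q) ≠ 0 := by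
      rcases hnQ with h1 | h1
      · rw [h1]; exact hbn
      · rw [h1]; exact neg_ne_zero.mpr hbn
    obtain ⟨h0, h1, -⟩ := hred.integral hne
    have h2 : px (redHom hE (comb u v g.Q)) = Gen.cst hA (px (comb u v P)) := by
      rcases hnQ with h3 | h3
      · rw [h3, hbarx]
      · rw [h3, px_neg, hbarx]
    rw [h2] at h1
    have h3 := h.2
    rw [xa_of_ne h0, xb_of_ne h0, one_mul] at h3
    have h4 := h1.mul (g.rz_ι hA hx Z')
    rw [h3] at h4
    have h5 := h4.unique (g.rz_ι hA hx X')
    rw [← map_mul] at h5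
    rw [xa_of_ne hnP, xb_of_ne hnP, one_mul]
    exact (Gen.cst hA).injective h5

end Generic

section main

variable {F : Type u} [Field F] [Fintype F] {K : Type v} [Field K] [IsAlgClosed K] [Algebra F K]
  [DecidableEq K]

/-- the degree form -/
noncomputable def degForm (W : WeierstrassCurve F) (u v : ℤ) : ℤ :=
  (Fintype.card F : ℤ) * u ^ 2 + W.traceOfFrobenius * (u * v) + v ^ 2

/-- the polynomials describing `u φ + v` on abscissas -/
theorem exists_comb_polys (W : WeierstrassCurve F) [W.IsElliptic] (u v : ℤ) :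
    ∃ X' Z' : K[X], IsCoprime X' Z' ∧ ((deg2 X' Z' : ℕ) : ℤ) = degForm W u v ∧
      ∀ P : (W.toAffine⁄K).Point, P ≠ 0 →
        xa (comb u v P) * Z'.eval (px P) = xb (comb u v P) * X'.eval (px P) := by
  classical
  let g : Gen W.toAffine K (WeierstrassCurve.Affine.FunctionField (W.toAffine⁄K)) :=
    genFF W.toAffine _
  have hmem : comb u v g.Q ∈ g.Gm := by
    rw [comb_apply]
    exact g.Gm.add_mem (g.Gm.zsmul_mem (g.Fr_mem g.Q_mem) u) (g.Gm.zsmul_mem g.Q_mem v)
  obtain ⟨X', Z', h⟩ := g.exists_rep_of_mem hmem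
  refine ⟨X', Z', prim2_iff.mp h.1, ?_, fun P hP => spec_comb g h hP⟩
  rw [← g.ht_eq h, comb_apply, ht_comb g u v, degForm, traceOfFrobenius,
    Nat.card_eq_fintype_card (α := F)]
  rfl

/-- `2 (u φ + v)` is not zero on `E(K)` if the degree is positive -/
theorem exists_two_comb_ne (W : WeierstrassCurve F) [W.IsElliptic] {u v : ℤ}
    (h : 0 < degForm W u v) : ∃ P : (W.toAffine⁄K).Point, comb u v P ≠ - comb u v P := by
  by_contra hcon
  push Not at hcon
  obtain ⟨X', Z', hc, hd, hs⟩ := exists_comb_polys (K := K) W (2 * u) (2 * v)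
  have hzero : ∀ P : (W.toAffine⁄K).Point, comb (2 * u) (2 * v) P = 0 := by
    intro P
    have h1 := hcon P
    have h2 : comb (2 * u) (2 * v) P = comb u v P + comb u v P := by
      rw [comb_apply, comb_apply, mul_smul, mul_smul, two_smul, two_smul]
      abel
    rw [h2]
    nth_rewrite 1 [h1]
    rw [neg_add_cancel]
  have hZ : Z' = 0 := by
    apply Polynomial.funext
    intro c
    obtain ⟨P, hP, hPc⟩ := exists_point_over (W := W.toAffine) (K := K) c
    have h1 := hs P hP
    rw [hzero, xa_zero, xb_zero, one_mul, zero_mul, hPc] at h1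
    rw [h1, eval_zero]
  have hX : X'.natDegree = 0 := by
    rw [hZ, isCoprime_zero_right] at hc
    exact natDegree_eq_zero_of_isUnit hc
  have h1 : deg2 X' Z' = 0 := by rw [deg2, hX, hZ, natDegree_zero, max_self]
  rw [h1] at hd
  have h2 : degForm W (2 * u) (2 * v) = 4 * degForm W u v := by
    rw [degForm, degForm]; ring
  rw [h2] at hd
  push_cast at hd
  linarith

/-- **The kernel of `u φ + v` has at most `deg (u φ + v)` elements.** -/
theorem card_ker_comb_le (W : WeierstrassCurve F) (hΔ : W.Δ ≠ 0) {u v : ℤ}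
    (h : 0 < degForm W u v) :
    Finite {P : (W.toAffine⁄K).Point // comb u v P = 0} ∧
      (Nat.card {P : (W.toAffine⁄K).Point // comb u v P = 0} : ℤ) ≤ degForm W u v := by
  classical
  haveI : W.IsElliptic := ⟨isUnit_iff_ne_zero.mpr hΔ⟩
  obtain ⟨X', Z', hc, hd, hs⟩ := exists_comb_polys (K := K) W u v
  obtain ⟨P₁, hP₁⟩ := exists_two_comb_ne (K := K) W h
  set P₀ := comb u v P₁ with hP₀
  have hP₀0 : P₀ ≠ 0 := by
    intro h0
    apply hP₁
    rw [h0, _root_.neg_zero]
  set f : K[X] := X' - C (px P₀) * Z' with hf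
  have hf0 : f ≠ 0 := by
    intro h0
    have h1 : X' = C (px P₀) * Z' := sub_eq_zero.mp h0
    have h2 : IsUnit Z' := by
      apply hc.isUnit_of_dvd' _ dvd_rfl
      rw [h1]; exact dvd_mul_left _ _
    have h3 : Z'.natDegree = 0 := natDegree_eq_zero_of_isUnit h2
    have h4 : X'.natDegree = 0 := by
      have h5 := natDegree_C_mul_le (px P₀) Z'
      rw [← h1, h3] at h5
      exact Nat.le_zero.mp h5
    have h5 : deg2 X' Z' = 0 := by rw [deg2, h3, h4, max_self]
    rw [h5] at hd
    push_cast at hd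
    linarith
  have hdeg : f.natDegree ≤ deg2 X' Z' := by
    refine (natDegree_sub_le _ _).trans (max_le (natDegree_le_deg2_left _ _) ?_)
    exact (natDegree_C_mul_le _ _).trans (natDegree_le_deg2_right _ _)
  -- the fibre over `P₀`
  let T := {P : (W.toAffine⁄K).Point // comb u v P = P₀}
  have hT : ∀ P : T, px P.1 ∈ f.roots.toFinset := by
    rintro ⟨P, hP⟩
    have hP0 : P ≠ 0 := by
      rintro rfl
      rw [_root_.map_zero] at hP
      exact hP₀0 hP.symm
    have h1 := hs P hP0
    rw [hP, xa_of_ne hP₀0, xb_of_ne hP₀0, one_mul] at h1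
    rw [Multiset.mem_toFinset, mem_roots hf0, IsRoot.def, hf, eval_sub, eval_mul, eval_C, h1, sub_self]
  let ψ : T → f.roots.toFinset := fun P => ⟨px P.1, hT P⟩
  have hψ : Function.Injective ψ := by
    rintro ⟨P, hP⟩ ⟨P', hP'⟩ hPP'
    have h1 : px P = px P' := congrArg Subtype.val hPP'
    have hP0 : P ≠ 0 := by
      rintro rfl
      rw [_root_.map_zero] at hP
      exact hP₀0 hP.symm
    have hP0' : P' ≠ 0 := by
      rintro rfl
      rw [_root_.map_zero] at hP'
      exact hP₀0 hP'.symm
    rcases (px_eq_iff hP0 hP0').mp h1 with h2 | h2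
    · exact Subtype.ext h2
    · exfalso
      apply hP₁
      calc comb u v P₁ = comb u v P := hP.symm
        _ = - comb u v P' := by rw [h2, _root_.map_neg]
        _ = - comb u v P₁ := by rw [hP']
  have hfinT : Finite T := Finite.of_injective ψ hψ
  let e : {P : (W.toAffine⁄K).Point // comb u v P = 0} ≃ T :=
    { toFun := fun P => ⟨P.1 + P₁, by rw [map_add, P.2, zero_add]⟩
      invFun := fun P => ⟨P.1 - P₁, by rw [_root_.map_sub, P.2, sub_self]⟩
      left_inv := fun P => Subtype.ext (add_sub_cancel_right _ _)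
      right_inv := fun P => Subtype.ext (sub_add_cancel _ _) }
  refine ⟨Finite.of_equiv T e.symm, ?_⟩
  rw [Nat.card_congr e, ← hd]
  have h1 : Nat.card T ≤ f.roots.toFinset.card := by
    rw [← Fintype.card_coe, ← Nat.card_eq_fintype_card]
    exact Nat.card_le_card_of_injective ψ hψ
  have h2 : f.roots.toFinset.card ≤ f.natDegree := (Multiset.toFinset_card_le _).trans (card_roots' f)
  exact_mod_cast h1.trans (h2.trans hdeg)

end main

end Fermat.Agent.Cor.Bounds
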