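import Mathlib
import Fermat.Agent.Cor.KerDeg
import Fermat.Agent.Cor.Deuring

/-!
# Torsion of elliptic curves in positive characteristic

Let `E` be an elliptic curve over a finite field `F` with `q` elements, `K` an algebraically closed field containing
`F`. Then `#E(K)[n] = n²` for `n` prime to `q`, and more generally `#ker (u φ + v) = deg (u φ + v)` if the degree is
prime to `q`. The proof does not use derivations: it compares `ker (φ ^ k - 1) = E(𝔽_{q^k})` with
`φ ^ k - 1 = n (u φ + v)`.

This file is not used by any of the statement files.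
-/

set_option autoImplicit false

namespace Fermat.Agent.Cor.Bounds

open Polynomial WeierstrassCurve WeierstrassCurve.Affine WeierstrassCurve.Affine.Point
open Fermat.Agent.Frob Fermat.Agent.H08

universe u v w

/-! ### The powers of an element satisfying `x² = a x - q` -/

/-- the coefficients of `x ^ k = A x + B` -/
def coefAB (a q : ℤ) : ℕ → ℤ × ℤ
  | 0 => (0, 1)
  | (k + 1) => (a * (coefAB a q k).1 + (coefAB a q k).2, -q * (coefAB a q k).1)

lemma pow_eq_coefAB {R : Type*} [Ring R] {x : R} {a q : ℤ} (hx : x * x = a * x - q) (k : ℕ) :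
    x ^ k = ((coefAB a q k).1 : R) * x + ((coefAB a q k).2 : R) := by
  induction k with
  | zero => simp [coefAB]
  | succ k ih =>
    rw [pow_succ, ih, add_mul, mul_assoc, hx]
    simp only [coefAB]
    push_cast
    rw [mul_sub, ← mul_assoc, add_mul]
    have h1 : ((coefAB a q k).1 : R) * (a : R) = (a : R) * ((coefAB a q k).1 : R) :=
      (Int.cast_commute _ _).eq
    have h2 : ((coefAB a q k).1 : R) * (q : R) = (q : R) * ((coefAB a q k).1 : R) :=
      (Int.cast_commute _ _).eq
    rw [h1, h2, neg_mul]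
    abel

/-- the sequence is periodic modulo `n` -/
lemma exists_coefAB {a q : ℤ} {n : ℕ} [NeZero n] (hq : IsUnit (q : ZMod n)) :
    ∃ k : ℕ, k ≠ 0 ∧ ∃ u v : ℤ, coefAB a q k = (n * u, 1 + n * v) := by
  let T : ZMod n × ZMod n → ZMod n × ZMod n := fun z => ((a : ZMod n) * z.1 + z.2, -(q : ZMod n) * z.1)
  have hinj : Function.Injective T := by
    rintro ⟨x, y⟩ ⟨x', y'⟩ h
    have h1 : -(q : ZMod n) * x = -(q : ZMod n) * x' := congrArg Prod.snd h
    have h2 : x = x' := hq.neg.mul_left_cancel h1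
    have h3 : (a : ZMod n) * x + y = (a : ZMod n) * x' + y' := congrArg Prod.fst h
    rw [h2] at h3
    rw [h2, add_left_cancel h3]
  let σ : Equiv.Perm (ZMod n × ZMod n) := Equiv.ofBijective T (Finite.injective_iff_bijective.mp hinj)
  have hσ : ∀ k : ℕ, (σ ^ k) (0, 1) = (((coefAB a q k).1 : ZMod n), ((coefAB a q k).2 : ZMod n)) := by
    intro k
    induction k with
    | zero => simp [coefAB]
    | succ k ih =>
      rw [pow_succ', Equiv.Perm.mul_apply, ih]
      change T _ = _
      simp only [T, coefAB]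
      push_cast
      rfl
  have hfin : Finite (Equiv.Perm (ZMod n × ZMod n)) := inferInstance
  refine ⟨Nat.card (Equiv.Perm (ZMod n × ZMod n)), Nat.card_pos.ne', ?_⟩
  set k := Nat.card (Equiv.Perm (ZMod n × ZMod n)) with hk
  have h1 := hσ k
  rw [hk, pow_card_eq_one', ← hk, Equiv.Perm.one_apply] at h1
  have h2 : ((coefAB a q k).1 : ZMod n) = 0 := (congrArg Prod.fst h1).symm
  have h3 : ((coefAB a q k).2 : ZMod n) = 1 := (congrArg Prod.snd h1).symm
  rw [ZMod.intCast_zmod_eq_zero_iff_dvd] at h2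
  obtain ⟨u, hu⟩ := h2
  have h4 : (((coefAB a q k).2 - 1 : ℤ) : ZMod n) = 0 := by push_cast; rw [h3, sub_self]
  rw [ZMod.intCast_zmod_eq_zero_iff_dvd] at h4
  obtain ⟨v, hv⟩ := h4
  refine ⟨u, v, Prod.ext hu ?_⟩
  change (coefAB a q k).2 = 1 + n * v
  linear_combination hv

/-- the norm of `x ^ k - 1` -/
lemma norm_coefAB {a : ℤ} {q : ℕ} (h : a ^ 2 ≤ 4 * q) (k : ℕ) :
    (q : ℤ) ^ k + 1 - lucasV a q k = q * (coefAB a q k).1 ^ 2 +
      a * ((coefAB a q k).1 * ((coefAB a q k).2 - 1)) + ((coefAB a q k).2 - 1) ^ 2 := by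
  obtain ⟨α, β, h1, h2, -, -⟩ := exists_roots_of_sq_le h
  have hα : α * α = (a : ℂ) * α - ((q : ℤ) : ℂ) := by push_cast; rw [← h1, ← h2]; ring
  have hβ : β * β = (a : ℂ) * β - ((q : ℤ) : ℂ) := by push_cast; rw [← h1, ← h2]; ring
  have e1 := pow_eq_coefAB hα k
  have e2 := pow_eq_coefAB hβ k
  have e3 := lucasV_eq (Commute.all α β) h1 (q := (q : ℤ)) (by rw [h2]; push_cast; rfl) k
  have e4 : (α * β) ^ k = (q : ℂ) ^ k := by rw [h2]
  rw [mul_pow] at e4
  set A := (coefAB a q k).1
  set B := (coefAB a q k).2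
  have key : ((q : ℂ) ^ k + 1 - (lucasV a q k : ℂ)) = q * (A : ℂ) ^ 2 + a * (A * (B - 1)) +
      ((B : ℂ) - 1) ^ 2 := by
    rw [← e3, ← e4, e1, e2, ← h1, ← h2]
    ring
  exact_mod_cast key

/-! ### Kernels -/

section group

variable {A : Type*} [AddCommGroup A]

lemma card_ker_comp_le (f g : A →+ A) (hf : Finite {P : A // f P = 0}) (hg : Finite {P : A // g P = 0}) :
    Finite {P : A // f (g P) = 0} ∧
    Nat.card {P : A // f (g P) = 0} ≤ Nat.card {P : A // f P = 0} * Nat.card {P : A // g P = 0} := by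
  classical
  let s : A → A := fun R => if h : ∃ P, g P = R then h.choose else 0
  have hs : ∀ P, g (s (g P)) = g P := by
    intro P
    have h : ∃ P', g P' = g P := ⟨P, rfl⟩
    simp only [s, dif_pos h]
    exact h.choose_spec
  let ψ : {P : A // f (g P) = 0} → {P : A // f P = 0} × {P : A // g P = 0} := fun P =>
    (⟨g P.1, P.2⟩, ⟨P.1 - s (g P.1), by rw [_root_.map_sub, hs, sub_self]⟩)
  have hψ : Function.Injective ψ := by
    rintro ⟨P, hP⟩ ⟨P', hP'⟩ h
    have h1 : g P = g P' := congrArg (fun z => z.1.1) h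
    have h2 : P - s (g P) = P' - s (g P') := congrArg (fun z => z.2.1) h
    rw [h1] at h2
    exact Subtype.ext (sub_left_injective h2)
  have hfin : Finite ({P : A // f P = 0} × {P : A // g P = 0}) := inferInstance
  refine ⟨Finite.of_injective ψ hψ, ?_⟩
  rw [← Nat.card_prod]
  exact Nat.card_le_card_of_injective ψ hψ

end group

section main

variable {F : Type u} [Field F] [Fintype F] {K : Type v} [Field K] [IsAlgClosed K] [Algebra F K]
  [DecidableEq K]

lemma comb_zero_left (W : WeierstrassCurve F) (n : ℤ) (P : (W.toAffine⁄K).Point) :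
    comb 0 n P = n • P := by
  rw [comb_apply, zero_smul, zero_add]

lemma degForm_zero_left (W : WeierstrassCurve F) (n : ℤ) : degForm W 0 n = n ^ 2 := by
  rw [degForm]; ring

/-- the relation for Frobenius in terms of `Fr` -/
lemma Fr_relation (W : WeierstrassCurve F) (hΔ : W.Δ ≠ 0) (P : (W.toAffine⁄K).Point) :
    Fr (Fr P) - W.traceOfFrobenius • Fr P + (Fintype.card F : ℤ) • P = 0 :=
  frobenius_relation' (K := K) W hΔ P

/-- the points of `E(K)` coming from the extension of degree `k` are fixed by `φ ^ k` -/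
lemma iterate_Fr_map {F' : Type w} [Field F'] [Fintype F'] [Algebra F F'] [DecidableEq F']
    (W : WeierstrassCurve F) (ι : F' →ₐ[F] K) (P : (W.toAffine⁄F').Point) :
    (Fr (F := F) (W := W.toAffine) (A := K))^[Module.finrank F F'] (Point.map ι P) = Point.map ι P := by
  have h1 : ∀ (k : ℕ) (P : (W.toAffine⁄F').Point), (Fr (F := F) (W := W.toAffine) (A := K))^[k]
      (Point.map ι P) = Point.map ι ((Fr (F := F) (W := W.toAffine) (A := F'))^[k] P) := by
    intro k
    induction k with
    | zero => intro P; rfl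
    | succ k ih =>
      intro P
      rw [Function.iterate_succ_apply', Function.iterate_succ_apply', ih, map_Fr]
  rw [h1]
  congr 1
  by_cases hP : P = 0
  · rw [hP]
    exact Function.iterate_fixed (_root_.map_zero Fr) _
  have h2 : ∀ k : ℕ, (Fr (F := F) (W := W.toAffine) (A := F'))^[k] P ≠ 0 ∧
      px ((Fr (F := F) (W := W.toAffine) (A := F'))^[k] P) = px P ^ (Fintype.card F ^ k) ∧
      py ((Fr (F := F) (W := W.toAffine) (A := F'))^[k] P) = py P ^ (Fintype.card F ^ k) := by
    intro k
    induction k with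
    | zero => simpa using hP
    | succ k ih =>
      obtain ⟨h3, h4, h5⟩ := ih
      rw [Function.iterate_succ_apply']
      refine ⟨Fr_ne_zero h3, ?_, ?_⟩
      · rw [px_Fr, h4, ← pow_mul, ← pow_succ]
      · rw [py_Fr, h5, ← pow_mul, ← pow_succ]
  obtain ⟨h3, h4, h5⟩ := h2 (Module.finrank F F')
  rw [← Module.card_eq_pow_finrank, FiniteField.pow_card] at h4 h5
  exact pt_ext h3 hP h4 h5

/-- **The `n`-torsion of an elliptic curve in characteristic `p`, `p ∤ n`, has `n²` elements.** -/
theorem card_torsion_of_coprime (W : WeierstrassCurve F) (hΔ : W.Δ ≠ 0) {n : ℕ}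
    (hn : n.Coprime (Fintype.card F)) :
    Nat.card {P : (W.toAffine⁄K).Point // n • P = 0} = n ^ 2 := by
  classical
  have hn0 : n ≠ 0 := by
    rintro rfl
    rw [Nat.coprime_zero_left] at hn
    exact (Fintype.one_lt_card (α := F)).ne' hn
  have : NeZero n := ⟨hn0⟩
  obtain ⟨p, hchar⟩ := CharP.exists F
  have hp : Fact p.Prime := ⟨CharP.char_is_prime F p⟩
  have hunit : IsUnit (((Fintype.card F : ℕ) : ℤ) : ZMod n) := by
    rw [Int.cast_natCast, ZMod.isUnit_iff_coprime]
    exact hn.symm
  obtain ⟨k, hk, u, v, huv⟩ := exists_coefAB (a := W.traceOfFrobenius) hunit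
  have : NeZero k := ⟨hk⟩
  let F' := FiniteField.Extension F p k
  have : Fintype F' := Fintype.ofFinite _
  have hk' : Module.finrank F F' = k := FiniteField.finrank_extension F p k
  set D := degForm W u v with hD
  set N := Nat.card (W.toAffine⁄F').Point with hN
  -- the number of points over the extension
  have hND : (N : ℤ) = (n : ℤ) ^ 2 * D := by
    have h1 := trace_map (F' := F') W hΔ
    rw [traceOfFrobenius, card, FiniteField.natCard_extension, hk',
      Nat.card_eq_fintype_card (α := F)] at h1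
    have h2 := norm_coefAB (hasse_sq_le W hΔ) k
    rw [huv] at h2
    have h3 : (N : ℤ) = (Fintype.card F : ℤ) ^ k + 1 -
        lucasV W.traceOfFrobenius (Fintype.card F) k := by
      rw [← h1, hN]
      push_cast
      have e : Nat.card (W.map (algebraMap F F')).toAffine.Point =
        Nat.card (W.toAffine⁄F').Point := rfl
      rw [e]
      ring
    rw [h3, h2, hD, degForm]
    ring
  have hNpos : 0 < N := Nat.card_pos
  have hDpos : 0 < D := by
    by_contra hcon
    push Not at hcon
    have h1 : (0 : ℤ) < N := by exact_mod_cast hNpos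
    rw [hND] at h1
    have h2 : (0 : ℤ) ≤ (n : ℤ) ^ 2 := sq_nonneg _
    nlinarith
  have hnpos : (0 : ℤ) < (n : ℤ) ^ 2 := by positivity
  -- the two kernels
  obtain ⟨hfin1, hle1⟩ := card_ker_comb_le (K := K) W hΔ (u := 0) (v := n) (by
    rw [degForm_zero_left]; exact hnpos)
  obtain ⟨hfin2, hle2⟩ := card_ker_comb_le (K := K) W hΔ hDpos
  rw [degForm_zero_left] at hle1
  obtain ⟨hfin3, hle3⟩ := card_ker_comp_le (comb 0 n : (W.toAffine⁄K).Point →+ _) (comb u v) hfin1 hfin2
  -- the points over the extension are in the kernel of `φ ^ k - 1 = n (u φ + v)`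
  let ι : F' →ₐ[F] K := IsAlgClosed.lift
  have hmem : ∀ P : (W.toAffine⁄F').Point, comb 0 n (comb u v (Point.map ι P)) = 0 := by
    intro P
    have h1 := iterate_Fr_map W ι P
    rw [hk'] at h1
    set R := Point.map ι P
    let x : AddMonoid.End (W.toAffine⁄K).Point := (Fr : (W.toAffine⁄K).Point →+ _)
    have hx : x * x = (W.traceOfFrobenius : AddMonoid.End (W.toAffine⁄K).Point) * x -
        ((Fintype.card F : ℤ) : AddMonoid.End (W.toAffine⁄K).Point) := by
      have h2 : x * x - (W.traceOfFrobenius : AddMonoid.End (W.toAffine⁄K).Point) * x +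
          ((Fintype.card F : ℤ) : AddMonoid.End (W.toAffine⁄K).Point) = 0 := by
        ext P
        exact Fr_relation W hΔ P
      rw [← sub_eq_zero, ← h2]
      abel
    have h2 := pow_eq_coefAB hx k
    rw [huv] at h2
    have h3 : (x ^ k) R = (n * u : ℤ) • Fr R + (1 + n * v : ℤ) • R := DFunLike.congr_fun h2 R
    have h4 : (x ^ k) R = R := by
      rw [AddMonoid.End.coe_pow]
      exact h1
    rw [h4] at h3
    rw [comb_zero_left, comb_apply, smul_add, ← mul_smul, ← mul_smul]
    have h5 : R = ((n * u : ℤ) • Fr R + (n * v : ℤ) • R) + R := by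
      nth_rewrite 1 [h3]
      rw [add_smul, one_smul]
      abel
    exact (add_eq_right.mp h5.symm)
  have hle4 : N ≤ Nat.card {P : (W.toAffine⁄K).Point // comb 0 n (comb u v P) = 0} := by
    apply Nat.card_le_card_of_injective
      (fun P : (W.toAffine⁄F').Point => (⟨Point.map ι P, hmem P⟩ : {P : (W.toAffine⁄K).Point //
        comb 0 n (comb u v P) = 0}))
    intro P P' h
    have h1 : Point.map ι P = Point.map ι P' := congrArg Subtype.val h
    exact Point.map_injective ι h1
  set c1 := Nat.card {P : (W.toAffine⁄K).Point // comb 0 (n : ℤ) P = 0} with hc1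
  set c2 := Nat.card {P : (W.toAffine⁄K).Point // comb u v P = 0} with hc2
  have h5 : (n : ℤ) ^ 2 * D ≤ (c1 : ℤ) * c2 := by
    rw [← hND]
    exact_mod_cast hle4.trans hle3
  have h6 : (c1 : ℤ) = (n : ℤ) ^ 2 := by
    apply le_antisymm hle1
    by_contra hcon
    push Not at hcon
    have h7 : (c1 : ℤ) * c2 ≤ (c1 : ℤ) * D := mul_le_mul_of_nonneg_left hle2 (by positivity)
    have h8 : (c1 : ℤ) * D < (n : ℤ) ^ 2 * D := mul_lt_mul_of_pos_right hcon hDpos
    linarith
  have h7 : c1 = n ^ 2 := by exact_mod_cast h6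
  rw [← h7, hc1]
  apply Nat.card_congr
  refine Equiv.subtypeEquivRight fun P => ?_
  rw [comb_zero_left, natCast_zsmul]

/-- `(u φ + v) (u φ̂ + v) = deg (u φ + v)` -/
lemma comb_comb_conj (W : WeierstrassCurve F) (hΔ : W.Δ ≠ 0) (u v : ℤ) (P : (W.toAffine⁄K).Point) :
    comb u v (comb (-u) (v + W.traceOfFrobenius * u) P) = degForm W u v • P := by
  have h := Fr_relation W hΔ P
  rw [comb_apply, comb_apply, map_add, map_zsmul, map_zsmul]
  set a := W.traceOfFrobenius with ha
  set q : ℤ := (Fintype.card F : ℤ) with hq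
  have h1 : Fr (Fr P) = a • Fr P - q • P := by
    rw [← sub_eq_zero, ← h]; abel
  rw [h1]
  have e : degForm W u v = q * u ^ 2 + a * (u * v) + v ^ 2 := rfl
  rw [e]
  module

lemma degForm_conj (W : WeierstrassCurve F) (u v : ℤ) :
    degForm W (-u) (v + W.traceOfFrobenius * u) = degForm W u v := by
  rw [degForm, degForm]; ring

/-- **Degree and kernel**: `#ker (u φ + v) = deg (u φ + v)` if the degree is positive and prime to `q`. -/
theorem card_ker_comb (W : WeierstrassCurve F) (hΔ : W.Δ ≠ 0) {u v : ℤ} (hpos : 0 < degForm W u v)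
    (hcop : (degForm W u v).natAbs.Coprime (Fintype.card F)) :
    (Nat.card {P : (W.toAffine⁄K).Point // comb u v P = 0} : ℤ) = degForm W u v := by
  set D := degForm W u v with hD
  have h1 := card_torsion_of_coprime (K := K) W hΔ hcop
  obtain ⟨hfin1, hle1⟩ := card_ker_comb_le (K := K) W hΔ hpos
  obtain ⟨hfin2, hle2⟩ := card_ker_comb_le (K := K) W hΔ (u := -u)
    (v := v + W.traceOfFrobenius * u) (by rw [degForm_conj]; exact hpos)
  rw [degForm_conj] at hle2
  obtain ⟨-, hle3⟩ := card_ker_comp_le (comb u v : (W.toAffine⁄K).Point →+ _)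
    (comb (-u) (v + W.traceOfFrobenius * u)) hfin1 hfin2
  have h2 : Nat.card {P : (W.toAffine⁄K).Point //
      comb u v (comb (-u) (v + W.traceOfFrobenius * u) P) = 0} = D.natAbs ^ 2 := by
    rw [← h1]
    apply Nat.card_congr
    refine Equiv.subtypeEquivRight fun P => ?_
    rw [comb_comb_conj W hΔ, ← hD]
    have e : (D.natAbs : ℤ) = D := Int.natAbs_of_nonneg hpos.le
    rw [← natCast_zsmul, e]
  rw [h2] at hle3
  set c1 := Nat.card {P : (W.toAffine⁄K).Point // comb u v P = 0}
  set c2 := Nat.card {P : (W.toAffine⁄K).Point // comb (-u) (v + W.traceOfFrobenius * u) P = 0}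
  have h3 : D ^ 2 ≤ (c1 : ℤ) * c2 := by
    have h4 : ((D.natAbs ^ 2 : ℕ) : ℤ) ≤ ((c1 * c2 : ℕ) : ℤ) := by exact_mod_cast hle3
    push_cast at h4
    rwa [sq_abs] at h4
  apply le_antisymm hle1
  by_contra hcon
  push Not at hcon
  have h7 : (c1 : ℤ) * c2 ≤ (c1 : ℤ) * D := mul_le_mul_of_nonneg_left hle2 (by positivity)
  have h8 : (c1 : ℤ) * D < D * D := mul_lt_mul_of_pos_right hcon hpos
  nlinarith

end main

end Fermat.Agent.Cor.Bounds
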