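import Mathlib
import Fermat.Agent.Cor.TorsionCharP

/-!
# The `p`-torsion of elliptic curves in characteristic `p`

`#E(K)[p] = 1` if `E` is supersingular (`p ∣ a`) and `#E(K)[p] = p` if `E` is ordinary (`p ∤ a`).

This file is not used by any of the statement files.
-/

set_option autoImplicit false

namespace Fermat.Agent.Cor.Bounds

open WeierstrassCurve WeierstrassCurve.Affine WeierstrassCurve.Affine.Point
open Fermat.Agent.Frob Fermat.Agent.H08

universe u v w

section group

variable {A : Type*} [AddCommGroup A]

/-- the torsion of a divisible group -/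
lemma card_torsion_pow (p : ℕ) (hdiv : ∀ P : A, ∃ Q, p • Q = P) (r : ℕ) :
    Nat.card {P : A // p ^ r • P = 0} = Nat.card {P : A // p • P = 0} ^ r := by
  classical
  induction r with
  | zero =>
    have : Unique {P : A // p ^ 0 • P = 0} :=
      { default := ⟨0, smul_zero _⟩
        uniq := by
          rintro ⟨P, h⟩
          rw [pow_zero, one_smul] at h
          exact Subtype.ext h }
    exact Nat.card_unique.trans (pow_zero _).symm
  | succ r ih =>
    rw [pow_succ (Nat.card _) r, ← ih, ← Nat.card_prod]
    have hdivr : ∀ P : A, ∃ Q, p ^ r • Q = P := by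
      intro P
      clear ih
      induction r with
      | zero => exact ⟨P, by simp⟩
      | succ r ih =>
        obtain ⟨Q, hQ⟩ := ih
        obtain ⟨Q', hQ'⟩ := hdiv Q
        exact ⟨Q', by rw [pow_succ, mul_smul, hQ', hQ]⟩
    choose s hs using hdivr
    let e : {P : A // p ^ (r + 1) • P = 0} ≃ {P : A // p ^ r • P = 0} × {P : A // p • P = 0} :=
      { toFun := fun P => (⟨P.1 - s (p ^ r • P.1), by rw [smul_sub, hs, sub_self]⟩,
          ⟨p ^ r • P.1, by rw [← mul_smul, ← pow_succ']; exact P.2⟩)
        invFun := fun z => ⟨z.1.1 + s z.2.1, by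
          rw [pow_succ', mul_smul, smul_add, hs, z.1.2, zero_add, z.2.2]⟩
        left_inv := fun P => Subtype.ext (sub_add_cancel _ _)
        right_inv := fun z => by
          have h1 : p ^ r • (z.1.1 + s z.2.1) = z.2.1 := by rw [smul_add, hs, z.1.2, zero_add]
          apply Prod.ext
          · apply Subtype.ext
            change z.1.1 + s z.2.1 - s (p ^ r • (z.1.1 + s z.2.1)) = z.1.1
            rw [h1, add_sub_cancel_right]
          · exact Subtype.ext h1 }
    exact Nat.card_congr e

end group

section main

variable {F : Type u} [Field F] [Fintype F] {K : Type v} [Field K] [IsAlgClosed K] [Algebra F K]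
  [DecidableEq K] {p : ℕ} [hp : Fact p.Prime] [CharP F p]

/-- **The `p`-torsion of an ordinary elliptic curve in characteristic `p` has `p` elements.** -/
theorem card_pTorsion_ordinary (W : WeierstrassCurve F) (hΔ : W.Δ ≠ 0)
    (h : ¬ (p : ℤ) ∣ W.traceOfFrobenius) :
    Nat.card {P : (W.toAffine⁄K).Point // p • P = 0} = p := by
  classical
  have hell : W.IsElliptic := ⟨isUnit_iff_ne_zero.mpr hΔ⟩
  obtain ⟨r, -, hr⟩ := FiniteField.card F p
  have hr0 : (r : ℕ) ≠ 0 := r.ne_zero
  -- the kernel of the dual of Frobenius
  have hdeg : degForm W (-1) (0 + W.traceOfFrobenius * 1) = Fintype.card F := by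
    rw [degForm_conj, degForm]; ring
  have hqpos : (0 : ℤ) < Fintype.card F := by exact_mod_cast Fintype.card_pos
  obtain ⟨hfin, hle⟩ := card_ker_comb_le (K := K) W hΔ (u := -1)
    (v := 0 + W.traceOfFrobenius * 1) (by rw [hdeg]; exact hqpos)
  rw [hdeg] at hle
  have hiff : ∀ P : (W.toAffine⁄K).Point, p ^ (r : ℕ) • P = 0 ↔
      comb (-1) (0 + W.traceOfFrobenius * 1) P = 0 := by
    intro P
    have h1 := comb_comb_conj W hΔ 1 0 P
    have h2 : degForm W 1 0 = Fintype.card F := by rw [degForm]; ring
    rw [h2, hr, natCast_zsmul] at h1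
    rw [← h1, comb_apply, one_smul, zero_smul, add_zero]
    constructor
    · intro h3
      by_contra hne
      exact Fr_ne_zero hne h3
    · intro h3
      rw [h3, _root_.map_zero]
  have hcard : Nat.card {P : (W.toAffine⁄K).Point // p ^ (r : ℕ) • P = 0} ≤ p ^ (r : ℕ) := by
    rw [Nat.card_congr (Equiv.subtypeEquivRight hiff), ← hr]
    exact_mod_cast hle
  rw [card_torsion_pow p (fun P => nsmul_surjective (K := K) W.toAffine hp.out.ne_zero P)] at hcard
  have hle' : Nat.card {P : (W.toAffine⁄K).Point // p • P = 0} ≤ p :=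
    (Nat.pow_le_pow_iff_left hr0).mp hcard
  -- there is a point of order `p`
  obtain ⟨P, hP, hpP⟩ := exists_torsion_of_not_dvd W hΔ h (K := K)
  have hfin2 : Finite {P : (W.toAffine⁄K).Point // p • P = 0} := by
    obtain ⟨h1, -⟩ := card_ker_comb_le (K := K) W hΔ (u := 0) (v := p) (by
      rw [degForm_zero_left]
      have : (p : ℤ) ≠ 0 := by exact_mod_cast hp.out.ne_zero
      positivity)
    exact Finite.of_equiv {P : (W.toAffine⁄K).Point // comb 0 (p : ℤ) P = 0}
      (Equiv.subtypeEquivRight fun P => by rw [comb_zero_left, natCast_zsmul])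
  let G : AddSubgroup (W.toAffine⁄K).Point :=
    { carrier := {P | p • P = 0}
      add_mem' := fun {a b} ha hb => by
        change p • (a + b) = 0
        rw [smul_add, show p • a = 0 from ha, show p • b = 0 from hb, add_zero]
      zero_mem' := smul_zero _
      neg_mem' := fun {a} ha => by
        change p • (-a) = 0
        rw [smul_neg, show p • a = 0 from ha, _root_.neg_zero] }
  have hG : Finite G := hfin2
  have hGcard : Nat.card G = Nat.card {P : (W.toAffine⁄K).Point // p • P = 0} := rfl
  let P' : G := ⟨P, hpP⟩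
  have horder : addOrderOf P' = p := by
    apply addOrderOf_eq_prime
    · exact Subtype.ext hpP
    · intro h0
      exact hP (congrArg Subtype.val h0)
  have hdvd : p ∣ Nat.card G := horder ▸ addOrderOf_dvd_natCard P'
  rw [hGcard] at hdvd
  apply le_antisymm hle'
  have hpos : 0 < Nat.card {P : (W.toAffine⁄K).Point // p • P = 0} := by
    rw [← hGcard]; exact Nat.card_pos
  exact Nat.le_of_dvd hpos hdvd

/-- **The `p`-torsion of an elliptic curve in characteristic `p`.** -/
theorem card_pTorsion (W : WeierstrassCurve F) (hΔ : W.Δ ≠ 0) :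
    Nat.card {P : (W.toAffine⁄K).Point // p • P = 0} =
      if (p : ℤ) ∣ W.traceOfFrobenius then 1 else p := by
  split_ifs with h
  · have : Unique {P : (W.toAffine⁄K).Point // p • P = 0} :=
      { default := ⟨0, smul_zero _⟩
        uniq := fun P => Subtype.ext (eq_zero_of_dvd_trace W hΔ h P.2) }
    exact Nat.card_unique
  · exact card_pTorsion_ordinary W hΔ h

end main

end Fermat.Agent.Cor.Bounds
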