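import Mathlib
import Fermat.Agent.Cor.OrdTorsion

/-!
# Rational torsion of elliptic curves over finite fields

Let `E` be an elliptic curve over a finite field with `q` elements and `m` prime to `q`. If all points of `E` of order
dividing `m` over an algebraic closure are rational, then `m` divides `q - 1`, and `m²` divides the number of rational
points.

This file is not used by any of the statement files.
-/

set_option autoImplicit false

namespace Fermat.Agent.Cor.Bounds

open Polynomial WeierstrassCurve WeierstrassCurve.Affine WeierstrassCurve.Affine.Point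
open Fermat.Agent.Frob Fermat.Agent.H08

universe u v

variable {F : Type u} [Field F] [Fintype F] {K : Type v} [Field K] [IsAlgClosed K] [Algebra F K]
  [DecidableEq K]

/-- the square of `m` divides the degree of `u φ + v` if `u φ + v` vanishes on the `m`-torsion -/
lemma sq_dvd_degForm (W : WeierstrassCurve F) (hΔ : W.Δ ≠ 0) {m : ℕ}
    (hm : m.Coprime (Fintype.card F)) {u v : ℤ}
    (hfull : ∀ P : (W.toAffine⁄K).Point, m • P = 0 → comb u v P = 0)
    (hcop : (degForm W u v).natAbs.Coprime (Fintype.card F)) : ((m : ℤ) ^ 2) ∣ degForm W u v := by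
  have hq : 1 < Fintype.card F := Fintype.one_lt_card
  have hpos : 0 < degForm W u v := by
    have h0 : 0 ≤ degForm W u v := degreeForm_nonneg W hΔ u v
    rcases h0.lt_or_eq with h | h
    · exact h
    · rw [← h, Int.natAbs_zero, Nat.coprime_zero_left] at hcop
      omega
  rw [← card_ker_comb (K := K) W hΔ hpos hcop]
  have h1 : Nat.card {P : (W.toAffine⁄K).Point // m • P = 0} = m ^ 2 :=
    card_torsion_of_coprime (K := K) W hΔ hm
  have h2 : ((nsmulAddMonoidHom m : (W.toAffine⁄K).Point →+ _).ker) ≤ (comb u v).ker := by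
    intro P hP
    exact hfull P hP
  have h3 := AddSubgroup.card_dvd_of_le h2
  have h4 : Nat.card (nsmulAddMonoidHom m : (W.toAffine⁄K).Point →+ _).ker = m ^ 2 := h1
  rw [h4] at h3
  exact_mod_cast h3

/-- **Full rational torsion**: if the `m`-torsion is fixed by Frobenius, then `m²` divides `#E(𝔽_q)` and `m` divides
`q - 1`. -/
theorem dvd_of_full_torsion (W : WeierstrassCurve F) (hΔ : W.Δ ≠ 0) {m : ℕ}
    (hm : m.Coprime (Fintype.card F))
    (hfull : ∀ P : (W.toAffine⁄K).Point, m • P = 0 → Fr P = P) :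
    (m : ℤ) ∣ W.traceOfFrobenius - 2 ∧ m ^ 2 ∣ Nat.card W.toAffine.Point ∧ m ∣ Fintype.card F - 1 := by
  set q := Fintype.card F with hq
  have hq1 : 1 < q := Fintype.one_lt_card
  have hkey : ∀ s : ℕ, s.Coprime q → ((m : ℤ) ^ 2) ∣ degForm W q (s * m - q) := by
    intro s hs
    apply sq_dvd_degForm (K := K) W hΔ hm
    · intro P hP
      have h1 : (m : ℤ) • P = 0 := by rw [natCast_zsmul]; exact hP
      rw [comb_apply, hfull P hP, ← add_smul, show (q : ℤ) + (s * m - q) = s * m by ring, mul_smul, h1,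
        smul_zero]
    · rw [← Int.isCoprime_iff_gcd_eq_one.trans (by rw [Int.gcd, Int.natAbs_natCast] :
        (degForm W q (s * m - q)).gcd (q : ℤ) = 1 ↔ (degForm W q (s * m - q)).natAbs.Coprime q)]
      have h1 : IsCoprime ((s * m : ℤ) ^ 2) (q : ℤ) := by
        apply IsCoprime.pow_left
        exact IsCoprime.mul_left (Nat.isCoprime_iff_coprime.mpr hs) (Nat.isCoprime_iff_coprime.mpr hm)
      have h2 : degForm W q (s * m - q) = (s * m : ℤ) ^ 2 +
          q * (q * q + W.traceOfFrobenius * (s * m - q) - 2 * (s * m) + q) := by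
        rw [degForm]
        ring
      rw [h2]
      exact h1.add_mul_left_left _
  have hm0 : (m : ℤ) ≠ 0 := by
    intro h
    have h' : m = 0 := by exact_mod_cast h
    rw [h', Nat.coprime_zero_left] at hm
    omega
  set a := W.traceOfFrobenius with ha
  have hN : (Nat.card W.toAffine.Point : ℤ) = q + 1 - a := by
    have hc : (W.card : ℤ) = (Nat.card W.toAffine.Point : ℤ) := rfl
    rw [ha, traceOfFrobenius, hq, Nat.card_eq_fintype_card (α := F), hc]
    ring
  have hmq : IsCoprime (m : ℤ) (q : ℤ) := Nat.isCoprime_iff_coprime.mpr hm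
  have h1 := hkey 1 (Nat.coprime_one_left q)
  have h2 := hkey (q + 1) (by simp)
  have h3 : (m : ℤ) * m ∣ m * ((q : ℤ) ^ 2 * (a - 2)) := by
    have h4 := dvd_sub h2 h1
    have h5 : degForm W q ((q + 1 : ℕ) * m - q) - degForm W q ((1 : ℕ) * m - q) =
        m * ((q : ℤ) ^ 2 * (a - 2)) + (m : ℤ) ^ 2 * ((q + 1) ^ 2 - 1) := by
      rw [degForm, degForm, ← ha, ← hq]
      push_cast
      ring
    rw [h5] at h4
    have h6 := (dvd_add_left (dvd_mul_right ((m : ℤ) ^ 2) _)).mp h4
    rwa [sq] at h6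
  have h4 : (m : ℤ) ∣ a - 2 :=
    (hmq.pow_right (n := 2)).dvd_of_dvd_mul_left ((mul_dvd_mul_iff_left hm0).mp h3)
  have h5 : (m : ℤ) ^ 2 ∣ (q : ℤ) ^ 2 * (q + 1 - a) := by
    have h6 : degForm W q ((1 : ℕ) * m - q) =
        (q : ℤ) ^ 2 * (q + 1 - a) + (m * (a - 2) * q + (m : ℤ) ^ 2) := by
      rw [degForm, ← ha, ← hq]
      push_cast
      ring
    rw [h6] at h1
    refine (dvd_add_left (dvd_add ?_ dvd_rfl)).mp h1
    rw [sq]
    exact Dvd.dvd.mul_right (mul_dvd_mul_left _ h4) _
  have h6 : (m : ℤ) ^ 2 ∣ q + 1 - a :=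
    (hmq.pow (m := 2) (n := 2)).dvd_of_dvd_mul_left h5
  refine ⟨h4, ?_, ?_⟩
  · rw [← hN] at h6
    exact_mod_cast h6
  · have h7 : (m : ℤ) ∣ (q : ℤ) - 1 := by
      have h8 : (m : ℤ) ∣ q + 1 - a := (dvd_pow_self _ two_ne_zero).trans h6
      have h9 := dvd_add h8 h4
      rwa [show (q : ℤ) + 1 - a + (a - 2) = q - 1 by ring] at h9
    have h8 : ((q - 1 : ℕ) : ℤ) = (q : ℤ) - 1 := by
      rw [Nat.cast_sub hq1.le]; norm_num
    rw [← h8] at h7
    exact_mod_cast h7

end Fermat.Agent.Cor.Bounds
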