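import Mathlib

/-!
# Finite commutative groups of rank at most two

A finite commutative group `G` such that `x ^ n = 1` has at most `n²` solutions for all `n > 0` is a product of two
cyclic groups of orders `d ∣ n`.

This file is not used by any of the statement files.
-/

set_option autoImplicit false

namespace Fermat.Agent.Cor.Bounds

universe u

/-- a character of `G` which is injective on a given cyclic subgroup -/
lemma exists_char_injOn {G : Type u} [CommGroup G] [Finite G] (x : G) :
    ∃ χ : G →* ℂˣ, ∀ y ∈ Subgroup.zpowers x, χ y = 1 → y = 1 := by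
  have hne : NeZero (Monoid.exponent G) := ⟨Monoid.exponent_ne_zero_of_finite⟩
  have hne' : NeZero (Nat.card (Subgroup.zpowers x)) := ⟨Nat.card_pos.ne'⟩
  obtain ⟨χ₀, hχ₀⟩ : ∃ χ₀ : Subgroup.zpowers x →* ℂˣ, Function.Injective χ₀ := by
    have hc : Nat.card (rootsOfUnity (Nat.card (Subgroup.zpowers x)) ℂ) =
        Nat.card (Subgroup.zpowers x) := Complex.card_rootsOfUnity _
    let e := mulEquivOfCyclicCardEq hc.symm
    exact ⟨(rootsOfUnity _ ℂ).subtype.comp e.toMonoidHom,
      (Subgroup.subtype_injective _).comp e.injective⟩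
  obtain ⟨χ, hχ⟩ := MonoidHom.domRestrict_surjective ℂ (Subgroup.zpowers x) χ₀
  refine ⟨χ, fun y hy h => ?_⟩
  have h1 : χ₀ ⟨y, hy⟩ = 1 := by
    rw [← hχ]
    exact h
  rw [← map_one χ₀] at h1
  exact congrArg Subtype.val (hχ₀ h1)

/-- **A cyclic subgroup of maximal order has a complement.** -/
lemma exists_complement {G : Type u} [CommGroup G] [Finite G] {x : G}
    (hx : orderOf x = Monoid.exponent G) :
    ∃ B : Subgroup G, Nonempty (Subgroup.zpowers x × B ≃* G) := by
  obtain ⟨χ, hχ⟩ := exists_char_injOn x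
  have he0 : Monoid.exponent G ≠ 0 := Monoid.exponent_ne_zero_of_finite
  have hne : NeZero (Monoid.exponent G) := ⟨he0⟩
  refine ⟨χ.ker, ⟨MulEquiv.ofBijective
    ((Subgroup.zpowers x).subtype.coprod χ.ker.subtype) ⟨?_, ?_⟩⟩⟩
  · rw [injective_iff_map_eq_one]
    rintro ⟨⟨h, hh⟩, ⟨b, hb⟩⟩ h1
    rw [MonoidHom.coprod_apply] at h1
    change h * b = 1 at h1
    have h2 : χ h = 1 := by
      have h3 := congrArg χ h1
      rwa [map_mul, MonoidHom.mem_ker.mp hb, mul_one, map_one] at h3
    have h4 := hχ h hh h2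
    rw [h4, one_mul] at h1
    ext
    · exact h4
    · exact h1
  · intro g
    -- the images of `G` and of the cyclic subgroup agree
    have hle : (Subgroup.zpowers x).map χ ≤ rootsOfUnity (Monoid.exponent G) ℂ := by
      rintro _ ⟨y, -, rfl⟩
      rw [mem_rootsOfUnity, ← map_pow, Monoid.pow_exponent_eq_one, map_one]
    have hcard : Nat.card (rootsOfUnity (Monoid.exponent G) ℂ) ≤
        Nat.card ((Subgroup.zpowers x).map χ) := by
      rw [Complex.card_rootsOfUnity, ← hx, ← Nat.card_zpowers x]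
      refine le_of_eq (Nat.card_congr ?_)
      refine Equiv.ofBijective (fun y => ⟨χ y.1, ⟨y.1, y.2, rfl⟩⟩) ⟨?_, ?_⟩
      · rintro ⟨a, ha⟩ ⟨b, hb⟩ hab
        have h1 : χ a = χ b := congrArg Subtype.val hab
        have h2 : χ (a * b⁻¹) = 1 := by rw [map_mul, map_inv, h1, mul_inv_cancel]
        have h3 := hχ _ (Subgroup.mul_mem _ ha (Subgroup.inv_mem _ hb)) h2
        ext
        exact mul_inv_eq_one.mp h3
      · rintro ⟨_, ⟨y, hy, rfl⟩⟩
        exact ⟨⟨y, hy⟩, rfl⟩
    have heq := Subgroup.eq_of_le_of_card_ge hle hcard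
    have hg : χ g ∈ (Subgroup.zpowers x).map χ := by
      rw [heq, mem_rootsOfUnity, ← map_pow, Monoid.pow_exponent_eq_one, map_one]
    obtain ⟨y, hy, hyg⟩ := hg
    refine ⟨⟨⟨y, hy⟩, ⟨y⁻¹ * g, ?_⟩⟩, ?_⟩
    · rw [MonoidHom.mem_ker, map_mul, map_inv, hyg, inv_mul_cancel]
    · rw [MonoidHom.coprod_apply]
      change y * (y⁻¹ * g) = g
      rw [mul_inv_cancel_left]

/-- **Finite commutative groups of rank at most two.** -/
theorem exists_mulEquiv_two_cyclic {G : Type u} [CommGroup G] [Finite G]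
    (h : ∀ n : ℕ, 0 < n → Nat.card {g : G // g ^ n = 1} ≤ n ^ 2) :
    ∃ d n : ℕ, 0 < d ∧ 0 < n ∧ d ∣ n ∧
      Nonempty (Multiplicative (ZMod d) × Multiplicative (ZMod n) ≃* G) := by
  classical
  have he0 : Monoid.exponent G ≠ 0 := Monoid.exponent_ne_zero_of_finite
  obtain ⟨x, hx⟩ := Monoid.exists_orderOf_eq_exponent
    (Monoid.ExponentExists.of_finite (G := G))
  obtain ⟨B, ⟨E⟩⟩ := exists_complement hx
  set e := Monoid.exponent G with he
  have hcardB : ∀ n : ℕ, 0 < n → Nat.card {b : B // b ^ n = 1} ≤ n := by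
    intro n hn
    set g := n.gcd e with hg
    have hg0 : 0 < g := Nat.gcd_pos_of_pos_left _ hn
    have hge : g ∣ e := Nat.gcd_dvd_right _ _
    have h1 : Nat.card {b : B // b ^ n = 1} ≤ Nat.card {b : B // b ^ g = 1} := by
      refine Nat.card_le_card_of_injective (fun b => ⟨b.1, ?_⟩) ?_
      · rw [hg, pow_gcd_eq_one]
        refine ⟨b.2, ?_⟩
        ext
        rw [Subgroup.coe_pow, he, Monoid.pow_exponent_eq_one, Subgroup.coe_one]
      · intro a b hab
        exact Subtype.ext (congrArg (fun z : {b : B // b ^ g = 1} => z.1) hab)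
    have h2 : Nat.card {b : B // b ^ g = 1} ≤ g := by
      -- an element of order `g` of the cyclic subgroup
      set y := x ^ (e / g) with hy
      have hyo : orderOf y = g := by
        rw [hy, orderOf_pow_of_dvd (Nat.div_pos (Nat.le_of_dvd (Nat.pos_of_ne_zero he0) hge) hg0).ne'
          (by rw [hx]; exact Nat.div_dvd_of_dvd hge), hx, Nat.div_div_self hge he0]
      have hyx : Subgroup.zpowers y ≤ Subgroup.zpowers x := by
        rw [Subgroup.zpowers_le]
        exact Subgroup.pow_mem _ (Subgroup.mem_zpowers x) _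
      have hyg : ∀ a ∈ Subgroup.zpowers y, a ^ g = 1 := by
        rintro _ ⟨k, rfl⟩
        change (y ^ k) ^ g = 1
        rw [← hyo, ← zpow_natCast, ← zpow_mul, mul_comm, zpow_mul, zpow_natCast, pow_orderOf_eq_one,
          one_zpow]
      have h3 : Nat.card (Subgroup.zpowers y × {b : B // b ^ g = 1}) ≤
          Nat.card {a : G // a ^ g = 1} := by
        refine Nat.card_le_card_of_injective
          (fun z => ⟨E (⟨z.1.1, hyx z.1.2⟩, z.2.1), ?_⟩) ?_
        · rw [← map_pow, Prod.pow_mk, z.2.2]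
          have h4 : (⟨z.1.1, hyx z.1.2⟩ : Subgroup.zpowers x) ^ g = 1 := by
            ext
            rw [Subgroup.coe_pow, Subgroup.coe_one]
            exact hyg _ z.1.2
          rw [h4, ← Prod.one_eq_mk, map_one]
        · rintro ⟨a, b⟩ ⟨a', b'⟩ hab
          have h4 := E.injective (congrArg (fun z : {a : G // a ^ g = 1} => z.1) hab)
          rw [Prod.mk.injEq] at h4
          obtain ⟨h5, h6⟩ := h4
          rw [Subtype.mk.injEq] at h5
          exact Prod.ext (Subtype.ext h5) (Subtype.ext h6)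
      rw [Nat.card_prod, Nat.card_zpowers, hyo] at h3
      have h4 := h3.trans (h g hg0)
      rw [sq] at h4
      exact Nat.le_of_mul_le_mul_left h4 hg0
    exact h1.trans (h2.trans (Nat.le_of_dvd hn (Nat.gcd_dvd_left _ _)))
  have hfB : Fintype B := Fintype.ofFinite B
  have hB : IsCyclic B := by
    apply isCyclic_of_card_pow_eq_one_le
    intro n hn
    rw [← Fintype.card_subtype, ← Nat.card_eq_fintype_card]
    exact hcardB n hn
  refine ⟨Nat.card B, Nat.card (Subgroup.zpowers x), Nat.card_pos, Nat.card_pos, ?_, ?_⟩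
  · obtain ⟨b, hb⟩ := hB.exists_generator
    have h1 : orderOf b = Nat.card B := orderOf_eq_card_of_forall_mem_zpowers hb
    rw [Nat.card_zpowers, hx, ← h1, ← Subgroup.orderOf_coe]
    exact Monoid.order_dvd_exponent _
  · exact ⟨(MulEquiv.prodCongr (zmodCyclicMulEquiv hB)
      (zmodCyclicMulEquiv (inferInstance : IsCyclic (Subgroup.zpowers x)))).trans
      (MulEquiv.prodComm.trans E)⟩

/-- **Finite commutative groups of rank at most two**, additive version. -/
theorem exists_addEquiv_two_cyclic {A : Type u} [AddCommGroup A] [Finite A]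
    (h : ∀ n : ℕ, 0 < n → Nat.card {a : A // n • a = 0} ≤ n ^ 2) :
    ∃ d n : ℕ, 0 < d ∧ 0 < n ∧ d ∣ n ∧ Nonempty (ZMod d × ZMod n ≃+ A) := by
  obtain ⟨d, n, hd, hn, hdn, ⟨e⟩⟩ := exists_mulEquiv_two_cyclic (G := Multiplicative A) h
  refine ⟨d, n, hd, hn, hdn, ⟨{
    toFun := fun z => (e (Multiplicative.ofAdd z.1, Multiplicative.ofAdd z.2)).toAdd
    invFun := fun a => ((e.symm (Multiplicative.ofAdd a)).1.toAdd, (e.symm (Multiplicative.ofAdd a)).2.toAdd)
    left_inv := fun z => by simp
    right_inv := fun a => by simp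
    map_add' := fun z w => congrArg Multiplicative.toAdd
      (e.map_mul (Multiplicative.ofAdd z.1, Multiplicative.ofAdd z.2)
        (Multiplicative.ofAdd w.1, Multiplicative.ofAdd w.2)) }⟩⟩

end Fermat.Agent.Cor.Bounds
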