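import Mathlib
import Fermat.Agent.Cor.RationalTorsion
import Fermat.Agent.Cor.TwoCyclic

/-!
# The group of rational points of an elliptic curve over a finite field

`E(𝔽_q)` is isomorphic to `ℤ/d × ℤ/n` with `d ∣ n` and `d ∣ q - 1`.

This file is not used by any of the statement files.
-/

set_option autoImplicit false

namespace Fermat.Agent.Cor.Bounds

open Polynomial WeierstrassCurve WeierstrassCurve.Affine WeierstrassCurve.Affine.Point
open Fermat.Agent.Frob Fermat.Agent.H08

universe u v

section embedding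

variable {F : Type u} [Field F] [DecidableEq F] {K : Type v} [Field K] [Algebra F K]
  [DecidableEq K]

omit [DecidableEq F] in
lemma baseChange_self (W : WeierstrassCurve F) : W.toAffine = (W.toAffine⁄F) := by
  change W = W.map (algebraMap F F)
  rw [Algebra.algebraMap_self, WeierstrassCurve.map_id]

/-- the embedding of `E(F)` in `E(K)` -/
noncomputable def toK (K : Type v) [Field K] [Algebra F K] [DecidableEq K] (W : WeierstrassCurve F) :
    W.toAffine.Point →+ (W.toAffine⁄K).Point :=
  (Point.map (W' := W.toAffine) (Algebra.ofId F K)).comp (castPt (baseChange_self W)).toAddMonoidHom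

lemma toK_injective (W : WeierstrassCurve F) : Function.Injective (toK K W) :=
  (Point.map_injective (Algebra.ofId F K)).comp (castPt (baseChange_self W)).injective

lemma Fr_toK [Fintype F] (W : WeierstrassCurve F) (P : W.toAffine.Point) :
    Fr (toK K W P) = toK K W P := by
  change Fr (Point.map (W' := W.toAffine) (Algebra.ofId F K) (castPt (baseChange_self W) P)) =
    Point.map (W' := W.toAffine) (Algebra.ofId F K) (castPt (baseChange_self W) P)
  rw [← map_Fr]
  congr 1
  set Q := castPt (baseChange_self W) P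
  by_cases hQ : Q = 0
  · rw [hQ, _root_.map_zero]
  · apply pt_ext (Fr_ne_zero hQ) hQ
    · rw [px_Fr, FiniteField.pow_card]
    · rw [py_Fr, FiniteField.pow_card]

end embedding

/-- torsion in a product of two cyclic groups -/
lemma card_torsion_two_cyclic {A : Type u} [AddCommGroup A] {d n : ℕ} (hd : 0 < d) (hn : 0 < n)
    (e : ZMod d × ZMod n ≃+ A) (k : ℕ) :
    Nat.card {a : A // k • a = 0} = d.gcd k * n.gcd k := by
  have h1 : ∀ m : ℕ, 0 < m → Nat.card {a : ZMod m // k • a = 0} = m.gcd k := by
    intro m hm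
    have hne : NeZero m := ⟨hm.ne'⟩
    have h2 := IsAddCyclic.card_nsmulAddMonoidHom_ker (G := ZMod m) k
    rw [Nat.card_zmod] at h2
    exact h2
  have h3 : Nat.card {a : A // k • a = 0} = Nat.card ({a : ZMod d // k • a = 0} × {a : ZMod n // k • a = 0}) := by
    refine (Nat.card_congr ?_).symm
    refine Equiv.ofBijective (fun z => ⟨e (z.1.1, z.2.1), ?_⟩) ⟨?_, ?_⟩
    · rw [← map_nsmul, Prod.smul_mk, z.1.2, z.2.2, ← Prod.zero_eq_mk, _root_.map_zero]
    · rintro ⟨⟨a, ha⟩, ⟨b, hb⟩⟩ ⟨⟨a', ha'⟩, ⟨b', hb'⟩⟩ h
      have h4 := e.injective (congrArg (fun z : {a : A // k • a = 0} => z.1) h)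
      rw [Prod.mk.injEq] at h4
      obtain ⟨h5, h6⟩ := h4
      exact Prod.ext (Subtype.ext h5) (Subtype.ext h6)
    · rintro ⟨a, ha⟩
      obtain ⟨⟨x, y⟩, rfl⟩ := e.surjective a
      rw [← map_nsmul, map_eq_zero_iff e e.injective, Prod.smul_mk, Prod.mk_eq_zero] at ha
      exact ⟨⟨⟨x, ha.1⟩, ⟨y, ha.2⟩⟩, rfl⟩
  rw [h3, Nat.card_prod, h1 d hd, h1 n hn]

section main

variable {F : Type u} [Field F] [Fintype F] [DecidableEq F]

/-- `E(F)` has at most `k²` points of order dividing `k` -/
lemma card_rational_torsion_le (W : WeierstrassCurve F) (hΔ : W.Δ ≠ 0) {k : ℕ} (hk : 0 < k) :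
    Nat.card {P : W.toAffine.Point // k • P = 0} ≤ k ^ 2 := by
  classical
  have hdeg : degForm W 0 (k : ℤ) = (k : ℤ) ^ 2 := by rw [degForm]; ring
  have hpos : 0 < degForm W 0 (k : ℤ) := by rw [hdeg]; positivity
  obtain ⟨hfin, hle⟩ := card_ker_comb_le (K := AlgebraicClosure F) W hΔ hpos
  rw [hdeg] at hle
  have hle' : Nat.card {P : (W.toAffine⁄(AlgebraicClosure F)).Point // comb 0 (k : ℤ) P = 0} ≤ k ^ 2 := by
    exact_mod_cast hle
  let f : {P : W.toAffine.Point // k • P = 0} →
      {P : (W.toAffine⁄(AlgebraicClosure F)).Point // comb 0 (k : ℤ) P = 0} :=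
    fun P => ⟨toK (AlgebraicClosure F) W P.1, by
      rw [comb_apply, zero_smul, zero_add, natCast_zsmul, ← map_nsmul, P.2, _root_.map_zero]⟩
  have hf : Function.Injective f := by
    intro P Q h
    exact Subtype.ext (toK_injective W (congrArg Subtype.val h))
  exact (Nat.card_le_card_of_injective f hf).trans hle'

/-- **The structure of the group of rational points**: `E(𝔽_q) ≅ ℤ/d × ℤ/n` with `d ∣ n` and `d ∣ q - 1`. -/
theorem group_structure (W : WeierstrassCurve F) (hΔ : W.Δ ≠ 0) :
    ∃ d n : ℕ, 0 < d ∧ 0 < n ∧ d ∣ n ∧ d ∣ Fintype.card F - 1 ∧ d * n = Nat.card W.toAffine.Point ∧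
      Nonempty (ZMod d × ZMod n ≃+ W.toAffine.Point) := by
  classical
  obtain ⟨d, n, hd, hn, hdn, ⟨e⟩⟩ := exists_addEquiv_two_cyclic (A := W.toAffine.Point)
    (fun k hk => card_rational_torsion_le W hΔ hk)
  refine ⟨d, n, hd, hn, hdn, ?_, ?_, ⟨e⟩⟩
  · -- the characteristic does not divide `d`
    obtain ⟨p, hchar⟩ := CharP.exists F
    have hp : Fact p.Prime := ⟨CharP.char_is_prime F p⟩
    obtain ⟨r, hpr, hcard⟩ := FiniteField.card F p
    have hpd : ¬ p ∣ d := by
      intro h
      have h1 := card_torsion_two_cyclic hd hn e p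
      rw [Nat.gcd_eq_right h, Nat.gcd_eq_right (h.trans hdn)] at h1
      have h2 := card_pTorsion (K := AlgebraicClosure F) (p := p) W hΔ
      have h3 : Nat.card {P : (W.toAffine⁄(AlgebraicClosure F)).Point // p • P = 0} ≤ p := by
        rw [h2]
        split_ifs
        · exact hp.out.one_lt.le
        · exact le_rfl
      have h4 : 0 < Nat.card {P : (W.toAffine⁄(AlgebraicClosure F)).Point // p • P = 0} := by
        rw [h2]
        split_ifs
        · exact one_pos
        · exact hp.out.pos
      have hfin := Nat.finite_of_card_ne_zero h4.ne'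
      have h5 : Nat.card {P : W.toAffine.Point // p • P = 0} ≤
          Nat.card {P : (W.toAffine⁄(AlgebraicClosure F)).Point // p • P = 0} := by
        refine Nat.card_le_card_of_injective (fun P => ⟨toK (AlgebraicClosure F) W P.1, ?_⟩) ?_
        · rw [← map_nsmul, P.2, _root_.map_zero]
        · intro P Q h
          have h1 := congrArg (fun z : {P : (W.toAffine⁄(AlgebraicClosure F)).Point //
            p • P = 0} => z.1) h
          exact Subtype.ext (toK_injective W h1)
      have h6 := hp.out.one_lt
      have h7 := h5.trans h3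
      rw [h1] at h7
      have h8 : p * p ≤ p * 1 := by rw [mul_one]; exact h7
      exact absurd (Nat.le_of_mul_le_mul_left h8 hp.out.pos) (not_le.mpr h6)
    have hcop : d.Coprime (Fintype.card F) := by
      rw [hcard]
      exact Nat.Coprime.pow_right _ ((hp.out.coprime_iff_not_dvd.mpr hpd).symm)
    -- all points of order dividing `d` are rational
    have h1 := card_torsion_two_cyclic hd hn e d
    rw [Nat.gcd_self, Nat.gcd_eq_right hdn] at h1
    have h2 := card_torsion_of_coprime (K := AlgebraicClosure F) W hΔ hcop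
    have hfin : Finite {P : (W.toAffine⁄(AlgebraicClosure F)).Point // d • P = 0} :=
      Nat.finite_of_card_ne_zero (by rw [h2]; positivity)
    let f : {P : W.toAffine.Point // d • P = 0} →
        {P : (W.toAffine⁄(AlgebraicClosure F)).Point // d • P = 0} :=
      fun P => ⟨toK (AlgebraicClosure F) W P.1, by rw [← map_nsmul, P.2, _root_.map_zero]⟩
    have hf : Function.Injective f := by
      intro P Q h
      exact Subtype.ext (toK_injective W (congrArg Subtype.val h))
    have hbij := hf.bijective_of_nat_card_le (by rw [h1, h2, sq])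
    refine (dvd_of_full_torsion (K := AlgebraicClosure F) W hΔ hcop ?_).2.2
    intro P hP
    obtain ⟨Q, hQ⟩ := hbij.2 ⟨P, hP⟩
    have h3 : toK (AlgebraicClosure F) W Q.1 = P := congrArg Subtype.val hQ
    rw [← h3]
    exact Fr_toK W Q.1
  · rw [← Nat.card_congr e.toEquiv, Nat.card_prod, Nat.card_zmod, Nat.card_zmod]

end main

end Fermat.Agent.Cor.Bounds
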