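import Mathlib
import Fermat.Agent.Cor.Deuring

/-!
# The Hasse invariant

Let `F` be a finite field of odd characteristic `p` with `q` elements and `E` an elliptic curve over `F` with
`ψ₂² = g(x) = 4 x³ + b₂ x² + 2 b₄ x + b₆`. Then the trace of Frobenius is congruent modulo `p` to the coefficient of
`x ^ (q - 1)` in `g ^ ((q - 1) / 2)`, and `E` is supersingular if and only if the coefficient of `x ^ (p - 1)` in
`g ^ ((p - 1) / 2)` vanishes.

This file is not used by any of the statement files.
-/

set_option autoImplicit false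

namespace Fermat.Agent.Cor.Bounds

open Polynomial WeierstrassCurve WeierstrassCurve.Affine WeierstrassCurve.Affine.Point
open Fermat.Agent.Frob Fermat.Agent.H08

universe u v

section sums

variable {F : Type u} [Field F] [Fintype F]

/-- power sums over a finite field -/
lemma sum_pow_of_ne_zero {k : ℕ} (hk : k ≠ 0) :
    ∑ x : F, x ^ k = if Fintype.card F - 1 ∣ k then (-1 : F) else 0 := by
  classical
  rw [← FiniteField.sum_pow_units F k]
  let φ : Fˣ ↪ F := ⟨fun x ↦ x, Units.val_injective⟩
  have h1 : Finset.univ.map φ = Finset.univ \ {0} := by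
    ext x
    simpa only [Finset.mem_map, Finset.mem_univ, Function.Embedding.coeFn_mk, true_and,
      Finset.mem_sdiff, Finset.mem_singleton, φ] using! isUnit_iff_ne_zero
  calc ∑ x : F, x ^ k = ∑ x ∈ Finset.univ \ {(0 : F)}, x ^ k := by
        rw [← Finset.sum_sdiff ({0} : Finset F).subset_univ, Finset.sum_singleton, zero_pow hk,
          add_zero]
    _ = ∑ x : Fˣ, (x ^ k : F) := by simp [φ, ← h1, Finset.univ.sum_map φ]

/-- the sum of the values of a polynomial of degree `< 2 (q - 1)` -/
lemma sum_eval {g : F[X]} (hg : g.natDegree < 2 * (Fintype.card F - 1)) :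
    ∑ x : F, g.eval x = - g.coeff (Fintype.card F - 1) := by
  have hq : 1 < Fintype.card F := Fintype.one_lt_card
  simp_rw [eval_eq_sum_range]
  rw [Finset.sum_comm]
  simp_rw [← Finset.mul_sum]
  have h1 : ∀ k ∈ Finset.range (g.natDegree + 1), g.coeff k * ∑ x : F, x ^ k =
      if k = Fintype.card F - 1 then - g.coeff (Fintype.card F - 1) else 0 := by
    intro k hk
    rw [Finset.mem_range] at hk
    rcases eq_or_ne k 0 with rfl | hk0
    · rw [FiniteField.sum_pow_lt_card_sub_one F 0 (by omega), mul_zero, if_neg (by omega)]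
    · rw [sum_pow_of_ne_zero hk0]
      by_cases h2 : k = Fintype.card F - 1
      · rw [if_pos (by rw [h2]), if_pos h2, h2]; ring
      · rw [if_neg h2, if_neg, mul_zero]
        rintro ⟨c, hc⟩
        rcases c with _ | _ | c
        · omega
        · omega
        · have : 2 * (Fintype.card F - 1) ≤ k := by
            rw [hc, mul_comm]
            exact Nat.mul_le_mul_left _ (by omega)
          omega
  rw [Finset.sum_congr rfl h1, Finset.sum_ite_eq']
  split_ifs with h2
  · rfl
  · rw [Finset.mem_range, not_lt] at h2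
    rw [coeff_eq_zero_of_natDegree_lt (by omega), _root_.neg_zero]

end sums

section main

variable {F : Type u} [Field F]

/-- the cubic `4 x³ + b₂ x² + 2 b₄ x + b₆` -/
noncomputable def cubic (W : WeierstrassCurve F) : F[X] :=
  C 4 * X ^ 3 + C W.b₂ * X ^ 2 + C (2 * W.b₄) * X + C W.b₆

lemma natDegree_cubic_le (W : WeierstrassCurve F) : (cubic W).natDegree ≤ 3 := by
  rw [cubic]
  exact Polynomial.natDegree_cubic_le

lemma natDegree_cubic_pow_le (W : WeierstrassCurve F) (m : ℕ) :
    ((cubic W) ^ m).natDegree ≤ 3 * m := by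
  refine natDegree_pow_le.trans ?_
  rw [mul_comm]
  exact Nat.mul_le_mul_right m (natDegree_cubic_le W)

variable [Fintype F]

/-- the number of points with given abscissa -/
lemma card_fib [DecidableEq F] (hF : ringChar F ≠ 2) (W : WeierstrassCurve F) (c : F) :
    ((fib W.toAffine c).card : ℤ) = quadraticChar F ((cubic W).eval c) + 1 := by
  have h2 : (2 : F) ≠ 0 := Ring.two_ne_zero hF
  rw [← quadraticChar_card_sqrts hF]
  congr 1
  have hg : (cubic W).eval c = 4 * c ^ 3 + W.b₂ * c ^ 2 + 2 * W.b₄ * c + W.b₆ := by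
    simp [cubic]
  refine Finset.card_bij' (fun y _ => 2 * y + W.a₁ * c + W.a₃)
    (fun z _ => (z - W.a₁ * c - W.a₃) / 2) ?_ ?_ ?_ ?_
  · intro y hy
    rw [mem_fib, equation_iff] at hy
    rw [Set.mem_toFinset, Set.mem_ofPred_eq, hg, WeierstrassCurve.b₂, WeierstrassCurve.b₄,
      WeierstrassCurve.b₆]
    linear_combination 4 * hy
  · intro z hz
    rw [Set.mem_toFinset, Set.mem_ofPred_eq, hg, WeierstrassCurve.b₂, WeierstrassCurve.b₄,
      WeierstrassCurve.b₆] at hz
    rw [mem_fib, equation_iff]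
    have h4 : (4 : F) ≠ 0 := by
      rw [show (4 : F) = 2 * 2 by norm_num]; exact mul_ne_zero h2 h2
    apply mul_left_cancel₀ h4
    field_simp
    linear_combination hz
  · intro y _
    field_simp
    ring
  · intro z _
    field_simp
    ring

/-- **The Hasse invariant computes the trace of Frobenius modulo `p`.** -/
theorem trace_eq_coeff (hF : ringChar F ≠ 2) (W : WeierstrassCurve F) (hΔ : W.Δ ≠ 0) :
    (W.traceOfFrobenius : F) = ((cubic W) ^ (Fintype.card F / 2)).coeff (Fintype.card F - 1) := by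
  classical
  have hell : W.toAffine.IsElliptic := ⟨isUnit_iff_ne_zero.mpr hΔ⟩
  have hodd := FiniteField.odd_card_of_char_ne_two hF
  have hq : 1 < Fintype.card F := Fintype.one_lt_card
  have h1 : (Nat.card W.toAffine.Point : ℤ) = 1 + ∑ c : F, (quadraticChar F ((cubic W).eval c) + 1) := by
    rw [card_point_eq]
    push_cast
    congr 1
    exact Finset.sum_congr rfl fun c _ => card_fib hF W c
  have h2 : W.traceOfFrobenius = - ∑ c : F, quadraticChar F ((cubic W).eval c) := by
    rw [traceOfFrobenius, card, h1, Finset.sum_add_distrib, Finset.sum_const, Finset.card_univ,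
      Nat.card_eq_fintype_card (α := F), nsmul_eq_mul, mul_one]
    ring
  rw [h2, Int.cast_neg, Int.cast_sum]
  have h3 : ∀ c : F, ((quadraticChar F ((cubic W).eval c) : ℤ) : F) =
      ((cubic W) ^ (Fintype.card F / 2)).eval c := by
    intro c
    rw [quadraticChar_eq_pow_of_char_ne_two' hF, eval_pow]
  rw [Finset.sum_congr rfl fun c _ => h3 c, sum_eval, neg_neg]
  have h4 := natDegree_cubic_pow_le W (Fintype.card F / 2)
  omega

end main

/-! ### From `q` to `p` -/

section pow

variable {F : Type u} [Field F] {p : ℕ} [hp : Fact p.Prime] [CharP F p]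

/-- the coefficient of `x ^ (p ^ s - 1)` in `g ^ ((p ^ s - 1) / 2)` -/
noncomputable def hasseCoeff (p : ℕ) (g : F[X]) (s : ℕ) : F :=
  (g ^ ((p ^ s - 1) / 2)).coeff (p ^ s - 1)

lemma hasseCoeff_succ (hp2 : p ≠ 2) {g : F[X]} (hg : g.natDegree ≤ 3) (s : ℕ) :
    hasseCoeff p g (s + 1) = hasseCoeff p g s * hasseCoeff p g 1 ^ (p ^ s) := by
  have hpodd : Odd p := hp.out.odd_of_ne_two hp2
  have hp1 : 1 < p := hp.out.one_lt
  obtain ⟨m, hm⟩ := hpodd
  obtain ⟨t, ht⟩ : Odd (p ^ s) := (hp.out.odd_of_ne_two hp2).pow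
  have hps : 0 < p ^ s := Nat.pos_of_ne_zero (pow_ne_zero _ hp.out.ne_zero)
  have e1 : (p ^ (s + 1) - 1) / 2 = t + m * p ^ s := by
    have : p ^ (s + 1) = 2 * (t + m * p ^ s) + 1 := by
      rw [pow_succ]
      nth_rewrite 2 [hm]
      rw [mul_add, mul_one]
      nth_rewrite 2 [ht]
      ring
    omega
  have e2 : (p ^ s - 1) / 2 = t := by omega
  have e3 : (p ^ 1 - 1) / 2 = m := by rw [pow_one]; omega
  rw [hasseCoeff, hasseCoeff, hasseCoeff, e1, e2, e3, pow_one, pow_add, pow_mul]
  set U := g ^ t with hU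
  set V := g ^ m with hV
  have hUdeg : U.natDegree ≤ 3 * t := by
    refine natDegree_pow_le.trans ?_
    rw [mul_comm]
    exact Nat.mul_le_mul_right t hg
  rw [← map_iterateFrobenius_expand p V s, coeff_mul]
  rw [Finset.sum_eq_single (p ^ s - 1, (p - 1) * p ^ s)]
  · rw [coeff_map, coeff_expand_mul hps, iterateFrobenius_def]
  · rintro ⟨i, j⟩ hij hne
    rw [Finset.HasAntidiagonal.mem_antidiagonal] at hij
    simp only at hij
    rw [coeff_map, coeff_expand hps]
    split_ifs with hdvd
    · obtain ⟨j', hj'⟩ := hdvd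
      by_cases hi : U.natDegree < i
      · rw [coeff_eq_zero_of_natDegree_lt hi, zero_mul]
      · exfalso
        push Not at hi
        -- `i + 1 ≡ 0 mod p ^ s`, `i + 1 < 2 p ^ s`
        have h1 : i + 1 + p ^ s * j' = p ^ s * p := by
          have h2 : 0 < p ^ (s + 1) := Nat.pos_of_ne_zero (pow_ne_zero _ hp.out.ne_zero)
          rw [← pow_succ, ← hj']
          omega
        have h2 : p ^ s ∣ i + 1 := by
          have h3 : p ^ s ∣ i + 1 + p ^ s * j' := by rw [h1]; exact dvd_mul_right _ _
          exact (Nat.dvd_add_left (dvd_mul_right _ _)).mp h3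
        obtain ⟨c, hc⟩ := h2
        have h3 : i + 1 < 2 * p ^ s := by omega
        have h4 : c = 1 := by
          rcases c with _ | _ | c
          · omega
          · rfl
          · exfalso
            have : 2 * p ^ s ≤ p ^ s * (c + 1 + 1) := by
              rw [mul_comm]; exact Nat.mul_le_mul_left _ (by omega)
            omega
        rw [h4, mul_one] at hc
        apply hne
        have h5 : i = p ^ s - 1 := by omega
        have h6 : p ^ s * j' = p ^ s * (p - 1) := by
          rw [Nat.mul_sub, mul_one]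
          omega
        have h7 : j = (p - 1) * p ^ s := (show j = p ^ s * j' from hj').trans (by rw [h6, mul_comm])
        rw [h5, h7]
    · rw [_root_.map_zero, mul_zero]
  · intro h
    exfalso
    apply h
    rw [Finset.HasAntidiagonal.mem_antidiagonal]
    simp only
    have h2 : (p - 1) * p ^ s + p ^ s = p ^ (s + 1) := by
      rw [pow_succ, mul_comm (p ^ s) p, Nat.sub_mul, one_mul]
      have : p ^ s ≤ p * p ^ s := Nat.le_mul_of_pos_left _ hp.out.pos
      omega
    omega

lemma hasseCoeff_eq_zero_iff (hp2 : p ≠ 2) {g : F[X]} (hg : g.natDegree ≤ 3) {s : ℕ} (hs : s ≠ 0) :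
    hasseCoeff p g s = 0 ↔ hasseCoeff p g 1 = 0 := by
  have h0 : hasseCoeff p g 0 = 1 := by simp [hasseCoeff]
  have key : ∀ s : ℕ, hasseCoeff p g 1 ≠ 0 → hasseCoeff p g s ≠ 0 := by
    intro s h
    induction s with
    | zero => rw [h0]; exact one_ne_zero
    | succ s ih => rw [hasseCoeff_succ hp2 hg]; exact mul_ne_zero ih (pow_ne_zero _ h)
  constructor
  · intro h
    by_contra hne
    exact key s hne h
  · intro h
    obtain ⟨s, rfl⟩ := Nat.exists_eq_succ_of_ne_zero hs
    rw [hasseCoeff_succ hp2 hg, h, zero_pow (pow_ne_zero _ hp.out.ne_zero), mul_zero]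

omit hp in
lemma ringChar_ne_two (hp2 : p ≠ 2) : ringChar F ≠ 2 := by
  rwa [ringChar.eq F p]

variable [Fintype F]

/-- **The Hasse invariant**: `p` divides the trace of Frobenius if and only if the coefficient of `x ^ (p - 1)`
in `(4 x³ + b₂ x² + 2 b₄ x + b₆) ^ ((p - 1) / 2)` is zero. -/
theorem dvd_trace_iff (hp2 : p ≠ 2) (W : WeierstrassCurve F) (hΔ : W.Δ ≠ 0) :
    (p : ℤ) ∣ W.traceOfFrobenius ↔ ((cubic W) ^ ((p - 1) / 2)).coeff (p - 1) = 0 := by
  obtain ⟨r, -, hr⟩ := FiniteField.card F p
  rw [← CharP.intCast_eq_zero_iff F p, trace_eq_coeff (ringChar_ne_two (p := p) hp2) W hΔ]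
  have h1 : (Fintype.card F) / 2 = (p ^ (r : ℕ) - 1) / 2 := by
    rw [hr]
    obtain ⟨t, ht⟩ : Odd (p ^ (r : ℕ)) := (hp.out.odd_of_ne_two hp2).pow
    omega
  have h2 := hasseCoeff_eq_zero_iff hp2 (natDegree_cubic_le W) r.ne_zero
  rw [hasseCoeff, hasseCoeff, pow_one] at h2
  rw [h1, hr]
  exact h2

/-- **Supersingular elliptic curves and the Hasse invariant.** -/
theorem supersingular_iff_hasse (hp2 : p ≠ 2) (W : WeierstrassCurve F) (hΔ : W.Δ ≠ 0) (K : Type v)
    [Field K] [IsAlgClosed K] [Algebra F K] [DecidableEq K] :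
    (∀ P : (W⁄K).Point, p • P = 0 → P = 0) ↔
      ((cubic W) ^ ((p - 1) / 2)).coeff (p - 1) = 0 := by
  rw [deuring (p := p) W hΔ K, dvd_trace_iff hp2 W hΔ]

end pow

end Fermat.Agent.Cor.Bounds
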