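import Mathlib
import Fermat.Agent.Cor.HasseInvariant

/-!
# Supersingular elliptic curves in Legendre form

Let `p` be an odd prime, `m = (p - 1) / 2` and `H(t) = ∑ (m choose i)² t ^ i`. For `t ≠ 0, 1` in an algebraic closure of
`𝔽_p`, the elliptic curve `y² = x (x - 1) (x - t)` is supersingular if and only if `H(t) = 0`; the roots of `H` are
simple and different from `0`, `1`, so there are exactly `(p - 1) / 2` supersingular values of `t`.

This file is not used by any of the statement files.
-/

set_option autoImplicit false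

namespace Fermat.Agent.Cor.Bounds

open Polynomial WeierstrassCurve WeierstrassCurve.Affine WeierstrassCurve.Affine.Point
open Fermat.Agent.Frob Fermat.Agent.H08

universe u v

/-! ### The Legendre family -/

section family

variable {k : Type u} [Field k]

/-- the curve `y² = x (x - 1) (x - t)` -/
def legendre (t : k) : WeierstrassCurve k := ⟨0, -(1 + t), 0, t, 0⟩

lemma legendre_Δ (t : k) : (legendre t).Δ = 16 * t ^ 2 * (t - 1) ^ 2 := by
  simp only [legendre, WeierstrassCurve.Δ, WeierstrassCurve.b₂, WeierstrassCurve.b₄,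
    WeierstrassCurve.b₆, WeierstrassCurve.b₈]
  ring

lemma cubic_legendre (t : k) : cubic (legendre t) = C 4 * (X * ((X - C 1) * (X - C t))) := by
  simp only [cubic, legendre, WeierstrassCurve.b₂, WeierstrassCurve.b₄, WeierstrassCurve.b₆]
  have h1 : (C (0 ^ 2 + 4 * -(1 + t)) : k[X]) = - (C 4 * (1 + C t)) := by
    rw [← C_1, ← C_add, ← C_mul, ← C_neg]; congr 1; ring
  have h2 : (C (2 * (2 * t + 0 * 0)) : k[X]) = C 4 * C t := by
    rw [← C_mul]; congr 1; ring
  have h3 : (C (0 ^ 2 + 4 * 0) : k[X]) = 0 := by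
    rw [show (0 ^ 2 + 4 * 0 : k) = 0 by ring, C_0]
  rw [h1, h2, h3, C_1]
  ring

/-- the polynomial `∑ (m choose i)² t ^ i` -/
noncomputable def hassePoly (k : Type u) [Field k] (m : ℕ) : k[X] :=
  ∑ i ∈ Finset.range (m + 1), C ((m.choose i : k) ^ 2) * X ^ i

lemma coeff_hassePoly (m i : ℕ) : (hassePoly k m).coeff i = (m.choose i : k) ^ 2 := by
  rw [hassePoly, finsetSum_coeff]
  simp_rw [coeff_C_mul_X_pow]
  rw [Finset.sum_ite_eq]
  split_ifs with h
  · rfl
  · rw [Finset.mem_range, not_lt] at h
    rw [Nat.choose_eq_zero_of_lt (by omega)]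
    simp

lemma eval_hassePoly (m : ℕ) (t : k) :
    (hassePoly k m).eval t = ∑ i ∈ Finset.range (m + 1), (m.choose i : k) ^ 2 * t ^ i := by
  rw [hassePoly, eval_finsetSum]
  simp

/-- the Hasse invariant of the Legendre curve -/
lemma coeff_cubic_legendre (m : ℕ) (t : k) :
    ((cubic (legendre t)) ^ m).coeff (2 * m) = (-4) ^ m * (hassePoly k m).eval t := by
  rw [cubic_legendre, mul_pow, mul_pow, ← C_pow, coeff_C_mul, mul_comm (X ^ m), two_mul,
    coeff_mul_X_pow, mul_pow, coeff_mul, eval_hassePoly]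
  have h1 : ∀ x : ℕ × ℕ, x ∈ Finset.HasAntidiagonal.antidiagonal m →
      ((X - C (1 : k)) ^ m).coeff x.1 * ((X - C t) ^ m).coeff x.2 =
        (-1) ^ m * ((m.choose x.1 : k) ^ 2 * t ^ x.1) := by
    rintro ⟨i, j⟩ hij
    rw [Finset.HasAntidiagonal.mem_antidiagonal] at hij
    simp only at hij ⊢
    rw [sub_eq_add_neg, sub_eq_add_neg, ← C_neg, ← C_neg, coeff_X_add_C_pow, coeff_X_add_C_pow]
    have e1 : m - i = j := by omega
    have e2 : m - j = i := by omega
    have e3 : m.choose j = m.choose i := by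
      rw [← e1]; exact Nat.choose_symm (by omega)
    rw [e1, e2, e3, neg_pow t, ← hij, pow_add (-1 : k)]
    ring
  rw [Finset.sum_congr rfl h1, ← Finset.mul_sum, Finset.Nat.sum_antidiagonal_eq_sum_range_succ_mk]
  simp only
  rw [neg_pow (4 : k)]
  ring

end family

/-! ### The differential equation -/

section ode

variable {k : Type u} [Field k] {p : ℕ} [hp : Fact p.Prime] [CharP k p]

lemma four_ne_zero' (hp2 : p ≠ 2) : (4 : k) ≠ 0 := by
  intro h
  have h1 : ((4 : ℕ) : k) = 0 := by exact_mod_cast h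
  rw [CharP.cast_eq_zero_iff k p] at h1
  have h2 : p ∣ 2 ^ 2 := by norm_num; exact h1
  exact hp2 ((Nat.prime_dvd_prime_iff_eq hp.out Nat.prime_two).mp (hp.out.dvd_of_dvd_pow h2))

omit hp in
/-- the recursion for the coefficients -/
lemma choose_rec {m : ℕ} (hm : p = 2 * m + 1) (i : ℕ) :
    4 * ((i : k) + 1) ^ 2 * (m.choose (i + 1) : k) ^ 2 = (2 * (i : k) + 1) ^ 2 * (m.choose i : k) ^ 2 := by
  have hp0 : (2 * (m : k) + 1) = 0 := by
    have h := CharP.cast_eq_zero k p
    rw [hm] at h
    push_cast at h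
    exact h
  have h1 := Nat.choose_succ_right_eq m i
  have h2 : ((m.choose (i + 1) : ℕ) : k) * ((i : k) + 1) = (m.choose i : k) * ((m - i : ℕ) : k) := by
    exact_mod_cast congrArg (Nat.cast (R := k)) h1
  by_cases hi : i ≤ m
  · rw [Nat.cast_sub hi] at h2
    have h3 : 2 * ((m.choose (i + 1) : ℕ) : k) * ((i : k) + 1) =
        - (2 * (i : k) + 1) * (m.choose i : k) := by
      linear_combination 2 * h2 + (m.choose i : k) * hp0
    calc 4 * ((i : k) + 1) ^ 2 * (m.choose (i + 1) : k) ^ 2 =
        (2 * ((m.choose (i + 1) : ℕ) : k) * ((i : k) + 1)) ^ 2 := by ring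
      _ = (- (2 * (i : k) + 1) * (m.choose i : k)) ^ 2 := by rw [h3]
      _ = _ := by ring
  · rw [Nat.choose_eq_zero_of_lt (by omega : m < i), Nat.choose_eq_zero_of_lt (by omega : m < i + 1)]
    simp

omit hp in
/-- **The hypergeometric differential equation** satisfied by the Hasse polynomial. -/
lemma hassePoly_ode {m : ℕ} (hm : p = 2 * m + 1) :
    C 4 * (X * (1 - X)) * derivative (derivative (hassePoly k m)) +
      C 4 * (1 - C 2 * X) * derivative (hassePoly k m) - hassePoly k m = 0 := by
  set H := hassePoly k m with hH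
  have e : C 4 * (X * (1 - X)) * derivative (derivative H) + C 4 * (1 - C 2 * X) * derivative H - H =
      C 4 * (derivative (derivative H) * X) - C 4 * (derivative (derivative H) * X ^ 2) +
        C 4 * derivative H - C 8 * (derivative H * X) - H := by
    have h8 : (C 8 : k[X]) = C 4 * C 2 := by rw [← C_mul]; norm_num
    rw [h8]; ring
  rw [e]
  ext i
  simp only [coeff_sub, coeff_add, coeff_C_mul, coeff_zero]
  have hrec := choose_rec (k := k) hm i
  have hd : ∀ j : ℕ, (derivative H).coeff j = (m.choose (j + 1) : k) ^ 2 * ((j : k) + 1) := by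
    intro j
    rw [coeff_derivative, hH, coeff_hassePoly]
  have hdd : ∀ j : ℕ, (derivative (derivative H)).coeff j =
      (m.choose (j + 2) : k) ^ 2 * ((j : k) + 2) * ((j : k) + 1) := by
    intro j
    rw [coeff_derivative, hd]
    push_cast
    ring
  have hc : H.coeff i = (m.choose i : k) ^ 2 := by rw [hH, coeff_hassePoly]
  rw [hc, hd]
  match i with
  | 0 =>
    rw [coeff_mul_X_zero, coeff_mul_X_pow', if_neg (by norm_num), coeff_mul_X_zero]
    push_cast at hrec ⊢
    linear_combination hrec
  | 1 =>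
    rw [coeff_mul_X, coeff_mul_X_pow', if_neg (by norm_num), coeff_mul_X, hdd, hd]
    push_cast at hrec ⊢
    linear_combination hrec
  | (j + 2) =>
    rw [coeff_mul_X, coeff_mul_X_pow, coeff_mul_X, hdd, hdd, hd]
    push_cast at hrec ⊢
    linear_combination hrec

lemma derivative_pow_mul {f : k[X]} (μ : k) (j : ℕ) (g : k[X]) (h : f = (X - C μ) ^ (j + 1) * g) :
    ∃ g' : k[X], derivative f = (X - C μ) ^ j * g' ∧ g'.eval μ = ((j : k) + 1) * g.eval μ := by
  refine ⟨C ((j : k) + 1) * g + (X - C μ) * derivative g, ?_, ?_⟩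
  · rw [h, derivative_mul, derivative_X_sub_C_pow]
    push_cast
    rw [C_add, C_1, Polynomial.C_eq_natCast]
    ring
  · simp

/-- **The roots of the Hasse polynomial different from `0` and `1` are simple.** -/
lemma rootMultiplicity_hassePoly_le {m : ℕ} (hm : p = 2 * m + 1) {μ : k} (h0 : μ ≠ 0) (h1 : μ ≠ 1)
    (hne : hassePoly k m ≠ 0) (hdeg : (hassePoly k m).natDegree ≤ m) :
    (hassePoly k m).rootMultiplicity μ ≤ 1 := by
  by_contra hcon
  push Not at hcon
  obtain ⟨j, hj⟩ : ∃ j, (hassePoly k m).rootMultiplicity μ = j + 1 + 1 :=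
    ⟨(hassePoly k m).rootMultiplicity μ - 2, by omega⟩
  obtain ⟨G, hG, hGn⟩ := exists_eq_pow_rootMultiplicity_mul_and_not_dvd _ hne μ
  rw [hj] at hG
  have hGμ : G.eval μ ≠ 0 := fun h => hGn (dvd_iff_isRoot.mpr h)
  obtain ⟨G₁, hG₁, hG₁μ⟩ := derivative_pow_mul μ (j + 1) G hG
  obtain ⟨G₂, hG₂, hG₂μ⟩ := derivative_pow_mul μ j G₁ hG₁
  have hode := hassePoly_ode (k := k) hm
  rw [hG₂, hG₁] at hode
  have hpow : (X - C μ) ^ j ≠ 0 := pow_ne_zero _ (X_sub_C_ne_zero μ)
  have h2 : (X - C μ) ^ j * (C 4 * (X * (1 - X)) * G₂ + C 4 * (1 - C 2 * X) * ((X - C μ) * G₁) -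
      (X - C μ) ^ 2 * G) = 0 := by
    rw [← hode, hG]
    ring
  have h3 := (mul_eq_zero.mp h2).resolve_left hpow
  have h4 := congrArg (Polynomial.eval μ) h3
  simp only [eval_add, eval_sub, eval_mul, eval_C, eval_X, eval_one, eval_pow, sub_self, zero_mul,
    mul_zero, add_zero, eval_zero, ne_eq, OfNat.ofNat_ne_zero, not_false_eq_true, zero_pow,
    sub_zero] at h4
  rw [hG₂μ, hG₁μ] at h4
  -- `j + 2 ≤ m < p`
  have hle : j + 2 ≤ m := by
    have h5 : (hassePoly k m).rootMultiplicity μ ≤ (hassePoly k m).natDegree := by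
      classical
      rw [← count_roots]
      exact (Multiset.count_le_card _ _).trans (card_roots' _)
    omega
  have hj1 : ((j : k) + 1) ≠ 0 := by
    intro h
    have h5 : (((j + 1 : ℕ)) : k) = 0 := by push_cast; exact h
    rw [CharP.cast_eq_zero_iff k p] at h5
    have := Nat.le_of_dvd (Nat.succ_pos _) h5
    omega
  have hj2 : (((j + 1 : ℕ) : k) + 1) ≠ 0 := by
    intro h
    have h5 : (((j + 2 : ℕ)) : k) = 0 := by push_cast at h ⊢; linear_combination h
    rw [CharP.cast_eq_zero_iff k p] at h5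
    have := Nat.le_of_dvd (Nat.succ_pos _) h5
    omega
  have hp2 : p ≠ 2 := by omega
  have h1' : (1 : k) - μ ≠ 0 := sub_ne_zero.mpr h1.symm
  exact absurd h4 (mul_ne_zero (mul_ne_zero (four_ne_zero' hp2) (mul_ne_zero h0 h1'))
    (mul_ne_zero hj1 (mul_ne_zero hj2 hGμ)))

omit hp [CharP k p] in
lemma natDegree_hassePoly (m : ℕ) : (hassePoly k m).natDegree = m := by
  apply le_antisymm
  · rw [natDegree_le_iff_coeff_eq_zero]
    intro i hi
    rw [coeff_hassePoly, Nat.choose_eq_zero_of_lt hi]
    simp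
  · apply le_natDegree_of_ne_zero
    rw [coeff_hassePoly, Nat.choose_self]
    simp

omit hp [CharP k p] in
lemma hassePoly_ne_zero (m : ℕ) : hassePoly k m ≠ 0 := by
  intro h
  have h1 := coeff_hassePoly (k := k) m 0
  rw [h, coeff_zero, Nat.choose_zero_right] at h1
  simp at h1

omit hp [CharP k p] in
lemma eval_zero_hassePoly (m : ℕ) : (hassePoly k m).eval 0 ≠ 0 := by
  rw [← coeff_zero_eq_eval_zero, coeff_hassePoly, Nat.choose_zero_right]
  simp

lemma eval_one_hassePoly {m : ℕ} (hm : p = 2 * m + 1) : (hassePoly k m).eval 1 ≠ 0 := by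
  rw [eval_hassePoly]
  have h1 : ∑ i ∈ Finset.range (m + 1), (m.choose i : k) ^ 2 * 1 ^ i = (((2 * m).choose m : ℕ) : k) := by
    rw [← Nat.sum_range_choose_sq]
    push_cast
    exact Finset.sum_congr rfl fun i _ => by rw [one_pow, mul_one]
  rw [h1]
  intro h
  rw [CharP.cast_eq_zero_iff k p] at h
  have h2 : p ∣ (2 * m).factorial := by
    rw [← Nat.choose_mul_factorial_mul_factorial (show m ≤ 2 * m by omega)]
    exact Dvd.dvd.mul_right (Dvd.dvd.mul_right h _) _
  rw [hp.out.dvd_factorial] at h2
  omega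

/-- **The Hasse polynomial has exactly `(p - 1) / 2` distinct roots** in an algebraically closed field of characteristic
`p`. -/
theorem card_roots_hassePoly [IsAlgClosed k] [DecidableEq k] {m : ℕ} (hm : p = 2 * m + 1) :
    (hassePoly k m).roots.toFinset.card = m := by
  have hnd : (hassePoly k m).roots.Nodup := by
    rw [Multiset.nodup_iff_count_le_one]
    intro μ
    rw [count_roots]
    by_cases h0 : μ = 0
    · rw [rootMultiplicity_eq_zero]
      · omega
      · rw [h0]; exact eval_zero_hassePoly m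
    · by_cases h1 : μ = 1
      · rw [rootMultiplicity_eq_zero]
        · omega
        · rw [h1]; exact eval_one_hassePoly hm
      · exact rootMultiplicity_hassePoly_le hm h0 h1 (hassePoly_ne_zero m)
          (natDegree_hassePoly m).le
  rw [Multiset.toFinset_card_of_nodup hnd,
    splits_iff_card_roots.mp (IsAlgClosed.splits (hassePoly k m)), natDegree_hassePoly]

end ode

/-! ### Supersingular values -/

section supersingular

variable {p : ℕ} [hp : Fact p.Prime]

/-- **Supersingular Legendre curves over finite fields.** -/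
theorem legendre_supersingular_iff {F : Type u} [Field F] [Fintype F] [CharP F p] {m : ℕ}
    (hm : p = 2 * m + 1) {t : F} (h0 : t ≠ 0) (h1 : t ≠ 1) (K : Type v) [Field K] [IsAlgClosed K]
    [Algebra F K] [DecidableEq K] :
    (∀ P : ((legendre t)⁄K).Point, p • P = 0 → P = 0) ↔ (hassePoly F m).eval t = 0 := by
  have hp2 : p ≠ 2 := by omega
  have h4 := four_ne_zero' (k := F) hp2
  have hΔ : (legendre t).Δ ≠ 0 := by
    rw [legendre_Δ, show (16 : F) = 4 * 4 by norm_num]
    exact mul_ne_zero (mul_ne_zero (mul_ne_zero h4 h4) (pow_ne_zero _ h0))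
      (pow_ne_zero _ (sub_ne_zero.mpr h1))
  rw [supersingular_iff_hasse hp2 (legendre t) hΔ K]
  have e1 : (p - 1) / 2 = m := by omega
  have e2 : p - 1 = 2 * m := by omega
  rw [e1, e2, coeff_cubic_legendre]
  constructor
  · intro h
    exact (mul_eq_zero.mp h).resolve_left (pow_ne_zero _ (neg_ne_zero.mpr h4))
  · intro h
    rw [h, mul_zero]

/-- **Supersingular Legendre curves over an algebraically closed field of characteristic `p`**, for parameters
algebraic over `𝔽_p`. -/
theorem legendre_supersingular_iff' {m : ℕ} (hm : p = 2 * m + 1) {K : Type v} [Field K]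
    [IsAlgClosed K] [DecidableEq K] [Algebra (ZMod p) K] {t : K} (hint : _root_.IsIntegral (ZMod p) t)
    (h0 : t ≠ 0) (h1 : t ≠ 1) :
    (∀ P : (legendre t).toAffine.Point, p • P = 0 → P = 0) ↔ (hassePoly K m).eval t = 0 := by
  let F := IntermediateField.adjoin (ZMod p) {t}
  have hfd : FiniteDimensional (ZMod p) F := IntermediateField.adjoin.finiteDimensional hint
  have hfin : Finite F := Module.finite_of_finite (ZMod p)
  have hFt : Fintype F := Fintype.ofFinite F
  have hchar : CharP F p := charP_of_injective_algebraMap (algebraMap (ZMod p) F).injective p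
  let s : F := ⟨t, IntermediateField.mem_adjoin_simple_self (ZMod p) t⟩
  have hs : algebraMap F K s = t := rfl
  have hs0 : s ≠ 0 := fun h => h0 (by rw [← hs, h, _root_.map_zero])
  have hs1 : s ≠ 1 := fun h => h1 (by rw [← hs, h, map_one])
  have hcurve : (((legendre s).toAffine)⁄K : WeierstrassCurve.Affine K) = (legendre t).toAffine := by
    change (legendre s).map (algebraMap F K) = legendre t
    apply WeierstrassCurve.ext
    · exact _root_.map_zero _
    · change algebraMap F K (-(1 + s)) = -(1 + t)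
      rw [_root_.map_neg, map_add, map_one, hs]
    · exact _root_.map_zero _
    · exact hs
    · exact _root_.map_zero _
  have h := legendre_supersingular_iff (F := F) hm hs0 hs1 K
  have h2 : (hassePoly K m).eval t = algebraMap F K ((hassePoly F m).eval s) := by
    rw [eval_hassePoly, eval_hassePoly, map_sum]
    refine Finset.sum_congr rfl fun i _ => ?_
    rw [map_mul, map_pow, map_pow, map_natCast, hs]
  rw [h2, map_eq_zero, ← h]
  let e := castPt hcurve
  constructor
  · intro h3 P hP
    have h4 : p • e P = 0 := by rw [← map_nsmul, hP, _root_.map_zero]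
    exact (EmbeddingLike.map_eq_zero_iff (f := e)).mp (h3 (e P) h4)
  · intro h3 P hP
    have h4 : p • e.symm P = 0 := by rw [← map_nsmul, hP, _root_.map_zero]
    exact (EmbeddingLike.map_eq_zero_iff (f := e.symm)).mp (h3 (e.symm P) h4)

/-- **The number of supersingular Legendre parameters** `t` in characteristic `p` is `(p - 1) / 2`. -/
theorem card_supersingular_legendre (hp2 : p ≠ 2) [DecidableEq (AlgebraicClosure (ZMod p))] :
    Nat.card {t : AlgebraicClosure (ZMod p) // t ≠ 0 ∧ t ≠ 1 ∧
      ∀ P : (legendre t).toAffine.Point, p • P = 0 → P = 0} = (p - 1) / 2 := by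
  obtain ⟨m, hm⟩ := hp.out.odd_of_ne_two hp2
  have e1 : (p - 1) / 2 = m := by omega
  have : CharP (AlgebraicClosure (ZMod p)) p :=
    charP_of_injective_algebraMap (algebraMap (ZMod p) (AlgebraicClosure (ZMod p))).injective p
  have h := card_roots_hassePoly (k := AlgebraicClosure (ZMod p)) hm
  rw [e1, ← h, ← Fintype.card_coe, ← Nat.card_eq_fintype_card]
  apply Nat.card_congr
  refine Equiv.subtypeEquivRight fun t => ?_
  rw [Multiset.mem_toFinset, mem_roots (hassePoly_ne_zero m), IsRoot.def]
  have hint : ∀ t : AlgebraicClosure (ZMod p), _root_.IsIntegral (ZMod p) t := fun t =>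
    (AlgebraicClosure.isAlgebraic (ZMod p)).isIntegral.isIntegral t
  constructor
  · rintro ⟨h0, h1, h2⟩
    exact (legendre_supersingular_iff' hm (hint t) h0 h1).mp h2
  · intro h2
    have h0 : t ≠ 0 := by
      rintro rfl
      exact eval_zero_hassePoly m h2
    have h1 : t ≠ 1 := by
      rintro rfl
      exact eval_one_hassePoly hm h2
    exact ⟨h0, h1, (legendre_supersingular_iff' hm (hint t) h0 h1).mpr h2⟩

end supersingular

end Fermat.Agent.Cor.Bounds
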