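import Mathlib
import Fermat.Agent.Cor.Legendre
import Fermat.Agent.Frob.VarChange

/-!
# Supersingular `j`-invariants

Let `p ≥ 5` be a prime. The number of supersingular `j`-invariants in an algebraic closure of `𝔽_p` is
`⌊p / 12⌋ + ε₃ + ε₄` with `ε₃ = 1` if `p ≡ 2` modulo `3` and `ε₄ = 1` if `p ≡ 3` modulo `4` (otherwise `0`); moreover
`∑ 1 / w(j) = (p - 1) / 12` (Eichler, Deuring), where `w(0) = 3`, `w(1728) = 2` and `w(j) = 1` otherwise.

The proof counts the `(p - 1) / 2` supersingular Legendre curves by means of their `j`-invariants.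

This file is not used by any of the statement files.
-/

set_option autoImplicit false

namespace Fermat.Agent.Cor.Bounds

open Polynomial WeierstrassCurve WeierstrassCurve.Affine WeierstrassCurve.Affine.Point
open Fermat.Agent.Frob Fermat.Agent.H08

universe u v

section jinv

variable {K : Type u} [Field K]

/-- a curve without non-zero points of order `p` -/
def IsSupersingular (p : ℕ) [DecidableEq K] (W : WeierstrassCurve K) : Prop :=
  ∀ P : W.toAffine.Point, p • P = 0 → P = 0

lemma isSupersingular_congr [DecidableEq K] (p : ℕ) {W W' : WeierstrassCurve K} {C : VariableChange K}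
    (h : C • W = W') : IsSupersingular p W' ↔ IsSupersingular p W := by
  let e : W'.toAffine.Point ≃+ W.toAffine.Point := vcEquiv h.symm
  constructor
  · intro h3 P hP
    have h4 : p • e.symm P = 0 := by rw [← map_nsmul, hP, _root_.map_zero]
    exact (EmbeddingLike.map_eq_zero_iff (f := e.symm)).mp (h3 (e.symm P) h4)
  · intro h3 P hP
    have h4 : p • e P = 0 := by rw [← map_nsmul, hP, _root_.map_zero]
    exact (EmbeddingLike.map_eq_zero_iff (f := e)).mp (h3 (e P) h4)

/-- being supersingular depends only on the `j`-invariant -/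
lemma isSupersingular_of_j_eq [DecidableEq K] [IsSepClosed K] (p : ℕ) (W W' : WeierstrassCurve K)
    [W.IsElliptic] [W'.IsElliptic] (h : W.j = W'.j) : IsSupersingular p W' ↔ IsSupersingular p W := by
  obtain ⟨C, hC⟩ := exists_variableChange_of_j_eq W W' h
  exact isSupersingular_congr p hC

lemma j_eq_div (W : WeierstrassCurve K) [W.IsElliptic] : W.j = W.c₄ ^ 3 / W.Δ := by
  rw [WeierstrassCurve.j, Units.val_inv_eq_inv_val, WeierstrassCurve.coe_Δ', mul_comm, div_eq_mul_inv]

/-- the `j`-invariant of the Legendre curve -/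
def jLeg (t : K) : K := 256 * (t ^ 2 - t + 1) ^ 3 / (t ^ 2 * (t - 1) ^ 2)

lemma legendre_isElliptic (h2 : (2 : K) ≠ 0) {t : K} (h0 : t ≠ 0) (h1 : t ≠ 1) :
    (legendre t).IsElliptic := by
  refine ⟨isUnit_iff_ne_zero.mpr ?_⟩
  rw [legendre_Δ, show (16 : K) = 2 ^ 4 by norm_num]
  exact mul_ne_zero (mul_ne_zero (pow_ne_zero _ h2) (pow_ne_zero _ h0))
    (pow_ne_zero _ (sub_ne_zero.mpr h1))

lemma legendre_j (h2 : (2 : K) ≠ 0) {t : K} (h0 : t ≠ 0) (h1 : t ≠ 1) [(legendre t).IsElliptic] :
    (legendre t).j = jLeg t := by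
  rw [j_eq_div, legendre_Δ, jLeg]
  have hc : (legendre t).c₄ = 16 * (t ^ 2 - t + 1) := by
    simp only [legendre, WeierstrassCurve.c₄, WeierstrassCurve.b₂, WeierstrassCurve.b₄]
    ring
  have h1' : t - 1 ≠ 0 := sub_ne_zero.mpr h1
  have h16 : (16 : K) ≠ 0 := by
    rw [show (16 : K) = 2 ^ 4 by norm_num]; exact pow_ne_zero _ h2
  rw [hc, div_eq_div_iff (mul_ne_zero (mul_ne_zero h16 (pow_ne_zero _ h0)) (pow_ne_zero _ h1'))
    (mul_ne_zero (pow_ne_zero _ h0) (pow_ne_zero _ h1'))]
  ring

/-- the polynomial whose roots are the `t` with `j(t) = j` -/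
noncomputable def legPoly (j : K) : K[X] :=
  C 256 * (X ^ 2 - X + 1) ^ 3 - C j * (X ^ 2 * (X - 1) ^ 2)

lemma eval_legPoly (j t : K) :
    (legPoly j).eval t = 256 * (t ^ 2 - t + 1) ^ 3 - j * (t ^ 2 * (t - 1) ^ 2) := by
  simp [legPoly]

lemma ne_of_root (h2 : (2 : K) ≠ 0) {j t : K} (h : (legPoly j).eval t = 0) : t ≠ 0 ∧ t ≠ 1 := by
  have h256 : (256 : K) ≠ 0 := by
    rw [show (256 : K) = 2 ^ 8 by norm_num]; exact pow_ne_zero _ h2
  rw [eval_legPoly] at h
  constructor
  · rintro rfl
    apply h256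
    linear_combination h
  · rintro rfl
    apply h256
    linear_combination h

lemma jLeg_eq_iff {j t : K} (h0 : t ≠ 0) (h1 : t ≠ 1) : jLeg t = j ↔ (legPoly j).eval t = 0 := by
  have h1' : t - 1 ≠ 0 := sub_ne_zero.mpr h1
  rw [jLeg, eval_legPoly, div_eq_iff (mul_ne_zero (pow_ne_zero _ h0) (pow_ne_zero _ h1')), sub_eq_zero]

lemma natDegree_legPoly (h2 : (2 : K) ≠ 0) (j : K) : (legPoly j).natDegree = 6 := by
  have h256 : (256 : K) ≠ 0 := by
    rw [show (256 : K) = 2 ^ 8 by norm_num]; exact pow_ne_zero _ h2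
  have hu : (X ^ 2 - X + 1 : K[X]).natDegree = 2 := by compute_degree!
  have e1 : (C 256 * (X ^ 2 - X + 1) ^ 3 : K[X]).natDegree = 6 := by
    rw [natDegree_C_mul h256, natDegree_pow, hu]
  have e2 : (C j * (X ^ 2 * (X - 1) ^ 2) : K[X]).natDegree ≤ 4 := by compute_degree
  rw [legPoly, natDegree_sub_eq_left_of_natDegree_lt (by omega), e1]

lemma legPoly_ne_zero (h2 : (2 : K) ≠ 0) (j : K) : legPoly j ≠ 0 := by
  intro h
  have h1 := natDegree_legPoly h2 j
  rw [h, natDegree_zero] at h1
  omega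

variable [IsAlgClosed K] [DecidableEq K]

lemma card_roots_legPoly (h2 : (2 : K) ≠ 0) {j : K} (hj0 : j ≠ 0) (hj1 : j ≠ 1728) :
    (legPoly j).roots.toFinset.card = 6 := by
  have hnd : (legPoly j).roots.Nodup := by
    rw [Multiset.nodup_iff_count_le_one]
    intro t
    rw [count_roots]
    by_contra hcon
    rw [not_le, one_lt_rootMultiplicity_iff_isRoot (legPoly_ne_zero h2 j), IsRoot.def, IsRoot.def] at hcon
    obtain ⟨hF, hF'⟩ := hcon
    obtain ⟨h0, h1⟩ := ne_of_root h2 hF
    have hd : (derivative (legPoly j)).eval t = 256 * (3 * (t ^ 2 - t + 1) ^ 2 * (2 * t - 1)) -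
        j * (2 * t * (t - 1) ^ 2 + t ^ 2 * (2 * (t - 1))) := by
      simp [legPoly, derivative_pow]
    rw [hd] at hF'
    rw [eval_legPoly] at hF
    have h1' : t - 1 ≠ 0 := sub_ne_zero.mpr h1
    have h256 : (256 : K) ≠ 0 := by
      rw [show (256 : K) = 2 ^ 8 by norm_num]; exact pow_ne_zero _ h2
    have key : 256 * ((t ^ 2 - t + 1) ^ 2 * ((2 * t - 1) * ((t - 2) * (t + 1)))) = 0 := by
      linear_combination t * (t - 1) * hF' - 2 * (2 * t - 1) * hF
    have key2 := (mul_eq_zero.mp key).resolve_left h256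
    rcases mul_eq_zero.mp key2 with hu | hu
    · have hu' := pow_eq_zero_iff (two_ne_zero) |>.mp hu
      rw [hu'] at hF
      apply hj0
      have : j * (t ^ 2 * (t - 1) ^ 2) = 0 := by linear_combination - hF
      exact (mul_eq_zero.mp this).resolve_right (mul_ne_zero (pow_ne_zero _ h0) (pow_ne_zero _ h1'))
    · apply hj1
      rcases mul_eq_zero.mp hu with hu | hu
      · linear_combination -16 * hF + (64 * (2 * t - 1) * ((2 * t - 1) ^ 4 + 9 * (2 * t - 1) ^ 2 + 27) +
          j * (2 * t - 1) * (2 - (2 * t - 1) ^ 2)) * hu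
      · have h4 : (4 : K) ≠ 0 := by
          rw [show (4 : K) = 2 ^ 2 by norm_num]; exact pow_ne_zero _ h2
        have : (4 : K) * (j - 1728) = 0 := by
          linear_combination - hF + (256 * (((t - 2) * (t + 1)) ^ 2 + 9 * ((t - 2) * (t + 1)) + 27) -
            j * ((t - 2) * (t + 1) + 4)) * hu
        exact sub_eq_zero.mp ((mul_eq_zero.mp this).resolve_left h4)
  rw [Multiset.toFinset_card_of_nodup hnd,
    splits_iff_card_roots.mp (IsAlgClosed.splits (legPoly j)), natDegree_legPoly h2]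

lemma card_roots_legPoly_zero (h2 : (2 : K) ≠ 0) (h3 : (3 : K) ≠ 0) :
    (legPoly (0 : K)).roots.toFinset.card = 2 := by
  have hu : (X ^ 2 - X + 1 : K[X]).degree ≠ 0 := by
    have : (X ^ 2 - X + 1 : K[X]).degree = 2 := by compute_degree!
    rw [this]; decide
  obtain ⟨w, hw⟩ := IsAlgClosed.exists_root _ hu
  have hw' : w ^ 2 - w + 1 = 0 := by simpa using hw
  have hset : (legPoly (0 : K)).roots.toFinset = {w, 1 - w} := by
    ext t
    rw [Multiset.mem_toFinset, mem_roots (legPoly_ne_zero h2 0), IsRoot.def, eval_legPoly,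
      Finset.mem_insert, Finset.mem_singleton]
    have h256 : (256 : K) ≠ 0 := by
      rw [show (256 : K) = 2 ^ 8 by norm_num]; exact pow_ne_zero _ h2
    constructor
    · intro h
      have h4 : 256 * (t ^ 2 - t + 1) ^ 3 = 0 := by linear_combination h
      have h5 : t ^ 2 - t + 1 = 0 :=
        (pow_eq_zero_iff (three_ne_zero)).mp ((mul_eq_zero.mp h4).resolve_left h256)
      have h6 : (t - w) * (t - (1 - w)) = 0 := by linear_combination h5 - hw'
      rcases mul_eq_zero.mp h6 with h7 | h7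
      · left; exact sub_eq_zero.mp h7
      · right; exact sub_eq_zero.mp h7
    · rintro (rfl | rfl)
      · rw [hw']; ring
      · have : (1 - w) ^ 2 - (1 - w) + 1 = 0 := by linear_combination hw'
        rw [this]; ring
  rw [hset, Finset.card_insert_of_notMem, Finset.card_singleton]
  rw [Finset.mem_singleton]
  intro h
  apply h3
  linear_combination 4 * hw' - (2 * w - 1) * h

omit [IsAlgClosed K] in
lemma card_roots_legPoly_1728 (h2 : (2 : K) ≠ 0) (h3 : (3 : K) ≠ 0) :
    (legPoly (1728 : K)).roots.toFinset.card = 3 := by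
  have hset : (legPoly (1728 : K)).roots.toFinset = {-1, 2, 1 / 2} := by
    ext t
    rw [Multiset.mem_toFinset, mem_roots (legPoly_ne_zero h2 _), IsRoot.def, eval_legPoly,
      Finset.mem_insert, Finset.mem_insert, Finset.mem_singleton]
    have h64 : (64 : K) ≠ 0 := by
      rw [show (64 : K) = 2 ^ 6 by norm_num]; exact pow_ne_zero _ h2
    have e : 256 * (t ^ 2 - t + 1) ^ 3 - 1728 * (t ^ 2 * (t - 1) ^ 2) =
        64 * ((t + 1) * ((t - 2) * (2 * t - 1))) ^ 2 := by ring
    rw [e]
    constructor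
    · intro h
      have h5 := (pow_eq_zero_iff (two_ne_zero)).mp ((mul_eq_zero.mp h).resolve_left h64)
      rcases mul_eq_zero.mp h5 with h7 | h7
      · left; exact eq_neg_of_add_eq_zero_left h7
      · rcases mul_eq_zero.mp h7 with h7 | h7
        · right; left; exact sub_eq_zero.mp h7
        · right; right
          rw [eq_div_iff h2]
          linear_combination h7
    · rintro (rfl | rfl | rfl)
      · ring
      · ring
      · rw [show (2 * (1 / 2) - 1 : K) = 0 by field_simp; ring]; ring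
  rw [hset, Finset.card_insert_of_notMem, Finset.card_insert_of_notMem, Finset.card_singleton]
  · rw [Finset.mem_singleton]
    intro h
    rw [eq_div_iff h2] at h
    apply h3
    linear_combination h
  · rw [Finset.mem_insert, Finset.mem_singleton]
    rintro (h | h)
    · apply h3
      linear_combination - h
    · rw [eq_div_iff h2] at h
      apply h3
      linear_combination - h

end jinv

/-! ### The count -/

section count

variable {p : ℕ} [hp : Fact p.Prime]

/-- the `j`-invariant of some supersingular curve -/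
def IsSupersingularJ (p : ℕ) {K : Type u} [Field K] [DecidableEq K] (j : K) : Prop :=
  ∃ (W : WeierstrassCurve K) (_ : W.IsElliptic), W.j = j ∧ IsSupersingular p W

variable {K : Type u} [Field K] [IsAlgClosed K] [DecidableEq K] [Algebra (ZMod p) K]
  [Algebra.IsAlgebraic (ZMod p) K]

include hp in
lemma char_facts (K : Type u) [Field K] [Algebra (ZMod p) K] (h5 : 5 ≤ p) :
    CharP K p ∧ (2 : K) ≠ 0 ∧ (3 : K) ≠ 0 := by
  have hc : CharP K p := charP_of_injective_algebraMap (algebraMap (ZMod p) K).injective p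
  refine ⟨hc, ?_, ?_⟩
  · intro h
    have h1 : ((2 : ℕ) : K) = 0 := by exact_mod_cast h
    rw [CharP.cast_eq_zero_iff K p] at h1
    have := Nat.le_of_dvd (by norm_num) h1
    omega
  · intro h
    have h1 : ((3 : ℕ) : K) = 0 := by exact_mod_cast h
    rw [CharP.cast_eq_zero_iff K p] at h1
    have := Nat.le_of_dvd (by norm_num) h1
    omega

/-- the supersingular Legendre parameters -/
lemma mem_ssLeg_iff {m : ℕ} (hm : p = 2 * m + 1) (t : K) :
    t ∈ (hassePoly K m).roots.toFinset ↔ t ≠ 0 ∧ t ≠ 1 ∧ IsSupersingular p (legendre t) := by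
  have : CharP K p := charP_of_injective_algebraMap (algebraMap (ZMod p) K).injective p
  have hint : _root_.IsIntegral (ZMod p) t := Algebra.IsIntegral.isIntegral t
  rw [Multiset.mem_toFinset, mem_roots (hassePoly_ne_zero m), IsRoot.def]
  constructor
  · intro h2
    have h0 : t ≠ 0 := by
      rintro rfl
      exact eval_zero_hassePoly m h2
    have h1 : t ≠ 1 := by
      rintro rfl
      exact eval_one_hassePoly hm h2
    exact ⟨h0, h1, (legendre_supersingular_iff' hm hint h0 h1).mpr h2⟩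
  · rintro ⟨h0, h1, h2⟩
    exact (legendre_supersingular_iff' hm hint h0 h1).mp h2

/-- the set of supersingular `j`-invariants -/
lemma mem_image_ssLeg_iff (h5 : 5 ≤ p) {m : ℕ} (hm : p = 2 * m + 1) (j : K) :
    j ∈ (hassePoly K m).roots.toFinset.image jLeg ↔ IsSupersingularJ p j := by
  obtain ⟨hc, h2, h3⟩ := char_facts K h5
  rw [Finset.mem_image]
  constructor
  · rintro ⟨t, ht, rfl⟩
    obtain ⟨h0, h1, hss⟩ := (mem_ssLeg_iff hm t).mp ht
    have := legendre_isElliptic h2 h0 h1
    exact ⟨legendre t, this, legendre_j h2 h0 h1, hss⟩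
  · rintro ⟨W, hW, rfl, hss⟩
    have hdeg : (legPoly W.j).degree ≠ 0 := by
      intro h
      have := natDegree_legPoly h2 W.j
      rw [natDegree_eq_of_degree_eq_some (n := 0) (by exact_mod_cast h)] at this
      omega
    obtain ⟨t, ht⟩ := IsAlgClosed.exists_root _ hdeg
    obtain ⟨h0, h1⟩ := ne_of_root h2 ht
    have hell := legendre_isElliptic h2 h0 h1
    have hj : jLeg t = W.j := (jLeg_eq_iff h0 h1).mpr ht
    refine ⟨t, ?_, hj⟩
    rw [mem_ssLeg_iff hm]
    refine ⟨h0, h1, ?_⟩
    rw [isSupersingular_of_j_eq p W (legendre t) (by rw [legendre_j h2 h0 h1, hj])]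
    exact hss

lemma filter_ssLeg (h5 : 5 ≤ p) {m : ℕ} (hm : p = 2 * m + 1) {j : K} (hj : IsSupersingularJ p j) :
    {t ∈ (hassePoly K m).roots.toFinset | jLeg t = j} = (legPoly j).roots.toFinset := by
  obtain ⟨hc, h2, h3⟩ := char_facts K h5
  ext t
  rw [Finset.mem_filter, mem_ssLeg_iff hm, Multiset.mem_toFinset, mem_roots (legPoly_ne_zero h2 _), IsRoot.def]
  constructor
  · rintro ⟨⟨h0, h1, -⟩, h⟩
    exact (jLeg_eq_iff h0 h1).mp h
  · intro ht
    obtain ⟨h0, h1⟩ := ne_of_root h2 ht
    have hell := legendre_isElliptic h2 h0 h1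
    have hjt : jLeg t = j := (jLeg_eq_iff h0 h1).mpr ht
    obtain ⟨W, hW, hWj, hss⟩ := hj
    refine ⟨⟨h0, h1, ?_⟩, hjt⟩
    rw [isSupersingular_of_j_eq p W (legendre t) (by rw [legendre_j h2 h0 h1, hjt, hWj])]
    exact hss

lemma count_aux (h5 : 5 ≤ p) {m : ℕ} (hm : p = 2 * m + 1) (T : Finset K)
    (hT : T = (hassePoly K m).roots.toFinset.image jLeg) :
    m + 4 * (if (0 : K) ∈ T then 1 else 0) + 3 * (if (1728 : K) ∈ T then 1 else 0) = 6 * T.card := by
  obtain ⟨hc, h2, h3⟩ := char_facts K h5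
  have h0 : (1728 : K) ≠ 0 := by
    rw [show (1728 : K) = 2 ^ 6 * 3 ^ 3 by norm_num]
    exact mul_ne_zero (pow_ne_zero _ h2) (pow_ne_zero _ h3)
  have h1 : m = ∑ j ∈ T, (legPoly j).roots.toFinset.card := by
    conv_lhs => rw [← card_roots_hassePoly (k := K) hm, Finset.card_eq_sum_card_image jLeg]
    rw [hT]
    refine Finset.sum_congr rfl fun j hj => ?_
    rw [filter_ssLeg h5 hm ((mem_image_ssLeg_iff h5 hm j).mp hj)]
  have e0 : ∑ j ∈ T, (if j = (0 : K) then 1 else 0) = (if (0 : K) ∈ T then 1 else 0) :=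
    Finset.sum_ite_eq' T (0 : K) (fun _ => 1)
  have e1 : ∑ j ∈ T, (if j = (1728 : K) then 1 else 0) = (if (1728 : K) ∈ T then 1 else 0) :=
    Finset.sum_ite_eq' T (1728 : K) (fun _ => 1)
  rw [← e0, ← e1, Finset.mul_sum, Finset.mul_sum, Finset.card_eq_sum_ones, Finset.mul_sum]
  conv_lhs => rw [h1]
  rw [← Finset.sum_add_distrib, ← Finset.sum_add_distrib]
  refine Finset.sum_congr rfl fun j _ => ?_
  by_cases hj0 : j = 0
  · rw [if_pos hj0, if_neg (by rw [hj0]; exact h0.symm), hj0, card_roots_legPoly_zero h2 h3]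
    norm_num
  · by_cases hj1 : j = 1728
    · rw [if_neg hj0, if_pos hj1, hj1, card_roots_legPoly_1728 h2 h3]
      norm_num
    · rw [if_neg hj0, if_neg hj1, card_roots_legPoly h2 hj0 hj1]
      norm_num

variable (p K)

/-- the finite set of supersingular `j`-invariants -/
noncomputable def ssJ : Finset K := (hassePoly K ((p - 1) / 2)).roots.toFinset.image jLeg

variable {p K}

lemma mem_ssJ_iff (h5 : 5 ≤ p) (j : K) : j ∈ ssJ p K ↔ IsSupersingularJ p j := by
  obtain ⟨m, hm⟩ := hp.out.odd_of_ne_two (by omega)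
  rw [ssJ, show (p - 1) / 2 = m by omega]
  exact mem_image_ssLeg_iff h5 hm j

/-- **The number of supersingular `j`-invariants** in characteristic `p ≥ 5` is `⌊p / 12⌋ + ε₃ + ε₄`. -/
theorem card_supersingular_j (h5 : 5 ≤ p) :
    Nat.card {j : K // IsSupersingularJ p j} =
      p / 12 + (if p % 3 = 2 then 1 else 0) + (if p % 4 = 3 then 1 else 0) := by
  obtain ⟨m, hm⟩ := hp.out.odd_of_ne_two (by omega)
  have h := count_aux (K := K) h5 hm (ssJ p K) (by rw [ssJ, show (p - 1) / 2 = m by omega])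
  have h1 : Nat.card {j : K // IsSupersingularJ p j} = (ssJ p K).card := by
    rw [← Fintype.card_coe, ← Nat.card_eq_fintype_card]
    exact Nat.card_congr (Equiv.subtypeEquivRight fun j => (mem_ssJ_iff h5 j).symm)
  rw [h1]
  split_ifs at h ⊢ <;> omega

/-- The curves with `j = 0` are supersingular if and only if `p ≡ 2` modulo `3`. -/
theorem isSupersingularJ_zero_iff (h5 : 5 ≤ p) : IsSupersingularJ p (0 : K) ↔ p % 3 = 2 := by
  obtain ⟨m, hm⟩ := hp.out.odd_of_ne_two (by omega)
  have h := count_aux (K := K) h5 hm (ssJ p K) (by rw [ssJ, show (p - 1) / 2 = m by omega])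
  rw [← mem_ssJ_iff h5]
  split_ifs at h with h0 h1 h1
  · exact ⟨fun _ => by omega, fun _ => h0⟩
  · exact ⟨fun _ => by omega, fun _ => h0⟩
  · exact ⟨fun h' => absurd h' h0, fun h' => by omega⟩
  · exact ⟨fun h' => absurd h' h0, fun h' => by omega⟩

/-- The curves with `j = 1728` are supersingular if and only if `p ≡ 3` modulo `4`. -/
theorem isSupersingularJ_1728_iff (h5 : 5 ≤ p) : IsSupersingularJ p (1728 : K) ↔ p % 4 = 3 := by
  obtain ⟨m, hm⟩ := hp.out.odd_of_ne_two (by omega)
  have h := count_aux (K := K) h5 hm (ssJ p K) (by rw [ssJ, show (p - 1) / 2 = m by omega])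
  rw [← mem_ssJ_iff h5]
  split_ifs at h with h0 h1 h1
  · exact ⟨fun _ => by omega, fun _ => h1⟩
  · exact ⟨fun h' => absurd h' h1, fun h' => by omega⟩
  · exact ⟨fun _ => by omega, fun _ => h1⟩
  · exact ⟨fun h' => absurd h' h1, fun h' => by omega⟩

/-- **Eichler's mass formula**: `∑ 1 / w(j) = (p - 1) / 12`, the sum over the supersingular `j`-invariants, where
`w(0) = 3`, `w(1728) = 2` and `w(j) = 1` otherwise (half the order of the automorphism group). -/
theorem mass_formula (h5 : 5 ≤ p) :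
    ∑ j ∈ ssJ p K, (1 / (if j = 0 then 3 else if j = 1728 then 2 else 1) : ℚ) = ((p : ℚ) - 1) / 12 := by
  obtain ⟨m, hm⟩ := hp.out.odd_of_ne_two (by omega)
  obtain ⟨hc, h2, h3⟩ := char_facts K h5
  have h0 : (1728 : K) ≠ 0 := by
    rw [show (1728 : K) = 2 ^ 6 * 3 ^ 3 by norm_num]
    exact mul_ne_zero (pow_ne_zero _ h2) (pow_ne_zero _ h3)
  have h1 : m = ∑ j ∈ ssJ p K, (legPoly j).roots.toFinset.card := by
    conv_lhs => rw [← card_roots_hassePoly (k := K) hm, Finset.card_eq_sum_card_image jLeg]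
    rw [ssJ, show (p - 1) / 2 = m by omega]
    refine Finset.sum_congr rfl fun j hj => ?_
    rw [filter_ssLeg h5 hm ((mem_image_ssLeg_iff h5 hm j).mp hj)]
  have h4 : ((p : ℚ) - 1) / 12 = (m : ℚ) / 6 := by
    rw [hm]; push_cast; ring
  rw [h4, h1, Nat.cast_sum, Finset.sum_div]
  refine Finset.sum_congr rfl fun j _ => ?_
  by_cases hj0 : j = 0
  · rw [if_pos hj0, hj0, card_roots_legPoly_zero h2 h3]; norm_num
  · by_cases hj1 : j = 1728
    · rw [if_neg hj0, if_pos hj1, hj1, card_roots_legPoly_1728 h2 h3]; norm_num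
    · rw [if_neg hj0, if_neg hj1, card_roots_legPoly h2 hj0 hj1]; norm_num

end count

end Fermat.Agent.Cor.Bounds
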