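import Mathlib
import Fermat.Agent.Cor.SupersingularJ
import Fermat.Agent.Cor.GroupStructure

/-!
# Traces of Frobenius: formulas modulo `p`, and supersingular reductions

* `apOfModel_legendre`: `a_p = (-1)^m ∑ (m choose i)² t ^ i` modulo `p` for `y² = x (x - 1) (x - t)`, `p = 2 m + 1`.
* `apOfModel_eq_zero_iff_of_dvd_c₄`, `apOfModel_eq_zero_iff_of_dvd_c₆`: let `p ≥ 5` be a good prime of `W`. If `p ∣ c₄`
  (for example if `j = 0`), then `a_p = 0` if and only if `p ≡ 2` modulo `3`; if `p ∣ c₆` (for example if `j = 1728`), then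
  `a_p = 0` if and only if `p ≡ 3` modulo `4`.
* `group_of_trace_zero`: if `a = 0` then `E(𝔽_q)` is cyclic or `ℤ/2 × ℤ/((q + 1)/2)`, the latter only if
  `q ≡ 3` modulo `4`.

This file is not used by any of the statement files.
-/

set_option autoImplicit false

namespace Fermat.Agent.Cor.Bounds

open Polynomial WeierstrassCurve WeierstrassCurve.Affine WeierstrassCurve.Affine.Point
open Fermat.Agent.Frob Fermat.Agent.H08

universe u v

section

variable {p : ℕ} [hp : Fact p.Prime]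

lemma reductionMod_Δ_ne (W : WeierstrassCurve ℤ) (hgood : W.IsGoodPrimeFor p) :
    (W.reductionMod p).Δ ≠ 0 := by
  rw [reductionMod, WeierstrassCurve.map_Δ]
  intro h
  apply hgood
  rw [eq_intCast] at h
  exact (ZMod.intCast_zmod_eq_zero_iff_dvd _ _).mp h

/-- `a_p = 0` depends only on the `j`-invariant modulo `p`. -/
theorem apOfModel_eq_zero_iff_j (W : WeierstrassCurve ℤ) (h5 : 5 ≤ p) (hgood : W.IsGoodPrimeFor p)
    {K : Type v} [Field K] [IsAlgClosed K] [DecidableEq K] [Algebra (ZMod p) K]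
    [((W.reductionMod p).map (algebraMap (ZMod p) K)).IsElliptic] :
    W.apOfModel p = 0 ↔
      IsSupersingularJ p ((W.reductionMod p).map (algebraMap (ZMod p) K)).j := by
  rw [← deuring_int W h5 hgood K]
  constructor
  · intro h
    exact ⟨(W.reductionMod p).map (algebraMap (ZMod p) K), inferInstance, rfl, h⟩
  · rintro ⟨W', hW', hj, hss⟩
    exact (isSupersingular_of_j_eq p W' ((W.reductionMod p).map (algebraMap (ZMod p) K)) hj).mpr hss

/-- **`p ∣ c₄`**: `a_p = 0` if and only if `p ≡ 2` modulo `3`. -/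
theorem apOfModel_eq_zero_iff_of_dvd_c₄ (W : WeierstrassCurve ℤ) (h5 : 5 ≤ p)
    (hgood : W.IsGoodPrimeFor p) (hc : (p : ℤ) ∣ W.c₄) : W.apOfModel p = 0 ↔ p % 3 = 2 := by
  classical
  let K := AlgebraicClosure (ZMod p)
  have hΔ := reductionMod_Δ_ne W hgood
  have hell : ((W.reductionMod p).map (algebraMap (ZMod p) K)).IsElliptic := by
    refine ⟨isUnit_iff_ne_zero.mpr ?_⟩
    rw [WeierstrassCurve.map_Δ]
    exact (_root_.map_ne_zero _).mpr hΔ
  rw [apOfModel_eq_zero_iff_j (K := K) W h5 hgood]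
  have hc₄ : ((W.reductionMod p).map (algebraMap (ZMod p) K)).c₄ = 0 := by
    rw [WeierstrassCurve.map_c₄, reductionMod, WeierstrassCurve.map_c₄, eq_intCast,
      (ZMod.intCast_zmod_eq_zero_iff_dvd _ _).mpr hc, _root_.map_zero]
  rw [WeierstrassCurve.j_eq_zero _ hc₄]
  exact isSupersingularJ_zero_iff h5

/-- **`p ∣ c₆`**: `a_p = 0` if and only if `p ≡ 3` modulo `4`. -/
theorem apOfModel_eq_zero_iff_of_dvd_c₆ (W : WeierstrassCurve ℤ) (h5 : 5 ≤ p)
    (hgood : W.IsGoodPrimeFor p) (hc : (p : ℤ) ∣ W.c₆) : W.apOfModel p = 0 ↔ p % 4 = 3 := by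
  classical
  let K := AlgebraicClosure (ZMod p)
  have hΔ := reductionMod_Δ_ne W hgood
  have hell : ((W.reductionMod p).map (algebraMap (ZMod p) K)).IsElliptic := by
    refine ⟨isUnit_iff_ne_zero.mpr ?_⟩
    rw [WeierstrassCurve.map_Δ]
    exact (_root_.map_ne_zero _).mpr hΔ
  rw [apOfModel_eq_zero_iff_j (K := K) W h5 hgood]
  set E := (W.reductionMod p).map (algebraMap (ZMod p) K) with hE
  have hc₆ : E.c₆ = 0 := by
    rw [hE, WeierstrassCurve.map_c₆, reductionMod, WeierstrassCurve.map_c₆, eq_intCast,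
      (ZMod.intCast_zmod_eq_zero_iff_dvd _ _).mpr hc, _root_.map_zero]
  have hΔE : E.Δ ≠ 0 := by
    rw [hE, WeierstrassCurve.map_Δ]
    exact (_root_.map_ne_zero _).mpr hΔ
  have hj : E.j = 1728 := by
    have h1 := E.c_relation
    rw [hc₆] at h1
    rw [j_eq_div, div_eq_iff hΔE]
    linear_combination - h1
  rw [hj]
  exact isSupersingularJ_1728_iff h5

/-- **The trace of Frobenius of a Legendre curve modulo `p`.** -/
theorem apOfModel_legendre {m : ℕ} (hm : p = 2 * m + 1) {t : ℤ} (h0 : ¬ (p : ℤ) ∣ t)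
    (h1 : ¬ (p : ℤ) ∣ t - 1) :
    (((⟨0, -(1 + t), 0, t, 0⟩ : WeierstrassCurve ℤ).apOfModel p : ℤ) : ZMod p) =
      (-1) ^ m * ∑ i ∈ Finset.range (m + 1), (m.choose i : ZMod p) ^ 2 * (t : ZMod p) ^ i := by
  have hp2 : p ≠ 2 := by omega
  have hmap : (⟨0, -(1 + t), 0, t, 0⟩ : WeierstrassCurve ℤ).reductionMod p = legendre (t : ZMod p) := by
    apply WeierstrassCurve.ext
    · exact _root_.map_zero _
    · change Int.castRingHom (ZMod p) (-(1 + t)) = -(1 + (t : ZMod p))
      rw [eq_intCast]; push_cast; ring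
    · exact _root_.map_zero _
    · exact eq_intCast _ _
    · exact _root_.map_zero _
  have ht0 : (t : ZMod p) ≠ 0 := fun h => h0 ((ZMod.intCast_zmod_eq_zero_iff_dvd _ _).mp h)
  have ht1 : (t : ZMod p) ≠ 1 := fun h => h1 ((ZMod.intCast_zmod_eq_zero_iff_dvd _ _).mp
    (by rw [Int.cast_sub, Int.cast_one, h, sub_self]))
  have h4 := four_ne_zero' (k := ZMod p) hp2
  have hΔ : (legendre (t : ZMod p)).Δ ≠ 0 := by
    rw [legendre_Δ, show (16 : ZMod p) = 4 * 4 by norm_num]
    exact mul_ne_zero (mul_ne_zero (mul_ne_zero h4 h4) (pow_ne_zero _ ht0))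
      (pow_ne_zero _ (sub_ne_zero.mpr ht1))
  have hchar : ringChar (ZMod p) ≠ 2 := by
    rw [ZMod.ringChar_zmod_n]; exact hp2
  have h5 := trace_eq_coeff hchar (legendre (t : ZMod p)) hΔ
  have e1 : Fintype.card (ZMod p) / 2 = m := by rw [ZMod.card]; omega
  have e2 : Fintype.card (ZMod p) - 1 = 2 * m := by rw [ZMod.card]; omega
  rw [e1, e2, coeff_cubic_legendre, eval_hassePoly] at h5
  have h6 : (-4 : ZMod p) ^ m = (-1) ^ m := by
    have h7 : (2 : ZMod p) ≠ 0 := by
      intro h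
      apply h4
      rw [show (4 : ZMod p) = 2 * 2 by norm_num, h, mul_zero]
    have h8 := ZMod.pow_card_sub_one_eq_one h7
    rw [show p - 1 = 2 * m by omega, pow_mul] at h8
    rw [neg_pow (4 : ZMod p), show (4 : ZMod p) = 2 ^ 2 by norm_num, h8, mul_one]
  rw [h6] at h5
  rw [apOfModel, hmap]
  exact h5

end

section group

variable {F : Type u} [Field F] [Fintype F] [DecidableEq F]

/-- **The group of a curve with trace `0`**: cyclic of order `q + 1`, or `ℤ/2 × ℤ/((q + 1)/2)` and `4 ∣ q + 1`. -/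
theorem group_of_trace_zero (W : WeierstrassCurve F) (hΔ : W.Δ ≠ 0) (h0 : W.traceOfFrobenius = 0) :
    Nonempty (ZMod (Fintype.card F + 1) ≃+ W.toAffine.Point) ∨
      (4 ∣ Fintype.card F + 1 ∧
        Nonempty (ZMod 2 × ZMod ((Fintype.card F + 1) / 2) ≃+ W.toAffine.Point)) := by
  obtain ⟨d, n, hd, hn, hdn, hdq, hcard, ⟨e⟩⟩ := group_structure W hΔ
  have hq : 1 < Fintype.card F := Fintype.one_lt_card
  have hN : Nat.card W.toAffine.Point = Fintype.card F + 1 := by
    have hc : (W.card : ℤ) = (Nat.card W.toAffine.Point : ℤ) := rfl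
    rw [traceOfFrobenius, hc, Nat.card_eq_fintype_card (α := F)] at h0
    have : (Nat.card W.toAffine.Point : ℤ) = (Fintype.card F + 1 : ℕ) := by
      push_cast; linarith
    exact_mod_cast this
  rw [hN] at hcard
  have hd2 : d ∣ 2 := by
    have h1 : d ∣ Fintype.card F + 1 := ⟨n, hcard.symm⟩
    have h2 := Nat.dvd_sub h1 hdq
    rwa [show Fintype.card F + 1 - (Fintype.card F - 1) = 2 by omega] at h2
  have hd' : d = 1 ∨ d = 2 := (Nat.dvd_prime Nat.prime_two).mp hd2
  rcases hd' with rfl | rfl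
  · left
    rw [one_mul] at hcard
    subst hcard
    refine ⟨AddEquiv.trans ?_ e⟩
    exact
      { toFun := fun x => (0, x)
        invFun := fun x => x.2
        left_inv := fun x => rfl
        right_inv := fun x => Prod.ext (Subsingleton.elim _ _) rfl
        map_add' := fun x y => by rw [Prod.mk_add_mk, add_zero] }
  · right
    obtain ⟨k, rfl⟩ := hdn
    refine ⟨⟨k, by omega⟩, ?_⟩
    rw [show (Fintype.card F + 1) / 2 = 2 * k by omega]
    exact ⟨e⟩

end group

end Fermat.Agent.Cor.Bounds
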