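import Fermat.Agent.Cor.ChebotarevGal

/-!
# Dirichlet densities and representations of the absolute Galois group of `ℚ`

* `HasDensity S δ`: the set `S` of prime numbers has Dirichlet density `δ`;
* `hasDensity_galois` (Chebotarev): let `F/ℚ` be a finite Galois extension inside `ℚ̄` and `C` a subset of its Galois group
  stable under conjugation. The primes with a Frobenius element in `C` have density `|C| / |G|`;
* `hasDensity_rep`: let `G` be a finite group, `ρ : Gal(ℚ̄/ℚ) → G` a surjective homomorphism with open kernel, and `C ⊆ G`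
  stable under conjugation. The primes `q` with `ρ(Frob_q) ∈ C` have density `|C| / |G|`.

This file is not used by any of the statement files.
-/

set_option autoImplicit false
set_option linter.style.haveILetI false

open scoped Classical Topology Pointwise

noncomputable section

namespace Fermat.Agent.Cor.H14

open Filter NumberField
open Fermat.Agent.ZC (qsum summable_qsum bddQ_finite)
open Fermat.Agent.DS (FrobSet)

local notation "Qb" => AlgebraicClosure ℚ
local notation "Γq" => AlgebraicClosure ℚ ≃ₐ[ℚ] AlgebraicClosure ℚ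

/-- The set `S` of primes has **Dirichlet density** `δ`. (Elements of `S` which are not prime are ignored.) -/
def HasDensity (S : Set ℕ) (δ : ℝ) : Prop :=
  Tendsto (fun s : ℝ => (∑' q : Nat.Primes, if (q : ℕ) ∈ S then 1 / ((q : ℕ) : ℝ) ^ s else 0) /
    ∑' q : Nat.Primes, 1 / ((q : ℕ) : ℝ) ^ s) (𝓝[>] 1) (𝓝 δ)

theorem qsum_univ (s : ℝ) : qsum Set.univ s = ∑' q : Nat.Primes, 1 / ((q : ℕ) : ℝ) ^ s := by
  rw [qsum]
  exact tsum_congr fun q => if_pos (Set.mem_univ _)

theorem hasDensity_iff {S : Set ℕ} {δ : ℝ} : HasDensity S δ ↔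
    Tendsto (fun s : ℝ => qsum S s / qsum Set.univ s) (𝓝[>] 1) (𝓝 δ) := by
  rw [HasDensity]
  simp only [qsum_univ]
  rfl

theorem tendsto_qsum_univ : Tendsto (qsum Set.univ) (𝓝[>] 1) atTop := by
  obtain ⟨C, hC⟩ := Cheb.qsum_univ_bound
  refine tendsto_atTop_mono' _ ?_ (tendsto_atTop_add_const_right _ (-C) CFT.tendsto_ell)
  filter_upwards [hC] with s hs
  have := (abs_le.1 hs).1
  linarith

theorem eventually_one_lt : ∀ᶠ s in 𝓝[>] (1 : ℝ), 1 < s := self_mem_nhdsWithin

/-- finite sets of primes do not matter -/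
theorem HasDensity.congr {S T : Set ℕ} {δ : ℝ} (h : HasDensity S δ) {W : Set ℕ} (hW : W.Finite)
    (hST : ∀ q : ℕ, q.Prime → q ∉ W → (q ∈ S ↔ q ∈ T)) : HasDensity T δ := by
  rw [hasDensity_iff] at h ⊢
  obtain ⟨C, hC⟩ := bddQ_finite hW
  have h1 : Tendsto (fun s => (qsum T s - qsum S s) / qsum Set.univ s) (𝓝[>] 1) (𝓝 0) := by
    refine squeeze_zero_norm' ?_ (tendsto_qsum_univ.const_div_atTop C)
    filter_upwards [hC, tendsto_qsum_univ.eventually_gt_atTop 0, eventually_one_lt] with s h1 h2 hs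
    rw [Real.norm_eq_abs, abs_div, abs_of_pos h2]
    refine div_le_div_of_nonneg_right ?_ h2.le
    refine le_trans ?_ h1
    have hT := summable_qsum T hs
    have hS := summable_qsum S hs
    have hWs := summable_qsum W hs
    have key : ∀ q : Nat.Primes, |(if (q : ℕ) ∈ T then 1 / ((q : ℕ) : ℝ) ^ s else 0) -
        (if (q : ℕ) ∈ S then 1 / ((q : ℕ) : ℝ) ^ s else 0)| ≤
        if (q : ℕ) ∈ W then 1 / ((q : ℕ) : ℝ) ^ s else 0 := by
      intro q
      have h0 : 0 ≤ 1 / ((q : ℕ) : ℝ) ^ s := by positivity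
      by_cases hq : (q : ℕ) ∈ W
      · rw [if_pos hq]
        generalize 1 / ((q : ℕ) : ℝ) ^ s = x at h0 ⊢
        split_ifs
        · rw [sub_self, abs_zero]
          exact h0
        · rw [sub_zero, abs_of_nonneg h0]
        · rw [zero_sub, abs_neg, abs_of_nonneg h0]
        · rw [sub_self, abs_zero]
          exact h0
      · have h3 := hST q q.2 hq
        rw [if_neg hq]
        by_cases h4 : (q : ℕ) ∈ S
        · rw [if_pos h4, if_pos (h3.1 h4), sub_self, abs_zero]
        · rw [if_neg h4, if_neg (fun h => h4 (h3.2 h)), sub_self, abs_zero]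
    rw [qsum, qsum, qsum, ← hT.tsum_sub hS]
    have h5 : Summable fun q : Nat.Primes =>
        |(if (q : ℕ) ∈ T then 1 / ((q : ℕ) : ℝ) ^ s else 0) -
        (if (q : ℕ) ∈ S then 1 / ((q : ℕ) : ℝ) ^ s else 0)| := (hT.sub hS).abs
    have h6 : ‖∑' q : Nat.Primes, ((if (q : ℕ) ∈ T then 1 / ((q : ℕ) : ℝ) ^ s else 0) -
        (if (q : ℕ) ∈ S then 1 / ((q : ℕ) : ℝ) ^ s else 0))‖ ≤ _ := norm_tsum_le_tsum_norm h5
    rw [Real.norm_eq_abs] at h6
    exact h6.trans (h5.tsum_le_tsum key hWs)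
  have h2 := h.add h1
  rw [add_zero] at h2
  refine h2.congr fun s => ?_
  rw [← add_div]
  congr 1
  ring

/-- linear combinations of densities -/
theorem hasDensity_of_weights {ι : Type*} (I : Finset ι) (T : ι → Set ℕ) (w δ : ι → ℝ) {S : Set ℕ}
    {n : ℝ} (hn : n ≠ 0) (h : ∀ i ∈ I, HasDensity (T i) (δ i))
    (hS : ∀ q : ℕ, q.Prime → ∑ i ∈ I, w i * (if q ∈ T i then 1 else 0) =
      n * (if q ∈ S then 1 else 0)) :
    HasDensity S ((∑ i ∈ I, w i * δ i) / n) := by
  rw [hasDensity_iff]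
  have h1 : Tendsto (fun s => (∑ i ∈ I, w i * (qsum (T i) s / qsum Set.univ s)) / n) (𝓝[>] 1)
      (𝓝 ((∑ i ∈ I, w i * δ i) / n)) :=
    (tendsto_finsetSum I fun i hi => (hasDensity_iff.1 (h i hi)).const_mul (w i)).div_const n
  refine h1.congr' ?_
  filter_upwards [eventually_one_lt] with s hs
  have h2 : ∑ i ∈ I, w i * qsum (T i) s = n * qsum S s := by
    simp only [qsum]
    rw [← tsum_mul_left, Finset.sum_congr rfl fun i _ => (tsum_mul_left).symm,
      ← Summable.tsum_finsetSum fun i _ => (summable_qsum (T i) hs).mul_left _]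
    refine tsum_congr fun q => ?_
    have h3 := hS q q.2
    calc ∑ i ∈ I, w i * (if (q : ℕ) ∈ T i then 1 / ((q : ℕ) : ℝ) ^ s else 0)
        = ∑ i ∈ I, (w i * (if (q : ℕ) ∈ T i then 1 else 0)) * (1 / ((q : ℕ) : ℝ) ^ s) := by
          refine Finset.sum_congr rfl fun i _ => ?_
          split_ifs <;> ring
      _ = n * (if (q : ℕ) ∈ S then 1 / ((q : ℕ) : ℝ) ^ s else 0) := by
          rw [← Finset.sum_mul, h3]
          split_ifs <;> ring
  rw [Finset.sum_congr rfl fun i _ => (mul_div_assoc (w i) (qsum (T i) s) _).symm,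
    ← Finset.sum_div, h2, div_right_comm, mul_div_cancel_left₀ _ hn]

/-- the number of elements of the centralizer -/
theorem card_centralizer_eq {G : Type*} [Group G] [Finite G] {g₀ g : G} (h : IsConj g₀ g) :
    (Nat.card (Subgroup.centralizer {g} : Subgroup G) : ℝ) =
      Nat.card G / Nat.card {x : G // IsConj g₀ x} := by
  have h1 := Cheb.card_class_mul g
  have h2 : Nat.card {x : G // IsConj g x} = Nat.card {x : G // IsConj g₀ x} :=
    Nat.card_congr (Equiv.subtypeEquivRight fun x => ⟨fun h' => h.trans h', fun h' => h.symm.trans h'⟩)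
  rw [h2] at h1
  have h3 : Nat.card {x : G // IsConj g₀ x} ≠ 0 := by
    have : Nonempty {x : G // IsConj g₀ x} := ⟨⟨g₀, IsConj.refl g₀⟩⟩
    exact Nat.card_pos.ne'
  rw [eq_div_iff (by exact_mod_cast h3), ← h1]
  push_cast
  ring

theorem frobSet_conj {L : Type*} [Field L] [NumberField L] [IsGalois ℚ L] {q : ℕ} {g : Gal(L/ℚ)}
    (h : q ∈ FrobSet g) (t : Gal(L/ℚ)) : q ∈ FrobSet (t * g * t⁻¹) := by
  obtain ⟨P, hP, hPo, hφ⟩ := h
  exact ⟨t • P, inferInstance, inferInstance, hφ.conj t⟩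

/-- **Chebotarev's theorem for conjugation-stable sets.** -/
theorem hasDensity_galois (F : IntermediateField ℚ Qb) [NumberField F] [IsGalois ℚ F]
    (C : Set Gal(F/ℚ)) (hC : ∀ g ∈ C, ∀ t : Gal(F/ℚ), t * g * t⁻¹ ∈ C) :
    HasDensity {q | ∃ g ∈ C, q ∈ FrobSet g} (Nat.card C / Nat.card Gal(F/ℚ)) := by
  set W : Set ℕ := ((discr F).natAbs.divisors : Set ℕ) with hW
  have hWf : W.Finite := Finset.finite_toSet _
  have hG : (Nat.card Gal(F/ℚ) : ℝ) ≠ 0 := by exact_mod_cast Nat.card_pos.ne'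
  have h1 : ∀ g : Gal(F/ℚ), HasDensity (FrobSet g \ W)
      (1 / (Nat.card (Subgroup.centralizer {g} : Subgroup Gal(F/ℚ)) : ℝ)) := fun g =>
    HasDensity.congr (hasDensity_iff.2 (Cheb.tendsto_class F g)) hWf fun q _ hq =>
      ⟨fun h => ⟨h, hq⟩, fun h => h.1⟩
  have h2 : HasDensity ({q | ∃ g ∈ C, q ∈ FrobSet g} \ W)
      ((∑ g ∈ C.toFinset, (Nat.card (Subgroup.centralizer {g} : Subgroup Gal(F/ℚ)) : ℝ) *
        (1 / (Nat.card (Subgroup.centralizer {g} : Subgroup Gal(F/ℚ)) : ℝ))) /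
          Nat.card Gal(F/ℚ)) := by
    refine hasDensity_of_weights C.toFinset (fun g => FrobSet g \ W)
      (fun g => (Nat.card (Subgroup.centralizer {g} : Subgroup Gal(F/ℚ)) : ℝ)) _ hG
      (fun g _ => h1 g) fun q hq => ?_
    by_cases hqW : q ∈ W
    · rw [Finset.sum_eq_zero fun g _ => by rw [if_neg fun h => h.2 hqW, mul_zero],
        if_neg fun h => h.2 hqW, mul_zero]
    have hdisc : ¬ (q : ℤ) ∣ discr F := by
      intro h
      apply hqW
      rw [hW, Finset.mem_coe, Nat.mem_divisors]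
      exact ⟨Int.natCast_dvd.mp h, Int.natAbs_ne_zero.mpr (discr_ne_zero F)⟩
    have hur : Algebra.IsUnramifiedIn (𝓞 F) (Ideal.span {(q : ℤ)}) :=
      (not_dvd_discr_iff_isUnramifiedIn F (𝓞 F) (Nat.prime_iff_prime_int.mp hq)).mp hdisc
    by_cases hex : ∃ g ∈ C, q ∈ FrobSet g
    · obtain ⟨g₀, hg₀C, hg₀⟩ := hex
      rw [if_pos (show q ∈ {q | ∃ g ∈ C, q ∈ FrobSet g} \ W from ⟨⟨g₀, hg₀C, hg₀⟩, hqW⟩), mul_one]
      have hiff : ∀ g : Gal(F/ℚ), g ∈ C.toFinset ∧ q ∈ FrobSet g \ W ↔ IsConj g₀ g := by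
        intro g
        rw [Set.mem_toFinset]
        constructor
        · rintro ⟨-, hg, -⟩
          obtain ⟨t, rfl⟩ := DS.conj_of_frobSet hq hur hg₀ hg
          exact isConj_iff.2 ⟨t, rfl⟩
        · intro h
          obtain ⟨t, rfl⟩ := isConj_iff.1 h
          exact ⟨hC _ hg₀C t, frobSet_conj hg₀ t, hqW⟩
      have h3 : ∑ g ∈ C.toFinset, (Nat.card (Subgroup.centralizer {g} : Subgroup Gal(F/ℚ)) : ℝ) *
          (if q ∈ FrobSet g \ W then 1 else 0) =
          ∑ g ∈ Finset.univ.filter fun g : Gal(F/ℚ) => IsConj g₀ g,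
            (Nat.card Gal(F/ℚ) / Nat.card {x : Gal(F/ℚ) // IsConj g₀ x} : ℝ) := by
        rw [Finset.sum_congr rfl fun g _ => mul_ite _ _ _ _, ← Finset.sum_filter_add_sum_filter_not
          C.toFinset fun g => q ∈ FrobSet g \ W]
        rw [Finset.sum_eq_zero (s := C.toFinset.filter fun g => ¬ q ∈ FrobSet g \ W) fun g hg => by
          rw [if_neg (Finset.mem_filter.1 hg).2, mul_zero], add_zero]
        have h4 : (C.toFinset.filter fun g => q ∈ FrobSet g \ W) =
            Finset.univ.filter fun g : Gal(F/ℚ) => IsConj g₀ g := by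
          ext g
          rw [Finset.mem_filter, hiff, Finset.mem_filter]
          exact ⟨fun h => ⟨Finset.mem_univ _, h⟩, fun h => h.2⟩
        rw [h4]
        refine Finset.sum_congr rfl fun g hg => ?_
        have h5 : IsConj g₀ g := (Finset.mem_filter.1 hg).2
        rw [if_pos ((hiff g).2 h5).2, mul_one, card_centralizer_eq h5]
      refine (Finset.sum_congr rfl fun g _ => by congr).trans (h3.trans ?_)
      rw [Finset.sum_const, nsmul_eq_mul]
      have h6 : ((Finset.univ.filter fun g : Gal(F/ℚ) => IsConj g₀ g).card : ℝ) =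
          Nat.card {x : Gal(F/ℚ) // IsConj g₀ x} := by
        rw [Nat.card_eq_fintype_card, Fintype.card_subtype]
      rw [h6]
      refine mul_div_cancel₀ _ ?_
      have : Nonempty {x : Gal(F/ℚ) // IsConj g₀ x} := ⟨⟨g₀, IsConj.refl g₀⟩⟩
      exact_mod_cast Nat.card_pos.ne'
    · rw [if_neg fun h => hex h.1, mul_zero]
      refine Finset.sum_eq_zero fun g hg => ?_
      rw [if_neg fun h => hex ⟨g, Set.mem_toFinset.1 hg, h.1⟩, mul_zero]
  have h3 : ∑ g ∈ C.toFinset, (Nat.card (Subgroup.centralizer {g} : Subgroup Gal(F/ℚ)) : ℝ) *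
        (1 / (Nat.card (Subgroup.centralizer {g} : Subgroup Gal(F/ℚ)) : ℝ)) = Nat.card C := by
    rw [Finset.sum_congr rfl fun g _ => mul_one_div_cancel (by exact_mod_cast Nat.card_pos.ne'),
      Finset.sum_const, nsmul_eq_mul, mul_one, Set.toFinset_card, Nat.card_eq_fintype_card]
  rw [h3] at h2
  exact h2.congr hWf fun q _ hq => ⟨fun h => h.1, fun h => ⟨h, hq⟩⟩

theorem card_preimage {H G : Type*} [Group H] [Group G] (f : H →* G)
    (hf : Function.Surjective f) (C : Set G) :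
    Nat.card (f ⁻¹' C) = Nat.card C * Nat.card f.ker := by
  rw [← Nat.card_prod]
  choose s hs using hf
  refine Nat.card_congr
    { toFun := fun x => (⟨f x, x.2⟩, ⟨(s (f x))⁻¹ * x, ?_⟩)
      invFun := fun y => ⟨s y.1 * y.2, ?_⟩
      left_inv := fun x => Subtype.ext ?_
      right_inv := fun y => ?_ }
  · rw [MonoidHom.mem_ker, map_mul, map_inv, hs, inv_mul_cancel]
  · rw [Set.mem_preimage, map_mul, hs, MonoidHom.mem_ker.1 y.2.2, mul_one]
    exact y.1.2
  · exact mul_inv_cancel_left _ _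
  · have h1 : f (s y.1 * y.2) = y.1 := by
      rw [map_mul, hs, MonoidHom.mem_ker.1 y.2.2, mul_one]
    refine Prod.ext (Subtype.ext h1) (Subtype.ext ?_)
    change (s (f (s y.1 * y.2)))⁻¹ * (s y.1 * y.2) = y.2
    rw [h1, inv_mul_cancel_left]

theorem card_preimage_div {H G : Type*} [Group H] [Finite H] [Group G] (f : H →* G)
    (hf : Function.Surjective f) (C : Set G) :
    (Nat.card (f ⁻¹' C) : ℝ) / Nat.card H = Nat.card C / Nat.card G := by
  have h1 := card_preimage f hf C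
  have h2 : Nat.card H = Nat.card G * Nat.card f.ker := by
    have h3 := card_preimage f hf Set.univ
    rwa [Set.preimage_univ, Nat.card_congr (Equiv.Set.univ H), Nat.card_congr (Equiv.Set.univ G)] at h3
  have h3 : (Nat.card f.ker : ℝ) ≠ 0 := by exact_mod_cast Nat.card_pos.ne'
  rw [h1, h2]
  push_cast
  exact mul_div_mul_right _ _ h3

/-- **Chebotarev's theorem for representations** of the absolute Galois group of `ℚ` with finite image. -/
theorem hasDensity_rep {G : Type*} [Group G] {ρ : Γq →* G} (hρ : Function.Surjective ρ)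
    (hF : ∃ F : IntermediateField ℚ Qb, FiniteDimensional ℚ F ∧
      ∀ σ : Γq, (∀ x ∈ F, σ x = x) → ρ σ = 1)
    (C : Set G) (hC : ∀ g ∈ C, ∀ t : G, t * g * t⁻¹ ∈ C) :
    HasDensity {q | ∃ (A : ValuationSubring Qb) (φ : Γq), A.LiesOverPrime q ∧
      A.IsFrobeniusAt φ q ∧ ρ φ ∈ C} (Nat.card C / Nat.card G) := by
  obtain ⟨F, hfin, hF⟩ := hF
  have hg : IsGalois ℚ Qb := H51.isGalois_Qbar
  have h1 : F.fixingSubgroup ≤ ρ.ker := fun τ hτ =>
    hF τ fun x hx => (IntermediateField.mem_fixingSubgroup_iff F τ).1 hτ x hx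
  have hU : IsOpen ((ρ.ker : Subgroup Γq) : Set Γq) :=
    Subgroup.isOpen_mono h1 (IntermediateField.fixingSubgroup_isOpen F)
  obtain ⟨E, hE1, hE2, hE3⟩ := (krullTopology_mem_nhds_one_iff_of_normal ℚ Qb
    ((ρ.ker : Subgroup Γq) : Set Γq)).mp (hU.mem_nhds ρ.ker.one_mem)
  haveI : IsGalois ℚ E := { to_isSeparable := inferInstance, to_normal := hE2 }
  haveI : NumberField E := { to_charZero := inferInstance, to_finiteDimensional := hE1 }
  let π : Γq →* Gal(E/ℚ) := AlgEquiv.restrictNormalHom E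
  have hπ : Function.Surjective π := AlgEquiv.restrictNormalHom_surjective _
  have hker : π.ker ≤ ρ.ker := by
    rw [DS.ker_restrict]
    exact hE3
  let ρ' : Gal(E/ℚ) →* G := π.liftOfSurjective hπ ⟨ρ, hker⟩
  have hρ' : ∀ σ, ρ' (π σ) = ρ σ := fun σ =>
    π.liftOfRightInverse_comp_apply _ (Function.rightInverse_surjInv hπ) ⟨ρ, hker⟩ σ
  have hsurj : Function.Surjective ρ' := by
    intro g
    obtain ⟨σ, rfl⟩ := hρ g
    exact ⟨π σ, hρ' σ⟩
  have h2 := hasDensity_galois E (ρ' ⁻¹' C) (fun g hg t => by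
    rw [Set.mem_preimage, map_mul, map_mul, map_inv]
    exact hC _ hg _)
  rw [card_preimage_div ρ' hsurj C] at h2
  refine h2.congr (Finset.finite_toSet ((discr E).natAbs.divisors)) fun q hq hqW => ⟨?_, ?_⟩
  · rintro ⟨g, hg, P, hP, hPo, hφ⟩
    have hdisc : ¬ (q : ℤ) ∣ discr E := by
      intro h
      apply hqW
      rw [Finset.mem_coe, Nat.mem_divisors]
      exact ⟨Int.natCast_dvd.mp h, Int.natAbs_ne_zero.mpr (discr_ne_zero E)⟩
    have hur : Algebra.IsUnramifiedIn (𝓞 E) (Ideal.span {(q : ℤ)}) :=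
      (not_dvd_discr_iff_isUnramifiedIn E (𝓞 E) (Nat.prime_iff_prime_int.mp hq)).mp hdisc
    obtain ⟨A, φ, hA, hφ', hres⟩ := DS.exists_lift_frob E hq hur hP hPo hφ
    subst hres
    refine ⟨A, φ, hA, hφ', ?_⟩
    rw [← hρ' φ]
    exact hg
  · rintro ⟨A, φ, hA, hφ, hmem⟩
    refine ⟨π φ, ?_, DS.frobSet_of_isFrobeniusAt E hq hA hφ⟩
    rw [Set.mem_preimage, hρ']
    exact hmem

end Fermat.Agent.Cor.H14
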