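import Mathlib
import Fermat.Agent.Cor.CMTraces
import Fermat.Agent.Cor.ChebotarevDens
import Fermat.Agent.Cor.H14Density

/-!
# Supersingular primes of the curves with `j = 0` and `j = 1728`

Let `W` be an elliptic curve over `ℚ` given by an integral Weierstrass equation with `c₄ = 0` (`j = 0`) or `c₆ = 0`
(`j = 1728`). The supersingular primes of `W` have Dirichlet density `1 / 2`. (For semistable curves the density is zero,
see `Fermat.Agent.Cor.TraceDensity`.)

This file is not used by any of the statement files.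
-/

set_option autoImplicit false

namespace Fermat.Agent.Cor.Bounds

open Filter Topology

/-- Dirichlet's theorem in the form used here -/
lemma hasDensity_mod {m r : ℕ} [NeZero m] (hr : r.Coprime m) (hrm : r < m) :
    Cor.H14.HasDensity {p : ℕ | p % m = r} (1 / (Nat.totient m : ℝ)) := by
  have h1 := Cor.Cheb.density_arith m (ZMod.unitOfCoprime r hr)
  have h2 : {p : ℕ | (p : ZMod m) = (ZMod.unitOfCoprime r hr : (ZMod m)ˣ)} = {p : ℕ | p % m = r} := by
    ext p
    change (p : ZMod m) = (ZMod.unitOfCoprime r hr : (ZMod m)ˣ) ↔ p % m = r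
    rw [ZMod.coe_unitOfCoprime, ZMod.natCast_eq_natCast_iff', Nat.mod_eq_of_lt hrm]
  rw [h2] at h1
  rw [Cor.H14.hasDensity_iff]
  exact Cor.Cheb.hasDensity_iff.mp h1

/-- the small primes and the bad primes -/
lemma finite_bad (W : WeierstrassCurve ℤ) :
    ((Finset.range 5 ∪ W.Δ.natAbs.divisors : Finset ℕ) : Set ℕ).Finite := Finset.finite_toSet _

lemma good_of_notMem (W : WeierstrassCurve ℤ) (hΔ : W.Δ ≠ 0) {p : ℕ}
    (h : p ∉ ((Finset.range 5 ∪ W.Δ.natAbs.divisors : Finset ℕ) : Set ℕ)) :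
    5 ≤ p ∧ W.IsGoodPrimeFor p := by
  rw [Finset.mem_coe, Finset.mem_union, not_or, Finset.mem_range, not_lt, Nat.mem_divisors] at h
  refine ⟨h.1, fun h2 => h.2 ⟨Int.natCast_dvd.mp h2, Int.natAbs_ne_zero.mpr hΔ⟩⟩

/-- **`j = 1728`: the supersingular primes have density `1 / 2`.** -/
theorem density_supersingular_of_c₆ (W : WeierstrassCurve ℤ) (hΔ : W.Δ ≠ 0) (hc : W.c₆ = 0) :
    Cor.H14.HasDensity {p | W.apOfModel p = 0} (1 / 2) := by
  have h : Cor.H14.HasDensity {p : ℕ | p % 4 = 3} (1 / 2) := by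
    have h1 := hasDensity_mod (m := 4) (r := 3) (by decide) (by norm_num)
    rwa [show Nat.totient 4 = 2 by decide, Nat.cast_two] at h1
  refine h.congr (finite_bad W) fun p hp hpW => ?_
  obtain ⟨h5, hgood⟩ := good_of_notMem W hΔ hpW
  have : Fact p.Prime := ⟨hp⟩
  exact (apOfModel_eq_zero_iff_of_dvd_c₆ W h5 hgood (by rw [hc]; exact dvd_zero _)).symm

/-- **`j = 0`: the supersingular primes have density `1 / 2`.** -/
theorem density_supersingular_of_c₄ (W : WeierstrassCurve ℤ) (hΔ : W.Δ ≠ 0) (hc : W.c₄ = 0) :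
    Cor.H14.HasDensity {p | W.apOfModel p = 0} (1 / 2) := by
  have h : Cor.H14.HasDensity {p : ℕ | p % 3 = 2} (1 / 2) := by
    have h1 := hasDensity_mod (m := 3) (r := 2) (by decide) (by norm_num)
    rwa [show Nat.totient 3 = 2 by decide, Nat.cast_two] at h1
  refine h.congr (finite_bad W) fun p hp hpW => ?_
  obtain ⟨h5, hgood⟩ := good_of_notMem W hΔ hpW
  have : Fact p.Prime := ⟨hp⟩
  exact (apOfModel_eq_zero_iff_of_dvd_c₄ W h5 hgood (by rw [hc]; exact dvd_zero _)).symm

end Fermat.Agent.Cor.Bounds
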