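import Fermat.Agent.Cor.ModularPolynomial
import Fermat.Agent.Igusa.Haupt
import Fermat.Agent.Igusa.Ramanujan

/-!
# Explicit singular moduli

This file is not used by any of the statement files.

* `modPoly_two`, `modPoly_three`: the modular polynomials `Φ₂` and `Φ₃`, written out;
* `j_ge_of_re_zero`, `j_le_of_re_half`: `j(iy)` is real and `≥ 1728`, `j(1/2 + iy)` is real and
  `≤ 1728`;
* nine of the thirteen rational singular moduli (the discriminant of the order is in brackets):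

  | theorem | value |
  | --- | --- |
  | `j_rho` (-3) | `j((1 + √-3)/2) = 0` |
  | `j_I` (-4) | `j(√-1) = 1728` |
  | `j_half_sqrt_neg_seven` (-7) | `j((1 + √-7)/2) = (-15)³` |
  | `j_sqrt_neg_two` (-8) | `j(√-2) = 20³` |
  | `j_half_sqrt_neg_eleven` (-11) | `j((1 + √-11)/2) = (-32)³` |
  | `j_sqrt_neg_three` (-12) | `j(√-3) = 54000` |
  | `j_two_I` (-16) | `j(2√-1) = 66³` |
  | `j_half_three_sqrt_neg_three` (-27) | `j((1 + 3√-3)/2) = -12288000` |
  | `j_sqrt_neg_seven` (-28) | `j(√-7) = 255³` |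

The point `τ` of the upper half plane is given by its quadratic equation.  The method: each
`τ` has an isogeny of degree 2 or 3 to a point of its own orbit (or of the orbit of a point
treated before), so that `j(τ)` satisfies an equation obtained from `Φ₂` or `Φ₃`; the remaining
ambiguity is removed by the sign of `j - 1728`.
-/

set_option autoImplicit false

noncomputable section

namespace Fermat.Agent.Cor.CM

open ModularCurve Polynomial UpperHalfPlane Fermat.Agent.Igusa MatrixGroups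

section explicit

/-- the classical modular polynomial of level 2 -/
def phi2 : ℤ[X][X] :=
  X ^ 3 + C (-X ^ 2 + 1488 * X - 162000) * X ^ 2 +
    C (1488 * X ^ 2 + 40773375 * X + 8748000000) * X +
    C (X ^ 3 - 162000 * X ^ 2 + 8748000000 * X - 157464000000000)

/-- the classical modular polynomial of level 3 -/
def phi3 : ℤ[X][X] :=
  X ^ 4 + C (-X ^ 3 + 2232 * X ^ 2 - 1069956 * X + 36864000) * X ^ 3 +
    C (2232 * X ^ 3 + 2587918086 * X ^ 2 + 8900222976000 * X + 452984832000000) * X ^ 2 +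
    C (-1069956 * X ^ 3 + 8900222976000 * X ^ 2 - 770845966336000000 * X +
      1855425871872000000000) * X +
    C (X ^ 4 + 36864000 * X ^ 3 + 452984832000000 * X ^ 2 + 1855425871872000000000 * X)

theorem phi2_eval {K : Type*} [CommRing K] (x y : K) : phi2.eval₂ (evZ x) y =
    y ^ 3 + (-x ^ 2 + 1488 * x - 162000) * y ^ 2 +
      (1488 * x ^ 2 + 40773375 * x + 8748000000) * y +
      (x ^ 3 - 162000 * x ^ 2 + 8748000000 * x - 157464000000000) := by
  simp only [phi2, eval₂_add, eval₂_mul, eval₂_pow, eval₂_X, eval₂_C]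
  simp only [map_add, map_sub, map_neg, map_mul, map_pow, evZ_X, map_ofNat]

theorem phi3_eval {K : Type*} [CommRing K] (x y : K) : phi3.eval₂ (evZ x) y =
    y ^ 4 + (-x ^ 3 + 2232 * x ^ 2 - 1069956 * x + 36864000) * y ^ 3 +
      (2232 * x ^ 3 + 2587918086 * x ^ 2 + 8900222976000 * x + 452984832000000) * y ^ 2 +
      (-1069956 * x ^ 3 + 8900222976000 * x ^ 2 - 770845966336000000 * x +
        1855425871872000000000) * y +
      (x ^ 4 + 36864000 * x ^ 3 + 452984832000000 * x ^ 2 + 1855425871872000000000 * x) := by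
  simp only [phi3, eval₂_add, eval₂_mul, eval₂_pow, eval₂_X, eval₂_C]
  simp only [map_add, map_sub, map_neg, map_mul, map_pow, evZ_X, map_ofNat]

theorem phi2_monic : phi2.Monic := by unfold phi2; monicity!

theorem phi3_monic : phi3.Monic := by unfold phi3; monicity!

theorem phi2_natDegree : phi2.natDegree ≤ 3 := by unfold phi2; compute_degree

theorem phi3_natDegree : phi3.natDegree ≤ 4 := by unfold phi3; compute_degree

/-- **The modular polynomial of level 2**, explicitly. -/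
theorem modPoly_two : modPoly 2 = phi2 := by
  refine (Polynomial.eq_of_monic_of_dvd_of_natDegree_le (modPoly_monic 2) phi2_monic
    (modPoly_dvd_of_series 2 ?_) (by rw [modPoly_natDegree]; exact phi2_natDegree)).symm
  have h1 := congrArg (coeffMap (Int.castRingHom ℂ)) H29.f2_j
  have h2 := congrArg (coeffMap (Int.castRingHom ℂ)) H29.f2_jr
  simp only [map_mul, map_pow, map_add, map_ofNat, coeffMap_jqModC, coeffMap_qExpand] at h1 h2
  have h0 : coeffMap (Int.castRingHom ℂ) H29.f2 ≠ 0 := by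
    intro h
    exact mn_f2.ne_zero (coeffMap_injective (Int.castRingHom ℂ) Int.cast_injective
      (h.trans (map_zero _).symm))
  set f := coeffMap (Int.castRingHom ℂ) H29.f2 with hf
  have hJ : jqModC ℂ = (f + 256) ^ 3 / f ^ 2 := by
    rw [eq_div_iff (pow_ne_zero 2 h0), h1]
  have hJ2 : jd ℂ 2 = (f + 16) ^ 3 / f := by
    rw [eq_div_iff h0, ← h2]; rfl
  rw [phi2_eval, hJ, hJ2]
  field_simp
  ring

/-- **The modular polynomial of level 3**, explicitly. -/
theorem modPoly_three : modPoly 3 = phi3 := by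
  refine (Polynomial.eq_of_monic_of_dvd_of_natDegree_le (modPoly_monic 3) phi3_monic
    (modPoly_dvd_of_series 3 ?_) (by rw [modPoly_natDegree]; exact phi3_natDegree)).symm
  have h1 := congrArg (coeffMap (Int.castRingHom ℂ)) H29.f3_j
  have h2 := congrArg (coeffMap (Int.castRingHom ℂ)) H29.f3_jr
  simp only [map_mul, map_pow, map_add, map_ofNat, coeffMap_jqModC, coeffMap_qExpand] at h1 h2
  have h0 : coeffMap (Int.castRingHom ℂ) H29.f3 ≠ 0 := by
    intro h
    exact mn_f3.ne_zero (coeffMap_injective (Int.castRingHom ℂ) Int.cast_injective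
      (h.trans (map_zero _).symm))
  set f := coeffMap (Int.castRingHom ℂ) H29.f3 with hf
  have hJ : jqModC ℂ = (f + 27) * (f + 243) ^ 3 / f ^ 3 := by
    rw [eq_div_iff (pow_ne_zero 3 h0), h1]
  have hJ2 : jd ℂ 3 = (f + 27) * (f + 3) ^ 3 / f := by
    rw [eq_div_iff h0, ← h2]; rfl
  rw [phi3_eval, hJ, hJ2]
  field_simp
  ring

end explicit

section points

/-- `j` depends only on the `SL₂(ℤ)`-orbit, in coordinates. -/
theorem j_eq_of_moebius {τ τ' : ℍ} (p q s t : ℤ) (hdet : p * t - q * s = 1)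
    (h : (τ' : ℂ) * (s * τ + t) = p * τ + q) : j τ' = j τ := by
  let γ : SL(2, ℤ) := ⟨!![p, q; s, t], by rw [Matrix.det_fin_two_of]; linarith⟩
  have hne : (s : ℂ) * τ + t ≠ 0 := by
    intro h0
    have h1 := congrArg Complex.im h0
    simp only [Complex.add_im, Complex.mul_im, Complex.intCast_re, Complex.intCast_im, zero_mul,
      add_zero, Complex.zero_im] at h1
    rcases mul_eq_zero.mp h1 with hs | hs
    · have hs' : s = 0 := by exact_mod_cast hs
      rw [hs'] at h0 hdet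
      have ht : t = 0 := by
        rw [Int.cast_zero, zero_mul, zero_add] at h0
        exact_mod_cast h0
      rw [ht] at hdet
      simp at hdet
    · exact τ.im_pos.ne' hs
  have h2 : τ' = γ • τ := by
    apply UpperHalfPlane.ext
    rw [UpperHalfPlane.coe_specialLinearGroup_apply]
    simp only [γ, Matrix.of_apply, Matrix.cons_val', Matrix.cons_val_zero,
      Matrix.cons_val_fin_one, Matrix.cons_val_one, eq_intCast, Complex.ofReal_intCast,
      algebraMap_int_eq]
    rw [eq_div_iff hne, h]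
  rw [h2, j_smul]

theorem prod_zmod_two {M : Type*} [CommMonoid M] (f : ℕ → M) :
    ∏ b : ZMod 2, f b.val = f 0 * f 1 := by
  show ∏ b : Fin 2, f b.val = _
  rw [Fin.prod_univ_two]; rfl

theorem prod_zmod_three {M : Type*} [CommMonoid M] (f : ℕ → M) :
    ∏ b : ZMod 3, f b.val = f 0 * f 1 * f 2 := by
  show ∏ b : Fin 3, f b.val = _
  rw [Fin.prod_univ_three]; rfl

/-- the three points 2-isogenous to `τ` -/
theorem phi2_j (τ : ℍ) (y : ℂ) : phi2.eval₂ (evZ (j τ)) y =
    (y - j (scl 2 τ)) * ((y - j (lin 2 0 τ)) * (y - j (lin 2 1 τ))) := by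
  rw [← modPoly_two, ← aevalAeval_eq_eval₂, modPoly_eval_j,
    prod_zmod_two (fun b => y - j (lin 2 (b : ℕ) τ))]
  simp

/-- the four points 3-isogenous to `τ` -/
theorem phi3_j (τ : ℍ) (y : ℂ) : phi3.eval₂ (evZ (j τ)) y =
    (y - j (scl 3 τ)) * ((y - j (lin 3 0 τ)) * (y - j (lin 3 1 τ)) * (y - j (lin 3 2 τ))) := by
  rw [← modPoly_three, ← aevalAeval_eq_eval₂, modPoly_eval_j,
    prod_zmod_three (fun b => y - j (lin 3 (b : ℕ) τ))]
  simp

end points

section real

open ModularForm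

/-- A function with integral `q`-expansion is real where `q` is real. -/
theorem exists_real_of_isExp {f : ℍ → ℂ} {F : LaurentSeries ℤ}
    (hf : IsExp 1 f (coeffMap (Int.castRingHom ℂ) F)) {τ : ℍ} {r : ℝ}
    (hr : Function.Periodic.qParam ((1 : ℕ) : ℝ) (τ : ℂ) = r) : ∃ x : ℝ, f τ = x := by
  have h1 := hf τ
  rw [hr] at h1
  refine ⟨(f τ).re, ?_⟩
  have h2 : ∀ n : ℤ, (coeffMap (Int.castRingHom ℂ) F).coeff n * (r : ℂ) ^ n =
      (((F.coeff n : ℝ) * r ^ n : ℝ) : ℂ) := by
    intro n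
    rw [coeffMap_coeff]
    push_cast
    simp
  simp only [h2] at h1
  have h3 := (Complex.hasSum_iff _ _).mp h1
  apply Complex.ext
  · simp
  · have h4 := h3.2
    simp only [Complex.ofReal_im] at h4
    rw [Complex.ofReal_im]
    exact h4.unique hasSum_zero

/-- `E₆(τ)` is real if `q` is real -/
theorem e6_real {τ : ℍ} {r : ℝ} (hr : Function.Periodic.qParam ((1 : ℕ) : ℝ) (τ : ℂ) = r) :
    ∃ x : ℝ, E₆ τ = x := by
  have e6 := isExp_mf (E₆ : ModularForm 𝒮ℒ 6)
  rw [← coeffMap_sE6] at e6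
  exact exists_real_of_isExp e6 hr

/-- `∏ (1 - qⁿ)` is real if `q` is real -/
theorem euler_real {τ : ℍ} {r : ℝ} (hr : Function.Periodic.qParam ((1 : ℕ) : ℝ) (τ : ℂ) = r) :
    ∃ x : ℝ, euler (Function.Periodic.qParam ((1 : ℕ) : ℝ) (τ : ℂ)) = x := by
  have h1 := isExp_euler
  rw [← coeffMap_ofPowerSeries] at h1
  exact exists_real_of_isExp (F := HahnSeries.ofPowerSeries ℤ ℤ etaProd) h1 hr

/-- If `q` is real, then `j(τ)` is real and `j(τ) - 1728` has the sign of `q` (or is zero). -/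
theorem j_sub_real {τ : ℍ} {r : ℝ} (hr : Function.Periodic.qParam ((1 : ℕ) : ℝ) (τ : ℂ) = r) :
    ∃ x : ℝ, j τ = 1728 + x ∧ 0 ≤ r * x := by
  obtain ⟨a, ha⟩ := e6_real hr
  obtain ⟨b, hb⟩ := euler_real hr
  have h1 := dl_eq τ
  rw [hb, hr] at h1
  have hd := H29.disc_fun τ
  have h0 := dl_ne_zero τ
  change (1728 : ℂ) * dl τ = _ at hd
  have hrb : r * b ^ 24 ≠ 0 := by
    intro h
    apply h0
    rw [h1]
    exact_mod_cast congrArg (Complex.ofReal) h
  refine ⟨a ^ 2 / (r * b ^ 24), ?_, ?_⟩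
  · have h2 : j τ = E₄ τ ^ 3 / dl τ := rfl
    rw [h2, show E₄ τ ^ 3 = 1728 * dl τ + (a : ℂ) ^ 2 by rw [hd, ha]; ring, h1]
    have h3 : ((r : ℂ) * (b : ℂ) ^ 24) ≠ 0 := by exact_mod_cast hrb
    push_cast
    rw [add_div, mul_div_assoc, div_self h3, mul_one]
  · have hr0 : r ≠ 0 := left_ne_zero_of_mul hrb
    have hb0 : b ≠ 0 := by
      intro h
      apply hrb
      rw [h]; simp
    have h3 : r * (a ^ 2 / (r * b ^ 24)) = a ^ 2 / b ^ 24 := by field_simp
    rw [h3]
    positivity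

/-- `q` for `Re τ = 0` -/
theorem qParam_of_re_zero {τ : ℍ} (h : τ.re = 0) :
    Function.Periodic.qParam ((1 : ℕ) : ℝ) (τ : ℂ) = (Real.exp (-(2 * Real.pi * τ.im)) : ℝ) := by
  have h1 : (τ : ℂ) = Complex.I * τ.im := by
    apply Complex.ext <;> simp [h]
  rw [Function.Periodic.qParam, h1]
  push_cast
  congr 1
  linear_combination (2 * Real.pi * τ.im : ℂ) * Complex.I_sq

/-- `q` for `Re τ = 1/2` -/
theorem qParam_of_re_half {τ : ℍ} (h : τ.re = 1 / 2) :
    Function.Periodic.qParam ((1 : ℕ) : ℝ) (τ : ℂ) = (-Real.exp (-(2 * Real.pi * τ.im)) : ℝ) := by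
  have h1 : (τ : ℂ) = 1 / 2 + Complex.I * τ.im := by
    apply Complex.ext <;> simp [h]
  rw [Function.Periodic.qParam, h1]
  have h2 : 2 * (Real.pi : ℂ) * Complex.I * (1 / 2 + Complex.I * τ.im) / ((1 : ℕ) : ℝ) =
      Real.pi * Complex.I + (-(2 * Real.pi * τ.im) : ℝ) := by
    push_cast
    linear_combination (2 * Real.pi * τ.im : ℂ) * Complex.I_sq
  rw [h2, Complex.exp_add, Complex.exp_pi_mul_I]
  push_cast
  ring

/-- `j(iy) ≥ 1728`. -/
theorem j_ge_of_re_zero {τ : ℍ} (h : τ.re = 0) : ∃ x : ℝ, j τ = x ∧ 1728 ≤ x := by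
  obtain ⟨x, hx, hx2⟩ := j_sub_real (qParam_of_re_zero h)
  refine ⟨1728 + x, by rw [hx]; push_cast; rfl, ?_⟩
  have := nonneg_of_mul_nonneg_right hx2 (Real.exp_pos _)
  linarith

/-- `j(1/2 + iy) ≤ 1728`. -/
theorem j_le_of_re_half {τ : ℍ} (h : τ.re = 1 / 2) : ∃ x : ℝ, j τ = x ∧ x ≤ 1728 := by
  obtain ⟨x, hx, hx2⟩ := j_sub_real (qParam_of_re_half h)
  refine ⟨1728 + x, by rw [hx]; push_cast; rfl, ?_⟩
  have h1 : 0 ≤ Real.exp (-(2 * Real.pi * τ.im)) * (-x) := by linarith
  have := nonneg_of_mul_nonneg_right h1 (Real.exp_pos _)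
  linarith

end real

section values

/-- `Φ₂(j(τ), y)` written out -/
theorem cubic (τ : ℍ) (y : ℂ) :
    y ^ 3 + (-j τ ^ 2 + 1488 * j τ - 162000) * y ^ 2 +
      (1488 * j τ ^ 2 + 40773375 * j τ + 8748000000) * y +
      (j τ ^ 3 - 162000 * j τ ^ 2 + 8748000000 * j τ - 157464000000000) =
    (y - j (scl 2 τ)) * ((y - j (lin 2 0 τ)) * (y - j (lin 2 1 τ))) := by
  rw [← phi2_j, phi2_eval]

/-- `Φ₃(j(τ), y)` written out -/
theorem quartic (τ : ℍ) (y : ℂ) :
    y ^ 4 + (-j τ ^ 3 + 2232 * j τ ^ 2 - 1069956 * j τ + 36864000) * y ^ 3 +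
      (2232 * j τ ^ 3 + 2587918086 * j τ ^ 2 + 8900222976000 * j τ + 452984832000000) * y ^ 2 +
      (-1069956 * j τ ^ 3 + 8900222976000 * j τ ^ 2 - 770845966336000000 * j τ +
        1855425871872000000000) * y +
      (j τ ^ 4 + 36864000 * j τ ^ 3 + 452984832000000 * j τ ^ 2 + 1855425871872000000000 * j τ) =
    (y - j (scl 3 τ)) * ((y - j (lin 3 0 τ)) * (y - j (lin 3 1 τ)) * (y - j (lin 3 2 τ))) := by
  rw [← phi3_j, phi3_eval]

/-- `E₆` is a modular form -/
theorem e6_smul (γ : SL(2, ℤ)) (τ : ℍ) :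
    ModularForm.E₆ (γ • τ) = (denom γ τ) ^ 6 * ModularForm.E₆ τ := by
  have := slash_form ModularForm.E₆ γ τ
  exact_mod_cast this

/-- `j(i) = 1728`. -/
theorem j_I (τ : ℍ) (h : (τ : ℂ) ^ 2 = -1) : j τ = 1728 := by
  have h1 : ModularGroup.S • τ = τ := by
    apply UpperHalfPlane.ext
    rw [UpperHalfPlane.modular_S_smul]
    show (-(τ : ℂ))⁻¹ = τ
    have h0 : (τ : ℂ) ≠ 0 := τ.ne_zero
    field_simp
    linear_combination -h
  have h2 := e6_smul ModularGroup.S τ
  rw [h1, ModularGroup.denom_S] at h2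
  have h3 : (τ : ℂ) ^ 6 = -1 := by
    calc (τ : ℂ) ^ 6 = ((τ : ℂ) ^ 2) ^ 3 := by ring
      _ = -1 := by rw [h]; norm_num
  rw [h3] at h2
  have h4 : ModularForm.E₆ τ = 0 := by
    have : 2 * ModularForm.E₆ τ = 0 := by linear_combination h2
    simpa using this
  have hd := H29.disc_fun τ
  rw [h4] at hd
  have h0 := dl_ne_zero τ
  change dl τ ≠ 0 at h0
  change (1728 : ℂ) * dl τ = _ at hd
  have h5 : j τ = ModularForm.E₄ τ ^ 3 / dl τ := rfl
  rw [h5, div_eq_iff h0]
  linear_combination -hd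

/-- `j(ρ) = 0` for `ρ = (1 + √-3)/2`. -/
theorem j_rho (τ : ℍ) (h : (τ : ℂ) ^ 2 - τ + 1 = 0) : j τ = 0 := by
  let γ : SL(2, ℤ) := ⟨!![1, -1; 1, 0], by rw [Matrix.det_fin_two_of]; norm_num⟩
  have h0 : (τ : ℂ) ≠ 0 := τ.ne_zero
  have h1 : γ • τ = τ := by
    apply UpperHalfPlane.ext
    rw [UpperHalfPlane.coe_specialLinearGroup_apply]
    simp only [γ, Matrix.of_apply, Matrix.cons_val', Matrix.cons_val_zero,
      Matrix.cons_val_fin_one, Matrix.cons_val_one, eq_intCast, Complex.ofReal_intCast,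
      algebraMap_int_eq]
    push_cast
    rw [div_eq_iff (by simpa using h0)]
    linear_combination -h
  have h2 := e4_smul γ τ
  have h3 : (denom γ τ : ℂ) = τ := by
    rw [ModularGroup.denom_apply]
    simp [γ]
  rw [h1, h3] at h2
  have h4 : (τ : ℂ) ^ 4 = -τ := by linear_combination ((τ : ℂ) ^ 2 + τ) * h
  rw [h4] at h2
  have h5 : (1 + (τ : ℂ)) ≠ 0 := by
    intro h6
    have h7 := congrArg Complex.im h6
    simp at h7
    exact τ.im_pos.ne' h7
  have h6 : e4 τ = 0 := by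
    have : (1 + (τ : ℂ)) * e4 τ = 0 := by linear_combination h2
    exact (mul_eq_zero.mp this).resolve_left h5
  rw [j_eq_jf, jf, h6]
  simp

theorem coe_lin_zero (r : ℕ) [NeZero r] (τ : ℍ) : ((lin r 0 τ : ℍ) : ℂ) = τ / r := by
  rw [coe_lin]; simp

theorem coe_lin_one (r : ℕ) [NeZero r] (τ : ℍ) : ((lin r 1 τ : ℍ) : ℂ) = (τ + 1) / r := by
  rw [coe_lin]; simp

/-- `j(2i) = 287496 = 66³`. -/
theorem j_two_I (τ : ℍ) (h : (τ : ℂ) ^ 2 = -4) : j τ = 66 ^ 3 := by
  set σ := lin 2 0 τ with hσ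
  have hσc : (σ : ℂ) = τ / 2 := by rw [hσ, coe_lin_zero]; simp
  have hσ2 : (σ : ℂ) ^ 2 = -1 := by rw [hσc]; linear_combination h / 4
  have h1 := j_I σ hσ2
  have h2 : j (scl 2 σ) = j τ := by
    congr 1
    apply UpperHalfPlane.ext
    rw [coe_scl, hσc]; push_cast; ring
  have h3 : j σ = j (lin 2 1 σ) := by
    refine j_eq_of_moebius 1 (-1) 1 0 (by norm_num) ?_
    rw [coe_lin_one]
    push_cast
    linear_combination hσ2 / 2
  have key := cubic σ
  rw [← h3, h2, h1] at key
  have ha := key (j τ)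
  have hb := key 287496
  have hc := key 0
  have e1 : (j τ - 1728) * (j τ - 287496) ^ 2 = 0 := by linear_combination ha
  rcases mul_eq_zero.mp e1 with e | e
  · exfalso
    have e2 : j τ = 1728 := by linear_combination e
    rw [e2] at hb hc
    have e3 : j (lin 2 0 σ) = 287496 := by
      linear_combination (1 / (285768 ^ 2) : ℂ) * hb
    rw [e3] at hc
    norm_num at hc
  · have e2 : j τ - 287496 = 0 := by simpa using e
    linear_combination e2

/-- `j(√-3) = 54000`. -/
theorem j_sqrt_neg_three (τ : ℍ) (h : (τ : ℂ) ^ 2 = -3) : j τ = 54000 := by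
  set σ := lin 2 1 τ with hσ
  have hσc : (σ : ℂ) = (τ + 1) / 2 := by rw [hσ, coe_lin_one]; simp
  have h1 := j_rho σ (by rw [hσc]; linear_combination h / 4)
  have h2 : j τ = j (scl 2 σ) := by
    refine j_eq_of_moebius 1 (-1) 0 1 (by norm_num) ?_
    rw [coe_scl, hσc]
    push_cast
    ring
  have ha := cubic σ (j τ)
  rw [← h2, h1] at ha
  have e1 : (j τ - 54000) ^ 3 = 0 := by linear_combination ha
  have e2 : j τ - 54000 = 0 := by simpa using e1
  linear_combination e2

/-- the relation between `j((1 + √-7)/2)` and `j(√-7)` -/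
theorem j_seven (τ : ℍ) (h : (τ : ℂ) ^ 2 - τ + 2 = 0) : j τ = (-15) ^ 3 ∧ j (scl 2 τ) = 255 ^ 3 := by
  have h1 : j τ = j (lin 2 0 τ) := by
    refine j_eq_of_moebius 1 (-1) 1 0 (by norm_num) ?_
    rw [coe_lin_zero]
    push_cast
    linear_combination h / 2
  have h2 : j (lin 2 1 τ) = j τ := by
    refine j_eq_of_moebius 1 (-1) 1 0 (by norm_num) ?_
    rw [coe_lin_one]
    push_cast
    linear_combination h / 2
  have key := cubic τ
  rw [h2, ← h1] at key
  have e0 := key 0
  have e1 := key 1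
  have e2 := key (-1)
  set x := j τ
  set w := j (scl 2 τ)
  have hw : w = x ^ 2 - 1490 * x + 162000 := by linear_combination (e1 + e2) / 2 - e0
  have hP : 2 * x ^ 3 - 4467 * x ^ 2 - 40449375 * x - 8748000000 = 0 := by
    linear_combination -(e1 - e2) / 2 - 2 * x * hw
  have hQ : x ^ 4 - 1489 * x ^ 3 + 8748000000 * x - 157464000000000 = 0 := by
    linear_combination e0 - x ^ 2 * hw
  have hx : x = -3375 := by
    linear_combination (1 / 225418066630848000000 : ℂ) *
      ((-11474529120000 + 1653600256 * x - 595579 * x ^ 2) * hP +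
        (-4194017643 + 1191158 * x) * hQ)
  refine ⟨by rw [hx]; norm_num, ?_⟩
  rw [hw, hx]
  norm_num

/-- `j((1 + √-7)/2) = -3375 = (-15)³`. -/
theorem j_half_sqrt_neg_seven (τ : ℍ) (h : (τ : ℂ) ^ 2 - τ + 2 = 0) : j τ = (-15) ^ 3 :=
  (j_seven τ h).1

/-- `j(√-7) = 16581375 = 255³`. -/
theorem j_sqrt_neg_seven (τ : ℍ) (h : (τ : ℂ) ^ 2 = -7) : j τ = 255 ^ 3 := by
  set σ := lin 2 1 τ with hσ
  have hσc : (σ : ℂ) = (τ + 1) / 2 := by rw [hσ, coe_lin_one]; simp
  have h1 := (j_seven σ (by rw [hσc]; linear_combination h / 4)).2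
  have h2 : j τ = j (scl 2 σ) := by
    refine j_eq_of_moebius 1 (-1) 0 1 (by norm_num) ?_
    rw [coe_scl, hσc]
    push_cast
    ring
  rw [h2, h1]

theorem re_eq_zero_of_sq {τ : ℍ} {n : ℝ} (h : (τ : ℂ) ^ 2 = (n : ℂ)) : τ.re = 0 := by
  have h1 := congrArg Complex.im h
  simp [pow_two] at h1
  have h2 : τ.im * τ.re = 0 := by linarith
  exact (mul_eq_zero.mp h2).resolve_left τ.im_pos.ne'

theorem re_eq_half_of_sq {τ : ℍ} {n : ℝ} (h : (τ : ℂ) ^ 2 - τ + n = 0) : τ.re = 1 / 2 := by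
  have h1 := congrArg Complex.im h
  simp [pow_two] at h1
  have h2 : τ.im * (2 * τ.re - 1) = 0 := by linarith
  have := (mul_eq_zero.mp h2).resolve_left τ.im_pos.ne'
  linarith

/-- `j(√-2) = 8000 = 20³`. -/
theorem j_sqrt_neg_two (τ : ℍ) (h : (τ : ℂ) ^ 2 = -2) : j τ = 20 ^ 3 := by
  have h1 : j (lin 2 0 τ) = j τ := by
    refine j_eq_of_moebius 0 (-1) 1 0 (by norm_num) ?_
    rw [coe_lin_zero]
    push_cast
    linear_combination h / 2
  have hre : τ.re = 0 := re_eq_zero_of_sq (n := -2) (by rw [h]; push_cast; rfl)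
  obtain ⟨x, hx, hx2⟩ := j_ge_of_re_zero hre
  obtain ⟨c, hc, hc2⟩ := j_le_of_re_half (τ := lin 2 1 τ) (by
    have : (lin 2 1 τ).re = ((lin 2 1 τ : ℍ) : ℂ).re := rfl
    rw [this, coe_lin_one]
    simp [hre])
  have key := cubic τ
  rw [h1, hc, hx] at key
  have e1 : ((x : ℂ) - 8000) * ((x : ℂ) - 1728) * ((x : ℂ) + 3375) ^ 2 = 0 := by
    linear_combination -(key x)
  have e2 : (x - 8000) * (x - 1728) * (x + 3375) ^ 2 = 0 := by exact_mod_cast e1
  have e3 : (x + 3375) ^ 2 ≠ 0 := by positivity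
  have e4 := (mul_eq_zero.mp e2).resolve_right e3
  rcases mul_eq_zero.mp e4 with e | e
  · rw [hx, show x = 8000 by linarith]
    push_cast
    norm_num
  · exfalso
    have hx3 : x = 1728 := by linarith
    subst hx3
    have f1 : ((c : ℂ) - 1728) * ((c : ℂ) - 287496) ^ 2 = 0 := by
      have := key c
      push_cast at this
      linear_combination this
    have f2 : (c - 1728) * (c - 287496) ^ 2 = 0 := by exact_mod_cast f1
    have f3 : (c - 287496) ^ 2 ≠ 0 := by
      have : c - 287496 < 0 := by linarith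
      exact pow_ne_zero 2 this.ne
    have f4 : c = 1728 := by
      have := (mul_eq_zero.mp f2).resolve_right f3
      linarith
    subst f4
    have g1 := key 287496
    have g2 := key 0
    push_cast at g1 g2
    have g3 : j (scl 2 τ) = 287496 := by
      linear_combination (1 / (285768 ^ 2) : ℂ) * g1
    rw [g3] at g2
    norm_num at g2

/-- a polynomial identity which cannot hold -/
theorem no_double_zero (u v : ℂ) (h : ∀ y : ℂ, y * (y + 12288000) ^ 3 = y * y * ((y - u) * (y - v))) :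
    False := by
  have h1 := h 1
  have h2 := h 2
  have h3 := h 3
  have h4 : (12288000 : ℂ) ^ 3 = 0 := by
    linear_combination 3 * h1 - 3 * h2 / 2 + h3 / 3
  norm_num at h4

/-- `j((1 + √-11)/2) = -32768 = (-32)³`. -/
theorem j_half_sqrt_neg_eleven (τ : ℍ) (h : (τ : ℂ) ^ 2 - τ + 3 = 0) : j τ = (-32) ^ 3 := by
  have h1 : j τ = j (lin 3 0 τ) := by
    refine j_eq_of_moebius 1 (-1) 1 0 (by norm_num) ?_
    rw [coe_lin_zero]
    push_cast
    linear_combination h / 3
  have h2 : j (lin 3 2 τ) = j τ := by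
    refine j_eq_of_moebius 1 (-1) 1 0 (by norm_num) ?_
    rw [coe_lin]
    push_cast
    linear_combination h / 3
  obtain ⟨x, hx, hx2⟩ := j_le_of_re_half (re_eq_half_of_sq (n := 3) (by rw [← h]; push_cast; rfl))
  have key := quartic τ
  rw [h2, ← h1, hx] at key
  have e1 : (x : ℂ) * ((x : ℂ) - 54000) * ((x : ℂ) - 8000) ^ 2 * ((x : ℂ) + 32768) ^ 2 = 0 := by
    linear_combination -(key x)
  have e2 : x * (x - 54000) * (x - 8000) ^ 2 * (x + 32768) ^ 2 = 0 := by exact_mod_cast e1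
  have e3 : (x - 8000) ^ 2 ≠ 0 := pow_ne_zero 2 (by intro h0; linarith)
  have e4 : x - 54000 ≠ 0 := by intro h0; linarith
  rcases mul_eq_zero.mp e2 with e | e
  · exfalso
    have e5 : x = 0 := by
      have := (mul_eq_zero.mp e).resolve_right e3
      exact (mul_eq_zero.mp this).resolve_right e4
    subst e5
    refine no_double_zero (j (scl 3 τ)) (j (lin 3 1 τ)) fun y => ?_
    have := key y
    push_cast at this
    linear_combination this
  · have e5 : x + 32768 = 0 := by simpa using e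
    rw [hx, show x = -32768 by linarith]
    push_cast
    norm_num

/-- `j((1 + 3√-3)/2) = -12288000`. -/
theorem j_half_three_sqrt_neg_three (τ : ℍ) (h : (τ : ℂ) ^ 2 - τ + 7 = 0) : j τ = -12288000 := by
  set σ := lin 3 1 τ with hσ
  have hσc : (σ : ℂ) = (τ + 1) / 3 := by rw [hσ, coe_lin_one]; simp
  have hσ2 : (σ : ℂ) ^ 2 - σ + 1 = 0 := by rw [hσc]; linear_combination h / 9
  have h1 := j_rho σ hσ2
  have h2 : j τ = j (scl 3 σ) := by
    refine j_eq_of_moebius 1 (-1) 0 1 (by norm_num) ?_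
    rw [coe_scl, hσc]
    push_cast
    ring
  have h3 : j σ = j (lin 3 1 σ) := by
    refine j_eq_of_moebius 2 (-1) 1 0 (by norm_num) ?_
    rw [coe_lin_one 3 σ]
    push_cast
    linear_combination hσ2 / 3
  have key := quartic σ
  rw [← h3, ← h2, h1] at key
  have e1 : j τ * (j τ + 12288000) ^ 3 = 0 := by linear_combination key (j τ)
  rcases mul_eq_zero.mp e1 with e | e
  · exfalso
    rw [e] at key
    refine no_double_zero (j (lin 3 0 σ)) (j (lin 3 2 σ)) fun y => ?_
    linear_combination key y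
  · have e5 : j τ + 12288000 = 0 := by simpa using e
    linear_combination e5

end values

end Fermat.Agent.Cor.CM
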