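import Fermat.Agent.Cor.MWCanon

/-!
# The Néron–Tate height and the regulator

For an elliptic curve `E` over a number field `K` and `P ∈ E(K)` let
`nt E P = lim h(2ⁿ P) / 4ⁿ`, `h` the naive height of the `x`-coordinate.

* `nt_parallelogram`, `neronTate` (a quadratic map over `ℤ`), `nt_zsmul`, `nt_sub_ht`, `nt_unique`;
* `nt_nonneg`, `nt_northcott`, `nt_eq_zero_iff` (zero exactly on the torsion points);
* `nt_gram_posDef`: the height pairing is positive definite on `E(K) ⊗ ℝ`;
* `exists_mw_basis`, `regulator`, `regulator_pos`: the regulator of `E(K)`, independent of the basis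
  of `E(K)` modulo torsion.
-/

namespace Fermat.Agent.Cor.MW

open Filter Topology

section Abstract

variable {G : Type*} [AddCommGroup G] {q : G → ℝ}

lemma Par.pairing_torsion (hq : Par q) {t : G} (ht : IsOfFinAddOrder t) (y : G) :
    pairing q t y = 0 := by
  obtain ⟨n, hn, hx⟩ := isOfFinAddOrder_iff_nsmul_eq_zero.mp ht
  have h1 : hq.toQuadraticMap.polarBilin (n • t) y = 0 := by rw [hx, map_zero]; rfl
  rw [map_nsmul] at h1
  have h2 : (n : ℝ) * hq.toQuadraticMap.polarBilin t y = 0 := by
    rw [← h1, LinearMap.smul_apply, nsmul_eq_mul]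
  have hn' : (n : ℝ) ≠ 0 := by exact_mod_cast hn.ne'
  rw [hq.pairing_eq, (mul_eq_zero.mp h2).resolve_left hn', zero_div]

lemma Par.pairing_add_left (hq : Par q) (x x' y : G) :
    pairing q (x + x') y = pairing q x y + pairing q x' y := by
  rw [hq.pairing_eq, hq.pairing_eq, hq.pairing_eq, map_add, LinearMap.add_apply, add_div]

lemma Par.pairing_zsmul_left (hq : Par q) (a : ℤ) (x y : G) :
    pairing q (a • x) y = a * pairing q x y := by
  rw [hq.pairing_eq, hq.pairing_eq, map_zsmul, LinearMap.smul_apply, zsmul_eq_mul, mul_div_assoc]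

lemma Par.pairing_sum_left (hq : Par q) {ι : Type*} (s : Finset ι) (f : ι → G) (y : G) :
    pairing q (∑ i ∈ s, f i) y = ∑ i ∈ s, pairing q (f i) y := by
  rw [hq.pairing_eq, map_sum, LinearMap.sum_apply, Finset.sum_div]
  exact Finset.sum_congr rfl fun i _ ↦ (hq.pairing_eq _ _).symm

/-- `b` is a basis of `G` modulo torsion. -/
structure IsModBasis {ι : Type*} [Fintype ι] (b : ι → G) : Prop where
  indep : LinearIndependent ℤ b
  span : ∀ x, ∃ m : ι → ℤ, IsOfFinAddOrder (x - ∑ i, m i • b i)

lemma mem_torsion_iff' (x : G) : x ∈ Submodule.torsion ℤ G ↔ IsOfFinAddOrder x := by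
  rw [← Submodule.mem_toAddSubgroup, Submodule.torsion_int]
  rfl

/-- The size of a basis modulo torsion is the rank. -/
theorem IsModBasis.card_eq {ι : Type*} [Fintype ι] {b : ι → G} (hb : IsModBasis b) :
    Fintype.card ι = Module.finrank ℤ G := by
  classical
  have hli : LinearIndependent ℤ (fun i ↦ (Submodule.torsion ℤ G).mkQ (b i)) := by
    rw [Fintype.linearIndependent_iff]
    intro m hm i
    have h1 : (Submodule.torsion ℤ G).mkQ (∑ i, m i • b i) = 0 := by
      rw [map_sum, ← hm]
      exact Finset.sum_congr rfl fun i _ ↦ map_zsmul _ _ _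
    rw [Submodule.mkQ_apply, Submodule.Quotient.mk_eq_zero, mem_torsion_iff',
      isOfFinAddOrder_iff_nsmul_eq_zero] at h1
    obtain ⟨n, hn, hx⟩ := h1
    have h3 : ∑ k, ((n : ℤ) * m k) • b k = 0 := by
      rw [← hx, Finset.smul_sum]
      exact Finset.sum_congr rfl fun k _ ↦ by rw [mul_smul, natCast_zsmul]
    exact (mul_eq_zero.mp (Fintype.linearIndependent_iff.mp hb.indep _ h3 i)).resolve_left
      (by exact_mod_cast hn.ne')
  have hsp : ⊤ ≤ Submodule.span ℤ (Set.range fun i ↦ (Submodule.torsion ℤ G).mkQ (b i)) := by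
    rintro y -
    obtain ⟨x, rfl⟩ := Submodule.mkQ_surjective _ y
    obtain ⟨m, hm⟩ := hb.span x
    have h1 : (Submodule.torsion ℤ G).mkQ x = ∑ i, m i • (Submodule.torsion ℤ G).mkQ (b i) := by
      rw [← mem_torsion_iff', ← Submodule.Quotient.mk_eq_zero, ← Submodule.mkQ_apply, map_sub,
        sub_eq_zero] at hm
      rw [hm, map_sum]
      exact Finset.sum_congr rfl fun i _ ↦ map_zsmul _ _ _
    rw [h1]
    exact Submodule.sum_mem _ fun i _ ↦ Submodule.smul_mem _ _ (Submodule.subset_span ⟨i, rfl⟩)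
  rw [← finrank_quotient_eq_of_le_torsion (le_refl (Submodule.torsion ℤ G)),
    Module.finrank_eq_card_basis (Module.Basis.mk hli hsp)]

variable {ι : Type*} [Fintype ι] [DecidableEq ι]

lemma isModBasis_mul {b b' : ι → G} (hb : IsModBasis b) {A A' : Matrix ι ι ℤ}
    (hA : ∀ i, IsOfFinAddOrder (b' i - ∑ j, A i j • b j))
    (hA' : ∀ i, IsOfFinAddOrder (b i - ∑ j, A' i j • b' j)) : A' * A = 1 := by
  have key : ∀ i, IsOfFinAddOrder (∑ k, ((1 - A' * A : Matrix ι ι ℤ) i k) • b k) := by
    intro i
    have h1 : ∑ k, ((1 - A' * A : Matrix ι ι ℤ) i k) • b k =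
        (b i - ∑ j, A' i j • b' j) + ∑ j, A' i j • (b' j - ∑ k, A j k • b k) := by
      simp only [Matrix.sub_apply, sub_smul, Finset.sum_sub_distrib, smul_sub, Finset.smul_sum,
        smul_smul, Matrix.mul_apply, Finset.sum_smul]
      rw [Finset.sum_comm (f := fun k j ↦ (A' i j * A j k) • b k)]
      have h2 : ∑ k, (1 : Matrix ι ι ℤ) i k • b k = b i := by
        simp [Matrix.one_apply]
      rw [h2]
      abel
    rw [h1]
    have hsum : ∀ s : Finset ι,
        IsOfFinAddOrder (∑ j ∈ s, A' i j • (b' j - ∑ k, A j k • b k)) := by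
      intro s
      classical
      induction s using Finset.induction_on with
      | empty => simp
      | insert a s ha ih =>
        rw [Finset.sum_insert ha]
        exact ((hA a).zsmul).add ih
    exact (hA' i).add (hsum _)
  ext i j
  obtain ⟨n, hn, hx⟩ := isOfFinAddOrder_iff_nsmul_eq_zero.mp (key i)
  have h3 : ∑ k, ((n : ℤ) * (1 - A' * A : Matrix ι ι ℤ) i k) • b k = 0 := by
    rw [← hx, Finset.smul_sum]
    exact Finset.sum_congr rfl fun k _ ↦ by rw [mul_smul, natCast_zsmul]
  have h4 := Fintype.linearIndependent_iff.mp hb.indep _ h3 j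
  have h5 : (1 - A' * A : Matrix ι ι ℤ) i j = 0 :=
    (mul_eq_zero.mp h4).resolve_left (by exact_mod_cast hn.ne')
  rw [Matrix.sub_apply] at h5
  linarith

/-- The determinant of the Gram matrix does not depend on the basis modulo torsion. -/
theorem Par.det_gram_eq (hq : Par q) {b b' : ι → G} (hb : IsModBasis b) (hb' : IsModBasis b') :
    (gram q b').det = (gram q b).det := by
  choose A hA using fun i ↦ hb.span (b' i)
  choose A' hA' using fun i ↦ hb'.span (b i)
  have hmul : (Matrix.of A' : Matrix ι ι ℤ) * Matrix.of A = 1 := isModBasis_mul hb hA hA'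
  have hdet : (Matrix.of A' : Matrix ι ι ℤ).det * (Matrix.of A : Matrix ι ι ℤ).det = 1 := by
    rw [← Matrix.det_mul, hmul, Matrix.det_one]
  have hunit : IsUnit (Matrix.of A : Matrix ι ι ℤ).det :=
    IsUnit.of_mul_eq_one _ (by rw [mul_comm]; exact hdet)
  have hsq : (Matrix.of A : Matrix ι ι ℤ).det ^ 2 = 1 := by
    rcases Int.isUnit_iff.mp hunit with h | h <;> rw [h] <;> norm_num
  have hpair : ∀ i y, pairing q (b' i) y = ∑ j, (A i j : ℝ) * pairing q (b j) y := by
    intro i y
    have h1 : b' i = (b' i - ∑ j, A i j • b j) + ∑ j, A i j • b j := by abel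
    rw [h1, hq.pairing_add_left, hq.pairing_torsion (hA i), zero_add, hq.pairing_sum_left]
    exact Finset.sum_congr rfl fun j _ ↦ hq.pairing_zsmul_left _ _ _
  set M : Matrix ι ι ℝ := (Matrix.of A : Matrix ι ι ℤ).map (Int.cast : ℤ → ℝ) with hM
  have hgram : gram q b' = M * gram q b * M.transpose := by
    ext i j
    rw [gram, Matrix.of_apply, hpair, Matrix.mul_assoc, Matrix.mul_apply]
    refine Finset.sum_congr rfl fun k _ ↦ ?_
    rw [pairing_comm, hpair, Matrix.mul_apply]
    congr 1
    refine Finset.sum_congr rfl fun l _ ↦ ?_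
    rw [gram, Matrix.of_apply, pairing_comm, Matrix.transpose_apply, mul_comm]
    rfl
  have hMdet : M.det ^ 2 = 1 := by
    have : M.det = (((Matrix.of A : Matrix ι ι ℤ).det : ℤ) : ℝ) := by
      rw [hM]
      exact ((Int.castRingHom ℝ).map_det _).symm
    rw [this]
    exact_mod_cast hsq
  rw [hgram, Matrix.det_mul, Matrix.det_mul, Matrix.det_transpose]
  linear_combination (gram q b).det * hMdet

end Abstract

section EllipticCurve

variable {K : Type*} [Field K] [NumberField K] [DecidableEq K] (E : WeierstrassCurve K)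

/-- **The Néron–Tate (canonical) height** of a point of `E(K)`. -/
noncomputable def nt (P : E.toAffine.Point) : ℝ := canon (ht E) P

variable [E.IsElliptic]

/-- The canonical height differs from the naive height by a bounded function. -/
theorem nt_sub_ht : ∃ C : ℝ, ∀ P : E.toAffine.Point, |nt E P - ht E P| ≤ C := by
  obtain ⟨C, hC⟩ := parallelogram E
  exact ⟨_, fun P ↦ ApproxPar.canon_sub_le (h := ht E) hC P⟩

/-- **The parallelogram law** for the canonical height. -/
theorem nt_par : Par (nt E) := by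
  obtain ⟨C, hC⟩ := parallelogram E
  exact ApproxPar.canon_par (h := ht E) hC

theorem nt_parallelogram (P Q : E.toAffine.Point) :
    nt E (P + Q) + nt E (P - Q) = 2 * (nt E P + nt E Q) := nt_par E P Q

/-- The canonical height as a quadratic map. -/
noncomputable def neronTate : QuadraticMap ℤ E.toAffine.Point ℝ := (nt_par E).toQuadraticMap

@[simp] lemma neronTate_apply (P : E.toAffine.Point) : neronTate E P = nt E P := rfl

/-- `ĥ(nP) = n² ĥ(P)`. -/
theorem nt_zsmul (n : ℤ) (P : E.toAffine.Point) : nt E (n • P) = (n : ℝ) ^ 2 * nt E P :=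
  (nt_par E).zsmul n P

/-- The canonical height is characterised by `ĥ(2P) = 4 ĥ(P)` and `ĥ = h + O(1)`. -/
theorem nt_unique {q : E.toAffine.Point → ℝ} (hq : ∀ P, q (2 • P) = 4 * q P) {D : ℝ}
    (hD : ∀ P, |q P - ht E P| ≤ D) : q = nt E := by
  obtain ⟨C, hC⟩ := parallelogram E
  exact ApproxPar.eq_canon (h := ht E) hC hq hD

theorem nt_nonneg (P : E.toAffine.Point) : 0 ≤ nt E P := by
  obtain ⟨C, hC⟩ := parallelogram E
  refine ge_of_tendsto' (ApproxPar.tendsto (h := ht E) hC P) fun n ↦ ?_
  exact div_nonneg (ht_nonneg E _) (by positivity)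

/-- The Northcott property of the canonical height. -/
theorem nt_northcott (B : ℝ) : {P : E.toAffine.Point | nt E P ≤ B}.Finite := by
  obtain ⟨C, hC⟩ := nt_sub_ht E
  have := northcott E
  refine (Northcott.finite_le (h := ht E) (B + C)).subset fun P hP ↦ ?_
  have h1 := (abs_le.mp (hC P)).1
  have h2 : nt E P ≤ B := hP
  change ht E P ≤ B + C
  linarith

/-- The canonical height vanishes exactly on the torsion points. -/
theorem nt_eq_zero_iff {P : E.toAffine.Point} : nt E P = 0 ↔ IsOfFinAddOrder P :=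
  (nt_par E).eq_zero_iff (nt_northcott E 0)

/-- There is a positive lower bound for the canonical height of the non-torsion points. -/
theorem exists_pos_le_nt : ∃ c : ℝ, 0 < c ∧ ∀ P : E.toAffine.Point, ¬ IsOfFinAddOrder P →
    c ≤ nt E P := by
  by_cases hne : ∃ P : E.toAffine.Point, ¬ IsOfFinAddOrder P
  · obtain ⟨P₀, hP₀⟩ := hne
    have hfin : {P : E.toAffine.Point | nt E P ≤ nt E P₀ ∧ ¬ IsOfFinAddOrder P}.Finite :=
      (nt_northcott E (nt E P₀)).subset fun P hP ↦ hP.1
    obtain ⟨Q, hQ, hmin⟩ := hfin.exists_minimalFor (nt E) _ ⟨P₀, le_rfl, hP₀⟩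
    have hQ0 : 0 < nt E Q := lt_of_le_of_ne (nt_nonneg E Q)
      fun h ↦ hQ.2 ((nt_eq_zero_iff E).mp h.symm)
    refine ⟨nt E Q, hQ0, fun P hP ↦ ?_⟩
    rcases le_total (nt E P) (nt E P₀) with h | h
    · rcases le_total (nt E P) (nt E Q) with h' | h'
      · exact hmin ⟨h, hP⟩ h'
      · exact h'
    · exact hQ.1.trans h
  · exact ⟨1, one_pos, fun P hP ↦ absurd ⟨P, hP⟩ hne⟩

/-- **The height pairing is positive definite** on `E(K) ⊗ ℝ`: the Gram matrix of a `ℤ`-linearly
independent family is positive definite. -/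
theorem nt_gram_posDef {ι : Type*} [Fintype ι] [DecidableEq ι] {b : ι → E.toAffine.Point}
    (hb : LinearIndependent ℤ b) : (gram (nt E) b).PosDef :=
  (nt_par E).gram_posDef (nt_nonneg E) (nt_northcott E) hb

/-- A basis of `E(K)` modulo torsion exists. -/
theorem exists_mw_basis : ∃ (r : ℕ) (b : Fin r → E.toAffine.Point), IsModBasis b := by
  classical
  obtain ⟨r, ι, _, p, hp, e, ⟨f⟩⟩ := mordellWeil_structure K E
  have : ∀ i, NeZero (p i ^ e i) := fun i ↦ ⟨pow_ne_zero _ (hp i).ne_zero⟩
  let b : Fin r → E.toAffine.Point := fun i ↦ f.symm (Finsupp.single i 1, 0)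
  have hsum : ∀ m : Fin r → ℤ, f (∑ i, m i • b i) = (Finsupp.equivFunOnFinite.symm m, 0) := by
    intro m
    rw [map_sum]
    have : ∀ i, f (m i • b i) = (Finsupp.single i (m i), 0) := by
      intro i
      rw [map_zsmul, AddEquiv.apply_symm_apply, Prod.smul_mk, Finsupp.smul_single, smul_zero,
        smul_eq_mul, mul_one]
    simp only [this]
    rw [Prod.ext_iff]
    constructor
    · rw [Prod.fst_sum]
      simp only
      rw [← Finsupp.univ_sum_single (Finsupp.equivFunOnFinite.symm m)]
      rfl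
    · rw [Prod.snd_sum]
      simp
  refine ⟨r, b, ?_, fun x ↦ ⟨(f x).1, ?_⟩⟩
  · rw [Fintype.linearIndependent_iff]
    intro m hm i
    have h1 := hsum m
    rw [hm, map_zero] at h1
    have h2 := congrArg (fun z : (Fin r →₀ ℤ) × _ ↦ z.1 i) h1
    simpa using h2.symm
  · have h3 : f (x - ∑ i, (f x).1 i • b i) = (0, (f x).2) := by
      rw [map_sub, hsum]
      ext
      · simp
      · simp
    have h4 : IsOfFinAddOrder (f (x - ∑ i, (f x).1 i • b i)) := by
      rw [h3]
      have : Finite (DirectSum ι fun i ↦ ZMod (p i ^ e i)) := by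
        have := Finite.of_equiv (∀ i, ZMod (p i ^ e i)) (DirectSum.addEquivProd _).symm.toEquiv
        exact this
      obtain ⟨n, hn, hz⟩ := isOfFinAddOrder_iff_nsmul_eq_zero.mp (isOfFinAddOrder_of_finite (f x).2)
      exact isOfFinAddOrder_iff_nsmul_eq_zero.mpr ⟨n, hn, by
        rw [Prod.smul_mk, hz, smul_zero]; rfl⟩
    have h5 := f.symm.toAddMonoidHom.isOfFinAddOrder h4
    rwa [AddEquiv.coe_toAddMonoidHom, AddEquiv.symm_apply_apply] at h5

/-- A basis of `E(K)` modulo torsion, indexed by `Fin r` with `r` the rank. -/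
theorem exists_mw_basis' :
    ∃ b : Fin (Module.finrank ℤ E.toAffine.Point) → E.toAffine.Point, IsModBasis b := by
  obtain ⟨r, b, hb⟩ := exists_mw_basis E
  have h := hb.card_eq
  rw [Fintype.card_fin] at h
  rw [← h]
  exact ⟨b, hb⟩

/-- A basis of `E(K)` modulo torsion. -/
noncomputable def mwBasis : Fin (Module.finrank ℤ E.toAffine.Point) → E.toAffine.Point :=
  (exists_mw_basis' E).choose

lemma mwBasis_spec : IsModBasis (mwBasis E) := (exists_mw_basis' E).choose_spec

/-- **The regulator** of `E(K)`. -/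
noncomputable def regulator : ℝ := (gram (nt E) (mwBasis E)).det

/-- The regulator is positive. -/
theorem regulator_pos : 0 < regulator E := (nt_gram_posDef E (mwBasis_spec E).indep).det_pos

/-- The regulator can be computed from any basis of `E(K)` modulo torsion. -/
theorem regulator_eq {ι : Type*} [Fintype ι] [DecidableEq ι] {b : ι → E.toAffine.Point}
    (hb : IsModBasis b) : (gram (nt E) b).det = regulator E := by
  have hcard : Fintype.card ι = Fintype.card (Fin (Module.finrank ℤ E.toAffine.Point)) := by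
    rw [hb.card_eq, Fintype.card_fin]
  let e : ι ≃ Fin (Module.finrank ℤ E.toAffine.Point) := Fintype.equivOfCardEq hcard
  have hb' : IsModBasis (mwBasis E ∘ e) := by
    refine ⟨(mwBasis_spec E).indep.comp _ e.injective, fun x ↦ ?_⟩
    obtain ⟨m, hm⟩ := (mwBasis_spec E).span x
    refine ⟨m ∘ e, ?_⟩
    have h1 : ∑ i, (m ∘ e) i • (mwBasis E ∘ e) i = ∑ i, m i • mwBasis E i :=
      e.sum_comp (fun i ↦ m i • mwBasis E i)
    rwa [h1]
  rw [(nt_par E).det_gram_eq hb' hb, regulator,
    ← Matrix.det_submatrix_equiv_self e (gram (nt E) (mwBasis E))]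
  rfl

end EllipticCurve

end Fermat.Agent.Cor.MW
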