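import Mathlib

/-!
# The theorem of Chao Ko: `x ^ 2 - 1 = y ^ p`

* `chao_ko`: for every prime `p ≥ 5` the equation `x ^ 2 - 1 = y ^ p` has only the integral
  solutions with `y = 0` or `y = -1` (Chao Ko 1964; the proof is that of Chein 1976);
* `chao_ko_exponent`: the same for all exponents `n` with a prime divisor `p ≥ 5`.

This file is not used by any of the statement files.
-/

set_option autoImplicit false

namespace Fermat.Agent.Cor.ChaoKo

/-- `X ^ p - Y ^ p = s ^ 2` with `X`, `Y` coprime and `p ∤ s`: then `X - Y` is a square. -/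
theorem sub_eq_sq {p : ℕ} (hp : p.Prime) {X Y s : ℤ} (hXY : IsCoprime X Y)
    (h : X ^ p - Y ^ p = s ^ 2) (hps : ¬ (p : ℤ) ∣ s) (hlt : Y < X) : ∃ c : ℤ, X - Y = c ^ 2 := by
  have hp' : Prime (p : ℤ) := Nat.prime_iff_prime_int.mp hp
  set T : ℤ := ∑ i ∈ Finset.range p, X ^ i * Y ^ (p - 1 - i) with hT
  have hmul : T * (X - Y) = X ^ p - Y ^ p := by
    rw [hT]
    exact (Commute.all X Y).geom_sum₂_mul p
  have hcop : IsCoprime (X - Y) T := by
    refine isCoprime_of_prime_dvd (fun h0 => ?_) fun z hz hz1 hz2 => ?_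
    · omega
    · have h1 := (dvd_geom_sum₂_iff_of_dvd_sub hz1).mp hz2
      rcases hz.dvd_or_dvd h1 with h2 | h2
      · -- `z ∣ p`
        have h3 : Associated z (p : ℤ) := (hz.irreducible.associated_of_dvd hp'.irreducible h2)
        have h4 : (p : ℤ) ∣ X - Y := h3.symm.dvd.trans hz1
        have h5 : (p : ℤ) ∣ s ^ 2 := by
          rw [← h, ← hmul]
          exact h4.mul_left T
        exact hps (hp'.dvd_of_dvd_pow h5)
      · have h3 : z ∣ Y := hz.dvd_of_dvd_pow h2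
        have h4 : z ∣ X := by
          have := dvd_add hz1 h3
          rwa [sub_add_cancel] at this
        exact hz.not_isUnit (hXY.isUnit_of_dvd' h4 h3)
  have hsq : (X - Y) * T = s ^ 2 := by rw [mul_comm, hmul, h]
  obtain ⟨c, hc | hc⟩ := Int.sq_of_isCoprime hcop hsq
  · exact ⟨c, hc⟩
  · exfalso
    have := sq_nonneg c
    omega

lemma pell_aux {a x y D : ℕ} (hD : (D : ℤ) = Pell.az a * Pell.az a - 1)
    (h : (x : ℤ) ^ 2 = 1 + ((a : ℤ) ^ 2 - 1) * (y : ℤ) ^ 2) : x * x - D * y * y = 1 := by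
  have e : Pell.az a = (a : ℤ) := rfl
  rw [e] at hD
  have h1 : x * x = 1 + D * y * y := by
    zify
    rw [hD]
    linear_combination h
  omega

/-- **Nagell's lemma**: `x ^ 2 - 1 = y ^ p` with `y > 0` even implies `p ∣ x`. -/
theorem nagell {p : ℕ} (hp : p.Prime) (hp3 : 3 ≤ p) {x y : ℤ} (hy : Even y) (hy0 : 0 < y)
    (he : x ^ 2 - 1 = y ^ p) : (p : ℤ) ∣ x := by
  by_contra hpx
  have hodd : Odd p := hp.odd_of_ne_two (by omega)
  obtain ⟨c, hc⟩ := sub_eq_sq hp (X := y) (Y := -1) (s := x) isCoprime_one_right.neg_right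
    (by rw [hodd.neg_one_pow]; linarith) hpx (by omega)
  obtain ⟨k, hk⟩ := hodd
  have hk1 : k ≠ 0 := by omega
  -- `a = |c|`
  have hy2 : 2 ≤ y := by
    obtain ⟨t, ht⟩ := hy
    omega
  have ha : 1 < c.natAbs := by
    by_contra hcon
    have h1 : |c| ≤ 1 := by
      rw [Int.abs_eq_natAbs]
      omega
    have h2 : c ^ 2 ≤ 1 := by
      rw [← sq_abs]
      nlinarith [abs_nonneg c]
    omega
  have hpell : ((x.natAbs : ℕ) : ℤ) ^ 2 =
      1 + (((c.natAbs : ℕ) : ℤ) ^ 2 - 1) * (((y ^ k).natAbs : ℕ) : ℤ) ^ 2 := by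
    rw [Int.natAbs_sq, Int.natAbs_sq, Int.natAbs_sq, ← hc]
    rw [hk] at he
    linear_combination he
  obtain ⟨n, -, hn⟩ := Pell.eq_pell ha (pell_aux (Pell.dz_val ha) hpell)
  -- `n` is even
  have hev : Even (y ^ k) := hy.pow_of_ne_zero hk1
  have h2 : 2 ∣ Pell.yn ha n := by
    rw [← hn]
    exact Int.natAbs_dvd_natAbs.mpr (even_iff_two_dvd.mp hev)
  have h2n : 2 ∣ n := (Nat.modEq_zero_iff_dvd.mp
    ((Pell.yn_modEq_two ha n).symm.trans (Nat.modEq_zero_iff_dvd.mpr h2)))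
  have hdvd := (Pell.y_dvd_iff ha 2 n).mpr h2n
  have hy2' : Pell.yn ha 2 = 2 * c.natAbs := by
    rw [Pell.yn_succ, Pell.yn_one, Pell.xn_one]; ring
  rw [hy2', ← hn] at hdvd
  have hcd : c ∣ y ^ k := by
    apply Int.natAbs_dvd_natAbs.mp
    exact (dvd_mul_left _ 2).trans hdvd
  have hcop : IsCoprime c y := ⟨c, -1, by linear_combination -hc⟩
  have hunit : IsUnit c := (hcop.pow_right (n := k)).isUnit_of_dvd' dvd_rfl hcd
  rw [Int.isUnit_iff_natAbs_eq] at hunit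
  omega

/-- the main step: `x ≡ 1 mod 4`, `p ∣ x` -/
theorem main_step {p : ℕ} (hp : p.Prime) (hp5 : 5 ≤ p) {x y : ℤ} (hx4 : x % 4 = 1) (hy : Even y)
    (hy0 : y ≠ 0) (hpx : (p : ℤ) ∣ x) (he : x ^ 2 - 1 = y ^ p) : False := by
  have hp' : Prime (p : ℤ) := Nat.prime_iff_prime_int.mp hp
  have hodd : Odd p := hp.odd_of_ne_two (by omega)
  obtain ⟨n, rfl⟩ : ∃ n, p = n + 3 := ⟨p - 3, by omega⟩
  obtain ⟨m, hm⟩ : ∃ m, x = 2 * m - 1 := ⟨(x + 1) / 2, by omega⟩
  have hmodd : m % 2 = 1 := by omega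
  obtain ⟨z, rfl⟩ := hy.two_dvd
  have hz0 : z ≠ 0 := by rintro rfl; simp at hy0
  -- `m (m - 1) = 2 ^ (p - 2) z ^ p`
  have h1 : m * (m - 1) = 2 ^ (n + 1) * z ^ (n + 3) := by
    rw [hm, mul_pow] at he
    have e : (2 : ℤ) ^ (n + 3) = 4 * 2 ^ (n + 1) := by ring
    rw [e] at he
    linarith
  have hcop2 : IsCoprime ((2 : ℤ) ^ (n + 1)) m := by
    apply IsCoprime.pow_left
    exact ⟨-(m / 2), 1, by omega⟩
  obtain ⟨t, ht⟩ : (2 : ℤ) ^ (n + 1) ∣ m - 1 :=
    hcop2.dvd_of_dvd_mul_left ⟨_, h1⟩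
  have h20 : (2 : ℤ) ^ (n + 1) ≠ 0 := pow_ne_zero _ two_ne_zero
  have h2 : m * t = z ^ (n + 3) := by
    apply mul_left_cancel₀ h20
    rw [← h1, ht]; ring
  have hcop : IsCoprime m t := ⟨1, -2 ^ (n + 1), by linear_combination ht⟩
  obtain ⟨⟨a, ha⟩, b, hb⟩ := Int.eq_pow_of_mul_eq_pow_odd hcop hodd h2
  have h3 : a ^ (n + 3) - 2 ^ (n + 1) * b ^ (n + 3) = 1 := by
    rw [← ha, ← hb]; linear_combination ht
  have h4 : (a ^ 2) ^ (n + 3) - (2 * b) ^ (n + 3) = (m - 2) ^ 2 := by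
    have e1 : (a ^ 2) ^ (n + 3) = m ^ 2 := by rw [ha]; ring
    have e2 : (2 * b) ^ (n + 3) = 4 * (m - 1) := by
      rw [ht, hb, mul_pow]; ring
    rw [e1, e2]; ring
  have hcop3 : IsCoprime (a ^ 2) (2 * b) := by
    apply IsCoprime.pow_left
    exact ⟨a ^ (n + 2), -(2 ^ n * b ^ (n + 2)), by linear_combination h3⟩
  have hpm : ¬ ((n + 3 : ℕ) : ℤ) ∣ m - 2 := by
    intro h
    have h5 : ((n + 3 : ℕ) : ℤ) ∣ 3 := by
      have := dvd_sub hpx (h.mul_left 2)
      have e : x - 2 * (m - 2) = 3 := by rw [hm]; ring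
      rwa [e] at this
    have h6 := Int.le_of_dvd (by norm_num) h5
    omega
  have hlt : 2 * b < a ^ 2 := by
    apply (hodd.strictMono_pow (R := ℤ)).lt_iff_lt.mp
    have h5 : 0 < (m - 2) ^ 2 := by
      have h6 : m - 2 ≠ 0 := by omega
      positivity
    linarith
  obtain ⟨c, hc⟩ := sub_eq_sq hp hcop3 h4 hpm hlt
  -- `a ^ 2 - 2 b = c ^ 2`, `b ≠ 0`, hence `|a| ≤ |b|`
  have hb0 : b ≠ 0 := by
    rintro rfl
    rw [hb, zero_pow (by omega), mul_zero] at h2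
    exact pow_ne_zero _ hz0 h2.symm
  have hab : |a| ≤ |b| := by
    have e1 : |a| ^ 2 = a ^ 2 := sq_abs a
    have e2 : |c| ^ 2 = c ^ 2 := sq_abs c
    have p1 := abs_nonneg a
    have p2 := abs_nonneg c
    have q1 := le_abs_self b
    have q2 := neg_abs_le b
    rcases lt_trichotomy |a| |c| with h | h | h
    · have h5 : |a| + 1 ≤ |c| := h
      nlinarith
    · exfalso
      apply hb0
      rw [h] at e1
      nlinarith
    · have h5 : |c| + 1 ≤ |a| := h
      nlinarith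
  have hpow : |a| ^ (n + 3) ≤ |b| ^ (n + 3) := pow_le_pow_left₀ (abs_nonneg a) hab _
  have hb1 : 1 ≤ |b| ^ (n + 3) := one_le_pow₀ (Int.one_le_abs hb0)
  have h8 : (2 : ℤ) ^ 3 ≤ 2 ^ (n + 1) := pow_le_pow_right₀ (by norm_num) (by omega)
  have h9 : 2 ^ (n + 1) * |b| ^ (n + 3) ≤ |a| ^ (n + 3) + 1 := by
    have e1 : 2 ^ (n + 1) * |b| ^ (n + 3) = |2 ^ (n + 1) * b ^ (n + 3)| := by
      rw [abs_mul, abs_pow, abs_pow]
      norm_num
    have e2 : (2 : ℤ) ^ (n + 1) * b ^ (n + 3) = a ^ (n + 3) - 1 := by linarith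
    rw [e1, e2, ← abs_pow]
    have := abs_sub (a ^ (n + 3)) 1
    simpa using this
  nlinarith

/-- the case `y` even, `y ≠ 0` -/
theorem even_step {p : ℕ} (hp : p.Prime) (hp5 : 5 ≤ p) {x y : ℤ} (hy : Even y)
    (hy0 : y ≠ 0) (he : x ^ 2 - 1 = y ^ p) : False := by
  have hodd : Odd p := hp.odd_of_ne_two (by omega)
  have hev : Even (y ^ p) := hy.pow_of_ne_zero hp.ne_zero
  have hpos : 0 < y := by
    by_contra hcon
    have h1 : y < 0 := by omega
    have h2 : y ^ p < 0 := hodd.pow_neg h1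
    have h3 := sq_nonneg x
    obtain ⟨t, ht⟩ := hev
    omega
  have hx : Odd x := by
    by_contra hx
    rw [Int.not_odd_iff_even] at hx
    have h1 : Even (x ^ 2) := hx.pow_of_ne_zero two_ne_zero
    rw [show x ^ 2 = y ^ p + 1 by linarith] at h1
    exact (Int.not_even_iff_odd.mpr hev.add_one) h1
  have hpx := nagell hp (by omega) hy hpos he
  obtain ⟨t, ht⟩ := hx
  rcases (show x % 4 = 1 ∨ (-x) % 4 = 1 by omega) with h | h
  · exact main_step hp hp5 h hy hy0 hpx he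
  · exact main_step hp hp5 h hy hy0 (dvd_neg.mpr hpx) (by rw [neg_sq]; exact he)

/-- two `p`-th powers with difference `2`, `p ≥ 3` odd -/
theorem eq_one_of_pow_sub_pow {p : ℕ} (hodd : Odd p) (hp3 : 3 ≤ p) {a b : ℤ}
    (hab : b ^ p - a ^ p = 2) : b ^ p = 1 ∧ a ^ p = -1 := by
  have hlt : a < b := by
    have : a ^ p < b ^ p := by linarith
    exact (hodd.strictMono_pow).lt_iff_lt.mp this
  -- `c ^ p + 2 < (c + 1) ^ p` for `c ≥ 1`
  have hbig : ∀ c : ℤ, 1 ≤ c → c ^ p + 2 < (c + 1) ^ p := by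
    intro c hc
    obtain ⟨q, rfl⟩ : ∃ q, p = q + 3 := ⟨p - 3, by omega⟩
    have h1 : c ^ q ≤ (c + 1) ^ q := pow_le_pow_left₀ (by omega) (by omega) q
    have h2 : (1 : ℤ) ≤ c ^ q := one_le_pow₀ hc
    have h3 : (0 : ℤ) ≤ (c + 1) ^ 3 := by positivity
    have h4 := mul_le_mul_of_nonneg_right h1 h3
    have e1 : c ^ (q + 3) = c ^ q * c ^ 3 := pow_add c q 3
    have e2 : (c + 1) ^ (q + 3) = (c + 1) ^ q * (c + 1) ^ 3 := pow_add _ q 3
    rw [e1, e2]
    have h5 : c ^ q * c ^ 3 + 2 < c ^ q * (c + 1) ^ 3 := by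
      have h6 : c ^ q * (c + 1) ^ 3 - c ^ q * c ^ 3 = c ^ q * (3 * c ^ 2 + 3 * c + 1) := by ring
      have h7 : 1 * (3 * c ^ 2 + 3 * c + 1) ≤ c ^ q * (3 * c ^ 2 + 3 * c + 1) :=
        mul_le_mul_of_nonneg_right h2 (by positivity)
      nlinarith
    linarith
  have h0 : ∀ c : ℤ, c ^ p ≠ 2 := by
    intro c h
    have hc : 0 < c := by
      by_contra hcon
      have : c ^ p ≤ 0 := hodd.pow_nonpos (by omega)
      omega
    rcases (show c = 1 ∨ 2 ≤ c by omega) with rfl | h2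
    · rw [one_pow] at h; omega
    · have h3 := hbig (c - 1) (by omega)
      have h4 : (1 : ℤ) ≤ (c - 1) ^ p := one_le_pow₀ (by omega)
      rw [sub_add_cancel] at h3
      omega
  by_cases ha0 : a = 0
  · rw [ha0, zero_pow (by omega), sub_zero] at hab
    exact absurd hab (h0 b)
  by_cases hb0 : b = 0
  · rw [hb0, zero_pow (by omega), zero_sub] at hab
    rw [← hodd.neg_pow] at hab
    exact absurd hab (h0 (-a))
  rcases lt_or_gt_of_ne ha0 with ha' | ha'
  · rcases lt_or_gt_of_ne hb0 with hb' | hb'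
    · exfalso
      have h1 := hbig (-b) (by omega)
      have h2 : (-b + 1) ^ p ≤ (-a) ^ p := by
        apply pow_le_pow_left₀ (by omega)
        omega
      rw [hodd.neg_pow] at h1 h2
      omega
    · have h1 : 1 ≤ b ^ p := one_le_pow₀ (by omega)
      have h2 : 1 ≤ (-a) ^ p := one_le_pow₀ (by omega)
      rw [hodd.neg_pow] at h2
      omega
  · exfalso
    have h1 := hbig a (by omega)
    have h2 : (a + 1) ^ p ≤ b ^ p := by
      apply pow_le_pow_left₀ (by omega)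
      omega
    omega

/-- the case `y` odd -/
theorem odd_step {p : ℕ} (hodd : Odd p) (hp3 : 3 ≤ p) {x y : ℤ} (hy : Odd y)
    (he : x ^ 2 - 1 = y ^ p) : y = -1 := by
  have hyodd : Odd (y ^ p) := hy.pow
  have hx : Even x := by
    by_contra hx
    rw [Int.not_even_iff_odd] at hx
    have h1 : Odd (x ^ 2) := hx.pow
    rw [← he] at hyodd
    have := h1.sub_odd (by decide : Odd (1 : ℤ))
    exact (Int.not_even_iff_odd.mpr hyodd) this
  obtain ⟨t, ht⟩ := hx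
  have hcop : IsCoprime (x - 1) (x + 1) := by
    refine ⟨t, 1 - t, ?_⟩
    rw [ht]; ring
  have hprod : (x - 1) * (x + 1) = y ^ p := by rw [← he]; ring
  obtain ⟨⟨a, ha⟩, b, hb⟩ := Int.eq_pow_of_mul_eq_pow_odd hcop hodd hprod
  have hab : b ^ p - a ^ p = 2 := by rw [← ha, ← hb]; ring
  obtain ⟨h3, h4⟩ := eq_one_of_pow_sub_pow hodd hp3 hab
  have h5 : y ^ p = (-1) ^ p := by
    rw [hodd.neg_one_pow, ← hprod, ha, hb, h3, h4]; norm_num
  exact (hodd.strictMono_pow).injective h5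

/-- **Theorem (Chao Ko).** For every prime `p ≥ 5` the equation `x ^ 2 - 1 = y ^ p` has only the
integral solutions `(± 1, 0)` and `(0, -1)`. -/
theorem chao_ko {p : ℕ} (hp : p.Prime) (hp5 : 5 ≤ p) {x y : ℤ} (he : x ^ 2 - 1 = y ^ p) :
    y = 0 ∨ y = -1 := by
  by_cases hy0 : y = 0
  · exact Or.inl hy0
  right
  by_cases hy : Even y
  · exact (even_step hp hp5 hy hy0 he).elim
  · exact odd_step (hp.odd_of_ne_two (by omega)) (by omega) (Int.not_even_iff_odd.mp hy) he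

/-- The same for all exponents `n` with a prime divisor `p ≥ 5`. -/
theorem chao_ko_exponent {n p : ℕ} (hp : p.Prime) (hp5 : 5 ≤ p) (hpn : p ∣ n) (hn : n ≠ 0)
    {x y : ℤ} (he : x ^ 2 - 1 = y ^ n) : y = 0 ∨ x = 0 := by
  obtain ⟨k, rfl⟩ := hpn
  have hk : k ≠ 0 := by rintro rfl; simp at hn
  rw [mul_comm p k, pow_mul] at he
  rcases chao_ko hp hp5 he with h | h
  · left
    exact pow_eq_zero_iff hk |>.mp h
  · right
    have hodd : Odd p := hp.odd_of_ne_two (by omega)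
    rw [h, hodd.neg_one_pow] at he
    have : x ^ 2 = 0 := by linarith
    exact pow_eq_zero_iff two_ne_zero |>.mp this

/-- **Two consecutive integers, a square and a `p`-th power** (`p ≥ 5` a prime): in positive
integers `x ^ 2 ≠ y ^ p + 1`. -/
theorem sq_ne_pow_add_one {p : ℕ} (hp : p.Prime) (hp5 : 5 ≤ p) {x y : ℕ} (hy : 0 < y) :
    x ^ 2 ≠ y ^ p + 1 := by
  intro h
  have he : (x : ℤ) ^ 2 - 1 = (y : ℤ) ^ p := by
    have : ((x ^ 2 : ℕ) : ℤ) = ((y ^ p + 1 : ℕ) : ℤ) := by rw [h]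
    push_cast at this
    linarith
  rcases chao_ko hp hp5 he with h | h <;> omega

end Fermat.Agent.Cor.ChaoKo
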