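import Mathlib
import Fermat.Agent.Cor.ChaoKo

/-!
# Lebesgue's theorem: `x ^ 2 + 1 = y ^ n`

* `lebesgue`: for `n ≥ 2` the equation `x ^ 2 + 1 = y ^ n` has only the integral solutions with
  `x = 0` (V.-A. Lebesgue 1850);
* `catalan_even_right`, `catalan_even_left`: Catalan's equation `x ^ m - y ^ n = 1` with an even
  exponent.

This file is not used by any of the statement files.
-/

set_option autoImplicit false

namespace Fermat.Agent.Cor.Lebesgue

open GaussianInt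

local notation "ℤi" => GaussianInt

/-- `(1 + c i) ^ m`, `m` odd, `c` even -/
theorem pow_odd {c : ℤ} (hc : Even c) (k : ℕ) : ∃ C D : ℤ, Odd D ∧
    (⟨1, c⟩ : ℤi) ^ (2 * k + 1) = ⟨1 + c ^ 2 * C, D * c⟩ := by
  induction k with
  | zero =>
    refine ⟨0, 1, odd_one, ?_⟩
    rw [mul_zero, zero_add, pow_one]
    ext <;> simp
  | succ k ih =>
    obtain ⟨C, D, hD, h⟩ := ih
    refine ⟨C * (1 - c ^ 2) - 1 - 2 * D, 2 * (1 + c ^ 2 * C) + D * (1 - c ^ 2), ?_, ?_⟩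
    · have h1 : Odd (1 - c ^ 2) := odd_one.sub_even (hc.pow_of_ne_zero two_ne_zero)
      exact (even_two_mul _).add_odd (hD.mul h1)
    · have e : 2 * (k + 1) + 1 = (2 * k + 1) + 2 := by ring
      rw [e, pow_add, h, pow_two (⟨1, c⟩ : ℤi)]
      ext
      · simp; ring
      · simp; ring

/-- `(1 + c i) ^ q`, `q > 0` even, `c` even: `q = 2 ^ (s + 1) m` with `m` odd -/
theorem pow_even {e : ℤ} (k s : ℕ) : ∃ A B : ℤ, Odd A ∧ Odd B ∧
    (⟨1, 2 * e⟩ : ℤi) ^ (2 ^ (s + 1) * (2 * k + 1)) =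
      ⟨1 + (2 * e) ^ 2 * 2 ^ s * A, 2 ^ (s + 1) * B * (2 * e)⟩ := by
  induction s with
  | zero =>
    obtain ⟨C, D, hD, h⟩ := pow_odd (even_two_mul e) k
    refine ⟨2 * C + (2 * e) ^ 2 * C ^ 2 - D ^ 2, (1 + (2 * e) ^ 2 * C) * D, ?_, ?_, ?_⟩
    · have h1 : Even (2 * C + (2 * e) ^ 2 * C ^ 2) :=
        (even_two_mul C).add (((even_two_mul e).pow_of_ne_zero two_ne_zero).mul_right _)
      exact h1.sub_odd hD.pow
    · have h1 : Odd (1 + (2 * e) ^ 2 * C) :=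
        odd_one.add_even (((even_two_mul e).pow_of_ne_zero two_ne_zero).mul_right _)
      exact h1.mul hD
    · rw [zero_add, pow_one, mul_comm 2 (2 * k + 1), pow_mul, h,
        pow_two (⟨1 + (2 * e) ^ 2 * C, D * (2 * e)⟩ : ℤi)]
      ext
      · simp; ring
      · simp; ring
  | succ s ih =>
    obtain ⟨A, B, hA, hB, h⟩ := ih
    refine ⟨A + 2 * (e ^ 2 * 2 ^ s * A ^ 2) - 2 * (2 ^ s * B ^ 2),
      (1 + (2 * e) ^ 2 * 2 ^ s * A) * B, ?_, ?_, ?_⟩
    · exact (hA.add_even (even_two_mul _)).sub_even (even_two_mul _)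
    · have h1 : Odd (1 + (2 * e) ^ 2 * 2 ^ s * A) :=
        odd_one.add_even ((((even_two_mul e).pow_of_ne_zero two_ne_zero).mul_right _).mul_right _)
      exact h1.mul hB
    · have e1 : 2 ^ (s + 1 + 1) * (2 * k + 1) = (2 ^ (s + 1) * (2 * k + 1)) * 2 := by ring
      rw [e1, pow_mul, h,
        pow_two (⟨1 + (2 * e) ^ 2 * 2 ^ s * A, 2 ^ (s + 1) * B * (2 * e)⟩ : ℤi)]
      ext
      · simp; ring
      · simp; ring

/-- the real part of `(1 + c i) ^ n` is `1` only for `c = 0` (`c` even, `n ≥ 3` odd) -/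
theorem re_ne {e : ℤ} (he : e ≠ 0) {n : ℕ} (hn : Odd n) (hn3 : 3 ≤ n) :
    ((⟨1, 2 * e⟩ : ℤi) ^ n).re ≠ 1 := by
  intro h
  obtain ⟨q, hq⟩ := hn
  have hq0 : q ≠ 0 := by omega
  obtain ⟨s, m, hm, hqm⟩ := Nat.exists_eq_two_pow_mul_odd hq0
  obtain ⟨k, hk⟩ := hm
  obtain ⟨A, B, hA, hB, hAB⟩ := pow_even (e := e) k s
  have e1 : n = 2 ^ (s + 1) * (2 * k + 1) + 1 := by
    rw [hq, hqm, hk]; ring
  rw [e1, pow_succ, hAB] at h
  simp only [Zsqrtd.re_mul] at h
  have h0 : (2 * e) ^ 2 * 2 ^ s ≠ 0 :=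
    mul_ne_zero (pow_ne_zero 2 (mul_ne_zero two_ne_zero he)) (pow_ne_zero s two_ne_zero)
  have h1 : (2 * e) ^ 2 * 2 ^ s * (A - 2 * B) = 0 := by linear_combination h
  have h2 := (mul_eq_zero.mp h1).resolve_left h0
  obtain ⟨a, ha⟩ := hA
  omega

/-- the powers of `a + b i` have imaginary part divisible by `b` -/
theorem dvd_im (a b : ℤ) (n : ℕ) : b ∣ ((⟨a, b⟩ : ℤi) ^ n).im := by
  induction n with
  | zero => simp
  | succ n ih =>
    rw [pow_succ, Zsqrtd.im_mul]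
    exact dvd_add (dvd_mul_left _ _) (ih.mul_right _)

/-- the units of `ℤ[i]` are fourth roots of unity -/
theorem unit_pow_four (u : ℤiˣ) : (u : ℤi) ^ 4 = 1 := by
  have h1 : (u : ℤi).norm = 1 := (Zsqrtd.norm_eq_one_iff' (by norm_num) (u : ℤi)).mpr u.isUnit
  rw [Zsqrtd.norm_def] at h1
  generalize (u : ℤi) = z at h1
  obtain ⟨a, b⟩ := z
  simp only at h1
  have h2 : a * a + b * b = 1 := by linarith
  have ha : -1 ≤ a ∧ a ≤ 1 := by constructor <;> nlinarith [mul_self_nonneg b]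
  have hb : -1 ≤ b ∧ b ≤ 1 := by constructor <;> nlinarith [mul_self_nonneg a]
  have ha' : a = -1 ∨ a = 0 ∨ a = 1 := by omega
  have hb' : b = -1 ∨ b = 0 ∨ b = 1 := by omega
  rcases ha' with rfl | rfl | rfl <;> rcases hb' with rfl | rfl | rfl <;>
    first
      | (exfalso; norm_num at h1; done)
      | decide

/-- **Lebesgue's theorem**, odd exponents. -/
theorem lebesgue_odd {n : ℕ} (hn : Odd n) (hn3 : 3 ≤ n) {x y : ℤ} (he : x ^ 2 + 1 = y ^ n) :
    x = 0 := by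
  -- `x` is even
  have hx : Even x := by
    by_contra hx
    rw [Int.not_even_iff_odd] at hx
    obtain ⟨t, ht⟩ := hx
    have hy : Even y := by
      have h1 : Even (y ^ n) := by
        rw [← he, ht]
        exact ⟨2 * t ^ 2 + 2 * t + 1, by ring⟩
      rw [Int.even_pow] at h1
      exact h1.1
    obtain ⟨s, hs⟩ := hy.two_dvd
    obtain ⟨m, rfl⟩ : ∃ m, n = m + 3 := ⟨n - 3, by omega⟩
    have h2 : x ^ 2 + 1 = 4 * (2 ^ (m + 1) * s ^ (m + 3)) := by
      rw [he, hs, mul_pow]; ring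
    rw [ht] at h2
    have h3 : (2 * t + 1) ^ 2 + 1 = 4 * (t ^ 2 + t) + 2 := by ring
    omega
  obtain ⟨t, ht⟩ := hx.two_dvd
  -- the factorisation in `ℤ[i]`
  have hmul : (⟨x, 1⟩ : ℤi) * ⟨x, -1⟩ = (y : ℤi) ^ n := by
    have : ((y ^ n : ℤ) : ℤi) = (y : ℤi) ^ n := by push_cast; ring
    rw [← this, ← he]
    ext
    · rw [Zsqrtd.re_mul, Zsqrtd.re_intCast]; ring
    · rw [Zsqrtd.im_mul, Zsqrtd.im_intCast]; ring
  have hcop : IsCoprime (⟨x, 1⟩ : ℤi) ⟨x, -1⟩ := by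
    refine ⟨⟨x, -1 + 2 * t ^ 2⟩, ⟨0, -(2 * t ^ 2)⟩, ?_⟩
    ext
    · simp [ht]; ring
    · simp [ht]; ring
  obtain ⟨d, u, hd⟩ := exists_associated_pow_of_mul_eq_pow' hcop hmul
  obtain ⟨q, hq⟩ := id hn
  -- `x + i = z ^ n`
  obtain ⟨⟨a, b⟩, hz⟩ : ∃ z : ℤi, z ^ n = ⟨x, 1⟩ := by
    refine ⟨d * (u : ℤi) ^ n, ?_⟩
    rw [mul_pow, ← hd]
    congr 1
    have e : n * n = 4 * (q ^ 2 + q) + 1 := by rw [hq]; ring
    rw [← pow_mul, e, pow_succ, pow_mul, unit_pow_four, one_pow, one_mul]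
  have hb : b = 1 ∨ b = -1 := by
    have h1 := dvd_im a b n
    rw [hz] at h1
    exact Int.isUnit_iff.mp (isUnit_of_dvd_one h1)
  have hbb : b * b = 1 := by rcases hb with rfl | rfl <;> norm_num
  -- `a` is even
  have ha : Even a := by
    by_contra ha
    rw [Int.not_even_iff_odd] at ha
    have h1 : (a * a - (-1) * b * b) ^ n = x * x - (-1) * 1 * 1 := by
      have h2 := congrArg (Zsqrtd.normMonoidHom (d := -1)) hz
      rw [map_pow] at h2
      exact h2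
    have h2 : Even ((a * a - (-1) * b * b) ^ n) := by
      apply Even.pow_of_ne_zero _ (by omega)
      have e : a * a - (-1) * b * b = a * a + 1 := by linear_combination hbb
      rw [e]
      exact (ha.mul ha).add_one
    rw [h1, ht] at h2
    obtain ⟨w, hw⟩ := h2
    have e : 2 * t * (2 * t) - (-1) * 1 * 1 = 4 * (t * t) + 1 := by ring
    omega
  obtain ⟨e, he'⟩ := ha.two_dvd
  -- `z = b i (1 + 2 e' i)`
  have hfac : (⟨a, b⟩ : ℤi) = ⟨0, b⟩ * ⟨1, 2 * (-(e * b))⟩ := by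
    ext
    · rw [Zsqrtd.re_mul]
      simp only
      linear_combination he' - 2 * e * hbb
    · rw [Zsqrtd.im_mul]
      simp
  have hpow : (⟨0, b⟩ : ℤi) ^ n = ⟨0, (-1) ^ q * b⟩ := by
    have h1 : (⟨0, b⟩ : ℤi) ^ 2 = ((-1 : ℤ) : ℤi) := by
      rw [pow_two]
      ext
      · rw [Zsqrtd.re_mul, Zsqrtd.re_intCast]
        simp only
        linear_combination -hbb
      · rw [Zsqrtd.im_mul, Zsqrtd.im_intCast]
        simp
    rw [hq, pow_succ, pow_mul, h1, ← Int.cast_pow]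
    ext
    · rw [Zsqrtd.re_mul, Zsqrtd.re_intCast, Zsqrtd.im_intCast]
      simp
    · rw [Zsqrtd.im_mul, Zsqrtd.re_intCast, Zsqrtd.im_intCast]
      simp
  by_cases he0 : e = 0
  · rw [he', he0, mul_zero, hpow] at hz
    exact (congrArg Zsqrtd.re hz).symm
  · exfalso
    have heb : -(e * b) ≠ 0 := by
      apply neg_ne_zero.mpr
      apply mul_ne_zero he0
      rintro rfl
      norm_num at hbb
    apply re_ne heb hn hn3
    obtain ⟨C, D, -, hCD⟩ := pow_odd (even_two_mul (-(e * b))) q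
    rw [← hq] at hCD
    rw [hfac, mul_pow, hpow, hCD] at hz
    have h1 := congrArg Zsqrtd.im hz
    rw [Zsqrtd.im_mul] at h1
    simp only [zero_mul, zero_add] at h1
    rw [hCD]
    have h4 : 1 + (2 * -(e * b)) ^ 2 * C = 1 + 4 * ((e * b) ^ 2 * C) := by ring
    rw [h4] at h1 ⊢
    generalize (e * b) ^ 2 * C = K at h1 ⊢
    have h5 : (-1) ^ q * b = 1 ∨ (-1) ^ q * b = -1 := by
      rcases neg_one_pow_eq_or ℤ q with h2 | h2 <;> rcases hb with h3 | h3 <;>
        rw [h2, h3] <;> norm_num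
    rcases h5 with h5 | h5
    · rw [h5, one_mul] at h1
      exact h1
    · exfalso
      rw [h5] at h1
      omega

/-- **Theorem (V.-A. Lebesgue 1850).** For `n ≥ 2` the equation `x ^ 2 + 1 = y ^ n` has only the
integral solutions with `x = 0`. -/
theorem lebesgue {n : ℕ} (hn : 2 ≤ n) {x y : ℤ} (he : x ^ 2 + 1 = y ^ n) : x = 0 := by
  rcases Nat.even_or_odd n with h | h
  · obtain ⟨k, rfl⟩ := h
    have h1 : (y ^ k - x) * (y ^ k + x) = 1 := by
      rw [pow_add] at he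
      linear_combination -he
    have h2 : y ^ k - x = y ^ k + x := by
      rcases Int.mul_eq_one_iff_eq_one_or_neg_one.mp h1 with h2 | h2 <;> rw [h2.1, h2.2]
    omega
  · refine lebesgue_odd h ?_ he
    obtain ⟨q, hq⟩ := h
    omega

/-- in positive integers `x ^ 2 + 1` is not a perfect power -/
theorem sq_add_one_ne_pow {n : ℕ} (hn : 2 ≤ n) {x y : ℕ} (hx : 0 < x) : x ^ 2 + 1 ≠ y ^ n := by
  intro h
  have he : (x : ℤ) ^ 2 + 1 = (y : ℤ) ^ n := by exact_mod_cast h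
  have := lebesgue hn he
  omega

/-- **Catalan's equation** `x ^ m - y ^ n = 1`, `n` even. -/
theorem catalan_even_right {m n : ℕ} (hm : 2 ≤ m) (hn : Even n) {x y : ℕ} (hy : 0 < y) :
    x ^ m ≠ y ^ n + 1 := by
  intro h
  obtain ⟨k, rfl⟩ := hn.two_dvd
  rw [mul_comm 2 k, pow_mul] at h
  exact sq_add_one_ne_pow hm (pow_pos hy k) h.symm

/-- **Catalan's equation** `x ^ m - y ^ n = 1`, `m` even, `n` not a power of `3`. -/
theorem catalan_even_left {m n p : ℕ} (hm : Even m) (hp : p.Prime) (hp5 : 5 ≤ p) (hpn : p ∣ n)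
    {x y : ℕ} (hy : 0 < y) : x ^ m ≠ y ^ n + 1 := by
  intro h
  obtain ⟨k, rfl⟩ := hm.two_dvd
  obtain ⟨l, rfl⟩ := hpn
  rw [mul_comm 2 k, pow_mul, mul_comm p l, pow_mul y] at h
  exact ChaoKo.sq_ne_pow_add_one hp hp5 (pow_pos hy l) h

/-- **Catalan's equation with an even exponent**: if `x ^ m = y ^ n + 1` in positive integers with
`m, n ≥ 2` and `m` or `n` even, then `m` is even and `n` is a power of `3`. -/
theorem catalan_even {m n : ℕ} (hm : 2 ≤ m) (hn : 2 ≤ n) (h2 : Even m ∨ Even n) {x y : ℕ}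
    (hy : 0 < y) (h : x ^ m = y ^ n + 1) : Even m ∧ ∃ k, n = 3 ^ k := by
  have hn' : ¬ Even n := fun hn' => catalan_even_right hm hn' hy h
  have hm' := h2.resolve_right hn'
  refine ⟨hm', ?_⟩
  refine ⟨n.primeFactorsList.length, Nat.eq_prime_pow_of_unique_prime_dvd (by omega) ?_⟩
  intro d hd hdn
  by_contra hd3
  have hd2 : d ≠ 2 := by
    rintro rfl
    exact hn' (even_iff_two_dvd.mpr hdn)
  have hd4 : d ≠ 4 := by
    rintro rfl
    norm_num at hd
  have := hd.two_le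
  exact catalan_even_left hm' hd (by omega) hdn hy h

end Fermat.Agent.Cor.Lebesgue
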