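import Mathlib
import Fermat.Agent.Cor.Lebesgue

/-!
# Euler's theorem on `x ^ 2 = y ^ 3 + 1` and Catalan's equation with an even exponent

* `descent`: `r ^ 4 - 3 r ^ 2 s ^ 2 + 3 s ^ 4 = t ^ 2` with `r`, `s` coprime and `s > 0` only for
  `r = s = 1` (infinite descent);
* `euler`: in integers `x ^ 2 = y ^ 3 + 1` only for `y ∈ {-1, 0, 2}`;
* `catalan`: `x ^ m = y ^ n + 1` in positive integers with `m, n ≥ 2`, `m` or `n` even, only for
  `3 ^ 2 = 2 ^ 3 + 1`.

This file is not used by any of the statement files.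
-/

set_option autoImplicit false

namespace Fermat.Agent.Cor.CatalanEven

theorem split3_aux {n a b v : ℕ} (hn : n ≠ 0) (hab : Nat.Coprime a b) (hb : ¬ 3 ∣ b)
    (h : a * b = 3 * v ^ n) : ∃ f g : ℕ, a = 3 * f ^ n ∧ b = g ^ n ∧ v = f * g := by
  have hc : Nat.Coprime 3 b := (Nat.Prime.coprime_iff_not_dvd Nat.prime_three).mpr hb
  obtain ⟨a', rfl⟩ : 3 ∣ a := hc.dvd_of_dvd_mul_right (h ▸ dvd_mul_right _ _)
  have h' : a' * b = v ^ n := by
    apply Nat.eq_of_mul_eq_mul_left (by norm_num : 0 < 3)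
    rw [← h, mul_assoc]
  have hab' : Nat.Coprime a' b := Nat.Coprime.coprime_mul_left hab
  obtain ⟨f, hf⟩ := exists_eq_pow_of_mul_eq_pow (Nat.isUnit_iff.mpr hab') h'
  obtain ⟨g, hg⟩ := exists_eq_pow_of_mul_eq_pow (Nat.isUnit_iff.mpr hab'.symm)
    (by rw [mul_comm]; exact h')
  refine ⟨f, g, by rw [hf], hg, ?_⟩
  rw [hf, hg, ← mul_pow] at h'
  exact (Nat.pow_left_injective hn h').symm

/-- coprime factors of `3 v ^ n` -/
theorem split3 {n a b v : ℕ} (hn : n ≠ 0) (hab : Nat.Coprime a b) (h : a * b = 3 * v ^ n) :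
    (∃ f g : ℕ, a = 3 * f ^ n ∧ b = g ^ n ∧ v = f * g) ∨
      (∃ f g : ℕ, b = 3 * f ^ n ∧ a = g ^ n ∧ v = f * g) := by
  by_cases hb : 3 ∣ b
  · have ha : ¬ 3 ∣ a := fun ha =>
      Nat.not_coprime_of_dvd_of_dvd (by norm_num : 1 < 3) ha hb hab
    exact Or.inr (split3_aux hn hab.symm ha (by rw [mul_comm]; exact h))
  · exact Or.inl (split3_aux hn hab hb h)

/-- the second step -/
theorem second_step {a b B : ℕ} (hab : Nat.Coprime a b) (h : a * b = 3 * B ^ 4) :
    ∃ C D : ℕ, Nat.Coprime C D ∧ B = C * D ∧ a + b = C ^ 4 + 3 * D ^ 4 := by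
  rcases split3 (by norm_num) hab h with ⟨f, g, h1, h2, h3⟩ | ⟨f, g, h1, h2, h3⟩
  · refine ⟨g, f, ?_, by rw [h3, mul_comm], by rw [h1, h2, add_comm]⟩
    rw [h1, h2] at hab
    have := (Nat.Coprime.coprime_mul_left hab)
    exact ((Nat.coprime_pow_right_iff (by norm_num) _ _).mp
      ((Nat.coprime_pow_left_iff (by norm_num) _ _).mp this)).symm
  · refine ⟨g, f, ?_, by rw [h3, mul_comm], by rw [h1, h2]⟩
    rw [h1, h2] at hab
    have := (Nat.Coprime.coprime_mul_left_right hab)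
    exact (Nat.coprime_pow_right_iff (by norm_num) _ _).mp
      ((Nat.coprime_pow_left_iff (by norm_num) _ _).mp this)

theorem not_three_dvd {r s : ℕ} {t : ℤ} (hrs : Nat.Coprime r s)
    (h : (r : ℤ) ^ 4 - 3 * r ^ 2 * s ^ 2 + 3 * s ^ 4 = t ^ 2) : ¬ 3 ∣ r := by
  rintro ⟨k, rfl⟩
  have h3 : Prime (3 : ℤ) := Int.prime_three
  have h1 : (3 : ℤ) ∣ t ^ 2 := by
    rw [← h]
    push_cast
    exact ⟨27 * k ^ 4 - 9 * k ^ 2 * s ^ 2 + s ^ 4, by ring⟩
  obtain ⟨t', rfl⟩ := h3.dvd_of_dvd_pow h1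
  push_cast at h
  have h2 : (3 : ℤ) ∣ (s : ℤ) ^ 4 :=
    ⟨t' ^ 2 - 9 * k ^ 4 + 3 * k ^ 2 * s ^ 2, by
      apply mul_left_cancel₀ (by norm_num : (3 : ℤ) ≠ 0)
      linear_combination h⟩
  have h4 : 3 ∣ s := by exact_mod_cast h3.dvd_of_dvd_pow h2
  exact Nat.not_coprime_of_dvd_of_dvd (by norm_num : 1 < 3) (dvd_mul_right 3 k) h4 hrs

theorem odd_sq {x : ℕ} (hx : Odd x) : ∃ i : ℤ, (x : ℤ) ^ 2 = 8 * i + 1 := by
  obtain ⟨k, rfl⟩ := hx
  obtain ⟨i, hi⟩ := Int.even_mul_succ_self (k : ℤ)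
  exact ⟨i, by push_cast; linear_combination 4 * hi⟩

theorem odd_left {r s : ℕ} {t : ℤ} (hrs : Nat.Coprime r s)
    (h : (r : ℤ) ^ 4 - 3 * r ^ 2 * s ^ 2 + 3 * s ^ 4 = t ^ 2) : Odd r := by
  by_contra hr
  rw [Nat.not_odd_iff_even] at hr
  obtain ⟨k, rfl⟩ := hr.two_dvd
  have hs : Odd s := by
    by_contra hs
    rw [Nat.not_odd_iff_even] at hs
    exact Nat.not_coprime_of_dvd_of_dvd (by norm_num : 1 < 2) (dvd_mul_right 2 k) hs.two_dvd hrs
  obtain ⟨i, hi⟩ := odd_sq hs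
  have h1 : t ^ 2 = 4 * (4 * k ^ 4 - 3 * k ^ 2 * s ^ 2 + 48 * i ^ 2 + 12 * i) + 3 := by
    rw [← h]
    push_cast
    linear_combination (3 * (s : ℤ) ^ 2 + 3 * (8 * i + 1)) * hi
  rcases Int.even_or_odd t with ht | ht
  · obtain ⟨w, hw⟩ := ht
    have : t ^ 2 = 4 * w ^ 2 := by rw [hw]; ring
    omega
  · obtain ⟨w, hw⟩ := ht
    have : t ^ 2 = 4 * (w ^ 2 + w) + 1 := by rw [hw]; ring
    omega

/-- the first step -/
theorem first_step {r s : ℕ} {t : ℤ} (hs : 0 < s) (hrs : Nat.Coprime r s)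
    (h : (r : ℤ) ^ 4 - 3 * r ^ 2 * s ^ 2 + 3 * s ^ 4 = t ^ 2) :
    (∃ A B : ℕ, 0 < A ∧ 0 < B ∧ Odd A ∧ Odd B ∧ s = A * B ∧
      4 * (r : ℤ) ^ 2 = A ^ 4 + 6 * A ^ 2 * B ^ 2 - 3 * B ^ 4) ∨
    (∃ A B : ℕ, 0 < A ∧ 0 < B ∧ Odd (A + B) ∧ s = 2 * A * B ∧
      (r : ℤ) ^ 2 = A ^ 4 + 6 * A ^ 2 * B ^ 2 - 3 * B ^ 4) := by
  have h3 := not_three_dvd hrs h
  have hr := odd_left hrs h
  have h3' : ¬ (3 : ℤ) ∣ (r : ℤ) := by exact_mod_cast h3
  wlog ht : 0 ≤ t generalizing t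
  · exact this (t := -t) (by rw [neg_sq]; exact h) (by omega)
  lift t to ℕ using ht
  obtain ⟨u, hu⟩ : ∃ u : ℤ, u = 2 * s ^ 2 - r ^ 2 := ⟨_, rfl⟩
  obtain ⟨i, hi⟩ := odd_sq hr
  have huodd : u % 2 = 1 := by omega
  have hmul : (2 * t - r ^ 2 : ℤ) * (2 * t + r ^ 2) = 3 * u ^ 2 := by
    rw [hu]; linear_combination (-4) * h
  have hr0 : 0 < r := hr.pos
  have hb0 : 0 < (2 * t + r ^ 2 : ℤ) := by positivity
  have hu0 : u ≠ 0 := by omega
  have ha0 : 0 < (2 * t - r ^ 2 : ℤ) := by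
    have h1 : 0 < (2 * t - r ^ 2 : ℤ) * (2 * t + r ^ 2) := by rw [hmul]; positivity
    exact pos_of_mul_pos_left h1 hb0.le
  obtain ⟨a, ha⟩ : ∃ a : ℕ, (a : ℤ) = 2 * t - r ^ 2 := ⟨(2 * t - r ^ 2 : ℤ).toNat,
    Int.toNat_of_nonneg ha0.le⟩
  obtain ⟨b, hb⟩ : ∃ b : ℕ, (b : ℤ) = 2 * t + r ^ 2 := ⟨2 * t + r ^ 2, by push_cast; ring⟩
  have hab : a * b = 3 * u.natAbs ^ 2 := by
    zify
    rw [ha, hb, hmul, sq_abs]
  -- the factors are coprime
  have hcop : Nat.Coprime a b := by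
    by_contra hcon
    obtain ⟨q, hq, h1, h2⟩ := Nat.Prime.not_coprime_iff_dvd.mp hcon
    have hq' := Nat.prime_iff_prime_int.mp hq
    have h1' : (q : ℤ) ∣ 2 * t - r ^ 2 := by rw [← ha]; exact_mod_cast h1
    have h2' : (q : ℤ) ∣ 2 * t + r ^ 2 := by rw [← hb]; exact_mod_cast h2
    have hq2 : q ≠ 2 := by
      rintro rfl
      have := h1'
      omega
    have hq2' : ¬ (q : ℤ) ∣ 2 := fun hh =>
      hq2 ((Nat.prime_dvd_prime_iff_eq hq Nat.prime_two).mp (by exact_mod_cast hh))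
    have h4 : (q : ℤ) ∣ 2 * (r : ℤ) ^ 2 := by
      have := dvd_sub h2' h1'
      have e : (2 * t + r ^ 2 : ℤ) - (2 * t - r ^ 2) = 2 * (r : ℤ) ^ 2 := by ring
      rwa [e] at this
    have h5 : (q : ℤ) ∣ (r : ℤ) := hq'.dvd_of_dvd_pow ((hq'.dvd_or_dvd h4).resolve_left hq2')
    have h6 : (q : ℤ) ∣ 2 * (t : ℤ) := by
      have := dvd_add h1' (h5.trans (dvd_pow_self _ two_ne_zero))
      rwa [sub_add_cancel] at this
    have h7 : (q : ℤ) ∣ (t : ℤ) := (hq'.dvd_or_dvd h6).resolve_left hq2'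
    have h8 : (q : ℤ) ∣ 3 * (s : ℤ) ^ 4 := by
      have e : 3 * (s : ℤ) ^ 4 = t * t - r * (r ^ 3 - 3 * r * s ^ 2) := by linear_combination h
      rw [e]
      exact dvd_sub (h7.mul_right _) (h5.mul_right _)
    rcases hq'.dvd_or_dvd h8 with h9 | h9
    · have h10 : q = 3 := (Nat.prime_dvd_prime_iff_eq hq Nat.prime_three).mp (by exact_mod_cast h9)
      rw [h10] at h5
      exact h3' (by exact_mod_cast h5)
    · have h10 : (q : ℤ) ∣ (s : ℤ) := hq'.dvd_of_dvd_pow h9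
      exact Nat.not_coprime_of_dvd_of_dvd hq.one_lt (by exact_mod_cast h5) (by exact_mod_cast h10)
        hrs
  rcases split3 two_ne_zero hcop hab with ⟨f, g, h1, h2, -⟩ | ⟨f, g, h1, h2, hfg⟩
  · -- `2 r ^ 2 = g ^ 2 - 3 f ^ 2`
    exfalso
    have e : (g : ℤ) ^ 2 - 3 * f ^ 2 = 2 * r ^ 2 := by
      have e1 : (a : ℤ) = 3 * f ^ 2 := by rw [h1]; push_cast; ring
      have e2 : (b : ℤ) = g ^ 2 := by rw [h2]; push_cast; ring
      linear_combination hb - ha + e1 - e2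
    have hr3 : ∃ j : ℤ, (r : ℤ) ^ 2 = 3 * j + 1 := by
      rcases (show (r : ℤ) % 3 = 1 ∨ (r : ℤ) % 3 = 2 by omega) with h4 | h4
      · obtain ⟨k, hk⟩ : ∃ k : ℤ, (r : ℤ) = 3 * k + 1 := ⟨r / 3, by omega⟩
        exact ⟨3 * k ^ 2 + 2 * k, by rw [hk]; ring⟩
      · obtain ⟨k, hk⟩ : ∃ k : ℤ, (r : ℤ) = 3 * k + 2 := ⟨r / 3, by omega⟩
        exact ⟨3 * k ^ 2 + 4 * k + 1, by rw [hk]; ring⟩
    obtain ⟨j, hj⟩ := hr3
    have hg3 : ∃ k l : ℤ, (g : ℤ) ^ 2 = 3 * k + l ∧ (l = 0 ∨ l = 1) := by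
      rcases (show (g : ℤ) % 3 = 0 ∨ (g : ℤ) % 3 = 1 ∨ (g : ℤ) % 3 = 2 by omega) with
        h4 | h4 | h4
      · obtain ⟨k, hk⟩ : ∃ k : ℤ, (g : ℤ) = 3 * k := ⟨g / 3, by omega⟩
        exact ⟨3 * k ^ 2, 0, by rw [hk]; ring, Or.inl rfl⟩
      · obtain ⟨k, hk⟩ : ∃ k : ℤ, (g : ℤ) = 3 * k + 1 := ⟨g / 3, by omega⟩
        exact ⟨3 * k ^ 2 + 2 * k, 1, by rw [hk]; ring, Or.inr rfl⟩
      · obtain ⟨k, hk⟩ : ∃ k : ℤ, (g : ℤ) = 3 * k + 2 := ⟨g / 3, by omega⟩
        exact ⟨3 * k ^ 2 + 4 * k + 1, 1, by rw [hk]; ring, Or.inr rfl⟩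
    obtain ⟨k, l, hk, hl⟩ := hg3
    omega
  · -- `b = 3 f ^ 2`, `a = g ^ 2`
    have hf0 : 0 < f := by
      rcases Nat.eq_zero_or_pos f with h0 | h0
      · exfalso
        rw [h0, zero_mul] at hfg
        omega
      · exact h0
    -- `β = ± g` with `f β = u`
    obtain ⟨β, hβ, hβ2⟩ : ∃ β : ℤ, (f : ℤ) * β = u ∧ β ^ 2 = (g : ℤ) ^ 2 := by
      rcases Int.natAbs_eq u with h4 | h4
      · refine ⟨g, ?_, rfl⟩
        rw [h4, hfg]; push_cast; ring
      · refine ⟨-g, ?_, by ring⟩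
        rw [h4, hfg]; push_cast; ring
    have e0 : 3 * (f : ℤ) ^ 2 - β ^ 2 = 2 * r ^ 2 := by
      have e1 : (a : ℤ) = g ^ 2 := by rw [h2]; push_cast; ring
      have e2 : (b : ℤ) = 3 * f ^ 2 := by rw [h1]; push_cast; ring
      linear_combination hb - ha - e2 + e1 - hβ2
    have hfodd : (f : ℤ) % 2 = 1 := by
      rcases Int.emod_two_eq_zero_or_one (f : ℤ) with h4 | h4
      · exfalso
        obtain ⟨k, hk⟩ : ∃ k : ℤ, (f : ℤ) = 2 * k := ⟨f / 2, by omega⟩
        rw [hk] at hβ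
        have : u = 2 * (k * β) := by rw [← hβ]; ring
        omega
      · exact h4
    have hβodd : β % 2 = 1 := by
      rcases Int.emod_two_eq_zero_or_one β with h4 | h4
      · exfalso
        obtain ⟨k, hk⟩ : ∃ k : ℤ, β = 2 * k := ⟨β / 2, by omega⟩
        rw [hk] at hβ
        have : u = 2 * (f * k) := by rw [← hβ]; ring
        omega
      · exact h4
    -- `α = f` and `β` are coprime
    have hαβ : ∀ q : ℕ, q.Prime → (q : ℤ) ∣ f → (q : ℤ) ∣ β → False := by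
      intro q hq h4 h5
      have hq' := Nat.prime_iff_prime_int.mp hq
      have h6 : (q : ℤ) ∣ g := by
        apply hq'.dvd_of_dvd_pow (n := 2)
        rw [← hβ2]
        exact h5.trans (dvd_pow_self _ two_ne_zero)
      have h7 : q ∣ b := by
        rw [h1]
        exact ((Int.natCast_dvd_natCast.mp h4).trans (dvd_pow_self _ two_ne_zero)).mul_left 3
      have h8 : q ∣ a := by
        rw [h2]
        exact (Int.natCast_dvd_natCast.mp h6).trans (dvd_pow_self _ two_ne_zero)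
      exact Nat.not_coprime_of_dvd_of_dvd hq.one_lt h8 h7 hcop
    -- `P = (3 α - β) / 2`, `Q = (α + β) / 2`
    obtain ⟨Q, hQ⟩ : ∃ Q : ℤ, β = 2 * Q - f := ⟨(f + β) / 2, by omega⟩
    obtain ⟨P, hP⟩ : ∃ P : ℤ, P = 2 * f - Q := ⟨_, rfl⟩
    have hPQ : P * Q = (s : ℤ) ^ 2 := by
      rw [hP]
      have e1 : 2 * (s : ℤ) ^ 2 = f * β + r ^ 2 := by rw [hβ, hu]; ring
      rw [hQ] at e1 e0
      apply mul_left_cancel₀ (by norm_num : (4 : ℤ) ≠ 0)
      linear_combination -2 * e1 + e0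
    have hs2 : (0 : ℤ) < (s : ℤ) ^ 2 := by positivity
    have hPQpos : 0 < P ∧ 0 < Q := by
      rcases pos_and_pos_or_neg_and_neg_of_mul_pos (hPQ ▸ hs2) with h4 | ⟨h4, h5⟩
      · exact h4
      · exfalso; omega
    obtain ⟨hP0, hQ0⟩ := hPQpos
    have e4 : 4 * (r : ℤ) ^ 2 = P ^ 2 + 6 * P * Q - 3 * Q ^ 2 := by
      rw [hP]
      rw [hQ] at e0
      linear_combination -2 * e0
    lift P to ℕ using hP0.le
    lift Q to ℕ using hQ0.le
    have hP0' : 0 < P := by exact_mod_cast hP0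
    have hQ0' : 0 < Q := by exact_mod_cast hQ0
    have hPQn : P * Q = s ^ 2 := by exact_mod_cast hPQ
    rcases Nat.even_or_odd Q with hQe | hQo
    · -- `P = 2 P'`, `Q = 2 Q'`
      right
      obtain ⟨Q', rfl⟩ := hQe.two_dvd
      have hPe : Even P := by
        rw [Nat.even_iff]
        omega
      obtain ⟨P', rfl⟩ := hPe.two_dvd
      push_cast at hP hQ e4
      have hse : Even s := by
        have : Even (s ^ 2) := by rw [← hPQn]; exact ⟨2 * (P' * Q'), by ring⟩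
        rw [Nat.even_pow] at this
        exact this.1
      obtain ⟨s', rfl⟩ := hse.two_dvd
      have h4 : P' * Q' = s' ^ 2 := by
        apply Nat.eq_of_mul_eq_mul_left (by norm_num : 0 < 4)
        linarith
      have hc' : Nat.Coprime P' Q' := by
        by_contra hcon
        obtain ⟨q, hq, h5, h6⟩ := Nat.Prime.not_coprime_iff_dvd.mp hcon
        have h5' : (q : ℤ) ∣ (P' : ℤ) := by exact_mod_cast h5
        have h6' : (q : ℤ) ∣ (Q' : ℤ) := by exact_mod_cast h6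
        have h7 : (q : ℤ) ∣ f := by
          have e : (f : ℤ) = P' + Q' := by linarith
          rw [e]; exact dvd_add h5' h6'
        refine hαβ q hq h7 ?_
        rw [hQ]
        exact dvd_sub ((h6'.mul_left 2).mul_left 2) h7
      obtain ⟨A, hA⟩ := exists_eq_pow_of_mul_eq_pow (Nat.isUnit_iff.mpr hc') h4
      obtain ⟨B, hB⟩ := exists_eq_pow_of_mul_eq_pow (Nat.isUnit_iff.mpr hc'.symm)
        (by rw [mul_comm]; exact h4)
      subst hA hB
      have h5 : s' = A * B := by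
        rw [← mul_pow] at h4
        exact (Nat.pow_left_injective two_ne_zero h4).symm
      refine ⟨A, B, ?_, ?_, ?_, by rw [h5]; ring, ?_⟩
      · rcases Nat.eq_zero_or_pos A with h0 | h0
        · subst h0; simp at hP0'
        · exact h0
      · rcases Nat.eq_zero_or_pos B with h0 | h0
        · subst h0; simp at hQ0'
        · exact h0
      · have h6 : (f : ℤ) = A ^ 2 + B ^ 2 := by push_cast at hP; linarith
        have h7 : f = A ^ 2 + B ^ 2 := by exact_mod_cast h6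
        have h8 : Odd (A ^ 2 + B ^ 2) := by
          rw [← h7, Nat.odd_iff]
          omega
        rw [Nat.odd_add] at h8 ⊢
        rw [Nat.odd_pow_iff two_ne_zero, Nat.even_pow] at h8
        simpa using h8
      · push_cast at e4
        apply mul_left_cancel₀ (by norm_num : (4 : ℤ) ≠ 0)
        linear_combination e4
    · left
      have hPo : Odd P := by
        rw [Nat.odd_iff] at hQo ⊢
        omega
      have hc' : Nat.Coprime P Q := by
        by_contra hcon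
        obtain ⟨q, hq, h5, h6⟩ := Nat.Prime.not_coprime_iff_dvd.mp hcon
        have hq' := Nat.prime_iff_prime_int.mp hq
        have hq2' : ¬ (q : ℤ) ∣ 2 := by
          intro hh
          have hq2 : q = 2 := (Nat.prime_dvd_prime_iff_eq hq Nat.prime_two).mp (by exact_mod_cast hh)
          rw [hq2] at h6
          rw [Nat.odd_iff] at hQo
          omega
        have h5' : (q : ℤ) ∣ (P : ℤ) := by exact_mod_cast h5
        have h6' : (q : ℤ) ∣ (Q : ℤ) := by exact_mod_cast h6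
        have h7 : (q : ℤ) ∣ 2 * f := by
          have e : 2 * (f : ℤ) = P + Q := by linarith
          rw [e]; exact dvd_add h5' h6'
        have h8 := (hq'.dvd_or_dvd h7).resolve_left hq2'
        refine hαβ q hq h8 ?_
        rw [hQ]
        exact dvd_sub (h6'.mul_left 2) h8
      obtain ⟨A, hA⟩ := exists_eq_pow_of_mul_eq_pow (Nat.isUnit_iff.mpr hc') hPQn
      obtain ⟨B, hB⟩ := exists_eq_pow_of_mul_eq_pow (Nat.isUnit_iff.mpr hc'.symm)
        (by rw [mul_comm]; exact hPQn)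
      subst hA hB
      have h5 : s = A * B := by
        rw [← mul_pow] at hPQn
        exact (Nat.pow_left_injective two_ne_zero hPQn).symm
      refine ⟨A, B, ?_, ?_, (Nat.odd_pow_iff two_ne_zero).mp hPo,
        (Nat.odd_pow_iff two_ne_zero).mp hQo, h5, ?_⟩
      · rcases Nat.eq_zero_or_pos A with h0 | h0
        · subst h0; simp at hP0'
        · exact h0
      · rcases Nat.eq_zero_or_pos B with h0 | h0
        · subst h0; simp at hQ0'
        · exact h0
      · push_cast at e4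
        linear_combination e4

/-- from the second step to a smaller solution: the common part -/
theorem third_step {r s A B : ℕ} {a b : ℤ} (hrs : Nat.Coprime r s) (h3 : ¬ 3 ∣ r) (hBs : B ∣ s)
    (hB : 0 < B) (hq : ∀ q : ℕ, q.Prime → (q : ℤ) ∣ a → (q : ℤ) ∣ b → (q : ℤ) ∣ r)
    (hpos : 0 < a + b) (hab : a * b = 3 * (B : ℤ) ^ 4)
    (hM : a + b = (A : ℤ) ^ 2 + 3 * (B : ℤ) ^ 2) : ∃ C D : ℕ, 0 < C ∧ 0 < D ∧ Nat.Coprime C D ∧
      B = C * D ∧ (C : ℤ) ^ 4 - 3 * C ^ 2 * D ^ 2 + 3 * D ^ 4 = (A : ℤ) ^ 2 := by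
  have hB' : (0 : ℤ) < 3 * (B : ℤ) ^ 4 := by positivity
  have h1 : 0 < a ∧ 0 < b := by
    rcases pos_and_pos_or_neg_and_neg_of_mul_pos (hab ▸ hB') with h4 | ⟨h4, h5⟩
    · exact h4
    · exfalso; omega
  obtain ⟨ha, hb⟩ := h1
  lift a to ℕ using ha.le
  lift b to ℕ using hb.le
  have hab' : a * b = 3 * B ^ 4 := by exact_mod_cast hab
  have hcop : Nat.Coprime a b := by
    by_contra hcon
    obtain ⟨q, hqp, h5, h6⟩ := Nat.Prime.not_coprime_iff_dvd.mp hcon
    have h7 : (q : ℤ) ∣ (r : ℤ) := hq q hqp (by exact_mod_cast h5) (by exact_mod_cast h6)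
    have h7' : q ∣ r := by exact_mod_cast h7
    have h8 : q ∣ 3 * B ^ 4 := by rw [← hab']; exact h5.mul_right b
    rcases (Nat.Prime.dvd_mul hqp).mp h8 with h9 | h9
    · have h10 := (Nat.prime_dvd_prime_iff_eq hqp Nat.prime_three).mp h9
      rw [h10] at h7'
      exact h3 h7'
    · have h10 : q ∣ s := (hqp.dvd_of_dvd_pow h9).trans hBs
      exact Nat.not_coprime_of_dvd_of_dvd hqp.one_lt h7' h10 hrs
  obtain ⟨C, D, hCD, hBCD, hsum⟩ := second_step hcop hab'
  have hC : 0 < C := by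
    rcases Nat.eq_zero_or_pos C with h0 | h0
    · rw [h0, zero_mul] at hBCD; omega
    · exact h0
  have hD : 0 < D := by
    rcases Nat.eq_zero_or_pos D with h0 | h0
    · rw [h0, mul_zero] at hBCD; omega
    · exact h0
  refine ⟨C, D, hC, hD, hCD, hBCD, ?_⟩
  have h4 : (a : ℤ) + b = C ^ 4 + 3 * D ^ 4 := by exact_mod_cast hsum
  have h5 : (B : ℤ) = C * D := by rw [hBCD]; push_cast; ring
  rw [h4, h5] at hM
  linear_combination hM

/-- **Infinite descent**: `r ^ 4 - 3 r ^ 2 s ^ 2 + 3 s ^ 4 = t ^ 2` only for `r = s = 1`. -/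
theorem descent (s : ℕ) : ∀ (r : ℕ) (t : ℤ), 0 < s → Nat.Coprime r s →
    (r : ℤ) ^ 4 - 3 * r ^ 2 * s ^ 2 + 3 * s ^ 4 = t ^ 2 → r = 1 ∧ s = 1 := by
  induction s using Nat.strong_induction_on with
  | _ s ih =>
  intro r t hs hrs h
  have h3 := not_three_dvd hrs h
  have hr := odd_left hrs h
  obtain ⟨k, hk⟩ := id hr
  have one_of_sq : ∀ A : ℕ, (1 : ℤ) = (A : ℤ) ^ 2 → A = 1 := by
    intro A hA
    have h4 : A ^ 2 = 1 ^ 2 := by
      rw [one_pow]
      exact_mod_cast hA.symm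
    exact Nat.pow_left_injective two_ne_zero h4
  rcases first_step hs hrs h with ⟨A, B, hA, hB, hAo, hBo, hsAB, e⟩ | ⟨A, B, hA, hB, hABo, hsAB, e⟩
  · obtain ⟨i, hi⟩ := odd_sq hAo
    obtain ⟨j, hj⟩ := odd_sq hBo
    obtain ⟨M, hM⟩ : ∃ M : ℤ, M = 2 * (2 * i + 6 * j + 1) := ⟨_, rfl⟩
    have hM2 : 2 * M = (A : ℤ) ^ 2 + 3 * (B : ℤ) ^ 2 := by rw [hM, hi, hj]; ring
    have hr' : (r : ℤ) = 2 * k + 1 := by rw [hk]; push_cast; ring
    obtain ⟨C, D, hC, hD, hCD, hBCD, heq⟩ := third_step (a := M - r) (b := M + r) (A := A) hrs h3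
      (hsAB ▸ dvd_mul_left B A) hB (by
        intro q hq h5 h6
        have hq' := Nat.prime_iff_prime_int.mp hq
        have h7 : (q : ℤ) ∣ 2 * (r : ℤ) := by
          have := dvd_sub h6 h5
          have e : M + r - (M - r) = 2 * (r : ℤ) := by ring
          rwa [e] at this
        rcases hq'.dvd_or_dvd h7 with h8 | h8
        · exfalso
          have h9 : q = 2 := (Nat.prime_dvd_prime_iff_eq hq Nat.prime_two).mp (by exact_mod_cast h8)
          rw [h9] at h5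
          have h10 : (2 : ℤ) ∣ M - r := by exact_mod_cast h5
          omega
        · exact h8)
      (by
        have e : M - r + (M + r) = (A : ℤ) ^ 2 + 3 * (B : ℤ) ^ 2 := by rw [← hM2]; ring
        rw [e]; positivity)
      (by
        apply mul_left_cancel₀ (by norm_num : (4 : ℤ) ≠ 0)
        linear_combination (2 * M + A ^ 2 + 3 * B ^ 2) * hM2 - e)
      (by rw [← hM2]; ring)
    rcases lt_or_ge D s with hlt | hge
    · exfalso
      obtain ⟨rfl, rfl⟩ := ih D hlt C A hD hCD heq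
      have h4 := one_of_sq A (by rw [← heq]; norm_num)
      rw [hsAB, hBCD, h4] at hlt
      norm_num at hlt
    · have h4 : A * C * D = s := by rw [hsAB, hBCD]; ring
      have h5 : A * C = 1 := by
        have h6 : 1 ≤ A * C := Nat.mul_pos hA hC
        by_contra hcon
        have h7 : 2 ≤ A * C := by omega
        have h8 : 2 * D ≤ A * C * D := Nat.mul_le_mul_right D h7
        omega
      have hA1 : A = 1 := Nat.eq_one_of_mul_eq_one_right h5
      have hC1 : C = 1 := Nat.eq_one_of_mul_eq_one_left h5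
      subst hA1 hC1
      have h6 : (D : ℤ) ^ 2 * ((D : ℤ) ^ 2 - 1) = 0 := by
        push_cast at heq
        apply mul_left_cancel₀ (by norm_num : (3 : ℤ) ≠ 0)
        linear_combination heq
      have h7 : (D : ℤ) ^ 2 - 1 = 0 := by
        refine (mul_eq_zero.mp h6).resolve_left ?_
        positivity
      have h8 : D = 1 := one_of_sq D (by linarith)
      have h9 : s = 1 := by rw [← h4, h8]
      refine ⟨?_, h9⟩
      rw [hBCD, h8] at e
      push_cast at e
      exact one_of_sq r (by linarith)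
  · exfalso
    have hpar : ∃ w : ℤ, (A : ℤ) ^ 2 + 3 * (B : ℤ) ^ 2 = 2 * w + 1 := by
      have h4 : Odd ((A : ℤ) + B) := by exact_mod_cast hABo
      have h5 : Odd ((A : ℤ) ^ 2 + 3 * (B : ℤ) ^ 2) := by
        rcases Int.even_or_odd (A : ℤ) with h6 | h6
        · have h7 : Odd (B : ℤ) := (Int.odd_add.mp (by rw [add_comm]; exact h4)).mpr h6
          exact (h6.pow_of_ne_zero two_ne_zero).add_odd ((by decide : Odd (3 : ℤ)).mul h7.pow)
        · have h7 : Even (B : ℤ) := (Int.odd_add.mp h4).mp h6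
          exact h6.pow.add_even ((h7.pow_of_ne_zero two_ne_zero).mul_left 3)
      obtain ⟨w, hw⟩ := h5
      exact ⟨w, hw⟩
    obtain ⟨w, hw⟩ := hpar
    have hr' : (r : ℤ) = 2 * k + 1 := by rw [hk]; push_cast; ring
    obtain ⟨C, D, hC, hD, hCD, hBCD, heq⟩ := third_step (a := w - k) (b := w - k + r) (A := A)
      hrs h3 (hsAB ▸ dvd_mul_left B (2 * A)) hB (by
        intro q hq h5 h6
        have := dvd_sub h6 h5
        rwa [add_sub_cancel_left] at this)
      (by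
        have e : w - k + (w - k + r) = (A : ℤ) ^ 2 + 3 * (B : ℤ) ^ 2 := by rw [hw, hr']; ring
        rw [e]; positivity)
      (by
        apply mul_left_cancel₀ (by norm_num : (4 : ℤ) ≠ 0)
        have e1 : 2 * (w - k) = (A : ℤ) ^ 2 + 3 * (B : ℤ) ^ 2 - r := by rw [hw, hr']; ring
        have e2 : 4 * ((w - k) * (w - k + r)) = (2 * (w - k)) * (2 * (w - k) + 2 * (r : ℤ)) := by
          ring
        rw [e2, e1]
        linear_combination -e)
      (by rw [hw, hr']; ring)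
    have h4 : 2 * (A * C) * D = s := by rw [hsAB, hBCD]; ring
    have hlt : D < s := by
      have h6 : 1 ≤ A * C := Nat.mul_pos hA hC
      have h7 : 2 ≤ 2 * (A * C) := by omega
      have h8 : 2 * D ≤ 2 * (A * C) * D := Nat.mul_le_mul_right D h7
      omega
    obtain ⟨rfl, rfl⟩ := ih D hlt C A hD hCD heq
    have h5 := one_of_sq A (by rw [← heq]; norm_num)
    rw [h5, hBCD] at hABo
    exact absurd hABo (by decide)

/-- the quartic of Euler's theorem -/
theorem quartic {s t : ℤ} (h : 3 * s ^ 4 - 3 * s ^ 2 + 1 = t ^ 2) : s = 0 ∨ s = 1 ∨ s = -1 := by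
  by_cases hs : s = 0
  · exact Or.inl hs
  right
  have h1 := descent s.natAbs 1 t (Int.natAbs_pos.mpr hs) (Nat.coprime_one_left _) (by
    push_cast
    rw [sq_abs, ← h]
    have e : |s| ^ 4 = s ^ 4 := by
      rw [show (4 : ℕ) = 2 * 2 by norm_num, pow_mul, pow_mul, sq_abs]
    rw [e]; ring)
  have h2 := h1.2
  omega

/-- **Theorem (Euler).** The equation `x ^ 2 = y ^ 3 + 1` has only the integral solutions
`(0, -1)`, `(± 1, 0)`, `(± 3, 2)`. -/
theorem euler {x y : ℤ} (h : x ^ 2 = y ^ 3 + 1) : y = -1 ∨ y = 0 ∨ y = 2 := by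
  have hy : -1 ≤ y := by
    by_contra hcon
    have h1 : y ≤ -2 := by omega
    have h2 := sq_nonneg x
    nlinarith [sq_nonneg y, mul_nonneg (sq_nonneg y) (by omega : (0 : ℤ) ≤ -2 - y)]
  by_cases hy1 : y = -1
  · exact Or.inl hy1
  right
  by_cases hy0 : y = 0
  · exact Or.inl hy0
  right
  have hpos : 0 < y := by omega
  have hmul : (y + 1) * (y ^ 2 - y + 1) = x ^ 2 := by rw [h]; ring
  by_cases h3 : (3 : ℤ) ∣ y + 1
  · obtain ⟨w, hw⟩ := h3
    have hyw : y = 3 * w - 1 := by omega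
    have hw0 : 0 < w := by omega
    have e1 : y ^ 2 - y + 1 = 3 * (3 * w ^ 2 - 3 * w + 1) := by rw [hyw]; ring
    rw [hw, e1] at hmul
    have h9 : (3 : ℤ) ∣ x := by
      apply Int.prime_three.dvd_of_dvd_pow (n := 2)
      rw [← hmul]
      exact ⟨w * (3 * (3 * w ^ 2 - 3 * w + 1)), by ring⟩
    obtain ⟨v, rfl⟩ := h9
    have hmul' : w * (3 * w ^ 2 - 3 * w + 1) = v ^ 2 := by
      apply mul_left_cancel₀ (by norm_num : (9 : ℤ) ≠ 0)
      linear_combination hmul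
    have hcop : IsCoprime w (3 * w ^ 2 - 3 * w + 1) := ⟨3 - 3 * w, 1, by ring⟩
    obtain ⟨s, hs | hs⟩ := Int.sq_of_isCoprime hcop hmul'
    · obtain ⟨t, ht | ht⟩ := Int.sq_of_isCoprime hcop.symm (by rw [mul_comm]; exact hmul')
      · rw [hs] at ht
        have h4 : 3 * s ^ 4 - 3 * s ^ 2 + 1 = t ^ 2 := by linear_combination ht
        have h5 : s ^ 2 = 1 := by
          rcases quartic h4 with h6 | h6 | h6
          · rw [h6] at hs; norm_num at hs; omega
          · rw [h6]; norm_num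
          · rw [h6]; norm_num
        omega
      · exfalso
        have h6 := sq_nonneg t
        have h7 : 0 < 3 * w ^ 2 - 3 * w + 1 := by nlinarith
        omega
    · exfalso
      have := sq_nonneg s
      omega
  · exfalso
    have hcop : IsCoprime (y + 1) (y ^ 2 - y + 1) := by
      refine isCoprime_of_prime_dvd (fun h0 => by omega) fun z hz h4 h5 => ?_
      have h6 : z ∣ 3 := by
        have := dvd_sub h5 (h4.mul_right (y - 2))
        have e : y ^ 2 - y + 1 - (y + 1) * (y - 2) = 3 := by ring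
        rwa [e] at this
      have h7 : Associated z 3 := hz.irreducible.associated_of_dvd Int.prime_three.irreducible h6
      exact h3 (h7.symm.dvd.trans h4)
    obtain ⟨t, ht | ht⟩ := Int.sq_of_isCoprime hcop.symm (by rw [mul_comm]; exact hmul)
    · obtain ⟨s, hs | hs⟩ := Int.sq_of_isCoprime hcop hmul
      · -- `y ^ 2 - y + 1 = t ^ 2` forces `y = 1`
        have e2 : |t| ^ 2 = t ^ 2 := sq_abs t
        have p2 := abs_nonneg t
        have h4 : |t| < y + 1 := by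
          by_contra hcon
          nlinarith
        have h5 : y - 1 < |t| := by
          by_contra hcon
          nlinarith
        have h6 : |t| = y := by omega
        rw [h6] at e2
        have h7 : y = 1 := by linarith
        rw [h7] at hs
        have h8 : |s| ^ 2 = s ^ 2 := sq_abs s
        have h9 : |s| = 0 ∨ |s| = 1 ∨ 2 ≤ |s| := by
          have := abs_nonneg s
          omega
        rcases h9 with h9 | h9 | h9
        · rw [h9] at h8; omega
        · rw [h9] at h8; omega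
        · nlinarith
      · have := sq_nonneg s
        omega
    · have := sq_nonneg t
      have h7 : 0 < y ^ 2 - y + 1 := by nlinarith
      omega

/-- Euler's theorem in positive integers -/
theorem euler_nat {x y : ℕ} (hy : 0 < y) (h : x ^ 2 = y ^ 3 + 1) : x = 3 ∧ y = 2 := by
  have h1 : (x : ℤ) ^ 2 = (y : ℤ) ^ 3 + 1 := by exact_mod_cast h
  have h2 : y = 2 := by
    rcases euler h1 with h2 | h2 | h2 <;> omega
  subst h2
  refine ⟨?_, rfl⟩
  have h3 : x ^ 2 = 3 ^ 2 := by rw [h]; norm_num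
  exact Nat.pow_left_injective two_ne_zero h3

/-- **Catalan's equation with an even exponent** (Euler, Lebesgue, Nagell, Chao Ko): if
`x ^ m = y ^ n + 1` in positive integers with `m, n ≥ 2` and `m` or `n` even, then
`3 ^ 2 = 2 ^ 3 + 1`. -/
theorem catalan {m n : ℕ} (hm : 2 ≤ m) (hn : 2 ≤ n) (h2 : Even m ∨ Even n) {x y : ℕ}
    (hy : 0 < y) (h : x ^ m = y ^ n + 1) : x = 3 ∧ m = 2 ∧ y = 2 ∧ n = 3 := by
  obtain ⟨hme, k, hk⟩ := Lebesgue.catalan_even hm hn h2 hy h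
  obtain ⟨a, rfl⟩ := hme.two_dvd
  have hk0 : k ≠ 0 := by rintro rfl; simp at hk; omega
  obtain ⟨b, rfl⟩ : 3 ∣ n := by rw [hk]; exact dvd_pow_self 3 hk0
  rw [mul_comm 2 a, pow_mul, mul_comm 3 b, pow_mul y] at h
  obtain ⟨hx3, hy2⟩ := euler_nat (pow_pos hy b) h
  have ha0 : a ≠ 0 := by omega
  have hb0 : b ≠ 0 := by rintro rfl; simp at hy2
  have key : ∀ {u e q : ℕ}, q.Prime → e ≠ 0 → u ^ e = q → u = q ∧ e = 1 := by
    intro u e q hq he hu
    have h5 : e = 1 := by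
      by_contra hcon
      have h6 : ¬ (u ^ e).Prime := Nat.Prime.not_prime_pow (by omega)
      exact h6 (hu ▸ hq)
    subst h5
    rw [pow_one] at hu
    exact ⟨hu, rfl⟩
  obtain ⟨h5, h6⟩ := key Nat.prime_three ha0 hx3
  obtain ⟨h7, h8⟩ := key Nat.prime_two hb0 hy2
  exact ⟨h5, by omega, h7, by omega⟩

end Fermat.Agent.Cor.CatalanEven
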