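import Fermat.Agent.Cor.DerivSeries

/-!
# Upper bounds for the central value and the central derivative

Let `f` be a newform of weight two and level `N` with `|a_n| ≤ n` for all `n` (for example the newform of a semistable
elliptic curve `W` of conductor `N`). Then
* `|L(f, 1)| ≤ 2 / (exp(2π / √N) - 1) < √N / π`;
* if the root number is `-1`, then `|L'(f, 1)| ≤ √N / π`.

This file is not used by any of the statement files.
-/

set_option autoImplicit false

noncomputable section

namespace Fermat.Agent.Cor.CentralBound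

open Complex CongruenceSubgroup Filter MeasureTheory ModularFormClass Set
open Fermat.Agent.Cor.LFun Fermat.Agent.Cor.CentralSeries Fermat.Agent.Cor.DerivSeries
open scoped Real Topology

/-! ### Two sums -/

theorem hasSum_pow {x : ℝ} (h0 : 0 ≤ x) (h1 : x < 1) :
    HasSum (fun n : ℕ => 2 * x ^ n - if n = 0 then 2 else 0) (2 * x / (1 - x)) := by
  have h := ((hasSum_geometric_of_lt_one h0 h1).mul_left 2).sub (hasSum_ite_eq (0 : ℕ) (2 : ℝ))
  have e : 2 * (1 - x)⁻¹ - 2 = 2 * x / (1 - x) := by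
    have : (1 - x) ≠ 0 := by linarith
    field_simp
    ring
  rwa [e] at h

theorem sum_exp_le {u : ℝ} (hu : 0 < u) (M : ℕ) :
    ∑ n ∈ Finset.range M, Real.exp (-((n + 1) * u)) ≤ u⁻¹ := by
  have hx : Real.exp (-u) < 1 := by
    rw [Real.exp_lt_one_iff]
    linarith
  have e : ∀ n : ℕ, Real.exp (-((n + 1) * u)) = Real.exp (-u) * Real.exp (-u) ^ n := fun n => by
    rw [← Real.exp_nat_mul, ← Real.exp_add]
    congr 1
    ring
  simp only [e]
  rw [← Finset.mul_sum]
  have h1 : ∑ n ∈ Finset.range M, Real.exp (-u) ^ n ≤ (1 - Real.exp (-u))⁻¹ := by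
    have h2 := hasSum_geometric_of_lt_one (Real.exp_pos (-u)).le hx
    exact sum_le_hasSum _ (fun i _ => by positivity) h2
  have h3 : u * Real.exp (-u) ≤ 1 - Real.exp (-u) := by
    have h4 := Real.add_one_le_exp u
    have h5 : Real.exp u * Real.exp (-u) = 1 := by rw [← Real.exp_add]; simp
    have h6 := Real.exp_pos (-u)
    nlinarith
  calc Real.exp (-u) * ∑ n ∈ Finset.range M, Real.exp (-u) ^ n
      ≤ Real.exp (-u) * (1 - Real.exp (-u))⁻¹ :=
        mul_le_mul_of_nonneg_left h1 (Real.exp_pos _).le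
    _ ≤ u⁻¹ := by
        rw [← div_eq_mul_inv, div_le_iff₀ (by linarith), inv_mul_eq_div, le_div_iff₀ hu]
        linarith

theorem sum_expInt_le {y : ℝ} (hy : 0 < y) (M : ℕ) :
    ∑ n ∈ Finset.range M, expInt ((n + 1) * y) ≤ y⁻¹ := by
  have hint : ∀ n ∈ Finset.range M, Integrable (fun t : ℝ => Real.exp (-((n + 1) * y * t)) / t)
      (volume.restrict (Ioi (1 : ℝ))) := fun n _ =>
    integrableOn_exp_div one_pos (by positivity)
  simp only [expInt]
  rw [← integral_finsetSum _ hint]
  have h2 : IntegrableOn (fun t : ℝ => y⁻¹ * t ^ (-2 : ℝ)) (Ioi 1) :=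
    (integrableOn_Ioi_rpow_of_lt (by norm_num) one_pos).const_mul _
  have h3 : ∫ t in Ioi (1 : ℝ), y⁻¹ * t ^ (-2 : ℝ) = y⁻¹ := by
    rw [integral_const_mul, integral_Ioi_rpow_of_lt (by norm_num) one_pos]
    norm_num
  rw [← h3]
  refine setIntegral_mono_on (integrable_finsetSum _ hint) h2 measurableSet_Ioi fun t ht => ?_
  have ht' : (1 : ℝ) < t := ht
  have ht0 : 0 < t := by linarith
  rw [← Finset.sum_div, div_le_iff₀ ht0]
  have h4 := sum_exp_le (mul_pos hy ht0) M
  simp only [← mul_assoc] at h4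
  refine h4.trans (le_of_eq ?_)
  rw [mul_assoc, ← Real.rpow_add_one ht0.ne', show (-2 : ℝ) + 1 = -1 by norm_num, Real.rpow_neg_one,
    mul_inv]

theorem expInt_nonneg (y : ℝ) : 0 ≤ expInt y :=
  setIntegral_nonneg measurableSet_Ioi fun t (ht : 1 < t) => by
    have : 0 < t := by linarith
    positivity

/-! ### Newforms -/

section form

variable {N : ℕ} [NeZero N] {f : CuspForm (Gamma0 N) 2}

/-- **Upper bound for the central value**: `|L(f, 1)| ≤ 2 / (exp(2π / √N) - 1)` -/
theorem norm_LF_one_le (hf : f.IsNewform) (hb : ∀ n, ‖qCoeff f n‖ ≤ n) :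
    ‖LF f 1‖ ≤ 2 / (Real.exp (2 * π / √N) - 1) := by
  have hN : (0 : ℝ) < √N := by
    have : (0 : ℝ) < N := by exact_mod_cast Nat.pos_of_ne_zero (NeZero.ne N)
    positivity
  set y := 2 * π / √N with hy
  have hy0 : 0 < y := by positivity
  have hx : Real.exp (-y) < 1 := by
    rw [Real.exp_lt_one_iff]
    linarith
  have h1 := LF_one_series hf
  have h2 := h1.norm_le_of_bounded (hasSum_pow (Real.exp_pos (-y)).le hx) fun n => by
    rcases eq_or_ne n 0 with rfl | hn
    · simp
    · have hn0 : (0 : ℝ) < n := by exact_mod_cast Nat.pos_of_ne_zero hn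
      have e1 : Real.exp (-(2 * π * n / √N)) = Real.exp (-y) ^ n := by
        rw [← Real.exp_nat_mul]
        congr 1
        rw [hy]
        ring
      have e2 : ‖(1 : ℂ) + Parity.rootNumber f‖ ≤ 2 := by
        rcases Parity.rootNumber_eq_one_or hf with h | h <;> rw [h] <;> norm_num
      have e3 : ‖qCoeff f n / (n : ℂ)‖ ≤ 1 := by
        rw [norm_div, Complex.norm_natCast]
        exact (div_le_one hn0).mpr (hb n)
      rw [norm_mul, norm_mul, Complex.norm_real, e1, Real.norm_of_nonneg (by positivity), if_neg hn,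
        sub_zero]
      refine mul_le_mul e2 ?_ (by positivity) (by norm_num)
      exact mul_le_of_le_one_left (by positivity) e3
  refine h2.trans (le_of_eq ?_)
  have h5 : Real.exp y * Real.exp (-y) = 1 := by rw [← Real.exp_add]; simp
  have h6 : 0 < Real.exp (-y) := Real.exp_pos _
  have h7 : 1 < Real.exp y := Real.one_lt_exp_iff.mpr hy0
  rw [div_eq_div_iff (by linarith) (by linarith)]
  linear_combination 2 * h5

/-- **Upper bound for the central value**: `|L(f, 1)| < √N / π` -/
theorem norm_LF_one_lt (hf : f.IsNewform) (hb : ∀ n, ‖qCoeff f n‖ ≤ n) : ‖LF f 1‖ < √N / π := by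
  have hN : (0 : ℝ) < √N := by
    have : (0 : ℝ) < N := by exact_mod_cast Nat.pos_of_ne_zero (NeZero.ne N)
    positivity
  refine (norm_LF_one_le hf hb).trans_lt ?_
  have hy0 : 0 < 2 * π / √N := by positivity
  have h1 := Real.add_one_lt_exp hy0.ne'
  have e : √N / π = 2 / (2 * π / √N) := by
    field_simp
  rw [e]
  exact div_lt_div_of_pos_left (by norm_num) hy0 (by linarith)

/-- **Upper bound for the central derivative**: `|L'(f, 1)| ≤ √N / π` if the root number is `-1` -/
theorem norm_deriv_LF_one_le (hf : f.IsNewform) (hw : Parity.rootNumber f = -1)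
    (hb : ∀ n, ‖qCoeff f n‖ ≤ n) : ‖deriv (LF f) 1‖ ≤ √N / π := by
  have hN : (0 : ℝ) < √N := by
    have : (0 : ℝ) < N := by exact_mod_cast Nat.pos_of_ne_zero (NeZero.ne N)
    positivity
  set y := 2 * π / √N with hy
  have hy0 : 0 < y := by positivity
  have h1 := deriv_series hf hw
  rw [← hasSum_nat_add_iff' 1, Finset.sum_range_one, H22.cusp_qCoeff_zero f, zero_div, zero_mul,
    mul_zero, sub_zero] at h1
  have hterm : ∀ n : ℕ, ‖2 * (qCoeff f (n + 1) / ((n + 1 : ℕ) : ℂ) *
      (expInt (2 * π * ((n + 1 : ℕ) : ℝ) / √N) : ℂ))‖ ≤ 2 * expInt ((n + 1) * y) := by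
    intro n
    have hn0 : (0 : ℝ) < ((n + 1 : ℕ) : ℝ) := by positivity
    have e1 : 2 * π * ((n + 1 : ℕ) : ℝ) / √N = (n + 1) * y := by
      rw [hy]
      push_cast
      ring
    have e3 : ‖qCoeff f (n + 1) / ((n + 1 : ℕ) : ℂ)‖ ≤ 1 := by
      rw [norm_div, Complex.norm_natCast]
      exact (div_le_one hn0).mpr (hb (n + 1))
    rw [norm_mul, norm_mul, Complex.norm_real, e1, Real.norm_of_nonneg (expInt_nonneg _)]
    refine mul_le_mul (by norm_num) (mul_le_of_le_one_left (expInt_nonneg _) e3)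
      (mul_nonneg (norm_nonneg _) (expInt_nonneg _)) (by norm_num)
  have hle : ∀ M : ℕ, ‖∑ n ∈ Finset.range M, 2 * (qCoeff f (n + 1) / ((n + 1 : ℕ) : ℂ) *
      (expInt (2 * π * ((n + 1 : ℕ) : ℝ) / √N) : ℂ))‖ ≤ √N / π := by
    intro M
    refine (norm_sum_le _ _).trans ((Finset.sum_le_sum fun n _ => hterm n).trans ?_)
    rw [← Finset.mul_sum]
    have h2 := sum_expInt_le hy0 M
    have e : √N / π = 2 * y⁻¹ := by
      rw [hy]
      field_simp
    rw [e]
    linarith
  exact le_of_tendsto' h1.tendsto_sum_nat.norm hle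

end form

/-! ### Semistable elliptic curves -/

open Fermat.Agent.Cor.LWeil Fermat.Agent.Cor.AffCount

variable {W : WeierstrassCurve ℤ} {L Λ : ℂ → ℂ}

theorem norm_qCoeff_le (hΔ : W.Δ ≠ 0) {f : CuspForm (Gamma0 W.conductorLevel) 2}
    (hf : f.IsNewform) (hfW : ∀ q : ℕ, q.Prime → qCoeff f q = (ap W q : ℂ)) (n : ℕ) :
    ‖qCoeff f n‖ ≤ n := by
  rcases eq_or_ne n 0 with rfl | hn
  · rw [H22.cusp_qCoeff_zero f]
    simp
  · refine SmallRank.norm_le hΔ hf (fun q hq hqN => ?_) n hn
    rw [hfW q hq, ap_eq_of_good hq fun h' => hqN ((W.prime_dvd_conductorLevel_iff hΔ hq).mpr h')]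

/-- **Upper bound for the central value** of a semistable elliptic curve: `|L(W, 1)| < √N / π` -/
theorem norm_one_lt (h : IsHasseWeil W L Λ) (hΔ : W.Δ ≠ 0) (hW : W.IsSemistableModel) :
    ‖L 1‖ < √W.conductorLevel / π := by
  obtain ⟨f, hf, hfW⟩ := exists_newform hΔ hW
  rw [RankOne.eq_LF h hΔ hf hfW]
  exact norm_LF_one_lt hf (norm_qCoeff_le hΔ hf hfW)

/-- **Upper bound for the central derivative** of a semistable elliptic curve with root number `-1`:
`|L'(W, 1)| ≤ √N / π` -/
theorem norm_deriv_one_le (h : IsHasseWeil W L Λ) (hΔ : W.Δ ≠ 0) (hW : W.IsSemistableModel)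
    (hw : LWeil.rootNumber W = -1) : ‖deriv L 1‖ ≤ √W.conductorLevel / π := by
  obtain ⟨f, hf, hfW⟩ := exists_newform hΔ hW
  rw [RankOne.eq_LF h hΔ hf hfW]
  exact norm_deriv_LF_one_le hf (by rw [RankOne.rootNumber_form hf hfW, hw]; norm_num)
    (norm_qCoeff_le hΔ hf hfW)

end Fermat.Agent.Cor.CentralBound
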