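import Fermat.Agent.Cor.Fricke

/-!
# The L-function of a cusp form of weight 2 on `Γ₀(N)`

`LF f` is the analytic continuation of `L(f, s) = ∑ aₙ(f) n ^ (-s)` to an entire function, and
`Lam f s = N ^ (s / 2) (2π) ^ (-s) Γ(s) L(f, s)` satisfies `Lam f (2 - s) = - Lam (f ∣ W_N) s`; for a newform
`Lam f (2 - s) = ε • Lam f s`, `ε = 1` or `ε = -1`.

This file is not used by any of the statement files.
-/

set_option autoImplicit false

noncomputable section

namespace Fermat.Agent.Cor.LFun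

open CongruenceSubgroup ModularForm ModularFormClass Complex MeasureTheory Set
open Fermat.Agent.H22 Matrix.SpecialLinearGroup
open UpperHalfPlane hiding I
open scoped MatrixGroups Real

variable {N : ℕ} [NeZero N]

/-- The L-function of `f`, an entire function. -/
def LF (f : CuspForm (Gamma0 N) 2) (s : ℂ) : ℂ := ModularForm.L (k := 2) (by norm_num) f s

/-- The completed L-function of `f`. -/
def Lam (f : CuspForm (Gamma0 N) 2) (s : ℂ) : ℂ :=
  (N : ℂ) ^ (s / 2) * ModularForm.Λ (k := 2) (by norm_num) f s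

/-- **`L(f, s)` is entire.** -/
theorem differentiable_LF (f : CuspForm (Gamma0 N) 2) : Differentiable ℂ (LF f) :=
  CuspForm.differentiable_L (k := 2) (by norm_num) f

theorem differentiable_Lam (f : CuspForm (Gamma0 N) 2) : Differentiable ℂ (Lam f) := by
  have hN : (N : ℂ) ≠ 0 := by exact_mod_cast NeZero.ne N
  refine Differentiable.mul ?_ (CuspForm.differentiable_Λ (k := 2) (by norm_num) f)
  exact (differentiable_id.div_const 2).const_cpow (Or.inl hN)

/-- The Dirichlet series of `f` converges absolutely for `Re s > 2` and its sum is `LF f s`. -/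
theorem lSeriesHasSum (f : CuspForm (Gamma0 N) 2) {s : ℂ} (hs : 2 < s.re) :
    LSeriesHasSum (fun n => qCoeff f n) s (LF f s) := by
  have h := CuspForm.hasSum_L (k := 2) (by norm_num) f (s := s) (by norm_num; linarith)
  rw [strictWidthInfty_Gamma0, Complex.ofReal_one, Complex.one_cpow, one_mul] at h
  have hs0 : s ≠ 0 := by
    rintro rfl
    norm_num at hs
  unfold LSeriesHasSum
  convert h using 1
  · funext n
    rw [LSeries.term_def]
    split_ifs with hn
    · rw [hn, Nat.cast_zero, Complex.zero_cpow hs0, div_zero]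
    · rfl
  · rfl

theorem lSeries_eq (f : CuspForm (Gamma0 N) 2) {s : ℂ} (hs : 2 < s.re) :
    LSeries (fun n => qCoeff f n) s = LF f s := (lSeriesHasSum f hs).LSeries_eq

theorem Lam_eq (f : CuspForm (Gamma0 N) 2) {s : ℂ} (hs : ∀ n : ℕ, s ≠ -n) :
    Lam f s = (N : ℂ) ^ (s / 2) * (2 * π) ^ (-s) * Gamma s * LF f s := by
  have h1 : Gamma s ≠ 0 := Complex.Gamma_ne_zero hs
  have h2 : (2 * (π : ℂ)) ^ (-s) ≠ 0 := by
    rw [Ne, Complex.cpow_eq_zero_iff]
    push Not
    intro h
    exact absurd h (by simp [Real.pi_ne_zero])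
  rw [Lam, LF, ModularForm.L, Gammaℂ]
  field_simp

omit [NeZero N] in
theorem coe_S_smul (z : ℍ) :
    ((((ModularGroup.S : SL(2, ℤ)) : GL (Fin 2) ℝ) • z : ℍ) : ℂ) = -1 / z := by
  rw [coe_smul_of_det_pos (by simp)]
  simp [num, denom]

omit [NeZero N] in
theorem coe_translate_S_apply (f : CuspForm (Gamma0 N) 2) (z : ℍ) :
    (translate f ((ModularGroup.S : SL(2, ℤ)) : GL (Fin 2) ℝ)) z =
      f (((ModularGroup.S : SL(2, ℤ)) : GL (Fin 2) ℝ) • z) / (z : ℂ) ^ 2 := by
  rw [coe_translate, slash_def]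
  suffices f (((ModularGroup.S : SL(2, ℤ)) : GL (Fin 2) ℝ) • z) * (z : ℂ) ^ (-(2 : ℤ)) =
      f (((ModularGroup.S : SL(2, ℤ)) : GL (Fin 2) ℝ) • z) / (z : ℂ) ^ 2 by
    simpa [σ, denom]
  rw [zpow_neg, zpow_ofNat]
  rfl

theorem Λ_fricke (f : CuspForm (Gamma0 N) 2) (s : ℂ) :
    ModularForm.Λ (k := 2) (by norm_num) f (2 - s) =
      - ((N : ℂ) ^ (s - 1) * ModularForm.Λ (k := 2) (by norm_num) (wN f) s) := by
  have hN : (N : ℂ) ≠ 0 := by exact_mod_cast NeZero.ne N
  have hN0 : (0 : ℝ) < N := by exact_mod_cast Nat.pos_of_ne_zero (NeZero.ne N)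
  have h1 := (weakFEPair (k := 2) (by norm_num) f).functional_equation s
  have h2 : (weakFEPair (k := 2) (by norm_num) f).symm.Λ s =
      mellin (weakFEPair (k := 2) (by norm_num) f).g s := by
    rw [(CuspForm.isStrongFEPair (k := 2) (by norm_num) f).symm.Λ_eq]
    rfl
  let u : ℝ → ℂ := fun t => wN f (ofComplex (I * t))
  have h3 : mellin (weakFEPair (k := 2) (by norm_num) f).g s =
      mellin (fun t : ℝ => (N : ℂ)⁻¹ • (fun t => u (t * (N : ℝ)⁻¹)) t) s := by
    rw [mellin, mellin]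
    refine setIntegral_congr_fun measurableSet_Ioi fun t (ht : 0 < t) => ?_
    simp only
    congr 1
    have ht0 : (t : ℂ) ≠ 0 := by exact_mod_cast ht.ne'
    have hp : 0 < (I * (t : ℂ)).im := by simpa using ht
    have hp' : 0 < (I * ((t * (N : ℝ)⁻¹ : ℝ) : ℂ)).im := by
      simp only [Complex.mul_im, Complex.I_re, Complex.ofReal_im, mul_zero, Complex.I_im,
        Complex.ofReal_re, one_mul, zero_add]
      positivity
    have e1 : u (t * (N : ℝ)⁻¹) = wN f ⟨I * ((t * (N : ℝ)⁻¹ : ℝ) : ℂ), hp'⟩ := by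
      simp only [u]
      rw [ofComplex_apply_of_im_pos hp']
    rw [e1, wN_apply]
    change (translate f ModularGroup.S) (ofComplex (I * t)) = _
    rw [ofComplex_apply_of_im_pos hp, coe_translate_S_apply]
    have e2 : frickeGL N • (⟨I * ((t * (N : ℝ)⁻¹ : ℝ) : ℂ), hp'⟩ : ℍ) =
        ((ModularGroup.S : SL(2, ℤ)) : GL (Fin 2) ℝ) • (⟨I * (t : ℂ), hp⟩ : ℍ) := by
      ext
      rw [coe_fricke_smul, coe_S_smul]
      push_cast
      field_simp
    rw [e2]
    push_cast
    simp only [smul_eq_mul]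
    field_simp
  have h4 : (weakFEPair (k := 2) (by norm_num) f).k = 2 := by
    simp
  have h5 : (weakFEPair (k := 2) (by norm_num) f).ε = -1 := by
    simp [weakFEPair]
  rw [h4, h5, h2, h3, mellin_const_smul, mellin_comp_mul_right u _ (inv_pos.mpr hN0)] at h1
  have h6 : mellin u s = ModularForm.Λ (k := 2) (by norm_num) (wN f) s := by
    rw [CuspForm.Λ_eq_mellin (k := 2) (by norm_num) (wN f)]
  rw [h6] at h1
  have h7 : (((N : ℝ)⁻¹ : ℝ) : ℂ) ^ (-s) = (N : ℂ) ^ s := by
    rw [Complex.ofReal_inv, Complex.ofReal_natCast, Complex.inv_cpow, Complex.cpow_neg, inv_inv]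
    rw [Complex.natCast_arg]
    exact Real.pi_ne_zero.symm
  rw [h7] at h1
  rw [Complex.cpow_sub _ _ hN, Complex.cpow_one]
  have h8 : ModularForm.Λ (k := 2) (by norm_num) f (2 - s) =
    (weakFEPair (k := 2) (by norm_num) f).Λ (((2 : ℝ) : ℂ) - s) := by
    rw [ModularForm.Λ]
    norm_num
  rw [h8, h1]
  simp only [smul_eq_mul]
  field_simp

/-- **Functional equation**: `Λ(f, 2 - s) = - Λ(f ∣ W_N, s)`. -/
theorem functional_equation (f : CuspForm (Gamma0 N) 2) (s : ℂ) :
    Lam f (2 - s) = - Lam (wN f) s := by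
  have hN : (N : ℂ) ≠ 0 := by exact_mod_cast NeZero.ne N
  rw [Lam, Lam, Λ_fricke]
  have h : (N : ℂ) ^ ((2 - s) / 2) * (N : ℂ) ^ (s - 1) = (N : ℂ) ^ (s / 2) := by
    rw [← Complex.cpow_add _ _ hN]
    congr 1
    ring
  linear_combination (-ModularForm.Λ (k := 2) (by norm_num) (wN f) s) * h

theorem Λ_smul (c : ℂ) (f : CuspForm (Gamma0 N) 2) (s : ℂ) :
    ModularForm.Λ (k := 2) (by norm_num) (c • f) s =
      c * ModularForm.Λ (k := 2) (by norm_num) f s := by
  rw [CuspForm.Λ_eq_mellin (k := 2) (by norm_num) (c • f),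
    CuspForm.Λ_eq_mellin (k := 2) (by norm_num) f, ← smul_eq_mul, ← mellin_const_smul]
  rfl

theorem Lam_smul (c : ℂ) (f : CuspForm (Gamma0 N) 2) (s : ℂ) : Lam (c • f) s = c * Lam f s := by
  rw [Lam, Lam, Λ_smul]
  ring

/-- **Functional equation for newforms**: `Λ(f, 2 - s) = ε Λ(f, s)` with `ε = 1` or `ε = -1`; here `-ε` is the
eigenvalue of the Fricke involution. -/
theorem functional_equation_newform {f : CuspForm (Gamma0 N) 2} (hf : f.IsNewform) :
    ∃ ε : ℂ, (ε = 1 ∨ ε = -1) ∧ wN f = (-ε) • f ∧ ∀ s : ℂ, Lam f (2 - s) = ε * Lam f s := by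
  obtain ⟨c, hc, h⟩ := exists_wN_eq hf
  refine ⟨-c, ?_, by rw [neg_neg, h], fun s => ?_⟩
  · rcases hc with rfl | rfl
    · exact Or.inr rfl
    · exact Or.inl (by norm_num)
  · rw [functional_equation, h, Lam_smul]
    ring

end Fermat.Agent.Cor.LFun
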