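import Mathlib
import Fermat.Agent.H16.LR.CF2
import Fermat.Agent.H16.LR.Integral
import Fermat.Agent.H16.LR.Bound
import Fermat.Agent.AL.Newform
import Fermat.Agent.LM.Bound

/-!
# Rationality of the modular symbols of a newform (Manin, Drinfeld)
(corollary file, not used for S01)

`lam f r s = ∫_s^r f(z) dz` for cusps `r, s`.  If `f` is a newform with rational `a_l` (`l ∤ N`),
the values of `lam f + J (lam f)` and of `lam f - J (lam f)` (`J` induced by `z ↦ -z̄`) are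
rational multiples of one of them.
-/

set_option autoImplicit false

open UpperHalfPlane hiding I
open Matrix ModularGroup CongruenceSubgroup Filter Function ModularFormClass
open scoped MatrixGroups ModularForm Manifold

noncomputable section

namespace Fermat.Agent.Cor.Manin

open Fermat.Agent.H16 Fermat.Agent.H16.LR

variable {N : ℕ} [NeZero N]

/-- Eigen-symbols (whose system is not Eisenstein) come from pairs of eigenforms. -/
theorem exists_forms {G : Cu → Cu → ℂ} (hG : IsSymb N G) (c : ℕ → ℂ)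
    (hT : ∀ l : ℕ, l.Prime → l.Coprime N → (pull ℂ).TT l G = fun r s ↦ c l * G r s)
    (hne : ∃ l : ℕ, l.Prime ∧ l.Coprime N ∧ (N : ℤ) ∣ l - 1 ∧ c l ≠ l + 1) :
    ∃ f1 f2 : CuspForm (Gamma0 N) 2,
      (∀ (l : ℕ) (hl : l.Prime) (hlN : ¬ l ∣ N), CuspForm.heckeTLin 2 hl hlN f1 = c l • f1) ∧
      (∀ (l : ℕ) (hl : l.Prime) (hlN : ¬ l ∣ N), CuspForm.heckeTLin 2 hl hlN f2 = c l • f2) ∧
      G = KK ⇑f1 ⇑f2 := by
  obtain ⟨f1, f2, hf⟩ := KK_surj hG
  have c1 := cus_coe f1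
  have c2 := cus_coe f2
  have i1 := inv_coe f1
  have i2 := inv_coe f2
  set K := KK ⇑f1 ⇑f2 with hK
  have hKs : IsSymb N K := KK_isSymb c1.adm c2.adm i1 i2
  have hBs : IsSymb N (G - K) := by
    refine ⟨fun r s t ↦ ?_, fun γ hγ r s ↦ ?_⟩
    · simp only [Pi.sub_apply]
      rw [← hG.add r s t, ← hKs.add r s t]; ring
    · simp only [Pi.sub_apply]
      rw [hG.inv γ hγ, hKs.inv γ hγ]
  obtain ⟨β, hβ, hB⟩ := exists_bd hBs fun γ hγ ↦ by
    simp only [Pi.sub_apply]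
    rw [hf γ hγ, sub_self]
  have hKG : K = G - bd β := by rw [← hB]; abel
  have e : ∀ (l : ℕ) (hl : l.Prime) (hlN : ¬ l ∣ N) (f : CuspForm (Gamma0 N) 2),
      ⇑(CuspForm.heckeTLin 2 hl hlN f - c l • f) = sla.TT l ⇑f - c l • ⇑f := by
    intro l hl hlN f
    rw [sla_TT_eq hl.ne_zero, ← CuspForm.coe_heckeTLin_apply 2 hl hlN]
    rfl
  have hTf : ∀ (l : ℕ) (hl : l.Prime) (hlN : ¬ l ∣ N),
      CuspForm.heckeTLin 2 hl hlN f1 - c l • f1 = 0 ∧
      CuspForm.heckeTLin 2 hl hlN f2 - c l • f2 = 0 := by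
    intro l hl hlN
    have hl0 := hl.ne_zero
    have hlc : l.Coprime N := (Nat.Prime.coprime_iff_not_dvd hl).mpr hlN
    exact KK_inj _ _ fun γ hγ ↦ by
      rw [e l hl hlN, e l hl hlN, KK_sub_smul (c l) (adm_TT c1.adm hl0) (adm_TT c2.adm hl0)
        c1.adm c2.adm, ← KK_TT c1.adm c2.adm i1 i2 hl0, ← hK, hKG, RA.TT_sub, hT l hl hlc,
        ← RA.map_TT (A := pull1) bd bd_act]
      have : NeZero (N * l) := ⟨mul_ne_zero (NeZero.ne _) hl0⟩
      have h2 := bd_period (RA.TT_inv hlc hl hβ) hγ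
      have h3 := bd_period hβ hγ
      simp only [Pi.sub_apply, h2, h3]
      ring
  refine ⟨f1, f2, fun l hl hlN ↦ sub_eq_zero.mp (hTf l hl hlN).1,
    fun l hl hlN ↦ sub_eq_zero.mp (hTf l hl hlN).2, ?_⟩
  -- the boundary part vanishes
  obtain ⟨l, hl, hlc, hl1, hcl⟩ := hne
  have hlN : ¬ l ∣ N := (Nat.Prime.coprime_iff_not_dvd hl).mp hlc
  have hl0 := hl.ne_zero
  have hTK : (pull ℂ).TT l K = fun r s ↦ c l * K r s := by
    have e1 : sla.TT l ⇑f1 = c l • ⇑f1 := by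
      have h := congrArg (fun f : CuspForm (Gamma0 N) 2 ↦ (⇑f : ℍ → ℂ)) (hTf l hl hlN).1
      beta_reduce at h
      rw [e l hl hlN] at h
      exact sub_eq_zero.mp h
    have e2 : sla.TT l ⇑f2 = c l • ⇑f2 := by
      have h := congrArg (fun f : CuspForm (Gamma0 N) 2 ↦ (⇑f : ℍ → ℂ)) (hTf l hl hlN).2
      beta_reduce at h
      rw [e l hl hlN] at h
      exact sub_eq_zero.mp h
    rw [hK, KK_TT c1.adm c2.adm i1 i2 hl0, e1, e2, KK, lam_smul _ c1.adm, lam_smul _ c2.adm]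
    ext r s
    simp only [KK, Pi.add_apply, Pi.sub_apply, pull_apply]
    ring
  have hTB : (pull ℂ).TT l (bd β) = fun r s ↦ c l * bd β r s := by
    have hBG : bd β = G - K := hB.symm
    rw [hBG, RA.TT_sub, hT l hl hlc, hTK]
    ext r s
    simp only [Pi.sub_apply]
    ring
  have h1 := TT_boundary (k := ℂ) two_ne_zero (β := fun r ↦ 2 * β r) (F := bd β) (M := N)
    (fun γ hγ r ↦ by
      have := congrFun (hβ γ hγ) r
      rw [pull1_apply] at this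
      beta_reduce
      rw [this]) (fun r s ↦ by rw [bd_apply]; ring) hl hl1
  rw [hTB] at h1
  have hb0 : bd β = 0 := by
    ext r s
    have h2 := congrFun (congrFun h1 r) s
    have h3 : (c l - ((l : ℕ) + 1)) * bd β r s = 0 := by linear_combination h2
    exact (mul_eq_zero.mp h3).resolve_left (sub_ne_zero.mpr hcl)
  have h2 : K = G := by rw [hKG, hb0, sub_zero]
  exact h2.symm

/-- There is a prime `l ≡ 1 mod N` with `a_l ≠ l + 1`. -/
theorem exists_prime_ne {f : CuspForm (Gamma0 N) 2} (hf : f.IsNormalizedEigenform) :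
    ∃ l : ℕ, l.Prime ∧ l.Coprime N ∧ (N : ℤ) ∣ l - 1 ∧ qCoeff f l ≠ l + 1 := by
  obtain ⟨l, hlN, hl, h1⟩ := Nat.forall_exists_prime_gt_and_eq_mod
    (q := N) (a := 1) isUnit_one N
  have hnd : ¬ l ∣ N := fun h ↦ absurd (Nat.le_of_dvd (Nat.pos_of_ne_zero (NeZero.ne N)) h)
    (not_le.mpr hlN)
  refine ⟨l, hl, (Nat.Prime.coprime_iff_not_dvd hl).mpr hnd, ?_, fun h ↦ ?_⟩
  · rw [← ZMod.intCast_zmod_eq_zero_iff_dvd]
    push_cast
    rw [h1, sub_self]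
  · have h2 := LM.norm_qCoeff_lt hl hnd hf
    rw [h] at h2
    have h3 : ‖((l : ℂ) + 1)‖ = (l : ℝ) + 1 := by
      have : ((l : ℂ) + 1) = ((l + 1 : ℕ) : ℂ) := by push_cast; ring
      rw [this, Complex.norm_natCast]
      push_cast
      ring
    rw [h3] at h2
    exact lt_irrefl _ h2

/-- The even part of the modular symbol. -/
def lamP (f : ℍ → ℂ) : Cu → Cu → ℂ := lam f + (pull ℂ).act Jm (lam f)

/-- The odd part of the modular symbol. -/
def lamM (f : ℍ → ℂ) : Cu → Cu → ℂ := lam f - (pull ℂ).act Jm (lam f)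

/-- **Multiplicity one for the symbols of a newform.** -/
theorem exists_coeffs {f : CuspForm (Gamma0 N) 2} (hf : f.IsNewform) {G : Cu → Cu → ℂ}
    (hG : IsSymb N G)
    (hT : ∀ l : ℕ, l.Prime → l.Coprime N → (pull ℂ).TT l G = fun r s ↦ qCoeff f l * G r s) :
    ∃ c₁ c₂ : ℂ, ∀ r s, G r s = c₁ * lamP ⇑f r s + c₂ * lamM ⇑f r s := by
  obtain ⟨f1, f2, h1, h2, h3⟩ := exists_forms hG (fun l ↦ qCoeff f l) hT
    (exists_prime_ne hf.1)
  obtain ⟨a1, rfl⟩ : ∃ a : ℂ, f1 = a • f :=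
    ⟨_, AL.strong_multiplicity_one hf one_ne_zero f1 fun l hl hlN _ ↦ h1 l hl hlN⟩
  obtain ⟨a2, rfl⟩ : ∃ a : ℂ, f2 = a • f :=
    ⟨_, AL.strong_multiplicity_one hf one_ne_zero f2 fun l hl hlN _ ↦ h2 l hl hlN⟩
  refine ⟨a1, a2, fun r s ↦ ?_⟩
  have k1 : ⇑(a1 • f) = a1 • (⇑f : ℍ → ℂ) := rfl
  have k2 : ⇑(a2 • f) = a2 • (⇑f : ℍ → ℂ) := rfl
  rw [h3, KK, k1, k2, lam_smul _ (adm_coe f), lam_smul _ (adm_coe f)]
  simp only [lamP, lamM, Pi.add_apply, Pi.sub_apply, pull_apply]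
  ring

/-! ### The two eigen-symbols -/

theorem isSymb_lamP (f : CuspForm (Gamma0 N) 2) : IsSymb N (lamP ⇑f) := by
  have h1 := isSymb_lam f
  have h2 := h1.J
  refine ⟨fun r s t ↦ ?_, fun γ hγ r s ↦ ?_⟩
  · simp only [lamP, Pi.add_apply]
    rw [← h1.add r s t, ← h2.add r s t]; ring
  · simp only [lamP, Pi.add_apply]
    rw [h1.inv γ hγ, h2.inv γ hγ]

theorem isSymb_lamM (f : CuspForm (Gamma0 N) 2) : IsSymb N (lamM ⇑f) := by
  have h1 := isSymb_lam f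
  have h2 := h1.J
  refine ⟨fun r s t ↦ ?_, fun γ hγ r s ↦ ?_⟩
  · simp only [lamM, Pi.sub_apply]
    rw [← h1.add r s t, ← h2.add r s t]; ring
  · simp only [lamM, Pi.sub_apply]
    rw [h1.inv γ hγ, h2.inv γ hγ]

theorem TT_lamP {f : CuspForm (Gamma0 N) 2} (hf : f.IsNormalizedEigenform) {l : ℕ}
    (hl : l.Prime) (hlN : l.Coprime N) :
    (pull ℂ).TT l (lamP ⇑f) = fun r s ↦ qCoeff f l * lamP ⇑f r s := by
  have j1 := (isSymb_iff.mp (isSymb_lam f)).2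
  rw [lamP, RA.TT_add, RA.TT_J hl.ne_zero j1, TT_lam hf hl hlN]
  ext r s
  simp only [Pi.add_apply, pull_apply]
  ring

theorem TT_lamM {f : CuspForm (Gamma0 N) 2} (hf : f.IsNormalizedEigenform) {l : ℕ}
    (hl : l.Prime) (hlN : l.Coprime N) :
    (pull ℂ).TT l (lamM ⇑f) = fun r s ↦ qCoeff f l * lamM ⇑f r s := by
  have j1 := (isSymb_iff.mp (isSymb_lam f)).2
  rw [lamM, RA.TT_sub, RA.TT_J hl.ne_zero j1, TT_lam hf hl hlN]
  ext r s
  simp only [Pi.sub_apply, pull_apply]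
  ring

theorem lamP_J (f : ℍ → ℂ) (r s : Cu) : lamP f (Jm • r) (Jm • s) = lamP f r s := by
  simp only [lamP, Pi.add_apply, pull_apply]
  rw [← mul_smul, ← mul_smul, Jm_mul_Jm, one_smul, one_smul]
  ring

theorem lamM_J (f : ℍ → ℂ) (r s : Cu) : lamM f (Jm • r) (Jm • s) = - lamM f r s := by
  simp only [lamM, Pi.sub_apply, pull_apply]
  rw [← mul_smul, ← mul_smul, Jm_mul_Jm, one_smul, one_smul]
  ring

/-- A closed period of the even symbol does not vanish. -/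
theorem exists_lamP_ne {f : CuspForm (Gamma0 N) 2} (hf : f ≠ 0) :
    ∃ γ ∈ Gamma0 N, lamP ⇑f OnePoint.infty (ι γ • (OnePoint.infty : Cu)) ≠ 0 := by
  by_contra h
  push Not at h
  refine hf (KK_inj f 0 fun γ hγ ↦ ?_).1
  have h0 : lam ⇑(0 : CuspForm (Gamma0 N) 2) = 0 := by
    have h1 := lam_smul (g := (0 : ℍ → ℂ)) 0 Adm.zero
    rw [zero_smul] at h1
    have h2 : (⇑(0 : CuspForm (Gamma0 N) 2) : ℍ → ℂ) = 0 := rfl
    rw [h2, h1]
    ext r s
    simp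
  rw [KK, h0]
  simp only [Pi.add_apply, Pi.sub_apply, pull_apply, Pi.zero_apply, sub_zero, add_zero]
  exact h γ hγ

/-- A closed period of the odd symbol does not vanish. -/
theorem exists_lamM_ne {f : CuspForm (Gamma0 N) 2} (hf : f ≠ 0) :
    ∃ γ ∈ Gamma0 N, lamM ⇑f OnePoint.infty (ι γ • (OnePoint.infty : Cu)) ≠ 0 := by
  by_contra h
  push Not at h
  refine hf (KK_inj 0 f fun γ hγ ↦ ?_).2
  have h0 : lam ⇑(0 : CuspForm (Gamma0 N) 2) = 0 := by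
    have h1 := lam_smul (g := (0 : ℍ → ℂ)) 0 Adm.zero
    rw [zero_smul] at h1
    have h2 : (⇑(0 : CuspForm (Gamma0 N) 2) : ℍ → ℂ) = 0 := rfl
    rw [h2, h1]
    ext r s
    simp
  rw [KK, h0]
  simp only [Pi.add_apply, Pi.sub_apply, pull_apply, Pi.zero_apply, zero_add]
  exact h γ hγ

/-! ### Rationality -/

/-- Composition with a `ℚ`-linear function. -/
def comp (φ : ℂ →ₗ[ℚ] ℚ) (F : Cu → Cu → ℂ) : Cu → Cu → ℂ := fun r s ↦ ((φ (F r s) : ℚ) : ℂ)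

omit [NeZero N] in
theorem isSymb_comp (φ : ℂ →ₗ[ℚ] ℚ) {F : Cu → Cu → ℂ} (hF : IsSymb N F) :
    IsSymb N (comp φ F) := by
  refine ⟨fun r s t ↦ ?_, fun γ hγ r s ↦ ?_⟩
  · simp only [comp]
    rw [← hF.add r s t, map_add, Rat.cast_add]
  · simp only [comp]
    rw [hF.inv γ hγ]

theorem TT_comp (φ : ℂ →ₗ[ℚ] ℚ) {F : Cu → Cu → ℂ} {l : ℕ} {a : ℚ}
    (hF : (pull ℂ).TT l F = fun r s ↦ (a : ℂ) * F r s) :
    (pull ℂ).TT l (comp φ F) = fun r s ↦ (a : ℂ) * comp φ F r s := by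
  ext r s
  have h1 := congrFun (congrFun hF r) s
  have e1 : ∀ G : Cu → Cu → ℂ, (pull ℂ).TT l G r s =
      G (gq l 0 0 1 • r) (gq l 0 0 1 • s) +
      ∑ b ∈ Finset.range l, G (gq 1 b 0 l • r) (gq 1 b 0 l • s) := by
    intro G
    simp only [RA.TT, RA.UU, Pi.add_apply, Finset.sum_apply, pull_apply]
  rw [e1] at h1 ⊢
  simp only [comp]
  rw [← Rat.cast_sum, ← Rat.cast_add, ← map_sum, ← map_add, h1]
  have h2 : (a : ℂ) * F r s = a • F r s := by
    rw [Rat.smul_def]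
  rw [h2, map_smul, smul_eq_mul, Rat.cast_mul]

/-- **Rationality of the even modular symbol** of a newform with rational eigenvalues. -/
theorem lamP_rat {f : CuspForm (Gamma0 N) 2} (hf : f.IsNewform) {a : ℕ → ℚ}
    (ha : ∀ l : ℕ, l.Prime → l.Coprime N → qCoeff f l = a l) {r₀ s₀ : Cu}
    (h0 : lamP ⇑f r₀ s₀ ≠ 0) (r s : Cu) : ∃ x : ℚ, lamP ⇑f r s = x * lamP ⇑f r₀ s₀ := by
  obtain ⟨φ, hφ⟩ : ∃ φ : ℂ →ₗ[ℚ] ℚ, φ (lamP ⇑f r₀ s₀) ≠ 0 := by
    by_contra h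
    push Not at h
    exact h0 ((Module.forall_dual_apply_eq_zero_iff ℚ _).mp h)
  obtain ⟨c₁, c₂, h1⟩ := exists_coeffs hf (isSymb_comp φ (isSymb_lamP f)) fun l hl hlN ↦ by
    rw [ha l hl hlN]
    refine TT_comp φ ?_
    rw [TT_lamP hf.1 hl hlN, ha l hl hlN]
  have h2 : ∀ r s, comp φ (lamP ⇑f) r s = c₁ * lamP ⇑f r s := by
    intro r s
    have h3 := h1 r s
    have h4 := h1 (Jm • r) (Jm • s)
    rw [lamP_J, lamM_J] at h4
    have h5 : comp φ (lamP ⇑f) (Jm • r) (Jm • s) = comp φ (lamP ⇑f) r s := by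
      simp only [comp, lamP_J]
    rw [h5] at h4
    linear_combination (h3 + h4) / 2
  have h6 := h2 r₀ s₀
  have h7 := h2 r s
  simp only [comp] at h6 h7
  have hφ' : ((φ (lamP ⇑f r₀ s₀) : ℚ) : ℂ) ≠ 0 := by exact_mod_cast hφ
  have hc : c₁ ≠ 0 := by
    rintro rfl
    rw [zero_mul] at h6
    exact hφ' h6
  refine ⟨φ (lamP ⇑f r s) / φ (lamP ⇑f r₀ s₀), ?_⟩
  rw [Rat.cast_div, h6, h7]
  field_simp

/-- **Rationality of the odd modular symbol** of a newform with rational eigenvalues. -/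
theorem lamM_rat {f : CuspForm (Gamma0 N) 2} (hf : f.IsNewform) {a : ℕ → ℚ}
    (ha : ∀ l : ℕ, l.Prime → l.Coprime N → qCoeff f l = a l) {r₀ s₀ : Cu}
    (h0 : lamM ⇑f r₀ s₀ ≠ 0) (r s : Cu) : ∃ x : ℚ, lamM ⇑f r s = x * lamM ⇑f r₀ s₀ := by
  obtain ⟨φ, hφ⟩ : ∃ φ : ℂ →ₗ[ℚ] ℚ, φ (lamM ⇑f r₀ s₀) ≠ 0 := by
    by_contra h
    push Not at h
    exact h0 ((Module.forall_dual_apply_eq_zero_iff ℚ _).mp h)
  obtain ⟨c₁, c₂, h1⟩ := exists_coeffs hf (isSymb_comp φ (isSymb_lamM f)) fun l hl hlN ↦ by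
    rw [ha l hl hlN]
    refine TT_comp φ ?_
    rw [TT_lamM hf.1 hl hlN, ha l hl hlN]
  have h2 : ∀ r s, comp φ (lamM ⇑f) r s = c₂ * lamM ⇑f r s := by
    intro r s
    have h3 := h1 r s
    have h4 := h1 (Jm • r) (Jm • s)
    rw [lamP_J, lamM_J] at h4
    have h5 : comp φ (lamM ⇑f) (Jm • r) (Jm • s) = - comp φ (lamM ⇑f) r s := by
      simp only [comp, lamM_J, map_neg, Rat.cast_neg]
    rw [h5] at h4
    linear_combination (h3 - h4) / 2
  have h6 := h2 r₀ s₀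
  have h7 := h2 r s
  simp only [comp] at h6 h7
  have hφ' : ((φ (lamM ⇑f r₀ s₀) : ℚ) : ℂ) ≠ 0 := by exact_mod_cast hφ
  have hc : c₂ ≠ 0 := by
    rintro rfl
    rw [zero_mul] at h6
    exact hφ' h6
  refine ⟨φ (lamM ⇑f r s) / φ (lamM ⇑f r₀ s₀), ?_⟩
  rw [Rat.cast_div, h6, h7]
  field_simp

/-! ### The Hecke relation for the path from `0` to `∞` -/

omit [NeZero N] in
/-- `b / l` is equivalent to `0` under `Γ₀(N)` if `l ∤ N`. -/
theorem exists_gamma {l : ℕ} (hl : l.Prime) (hlN : l.Coprime N) {b : ℕ} (hb : b < l) :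
    ∃ γ ∈ Gamma0 N, ι γ • ((0 : ℚ) : Cu) = cv (b : ℚ) (l : ℚ) := by
  have hl0 : (l : ℚ) ≠ 0 := by exact_mod_cast hl.ne_zero
  rcases Nat.eq_zero_or_pos b with rfl | hb0
  · refine ⟨1, one_mem _, ?_⟩
    rw [ι_one, one_smul, Nat.cast_zero, cv_of_ne hl0, zero_div]
  · have h1 : IsCoprime (l : ℤ) ((b : ℤ) * N) := by
      have hbl : l.Coprime b := (Nat.Prime.coprime_iff_not_dvd hl).mpr fun h ↦
        absurd (Nat.le_of_dvd hb0 h) (not_le.mpr hb)
      exact_mod_cast (Nat.isCoprime_iff_coprime.mpr (hbl.mul_right hlN))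
    obtain ⟨u, v, huv⟩ := h1
    refine ⟨sl u b (-(N * v)) l (by linear_combination huv), sl_mem _ ?_, ?_⟩
    · exact (dvd_neg).mpr (dvd_mul_right _ _)
    · rw [ι_sl, zero_eq, gq_smul_cv ?_ (Or.inr one_ne_zero)]
      · push_cast
        congr 1 <;> ring
      · have : ((u * l - b * (-(N * v)) : ℤ) : ℚ) = 1 := by
          rw [show u * l - b * (-(N * v)) = (1 : ℤ) by linear_combination huv]
          norm_num
        push_cast at this ⊢
        rw [this]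
        exact one_ne_zero

omit [NeZero N] in
/-- The value of `T_l G` on the path from `0` to `∞`. -/
theorem TT_zero_infty {G : Cu → Cu → ℂ} (hG : IsSymb N G) {l : ℕ} (hl : l.Prime)
    (hlN : l.Coprime N) :
    ∃ γ : ℕ → SL(2, ℤ), (∀ b, γ b ∈ Gamma0 N) ∧
      (pull ℂ).TT l G ((0 : ℚ) : Cu) OnePoint.infty =
        (l + 1) * G ((0 : ℚ) : Cu) OnePoint.infty -
          ∑ b ∈ Finset.range l, G OnePoint.infty (ι (γ b) • (OnePoint.infty : Cu)) := by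
  classical
  have hl0 : (l : ℚ) ≠ 0 := by exact_mod_cast hl.ne_zero
  have hex : ∀ b : ℕ, ∃ γ : SL(2, ℤ), γ ∈ Gamma0 N ∧
      (b < l → ι γ • ((0 : ℚ) : Cu) = cv (b : ℚ) (l : ℚ)) := by
    intro b
    by_cases hb : b < l
    · obtain ⟨γ, h1, h2⟩ := exists_gamma hl hlN hb
      exact ⟨γ, h1, fun _ ↦ h2⟩
    · exact ⟨1, one_mem _, fun h ↦ absurd h hb⟩
  choose γ hγ hγ' using hex
  refine ⟨γ, hγ, ?_⟩
  have e1 : (pull ℂ).TT l G ((0 : ℚ) : Cu) OnePoint.infty =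
      G (gq l 0 0 1 • ((0 : ℚ) : Cu)) (gq l 0 0 1 • (OnePoint.infty : Cu)) +
      ∑ b ∈ Finset.range l, G (gq 1 b 0 l • ((0 : ℚ) : Cu)) (gq 1 b 0 l • (OnePoint.infty : Cu)) := by
    simp only [RA.TT, RA.UU, Pi.add_apply, Finset.sum_apply, pull_apply]
  have e2 : gq l 0 0 1 • ((0 : ℚ) : Cu) = ((0 : ℚ) : Cu) := by
    rw [zero_eq, gq_smul_cv (by simpa using hl0) (Or.inr one_ne_zero)]
    congr 1 <;> ring
  have e3 : gq l 0 0 1 • (OnePoint.infty : Cu) = OnePoint.infty := by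
    rw [infty_eq, gq_smul_cv (by simpa using hl0) (Or.inl one_ne_zero)]
    simp [cv]
  have e4 : ∀ b : ℕ, gq 1 b 0 l • ((0 : ℚ) : Cu) = cv (b : ℚ) (l : ℚ) := by
    intro b
    rw [zero_eq, gq_smul_cv (by simpa using hl0) (Or.inr one_ne_zero)]
    congr 1 <;> ring
  have e5 : ∀ b : ℕ, gq 1 b 0 l • (OnePoint.infty : Cu) = OnePoint.infty := by
    intro b
    rw [infty_eq, gq_smul_cv (by simpa using hl0) (Or.inl one_ne_zero)]
    simp [cv]
  have e6 : ∀ b ∈ Finset.range l, G (cv (b : ℚ) (l : ℚ)) OnePoint.infty =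
      G ((0 : ℚ) : Cu) OnePoint.infty - G OnePoint.infty (ι (γ b) • (OnePoint.infty : Cu)) := by
    intro b hb
    rw [← hγ' b (Finset.mem_range.mp hb), ← hG.add (ι (γ b) • ((0 : ℚ) : Cu))
      (ι (γ b) • (OnePoint.infty : Cu)) OnePoint.infty, hG.inv (γ b) (hγ b),
      hG.symm OnePoint.infty (ι (γ b) • (OnePoint.infty : Cu))]
    ring
  rw [e1, e2, e3]
  simp only [e4, e5]
  rw [Finset.sum_congr rfl e6, Finset.sum_sub_distrib, Finset.sum_const, Finset.card_range,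
    nsmul_eq_mul]
  ring

/-- **The Hecke relation** for the path from `0` to `∞`: `(l + 1 - a_l) λ(0, ∞)` is a closed
period. -/
theorem hecke_relation {f : CuspForm (Gamma0 N) 2} (hf : f.IsNormalizedEigenform) {l : ℕ}
    (hl : l.Prime) (hlN : l.Coprime N) :
    ∃ γ ∈ Gamma0 N, (l + 1 - qCoeff f l) * lam ⇑f ((0 : ℚ) : Cu) OnePoint.infty =
      lam ⇑f OnePoint.infty (ι γ • (OnePoint.infty : Cu)) := by
  obtain ⟨γ, hγ, h1⟩ := TT_zero_infty (isSymb_lam f) hl hlN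
  rw [TT_lam hf hl hlN] at h1
  have h2 : ∀ n : ℕ, ∃ δ ∈ Gamma0 N, ∑ b ∈ Finset.range n,
      lam ⇑f OnePoint.infty (ι (γ b) • (OnePoint.infty : Cu)) =
      lam ⇑f OnePoint.infty (ι δ • (OnePoint.infty : Cu)) := by
    intro n
    induction n with
    | zero =>
      refine ⟨1, one_mem _, ?_⟩
      rw [Finset.range_zero, Finset.sum_empty, ι_one, one_smul, (isSymb_lam f).self]
    | succ n ih =>
      obtain ⟨δ, hδ, h3⟩ := ih
      refine ⟨δ * γ n, mul_mem hδ (hγ n), ?_⟩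
      rw [Finset.sum_range_succ, h3, ι_mul_smul,
        ← (isSymb_lam f).add OnePoint.infty (ι δ • (OnePoint.infty : Cu))
          (ι δ • ι (γ n) • (OnePoint.infty : Cu)), (isSymb_lam f).inv δ hδ]
  obtain ⟨δ, hδ, h3⟩ := h2 l
  refine ⟨δ, hδ, ?_⟩
  rw [← h3]
  linear_combination -h1

end Fermat.Agent.Cor.Manin
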