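import Mathlib
import Fermat.Agent.Cor.Manin
import Fermat.Agent.Cor.RootNumber
import Fermat.Agent.Cor.LFun
import Fermat.Agent.H01.Finite

/-!
# The central value of the L-function of a newform with rational coefficients
(corollary file, not used for S01)

`L(f, 1)` is a rational multiple of the least positive real period of `2πi f(z) dz`, and
`(l + 1 - a_l) L(f, 1)` is an integral multiple for every prime `l ∤ N`.
-/

set_option autoImplicit false

open UpperHalfPlane hiding I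
open Complex CongruenceSubgroup Filter Function ModularFormClass MeasureTheory Set
open scoped MatrixGroups ModularForm Manifold Topology ComplexConjugate Real

noncomputable section

namespace Fermat.Agent.Cor.CentralValue

open Fermat.Agent.H16 Fermat.Agent.H16.LR Fermat.Agent.Cor.Manin
open ModularCurve.Period (jConjSL)

variable {N : ℕ} [NeZero N]

/-! ### Integrality of all coefficients -/

/-- If the `a_l`, `l ∤ N`, of a newform are integers, all coefficients are integers. -/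
theorem exists_int_qCoeff {f : CuspForm (Gamma0 N) 2} (hf : f.IsNewform)
    (ha : ∀ l : ℕ, l.Prime → ¬ l ∣ N → ∃ z : ℤ, qCoeff f l = z) (n : ℕ) :
    ∃ z : ℤ, qCoeff f n = z := by
  have hbad := RootNumber.newformBadPrimeCoeff (N := N)
  have hprime : ∀ p : ℕ, p.Prime → ∃ z : ℤ, qCoeff f p = z := by
    intro p hp
    by_cases hpN : p ∣ N
    · have h1 := hbad f hf p hp hpN
      by_cases h2 : p ^ 2 ∣ N
      · exact ⟨0, by rw [h1.2 h2, Int.cast_zero]⟩
      · rcases sq_eq_one_iff.mp (h1.1 h2) with h3 | h3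
        · exact ⟨1, by rw [h3, Int.cast_one]⟩
        · exact ⟨-1, by rw [h3, Int.cast_neg, Int.cast_one]⟩
    · exact ha p hp hpN
  have hpow : ∀ p : ℕ, p.Prime → ∀ r : ℕ, (∃ z : ℤ, qCoeff f (p ^ r) = z) ∧
      ∃ z : ℤ, qCoeff f (p ^ (r + 1)) = z := by
    intro p hp r
    induction r with
    | zero =>
      refine ⟨⟨1, ?_⟩, ?_⟩
      · rw [pow_zero, hf.1.qCoeff_one, Int.cast_one]
      · rw [zero_add, pow_one]
        exact hprime p hp
    | succ r ih =>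
      refine ⟨ih.2, ?_⟩
      obtain ⟨⟨x, hx⟩, ⟨y, hy⟩⟩ := ih
      obtain ⟨w, hw⟩ := hprime p hp
      by_cases hpN : p ∣ N
      · refine ⟨w * y, ?_⟩
        rw [hf.1.qCoeff_prime_pow_of_dvd p r hp hpN, hw, hy, Int.cast_mul]
      · refine ⟨w * y - p * x, ?_⟩
        rw [hf.1.qCoeff_prime_pow_of_not_dvd p r hp hpN, hw, hy, hx]
        push_cast
        ring
  induction n using Nat.recOnPosPrimePosCoprime with
  | prime_pow p r hp hr =>
    exact (hpow p hp r).1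
  | zero =>
    refine ⟨0, ?_⟩
    rw [Int.cast_zero]
    exact H22.cusp_qCoeff_zero f
  | one => exact ⟨1, by rw [hf.1.qCoeff_one, Int.cast_one]⟩
  | coprime a b ha hb hab iha ihb =>
    obtain ⟨x, hx⟩ := iha
    obtain ⟨y, hy⟩ := ihb
    exact ⟨x * y, by rw [hf.1.qCoeff_mul_of_coprime a b hab, hx, hy, Int.cast_mul]⟩

/-! ### Complex conjugation -/

theorem slash_J_apply (g : ℍ → ℂ) (τ : ℍ) : (g ∣[(2 : ℤ)] J) τ = conj (g (J • τ)) := by
  simp [ModularForm.slash_def]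

/-- A form with real coefficients is invariant under `z ↦ -z̄`. -/
theorem slash_J_eq {f : CuspForm (Gamma0 N) 2} (h : ∀ n, conj (qCoeff f n) = qCoeff f n) :
    (⇑f : ℍ → ℂ) ∣[(2 : ℤ)] J = ⇑f := by
  ext τ
  rw [slash_J_apply]
  have hh : (1 : ℝ) ∈ (Gamma0 N : Subgroup (GL (Fin 2) ℝ)).strictPeriods := by
    simp [strictPeriods_Gamma0]
  have h1 := ModularForm.hasSum_qExpansion f one_pos hh (J • τ)
  have h2 := ModularForm.hasSum_qExpansion f one_pos hh τ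
  have h3 := h1.map (starRingEnd ℂ) Complex.continuous_conj
  have h4 : (⇑(starRingEnd ℂ) ∘ fun m ↦ (qExpansion 1 ⇑f).coeff m * Periodic.qParam 1 (J • τ : ℍ) ^ m) =
      fun m ↦ (qExpansion 1 ⇑f).coeff m * Periodic.qParam 1 τ ^ m := by
    ext m
    have h5 : conj (Periodic.qParam 1 (J • τ : ℍ)) = Periodic.qParam 1 (τ : ℂ) := by
      rw [Periodic.qParam, Periodic.qParam, ← Complex.exp_conj, coe_J_smul]
      congr 1
      simp
      exact Or.inl (map_ofNat (starRingEnd ℂ) 2)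
    have h6 : conj ((qExpansion 1 ⇑f).coeff m) = (qExpansion 1 ⇑f).coeff m := h m
    rw [Function.comp_apply, map_mul, map_pow, h5, h6]
  rw [h4] at h3
  exact h3.unique h2

theorem isPrim_slash_J {g F : ℍ → ℂ} (h : IsPrim g F) :
    IsPrim (g ∣[(2 : ℤ)] J) (fun τ ↦ - conj (F (J • τ))) where
  deriv τ := by
    rw [slash_J_apply]
    have h1 := h.deriv (J • τ)
    rw [coe_J_smul] at h1
    have h2 : HasDerivAt (fun w : ℂ ↦ (F ∘ ofComplex) (-w)) (-(g (J • τ))) (conj (τ : ℂ)) := by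
      have := h1.comp (conj (τ : ℂ)) (hasDerivAt_neg (conj (τ : ℂ)))
      rw [mul_neg_one] at this
      exact this
    have h3 := h2.conj_conj.neg
    rw [Complex.conj_conj, map_neg, neg_neg] at h3
    refine h3.congr_of_eventuallyEq ?_
    filter_upwards [isOpen_upperHalfPlaneSet.mem_nhds τ.im_pos] with w hw
    have h4 : ((ofComplex w : ℍ) : ℂ) = w := ofComplex_eq hw
    simp only [Function.comp_apply, Pi.neg_apply]
    rw [UpperHalfPlane.J_smul, h4]
  lim x := by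
    have h1 := (h.lim (-x))
    have h2 := ((Complex.continuous_conj.tendsto 0).comp h1).neg
    rw [map_zero, neg_zero] at h2
    refine h2.congr' ?_
    filter_upwards [eventually_gt_atTop 0] with y hy
    have h4 : ((ofComplex (x + y * I) : ℍ) : ℂ) = x + y * I := ofComplex_eq (by simpa using hy)
    simp only [Function.comp_apply]
    rw [UpperHalfPlane.J_smul, h4]
    congr 4
    simp
    ring

theorem mapGL_jConj (γ : SL(2, ℤ)) :
    J * (Matrix.SpecialLinearGroup.mapGL ℝ (jConjSL γ)) = Matrix.SpecialLinearGroup.mapGL ℝ γ * J := by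
  apply Units.ext
  ext i j
  fin_cases i <;> fin_cases j <;>
    simp [J, Matrix.mul_apply, Fin.sum_univ_two]

/-- Conjugation of periods. -/
theorem per_jConj {f : CuspForm (Gamma0 N) 2} (h : ∀ n, conj (qCoeff f n) = qCoeff f n)
    (γ : SL(2, ℤ)) :
    per ⇑f (Matrix.SpecialLinearGroup.mapGL ℝ (jConjSL γ)) =
      - conj (per ⇑f (Matrix.SpecialLinearGroup.mapGL ℝ γ)) := by
  have hf := slash_J_eq h
  have ha := adm_coe f
  set g := Matrix.SpecialLinearGroup.mapGL ℝ γ with hg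
  set g' := Matrix.SpecialLinearGroup.mapGL ℝ (jConjSL γ) with hg'
  have e1 : J * g' = g * J := mapGL_jConj γ
  have h1 : ∀ τ : ℍ, prim ⇑f τ = - conj (prim ⇑f (J • τ)) := by
    have h2 := isPrim_slash_J ha.hasPrim.isPrim
    rw [hf] at h2
    intro τ
    exact congrFun h2.prim_eq τ
  have h3 : (⇑f : ℍ → ℂ) ∣[(2 : ℤ)] g' = ((⇑f : ℍ → ℂ) ∣[(2 : ℤ)] g) ∣[(2 : ℤ)] J := by
    rw [← SlashAction.slash_mul, ← e1, SlashAction.slash_mul, hf]
  have h4 : ∀ τ : ℍ, prim ((⇑f : ℍ → ℂ) ∣[(2 : ℤ)] g') τ =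
      - conj (prim ((⇑f : ℍ → ℂ) ∣[(2 : ℤ)] g) (J • τ)) := by
    intro τ
    rw [h3]
    exact congrFun (isPrim_slash_J (ha g (mapGL_mem γ)).isPrim).prim_eq τ
  rw [← per_eq ha (mapGL_mem (jConjSL γ)) UpperHalfPlane.I,
    ← per_eq ha (mapGL_mem γ) (J • UpperHalfPlane.I), ← hg, ← hg', h4, h1 (g' • UpperHalfPlane.I),
    ← mul_smul, ← mul_smul, e1, map_sub]
  ring

/-- Conjugation of modular symbols. -/
theorem lam_conj {f : CuspForm (Gamma0 N) 2} (h : ∀ n, conj (qCoeff f n) = qCoeff f n)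
    (r s : Cu) : lam ⇑f (Jm • r) (Jm • s) = - conj (lam ⇑f r s) := by
  have h1 : ∀ r : Cu, rhoF ⇑f (Jm • r) = - conj (rhoF ⇑f r) := by
    intro r
    obtain ⟨γ, rfl⟩ := exists_smul_infty r
    rw [← mul_smul, Jm_ι, mul_smul, Jm_smul_infty, rhoF_eq (adm_coe f) (mq_ι_mem _),
      rhoF_eq (adm_coe f) (mq_ι_mem _), mq_ι, mq_ι, per_jConj h, map_neg]
  rw [lam, lam, h1, h1, map_sub]
  ring

/-! ### The central value as a period -/

theorem lam_zero_infty (f : CuspForm (Gamma0 N) 2) :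
    lam ⇑f ((0 : ℚ) : Cu) OnePoint.infty =
      per ⇑f (Matrix.SpecialLinearGroup.mapGL ℝ ModularGroup.S) := by
  rw [lam, rhoF_infty (adm_coe f), ← S_infty, rhoF_eq (adm_coe f) (mq_ι_mem _), mq_ι]
  ring

/-- `∫_0^∞ f(it) dt` is a value of the modular symbol. -/
theorem integral_eq (f : CuspForm (Gamma0 N) 2)
    (hint : IntegrableOn (fun t : ℝ ↦ f (ofComplex (I * t))) (Ioi 0)) :
    ∫ t in Ioi (0 : ℝ), I * f (ofComplex (I * t)) =
      - per ⇑f (Matrix.SpecialLinearGroup.mapGL ℝ ModularGroup.S) := by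
  set g := Matrix.SpecialLinearGroup.mapGL ℝ ModularGroup.S with hg
  have ha := adm_coe f
  let G : ℝ → ℂ := fun t ↦ if t ≤ 0 then per ⇑f g else prim ⇑f (ofComplex (I * t))
  have hI : ∀ t : ℝ, 0 < t → ((ofComplex (I * t) : ℍ) : ℂ) = I * t := fun t ht ↦
    ofComplex_eq (by simpa using ht)
  have hG0 : G 0 = per ⇑f g := if_pos le_rfl
  have hGpos : ∀ t : ℝ, 0 < t → G t = prim ⇑f (ofComplex (I * t)) := fun t ht ↦
    if_neg (not_le.mpr ht)
  have hderiv : ∀ x ∈ Ioi (0 : ℝ), HasDerivAt G (I * f (ofComplex (I * x))) x := by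
    intro x hx
    have h1 := ha.hasPrim.isPrim.deriv (ofComplex (I * x))
    rw [hI x hx] at h1
    have h2 : HasDerivAt (fun w : ℂ ↦ (prim ⇑f ∘ ofComplex) (I * w))
        (f (ofComplex (I * x)) * I) (x : ℂ) := by
      have h3 : HasDerivAt (fun w : ℂ ↦ I * w) I (x : ℂ) := by
        simpa using (hasDerivAt_id (x : ℂ)).const_mul I
      exact h1.comp (x : ℂ) h3
    have h4 := h2.comp_ofReal
    rw [mul_comm] at h4
    refine h4.congr_of_eventuallyEq ?_
    filter_upwards [lt_mem_nhds hx] with t ht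
    rw [hGpos t ht]
    rfl
  have hcont : ContinuousWithinAt G (Ici 0) 0 := by
    rw [← continuousWithinAt_Ioi_iff_Ici, ContinuousWithinAt, hG0]
    have h1 := (ha g (mapGL_mem _)).isPrim.lim 0
    have h2 := (h1.comp (tendsto_inv_nhdsGT_zero (𝕜 := ℝ))).const_add (per ⇑f g)
    rw [add_zero] at h2
    refine h2.congr' ?_
    filter_upwards [self_mem_nhdsWithin] with t ht
    have ht' : (0 : ℝ) < t := ht
    have ht0 : (t : ℂ) ≠ 0 := by exact_mod_cast ht'.ne'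
    rw [hGpos t ht']
    simp only [Function.comp_apply]
    have h3 := per_eq ha (mapGL_mem ModularGroup.S) (ofComplex (((0 : ℝ) : ℂ) + ((t⁻¹ : ℝ) : ℂ) * I))
    have h4 : (g • (ofComplex (((0 : ℝ) : ℂ) + ((t⁻¹ : ℝ) : ℂ) * I) : ℍ)) = ofComplex (I * t) := by
      apply UpperHalfPlane.ext
      rw [hI t ht', hg]
      have h5 := LFun.coe_S_smul (ofComplex (((0 : ℝ) : ℂ) + ((t⁻¹ : ℝ) : ℂ) * I))
      have h6 : ((ofComplex (((0 : ℝ) : ℂ) + ((t⁻¹ : ℝ) : ℂ) * I) : ℍ) : ℂ) = (t : ℂ)⁻¹ * I := by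
        rw [ofComplex_eq (by simpa using ht')]
        push_cast
        ring
      rw [h6] at h5
      refine h5.trans ?_
      have hI0 := I_ne_zero
      field_simp
      rw [I_sq]
    rw [← hg, h4] at h3
    rw [← h3]
    ring
  have hlim : Tendsto G atTop (𝓝 0) := by
    have h1 := ha.hasPrim.isPrim.lim 0
    refine h1.congr' ?_
    filter_upwards [eventually_gt_atTop 0] with t ht
    rw [hGpos t ht]
    simp only [Function.comp_apply]
    congr 2
    push_cast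
    ring
  have key := integral_Ioi_of_hasDerivAt_of_tendsto hcont hderiv (hint.const_mul I) hlim
  rw [key, hG0, zero_sub]

/-- **The central value**: `L(f, 1) = 2πi λ(0, ∞)`. -/
theorem LF_one (f : CuspForm (Gamma0 N) 2) :
    LFun.LF f 1 = 2 * π * I * lam ⇑f ((0 : ℚ) : Cu) OnePoint.infty := by
  have hk : (0 : ℤ) < 2 := by norm_num
  have hm := ((CuspForm.isStrongFEPair hk f).hasMellin 1).1
  have hint : IntegrableOn (fun t : ℝ ↦ f (ofComplex (I * t))) (Ioi 0) := by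
    have h1 : IntegrableOn (fun t : ℝ ↦ (t : ℂ) ^ ((1 : ℂ) - 1) •
        (ModularForm.weakFEPair hk f).f t) (Ioi 0) := hm
    simpa using h1
  have h1 : ModularForm.Λ hk f 1 = ∫ t in Ioi (0 : ℝ), f (ofComplex (I * t)) := by
    rw [CuspForm.Λ_eq_mellin, mellin]
    simp
  have h2 := integral_eq f hint
  rw [integral_const_mul, ← h1, ← lam_zero_infty] at h2
  rw [LFun.LF, ModularForm.L]
  have h3 : (2 / Gammaℂ 1 : ℂ) = 2 * π := by
    rw [Gammaℂ]
    simp only [Complex.Gamma_one, mul_one, Complex.cpow_neg_one]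
    have : (π : ℂ) ≠ 0 := by exact_mod_cast Real.pi_ne_zero
    field_simp
  rw [h3]
  have h4 : ModularForm.Λ hk f 1 = I * lam ⇑f ((0 : ℚ) : Cu) OnePoint.infty := by
    have hI := I_mul_I
    linear_combination (-I) * h2 + ModularForm.Λ hk f 1 * hI
  rw [h4]
  ring

/-! ### The group of periods -/

/-- The group of periods `2πi ∫_γ f(z) dz`, `γ ∈ Γ₀(N)`. -/
def periodGroup (f : CuspForm (Gamma0 N) 2) : AddSubgroup ℂ :=
  ((AddMonoidHom.mulLeft (2 * π * I : ℂ)).comp (ModularCurve.periodMap N f)).range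

theorem lam_period (f : CuspForm (Gamma0 N) 2) {γ : SL(2, ℤ)} (hγ : γ ∈ Gamma0 N) :
    lam ⇑f OnePoint.infty (ι γ • (OnePoint.infty : Cu)) =
      - ModularCurve.periodMap N f (Additive.ofMul ⟨γ, hγ⟩) := by
  have h := DFunLike.congr_fun (psi_lam f) (Additive.ofMul (⟨γ, hγ⟩ : Gamma0 N))
  rw [psi_apply, AddMonoidHom.neg_apply] at h
  exact h

theorem mem_periodGroup {f : CuspForm (Gamma0 N) 2} {x : ℂ} :
    x ∈ periodGroup f ↔ ∃ γ ∈ Gamma0 N,
      x = 2 * π * I * lam ⇑f OnePoint.infty (ι γ • (OnePoint.infty : Cu)) := by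
  constructor
  · rintro ⟨g, rfl⟩
    refine ⟨((Additive.toMul (-g) : Gamma0 N) : SL(2, ℤ)), (Additive.toMul (-g)).2, ?_⟩
    rw [lam_period f (Additive.toMul (-g)).2]
    have h1 : (Additive.ofMul (⟨((Additive.toMul (-g) : Gamma0 N) : SL(2, ℤ)),
      (Additive.toMul (-g)).2⟩ : Gamma0 N)) = -g := rfl
    rw [h1, map_neg, neg_neg]
    rfl
  · rintro ⟨γ, hγ, rfl⟩
    refine ⟨-(Additive.ofMul (⟨γ, hγ⟩ : Gamma0 N)), ?_⟩
    rw [lam_period f hγ, map_neg]
    change -(2 * π * I * ModularCurve.periodMap N f _) = _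
    ring

theorem re_eq {f : CuspForm (Gamma0 N) 2} (h : ∀ n, conj (qCoeff f n) = qCoeff f n)
    (r s : Cu) : (((2 * π * I * lam ⇑f r s).re : ℝ) : ℂ) = π * I * lamP ⇑f r s := by
  have h1 : lamP ⇑f r s = lam ⇑f r s - conj (lam ⇑f r s) := by
    simp only [lamP, Pi.add_apply, pull_apply]
    rw [lam_conj h]
    ring
  rw [h1, Complex.sub_conj, Complex.ext_iff]
  constructor <;> simp
  ring

theorem im_eq {f : CuspForm (Gamma0 N) 2} (h : ∀ n, conj (qCoeff f n) = qCoeff f n)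
    (r s : Cu) : (((2 * π * I * lam ⇑f r s).im : ℝ) : ℂ) = π * lamM ⇑f r s := by
  have h1 : lamM ⇑f r s = lam ⇑f r s + conj (lam ⇑f r s) := by
    simp only [lamM, Pi.sub_apply, pull_apply]
    rw [lam_conj h]
    ring
  rw [h1, Complex.add_conj, Complex.ext_iff]
  constructor <;> simp
  ring

/-- The period group is stable under complex conjugation. -/
theorem conj_mem {f : CuspForm (Gamma0 N) 2} (h : ∀ n, conj (qCoeff f n) = qCoeff f n) {x : ℂ}
    (hx : x ∈ periodGroup f) : conj x ∈ periodGroup f := by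
  rw [mem_periodGroup] at hx ⊢
  obtain ⟨γ, hγ, rfl⟩ := hx
  refine ⟨jConjSL γ, ModularCurve.Period.jConjSL_mem_Gamma0 hγ, ?_⟩
  have h1 : ι (jConjSL γ) • (OnePoint.infty : Cu) = Jm • ι γ • (OnePoint.infty : Cu) := by
    rw [← mul_smul, Jm_ι, mul_smul, Jm_smul_infty]
  have h2 := lam_conj h OnePoint.infty (ι γ • (OnePoint.infty : Cu))
  rw [Jm_smul_infty] at h2
  rw [h1, h2]
  simp only [map_mul, Complex.conj_I, Complex.conj_ofReal]
  rw [map_ofNat]
  ring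

/-- A homomorphism from a finitely generated group to the rational multiples of a real number has
values in a cyclic group. -/
theorem exists_int_mul {G : Type*} [AddGroup G] [hG : AddGroup.FG G] (φ : G →+ ℝ) (r₀ : ℝ)
    (h : ∀ g, ∃ q : ℚ, φ g = q * r₀) : ∃ D : ℕ, D ≠ 0 ∧ ∀ g, ∃ m : ℤ, φ g = m * (r₀ / D) := by
  classical
  choose q hq using h
  obtain ⟨S, hS⟩ := AddGroup.fg_def.mp hG
  refine ⟨∏ s ∈ S, (q s).den, Finset.prod_ne_zero_iff.mpr fun s _ ↦ (q s).den_nz, fun g ↦ ?_⟩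
  set D := ∏ s ∈ S, (q s).den with hD
  have hD0 : (D : ℝ) ≠ 0 := by
    exact_mod_cast Finset.prod_ne_zero_iff.mpr fun s _ ↦ (q s).den_nz
  have hg : g ∈ AddSubgroup.closure (S : Set G) := by rw [hS]; exact AddSubgroup.mem_top g
  induction hg using AddSubgroup.closure_induction with
  | mem x hx =>
    obtain ⟨e, he⟩ := Finset.dvd_prod_of_mem (fun s ↦ (q s).den) hx
    have he' : (D : ℝ) = (q x).den * e := by exact_mod_cast he
    refine ⟨(q x).num * e, ?_⟩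
    have h1 : ((q x : ℚ) : ℝ) * (q x).den = (q x).num := by
      exact_mod_cast Rat.mul_den_eq_num (q x)
    have he0 : (e : ℝ) ≠ 0 := by
      rintro h0
      rw [h0, mul_zero] at he'
      exact hD0 he'
    have hd0 : ((q x).den : ℝ) ≠ 0 := by exact_mod_cast (q x).den_nz
    rw [hq x, he']
    push_cast
    field_simp
    linear_combination r₀ * h1
  | zero => exact ⟨0, by simp⟩
  | add x y _ _ hx hy =>
    obtain ⟨m, hm⟩ := hx
    obtain ⟨n, hn⟩ := hy
    exact ⟨m + n, by rw [map_add, hm, hn]; push_cast; ring⟩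
  | neg x _ hx =>
    obtain ⟨m, hm⟩ := hx
    exact ⟨-m, by rw [map_neg, hm]; push_cast; ring⟩

section Lattice

variable {f : CuspForm (Gamma0 N) 2}

/-- A newform with integral `a_l`, `l ∤ N`, has real coefficients. -/
theorem conj_qCoeff (hf : f.IsNewform)
    (ha : ∀ l : ℕ, l.Prime → ¬ l ∣ N → ∃ z : ℤ, qCoeff f l = z) (n : ℕ) :
    conj (qCoeff f n) = qCoeff f n := by
  obtain ⟨z, hz⟩ := exists_int_qCoeff hf ha n
  rw [hz, map_intCast]

omit [NeZero N] in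
theorem exists_rat (ha : ∀ l : ℕ, l.Prime → ¬ l ∣ N → ∃ z : ℤ, qCoeff f l = z) :
    ∃ a : ℕ → ℚ, ∀ l : ℕ, l.Prime → l.Coprime N → qCoeff f l = a l := by
  have h : ∀ l : ℕ, ∃ a : ℚ, l.Prime → l.Coprime N → qCoeff f l = a := by
    intro l
    by_cases hl : l.Prime ∧ l.Coprime N
    · obtain ⟨z, hz⟩ := ha l hl.1 ((Nat.Prime.coprime_iff_not_dvd hl.1).mp hl.2)
      exact ⟨z, fun _ _ ↦ by rw [hz, Rat.cast_intCast]⟩
    · exact ⟨0, fun h1 h2 ↦ absurd ⟨h1, h2⟩ hl⟩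
  choose a ha' using h
  exact ⟨a, ha'⟩

/-- The real parts of the periods lie in a cyclic group. -/
theorem exists_re (hf : f.IsNewform)
    (ha : ∀ l : ℕ, l.Prime → ¬ l ∣ N → ∃ z : ℤ, qCoeff f l = z) :
    ∃ δ : ℝ, 0 < δ ∧ (∀ x ∈ periodGroup f, ∃ m : ℤ, x.re = m * δ) ∧
      ∃ x ∈ periodGroup f, x.re ≠ 0 := by
  have hc := conj_qCoeff hf ha
  obtain ⟨a, ha'⟩ := exists_rat ha
  obtain ⟨γ₀, hγ₀, h0⟩ := exists_lamP_ne hf.1.ne_zero
  set x₀ : ℂ := 2 * π * I * lam ⇑f OnePoint.infty (ι γ₀ • (OnePoint.infty : Cu)) with hx₀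
  have hx₀r : ((x₀.re : ℝ) : ℂ) = π * I * lamP ⇑f OnePoint.infty (ι γ₀ • (OnePoint.infty : Cu)) :=
    re_eq hc _ _
  have hπ : (π : ℂ) ≠ 0 := by exact_mod_cast Real.pi_ne_zero
  have hx₀0 : x₀.re ≠ 0 := by
    intro h
    rw [h, Complex.ofReal_zero] at hx₀r
    exact mul_ne_zero (mul_ne_zero hπ I_ne_zero) h0 hx₀r.symm
  have hx₀m : x₀ ∈ periodGroup f := mem_periodGroup.mpr ⟨γ₀, hγ₀, hx₀⟩
  let φ : Additive (Gamma0 N) →+ ℝ := Complex.reAddGroupHom.comp
    ((AddMonoidHom.mulLeft (2 * π * I : ℂ)).comp (ModularCurve.periodMap N f))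
  have hmem : ∀ g, ((AddMonoidHom.mulLeft (2 * π * I : ℂ)).comp (ModularCurve.periodMap N f)) g ∈
      periodGroup f := fun g ↦ ⟨g, rfl⟩
  obtain ⟨D, hD, h1⟩ := exists_int_mul φ x₀.re fun g ↦ by
    obtain ⟨γ, hγ, h2⟩ := mem_periodGroup.mp (hmem g)
    obtain ⟨q, hq⟩ := lamP_rat hf ha' h0 OnePoint.infty (ι γ • (OnePoint.infty : Cu))
    refine ⟨q, ?_⟩
    have h3 : φ g = (2 * π * I * lam ⇑f OnePoint.infty (ι γ • (OnePoint.infty : Cu))).re := by
      rw [← h2]; rfl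
    have h4 := re_eq hc OnePoint.infty (ι γ • (OnePoint.infty : Cu))
    rw [hq] at h4
    have h5 : ((φ g : ℝ) : ℂ) = ((q * x₀.re : ℝ) : ℂ) := by
      rw [h3, h4, Complex.ofReal_mul, hx₀r, Complex.ofReal_ratCast]
      ring
    exact_mod_cast h5
  have hD0 : (D : ℝ) ≠ 0 := by exact_mod_cast hD
  refine ⟨|x₀.re / D|, abs_pos.mpr (div_ne_zero hx₀0 hD0), ?_, x₀, hx₀m, hx₀0⟩
  rintro _ ⟨g, rfl⟩
  obtain ⟨m, hm⟩ := h1 g
  have h6 : (((AddMonoidHom.mulLeft (2 * π * I : ℂ)).comp (ModularCurve.periodMap N f)) g).re =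
      m * (x₀.re / D) := hm
  rcases le_or_gt 0 (x₀.re / D) with h7 | h7
  · exact ⟨m, by rw [abs_of_nonneg h7]; exact h6⟩
  · exact ⟨-m, by rw [abs_of_neg h7, h6]; push_cast; ring⟩

/-- The imaginary parts of the periods lie in a cyclic group. -/
theorem exists_im (hf : f.IsNewform)
    (ha : ∀ l : ℕ, l.Prime → ¬ l ∣ N → ∃ z : ℤ, qCoeff f l = z) :
    ∃ δ : ℝ, 0 < δ ∧ (∀ x ∈ periodGroup f, ∃ m : ℤ, x.im = m * δ) ∧
      ∃ x ∈ periodGroup f, x.im ≠ 0 := by
  have hc := conj_qCoeff hf ha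
  obtain ⟨a, ha'⟩ := exists_rat ha
  obtain ⟨γ₀, hγ₀, h0⟩ := exists_lamM_ne hf.1.ne_zero
  set x₀ : ℂ := 2 * π * I * lam ⇑f OnePoint.infty (ι γ₀ • (OnePoint.infty : Cu)) with hx₀
  have hx₀r : ((x₀.im : ℝ) : ℂ) = π * lamM ⇑f OnePoint.infty (ι γ₀ • (OnePoint.infty : Cu)) :=
    im_eq hc _ _
  have hπ : (π : ℂ) ≠ 0 := by exact_mod_cast Real.pi_ne_zero
  have hx₀0 : x₀.im ≠ 0 := by
    intro h
    rw [h, Complex.ofReal_zero] at hx₀r
    exact mul_ne_zero hπ h0 hx₀r.symm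
  have hx₀m : x₀ ∈ periodGroup f := mem_periodGroup.mpr ⟨γ₀, hγ₀, hx₀⟩
  let φ : Additive (Gamma0 N) →+ ℝ := Complex.imAddGroupHom.comp
    ((AddMonoidHom.mulLeft (2 * π * I : ℂ)).comp (ModularCurve.periodMap N f))
  have hmem : ∀ g, ((AddMonoidHom.mulLeft (2 * π * I : ℂ)).comp (ModularCurve.periodMap N f)) g ∈
      periodGroup f := fun g ↦ ⟨g, rfl⟩
  obtain ⟨D, hD, h1⟩ := exists_int_mul φ x₀.im fun g ↦ by
    obtain ⟨γ, hγ, h2⟩ := mem_periodGroup.mp (hmem g)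
    obtain ⟨q, hq⟩ := lamM_rat hf ha' h0 OnePoint.infty (ι γ • (OnePoint.infty : Cu))
    refine ⟨q, ?_⟩
    have h3 : φ g = (2 * π * I * lam ⇑f OnePoint.infty (ι γ • (OnePoint.infty : Cu))).im := by
      rw [← h2]; rfl
    have h4 := im_eq hc OnePoint.infty (ι γ • (OnePoint.infty : Cu))
    rw [hq] at h4
    have h5 : ((φ g : ℝ) : ℂ) = ((q * x₀.im : ℝ) : ℂ) := by
      rw [h3, h4, Complex.ofReal_mul, hx₀r, Complex.ofReal_ratCast]
      ring
    exact_mod_cast h5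
  have hD0 : (D : ℝ) ≠ 0 := by exact_mod_cast hD
  refine ⟨|x₀.im / D|, abs_pos.mpr (div_ne_zero hx₀0 hD0), ?_, x₀, hx₀m, hx₀0⟩
  rintro _ ⟨g, rfl⟩
  obtain ⟨m, hm⟩ := h1 g
  have h6 : (((AddMonoidHom.mulLeft (2 * π * I : ℂ)).comp (ModularCurve.periodMap N f)) g).im =
      m * (x₀.im / D) := hm
  rcases le_or_gt 0 (x₀.im / D) with h7 | h7
  · exact ⟨m, by rw [abs_of_nonneg h7]; exact h6⟩
  · exact ⟨-m, by rw [abs_of_neg h7, h6]; push_cast; ring⟩

/-- The group of real periods. -/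
def realPeriods (f : CuspForm (Gamma0 N) 2) : AddSubgroup ℝ :=
  (periodGroup f).comap (Complex.ofRealHom : ℝ →+* ℂ).toAddMonoidHom

omit [NeZero N] in
theorem mem_realPeriods {x : ℝ} : x ∈ realPeriods f ↔ (x : ℂ) ∈ periodGroup f := Iff.rfl

/-- **The real period**: the real periods are the integral multiples of a positive number. -/
theorem exists_real_period (hf : f.IsNewform)
    (ha : ∀ l : ℕ, l.Prime → ¬ l ∣ N → ∃ z : ℤ, qCoeff f l = z) :
    ∃ Ω : ℝ, 0 < Ω ∧ ∀ x : ℝ, (x : ℂ) ∈ periodGroup f ↔ ∃ m : ℤ, x = m * Ω := by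
  obtain ⟨δ, hδ, h1, x₀, hx₀, h2⟩ := exists_re hf ha
  have hdisj : Disjoint (realPeriods f : Set ℝ) (Ioo 0 δ) := by
    rw [Set.disjoint_left]
    rintro x hx ⟨hx1, hx2⟩
    obtain ⟨m, hm⟩ := h1 (x : ℂ) hx
    rw [Complex.ofReal_re] at hm
    rw [hm] at hx1 hx2
    have h3 : (0 : ℝ) < m := by
      by_contra h
      push Not at h
      have := mul_nonpos_of_nonpos_of_nonneg h hδ.le
      linarith
    have h4 : (m : ℝ) < 1 := by
      by_contra h
      push Not at h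
      have := mul_le_mul_of_nonneg_right h hδ.le
      linarith
    have h5 : (0 : ℤ) < m := by exact_mod_cast h3
    have h6 : m < (1 : ℤ) := by exact_mod_cast h4
    omega
  obtain ⟨b, hb⟩ := AddSubgroup.cyclic_of_isolated_zero hδ hdisj
  have hmemb : ∀ x : ℝ, (x : ℂ) ∈ periodGroup f ↔ ∃ m : ℤ, m • b = x := by
    intro x
    rw [← mem_realPeriods, hb, AddSubgroup.mem_closure_singleton]
  have hb0 : b ≠ 0 := by
    rintro rfl
    have h3 : ((2 * x₀.re : ℝ) : ℂ) ∈ periodGroup f := by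
      have h4 := add_mem hx₀ (conj_mem (conj_qCoeff hf ha) hx₀)
      rw [Complex.add_conj] at h4
      exact h4
    obtain ⟨m, hm⟩ := (hmemb _).mp h3
    rw [smul_zero] at hm
    exact h2 (by linarith)
  refine ⟨|b|, abs_pos.mpr hb0, fun x ↦ ?_⟩
  rw [hmemb x]
  constructor
  · rintro ⟨m, rfl⟩
    rcases le_or_gt 0 b with h7 | h7
    · exact ⟨m, by rw [abs_of_nonneg h7, zsmul_eq_mul]⟩
    · exact ⟨-m, by rw [abs_of_neg h7, zsmul_eq_mul]; push_cast; ring⟩
  · rintro ⟨m, rfl⟩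
    rcases le_or_gt 0 b with h7 | h7
    · exact ⟨m, by rw [abs_of_nonneg h7, zsmul_eq_mul]⟩
    · exact ⟨-m, by rw [abs_of_neg h7, zsmul_eq_mul]; push_cast; ring⟩

/-- `(l + 1 - a_l) L(f, 1)` is a period. -/
theorem mul_LF_one_mem (hf : f.IsNormalizedEigenform) {l : ℕ} (hl : l.Prime) (hlN : ¬ l ∣ N) :
    (l + 1 - qCoeff f l) * LFun.LF f 1 ∈ periodGroup f := by
  obtain ⟨γ, hγ, h⟩ := hecke_relation hf hl ((Nat.Prime.coprime_iff_not_dvd hl).mpr hlN)
  rw [mem_periodGroup]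
  refine ⟨γ, hγ, ?_⟩
  rw [← h, LF_one]
  ring

theorem Jm_smul_zero : Jm • ((0 : ℚ) : Cu) = ((0 : ℚ) : Cu) := by
  rw [Jm, zero_eq, gq_smul_cv (by norm_num) (Or.inr one_ne_zero)]
  congr 1 <;> ring

/-- `L(f, 1)` is real. -/
theorem conj_LF_one (h : ∀ n, conj (qCoeff f n) = qCoeff f n) :
    conj (LFun.LF f 1) = LFun.LF f 1 := by
  have h1 := lam_conj h ((0 : ℚ) : Cu) OnePoint.infty
  rw [Jm_smul_infty, Jm_smul_zero] at h1
  have h2 : conj (lam ⇑f ((0 : ℚ) : Cu) OnePoint.infty) =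
      - lam ⇑f ((0 : ℚ) : Cu) OnePoint.infty := by
    rw [eq_neg_iff_add_eq_zero, add_comm, ← eq_neg_iff_add_eq_zero]
    exact h1
  rw [LF_one]
  simp only [map_mul, Complex.conj_I, Complex.conj_ofReal]
  rw [map_ofNat, h2]
  ring

/-- **Rationality of the central value.**  Let `f` be a newform of weight two and level `N` with
integral eigenvalues `a_l`, `l ∤ N`, and `Ω` its least positive real period.  Then
`(l + 1 - a_l) L(f, 1)` is an integral multiple of `Ω` for all primes `l ∤ N`. -/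
theorem central_value (hf : f.IsNewform)
    (ha : ∀ l : ℕ, l.Prime → ¬ l ∣ N → ∃ z : ℤ, qCoeff f l = z) :
    ∃ Ω : ℝ, 0 < Ω ∧ (∀ x : ℝ, (x : ℂ) ∈ periodGroup f ↔ ∃ m : ℤ, x = m * Ω) ∧
      (∀ l : ℕ, l.Prime → ¬ l ∣ N → ∃ m : ℤ, (l + 1 - qCoeff f l) * LFun.LF f 1 = m * Ω) ∧
      ∃ q : ℚ, LFun.LF f 1 = q * Ω := by
  obtain ⟨Ω, hΩ, h1⟩ := exists_real_period hf ha
  have hc := conj_qCoeff hf ha
  have key : ∀ l : ℕ, l.Prime → ¬ l ∣ N →
      ∃ m : ℤ, (l + 1 - qCoeff f l) * LFun.LF f 1 = m * Ω := by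
    intro l hl hlN
    have h2 := mul_LF_one_mem hf.1 hl hlN
    obtain ⟨z, hz⟩ := ha l hl hlN
    have h3 : conj ((l + 1 - qCoeff f l) * LFun.LF f 1) =
        (l + 1 - qCoeff f l) * LFun.LF f 1 := by
      rw [map_mul, conj_LF_one hc, map_sub, map_add, map_natCast, map_one, hc]
    obtain ⟨r, hr⟩ := Complex.conj_eq_iff_real.mp h3
    rw [hr] at h2 ⊢
    obtain ⟨m, hm⟩ := (h1 r).mp h2
    exact ⟨m, by rw [hm]; push_cast; ring⟩
  refine ⟨Ω, hΩ, h1, key, ?_⟩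
  obtain ⟨l, hlN, hl⟩ := Nat.exists_infinite_primes (N + 1)
  have hnd : ¬ l ∣ N := fun h ↦ absurd (Nat.le_of_dvd (Nat.pos_of_ne_zero (NeZero.ne N)) h)
    (not_le.mpr hlN)
  obtain ⟨m, hm⟩ := key l hl hnd
  obtain ⟨z, hz⟩ := ha l hl hnd
  have h2 := LM.norm_qCoeff_lt hl hnd hf.1
  have h3 : ((l : ℂ) + 1 - qCoeff f l) ≠ 0 := by
    intro h
    rw [sub_eq_zero] at h
    rw [← h] at h2
    have h4 : ‖((l : ℂ) + 1)‖ = (l : ℝ) + 1 := by
      have : ((l : ℂ) + 1) = ((l + 1 : ℕ) : ℂ) := by push_cast; ring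
      rw [this, Complex.norm_natCast]
      push_cast
      ring
    rw [h4] at h2
    exact lt_irrefl _ h2
  refine ⟨m / (l + 1 - z), ?_⟩
  rw [hz] at h3 hm
  push_cast
  rw [div_mul_eq_mul_div, eq_div_iff h3, ← hm]
  ring

end Lattice

end Fermat.Agent.Cor.CentralValue
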