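import Mathlib.NumberTheory.LSeries.Basic
import Mathlib.NumberTheory.EulerProduct.Basic
import Mathlib.NumberTheory.ModularForms.LFunction
import Mathlib.NumberTheory.ModularForms.Cusps
import Mathlib.Analysis.SpecialFunctions.Log.Summable
import Fermat.Prelude.Def_FLTPrelim_Modularity

/-!
# The Euler product of the L-function of an eigenform (corollary file, not used for S01)

For `f ∈ S₂(Γ₀(N))` the Dirichlet series `∑ a_n(f) n^{-s}` converges absolutely for `Re s > 2`
(Hecke's bound) and is there equal to Mathlib's `ModularForm.L`, which is an entire function.  If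
`f` is a normalised Hecke eigenform, it is equal to the Euler product
`∏_p (1 - a_p p^{-s} + [p ∤ N] p^{1-2s})⁻¹`, over all primes, and it does not vanish.
-/

noncomputable section

namespace Fermat.Agent.Cor.EulerProd

open CongruenceSubgroup ModularFormClass Filter Asymptotics Complex

variable {N : ℕ}

/-- The local Euler factor at the prime `p` (a polynomial in `X = p^{-s}`) of a form
on `Γ₀(N)`. -/
def eulerPoly (N : ℕ) (a : ℕ → ℂ) (p : ℕ) (X : ℂ) : ℂ :=
  1 - a p * X + (if p ∣ N then 0 else (p : ℂ)) * X ^ 2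

/-- Hecke's bound for the coefficients of a form of weight two. -/
theorem qCoeff_isBigO [NeZero N] (f : CuspForm (Gamma0 N) 2) :
    (fun n : ℕ ↦ qCoeff f n) =O[atTop] fun n : ℕ ↦ (n : ℝ) ^ (2 - 1 : ℝ) := by
  have h := CuspFormClass.qExpansion_isBigO (k := 2)
    (Γ := (Gamma0 N : Subgroup (GL (Fin 2) ℝ))) f
  rw [strictWidthInfty_Gamma0] at h
  have h2 : ((2 : ℤ) / 2 : ℝ) = 2 - 1 := by norm_num
  rw [h2] at h
  exact h

/-- The Dirichlet series of `f` converges absolutely for `Re s > 2`. -/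
theorem lSeriesSummable [NeZero N] (f : CuspForm (Gamma0 N) 2) {s : ℂ} (hs : 2 < s.re) :
    LSeriesSummable (fun n ↦ qCoeff f n) s :=
  LSeriesSummable_of_isBigO_rpow hs (qCoeff_isBigO f)

/-- For `Re s > 2` the Dirichlet series is equal to Mathlib's (entire) L-function. -/
theorem lSeries_eq_L [NeZero N] (f : CuspForm (Gamma0 N) 2) {s : ℂ} (hs : 2 < s.re) :
    LSeries (fun n ↦ qCoeff f n) s = ModularForm.L (k := 2)
      (Γ := (Gamma0 N : Subgroup (GL (Fin 2) ℝ))) two_pos f s := by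
  have h := CuspForm.hasSum_L (k := 2) (Γ := (Gamma0 N : Subgroup (GL (Fin 2) ℝ)))
    (hk := two_pos) f (s := s) (by norm_num; linarith)
  rw [strictWidthInfty_Gamma0, Complex.ofReal_one, Complex.one_cpow, one_mul] at h
  have hs0 : s ≠ 0 := by
    rintro rfl
    norm_num at hs
  rw [LSeries, ← h.tsum_eq]
  refine tsum_congr fun n ↦ ?_
  rw [LSeries.term_of_ne_zero' hs0]
  rfl

variable {f : CuspForm (Gamma0 N) 2}

theorem term_one (hf : f.IsNormalizedEigenform) (s : ℂ) :
    LSeries.term (fun n ↦ qCoeff f n) s 1 = 1 := by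
  rw [LSeries.term_of_ne_zero one_ne_zero, hf.qCoeff_one, Nat.cast_one, Complex.one_cpow, div_one]

theorem term_mul (hf : f.IsNormalizedEigenform) (s : ℂ) {m n : ℕ} (hmn : m.Coprime n) :
    LSeries.term (fun n ↦ qCoeff f n) s (m * n) =
      LSeries.term (fun n ↦ qCoeff f n) s m * LSeries.term (fun n ↦ qCoeff f n) s n := by
  rcases eq_or_ne m 0 with rfl | hm
  · rw [zero_mul, LSeries.term_zero, zero_mul]
  rcases eq_or_ne n 0 with rfl | hn
  · rw [mul_zero, LSeries.term_zero, mul_zero]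
  rw [LSeries.term_of_ne_zero (mul_ne_zero hm hn), LSeries.term_of_ne_zero hm,
    LSeries.term_of_ne_zero hn, hf.qCoeff_mul_of_coprime m n hmn, Nat.cast_mul,
    Complex.natCast_mul_natCast_cpow]
  exact (div_mul_div_comm _ _ _ _).symm

/-- The recursion for the coefficients at prime powers, in a uniform form. -/
theorem qCoeff_prime_pow (hf : f.IsNormalizedEigenform) {p : ℕ} (hp : p.Prime) (r : ℕ) :
    qCoeff f (p ^ (r + 2)) = qCoeff f p * qCoeff f (p ^ (r + 1)) -
      (if p ∣ N then 0 else (p : ℂ)) * qCoeff f (p ^ r) := by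
  split_ifs with h
  · rw [hf.qCoeff_prime_pow_of_dvd p r hp h, zero_mul, sub_zero]
  · exact hf.qCoeff_prime_pow_of_not_dvd p r hp h

theorem term_prime_pow (hf : f.IsNormalizedEigenform) {p : ℕ} (hp : p.Prime) (s : ℂ) (r : ℕ) :
    LSeries.term (fun n ↦ qCoeff f n) s (p ^ (r + 2)) =
      qCoeff f p * (p : ℂ) ^ (-s) * LSeries.term (fun n ↦ qCoeff f n) s (p ^ (r + 1)) -
      (if p ∣ N then 0 else (p : ℂ)) * ((p : ℂ) ^ (-s)) ^ 2 *
        LSeries.term (fun n ↦ qCoeff f n) s (p ^ r) := by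
  have hp0 : (p : ℂ) ≠ 0 := by exact_mod_cast hp.ne_zero
  have hpow (e : ℕ) : ((p ^ e : ℕ) : ℂ) ^ s = (((p : ℂ) ^ s)) ^ e := by
    rw [Nat.cast_pow, ← Complex.cpow_nat_mul, ← Complex.natCast_cpow_natCast_mul]
  have hs0 : (p : ℂ) ^ s ≠ 0 := by
    rw [Complex.cpow_ne_zero_iff]
    exact Or.inl hp0
  rw [LSeries.term_of_ne_zero (pow_ne_zero _ hp.ne_zero),
    LSeries.term_of_ne_zero (pow_ne_zero _ hp.ne_zero),
    LSeries.term_of_ne_zero (pow_ne_zero _ hp.ne_zero), qCoeff_prime_pow hf hp, hpow, hpow, hpow,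
    Complex.cpow_neg]
  field_simp
  ring

/-- The sum over the powers of `p` is the inverse of the local Euler factor. -/
theorem tsum_prime_pow [NeZero N] (hf : f.IsNormalizedEigenform) {p : ℕ} (hp : p.Prime) {s : ℂ}
    (hs : 2 < s.re) :
    (∑' e : ℕ, LSeries.term (fun n ↦ qCoeff f n) s (p ^ e)) *
      eulerPoly N (fun n ↦ qCoeff f n) p ((p : ℂ) ^ (-s)) = 1 := by
  set t : ℕ → ℂ := fun e ↦ LSeries.term (fun n ↦ qCoeff f n) s (p ^ e) with ht
  have hsum : Summable t :=
    (lSeriesSummable f hs).comp_injective (Nat.pow_right_injective hp.two_le)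
  have h0 : t 0 = 1 := by
    rw [ht]
    simp only [pow_zero]
    exact term_one hf s
  have h1 : t 1 = qCoeff f p * (p : ℂ) ^ (-s) := by
    rw [ht]
    simp only [pow_one]
    rw [LSeries.term_of_ne_zero hp.ne_zero, Complex.cpow_neg, div_eq_mul_inv]
  have hS1 : ∑' e, t e = t 0 + ∑' e, t (e + 1) := hsum.tsum_eq_zero_add
  have hsum1 : Summable fun e ↦ t (e + 1) := (summable_nat_add_iff 1).mpr hsum
  have hS2 : ∑' e, t (e + 1) = t 1 + ∑' e, t (e + 2) := hsum1.tsum_eq_zero_add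
  have hrec : ∑' e, t (e + 2) = qCoeff f p * (p : ℂ) ^ (-s) * ∑' e, t (e + 1) -
      (if p ∣ N then 0 else (p : ℂ)) * ((p : ℂ) ^ (-s)) ^ 2 * ∑' e, t e := by
    rw [← tsum_mul_left, ← tsum_mul_left,
      ← (hsum1.mul_left _).tsum_sub (hsum.mul_left _)]
    exact tsum_congr fun e ↦ term_prime_pow hf hp s e
  rw [eulerPoly]
  rw [hrec, h1] at hS2
  rw [h0] at hS1
  have h3 : ∑' e, t (e + 1) = ∑' e, t e - 1 := by rw [hS1]; ring
  rw [h3] at hS2
  linear_combination hS2

/-- **The Euler product** of the L-function of a normalised Hecke eigenform. -/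
theorem lSeries_hasProd [NeZero N] (hf : f.IsNormalizedEigenform) {s : ℂ} (hs : 2 < s.re) :
    HasProd (fun p : Nat.Primes ↦
      (eulerPoly N (fun n ↦ qCoeff f n) p (((p : ℕ) : ℂ) ^ (-s)))⁻¹)
      (LSeries (fun n ↦ qCoeff f n) s) := by
  have h := EulerProduct.eulerProduct_hasProd (f := LSeries.term (fun n ↦ qCoeff f n) s)
    (term_one hf s) (fun hmn ↦ term_mul hf s hmn) (lSeriesSummable f hs).norm
    (LSeries.term_zero _ _)
  have h2 : (fun p : Nat.Primes ↦
      (eulerPoly N (fun n ↦ qCoeff f n) p (((p : ℕ) : ℂ) ^ (-s)))⁻¹) =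
      fun p : Nat.Primes ↦ ∑' e : ℕ, LSeries.term (fun n ↦ qCoeff f n) s ((p : ℕ) ^ e) := by
    funext p
    exact (eq_inv_of_mul_eq_one_left (tsum_prime_pow hf p.2 hs)).symm
  rw [h2]
  exact h

/-- The local factors do not vanish for `Re s > 2`. -/
theorem eulerPoly_ne_zero [NeZero N] (hf : f.IsNormalizedEigenform) {p : ℕ} (hp : p.Prime)
    {s : ℂ} (hs : 2 < s.re) :
    eulerPoly N (fun n ↦ qCoeff f n) p ((p : ℂ) ^ (-s)) ≠ 0 :=
  right_ne_zero_of_mul_eq_one (tsum_prime_pow hf hp hs)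

/-- The product of the local factors themselves converges. -/
theorem multipliable_eulerPoly [NeZero N] (f : CuspForm (Gamma0 N) 2) {s : ℂ}
    (hs : 2 < s.re) :
    Multipliable (fun p : Nat.Primes ↦
      eulerPoly N (fun n ↦ qCoeff f n) p (((p : ℕ) : ℂ) ^ (-s))) := by
  have h1 : Summable fun p : Nat.Primes ↦ ‖- qCoeff f p * ((p : ℕ) : ℂ) ^ (-s)‖ := by
    have h := (lSeriesSummable f hs).norm.comp_injective
      (Nat.Primes.coe_nat_injective)
    refine h.congr fun p ↦ ?_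
    simp only [Function.comp_apply]
    rw [LSeries.term_of_ne_zero p.2.ne_zero, Complex.cpow_neg, neg_mul, norm_neg, div_eq_mul_inv]
  have h2 : Summable fun p : Nat.Primes ↦
      ‖(if (p : ℕ) ∣ N then 0 else ((p : ℕ) : ℂ)) * (((p : ℕ) : ℂ) ^ (-s)) ^ 2‖ := by
    have hs2 : 1 - 2 * s.re < -1 := by linarith
    have h := (Real.summable_nat_rpow.mpr hs2).comp_injective
      (Nat.Primes.coe_nat_injective)
    refine Summable.of_nonneg_of_le (fun _ ↦ norm_nonneg _) (fun p ↦ ?_) h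
    have hp : (0 : ℝ) < (p : ℕ) := by exact_mod_cast p.2.pos
    simp only [Function.comp_apply]
    rw [norm_mul, norm_pow, Complex.norm_natCast_cpow_of_pos p.2.pos, Complex.neg_re,
      Real.rpow_sub hp, Real.rpow_one, mul_comm (2 : ℝ), Real.rpow_mul hp.le, Real.rpow_neg hp.le,
      Real.rpow_two, inv_pow, div_eq_mul_inv]
    refine mul_le_mul_of_nonneg_right ?_ (by positivity)
    split_ifs
    · rw [norm_zero]
      exact hp.le
    · rw [Complex.norm_natCast]
  have h3 : Summable fun p : Nat.Primes ↦ ‖- qCoeff f p * ((p : ℕ) : ℂ) ^ (-s) +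
      (if (p : ℕ) ∣ N then 0 else ((p : ℕ) : ℂ)) * (((p : ℕ) : ℂ) ^ (-s)) ^ 2‖ :=
    Summable.of_nonneg_of_le (fun _ ↦ norm_nonneg _) (fun p ↦ norm_add_le _ _) (h1.add h2)
  refine (multipliable_one_add_of_summable h3).congr fun p ↦ ?_
  rw [eulerPoly]
  ring

/-- The L-function of a normalised eigenform has no zero with `Re s > 2`. -/
theorem lSeries_ne_zero [NeZero N] (hf : f.IsNormalizedEigenform) {s : ℂ} (hs : 2 < s.re) :
    LSeries (fun n ↦ qCoeff f n) s ≠ 0 := by
  have h1 := lSeries_hasProd hf hs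
  have h2 := (multipliable_eulerPoly f hs).hasProd
  have h3 := h1.mul h2
  have h4 : (fun p : Nat.Primes ↦
      (eulerPoly N (fun n ↦ qCoeff f n) p (((p : ℕ) : ℂ) ^ (-s)))⁻¹ *
        eulerPoly N (fun n ↦ qCoeff f n) p (((p : ℕ) : ℂ) ^ (-s))) = fun _ ↦ 1 := by
    funext p
    exact inv_mul_cancel₀ (eulerPoly_ne_zero hf p.2 hs)
  rw [h4] at h3
  have h5 := h3.unique hasProd_one
  exact left_ne_zero_of_mul_eq_one h5

/-- The Euler product for Mathlib's (entire) L-function of the form. -/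
theorem L_hasProd [NeZero N] (hf : f.IsNormalizedEigenform) {s : ℂ} (hs : 2 < s.re) :
    HasProd (fun p : Nat.Primes ↦
      (eulerPoly N (fun n ↦ qCoeff f n) p (((p : ℕ) : ℂ) ^ (-s)))⁻¹)
      (ModularForm.L (k := 2) (Γ := (Gamma0 N : Subgroup (GL (Fin 2) ℝ))) two_pos f s) := by
  rw [← lSeries_eq_L f hs]
  exact lSeries_hasProd hf hs

theorem L_ne_zero [NeZero N] (hf : f.IsNormalizedEigenform) {s : ℂ} (hs : 2 < s.re) :
    ModularForm.L (k := 2) (Γ := (Gamma0 N : Subgroup (GL (Fin 2) ℝ))) two_pos f s ≠ 0 := by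
  rw [← lSeries_eq_L f hs]
  exact lSeries_ne_zero hf hs

end Fermat.Agent.Cor.EulerProd
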