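import Fermat.Agent.Cor.LFun
import Fermat.Agent.Cor.RootNumber
import Fermat.Agent.Cor.EulerProd

/-!
# Root numbers and the parity of the order of vanishing at the centre

Let `f` be a newform of weight two and level `Γ₀(N)`, `L(f, s)` its (entire) L-function, `Λ(f, s)` the
completed L-function.

* `Λ(f, 2 - s) = w(f) Λ(f, s)` with the root number `w(f) = -ε_N(f) = ±1`, the product of the local signs;
* `w(f) = -∏_{q ∣ N} (-a_q(f))` if `N` is squarefree;
* the order of vanishing `r` of `L(f, s)` at `s = 1` is finite and `(-1)^r = w(f)`; in particular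
  `L(f, 1) = 0` if `w(f) = -1`.

This file is not used by any of the statement files.
-/

set_option autoImplicit false

noncomputable section

namespace Fermat.Agent.Cor.Parity

open CongruenceSubgroup ModularFormClass Filter Topology
open Fermat.Agent.Cor.LFun Fermat.Agent.Cor.RootNumber

/-! ### Parity of the order of vanishing from a functional equation -/

theorem order_ne_top {F : ℂ → ℂ} (hF : Differentiable ℂ F) {s₀ : ℂ} (h0 : F s₀ ≠ 0) (s : ℂ) :
    analyticOrderAt F s ≠ ⊤ := by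
  intro h
  rw [analyticOrderAt_eq_top] at h
  have h1 : AnalyticOnNhd ℂ F Set.univ := fun z _ ↦ hF.analyticAt z
  have h2 := h1.eqOn_zero_of_preconnected_of_eventuallyEq_zero isPreconnected_univ
    (Set.mem_univ s) h
  exact h0 (h2 (Set.mem_univ s₀))

theorem parity_of_symm {F : ℂ → ℂ} (hF : Differentiable ℂ F) {w : ℂ}
    (hw : ∀ s, F (2 - s) = w * F s) {s₀ : ℂ} (h0 : F s₀ ≠ 0) :
    (-1 : ℂ) ^ analyticOrderNatAt F 1 = w := by
  set n := analyticOrderNatAt F 1 with hn
  have h1 := (hF.analyticAt 1)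
  obtain ⟨g, hg, hg1, hgF⟩ := h1.analyticOrderAt_ne_top.mp (order_ne_top hF h0 1)
  have hrefl : Tendsto (fun s : ℂ ↦ 2 - s) (𝓝 1) (𝓝 1) := by
    have : Tendsto (fun s : ℂ ↦ 2 - s) (𝓝 1) (𝓝 (2 - 1)) := (continuous_const.sub continuous_id).tendsto 1
    convert this using 2
    norm_num
  have h2 : ∀ᶠ s in 𝓝 (1 : ℂ), F (2 - s) = (2 - s - 1) ^ n • g (2 - s) := hrefl.eventually hgF
  have h3 : ∀ᶠ s in 𝓝[≠] (1 : ℂ), (-1 : ℂ) ^ n * g (2 - s) = w * g s := by
    have h4 : ∀ᶠ s in 𝓝[≠] (1 : ℂ), F s = (s - 1) ^ n • g s := hgF.filter_mono nhdsWithin_le_nhds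
    have h5 : ∀ᶠ s in 𝓝[≠] (1 : ℂ), F (2 - s) = (2 - s - 1) ^ n • g (2 - s) :=
      h2.filter_mono nhdsWithin_le_nhds
    filter_upwards [h4, h5, self_mem_nhdsWithin] with s hs1 hs2 hs3
    have hs : (s - 1) ^ n ≠ 0 := pow_ne_zero _ (sub_ne_zero.mpr hs3)
    rw [hw, hs1, show (2 - s - 1 : ℂ) = (-1) * (s - 1) by ring, mul_pow, smul_eq_mul,
      smul_eq_mul] at hs2
    apply mul_left_cancel₀ hs
    linear_combination -hs2
  have h6 : Tendsto (fun s : ℂ ↦ (-1 : ℂ) ^ n * g (2 - s)) (𝓝[≠] 1) (𝓝 ((-1) ^ n * g 1)) :=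
    ((hg.continuousAt.tendsto.comp hrefl).const_mul _).mono_left nhdsWithin_le_nhds
  have h7 : Tendsto (fun s : ℂ ↦ w * g s) (𝓝[≠] 1) (𝓝 (w * g 1)) :=
    (hg.continuousAt.tendsto.const_mul _).mono_left nhdsWithin_le_nhds
  have h8 := tendsto_nhds_unique (h6.congr' h3) h7
  exact mul_right_cancel₀ hg1 h8

/-! ### Newforms -/

variable {N : ℕ} [NeZero N] {f : CuspForm (Gamma0 N) 2}

theorem wN_eq (hf : f.IsNewform) : wN f = sign f N • f := by
  apply DFunLike.coe_injective
  rw [coe_wN, newform_slash_fricke hf]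
  rfl

/-- the root number of a newform -/
def rootNumber (f : CuspForm (Gamma0 N) 2) : ℂ := -sign f N

theorem rootNumber_eq_one_or (hf : f.IsNewform) : rootNumber f = 1 ∨ rootNumber f = -1 := by
  rcases sign_eq_one_or hf (exact_self (NeZero.ne N)) with h | h <;> rw [rootNumber, h]
  · exact Or.inr rfl
  · exact Or.inl (neg_neg 1)

/-- the root number of a newform of squarefree level -/
theorem rootNumber_of_squarefree (hf : f.IsNewform) (hN : Squarefree N) :
    rootNumber f = -∏ q ∈ N.primeFactors, (-qCoeff f q) := by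
  rw [rootNumber, sign_self_of_squarefree hf hN]

/-- **Functional equation** with the root number. -/
theorem functional_equation (hf : f.IsNewform) (s : ℂ) :
    Lam f (2 - s) = rootNumber f * Lam f s := by
  rw [LFun.functional_equation, wN_eq hf, Lam_smul, rootNumber]
  ring

theorem LF_ne_zero (hf : f.IsNormalizedEigenform) {s : ℂ} (hs : 2 < s.re) : LF f s ≠ 0 := by
  rw [← lSeries_eq f hs]
  exact EulerProd.lSeries_ne_zero hf hs

/-- the factor between `L` and `Λ` -/
def fac (N : ℕ) (s : ℂ) : ℂ :=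
  (N : ℂ) ^ (s / 2) * (2 * (Real.pi : ℂ)) ^ (-s) * Complex.Gamma s

theorem ne_neg_nat_of_re_pos {s : ℂ} (hs : 0 < s.re) (n : ℕ) : s ≠ -n := by
  rintro rfl
  simp only [Complex.neg_re, Complex.natCast_re, Left.neg_pos_iff] at hs
  have : (0 : ℝ) ≤ n := Nat.cast_nonneg n
  linarith

theorem fac_ne_zero {s : ℂ} (hs : 0 < s.re) : fac N s ≠ 0 := by
  have hN : (N : ℂ) ≠ 0 := by exact_mod_cast NeZero.ne N
  have h2 : (2 * (Real.pi : ℂ)) ≠ 0 := by simp [Real.pi_ne_zero]
  refine mul_ne_zero (mul_ne_zero ?_ ?_) (Complex.Gamma_ne_zero (ne_neg_nat_of_re_pos hs))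
  · rw [Ne, Complex.cpow_eq_zero_iff]
    exact fun h ↦ hN h.1
  · rw [Ne, Complex.cpow_eq_zero_iff]
    exact fun h ↦ h2 h.1

theorem Lam_eq_fac (f : CuspForm (Gamma0 N) 2) {s : ℂ} (hs : 0 < s.re) :
    Lam f s = fac N s * LF f s := Lam_eq f (ne_neg_nat_of_re_pos hs)

theorem analyticAt_fac {s : ℂ} (hs : 0 < s.re) : AnalyticAt ℂ (fac N) s := by
  have hN : (N : ℂ) ≠ 0 := by exact_mod_cast NeZero.ne N
  have h2 : (2 * (Real.pi : ℂ)) ≠ 0 := by simp [Real.pi_ne_zero]
  have hd : DifferentiableOn ℂ (fac N) {s : ℂ | 0 < s.re} := by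
    intro z hz
    refine DifferentiableAt.differentiableWithinAt ?_
    refine DifferentiableAt.mul (DifferentiableAt.mul ?_ ?_)
      (Complex.differentiableAt_Gamma z (ne_neg_nat_of_re_pos hz))
    · exact (differentiableAt_id.div_const 2).const_cpow (Or.inl hN)
    · exact (differentiableAt_id.neg).const_cpow (Or.inl h2)
  exact hd.analyticAt ((isOpen_lt continuous_const Complex.continuous_re).mem_nhds hs)

/-- `L(f, s)` and `Λ(f, s)` have the same order of vanishing for `Re s > 0`. -/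
theorem order_Lam (f : CuspForm (Gamma0 N) 2) {s : ℂ} (hs : 0 < s.re) :
    analyticOrderAt (Lam f) s = analyticOrderAt (LF f) s := by
  have h1 : Lam f =ᶠ[𝓝 s] fac N * LF f := by
    filter_upwards [(isOpen_lt continuous_const Complex.continuous_re).mem_nhds hs] with z hz
    exact Lam_eq_fac f hz
  rw [analyticOrderAt_congr h1, analyticOrderAt_mul (analyticAt_fac hs)
    ((differentiable_LF f).analyticAt s), (analyticAt_fac hs).analyticOrderAt_eq_zero.mpr
    (fac_ne_zero hs), zero_add]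

/-- the analytic rank: the order of vanishing of `L(f, s)` at `s = 1` -/
def analyticRank (f : CuspForm (Gamma0 N) 2) : ℕ := analyticOrderNatAt (LF f) 1

/-- the order of vanishing is finite -/
theorem order_LF_ne_top (hf : f.IsNormalizedEigenform) (s : ℂ) :
    analyticOrderAt (LF f) s ≠ ⊤ :=
  order_ne_top (differentiable_LF f) (LF_ne_zero hf (s := 3) (by norm_num)) s

/-- **Parity**: `(-1)^r = w(f)` for the analytic rank `r` of a newform. -/
theorem neg_one_pow_analyticRank (hf : f.IsNewform) :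
    (-1 : ℂ) ^ analyticRank f = rootNumber f := by
  have h3 : (0 : ℝ) < (3 : ℂ).re := by norm_num
  have h0 : Lam f 3 ≠ 0 := by
    rw [Lam_eq_fac f h3]
    exact mul_ne_zero (fac_ne_zero h3) (LF_ne_zero hf.1 (by norm_num))
  have h := parity_of_symm (differentiable_Lam f) (functional_equation hf) h0
  rwa [analyticOrderNatAt, order_Lam f (by norm_num)] at h

/-- Parity for squarefree level: `(-1)^r = -∏_{q ∣ N} (-a_q(f))`. -/
theorem neg_one_pow_analyticRank_of_squarefree (hf : f.IsNewform) (hN : Squarefree N) :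
    (-1 : ℂ) ^ analyticRank f = -∏ q ∈ N.primeFactors, (-qCoeff f q) := by
  rw [neg_one_pow_analyticRank hf, rootNumber_of_squarefree hf hN]

/-- the central value vanishes if the root number is `-1` -/
theorem LF_one_eq_zero (hf : f.IsNewform) (h : rootNumber f = -1) : LF f 1 = 0 := by
  have h1 := functional_equation hf 1
  rw [show (2 - 1 : ℂ) = 1 by norm_num, h] at h1
  have h2 : Lam f 1 = 0 := by linear_combination (1 / 2 : ℂ) * h1
  rw [Lam_eq_fac f (by norm_num)] at h2
  exact (mul_eq_zero.mp h2).resolve_left (fac_ne_zero (by norm_num))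

end Fermat.Agent.Cor.Parity
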