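import Mathlib
import Fermat.Agent.Cor.CentralValue
import Fermat.Agent.Cor.Parity
import Fermat.Agent.Cor.SmallConductor

/-!
# The period lattice of a newform with rational coefficients, and the central value of the
# L-function of a semistable elliptic curve (corollary file, not used for S01)
-/

set_option autoImplicit false

open UpperHalfPlane hiding I
open Complex CongruenceSubgroup Filter Function ModularFormClass Set
open scoped MatrixGroups ModularForm Topology ComplexConjugate Real

noncomputable section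

namespace Fermat.Agent.Cor.CentralValue

open Fermat.Agent.H16 Fermat.Agent.H16.LR Fermat.Agent.Cor.Manin

variable {N : ℕ} [NeZero N] {f : CuspForm (Gamma0 N) 2}

/-- The periods are contained in a rectangular lattice and contain one. -/
theorem exists_rectangular (hf : f.IsNewform)
    (ha : ∀ l : ℕ, l.Prime → ¬ l ∣ N → ∃ z : ℤ, qCoeff f l = z) :
    ∃ δ δ' : ℝ, 0 < δ ∧ 0 < δ' ∧
      (∀ x ∈ periodGroup f, ∃ m n : ℤ, x = m * δ + n * δ' * I) ∧
      (∃ x : ℝ, x ≠ 0 ∧ (x : ℂ) ∈ periodGroup f) ∧
      ∃ x : ℝ, x ≠ 0 ∧ (x : ℂ) * I ∈ periodGroup f := by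
  have hc := conj_qCoeff hf ha
  obtain ⟨δ, hδ, h1, x, hx, hx0⟩ := exists_re hf ha
  obtain ⟨δ', hδ', h2, y, hy, hy0⟩ := exists_im hf ha
  refine ⟨δ, δ', hδ, hδ', fun z hz ↦ ?_, ⟨2 * x.re, by simpa using hx0, ?_⟩,
    ⟨2 * y.im, by simpa using hy0, ?_⟩⟩
  · obtain ⟨m, hm⟩ := h1 z hz
    obtain ⟨n, hn⟩ := h2 z hz
    refine ⟨m, n, ?_⟩
    conv_lhs => rw [← Complex.re_add_im z, hm, hn]
    push_cast
    ring
  · have h4 := add_mem hx (conj_mem hc hx)
    rw [Complex.add_conj] at h4
    exact h4
  · have h4 := sub_mem hy (conj_mem hc hy)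
    rw [Complex.sub_conj] at h4
    exact h4

/-- The period group is discrete. -/
theorem discreteTopology_periodGroup (hf : f.IsNewform)
    (ha : ∀ l : ℕ, l.Prime → ¬ l ∣ N → ∃ z : ℤ, qCoeff f l = z) :
    DiscreteTopology (AddSubgroup.toIntSubmodule (periodGroup f)) := by
  obtain ⟨δ, δ', hδ, hδ', h1, -, -⟩ := exists_rectangular hf ha
  have hmin : 0 < min δ δ' := lt_min hδ hδ'
  apply discreteTopology_of_isOpen_singleton_zero
  have h2 : ({0} : Set (AddSubgroup.toIntSubmodule (periodGroup f))) =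
      Subtype.val ⁻¹' Metric.ball (0 : ℂ) (min δ δ') := by
    ext ⟨x, hx⟩
    simp only [Set.mem_singleton_iff, Set.mem_preimage, mem_ball_zero_iff]
    constructor
    · intro h
      have : x = 0 := congrArg Subtype.val h
      rw [this, norm_zero]
      exact hmin
    · intro h
      obtain ⟨m, n, hmn⟩ := h1 x hx
      have hre : x.re = m * δ := by rw [hmn]; simp
      have him : x.im = n * δ' := by rw [hmn]; simp
      have key : ∀ (k : ℤ) (ε : ℝ), 0 < ε → |(k : ℝ) * ε| < ε → k = 0 := by
        intro k ε hε hk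
        rw [abs_mul, abs_of_pos hε] at hk
        have h3 : |(k : ℝ)| < 1 := by
          by_contra h4
          push Not at h4
          have := mul_le_mul_of_nonneg_right h4 hε.le
          linarith
        have h5 : |k| < (1 : ℤ) := by exact_mod_cast h3
        exact Int.abs_lt_one_iff.mp h5
      have hm : m = 0 := key m δ hδ (by
        rw [← hre]
        exact ((Complex.abs_re_le_norm x).trans_lt h).trans_le (min_le_left _ _))
      have hn : n = 0 := key n δ' hδ' (by
        rw [← him]
        exact ((Complex.abs_im_le_norm x).trans_lt h).trans_le (min_le_right _ _))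
      apply Subtype.ext
      change x = 0
      rw [hmn, hm, hn]
      simp
  rw [h2]
  exact Metric.isOpen_ball.preimage continuous_subtype_val

/-- **The periods of a newform with rational coefficients form a lattice in `ℂ`.** -/
theorem isZLattice_periodGroup (hf : f.IsNewform)
    (ha : ∀ l : ℕ, l.Prime → ¬ l ∣ N → ∃ z : ℤ, qCoeff f l = z) :
    ∃ _ : DiscreteTopology (AddSubgroup.toIntSubmodule (periodGroup f)),
      IsZLattice ℝ (AddSubgroup.toIntSubmodule (periodGroup f)) := by
  refine ⟨discreteTopology_periodGroup hf ha, ?_⟩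
  have := discreteTopology_periodGroup hf ha
  constructor
  obtain ⟨δ, δ', -, -, -, ⟨x, hx0, hx⟩, ⟨y, hy0, hy⟩⟩ := exists_rectangular hf ha
  rw [eq_top_iff]
  intro z _
  have hz : z = (z.re / x) • (x : ℂ) + (z.im / y) • ((y : ℂ) * I) := by
    have hx' : (x : ℂ) ≠ 0 := by exact_mod_cast hx0
    have hy' : (y : ℂ) ≠ 0 := by exact_mod_cast hy0
    rw [Complex.real_smul, Complex.real_smul]
    push_cast
    field_simp
    exact (Complex.re_add_im z).symm
  rw [hz]
  exact Submodule.add_mem _ (Submodule.smul_mem _ _ (Submodule.subset_span hx))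
    (Submodule.smul_mem _ _ (Submodule.subset_span hy))

/-- **The central value of the L-function of a semistable elliptic curve.**  Let `W` be a
semistable Weierstrass equation over `ℤ`, `Δ ≠ 0`.  There is a newform `g` of level the conductor
of `W` with `a_l(g) = a_l(W)` for all good primes `l`; its real periods are the multiples of a
real number `Ω > 0`, and `#W(𝔽_l) L(g, 1)` is an integral multiple of `Ω` for all good primes.
In particular `L(g, 1) / Ω` is a rational number. -/
theorem curve_central_value (W : WeierstrassCurve ℤ) (hΔ : W.Δ ≠ 0)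
    (hW : W.IsSemistableModel) :
    ∃ g : CuspForm (Gamma0 W.conductorLevel) 2, g.IsNewform ∧
      (∀ l : ℕ, l.Prime → ¬ l ∣ W.conductorLevel → qCoeff g l = (W.apOfModel l : ℂ)) ∧
      ∃ Ω : ℝ, 0 < Ω ∧ (∀ x : ℝ, (x : ℂ) ∈ periodGroup g ↔ ∃ m : ℤ, x = m * Ω) ∧
        (∀ l : ℕ, l.Prime → ¬ l ∣ W.conductorLevel →
          ∃ m : ℤ, ((W.reductionMod l).card : ℂ) * LFun.LF g 1 = m * Ω) ∧
        ∃ q : ℚ, LFun.LF g 1 = q * Ω := by
  have : NeZero W.conductorLevel := ⟨W.conductorLevel_pos.ne'⟩
  obtain ⟨g, hg, hgW⟩ := SmallConductor.exists_newform W hΔ hW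
  obtain ⟨Ω, hΩ, h1, h2, h3⟩ := central_value hg fun l hl hlN ↦ ⟨_, hgW l hl hlN⟩
  refine ⟨g, hg, hgW, Ω, hΩ, h1, fun l hl hlN ↦ ?_, h3⟩
  obtain ⟨m, hm⟩ := h2 l hl hlN
  refine ⟨m, ?_⟩
  rw [← hm, hgW l hl hlN]
  congr 1
  rw [WeierstrassCurve.apOfModel, WeierstrassCurve.traceOfFrobenius, Nat.card_zmod]
  push_cast
  ring

end Fermat.Agent.Cor.CentralValue
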