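import Mathlib
import Fermat.Agent.Cor.CentralCurve
import Fermat.Agent.Cor.FrobTraces

/-!
# The denominator of the central value (corollary file, not used for S01)

For a semistable elliptic curve `W` over `ℚ` the rational number `L(W, 1) / Ω` is `p`-integral for
every prime `p ≥ 5` such that `W[p]` is irreducible: there is a good prime `ℓ` with
`p ∤ #W(𝔽_ℓ)` (surjectivity of the mod `p` representation and Chebotarev's theorem).  So its
denominator is only divisible by `2, 3, 5, 7, 13`.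
-/

set_option autoImplicit false

noncomputable section

open CongruenceSubgroup ModularFormClass

namespace Fermat.Agent.Cor.CentralDenom

open Fermat.Agent.Cor.CentralValue

variable {W : WeierstrassCurve ℤ}

/-- A good prime `ℓ` with `p ∤ #W(𝔽_ℓ)`. -/
theorem exists_not_dvd_card (hΔ : W.Δ ≠ 0) (hW : W.IsSemistableModel) {p : ℕ} (hp : p.Prime)
    (hp5 : 5 ≤ p) (hirr : W.ModRepIsIrreducible p) :
    ∃ ℓ : ℕ, ℓ.Prime ∧ ¬ (ℓ : ℤ) ∣ W.Δ ∧ ¬ (p : ℤ) ∣ ℓ + 1 - W.apOfModel ℓ := by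
  have hcop : p.Coprime 6 := by
    rw [Nat.Prime.coprime_iff_not_dvd hp]
    intro h
    have h1 := Nat.le_of_dvd (by norm_num) h
    interval_cases p <;> revert h <;> revert hp <;> norm_num
  obtain ⟨ℓ, hℓ, h1, h2, h3⟩ := (FrobTraces.infinite_traces W hΔ hW hcop
    (fun q hq hqp ↦ by rwa [(Nat.prime_dvd_prime_iff_eq hq hp).mp hqp]) (-2) 1
    isCoprime_one_left).nonempty
  refine ⟨ℓ, hℓ, h1, fun h4 ↦ ?_⟩
  have h5 : (p : ℤ) ∣ 4 := by
    have e1 := (Int.modEq_iff_dvd.mp h2)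
    have e2 := (Int.modEq_iff_dvd.mp h3)
    have h6 : (4 : ℤ) = (ℓ + 1 - W.apOfModel ℓ) + (1 - ℓ) - (-2 - W.apOfModel ℓ) := by ring
    rw [h6]
    exact dvd_sub (dvd_add h4 e1) e2
  have h7 : p ∣ 4 := by exact_mod_cast h5
  have h8 := Nat.le_of_dvd (by norm_num) h7
  omega

/-- **The denominator of `L(W, 1) / Ω`** is prime to every prime `p ≥ 5` such that `W[p]` is
irreducible, so it is only divisible by `2, 3, 5, 7, 13`. -/
theorem central_denominator (W : WeierstrassCurve ℤ) (hΔ : W.Δ ≠ 0) (hW : W.IsSemistableModel) :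
    ∃ (g : CuspForm (Gamma0 W.conductorLevel) 2) (Ω : ℝ) (q : ℚ), g.IsNewform ∧
      (∀ l : ℕ, l.Prime → ¬ l ∣ W.conductorLevel → qCoeff g l = (W.apOfModel l : ℂ)) ∧
      0 < Ω ∧ (∀ x : ℝ, (x : ℂ) ∈ periodGroup g ↔ ∃ m : ℤ, x = m * Ω) ∧
      LFun.LF g 1 = q * Ω ∧
      (∀ l : ℕ, l.Prime → ¬ l ∣ W.conductorLevel → q.den ∣ (W.reductionMod l).card) ∧
      (∀ p : ℕ, p.Prime → 5 ≤ p → W.ModRepIsIrreducible p → ¬ p ∣ q.den) ∧
      ∀ p : ℕ, p.Prime → p ∣ q.den → p ∈ ({2, 3, 5, 7, 13} : Finset ℕ) := by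
  have : NeZero W.conductorLevel := ⟨W.conductorLevel_pos.ne'⟩
  obtain ⟨g, hg, hgW, Ω, hΩ, h1, h2, q, hq⟩ := curve_central_value W hΔ hW
  have hΩ' : (Ω : ℂ) ≠ 0 := by exact_mod_cast hΩ.ne'
  have hden : ∀ l : ℕ, l.Prime → ¬ l ∣ W.conductorLevel → q.den ∣ (W.reductionMod l).card := by
    intro l hl hlN
    obtain ⟨m, hm⟩ := h2 l hl hlN
    rw [hq, ← mul_assoc] at hm
    have h3 : ((W.reductionMod l).card : ℚ) * q = m := by
      have := mul_right_cancel₀ hΩ' hm
      exact_mod_cast this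
    have h4 : ((W.reductionMod l).card : ℤ) * q.num = m * q.den := by
      have h5 := Rat.num_div_den q
      have h6 : (q.den : ℚ) ≠ 0 := by exact_mod_cast q.den_nz
      have h7 : ((W.reductionMod l).card : ℚ) * q.num = m * q.den := by
        rw [← h3]
        nth_rw 2 [← h5]
        field_simp
      exact_mod_cast h7
    have h5 : (q.den : ℤ) ∣ ((W.reductionMod l).card : ℤ) * q.num := ⟨m, by rw [h4]; ring⟩
    have h6 : IsCoprime (q.den : ℤ) q.num := by
      rw [Int.isCoprime_iff_gcd_eq_one, Int.gcd_comm]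
      exact q.reduced
    exact_mod_cast h6.dvd_of_dvd_mul_right h5
  have key : ∀ p : ℕ, p.Prime → 5 ≤ p → W.ModRepIsIrreducible p → ¬ p ∣ q.den := by
    intro p hp hp5 hirr hd
    obtain ⟨l, hl, hlΔ, h3⟩ := exists_not_dvd_card hΔ hW hp hp5 hirr
    have hlN : ¬ l ∣ W.conductorLevel := fun h ↦ hlΔ ((W.prime_dvd_conductorLevel_iff hΔ hl).mp h)
    apply h3
    have h4 : ((W.reductionMod l).card : ℤ) = l + 1 - W.apOfModel l := by
      rw [WeierstrassCurve.apOfModel, WeierstrassCurve.traceOfFrobenius, Nat.card_zmod]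
      push_cast
      ring
    rw [← h4]
    exact_mod_cast hd.trans (hden l hl hlN)
  refine ⟨g, Ω, q, hg, hgW, hΩ, h1, hq, hden, key, fun p hp hd ↦ ?_⟩
  by_contra hnot
  have h11 : 11 ≤ p ∧ p ≠ 13 := by
    refine ⟨?_, fun h ↦ hnot (by rw [h]; decide)⟩
    by_contra hlt
    push Not at hlt
    apply hnot
    interval_cases p <;> revert hp <;> norm_num
  exact key p hp (by omega) (Mazur.modRep_irreducible hΔ hW hp h11.1 h11.2) hd

end Fermat.Agent.Cor.CentralDenom
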