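import Mathlib
import Fermat.Agent.Cor.CentralCurve
import Fermat.Agent.H29.Haupt2
import Fermat.Agent.Cor.EigenTable

/-!
# The central value for conductor 11 (corollary file, not used for S01)

A nonzero cusp form of weight two on `Γ₀(11)` has no zeros on the upper half plane: its norm to
level one is a multiple of `Δ²`.  So `L(g, 1) ≠ 0` for the newform `g` of level 11, and the
L-function of every semistable elliptic curve of conductor 11 does not vanish at `s = 1`.
-/

set_option autoImplicit false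

open UpperHalfPlane hiding I
open Complex CongruenceSubgroup Filter Function ModularFormClass Set MeasureTheory Asymptotics
open scoped MatrixGroups ModularForm Topology ComplexConjugate Real Manifold

noncomputable section

namespace Fermat.Agent.Cor.CentralEleven

open Fermat.Agent.H16 Fermat.Agent.H16.LR

local notation "Δ" => ModularForm.discriminant

variable {N : ℕ} [NeZero N] {k : ℤ}

omit [NeZero N] in
/-- Translates of a form on `Γ₀(N)` by elements of `SL₂(ℤ)` have period `N`. -/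
theorem periodic_SL (f : CuspForm (Gamma0 N) k) (γ : SL(2, ℤ)) :
    Periodic ((⇑f ∣[k] (Matrix.SpecialLinearGroup.mapGL ℝ γ)) ∘ ofComplex) (N : ℝ) := by
  have hdet : (γ 0 0 : ℤ) * γ 1 1 - γ 0 1 * γ 1 0 = 1 := LR.det_eq γ
  let B : SL(2, ℤ) := ⟨!![1 - N * γ 0 0 * γ 1 0, N * γ 0 0 ^ 2; - N * γ 1 0 ^ 2,
    1 + N * γ 0 0 * γ 1 0], by rw [Matrix.det_fin_two_of]; ring⟩
  have hB : B ∈ Gamma0 N := by
    rw [Gamma0_mem]; simp [B]
  have hd : (γ 0 0 : ℝ) * γ 1 1 - γ 0 1 * γ 1 0 = 1 := by exact_mod_cast hdet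
  have hcomm : Matrix.SpecialLinearGroup.mapGL ℝ γ * transMat N =
      Matrix.SpecialLinearGroup.mapGL ℝ B * Matrix.SpecialLinearGroup.mapGL ℝ γ := by
    apply Units.ext
    rw [Units.val_mul, Units.val_mul]
    ext i j
    fin_cases i <;> fin_cases j <;>
      simp [transMat, Matrix.GeneralLinearGroup.mkOfDetNeZero, Matrix.mul_apply,
        Fin.sum_univ_two, B]
    · ring
    · linear_combination (- N * (γ 0 0 : ℝ)) * hd
    · ring
    · linear_combination (- N * (γ 1 0 : ℝ)) * hd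
  have hinv : (⇑f ∣[k] (Matrix.SpecialLinearGroup.mapGL ℝ γ)) ∣[k] transMat N =
      ⇑f ∣[k] (Matrix.SpecialLinearGroup.mapGL ℝ γ) := by
    rw [← SlashAction.slash_mul, hcomm, SlashAction.slash_mul]
    congr 1
    exact SlashInvariantFormClass.slash_action_eq f _ ⟨B, hB, rfl⟩
  apply periodic_comp_ofComplex_of
  intro τ hw
  have h3 := congrFun hinv τ
  rw [slash_transMat] at h3
  rw [← h3]
  refine congrArg (⇑f ∣[k] (Matrix.SpecialLinearGroup.mapGL ℝ γ)) (UpperHalfPlane.ext ?_)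
  rw [transMat_smul]

theorem isBigO_slash (f : CuspForm (Gamma0 N) k) (γ : SL(2, ℤ)) :
    (⇑f ∣[k] (Matrix.SpecialLinearGroup.mapGL ℝ γ)) =O[atImInfty]
      fun τ ↦ Real.exp (-2 * π * τ.im / N) := by
  have hc := cuspidal_slash f (mapGL_mem γ)
  have hN : (0 : ℝ) < N := by exact_mod_cast NeZero.pos N
  exact IsZeroAtImInfty.exp_decay_atImInfty hc.zero hN (periodic_SL f γ) hc.holo
    hc.zero.isBoundedAtImInfty

omit [NeZero N] in
theorem isBigO_self (f : CuspForm (Gamma0 N) k) :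
    (⇑f : ℍ → ℂ) =O[atImInfty] fun τ ↦ Real.exp (-2 * π * τ.im) := by
  have hh : (1 : ℝ) ∈ (Gamma0 N : Subgroup (GL (Fin 2) ℝ)).strictPeriods := by
    simp [strictPeriods_Gamma0]
  have h := CuspFormClass.exp_decay_atImInfty f one_pos hh
  simpa using h

/-- A form of level one and weight `12 n` with a zero of order `n` at infinity is a multiple
of `Δ ^ n`. -/
theorem eq_smul_delta_pow (n : ℕ) : ∀ (k : ℤ) (_ : k = 12 * n) (F : ModularForm 𝒮ℒ k)
    (_ : (⇑F : ℍ → ℂ) =O[atImInfty] fun τ ↦ Real.exp (-2 * π * n * τ.im)),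
    ∃ c : ℂ, ∀ z, F z = c * Δ z ^ n := by
  induction n with
  | zero =>
    intro k hk F _
    have hk0 : k = 0 := by rw [hk]; simp
    subst hk0
    obtain ⟨c, hc⟩ := levelOne_weight_zero_const F
    exact ⟨c, fun z ↦ by rw [hc]; simp⟩
  | succ n ih =>
    intro k hk F hF
    have hz : IsZeroAtImInfty (⇑F : ℍ → ℂ) := by
      refine hF.trans_tendsto ?_
      have h1 : Tendsto (fun τ : ℍ ↦ (2 * π * ((n + 1 : ℕ) : ℝ)) * τ.im) atImInfty atTop := by
        refine Tendsto.const_mul_atTop (by positivity) ?_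
        exact tendsto_comap
      have h2 := Real.tendsto_exp_neg_atTop_nhds_zero.comp h1
      refine h2.congr fun τ ↦ ?_
      simp only [Function.comp_apply]
      congr 1
      ring
    have h0 : (qExpansion 1 (⇑F : ℍ → ℂ)).coeff 0 = 0 := by
      rw [UpperHalfPlane.qExpansion_coeff_zero one_pos
        (ModularFormClass.analyticAt_cuspFunction_zero F one_pos one_mem_strictPeriods_SL)
        (SlashInvariantFormClass.periodic_comp_ofComplex F one_mem_strictPeriods_SL)]
      exact hz.valueAtInfty_eq_zero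
    set G := CuspForm.discriminantEquiv (ModularForm.toCuspForm F h0) with hG
    have hGz : ∀ z, F z = Δ z * G z := by
      intro z
      rw [hG, ModularForm.discriminant_mul_discriminantEquiv_apply]
      rfl
    have hO : (⇑G : ℍ → ℂ) =O[atImInfty] fun τ ↦ Real.exp (-2 * π * n * τ.im) := by
      have h1 : (fun τ : ℍ ↦ Real.exp (-2 * π * τ.im)) =O[atImInfty] Δ :=
        ModularForm.exp_isBigO_discriminant
      obtain ⟨C, hC⟩ := h1.bound
      obtain ⟨C', hC'⟩ := hF.bound
      refine IsBigO.of_bound (|C'| * C) ?_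
      filter_upwards [hC, hC'] with τ h2 h3
      have hΔ : 0 < ‖Δ τ‖ := norm_pos_iff.mpr (ModularForm.discriminant_ne_zero τ)
      rw [hGz τ, norm_mul] at h3
      rw [Real.norm_of_nonneg (Real.exp_pos _).le] at h2 h3 ⊢
      have h4 : Real.exp (-2 * π * ((n + 1 : ℕ) : ℝ) * τ.im) =
          Real.exp (-2 * π * n * τ.im) * Real.exp (-2 * π * τ.im) := by
        rw [← Real.exp_add]
        congr 1
        push_cast
        ring
      rw [h4] at h3
      refine le_of_mul_le_mul_left ?_ hΔ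
      calc ‖Δ τ‖ * ‖G τ‖ ≤ C' * (Real.exp (-2 * π * n * τ.im) * Real.exp (-2 * π * τ.im)) := h3
        _ ≤ |C'| * (Real.exp (-2 * π * n * τ.im) * Real.exp (-2 * π * τ.im)) :=
          mul_le_mul_of_nonneg_right (le_abs_self _) (by positivity)
        _ ≤ |C'| * (Real.exp (-2 * π * n * τ.im) * (C * ‖Δ τ‖)) := by gcongr
        _ = ‖Δ τ‖ * (|C'| * C * Real.exp (-2 * π * n * τ.im)) := by ring
    obtain ⟨c, hc⟩ := ih (k - 12) (by rw [hk]; push_cast; ring) G hO
    refine ⟨c, fun z ↦ ?_⟩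
    rw [hGz, hc, pow_succ]
    ring

/-- `Γ₀(11)` as a subgroup of `GL₂(ℝ)`. -/
abbrev G11 : Subgroup (GL (Fin 2) ℝ) := (Gamma0 11 : Subgroup (GL (Fin 2) ℝ))

/-- The cosets. -/
abbrev Q11 : Type := ↥(𝒮ℒ) ⧸ (G11.subgroupOf 𝒮ℒ)

theorem index_eleven : (Gamma0 11).index = 12 := by
  rw [Subgroup.index, Fermat.Agent.H14.card_X]
  decide +kernel

theorem card_quotient : Nat.card Q11 = 12 := by
  have h1 : G11.relIndex 𝒮ℒ = (Gamma0 11).index := by
    rw [← Subgroup.index_comap,
      Subgroup.comap_map_eq_self_of_injective Matrix.SpecialLinearGroup.mapGL_injective]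
  rw [← index_eleven, ← h1]
  rfl

open SlashInvariantForm in
/-- **A nonzero form of weight two on `Γ₀(11)` has no zeros.** -/
theorem ne_zero_eleven (f : CuspForm (Gamma0 11) 2) (hf : f ≠ 0) (z : ℍ) : f z ≠ 0 := by
  classical
  let : Fintype Q11 := Fintype.ofFinite _
  set F := ModularForm.norm 𝒮ℒ f with hFdef
  have hF0 : F ≠ 0 := by
    refine ModularForm.norm_ne_zero 𝒮ℒ fun h ↦ hf ?_
    exact DFunLike.coe_injective h
  have hcoe : (⇑F : ℍ → ℂ) = ∏ q : Q11, quotientFunc f q := by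
    rw [hFdef, ModularForm.coe_norm]
  let e : Q11 → ℝ := fun q ↦ if q = (⟦1⟧ : Q11) then 1 else 1 / 11
  have hq1 : quotientFunc f (⟦1⟧ : Q11) = ⇑f := by
    rw [quotientFunc_mk]
    simp
  have h1 : ∀ q : Q11, quotientFunc f q =O[atImInfty]
      fun τ ↦ Real.exp (-2 * π * e q * τ.im) := by
    intro q
    by_cases hq : q = (⟦1⟧ : Q11)
    · rw [hq, hq1]
      have he : e (⟦1⟧ : Q11) = 1 := if_pos rfl
      rw [he]
      simpa using isBigO_self f
    · have he : e q = 1 / 11 := if_neg hq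
      rw [he]
      induction q using Quotient.inductionOn with
      | h r =>
        rw [quotientFunc_mk]
        obtain ⟨γ, hγ⟩ := r.2
        have h2 : (r : GL (Fin 2) ℝ)⁻¹ = Matrix.SpecialLinearGroup.mapGL ℝ γ⁻¹ := by
          rw [map_inv, ← hγ]
        rw [h2]
        have h3 := isBigO_slash f γ⁻¹
        refine h3.congr_right fun τ ↦ ?_
        congr 1
        push_cast
        ring_nf
  have hsum : ∑ q : Q11, e q = 2 := by
    have hcard : Fintype.card Q11 = 12 := by rw [← Nat.card_eq_fintype_card, card_quotient]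
    have h2 : ∀ q : Q11, e q = 1 / 11 + if q = (⟦1⟧ : Q11) then (10 / 11 : ℝ) else 0 := by
      intro q
      simp only [e]
      split_ifs <;> norm_num
    rw [Finset.sum_congr rfl fun q _ ↦ h2 q, Finset.sum_add_distrib, Finset.sum_const,
      Finset.card_univ, hcard, Finset.sum_ite_eq', if_pos (Finset.mem_univ _)]
    norm_num
  have hO : (⇑F : ℍ → ℂ) =O[atImInfty] fun τ ↦ Real.exp (-2 * π * ((2 : ℕ) : ℝ) * τ.im) := by
    rw [hcoe]
    have h2 := IsBigO.finsetProd (s := (Finset.univ : Finset Q11)) (l := atImInfty)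
      (f := fun q ↦ quotientFunc f q) (g := fun q τ ↦ Real.exp (-2 * π * e q * τ.im))
      fun q _ ↦ h1 q
    have h3 : (fun τ : ℍ ↦ ∏ q : Q11, Real.exp (-2 * π * e q * τ.im)) =
        fun τ ↦ Real.exp (-2 * π * ((2 : ℕ) : ℝ) * τ.im) := by
      funext τ
      rw [← Real.exp_sum]
      congr 1
      have h4 : ∀ q : Q11, -2 * π * e q * τ.im = (-2 * π * τ.im) * e q := fun q ↦ by ring
      simp only [h4]
      rw [← Finset.mul_sum, hsum]
      push_cast
      ring
    rw [h3] at h2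
    have h5 : (∏ q : Q11, quotientFunc f q) = fun τ ↦ ∏ q : Q11, quotientFunc f q τ := by
      funext τ
      exact Finset.prod_apply _ _ _
    rw [h5]
    exact h2
  obtain ⟨c, hc⟩ := eq_smul_delta_pow 2 _ (by rw [card_quotient]; norm_num) F hO
  have hc0 : c ≠ 0 := by
    rintro rfl
    apply hF0
    ext τ
    rw [hc τ, zero_mul]
    rfl
  intro hz
  have h2 : F z = 0 := by
    have h3 := congrFun hcoe z
    rw [h3, Finset.prod_apply]
    refine Finset.prod_eq_zero (Finset.mem_univ (⟦1⟧ : Q11)) ?_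
    rw [hq1, hz]
  rw [hc z] at h2
  exact mul_ne_zero hc0 (pow_ne_zero 2 (ModularForm.discriminant_ne_zero z)) h2

/-! ### The central value of a form without zeros -/

open Fermat.Agent.Cor.CentralValue

theorem integrableOn (f : CuspForm (Gamma0 N) 2) :
    IntegrableOn (fun t : ℝ ↦ f (ofComplex (I * t))) (Ioi 0) := by
  have hk : (0 : ℤ) < 2 := by norm_num
  have h1 : IntegrableOn (fun t : ℝ ↦ (t : ℂ) ^ ((1 : ℂ) - 1) •
      (ModularForm.weakFEPair hk f).f t) (Ioi 0) :=
    ((CuspForm.isStrongFEPair hk f).hasMellin 1).1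
  simpa using h1

/-- `L(f, 1) = 2π ∫_0^∞ f(it) dt`. -/
theorem LF_one_eq_integral (f : CuspForm (Gamma0 N) 2) :
    LFun.LF f 1 = 2 * π * ∫ t in Ioi (0 : ℝ), f (ofComplex (I * t)) := by
  have h2 := integral_eq f (integrableOn f)
  rw [integral_const_mul, ← lam_zero_infty] at h2
  rw [LF_one]
  linear_combination (2 * π * I) * h2 -
    2 * π * (∫ t in Ioi (0 : ℝ), f (ofComplex (I * t))) * I_mul_I

omit [NeZero N] in
theorem continuousOn_im_axis (f : CuspForm (Gamma0 N) 2) :
    ContinuousOn (fun t : ℝ ↦ f (ofComplex (I * t))) (Ioi 0) := by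
  fun_prop

/-- A form with real coefficients and without zeros on the imaginary axis has `L(f, 1) ≠ 0`. -/
theorem LF_one_ne_zero {f : CuspForm (Gamma0 N) 2} (h : ∀ n, conj (qCoeff f n) = qCoeff f n)
    (hne : ∀ z, f z ≠ 0) : LFun.LF f 1 ≠ 0 := by
  set φ : ℝ → ℝ := fun t ↦ (f (ofComplex (I * t))).re with hφ
  have hreal : ∀ t ∈ Ioi (0 : ℝ), f (ofComplex (I * t)) = φ t := by
    intro t ht
    have h1 := congrFun (slash_J_eq h) (ofComplex (I * t))
    rw [slash_J_apply] at h1
    have h2 : (J • (ofComplex (I * t)) : ℍ) = ofComplex (I * t) := by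
      apply UpperHalfPlane.ext
      rw [coe_J_smul, ofComplex_eq (by simpa using ht)]
      simp
    rw [h2] at h1
    exact (Complex.conj_eq_iff_re.mp h1).symm
  have hφ0 : ∀ t ∈ Ioi (0 : ℝ), φ t ≠ 0 := by
    intro t ht h0
    apply hne (ofComplex (I * t))
    rw [hreal t ht, h0, Complex.ofReal_zero]
  have hcont : ContinuousOn φ (Ioi 0) :=
    Complex.continuous_re.comp_continuousOn (continuousOn_im_axis f)
  have hint : IntegrableOn φ (Ioi 0) := (integrableOn f).re
  have hI : ∫ t in Ioi (0 : ℝ), f (ofComplex (I * t)) = ((∫ t in Ioi (0 : ℝ), φ t : ℝ) : ℂ) := by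
    rw [setIntegral_congr_fun measurableSet_Ioi hreal]
    exact integral_complex_ofReal
  have hsupp : ∀ ψ : ℝ → ℝ, IntegrableOn ψ (Ioi 0) → (∀ t ∈ Ioi (0 : ℝ), 0 < ψ t) →
      0 < ∫ t in Ioi (0 : ℝ), ψ t := by
    intro ψ hψ hpos
    rw [setIntegral_pos_iff_support_of_nonneg_ae ?_ hψ]
    · have h3 : support ψ ∩ Ioi 0 = Ioi (0 : ℝ) := by
        rw [Set.inter_eq_right]
        intro t ht
        exact (hpos t ht).ne'
      rw [h3, Real.volume_Ioi]
      exact ENNReal.zero_lt_top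
    · rw [Filter.EventuallyLE, ae_restrict_iff' measurableSet_Ioi]
      exact Eventually.of_forall fun t ht ↦ (hpos t ht).le
  have hne' : ∫ t in Ioi (0 : ℝ), φ t ≠ 0 := by
    rcases lt_or_gt_of_ne (hφ0 1 (by norm_num : (1 : ℝ) ∈ Ioi 0)) with h1 | h1
    · have hneg : ∀ t ∈ Ioi (0 : ℝ), φ t < 0 := by
        intro t ht
        by_contra h2
        push Not at h2
        obtain ⟨u, hu, hu0⟩ := isPreconnected_Ioi.intermediate_value
          (by norm_num : (1 : ℝ) ∈ Ioi 0) ht hcont ⟨h1.le, h2⟩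
        exact hφ0 u hu hu0
      have h2 := hsupp (fun t ↦ - φ t) hint.neg fun t ht ↦ by
        have := hneg t ht
        simpa using this
      rw [integral_neg] at h2
      exact (neg_pos.mp h2).ne
    · have hpos : ∀ t ∈ Ioi (0 : ℝ), 0 < φ t := by
        intro t ht
        by_contra h2
        push Not at h2
        obtain ⟨u, hu, hu0⟩ := isPreconnected_Ioi.intermediate_value ht
          (by norm_num : (1 : ℝ) ∈ Ioi 0) hcont ⟨h2, h1.le⟩
        exact hφ0 u hu hu0
      exact (hsupp φ hint hpos).ne'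
  rw [LF_one_eq_integral, hI]
  have hπ : (π : ℂ) ≠ 0 := by exact_mod_cast Real.pi_ne_zero
  exact mul_ne_zero (mul_ne_zero two_ne_zero hπ) (by exact_mod_cast hne')

theorem ne_zero_of_level_eq (hN : N = 11) (f : CuspForm (Gamma0 N) 2) (hf : f ≠ 0) (z : ℍ) :
    f z ≠ 0 := by
  subst hN
  exact ne_zero_eleven f hf z

theorem card_E11_two : (GenusOne.E11.reductionMod 2).card = 5 := by
  have h := EigenTable.apOfModel_eq GenusOne.E11 2 (by rw [GenusOne.E11_Δ]; decide)
  have h2 : EigenTable.cnt 2 (GenusOne.E11.a₁ : ZMod 2) (GenusOne.E11.a₂ : ZMod 2)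
      (GenusOne.E11.a₃ : ZMod 2) (GenusOne.E11.a₄ : ZMod 2) (GenusOne.E11.a₆ : ZMod 2) = 4 := by
    decide
  rw [h2, WeierstrassCurve.apOfModel, WeierstrassCurve.traceOfFrobenius, Nat.card_zmod] at h
  push_cast at h
  omega

/-- **The central value for conductor 11.**  For every semistable elliptic curve `W` of conductor
`11` the L-function of its newform `g` does not vanish at `s = 1` (so its analytic rank is zero),
and `L(g, 1) = (m / 5) Ω` with an integer `m ≠ 0`, `Ω` the least positive real period of `g`. -/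
theorem conductor_eleven (W : WeierstrassCurve ℤ) (hΔ : W.Δ ≠ 0) (hW : W.IsSemistableModel)
    (h11 : W.conductorLevel = 11) :
    ∃ g : CuspForm (Gamma0 W.conductorLevel) 2, g.IsNewform ∧
      (∀ l : ℕ, l.Prime → l ≠ 11 → qCoeff g l = (W.apOfModel l : ℂ)) ∧
      LFun.LF g 1 ≠ 0 ∧ Parity.analyticRank g = 0 ∧
      ∃ Ω : ℝ, 0 < Ω ∧ (∀ x : ℝ, (x : ℂ) ∈ periodGroup g ↔ ∃ m : ℤ, x = m * Ω) ∧
        ∃ m : ℤ, m ≠ 0 ∧ LFun.LF g 1 = m / 5 * Ω := by
  have : NeZero W.conductorLevel := ⟨W.conductorLevel_pos.ne'⟩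
  obtain ⟨g, hg, hgW, Ω, hΩ, h1, h2, -⟩ := curve_central_value W hΔ hW
  have hc := conj_qCoeff hg fun l hl hlN ↦ ⟨_, hgW l hl hlN⟩
  have h3 : LFun.LF g 1 ≠ 0 :=
    LF_one_ne_zero hc (ne_zero_of_level_eq h11 g hg.1.ne_zero)
  have hdvd : ∀ l : ℕ, l.Prime → l ≠ 11 → ¬ l ∣ W.conductorLevel := by
    intro l hl hne h
    rw [h11] at h
    exact hne ((Nat.prime_dvd_prime_iff_eq hl (by norm_num)).mp h)
  refine ⟨g, hg, fun l hl hne ↦ hgW l hl (hdvd l hl hne), h3, ?_, Ω, hΩ, h1, ?_⟩
  · rw [Parity.analyticRank, analyticOrderNatAt,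
      ((LFun.differentiable_LF g).analyticAt 1).analyticOrderAt_eq_zero.mpr h3]
    rfl
  · obtain ⟨m, hm⟩ := h2 2 Nat.prime_two (hdvd 2 Nat.prime_two (by norm_num))
    have h4 : (W.reductionMod 2).card = 5 := by
      rw [← card_E11_two]
      refine GenusOne.card_eq_of_conductorLevel_eq W GenusOne.E11 hΔ
        (by rw [GenusOne.E11_Δ]; norm_num) hW GenusOne.E11_semistable
        (by rw [h11, GenusOne.conductorLevel_E11]) (by rw [h11]; simp) 2 Nat.prime_two ?_
      exact hdvd 2 Nat.prime_two (by norm_num)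
    rw [h4] at hm
    push_cast at hm
    refine ⟨m, ?_, ?_⟩
    · rintro rfl
      apply h3
      have h5 : (5 : ℂ) * LFun.LF g 1 = 0 := by rw [hm]; simp
      exact (mul_eq_zero.mp h5).resolve_left (by norm_num)
    · linear_combination (1 / 5 : ℂ) * hm

end Fermat.Agent.Cor.CentralEleven
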