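import Mathlib
import Fermat.Agent.Cor.CentralEleven

/-!
# Additive twists and twisted central values (corollary file, not used for S01)

For `f ∈ S₂(Γ₀(N))` and `r ∈ ℚ` the Dirichlet series `∑ a_n e(n r) n^(-s)` extends to an entire
function `LR f r`, and `LR f r 1 = 2πi λ(r, ∞)`; so for a periodic function `Φ` on `ℤ` (for example
a Dirichlet character) `∑ Φ(n) a_n n^(-s)` extends to an entire function `LT f Φ`.  For a newform
with integral eigenvalues all the values `LR f r 1` lie in `ℚ Ω⁺ + ℚ Ω⁻ i`, and for a primitive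
Dirichlet character `χ` (mod `m`) `LT f χ 1` is the Gauss sum of `χ` times `Ω⁺` (`χ` even) or `Ω⁻ i`
(`χ` odd) times an element of the field of values of `χ` (Birch's lemma).
-/

set_option autoImplicit false

open UpperHalfPlane hiding I
open Complex CongruenceSubgroup Filter Function ModularFormClass Set MeasureTheory Asymptotics
open scoped MatrixGroups ModularForm Topology ComplexConjugate Real Manifold

noncomputable section

namespace Fermat.Agent.Cor.TwistValue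

open Fermat.Agent.H16 Fermat.Agent.H16.LR Fermat.Agent.Cor.Manin Fermat.Agent.Cor.CentralValue
open Fermat.Agent.Cor.CentralEleven

variable {N : ℕ} [NeZero N]

/-- The values of `f` on the vertical line through `r`. -/
def vert (f : CuspForm (Gamma0 N) 2) (r : ℝ) (t : ℝ) : ℂ := f (ofComplex ((r : ℂ) + t * I))

theorem coe_vert (r : ℝ) {t : ℝ} (ht : 0 < t) :
    ((ofComplex ((r : ℂ) + t * I) : ℍ) : ℂ) = r + t * I := ofComplex_eq (by simpa using ht)

theorem tendsto_vert (r : ℝ) :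
    Tendsto (fun t : ℝ ↦ (ofComplex ((r : ℂ) + t * I) : ℍ)) atTop atImInfty := by
  rw [atImInfty, tendsto_comap_iff]
  refine tendsto_id.congr' ?_
  filter_upwards [eventually_gt_atTop 0] with t ht
  simp only [Function.comp_apply, id, ← UpperHalfPlane.coe_im]
  rw [coe_vert r ht]
  simp

theorem continuousOn_vert (f : CuspForm (Gamma0 N) 2) (r : ℝ) :
    ContinuousOn (vert f r) (Ioi 0) := by
  have h1 : ContinuousOn (⇑f ∘ ofComplex) {z : ℂ | 0 < z.im} := by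
    have := (ModularFormClass.holo f)
    rw [UpperHalfPlane.mdifferentiable_iff] at this
    exact this.continuousOn
  refine h1.comp (f := fun t : ℝ ↦ (r : ℂ) + t * I) (by fun_prop) ?_
  intro t ht
  simpa using ht

theorem isBigO_top (f : CuspForm (Gamma0 N) 2) (r : ℝ) :
    vert f r =O[atTop] fun t : ℝ ↦ Real.exp (-(2 * π) * t) := by
  refine ((isBigO_self f).comp_tendsto (tendsto_vert r)).trans (EventuallyEq.isBigO ?_)
  filter_upwards [eventually_gt_atTop 0] with t ht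
  simp only [Function.comp_apply, ← UpperHalfPlane.coe_im]
  rw [coe_vert r ht]
  simp

/-- A matrix with `γ ∞ = r`. -/
theorem exists_matrix (r : ℚ) : ∃ γ : SL(2, ℤ), γ 1 0 ≠ 0 ∧ (r : ℝ) = (γ 0 0 : ℝ) / (γ 1 0 : ℝ) ∧
    ι γ • (OnePoint.infty : Cu) = (r : Cu) := by
  obtain ⟨γ, hγ⟩ := exists_smul_infty (r : Cu)
  have h1 := ι_infty γ
  rw [hγ] at h1
  have h2 : γ 1 0 ≠ 0 := by
    intro h
    rw [h, Int.cast_zero, cv_zero] at h1
    exact OnePoint.coe_ne_infty _ h1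
  have h2' : ((γ 1 0 : ℤ) : ℚ) ≠ 0 := by exact_mod_cast h2
  rw [cv_of_ne h2'] at h1
  have h3 : r = (γ 0 0 : ℚ) / (γ 1 0 : ℚ) := OnePoint.coe_injective h1
  refine ⟨γ, h2, ?_, hγ⟩
  rw [h3]
  push_cast
  rfl

/-- The point mapped to `r + i t` by `γ`. -/
theorem smul_point {γ : SL(2, ℤ)} (hc : γ 1 0 ≠ 0) {t : ℝ} (ht : 0 < t) :
    (Matrix.SpecialLinearGroup.mapGL ℝ γ) • (ofComplex (((-(γ 1 1 : ℝ) / (γ 1 0 : ℝ) : ℝ) : ℂ) +
      (((γ 1 0 : ℝ) ^ 2 * t)⁻¹ : ℝ) * I) : ℍ) =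
        ofComplex ((((γ 0 0 : ℝ) / (γ 1 0 : ℝ) : ℝ) : ℂ) + t * I) := by
  have hc' : (γ 1 0 : ℝ) ≠ 0 := by exact_mod_cast hc
  have hcC : ((γ 1 0 : ℤ) : ℂ) ≠ 0 := by exact_mod_cast hc
  have htC : (t : ℂ) ≠ 0 := by exact_mod_cast ht.ne'
  have ht' : 0 < ((γ 1 0 : ℝ) ^ 2 * t)⁻¹ := by positivity
  have hdet : ((γ 0 0 : ℤ) : ℂ) * (γ 1 1 : ℤ) - (γ 0 1 : ℤ) * (γ 1 0 : ℤ) = 1 := by
    have := Matrix.det_fin_two γ.1
    rw [γ.2] at this
    exact_mod_cast this.symm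
  apply UpperHalfPlane.ext
  rw [coe_vert _ ht, UpperHalfPlane.coe_smul_of_det_pos (by simp), UpperHalfPlane.num,
    UpperHalfPlane.denom, coe_vert _ ht']
  have hI := I_ne_zero
  simp only [Matrix.SpecialLinearGroup.mapGL_coe_matrix, Matrix.SpecialLinearGroup.map_apply_coe,
    Matrix.map_apply, RingHom.mapMatrix_apply, algebraMap_int_eq, eq_intCast,
    Complex.ofReal_intCast]
  push_cast
  have hdet' : ((γ 0 0 : ℤ) : ℂ) * (γ 1 1 : ℤ) - (γ 0 1 : ℤ) * (γ 1 0 : ℤ) = 1 := hdet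
  generalize ((γ 0 0 : ℤ) : ℂ) = a at *
  generalize ((γ 0 1 : ℤ) : ℂ) = b at *
  generalize ((γ 1 0 : ℤ) : ℂ) = c at *
  generalize ((γ 1 1 : ℤ) : ℂ) = d at *
  have hden : c * (-d / c + (c ^ 2 * t)⁻¹ * I) + d = I / (c * t) := by
    field_simp
    ring
  rw [hden, div_eq_iff (div_ne_zero hI (mul_ne_zero hcC htC))]
  field_simp
  linear_combination (-(c * t)) * hdet' - (c * t) * I_sq

theorem denom_point {γ : SL(2, ℤ)} (hc : γ 1 0 ≠ 0) {t : ℝ} (ht : 0 < t) :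
    UpperHalfPlane.denom (Matrix.SpecialLinearGroup.mapGL ℝ γ)
      (ofComplex (((-(γ 1 1 : ℝ) / (γ 1 0 : ℝ) : ℝ) : ℂ) + (((γ 1 0 : ℝ) ^ 2 * t)⁻¹ : ℝ) * I) : ℍ)
        = I / ((γ 1 0 : ℤ) * t) := by
  have hcC : ((γ 1 0 : ℤ) : ℂ) ≠ 0 := by exact_mod_cast hc
  have hc' : (γ 1 0 : ℝ) ≠ 0 := by exact_mod_cast hc
  have htC : (t : ℂ) ≠ 0 := by exact_mod_cast ht.ne'
  have ht' : 0 < ((γ 1 0 : ℝ) ^ 2 * t)⁻¹ := by positivity
  rw [UpperHalfPlane.denom, coe_vert _ ht']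
  simp only [Matrix.SpecialLinearGroup.mapGL_coe_matrix, Matrix.SpecialLinearGroup.map_apply_coe,
    Matrix.map_apply, RingHom.mapMatrix_apply, algebraMap_int_eq, eq_intCast,
    Complex.ofReal_intCast]
  push_cast
  generalize ((γ 1 0 : ℤ) : ℂ) = c at *
  generalize ((γ 1 1 : ℤ) : ℂ) = d at *
  field_simp
  ring

theorem slash_apply' (g : ℍ → ℂ) (γ : SL(2, ℤ)) (z : ℍ) :
    (g ∣[(2 : ℤ)] Matrix.SpecialLinearGroup.mapGL ℝ γ) z =
      g (Matrix.SpecialLinearGroup.mapGL ℝ γ • z) *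
        (UpperHalfPlane.denom (Matrix.SpecialLinearGroup.mapGL ℝ γ) z) ^ (-2 : ℤ) := by
  rw [ModularForm.slash_apply, UpperHalfPlane.σ, if_pos (by simp)]
  simp

theorem vert_eq (f : CuspForm (Gamma0 N) 2) {γ : SL(2, ℤ)} (hc : γ 1 0 ≠ 0) {t : ℝ} (ht : 0 < t) :
    vert f ((γ 0 0 : ℝ) / (γ 1 0 : ℝ)) t =
      (⇑f ∣[(2 : ℤ)] Matrix.SpecialLinearGroup.mapGL ℝ γ)
        (ofComplex (((-(γ 1 1 : ℝ) / (γ 1 0 : ℝ) : ℝ) : ℂ) +
          (((γ 1 0 : ℝ) ^ 2 * t)⁻¹ : ℝ) * I)) * (I / ((γ 1 0 : ℤ) * t)) ^ 2 := by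
  have hcC : ((γ 1 0 : ℤ) : ℂ) ≠ 0 := by exact_mod_cast hc
  have htC : (t : ℂ) ≠ 0 := by exact_mod_cast ht.ne'
  rw [slash_apply', smul_point hc ht, denom_point hc ht, vert, mul_assoc, zpow_neg, zpow_ofNat,
    inv_mul_cancel₀ (pow_ne_zero 2 (div_ne_zero I_ne_zero (mul_ne_zero hcC htC))), mul_one]

/-- Rapid decay at the cusp `r`. -/
theorem isBigO_zero (f : CuspForm (Gamma0 N) 2) (r : ℚ) (b : ℝ) :
    vert f r =O[𝓝[>] 0] fun t : ℝ ↦ t ^ (-b) := by
  obtain ⟨γ, hc, hr, -⟩ := exists_matrix r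
  have hc' : (γ 1 0 : ℝ) ≠ 0 := by exact_mod_cast hc
  have hN : (0 : ℝ) < N := by exact_mod_cast NeZero.pos N
  set K : ℝ := 2 * π / (N * (γ 1 0 : ℝ) ^ 2) with hK
  have hK0 : 0 < K := by positivity
  have htend : Tendsto (fun t : ℝ ↦ ((γ 1 0 : ℝ) ^ 2 * t)⁻¹) (𝓝[>] 0) atTop := by
    have h1 : Tendsto (fun t : ℝ ↦ ((γ 1 0 : ℝ) ^ 2)⁻¹ * t⁻¹) (𝓝[>] 0) atTop :=
      (tendsto_inv_nhdsGT_zero (𝕜 := ℝ)).const_mul_atTop (by positivity)
    refine h1.congr fun t ↦ ?_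
    rw [mul_inv]
  have h1 := (isBigO_slash f γ).comp_tendsto
    ((tendsto_vert (-(γ 1 1 : ℝ) / (γ 1 0 : ℝ))).comp htend)
  have h2 : (fun t : ℝ ↦ (⇑f ∣[(2 : ℤ)] Matrix.SpecialLinearGroup.mapGL ℝ γ)
        (ofComplex (((-(γ 1 1 : ℝ) / (γ 1 0 : ℝ) : ℝ) : ℂ) +
          (((γ 1 0 : ℝ) ^ 2 * t)⁻¹ : ℝ) * I))) =O[𝓝[>] 0] fun t ↦ Real.exp (-K * t⁻¹) := by
    refine h1.trans (EventuallyEq.isBigO ?_)
    filter_upwards [self_mem_nhdsWithin] with t ht
    have ht' : 0 < ((γ 1 0 : ℝ) ^ 2 * t)⁻¹ := by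
      have : (0 : ℝ) < t := ht
      positivity
    simp only [Function.comp_apply, ← UpperHalfPlane.coe_im]
    rw [coe_vert _ ht']
    simp only [Complex.add_im, Complex.ofReal_im, Complex.mul_im, Complex.ofReal_re, Complex.I_im,
      Complex.I_re, mul_one, mul_zero, add_zero, zero_add]
    congr 1
    rw [hK, mul_inv]
    field_simp
  have h3 : (fun t : ℝ ↦ Real.exp (-K * t⁻¹)) =O[𝓝[>] 0] fun t ↦ (t⁻¹) ^ (b - 2) :=
    ((isLittleO_exp_neg_mul_rpow_atTop hK0 (b - 2)).isBigO).comp_tendsto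
      (tendsto_inv_nhdsGT_zero (𝕜 := ℝ))
  have h4 : (fun t : ℝ ↦ (I / ((γ 1 0 : ℤ) * (t : ℂ))) ^ 2) =O[𝓝[>] 0] fun t : ℝ ↦ (t⁻¹) ^ 2 := by
    refine IsBigO.of_bound (((γ 1 0 : ℝ) ^ 2)⁻¹) ?_
    filter_upwards [self_mem_nhdsWithin] with t ht
    have ht0 : (0 : ℝ) < t := ht
    have hnorm : ‖(I / ((γ 1 0 : ℤ) * (t : ℂ))) ^ 2‖ = ((γ 1 0 : ℝ) ^ 2)⁻¹ * (t⁻¹) ^ 2 := by
      rw [norm_pow, norm_div, norm_mul, Complex.norm_I, Complex.norm_real, Complex.norm_intCast,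
        Real.norm_eq_abs, abs_of_pos ht0, div_pow, mul_pow, sq_abs]
      field_simp
    rw [hnorm, Real.norm_of_nonneg (by positivity)]
  have h5 := (h2.trans h3).mul h4
  refine (EventuallyEq.isBigO ?_).trans (h5.trans (EventuallyEq.isBigO ?_))
  · filter_upwards [self_mem_nhdsWithin] with t ht
    rw [hr, vert_eq f hc ht]
  · filter_upwards [self_mem_nhdsWithin] with t ht
    have ht0 : (0 : ℝ) < t := ht
    rw [← Real.rpow_natCast, ← Real.rpow_add (by positivity), Real.inv_rpow ht0.le,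
      Real.rpow_neg ht0.le]
    congr 2
    push_cast
    ring

theorem locallyIntegrableOn_vert (f : CuspForm (Gamma0 N) 2) (r : ℝ) :
    LocallyIntegrableOn (vert f r) (Ioi 0) :=
  (continuousOn_vert f r).locallyIntegrableOn measurableSet_Ioi

theorem differentiable_mellin (f : CuspForm (Gamma0 N) 2) (r : ℚ) :
    Differentiable ℂ (mellin (vert f r)) := fun s ↦
  mellin_differentiableAt_of_isBigO_rpow_exp (a := 2 * π) (b := s.re - 1) (by positivity)
    (locallyIntegrableOn_vert f r) (isBigO_top f r) (isBigO_zero f r _) (by linarith)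

theorem integrableOn_vert (f : CuspForm (Gamma0 N) 2) (r : ℚ) :
    IntegrableOn (vert f r) (Ioi 0) := by
  have h1 : MellinConvergent (vert f r) 1 :=
    mellinConvergent_of_isBigO_rpow (a := 2) (b := 0) (locallyIntegrableOn_vert f r)
      ((isBigO_top f r).trans (isLittleO_exp_neg_mul_rpow_atTop (by positivity) _).isBigO)
      (by norm_num) (isBigO_zero f r _) (by norm_num)
  have h2 : IntegrableOn (fun t : ℝ ↦ (t : ℂ) ^ ((1 : ℂ) - 1) • vert f r t) (Ioi 0) := h1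
  simpa using h2

/-- `∫ f(z) dz` over the vertical line from `r` to `i∞`. -/
theorem integral_vert (f : CuspForm (Gamma0 N) 2) (r : ℚ) :
    ∫ t in Ioi (0 : ℝ), I * vert f r t = - lam ⇑f (r : Cu) OnePoint.infty := by
  obtain ⟨γ, hc, hr, hγ⟩ := exists_matrix r
  set g := Matrix.SpecialLinearGroup.mapGL ℝ γ with hg
  have ha := adm_coe f
  have hlam : lam ⇑f (r : Cu) OnePoint.infty = per ⇑f g := by
    rw [lam, rhoF_infty ha, ← hγ, rhoF_eq ha (mq_ι_mem _), mq_ι]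
    ring
  let G : ℝ → ℂ := fun t ↦ if t ≤ 0 then per ⇑f g else prim ⇑f (ofComplex ((r : ℝ) + t * I))
  have hG0 : G 0 = per ⇑f g := if_pos le_rfl
  have hGpos : ∀ t : ℝ, 0 < t → G t = prim ⇑f (ofComplex ((r : ℝ) + t * I)) := fun t ht ↦
    if_neg (not_le.mpr ht)
  have hderiv : ∀ x ∈ Ioi (0 : ℝ), HasDerivAt G (I * vert f r x) x := by
    intro x hx
    have h1 := ha.hasPrim.isPrim.deriv (ofComplex ((r : ℝ) + x * I))
    rw [coe_vert _ hx] at h1
    have h2 : HasDerivAt (fun w : ℂ ↦ (prim ⇑f ∘ ofComplex) ((r : ℝ) + w * I))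
        (f (ofComplex ((r : ℝ) + x * I)) * I) (x : ℂ) := by
      have h3 : HasDerivAt (fun w : ℂ ↦ ((r : ℝ) : ℂ) + w * I) I (x : ℂ) := by
        simpa using ((hasDerivAt_id (x : ℂ)).mul_const I).const_add ((r : ℝ) : ℂ)
      exact h1.comp (x : ℂ) h3
    have h4 := h2.comp_ofReal
    rw [mul_comm] at h4
    refine h4.congr_of_eventuallyEq ?_
    filter_upwards [lt_mem_nhds hx] with t ht
    rw [hGpos t ht]
    rfl
  have hcont : ContinuousWithinAt G (Ici 0) 0 := by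
    rw [← continuousWithinAt_Ioi_iff_Ici, ContinuousWithinAt, hG0]
    have htend : Tendsto (fun t : ℝ ↦ ((γ 1 0 : ℝ) ^ 2 * t)⁻¹) (𝓝[>] 0) atTop := by
      have hc' : (γ 1 0 : ℝ) ≠ 0 := by exact_mod_cast hc
      have h1 : Tendsto (fun t : ℝ ↦ ((γ 1 0 : ℝ) ^ 2)⁻¹ * t⁻¹) (𝓝[>] 0) atTop :=
        (tendsto_inv_nhdsGT_zero (𝕜 := ℝ)).const_mul_atTop (by positivity)
      refine h1.congr fun t ↦ ?_
      rw [mul_inv]
    have h1 := (ha g (mapGL_mem _)).isPrim.lim (-(γ 1 1 : ℝ) / (γ 1 0 : ℝ))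
    have h2 := (h1.comp htend).const_add (per ⇑f g)
    rw [add_zero] at h2
    refine h2.congr' ?_
    filter_upwards [self_mem_nhdsWithin] with t ht
    have ht' : (0 : ℝ) < t := ht
    rw [hGpos t ht']
    simp only [Function.comp_apply]
    have h3 := per_eq ha (mapGL_mem γ) (ofComplex (((-(γ 1 1 : ℝ) / (γ 1 0 : ℝ) : ℝ) : ℂ) +
      (((γ 1 0 : ℝ) ^ 2 * t)⁻¹ : ℝ) * I))
    rw [smul_point hc ht', ← hg, ← hr] at h3
    rw [← h3]
    ring
  have hlim : Tendsto G atTop (𝓝 0) := by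
    have h1 := ha.hasPrim.isPrim.lim (r : ℝ)
    refine h1.congr' ?_
    filter_upwards [eventually_gt_atTop 0] with t ht
    rw [hGpos t ht]
    rfl
  have key := integral_Ioi_of_hasDerivAt_of_tendsto hcont hderiv
    ((integrableOn_vert f r).const_mul I) hlim
  rw [key, hG0, zero_sub, hlam]

/-! ### Additive twists -/

/-- The additive twist `∑ a_n e(n r) n^(-s)`, an entire function. -/
def LR (f : CuspForm (Gamma0 N) 2) (r : ℚ) (s : ℂ) : ℂ := mellin (vert f r) s * (2 / Gammaℂ s)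

theorem differentiable_LR (f : CuspForm (Gamma0 N) 2) (r : ℚ) : Differentiable ℂ (LR f r) := by
  have h := differentiable_mellin f r
  unfold LR
  simp only [div_eq_mul_inv]
  fun_prop

/-- **The value of the additive twist at `s = 1`** is a modular symbol. -/
theorem LR_one (f : CuspForm (Gamma0 N) 2) (r : ℚ) :
    LR f r 1 = 2 * π * I * lam ⇑f (r : Cu) OnePoint.infty := by
  have h1 := integral_vert f r
  rw [integral_const_mul] at h1
  have h2 : mellin (vert f r) 1 = ∫ t in Ioi (0 : ℝ), vert f r t := by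
    rw [mellin]
    simp
  have h3 : (2 / Gammaℂ 1 : ℂ) = 2 * π := by
    rw [Gammaℂ]
    simp only [Complex.Gamma_one, mul_one, Complex.cpow_neg_one]
    have : (π : ℂ) ≠ 0 := by exact_mod_cast Real.pi_ne_zero
    field_simp
  rw [LR, h2, h3]
  linear_combination (-I * (2 * π)) * h1 + (∫ t in Ioi (0 : ℝ), vert f r t) * (2 * π) * I_mul_I

/-- The Dirichlet series of the additive twist. -/
theorem lSeriesHasSum_LR (f : CuspForm (Gamma0 N) 2) (r : ℚ) {s : ℂ} (hs : 2 < s.re) :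
    LSeriesHasSum (fun n ↦ qCoeff f n * cexp (2 * π * I * (n * r))) s (LR f r s) := by
  have hs0 : 0 < s.re := by linarith
  have hs0' : s ≠ 0 := fun h ↦ by rw [h] at hs0; exact lt_irrefl _ hs0
  have h0 : qCoeff f 0 = 0 := H22.cusp_qCoeff_zero f
  have hh : (1 : ℝ) ∈ (Gamma0 N : Subgroup (GL (Fin 2) ℝ)).strictPeriods := by
    simp [strictPeriods_Gamma0]
  have hnorm : ∀ n : ℕ, ‖cexp (2 * π * I * (n * r))‖ = 1 := by
    intro n
    have : (2 * π * I * (n * r) : ℂ) = ((2 * π * (n * r) : ℝ) : ℂ) * I := by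
      push_cast
      ring
    rw [this, Complex.norm_exp_ofReal_mul_I]
  have hF : ∀ t ∈ Ioi (0 : ℝ), HasSum (fun n : ℕ ↦ if (2 * (n : ℝ)) = 0 then 0 else
      (qCoeff f n * cexp (2 * π * I * (n * r))) * Real.exp (-π * (2 * (n : ℝ)) * t))
      (vert f r t) := by
    intro t ht
    refine (ModularForm.hasSum_qExpansion f one_pos hh
      (ofComplex ((r : ℝ) + t * I))).congr_fun fun n ↦ ?_
    rw [coe_vert _ ht]
    rcases eq_or_ne n 0 with rfl | hn
    · have : (qExpansion 1 ⇑f).coeff 0 = 0 := h0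
      rw [this]
      simp
    · have h2n : (2 * (n : ℝ)) ≠ 0 := by
        have : (n : ℝ) ≠ 0 := by exact_mod_cast hn
        positivity
      rw [if_neg h2n]
      have h1 : (qExpansion 1 ⇑f).coeff n = qCoeff f n := rfl
      rw [h1, mul_assoc, Periodic.qParam, ← Complex.exp_nat_mul, Complex.ofReal_exp,
        ← Complex.exp_add]
      congr 2
      push_cast
      linear_combination (-(2 * π * n * t) : ℂ) * I_sq
  have hsum : Summable fun n : ℕ ↦ ‖qCoeff f n * cexp (2 * π * I * (n * r))‖ /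
      (2 * (n : ℝ)) ^ s.re := by
    have h1 := (EulerProd.lSeriesSummable f hs).norm
    refine (h1.mul_left ((2 : ℝ) ^ s.re)⁻¹).congr fun n ↦ ?_
    rw [norm_mul, hnorm, mul_one, LSeries.norm_term_eq]
    rcases eq_or_ne n 0 with rfl | hn
    · simp [h0]
    · rw [if_neg hn, Real.mul_rpow (by norm_num) (Nat.cast_nonneg n)]
      field_simp
  have h := hasSum_mellin_pi_mul₀ (fun n : ℕ ↦ by positivity) hs0 hF hsum
  have h2 := h.mul_right (2 / Gammaℂ s)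
  refine h2.congr_fun fun n ↦ ?_
  rcases eq_or_ne n 0 with rfl | hn
  · simp [h0]
  · rw [LSeries.term_of_ne_zero hn, Gammaℂ]
    have e1 : Gamma s ≠ 0 := Complex.Gamma_ne_zero_of_re_pos hs0
    have hπ : (π : ℂ) ≠ 0 := by exact_mod_cast Real.pi_ne_zero
    have e2 : (2 * (π : ℂ)) ^ (-s) = 2 ^ (-s) * (π : ℂ) ^ (-s) := by
      have := mul_cpow_ofReal_nonneg two_pos.le Real.pi_pos.le (-s)
      push_cast at this
      exact this
    have e3 : (((2 * (n : ℝ) : ℝ)) : ℂ) ^ s = 2 ^ s * (n : ℂ) ^ s := by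
      have := mul_cpow_ofReal_nonneg two_pos.le (Nat.cast_nonneg n) s
      push_cast at this ⊢
      exact this
    have e4 : (2 : ℂ) ^ (-s) ≠ 0 := by
      rw [Ne, Complex.cpow_eq_zero_iff]; simp
    have e5 : (π : ℂ) ^ (-s) ≠ 0 := by
      rw [Ne, Complex.cpow_eq_zero_iff]
      simp [hπ]
    have e6 : (n : ℂ) ^ s ≠ 0 := by
      rw [Ne, Complex.cpow_eq_zero_iff]
      simp [hn]
    have e7 : (2 : ℂ) ^ s * (2 : ℂ) ^ (-s) = 1 := by
      rw [← Complex.cpow_add _ _ two_ne_zero]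
      simp
    have e8 : (2 : ℂ) ^ s ≠ 0 := left_ne_zero_of_mul_eq_one e7
    rw [e2, e3]
    field_simp
    linear_combination (qCoeff f n) * e7

/-! ### Twists by periodic functions -/

section twist

variable {m : ℕ} [NeZero m]

/-- The twist `∑ Φ(n) a_n n^(-s)` of `L(f, s)` by a function `Φ` of period `m`, an entire
function. -/
def LT (f : CuspForm (Gamma0 N) 2) (Φ : ZMod m → ℂ) (s : ℂ) : ℂ :=
  (m : ℂ)⁻¹ * ∑ a : ZMod m, ZMod.dft Φ a * LR f ((a.val : ℚ) / m) s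

theorem differentiable_LT (f : CuspForm (Gamma0 N) 2) (Φ : ZMod m → ℂ) :
    Differentiable ℂ (LT f Φ) := by
  unfold LT
  refine (Differentiable.fun_sum fun a _ ↦ ?_).const_mul _
  exact (differentiable_LR f _).const_mul _

omit [NeZero N] in
theorem fourier (Φ : ZMod m → ℂ) (n : ℕ) : Φ n = (m : ℂ)⁻¹ * ∑ a : ZMod m, ZMod.dft Φ a *
    cexp (2 * π * I * (n * (((a.val : ℚ) / m : ℚ) : ℂ))) := by
  have h1 : Φ n = ZMod.dft.symm (ZMod.dft Φ) (n : ZMod m) := by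
    rw [LinearEquiv.symm_apply_apply]
  rw [h1, ZMod.invDFT_apply, smul_eq_mul]
  congr 1
  refine Finset.sum_congr rfl fun a _ ↦ ?_
  have h2 : a * (n : ZMod m) = (((a.val * n : ℕ) : ℤ) : ZMod m) := by
    push_cast
    rw [ZMod.natCast_zmod_val]
  rw [smul_eq_mul, h2, ZMod.stdAddChar_coe, mul_comm]
  congr 2
  push_cast
  ring

/-- The Dirichlet series of the twist. -/
theorem lSeriesHasSum_LT (f : CuspForm (Gamma0 N) 2) (Φ : ZMod m → ℂ) {s : ℂ} (hs : 2 < s.re) :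
    LSeriesHasSum (fun n ↦ Φ n * qCoeff f n) s (LT f Φ s) := by
  have h := (hasSum_sum (s := (Finset.univ : Finset (ZMod m))) fun a _ ↦
    (lSeriesHasSum_LR f ((a.val : ℚ) / m) hs).mul_left (ZMod.dft Φ a)).mul_left ((m : ℂ)⁻¹)
  refine h.congr_fun fun n ↦ ?_
  rcases eq_or_ne n 0 with rfl | hn
  · simp
  · rw [LSeries.term_of_ne_zero hn, fourier Φ n]
    simp only [LSeries.term_of_ne_zero hn]
    rw [mul_assoc, mul_div_assoc, Finset.sum_mul, Finset.sum_div]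
    congr 1
    refine Finset.sum_congr rfl fun a _ ↦ ?_
    ring

theorem LT_one (f : CuspForm (Gamma0 N) 2) (Φ : ZMod m → ℂ) :
    LT f Φ 1 = (m : ℂ)⁻¹ * ∑ a : ZMod m, ZMod.dft Φ a *
      (2 * π * I * lam ⇑f ((((a.val : ℚ) / m : ℚ)) : Cu) OnePoint.infty) := by
  rw [LT]
  congr 1
  refine Finset.sum_congr rfl fun a _ ↦ ?_
  rw [LR_one]

/-- **Birch's lemma**: the central value of the twist by a primitive character. -/
theorem LT_one_char (f : CuspForm (Gamma0 N) 2) {χ : DirichletCharacter ℂ m}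
    (hχ : χ.IsPrimitive) :
    LT f χ 1 = gaussSum χ ZMod.stdAddChar / m * ∑ a : ZMod m, χ⁻¹ (-a) *
      (2 * π * I * lam ⇑f ((((a.val : ℚ) / m : ℚ)) : Cu) OnePoint.infty) := by
  rw [LT_one, Finset.mul_sum, Finset.mul_sum]
  refine Finset.sum_congr rfl fun a _ ↦ ?_
  rw [hχ.fourierTransform_eq_inv_mul_gaussSum]
  ring

end twist

/-! ### Newforms with integral eigenvalues -/

section rat

/-- The additive twist only depends on `r` modulo `1`. -/
theorem LR_add_one (f : CuspForm (Gamma0 N) 2) (r : ℚ) (s : ℂ) : LR f (r + 1) s = LR f r s := by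
  have hh : (1 : ℝ) ∈ (Gamma0 N : Subgroup (GL (Fin 2) ℝ)).strictPeriods := by
    simp [strictPeriods_Gamma0]
  have h1 : vert f ((r + 1 : ℚ) : ℝ) = vert f r := by
    funext t
    have h2 := SlashInvariantFormClass.periodic_comp_ofComplex f hh (((r : ℝ) : ℂ) + t * I)
    simp only [Function.comp_apply] at h2
    rw [vert, vert, ← h2]
    congr 2
    push_cast
    ring
  rw [LR, LR, h1]

theorem Jm_smul_coe (r : ℚ) : Jm • (r : Cu) = ((-r : ℚ) : Cu) := by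
  rw [Jm, ← cv_one, gq_smul_cv (by norm_num) (Or.inr one_ne_zero), ← cv_one]
  congr 1 <;> ring

variable {f : CuspForm (Gamma0 N) 2}

theorem LR_neg_one (h : ∀ n, conj (qCoeff f n) = qCoeff f n) (r : ℚ) :
    LR f (-r) 1 = conj (LR f r 1) := by
  have h1 := lam_conj h (r : Cu) OnePoint.infty
  rw [Jm_smul_infty, Jm_smul_coe] at h1
  rw [LR_one, LR_one, h1]
  simp only [map_mul, Complex.conj_I, Complex.conj_ofReal]
  rw [map_ofNat]
  ring

/-- The group of the real numbers `x` such that `x i` is a period. -/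
def imPeriods (f : CuspForm (Gamma0 N) 2) : AddSubgroup ℝ :=
  (periodGroup f).comap
    ((AddMonoidHom.mulRight I).comp (Complex.ofRealHom : ℝ →+* ℂ).toAddMonoidHom)

omit [NeZero N] in
theorem mem_imPeriods {x : ℝ} : x ∈ imPeriods f ↔ (x : ℂ) * I ∈ periodGroup f := Iff.rfl

/-- **The imaginary period**. -/
theorem exists_im_period (hf : f.IsNewform)
    (ha : ∀ l : ℕ, l.Prime → ¬ l ∣ N → ∃ z : ℤ, qCoeff f l = z) :
    ∃ Ω : ℝ, 0 < Ω ∧ ∀ x : ℝ, (x : ℂ) * I ∈ periodGroup f ↔ ∃ m : ℤ, x = m * Ω := by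
  obtain ⟨δ, hδ, h1, x₀, hx₀, h2⟩ := exists_im hf ha
  have hdisj : Disjoint (imPeriods f : Set ℝ) (Ioo 0 δ) := by
    rw [Set.disjoint_left]
    rintro x hx ⟨hx1, hx2⟩
    obtain ⟨m, hm⟩ := h1 ((x : ℂ) * I) hx
    have hxi : ((x : ℂ) * I).im = x := by simp
    rw [hxi] at hm
    rw [hm] at hx1 hx2
    have h3 : (0 : ℝ) < m := by
      by_contra h
      push Not at h
      have := mul_nonpos_of_nonpos_of_nonneg h hδ.le
      linarith
    have h4 : (m : ℝ) < 1 := by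
      by_contra h
      push Not at h
      have := mul_le_mul_of_nonneg_right h hδ.le
      linarith
    have h5 : (0 : ℤ) < m := by exact_mod_cast h3
    have h6 : m < (1 : ℤ) := by exact_mod_cast h4
    omega
  obtain ⟨b, hb⟩ := AddSubgroup.cyclic_of_isolated_zero hδ hdisj
  have hmemb : ∀ x : ℝ, (x : ℂ) * I ∈ periodGroup f ↔ ∃ m : ℤ, m • b = x := by
    intro x
    rw [← mem_imPeriods, hb, AddSubgroup.mem_closure_singleton]
  have hb0 : b ≠ 0 := by
    rintro rfl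
    have h3 : ((2 * x₀.im : ℝ) : ℂ) * I ∈ periodGroup f := by
      have h4 := sub_mem hx₀ (conj_mem (conj_qCoeff hf ha) hx₀)
      rw [Complex.sub_conj] at h4
      exact h4
    obtain ⟨m, hm⟩ := (hmemb _).mp h3
    rw [smul_zero] at hm
    exact h2 (by linarith)
  refine ⟨|b|, abs_pos.mpr hb0, fun x ↦ ?_⟩
  rw [hmemb x]
  constructor
  · rintro ⟨m, rfl⟩
    rcases le_or_gt 0 b with h7 | h7
    · exact ⟨m, by rw [abs_of_nonneg h7, zsmul_eq_mul]⟩
    · exact ⟨-m, by rw [abs_of_neg h7, zsmul_eq_mul]; push_cast; ring⟩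
  · rintro ⟨m, rfl⟩
    rcases le_or_gt 0 b with h7 | h7
    · exact ⟨m, by rw [abs_of_nonneg h7, zsmul_eq_mul]⟩
    · exact ⟨-m, by rw [abs_of_neg h7, zsmul_eq_mul]; push_cast; ring⟩

/-- The values of the additive twists at `s = 1` in terms of the two periods. -/
theorem exists_coords (hf : f.IsNewform)
    (ha : ∀ l : ℕ, l.Prime → ¬ l ∣ N → ∃ z : ℤ, qCoeff f l = z) :
    ∃ (Ωp Ωm : ℝ) (u v : ℚ → ℚ), 0 < Ωp ∧ 0 < Ωm ∧
      (∀ x : ℝ, (x : ℂ) ∈ periodGroup f ↔ ∃ m : ℤ, x = m * Ωp) ∧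
      (∀ x : ℝ, (x : ℂ) * I ∈ periodGroup f ↔ ∃ m : ℤ, x = m * Ωm) ∧
      (∀ r, LR f r 1 = u r * Ωp + v r * Ωm * I) ∧
      ∀ r, u (r + 1) = u r ∧ v (r + 1) = v r ∧ u (-r) = u r ∧ v (-r) = - v r := by
  have hc := conj_qCoeff hf ha
  obtain ⟨a, ha'⟩ := exists_rat ha
  obtain ⟨Ωp, hp0, hp⟩ := exists_real_period hf ha
  obtain ⟨Ωm, hm0, hm⟩ := exists_im_period hf ha
  have hπ : (π : ℂ) ≠ 0 := by exact_mod_cast Real.pi_ne_zero
  obtain ⟨γ₁, -, e1⟩ := mem_periodGroup.mp ((hp Ωp).mpr ⟨1, by simp⟩)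
  obtain ⟨γ₂, -, e2⟩ := mem_periodGroup.mp ((hm Ωm).mpr ⟨1, by simp⟩)
  have r1 := re_eq hc OnePoint.infty (ι γ₁ • (OnePoint.infty : Cu))
  have r2 := im_eq hc OnePoint.infty (ι γ₂ • (OnePoint.infty : Cu))
  rw [← e1, Complex.ofReal_re] at r1
  have hi : ((Ωm : ℂ) * I).im = Ωm := by simp
  rw [← e2, hi] at r2
  have n1 : lamP ⇑f OnePoint.infty (ι γ₁ • (OnePoint.infty : Cu)) ≠ 0 := by
    intro h
    rw [h, mul_zero] at r1
    exact hp0.ne' (by exact_mod_cast r1)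
  have n2 : lamM ⇑f OnePoint.infty (ι γ₂ • (OnePoint.infty : Cu)) ≠ 0 := by
    intro h
    rw [h, mul_zero] at r2
    exact hm0.ne' (by exact_mod_cast r2)
  have hu : ∀ r : ℚ, ∃ x : ℚ, (LR f r 1).re = x * Ωp := by
    intro r
    obtain ⟨x, hx⟩ := lamP_rat hf ha' n1 (r : Cu) OnePoint.infty
    refine ⟨x, ?_⟩
    have h1 := re_eq hc (r : Cu) OnePoint.infty
    rw [hx, ← LR_one] at h1
    have h2 : (((LR f r 1).re : ℝ) : ℂ) = ((x * Ωp : ℝ) : ℂ) := by
      rw [h1, Complex.ofReal_mul, r1, Complex.ofReal_ratCast]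
      ring
    exact_mod_cast h2
  have hv : ∀ r : ℚ, ∃ x : ℚ, (LR f r 1).im = x * Ωm := by
    intro r
    obtain ⟨x, hx⟩ := lamM_rat hf ha' n2 (r : Cu) OnePoint.infty
    refine ⟨x, ?_⟩
    have h1 := im_eq hc (r : Cu) OnePoint.infty
    rw [hx, ← LR_one] at h1
    have h2 : (((LR f r 1).im : ℝ) : ℂ) = ((x * Ωm : ℝ) : ℂ) := by
      rw [h1, Complex.ofReal_mul, r2, Complex.ofReal_ratCast]
      ring
    exact_mod_cast h2
  choose u hu using hu
  choose v hv using hv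
  refine ⟨Ωp, Ωm, u, v, hp0, hm0, hp, hm, fun r ↦ ?_, fun r ↦ ⟨?_, ?_, ?_, ?_⟩⟩
  · rw [← Complex.re_add_im (LR f r 1), hu, hv]
    push_cast
    ring
  · have h1 := hu (r + 1)
    rw [LR_add_one, hu r] at h1
    exact_mod_cast (mul_right_cancel₀ hp0.ne' h1).symm
  · have h1 := hv (r + 1)
    rw [LR_add_one, hv r] at h1
    exact_mod_cast (mul_right_cancel₀ hm0.ne' h1).symm
  · have h1 := hu (-r)
    rw [LR_neg_one hc, Complex.conj_re, hu r] at h1
    exact_mod_cast (mul_right_cancel₀ hp0.ne' h1).symm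
  · have h1 := hv (-r)
    rw [LR_neg_one hc, Complex.conj_im, hv r, ← neg_mul] at h1
    have h2 := (mul_right_cancel₀ hm0.ne' h1).symm
    exact_mod_cast h2

/-- `a ↦ w(a / m)` for `w` even or odd of period one. -/
theorem val_neg {w : ℚ → ℚ} (h1 : ∀ r, w (r + 1) = w r) {e : ℚ} (h2 : ∀ r, w (-r) = e * w r)
    {m : ℕ} [NeZero m] (a : ZMod m) :
    w (((-a).val : ℚ) / m) = e * w ((a.val : ℚ) / m) := by
  have hm : (m : ℚ) ≠ 0 := by exact_mod_cast NeZero.ne m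
  rw [ZMod.neg_val]
  split_ifs with h
  · rw [h, ZMod.val_zero, ← h2]
    simp
  · rw [Nat.cast_sub (ZMod.val_lt a).le, ← h2, ← h1 (-((a.val : ℚ) / m))]
    congr 1
    field_simp
    ring

theorem inv_eval_neg {m : ℕ} {χ : DirichletCharacter ℂ m} {e : ℂ} (he : e * e = 1)
    (h : χ (-1) = e) (a : ZMod m) : χ⁻¹ (-a) = e * χ⁻¹ a := by
  have h1 : χ⁻¹ (-1) = e := by
    have h2 : χ (-1) * χ⁻¹ (-1) = 1 := by
      rw [← MulChar.mul_apply, mul_inv_cancel, MulChar.one_apply isUnit_one.neg]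
    rw [h] at h2
    have h3 : e ≠ 0 := left_ne_zero_of_mul_eq_one he
    exact mul_left_cancel₀ h3 (h2.trans he.symm)
  rw [← neg_one_mul a, map_mul, h1]

/-- **Algebraicity of the twisted central values.**  Let `f` be a newform of weight two with
integral eigenvalues, `Ωp` its least positive real period, `Ωm i` its least positive imaginary
period.  There are functions `u, v : ℚ → ℚ` of period one, `u` even and `v` odd, such that for every
primitive Dirichlet character `χ` modulo `m` with Gauss sum `τ(χ)` we have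
`L(f, χ, 1) = (τ(χ) / m) (∑ χ⁻¹(a) u(a / m)) Ωp` if `χ` is even and
`L(f, χ, 1) = - (τ(χ) / m) (∑ χ⁻¹(a) v(a / m)) Ωm i` if `χ` is odd. -/
theorem twisted_central_value (hf : f.IsNewform)
    (ha : ∀ l : ℕ, l.Prime → ¬ l ∣ N → ∃ z : ℤ, qCoeff f l = z) :
    ∃ (Ωp Ωm : ℝ) (u v : ℚ → ℚ), 0 < Ωp ∧ 0 < Ωm ∧
      (∀ x : ℝ, (x : ℂ) ∈ periodGroup f ↔ ∃ m : ℤ, x = m * Ωp) ∧
      (∀ x : ℝ, (x : ℂ) * I ∈ periodGroup f ↔ ∃ m : ℤ, x = m * Ωm) ∧
      (∀ r, LR f r 1 = u r * Ωp + v r * Ωm * I) ∧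
      (∀ r, u (r + 1) = u r ∧ v (r + 1) = v r ∧ u (-r) = u r ∧ v (-r) = - v r) ∧
      ∀ (m : ℕ) [NeZero m] (χ : DirichletCharacter ℂ m), χ.IsPrimitive →
        (χ.Even → LT f χ 1 = gaussSum χ ZMod.stdAddChar / m *
          (∑ a : ZMod m, χ⁻¹ a * u ((a.val : ℚ) / m)) * Ωp) ∧
        (χ.Odd → LT f χ 1 = - (gaussSum χ ZMod.stdAddChar / m *
          (∑ a : ZMod m, χ⁻¹ a * v ((a.val : ℚ) / m)) * (Ωm * I))) := by
  obtain ⟨Ωp, Ωm, u, v, hp0, hm0, hp, hm, h1, h2⟩ := exists_coords hf ha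
  refine ⟨Ωp, Ωm, u, v, hp0, hm0, hp, hm, h1, h2, fun m _ χ hχ ↦ ?_⟩
  have hu : ∀ a : ZMod m, u (((-a).val : ℚ) / m) = 1 * u ((a.val : ℚ) / m) :=
    val_neg (fun r ↦ (h2 r).1) fun r ↦ by rw [(h2 r).2.2.1, one_mul]
  have hv : ∀ a : ZMod m, v (((-a).val : ℚ) / m) = (-1) * v ((a.val : ℚ) / m) :=
    val_neg (fun r ↦ (h2 r).2.1) fun r ↦ by rw [(h2 r).2.2.2, neg_one_mul]
  have key : ∀ e : ℂ, e * e = 1 → χ (-1) = e →
      LT f χ 1 = gaussSum χ ZMod.stdAddChar / m * e *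
        ((∑ a : ZMod m, χ⁻¹ a * u ((a.val : ℚ) / m)) * Ωp +
          (∑ a : ZMod m, χ⁻¹ a * v ((a.val : ℚ) / m)) * (Ωm * I)) := by
    intro e he hχe
    rw [LT_one_char f hχ, mul_assoc (gaussSum χ ZMod.stdAddChar / (m : ℂ)) e]
    congr 1
    rw [Finset.sum_mul, Finset.sum_mul, ← Finset.sum_add_distrib, Finset.mul_sum]
    refine Finset.sum_congr rfl fun a _ ↦ ?_
    rw [inv_eval_neg he hχe, ← LR_one, h1]
    ring
  have hnegsum : ∀ F : ZMod m → ℂ, (∀ a, F (-a) = - F a) → ∑ a, F a = 0 := by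
    intro F hF
    have h3 : ∑ a, F a = ∑ a, F (-a) := (Equiv.sum_comp (Equiv.neg (ZMod m)) F).symm
    simp only [hF, Finset.sum_neg_distrib] at h3
    have h4 : (2 : ℂ) * ∑ a, F a = 0 := by linear_combination h3
    exact (mul_eq_zero.mp h4).resolve_left two_ne_zero
  constructor
  · intro hev
    have h3 : ∑ a : ZMod m, χ⁻¹ a * (v ((a.val : ℚ) / m) : ℂ) = 0 := by
      apply hnegsum
      intro a
      rw [inv_eval_neg (e := 1) (by ring) hev, hv a]
      push_cast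
      ring
    rw [key 1 (by ring) hev, h3]
    ring
  · intro hodd
    have h3 : ∑ a : ZMod m, χ⁻¹ a * (u ((a.val : ℚ) / m) : ℂ) = 0 := by
      apply hnegsum
      intro a
      rw [inv_eval_neg (e := -1) (by ring) hodd, hu a]
      push_cast
      ring
    rw [key (-1) (by ring) hodd, h3]
    ring

end rat

end Fermat.Agent.Cor.TwistValue
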