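import Mathlib
import Fermat.Agent.Cor.TwistValue
import Fermat.Agent.H16.LR.Integral

/-!
# The Mazur–Swinnerton-Dyer distribution (corollary file, not used for S01)

Let `f` be a newform of weight two with integral eigenvalues, `u, v : ℚ → ℚ` the coordinates of its
modular symbol (`L(f, r, 1) = u(r) Ω⁺ + v(r) Ω⁻ i`).  They have bounded denominators and satisfy the
Hecke relation.  So for a prime `p ∤ N` and a root `α` of `x² - a_p x + p`
`μ(a + p^n) = α^(-n) u(a / p^n) - α^(-n-1) u(a / p^(n-1))` is a distribution on `ℤ_p`; it is bounded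
for the unit root `α`, and it interpolates the twisted central values.
-/

set_option autoImplicit false

open UpperHalfPlane hiding I
open Complex CongruenceSubgroup Filter Function ModularFormClass Set MeasureTheory
open scoped MatrixGroups ModularForm Topology ComplexConjugate Real Manifold

noncomputable section

namespace Fermat.Agent.Cor.MSD

open Fermat.Agent.H16 Fermat.Agent.H16.LR Fermat.Agent.Cor.Manin Fermat.Agent.Cor.CentralValue
open Fermat.Agent.Cor.TwistValue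

variable {N : ℕ} [NeZero N]

/-! ### Bounded denominators -/

/-- A modular symbol with values in `ℚ c + ℚ c'` has bounded denominators. -/
theorem exists_denom {F : Cu → Cu → ℂ} (hF : IsSymb N F) {c c' : ℂ}
    (h : ∀ r s, ∃ x y : ℚ, F r s = x * c + y * c') :
    ∃ D : ℕ, D ≠ 0 ∧ ∀ r s, ∃ m n : ℤ, (D : ℂ) * F r s = m * c + n * c' := by
  choose x y hxy using h
  let A : XX N → ℚ := fun z ↦ x (ι z.out⁻¹ • ((0 : ℚ) : Cu)) (ι z.out⁻¹ • (OnePoint.infty : Cu))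
  let B : XX N → ℚ := fun z ↦ y (ι z.out⁻¹ • ((0 : ℚ) : Cu)) (ι z.out⁻¹ • (OnePoint.infty : Cu))
  have hAB : ∀ z : XX N, phi N F z = A z * c + B z * c' := fun z ↦ hxy _ _
  set D : ℕ := (∏ z : XX N, (A z).den) * ∏ z : XX N, (B z).den with hD
  have hD0 : D ≠ 0 := mul_ne_zero (Finset.prod_ne_zero_iff.mpr fun z _ ↦ (A z).den_nz)
    (Finset.prod_ne_zero_iff.mpr fun z _ ↦ (B z).den_nz)
  have hint : ∀ (q : ℚ), q.den ∣ D → ∃ k : ℤ, (D : ℚ) * q = k := by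
    intro q ⟨e, he⟩
    refine ⟨e * q.num, ?_⟩
    rw [he]
    push_cast
    have := Rat.mul_den_eq_num q
    linear_combination (e : ℚ) * this
  have hA : ∀ z, ∃ k : ℤ, (D : ℚ) * A z = k := fun z ↦ hint _
    ((Finset.dvd_prod_of_mem (fun z ↦ (A z).den) (Finset.mem_univ z)).trans (dvd_mul_right _ _))
  have hB : ∀ z, ∃ k : ℤ, (D : ℚ) * B z = k := fun z ↦ hint _
    ((Finset.dvd_prod_of_mem (fun z ↦ (B z).den) (Finset.mem_univ z)).trans (dvd_mul_left _ _))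
  let H : AddSubgroup ℂ := AddSubgroup.zmultiples c ⊔ AddSubgroup.zmultiples c'
  have hmem : ∀ z : ℂ, z ∈ H ↔ ∃ m n : ℤ, z = m * c + n * c' := by
    intro z
    rw [AddSubgroup.mem_sup]
    constructor
    · rintro ⟨_, ⟨m, rfl⟩, _, ⟨n, rfl⟩, rfl⟩
      exact ⟨m, n, by simp⟩
    · rintro ⟨m, n, rfl⟩
      exact ⟨m * c, ⟨m, by simp⟩, n * c', ⟨n, by simp⟩, rfl⟩
  refine ⟨D, hD0, fun r s ↦ ?_⟩
  rw [← hmem, ← QuotientAddGroup.eq_zero_iff]
  refine eq_zero_of_edges (f := fun r s ↦ (((D : ℂ) * F r s : ℂ) : ℂ ⧸ H)) ?_ ?_ r s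
  · intro r s t
    rw [← QuotientAddGroup.mk_add, ← mul_add, hF.add]
  · intro g
    rw [QuotientAddGroup.eq_zero_iff, hmem]
    have h1 : F (ι g • ((0 : ℚ) : Cu)) (ι g • (OnePoint.infty : Cu)) =
        phi N F ((g⁻¹ : SL(2, ℤ)) : XX N) := by
      rw [hF.phi_mk, inv_inv]
      rfl
    rw [h1, hAB]
    obtain ⟨k, hk⟩ := hA ((g⁻¹ : SL(2, ℤ)) : XX N)
    obtain ⟨k', hk'⟩ := hB ((g⁻¹ : SL(2, ℤ)) : XX N)
    refine ⟨k, k', ?_⟩
    have hk2 : (D : ℂ) * (A ((g⁻¹ : SL(2, ℤ)) : XX N) : ℂ) = k := by exact_mod_cast hk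
    have hk2' : (D : ℂ) * (B ((g⁻¹ : SL(2, ℤ)) : XX N) : ℂ) = k' := by exact_mod_cast hk'
    rw [← hk2, ← hk2']
    ring

/-! ### The Hecke relation -/

/-- The Hecke relation for the values of the additive twists at `s = 1`. -/
theorem LR_hecke {f : CuspForm (Gamma0 N) 2} (hf : f.IsNormalizedEigenform) {l : ℕ}
    (hl : l.Prime) (hlN : l.Coprime N) (r : ℚ) :
    qCoeff f l * LR f r 1 = LR f (l * r) 1 + ∑ b ∈ Finset.range l, LR f ((r + b) / l) 1 := by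
  have hl0 : (l : ℚ) ≠ 0 := by exact_mod_cast hl.ne_zero
  have h1 := congrFun (congrFun (TT_lam hf hl hlN) (r : Cu)) OnePoint.infty
  have e1 : (pull ℂ).TT l (lam ⇑f) (r : Cu) OnePoint.infty =
      lam ⇑f (gq l 0 0 1 • (r : Cu)) (gq l 0 0 1 • (OnePoint.infty : Cu)) +
      ∑ b ∈ Finset.range l,
        lam ⇑f (gq 1 b 0 l • (r : Cu)) (gq 1 b 0 l • (OnePoint.infty : Cu)) := by
    simp only [RA.TT, RA.UU, Pi.add_apply, Finset.sum_apply, pull_apply]
  have e2 : gq l 0 0 1 • (r : Cu) = ((l * r : ℚ) : Cu) := by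
    rw [← cv_one, gq_smul_cv (by simpa using hl0) (Or.inr one_ne_zero), ← cv_one]
    congr 1 <;> ring
  have e3 : gq l 0 0 1 • (OnePoint.infty : Cu) = OnePoint.infty := by
    rw [infty_eq, gq_smul_cv (by simpa using hl0) (Or.inl one_ne_zero)]
    simp [cv]
  have e4 : ∀ b : ℕ, gq 1 b 0 l • (r : Cu) = (((r + b) / l : ℚ) : Cu) := by
    intro b
    rw [← cv_one, gq_smul_cv (by simpa using hl0) (Or.inr one_ne_zero)]
    have h2 : (0 : ℚ) * r + l * 1 ≠ 0 := by simpa using hl0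
    rw [cv_of_ne h2]
    congr 1
    ring
  have e5 : ∀ b : ℕ, gq 1 b 0 l • (OnePoint.infty : Cu) = OnePoint.infty := by
    intro b
    rw [infty_eq, gq_smul_cv (by simpa using hl0) (Or.inl one_ne_zero)]
    simp [cv]
  rw [e1, e2, e3] at h1
  simp only [e4, e5] at h1
  simp only [LR_one]
  rw [← Finset.mul_sum, ← mul_add, h1]
  ring

section coords

variable {f : CuspForm (Gamma0 N) 2}

/-- The coordinates of the modular symbol of `f`. -/
structure IsCoords (f : CuspForm (Gamma0 N) 2) (Ωp Ωm : ℝ) (u v : ℚ → ℚ) : Prop where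
  pos : 0 < Ωp
  pos' : 0 < Ωm
  real_period : ∀ x : ℝ, (x : ℂ) ∈ periodGroup f ↔ ∃ m : ℤ, x = m * Ωp
  im_period : ∀ x : ℝ, (x : ℂ) * I ∈ periodGroup f ↔ ∃ m : ℤ, x = m * Ωm
  eq : ∀ r, LR f r 1 = u r * Ωp + v r * Ωm * I
  u_add_one : ∀ r, u (r + 1) = u r
  v_add_one : ∀ r, v (r + 1) = v r
  u_neg : ∀ r, u (-r) = u r
  v_neg : ∀ r, v (-r) = - v r
  even : ∀ (m : ℕ) [NeZero m] (χ : DirichletCharacter ℂ m), χ.IsPrimitive → χ.Even →
    LT f χ 1 = gaussSum χ ZMod.stdAddChar / m * (∑ a : ZMod m, χ⁻¹ a * u ((a.val : ℚ) / m)) * Ωp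
  odd : ∀ (m : ℕ) [NeZero m] (χ : DirichletCharacter ℂ m), χ.IsPrimitive → χ.Odd →
    LT f χ 1 = - (gaussSum χ ZMod.stdAddChar / m *
      (∑ a : ZMod m, χ⁻¹ a * v ((a.val : ℚ) / m)) * (Ωm * I))

theorem exists_isCoords (hf : f.IsNewform)
    (ha : ∀ l : ℕ, l.Prime → ¬ l ∣ N → ∃ z : ℤ, qCoeff f l = z) :
    ∃ (Ωp Ωm : ℝ) (u v : ℚ → ℚ), IsCoords f Ωp Ωm u v := by
  obtain ⟨Ωp, Ωm, u, v, h1, h2, h3, h4, h5, h6, h7⟩ := twisted_central_value hf ha
  exact ⟨Ωp, Ωm, u, v, h1, h2, h3, h4, h5, fun r ↦ (h6 r).1, fun r ↦ (h6 r).2.1,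
    fun r ↦ (h6 r).2.2.1, fun r ↦ (h6 r).2.2.2, fun m _ χ h ↦ (h7 m χ h).1,
    fun m _ χ h ↦ (h7 m χ h).2⟩

variable {Ωp Ωm : ℝ} {u v : ℚ → ℚ}

omit [NeZero N] in
theorem coords_ext {Ωp Ωm : ℝ} (hp : 0 < Ωp) (hm : 0 < Ωm) {a b a' b' : ℝ}
    (h : (a : ℂ) * Ωp + b * Ωm * I = a' * Ωp + b' * Ωm * I) : a = a' ∧ b = b' := by
  have h1 := congrArg Complex.re h
  have h2 := congrArg Complex.im h
  simp only [Complex.add_re, Complex.mul_re, Complex.ofReal_re, Complex.ofReal_im, Complex.I_re,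
    Complex.I_im, Complex.add_im, Complex.mul_im, mul_zero, mul_one, sub_zero, zero_mul,
    add_zero, zero_add, sub_self] at h1 h2
  exact ⟨mul_right_cancel₀ hp.ne' h1, mul_right_cancel₀ hm.ne' h2⟩

/-- `u(0) Ω⁺ = L(f, 1)`. -/
theorem IsCoords.zero (h : IsCoords f Ωp Ωm u v) : LFun.LF f 1 = u 0 * Ωp ∧ v 0 = 0 := by
  have h1 : v 0 = 0 := by
    have := h.v_neg 0
    rw [neg_zero] at this
    linarith
  refine ⟨?_, h1⟩
  have h2 := h.eq 0
  rw [LR_one, ← LF_one, h1] at h2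
  rw [h2]
  simp

/-- **The Hecke relations.** -/
theorem IsCoords.hecke (h : IsCoords f Ωp Ωm u v) (hf : f.IsNormalizedEigenform) {l : ℕ}
    (hl : l.Prime) (hlN : ¬ l ∣ N) {z : ℤ} (hz : qCoeff f l = z) (r : ℚ) :
    (z * u r = u (l * r) + ∑ b ∈ Finset.range l, u ((r + b) / l)) ∧
      z * v r = v (l * r) + ∑ b ∈ Finset.range l, v ((r + b) / l) := by
  have h1 := LR_hecke hf hl ((Nat.Prime.coprime_iff_not_dvd hl).mpr hlN) r
  rw [hz] at h1
  simp only [h.eq] at h1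
  have h2 : (((z * u r : ℚ) : ℝ) : ℂ) * Ωp + ((z * v r : ℚ) : ℝ) * Ωm * I =
      (((u (l * r) + ∑ b ∈ Finset.range l, u ((r + b) / l) : ℚ) : ℝ) : ℂ) * Ωp +
      ((v (l * r) + ∑ b ∈ Finset.range l, v ((r + b) / l) : ℚ) : ℝ) * Ωm * I := by
    rw [Finset.sum_add_distrib, ← Finset.sum_mul, ← Finset.sum_mul, ← Finset.sum_mul] at h1
    push_cast
    linear_combination h1
  obtain ⟨h3, h4⟩ := coords_ext h.pos h.pos' h2
  exact ⟨by exact_mod_cast h3, by exact_mod_cast h4⟩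

/-- **Bounded denominators.** -/
theorem IsCoords.denom (h : IsCoords f Ωp Ωm u v) :
    ∃ D : ℕ, D ≠ 0 ∧ ∀ r, (∃ m : ℤ, D * u r = m) ∧ ∃ n : ℤ, D * v r = n := by
  have hS := isSymb_lam f
  have hS2 : IsSymb N (fun r s ↦ 2 * π * I * lam ⇑f r s) :=
    ⟨fun r s t ↦ by rw [← hS.add r s t]; ring, fun γ hγ r s ↦ by rw [hS.inv γ hγ]⟩
  have hval : ∀ r : Cu, ∃ x y : ℚ, 2 * π * I * lam ⇑f r OnePoint.infty =
      x * (Ωp : ℂ) + y * (Ωm * I) := by
    intro r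
    induction r using OnePoint.rec with
    | infty =>
      refine ⟨0, 0, ?_⟩
      rw [hS.self]
      simp
    | coe r =>
      refine ⟨u r, v r, ?_⟩
      rw [← LR_one, h.eq]
      ring
  have hall : ∀ r s : Cu, ∃ x y : ℚ, 2 * π * I * lam ⇑f r s = x * (Ωp : ℂ) + y * (Ωm * I) := by
    intro r s
    obtain ⟨x, y, h1⟩ := hval r
    obtain ⟨x', y', h2⟩ := hval s
    refine ⟨x - x', y - y', ?_⟩
    have h3 := hS.add r s OnePoint.infty
    push_cast
    linear_combination h1 - h2 + (2 * π * I) * h3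
  obtain ⟨D, hD, hD'⟩ := exists_denom hS2 hall
  refine ⟨D, hD, fun r ↦ ?_⟩
  obtain ⟨m, n, h1⟩ := hD' (r : Cu) OnePoint.infty
  rw [← LR_one, h.eq] at h1
  have h2 : (((D * u r : ℚ) : ℝ) : ℂ) * Ωp + ((D * v r : ℚ) : ℝ) * Ωm * I =
      ((m : ℝ) : ℂ) * Ωp + ((n : ℝ) : ℂ) * Ωm * I := by
    push_cast
    linear_combination h1
  obtain ⟨h3, h4⟩ := coords_ext h.pos h.pos' h2
  exact ⟨⟨m, by exact_mod_cast h3⟩, ⟨n, by exact_mod_cast h4⟩⟩

end coords

/-! ### The distribution -/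

section distribution

variable {K : Type*} [Field K] [CharZero K]

/-- The distribution attached to a function `w : ℚ → ℚ` and a number `α`. -/
def mu (p : ℕ) (w : ℚ → ℚ) (α : K) (n : ℕ) (a : ℤ) : K :=
  (w (a / p ^ (n + 1)) : K) / α ^ (n + 1) - (w (a / p ^ n) : K) / α ^ (n + 2)

variable {p : ℕ} {w : ℚ → ℚ} {α : K} {z : ℤ}

theorem periodic_int (hw : ∀ r, w (r + 1) = w r) (k : ℤ) (r : ℚ) : w (r + k) = w r := by
  have h : Function.Periodic w 1 := hw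
  have := h.int_mul k r
  rwa [mul_one] at this

theorem mu_add (hp : p ≠ 0) (hw : ∀ r, w (r + 1) = w r) (n : ℕ) (a k : ℤ) :
    mu p w α n (a + k * p ^ (n + 1)) = mu p w α n a := by
  have hp' : (p : ℚ) ≠ 0 := by exact_mod_cast hp
  have e1 : (((a + k * p ^ (n + 1) : ℤ) : ℚ)) / p ^ (n + 1) = a / p ^ (n + 1) + k := by
    push_cast
    field_simp
  have e2 : (((a + k * p ^ (n + 1) : ℤ) : ℚ)) / p ^ n = a / p ^ n + ((k * p : ℤ) : ℚ) := by
    push_cast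
    field_simp
    ring
  rw [mu, mu, e1, e2, periodic_int hw, periodic_int hw]

/-- **The distribution relation.** -/
theorem mu_distribution (hp : p ≠ 0) (hw : ∀ r, w (r + 1) = w r)
    (hT : ∀ r, z * w r = w (p * r) + ∑ b ∈ Finset.range p, w ((r + b) / p))
    (hα0 : α ≠ 0) (hα : α ^ 2 - z * α + p = 0) (n : ℕ) (a : ℤ) :
    ∑ b ∈ Finset.range p, mu p w α (n + 1) (a + b * p ^ (n + 1)) = mu p w α n a := by
  have hp' : (p : ℚ) ≠ 0 := by exact_mod_cast hp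
  set r : ℚ := a / p ^ (n + 1) with hr
  have hpr : (p : ℚ) * r = a / p ^ n := by
    rw [hr]
    field_simp
    ring
  have h1 : ∀ b ∈ Finset.range p, mu p w α (n + 1) (a + b * p ^ (n + 1)) =
      (w ((r + b) / p) : K) / α ^ (n + 2) - (w r : K) / α ^ (n + 3) := by
    intro b _
    have e1 : (((a + b * p ^ (n + 1) : ℤ) : ℚ)) / p ^ (n + 1 + 1) = (r + b) / p := by
      rw [hr]
      push_cast
      field_simp
      ring
    have e2 : (((a + b * p ^ (n + 1) : ℤ) : ℚ)) / p ^ (n + 1) = r + ((b : ℤ) : ℚ) := by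
      rw [hr]
      push_cast
      field_simp
    rw [mu, e1, e2, periodic_int hw]
  rw [Finset.sum_congr rfl h1, Finset.sum_sub_distrib, ← Finset.sum_div, Finset.sum_const,
    Finset.card_range, nsmul_eq_mul, mu, ← hr, ← hpr]
  have h2 : ∑ b ∈ Finset.range p, (w ((r + b) / p) : K) = z * w r - w (p * r) := by
    have := hT r
    have h3 : ((z * w r : ℚ) : K) =
        ((w (p * r) + ∑ b ∈ Finset.range p, w ((r + b) / p) : ℚ) : K) := by rw [this]
    push_cast at h3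
    linear_combination -h3
  rw [h2]
  field_simp
  linear_combination (-(w r : K) * α ^ 3 * α ^ (n * 2)) * hα

/-- The total mass. -/
theorem mu_mass (hw : ∀ r, w (r + 1) = w r)
    (hT : ∀ r, z * w r = w (p * r) + ∑ b ∈ Finset.range p, w ((r + b) / p))
    (hα0 : α ≠ 0) (hα : α ^ 2 - z * α + p = 0) :
    ∑ b ∈ Finset.range p, mu p w α 0 b = (1 - 1 / α) * w 0 := by
  have h1 : ∀ b ∈ Finset.range p, mu p w α 0 b =
      (w ((0 + b) / p) : K) / α - (w 0 : K) / α ^ 2 := by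
    intro b _
    have e2 : (((b : ℕ) : ℤ) : ℚ) / (p : ℚ) ^ 0 = 0 + ((b : ℤ) : ℚ) := by simp
    rw [mu, e2, periodic_int hw]
    simp
  rw [Finset.sum_congr rfl h1, Finset.sum_sub_distrib, ← Finset.sum_div, Finset.sum_const,
    Finset.card_range, nsmul_eq_mul]
  have h2 : ∑ b ∈ Finset.range p, (w ((0 + b) / p) : K) = z * w 0 - w 0 := by
    have := hT 0
    have h3 : ((z * w 0 : ℚ) : K) =
        ((w (p * 0) + ∑ b ∈ Finset.range p, w ((0 + b) / p) : ℚ) : K) := by rw [this]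
    rw [mul_zero] at h3
    push_cast at h3
    linear_combination -h3
  rw [h2]
  field_simp
  linear_combination (-(w 0 : K)) * hα

/-- The mass of the units: the factor `(1 - 1 / α)²`. -/
theorem mu_mass_units (hp : p ≠ 0) (hw : ∀ r, w (r + 1) = w r)
    (hT : ∀ r, z * w r = w (p * r) + ∑ b ∈ Finset.range p, w ((r + b) / p))
    (hα0 : α ≠ 0) (hα : α ^ 2 - z * α + p = 0) :
    ∑ b ∈ (Finset.range p).erase 0, mu p w α 0 b = (1 - 1 / α) ^ 2 * w 0 := by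
  have h1 := mu_mass hw hT hα0 hα
  rw [← Finset.add_sum_erase _ _ (Finset.mem_range.mpr (Nat.pos_of_ne_zero hp))] at h1
  have h2 : mu p w α 0 ((0 : ℕ) : ℤ) = w 0 / α - w 0 / α ^ 2 := by
    rw [mu]
    simp
  rw [h2] at h1
  have h3 : ∑ b ∈ (Finset.range p).erase 0, mu p w α 0 b =
      (1 - 1 / α) * w 0 - (w 0 / α - w 0 / α ^ 2) := by linear_combination h1
  rw [h3]
  ring

end distribution

/-! ### Interpolation -/

section interp

open DirichletCharacter in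
theorem sum_char_eq_zero {p : ℕ} (hp : p.Prime) {n : ℕ} [NeZero (p ^ (n + 1))]
    {χ : DirichletCharacter ℂ (p ^ (n + 1))} (hχ : χ.IsPrimitive) {w : ℚ → ℚ}
    (hw : ∀ r, w (r + 1) = w r) :
    ∑ a : ZMod (p ^ (n + 1)), χ⁻¹ a * (w ((a.val : ℚ) / p ^ n) : ℂ) = 0 := by
  have hd : p ^ n ∣ p ^ (n + 1) := pow_dvd_pow p (Nat.le_succ n)
  have hp' : (p : ℚ) ≠ 0 := by exact_mod_cast hp.ne_zero
  have hnot : ¬ χ.FactorsThrough (p ^ n) := by
    intro h
    have h1 : χ.conductor ≤ p ^ n := Nat.sInf_le h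
    have h2 : χ.conductor = p ^ (n + 1) := hχ
    rw [h2] at h1
    exact absurd h1 (not_le.mpr (Nat.pow_lt_pow_right hp.one_lt (Nat.lt_succ_self n)))
  rw [factorsThrough_iff_ker_unitsMap hd] at hnot
  obtain ⟨c, hc, hc'⟩ := SetLike.not_le_iff_exists.mp hnot
  have hc1 : ZMod.castHom hd (ZMod (p ^ n)) (c : ZMod (p ^ (n + 1))) = 1 := by
    have := congrArg Units.val (MonoidHom.mem_ker.mp hc)
    simpa [ZMod.unitsMap_def] using this
  have hc2 : χ (c : ZMod (p ^ (n + 1))) ≠ 1 := by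
    intro h
    apply hc'
    rw [MonoidHom.mem_ker]
    apply Units.ext
    rw [MulChar.coe_toUnitHom, h]
    rfl
  have hF : ∀ a : ZMod (p ^ (n + 1)), w (((c * a : ZMod (p ^ (n + 1))).val : ℚ) / p ^ n) =
      w ((a.val : ℚ) / p ^ n) := by
    intro a
    have h1 : (((((c : ZMod (p ^ (n + 1))) * a).val : ℕ) : ℤ) : ZMod (p ^ n)) =
        (((a.val : ℕ) : ℤ) : ZMod (p ^ n)) := by
      have h2 : ∀ x : ZMod (p ^ (n + 1)), (((x.val : ℕ) : ℤ) : ZMod (p ^ n)) =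
          ZMod.castHom hd (ZMod (p ^ n)) x := by
        intro x
        rw [ZMod.castHom_apply, Int.cast_natCast, ZMod.natCast_val]
      rw [h2, h2, map_mul, hc1, one_mul]
    rw [ZMod.intCast_eq_intCast_iff_dvd_sub] at h1
    obtain ⟨k, hk⟩ := h1
    have h3 : (a.val : ℚ) = (((c : ZMod (p ^ (n + 1))) * a).val : ℚ) + (p : ℚ) ^ n * k := by
      have h4 : ((a.val : ℕ) : ℤ) = ((((c : ZMod (p ^ (n + 1))) * a).val : ℕ) : ℤ) +
          ((p ^ n : ℕ) : ℤ) * k := by linear_combination hk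
      exact_mod_cast h4
    rw [h3, add_div, mul_div_cancel_left₀ _ (pow_ne_zero n hp'), periodic_int hw]
  set S := ∑ a : ZMod (p ^ (n + 1)), χ⁻¹ a * (w ((a.val : ℚ) / p ^ n) : ℂ) with hS
  have h1 : S = χ⁻¹ (c : ZMod (p ^ (n + 1))) * S := by
    conv_lhs => rw [hS, ← Equiv.sum_comp (Units.mulLeft c)]
    rw [hS, Finset.mul_sum]
    refine Finset.sum_congr rfl fun a _ ↦ ?_
    rw [Units.mulLeft_apply, map_mul, hF a]
    ring
  have h2 : χ⁻¹ (c : ZMod (p ^ (n + 1))) ≠ 1 := by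
    rw [MulChar.inv_apply_eq_inv']
    intro h
    exact hc2 (inv_eq_one.mp h)
  have h3 : (1 - χ⁻¹ (c : ZMod (p ^ (n + 1)))) * S = 0 := by linear_combination h1
  exact (mul_eq_zero.mp h3).resolve_left (sub_ne_zero.mpr h2.symm)

theorem sum_mu {p : ℕ} (hp : p.Prime) {n : ℕ} [NeZero (p ^ (n + 1))]
    {χ : DirichletCharacter ℂ (p ^ (n + 1))} (hχ : χ.IsPrimitive) {w : ℚ → ℚ}
    (hw : ∀ r, w (r + 1) = w r) (α : ℂ) :
    ∑ a : ZMod (p ^ (n + 1)), χ⁻¹ a * mu p w α n a.val =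
      (∑ a : ZMod (p ^ (n + 1)), χ⁻¹ a * (w ((a.val : ℚ) / (p ^ (n + 1) : ℕ)) : ℂ)) /
        α ^ (n + 1) := by
  have h1 := sum_char_eq_zero hp hχ hw
  have h2 : ∀ a ∈ (Finset.univ : Finset (ZMod (p ^ (n + 1)))), χ⁻¹ a * mu p w α n a.val =
      χ⁻¹ a * (w ((a.val : ℚ) / (p ^ (n + 1) : ℕ)) : ℂ) / α ^ (n + 1) -
        χ⁻¹ a * (w ((a.val : ℚ) / p ^ n) : ℂ) / α ^ (n + 2) := by
    intro a _
    rw [mu]
    push_cast
    ring
  rw [Finset.sum_congr rfl h2, Finset.sum_sub_distrib, ← Finset.sum_div, ← Finset.sum_div, h1]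
  simp

variable {f : CuspForm (Gamma0 N) 2} {Ωp Ωm : ℝ} {u v : ℚ → ℚ}

/-- **Interpolation** at the even characters of `p`-power conductor. -/
theorem IsCoords.interp_even (h : IsCoords f Ωp Ωm u v) {p : ℕ} (hp : p.Prime) {n : ℕ}
    [NeZero (p ^ (n + 1))] {χ : DirichletCharacter ℂ (p ^ (n + 1))} (hχ : χ.IsPrimitive)
    (he : χ.Even) (α : ℂ) :
    gaussSum χ ZMod.stdAddChar * (∑ a : ZMod (p ^ (n + 1)), χ⁻¹ a * mu p u α n a.val) * Ωp =
      (p ^ (n + 1) : ℕ) / α ^ (n + 1) * LT f χ 1 := by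
  have hp' : ((p ^ (n + 1) : ℕ) : ℂ) ≠ 0 := by exact_mod_cast pow_ne_zero _ hp.ne_zero
  rw [h.even _ χ hχ he, sum_mu hp hχ h.u_add_one]
  field_simp

/-- **Interpolation** at the odd characters of `p`-power conductor. -/
theorem IsCoords.interp_odd (h : IsCoords f Ωp Ωm u v) {p : ℕ} (hp : p.Prime) {n : ℕ}
    [NeZero (p ^ (n + 1))] {χ : DirichletCharacter ℂ (p ^ (n + 1))} (hχ : χ.IsPrimitive)
    (he : χ.Odd) (α : ℂ) :
    gaussSum χ ZMod.stdAddChar * (∑ a : ZMod (p ^ (n + 1)), χ⁻¹ a * mu p v α n a.val) *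
      (Ωm * I) = - ((p ^ (n + 1) : ℕ) / α ^ (n + 1) * LT f χ 1) := by
  have hp' : ((p ^ (n + 1) : ℕ) : ℂ) ≠ 0 := by exact_mod_cast pow_ne_zero _ hp.ne_zero
  rw [h.odd _ χ hχ he, sum_mu hp hχ h.v_add_one]
  field_simp

end interp

end Fermat.Agent.Cor.MSD
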