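import Mathlib
import Fermat.Agent.Cor.MSD

/-!
# The p-adic measures of an ordinary newform (corollary file, not used for S01)

A bounded distribution on `ℤ_p` extends to a continuous linear form on `C(ℤ_p, ℚ_p)`.  So for a
newform `f` of weight two with integral eigenvalues and a prime `p ∤ N` with `p ∤ a_p` the
Mazur–Swinnerton-Dyer distributions attached to the unit root `α` of `x² - a_p x + p` are measures
`L⁺`, `L⁻`: the p-adic L-function of `f`.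
-/

set_option autoImplicit false

open Filter Function Set
open scoped Topology

noncomputable section

namespace Fermat.Agent.Cor.MSD

section measure

variable {p : ℕ} [Fact p.Prime] {C : ℝ} {μ : ℕ → ℤ → ℚ_[p]}

/-- Splitting residue classes modulo `m p`. -/
theorem sum_range_split {A : Type*} [AddCommMonoid A] (m p : ℕ) (hm : 0 < m) (F : ℕ → A) :
    ∑ a ∈ Finset.range (m * p), F a =
      ∑ a ∈ Finset.range m, ∑ b ∈ Finset.range p, F (a + b * m) := by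
  rw [← Finset.sum_product']
  refine Finset.sum_nbij' (fun x ↦ (x % m, x / m)) (fun y ↦ y.1 + y.2 * m) ?_ ?_ ?_ ?_ ?_
  · intro x hx
    rw [Finset.mem_range] at hx
    rw [Finset.mem_product, Finset.mem_range, Finset.mem_range]
    exact ⟨Nat.mod_lt x hm, Nat.div_lt_of_lt_mul hx⟩
  · rintro ⟨a, b⟩ hy
    rw [Finset.mem_product, Finset.mem_range, Finset.mem_range] at hy
    rw [Finset.mem_range]
    calc a + b * m < m + b * m := by have := hy.1; simp only at this; omega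
      _ = m * (b + 1) := by ring
      _ ≤ m * p := Nat.mul_le_mul_left m hy.2
  · intro x _
    exact Nat.mod_add_div' x m
  · rintro ⟨a, b⟩ hy
    rw [Finset.mem_product, Finset.mem_range, Finset.mem_range] at hy
    have h1 : a < m := hy.1
    simp only [Prod.mk.injEq]
    constructor
    · rw [Nat.add_mul_mod_self_right, Nat.mod_eq_of_lt h1]
    · rw [Nat.add_mul_div_right _ _ hm, Nat.div_eq_of_lt h1, zero_add]
  · intro x _
    simp only
    rw [Nat.mod_add_div' x m]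

/-- The Riemann sums. -/
def RS (μ : ℕ → ℤ → ℚ_[p]) (n : ℕ) (g : C(ℤ_[p], ℚ_[p])) : ℚ_[p] :=
  ∑ a ∈ Finset.range (p ^ (n + 1)), μ n a * g (a : ℤ_[p])

theorem RS_sub (hdist : ∀ n a, ∑ b ∈ Finset.range p, μ (n + 1) (a + b * p ^ (n + 1)) = μ n a)
    (n : ℕ) (g : C(ℤ_[p], ℚ_[p])) :
    RS μ (n + 1) g - RS μ n g = ∑ a ∈ Finset.range (p ^ (n + 1)), ∑ b ∈ Finset.range p,
      μ (n + 1) (a + b * p ^ (n + 1)) *
        (g ((a + b * p ^ (n + 1) : ℕ) : ℤ_[p]) - g (a : ℤ_[p])) := by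
  have hp : 0 < p := (Fact.out : p.Prime).pos
  rw [RS, RS, pow_succ p (n + 1), sum_range_split _ _ (by positivity), ← Finset.sum_sub_distrib]
  refine Finset.sum_congr rfl fun a _ ↦ ?_
  rw [← hdist n a, Finset.sum_mul, ← Finset.sum_sub_distrib]
  refine Finset.sum_congr rfl fun b _ ↦ ?_
  push_cast
  ring

theorem norm_shift (n a b : ℕ) :
    dist (((a + b * p ^ (n + 1) : ℕ) : ℤ_[p])) (a : ℤ_[p]) ≤ (p : ℝ) ^ (-((n : ℤ) + 1)) := by
  rw [dist_eq_norm]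
  have h1 : (((a + b * p ^ (n + 1) : ℕ) : ℤ_[p])) - (a : ℤ_[p]) = (p : ℤ_[p]) ^ (n + 1) * b := by
    push_cast
    ring
  rw [h1, norm_mul, PadicInt.norm_p_pow]
  calc (p : ℝ) ^ (-((n + 1 : ℕ) : ℤ)) * ‖(b : ℤ_[p])‖ ≤ (p : ℝ) ^ (-((n + 1 : ℕ) : ℤ)) * 1 := by
        gcongr
        exact PadicInt.norm_le_one _
    _ = (p : ℝ) ^ (-((n : ℤ) + 1)) := by push_cast; ring

theorem norm_RS_sub_le (hdist : ∀ n a, ∑ b ∈ Finset.range p, μ (n + 1) (a + b * p ^ (n + 1)) = μ n a)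
    (hC0 : 0 ≤ C) (hC : ∀ n a, ‖μ n a‖ ≤ C) (n : ℕ) (g : C(ℤ_[p], ℚ_[p])) {ε : ℝ} (hε : 0 ≤ ε)
    (h : ∀ x y : ℤ_[p], dist x y ≤ (p : ℝ) ^ (-((n : ℤ) + 1)) → ‖g x - g y‖ ≤ ε) :
    ‖RS μ (n + 1) g - RS μ n g‖ ≤ C * ε := by
  rw [RS_sub hdist]
  refine IsUltrametricDist.norm_sum_le_of_forall_le_of_nonneg (by positivity) fun a _ ↦ ?_
  refine IsUltrametricDist.norm_sum_le_of_forall_le_of_nonneg (by positivity) fun b _ ↦ ?_
  rw [norm_mul]
  exact mul_le_mul (hC _ _) (h _ _ (norm_shift n a b)) (norm_nonneg _) hC0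

theorem norm_RS_le (hC0 : 0 ≤ C) (hC : ∀ n a, ‖μ n a‖ ≤ C) (n : ℕ) (g : C(ℤ_[p], ℚ_[p])) :
    ‖RS μ n g‖ ≤ C * ‖g‖ := by
  refine IsUltrametricDist.norm_sum_le_of_forall_le_of_nonneg (by positivity) fun a _ ↦ ?_
  rw [norm_mul]
  exact mul_le_mul (hC _ _) (g.norm_coe_le_norm _) (norm_nonneg _) hC0

theorem tendsto_pow : Tendsto (fun n : ℕ ↦ (p : ℝ) ^ (-((n : ℤ) + 1))) atTop (𝓝 0) := by
  have hp : (1 : ℝ) < p := by exact_mod_cast (Fact.out : p.Prime).one_lt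
  have h1 : Tendsto (fun n : ℕ ↦ ((p : ℝ)⁻¹) ^ (n + 1)) atTop (𝓝 0) :=
    (tendsto_pow_atTop_nhds_zero_of_lt_one (by positivity) (inv_lt_one_of_one_lt₀ hp)).comp
      (tendsto_add_atTop_nat 1)
  refine h1.congr fun n ↦ ?_
  rw [inv_pow, ← zpow_natCast, ← zpow_neg]
  push_cast
  rfl

theorem cauchySeq_RS (hdist : ∀ n a, ∑ b ∈ Finset.range p, μ (n + 1) (a + b * p ^ (n + 1)) = μ n a)
    (hC0 : 0 ≤ C) (hC : ∀ n a, ‖μ n a‖ ≤ C) (g : C(ℤ_[p], ℚ_[p])) :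
    CauchySeq fun n ↦ RS μ n g := by
  have hu : UniformContinuous g := CompactSpace.uniformContinuous_of_continuous g.continuous
  rw [Metric.uniformContinuous_iff] at hu
  have hsub : Tendsto (fun n ↦ RS μ (n + 1) g - RS μ n g) atTop (𝓝 0) := by
    rw [Metric.tendsto_atTop]
    intro ε hε
    obtain ⟨δ, hδ, h1⟩ := hu (ε / (2 * (C + 1))) (by positivity)
    obtain ⟨n₀, h2⟩ := (Metric.tendsto_atTop.mp (tendsto_pow (p := p))) δ hδ
    refine ⟨n₀, fun n hn ↦ ?_⟩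
    rw [dist_zero_right]
    have h3 := norm_RS_sub_le hdist hC0 hC n g (ε := ε / (2 * (C + 1))) (by positivity)
      fun x y hxy ↦ by
        have h4 := h2 n hn
        rw [Real.dist_eq, sub_zero] at h4
        have h5 := h1 (lt_of_le_of_lt hxy ((le_abs_self _).trans_lt h4))
        rw [dist_eq_norm] at h5
        exact h5.le
    refine h3.trans_lt ?_
    calc C * (ε / (2 * (C + 1))) ≤ (C + 1) * (ε / (2 * (C + 1))) := by gcongr; linarith
      _ = ε / 2 := by field_simp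
      _ < ε := by linarith
  exact NonarchimedeanAddGroup.cauchySeq_of_tendsto_sub_nhds_zero hsub

/-- **A bounded distribution extends to a continuous linear form.** -/
theorem exists_measure
    (hdist : ∀ n a, ∑ b ∈ Finset.range p, μ (n + 1) (a + b * p ^ (n + 1)) = μ n a)
    (hC : ∀ n a, ‖μ n a‖ ≤ C) :
    ∃ L : C(ℤ_[p], ℚ_[p]) →L[ℚ_[p]] ℚ_[p], (∀ g, ‖L g‖ ≤ C * ‖g‖) ∧
      (∀ g, Tendsto (fun n ↦ ∑ a ∈ Finset.range (p ^ (n + 1)), μ n a * g (a : ℤ_[p])) atTop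
        (𝓝 (L g))) ∧
      ∀ (n : ℕ) (g : C(ℤ_[p], ℚ_[p])),
        (∀ x y : ℤ_[p], dist x y ≤ (p : ℝ) ^ (-((n : ℤ) + 1)) → g x = g y) →
        L g = ∑ a ∈ Finset.range (p ^ (n + 1)), μ n a * g (a : ℤ_[p]) := by
  have hC0 : 0 ≤ C := (norm_nonneg _).trans (hC 0 0)
  have hlim : ∀ g, ∃ l, Tendsto (fun n ↦ RS μ n g) atTop (𝓝 l) := fun g ↦
    cauchySeq_tendsto_of_complete (cauchySeq_RS hdist hC0 hC g)
  choose l hl using hlim
  have hbound : ∀ g, ‖l g‖ ≤ C * ‖g‖ := fun g ↦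
    le_of_tendsto (hl g).norm (Eventually.of_forall fun n ↦ norm_RS_le hC0 hC n g)
  let L₀ : C(ℤ_[p], ℚ_[p]) →ₗ[ℚ_[p]] ℚ_[p] :=
    { toFun := l
      map_add' := fun g g' ↦ by
        refine tendsto_nhds_unique (hl (g + g')) (((hl g).add (hl g')).congr fun n ↦ ?_)
        rw [RS, RS, RS, ← Finset.sum_add_distrib]
        refine Finset.sum_congr rfl fun a _ ↦ ?_
        rw [ContinuousMap.add_apply]
        ring
      map_smul' := fun c g ↦ by
        refine tendsto_nhds_unique (hl (c • g)) (((hl g).const_mul c).congr fun n ↦ ?_)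
        rw [RS, RS, Finset.mul_sum]
        refine Finset.sum_congr rfl fun a _ ↦ ?_
        rw [ContinuousMap.smul_apply, smul_eq_mul]
        ring }
  refine ⟨L₀.mkContinuous C hbound, hbound, hl, fun n g hg ↦ ?_⟩
  have hconst : ∀ k, n ≤ k → RS μ k g = RS μ n g := by
    intro k hk
    induction k, hk using Nat.le_induction with
    | base => rfl
    | succ k hk ih =>
      rw [← ih, ← sub_eq_zero, ← norm_eq_zero]
      refine le_antisymm ?_ (norm_nonneg _)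
      have h1 := norm_RS_sub_le hdist hC0 hC k g (ε := 0) le_rfl fun x y hxy ↦ by
        rw [hg x y (hxy.trans ?_), sub_self, norm_zero]
        have hp : (1 : ℝ) ≤ p := by exact_mod_cast (Fact.out : p.Prime).one_le
        exact zpow_le_zpow_right₀ hp (by omega)
      rwa [mul_zero] at h1
  refine tendsto_nhds_unique (hl g) ?_
  refine (tendsto_const_nhds (x := RS μ n g)).congr' ?_
  filter_upwards [eventually_ge_atTop n] with k hk
  exact (hconst k hk).symm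

/-- The unit root. -/
theorem exists_unit_root {z : ℤ} (hz : ¬ (p : ℤ) ∣ z) :
    ∃ α : ℤ_[p], IsUnit α ∧ α ^ 2 - z * α + p = 0 := by
  let F : Polynomial ℤ := Polynomial.X ^ 2 - Polynomial.C z * Polynomial.X + Polynomial.C (p : ℤ)
  have hz1 : ‖(z : ℤ_[p])‖ = 1 := by
    refine le_antisymm (PadicInt.norm_le_one _) (not_lt.mp fun h ↦ hz ?_)
    exact (PadicInt.norm_int_lt_one_iff_dvd z).mp h
  have e1 : F.aeval (z : ℤ_[p]) = (p : ℤ_[p]) := by
    simp [F]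
    ring
  have e2 : F.derivative.aeval (z : ℤ_[p]) = (z : ℤ_[p]) := by
    have h2 : (Polynomial.aeval (z : ℤ_[p])) (2 : Polynomial ℤ) = 2 := map_ofNat _ 2
    simp [F, h2]
    ring
  have hnorm : ‖F.aeval (z : ℤ_[p])‖ < ‖F.derivative.aeval (z : ℤ_[p])‖ ^ 2 := by
    rw [e1, e2, hz1, one_pow]
    rw [PadicInt.norm_p]
    exact inv_lt_one_of_one_lt₀ (by exact_mod_cast (Fact.out : p.Prime).one_lt)
  obtain ⟨α, h1, h2, -, -⟩ := hensels_lemma hnorm
  refine ⟨α, ?_, ?_⟩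
  · rw [PadicInt.isUnit_iff]
    rw [e2, hz1] at h2
    have h3 : α = (α - z) + z := by ring
    rw [h3]
    have h4 : ‖α - (z : ℤ_[p])‖ ≠ ‖(z : ℤ_[p])‖ := by rw [hz1]; exact h2.ne
    rw [PadicInt.norm_add_eq_max_of_ne h4, hz1, max_eq_right h2.le]
  · have h3 : F.aeval α = α ^ 2 - z * α + p := by
      simp [F]
    rw [← h3, h1]

end measure

/-! ### The p-adic L-functions of an ordinary newform -/

section padic

open CongruenceSubgroup ModularFormClass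

variable {p : ℕ} [Fact p.Prime]

/-- The distribution of the unit root is bounded. -/
theorem norm_mu_le {w : ℚ → ℚ} {D : ℕ} (hD : D ≠ 0) (hw : ∀ r, ∃ m : ℤ, D * w r = m) {α : ℤ_[p]}
    (hα : IsUnit α) (n : ℕ) (a : ℤ) :
    ‖mu p w (α : ℚ_[p]) n a‖ ≤ ‖(D : ℚ_[p])‖⁻¹ := by
  have hα1 : ‖(α : ℚ_[p])‖ = 1 := PadicInt.isUnit_iff.mp hα
  have hD' : (D : ℚ_[p]) ≠ 0 := by exact_mod_cast hD
  have h1 : ∀ r : ℚ, ‖(w r : ℚ_[p])‖ ≤ ‖(D : ℚ_[p])‖⁻¹ := by
    intro r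
    obtain ⟨m, hm⟩ := hw r
    have h2 : (D : ℚ_[p]) * (w r : ℚ_[p]) = m := by exact_mod_cast hm
    have h3 : ‖(D : ℚ_[p])‖ * ‖(w r : ℚ_[p])‖ ≤ 1 := by
      rw [← norm_mul, h2]
      exact Padic.norm_int_le_one m
    rw [← one_div, le_div_iff₀ (norm_pos_iff.mpr hD')]
    linarith
  rw [mu, sub_eq_add_neg]
  refine (IsUltrametricDist.norm_add_le_max _ _).trans (max_le ?_ ?_)
  · rw [norm_div, norm_pow, hα1, one_pow, div_one]
    exact h1 _
  · rw [norm_neg, norm_div, norm_pow, hα1, one_pow, div_one]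
    exact h1 _

variable {N : ℕ} [NeZero N] {f : CuspForm (Gamma0 N) 2} {Ωp Ωm : ℝ} {u v : ℚ → ℚ}

/-- **The p-adic L-functions of a p-ordinary newform** (Mazur, Swinnerton-Dyer).  Let `f` be a
newform of weight two and level `N`, `p ∤ N` a prime such that `a_p = z` is an integer prime to
`p`, and `α ∈ ℤ_pˣ` the unit root of `x² - a_p x + p`.  There are continuous linear forms `Lp`, `Lm`
on `C(ℤ_p, ℚ_p)` with `Lp g = ∑ μ⁺(a + p^(n+1)) g(a)` for the functions `g` modulo `p^(n+1)`,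
where `μ⁺(a + p^(n+1)) = u(a / p^(n+1)) α^(-n-1) - u(a / p^n) α^(-n-2)`, and the same for `Lm`, `v`.
The value at the characteristic function of the units is `(1 - 1/α)² L(f, 1) / Ωp`. -/
theorem IsCoords.exists_padic (h : IsCoords f Ωp Ωm u v) (hf : f.IsNormalizedEigenform)
    (hpN : ¬ p ∣ N) {z : ℤ} (hz : qCoeff f p = z) (hord : ¬ (p : ℤ) ∣ z) :
    ∃ α : ℤ_[p], IsUnit α ∧ α ^ 2 - z * α + p = 0 ∧
      ∃ Lp Lm : C(ℤ_[p], ℚ_[p]) →L[ℚ_[p]] ℚ_[p],
        (∀ (n : ℕ) (g : C(ℤ_[p], ℚ_[p])),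
          (∀ x y : ℤ_[p], dist x y ≤ (p : ℝ) ^ (-((n : ℤ) + 1)) → g x = g y) →
          Lp g = ∑ a ∈ Finset.range (p ^ (n + 1)), mu p u (α : ℚ_[p]) n a * g (a : ℤ_[p])) ∧
        (∀ (n : ℕ) (g : C(ℤ_[p], ℚ_[p])),
          (∀ x y : ℤ_[p], dist x y ≤ (p : ℝ) ^ (-((n : ℤ) + 1)) → g x = g y) →
          Lm g = ∑ a ∈ Finset.range (p ^ (n + 1)), mu p v (α : ℚ_[p]) n a * g (a : ℤ_[p])) ∧
        (∀ g : C(ℤ_[p], ℚ_[p]), (∀ x : ℤ_[p], g x = if ‖x‖ = 1 then 1 else 0) →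
          Lp g = (1 - 1 / (α : ℚ_[p])) ^ 2 * u 0) ∧
        LFun.LF f 1 = u 0 * Ωp := by
  have hp : p.Prime := Fact.out
  obtain ⟨α, hα, hα2⟩ := exists_unit_root (p := p) hord
  have hα0 : (α : ℚ_[p]) ≠ 0 := by
    have h1 : ‖(α : ℚ_[p])‖ = 1 := PadicInt.isUnit_iff.mp hα
    intro h0
    rw [h0, norm_zero] at h1
    exact zero_ne_one h1
  have hα2' : (α : ℚ_[p]) ^ 2 - z * (α : ℚ_[p]) + p = 0 := by
    have := congrArg (fun x : ℤ_[p] ↦ (x : ℚ_[p])) hα2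
    simpa using this
  obtain ⟨D, hD, hD'⟩ := h.denom
  have hTu := fun r ↦ (h.hecke hf hp hpN hz r).1
  have hTv := fun r ↦ (h.hecke hf hp hpN hz r).2
  obtain ⟨Lp, -, -, hLp⟩ := exists_measure (μ := mu p u (α : ℚ_[p]))
    (mu_distribution hp.ne_zero h.u_add_one hTu hα0 hα2')
    (norm_mu_le hD (fun r ↦ (hD' r).1) hα)
  obtain ⟨Lm, -, -, hLm⟩ := exists_measure (μ := mu p v (α : ℚ_[p]))
    (mu_distribution hp.ne_zero h.v_add_one hTv hα0 hα2')
    (norm_mu_le hD (fun r ↦ (hD' r).2) hα)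
  refine ⟨α, hα, hα2, Lp, Lm, hLp, hLm, fun g hg ↦ ?_, h.zero.1⟩
  have hg1 : ∀ x y : ℤ_[p], dist x y ≤ (p : ℝ) ^ (-(((0 : ℕ) : ℤ) + 1)) → g x = g y := by
    intro x y hxy
    have hp1 : (1 : ℝ) < p := by exact_mod_cast hp.one_lt
    have h1 : ‖x - y‖ < 1 := by
      rw [← dist_eq_norm]
      refine hxy.trans_lt ?_
      rw [Nat.cast_zero, zero_add, zpow_neg_one]
      exact inv_lt_one_of_one_lt₀ hp1
    have key : ∀ x y : ℤ_[p], ‖x - y‖ < 1 → ‖x‖ = 1 → ‖y‖ = 1 := by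
      intro x y h1 hx
      have h2 : ‖y - x‖ ≠ ‖x‖ := by rw [hx, norm_sub_rev]; exact h1.ne
      have h3 : y = (y - x) + x := by ring
      rw [h3, PadicInt.norm_add_eq_max_of_ne h2, hx]
      rw [norm_sub_rev] at h1
      exact max_eq_right h1.le
    rw [hg, hg]
    have h2 : ‖x‖ = 1 ↔ ‖y‖ = 1 :=
      ⟨key x y h1, key y x (by rwa [norm_sub_rev])⟩
    simp only [h2]
  rw [hLp 0 g hg1, ← mu_mass_units hp.ne_zero h.u_add_one hTu hα0 hα2', zero_add, pow_one,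
    ← Finset.add_sum_erase _ _ (Finset.mem_range.mpr hp.pos)]
  have h0 : g ((0 : ℕ) : ℤ_[p]) = 0 := by
    rw [hg, if_neg]
    simp
  rw [h0, mul_zero, zero_add]
  refine Finset.sum_congr rfl fun b hb ↦ ?_
  have hb1 : ‖((b : ℕ) : ℤ_[p])‖ = 1 := by
    rw [Finset.mem_erase, Finset.mem_range] at hb
    refine le_antisymm (PadicInt.norm_le_one _) (not_lt.mp fun hlt ↦ ?_)
    have h1 : ‖((b : ℤ) : ℤ_[p])‖ < 1 := by exact_mod_cast hlt
    have h2 := (PadicInt.norm_int_lt_one_iff_dvd (b : ℤ)).mp h1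
    have h3 : p ∣ b := by exact_mod_cast h2
    exact absurd (Nat.le_of_dvd (Nat.pos_of_ne_zero hb.1) h3) (not_le.mpr hb.2)
  rw [hg, if_pos hb1, mul_one]

end padic

end Fermat.Agent.Cor.MSD
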