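import Mathlib
import Fermat.Agent.Cor.MSDPadic

/-!
# Modular symbols modulo the periods (corollary file, not used for S01)

For a normalised eigenform `f` of level `N` and a prime `l ≡ 1 (mod N)` the number
`(l + 1 - a_l) 2πi λ(r, s)` is a period for ALL cusps `r, s`.
-/

set_option autoImplicit false

noncomputable section

open CongruenceSubgroup ModularFormClass Complex
open scoped MatrixGroups Real

namespace Fermat.Agent.Cor.CuspDenom

open Fermat.Agent.H16 Fermat.Agent.H16.LR Fermat.Agent.Cor.Manin Fermat.Agent.Cor.CentralValue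
open Fermat.Agent.Cor.TwistValue Fermat.Agent.Cor.MSD

section boundary

variable {M : ℕ} {B : Type*}

theorem inv_mul {β : Cu → B} (hβ : ∀ γ ∈ Gamma0 M, ∀ r, β (ι γ • r) = β r) {l : ℕ} (hl : l.Prime)
    (hM : (M : ℤ) ∣ l - 1) (r : Cu) : β (gq l 0 0 1 • r) = β r := by
  have hp : Prime (l : ℤ) := Nat.prime_iff_prime_int.mp hl
  have hl0 : (l : ℚ) ≠ 0 := by exact_mod_cast hl.ne_zero
  obtain ⟨u, v, -, huv, rfl⟩ := exists_cv r
  rw [gq_smul_cv (by simpa using hl0) (ne_zero_of_coprime huv)]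
  have := cusp_mul_left hβ huv hp hM
  push_cast at this
  rw [← this]
  congr 2 <;> ring

theorem inv_div {β : Cu → B} (hβ : ∀ γ ∈ Gamma0 M, ∀ r, β (ι γ • r) = β r) {l : ℕ} (hl : l.Prime)
    (hM : (M : ℤ) ∣ l - 1) (b : ℕ) (r : Cu) : β (gq 1 b 0 l • r) = β r := by
  have hp : Prime (l : ℤ) := Nat.prime_iff_prime_int.mp hl
  have hl0 : (l : ℚ) ≠ 0 := by exact_mod_cast hl.ne_zero
  obtain ⟨u, v, -, huv, rfl⟩ := exists_cv r
  rw [gq_smul_cv (by simpa using hl0) (ne_zero_of_coprime huv)]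
  have huv' : IsCoprime (u + b * v) v := by
    obtain ⟨s, t, hst⟩ := huv
    exact ⟨s, t - s * b, by linear_combination hst⟩
  have h4 := cusp_mul_right hβ huv' hp hM
  have h5 : β (cv ((u + b * v : ℤ) : ℚ) v) = β (cv u v) := by
    have hmem : sl 1 b 0 1 (by ring) ∈ Gamma0 M := sl_mem (by ring) (dvd_zero _)
    rw [← hβ _ hmem (cv u v), ι_sl, gq_smul_cv (by norm_num) (ne_zero_of_coprime huv)]
    congr 2 <;> (push_cast; ring)
  rw [← h5, ← h4]
  congr 2 <;> (push_cast; ring)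

end boundary

variable {N : ℕ} [NeZero N] {f : CuspForm (Gamma0 N) 2}

/-- **Modular symbols modulo the periods.** -/
theorem mul_lam_mem (hf : f.IsNormalizedEigenform) {l : ℕ} (hl : l.Prime)
    (hN : (N : ℤ) ∣ l - 1) (r s : Cu) :
    (l + 1 - qCoeff f l) * (2 * π * I * lam ⇑f r s) ∈ periodGroup f := by
  have hS := isSymb_lam f
  have hlN : l.Coprime N := by
    rw [Nat.Prime.coprime_iff_not_dvd hl]
    intro h
    have h1 : (l : ℤ) ∣ (l : ℤ) - 1 := (Int.natCast_dvd_natCast.mpr h).trans hN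
    have h2 : (l : ℤ) ∣ 1 := by
      have := dvd_sub (dvd_refl (l : ℤ)) h1
      simpa using this
    exact hl.one_lt.ne' (by exact_mod_cast Int.eq_one_of_dvd_one (by positivity) h2)
  let β : Cu → ℂ ⧸ periodGroup f := fun r ↦
    ((2 * π * I * lam ⇑f OnePoint.infty r : ℂ) : ℂ ⧸ periodGroup f)
  have hβ : ∀ γ ∈ Gamma0 N, ∀ r, β (ι γ • r) = β r := by
    intro γ hγ r
    change ((2 * π * I * lam ⇑f OnePoint.infty (ι γ • r) : ℂ) : ℂ ⧸ periodGroup f) =
      ((2 * π * I * lam ⇑f OnePoint.infty r : ℂ) : ℂ ⧸ periodGroup f)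
    rw [QuotientAddGroup.eq, ← hS.add OnePoint.infty (ι γ • OnePoint.infty) (ι γ • r),
      hS.inv γ hγ]
    have h1 : 2 * π * I * lam ⇑f OnePoint.infty (ι γ • (OnePoint.infty : Cu)) ∈ periodGroup f :=
      mem_periodGroup.mpr ⟨γ, hγ, rfl⟩
    have h2 := neg_mem h1
    convert h2 using 1
    ring
  have key : ∀ r : Cu, (l + 1 - qCoeff f l) * (2 * π * I * lam ⇑f OnePoint.infty r) ∈
      periodGroup f := by
    intro r
    have h1 := congrFun (congrFun (TT_lam hf hl hlN) OnePoint.infty) r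
    have e1 : (pull ℂ).TT l (lam ⇑f) OnePoint.infty r =
        lam ⇑f (gq l 0 0 1 • (OnePoint.infty : Cu)) (gq l 0 0 1 • r) +
        ∑ b ∈ Finset.range l,
          lam ⇑f (gq 1 b 0 l • (OnePoint.infty : Cu)) (gq 1 b 0 l • r) := by
      simp only [RA.TT, RA.UU, Pi.add_apply, Finset.sum_apply, pull_apply]
    have hl0 : (l : ℚ) ≠ 0 := by exact_mod_cast hl.ne_zero
    have e3 : gq l 0 0 1 • (OnePoint.infty : Cu) = OnePoint.infty := by
      rw [infty_eq, gq_smul_cv (by simpa using hl0) (Or.inl one_ne_zero)]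
      simp [cv]
    have e5 : ∀ b : ℕ, gq 1 b 0 l • (OnePoint.infty : Cu) = OnePoint.infty := by
      intro b
      rw [infty_eq, gq_smul_cv (by simpa using hl0) (Or.inl one_ne_zero)]
      simp [cv]
    rw [e1, e3] at h1
    simp only [e5] at h1
    have h2 : ((qCoeff f l * (2 * π * I * lam ⇑f OnePoint.infty r) : ℂ) : ℂ ⧸ periodGroup f) =
        (l + 1 : ℕ) • β r := by
      have h3 : qCoeff f l * (2 * π * I * lam ⇑f OnePoint.infty r) =
          2 * π * I * lam ⇑f OnePoint.infty (gq l 0 0 1 • r) +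
          ∑ b ∈ Finset.range l, 2 * π * I * lam ⇑f OnePoint.infty (gq 1 b 0 l • r) := by
        rw [← Finset.mul_sum, ← mul_add, h1]
        ring
      rw [h3, QuotientAddGroup.mk_add]
      have h4 : ((∑ b ∈ Finset.range l, 2 * π * I * lam ⇑f OnePoint.infty (gq 1 b 0 l • r) : ℂ) :
          ℂ ⧸ periodGroup f) = ∑ b ∈ Finset.range l, β (gq 1 b 0 l • r) :=
        map_sum (QuotientAddGroup.mk' (periodGroup f)) _ _
      have h5 : ((2 * π * I * lam ⇑f OnePoint.infty (gq l 0 0 1 • r) : ℂ) : ℂ ⧸ periodGroup f) =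
          β (gq l 0 0 1 • r) := rfl
      rw [h4, h5, inv_mul hβ hl hN]
      simp only [inv_div hβ hl hN]
      rw [Finset.sum_const, Finset.card_range, add_smul, one_smul, add_comm]
    have h6 : ((((l + 1 : ℕ) : ℂ) * (2 * π * I * lam ⇑f OnePoint.infty r) : ℂ) :
        ℂ ⧸ periodGroup f) = (l + 1 : ℕ) • β r := by
      rw [← nsmul_eq_mul]
      exact map_nsmul (QuotientAddGroup.mk' (periodGroup f)) _ _
    rw [← h6, QuotientAddGroup.eq] at h2
    convert h2 using 1
    push_cast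
    ring
  have h1 := sub_mem (key s) (key r)
  convert h1 using 1
  have h2 := hS.add OnePoint.infty r s
  linear_combination (l + 1 - qCoeff f l) * (2 * π * I) * h2

/-- **The denominators of the modular symbols** divide `2 (l + 1 - a_l)`, `l ≡ 1 (mod N)`. -/
theorem two_mul_coords {Ωp Ωm : ℝ} {u v : ℚ → ℚ} (h : IsCoords f Ωp Ωm u v)
    (hf : f.IsNewform) (ha : ∀ l : ℕ, l.Prime → ¬ l ∣ N → ∃ z : ℤ, qCoeff f l = z)
    {l : ℕ} (hl : l.Prime)
    (hN : (N : ℤ) ∣ l - 1) {z : ℤ} (hz : qCoeff f l = z) (r : ℚ) :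
    (∃ k : ℤ, 2 * (l + 1 - z) * u r = k) ∧ ∃ k : ℤ, 2 * (l + 1 - z) * v r = k := by
  have h1 := mul_lam_mem hf.1 hl hN (r : Cu) OnePoint.infty
  rw [← LR_one, h.eq, hz] at h1
  have h2 := conj_mem (conj_qCoeff hf ha) h1
  have e1 : (starRingEnd ℂ) (((l : ℂ) + 1 - z) * (u r * Ωp + v r * Ωm * I)) =
      ((l : ℂ) + 1 - z) * (u r * Ωp - v r * Ωm * I) := by
    simp only [map_mul, map_add, map_sub, map_one, Complex.conj_ofReal, Complex.conj_I,
      map_natCast, map_intCast, map_ratCast]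
    ring
  rw [e1] at h2
  constructor
  · have h3 := add_mem h1 h2
    have e2 : ((l : ℂ) + 1 - z) * (u r * Ωp + v r * Ωm * I) +
        ((l : ℂ) + 1 - z) * (u r * Ωp - v r * Ωm * I) =
        ((2 * (l + 1 - z) * u r * Ωp : ℝ) : ℂ) := by
      push_cast
      ring
    rw [e2, h.real_period] at h3
    obtain ⟨k, hk⟩ := h3
    exact ⟨k, by exact_mod_cast mul_right_cancel₀ h.pos.ne' hk⟩
  · have h3 := sub_mem h1 h2
    have e2 : ((l : ℂ) + 1 - z) * (u r * Ωp + v r * Ωm * I) -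
        ((l : ℂ) + 1 - z) * (u r * Ωp - v r * Ωm * I) =
        ((2 * (l + 1 - z) * v r * Ωm : ℝ) : ℂ) * I := by
      push_cast
      ring
    rw [e2, h.im_period] at h3
    obtain ⟨k, hk⟩ := h3
    exact ⟨k, by exact_mod_cast mul_right_cancel₀ h.pos'.ne' hk⟩

end Fermat.Agent.Cor.CuspDenom
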