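import Fermat.Agent.Cor.KroneckerWeber

/-!
# One-dimensional Galois representations I : the level

`Lev χ n` : the character `χ` of `Gal(ℚ̄/ℚ)` is trivial on `Gal(ℚ̄/ℚ(ζ_n))`. By the Kronecker–Weber theorem every
character with open kernel has a level `n`, and one can take `n` divisible only by primes at which `χ` is ramified.
-/

set_option autoImplicit false
set_option linter.style.haveILetI false

noncomputable section

namespace Fermat.Agent.Cor.H25Dir

open Fermat.Agent.CC (Qb GQ)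
open Fermat.Agent.Cor.KW

variable {M : Type} [CommGroup M]

/-- `χ` is trivial on `Gal(ℚ̄/ℚ(ζ_n))` -/
def Lev (χ : GQ →* M) (n : ℕ) : Prop := 0 < n ∧ ∀ g : GQ, (∀ ζ : Qb, ζ ^ n = 1 → g ζ = ζ) → χ g = 1

theorem range_finite {χ : GQ →* M} (hχ : Cts χ) : Finite χ.range := by
  obtain ⟨F, hF, hFU⟩ := exists_field hχ
  haveI : χ.ker.FiniteIndex := by
    rw [← hFU]
    exact CC.fixingSubgroup_finiteIndex F
  exact Finite.of_equiv _ (QuotientGroup.quotientKerEquivRange χ).toEquiv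

/-- **Kronecker–Weber** -/
theorem exists_lev {χ : GQ →* M} (hχ : Cts χ) : ∃ n, Lev χ n := by
  haveI := range_finite hχ
  obtain ⟨n, hn, h⟩ := cyc_of_cts χ.rangeRestrict (by
    rw [Cts, MonoidHom.ker_rangeRestrict]
    exact hχ)
  refine ⟨n, hn, fun g hg => ?_⟩
  have h1 := h g hg
  exact congrArg Subtype.val h1

/-- a root of unity of order dividing `a b`, `a`, `b` coprime, is a product of roots of unity of order dividing `a`
and `b` -/
theorem fix_of_coprime {a b : ℕ} (hab : a.Coprime b) {g : GQ} (ha : ∀ ζ : Qb, ζ ^ a = 1 → g ζ = ζ)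
    (hb : ∀ ζ : Qb, ζ ^ b = 1 → g ζ = ζ) {ζ : Qb} (h : ζ ^ (a * b) = 1) (h0 : a * b ≠ 0) :
    g ζ = ζ := by
  have hζ0 : ζ ≠ 0 := by
    rintro rfl
    rw [zero_pow h0] at h
    exact zero_ne_one h
  obtain ⟨u, v, huv⟩ := Nat.isCoprime_iff_coprime.mpr hab
  have h1 : g (ζ ^ a) = ζ ^ a := hb _ (by rw [← pow_mul, h])
  have h2 : g (ζ ^ b) = ζ ^ b := ha _ (by rw [← pow_mul, mul_comm, h])
  have h3 : ζ = (ζ ^ a) ^ u * (ζ ^ b) ^ v := by
    rw [← zpow_natCast ζ a, ← zpow_natCast ζ b, ← zpow_mul, ← zpow_mul, ← zpow_add₀ hζ0,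
      mul_comm (a : ℤ), mul_comm (b : ℤ), huv, zpow_one]
  calc g ζ = g ((ζ ^ a) ^ u * (ζ ^ b) ^ v) := by rw [← h3]
    _ = (g (ζ ^ a)) ^ u * (g (ζ ^ b)) ^ v := by rw [map_mul, map_zpow₀, map_zpow₀]
    _ = ζ := by rw [h1, h2, ← h3]

theorem fix_of_cyc_eq {n : ℕ} [NeZero n] {g h : GQ} (hgh : DS.cyc n g = DS.cyc n h) {ζ : Qb}
    (hζ : ζ ^ n = 1) : g ζ = h ζ := by
  rw [DS.cyc_spec g hζ, DS.cyc_spec h hζ, hgh]

/-- unramified primes can be removed from the level -/
theorem Lev.reduce {χ : GQ →* M} {q a m : ℕ} (hq : q.Prime) (hqm : ¬ q ∣ m)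
    (h : Lev χ (q ^ a * m)) (hu : Unr χ q) : Lev χ m := by
  have hm : 0 < m := Nat.pos_of_ne_zero fun h0 => hqm (h0 ▸ dvd_zero q)
  haveI : NeZero (q ^ a) := ⟨pow_ne_zero _ hq.ne_zero⟩
  refine ⟨hm, fun g hg => ?_⟩
  obtain ⟨A, hA⟩ := H05.exists_liesOverPrime Qb hq
  obtain ⟨σ, hσ, hcyc⟩ := cyc_inertia hq a hA (DS.cyc (q ^ a) g)
  have h1 : χ σ = 1 := hu A hA hσ
  have h2 : χ (σ⁻¹ * g) = 1 := by
    refine h.2 _ fun ζ hζ => ?_
    refine fix_of_coprime (Nat.Coprime.pow_left a ((Nat.Prime.coprime_iff_not_dvd hq).mpr hqm))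
      ?_ ?_ hζ h.1.ne'
    · intro ξ hξ
      have h3 : g ξ = σ ξ := fix_of_cyc_eq hcyc.symm hξ
      change σ⁻¹ (g ξ) = ξ
      rw [h3]
      change (σ⁻¹ * σ) ξ = ξ
      rw [inv_mul_cancel]
      rfl
    · intro ξ hξ
      change σ⁻¹ (g ξ) = ξ
      rw [hg ξ hξ]
      have h3 : σ ξ = ξ := H05.inertia_apply_rootOfUnity hq hA hqm hσ hξ
      have h4 : σ⁻¹ (σ ξ) = ξ := by
        change (σ⁻¹ * σ) ξ = ξ
        rw [inv_mul_cancel]
        rfl
      rwa [h3] at h4
  rw [map_mul, map_inv, h1, inv_one, one_mul] at h2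
  exact h2

theorem Lev.unr {χ : GQ →* M} {n q : ℕ} (h : Lev χ n) (hq : q.Prime) (hqn : ¬ q ∣ n) : Unr χ q :=
  fun _ hA _ hσ => h.2 _ fun _ hζ => H05.inertia_apply_rootOfUnity hq hA hqn hσ hζ

open Classical in
/-- the least level -/
def conductor (χ : GQ →* M) : ℕ := if h : ∃ n, Lev χ n then Nat.find h else 0

theorem lev_conductor {χ : GQ →* M} (hχ : Cts χ) : Lev χ (conductor χ) := by
  classical
  rw [conductor, dif_pos (exists_lev hχ)]
  exact Nat.find_spec (exists_lev hχ)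

theorem conductor_le {χ : GQ →* M} {n : ℕ} (h : Lev χ n) : conductor χ ≤ n := by
  classical
  rw [conductor, dif_pos ⟨n, h⟩]
  exact Nat.find_min' _ h

/-- **the primes dividing the conductor are the ramified primes** -/
theorem dvd_conductor_iff {χ : GQ →* M} (hχ : Cts χ) {q : ℕ} (hq : q.Prime) :
    q ∣ conductor χ ↔ ¬ Unr χ q := by
  have hlev := lev_conductor hχ
  constructor
  · intro hd hu
    obtain ⟨a, m, hqm, hn⟩ := Nat.exists_eq_pow_mul_and_not_dvd hlev.1.ne' q hq.ne_one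
    rw [hn] at hlev
    have h1 := conductor_le (hlev.reduce hq hqm hu)
    have ha : a ≠ 0 := by
      rintro rfl
      rw [pow_zero, one_mul] at hn
      exact hqm (hn ▸ hd)
    have hm : 0 < m := Nat.pos_of_ne_zero fun h0 => hqm (h0 ▸ dvd_zero q)
    rw [hn] at h1
    have h2 : 1 < q ^ a := Nat.one_lt_pow ha hq.one_lt
    nlinarith
  · intro hu
    by_contra hd
    exact hu (hlev.unr hq hd)

/-- a character of level `n` factors through the cyclotomic character -/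
theorem Lev.exists_factor {χ : GQ →* M} {n : ℕ} [NeZero n] (h : Lev χ n) :
    ∃ θ : (ZMod n)ˣ →* M, χ = θ.comp (DS.cyc n) := by
  have hker : (DS.cyc n).ker ≤ χ.ker := by
    intro g hg
    refine h.2 g fun ζ hζ => ?_
    have h1 : DS.cyc n g = DS.cyc n 1 := by
      rw [map_one]
      exact hg
    exact fix_of_cyc_eq h1 hζ
  refine ⟨(DS.cyc n).liftOfSurjective (DS.cyc_surjective n) ⟨χ, hker⟩, ?_⟩
  ext g
  exact ((DS.cyc n).liftOfRightInverse_comp_apply _
    (Function.rightInverse_surjInv (DS.cyc_surjective n)) ⟨χ, hker⟩ g).symm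

theorem lev_of_factor {n : ℕ} [NeZero n] (θ : (ZMod n)ˣ →* M) : Lev (θ.comp (DS.cyc n)) n :=
  ⟨Nat.pos_of_ne_zero (NeZero.ne n), fun g hg => by
    rw [MonoidHom.comp_apply, cyc_eq_one hg, map_one]⟩

/-- **Chebotarev's theorem for abelian extensions of `ℚ`** (from Kronecker–Weber and Dirichlet's theorem on primes in
arithmetic progressions): every value of `χ` is the value at the Frobenius elements of infinitely many unramified
primes. -/
theorem infinite_frob {χ : GQ →* M} (hχ : Cts χ) (g : GQ) :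
    {q : ℕ | q.Prime ∧ Unr χ q ∧ ∀ A : ValuationSubring Qb, A.LiesOverPrime q →
      ∀ σ : GQ, A.IsFrobeniusAt σ q → χ σ = χ g}.Infinite := by
  have hlev := lev_conductor hχ
  haveI : NeZero (conductor χ) := ⟨hlev.1.ne'⟩
  obtain ⟨θ, hθ⟩ := hlev.exists_factor
  have h1 := Nat.infinite_setOfPred_prime_and_eq_mod (q := conductor χ)
    (a := ((DS.cyc (conductor χ) g : (ZMod (conductor χ))ˣ) : ZMod (conductor χ))) (Units.isUnit _)
  refine h1.mono ?_
  rintro q ⟨hq, hqa⟩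
  have hcop : q.Coprime (conductor χ) := by
    rw [← ZMod.isUnit_iff_coprime, hqa]
    exact Units.isUnit _
  have hqn : ¬ q ∣ conductor χ := (Nat.Prime.coprime_iff_not_dvd hq).mp hcop
  refine ⟨hq, hlev.unr hq hqn, fun A hA σ hσ => ?_⟩
  have h2 : DS.cyc (conductor χ) σ = DS.cyc (conductor χ) g := by
    rw [DS.cyc_frob hq hqn hA hσ hcop]
    ext
    rw [ZMod.coe_unitOfCoprime, hqa]
  have h3 : ∀ x, χ x = θ (DS.cyc (conductor χ) x) := fun x => by
    conv_lhs => rw [hθ]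
    rfl
  rw [h3, h3, h2]

end Fermat.Agent.Cor.H25Dir
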