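import Mathlib
import Fermat.Agent.Cor.MSDPadic
import Fermat.Agent.Cor.BadSmall
import Fermat.Agent.Cor.CentralEleven

/-!
# The p-adic L-functions of a semistable elliptic curve (corollary file, not used for S01)

For a semistable elliptic curve `W` over `ℚ` and a prime `p` of good ordinary or multiplicative
reduction the Mazur–Swinnerton-Dyer distributions are measures on `ℤ_p`.  At a prime of split
multiplicative reduction the p-adic L-function has an exceptional zero (Mazur–Tate–Teitelbaum).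
-/

set_option autoImplicit false

open Filter Function Set CongruenceSubgroup ModularFormClass
open scoped Topology

noncomputable section

namespace Fermat.Agent.Cor.MSD

open Fermat.Agent.H16 Fermat.Agent.H16.LR Fermat.Agent.Cor.Manin Fermat.Agent.Cor.CentralValue
open Fermat.Agent.Cor.TwistValue

variable {N : ℕ} [NeZero N]

/-! ### The Hecke relation at the primes dividing the level -/

theorem UU_lam {f : CuspForm (Gamma0 N) 2} (hf : f.IsNormalizedEigenform) {l : ℕ} (hl : l.Prime)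
    (hlN : l ∣ N) : (pull ℂ).UU l (lam ⇑f) = fun r s ↦ qCoeff ⇑f l * lam ⇑f r s := by
  have h : ((⟨l, hl⟩ : Nat.Primes) : ℕ) ∣ N := hlN
  have h1 := coe_op_U h f
  rw [op, H22.heckeFormsGen_eigenform hf] at h1
  have h2 : (pull ℂ).UU l (lam ⇑f) = lam (sla.UU l ⇑f) := by
    rw [RA.UU, RA.UU, lam_sum _ fun b _ ↦ adm_act (adm_coe f) (mq_upper_mem hl.ne_zero b)]
    exact Finset.sum_congr rfl fun b _ ↦ lam_act (adm_coe f) (mq_upper_mem hl.ne_zero b)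
  rw [h2, ← h1]
  exact lam_smul _ (adm_coe f)

theorem LR_hecke_bad {f : CuspForm (Gamma0 N) 2} (hf : f.IsNormalizedEigenform) {l : ℕ}
    (hl : l.Prime) (hlN : l ∣ N) (r : ℚ) :
    qCoeff f l * LR f r 1 = ∑ b ∈ Finset.range l, LR f ((r + b) / l) 1 := by
  have hl0 : (l : ℚ) ≠ 0 := by exact_mod_cast hl.ne_zero
  have h1 := congrFun (congrFun (UU_lam hf hl hlN) (r : Cu)) OnePoint.infty
  have e1 : (pull ℂ).UU l (lam ⇑f) (r : Cu) OnePoint.infty =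
      ∑ b ∈ Finset.range l,
        lam ⇑f (gq 1 b 0 l • (r : Cu)) (gq 1 b 0 l • (OnePoint.infty : Cu)) := by
    simp only [RA.UU, Finset.sum_apply, pull_apply]
  have e4 : ∀ b : ℕ, gq 1 b 0 l • (r : Cu) = (((r + b) / l : ℚ) : Cu) := by
    intro b
    rw [← cv_one, gq_smul_cv (by simpa using hl0) (Or.inr one_ne_zero)]
    have h2 : (0 : ℚ) * r + l * 1 ≠ 0 := by simpa using hl0
    rw [cv_of_ne h2]
    congr 1
    ring
  have e5 : ∀ b : ℕ, gq 1 b 0 l • (OnePoint.infty : Cu) = OnePoint.infty := by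
    intro b
    rw [infty_eq, gq_smul_cv (by simpa using hl0) (Or.inl one_ne_zero)]
    simp [cv]
  rw [e1] at h1
  simp only [e4, e5] at h1
  simp only [LR_one]
  rw [← Finset.mul_sum, h1]
  ring

variable {f : CuspForm (Gamma0 N) 2} {Ωp Ωm : ℝ} {u v : ℚ → ℚ}

theorem IsCoords.hecke_bad (h : IsCoords f Ωp Ωm u v) (hf : f.IsNormalizedEigenform) {l : ℕ}
    (hl : l.Prime) (hlN : l ∣ N) {z : ℤ} (hz : qCoeff f l = z) (r : ℚ) :
    (z * u r = ∑ b ∈ Finset.range l, u ((r + b) / l)) ∧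
      z * v r = ∑ b ∈ Finset.range l, v ((r + b) / l) := by
  have h1 := LR_hecke_bad hf hl hlN r
  rw [hz] at h1
  simp only [h.eq] at h1
  have h2 : (((z * u r : ℚ) : ℝ) : ℂ) * Ωp + ((z * v r : ℚ) : ℝ) * Ωm * Complex.I =
      (((∑ b ∈ Finset.range l, u ((r + b) / l) : ℚ) : ℝ) : ℂ) * Ωp +
      ((∑ b ∈ Finset.range l, v ((r + b) / l) : ℚ) : ℝ) * Ωm * Complex.I := by
    rw [Finset.sum_add_distrib, ← Finset.sum_mul, ← Finset.sum_mul, ← Finset.sum_mul] at h1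
    push_cast
    linear_combination h1
  obtain ⟨h3, h4⟩ := coords_ext h.pos h.pos' h2
  exact ⟨by exact_mod_cast h3, by exact_mod_cast h4⟩

/-! ### The distribution at a prime of multiplicative reduction -/

section bad

variable {K : Type*} [Field K] [CharZero K]

/-- The distribution at a prime dividing the level once. -/
def mub (p : ℕ) (w : ℚ → ℚ) (α : K) (n : ℕ) (a : ℤ) : K := (w (a / p ^ (n + 1)) : K) / α ^ (n + 1)

variable {p : ℕ} {w : ℚ → ℚ} {z : ℤ}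

theorem mub_distribution (hp : p ≠ 0) (hT : ∀ r, z * w r = ∑ b ∈ Finset.range p, w ((r + b) / p))
    (hz : z ≠ 0) (n : ℕ) (a : ℤ) :
    ∑ b ∈ Finset.range p, mub p w (z : K) (n + 1) (a + b * p ^ (n + 1)) = mub p w (z : K) n a := by
  have hp' : (p : ℚ) ≠ 0 := by exact_mod_cast hp
  have hz' : (z : K) ≠ 0 := by exact_mod_cast hz
  set r : ℚ := a / p ^ (n + 1) with hr
  have h1 : ∀ b ∈ Finset.range p, mub p w (z : K) (n + 1) (a + b * p ^ (n + 1)) =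
      (w ((r + b) / p) : K) / (z : K) ^ (n + 2) := by
    intro b _
    have e1 : (((a + b * p ^ (n + 1) : ℤ) : ℚ)) / p ^ (n + 1 + 1) = (r + b) / p := by
      rw [hr]
      push_cast
      field_simp
      ring
    rw [mub, e1]
  rw [Finset.sum_congr rfl h1, ← Finset.sum_div, mub, ← hr]
  have h2 : ∑ b ∈ Finset.range p, (w ((r + b) / p) : K) = z * w r := by
    have h3 : ((z * w r : ℚ) : K) =
        ((∑ b ∈ Finset.range p, w ((r + b) / p) : ℚ) : K) := by rw [hT r]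
    push_cast at h3
    linear_combination -h3
  rw [h2]
  field_simp
  ring

theorem mub_mass_units (hp : p ≠ 0) (hT : ∀ r, z * w r = ∑ b ∈ Finset.range p, w ((r + b) / p))
    (hz : z ≠ 0) :
    ∑ b ∈ (Finset.range p).erase 0, mub p w (z : K) 0 b = (1 - 1 / (z : K)) * w 0 := by
  have hz' : (z : K) ≠ 0 := by exact_mod_cast hz
  have h1 : ∑ b ∈ Finset.range p, mub p w (z : K) 0 b = w 0 := by
    have h2 : ∀ b ∈ Finset.range p, mub p w (z : K) 0 b = (w ((0 + b) / p) : K) / (z : K) := by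
      intro b _
      rw [mub]
      simp
    rw [Finset.sum_congr rfl h2, ← Finset.sum_div]
    have h3 : ((z * w 0 : ℚ) : K) =
        ((∑ b ∈ Finset.range p, w ((0 + b) / p) : ℚ) : K) := by rw [hT 0]
    push_cast at h3
    rw [← h3]
    field_simp
  rw [← Finset.add_sum_erase _ _ (Finset.mem_range.mpr (Nat.pos_of_ne_zero hp))] at h1
  have h2 : mub p w (z : K) 0 ((0 : ℕ) : ℤ) = w 0 / z := by
    rw [mub]
    simp
  rw [h2] at h1
  have h3 : ∑ b ∈ (Finset.range p).erase 0, mub p w (z : K) 0 b = w 0 - w 0 / z := by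
    linear_combination h1
  rw [h3]
  ring

end bad

section padic

variable {p : ℕ} [Fact p.Prime]

/-- The linear form `L` is the integral with respect to the distribution `μ`. -/
def IsMeasureOf (L : C(ℤ_[p], ℚ_[p]) →L[ℚ_[p]] ℚ_[p]) (μ : ℕ → ℤ → ℚ_[p]) : Prop :=
  ∀ (n : ℕ) (g : C(ℤ_[p], ℚ_[p])),
    (∀ x y : ℤ_[p], dist x y ≤ (p : ℝ) ^ (-((n : ℤ) + 1)) → g x = g y) →
    L g = ∑ a ∈ Finset.range (p ^ (n + 1)), μ n a * g (a : ℤ_[p])

/-- The value at the characteristic function of the units. -/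
theorem IsMeasureOf.units {L : C(ℤ_[p], ℚ_[p]) →L[ℚ_[p]] ℚ_[p]} {μ : ℕ → ℤ → ℚ_[p]}
    (hL : IsMeasureOf L μ) {g : C(ℤ_[p], ℚ_[p])} (hg : ∀ x : ℤ_[p], g x = if ‖x‖ = 1 then 1 else 0) :
    L g = ∑ b ∈ (Finset.range p).erase 0, μ 0 b := by
  have hp : p.Prime := Fact.out
  have hg1 : ∀ x y : ℤ_[p], dist x y ≤ (p : ℝ) ^ (-(((0 : ℕ) : ℤ) + 1)) → g x = g y := by
    intro x y hxy
    have hp1 : (1 : ℝ) < p := by exact_mod_cast hp.one_lt
    have h1 : ‖x - y‖ < 1 := by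
      rw [← dist_eq_norm]
      refine hxy.trans_lt ?_
      rw [Nat.cast_zero, zero_add, zpow_neg_one]
      exact inv_lt_one_of_one_lt₀ hp1
    have key : ∀ x y : ℤ_[p], ‖x - y‖ < 1 → ‖x‖ = 1 → ‖y‖ = 1 := by
      intro x y h1 hx
      have h2 : ‖y - x‖ ≠ ‖x‖ := by rw [hx, norm_sub_rev]; exact h1.ne
      have h3 : y = (y - x) + x := by ring
      rw [h3, PadicInt.norm_add_eq_max_of_ne h2, hx]
      rw [norm_sub_rev] at h1
      exact max_eq_right h1.le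
    rw [hg, hg]
    have h2 : ‖x‖ = 1 ↔ ‖y‖ = 1 :=
      ⟨key x y h1, key y x (by rwa [norm_sub_rev])⟩
    simp only [h2]
  rw [hL 0 g hg1, zero_add, pow_one, ← Finset.add_sum_erase _ _ (Finset.mem_range.mpr hp.pos)]
  have h0 : g ((0 : ℕ) : ℤ_[p]) = 0 := by
    rw [hg, if_neg]
    simp
  rw [h0, mul_zero, zero_add]
  refine Finset.sum_congr rfl fun b hb ↦ ?_
  have hb1 : ‖((b : ℕ) : ℤ_[p])‖ = 1 := by
    rw [Finset.mem_erase, Finset.mem_range] at hb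
    refine le_antisymm (PadicInt.norm_le_one _) (not_lt.mp fun hlt ↦ ?_)
    have h1 : ‖((b : ℤ) : ℤ_[p])‖ < 1 := by exact_mod_cast hlt
    have h2 := (PadicInt.norm_int_lt_one_iff_dvd (b : ℤ)).mp h1
    have h3 : p ∣ b := by exact_mod_cast h2
    exact absurd (Nat.le_of_dvd (Nat.pos_of_ne_zero hb.1) h3) (not_le.mpr hb.2)
  rw [hg, if_pos hb1, mul_one]

theorem norm_mub_le {w : ℚ → ℚ} {D : ℕ} (hD : D ≠ 0) (hw : ∀ r, ∃ m : ℤ, D * w r = m) {z : ℤ}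
    (hz : z ^ 2 = 1) (n : ℕ) (a : ℤ) :
    ‖mub p w (z : ℚ_[p]) n a‖ ≤ ‖(D : ℚ_[p])‖⁻¹ := by
  have hz1 : ‖(z : ℚ_[p])‖ = 1 := by
    have h1 : (z : ℚ_[p]) ^ 2 = 1 := by exact_mod_cast hz
    have h2 : ‖(z : ℚ_[p])‖ ^ 2 = 1 := by rw [← norm_pow, h1, norm_one]
    nlinarith [norm_nonneg (z : ℚ_[p])]
  have hD' : (D : ℚ_[p]) ≠ 0 := by exact_mod_cast hD
  obtain ⟨m, hm⟩ := hw (a / p ^ (n + 1))
  have h2 : (D : ℚ_[p]) * (w (a / p ^ (n + 1)) : ℚ_[p]) = m := by exact_mod_cast hm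
  have h3 : ‖(D : ℚ_[p])‖ * ‖(w (a / p ^ (n + 1)) : ℚ_[p])‖ ≤ 1 := by
    rw [← norm_mul, h2]
    exact Padic.norm_int_le_one m
  rw [mub, norm_div, norm_pow, hz1, one_pow, div_one, ← one_div,
    le_div_iff₀ (norm_pos_iff.mpr hD')]
  linarith

end padic

/-- **The p-adic L-functions of a semistable elliptic curve.**  Let `W` be a semistable elliptic
curve over `ℚ`, `g` its newform, `u, v` the coordinates of the modular symbol of `g`, so
`L(W, 1) = u(0) Ωp`.  At a prime `p` of good ordinary reduction with unit root `α` the measures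
`Lp`, `Lm` with `μ(a + p^n) = w(a / p^n) α^(-n) - w(a / p^(n-1)) α^(-n-1)`, `w = u, v`, exist
and `Lp(1 on ℤ_pˣ) = (1 - 1/α)² u(0)`.  At a prime `p` of multiplicative reduction, `α = ±1`, the
measures `Lp`, `Lm` with `μ(a + p^n) = w(a / p^n) α^(-n)` exist and
`Lp(1 on ℤ_pˣ) = (1 - 1/α) u(0)`; this is zero if the reduction is split (exceptional zero). -/
theorem semistable_padic (W : WeierstrassCurve ℤ) (hΔ : W.Δ ≠ 0) (hW : W.IsSemistableModel) :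
    ∃ (g : CuspForm (Gamma0 W.conductorLevel) 2) (Ωp Ωm : ℝ) (u v : ℚ → ℚ), g.IsNewform ∧
      (∀ q : ℕ, q.Prime → ¬ (q : ℤ) ∣ W.Δ → qCoeff g q = (W.apOfModel q : ℂ)) ∧
      (∀ q : ℕ, q.Prime → (q : ℤ) ∣ W.Δ → qCoeff g q = (W.apOfModel q : ℂ) - 1) ∧
      IsCoords g Ωp Ωm u v ∧
      (∀ (p : ℕ) [Fact p.Prime], ¬ (p : ℤ) ∣ W.Δ → ¬ (p : ℤ) ∣ W.apOfModel p →
        ∃ α : ℤ_[p], IsUnit α ∧ α ^ 2 - (W.apOfModel p : ℤ_[p]) * α + p = 0 ∧
          ∃ Lp Lm : C(ℤ_[p], ℚ_[p]) →L[ℚ_[p]] ℚ_[p],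
            IsMeasureOf Lp (mu p u (α : ℚ_[p])) ∧ IsMeasureOf Lm (mu p v (α : ℚ_[p])) ∧
            ∀ φ : C(ℤ_[p], ℚ_[p]), (∀ x : ℤ_[p], φ x = if ‖x‖ = 1 then 1 else 0) →
              Lp φ = (1 - 1 / (α : ℚ_[p])) ^ 2 * u 0) ∧
      (∀ (p : ℕ) [Fact p.Prime], (p : ℤ) ∣ W.Δ →
        (W.apOfModel p - 1) ^ 2 = 1 ∧ ∃ Lp Lm : C(ℤ_[p], ℚ_[p]) →L[ℚ_[p]] ℚ_[p],
          IsMeasureOf Lp (mub p u ((W.apOfModel p - 1 : ℤ) : ℚ_[p])) ∧
          IsMeasureOf Lm (mub p v ((W.apOfModel p - 1 : ℤ) : ℚ_[p])) ∧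
          ∀ φ : C(ℤ_[p], ℚ_[p]), (∀ x : ℤ_[p], φ x = if ‖x‖ = 1 then 1 else 0) →
            Lp φ = (1 - 1 / ((W.apOfModel p - 1 : ℤ) : ℚ_[p])) * u 0 ∧
            (W.apOfModel p = 2 → Lp φ = 0)) := by
  have hN0 : W.conductorLevel ≠ 0 := W.conductorLevel_pos.ne'
  have : NeZero W.conductorLevel := ⟨hN0⟩
  obtain ⟨g, hg, h1, h2⟩ := Bad.exists_newform hΔ hW
  have hdvd : ∀ {q : ℕ}, q.Prime → (q ∣ W.conductorLevel ↔ (q : ℤ) ∣ W.Δ) := fun hq ↦
    W.prime_dvd_conductorLevel_iff hΔ hq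
  obtain ⟨Ωp, Ωm, u, v, h⟩ := exists_isCoords hg fun l hl hlN ↦
    ⟨_, h1 l hl fun hd ↦ hlN ((hdvd hl).mpr hd)⟩
  obtain ⟨D, hD, hD'⟩ := h.denom
  refine ⟨g, Ωp, Ωm, u, v, hg, h1, h2, h, ?_, ?_⟩
  · intro p _ hp hord
    have hpp : p.Prime := Fact.out
    have hpN : ¬ p ∣ W.conductorLevel := fun hd ↦ hp ((hdvd hpp).mp hd)
    obtain ⟨α, hα, hα2, Lp, Lm, e1, e2, e3, -⟩ := h.exists_padic hg.1 hpN (h1 p hpp hp) hord
    exact ⟨α, hα, hα2, Lp, Lm, e1, e2, e3⟩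
  · intro p _ hp
    have hpp : p.Prime := Fact.out
    have hpN : p ∣ W.conductorLevel := (hdvd hpp).mpr hp
    have hz : qCoeff g p = ((W.apOfModel p - 1 : ℤ) : ℂ) := by
      rw [h2 p hpp hp]
      push_cast
      ring
    have hsq : (W.apOfModel p - 1) ^ 2 = 1 := by
      have h4 : ¬ p ^ 2 ∣ W.conductorLevel := fun hd ↦ by
        have := W.squarefree_conductorLevel p (by rwa [← pow_two])
        exact hpp.one_lt.ne' (Nat.isUnit_iff.mp this)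
      have h5 := (RootNumber.newformBadPrimeCoeff' hN0 g hg p hpp hpN).1 h4
      rw [hz] at h5
      exact_mod_cast h5
    have hz0 : W.apOfModel p - 1 ≠ 0 := fun h0 ↦ by
      rw [h0] at hsq
      norm_num at hsq
    have hTu := fun r ↦ (h.hecke_bad hg.1 hpp hpN hz r).1
    have hTv := fun r ↦ (h.hecke_bad hg.1 hpp hpN hz r).2
    obtain ⟨Lp, -, -, hLp⟩ := exists_measure
      (μ := mub p u ((W.apOfModel p - 1 : ℤ) : ℚ_[p]))
      (mub_distribution hpp.ne_zero hTu hz0) (norm_mub_le hD (fun r ↦ (hD' r).1) hsq)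
    obtain ⟨Lm, -, -, hLm⟩ := exists_measure
      (μ := mub p v ((W.apOfModel p - 1 : ℤ) : ℚ_[p]))
      (mub_distribution hpp.ne_zero hTv hz0) (norm_mub_le hD (fun r ↦ (hD' r).2) hsq)
    refine ⟨hsq, Lp, Lm, hLp, hLm, fun φ hφ ↦ ?_⟩
    have h6 : Lp φ = (1 - 1 / ((W.apOfModel p - 1 : ℤ) : ℚ_[p])) * u 0 := by
      rw [IsMeasureOf.units hLp hφ, mub_mass_units hpp.ne_zero hTu hz0]
    refine ⟨h6, fun h7 ↦ ?_⟩
    rw [h6, h7]
    norm_num

/-- **An exceptional zero**: for the elliptic curves of conductor `11` we have `L(W, 1) ≠ 0`, but the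
`11`-adic L-function vanishes at the trivial character. -/
theorem exceptional_zero_eleven (W : WeierstrassCurve ℤ) (hΔ : W.Δ ≠ 0) (hW : W.IsSemistableModel)
    (h11 : W.conductorLevel = 11) [Fact (Nat.Prime 11)] :
    ∃ (g : CuspForm (Gamma0 W.conductorLevel) 2) (Ωp Ωm : ℝ) (u v : ℚ → ℚ), g.IsNewform ∧
      (∀ q : ℕ, q.Prime → ¬ (q : ℤ) ∣ W.Δ → qCoeff g q = (W.apOfModel q : ℂ)) ∧
      IsCoords g Ωp Ωm u v ∧ LFun.LF g 1 ≠ 0 ∧ u 0 ≠ 0 ∧
      ∃ Lp : C(ℤ_[11], ℚ_[11]) →L[ℚ_[11]] ℚ_[11], IsMeasureOf Lp (mub 11 u 1) ∧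
        ∀ φ : C(ℤ_[11], ℚ_[11]), (∀ x : ℤ_[11], φ x = if ‖x‖ = 1 then 1 else 0) → Lp φ = 0 := by
  have : NeZero W.conductorLevel := ⟨W.conductorLevel_pos.ne'⟩
  obtain ⟨g, Ωp, Ωm, u, v, hg, h1, -, h, -, h3⟩ := semistable_padic W hΔ hW
  have hc := conj_qCoeff hg fun l hl hlN ↦
    ⟨_, h1 l hl fun hd ↦ hlN ((W.prime_dvd_conductorLevel_iff hΔ hl).mpr hd)⟩
  have hL : LFun.LF g 1 ≠ 0 := CentralEleven.LF_one_ne_zero hc
    (CentralEleven.ne_zero_of_level_eq h11 g hg.1.ne_zero)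
  have hu : u 0 ≠ 0 := by
    intro h0
    rw [h.zero.1, h0] at hL
    simp at hL
  have hd : ((11 : ℕ) : ℤ) ∣ W.Δ :=
    (W.prime_dvd_conductorLevel_iff hΔ (by norm_num : Nat.Prime 11)).mp (by rw [h11])
  obtain ⟨-, Lp, -, h4, -, h5⟩ := h3 11 hd
  have ha := Bad.ap_eleven hΔ hW h11
  refine ⟨g, Ωp, Ωm, u, v, hg, h1, h, hL, hu, Lp, ?_, fun φ hφ ↦ (h5 φ hφ).2 ha⟩
  rw [ha] at h4
  simpa using h4

end Fermat.Agent.Cor.MSD
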