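import Mathlib
import Fermat.Agent.Cor.CuspDenom
import Fermat.Agent.Cor.MSDCurve
import Fermat.Agent.Cor.FrobTraces
import Fermat.Agent.Cor.H25Dir1

/-!
# Integrality of modular symbols and of the p-adic L-function (corollary file, not used for S01)

Let `W` be a semistable elliptic curve over `ℚ` and `p ≥ 5` a prime such that `W[p]` is irreducible
(for example `p ≥ 11`, `p ≠ 13`).  Then for every `N` there are primes `ℓ ≡ 1 (mod N)` with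
`p ∤ #W(𝔽_ℓ)`, so the coordinates `u(r)`, `v(r)` of the modular symbol of `W` are `p`-integral for
all `r ∈ ℚ`, and the p-adic L-functions of `W` are integral.
-/

set_option autoImplicit false
set_option linter.style.haveILetI false

noncomputable section

open CongruenceSubgroup ModularFormClass

namespace Fermat.Agent.Cor.CuspInt

open WeierstrassCurve Fermat.Agent.H12.LL Fermat.Agent.Ell Fermat.Agent.Cor.Surj
open Fermat.Agent.Cor.FrobTraces Matrix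
open Fermat.Agent.Cor.MSD Fermat.Agent.Cor.TwistValue Fermat.Agent.Cor.CentralValue
open Fermat.Agent.Cor.CuspDenom

local notation "Qb" => AlgebraicClosure ℚ
local notation "Γq" => AlgebraicClosure ℚ ≃ₐ[ℚ] AlgebraicClosure ℚ

variable {W : WeierstrassCurve ℤ}

/-- Primes `ℓ ≡ 1 (mod N)` with `p ∤ #W(𝔽_ℓ)`. -/
theorem exists_prime (hΔ : W.Δ ≠ 0) (hss : W.IsSemistableModel) {p : ℕ} (hp : p.Prime)
    (hp5 : 5 ≤ p) (hirr : W.ModRepIsIrreducible p) {N : ℕ} (hN : N ≠ 0) :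
    ∃ ℓ : ℕ, ℓ.Prime ∧ ¬ (ℓ : ℤ) ∣ W.Δ ∧ (N : ℤ) ∣ ℓ - 1 ∧
      ¬ (p : ℤ) ∣ ℓ + 1 - W.apOfModel ℓ := by
  classical
  haveI := isElliptic_WQ hΔ
  haveI : Fact p.Prime := ⟨hp⟩
  haveI : NeZero N := ⟨hN⟩
  have hS : ∀ q ∈ ({p} : Set ℕ), q.Prime ∧ 5 ≤ q ∧ W.ModRepIsIrreducible q := by
    rintro q rfl
    exact ⟨hp, hp5, hirr⟩
  obtain ⟨σA, hA⟩ := exists_matZ_eq_adelic hΔ hss {p} hS (fun q _ => !![1, 1; 0, 1])
    (fun q _ _ => by rw [det_fin_two_of]; simp)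
  obtain ⟨σB, hB⟩ := exists_matZ_eq_adelic hΔ hss {p} hS (fun q _ => !![1, 0; 1, 1])
    (fun q _ _ => by rw [det_fin_two_of]; simp)
  have hA' := hA p rfl
  have hB' := hB p rfl
  set σ : Γq := σA * σB * σA⁻¹ * σB⁻¹ with hσ
  have hσm : matZ p hΔ σ = !![3, -1; 1, 0] := by
    have h1 : matZ p hΔ σ * (matZ p hΔ σB * matZ p hΔ σA) = matZ p hΔ σA * matZ p hΔ σB := by
      rw [← map_mul, ← map_mul, ← map_mul, hσ]
      congr 1
      group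
    rw [hA', hB'] at h1
    have h2 : (!![1, 0; 1, 1] * !![1, 1; 0, 1] : Matrix (Fin 2) (Fin 2) ℤ_[p]) *
        !![2, -1; -1, 1] = 1 := by
      ext i j
      fin_cases i <;> fin_cases j <;> simp [Matrix.mul_apply, Fin.sum_univ_two] <;> norm_num
    calc matZ p hΔ σ = matZ p hΔ σ * ((!![1, 0; 1, 1] * !![1, 1; 0, 1] :
          Matrix (Fin 2) (Fin 2) ℤ_[p]) * !![2, -1; -1, 1]) := by rw [h2, mul_one]
      _ = (!![1, 1; 0, 1] * !![1, 0; 1, 1] : Matrix (Fin 2) (Fin 2) ℤ_[p]) *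
          !![2, -1; -1, 1] := by rw [← mul_assoc, h1]
      _ = !![3, -1; 1, 0] := by
        ext i j
        fin_cases i <;> fin_cases j <;> simp [Matrix.mul_apply, Fin.sum_univ_two] <;> norm_num
  obtain ⟨ζ, hζ⟩ : ∃ ζ : Qb, IsPrimitiveRoot ζ N := by
    haveI : NeZero ((N : ℕ) : Qb) := ⟨by exact_mod_cast hN⟩
    exact HasEnoughRootsOfUnity.exists_primitiveRoot Qb N
  have hσζ : σ ζ = ζ := by
    have h1 : DS.cyc N σ = DS.cyc N (1 : Γq) := by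
      rw [hσ]
      simp only [map_mul, map_inv, map_one]
      rw [mul_comm (DS.cyc N σA) (DS.cyc N σB)]
      group
    have h2 := H25Dir.fix_of_cyc_eq h1 hζ.pow_eq_one
    simpa using h2
  obtain ⟨L, hLfin, hL⟩ := exists_level (p := p) hΔ 1
  haveI : FiniteDimensional ℚ (IntermediateField.adjoin ℚ ({ζ} : Set Qb)) :=
    IntermediateField.adjoin.finiteDimensional (Algebra.IsIntegral.isIntegral ζ)
  let U : Subgroup Γq := L.fixingSubgroup ⊓ (IntermediateField.adjoin ℚ ({ζ} : Set Qb)).fixingSubgroup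
  have hU : IsOpen (U : Set Γq) := by
    rw [Subgroup.coe_inf]
    exact (IntermediateField.fixingSubgroup_isOpen L).inter
      (IntermediateField.fixingSubgroup_isOpen _)
  have hbad : (({ℓ : ℕ | (ℓ : ℤ) ∣ W.Δ}) ∪ (N.primeFactors ∪ {p} : Set ℕ)).Finite := by
    refine Set.Finite.union ?_ ((Finset.finite_toSet _).union (Set.finite_singleton p))
    refine (Finset.finite_toSet (W.Δ.natAbs.divisors)).subset fun ℓ hℓ => ?_
    rw [Finset.mem_coe, Nat.mem_divisors]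
    exact ⟨Int.natCast_dvd.mp hℓ, Int.natAbs_ne_zero.mpr hΔ⟩
  obtain ⟨ℓ, ⟨hℓ, V, φ, hV, hφ, h⟩, hℓbad⟩ :=
    ((Cheb.infinite_frobenius_dense hU σ).sdiff hbad).nonempty
  rw [Set.mem_union, Set.mem_union, not_or, not_or] at hℓbad
  obtain ⟨hℓΔ, hℓN, hℓp⟩ := hℓbad
  have hℓΔ' : ¬ (ℓ : ℤ) ∣ W.Δ := hℓΔ
  have hgood : W.IsGoodPrimeFor ℓ := hℓΔ'
  have hℓN' : ¬ ℓ ∣ N := fun hd => hℓN (Nat.mem_primeFactors.mpr ⟨hℓ, hd, hN⟩)
  have hℓp' : ℓ ≠ p := hℓp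
  have hfix : ∀ {K : IntermediateField ℚ Qb}, σ⁻¹ * φ ∈ K.fixingSubgroup → ∀ x ∈ K, φ x = σ x := by
    intro K hK x hx
    have h2 : (σ⁻¹ * φ) x = x := (IntermediateField.mem_fixingSubgroup_iff _ _).mp hK x hx
    have h3 := congrArg σ h2
    rw [← AlgEquiv.mul_apply, mul_inv_cancel_left] at h3
    exact h3
  have hφζ : φ ζ = ζ := by
    rw [hfix (Subgroup.mem_inf.mp h).2 ζ (IntermediateField.mem_adjoin_simple_self ℚ ζ), hσζ]
  have h1 : (N : ℤ) ∣ (ℓ : ℤ) - 1 := by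
    have h2 : ζ ^ ℓ = ζ ^ 1 := by
      rw [pow_one, ← H05.IsFrobeniusAt.apply_rootOfUnity hℓ hV hℓN' hφ hζ.pow_eq_one, hφζ]
    exact_mod_cast H05.dvd_of_pow_eq hN hζ h2
  have hcong : Cong 1 (matZ p hΔ φ) (matZ p hΔ σ) :=
    hL φ σ fun x hx => hfix (Subgroup.mem_inf.mp h).1 x hx
  have h2 := trace_congr hcong
  have h3 := det_congr hcong
  rw [hσm, trace_fin_two_of, matZ_apply, trace_mtx] at h2
  rw [hσm, det_fin_two_of, matZ_apply, det_mtx] at h3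
  have h4 : LinearMap.trace ℤ_[p] (TT (WQ W) p) (rr (WQ W) p φ) = (W.apOfModel ℓ : ℤ_[p]) :=
    zRep_trace_frob hΔ hirr hℓ hgood hℓp' hV hφ
  have h5 : LinearMap.det (rr (WQ W) p φ) = (ℓ : ℤ_[p]) :=
    zRep_det_frob hΔ hirr hℓ hℓp' hV hφ
  rw [h4] at h2
  rw [h5] at h3
  refine ⟨ℓ, hℓ, hℓΔ', h1, fun h6 => ?_⟩
  have e2 : ((p ^ 1 : ℕ) : ℤ) ∣ W.apOfModel ℓ - 3 := by
    apply int_dvd_of_padic
    push_cast
    convert h2 using 1
    ring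
  have e3 : ((p ^ 1 : ℕ) : ℤ) ∣ (ℓ : ℤ) - 1 := by
    apply int_dvd_of_padic
    push_cast
    convert h3 using 1
    ring
  rw [pow_one] at e2 e3
  have e4 : (p : ℤ) ∣ 1 := by
    have h7 : (1 : ℤ) = (ℓ - 1) - (W.apOfModel ℓ - 3) - (ℓ + 1 - W.apOfModel ℓ) := by ring
    rw [h7]
    exact dvd_sub (dvd_sub e3 e2) h6
  exact hp.one_lt.ne' (by exact_mod_cast Int.eq_one_of_dvd_one (by positivity) e4)

/-- A rational number with `c x ∈ ℤ`, `p ∤ c`, is `p`-integral. -/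
theorem not_dvd_den {p : ℕ} {c : ℤ} (hc : ¬ (p : ℤ) ∣ c) {x : ℚ} (h : ∃ k : ℤ, (c : ℚ) * x = k) :
    ¬ p ∣ x.den := by
  intro hd
  obtain ⟨k, hk⟩ := h
  apply hc
  have h1 : c * x.num = k * x.den := by
    have h2 := Rat.num_div_den x
    have h3 : (x.den : ℚ) ≠ 0 := by exact_mod_cast x.den_nz
    have h4 : (c : ℚ) * x.num = k * x.den := by
      rw [← hk]
      nth_rw 2 [← h2]
      field_simp
    exact_mod_cast h4
  have h2 : (x.den : ℤ) ∣ c * x.num := ⟨k, by rw [h1]; ring⟩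
  have h3 : IsCoprime (x.den : ℤ) x.num := by
    rw [Int.isCoprime_iff_gcd_eq_one, Int.gcd_comm]
    exact x.reduced
  exact (Int.natCast_dvd_natCast.mpr hd).trans (h3.dvd_of_dvd_mul_right h2)

theorem norm_le_one_of_den {p : ℕ} [hp : Fact p.Prime] {x : ℚ} (h : ¬ p ∣ x.den) :
    ‖(x : ℚ_[p])‖ ≤ 1 := Padic.norm_rat_le_one h

/-- **Integrality of the modular symbols** of a semistable elliptic curve at the primes `p ≥ 5`
with `W[p]` irreducible. -/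
theorem symbols_integral (hΔ : W.Δ ≠ 0) (hss : W.IsSemistableModel)
    {g : CuspForm (Gamma0 W.conductorLevel) 2} (hg : g.IsNewform)
    (hgW : ∀ q : ℕ, q.Prime → ¬ (q : ℤ) ∣ W.Δ → qCoeff g q = (W.apOfModel q : ℂ))
    {Ωp Ωm : ℝ} {u v : ℚ → ℚ} (h : IsCoords g Ωp Ωm u v) {p : ℕ} (hp : p.Prime) (hp5 : 5 ≤ p)
    (hirr : W.ModRepIsIrreducible p) (r : ℚ) : ¬ p ∣ (u r).den ∧ ¬ p ∣ (v r).den := by
  haveI : NeZero W.conductorLevel := ⟨W.conductorLevel_pos.ne'⟩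
  obtain ⟨ℓ, hℓ, hℓΔ, h1, h2⟩ := exists_prime hΔ hss hp hp5 hirr W.conductorLevel_pos.ne'
  obtain ⟨h3, h4⟩ := two_mul_coords h hg (fun l hl hlN ↦ ⟨_, hgW l hl fun hd ↦
    hlN ((W.prime_dvd_conductorLevel_iff hΔ hl).mpr hd)⟩) hℓ h1 (hgW ℓ hℓ hℓΔ) r
  have h5 : ¬ (p : ℤ) ∣ 2 * (ℓ + 1 - W.apOfModel ℓ) := by
    intro hd
    rcases (Nat.prime_iff_prime_int.mp hp).dvd_or_dvd hd with h6 | h6
    · have h7 := Int.le_of_dvd (by norm_num) h6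
      omega
    · exact h2 h6
  exact ⟨not_dvd_den h5 (by push_cast; exact h3), not_dvd_den h5 (by push_cast; exact h4)⟩

/-- **Integrality of the p-adic L-functions** of a semistable elliptic curve at a prime `p ≥ 5` of
good ordinary reduction with `W[p]` irreducible: `‖Lp φ‖ ≤ ‖φ‖` for all `φ ∈ C(ℤ_p, ℚ_p)`. -/
theorem padic_integral (W : WeierstrassCurve ℤ) (hΔ : W.Δ ≠ 0) (hW : W.IsSemistableModel) :
    ∃ (g : CuspForm (Gamma0 W.conductorLevel) 2) (Ωp Ωm : ℝ) (u v : ℚ → ℚ), g.IsNewform ∧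
      (∀ q : ℕ, q.Prime → ¬ (q : ℤ) ∣ W.Δ → qCoeff g q = (W.apOfModel q : ℂ)) ∧
      IsCoords g Ωp Ωm u v ∧
      (∀ p : ℕ, p.Prime → 5 ≤ p → W.ModRepIsIrreducible p →
        ∀ r, ¬ p ∣ (u r).den ∧ ¬ p ∣ (v r).den) ∧
      (∀ p : ℕ, p.Prime → 11 ≤ p → p ≠ 13 → ∀ r, ¬ p ∣ (u r).den ∧ ¬ p ∣ (v r).den) ∧
      ∀ (p : ℕ) [Fact p.Prime], 5 ≤ p → W.ModRepIsIrreducible p → ¬ (p : ℤ) ∣ W.Δ →
        ¬ (p : ℤ) ∣ W.apOfModel p →
        ∃ α : ℤ_[p], IsUnit α ∧ α ^ 2 - (W.apOfModel p : ℤ_[p]) * α + p = 0 ∧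
          ∃ Lp Lm : C(ℤ_[p], ℚ_[p]) →L[ℚ_[p]] ℚ_[p],
            IsMeasureOf Lp (mu p u (α : ℚ_[p])) ∧ IsMeasureOf Lm (mu p v (α : ℚ_[p])) ∧
            (∀ φ, ‖Lp φ‖ ≤ ‖φ‖) ∧ ∀ φ, ‖Lm φ‖ ≤ ‖φ‖ := by
  haveI : NeZero W.conductorLevel := ⟨W.conductorLevel_pos.ne'⟩
  obtain ⟨g, hg, hgW, -⟩ := Bad.exists_newform hΔ hW
  obtain ⟨Ωp, Ωm, u, v, h⟩ := exists_isCoords hg fun l hl hlN ↦
    ⟨_, hgW l hl fun hd ↦ hlN ((W.prime_dvd_conductorLevel_iff hΔ hl).mpr hd)⟩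
  refine ⟨g, Ωp, Ωm, u, v, hg, hgW, h,
    fun p hp hp5 hirr r ↦ symbols_integral hΔ hW hg hgW h hp hp5 hirr r,
    fun p hp hp11 hp13 r ↦ symbols_integral hΔ hW hg hgW h hp (by omega)
      (Mazur.modRep_irreducible hΔ hW hp hp11 hp13) r, ?_⟩
  intro p _ hp5 hirr hpΔ hord
  have hp : p.Prime := Fact.out
  have hpN : ¬ p ∣ W.conductorLevel := fun hd ↦
    hpΔ ((W.prime_dvd_conductorLevel_iff hΔ hp).mp hd)
  obtain ⟨α, hα, hα2⟩ := exists_unit_root (p := p) hord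
  have hα1 : ‖(α : ℚ_[p])‖ = 1 := PadicInt.isUnit_iff.mp hα
  have hα0 : (α : ℚ_[p]) ≠ 0 := by
    intro h0
    rw [h0, norm_zero] at hα1
    exact zero_ne_one hα1
  have hα2' : (α : ℚ_[p]) ^ 2 - (W.apOfModel p : ℤ) * (α : ℚ_[p]) + p = 0 := by
    have := congrArg (fun x : ℤ_[p] ↦ (x : ℚ_[p])) hα2
    simpa using this
  have hint := fun r ↦ symbols_integral hΔ hW hg hgW h hp hp5 hirr r
  have hbound : ∀ w : ℚ → ℚ, (∀ r, ¬ p ∣ (w r).den) → ∀ (n : ℕ) (a : ℤ),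
      ‖mu p w (α : ℚ_[p]) n a‖ ≤ 1 := by
    intro w hw n a
    rw [mu, sub_eq_add_neg]
    refine (IsUltrametricDist.norm_add_le_max _ _).trans (max_le ?_ ?_)
    · rw [norm_div, norm_pow, hα1, one_pow, div_one]
      exact norm_le_one_of_den (hw _)
    · rw [norm_neg, norm_div, norm_pow, hα1, one_pow, div_one]
      exact norm_le_one_of_den (hw _)
  obtain ⟨Lp, hLp1, -, hLp⟩ := exists_measure (C := 1) (μ := mu p u (α : ℚ_[p]))
    (mu_distribution hp.ne_zero h.u_add_one (fun r ↦ (h.hecke hg.1 hp hpN (hgW p hp hpΔ) r).1)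
      hα0 hα2') (hbound u fun r ↦ (hint r).1)
  obtain ⟨Lm, hLm1, -, hLm⟩ := exists_measure (C := 1) (μ := mu p v (α : ℚ_[p]))
    (mu_distribution hp.ne_zero h.v_add_one (fun r ↦ (h.hecke hg.1 hp hpN (hgW p hp hpΔ) r).2)
      hα0 hα2') (hbound v fun r ↦ (hint r).2)
  exact ⟨α, hα, hα2, Lp, Lm, hLp, hLm, fun φ ↦ by simpa using hLp1 φ,
    fun φ ↦ by simpa using hLm1 φ⟩

end Fermat.Agent.Cor.CuspInt
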