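import Fermat.Agent.MainConductor

/-!
# Semistable elliptic curves of conductor 11, 14, 15, 17, 19, 21

These are the squarefree levels `N` such that `S₂(Γ₀(N))` has dimension one. By the modularity of semistable elliptic
curves, two semistable curves with the same conductor `N` in this list have the same number of points modulo every
prime `ℓ` not dividing `N` (`ap_eq_of_conductorLevel_eq`). Comparing with explicit curves of conductor `N` having rational torsion
points we get divisibilities: for example, `5` divides `#W(𝔽_ℓ)` for every elliptic curve `W` of conductor `11` and every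
prime `ℓ ≠ 11`.

This file is not used by any of the statement files.
-/

set_option autoImplicit false

namespace Fermat.Agent.Cor.GenusOne

open ModularCurve ModularFormClass CongruenceSubgroup WeierstrassCurve
open Fermat.Agent.Main

/-! ### Levels of genus one -/

lemma genus_eq_one {N a b c d : ℕ} [NeZero N] (ha : dedekindPsi N = a)
    (hb : (Finset.univ.filter fun x : ZMod N => x ^ 2 + 1 = 0).card = b)
    (hc : (Finset.univ.filter fun x : ZMod N => x ^ 2 + x + 1 = 0).card = c)
    (hd : cuspCount N = d) (h : (1 : ℚ) + a / 12 - b / 4 - c / 3 - d / 2 = 1) :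
    genusFormula N = 1 := by
  rw [genusFormula, nuTwo_eq, nuThree_eq, ha, hb, hc, hd, h]

theorem genus_eleven : genusFormula 11 = 1 :=
  genus_eq_one (a := 12) (b := 0) (c := 0) (d := 2) (by decide +kernel) (by decide) (by decide)
    (by decide +kernel) (by norm_num)

theorem genus_fourteen : genusFormula 14 = 1 :=
  genus_eq_one (a := 24) (b := 0) (c := 0) (d := 4) (by decide +kernel) (by decide) (by decide)
    (by decide +kernel) (by norm_num)

theorem genus_fifteen : genusFormula 15 = 1 :=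
  genus_eq_one (a := 24) (b := 0) (c := 0) (d := 4) (by decide +kernel) (by decide) (by decide)
    (by decide +kernel) (by norm_num)

theorem genus_seventeen : genusFormula 17 = 1 :=
  genus_eq_one (a := 18) (b := 2) (c := 0) (d := 2) (by decide +kernel) (by decide) (by decide)
    (by decide +kernel) (by norm_num)

theorem genus_nineteen : genusFormula 19 = 1 :=
  genus_eq_one (a := 20) (b := 0) (c := 2) (d := 2) (by decide +kernel) (by decide) (by decide)
    (by decide +kernel) (by norm_num)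

theorem genus_twentyone : genusFormula 21 = 1 :=
  genus_eq_one (a := 32) (b := 0) (c := 2) (d := 4) (by decide +kernel) (by decide) (by decide)
    (by decide +kernel) (by norm_num)

/-- at a level of genus one there is only one normalised eigenform -/
theorem eigenform_unique {N : ℕ} [NeZero N] (h : genusFormula N = 1)
    {f g : CuspForm (Gamma0 N) 2} (hf : f.IsNormalizedEigenform) (hg : g.IsNormalizedEigenform) :
    f = g := by
  have hr : Module.finrank ℂ (CuspForm (Gamma0 N) 2) = 1 := by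
    exact_mod_cast (Fermat.Agent.S20.result N).trans h
  have hg0 : g ≠ 0 := by
    rintro rfl
    have h1 := hg.qCoeff_one
    have h2 := Fermat.Agent.H22.cusp_qCoeff_smul (2 : ℂ) (0 : CuspForm (Gamma0 N) 2) 1
    rw [smul_zero, h1] at h2
    norm_num at h2
  obtain ⟨c, hc⟩ := (finrank_eq_one_iff_of_nonzero' g hg0).mp hr f
  have h1 := Fermat.Agent.H22.cusp_qCoeff_smul c g 1
  rw [hc, hf.qCoeff_one, hg.qCoeff_one, mul_one] at h1
  rw [← hc, ← h1, one_smul]

/-! ### Uniqueness of the traces of Frobenius -/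

/-- the conductor of a semistable curve is the product of the bad primes -/
theorem conductorLevel_eq (W : WeierstrassCurve ℤ) (hΔ : W.Δ ≠ 0) :
    W.conductorLevel = ∏ q ∈ W.Δ.natAbs.primeFactors, q := by
  rw [← Nat.prod_primeFactors_of_squarefree W.squarefree_conductorLevel]
  congr 1
  ext q
  rw [Nat.mem_primeFactors_of_ne_zero W.conductorLevel_pos.ne',
    Nat.mem_primeFactors_of_ne_zero (by simpa using hΔ)]
  constructor
  · rintro ⟨hq, h⟩
    exact ⟨hq, Int.natCast_dvd.mp ((W.prime_dvd_conductorLevel_iff hΔ hq).mp h)⟩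
  · rintro ⟨hq, h⟩
    exact ⟨hq, (W.prime_dvd_conductorLevel_iff hΔ hq).mpr (Int.natCast_dvd.mpr h)⟩

/-- modularity of level the conductor -/
theorem modular_conductorLevel (W : WeierstrassCurve ℤ) (hΔ : W.Δ ≠ 0) (hW : W.IsSemistableModel) :
    ∃ f : CuspForm (Gamma0 W.conductorLevel) 2, f.IsNormalizedEigenform ∧
      ∀ ℓ : ℕ, ℓ.Prime → ¬ ℓ ∣ W.conductorLevel → qCoeff f ℓ = (W.apOfModel ℓ : ℂ) := by
  obtain ⟨N, hN, hsq, hsupp, f, hf, hfW⟩ := modular_of_semistable W hΔ hW
  have hc : N = W.conductorLevel := by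
    rw [← Nat.prod_primeFactors_of_squarefree hsq,
      ← Nat.prod_primeFactors_of_squarefree W.squarefree_conductorLevel]
    congr 1
    ext q
    rw [Nat.mem_primeFactors_of_ne_zero hN.ne',
      Nat.mem_primeFactors_of_ne_zero W.conductorLevel_pos.ne']
    exact and_congr_right fun hq => (hsupp q hq).trans (W.prime_dvd_conductorLevel_iff hΔ hq).symm
  subst hc
  exact ⟨f, hf, fun ℓ hℓ h => hfW ℓ hℓ fun h1 => h ((hsupp ℓ hℓ).mpr h1)⟩

theorem genus_of_mem {N : ℕ} (hN : N ∈ ({11, 14, 15, 17, 19, 21} : Finset ℕ)) :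
    genusFormula N = 1 := by
  simp only [Finset.mem_insert, Finset.mem_singleton] at hN
  rcases hN with rfl | rfl | rfl | rfl | rfl | rfl
  · exact genus_eleven
  · exact genus_fourteen
  · exact genus_fifteen
  · exact genus_seventeen
  · exact genus_nineteen
  · exact genus_twentyone

/-- **Uniqueness.** Two semistable curves with the same conductor `N ∈ {11, 14, 15, 17, 19, 21}` have the same trace of
Frobenius at all primes not dividing `N`. -/
theorem ap_eq_of_conductorLevel_eq (W W' : WeierstrassCurve ℤ) (hΔ : W.Δ ≠ 0) (hΔ' : W'.Δ ≠ 0)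
    (hW : W.IsSemistableModel) (hW' : W'.IsSemistableModel)
    (h : W.conductorLevel = W'.conductorLevel)
    (hN : W.conductorLevel ∈ ({11, 14, 15, 17, 19, 21} : Finset ℕ)) (ℓ : ℕ) (hℓ : ℓ.Prime)
    (hg : ¬ ℓ ∣ W.conductorLevel) : W.apOfModel ℓ = W'.apOfModel ℓ := by
  obtain ⟨f, hf, hfW⟩ := modular_conductorLevel W hΔ hW
  obtain ⟨f', hf', hfW'⟩ := modular_conductorLevel W' hΔ' hW'
  have h2 := hfW ℓ hℓ hg
  have h2' := hfW' ℓ hℓ (by rw [← h]; exact hg)
  clear hfW hfW'
  have key : ∀ (M : ℕ) (hM : W.conductorLevel = M) (g : CuspForm (Gamma0 M) 2),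
      g.IsNormalizedEigenform → qCoeff g ℓ = qCoeff f ℓ := by
    rintro M rfl g hg
    rw [eigenform_unique (genus_of_mem hN) hg hf]
  have h3 := key W'.conductorLevel h f' hf'
  rw [h2, h2'] at h3
  exact_mod_cast h3.symm

/-- the number of points -/
theorem card_eq_of_conductorLevel_eq (W W' : WeierstrassCurve ℤ) (hΔ : W.Δ ≠ 0) (hΔ' : W'.Δ ≠ 0)
    (hW : W.IsSemistableModel) (hW' : W'.IsSemistableModel)
    (h : W.conductorLevel = W'.conductorLevel)
    (hN : W.conductorLevel ∈ ({11, 14, 15, 17, 19, 21} : Finset ℕ)) (ℓ : ℕ) (hℓ : ℓ.Prime)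
    (hg : ¬ ℓ ∣ W.conductorLevel) : (W.reductionMod ℓ).card = (W'.reductionMod ℓ).card := by
  have h1 := ap_eq_of_conductorLevel_eq W W' hΔ hΔ' hW hW' h hN ℓ hℓ hg
  simp only [apOfModel, traceOfFrobenius] at h1
  omega

/-! ### Addition of points -/

section Points

variable {F : Type} [Field F] [DecidableEq F] {V : Affine F}

/-- doubling, with explicit slope -/
theorem add_self_eq {x y x' y' : F} (h : V.Nonsingular x y) (h' : V.Nonsingular x' y') (s : F)
    (hne : 2 * y + V.a₁ * x + V.a₃ ≠ 0)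
    (hs : s * (2 * y + V.a₁ * x + V.a₃) = 3 * x ^ 2 + 2 * V.a₂ * x + V.a₄ - V.a₁ * y)
    (hx : x' = s ^ 2 + V.a₁ * s - V.a₂ - 2 * x)
    (hy : y' = -(s * (x' - x) + y) - V.a₁ * x' - V.a₃) :
    Affine.Point.some x y h + Affine.Point.some x y h = Affine.Point.some x' y' h' := by
  have hY : y ≠ V.negY x y := by
    intro h0
    apply hne
    rw [Affine.negY] at h0
    linear_combination h0
  have hsl : V.slope x x y y = s := by
    rw [Affine.slope_of_Y_ne rfl hY, div_eq_iff (sub_ne_zero.mpr hY), Affine.negY]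
    linear_combination -hs
  rw [Affine.Point.add_self_of_Y_ne hY]
  simp only [hsl, Affine.Point.some.injEq]
  have h1 : V.addX x x s = x' := by
    rw [Affine.addX, hx]
    ring
  refine ⟨h1, ?_⟩
  rw [Affine.addY, Affine.negY, Affine.negAddY, h1, hy]

/-- addition of points with different abscissas, with explicit slope -/
theorem add_eq {x₁ y₁ x₂ y₂ x' y' : F} (h₁ : V.Nonsingular x₁ y₁) (h₂ : V.Nonsingular x₂ y₂)
    (h' : V.Nonsingular x' y') (s : F) (hne : x₁ ≠ x₂) (hs : s * (x₁ - x₂) = y₁ - y₂)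
    (hx : x' = s ^ 2 + V.a₁ * s - V.a₂ - x₁ - x₂)
    (hy : y' = -(s * (x' - x₁) + y₁) - V.a₁ * x' - V.a₃) :
    Affine.Point.some x₁ y₁ h₁ + Affine.Point.some x₂ y₂ h₂ = Affine.Point.some x' y' h' := by
  have hsl : V.slope x₁ x₂ y₁ y₂ = s := by
    rw [Affine.slope_of_X_ne hne, div_eq_iff (sub_ne_zero.mpr hne), hs]
  rw [Affine.Point.add_of_X_ne hne]
  simp only [hsl, Affine.Point.some.injEq]
  have h1 : V.addX x₁ x₂ s = x' := by
    rw [Affine.addX, hx]
  refine ⟨h1, ?_⟩
  rw [Affine.addY, Affine.negY, Affine.negAddY, h1, hy]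

/-- points with opposite ordinates -/
theorem add_eq_zero {x y y' : F} (h : V.Nonsingular x y) (h' : V.Nonsingular x y')
    (hy : y = -y' - V.a₁ * x - V.a₃) :
    Affine.Point.some x y h + Affine.Point.some x y' h' = 0 :=
  Affine.Point.add_of_Y_eq rfl hy

end Points

/-! ### Explicit curves -/

theorem isSemistableModel_of_gcd {W : WeierstrassCurve ℤ} (h : Int.gcd W.Δ W.c₄ = 1) :
    W.IsSemistableModel := by
  intro p hp h1 h2
  have h3 : p ∣ Int.gcd W.Δ W.c₄ := Int.dvd_gcd h1 h2
  rw [h] at h3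
  exact hp.one_lt.ne' (Nat.dvd_one.mp h3)

/-- `y² + y = x³ - x²`, of conductor `11`, with the point `(0, 0)` of order `5` -/
def E11 : WeierstrassCurve ℤ := ⟨0, -1, 1, 0, 0⟩

/-- `y² + xy + y = x³ - x`, of conductor `14`, with a point of order `6` -/
def E14 : WeierstrassCurve ℤ := ⟨1, 0, 1, -1, 0⟩

/-- `y² + xy + y = x³ + x²`, of conductor `15`, with the point `(0, 0)` of order `4` -/
def E15 : WeierstrassCurve ℤ := ⟨1, 1, 1, 0, 0⟩

/-- `y² + xy + y = x³ - x² - x`, of conductor `17`, with the point `(0, 0)` of order `4` -/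
def E17 : WeierstrassCurve ℤ := ⟨1, -1, 1, -1, 0⟩

/-- `y² + y = x³ + x² + x`, of conductor `19`, with the point `(0, 0)` of order `3` -/
def E19 : WeierstrassCurve ℤ := ⟨0, 1, 1, 1, 0⟩

/-- `y² + xy = x³ + x`, of conductor `21`, with the point `(1, 1)` of order `4` -/
def E21 : WeierstrassCurve ℤ := ⟨1, 0, 0, 1, 0⟩

theorem E11_Δ : E11.Δ = -11 := by simp [E11, WeierstrassCurve.Δ, b₂, b₄, b₆, b₈]
theorem E14_Δ : E14.Δ = -28 := by simp [E14, WeierstrassCurve.Δ, b₂, b₄, b₆, b₈]
theorem E15_Δ : E15.Δ = -15 := by simp [E15, WeierstrassCurve.Δ, b₂, b₄, b₆, b₈]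
theorem E17_Δ : E17.Δ = 17 := by simp [E17, WeierstrassCurve.Δ, b₂, b₄, b₆, b₈]
theorem E19_Δ : E19.Δ = -19 := by simp [E19, WeierstrassCurve.Δ, b₂, b₄, b₆, b₈]
theorem E21_Δ : E21.Δ = -63 := by simp [E21, WeierstrassCurve.Δ, b₂, b₄, b₆, b₈]

theorem E11_c₄ : E11.c₄ = 16 := by simp [E11, WeierstrassCurve.c₄, b₂, b₄]
theorem E14_c₄ : E14.c₄ = 25 := by simp [E14, WeierstrassCurve.c₄, b₂, b₄]
theorem E15_c₄ : E15.c₄ = 1 := by simp [E15, WeierstrassCurve.c₄, b₂, b₄]
theorem E17_c₄ : E17.c₄ = 33 := by simp [E17, WeierstrassCurve.c₄, b₂, b₄]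
theorem E19_c₄ : E19.c₄ = -32 := by simp [E19, WeierstrassCurve.c₄, b₂, b₄]
theorem E21_c₄ : E21.c₄ = -47 := by simp [E21, WeierstrassCurve.c₄, b₂, b₄]

theorem E11_semistable : E11.IsSemistableModel :=
  isSemistableModel_of_gcd (by rw [E11_Δ, E11_c₄]; decide)
theorem E14_semistable : E14.IsSemistableModel :=
  isSemistableModel_of_gcd (by rw [E14_Δ, E14_c₄]; decide)
theorem E15_semistable : E15.IsSemistableModel :=
  isSemistableModel_of_gcd (by rw [E15_Δ, E15_c₄]; decide)
theorem E17_semistable : E17.IsSemistableModel :=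
  isSemistableModel_of_gcd (by rw [E17_Δ, E17_c₄]; decide)
theorem E19_semistable : E19.IsSemistableModel :=
  isSemistableModel_of_gcd (by rw [E19_Δ, E19_c₄]; decide)
theorem E21_semistable : E21.IsSemistableModel :=
  isSemistableModel_of_gcd (by rw [E21_Δ, E21_c₄]; decide)

theorem conductorLevel_E11 : E11.conductorLevel = 11 := by
  rw [conductorLevel_eq _ (by rw [E11_Δ]; norm_num), E11_Δ]; decide +kernel
theorem conductorLevel_E14 : E14.conductorLevel = 14 := by
  rw [conductorLevel_eq _ (by rw [E14_Δ]; norm_num), E14_Δ]; decide +kernel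
theorem conductorLevel_E15 : E15.conductorLevel = 15 := by
  rw [conductorLevel_eq _ (by rw [E15_Δ]; norm_num), E15_Δ]; decide +kernel
theorem conductorLevel_E17 : E17.conductorLevel = 17 := by
  rw [conductorLevel_eq _ (by rw [E17_Δ]; norm_num), E17_Δ]; decide +kernel
theorem conductorLevel_E19 : E19.conductorLevel = 19 := by
  rw [conductorLevel_eq _ (by rw [E19_Δ]; norm_num), E19_Δ]; decide +kernel
theorem conductorLevel_E21 : E21.conductorLevel = 21 := by
  rw [conductorLevel_eq _ (by rw [E21_Δ]; norm_num), E21_Δ]; decide +kernel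

/-! ### Torsion points modulo `ℓ` -/

section Torsion

variable {ℓ : ℕ} [hℓ : Fact ℓ.Prime]

/-- the points of the reduction -/
theorem nonsingular_of {W : WeierstrassCurve ℤ} (h : ¬ (ℓ : ℤ) ∣ W.Δ) {x y : ZMod ℓ}
    (hxy : y ^ 2 + W.a₁ * x * y + W.a₃ * y = x ^ 3 + W.a₂ * x ^ 2 + W.a₄ * x + W.a₆) :
    (W.reductionMod ℓ).toAffine.Nonsingular x y := by
  have hΔ : (W.reductionMod ℓ).toAffine.Δ ≠ 0 := by
    change (W.map (Int.castRingHom (ZMod ℓ))).Δ ≠ 0
    rw [WeierstrassCurve.map_Δ]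
    intro h0
    exact h ((ZMod.intCast_zmod_eq_zero_iff_dvd _ _).mp h0)
  rw [← Affine.equation_iff_nonsingular_of_Δ_ne_zero hΔ, Affine.equation_iff]
  exact hxy

theorem dvd_card_of_addOrderOf {V : WeierstrassCurve (ZMod ℓ)} {n : ℕ}
    (P : V.toAffine.Point) (h : addOrderOf P = n) : n ∣ V.card := by
  rw [← h]
  exact addOrderOf_dvd_natCard P

/-- a point of order `4` -/
theorem addOrderOf_eq_four {V : WeierstrassCurve (ZMod ℓ)} {P Q : V.toAffine.Point}
    (h1 : P + P = Q) (h2 : Q + Q = 0) (h3 : Q ≠ 0) : addOrderOf P = 4 := by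
  have h4 := addOrderOf_eq_prime_pow (p := 2) (n := 1) (x := P)
    (by rw [pow_one, two_nsmul, h1]; exact h3)
    (by
      have : (2 : ℕ) ^ (1 + 1) = 2 + 2 := rfl
      rw [this, add_nsmul, two_nsmul, h1, h2])
  exact h4

theorem addOrderOf_eq_three {V : WeierstrassCurve (ZMod ℓ)} {P Q : V.toAffine.Point}
    (h1 : P + P = Q) (h2 : P + Q = 0) (h3 : P ≠ 0) : addOrderOf P = 3 :=
  addOrderOf_eq_prime (p := 3) (by
    have : 3 = 1 + 2 := rfl
    rw [this, add_nsmul, one_nsmul, two_nsmul, h1, h2]) h3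

theorem five_dvd_card_E11 (h : ℓ ≠ 11) : 5 ∣ (E11.reductionMod ℓ).card := by
  have hd : ¬ (ℓ : ℤ) ∣ E11.Δ := by
    rw [E11_Δ, dvd_neg]
    intro h1
    exact h ((Nat.prime_dvd_prime_iff_eq hℓ.out (by norm_num)).mp (by exact_mod_cast h1))
  have hA : (E11.reductionMod ℓ).toAffine.Nonsingular 0 0 := nonsingular_of hd (by simp [E11])
  have hB : (E11.reductionMod ℓ).toAffine.Nonsingular 1 (-1) := nonsingular_of hd (by simp [E11])
  have hC : (E11.reductionMod ℓ).toAffine.Nonsingular 1 0 := nonsingular_of hd (by simp [E11])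
  have h1 : Affine.Point.some _ _ hA + Affine.Point.some _ _ hA = Affine.Point.some _ _ hB := by
    refine add_self_eq hA hB 0 ?_ ?_ ?_ ?_ <;> simp [reductionMod, E11]
  have h2 : Affine.Point.some _ _ hA + Affine.Point.some _ _ hB = Affine.Point.some _ _ hC := by
    refine add_eq hA hB hC (-1) ?_ ?_ ?_ ?_ <;> simp [reductionMod, E11]
  have h3 : Affine.Point.some _ _ hB + Affine.Point.some _ _ hC = 0 := by
    refine add_eq_zero hB hC ?_
    simp [reductionMod, E11]
  have h5 : (5 : ℕ) = 2 + (1 + 2) := rfl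
  have : Fact (Nat.Prime 5) := ⟨by norm_num⟩
  refine dvd_card_of_addOrderOf (Affine.Point.some _ _ hA) (addOrderOf_eq_prime (p := 5) ?_
    (Affine.Point.some_ne_zero _))
  rw [h5, add_nsmul, add_nsmul, one_nsmul, two_nsmul, h1, h2, h3]

theorem not_dvd_of_ne {D : ℤ} {N : ℕ} (hN : N.primeFactors = D.natAbs.primeFactors) (hD : D ≠ 0)
    (hN0 : N ≠ 0) (h : ¬ ℓ ∣ N) : ¬ (ℓ : ℤ) ∣ D := by
  intro h1
  have h2 : ℓ ∈ D.natAbs.primeFactors := by
    rw [Nat.mem_primeFactors_of_ne_zero (by simpa using hD)]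
    exact ⟨hℓ.out, Int.natCast_dvd.mp h1⟩
  rw [← hN] at h2
  exact h ((Nat.mem_primeFactors_of_ne_zero hN0).mp h2).2

theorem six_dvd_card_E14 (h : ¬ ℓ ∣ 14) : 6 ∣ (E14.reductionMod ℓ).card := by
  have hd : ¬ (ℓ : ℤ) ∣ E14.Δ := by
    rw [E14_Δ]
    exact not_dvd_of_ne (N := 14) (by decide +kernel) (by norm_num) (by norm_num) h
  have hA : (E14.reductionMod ℓ).toAffine.Nonsingular 0 0 := nonsingular_of hd (by simp [E14])
  have hB : (E14.reductionMod ℓ).toAffine.Nonsingular 0 (-1) := nonsingular_of hd (by simp [E14])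
  have hC : (E14.reductionMod ℓ).toAffine.Nonsingular (-1) 0 := nonsingular_of hd (by
    simp [E14]; norm_num)
  have h1 : Affine.Point.some _ _ hA + Affine.Point.some _ _ hA = Affine.Point.some _ _ hB := by
    refine add_self_eq hA hB (-1) ?_ ?_ ?_ ?_ <;> simp [reductionMod, E14]
  have h2 : Affine.Point.some _ _ hA + Affine.Point.some _ _ hB = 0 := by
    refine add_eq_zero hA hB ?_
    simp [reductionMod, E14]
  have h3 : Affine.Point.some _ _ hC + Affine.Point.some _ _ hC = 0 := by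
    refine add_eq_zero hC hC ?_
    simp [reductionMod, E14]
  have h4 : 3 ∣ (E14.reductionMod ℓ).card := dvd_card_of_addOrderOf (Affine.Point.some _ _ hA)
    (addOrderOf_eq_three h1 h2 (Affine.Point.some_ne_zero _))
  have h5 : 2 ∣ (E14.reductionMod ℓ).card := dvd_card_of_addOrderOf (Affine.Point.some _ _ hC)
    (addOrderOf_eq_prime (p := 2) (by rw [two_nsmul, h3]) (Affine.Point.some_ne_zero _))
  exact Nat.Coprime.mul_dvd_of_dvd_of_dvd (m := 2) (n := 3) (by norm_num) h5 h4

theorem four_dvd_card_E15 (h : ¬ ℓ ∣ 15) : 4 ∣ (E15.reductionMod ℓ).card := by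
  have hd : ¬ (ℓ : ℤ) ∣ E15.Δ := by
    rw [E15_Δ]
    exact not_dvd_of_ne (N := 15) (by decide +kernel) (by norm_num) (by norm_num) h
  have hA : (E15.reductionMod ℓ).toAffine.Nonsingular 0 0 := nonsingular_of hd (by simp [E15])
  have hB : (E15.reductionMod ℓ).toAffine.Nonsingular (-1) 0 := nonsingular_of hd (by
    simp [E15]; norm_num)
  have h1 : Affine.Point.some _ _ hA + Affine.Point.some _ _ hA = Affine.Point.some _ _ hB := by
    refine add_self_eq hA hB 0 ?_ ?_ ?_ ?_ <;> simp [reductionMod, E15]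
  have h2 : Affine.Point.some _ _ hB + Affine.Point.some _ _ hB = 0 := by
    refine add_eq_zero hB hB ?_
    simp [reductionMod, E15]
  exact dvd_card_of_addOrderOf (Affine.Point.some _ _ hA)
    (addOrderOf_eq_four h1 h2 (Affine.Point.some_ne_zero _))

theorem four_dvd_card_E17 (h : ¬ ℓ ∣ 17) : 4 ∣ (E17.reductionMod ℓ).card := by
  have hd : ¬ (ℓ : ℤ) ∣ E17.Δ := by
    rw [E17_Δ]
    exact not_dvd_of_ne (N := 17) (by decide +kernel) (by norm_num) (by norm_num) h
  have hA : (E17.reductionMod ℓ).toAffine.Nonsingular 0 0 := nonsingular_of hd (by simp [E17])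
  have hB : (E17.reductionMod ℓ).toAffine.Nonsingular 1 (-1) := nonsingular_of hd (by
    simp [E17])
  have h1 : Affine.Point.some _ _ hA + Affine.Point.some _ _ hA = Affine.Point.some _ _ hB := by
    refine add_self_eq hA hB (-1) ?_ ?_ ?_ ?_ <;> simp [reductionMod, E17]
  have h2 : Affine.Point.some _ _ hB + Affine.Point.some _ _ hB = 0 := by
    refine add_eq_zero hB hB ?_
    simp [reductionMod, E17]
  exact dvd_card_of_addOrderOf (Affine.Point.some _ _ hA)
    (addOrderOf_eq_four h1 h2 (Affine.Point.some_ne_zero _))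

theorem three_dvd_card_E19 (h : ¬ ℓ ∣ 19) : 3 ∣ (E19.reductionMod ℓ).card := by
  have hd : ¬ (ℓ : ℤ) ∣ E19.Δ := by
    rw [E19_Δ]
    exact not_dvd_of_ne (N := 19) (by decide +kernel) (by norm_num) (by norm_num) h
  have hA : (E19.reductionMod ℓ).toAffine.Nonsingular 0 0 := nonsingular_of hd (by simp [E19])
  have hB : (E19.reductionMod ℓ).toAffine.Nonsingular 0 (-1) := nonsingular_of hd (by
    simp [E19])
  have h1 : Affine.Point.some _ _ hA + Affine.Point.some _ _ hA = Affine.Point.some _ _ hB := by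
    refine add_self_eq hA hB 1 ?_ ?_ ?_ ?_ <;> simp [reductionMod, E19]
  have h2 : Affine.Point.some _ _ hA + Affine.Point.some _ _ hB = 0 := by
    refine add_eq_zero hA hB ?_
    simp [reductionMod, E19]
  exact dvd_card_of_addOrderOf (Affine.Point.some _ _ hA)
    (addOrderOf_eq_three h1 h2 (Affine.Point.some_ne_zero _))

theorem four_dvd_card_E21 (h : ¬ ℓ ∣ 21) : 4 ∣ (E21.reductionMod ℓ).card := by
  have hd : ¬ (ℓ : ℤ) ∣ E21.Δ := by
    rw [E21_Δ]
    exact not_dvd_of_ne (N := 21) (by decide +kernel) (by norm_num) (by norm_num) h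
  have hA : (E21.reductionMod ℓ).toAffine.Nonsingular 1 1 := nonsingular_of hd (by
    simp [E21])
  have hB : (E21.reductionMod ℓ).toAffine.Nonsingular 0 0 := nonsingular_of hd (by
    simp [E21])
  have h3 : (3 : ZMod ℓ) ≠ 0 := by
    intro h0
    have h1 : ((3 : ℕ) : ZMod ℓ) = 0 := by exact_mod_cast h0
    rw [ZMod.natCast_eq_zero_iff] at h1
    exact h (h1.trans (by norm_num))
  have h1 : Affine.Point.some _ _ hA + Affine.Point.some _ _ hA = Affine.Point.some _ _ hB := by
    refine add_self_eq hA hB 1 ?_ ?_ ?_ ?_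
    · simp only [reductionMod, E21, WeierstrassCurve.map_a₁, WeierstrassCurve.map_a₃, map_one,
        map_zero]
      intro h0
      apply h3
      linear_combination h0
    · simp [reductionMod, E21]; ring
    · simp [reductionMod, E21]; ring
    · simp [reductionMod, E21]
  have h2 : Affine.Point.some _ _ hB + Affine.Point.some _ _ hB = 0 := by
    refine add_eq_zero hB hB ?_
    simp [reductionMod, E21]
  exact dvd_card_of_addOrderOf (Affine.Point.some _ _ hA)
    (addOrderOf_eq_four h1 h2 (Affine.Point.some_ne_zero _))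

end Torsion

/-! ### Divisibilities -/

variable (W : WeierstrassCurve ℤ) (hΔ : W.Δ ≠ 0) (hW : W.IsSemistableModel) (ℓ : ℕ) (hℓ : ℓ.Prime)

include hΔ hW hℓ in
/-- **Conductor 11**: `5` divides the number of points modulo all primes `ℓ ≠ 11`. -/
theorem five_dvd_card (h : W.conductorLevel = 11) (hg : ¬ ℓ ∣ 11) : 5 ∣ (W.reductionMod ℓ).card := by
  have : Fact ℓ.Prime := ⟨hℓ⟩
  rw [card_eq_of_conductorLevel_eq W E11 hΔ (by rw [E11_Δ]; norm_num) hW E11_semistable
    (h.trans conductorLevel_E11.symm) (by rw [h]; decide) ℓ hℓ (by rw [h]; exact hg)]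
  exact five_dvd_card_E11 (by rintro rfl; exact hg dvd_rfl)

include hΔ hW hℓ in
/-- **Conductor 14**: `6` divides the number of points modulo all primes `ℓ ≠ 2, 7`. -/
theorem six_dvd_card (h : W.conductorLevel = 14) (hg : ¬ ℓ ∣ 14) : 6 ∣ (W.reductionMod ℓ).card := by
  have : Fact ℓ.Prime := ⟨hℓ⟩
  rw [card_eq_of_conductorLevel_eq W E14 hΔ (by rw [E14_Δ]; norm_num) hW E14_semistable
    (h.trans conductorLevel_E14.symm) (by rw [h]; decide) ℓ hℓ (by rw [h]; exact hg)]
  exact six_dvd_card_E14 hg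

include hΔ hW hℓ in
/-- **Conductor 15**: `4` divides the number of points modulo all primes `ℓ ≠ 3, 5`. -/
theorem four_dvd_card_of_conductor_fifteen (h : W.conductorLevel = 15) (hg : ¬ ℓ ∣ 15) :
    4 ∣ (W.reductionMod ℓ).card := by
  have : Fact ℓ.Prime := ⟨hℓ⟩
  rw [card_eq_of_conductorLevel_eq W E15 hΔ (by rw [E15_Δ]; norm_num) hW E15_semistable
    (h.trans conductorLevel_E15.symm) (by rw [h]; decide) ℓ hℓ (by rw [h]; exact hg)]
  exact four_dvd_card_E15 hg

include hΔ hW hℓ in
/-- **Conductor 17**: `4` divides the number of points modulo all primes `ℓ ≠ 17`. -/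
theorem four_dvd_card_of_conductor_seventeen (h : W.conductorLevel = 17) (hg : ¬ ℓ ∣ 17) :
    4 ∣ (W.reductionMod ℓ).card := by
  have : Fact ℓ.Prime := ⟨hℓ⟩
  rw [card_eq_of_conductorLevel_eq W E17 hΔ (by rw [E17_Δ]; norm_num) hW E17_semistable
    (h.trans conductorLevel_E17.symm) (by rw [h]; decide) ℓ hℓ (by rw [h]; exact hg)]
  exact four_dvd_card_E17 hg

include hΔ hW hℓ in
/-- **Conductor 19**: `3` divides the number of points modulo all primes `ℓ ≠ 19`. -/
theorem three_dvd_card (h : W.conductorLevel = 19) (hg : ¬ ℓ ∣ 19) : 3 ∣ (W.reductionMod ℓ).card := by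
  have : Fact ℓ.Prime := ⟨hℓ⟩
  rw [card_eq_of_conductorLevel_eq W E19 hΔ (by rw [E19_Δ]; norm_num) hW E19_semistable
    (h.trans conductorLevel_E19.symm) (by rw [h]; decide) ℓ hℓ (by rw [h]; exact hg)]
  exact three_dvd_card_E19 hg

include hΔ hW hℓ in
/-- **Conductor 21**: `4` divides the number of points modulo all primes `ℓ ≠ 3, 7`. -/
theorem four_dvd_card_of_conductor_twentyone (h : W.conductorLevel = 21) (hg : ¬ ℓ ∣ 21) :
    4 ∣ (W.reductionMod ℓ).card := by
  have : Fact ℓ.Prime := ⟨hℓ⟩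
  rw [card_eq_of_conductorLevel_eq W E21 hΔ (by rw [E21_Δ]; norm_num) hW E21_semistable
    (h.trans conductorLevel_E21.symm) (by rw [h]; decide) ℓ hℓ (by rw [h]; exact hg)]
  exact four_dvd_card_E21 hg

end Fermat.Agent.Cor.GenusOne
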