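import Fermat.Agent.MainConductor
import Fermat.Agent.H23.EigenChar
import Fermat.Agent.Frob.Count

/-!
# Semistable elliptic curves of small conductor

Consequences of the modularity of semistable elliptic curves (`Fermat.Agent.Main.modular_of_semistable`) and of the
dimension formula (`S20`):

* `linearIndependent_eigenforms`, `ncard_eigenforms_le`: the normalised eigenforms of level `Γ₀(N)` are linearly
  independent; there are at most `genus X₀(N)` of them;
* `ncard_apSeq_le`: for squarefree `N` there are at most `genus X₀(N)` systems `(a_ℓ)` (`ℓ` good) of semistable elliptic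
  curves over `ℚ` whose bad primes are the prime divisors of `N`.
-/

set_option autoImplicit false

namespace Fermat.Agent.Cor.H14

open CongruenceSubgroup ModularFormClass ModularCurve

section Eigenforms

variable {N : ℕ} [NeZero N]

/-- A normalised eigenform is determined by its coefficients at the primes. -/
theorem eigenform_ext {f g : CuspForm (Gamma0 N) 2} (hf : f.IsNormalizedEigenform)
    (hg : g.IsNormalizedEigenform) (h : ∀ ℓ : ℕ, ℓ.Prime → qCoeff ⇑f ℓ = qCoeff ⇑g ℓ) : f = g := by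
  refine H23.eq_of_qCoeff_eq fun n => ?_
  induction n using Nat.strong_induction_on with
  | _ n ih =>
    rcases Nat.lt_or_ge n 2 with hn | hn
    · interval_cases n
      · rw [H22.cusp_qCoeff_zero, H22.cusp_qCoeff_zero]
      · rw [hf.qCoeff_one, hg.qCoeff_one]
    · have hℓ : n.minFac.Prime := Nat.minFac_prime (by omega)
      obtain ⟨m, hm⟩ := n.minFac_dvd
      set ℓ := n.minFac with hℓdef
      have hm0 : 0 < m := by
        rcases Nat.eq_zero_or_pos m with rfl | h0
        · omega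
        · exact h0
      have hmn : m < n := by
        rw [hm]
        nlinarith [hℓ.two_le]
      have hn' : n = m * ℓ := by rw [mul_comm]; exact hm
      have h1 := H23.eigen_relation hf hℓ m
      have h2 := H23.eigen_relation hg hℓ m
      rw [← hn', ih m hmn, h ℓ hℓ] at h1
      rw [← hn'] at h2
      have h3 : m / ℓ < n := lt_of_le_of_lt (Nat.div_le_self m ℓ) hmn
      rw [ih (m / ℓ) h3] at h1
      exact add_right_cancel (h1.trans h2.symm)

theorem eigenCharC_U {g : CuspForm (Gamma0 N) 2} (hg : g.IsNormalizedEigenform)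
    {S : Set ℕ} {q : ℕ} (hq : q.Prime) (hqN : q ∣ N) (hqS : q ∉ S) :
    H23.eigenCharC hg S (CuspForm.heckeAlgebra.U hq hqN hqS) = qCoeff ⇑g q := by
  rw [H23.eigenCharC_apply, CuspForm.heckeAlgebra.coe_U, H23.heckeULin_eigen hg hq hqN,
    H22.cusp_qCoeff_smul, hg.qCoeff_one, mul_one]

/-- distinct normalised eigenforms have distinct Hecke characters -/
theorem eigenCharC_injective :
    Function.Injective (fun f : {f : CuspForm (Gamma0 N) 2 // f.IsNormalizedEigenform} =>
      ((H23.eigenCharC f.2 ∅ : CuspForm.heckeAlgebra N 2 ∅ →+* ℂ) :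
        CuspForm.heckeAlgebra N 2 ∅ →* ℂ)) := by
  intro f g h
  apply Subtype.ext
  refine eigenform_ext f.2 g.2 fun ℓ hℓ => ?_
  by_cases hℓN : ℓ ∣ N
  · have h1 := DFunLike.congr_fun h
      (CuspForm.heckeAlgebra.U hℓ hℓN (Set.notMem_empty ℓ) : CuspForm.heckeAlgebra N 2 ∅)
    exact (eigenCharC_U f.2 hℓ hℓN _).symm.trans (h1.trans (eigenCharC_U g.2 hℓ hℓN _))
  · have h1 := DFunLike.congr_fun h
      (CuspForm.heckeAlgebra.T hℓ hℓN (Set.notMem_empty ℓ) : CuspForm.heckeAlgebra N 2 ∅)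
    exact (H23.eigenCharC_T f.2 hℓ hℓN _).symm.trans (h1.trans (H23.eigenCharC_T g.2 hℓ hℓN _))

/-- the pairing `(f, t) ↦ a₁(tf)` -/
noncomputable def pairing (N : ℕ) [NeZero N] :
    CuspForm (Gamma0 N) 2 →ₗ[ℂ] (CuspForm.heckeAlgebra N 2 ∅ → ℂ) :=
  LinearMap.pi fun t => (H22.qCoeffLin N 2 1).comp (t : Module.End ℂ (CuspForm (Gamma0 N) 2))

/-- **The normalised eigenforms of level `Γ₀(N)` are linearly independent.** -/
theorem linearIndependent_eigenforms (N : ℕ) [NeZero N] :
    LinearIndependent ℂ (fun f : {f : CuspForm (Gamma0 N) 2 // f.IsNormalizedEigenform} =>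
      (f : CuspForm (Gamma0 N) 2)) := by
  have h1 := (linearIndependent_monoidHom (CuspForm.heckeAlgebra N 2 ∅) ℂ).comp _
    (eigenCharC_injective (N := N))
  apply LinearIndependent.of_comp (pairing N)
  exact h1

instance : Finite {f : CuspForm (Gamma0 N) 2 // f.IsNormalizedEigenform} := by
  have : FiniteDimensional ℂ (CuspForm (Gamma0 N) 2) := Fermat.Agent.H22.finiteDimensional_cuspForm N 2
  exact (linearIndependent_eigenforms N).finite

/-- **There are at most `genus X₀(N)` normalised eigenforms of level `Γ₀(N)`.** -/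
theorem card_eigenforms_le (N : ℕ) [NeZero N] :
    (Nat.card {f : CuspForm (Gamma0 N) 2 // f.IsNormalizedEigenform} : ℚ) ≤ genusFormula N := by
  have : FiniteDimensional ℂ (CuspForm (Gamma0 N) 2) := Fermat.Agent.H22.finiteDimensional_cuspForm N 2
  have : Fintype {f : CuspForm (Gamma0 N) 2 // f.IsNormalizedEigenform} := Fintype.ofFinite _
  rw [← Fermat.Agent.S20.result N, Nat.card_eq_fintype_card]
  exact_mod_cast (linearIndependent_eigenforms N).fintype_card_le_finrank

/-- at a level of genus one there is at most one normalised eigenform -/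
theorem eigenform_unique (h : genusFormula N = 1) {f g : CuspForm (Gamma0 N) 2}
    (hf : f.IsNormalizedEigenform) (hg : g.IsNormalizedEigenform) : f = g := by
  have h1 := card_eigenforms_le N
  rw [h] at h1
  have h2 : Nat.card {f : CuspForm (Gamma0 N) 2 // f.IsNormalizedEigenform} ≤ 1 := by exact_mod_cast h1
  have := Finite.card_le_one_iff_subsingleton.mp h2
  exact congrArg Subtype.val (Subsingleton.elim (⟨f, hf⟩ : {f : CuspForm (Gamma0 N) 2 //
    f.IsNormalizedEigenform}) ⟨g, hg⟩)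

end Eigenforms

section Curves

/-- `W` is a semistable integral Weierstrass equation whose bad primes are the prime divisors of `N` (for squarefree
`N`: a semistable elliptic curve of conductor `N`). -/
structure HasLevel (W : WeierstrassCurve ℤ) (N : ℕ) : Prop where
  disc_ne : W.Δ ≠ 0
  semistable : W.IsSemistableModel
  bad : ∀ q : ℕ, q.Prime → (q ∣ N ↔ (q : ℤ) ∣ W.Δ)

/-- the traces of Frobenius at the good primes (`0` elsewhere) -/
noncomputable def apSeq (W : WeierstrassCurve ℤ) (ℓ : ℕ) : ℤ :=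
  open Classical in if ℓ.Prime ∧ ¬ (ℓ : ℤ) ∣ W.Δ then W.apOfModel ℓ else 0

/-- **Modularity**, with the level prescribed. -/
theorem HasLevel.exists_eigenform {W : WeierstrassCurve ℤ} {N : ℕ} (h : HasLevel W N) (hN : 0 < N)
    (hsq : Squarefree N) : ∃ f : CuspForm (Gamma0 N) 2, f.IsNormalizedEigenform ∧
      ∀ ℓ : ℕ, ℓ.Prime → ¬ (ℓ : ℤ) ∣ W.Δ → qCoeff ⇑f ℓ = (W.apOfModel ℓ : ℂ) := by
  obtain ⟨M, hM, hMsq, hsupp, f, hf, hfW⟩ := Main.modular_of_semistable W h.disc_ne h.semistable
  have hMN : M = N := by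
    refine (Nat.Squarefree.ext_iff hMsq hsq).mpr fun q hq => ?_
    rw [hsupp q hq, h.bad q hq]
  subst hMN
  exact ⟨f, hf, hfW⟩

/-- **The number of isogeny classes of semistable elliptic curves of conductor `N`**, i.e. of systems `(a_ℓ)`, `ℓ` good,
**is at most the genus of `X₀(N)`.** -/
theorem ncard_apSeq_le (N : ℕ) [NeZero N] (hsq : Squarefree N) :
    {a : ℕ → ℤ | ∃ W : WeierstrassCurve ℤ, HasLevel W N ∧ a = apSeq W}.Finite ∧
      ({a : ℕ → ℤ | ∃ W : WeierstrassCurve ℤ, HasLevel W N ∧ a = apSeq W}.ncard : ℚ) ≤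
        genusFormula N := by
  set A := {a : ℕ → ℤ | ∃ W : WeierstrassCurve ℤ, HasLevel W N ∧ a = apSeq W} with hA
  have key : ∀ a : A, ∃ f : {f : CuspForm (Gamma0 N) 2 // f.IsNormalizedEigenform},
      ∀ ℓ : ℕ, (a : ℕ → ℤ) ℓ = open Classical in
        if ℓ.Prime ∧ ¬ ℓ ∣ N then (if h : ∃ z : ℤ, qCoeff ⇑f.1 ℓ = (z : ℂ) then h.choose else 0)
          else 0 := by
    rintro ⟨a, W, hW, rfl⟩
    obtain ⟨f, hf, hfW⟩ := hW.exists_eigenform (NeZero.pos N) hsq
    refine ⟨⟨f, hf⟩, fun ℓ => ?_⟩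
    simp only [apSeq]
    by_cases hℓ : ℓ.Prime
    · by_cases hd : (ℓ : ℤ) ∣ W.Δ
      · have hd' : ℓ ∣ N := (hW.bad ℓ hℓ).mpr hd
        simp [hd, hd']
      · have hd' : ¬ ℓ ∣ N := fun h => hd ((hW.bad ℓ hℓ).mp h)
        have h1 : ∃ z : ℤ, qCoeff ⇑f ℓ = (z : ℂ) := ⟨_, hfW ℓ hℓ hd⟩
        rw [if_pos ⟨hℓ, hd⟩, if_pos ⟨hℓ, hd'⟩, dif_pos h1]
        exact_mod_cast (hfW ℓ hℓ hd).symm.trans h1.choose_spec
    · simp [hℓ]
  choose F hF using key
  have hinj : Function.Injective F := by
    intro a b hab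
    apply Subtype.ext
    funext ℓ
    rw [hF a ℓ, hF b ℓ, hab]
  have hfin : Finite A := Finite.of_injective F hinj
  refine ⟨Set.toFinite A, le_trans ?_ (card_eigenforms_le N)⟩
  rw [← Nat.card_coe_set_eq]
  exact_mod_cast Nat.card_le_card_of_injective F hinj

/-- **Conductors of genus one**: all semistable elliptic curves of conductor `N` have the same `a_ℓ`. -/
theorem apOfModel_eq_of_genus_one {N : ℕ} [NeZero N] (hsq : Squarefree N) (hg : genusFormula N = 1)
    {W W' : WeierstrassCurve ℤ} (h : HasLevel W N) (h' : HasLevel W' N) {ℓ : ℕ} (hℓ : ℓ.Prime)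
    (hℓN : ¬ ℓ ∣ N) : W.apOfModel ℓ = W'.apOfModel ℓ := by
  obtain ⟨f, hf, hfW⟩ := h.exists_eigenform (NeZero.pos N) hsq
  obtain ⟨f', hf', hfW'⟩ := h'.exists_eigenform (NeZero.pos N) hsq
  have h1 := hfW ℓ hℓ fun hd => hℓN ((h.bad ℓ hℓ).mpr hd)
  have h2 := hfW' ℓ hℓ fun hd => hℓN ((h'.bad ℓ hℓ).mpr hd)
  rw [eigenform_unique hg hf hf', h2] at h1
  exact_mod_cast h1.symm

end Curves

end Fermat.Agent.Cor.H14
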