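import Fermat.Agent.Cor.H14Eis
import Fermat.Agent.Cor.H14Small
import Fermat.Agent.Cor.GenusOne
import Fermat.Agent.Cor.RootNumber
import Fermat.Agent.S08

/-!
# Semistable elliptic curves of prime conductor with a rational point of order two

Let `W` be a semistable elliptic curve over `ℚ` with prime conductor `N` and with a rational point of order `2`. Then
`N ≡ 1` modulo `8` (`modEq_one_of_two_torsion`). Indeed `a_q(W) ≡ 1 + q` modulo `2` for all primes `q ≠ N`, so the newform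
of `W` is congruent to the Eisenstein series of level `N` modulo a prime over `2`, and `2` divides the numerator of
`(N - 1) / 12` by the computation of the Eisenstein ideal (statement S16).

More generally (`dvd_of_ap_modEq`): if `W` is a semistable elliptic curve of prime conductor `N` whose newform `f` has
`a_N(f) = 1` and `ℓ` is a prime such that `a_q(W) ≡ 1 + q` modulo `ℓ` for all `q ≠ N` (for example if `ℓ ∣ #W(𝔽_q)` for all
`q ≠ N`) then `ℓ` divides the numerator of `(N - 1) / 12`.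

This file is not used by any of the statement files.
-/

set_option autoImplicit false

open ModularForm CongruenceSubgroup ModularFormClass ModularCurve WeierstrassCurve
open Fermat.Agent.H22

namespace Fermat.Agent.Cor.H14

/-! ### Newforms of prime level -/

/-- there is a maximal ideal over every prime in the ring of algebraic integers -/
theorem exists_maximal_over {ℓ : ℕ} (hℓ : ℓ.Prime) :
    ∃ 𝔪 : Ideal (integralClosure ℤ ℂ), 𝔪.IsMaximal ∧ ((ℓ : ℕ) : integralClosure ℤ ℂ) ∈ 𝔪 := by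
  have hP : (Ideal.span {(ℓ : ℤ)}).IsMaximal :=
    PrincipalIdealRing.isMaximal_of_irreducible (Nat.prime_iff_prime_int.mp hℓ).irreducible
  have hinj : Function.Injective (algebraMap ℤ (integralClosure ℤ ℂ)) := by
    intro a b hab
    have := congrArg (fun z : integralClosure ℤ ℂ => (z : ℂ)) hab
    simpa using this
  obtain ⟨Q, hQ, hQc⟩ := Ideal.exists_ideal_over_maximal_of_isIntegral (S := integralClosure ℤ ℂ)
    (Ideal.span {(ℓ : ℤ)}) (by
      rw [(RingHom.injective_iff_ker_eq_bot _).1 hinj]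
      exact bot_le)
  refine ⟨Q, hQ, ?_⟩
  have h1 : (ℓ : ℤ) ∈ Q.comap (algebraMap ℤ (integralClosure ℤ ℂ)) := by
    rw [hQc]
    exact Ideal.mem_span_singleton_self _
  simpa [Ideal.mem_comap] using h1

/-- every normalised eigenform of prime level is a newform -/
theorem isNewform_of_prime {N : ℕ} (hN : N.Prime) {f : CuspForm (Gamma0 N) 2}
    (hf : f.IsNormalizedEigenform) : f.IsNewform := by
  refine ⟨hf, fun M hM hMN => ?_⟩
  have h1 : M = 1 := ((Nat.dvd_prime hN).1 hM).resolve_right hMN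
  subst h1
  rintro ⟨g, hg, -⟩
  exact hg.ne_zero (S08.result g)

/-- `a_N = ±1` for a normalised eigenform of prime level `N` -/
theorem qCoeff_level {N : ℕ} (hN : N.Prime) {f : CuspForm (Gamma0 N) 2}
    (hf : f.IsNormalizedEigenform) : qCoeff ⇑f N = 1 ∨ qCoeff ⇑f N = -1 := by
  have h1 := (RootNumber.newformBadPrimeCoeff' hN.ne_zero f (isNewform_of_prime hN hf) N hN
    dvd_rfl).1 (by
      intro h
      have := (Nat.pow_dvd_pow_iff_le_right hN.one_lt).1 (by simpa using h : N ^ 2 ∣ N ^ 1)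
      omega)
  have h2 : (qCoeff ⇑f N - 1) * (qCoeff ⇑f N + 1) = 0 := by linear_combination h1
  rcases mul_eq_zero.1 h2 with h3 | h3
  · exact Or.inl (sub_eq_zero.1 h3)
  · exact Or.inr (eq_neg_of_add_eq_zero_left h3)

/-- A semistable elliptic curve of prime conductor `N` whose newform is congruent to the Eisenstein series. -/
theorem dvd_of_ap_modEq {W : WeierstrassCurve ℤ} {N : ℕ} (hN : N.Prime) (h : HasLevel W N)
    {ℓ : ℕ} (hℓ : ℓ.Prime)
    (hap : ∀ q : ℕ, q.Prime → q ≠ N → (ℓ : ℤ) ∣ W.apOfModel q - (1 + q : ℕ))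
    {f : CuspForm (Gamma0 N) 2} (hf : f.IsNormalizedEigenform)
    (hfW : ∀ q : ℕ, q.Prime → ¬ (q : ℤ) ∣ W.Δ → qCoeff ⇑f q = (W.apOfModel q : ℂ))
    (hfN : ∃ a : ℤ, qCoeff ⇑f N = (a : ℂ) ∧ (ℓ : ℤ) ∣ a - 1) :
    ℓ ∣ (N - 1) / Nat.gcd (N - 1) 12 := by
  have : Fact N.Prime := ⟨hN⟩
  obtain ⟨𝔪, h𝔪, hℓ𝔪⟩ := exists_maximal_over hℓ
  have hmem : ∀ z : ℤ, (ℓ : ℤ) ∣ z → ((z : ℤ) : integralClosure ℤ ℂ) ∈ 𝔪 := by
    rintro z ⟨c, rfl⟩
    rw [Int.cast_mul, Int.cast_natCast]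
    exact 𝔪.mul_mem_right _ hℓ𝔪
  refine dvd_of_isEisenstein N hℓ hf h𝔪 hℓ𝔪 ⟨fun q hq hqN => ?_, ?_⟩
  · have hd : ¬ (q : ℤ) ∣ W.Δ := fun hd =>
      hqN ((Nat.prime_dvd_prime_iff_eq hq hN).1 ((h.bad q hq).2 hd))
    refine ⟨(W.apOfModel q : integralClosure ℤ ℂ), ?_, ?_⟩
    · rw [hfW q hq hd]
      simp
    · have h1 := hmem _ (hap q hq hqN)
      rwa [Int.cast_sub, Int.cast_natCast] at h1
  · obtain ⟨a, ha, hda⟩ := hfN
    refine ⟨(a : integralClosure ℤ ℂ), ?_, ?_⟩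
    · rw [ha]
      simp
    · have h1 := hmem _ hda
      rwa [Int.cast_sub, Int.cast_one] at h1

/-! ### Points of order two -/

/-- the `x`-coordinate of a point of order two -/
theorem exists_root {W : WeierstrassCurve ℤ} {P : (W.map (algebraMap ℤ ℚ)).toAffine.Point}
    (hP : P ≠ 0) (h2 : P + P = 0) :
    ∃ r : ℤ, r ^ 3 + W.b₂ * r ^ 2 + 8 * W.b₄ * r + 16 * W.b₆ = 0 := by
  rcases P with _ | ⟨x, y, h⟩
  · exact absurd rfl hP
  have h3 := eq_neg_of_add_eq_zero_left h2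
  rw [Affine.Point.neg_some, Affine.Point.some.injEq] at h3
  have h4 := h3.2
  rw [Affine.negY] at h4
  have h5 := (Affine.equation_iff x y).1 h.1
  simp only [map_a₁, map_a₂, map_a₃, map_a₄, map_a₆, eq_intCast] at h4 h5
  have h6 : (4 * x) ^ 3 + W.b₂ * (4 * x) ^ 2 + 8 * W.b₄ * (4 * x) + 16 * W.b₆ = 0 := by
    simp only [WeierstrassCurve.b₂, WeierstrassCurve.b₄, WeierstrassCurve.b₆]
    push_cast
    linear_combination (-64) * h5 + 16 * (2 * y + W.a₁ * x + W.a₃) * h4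
  have hint : _root_.IsIntegral ℤ (4 * x) := by
    refine ⟨Polynomial.X ^ 3 + Polynomial.C W.b₂ * Polynomial.X ^ 2 +
      Polynomial.C (8 * W.b₄) * Polynomial.X + Polynomial.C (16 * W.b₆), ?_, ?_⟩
    · monicity!
    · simp only [Polynomial.eval₂_add, Polynomial.eval₂_mul, Polynomial.eval₂_pow,
        Polynomial.eval₂_X, Polynomial.eval₂_C]
      simp only [eq_intCast]
      push_cast
      exact h6
  obtain ⟨r, hr⟩ := IsIntegrallyClosed.isIntegral_iff.1 hint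
  refine ⟨r, ?_⟩
  rw [← hr, eq_intCast] at h6
  exact_mod_cast h6

section Even

variable {W : WeierstrassCurve ℤ} {q : ℕ} [hq : Fact q.Prime]

theorem two_dvd_card_of {x y : ZMod q} (h : (W.reductionMod q).toAffine.Nonsingular x y)
    (hy : y = -y - W.a₁ * x - W.a₃) : 2 ∣ (W.reductionMod q).card := by
  have h1 : Affine.Point.some x y h + Affine.Point.some x y h = 0 :=
    GenusOne.add_eq_zero h h hy
  refine GenusOne.dvd_card_of_addOrderOf (Affine.Point.some x y h)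
    (addOrderOf_eq_prime (p := 2) ?_ (Affine.Point.some_ne_zero _))
  rw [two_nsmul, h1]

theorem even_card_of_odd (hq2 : q ≠ 2) (hd : ¬ (q : ℤ) ∣ W.Δ) {r : ℤ}
    (hr : r ^ 3 + W.b₂ * r ^ 2 + 8 * W.b₄ * r + 16 * W.b₆ = 0) :
    2 ∣ (W.reductionMod q).card := by
  have h2 : (2 : ZMod q) ≠ 0 := by
    intro h0
    have h1 : ((2 : ℕ) : ZMod q) = 0 := by exact_mod_cast h0
    rw [ZMod.natCast_eq_zero_iff] at h1
    exact hq2 ((Nat.prime_dvd_prime_iff_eq hq.out Nat.prime_two).1 h1)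
  have h4 : (4 : ZMod q) ≠ 0 := by
    rw [show (4 : ZMod q) = 2 * 2 by norm_num]
    exact mul_ne_zero h2 h2
  obtain ⟨x, hx⟩ : ∃ x : ZMod q, 4 * x = r := ⟨r / 4, mul_div_cancel₀ _ h4⟩
  obtain ⟨y, hy⟩ : ∃ y : ZMod q, 2 * y = -(W.a₁ * x + W.a₃) := ⟨_, mul_div_cancel₀ _ h2⟩
  have hr' := congrArg (Int.cast : ℤ → ZMod q) hr
  simp only [WeierstrassCurve.b₂, WeierstrassCurve.b₄, WeierstrassCurve.b₆] at hr'
  push_cast at hr'
  rw [← hx] at hr'
  have hxy : y ^ 2 + W.a₁ * x * y + W.a₃ * y = x ^ 3 + W.a₂ * x ^ 2 + W.a₄ * x + W.a₆ := by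
    have h64 : (64 : ZMod q) ≠ 0 := by
      rw [show (64 : ZMod q) = 4 * 4 * 4 by norm_num]
      exact mul_ne_zero (mul_ne_zero h4 h4) h4
    apply mul_left_cancel₀ h64
    linear_combination 16 * (2 * y + W.a₁ * x + W.a₃) * hy - hr'
  refine two_dvd_card_of (GenusOne.nonsingular_of hd hxy) ?_
  linear_combination hy

end Even

theorem odd_a₁ {W : WeierstrassCurve ℤ} (hd : ¬ (2 : ℤ) ∣ W.Δ) {r : ℤ}
    (hr : r ^ 3 + W.b₂ * r ^ 2 + 8 * W.b₄ * r + 16 * W.b₆ = 0) : ¬ (2 : ℤ) ∣ W.a₁ := by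
  rintro ⟨a, ha⟩
  obtain ⟨b, hb⟩ : ∃ b : ℤ, W.b₂ = 4 * b := ⟨a ^ 2 + W.a₂, by
    rw [WeierstrassCurve.b₂, ha]; ring⟩
  have h6 : ¬ (2 : ℤ) ∣ W.b₆ := by
    rintro ⟨c, hc⟩
    apply hd
    rw [WeierstrassCurve.Δ, hb, hc]
    exact ⟨-8 * b ^ 2 * W.b₈ - 4 * W.b₄ ^ 3 - 54 * c ^ 2 + 36 * b * W.b₄ * c, by ring⟩
  have h1 : (2 : ℤ) ∣ r := by
    apply Int.prime_two.dvd_of_dvd_pow (n := 3)
    exact ⟨-(2 * b * r ^ 2 + 4 * W.b₄ * r + 8 * W.b₆), by rw [hb] at hr; linear_combination hr⟩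
  obtain ⟨s, rfl⟩ := h1
  have hs : s ^ 3 + 2 * b * s ^ 2 + 2 * W.b₄ * s + 2 * W.b₆ = 0 := by
    rw [hb] at hr
    have : 8 * (s ^ 3 + 2 * b * s ^ 2 + 2 * W.b₄ * s + 2 * W.b₆) = 0 := by
      linear_combination hr
    omega
  have h2 : (2 : ℤ) ∣ s := by
    apply Int.prime_two.dvd_of_dvd_pow (n := 3)
    exact ⟨-(b * s ^ 2 + W.b₄ * s + W.b₆), by linear_combination hs⟩
  obtain ⟨t, rfl⟩ := h2
  apply h6
  exact ⟨-(2 * t ^ 3 + 2 * b * t ^ 2 + W.b₄ * t), by linarith⟩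

lemma zmod_two_eq_one {z : ZMod 2} (hz : z ≠ 0) : z = 1 := by
  revert z
  decide

lemma zmod_two_sq (z : ZMod 2) : z ^ 2 = z := by
  revert z
  decide

lemma zmod_two_two : (2 : ZMod 2) = 0 := by decide

theorem even_card_two {W : WeierstrassCurve ℤ} (hd : ¬ (2 : ℤ) ∣ W.Δ) {r : ℤ}
    (hr : r ^ 3 + W.b₂ * r ^ 2 + 8 * W.b₄ * r + 16 * W.b₆ = 0) :
    2 ∣ (W.reductionMod 2).card := by
  have : Fact (Nat.Prime 2) := ⟨Nat.prime_two⟩
  have h1 : (W.a₁ : ZMod 2) = 1 := by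
    have h2 := odd_a₁ hd hr
    exact zmod_two_eq_one fun h0 =>
      h2 ((ZMod.intCast_zmod_eq_zero_iff_dvd _ _).mp h0)
  have h2 : (2 : ZMod 2) = 0 := zmod_two_two
  have hxy : (W.a₃ ^ 3 + W.a₂ * W.a₃ ^ 2 + W.a₄ * W.a₃ + W.a₆ : ZMod 2) ^ 2 +
      W.a₁ * W.a₃ * (W.a₃ ^ 3 + W.a₂ * W.a₃ ^ 2 + W.a₄ * W.a₃ + W.a₆ : ZMod 2) +
      W.a₃ * (W.a₃ ^ 3 + W.a₂ * W.a₃ ^ 2 + W.a₄ * W.a₃ + W.a₆ : ZMod 2) =
      (W.a₃ : ZMod 2) ^ 3 + W.a₂ * W.a₃ ^ 2 + W.a₄ * W.a₃ + W.a₆ := by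
    rw [zmod_two_sq, h1]
    linear_combination (W.a₃ : ZMod 2) *
      (W.a₃ ^ 3 + W.a₂ * W.a₃ ^ 2 + W.a₄ * W.a₃ + W.a₆ : ZMod 2) * h2
  refine two_dvd_card_of (GenusOne.nonsingular_of (by exact_mod_cast hd) hxy) ?_
  rw [h1]
  linear_combination ((W.a₃ ^ 3 + W.a₂ * W.a₃ ^ 2 + W.a₄ * W.a₃ + W.a₆ : ZMod 2) + W.a₃) * h2

/-- if `W` has a rational point of order two then `#W(𝔽_q)` is even for all good primes `q`, `q = 2` included -/
theorem even_card {W : WeierstrassCurve ℤ} {r : ℤ}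
    (hr : r ^ 3 + W.b₂ * r ^ 2 + 8 * W.b₄ * r + 16 * W.b₆ = 0) {q : ℕ} (hq : q.Prime)
    (hd : ¬ (q : ℤ) ∣ W.Δ) : 2 ∣ (W.reductionMod q).card := by
  have : Fact q.Prime := ⟨hq⟩
  rcases eq_or_ne q 2 with rfl | h2
  · exact even_card_two (by exact_mod_cast hd) hr
  · exact even_card_of_odd h2 hd hr

/-- **A semistable elliptic curve over `ℚ` of prime conductor `N` with a rational point of order two has `N ≡ 1`
modulo `8`.** -/
theorem modEq_one_of_two_torsion {W : WeierstrassCurve ℤ} {N : ℕ} (hN : N.Prime)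
    (h : HasLevel W N) (hP : ∃ P : (W.map (algebraMap ℤ ℚ)).toAffine.Point, P ≠ 0 ∧ P + P = 0) :
    N ≡ 1 [MOD 8] := by
  obtain ⟨P, hP0, hP2⟩ := hP
  obtain ⟨r, hr⟩ := exists_root hP0 hP2
  have : NeZero N := ⟨hN.ne_zero⟩
  obtain ⟨f, hf, hfW⟩ := h.exists_eigenform hN.pos hN.prime.squarefree
  have h1 : 2 ∣ (N - 1) / Nat.gcd (N - 1) 12 := by
    refine dvd_of_ap_modEq hN h Nat.prime_two (fun q hq hqN => ?_) hf hfW ?_
    · have hd : ¬ (q : ℤ) ∣ W.Δ := fun hd =>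
        hqN ((Nat.prime_dvd_prime_iff_eq hq hN).1 ((h.bad q hq).2 hd))
      obtain ⟨c, hc⟩ := even_card hr hq hd
      simp only [apOfModel, traceOfFrobenius]
      refine ⟨-c, ?_⟩
      rw [hc, Nat.card_zmod]
      push_cast
      ring
    · rcases qCoeff_level hN hf with h1 | h1
      · exact ⟨1, by simpa using h1, by norm_num⟩
      · exact ⟨-1, by simpa using h1, by norm_num⟩
  exact ((Nat.modEq_iff_dvd' hN.one_lt.le).2 (two_dvd_numerator_iff.1 h1)).symm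

end Fermat.Agent.Cor.H14
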