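import Mathlib

/-!
# From bounds at primes to bounds for all coefficients

Let `a : ℕ → ℂ` be a sequence with `a 1 = 1` satisfying the Hecke relations
`a (p n) + e(p) a (n / p) = a (p) a (n)` at the primes `p ∤ N`, and suppose that the polynomials
`X² - a(p) X + e(p)` have roots of absolute value at most `p ^ w`. Then `|a(n)| ≤ d(n) n ^ w` for all `n` prime to
`N`.
-/

set_option autoImplicit false

namespace Fermat.Agent.Cor.Bounds

open Finset

/-- complete symmetric sums -/
noncomputable def csum (α β : ℂ) (k : ℕ) : ℂ := ∑ i ∈ range (k + 1), α ^ i * β ^ (k - i)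

lemma csum_zero (α β : ℂ) : csum α β 0 = 1 := by simp [csum]

lemma csum_one (α β : ℂ) : csum α β 1 = α + β := by
  simp [csum, sum_range_succ]; ring

lemma csum_succ (α β : ℂ) (k : ℕ) : csum α β (k + 1) = β * csum α β k + α ^ (k + 1) := by
  rw [csum, sum_range_succ, Nat.sub_self, pow_zero, mul_one, csum, mul_sum]
  congr 1
  apply sum_congr rfl
  intro i hi
  rw [mem_range] at hi
  rw [show k + 1 - i = (k - i) + 1 by omega, pow_succ]
  ring

lemma csum_add_two (α β : ℂ) (k : ℕ) :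
    csum α β (k + 2) + α * β * csum α β k = (α + β) * csum α β (k + 1) := by
  rw [csum_succ α β (k + 1), csum_succ α β k]
  ring

lemma norm_csum_le {α β : ℂ} {r : ℝ} (hα : ‖α‖ ≤ r) (hβ : ‖β‖ ≤ r) (k : ℕ) :
    ‖csum α β k‖ ≤ (k + 1) * r ^ k := by
  have hr : 0 ≤ r := (norm_nonneg _).trans hα
  calc ‖csum α β k‖ ≤ ∑ i ∈ range (k + 1), ‖α ^ i * β ^ (k - i)‖ := norm_sum_le _ _
    _ ≤ ∑ i ∈ range (k + 1), r ^ k := by
      apply sum_le_sum
      intro i hi
      rw [mem_range] at hi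
      rw [norm_mul, norm_pow, norm_pow]
      calc ‖α‖ ^ i * ‖β‖ ^ (k - i) ≤ r ^ i * r ^ (k - i) := by gcongr
        _ = r ^ k := by rw [← pow_add]; congr 1; omega
    _ = (k + 1) * r ^ k := by rw [sum_const, card_range, nsmul_eq_mul]; push_cast; ring

/-- the Hecke relations away from `N` -/
def HeckeRel (a : ℕ → ℂ) (N : ℕ) (e : ℕ → ℂ) : Prop :=
  ∀ p : ℕ, p.Prime → ¬ p ∣ N → ∀ n : ℕ, a (p * n) + e p * (if p ∣ n then a (n / p) else 0) = a p * a n

section

variable {a : ℕ → ℂ} {N : ℕ} {e : ℕ → ℂ} (hT : HeckeRel a N e)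

include hT in
/-- the values at `p ^ k m`, `p ∤ m` -/
lemma HeckeRel.prime_pow_mul {p : ℕ} (hp : p.Prime) (hpN : ¬ p ∣ N) {α β : ℂ} (h1 : α + β = a p)
    (h2 : α * β = e p) {m : ℕ} (hm : ¬ p ∣ m) (k : ℕ) : a (p ^ k * m) = csum α β k * a m := by
  induction k using Nat.strong_induction_on with
  | _ k ih =>
    match k, ih with
    | 0, _ => rw [pow_zero, one_mul, csum_zero, one_mul]
    | 1, _ =>
      have h := hT p hp hpN m
      rw [if_neg hm, mul_zero, add_zero] at h
      rw [pow_one, h, csum_one, h1]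
    | (k + 2), ih =>
      have h := hT p hp hpN (p ^ (k + 1) * m)
      have hd : p ∣ p ^ (k + 1) * m := Dvd.dvd.mul_right (dvd_pow_self p (Nat.succ_ne_zero k)) m
      have hq : p ^ (k + 1) * m / p = p ^ k * m := by
        rw [pow_succ, mul_assoc, mul_comm p m, ← mul_assoc, Nat.mul_div_cancel _ hp.pos]
      rw [if_pos hd, hq, ih (k + 1) (by omega), ih k (by omega)] at h
      have e1 : p ^ (k + 2) * m = p * (p ^ (k + 1) * m) := by ring
      rw [e1]
      have h3 := csum_add_two α β k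
      rw [h1, h2] at h3
      linear_combination h - a m * h3

include hT in
/-- **The bound for all `n` prime to `N`.** -/
theorem HeckeRel.norm_le (ha1 : a 1 = 1) {w : ℝ}
    (hroots : ∀ p : ℕ, p.Prime → ¬ p ∣ N → ∃ α β : ℂ, α + β = a p ∧ α * β = e p ∧
      ‖α‖ ≤ (p : ℝ) ^ w ∧ ‖β‖ ≤ (p : ℝ) ^ w)
    {n : ℕ} (hn : n ≠ 0) (hnN : n.Coprime N) : ‖a n‖ ≤ (n.divisors.card : ℝ) * (n : ℝ) ^ w := by
  induction n using Nat.strong_induction_on with
  | _ n ih =>
    by_cases h1 : n = 1
    · subst h1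
      simp [ha1]
    have hp : n.minFac.Prime := Nat.minFac_prime h1
    set p := n.minFac with hpdef
    have hpn : p ∣ n := Nat.minFac_dvd n
    have hpN : ¬ p ∣ N := fun h => hp.one_lt.ne' (Nat.dvd_one.mp (hnN ▸ Nat.dvd_gcd hpn h))
    obtain ⟨α, β, hs, hd, hα, hβ⟩ := hroots p hp hpN
    set k := n.factorization p with hk
    set m := n / p ^ k with hm
    have hpm : p ^ k * m = n := Nat.ordProj_mul_ordCompl_eq_self n p
    have hcop : Nat.Coprime p m := Nat.coprime_ordCompl hp hn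
    have hm0 : m ≠ 0 := by
      intro h
      rw [h, mul_zero] at hpm
      exact hn hpm.symm
    have hk1 : 1 ≤ k := (hp.dvd_iff_one_le_factorization hn).mp hpn
    have hlt : m < n := by
      rw [← hpm]
      exact lt_mul_left (Nat.pos_of_ne_zero hm0) (Nat.one_lt_pow (by omega) hp.one_lt)
    have hpm' : ¬ p ∣ m := (hp.coprime_iff_not_dvd).mp hcop
    have hmN : m.Coprime N := Nat.Coprime.coprime_dvd_left ⟨p ^ k, by rw [mul_comm]; exact hpm.symm⟩ hnN
    have hih := ih m hlt hm0 hmN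
    have hcard : n.divisors.card = (k + 1) * m.divisors.card := by
      rw [← hpm, Nat.Coprime.card_divisors_mul (Nat.Coprime.pow_left k hcop),
        Nat.divisors_prime_pow hp, card_map, card_range]
    have hpr : (0 : ℝ) ≤ p := Nat.cast_nonneg _
    have hpow : (n : ℝ) ^ w = ((p : ℝ) ^ w) ^ k * (m : ℝ) ^ w := by
      rw [← hpm]
      push_cast
      rw [Real.mul_rpow (by positivity) (by positivity)]
      congr 1
      rw [← Real.rpow_natCast, ← Real.rpow_mul hpr, ← Real.rpow_natCast, ← Real.rpow_mul hpr, mul_comm]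
    rw [hcard, hpow]
    calc ‖a n‖ = ‖csum α β k‖ * ‖a m‖ := by
          rw [← norm_mul, ← hT.prime_pow_mul hp hpN hs hd hpm' k, hpm]
      _ ≤ ((k + 1) * ((p : ℝ) ^ w) ^ k) * ((m.divisors.card : ℝ) * (m : ℝ) ^ w) := by
          gcongr
          exact norm_csum_le hα hβ k
      _ = _ := by push_cast; ring

end

end Fermat.Agent.Cor.Bounds
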