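import Fermat.Agent.Cor.SmallConductor
import Fermat.Agent.Cor.RootNumber
import Fermat.Agent.Cor.EulerProd
import Fermat.Agent.Cor.WeilZeta
import Fermat.Agent.Cor.Ramanujan

/-!
# The Ramanujan bound for the newform of a semistable elliptic curve; convergence for `Re s > 3/2`

Let `W` be a semistable elliptic curve over `ℚ` and `g` its newform. By Hasse's theorem (for the good primes) and
Atkin--Lehner theory (for the bad primes) `|a_n(g)| ≤ d(n) √n` for all `n ≥ 1`; so the Dirichlet series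
and the Euler product of `L(g, s)` converge absolutely for `Re s > 3/2`, and `L(g, s)` does not vanish there.

This file is not used by any of the statement files.
-/

set_option autoImplicit false

namespace Fermat.Agent.Cor.Bounds

open CongruenceSubgroup ModularFormClass WeierstrassCurve
open Fermat.Agent.Cor.EulerProd (eulerPoly)

variable {N : ℕ}

/-! ### The Hecke relations at all primes -/

/-- a normalised eigenform satisfies the Hecke relations at all primes -/
theorem heckeRel_of_eigenform {f : CuspForm (Gamma0 N) 2} (hf : f.IsNormalizedEigenform) :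
    HeckeRel (fun n => qCoeff f n) 1 (fun p => if p ∣ N then 0 else (p : ℂ)) := by
  intro p hp _ n
  beta_reduce
  rcases eq_or_ne n 0 with rfl | hn
  · have h0 : qCoeff f 0 = 0 := H22.cusp_qCoeff_zero f
    simp only [mul_zero, dvd_zero, if_true, Nat.zero_div, h0, add_zero]
  obtain ⟨k, m, hpm, rfl⟩ := Nat.exists_eq_pow_mul_and_not_dvd hn p hp.ne_one
  have hcop : ∀ j : ℕ, (p ^ j).Coprime m := fun j =>
    Nat.Coprime.pow_left j ((hp.coprime_iff_not_dvd).mpr hpm)
  have hmul : ∀ j : ℕ, qCoeff f (p ^ j * m) = qCoeff f (p ^ j) * qCoeff f m := fun j =>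
    hf.qCoeff_mul_of_coprime _ _ (hcop j)
  have e1 : p * (p ^ k * m) = p ^ (k + 1) * m := by ring
  rcases k with _ | k
  · rw [pow_zero, one_mul, if_neg hpm, mul_zero, add_zero,
      hf.qCoeff_mul_of_coprime p m ((hp.coprime_iff_not_dvd).mpr hpm)]
  · have h1 : p ∣ p ^ (k + 1) * m := Dvd.dvd.mul_right (dvd_pow_self p (Nat.succ_ne_zero k)) m
    have h2 : p ^ (k + 1) * m / p = p ^ k * m := by
      rw [pow_succ, mul_assoc, mul_comm p m, ← mul_assoc, Nat.mul_div_cancel _ hp.pos]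
    rw [if_pos h1, h2, e1, hmul, hmul, hmul, EulerProd.qCoeff_prime_pow hf hp k]
    ring

/-- **Bounds for all coefficients from bounds at primes**, for eigenforms of weight two. -/
theorem eigenform_norm_le {f : CuspForm (Gamma0 N) 2} (hf : f.IsNormalizedEigenform)
    (hgood : ∀ p : ℕ, p.Prime → ¬ p ∣ N → ∃ α β : ℂ, α + β = qCoeff f p ∧ α * β = p ∧ ‖α‖ = √p ∧
      ‖β‖ = √p)
    (hbad : ∀ p : ℕ, p.Prime → p ∣ N → ‖qCoeff f p‖ ≤ √p) {n : ℕ} (hn : n ≠ 0) :
    ‖qCoeff f n‖ ≤ n.divisors.card * √n := by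
  have h := (heckeRel_of_eigenform hf).norm_le hf.qCoeff_one (w := 1 / 2) (fun p hp _ => by
    by_cases hpN : p ∣ N
    · refine ⟨qCoeff f p, 0, by simp, by simp [hpN], ?_, ?_⟩
      · rw [← Real.sqrt_eq_rpow]; exact hbad p hp hpN
      · rw [norm_zero]; positivity
    · obtain ⟨α, β, h1, h2, h3, h4⟩ := hgood p hp hpN
      refine ⟨α, β, h1, by simp [hpN, h2], ?_, ?_⟩
      · rw [← Real.sqrt_eq_rpow, h3]
      · rw [← Real.sqrt_eq_rpow, h4]) hn (Nat.coprime_one_right n)
  rwa [← Real.sqrt_eq_rpow] at h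

/-! ### Absolute convergence -/

/-- a sequence with `|a_n| ≤ d(n) √n` has an absolutely convergent Dirichlet series for `Re s > 3/2` -/
theorem lSeriesSummable_of_norm_le {a : ℕ → ℂ} (ha : ∀ n : ℕ, n ≠ 0 → ‖a n‖ ≤ n.divisors.card * √n)
    {s : ℂ} (hs : 3 / 2 < s.re) : LSeriesSummable a s := by
  set t : ℂ := s - 1 / 2 with ht
  have htre : t.re = s.re - 1 / 2 := by
    rw [ht, Complex.sub_re]
    norm_num
  have h1 : 1 < t.re := by rw [htre]; linarith
  have h2 : LSeriesSummable (LSeries.convolution 1 1) t :=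
    (LSeriesSummable_one_iff.mpr h1).convolution (LSeriesSummable_one_iff.mpr h1)
  refine Summable.of_norm_bounded h2.norm fun n => ?_
  rcases eq_or_ne n 0 with rfl | hn
  · simp
  have h3 : LSeries.convolution (1 : ℕ → ℂ) 1 n = n.divisors.card := by
    rw [LSeries.convolution_def]
    simp only [Pi.one_apply, mul_one]
    rw [Nat.sum_divisorsAntidiagonal (f := fun _ _ => (1 : ℂ))]
    simp
  rw [LSeries.norm_term_eq, LSeries.norm_term_eq, if_neg hn, if_neg hn, h3, Complex.norm_natCast, htre]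
  have hn0 : (0 : ℝ) < n := by exact_mod_cast Nat.pos_of_ne_zero hn
  rw [Real.rpow_sub hn0, ← Real.sqrt_eq_rpow, div_div_eq_mul_div]
  gcongr
  exact ha n hn

/-! ### The Euler product -/

section Euler

variable {f : CuspForm (Gamma0 N) 2}

/-- the sum over the powers of `p` is the inverse of the local Euler factor -/
theorem tsum_prime_pow' (hf : f.IsNormalizedEigenform) {p : ℕ} (hp : p.Prime) {s : ℂ}
    (hs : LSeriesSummable (fun n ↦ qCoeff f n) s) :
    (∑' e : ℕ, LSeries.term (fun n ↦ qCoeff f n) s (p ^ e)) *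
      eulerPoly N (fun n ↦ qCoeff f n) p ((p : ℂ) ^ (-s)) = 1 := by
  set t : ℕ → ℂ := fun e ↦ LSeries.term (fun n ↦ qCoeff f n) s (p ^ e) with ht
  have hsum : Summable t := hs.comp_injective (Nat.pow_right_injective hp.two_le)
  have h0 : t 0 = 1 := by
    rw [ht]
    simp only [pow_zero]
    exact EulerProd.term_one hf s
  have h1 : t 1 = qCoeff f p * (p : ℂ) ^ (-s) := by
    rw [ht]
    simp only [pow_one]
    rw [LSeries.term_of_ne_zero hp.ne_zero, Complex.cpow_neg, div_eq_mul_inv]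
  have hS1 : ∑' e, t e = t 0 + ∑' e, t (e + 1) := hsum.tsum_eq_zero_add
  have hsum1 : Summable fun e ↦ t (e + 1) := (summable_nat_add_iff 1).mpr hsum
  have hS2 : ∑' e, t (e + 1) = t 1 + ∑' e, t (e + 2) := hsum1.tsum_eq_zero_add
  have hrec : ∑' e, t (e + 2) = qCoeff f p * (p : ℂ) ^ (-s) * ∑' e, t (e + 1) -
      (if p ∣ N then 0 else (p : ℂ)) * ((p : ℂ) ^ (-s)) ^ 2 * ∑' e, t e := by
    rw [← tsum_mul_left, ← tsum_mul_left,
      ← (hsum1.mul_left _).tsum_sub (hsum.mul_left _)]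
    exact tsum_congr fun e ↦ EulerProd.term_prime_pow hf hp s e
  rw [eulerPoly]
  rw [hrec, h1] at hS2
  rw [h0] at hS1
  have h3 : ∑' e, t (e + 1) = ∑' e, t e - 1 := by rw [hS1]; ring
  rw [h3] at hS2
  linear_combination hS2

/-- **The Euler product** in the half plane of absolute convergence. -/
theorem lSeries_hasProd' (hf : f.IsNormalizedEigenform) {s : ℂ}
    (hs : LSeriesSummable (fun n ↦ qCoeff f n) s) :
    HasProd (fun p : Nat.Primes ↦
      (eulerPoly N (fun n ↦ qCoeff f n) p (((p : ℕ) : ℂ) ^ (-s)))⁻¹)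
      (LSeries (fun n ↦ qCoeff f n) s) := by
  have h := EulerProduct.eulerProduct_hasProd (f := LSeries.term (fun n ↦ qCoeff f n) s)
    (EulerProd.term_one hf s) (fun hmn ↦ EulerProd.term_mul hf s hmn) hs.norm
    (LSeries.term_zero _ _)
  have h2 : (fun p : Nat.Primes ↦
      (eulerPoly N (fun n ↦ qCoeff f n) p (((p : ℕ) : ℂ) ^ (-s)))⁻¹) =
      fun p : Nat.Primes ↦ ∑' e : ℕ, LSeries.term (fun n ↦ qCoeff f n) s ((p : ℕ) ^ e) := by
    funext p
    exact (eq_inv_of_mul_eq_one_left (tsum_prime_pow' hf p.2 hs)).symm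
  rw [h2]
  exact h

/-- no zeros in the half plane of absolute convergence -/
theorem lSeries_ne_zero' (hf : f.IsNormalizedEigenform) {s : ℂ} (hre : 1 < s.re)
    (hs : LSeriesSummable (fun n ↦ qCoeff f n) s) : LSeries (fun n ↦ qCoeff f n) s ≠ 0 := by
  have h1 := lSeries_hasProd' hf hs
  have hA : Summable fun p : Nat.Primes ↦ ‖- qCoeff f p * ((p : ℕ) : ℂ) ^ (-s)‖ := by
    have h := hs.norm.comp_injective (Nat.Primes.coe_nat_injective)
    refine h.congr fun p ↦ ?_
    simp only [Function.comp_apply]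
    rw [LSeries.term_of_ne_zero p.2.ne_zero, Complex.cpow_neg, neg_mul, norm_neg, div_eq_mul_inv]
  have hB : Summable fun p : Nat.Primes ↦
      ‖(if (p : ℕ) ∣ N then 0 else ((p : ℕ) : ℂ)) * (((p : ℕ) : ℂ) ^ (-s)) ^ 2‖ := by
    have hs2 : 1 - 2 * s.re < -1 := by linarith
    have h := (Real.summable_nat_rpow.mpr hs2).comp_injective
      (Nat.Primes.coe_nat_injective)
    refine Summable.of_nonneg_of_le (fun _ ↦ norm_nonneg _) (fun p ↦ ?_) h
    have hp : (0 : ℝ) < (p : ℕ) := by exact_mod_cast p.2.pos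
    simp only [Function.comp_apply]
    rw [norm_mul, norm_pow, Complex.norm_natCast_cpow_of_pos p.2.pos, Complex.neg_re,
      Real.rpow_sub hp, Real.rpow_one, mul_comm (2 : ℝ), Real.rpow_mul hp.le, Real.rpow_neg hp.le,
      Real.rpow_two, inv_pow, div_eq_mul_inv]
    refine mul_le_mul_of_nonneg_right ?_ (by positivity)
    split_ifs
    · rw [norm_zero]
      exact hp.le
    · rw [Complex.norm_natCast]
  have hC : Summable fun p : Nat.Primes ↦ ‖- qCoeff f p * ((p : ℕ) : ℂ) ^ (-s) +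
      (if (p : ℕ) ∣ N then 0 else ((p : ℕ) : ℂ)) * (((p : ℕ) : ℂ) ^ (-s)) ^ 2‖ :=
    Summable.of_nonneg_of_le (fun _ ↦ norm_nonneg _) (fun p ↦ norm_add_le _ _) (hA.add hB)
  have hD : Multipliable (fun p : Nat.Primes ↦
      eulerPoly N (fun n ↦ qCoeff f n) p (((p : ℕ) : ℂ) ^ (-s))) :=
    (multipliable_one_add_of_summable hC).congr fun p ↦ by rw [eulerPoly]; ring
  have h3 := h1.mul hD.hasProd
  have h4 : (fun p : Nat.Primes ↦
      (eulerPoly N (fun n ↦ qCoeff f n) p (((p : ℕ) : ℂ) ^ (-s)))⁻¹ *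
        eulerPoly N (fun n ↦ qCoeff f n) p (((p : ℕ) : ℂ) ^ (-s))) = fun _ ↦ 1 := by
    funext p
    exact inv_mul_cancel₀ (right_ne_zero_of_mul_eq_one (tsum_prime_pow' hf p.2 hs))
  rw [h4] at h3
  exact left_ne_zero_of_mul_eq_one (h3.unique hasProd_one)

end Euler

/-! ### Semistable elliptic curves -/

section Curve

variable {W : WeierstrassCurve ℤ}

/-- **Ramanujan's bound** for the newform of a semistable elliptic curve: `|a_n| ≤ d(n) √n` for all `n ≥ 1`. -/
theorem newform_norm_le (hΔ : W.Δ ≠ 0) {g : CuspForm (Gamma0 W.conductorLevel) 2} (hg : g.IsNewform)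
    (hgW : ∀ ℓ : ℕ, ℓ.Prime → ¬ ℓ ∣ W.conductorLevel → qCoeff g ℓ = (W.apOfModel ℓ : ℂ)) {n : ℕ}
    (hn : n ≠ 0) : ‖qCoeff g n‖ ≤ n.divisors.card * √n := by
  refine eigenform_norm_le hg.1 (fun p hp hpN => ?_) (fun p hp hpN => ?_) hn
  · have hgood : W.IsGoodPrimeFor p := fun h => hpN ((W.prime_dvd_conductorLevel_iff hΔ hp).mpr h)
    rw [hgW p hp hpN]
    exact exists_roots_of_sq_le (apOfModel_sq_lt W hp hgood).le
  · have h1 : ¬ p ^ 2 ∣ W.conductorLevel := fun h => by
      have := W.squarefree_conductorLevel p (by rwa [← pow_two])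
      exact hp.one_lt.ne' (Nat.isUnit_iff.mp this)
    have h2 := (RootNumber.newformBadPrimeCoeff' W.conductorLevel_pos.ne' g hg p hp hpN).1 h1
    have h3 : ‖qCoeff g p‖ = 1 := by
      have h4 := congrArg norm h2
      rw [norm_pow, norm_one] at h4
      exact (pow_eq_one_iff_of_nonneg (norm_nonneg _) two_ne_zero).mp h4
    rw [h3]
    have h5 : (1 : ℝ) ≤ p := by exact_mod_cast hp.one_lt.le
    exact Real.one_le_sqrt.mpr h5

/-- **The `L`-function of a semistable elliptic curve**: there is a newform `g` of level the conductor of `W` with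
`a_ℓ(g) = a_ℓ(W)` for all good primes `ℓ`, such that for `Re s > 3/2` the Dirichlet series of `g` converges absolutely,
is equal to its Euler product, and is different from zero. -/
theorem lSeries_semistable (hΔ : W.Δ ≠ 0) (hW : W.IsSemistableModel) :
    ∃ g : CuspForm (Gamma0 W.conductorLevel) 2, g.IsNewform ∧
      (∀ ℓ : ℕ, ℓ.Prime → ¬ ℓ ∣ W.conductorLevel → qCoeff g ℓ = (W.apOfModel ℓ : ℂ)) ∧
      (∀ n : ℕ, n ≠ 0 → ‖qCoeff g n‖ ≤ n.divisors.card * √n) ∧
      ∀ s : ℂ, 3 / 2 < s.re → LSeriesSummable (fun n ↦ qCoeff g n) s ∧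
        HasProd (fun p : Nat.Primes ↦
          (eulerPoly W.conductorLevel (fun n ↦ qCoeff g n) p (((p : ℕ) : ℂ) ^ (-s)))⁻¹)
          (LSeries (fun n ↦ qCoeff g n) s) ∧
        LSeries (fun n ↦ qCoeff g n) s ≠ 0 := by
  obtain ⟨g, hg, hgW⟩ := SmallConductor.exists_newform W hΔ hW
  have hb : ∀ n : ℕ, n ≠ 0 → ‖qCoeff g n‖ ≤ n.divisors.card * √n := fun n hn =>
    newform_norm_le hΔ hg hgW hn
  refine ⟨g, hg, hgW, hb, fun s hs => ?_⟩
  have h1 := lSeriesSummable_of_norm_le hb hs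
  exact ⟨h1, lSeries_hasProd' hg.1 h1, lSeries_ne_zero' hg.1 (by linarith) h1⟩

end Curve

end Fermat.Agent.Cor.Bounds
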