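import Fermat.Agent.Cor.Parity
import Fermat.Agent.Cor.HasseWeil
import Fermat.Agent.Cor.AffCount
import Fermat.Agent.Cor.BadMain
import Mathlib.NumberTheory.LSeries.Deriv

/-!
# The Hasse–Weil L-function of a semistable elliptic curve over `ℚ`

For an integral Weierstrass equation `W` with `Δ ≠ 0` and a prime `p` let `ap W p = p - #{(x, y) ∈ 𝔽_p² on W}`. If
`W` is semistable this is the trace of Frobenius at the primes of good reduction and `1` (`-1`) at the primes of
split (nonsplit) multiplicative reduction. `aN W n` are the coefficients of the Euler product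
`∏_{p ∤ Δ} (1 - a_p p^(-s) + p^(1-2s))⁻¹ ∏_{p ∣ Δ} (1 - a_p p^(-s))⁻¹`.

`IsHasseWeil W L Λ` is the list of the analytic properties of the Hasse–Weil L-function `L` of `W` and of the
completed L-function `Λ`: absolute convergence and Euler product for `Re s > 3/2`, analytic continuation to an
entire function, functional equation, location of the zeros, and parity of the order of vanishing at `s = 1`.

Main result (`hasseWeil`): these properties hold for every semistable `W`.

This file is not used by any of the statement files.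
-/

set_option autoImplicit false

noncomputable section

namespace Fermat.Agent.Cor.LWeil

open CongruenceSubgroup ModularFormClass Complex
open Fermat.Agent.Cor.AffCount Fermat.Agent.Cor.LFun
open scoped Real

/-! ### Forms satisfying the Ramanujan–Petersson bound -/

section form

variable {N : ℕ} [NeZero N] {f : CuspForm (Gamma0 N) 2}

/-- If the Dirichlet series of `f` converges absolutely for `Re s > 3/2`, then its sum is the entire function
`L(f, s)` there. -/
theorem lSeries_eq_LF (hs' : ∀ s : ℂ, 3 / 2 < s.re → LSeriesSummable (fun n => qCoeff f n) s)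
    {s : ℂ} (hs : 3 / 2 < s.re) : LSeries (fun n => qCoeff f n) s = LF f s := by
  have h1 : LSeries.abscissaOfAbsConv (fun n => qCoeff f n) ≤ ((3 / 2 : ℝ) : EReal) :=
    LSeries.abscissaOfAbsConv_le_of_forall_lt_LSeriesSummable fun y hy =>
      hs' y (by rwa [Complex.ofReal_re])
  have h2 : AnalyticOnNhd ℂ (LSeries fun n => qCoeff f n) {s : ℂ | 3 / 2 < s.re} := by
    refine (LSeries_analyticOnNhd fun n => qCoeff f n).mono fun z hz => ?_
    exact lt_of_le_of_lt h1 (by exact_mod_cast hz)
  have h3 : AnalyticOnNhd ℂ (LF f) {s : ℂ | 3 / 2 < s.re} := fun z _ =>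
    (differentiable_LF f).analyticAt z
  have h4 : IsPreconnected {s : ℂ | 3 / 2 < s.re} :=
    (convex_halfSpace_re_gt (3 / 2)).isPreconnected
  have h5 : (LSeries fun n => qCoeff f n) =ᶠ[nhds (3 : ℂ)] LF f := by
    filter_upwards [(isOpen_lt continuous_const Complex.continuous_re).mem_nhds
      (show (2 : ℝ) < (3 : ℂ).re by norm_num)] with z hz
    exact lSeries_eq f hz
  exact h2.eqOn_of_preconnected_of_eventuallyEq h3 h4 (show (3 / 2 : ℝ) < (3 : ℂ).re by norm_num)
    h5 hs

/-- The trivial zeros. -/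
theorem LF_neg_nat (f : CuspForm (Gamma0 N) 2) (n : ℕ) : LF f (-n) = 0 := by
  rw [LF, ModularForm.L, Gammaℂ, Complex.Gamma_neg_nat_eq_zero, mul_zero, div_zero, mul_zero]

end form

/-! ### The definitions for an elliptic curve -/

section defs

variable (W : WeierstrassCurve ℤ)

/-- The coefficient of `p ^ (-k s)` in the Euler factor at `p`. -/
def apk (p : ℕ) : ℕ → ℤ
  | 0 => 1
  | 1 => ap W p
  | k + 2 => ap W p * apk p (k + 1) - (if (p : ℤ) ∣ W.Δ then 0 else (p : ℤ)) * apk p k

/-- The coefficients of the Hasse–Weil L-function of `W`. -/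
def aN (n : ℕ) : ℤ := if n = 0 then 0 else n.factorization.prod fun p k => apk W p k

/-- The Euler factor of `W` at `p`, as a polynomial in `X = p ^ (-s)`. -/
def eulerFactor (p : ℕ) (X : ℂ) : ℂ :=
  1 - (ap W p : ℂ) * X + (if (p : ℤ) ∣ W.Δ then 0 else (p : ℂ)) * X ^ 2

/-- The root number of a semistable equation: the product of the local root numbers `-1` (at the real place) and
`-ap W q` (at the primes of multiplicative reduction). -/
def rootNumber : ℤ := -∏ q ∈ W.conductorLevel.primeFactors, (-ap W q)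

end defs

/-- **The analytic properties of the Hasse–Weil L-function** `L` of a semistable integral Weierstrass equation `W`;
`Λ` is the completed L-function. -/
structure IsHasseWeil (W : WeierstrassCurve ℤ) (L Λ : ℂ → ℂ) : Prop where
  /-- the Dirichlet series converges absolutely for `Re s > 3/2` and `L` is its sum -/
  lSeriesHasSum : ∀ s : ℂ, 3 / 2 < s.re → LSeriesHasSum (fun n => (aN W n : ℂ)) s (L s)
  /-- the Euler product, over all primes, for `Re s > 3/2` -/
  eulerProduct : ∀ s : ℂ, 3 / 2 < s.re →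
    HasProd (fun p : Nat.Primes => (eulerFactor W p (((p : ℕ) : ℂ) ^ (-s)))⁻¹) (L s)
  /-- analytic continuation to the whole plane -/
  differentiable_L : Differentiable ℂ L
  /-- the completed L-function is entire -/
  differentiable_Λ : Differentiable ℂ Λ
  /-- the completed L-function -/
  Λ_eq : ∀ s : ℂ, (∀ n : ℕ, s ≠ -n) →
    Λ s = (W.conductorLevel : ℂ) ^ (s / 2) * (2 * π) ^ (-s) * Gamma s * L s
  /-- **the functional equation** -/
  functional_equation : ∀ s : ℂ, Λ (2 - s) = rootNumber W * Λ s
  /-- the trivial zeros -/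
  neg_nat : ∀ n : ℕ, L (-n) = 0
  /-- the other zeros are in the critical strip -/
  strip : ∀ s : ℂ, L s = 0 → (∃ n : ℕ, s = -n) ∨ (1 / 2 ≤ s.re ∧ s.re ≤ 3 / 2)
  /-- the order of vanishing at `s = 1` is finite and its parity is given by the root number -/
  parity : ∃ r : ℕ, analyticOrderAt L 1 = r ∧ (-1) ^ r = rootNumber W

variable {W : WeierstrassCurve ℤ}

theorem qCoeff_eq_aN {N : ℕ} [NeZero N] {f : CuspForm (Gamma0 N) 2} (hf : f.IsNormalizedEigenform)
    (hN : ∀ q : ℕ, q.Prime → (q ∣ N ↔ (q : ℤ) ∣ W.Δ))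
    (h : ∀ q : ℕ, q.Prime → qCoeff f q = (ap W q : ℂ)) (n : ℕ) : qCoeff f n = (aN W n : ℂ) := by
  have hp : ∀ p : ℕ, p.Prime → ∀ k : ℕ, qCoeff f (p ^ k) = (apk W p k : ℂ) := by
    intro p hp k
    induction k using Nat.twoStepInduction with
    | zero => rw [pow_zero, hf.qCoeff_one, apk, Int.cast_one]
    | one => rw [pow_one, h p hp, apk]
    | more k h1 h2 =>
      by_cases hd : p ∣ N
      · rw [hf.qCoeff_prime_pow_of_dvd p k hp hd, apk, if_pos ((hN p hp).mp hd), h p hp, h2]
        push_cast
        ring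
      · rw [hf.qCoeff_prime_pow_of_not_dvd p k hp hd, apk, if_neg (fun h' => hd ((hN p hp).mpr h')),
          h p hp, h1, h2]
        push_cast
        ring
  rw [aN]
  split_ifs with hn
  · rw [hn, Int.cast_zero]
    exact H22.cusp_qCoeff_zero f
  · rw [Nat.multiplicative_factorization (fun n => qCoeff f n) hf.qCoeff_mul_of_coprime
      hf.qCoeff_one hn, Finsupp.prod, Finsupp.prod, Int.cast_prod]
    exact Finset.prod_congr rfl fun p hp' => hp p (Nat.prime_of_mem_primeFactors
      (by rwa [Nat.support_factorization] at hp')) _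

/-- **The newform of a semistable elliptic curve** has the coefficients of the Hasse–Weil L-function. -/
theorem exists_newform (hΔ : W.Δ ≠ 0) (hW : W.IsSemistableModel) :
    ∃ g : CuspForm (Gamma0 W.conductorLevel) 2, g.IsNewform ∧
      ∀ q : ℕ, q.Prime → qCoeff g q = (ap W q : ℂ) := by
  obtain ⟨g, hg, h1, h2⟩ := Bad.exists_newform hΔ hW
  refine ⟨g, hg, fun q hq => ?_⟩
  by_cases hd : (q : ℤ) ∣ W.Δ
  · rw [h2 q hq hd, ap_eq_of_bad hq hd (hW q hq hd)]
    push_cast
    rfl
  · rw [h1 q hq hd, ap_eq_of_good hq hd]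

theorem isHasseWeil_of_newform (hΔ : W.Δ ≠ 0) {f : CuspForm (Gamma0 W.conductorLevel) 2}
    (hf : f.IsNewform) (h : ∀ q : ℕ, q.Prime → qCoeff f q = (ap W q : ℂ)) :
    IsHasseWeil W (LF f) (Lam f) := by
  have hN : ∀ q : ℕ, q.Prime → (q ∣ W.conductorLevel ↔ (q : ℤ) ∣ W.Δ) := fun q hq =>
    W.prime_dvd_conductorLevel_iff hΔ hq
  have hb : ∀ n : ℕ, n ≠ 0 → ‖qCoeff f n‖ ≤ n.divisors.card * √n := fun n hn =>
    Bounds.newform_norm_le hΔ hf (fun q hq hqN => by
      rw [h q hq, ap_eq_of_good hq (fun h' => hqN ((hN q hq).mpr h'))]) hn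
  have hS : ∀ s : ℂ, 3 / 2 < s.re → LSeriesSummable (fun n => qCoeff f n) s := fun s hs =>
    Bounds.lSeriesSummable_of_norm_le hb hs
  have hL : ∀ s : ℂ, 3 / 2 < s.re → LF f s ≠ 0 := fun s hs => by
    rw [← lSeries_eq_LF hS hs]
    exact Bounds.lSeries_ne_zero' hf.1 (by linarith) (hS s hs)
  have hw : Parity.rootNumber f = (rootNumber W : ℂ) := by
    rw [Parity.rootNumber_of_squarefree hf W.squarefree_conductorLevel, rootNumber]
    push_cast
    congr 1
    exact Finset.prod_congr rfl fun q hq => by rw [h q (Nat.prime_of_mem_primeFactors hq)]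
  have hfun : (fun n => (aN W n : ℂ)) = fun n => qCoeff f n :=
    funext fun n => (qCoeff_eq_aN hf.1 hN h n).symm
  refine ⟨fun s hs => ?_, fun s hs => ?_, differentiable_LF f, differentiable_Lam f,
    fun s hs => Lam_eq f hs, fun s => ?_, LF_neg_nat f, fun s hs => ?_,
    Parity.analyticRank f, ?_, ?_⟩
  · rw [hfun, ← lSeries_eq_LF hS hs]
    exact (hS s hs).LSeriesHasSum
  · have h1 := Bounds.lSeries_hasProd' hf.1 (hS s hs)
    rw [lSeries_eq_LF hS hs] at h1
    convert h1 using 3 with p
    rw [eulerFactor, EulerProd.eulerPoly, h p p.2]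
    simp only [hN p p.2]
  · rw [← hw]
    exact Parity.functional_equation hf s
  · by_contra hcon
    push Not at hcon
    obtain ⟨h1, h2⟩ := hcon
    by_cases h3 : 1 / 2 ≤ s.re
    · exact hL s (h2 h3) hs
    · have h4 : 3 / 2 < (2 - s).re := by
        have : (2 - s).re = 2 - s.re := by simp
        rw [this]
        linarith
      have h5 := Parity.functional_equation hf s
      rw [Lam_eq f h1, hs, mul_zero, mul_zero, Parity.Lam_eq_fac f (by linarith)] at h5
      exact mul_ne_zero (Parity.fac_ne_zero (by linarith)) (hL _ h4) h5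
  · have h1 := Parity.order_LF_ne_top hf.1 1
    rw [Parity.analyticRank, analyticOrderNatAt, ENat.natCast_toNat h1]
  · have h1 := Parity.neg_one_pow_analyticRank hf
    rw [hw] at h1
    exact_mod_cast h1

/-- **The Hasse–Weil conjecture for semistable elliptic curves over `ℚ`**: the Hasse–Weil L-function of a semistable
elliptic curve over `ℚ` has an analytic continuation to an entire function and satisfies the functional equation
`Λ(2 - s) = w Λ(s)`, `Λ(s) = N^(s/2) (2π)^(-s) Γ(s) L(s)`, where `N` is the conductor and `w` is the root number. -/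
theorem hasseWeil (W : WeierstrassCurve ℤ) (hΔ : W.Δ ≠ 0) (hW : W.IsSemistableModel) :
    ∃ L Λ : ℂ → ℂ, IsHasseWeil W L Λ := by
  obtain ⟨f, hf, h⟩ := exists_newform hΔ hW
  exact ⟨LF f, Lam f, isHasseWeil_of_newform hΔ hf h⟩

/-! ### Complements -/

/-- At the primes of bad reduction `ap W q = 1` or `-1`. -/
theorem ap_eq_one_or (hΔ : W.Δ ≠ 0) (hW : W.IsSemistableModel) {q : ℕ} (hq : q.Prime)
    (hd : (q : ℤ) ∣ W.Δ) : ap W q = 1 ∨ ap W q = -1 := by
  obtain ⟨g, hg, h⟩ := exists_newform hΔ hW
  have hqN := (W.prime_dvd_conductorLevel_iff hΔ hq).mpr hd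
  have h1 := (RootNumber.newformBadPrimeCoeff g hg q hq hqN).1 (by
    rw [pow_two]
    intro h2
    exact hq.one_lt.ne' (Nat.isUnit_iff.mp (W.squarefree_conductorLevel q h2)))
  rw [h q hq] at h1
  exact sq_eq_one_iff.mp (by exact_mod_cast h1)

/-- The root number of a semistable curve is `(-1)^(1 + m)`, where `m` is the number of primes of split
multiplicative reduction. -/
theorem rootNumber_eq (hΔ : W.Δ ≠ 0) (hW : W.IsSemistableModel) :
    rootNumber W = (-1) ^ (1 + (W.conductorLevel.primeFactors.filter (ap W · = 1)).card) := by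
  have h : ∀ q ∈ W.conductorLevel.primeFactors, -ap W q = if ap W q = 1 then -1 else 1 := by
    intro q hq
    obtain ⟨hq', hd, -⟩ := Nat.mem_primeFactors.mp hq
    rcases ap_eq_one_or hΔ hW hq' ((W.prime_dvd_conductorLevel_iff hΔ hq').mp hd) with h1 | h1 <;>
      rw [h1] <;> norm_num
  rw [rootNumber, Finset.prod_congr rfl h, Finset.prod_ite, Finset.prod_const, Finset.prod_const_one,
    mul_one, pow_add, pow_one, neg_one_mul]

theorem rootNumber_eq_one_or (hΔ : W.Δ ≠ 0) (hW : W.IsSemistableModel) :
    rootNumber W = 1 ∨ rootNumber W = -1 := by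
  rw [rootNumber_eq hΔ hW]
  exact neg_one_pow_eq_or ℤ _

/-- The L-function is determined by its Dirichlet series. -/
theorem IsHasseWeil.unique {L Λ L' Λ' : ℂ → ℂ} (h : IsHasseWeil W L Λ) (h' : IsHasseWeil W L' Λ') :
    L = L' := by
  have h1 : AnalyticOnNhd ℂ L Set.univ := fun z _ => h.differentiable_L.analyticAt z
  have h2 : AnalyticOnNhd ℂ L' Set.univ := fun z _ => h'.differentiable_L.analyticAt z
  refine h1.eq_of_eventuallyEq h2 (z₀ := 2) ?_
  filter_upwards [(isOpen_lt continuous_const Complex.continuous_re).mem_nhds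
      (show (3 / 2 : ℝ) < (2 : ℂ).re by norm_num)] with z hz
  exact (h.lSeriesHasSum z hz).unique (h'.lSeriesHasSum z hz)

/-- If the root number is `-1` then the L-function vanishes at `s = 1`. -/
theorem IsHasseWeil.one_eq_zero {L Λ : ℂ → ℂ} (h : IsHasseWeil W L Λ) (hw : rootNumber W = -1) :
    L 1 = 0 := by
  obtain ⟨r, hr, hr'⟩ := h.parity
  have h0 : r ≠ 0 := by
    rintro rfl
    rw [hw, pow_zero] at hr'
    norm_num at hr'
  by_contra hL
  have h1 := (h.differentiable_L.analyticAt 1).analyticOrderAt_eq_zero.mpr hL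
  rw [hr] at h1
  exact h0 (by exact_mod_cast h1)

/-- If there is no prime of split multiplicative reduction, or an even number of them, then the L-function vanishes
at `s = 1`. -/
theorem IsHasseWeil.one_eq_zero_of_even {L Λ : ℂ → ℂ} (h : IsHasseWeil W L Λ) (hΔ : W.Δ ≠ 0)
    (hW : W.IsSemistableModel)
    (he : Even (W.conductorLevel.primeFactors.filter (ap W · = 1)).card) : L 1 = 0 := by
  refine h.one_eq_zero ?_
  rw [rootNumber_eq hΔ hW, pow_add, he.neg_one_pow, pow_one, mul_one]

end Fermat.Agent.Cor.LWeil
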