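import Fermat.Agent.Cor.TwistForm
import Fermat.Agent.Cor.Parity
import Fermat.Agent.Cor.LWeil
import Mathlib.NumberTheory.DirichletCharacter.GaussSum
import Mathlib.Analysis.Fourier.ZMod

/-!
# The functional equation of the quadratic twists

Let `f` be a newform of weight two and level `Γ₀(N)`, `M` prime to `N` and `χ` a primitive quadratic Dirichlet
character modulo `M`. The twist `f ⊗ χ = ∑ χ(n) a_n(f) q^n` is a normalised eigenform of level `N M²` and an
eigenvector of the Fricke involution of level `N M²`; its L-function satisfies the functional equation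
`Λ(f ⊗ χ, 2 - s) = χ(-N) w(f) Λ(f ⊗ χ, s)`.

This file is not used by any of the statement files.
-/

set_option autoImplicit false

noncomputable section

namespace Fermat.Agent.Cor.TwistL

open UpperHalfPlane CongruenceSubgroup ModularForm
open ModularFormClass (qCoeff)
open scoped MatrixGroups ModularForm
open Fermat.Agent.IntStr Fermat.Agent.AL Fermat.Agent.Cor.Twist Fermat.Agent.Cor.LFun

variable {N M : ℕ} [NeZero N] [NeZero M]

/-! ### The Fricke involution and translates -/

theorem apply_translate (f : CuspForm (Gamma0 N) 2) {u v : ℤ} (h : (M : ℤ) ∣ u * v * N + 1)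
    (z : ℍ) : f (aff M M u (H22.frickeGL (N * M ^ 2) • z)) =
      (N * M ^ 2 : ℂ) * (z : ℂ) ^ 2 * wN f (aff M M v z) := by
  have hN : (N : ℂ) ≠ 0 := by exact_mod_cast NeZero.ne N
  have hM : (M : ℂ) ≠ 0 := by exact_mod_cast NeZero.ne M
  obtain ⟨a, ha⟩ := h
  let γ : SL(2, ℤ) := ⟨!![a, u; N * v, M], by
    rw [Matrix.det_fin_two_of]
    linear_combination -ha⟩
  have hγ : γ ∈ Gamma0 N := by
    rw [mem_Gamma0_iff]
    exact ⟨v, rfl⟩
  have haC : (u : ℂ) * v * N + 1 = M * a := by exact_mod_cast ha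
  set B : ℍ := aff M M v z with hB
  have hBc : (B : ℂ) = (M * z + v) / M := coe_aff M_pos M_pos v z
  have hB0 : (B : ℂ) ≠ 0 := B.ne_zero
  have hz0 : (z : ℂ) ≠ 0 := z.ne_zero
  have hB1 : (M : ℂ) * z + v ≠ 0 := by
    intro h0
    rw [h0, zero_div] at hBc
    exact hB0 hBc
  set Q : ℍ := H22.frickeGL N • B with hQ
  have hQc : (Q : ℂ) = -1 / (N * B) := coe_fricke_smul B
  have hden : denom γ Q = M * z / B := by
    rw [ModularGroup.denom_apply]
    change (((N * v : ℤ) : ℂ) * Q + (((M : ℤ)) : ℂ)) = _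
    rw [hQc, hBc]
    push_cast
    field_simp
    ring
  have hpt : γ • Q = aff M M u (H22.frickeGL (N * M ^ 2) • z) := by
    apply UpperHalfPlane.ext
    rw [coe_aff M_pos M_pos, coe_fricke_smul, coe_specialLinearGroup_apply]
    have hden' : (((((N * v : ℤ) : ℝ) : ℂ) * Q + ((((M : ℤ)) : ℝ) : ℂ))) = M * z / B := by
      rw [← hden, ModularGroup.denom_apply]
      change _ = (((N * v : ℤ) : ℂ) * Q + (((M : ℤ)) : ℂ))
      push_cast
      ring
    change ((((a : ℤ) : ℝ) : ℂ) * Q + (((u : ℤ) : ℝ) : ℂ)) /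
      ((((N * v : ℤ) : ℝ) : ℂ) * Q + ((((M : ℤ)) : ℝ) : ℂ)) = _
    rw [hden', hQc, hBc]
    push_cast
    field_simp
    linear_combination haC
  have h1 := congrFun ((isMN_coe f).slash γ hγ) Q
  rw [SL_slash_apply, hden, hpt] at h1
  have h2 : wN f B = f Q / (N * (B : ℂ) ^ 2) := wN_apply f B
  have h3 : (M * (z : ℂ) / B) ≠ 0 := div_ne_zero (mul_ne_zero hM hz0) hB0
  rw [zpow_neg, zpow_ofNat] at h1
  rw [h2, ← h1]
  field_simp

theorem sum_units {G : ZMod M → ℂ} (hG : ∀ u : ZMod M, ¬ IsUnit u → G u = 0) :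
    ∑ u : ZMod M, G u = ∑ u : (ZMod M)ˣ, G u := by
  refine (Fintype.sum_of_injective (fun u : (ZMod M)ˣ => (u : ZMod M)) Units.val_injective
    (fun u => G u) G (fun u hu => hG u fun h => hu ⟨h.unit, h.unit_spec⟩) fun _ => rfl).symm

omit [NeZero M] in
theorem chi_sq {χ : MulChar (ZMod M) ℂ} (hχ : χ.IsQuadratic) {u : ZMod M} (hu : IsUnit u) :
    χ u ^ 2 = 1 := by
  have h2 : χ u ≠ 0 := (hu.map χ).ne_zero
  rcases hχ u with h | h | h
  · exact absurd h h2
  · rw [h, one_pow]
  · rw [h]; norm_num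

/-- **The Fricke involution and twists.** -/
theorem wN_combForm (hMN : N.Coprime M) {χ : MulChar (ZMod M) ℂ} (hχ : χ.IsQuadratic)
    (f : CuspForm (Gamma0 N) 2) :
    wN (combForm (inv_of_quadratic hχ) f) =
      χ (-(N : ZMod M)) • combForm (inv_of_quadratic hχ) (wN f) := by
  have hN : (N : ℂ) ≠ 0 := by exact_mod_cast NeZero.ne N
  have hM : (M : ℂ) ≠ 0 := by exact_mod_cast NeZero.ne M
  have hunit : IsUnit (-(N : ZMod M)) := ((ZMod.isUnit_iff_coprime N M).mpr hMN).neg
  obtain ⟨n, hn⟩ := hunit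
  ext z
  have hz : (z : ℂ) ≠ 0 := z.ne_zero
  rw [wN_apply, smul_apply, smul_eq_mul]
  have e1 : combForm (inv_of_quadratic hχ) f (H22.frickeGL (N * M ^ 2) • z) =
    ∑ u : ZMod M, χ u * f (aff M M u.val (H22.frickeGL (N * M ^ 2) • z)) := rfl
  have e2 : combForm (inv_of_quadratic hχ) (wN f) z =
    ∑ u : ZMod M, χ u * wN f (aff M M u.val z) := rfl
  rw [e1, e2, sum_units fun u hu => by rw [χ.map_nonunit hu, zero_mul],
    sum_units fun u hu => by rw [χ.map_nonunit hu, zero_mul], Finset.sum_div, Finset.mul_sum]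
  refine Fintype.sum_equiv ((Equiv.inv _).trans (Equiv.mulLeft n⁻¹)) _ _ fun u => ?_
  change χ (u : ZMod M) * f (aff M M (u : ZMod M).val (H22.frickeGL (N * M ^ 2) • z)) /
    (((N * M ^ 2 : ℕ) : ℂ) * (z : ℂ) ^ 2) =
    χ (-(N : ZMod M)) * (χ ((n⁻¹ * u⁻¹ : (ZMod M)ˣ) : ZMod M) *
      wN f (aff M M ((n⁻¹ * u⁻¹ : (ZMod M)ˣ) : ZMod M).val z))
  set v : (ZMod M)ˣ := n⁻¹ * u⁻¹ with hv
  have h1 : n * v * u = 1 := by rw [hv]; group
  have h2 : -(N : ZMod M) * (v : ZMod M) * (u : ZMod M) = 1 := by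
    rw [← hn, ← Units.val_mul, ← Units.val_mul, h1, Units.val_one]
  have h3 : (M : ℤ) ∣ ((u : ZMod M).val : ℤ) * ((v : ZMod M).val : ℤ) * N + 1 := by
    rw [← ZMod.intCast_zmod_eq_zero_iff_dvd]
    push_cast
    rw [ZMod.natCast_zmod_val, ZMod.natCast_zmod_val]
    linear_combination -h2
  have h4 : χ (u : ZMod M) = χ (-(N : ZMod M)) * χ (v : ZMod M) := by
    have h5 : χ (-(N : ZMod M)) * χ (v : ZMod M) * χ (u : ZMod M) = 1 := by
      rw [← map_mul, ← map_mul, h2, map_one]
    have h6 := chi_sq hχ u.isUnit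
    linear_combination (-χ (u : ZMod M)) * h5 + χ (-(N : ZMod M)) * χ (v : ZMod M) * h6
  rw [apply_translate f h3, h4]
  push_cast
  field_simp

/-! ### Primitive quadratic characters -/

theorem sum_mul_stdAddChar {χ : DirichletCharacter ℂ M} (hχ : χ.IsPrimitive)
    (hq : MulChar.IsQuadratic χ) (n : ZMod M) :
    ∑ u : ZMod M, χ u * ZMod.stdAddChar (u * n) = χ n * gaussSum χ ZMod.stdAddChar := by
  have h1 := gaussSum_mulShift_of_isPrimitive (ZMod.stdAddChar (N := M)) hχ n
  rw [hq.inv] at h1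
  rw [← h1, gaussSum]
  refine Finset.sum_congr rfl fun u _ => ?_
  rw [AddChar.mulShift_apply, mul_comm n]

theorem gaussSum_ne_zero {χ : DirichletCharacter ℂ M} (hχ : χ.IsPrimitive) :
    gaussSum χ ZMod.stdAddChar ≠ 0 := by
  intro h
  have h1 : ZMod.dft (χ : ZMod M → ℂ) = 0 := by
    ext k
    rw [hχ.fourierTransform_eq_inv_mul_gaussSum, h, mul_zero]
    rfl
  have h2 : (χ : ZMod M → ℂ) = 0 := by
    rwa [LinearEquiv.map_eq_zero_iff] at h1
  have h3 := congrFun h2 1
  rw [map_one] at h3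
  exact one_ne_zero h3

/-- the twist by a primitive quadratic character in terms of the translates -/
theorem eq_smul_combForm {χ : DirichletCharacter ℂ M} (hχ : χ.IsPrimitive)
    (hq : MulChar.IsQuadratic χ) {f : CuspForm (Gamma0 N) 2} {g : CuspForm (Gamma0 (N * M ^ 2)) 2}
    (hg : ∀ n : ℕ, qCoeff g n = χ n * qCoeff f n) :
    g = (gaussSum χ ZMod.stdAddChar)⁻¹ • combForm (inv_of_quadratic hq) f := by
  refine cusp_ext fun n => ?_
  rw [hg, qCoeff_smul, qCoeff_combForm]
  have h1 := sum_mul_stdAddChar hχ hq (n : ZMod M)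
  change _ = (gaussSum χ ZMod.stdAddChar)⁻¹ *
    ((∑ u : ZMod M, χ u * ZMod.stdAddChar (u * (n : ZMod M))) * qCoeff f n)
  rw [h1]
  have h2 := gaussSum_ne_zero hχ
  field_simp

theorem wN_twist (hMN : N.Coprime M) {χ : DirichletCharacter ℂ M} (hχ : χ.IsPrimitive)
    (hq : MulChar.IsQuadratic χ) {f : CuspForm (Gamma0 N) 2} {ε : ℂ} (hf : wN f = ε • f)
    {g : CuspForm (Gamma0 (N * M ^ 2)) 2} (hg : ∀ n : ℕ, qCoeff g n = χ n * qCoeff f n) :
    wN g = (χ (-(N : ZMod M)) * ε) • g := by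
  have h1 : combForm (inv_of_quadratic hq) (ε • f) = ε • combForm (inv_of_quadratic hq) f := by
    refine cusp_ext fun n => ?_
    rw [qCoeff_combForm, qCoeff_smul, qCoeff_smul, qCoeff_combForm]
    ring
  rw [eq_smul_combForm hχ hq hg, wN_smul, wN_combForm hMN hq, hf, h1]
  simp only [smul_smul]
  congr 1
  ring

/-! ### The functional equation -/

variable {χ : DirichletCharacter ℂ M} {f : CuspForm (Gamma0 N) 2}
  {g : CuspForm (Gamma0 (N * M ^ 2)) 2}

/-- **Functional equation of the twist of a newform.** -/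
theorem functional_equation (hMN : N.Coprime M) (hχ : χ.IsPrimitive)
    (hq : MulChar.IsQuadratic χ) (hf : f.IsNewform)
    (hg : ∀ n : ℕ, qCoeff g n = χ n * qCoeff f n) (s : ℂ) :
    Lam g (2 - s) = χ (-(N : ZMod M)) * Parity.rootNumber f * Lam g s := by
  rw [LFun.functional_equation, wN_twist hMN hχ hq (Parity.wN_eq hf) hg, Lam_smul,
    Parity.rootNumber]
  ring

/-- **The twist of a newform** by a primitive quadratic character of conductor prime to the level: a normalised
eigenform of level `N M²` with the expected coefficients and functional equation. -/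
theorem exists_twist (hMN : N.Coprime M) (hχ : χ.IsPrimitive) (hq : MulChar.IsQuadratic χ)
    (hf : f.IsNewform) : ∃ g : CuspForm (Gamma0 (N * M ^ 2)) 2, g.IsNormalizedEigenform ∧
      (∀ n : ℕ, qCoeff g n = χ n * qCoeff f n) ∧
      wN g = (χ (-(N : ZMod M)) * RootNumber.sign f N) • g ∧
      ∀ s : ℂ, Lam g (2 - s) = χ (-(N : ZMod M)) * Parity.rootNumber f * Lam g s := by
  obtain ⟨g, h1, h2⟩ := eigen_twist hf.1 hq
  exact ⟨g, h1, h2, wN_twist hMN hχ hq (Parity.wN_eq hf) h2,
    functional_equation hMN hχ hq hf h2⟩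

omit [NeZero M] in
theorem root_eq_one_or (hMN : N.Coprime M) (hq : MulChar.IsQuadratic χ) (hf : f.IsNewform) :
    χ (-(N : ZMod M)) * Parity.rootNumber f = 1 ∨ χ (-(N : ZMod M)) * Parity.rootNumber f = -1 := by
  have h0 : IsUnit (-(N : ZMod M)) := ((ZMod.isUnit_iff_coprime N M).mpr hMN).neg
  have h1 := chi_sq hq h0
  rcases Parity.rootNumber_eq_one_or hf with h | h <;> rcases sq_eq_one_iff.mp h1 with h' | h' <;>
    rw [h, h'] <;> norm_num

/-- **Parity**: the order of vanishing at `s = 1` of the L-function of the twist is finite, and its parity is given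
by the root number. -/
theorem neg_one_pow_analyticRank (hMN : N.Coprime M) (hχ : χ.IsPrimitive)
    (hq : MulChar.IsQuadratic χ) (hf : f.IsNewform) (hge : g.IsNormalizedEigenform)
    (hg : ∀ n : ℕ, qCoeff g n = χ n * qCoeff f n) :
    (-1 : ℂ) ^ Parity.analyticRank g = χ (-(N : ZMod M)) * Parity.rootNumber f := by
  have h3 : (0 : ℝ) < (3 : ℂ).re := by norm_num
  have h0 : Lam g 3 ≠ 0 := by
    rw [Parity.Lam_eq_fac g h3]
    exact mul_ne_zero (Parity.fac_ne_zero h3) (Parity.LF_ne_zero hge (by norm_num))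
  have h := Parity.parity_of_symm (differentiable_Lam g) (functional_equation hMN hχ hq hf hg) h0
  rwa [analyticOrderNatAt, Parity.order_Lam g (by norm_num)] at h

/-- the central value of the twist vanishes if its root number is `-1` -/
theorem LF_one_eq_zero (hMN : N.Coprime M) (hχ : χ.IsPrimitive) (hq : MulChar.IsQuadratic χ)
    (hf : f.IsNewform) (hg : ∀ n : ℕ, qCoeff g n = χ n * qCoeff f n)
    (h : χ (-(N : ZMod M)) * Parity.rootNumber f = -1) : LF g 1 = 0 := by
  have h1 := functional_equation hMN hχ hq hf hg 1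
  rw [show (2 - 1 : ℂ) = 1 by norm_num, h] at h1
  have h2 : Lam g 1 = 0 := by linear_combination (1 / 2 : ℂ) * h1
  rw [Parity.Lam_eq_fac g (by norm_num)] at h2
  exact (mul_eq_zero.mp h2).resolve_left (Parity.fac_ne_zero (by norm_num))

/-! ### Semistable elliptic curves -/

/-- **The analytic properties of the twisted L-function** `L(W, χ, s) = ∑ χ(n) a_n(W) n^(-s)` of an integral
Weierstrass equation `W`, `χ` a primitive quadratic character modulo `M`: `L` is the L-function, `Λ` is the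
completed L-function. -/
structure IsTwistHasseWeil (W : WeierstrassCurve ℤ) (χ : DirichletCharacter ℂ M) (L Λ : ℂ → ℂ) :
    Prop where
  /-- the Dirichlet series converges absolutely for `Re s > 3/2` and `L` is its sum -/
  lSeriesHasSum : ∀ s : ℂ, 3 / 2 < s.re →
    LSeriesHasSum (fun n => χ n * (LWeil.aN W n : ℂ)) s (L s)
  /-- the Euler product, over all primes, for `Re s > 3/2` -/
  eulerProduct : ∀ s : ℂ, 3 / 2 < s.re →
    HasProd (fun p : Nat.Primes =>
      (LWeil.eulerFactor W p (χ (p : ℕ) * ((p : ℕ) : ℂ) ^ (-s)))⁻¹) (L s)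
  /-- analytic continuation to the whole plane -/
  differentiable_L : Differentiable ℂ L
  /-- the completed L-function is entire -/
  differentiable_Λ : Differentiable ℂ Λ
  /-- the completed L-function -/
  Λ_eq : ∀ s : ℂ, (∀ n : ℕ, s ≠ -n) →
    Λ s = ((W.conductorLevel * M ^ 2 : ℕ) : ℂ) ^ (s / 2) * (2 * Real.pi) ^ (-s) *
      Complex.Gamma s * L s
  /-- **the functional equation** -/
  functional_equation : ∀ s : ℂ,
    Λ (2 - s) = χ (-(W.conductorLevel : ZMod M)) * LWeil.rootNumber W * Λ s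
  /-- the order of vanishing at `s = 1` is finite and its parity is given by the root number -/
  parity : ∃ r : ℕ, analyticOrderAt L 1 = r ∧
    (-1) ^ r = χ (-(W.conductorLevel : ZMod M)) * LWeil.rootNumber W
  /-- the trivial zeros -/
  neg_nat : ∀ n : ℕ, L (-n) = 0
  /-- the other zeros are in the critical strip -/
  strip : ∀ s : ℂ, L s = 0 → (∃ n : ℕ, s = -n) ∨ (1 / 2 ≤ s.re ∧ s.re ≤ 3 / 2)

omit [NeZero M] in
theorem norm_chi_le {χ : DirichletCharacter ℂ M} (hq : MulChar.IsQuadratic χ) (u : ZMod M) :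
    ‖χ u‖ ≤ 1 := by
  rcases hq u with h | h | h <;> rw [h] <;> simp

theorem isTwistHasseWeil (W : WeierstrassCurve ℤ) (hΔ : W.Δ ≠ 0) (hW : W.IsSemistableModel)
    {χ : DirichletCharacter ℂ M} (hMN : W.conductorLevel.Coprime M) (hχ : χ.IsPrimitive)
    (hq : MulChar.IsQuadratic χ) : ∃ L Λ : ℂ → ℂ, IsTwistHasseWeil W χ L Λ := by
  obtain ⟨f, hf, h⟩ := LWeil.exists_newform hΔ hW
  have hN : ∀ q : ℕ, q.Prime → (q ∣ W.conductorLevel ↔ (q : ℤ) ∣ W.Δ) := fun q hq =>
    W.prime_dvd_conductorLevel_iff hΔ hq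
  have hb : ∀ n : ℕ, n ≠ 0 → ‖qCoeff f n‖ ≤ n.divisors.card * √n := fun n hn =>
    Bounds.newform_norm_le hΔ hf (fun q hq hqN => by
      rw [h q hq, AffCount.ap_eq_of_good hq (fun h' => hqN ((hN q hq).mpr h'))]) hn
  have hw : Parity.rootNumber f = (LWeil.rootNumber W : ℂ) := by
    rw [Parity.rootNumber_of_squarefree hf W.squarefree_conductorLevel, LWeil.rootNumber]
    push_cast
    congr 1
    exact Finset.prod_congr rfl fun q hq => by rw [h q (Nat.prime_of_mem_primeFactors hq)]
  obtain ⟨g, hge, hg, -, hF⟩ := exists_twist hMN hχ hq hf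
  have hgb : ∀ n : ℕ, n ≠ 0 → ‖qCoeff g n‖ ≤ n.divisors.card * √n := fun n hn => by
    rw [hg, norm_mul]
    calc ‖χ (n : ZMod M)‖ * ‖qCoeff f n‖ ≤ 1 * ‖qCoeff f n‖ :=
          mul_le_mul_of_nonneg_right (norm_chi_le hq _) (norm_nonneg _)
      _ = ‖qCoeff f n‖ := one_mul _
      _ ≤ _ := hb n hn
  have hS : ∀ s : ℂ, 3 / 2 < s.re → LSeriesSummable (fun n => qCoeff g n) s := fun s hs =>
    Bounds.lSeriesSummable_of_norm_le hgb hs
  have hfun : (fun n : ℕ => χ n * (LWeil.aN W n : ℂ)) = fun n : ℕ => qCoeff g n :=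
    funext fun n => by rw [hg, LWeil.qCoeff_eq_aN hf.1 hN h n]
  have hL : ∀ s : ℂ, 3 / 2 < s.re → LF g s ≠ 0 := fun s hs => by
    rw [← LWeil.lSeries_eq_LF hS hs]
    exact Bounds.lSeries_ne_zero' hge (by linarith) (hS s hs)
  refine ⟨LF g, Lam g, fun s hs => ?_, fun s hs => ?_, differentiable_LF g, differentiable_Lam g,
    fun s hs => Lam_eq g hs, fun s => ?_, ⟨Parity.analyticRank g, ?_, ?_⟩, LWeil.LF_neg_nat g,
    fun s hs => ?_⟩
  · rw [hfun, ← LWeil.lSeries_eq_LF hS hs]
    exact (hS s hs).LSeriesHasSum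
  · have h1 := Bounds.lSeries_hasProd' hge (hS s hs)
    rw [LWeil.lSeries_eq_LF hS hs] at h1
    convert h1 using 3 with p
    rw [LWeil.eulerFactor, EulerProd.eulerPoly, hg, h p p.2]
    by_cases hpN : (p : ℕ) ∣ W.conductorLevel
    · rw [if_pos ((hN p p.2).mp hpN), if_pos (hpN.mul_right _)]
      ring
    · rw [if_neg (fun h' => hpN ((hN p p.2).mpr h'))]
      by_cases hpM : (p : ℕ) ∣ M
      · have h0 : χ ((p : ℕ) : ZMod M) = 0 := by
          apply χ.map_nonunit
          rw [ZMod.isUnit_iff_coprime]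
          intro h'
          exact p.2.one_lt.ne' (Nat.Coprime.eq_one_of_dvd h' hpM)
        rw [if_pos ((dvd_pow hpM two_ne_zero).mul_left _), h0]
        ring
      · have hpNM : ¬ (p : ℕ) ∣ W.conductorLevel * M ^ 2 := fun h' =>
          ((Nat.Prime.dvd_mul p.2).mp h').elim hpN fun h'' => hpM (p.2.dvd_of_dvd_pow h'')
        have h0 := chi_sq hq ((ZMod.isUnit_iff_coprime p M).mpr
          ((Nat.Prime.coprime_iff_not_dvd p.2).mpr hpM))
        rw [if_neg hpNM]
        linear_combination (((p : ℕ) : ℂ) * (((p : ℕ) : ℂ) ^ (-s)) ^ 2) * h0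
  · rw [← hw]
    exact hF s
  · have h1 := Parity.order_LF_ne_top hge 1
    rw [Parity.analyticRank, analyticOrderNatAt, ENat.natCast_toNat h1]
  · rw [← hw]
    exact neg_one_pow_analyticRank hMN hχ hq hf hge hg
  · by_contra hcon
    push Not at hcon
    obtain ⟨h1, h2⟩ := hcon
    by_cases h3 : 1 / 2 ≤ s.re
    · exact hL s (h2 h3) hs
    · have h4 : 3 / 2 < (2 - s).re := by
        have : (2 - s).re = 2 - s.re := by simp
        rw [this]
        linarith
      have h5 := hF s
      rw [Lam_eq g h1, hs, mul_zero, mul_zero, Parity.Lam_eq_fac g (by linarith)] at h5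
      exact mul_ne_zero (Parity.fac_ne_zero (by linarith)) (hL _ h4) h5

omit [NeZero M] in
/-- If the root number of the twist is `-1` then `L(W, χ, 1) = 0`. -/
theorem IsTwistHasseWeil.one_eq_zero {W : WeierstrassCurve ℤ} {χ : DirichletCharacter ℂ M}
    {L Λ : ℂ → ℂ} (h : IsTwistHasseWeil W χ L Λ)
    (hw : χ (-(W.conductorLevel : ZMod M)) * LWeil.rootNumber W = -1) : L 1 = 0 := by
  obtain ⟨r, hr, hr'⟩ := h.parity
  have h0 : r ≠ 0 := by
    rintro rfl
    rw [hw, pow_zero] at hr'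
    norm_num at hr'
  by_contra hL
  have h1 := (h.differentiable_L.analyticAt 1).analyticOrderAt_eq_zero.mpr hL
  rw [hr] at h1
  exact h0 (by exact_mod_cast h1)

/-! ### Twists by the Legendre symbol -/

section legendre

variable {p : ℕ} [Fact p.Prime]

/-- the quadratic character modulo a prime `p` with values in `ℂ` -/
def legendreChar (p : ℕ) [Fact p.Prime] : DirichletCharacter ℂ p :=
  (quadraticChar (ZMod p)).ringHomComp (Int.castRingHom ℂ)

theorem legendreChar_intCast (n : ℤ) : legendreChar p (n : ZMod p) = (legendreSym p n : ℂ) := rfl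

theorem legendreChar_isQuadratic : MulChar.IsQuadratic (legendreChar p) :=
  (quadraticChar_isQuadratic (ZMod p)).comp _

theorem legendreChar_isPrimitive (hp : p ≠ 2) : (legendreChar p).IsPrimitive := by
  rw [DirichletCharacter.isPrimitive_def]
  rcases (Nat.dvd_prime Fact.out).mp (legendreChar p).conductor_dvd_level with h | h
  · exfalso
    rw [← DirichletCharacter.eq_one_iff_conductor_eq_one] at h
    refine quadraticChar_ne_one (F := ZMod p) (by rwa [ZMod.ringChar_zmod_n]) ?_
    ext u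
    have h1 : legendreChar p u = 1 := by
      rw [h]
      exact MulChar.one_apply u.isUnit
    rw [MulChar.one_apply u.isUnit]
    have h2 : ((quadraticChar (ZMod p) u : ℤ) : ℂ) = 1 := h1
    exact_mod_cast h2
  · exact h

/-- **Twists of semistable elliptic curves by the Legendre symbol**, `p` an odd prime of good reduction: the L-function
`∑ (n / p) a_n(W) n^(-s)` has an analytic continuation to an entire function, satisfies a functional equation with
root number `(-N / p) w(W)`, and the parity of its order of vanishing at `s = 1` is given by the root number. -/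
theorem isTwistHasseWeil_legendre (W : WeierstrassCurve ℤ) (hΔ : W.Δ ≠ 0)
    (hW : W.IsSemistableModel) (hp : p ≠ 2) (hpΔ : ¬ (p : ℤ) ∣ W.Δ) :
    ∃ L Λ : ℂ → ℂ, IsTwistHasseWeil W (legendreChar p) L Λ ∧
      (∀ s : ℂ, Λ (2 - s) = legendreSym p (-W.conductorLevel) * LWeil.rootNumber W * Λ s) ∧
      (∃ r : ℕ, analyticOrderAt L 1 = r ∧
        (-1) ^ r = legendreSym p (-W.conductorLevel) * LWeil.rootNumber W) := by
  have hpr : p.Prime := Fact.out
  have hco : W.conductorLevel.Coprime p := by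
    rw [Nat.coprime_comm, Nat.Prime.coprime_iff_not_dvd hpr]
    exact fun h => hpΔ ((W.prime_dvd_conductorLevel_iff hΔ hpr).mp h)
  obtain ⟨L, Λ, h⟩ := isTwistHasseWeil W hΔ hW hco (legendreChar_isPrimitive hp)
    legendreChar_isQuadratic
  have e : legendreChar p (-(W.conductorLevel : ZMod p)) =
      (legendreSym p (-W.conductorLevel) : ℂ) := by
    rw [← legendreChar_intCast]
    push_cast
    rfl
  refine ⟨L, Λ, h, fun s => ?_, ?_⟩
  · rw [h.functional_equation, e]
  · obtain ⟨r, hr, hr'⟩ := h.parity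
    refine ⟨r, hr, ?_⟩
    rw [e] at hr'
    exact_mod_cast hr'

end legendre

end Fermat.Agent.Cor.TwistL
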