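import Mathlib
import Fermat.Agent.Cor.MSD
import Fermat.Agent.Cor.TwistL

/-!
# Central values of the quadratic twists (corollary file, not used for S01)

For a newform `f` of weight two with integral eigenvalues and the primitive quadratic characters
`χ` (mod `m`) the numbers `√m L(f, χ, 1) / Ω^±` (`± = χ(-1)`) are rational with a common
denominator.
-/

set_option autoImplicit false

noncomputable section

open CongruenceSubgroup ModularFormClass Complex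

namespace Fermat.Agent.Cor.TwistQuad

open Fermat.Agent.Cor.MSD Fermat.Agent.Cor.TwistValue Fermat.Agent.Cor.CentralValue

section gauss

variable {m : ℕ} [NeZero m] {χ : DirichletCharacter ℂ m}

/-- The square of the Gauss sum of a primitive quadratic character. -/
theorem gaussSum_sq_eq (hχ : χ.IsPrimitive) (hq : MulChar.IsQuadratic χ) :
    gaussSum χ ZMod.stdAddChar ^ 2 = χ (-1) * m := by
  set τ := gaussSum χ ZMod.stdAddChar with hτ
  have hsq : χ (-1) * χ (-1) = 1 := by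
    rw [← map_mul]
    simp
  have h1 : ZMod.dft (χ : ZMod m → ℂ) = (χ (-1) * τ) • (χ : ZMod m → ℂ) := by
    ext k
    rw [hχ.fourierTransform_eq_inv_mul_gaussSum, hq.inv, ← neg_one_mul k, map_mul,
      Pi.smul_apply, smul_eq_mul]
    ring
  have h2 := ZMod.dft_dft (χ : ZMod m → ℂ)
  rw [h1, map_smul, h1] at h2
  have h3 := congrFun h2 (-1)
  simp only [Pi.smul_apply, smul_eq_mul, neg_neg, map_one, mul_one] at h3
  linear_combination (χ (-1)) * h3 + (-(χ (-1)) * χ (-1) * τ ^ 2 - τ ^ 2) * hsq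
 
theorem gaussSum_even (hχ : χ.IsPrimitive) (hq : MulChar.IsQuadratic χ) (he : χ.Even) :
    gaussSum χ ZMod.stdAddChar = √(m : ℝ) ∨ gaussSum χ ZMod.stdAddChar = -√(m : ℝ) := by
  have h1 := gaussSum_sq_eq hχ hq
  have h2 : ((√(m : ℝ) : ℝ) : ℂ) ^ 2 = m := by
    rw [← Complex.ofReal_pow, Real.sq_sqrt (Nat.cast_nonneg m)]
    simp
  rw [he, one_mul, ← h2] at h1
  exact sq_eq_sq_iff_eq_or_eq_neg.mp h1

theorem gaussSum_odd (hχ : χ.IsPrimitive) (hq : MulChar.IsQuadratic χ) (ho : χ.Odd) :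
    gaussSum χ ZMod.stdAddChar = √(m : ℝ) * I ∨ gaussSum χ ZMod.stdAddChar = -(√(m : ℝ) * I) := by
  have h1 := gaussSum_sq_eq hχ hq
  have h2 : (((√(m : ℝ) : ℝ) : ℂ) * I) ^ 2 = -1 * m := by
    rw [mul_pow, I_sq, ← Complex.ofReal_pow, Real.sq_sqrt (Nat.cast_nonneg m)]
    simp
  rw [ho, ← h2] at h1
  exact sq_eq_sq_iff_eq_or_eq_neg.mp h1

/-- Sums with a quadratic character are integral. -/
theorem exists_int_sum (hq : MulChar.IsQuadratic χ) {D : ℕ} {w : ℚ → ℚ}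
    (hw : ∀ r, ∃ k : ℤ, D * w r = k) :
    ∃ k : ℤ, (D : ℂ) * ∑ a : ZMod m, χ⁻¹ a * (w ((a.val : ℚ) / m) : ℂ) = k := by
  choose k hk using hw
  have h1 : ∀ a : ZMod m, ∃ j : ℤ, (D : ℂ) * (χ⁻¹ a * (w ((a.val : ℚ) / m) : ℂ)) = j := by
    intro a
    have h2 : (D : ℂ) * (w ((a.val : ℚ) / m) : ℂ) = k ((a.val : ℚ) / m) := by
      exact_mod_cast hk ((a.val : ℚ) / m)
    rw [hq.inv]
    rcases hq a with h | h | h
    · exact ⟨0, by rw [h]; simp⟩
    · exact ⟨k ((a.val : ℚ) / m), by rw [h, one_mul, h2]⟩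
    · exact ⟨-k ((a.val : ℚ) / m), by rw [h]; push_cast; linear_combination -h2⟩
  choose j hj using h1
  refine ⟨∑ a, j a, ?_⟩
  rw [Finset.mul_sum, Finset.sum_congr rfl fun a _ ↦ hj a]
  push_cast
  rfl

end gauss

variable {N : ℕ} [NeZero N] {f : CuspForm (Gamma0 N) 2} {Ωp Ωm : ℝ} {u v : ℚ → ℚ}

/-- **The central values of the quadratic twists** are, up to `√m`, integral multiples of
`Ω^± / D` with `D` independent of the character. -/
theorem quadratic_value (h : IsCoords f Ωp Ωm u v) :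
    ∃ D : ℕ, D ≠ 0 ∧ ∀ (m : ℕ) [NeZero m] (χ : DirichletCharacter ℂ m), χ.IsPrimitive →
      MulChar.IsQuadratic χ →
      (χ.Even → ∃ k : ℤ, (D : ℂ) * √(m : ℝ) * LT f χ 1 = k * Ωp) ∧
      (χ.Odd → ∃ k : ℤ, (D : ℂ) * √(m : ℝ) * LT f χ 1 = k * Ωm) := by
  obtain ⟨D, hD, hD'⟩ := h.denom
  refine ⟨D, hD, fun m _ χ hχ hq ↦ ?_⟩
  have hm : (m : ℂ) ≠ 0 := by exact_mod_cast NeZero.ne m
  have h2 : ((√(m : ℝ) : ℝ) : ℂ) ^ 2 = m := by
    rw [← Complex.ofReal_pow, Real.sq_sqrt (Nat.cast_nonneg m)]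
    simp
  have h4 : ((√(m : ℝ) : ℝ) : ℂ) * (((√(m : ℝ) : ℝ) : ℂ) / m) = 1 := by
    rw [← mul_div_assoc, ← pow_two, h2, div_self hm]
  refine ⟨fun he ↦ ?_, fun ho ↦ ?_⟩
  · obtain ⟨k, hk⟩ := exists_int_sum hq (fun r ↦ (hD' r).1)
    rw [h.even m χ hχ he]
    set S := ∑ a : ZMod m, χ⁻¹ a * (u ((a.val : ℚ) / m) : ℂ) with hS
    rcases gaussSum_even hχ hq he with h3 | h3
    · refine ⟨k, ?_⟩
      rw [h3, ← hk]
      linear_combination (D : ℂ) * S * Ωp * h4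
    · refine ⟨-k, ?_⟩
      rw [h3]
      push_cast
      rw [← hk]
      linear_combination (-(D : ℂ) * S * Ωp) * h4
  · obtain ⟨k, hk⟩ := exists_int_sum hq (fun r ↦ (hD' r).2)
    rw [h.odd m χ hχ ho]
    set S := ∑ a : ZMod m, χ⁻¹ a * (v ((a.val : ℚ) / m) : ℂ) with hS
    rcases gaussSum_odd hχ hq ho with h3 | h3
    · refine ⟨k, ?_⟩
      rw [h3, ← hk]
      linear_combination (-(D : ℂ) * S * Ωm * I ^ 2) * h4 - (D : ℂ) * S * Ωm * I_sq
    · refine ⟨-k, ?_⟩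
      rw [h3]
      push_cast
      rw [← hk]
      linear_combination ((D : ℂ) * S * Ωm * I ^ 2) * h4 + (D : ℂ) * S * Ωm * I_sq

/-! ### Semistable elliptic curves -/

/-- The twisted L-function of a semistable elliptic curve is `LT g χ`. -/
theorem eq_LT {W : WeierstrassCurve ℤ} {M : ℕ} [NeZero M] {g : CuspForm (Gamma0 N) 2}
    (hg : ∀ n, qCoeff g n = (LWeil.aN W n : ℂ)) {χ : DirichletCharacter ℂ M} {L Λ : ℂ → ℂ}
    (h : TwistL.IsTwistHasseWeil W χ L Λ) : L = LT g (χ : ZMod M → ℂ) := by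
  have h1 : AnalyticOnNhd ℂ L Set.univ := fun z _ => h.differentiable_L.analyticAt z
  have h2 : AnalyticOnNhd ℂ (LT g (χ : ZMod M → ℂ)) Set.univ :=
    fun z _ => (differentiable_LT g _).analyticAt z
  refine h1.eq_of_eventuallyEq h2 (z₀ := 3) ?_
  filter_upwards [(isOpen_lt continuous_const Complex.continuous_re).mem_nhds
      (show (2 : ℝ) < (3 : ℂ).re by norm_num)] with z hz
  have hz' : (2 : ℝ) < z.re := hz
  have h3 := h.lSeriesHasSum z (by linarith)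
  have h4 := lSeriesHasSum_LT g (χ : ZMod M → ℂ) hz'
  simp only [hg] at h4
  exact HasSum.unique h3 h4

/-- **The central values of the quadratic twists of a semistable elliptic curve**: for the primitive
quadratic characters `χ` of conductor `m` prime to the conductor of `W`, the number `√m L(W, χ, 1)`
is an integral multiple of `Ωp / D` (`χ` even) or `Ωm / D` (`χ` odd), where `D ≠ 0` only depends on
`W`, and `Ωp`, `Ωm i` are the least positive real and imaginary periods of the newform. -/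
theorem semistable_quadratic (W : WeierstrassCurve ℤ) (hΔ : W.Δ ≠ 0) (hW : W.IsSemistableModel) :
    ∃ (g : CuspForm (Gamma0 W.conductorLevel) 2) (Ωp Ωm : ℝ) (D : ℕ), g.IsNewform ∧
      (∀ n, qCoeff g n = (LWeil.aN W n : ℂ)) ∧ 0 < Ωp ∧ 0 < Ωm ∧ D ≠ 0 ∧
      (∀ x : ℝ, (x : ℂ) ∈ periodGroup g ↔ ∃ m : ℤ, x = m * Ωp) ∧
      (∀ x : ℝ, (x : ℂ) * I ∈ periodGroup g ↔ ∃ m : ℤ, x = m * Ωm) ∧
      ∀ (m : ℕ) [NeZero m] (χ : DirichletCharacter ℂ m), W.conductorLevel.Coprime m →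
        χ.IsPrimitive → MulChar.IsQuadratic χ →
        ∃ L Λ : ℂ → ℂ, TwistL.IsTwistHasseWeil W χ L Λ ∧
          (χ.Even → ∃ k : ℤ, (D : ℂ) * √(m : ℝ) * L 1 = k * Ωp) ∧
          (χ.Odd → ∃ k : ℤ, (D : ℂ) * √(m : ℝ) * L 1 = k * Ωm) := by
  have : NeZero W.conductorLevel := ⟨W.conductorLevel_pos.ne'⟩
  obtain ⟨g, hg, hga⟩ := LWeil.exists_newform hΔ hW
  have hN : ∀ q : ℕ, q.Prime → (q ∣ W.conductorLevel ↔ (q : ℤ) ∣ W.Δ) := fun q hq =>
    W.prime_dvd_conductorLevel_iff hΔ hq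
  have hgn : ∀ n, qCoeff g n = (LWeil.aN W n : ℂ) := LWeil.qCoeff_eq_aN hg.1 hN hga
  obtain ⟨Ωp, Ωm, u, v, h⟩ := exists_isCoords hg fun l hl _ ↦ ⟨_, hga l hl⟩
  obtain ⟨D, hD, hD'⟩ := quadratic_value h
  refine ⟨g, Ωp, Ωm, D, hg, hgn, h.pos, h.pos', hD, h.real_period, h.im_period,
    fun m _ χ hm hχ hq ↦ ?_⟩
  obtain ⟨L, Λ, hL⟩ := TwistL.isTwistHasseWeil W hΔ hW hm hχ hq
  refine ⟨L, Λ, hL, ?_⟩
  rw [eq_LT hgn hL]
  exact hD' m χ hχ hq

end Fermat.Agent.Cor.TwistQuad
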