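import Mathlib
import Fermat.Agent.Cor.CuspInt
import Fermat.Agent.Cor.TwistL
import Fermat.Agent.Cor.TwistQuad
import Fermat.Agent.Cor.H14EisTwo

/-!
# Non-vanishing in the cyclotomic `ℤ_p`-extension (corollary file, not used for S01)

Let `W` be a semistable elliptic curve over `ℚ` and `p ≥ 5` a prime of good ordinary reduction such
that `W[p]` is irreducible, `p ∤ #W(𝔽_p)` and `L(W, 1) / Ω` is a `p`-adic unit.  Then
`L(W, χ, 1) ≠ 0` for all Dirichlet characters `χ` of `p`-power order and `p`-power conductor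
(Mazur): the analytic rank of `W` over every layer of the cyclotomic `ℤ_p`-extension is zero.
-/

set_option autoImplicit false
set_option linter.style.haveILetI false

noncomputable section

open CongruenceSubgroup ModularFormClass

namespace Fermat.Agent.Cor.CycRank

open Fermat.Agent.Cor.MSD Fermat.Agent.Cor.TwistValue Fermat.Agent.Cor.CentralValue
open Fermat.Agent.Cor.CuspDenom Fermat.Agent.Cor.CuspInt

section sums

variable {p : ℕ} {K : ℚ → ℤ} {z : ℤ}

/-- The sums over all residues. -/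
def A (p : ℕ) (K : ℚ → ℤ) (n : ℕ) : ℤ := ∑ a ∈ Finset.range (p ^ n), K ((a : ℚ) / p ^ n)

theorem K_int (hK : ∀ r, K (r + 1) = K r) (k : ℤ) (r : ℚ) : K (r + k) = K r := by
  have h : Function.Periodic K 1 := hK
  have := h.int_mul k r
  rwa [mul_one] at this

theorem A_one (hT : ∀ r, z * K r = K (p * r) + ∑ b ∈ Finset.range p, K ((r + b) / p)) :
    A p K 1 = (z - 1) * K 0 := by
  have h := hT 0
  rw [mul_zero] at h
  have h1 : A p K 1 = ∑ b ∈ Finset.range p, K ((0 + b) / p) := by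
    rw [A, pow_one]
    refine Finset.sum_congr rfl fun b _ ↦ ?_
    rw [zero_add, pow_one]
  rw [h1]
  linear_combination -h

theorem A_succ (hp : 0 < p) (hK : ∀ r, K (r + 1) = K r)
    (hT : ∀ r, z * K r = K (p * r) + ∑ b ∈ Finset.range p, K ((r + b) / p)) (n : ℕ) :
    A p K (n + 2) = z * A p K (n + 1) - p * A p K n := by
  have hp' : (p : ℚ) ≠ 0 := by exact_mod_cast hp.ne'
  have h1 : z * A p K (n + 1) = ∑ a ∈ Finset.range (p ^ (n + 1)), K ((a : ℚ) / p ^ n) +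
      ∑ a ∈ Finset.range (p ^ (n + 1)), ∑ b ∈ Finset.range p,
        K (((a + b * p ^ (n + 1) : ℕ) : ℚ) / p ^ (n + 2)) := by
    rw [A, Finset.mul_sum, ← Finset.sum_add_distrib]
    refine Finset.sum_congr rfl fun a _ ↦ ?_
    rw [hT]
    congr 1
    · congr 1
      field_simp
      ring
    · refine Finset.sum_congr rfl fun b _ ↦ ?_
      congr 1
      push_cast
      field_simp
      ring
  have h2 : ∑ a ∈ Finset.range (p ^ (n + 1)), K ((a : ℚ) / p ^ n) = p * A p K n := by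
    rw [pow_succ, sum_range_split _ _ (by positivity), A, Finset.mul_sum]
    refine Finset.sum_congr rfl fun a _ ↦ ?_
    have h3 : ∀ b ∈ Finset.range p, K (((a + b * p ^ n : ℕ) : ℚ) / p ^ n) = K ((a : ℚ) / p ^ n) := by
      intro b _
      rw [← K_int hK b ((a : ℚ) / p ^ n)]
      congr 1
      push_cast
      field_simp
    rw [Finset.sum_congr rfl h3, Finset.sum_const, Finset.card_range, nsmul_eq_mul]
  have h4 : ∑ a ∈ Finset.range (p ^ (n + 1)), ∑ b ∈ Finset.range p,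
        K (((a + b * p ^ (n + 1) : ℕ) : ℚ) / p ^ (n + 2)) = A p K (n + 2) := by
    rw [A, pow_succ p (n + 1), sum_range_split _ _ (by positivity)]
  rw [h2, h4] at h1
  linear_combination -h1

theorem A_mod (hp : 0 < p) (hK : ∀ r, K (r + 1) = K r)
    (hT : ∀ r, z * K r = K (p * r) + ∑ b ∈ Finset.range p, K ((r + b) / p)) (n : ℕ) :
    (p : ℤ) ∣ A p K (n + 1) - z ^ n * (z - 1) * K 0 := by
  induction n with
  | zero =>
    rw [zero_add, A_one hT]
    simp
  | succ n ih =>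
    obtain ⟨c, hc⟩ := ih
    refine ⟨z * c - A p K n, ?_⟩
    rw [A_succ hp hK hT]
    linear_combination z * hc

theorem T_mod (hp : 0 < p) (hK : ∀ r, K (r + 1) = K r)
    (hT : ∀ r, z * K r = K (p * r) + ∑ b ∈ Finset.range p, K ((r + b) / p)) (n : ℕ) :
    (p : ℤ) ∣ (A p K (n + 2) - A p K (n + 1)) - z ^ n * (z - 1) ^ 2 * K 0 := by
  have h1 : (p : ℤ) ∣ A p K (n + 2) - z ^ (n + 1) * (z - 1) * K 0 := A_mod hp hK hT (n + 1)
  have h2 := A_mod hp hK hT n
  obtain ⟨c, hc⟩ := h1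
  obtain ⟨d, hd⟩ := h2
  exact ⟨c - d, by linear_combination hc - hd⟩

/-- The sum over the units. -/
theorem sum_units_eq (hp : p.Prime) (n : ℕ) [NeZero (p ^ (n + 1))] (K : ℚ → ℤ) :
    ∑ a : ZMod (p ^ (n + 1)), (if IsUnit a then K ((a.val : ℚ) / p ^ (n + 1)) else 0) =
      A p K (n + 1) - A p K n := by
  classical
  have hp' : (p : ℚ) ≠ 0 := by exact_mod_cast hp.ne_zero
  have hunit : ∀ a : ZMod (p ^ (n + 1)), IsUnit a ↔ ¬ p ∣ a.val := by
    intro a
    conv_lhs => rw [← ZMod.natCast_zmod_val a]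
    rw [ZMod.isUnit_iff_coprime, Nat.coprime_pow_right_iff (Nat.succ_pos n), Nat.coprime_comm,
      Nat.Prime.coprime_iff_not_dvd hp]
  have h1 : ∑ a : ZMod (p ^ (n + 1)), (if IsUnit a then K ((a.val : ℚ) / p ^ (n + 1)) else 0) =
      ∑ x ∈ Finset.range (p ^ (n + 1)), (if ¬ p ∣ x then K ((x : ℚ) / p ^ (n + 1)) else 0) := by
    refine Finset.sum_nbij' (fun a : ZMod (p ^ (n + 1)) ↦ a.val)
      (fun x ↦ (x : ZMod (p ^ (n + 1)))) ?_ ?_ ?_ ?_ ?_
    · intro a _
      exact Finset.mem_range.mpr (ZMod.val_lt a)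
    · intro x _
      exact Finset.mem_univ _
    · intro a _
      exact ZMod.natCast_zmod_val a
    · intro x hx
      exact ZMod.val_cast_of_lt (Finset.mem_range.mp hx)
    · intro a _
      simp only [hunit a]
  have h2 : A p K (n + 1) =
      ∑ x ∈ Finset.range (p ^ (n + 1)), (if ¬ p ∣ x then K ((x : ℚ) / p ^ (n + 1)) else 0) +
      ∑ x ∈ Finset.range (p ^ (n + 1)), (if p ∣ x then K ((x : ℚ) / p ^ (n + 1)) else 0) := by
    rw [A, ← Finset.sum_add_distrib]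
    refine Finset.sum_congr rfl fun x _ ↦ ?_
    by_cases h : p ∣ x <;> simp [h]
  have h3 : ∑ x ∈ Finset.range (p ^ (n + 1)), (if p ∣ x then K ((x : ℚ) / p ^ (n + 1)) else 0) =
      A p K n := by
    rw [← Finset.sum_filter, A]
    refine Finset.sum_nbij' (fun x ↦ x / p) (fun y ↦ p * y) ?_ ?_ ?_ ?_ ?_
    · intro x hx
      rw [Finset.mem_filter, Finset.mem_range] at hx
      rw [Finset.mem_range]
      apply Nat.div_lt_of_lt_mul
      rw [← pow_succ']
      exact hx.1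
    · intro y hy
      rw [Finset.mem_range] at hy
      rw [Finset.mem_filter, Finset.mem_range, pow_succ']
      exact ⟨Nat.mul_lt_mul_of_pos_left hy hp.pos, dvd_mul_right _ _⟩
    · intro x hx
      rw [Finset.mem_filter] at hx
      exact Nat.mul_div_cancel' hx.2
    · intro y _
      exact Nat.mul_div_cancel_left y hp.pos
    · intro x hx
      rw [Finset.mem_filter] at hx
      obtain ⟨y, rfl⟩ := hx.2
      congr 1
      rw [Nat.mul_div_cancel_left y hp.pos]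
      push_cast
      rw [pow_succ']
      field_simp
  rw [h1]
  linarith

/-- Non-vanishing of character sums modulo `p`. -/
theorem sum_ne_zero (hp : p.Prime) {n k : ℕ} [NeZero (p ^ (n + 1))]
    {χ : DirichletCharacter ℂ (p ^ (n + 1))} (hχ : χ ^ p ^ k = 1) {K : ℚ → ℤ}
    (hT : ¬ (p : ℤ) ∣ A p K (n + 1) - A p K n) :
    ∑ a : ZMod (p ^ (n + 1)), χ⁻¹ a * (K ((a.val : ℚ) / p ^ (n + 1)) : ℂ) ≠ 0 := by
  classical
  intro hS
  apply hT
  haveI : Fact p.Prime := ⟨hp⟩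
  obtain ⟨𝔪, h𝔪, hp𝔪⟩ := H14.exists_maximal_over hp
  haveI := h𝔪
  letI : Field (integralClosure ℤ ℂ ⧸ 𝔪) := Ideal.Quotient.field 𝔪
  have hp0 : ((p : ℕ) : integralClosure ℤ ℂ ⧸ 𝔪) = 0 := by
    rw [← map_natCast (Ideal.Quotient.mk 𝔪)]
    exact Ideal.Quotient.eq_zero_iff_mem.mpr hp𝔪
  haveI : CharP (integralClosure ℤ ℂ ⧸ 𝔪) p := (CharP.charP_iff_prime_eq_zero hp).mpr hp0
  have hpow : ∀ a : ZMod (p ^ (n + 1)), IsUnit a → (χ⁻¹ a) ^ p ^ k = 1 := by
    intro a ha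
    rw [← MulChar.pow_apply' _ (pow_ne_zero _ hp.ne_zero), inv_pow, hχ, inv_one,
      MulChar.one_apply ha]
  have hint : ∀ a : ZMod (p ^ (n + 1)), IsIntegral ℤ (χ⁻¹ a) := by
    intro a
    by_cases ha : IsUnit a
    · exact IsIntegral.of_pow (pow_pos hp.pos k) (by rw [hpow a ha]; exact isIntegral_one)
    · rw [MulChar.map_nonunit _ ha]
      exact isIntegral_zero
  let y : ZMod (p ^ (n + 1)) → integralClosure ℤ ℂ := fun a ↦ ⟨χ⁻¹ a, hint a⟩
  have hy : ∀ a, Ideal.Quotient.mk 𝔪 (y a) = if IsUnit a then 1 else 0 := by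
    intro a
    split_ifs with ha
    · have h1 : (y a) ^ p ^ k = 1 := Subtype.ext (by
        rw [SubmonoidClass.coe_pow]
        exact hpow a ha)
      have h2 : (Ideal.Quotient.mk 𝔪 (y a) - 1) ^ p ^ k = 0 := by
        rw [sub_pow_char_pow, ← map_pow, h1, map_one, one_pow, sub_self]
      exact sub_eq_zero.mp (pow_eq_zero_iff (pow_ne_zero _ hp.ne_zero) |>.mp h2)
    · have h1 : y a = 0 := Subtype.ext (MulChar.map_nonunit _ ha)
      rw [h1, map_zero]
  have h1 : ∑ a : ZMod (p ^ (n + 1)), y a * (K ((a.val : ℚ) / p ^ (n + 1)) :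
      integralClosure ℤ ℂ) = 0 := by
    apply Subtype.ext
    rw [AddSubmonoidClass.coe_finsetSum]
    simpa [y] using hS
  have h2 := congrArg (Ideal.Quotient.mk 𝔪) h1
  rw [map_sum, map_zero] at h2
  simp only [map_mul, hy, map_intCast] at h2
  have h3 : ((A p K (n + 1) - A p K n : ℤ) : integralClosure ℤ ℂ ⧸ 𝔪) = 0 := by
    rw [← sum_units_eq hp n K, Int.cast_sum, ← h2]
    refine Finset.sum_congr rfl fun a _ ↦ ?_
    split_ifs <;> simp
  exact (CharP.intCast_eq_zero_iff _ p _).mp h3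

end sums

/-- **Non-vanishing in the cyclotomic `ℤ_p`-extension.**  Let `W` be semistable, `p ≥ 5` a prime of
good reduction with `a_p ≢ 0, 1 (mod p)` and `W[p]` irreducible, and suppose that
`L(W, 1) = u(0) Ωp` with `p ∤ u(0)`.  Then `L(W, χ, 1) ≠ 0` for all primitive Dirichlet characters
`χ` modulo `p^(n+2)` of `p`-power order. -/
theorem LT_ne_zero {W : WeierstrassCurve ℤ} (hΔ : W.Δ ≠ 0) (hss : W.IsSemistableModel)
    {g : CuspForm (Gamma0 W.conductorLevel) 2} (hg : g.IsNewform)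
    (hgW : ∀ q : ℕ, q.Prime → ¬ (q : ℤ) ∣ W.Δ → qCoeff g q = (W.apOfModel q : ℂ))
    [NeZero W.conductorLevel]
    {Ωp Ωm : ℝ} {u v : ℚ → ℚ} (h : IsCoords g Ωp Ωm u v) {p : ℕ} (hp : p.Prime) (hp5 : 5 ≤ p)
    (hirr : W.ModRepIsIrreducible p) (hpΔ : ¬ (p : ℤ) ∣ W.Δ) (hord : ¬ (p : ℤ) ∣ W.apOfModel p)
    (han : ¬ (p : ℤ) ∣ W.apOfModel p - 1) (hu : ¬ (p : ℤ) ∣ (u 0).num)
    {n k : ℕ} [NeZero (p ^ (n + 2))] {χ : DirichletCharacter ℂ (p ^ (n + 2))}
    (hχ : χ.IsPrimitive) (hχk : χ ^ p ^ k = 1) : LT g χ 1 ≠ 0 := by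
  have hpp : Prime (p : ℤ) := Nat.prime_iff_prime_int.mp hp
  have hpN : ¬ p ∣ W.conductorLevel := fun hd ↦
    hpΔ ((W.prime_dvd_conductorLevel_iff hΔ hp).mp hd)
  obtain ⟨ℓ, hℓ, hℓΔ, h1, h2⟩ := exists_prime hΔ hss hp hp5 hirr W.conductorLevel_pos.ne'
  set c : ℤ := 2 * (ℓ + 1 - W.apOfModel ℓ) with hc
  have hcp : ¬ (p : ℤ) ∣ c := by
    intro hd
    rcases hpp.dvd_or_dvd hd with h6 | h6
    · have h7 := Int.le_of_dvd (by norm_num) h6
      omega
    · exact h2 h6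
  have hex : ∀ r, ∃ j : ℤ, (c : ℚ) * u r = j := by
    intro r
    obtain ⟨j, hj⟩ := (two_mul_coords h hg (fun l hl hlN ↦ ⟨_, hgW l hl fun hd ↦
      hlN ((W.prime_dvd_conductorLevel_iff hΔ hl).mpr hd)⟩) hℓ h1 (hgW ℓ hℓ hℓΔ) r).1
    exact ⟨j, by rw [hc]; push_cast; exact hj⟩
  choose K hK using hex
  have hK1 : ∀ r, K (r + 1) = K r := by
    intro r
    have : ((K (r + 1) : ℤ) : ℚ) = K r := by rw [← hK, ← hK, h.u_add_one]
    exact_mod_cast this
  have hT : ∀ r, W.apOfModel p * K r = K (p * r) + ∑ b ∈ Finset.range p, K ((r + b) / p) := by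
    intro r
    have h3 := (h.hecke hg.1 hp hpN (hgW p hp hpΔ) r).1
    have h4 : ((W.apOfModel p * K r : ℤ) : ℚ) =
        ((K (p * r) + ∑ b ∈ Finset.range p, K ((r + b) / p) : ℤ) : ℚ) := by
      push_cast
      simp only [← hK]
      rw [← Finset.mul_sum]
      linear_combination (c : ℚ) * h3
    exact_mod_cast h4
  have hK0 : ¬ (p : ℤ) ∣ K 0 := by
    intro hd
    have h3 := hK 0
    have h4 := Rat.num_div_den (u 0)
    have h5 : ((u 0).den : ℚ) ≠ 0 := by exact_mod_cast (u 0).den_nz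
    have h6 : c * (u 0).num = K 0 * (u 0).den := by
      have h7 : (c : ℚ) * (u 0).num = K 0 * (u 0).den := by
        rw [← h3]
        nth_rw 2 [← h4]
        field_simp
      exact_mod_cast h7
    have h8 : (p : ℤ) ∣ c * (u 0).num := by
      rw [h6]
      exact dvd_mul_of_dvd_left hd _
    exact (hpp.dvd_or_dvd h8).elim hcp hu
  have hTn : ¬ (p : ℤ) ∣ A p K (n + 1 + 1) - A p K (n + 1) := by
    intro hd
    have h3 := T_mod hp.pos hK1 hT n
    have h4 := (dvd_sub_right hd).mp h3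
    rcases hpp.dvd_or_dvd h4 with h5 | h5
    · rcases hpp.dvd_or_dvd h5 with h6 | h6
      · exact hord (hpp.dvd_of_dvd_pow h6)
      · exact han (hpp.dvd_of_dvd_pow h6)
    · exact hK0 h5
  have hS := sum_ne_zero hp (n := n + 1) hχk hTn
  have hodd : ¬ 2 ∣ p := fun hd ↦ by
    have := (Nat.prime_dvd_prime_iff_eq Nat.prime_two hp).mp hd
    omega
  have heven : χ.Even := by
    rcases χ.even_or_odd with he | ho
    · exact he
    · exfalso
      have h3 : (χ ^ p ^ k) (-1) = 1 := by rw [hχk, MulChar.one_apply isUnit_one.neg]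
      rw [MulChar.pow_apply' _ (pow_ne_zero _ hp.ne_zero), ho] at h3
      have h4 : Odd (p ^ k) := (Nat.odd_iff.mpr (Nat.two_dvd_ne_zero.mp hodd)).pow
      rw [h4.neg_one_pow] at h3
      norm_num at h3
  intro hL
  rw [h.even _ χ hχ heven] at hL
  have hΩ : (Ωp : ℂ) ≠ 0 := by exact_mod_cast h.pos.ne'
  have hm : ((p ^ (n + 2) : ℕ) : ℂ) ≠ 0 := by exact_mod_cast pow_ne_zero _ hp.ne_zero
  have h3 := (mul_eq_zero.mp hL).resolve_right hΩ
  have h4 := (mul_eq_zero.mp h3).resolve_left (div_ne_zero (TwistL.gaussSum_ne_zero hχ) hm)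
  apply hS
  have h5 : ∑ a : ZMod (p ^ (n + 2)), χ⁻¹ a * (K ((a.val : ℚ) / p ^ (n + 2)) : ℂ) =
      c * ∑ a : ZMod (p ^ (n + 2)), χ⁻¹ a * (u ((a.val : ℚ) / (p ^ (n + 2) : ℕ)) : ℂ) := by
    rw [Finset.mul_sum]
    refine Finset.sum_congr rfl fun a _ ↦ ?_
    have h6 : (c : ℂ) * (u ((a.val : ℚ) / p ^ (n + 2)) : ℂ) = K ((a.val : ℚ) / p ^ (n + 2)) := by
      exact_mod_cast hK ((a.val : ℚ) / p ^ (n + 2))
    rw [← h6]
    push_cast
    ring
  exact h5.trans (by rw [h4, mul_zero])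

/-- **The analytic rank in the cyclotomic `ℤ_p`-extension** (Mazur).  Let `W` be a semistable
elliptic curve over `ℚ`; write `L(W, 1) = q Ω`, `q ∈ ℚ`, with the least positive real period `Ω` of
the newform.  If `p ≥ 5` is a prime of good ordinary reduction, `W[p]` is irreducible, `p` divides
neither `#W(𝔽_p)` nor the numerator of `q`, then `L(W, χ, 1) ≠ 0` for all Dirichlet characters `χ`
of `p`-power order and conductor `p^(n+2)`. Here `L(W, χ, s)` is the entire function with Dirichlet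
series `∑ χ(n) a_n n^(-s)`; it exists, being `LT g χ`. -/
theorem semistable_cyclotomic (W : WeierstrassCurve ℤ) (hΔ : W.Δ ≠ 0) (hW : W.IsSemistableModel) :
    ∃ (g : CuspForm (Gamma0 W.conductorLevel) 2) (Ω : ℝ) (q : ℚ), g.IsNewform ∧
      (∀ n, qCoeff g n = (LWeil.aN W n : ℂ)) ∧ 0 < Ω ∧
      (∀ x : ℝ, (x : ℂ) ∈ periodGroup g ↔ ∃ m : ℤ, x = m * Ω) ∧ LFun.LF g 1 = q * Ω ∧
      ∀ p : ℕ, p.Prime → 5 ≤ p → W.ModRepIsIrreducible p → ¬ (p : ℤ) ∣ W.Δ →
        ¬ (p : ℤ) ∣ W.apOfModel p → ¬ p ∣ (W.reductionMod p).card → ¬ (p : ℤ) ∣ q.num →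
        ∀ (n k : ℕ) [NeZero (p ^ (n + 2))] (χ : DirichletCharacter ℂ (p ^ (n + 2))),
          χ.IsPrimitive → χ ^ p ^ k = 1 →
          (∃ L : ℂ → ℂ, Differentiable ℂ L ∧
            ∀ s : ℂ, 2 < s.re → LSeriesHasSum (fun n ↦ χ n * (LWeil.aN W n : ℂ)) s (L s)) ∧
          ∀ L : ℂ → ℂ, Differentiable ℂ L →
            (∀ s : ℂ, 2 < s.re → LSeriesHasSum (fun n ↦ χ n * (LWeil.aN W n : ℂ)) s (L s)) →
            L 1 ≠ 0 := by
  have : NeZero W.conductorLevel := ⟨W.conductorLevel_pos.ne'⟩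
  obtain ⟨g, hg, hga⟩ := LWeil.exists_newform hΔ hW
  have hN : ∀ q : ℕ, q.Prime → (q ∣ W.conductorLevel ↔ (q : ℤ) ∣ W.Δ) := fun q hq =>
    W.prime_dvd_conductorLevel_iff hΔ hq
  have hgn : ∀ n, qCoeff g n = (LWeil.aN W n : ℂ) := LWeil.qCoeff_eq_aN hg.1 hN hga
  obtain ⟨Ωp, Ωm, u, v, h⟩ := exists_isCoords hg fun l hl _ ↦ ⟨_, hga l hl⟩
  refine ⟨g, Ωp, u 0, hg, hgn, h.pos, h.real_period, h.zero.1,
    fun p hp hp5 hirr hpΔ hord hcard hu n k _ χ hχ hχk ↦ ⟨⟨LT g χ, differentiable_LT g _,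
      fun s hs ↦ ?_⟩, fun L hL hL' ↦ ?_⟩⟩
  · have h4 := lSeriesHasSum_LT g (χ : ZMod (p ^ (n + 2)) → ℂ) hs
    simp only [hgn] at h4
    exact h4
  · have hap : ∀ q : ℕ, q.Prime → ¬ (q : ℤ) ∣ W.Δ → qCoeff g q = (W.apOfModel q : ℂ) := by
      intro q hq hqd
      rw [hga q hq, AffCount.ap_eq_of_good hq hqd]
    have h1 : ¬ (p : ℤ) ∣ W.apOfModel p - 1 := by
      intro hd
      apply hcard
      have h4 : ((W.reductionMod p).card : ℤ) = p + 1 - W.apOfModel p := by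
        rw [WeierstrassCurve.apOfModel, WeierstrassCurve.traceOfFrobenius, Nat.card_zmod]
        ring
      have h5 : (p : ℤ) ∣ ((W.reductionMod p).card : ℤ) := by
        rw [h4, show (p : ℤ) + 1 - W.apOfModel p = p - (W.apOfModel p - 1) by ring]
        exact dvd_sub (dvd_refl _) hd
      exact_mod_cast h5
    have h2 := LT_ne_zero hΔ hW hg hap h hp hp5 hirr hpΔ hord h1 hu hχ hχk
    have h3 : L = LT g (χ : ZMod (p ^ (n + 2)) → ℂ) := by
      have h1 : AnalyticOnNhd ℂ L Set.univ := fun z _ => hL.analyticAt z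
      have h2 : AnalyticOnNhd ℂ (LT g (χ : ZMod (p ^ (n + 2)) → ℂ)) Set.univ :=
        fun z _ => (differentiable_LT g _).analyticAt z
      refine h1.eq_of_eventuallyEq h2 (z₀ := (3 : ℂ)) ?_
      filter_upwards [(isOpen_lt continuous_const Complex.continuous_re).mem_nhds
          (show (2 : ℝ) < (3 : ℂ).re by norm_num)] with z hz
      have hz' : (2 : ℝ) < z.re := hz
      have h3 := hL' z hz'
      have h4 := lSeriesHasSum_LT g (χ : ZMod (p ^ (n + 2)) → ℂ) hz'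
      simp only [hgn] at h4
      exact HasSum.unique h3 h4
    rw [h3]
    exact h2

end Fermat.Agent.Cor.CycRank
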