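import Mathlib
import Fermat.Agent.Cor.CuspDenom
import Fermat.Agent.Cor.CentralEleven
import Fermat.Agent.Cor.CycRank

/-!
# The central value for conductor 11, exactly (corollary file, not used for S01)

For a semistable elliptic curve `W` of conductor `11` with newform `g` one has
`|L(W, 1)| = Ω / 5`, with `Ω` the least positive real period of `g`.  For the good ordinary primes
`p ≥ 17` not dividing `#W(𝔽_p)` it follows that `L(W, χ, 1) ≠ 0` for all Dirichlet characters `χ` of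
`p`-power order and `p`-power conductor.
-/

set_option autoImplicit false

noncomputable section

open CongruenceSubgroup ModularFormClass Complex
open scoped MatrixGroups Real

namespace Fermat.Agent.Cor.CentralFifth

open Fermat.Agent.H16 Fermat.Agent.H16.LR Fermat.Agent.Cor.Manin Fermat.Agent.Cor.CentralValue
open Fermat.Agent.Cor.TwistValue Fermat.Agent.Cor.MSD

/-- The class of a cusp of `X₀(11)`: `0` for `∞` and `1` for `0`. -/
def dl (r : Cu) : ℤ := r.elim 0 fun q ↦ if 11 ∣ q.den then 0 else 1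

theorem dl_cv {a b : ℤ} (h : IsCoprime a b) : dl (cv a b) = if (11 : ℤ) ∣ b then 0 else 1 := by
  by_cases hb : b = 0
  · subst hb
    simp [cv, dl]
  · have hb' : (b : ℚ) ≠ 0 := by exact_mod_cast hb
    have hcop : Nat.Coprime a.natAbs b.natAbs := Int.isCoprime_iff_gcd_eq_one.mp h
    rw [cv_of_ne hb']
    have h1 : (((a : ℚ) / b).den : ℤ) = |b| := by
      rcases lt_or_gt_of_ne hb with h0 | h0
      · rw [abs_of_neg h0, show ((a : ℚ) / b) = ((-a : ℤ) : ℚ) / ((-b : ℤ) : ℚ) by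
          push_cast; rw [neg_div_neg_eq]]
        exact Rat.den_div_eq_of_coprime (by omega) (by rw [Int.natAbs_neg, Int.natAbs_neg]; exact hcop)
      · rw [abs_of_pos h0]
        exact Rat.den_div_eq_of_coprime h0 hcop
    have h2 : 11 ∣ ((a : ℚ) / b).den ↔ (11 : ℤ) ∣ b := by
      rw [← dvd_abs (11 : ℤ) b, ← h1]
      exact Int.natCast_dvd_natCast.symm
    simp [dl, h2]

variable {N : ℕ} [NeZero N] {f : CuspForm (Gamma0 N) 2}

/-- The special values of `k`. -/
def KK' : Finset ℤ := {1, -1, 2, -2, 3, -3}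

theorem cases_mod : ∀ c d : ZMod 11, c = 0 ∨ d = 0 ∨ (∃ k ∈ KK', c * k + d = 0) ∨
    ∃ k ∈ KK', c - k * d = 0 := by
  decide

theorem lam_eq_LR (r s : ℚ) : 2 * π * I * lam ⇑f (r : Cu) (s : Cu) = LR f r 1 - LR f s 1 := by
  have hS := isSymb_lam f
  rw [LR_one, LR_one, ← hS.add (r : Cu) OnePoint.infty (s : Cu), hS.symm (s : Cu) OnePoint.infty]
  ring

theorem cv_one_k {k : ℤ} (hk : k ≠ 0) : cv 1 k = (((1 : ℚ) / k : ℚ) : Cu) := by
  rw [cv_of_ne (by exact_mod_cast hk)]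

theorem cv_zero_one : cv 0 1 = ((0 : ℚ) : Cu) := by rw [cv_one]

theorem edge (hN : N = 11) {Λ : AddSubgroup ℂ}
    (h1 : ∀ k ∈ KK', LR f ((1 : ℚ) / k) 1 - LR f 0 1 ∈ Λ) (g : SL(2, ℤ)) :
    2 * π * I * lam ⇑f (ι g • ((0 : ℚ) : Cu)) (ι g • (OnePoint.infty : Cu)) -
      ((dl (ι g • ((0 : ℚ) : Cu)) - dl (ι g • (OnePoint.infty : Cu)) : ℤ) : ℂ) * LR f 0 1 ∈ Λ := by
  have hS := isSymb_lam f
  have hdet := det_eq g
  rw [ι_zero, ι_infty]
  set a : ℤ := g 0 0
  set b : ℤ := g 0 1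
  set c : ℤ := g 1 0
  set d : ℤ := g 1 1
  have hac : IsCoprime a c := ⟨d, -b, by linear_combination hdet⟩
  have hbd : IsCoprime b d := ⟨-c, a, by linear_combination hdet⟩
  have hcd : IsCoprime c d := ⟨-b, a, by linear_combination hdet⟩
  have hac0 := ne_zero_of_coprime hac
  have hbd0 := ne_zero_of_coprime hbd
  rw [dl_cv hbd, dl_cv hac]
  have hnot : (11 : ℤ) ∣ c → (11 : ℤ) ∣ d → False := by
    intro h2 h3
    have h4 : (11 : ℤ) ∣ 1 := by
      rw [← hdet]
      exact dvd_sub (dvd_mul_of_dvd_right h3 _) (dvd_mul_of_dvd_right h2 _)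
    norm_num at h4
  by_cases hc : (11 : ℤ) ∣ c
  · have hd : ¬ (11 : ℤ) ∣ d := fun h ↦ hnot hc h
    rw [if_neg hd, if_pos hc]
    have hmem : g ∈ Gamma0 N := by
      rw [Gamma0_mem]
      exact (ZMod.intCast_zmod_eq_zero_iff_dvd _ _).mpr (by rw [hN]; exact hc)
    have h2 := hS.inv g hmem ((0 : ℚ) : Cu) OnePoint.infty
    rw [ι_zero, ι_infty] at h2
    rw [h2, ← LR_one]
    simp
  by_cases hd : (11 : ℤ) ∣ d
  · rw [if_pos hd, if_neg hc]
    have hmem : sl (-b) a (-d) c (by linear_combination hdet) ∈ Gamma0 N :=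
      sl_mem _ (by rw [hN]; exact (dvd_neg.mpr hd))
    have h2 := hS.inv _ hmem OnePoint.infty ((0 : ℚ) : Cu)
    rw [ι_zero, ι_infty] at h2
    have h3 : cv ((-b : ℤ) : ℚ) ((-d : ℤ) : ℚ) = cv b d :=
      cv_eq_of (by push_cast; ring) (by push_cast; simpa using hbd0) hbd0
    have h4 : lam ⇑f (cv b d) (cv a c) = lam ⇑f OnePoint.infty ((0 : ℚ) : Cu) := by
      rw [← h2, ← h3]
      rfl
    rw [h4, hS.symm ((0 : ℚ) : Cu) OnePoint.infty, LR_one]
    simp
  rw [if_neg hd, if_neg hc, sub_self, Int.cast_zero, zero_mul, sub_zero]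
  have h5 := cases_mod (c : ZMod 11) (d : ZMod 11)
  have hz : ∀ x : ℤ, (x : ZMod 11) = 0 ↔ (11 : ℤ) ∣ x := fun x ↦
    ZMod.intCast_zmod_eq_zero_iff_dvd x 11
  rcases h5 with h5 | h5 | ⟨k, hk, h5⟩ | ⟨k, hk, h5⟩
  · exact absurd ((hz c).mp h5) hc
  · exact absurd ((hz d).mp h5) hd
  · have hk0 : k ≠ 0 := by
      rintro rfl
      revert hk
      decide
    have h6 : (11 : ℤ) ∣ c * k + d := (hz _).mp (by push_cast; exact h5)
    have hmem : sl (-(a * k) - b) a (-(c * k) - d) c (by linear_combination hdet) ∈ Gamma0 N :=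
      sl_mem _ (by
        rw [hN]
        have := dvd_neg.mpr h6
        rwa [neg_add] at this)
    have h2 := hS.inv _ hmem (cv 1 k) (cv 0 1)
    rw [ι_sl, gq_smul_cv (by push_cast; have : ((a * d - b * c : ℤ) : ℚ) = 1 := by exact_mod_cast hdet
                             push_cast at this; linarith) (Or.inl one_ne_zero),
      gq_smul_cv (by push_cast; have : ((a * d - b * c : ℤ) : ℚ) = 1 := by exact_mod_cast hdet
                     push_cast at this; linarith) (Or.inr one_ne_zero)] at h2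
    have h3 : cv (((-(a * k) - b : ℤ) : ℚ) * 1 + (a : ℚ) * k)
        (((-(c * k) - d : ℤ) : ℚ) * 1 + (c : ℚ) * k) = cv b d := by
      have e1 : ((-(a * k) - b : ℤ) : ℚ) * 1 + (a : ℚ) * k = -b := by push_cast; ring
      have e2 : ((-(c * k) - d : ℤ) : ℚ) * 1 + (c : ℚ) * k = -d := by push_cast; ring
      rw [e1, e2]
      exact cv_eq_of (by ring) (by simpa using hbd0) hbd0
    have h4 : cv (((-(a * k) - b : ℤ) : ℚ) * 0 + (a : ℚ) * 1)
        (((-(c * k) - d : ℤ) : ℚ) * 0 + (c : ℚ) * 1) = cv a c := by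
      congr 1 <;> ring
    rw [h3, h4, cv_one_k hk0, cv_zero_one] at h2
    rw [h2, lam_eq_LR]
    exact h1 k hk
  · have hk0 : k ≠ 0 := by
      rintro rfl
      revert hk
      decide
    have h6 : (11 : ℤ) ∣ c - k * d := (hz _).mp (by push_cast; exact h5)
    have hmem : sl (a - k * b) b (c - k * d) d (by linear_combination hdet) ∈ Gamma0 N :=
      sl_mem _ (by rw [hN]; exact h6)
    have h2 := hS.inv _ hmem (cv 0 1) (cv 1 k)
    rw [ι_sl, gq_smul_cv (by push_cast; have : ((a * d - b * c : ℤ) : ℚ) = 1 := by exact_mod_cast hdet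
                             push_cast at this; linarith) (Or.inr one_ne_zero),
      gq_smul_cv (by push_cast; have : ((a * d - b * c : ℤ) : ℚ) = 1 := by exact_mod_cast hdet
                     push_cast at this; linarith) (Or.inl one_ne_zero)] at h2
    have h3 : cv (((a - k * b : ℤ) : ℚ) * 1 + (b : ℚ) * k)
        (((c - k * d : ℤ) : ℚ) * 1 + (d : ℚ) * k) = cv a c := by
      congr 1 <;> (push_cast; ring)
    have h4 : cv (((a - k * b : ℤ) : ℚ) * 0 + (b : ℚ) * 1)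
        (((c - k * d : ℤ) : ℚ) * 0 + (d : ℚ) * 1) = cv b d := by
      congr 1 <;> ring
    rw [h3, h4, cv_one_k hk0, cv_zero_one] at h2
    rw [h2, lam_eq_LR]
    have h7 := neg_mem (h1 k hk)
    rwa [neg_sub] at h7

/-- All modular symbols, given the special ones. -/
theorem lam_mem (hN : N = 11) {Λ : AddSubgroup ℂ}
    (h1 : ∀ k ∈ KK', LR f ((1 : ℚ) / k) 1 - LR f 0 1 ∈ Λ) (r s : Cu) :
    2 * π * I * lam ⇑f r s - ((dl r - dl s : ℤ) : ℂ) * LR f 0 1 ∈ Λ := by
  have hS := isSymb_lam f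
  have key := eq_zero_of_edges (f := fun r s ↦
    ((2 * π * I * lam ⇑f r s - ((dl r - dl s : ℤ) : ℂ) * LR f 0 1 : ℂ) : ℂ ⧸ Λ))
    (fun r s t ↦ by
      change ((_ + _ : ℂ) : ℂ ⧸ Λ) = _
      congr 1
      have := hS.add r s t
      push_cast
      linear_combination (2 * π * I) * this)
    (fun g ↦ (QuotientAddGroup.eq_zero_iff _).mpr (edge hN h1 g)) r s
  exact (QuotientAddGroup.eq_zero_iff _).mp key

theorem periodGroup_le (hN : N = 11) {Λ : AddSubgroup ℂ}
    (h1 : ∀ k ∈ KK', LR f ((1 : ℚ) / k) 1 - LR f 0 1 ∈ Λ) : periodGroup f ≤ Λ := by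
  intro x hx
  rw [mem_periodGroup] at hx
  obtain ⟨γ, hγ, rfl⟩ := hx
  have h2 := lam_mem hN h1 OnePoint.infty (ι γ • (OnePoint.infty : Cu))
  have hdet := det_eq γ
  have h3 : dl (ι γ • (OnePoint.infty : Cu)) = 0 := by
    rw [ι_infty, dl_cv ⟨γ 1 1, -(γ 0 1), by linear_combination hdet⟩, if_pos]
    rw [Gamma0_mem] at hγ
    have := (ZMod.intCast_zmod_eq_zero_iff_dvd _ _).mp hγ
    rw [hN] at this
    exact this
  have h4 : dl (OnePoint.infty : Cu) = 0 := rfl
  rw [h3, h4] at h2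
  simpa using h2

theorem half {w : ℚ → ℚ} (h1 : ∀ r, w (r + 1) = w r) (h2 : ∀ r, w (-r) = - w r) : w (1 / 2) = 0 := by
  have e1 := h1 (-(1 / 2))
  rw [show (-(1 / 2) + 1 : ℚ) = 1 / 2 by norm_num, h2] at e1
  linarith

/-- **The central value at level 11.** -/
theorem level_eleven (hN : N = 11) (hf : f.IsNewform) {Ωp Ωm : ℝ} {u v : ℚ → ℚ}
    (h : IsCoords f Ωp Ωm u v) (h2 : qCoeff f 2 = (-2 : ℤ)) (h3 : qCoeff f 3 = (-1 : ℤ)) :
    u 0 = 1 / 5 ∨ u 0 = -1 / 5 := by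
  have hN2 : ¬ 2 ∣ N := by rw [hN]; norm_num
  have hN3 : ¬ 3 ∣ N := by rw [hN]; norm_num
  have hv0 := h.zero.2
  have hu2 : u (1 / 2) = -4 * u 0 := by
    have h4 := (h.hecke hf.1 Nat.prime_two hN2 h2 0).1
    simp only [Finset.sum_range_succ, Finset.sum_range_zero] at h4
    norm_num at h4
    norm_num
    linarith
  have hv2 : v (1 / 2) = 0 := half h.v_add_one h.v_neg
  have hu23 : u (2 / 3) = u (1 / 3) := by
    have e1 := h.u_add_one (-(1 / 3))
    rw [show (-(1 / 3) + 1 : ℚ) = 2 / 3 by norm_num, h.u_neg] at e1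
    exact e1
  have hu3 : u (1 / 3) = -(3 / 2) * u 0 := by
    have h4 := (h.hecke hf.1 Nat.prime_three hN3 h3 0).1
    simp only [Finset.sum_range_succ, Finset.sum_range_zero] at h4
    norm_num at h4
    norm_num at hu23
    norm_num
    linarith
  have hu1 : u 1 = u 0 := by
    have := h.u_add_one 0
    rwa [zero_add] at this
  have hv1 : v 1 = 0 := by
    have := h.v_add_one 0
    rwa [zero_add, hv0] at this
  set w := v (1 / 3) with hw
  set P : ℂ := ((5 * u 0 : ℚ) : ℂ) * Ωp with hP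
  set Q : ℂ := ((5 / 2 * u 0 : ℚ) : ℂ) * Ωp + w * Ωm * I with hQ
  let Λ : AddSubgroup ℂ := AddSubgroup.closure {P, Q}
  have hPm : P ∈ Λ := AddSubgroup.subset_closure (by simp)
  have hQm : Q ∈ Λ := AddSubgroup.subset_closure (by simp)
  have hLR : ∀ k ∈ KK', LR f ((1 : ℚ) / k) 1 - LR f 0 1 ∈ Λ := by
    intro k hk
    simp only [KK', Finset.mem_insert, Finset.mem_singleton] at hk
    rw [h.eq, h.eq, hv0]
    have hneg : ∀ r : ℚ, u (1 / (-r)) = u (1 / r) ∧ v (1 / (-r)) = - v (1 / r) := fun r ↦ by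
      rw [div_neg, h.u_neg, h.v_neg]
      exact ⟨rfl, rfl⟩
    rcases hk with rfl | rfl | rfl | rfl | rfl | rfl
    · push_cast
      rw [div_one, hu1, hv1]
      simp
    · push_cast
      rw [(hneg 1).1, (hneg 1).2, div_one, hu1, hv1]
      simp
    · push_cast
      rw [hu2, hv2]
      convert neg_mem hPm using 1
      rw [hP]
      push_cast
      ring
    · push_cast
      rw [(hneg 2).1, (hneg 2).2, hu2, hv2]
      convert neg_mem hPm using 1
      rw [hP]
      push_cast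
      ring
    · push_cast
      rw [hu3, ← hw]
      convert sub_mem hQm hPm using 1
      rw [hP, hQ]
      push_cast
      ring
    · push_cast
      rw [(hneg 3).1, (hneg 3).2, hu3, ← hw]
      convert neg_mem hQm using 1
      rw [hQ]
      push_cast
      ring
  have hle := periodGroup_le hN hLR
  have hΩp : ((Ωp : ℝ) : ℂ) ∈ periodGroup f := (h.real_period Ωp).mpr ⟨1, by simp⟩
  have hΩm : ((Ωm : ℝ) : ℂ) * I ∈ periodGroup f := (h.im_period Ωm).mpr ⟨1, by simp⟩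
  obtain ⟨m, n, hmn⟩ := AddSubgroup.mem_closure_pair.mp (hle hΩp)
  obtain ⟨m', n', hmn'⟩ := AddSubgroup.mem_closure_pair.mp (hle hΩm)
  simp only [zsmul_eq_mul] at hmn hmn'
  have c1 := coords_ext (Ωp := Ωp) (Ωm := Ωm) h.pos h.pos' (a := m * (5 * u 0) + n * (5 / 2 * u 0))
    (b := n * w) (a' := 1) (b' := 0) (by
      rw [hP, hQ] at hmn
      push_cast at hmn ⊢
      linear_combination hmn)
  have c2 := coords_ext (Ωp := Ωp) (Ωm := Ωm) h.pos h.pos' (a := m' * (5 * u 0) + n' * (5 / 2 * u 0))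
    (b := n' * w) (a' := 0) (b' := 1) (by
      rw [hP, hQ] at hmn'
      push_cast at hmn' ⊢
      linear_combination hmn')
  have hn : n = 0 := by
    have h5 : (w : ℝ) ≠ 0 := fun h0 ↦ by
      have := c2.2
      rw [h0] at this
      norm_num at this
    have h6 := c1.2
    exact_mod_cast (mul_eq_zero.mp h6).resolve_right h5
  have h7 : (m : ℝ) * (5 * u 0) = 1 := by
    have := c1.1
    rw [hn] at this
    simpa using this
  have h8 : ∃ k : ℤ, 5 * u 0 = k := by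
    have h9 := mul_LF_one_mem hf.1 Nat.prime_two hN2
    rw [h2, h.zero.1] at h9
    have h10 : ((5 * u 0 * Ωp : ℝ) : ℂ) ∈ periodGroup f := by
      convert h9 using 1
      push_cast
      ring
    obtain ⟨k, hk⟩ := (h.real_period _).mp h10
    refine ⟨k, ?_⟩
    have h11 : (5 * u 0 : ℝ) = k := mul_right_cancel₀ h.pos.ne' hk
    exact_mod_cast h11
  obtain ⟨k, hk⟩ := h8
  have h9 : m * k = 1 := by
    have : (m : ℝ) * ((5 * u 0 : ℚ) : ℝ) = 1 := by
      push_cast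
      exact h7
    rw [hk] at this
    exact_mod_cast this
  rcases Int.eq_one_or_neg_one_of_mul_eq_one' h9 with h10 | h10
  · left
    rw [h10.2] at hk
    push_cast at hk
    linarith
  · right
    rw [h10.2] at hk
    push_cast at hk
    linarith

theorem a_two (W : WeierstrassCurve ℤ) (hΔ : W.Δ ≠ 0) (hW : W.IsSemistableModel)
    (h11 : W.conductorLevel = 11) : W.apOfModel 2 = -2 ∧ W.apOfModel 3 = -1 := by
  have hE : ∀ l : ℕ, l.Prime → ¬ l ∣ 11 → W.apOfModel l = GenusOne.E11.apOfModel l := fun l hl hd ↦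
    GenusOne.ap_eq_of_conductorLevel_eq W GenusOne.E11 hΔ (by rw [GenusOne.E11_Δ]; decide) hW
      GenusOne.E11_semistable (by rw [h11, GenusOne.conductorLevel_E11]) (by rw [h11]; decide) l hl
      (by rw [h11]; exact hd)
  rw [hE 2 Nat.prime_two (by decide), hE 3 Nat.prime_three (by decide)]
  have h2 := EigenTable.apOfModel_eq GenusOne.E11 2 (by rw [GenusOne.E11_Δ]; decide)
  have h3 : EigenTable.cnt 2 (GenusOne.E11.a₁ : ZMod 2) (GenusOne.E11.a₂ : ZMod 2)
      (GenusOne.E11.a₃ : ZMod 2) (GenusOne.E11.a₄ : ZMod 2) (GenusOne.E11.a₆ : ZMod 2) = 4 := by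
    decide
  have h4 := EigenTable.apOfModel_eq GenusOne.E11 3 (by rw [GenusOne.E11_Δ]; decide)
  have h5 : EigenTable.cnt 3 (GenusOne.E11.a₁ : ZMod 3) (GenusOne.E11.a₂ : ZMod 3)
      (GenusOne.E11.a₃ : ZMod 3) (GenusOne.E11.a₄ : ZMod 3) (GenusOne.E11.a₆ : ZMod 3) = 4 := by
    decide
  rw [h2, h4, h3, h5]
  norm_num

/-- **The central value for conductor 11.** -/
theorem conductor_eleven (W : WeierstrassCurve ℤ) (hΔ : W.Δ ≠ 0) (hW : W.IsSemistableModel)
    (h11 : W.conductorLevel = 11) :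
    ∃ (g : CuspForm (Gamma0 W.conductorLevel) 2) (Ω : ℝ), g.IsNewform ∧
      (∀ n, qCoeff g n = (LWeil.aN W n : ℂ)) ∧ 0 < Ω ∧
      (∀ x : ℝ, (x : ℂ) ∈ periodGroup g ↔ ∃ m : ℤ, x = m * Ω) ∧
      (LFun.LF g 1 = Ω / 5 ∨ LFun.LF g 1 = -Ω / 5) := by
  have : NeZero W.conductorLevel := ⟨W.conductorLevel_pos.ne'⟩
  obtain ⟨g, hg, hga⟩ := LWeil.exists_newform hΔ hW
  have hN : ∀ q : ℕ, q.Prime → (q ∣ W.conductorLevel ↔ (q : ℤ) ∣ W.Δ) := fun q hq =>
    W.prime_dvd_conductorLevel_iff hΔ hq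
  have hgn : ∀ n, qCoeff g n = (LWeil.aN W n : ℂ) := LWeil.qCoeff_eq_aN hg.1 hN hga
  obtain ⟨Ωp, Ωm, u, v, h⟩ := exists_isCoords hg fun l hl _ ↦ ⟨_, hga l hl⟩
  have hap : ∀ q : ℕ, q.Prime → ¬ q ∣ 11 → qCoeff g q = (W.apOfModel q : ℂ) := by
    intro q hq hqd
    rw [hga q hq, AffCount.ap_eq_of_good hq fun h' ↦ hqd (by rw [← h11]; exact (hN q hq).mpr h')]
  obtain ⟨e2, e3⟩ := a_two W hΔ hW h11
  have h2 := hap 2 Nat.prime_two (by decide)
  have h3 := hap 3 Nat.prime_three (by decide)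
  rw [e2] at h2
  rw [e3] at h3
  refine ⟨g, Ωp, hg, hgn, h.pos, h.real_period, ?_⟩
  rw [h.zero.1]
  rcases level_eleven h11 hg h h2 h3 with h5 | h5 <;> rw [h5]
  · left
    push_cast
    ring
  · right
    push_cast
    ring

theorem eq_LT {W : WeierstrassCurve ℤ} {M : ℕ} [NeZero M]
    (hg : ∀ n, qCoeff f n = (LWeil.aN W n : ℂ)) {χ : DirichletCharacter ℂ M} {L : ℂ → ℂ}
    (hL : Differentiable ℂ L) (hL' : ∀ s : ℂ, 2 < s.re →
      LSeriesHasSum (fun n ↦ χ n * (LWeil.aN W n : ℂ)) s (L s)) : L = LT f (χ : ZMod M → ℂ) := by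
  have h1 : AnalyticOnNhd ℂ L Set.univ := fun z _ => hL.analyticAt z
  have h2 : AnalyticOnNhd ℂ (LT f (χ : ZMod M → ℂ)) Set.univ :=
    fun z _ => (differentiable_LT f _).analyticAt z
  refine h1.eq_of_eventuallyEq h2 (z₀ := (3 : ℂ)) ?_
  filter_upwards [(isOpen_lt continuous_const Complex.continuous_re).mem_nhds
      (show (2 : ℝ) < (3 : ℂ).re by norm_num)] with z hz
  have hz' : (2 : ℝ) < z.re := hz
  have h4 := lSeriesHasSum_LT f (χ : ZMod M → ℂ) hz'
  simp only [hg] at h4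
  exact HasSum.unique (hL' z hz') h4

/-- **Conductor 11, the cyclotomic `ℤ_p`-extension.**  Let `W` be semistable of conductor `11` and
`p ≥ 17` a good ordinary prime not dividing `#W(𝔽_p)`. Then `L(W, χ, 1) ≠ 0` for ALL Dirichlet
characters `χ` of `p`-power order and conductor `p^(n+2)`. -/
theorem cyclotomic_eleven (W : WeierstrassCurve ℤ) (hΔ : W.Δ ≠ 0) (hW : W.IsSemistableModel)
    (h11 : W.conductorLevel = 11) {p : ℕ} (hp : p.Prime) (hp17 : 17 ≤ p)
    (hord : ¬ (p : ℤ) ∣ W.apOfModel p) (hcard : ¬ p ∣ (W.reductionMod p).card)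
    (n k : ℕ) [NeZero (p ^ (n + 2))] {χ : DirichletCharacter ℂ (p ^ (n + 2))}
    (hχ : χ.IsPrimitive) (hχk : χ ^ p ^ k = 1) {L : ℂ → ℂ} (hL : Differentiable ℂ L)
    (hL' : ∀ s : ℂ, 2 < s.re → LSeriesHasSum (fun n ↦ χ n * (LWeil.aN W n : ℂ)) s (L s)) :
    L 1 ≠ 0 := by
  have : NeZero W.conductorLevel := ⟨W.conductorLevel_pos.ne'⟩
  obtain ⟨g, hg, hga⟩ := LWeil.exists_newform hΔ hW
  have hN : ∀ q : ℕ, q.Prime → (q ∣ W.conductorLevel ↔ (q : ℤ) ∣ W.Δ) := fun q hq =>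
    W.prime_dvd_conductorLevel_iff hΔ hq
  have hgn : ∀ n, qCoeff g n = (LWeil.aN W n : ℂ) := LWeil.qCoeff_eq_aN hg.1 hN hga
  obtain ⟨Ωp, Ωm, u, v, h⟩ := exists_isCoords hg fun l hl _ ↦ ⟨_, hga l hl⟩
  have hap : ∀ q : ℕ, q.Prime → ¬ (q : ℤ) ∣ W.Δ → qCoeff g q = (W.apOfModel q : ℂ) := by
    intro q hq hqd
    rw [hga q hq, AffCount.ap_eq_of_good hq hqd]
  have hap' : ∀ q : ℕ, q.Prime → ¬ q ∣ 11 → qCoeff g q = (W.apOfModel q : ℂ) := fun q hq hqd ↦
    hap q hq fun h' ↦ hqd (by rw [← h11]; exact (hN q hq).mpr h')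
  obtain ⟨e2, e3⟩ := a_two W hΔ hW h11
  have h2 := hap' 2 Nat.prime_two (by decide)
  have h3 := hap' 3 Nat.prime_three (by decide)
  rw [e2] at h2
  rw [e3] at h3
  have hpΔ : ¬ (p : ℤ) ∣ W.Δ := fun hd ↦ by
    have h4 := (hN p hp).mpr hd
    rw [h11] at h4
    have := Nat.le_of_dvd (by norm_num) h4
    omega
  have hnum : ¬ (p : ℤ) ∣ (u 0).num := by
    intro hd
    have h4 : (u 0).num = 1 ∨ (u 0).num = -1 := by
      rcases level_eleven h11 hg h h2 h3 with h5 | h5 <;> rw [h5]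
      · left; norm_num
      · right; norm_num
    have h5 : (p : ℤ) ∣ 1 := by
      rcases h4 with h5 | h5 <;> rw [h5] at hd
      · exact hd
      · exact (dvd_neg (a := (p : ℤ))).mp hd
    have := Int.le_of_dvd one_pos h5
    omega
  have h1 : ¬ (p : ℤ) ∣ W.apOfModel p - 1 := by
    intro hd
    apply hcard
    have h4 : ((W.reductionMod p).card : ℤ) = p + 1 - W.apOfModel p := by
      rw [WeierstrassCurve.apOfModel, WeierstrassCurve.traceOfFrobenius, Nat.card_zmod]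
      ring
    have h5 : (p : ℤ) ∣ ((W.reductionMod p).card : ℤ) := by
      rw [h4, show (p : ℤ) + 1 - W.apOfModel p = p - (W.apOfModel p - 1) by ring]
      exact dvd_sub (dvd_refl _) hd
    exact_mod_cast h5
  rw [eq_LT hgn hL hL']
  exact CycRank.LT_ne_zero hΔ hW hg hap h hp (by omega)
    (Mazur.modRep_irreducible hΔ hW hp (by omega) (by omega)) hpΔ hord h1 hnum hχ hχk

end Fermat.Agent.Cor.CentralFifth
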