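import Fermat.Agent.Cor.Parity
import Mathlib.MeasureTheory.Integral.IntegralEqImproper
import Mathlib.MeasureTheory.Integral.ExpDecay
import Mathlib.Analysis.Real.Pi.Bounds
import Mathlib.Analysis.Complex.ExponentialBounds

/-!
# The values of the L-function of a newform and of its derivative at the centre

Let `f` be a newform of weight two and level `N`, `w` its root number, `c = 1 / √N`.

* `∫_0^∞ k(t) f(it) dt = (1 + σ w) ∫_c^∞ k(t) f(it) dt` if `k(1/(Nt)) = σ k(t)`;
* `L(f, 1) = (1 + w) ∑ (a_n / n) exp(-2πn / √N)`;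
* if `w = -1`, `|a_n| ≤ n` for all `n`, and `N ≤ 82`, then `L(f, s)` has a simple zero at `s = 1`; if `w = 1` then
  `L(f, 1) ≠ 0`.

This file is not used by any of the statement files.
-/

set_option autoImplicit false

noncomputable section

namespace Fermat.Agent.Cor.CentralSeries

open UpperHalfPlane hiding I
open Complex CongruenceSubgroup Filter MeasureTheory ModularFormClass Set Asymptotics
open Fermat.Agent.Cor.LFun
open scoped Real Topology

/-! ### Integrals over a half line -/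

theorem mellin_one (G : ℝ → ℂ) : mellin G 1 = ∫ t in Ioi (0 : ℝ), G t := by
  simp [mellin]

theorem integral_inv_mul (G : ℝ → ℂ) {b : ℝ} (hb : 0 < b) :
    ∫ t in Ioi (0 : ℝ), G t = b * ∫ t in Ioi (0 : ℝ), ((t : ℂ) ^ 2)⁻¹ * G (b * t⁻¹) := by
  have h1 := mellin_comp_inv (fun u => G (b * u)) (-1)
  rw [neg_neg, mellin_comp_mul_left G 1 hb, mellin_one] at h1
  have h2 : mellin (fun t => G (b * t⁻¹)) (-1) =
      ∫ t in Ioi (0 : ℝ), ((t : ℂ) ^ 2)⁻¹ * G (b * t⁻¹) := by
    rw [mellin]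
    refine setIntegral_congr_fun measurableSet_Ioi fun t ht => ?_
    simp only [smul_eq_mul]
    congr 1
    rw [show (-1 - 1 : ℂ) = -(2 : ℕ) by norm_num, Complex.cpow_neg, Complex.cpow_natCast]
  rw [← h2, h1]
  have hb' : (b : ℂ) ≠ 0 := by exact_mod_cast hb.ne'
  rw [Complex.cpow_neg_one, smul_eq_mul, mul_inv_cancel_left₀ hb']

theorem integral_shift (g : ℝ → ℝ) (c : ℝ) :
    ∫ t in Ioi c, g t = ∫ t in Ioi (0 : ℝ), g (t + c) := by
  rw [← integral_indicator measurableSet_Ioi, ← integral_indicator measurableSet_Ioi,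
    ← integral_add_right_eq_self _ c]
  congr 1
  funext t
  by_cases ht : 0 < t
  · rw [indicator_of_mem (show t + c ∈ Ioi c by simpa using ht),
      indicator_of_mem (show t ∈ Ioi (0 : ℝ) from ht)]
  · rw [indicator_of_notMem (show t + c ∉ Ioi c by simpa using ht),
      indicator_of_notMem (show t ∉ Ioi (0 : ℝ) from ht)]

section weight

variable {c : ℝ} {k : ℝ → ℝ}

/-- `∫_c^∞ exp(-2πnt) k(t) dt` -/
def E (c : ℝ) (k : ℝ → ℝ) (n : ℕ) : ℝ := ∫ t in Ioi c, Real.exp (-(2 * π * n * t)) * k t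

/-- The conditions on the weight `k`. -/
structure IsWeight (c : ℝ) (k : ℝ → ℝ) : Prop where
  c_pos : 0 < c
  continuousOn : ContinuousOn k (Ici c)
  pos : ∀ t, c < t → 0 < k t
  mono : MonotoneOn k (Ici c)
  integrable : IntegrableOn (fun t => Real.exp (-(2 * π * t)) * k t) (Ioi c)

theorem IsWeight.E_nonneg (h : IsWeight c k) (n : ℕ) : 0 ≤ E c k n :=
  setIntegral_nonneg measurableSet_Ioi fun t ht => mul_nonneg (Real.exp_pos _).le (h.pos t ht).le

theorem IsWeight.integrableOn (h : IsWeight c k) {n : ℕ} (hn : n ≠ 0) :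
    IntegrableOn (fun t => Real.exp (-(2 * π * n * t)) * k t) (Ioi c) := by
  refine Integrable.mono' h.integrable ?_ ?_
  · refine ContinuousOn.aestronglyMeasurable ?_ measurableSet_Ioi
    exact ContinuousOn.mul (by fun_prop) (h.continuousOn.mono Ioi_subset_Ici_self)
  · refine (ae_restrict_mem measurableSet_Ioi).mono fun t ht => ?_
    have ht0 : 0 < t := h.c_pos.trans ht
    rw [Real.norm_of_nonneg (mul_nonneg (Real.exp_pos _).le (h.pos t ht).le)]
    refine mul_le_mul_of_nonneg_right (Real.exp_le_exp.mpr ?_) (h.pos t ht).le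
    have h1 : (1 : ℝ) ≤ n := by exact_mod_cast Nat.one_le_iff_ne_zero.mpr hn
    have h2 : 0 < 2 * π * t := by positivity
    nlinarith

theorem IsWeight.E_one_pos (h : IsWeight c k) : 0 < E c k 1 := by
  rw [E, setIntegral_pos_iff_support_of_nonneg_ae
    ((ae_restrict_mem measurableSet_Ioi).mono fun t ht =>
      mul_nonneg (Real.exp_pos _).le (h.pos t ht).le) (h.integrableOn one_ne_zero)]
  have h5 : Ioi c ⊆ Function.support (fun t => Real.exp (-(2 * π * (1 : ℕ) * t)) * k t) ∩ Ioi c :=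
    fun t ht => ⟨(mul_pos (Real.exp_pos _) (h.pos t ht)).ne', ht⟩
  exact lt_of_lt_of_le (by simp) (measure_mono h5)

theorem IsWeight.E_le (h : IsWeight c k) (n : ℕ) :
    (n + 1 : ℕ) * E c k (n + 1) ≤ Real.exp (-(2 * π * c)) ^ n * E c k 1 := by
  have hn : (0 : ℝ) < (n + 1 : ℕ) := by exact_mod_cast Nat.succ_pos n
  set g : ℝ → ℝ := fun u => Real.exp (-(2 * π * c)) ^ (n + 1) *
    (Real.exp (-(2 * π * u)) * k (u / (n + 1 : ℕ) + c)) with hg
  have h1 : ((n + 1 : ℕ) : ℝ) * E c k (n + 1) = ∫ u in Ioi (0 : ℝ), g u := by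
    have h2 := integral_comp_mul_left_Ioi' g 0 hn
    rw [mul_zero, smul_eq_mul] at h2
    rw [← h2, E, integral_shift]
    congr 1
    refine setIntegral_congr_fun measurableSet_Ioi fun s hs => ?_
    simp only [hg]
    rw [mul_div_cancel_left₀ s hn.ne', ← mul_assoc, ← Real.exp_nat_mul, ← Real.exp_add]
    congr 2
    push_cast
    ring
  have h3 : Real.exp (-(2 * π * c)) ^ n * E c k 1 = ∫ u in Ioi (0 : ℝ),
      Real.exp (-(2 * π * c)) ^ n * (Real.exp (-(2 * π * (1 : ℕ) * (u + c))) * k (u + c)) := by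
    rw [integral_const_mul, E, integral_shift]
  have hint : IntegrableOn (fun u => Real.exp (-(2 * π * c)) ^ n *
      (Real.exp (-(2 * π * (1 : ℕ) * (u + c))) * k (u + c))) (Ioi 0) := by
    refine Integrable.const_mul ?_ _
    have h4 := h.integrableOn one_ne_zero
    rw [← integrable_indicator_iff measurableSet_Ioi] at h4
    have h5 := h4.comp_add_right c
    rw [← IntegrableOn, ← integrable_indicator_iff measurableSet_Ioi]
    have h6 : ((Ioi (0 : ℝ)).indicator fun u =>
        Real.exp (-(2 * π * (1 : ℕ) * (u + c))) * k (u + c)) = fun t =>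
        (Ioi c).indicator (fun t => Real.exp (-(2 * π * (1 : ℕ) * t)) * k t) (t + c) := by
      funext t
      by_cases ht : 0 < t
      · rw [indicator_of_mem (show t ∈ Ioi (0 : ℝ) from ht),
          indicator_of_mem (show t + c ∈ Ioi c by simpa using ht)]
      · rw [indicator_of_notMem (show t ∉ Ioi (0 : ℝ) from ht),
          indicator_of_notMem (show t + c ∉ Ioi c by simpa using ht)]
    rw [h6]
    exact h5
  rw [h1, h3]
  refine integral_mono_of_nonneg ?_ hint ?_
  · refine (ae_restrict_mem measurableSet_Ioi).mono fun u (hu : 0 < u) => ?_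
    have h6 : c < u / (n + 1 : ℕ) + c := by
      have : 0 < u / (n + 1 : ℕ) := by positivity
      linarith
    have := h.pos _ h6
    simp only [hg, Pi.zero_apply]
    positivity
  · refine (ae_restrict_mem measurableSet_Ioi).mono fun u (hu : 0 < u) => ?_
    have h6 : 0 < u / (n + 1 : ℕ) := by positivity
    have h7 : u / (n + 1 : ℕ) ≤ u := div_le_self hu.le (by exact_mod_cast Nat.succ_pos n)
    have h8 : k (u / (n + 1 : ℕ) + c) ≤ k (u + c) :=
      h.mono (show c ≤ _ by linarith) (show c ≤ _ by linarith) (by linarith)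
    have h9 : Real.exp (-(2 * π * c)) ^ n * (Real.exp (-(2 * π * (1 : ℕ) * (u + c))) * k (u + c)) =
        Real.exp (-(2 * π * c)) ^ (n + 1) * (Real.exp (-(2 * π * u)) * k (u + c)) := by
      have h10 : Real.exp (-(2 * π * (1 : ℕ) * (u + c))) =
          Real.exp (-(2 * π * c)) * Real.exp (-(2 * π * u)) := by
        rw [← Real.exp_add]
        congr 1
        push_cast
        ring
      rw [h10]
      ring
    simp only [hg]
    rw [h9]
    gcongr

/-- Integration term by term. -/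
theorem IsWeight.hasSum (h : IsWeight c k) {a : ℕ → ℂ} (h0 : a 0 = 0) {C : ℝ}
    (hb : ∀ n, ‖a n‖ ≤ C * n) {φ : ℝ → ℂ}
    (hφ : ∀ t, c < t → HasSum (fun n => a n * Real.exp (-(2 * π * n * t))) (φ t)) :
    HasSum (fun n => a n * E c k n) (∫ t in Ioi c, k t * φ t) := by
  have hx : Real.exp (-(2 * π * c)) < 1 := by
    rw [Real.exp_lt_one_iff]
    have := h.c_pos
    have : 0 < 2 * π * c := by positivity
    linarith
  have h1 : ∀ n, Integrable (fun t => a n * ((Real.exp (-(2 * π * n * t)) * k t : ℝ) : ℂ))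
      (volume.restrict (Ioi c)) := by
    intro n
    rcases eq_or_ne n 0 with rfl | hn
    · simp [h0]
    · exact ((h.integrableOn hn).ofReal).const_mul _
  have h2 : ∀ n, ∫ t in Ioi c, ‖a n * ((Real.exp (-(2 * π * n * t)) * k t : ℝ) : ℂ)‖ =
      ‖a n‖ * E c k n := by
    intro n
    rw [E, ← integral_const_mul]
    refine setIntegral_congr_fun measurableSet_Ioi fun t ht => ?_
    rw [norm_mul, Complex.norm_real, Real.norm_of_nonneg
      (mul_nonneg (Real.exp_pos _).le (h.pos t ht).le)]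
  have h3 : Summable fun n => ∫ t in Ioi c, ‖a n * ((Real.exp (-(2 * π * n * t)) * k t : ℝ) : ℂ)‖ := by
    rw [funext h2, ← summable_nat_add_iff 1]
    refine Summable.of_nonneg_of_le (fun n => mul_nonneg (norm_nonneg _) (h.E_nonneg _))
      (fun n => ?_)
      (((summable_geometric_of_lt_one (Real.exp_pos _).le hx).mul_right (E c k 1)).mul_left C)
    have hC : 0 ≤ C := by
      have h5 := (norm_nonneg _).trans (hb 1)
      simpa using h5
    calc ‖a (n + 1)‖ * E c k (n + 1) ≤ (C * (n + 1 : ℕ)) * E c k (n + 1) :=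
          mul_le_mul_of_nonneg_right (hb (n + 1)) (h.E_nonneg _)
      _ = C * ((n + 1 : ℕ) * E c k (n + 1)) := by ring
      _ ≤ C * (Real.exp (-(2 * π * c)) ^ n * E c k 1) :=
          mul_le_mul_of_nonneg_left (h.E_le n) hC
  have h4 := hasSum_integral_of_summable_integral_norm h1 h3
  have e1 : (fun n => a n * (E c k n : ℂ)) = fun n => ∫ t in Ioi c,
      a n * ((Real.exp (-(2 * π * n * t)) * k t : ℝ) : ℂ) := by
    funext n
    rw [E, integral_const_mul]
    congr 1
    exact integral_complex_ofReal.symm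
  have e2 : ∫ t in Ioi c, k t * φ t = ∫ t in Ioi c, ∑' n,
      a n * ((Real.exp (-(2 * π * n * t)) * k t : ℝ) : ℂ) := by
    refine setIntegral_congr_fun measurableSet_Ioi fun t ht => ?_
    rw [← (hφ t ht).tsum_eq, ← tsum_mul_left]
    refine tsum_congr fun n => ?_
    push_cast
    ring
  rw [e1, e2]
  exact h4

/-- The integral of a rapidly convergent series does not vanish. -/
theorem IsWeight.integral_ne_zero (h : IsWeight c k) (hc : Real.exp (-(2 * π * c)) < 1 / 2)
    {a : ℕ → ℂ} (h0 : a 0 = 0) (h1 : a 1 = 1) (hb : ∀ n, ‖a n‖ ≤ n) {φ : ℝ → ℂ}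
    (hφ : ∀ t, c < t → HasSum (fun n => a n * Real.exp (-(2 * π * n * t))) (φ t)) :
    ∫ t in Ioi c, k t * φ t ≠ 0 := by
  intro hS
  set x := Real.exp (-(2 * π * c)) with hx
  have hx0 : 0 < x := Real.exp_pos _
  have hs := h.hasSum h0 (C := 1) (fun n => by rw [one_mul]; exact hb n) hφ
  rw [hS, ← hasSum_nat_add_iff' 2, Finset.sum_range_succ, Finset.sum_range_one, h0, h1, zero_mul,
    zero_add, one_mul, zero_sub] at hs
  have hg : HasSum (fun n : ℕ => x ^ n * (x * E c k 1)) ((1 - x)⁻¹ * (x * E c k 1)) :=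
    (hasSum_geometric_of_lt_one hx0.le (by linarith)).mul_right _
  have h2 := hs.norm_le_of_bounded hg fun n => by
    rw [norm_mul, Complex.norm_real, Real.norm_of_nonneg (h.E_nonneg _)]
    calc ‖a (n + 2)‖ * E c k (n + 2) ≤ (n + 2 : ℕ) * E c k (n + 2) :=
          mul_le_mul_of_nonneg_right (hb (n + 2)) (h.E_nonneg _)
      _ ≤ x ^ (n + 1) * E c k 1 := h.E_le (n + 1)
      _ = x ^ n * (x * E c k 1) := by ring
  rw [norm_neg, Complex.norm_real, Real.norm_of_nonneg (h.E_nonneg _)] at h2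
  have hE := h.E_one_pos
  have h3 : (1 - x)⁻¹ * (x * E c k 1) < E c k 1 := by
    rw [inv_mul_lt_iff₀ (by linarith)]
    nlinarith
  linarith

end weight

/-! ### The two weights -/

theorem isWeight_one {c : ℝ} (hc : 0 < c) : IsWeight c fun _ => 1 where
  c_pos := hc
  continuousOn := continuousOn_const
  pos _ _ := one_pos
  mono := monotoneOn_const
  integrable := by
    have h := exp_neg_integrableOn_Ioi c (b := 2 * π) (by positivity)
    refine h.congr_fun (fun t _ => ?_) measurableSet_Ioi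
    simp only [mul_one]
    congr 1
    ring

theorem isWeight_log {c : ℝ} (hc : 0 < c) : IsWeight c fun t => Real.log (t / c) where
  c_pos := hc
  continuousOn := by
    refine ContinuousOn.log (by fun_prop) fun t ht => ?_
    have : 0 < t := hc.trans_le ht
    positivity
  pos t ht := Real.log_pos (by rwa [one_lt_div hc])
  mono s hs t ht hst := by
    have hs' : 0 < s := hc.trans_le hs
    exact Real.log_le_log (by positivity) (by gcongr)
  integrable := by
    refine integrable_of_isBigO_exp_neg (b := 1) one_pos ?_ ?_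
    · refine ContinuousOn.mul (by fun_prop) (ContinuousOn.log (by fun_prop) fun t ht => ?_)
      have : 0 < t := hc.trans_le ht
      positivity
    · refine IsBigO.of_bound c⁻¹ ?_
      filter_upwards [eventually_ge_atTop c] with t ht
      have ht0 : 0 < t := hc.trans_le ht
      have h1 : 0 ≤ Real.log (t / c) := Real.log_nonneg (by rwa [one_le_div hc])
      have h2 : Real.log (t / c) ≤ t / c := Real.log_le_self (by positivity)
      have h3 : t ≤ Real.exp t := by linarith [Real.add_one_le_exp t]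
      rw [Real.norm_of_nonneg (mul_nonneg (Real.exp_pos _).le h1),
        Real.norm_of_nonneg (Real.exp_pos _).le]
      calc Real.exp (-(2 * π * t)) * Real.log (t / c)
          ≤ Real.exp (-(2 * π * t)) * (Real.exp t / c) := by gcongr; exact h2.trans (by gcongr)
        _ = c⁻¹ * Real.exp (-(2 * π * t) + t) := by rw [Real.exp_add]; ring
        _ ≤ c⁻¹ * Real.exp (-1 * t) := by
            gcongr
            nlinarith [Real.pi_gt_three]

/-! ### The values on the imaginary axis -/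

section form

variable {N : ℕ} [NeZero N]

/-- `t ↦ f(it)` -/
def phi (f : CuspForm (Gamma0 N) 2) (t : ℝ) : ℂ := f (ofComplex (I * t))

omit [NeZero N] in
theorem coe_it {t : ℝ} (ht : 0 < t) : ((ofComplex (I * t) : ℍ) : ℂ) = I * t := by
  rw [ofComplex_apply_of_im_pos (by simpa using ht)]

theorem hasSum_phi (f : CuspForm (Gamma0 N) 2) {t : ℝ} (ht : 0 < t) :
    HasSum (fun n : ℕ => qCoeff f n * (Real.exp (-(2 * π * n * t)) : ℂ)) (phi f t) := by
  have hf := AL.coe_mem_QR f
  have h1 := UpperHalfPlane.hasSum_qExpansion one_pos hf.1 hf.2.1 hf.2.2 (ofComplex (I * t))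
  change HasSum _ (f (ofComplex (I * t)))
  convert h1 using 1
  funext n
  rw [smul_eq_mul, qCoeff]
  congr 1
  rw [coe_it ht, Function.Periodic.qParam, ← Complex.exp_nat_mul]
  push_cast
  congr 1
  have := I_mul_I
  linear_combination (-2 * π * n * t : ℂ) * this

theorem phi_inv {f : CuspForm (Gamma0 N) 2} (hf : f.IsNewform) {t : ℝ} (ht : 0 < t) :
    phi f ((N : ℝ)⁻¹ * t⁻¹) = Parity.rootNumber f * (N * (t : ℂ) ^ 2 * phi f t) := by
  have hN : (0 : ℝ) < N := by exact_mod_cast Nat.pos_of_ne_zero (NeZero.ne N)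
  have h := RootNumber.newform_fricke hf (ofComplex (I * t)) (ofComplex (I * ((N : ℝ)⁻¹ * t⁻¹ : ℝ)))
    (by
      rw [coe_it (by positivity), coe_it ht]
      have h1 : (t : ℂ) ≠ 0 := by exact_mod_cast ht.ne'
      have h2 : (N : ℂ) ≠ 0 := by exact_mod_cast hN.ne'
      push_cast
      field_simp
      rw [I_sq])
  rw [phi, h, coe_it ht, Parity.rootNumber, phi]
  linear_combination (RootNumber.sign f N * N * (t : ℂ) ^ 2 * f (ofComplex (I * t))) * I_mul_I

/-- **Folding the integral over the imaginary axis.** -/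
theorem fold {f : CuspForm (Gamma0 N) 2} (hf : f.IsNewform) {k : ℝ → ℂ} {σ : ℂ}
    (hk : ∀ t : ℝ, 0 < t → k ((N : ℝ)⁻¹ * t⁻¹) = σ * k t)
    (hint : IntegrableOn (fun t => k t * phi f t) (Ioi 0)) :
    ∫ t in Ioi (0 : ℝ), k t * phi f t =
      (1 + σ * Parity.rootNumber f) * ∫ t in Ioi (√N)⁻¹, k t * phi f t := by
  have hN : (0 : ℝ) < N := by exact_mod_cast Nat.pos_of_ne_zero (NeZero.ne N)
  set c : ℝ := (√N)⁻¹ with hc
  have hc0 : 0 < c := by positivity
  have hcc : (N : ℝ)⁻¹ = c * c := by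
    rw [hc, ← mul_inv, Real.mul_self_sqrt hN.le]
  set F : ℝ → ℂ := fun t => k t * phi f t with hF
  have hdis : Disjoint (Ioc 0 c) (Ioi c) := Ioc_disjoint_Ioi le_rfl
  have hIci : Ioi (0 : ℝ) ∩ Ici c = Ici c := inter_eq_right.mpr fun t ht => hc0.trans_le ht
  have h1 : ∫ t in Ioi (0 : ℝ), F t = (∫ t in Ioc 0 c, F t) + ∫ t in Ioi c, F t := by
    rw [← setIntegral_union hdis
      measurableSet_Ioi (hint.mono_set Ioc_subset_Ioi_self)
      (hint.mono_set (Ioi_subset_Ioi hc0.le)), Ioc_union_Ioi_eq_Ioi hc0.le]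
  have h2 : ∫ t in Ioc 0 c, F t = σ * Parity.rootNumber f * ∫ t in Ioi c, F t := by
    have h3 : ∫ t in Ioc 0 c, F t = ∫ t in Ioi (0 : ℝ), (Ioc 0 c).indicator F t := by
      rw [setIntegral_indicator measurableSet_Ioc]
      congr 1
      rw [inter_eq_right.mpr Ioc_subset_Ioi_self]
    have h3' : ∫ t in Ioi c, σ * Parity.rootNumber f * F t =
        ∫ t in Ici c, σ * Parity.rootNumber f * F t := integral_Ici_eq_integral_Ioi.symm
    rw [h3, integral_inv_mul _ (inv_pos.mpr hN), ← integral_const_mul, ← integral_const_mul, h3']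
    have h4 : ∫ t in Ici c, σ * Parity.rootNumber f * F t =
        ∫ t in Ioi (0 : ℝ), (Ici c).indicator (fun t => σ * Parity.rootNumber f * F t) t := by
      rw [setIntegral_indicator measurableSet_Ici, hIci]
    rw [h4]
    refine setIntegral_congr_fun measurableSet_Ioi fun t (ht : 0 < t) => ?_
    have h5 : (N : ℝ)⁻¹ * t⁻¹ ∈ Ioc 0 c ↔ t ∈ Ici c := by
      rw [mem_Ioc, mem_Ici, hcc]
      constructor
      · rintro ⟨-, h⟩
        rw [mul_assoc] at h
        have h6 : c * t⁻¹ ≤ 1 := by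
          by_contra h7
          push Not at h7
          have := mul_lt_mul_of_pos_left h7 hc0
          linarith
        rwa [← div_eq_mul_inv, div_le_one ht] at h6
      · intro h
        refine ⟨by positivity, ?_⟩
        rw [mul_assoc]
        refine mul_le_of_le_one_right hc0.le ?_
        rwa [← div_eq_mul_inv, div_le_one ht]
    by_cases h6 : t ∈ Ici c
    · rw [indicator_of_mem h6, indicator_of_mem (h5.mpr h6), hF]
      simp only
      rw [hk t ht, phi_inv hf ht]
      have h7 : (t : ℂ) ≠ 0 := by exact_mod_cast ht.ne'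
      have h8 : (N : ℂ) ≠ 0 := by exact_mod_cast hN.ne'
      push_cast
      field_simp
    · rw [indicator_of_notMem h6, indicator_of_notMem (fun h => h6 (h5.mp h)), mul_zero, mul_zero]
  rw [h1, h2]
  ring

/-! ### The central value -/

theorem mellinConvergent_phi (f : CuspForm (Gamma0 N) 2) (s : ℂ) :
    MellinConvergent (phi f) s :=
  ((CuspForm.isStrongFEPair (k := 2) (by norm_num) f).hasMellin s).1

theorem integrableOn_phi (f : CuspForm (Gamma0 N) 2) : IntegrableOn (phi f) (Ioi 0) := by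
  have h1 := mellinConvergent_phi f 1
  rw [MellinConvergent] at h1
  simpa using h1

theorem Λ_eq (f : CuspForm (Gamma0 N) 2) :
    ModularForm.Λ (k := 2) (by norm_num) f = mellin (phi f) :=
  CuspForm.Λ_eq_mellin (k := 2) (by norm_num) f

/-- `L(f, 1) = 2π ∫_0^∞ f(it) dt` -/
theorem LF_one (f : CuspForm (Gamma0 N) 2) :
    LF f 1 = 2 * π * ∫ t in Ioi (0 : ℝ), phi f t := by
  rw [LF, ModularForm.L, Λ_eq, mellin_one]
  have h5 : (2 / Gammaℂ 1 : ℂ) = 2 * π := by
    rw [Gammaℂ]
    simp only [Complex.Gamma_one, mul_one, Complex.cpow_neg_one]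
    have : (π : ℂ) ≠ 0 := by exact_mod_cast Real.pi_ne_zero
    field_simp
  rw [h5]
  ring

/-- `L(f, 1) = (1 + w) 2π ∫_{1/√N}^∞ f(it) dt` -/
theorem LF_one_eq {f : CuspForm (Gamma0 N) 2} (hf : f.IsNewform) :
    LF f 1 = (1 + Parity.rootNumber f) * (2 * π * ∫ t in Ioi (√N)⁻¹, phi f t) := by
  have h := fold hf (k := fun _ => 1) (σ := 1) (fun t _ => by norm_num)
    (by simpa using integrableOn_phi f)
  simp only [one_mul] at h
  rw [LF_one, h]
  ring

theorem sqrt_pos' : 0 < (√(N : ℝ))⁻¹ := by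
  have hN : (0 : ℝ) < N := by exact_mod_cast Nat.pos_of_ne_zero (NeZero.ne N)
  positivity

theorem E_one_eq {c : ℝ} {n : ℕ} (hn : n ≠ 0) :
    E c (fun _ => 1) n = Real.exp (-(2 * π * n * c)) / (2 * π * n) := by
  have hn0 : (0 : ℝ) < n := by exact_mod_cast Nat.pos_of_ne_zero hn
  rw [E]
  have h := integral_exp_mul_Ioi (a := -(2 * π * n)) (by
    rw [Left.neg_neg_iff]; positivity) c
  simp only [mul_one]
  have e : ∫ t in Ioi c, Real.exp (-(2 * π * n * t)) =
      ∫ t in Ioi c, Real.exp (-(2 * π * n) * t) :=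
    setIntegral_congr_fun measurableSet_Ioi fun t _ => by
      congr 1
      ring
  rw [e, h, neg_div_neg_eq]
  congr 2
  ring

omit [NeZero N] in
theorem exists_bound [NeZero N] (f : CuspForm (Gamma0 N) 2) :
    ∃ C : ℝ, ∀ n : ℕ, ‖qCoeff f n‖ ≤ C * n := by
  obtain ⟨C, -, hC⟩ := bound_of_isBigO_nat_atTop (EulerProd.qCoeff_isBigO f)
  refine ⟨C, fun n => ?_⟩
  rcases eq_or_ne n 0 with rfl | hn
  · rw [H22.cusp_qCoeff_zero f]
    simp
  · have hn0 : (n : ℝ) ≠ 0 := by exact_mod_cast hn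
    have e : (n : ℝ) ^ (2 - 1 : ℝ) = n := by
      rw [show (2 - 1 : ℝ) = 1 by norm_num, Real.rpow_one]
    have h := hC (x := n) (by rw [e]; exact hn0)
    rwa [e, Real.norm_of_nonneg (Nat.cast_nonneg n)] at h

/-- **The rapidly convergent series for the central value**:
`L(f, 1) = (1 + w) ∑ (a_n / n) exp(-2πn / √N)`. -/
theorem LF_one_series {f : CuspForm (Gamma0 N) 2} (hf : f.IsNewform) :
    HasSum (fun n : ℕ => (1 + Parity.rootNumber f) *
      (qCoeff f n / n * Real.exp (-(2 * π * n / √N)))) (LF f 1) := by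
  obtain ⟨C, hC⟩ := exists_bound f
  have h := (isWeight_one (sqrt_pos' (N := N))).hasSum (H22.cusp_qCoeff_zero f) hC
    (φ := phi f) (fun t ht => hasSum_phi f (sqrt_pos'.trans ht))
  simp only [Complex.ofReal_one, one_mul] at h
  rw [LF_one_eq hf]
  have h2 := (h.mul_left (2 * π : ℂ)).mul_left (1 + Parity.rootNumber f)
  have e : (fun n : ℕ => (1 + Parity.rootNumber f) *
      (qCoeff f n / n * Real.exp (-(2 * π * n / √N)))) = fun n => (1 + Parity.rootNumber f) *
        (2 * π * (qCoeff f n * (E (√N)⁻¹ (fun _ => 1) n : ℂ))) := by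
    funext n
    rcases eq_or_ne n 0 with rfl | hn
    · rw [H22.cusp_qCoeff_zero f]
      simp
    · rw [E_one_eq hn]
      have hn0 : (n : ℂ) ≠ 0 := by exact_mod_cast hn
      have hpi : (π : ℂ) ≠ 0 := by exact_mod_cast Real.pi_ne_zero
      rw [show 2 * π * n / √N = 2 * π * n * (√N)⁻¹ from div_eq_mul_inv _ _]
      push_cast
      field_simp
  rw [e]
  exact h2

/-- `exp(-2π / √N) < 1/2` for `N ≤ 82` -/
theorem exp_lt_half (hN : N ≤ 82) : Real.exp (-(2 * π * (√N)⁻¹)) < 1 / 2 := by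
  have hN0 : (0 : ℝ) < N := by exact_mod_cast Nat.pos_of_ne_zero (NeZero.ne N)
  have h1 : √(N : ℝ) < 9.0554 := by
    rw [Real.sqrt_lt' (by norm_num)]
    have : (N : ℝ) ≤ 82 := by exact_mod_cast hN
    norm_num
    linarith
  have h2 : 0 < √(N : ℝ) := by positivity
  have h3 : Real.log 2 < 2 * π * (√N)⁻¹ := by
    rw [← div_eq_mul_inv, lt_div_iff₀ h2]
    have h4 := Real.log_two_lt_d9
    have h5 := Real.pi_gt_d4
    have h6 := Real.log_two_gt_d9
    nlinarith
  have h4 : Real.exp (-(2 * π * (√N)⁻¹)) < Real.exp (-Real.log 2) :=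
    Real.exp_lt_exp.mpr (by linarith)
  rw [Real.exp_neg (Real.log 2), Real.exp_log two_pos] at h4
  rw [one_div]
  exact h4

/-- **Rank zero**: if `|a_n| ≤ n`, `N ≤ 82` and `w = 1` then `L(f, 1) ≠ 0`. -/
theorem LF_one_ne_zero {f : CuspForm (Gamma0 N) 2} (hf : f.IsNewform) (hb : ∀ n, ‖qCoeff f n‖ ≤ n)
    (hN : N ≤ 82) (hw : Parity.rootNumber f = 1) : LF f 1 ≠ 0 := by
  have h := (isWeight_one (sqrt_pos' (N := N))).integral_ne_zero (exp_lt_half hN)
    (H22.cusp_qCoeff_zero f) hf.1.qCoeff_one hb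
    (φ := phi f) (fun t ht => hasSum_phi f (sqrt_pos'.trans ht))
  simp only [Complex.ofReal_one, one_mul] at h
  rw [LF_one_eq hf, hw]
  have hpi : (π : ℂ) ≠ 0 := by exact_mod_cast Real.pi_ne_zero
  refine mul_ne_zero (by norm_num) (mul_ne_zero (mul_ne_zero two_ne_zero hpi) h)

/-! ### The derivative -/

theorem hasDerivAt_mellin (f : CuspForm (Gamma0 N) 2) :
    MellinConvergent (fun t => Real.log t • phi f t) 1 ∧
      HasDerivAt (mellin (phi f)) (mellin (fun t => Real.log t • phi f t) 1) 1 := by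
  have hP := CuspForm.isStrongFEPair (k := 2) (by norm_num) f
  exact mellin_hasDerivAt_of_isBigO_rpow (a := 2) (b := 0)
    (ModularForm.weakFEPair (k := 2) (by norm_num) f).hf_int (hP.hf_top (-2)) (by norm_num)
    (hP.hf_zero (-0)) (by norm_num)

/-- `Λ'(f, 1) = √N ∫_0^∞ f(it) log(√N t) dt` -/
theorem hasDerivAt_Lam (f : CuspForm (Gamma0 N) 2) :
    HasDerivAt (Lam f) (√N * ∫ t in Ioi (0 : ℝ), (Real.log (t / (√N)⁻¹) : ℂ) * phi f t) 1 := by
  have hN : (0 : ℝ) < N := by exact_mod_cast Nat.pos_of_ne_zero (NeZero.ne N)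
  obtain ⟨hc, hd⟩ := hasDerivAt_mellin f
  have h1 : HasDerivAt (fun s : ℂ => (N : ℂ) ^ (s / 2))
      ((N : ℂ) ^ ((1 : ℂ) / 2) * Complex.log N * (1 / 2)) 1 :=
    ((hasDerivAt_id (1 : ℂ)).div_const 2).const_cpow (Or.inl (by exact_mod_cast hN.ne'))
  have h2 := h1.mul hd
  have h3 : (fun s : ℂ => (N : ℂ) ^ (s / 2)) * mellin (phi f) = Lam f := by
    funext s
    rw [Pi.mul_apply, Lam, Λ_eq]
  rw [h3] at h2
  have h4 : (N : ℂ) ^ ((1 : ℂ) / 2) = √N := by
    rw [Real.sqrt_eq_rpow, Complex.ofReal_cpow hN.le]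
    norm_num
  have h5 : Complex.log N = (Real.log N : ℂ) := by
    rw [Complex.natCast_log]
  have hi1 : IntegrableOn (fun t => (Real.log t : ℂ) * phi f t) (Ioi 0) := by
    rw [MellinConvergent] at hc
    simpa using hc
  have hi2 : IntegrableOn (fun t => ((Real.log N / 2 : ℝ) : ℂ) * phi f t) (Ioi 0) :=
    (integrableOn_phi f).const_mul _
  have h6 : ∫ t in Ioi (0 : ℝ), (Real.log (t / (√N)⁻¹) : ℂ) * phi f t =
      (∫ t in Ioi (0 : ℝ), (Real.log t : ℂ) * phi f t) +
        ∫ t in Ioi (0 : ℝ), ((Real.log N / 2 : ℝ) : ℂ) * phi f t := by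
    rw [← integral_add hi1 hi2]
    refine setIntegral_congr_fun measurableSet_Ioi fun t (ht : 0 < t) => ?_
    have h7 : Real.log (t / (√N)⁻¹) = Real.log t + Real.log N / 2 := by
      rw [div_inv_eq_mul, Real.log_mul ht.ne' (by positivity), Real.log_sqrt hN.le]
    rw [h7]
    push_cast
    ring
  have h8 : mellin (fun t => Real.log t • phi f t) 1 =
      ∫ t in Ioi (0 : ℝ), (Real.log t : ℂ) * phi f t := by
    rw [mellin_one]
    simp
  have e : √N * ∫ t in Ioi (0 : ℝ), (Real.log (t / (√N)⁻¹) : ℂ) * phi f t =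
      (N : ℂ) ^ ((1 : ℂ) / 2) * Complex.log N * (1 / 2) * mellin (phi f) 1 +
        (N : ℂ) ^ ((1 : ℂ) / 2) * mellin (fun t => Real.log t • phi f t) 1 := by
    rw [h6, integral_const_mul, h8, mellin_one, h4, h5]
    push_cast
    ring
  rw [e]
  exact h2

/-- `Λ'(f, 1) = (1 - w) √N ∫_{1/√N}^∞ f(it) log(√N t) dt` -/
theorem hasDerivAt_Lam' {f : CuspForm (Gamma0 N) 2} (hf : f.IsNewform) :
    HasDerivAt (Lam f) ((1 - Parity.rootNumber f) *
      (√N * ∫ t in Ioi (√N)⁻¹, (Real.log (t / (√N)⁻¹) : ℂ) * phi f t)) 1 := by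
  have hN : (0 : ℝ) < N := by exact_mod_cast Nat.pos_of_ne_zero (NeZero.ne N)
  have hint : IntegrableOn (fun t => (Real.log (t / (√N)⁻¹) : ℂ) * phi f t) (Ioi 0) := by
    obtain ⟨hc, -⟩ := hasDerivAt_mellin f
    have hi1 : IntegrableOn (fun t => (Real.log t : ℂ) * phi f t) (Ioi 0) := by
      rw [MellinConvergent] at hc
      simpa using hc
    have hi2 : IntegrableOn (fun t => ((Real.log N / 2 : ℝ) : ℂ) * phi f t) (Ioi 0) :=
      (integrableOn_phi f).const_mul _
    refine (hi1.add hi2).congr_fun (fun t (ht : 0 < t) => ?_) measurableSet_Ioi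
    have h7 : Real.log (t / (√N)⁻¹) = Real.log t + Real.log N / 2 := by
      rw [div_inv_eq_mul, Real.log_mul ht.ne' (by positivity), Real.log_sqrt hN.le]
    rw [h7, Pi.add_apply]
    push_cast
    ring
  have h := fold hf (k := fun t => (Real.log (t / (√N)⁻¹) : ℂ)) (σ := -1) (fun t ht => by
    have h1 : Real.log ((N : ℝ)⁻¹ * t⁻¹ / (√N)⁻¹) = -Real.log (t / (√N)⁻¹) := by
      rw [← Real.log_inv]
      congr 1
      have h2 : √(N : ℝ) * √(N : ℝ) = N := Real.mul_self_sqrt hN.le
      field_simp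
      nlinarith
    rw [h1]
    push_cast
    ring) hint
  have h1 := hasDerivAt_Lam f
  rw [h] at h1
  have e : (1 - Parity.rootNumber f) *
      (√N * ∫ t in Ioi (√N)⁻¹, (Real.log (t / (√N)⁻¹) : ℂ) * phi f t) =
      √N * ((1 + -1 * Parity.rootNumber f) *
        ∫ t in Ioi (√N)⁻¹, (Real.log (t / (√N)⁻¹) : ℂ) * phi f t) := by ring
  rw [e]
  exact h1

/-- **Rank one**: if `|a_n| ≤ n`, `N ≤ 82` and `w = -1` then `L(f, s)` has a simple zero at `s = 1`. -/
theorem order_eq_one {f : CuspForm (Gamma0 N) 2} (hf : f.IsNewform) (hb : ∀ n, ‖qCoeff f n‖ ≤ n)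
    (hN : N ≤ 82) (hw : Parity.rootNumber f = -1) : analyticOrderAt (LF f) 1 = 1 := by
  have hN0 : (0 : ℝ) < N := by exact_mod_cast Nat.pos_of_ne_zero (NeZero.ne N)
  have h := (isWeight_log (sqrt_pos' (N := N))).integral_ne_zero (exp_lt_half hN)
    (H22.cusp_qCoeff_zero f) hf.1.qCoeff_one hb
    (φ := phi f) (fun t ht => hasSum_phi f (sqrt_pos'.trans ht))
  have hd := hasDerivAt_Lam' hf
  rw [hw] at hd
  have hne : deriv (Lam f) 1 ≠ 0 := by
    rw [hd.deriv]
    have h2 : ((√(N : ℝ) : ℝ) : ℂ) ≠ 0 := by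
      have : √(N : ℝ) ≠ 0 := by positivity
      exact_mod_cast this
    exact mul_ne_zero (by norm_num) (mul_ne_zero h2 h)
  have han : AnalyticAt ℂ (Lam f) 1 := (differentiable_Lam f).analyticAt 1
  have hzero : Lam f 1 = 0 := by
    have h1 := Parity.functional_equation hf 1
    rw [hw, show (2 - 1 : ℂ) = 1 by norm_num] at h1
    linear_combination (1 / 2 : ℂ) * h1
  rw [← Parity.order_Lam f (by norm_num)]
  have h3 := (analyticOrderAt_deriv_eq_iff han hzero (n := 0)).mpr
    (by rw [Nat.cast_zero]; exact han.deriv.analyticOrderAt_eq_zero.mpr hne)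
  rw [h3]
  simp

/-- the analytic rank of a newform with `|a_n| ≤ n` of level at most `82` -/
theorem analyticRank_eq {f : CuspForm (Gamma0 N) 2} (hf : f.IsNewform) (hb : ∀ n, ‖qCoeff f n‖ ≤ n)
    (hN : N ≤ 82) : (Parity.rootNumber f = 1 ∧ analyticOrderAt (LF f) 1 = 0) ∨
      (Parity.rootNumber f = -1 ∧ analyticOrderAt (LF f) 1 = 1) := by
  rcases Parity.rootNumber_eq_one_or hf with hw | hw
  · exact Or.inl ⟨hw, ((differentiable_LF f).analyticAt 1).analyticOrderAt_eq_zero.mpr
      (LF_one_ne_zero hf hb hN hw)⟩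
  · exact Or.inr ⟨hw, order_eq_one hf hb hN hw⟩

end form

end Fermat.Agent.Cor.CentralSeries
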