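import Mathlib
import Fermat.Agent.Cor.CentralEleven
import Fermat.Agent.Cor.HasseWeil
import Fermat.Agent.Cor.Parity

/-!
# Semistable elliptic curves of small conductor have analytic rank zero
(corollary file, not used for S01)

If `W` is a semistable elliptic curve of conductor `N < 29` or `N = 30`, and `g` its newform, then
`g(it) ≠ 0` for all `t ≥ 1 / √N`, because `|a_n| ≤ d(n) √n` (Hasse) and `e^(-2π/√N)` is small.  By
the Fricke involution `g(it) ≠ 0` for all `t > 0`, the root number is `1` and `L(g, 1) ≠ 0`.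
-/

set_option autoImplicit false

open UpperHalfPlane hiding I
open Complex CongruenceSubgroup Filter Function ModularFormClass Set MeasureTheory
open scoped MatrixGroups ModularForm Topology ComplexConjugate Real Manifold

noncomputable section

namespace Fermat.Agent.Cor.CentralSmall

open Fermat.Agent.H16 Fermat.Agent.Cor.CentralValue Fermat.Agent.Cor.CentralEleven
open Fermat.Agent.Cor.RootNumber Fermat.Agent.Cor.Parity

variable {N : ℕ} [NeZero N]

/-- A form with real coefficients and without zeros on the imaginary axis has `L(f, 1) ≠ 0`. -/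
theorem LF_one_ne_zero' {f : CuspForm (Gamma0 N) 2} (h : ∀ n, conj (qCoeff f n) = qCoeff f n)
    (hne : ∀ t : ℝ, 0 < t → f (ofComplex (I * t)) ≠ 0) : LFun.LF f 1 ≠ 0 := by
  set φ : ℝ → ℝ := fun t ↦ (f (ofComplex (I * t))).re with hφ
  have hreal : ∀ t ∈ Ioi (0 : ℝ), f (ofComplex (I * t)) = φ t := by
    intro t ht
    have h1 := congrFun (slash_J_eq h) (ofComplex (I * t))
    rw [slash_J_apply] at h1
    have h2 : (J • (ofComplex (I * t)) : ℍ) = ofComplex (I * t) := by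
      apply UpperHalfPlane.ext
      rw [coe_J_smul, ofComplex_eq (by simpa using ht)]
      simp
    rw [h2] at h1
    exact (Complex.conj_eq_iff_re.mp h1).symm
  have hφ0 : ∀ t ∈ Ioi (0 : ℝ), φ t ≠ 0 := by
    intro t ht h0
    apply hne t ht
    rw [hreal t ht, h0, Complex.ofReal_zero]
  have hcont : ContinuousOn φ (Ioi 0) :=
    Complex.continuous_re.comp_continuousOn (continuousOn_im_axis f)
  have hint : IntegrableOn φ (Ioi 0) := (integrableOn f).re
  have hI : ∫ t in Ioi (0 : ℝ), f (ofComplex (I * t)) = ((∫ t in Ioi (0 : ℝ), φ t : ℝ) : ℂ) := by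
    rw [setIntegral_congr_fun measurableSet_Ioi hreal]
    exact integral_complex_ofReal
  have hsupp : ∀ ψ : ℝ → ℝ, IntegrableOn ψ (Ioi 0) → (∀ t ∈ Ioi (0 : ℝ), 0 < ψ t) →
      0 < ∫ t in Ioi (0 : ℝ), ψ t := by
    intro ψ hψ hpos
    rw [setIntegral_pos_iff_support_of_nonneg_ae ?_ hψ]
    · have h3 : support ψ ∩ Ioi 0 = Ioi (0 : ℝ) := by
        rw [Set.inter_eq_right]
        intro t ht
        exact (hpos t ht).ne'
      rw [h3, Real.volume_Ioi]
      exact ENNReal.zero_lt_top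
    · rw [Filter.EventuallyLE, ae_restrict_iff' measurableSet_Ioi]
      exact Eventually.of_forall fun t ht ↦ (hpos t ht).le
  have hne' : ∫ t in Ioi (0 : ℝ), φ t ≠ 0 := by
    rcases lt_or_gt_of_ne (hφ0 1 (by norm_num : (1 : ℝ) ∈ Ioi 0)) with h1 | h1
    · have hneg : ∀ t ∈ Ioi (0 : ℝ), φ t < 0 := by
        intro t ht
        by_contra h2
        push Not at h2
        obtain ⟨u, hu, hu0⟩ := isPreconnected_Ioi.intermediate_value
          (by norm_num : (1 : ℝ) ∈ Ioi 0) ht hcont ⟨h1.le, h2⟩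
        exact hφ0 u hu hu0
      have h2 := hsupp (fun t ↦ - φ t) hint.neg fun t ht ↦ by
        have := hneg t ht
        simpa using this
      rw [integral_neg] at h2
      exact (neg_pos.mp h2).ne
    · have hpos : ∀ t ∈ Ioi (0 : ℝ), 0 < φ t := by
        intro t ht
        by_contra h2
        push Not at h2
        obtain ⟨u, hu, hu0⟩ := isPreconnected_Ioi.intermediate_value ht
          (by norm_num : (1 : ℝ) ∈ Ioi 0) hcont ⟨h2, h1.le⟩
        exact hφ0 u hu hu0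
      exact (hsupp φ hint hpos).ne'
  rw [LF_one_eq_integral, hI]
  have hπ : (π : ℂ) ≠ 0 := by exact_mod_cast Real.pi_ne_zero
  exact mul_ne_zero (mul_ne_zero two_ne_zero hπ) (by exact_mod_cast hne')

theorem sq_le_geom (m : ℕ) : ((m + 6 : ℕ) : ℝ) ^ 2 ≤ 36 * (3 / 2) ^ m := by
  induction m with
  | zero => norm_num
  | succ m ih =>
    have h1 : ((m + 1 + 6 : ℕ) : ℝ) ^ 2 ≤ 3 / 2 * ((m + 6 : ℕ) : ℝ) ^ 2 := by
      push_cast
      nlinarith [(Nat.cast_nonneg m : (0 : ℝ) ≤ m)]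
    calc ((m + 1 + 6 : ℕ) : ℝ) ^ 2 ≤ 3 / 2 * ((m + 6 : ℕ) : ℝ) ^ 2 := h1
      _ ≤ 3 / 2 * (36 * (3 / 2) ^ m) := by gcongr
      _ = 36 * (3 / 2) ^ (m + 1) := by ring

/-- The first term of the expansion dominates the others. -/
theorem im_axis_ne_zero {f : CuspForm (Gamma0 N) 2} {a : ℕ → ℤ} (ha : ∀ n, qCoeff f n = a n)
    (a0 : a 0 = 0) (a1 : a 1 = 1) {B C : ℝ} (a2 : |(a 2 : ℝ)| ≤ B) (a3 : |(a 3 : ℝ)| ≤ 3)
    (a4 : |(a 4 : ℝ)| ≤ C) (a5 : |(a 5 : ℝ)| ≤ 4) (hn : ∀ n, 6 ≤ n → |(a n : ℝ)| ≤ n ^ 2)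
    {t : ℝ} (ht : 0 < t) {x₀ : ℝ} (hx : Real.exp (-(2 * π * t)) ≤ x₀) (hx₀ : x₀ < 2 / 3)
    (hB : B * x₀ + 3 * x₀ ^ 2 + C * x₀ ^ 3 + 4 * x₀ ^ 4 + 36 * x₀ ^ 5 * (1 - 3 / 2 * x₀)⁻¹ < 1) :
    f (ofComplex (I * t)) ≠ 0 := by
  set y : ℝ := Real.exp (-(2 * π * t)) with hy
  have hy0 : 0 < y := Real.exp_pos _
  have hB0 : 0 ≤ B := (abs_nonneg _).trans a2
  have hC0 : 0 ≤ C := (abs_nonneg _).trans a4
  have hy23 : 3 / 2 * y < 1 := by linarith
  have hinv : (1 - 3 / 2 * y)⁻¹ ≤ (1 - 3 / 2 * x₀)⁻¹ := by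
    apply inv_anti₀
    · linarith
    · linarith
  have hinv0 : 0 ≤ (1 - 3 / 2 * y)⁻¹ := by
    rw [inv_nonneg]
    linarith
  have hmain : B * y + 3 * y ^ 2 + C * y ^ 3 + 4 * y ^ 4 + 36 * y ^ 5 * (1 - 3 / 2 * y)⁻¹ < 1 := by
    have hx00 : 0 ≤ x₀ := hy0.le.trans hx
    refine lt_of_le_of_lt ?_ hB
    gcongr
  have hh : (1 : ℝ) ∈ (Gamma0 N : Subgroup (GL (Fin 2) ℝ)).strictPeriods := by
    simp [strictPeriods_Gamma0]
  have hs := ModularForm.hasSum_qExpansion f one_pos hh (ofComplex (I * t))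
  have hq : Periodic.qParam 1 ((ofComplex (I * t) : ℍ) : ℂ) = (y : ℂ) := by
    rw [ofComplex_eq (by simpa using ht), Periodic.qParam, hy, Complex.ofReal_exp]
    congr 1
    push_cast
    have := I_mul_I
    linear_combination (2 * π * t : ℂ) * this
  have hs' : HasSum (fun n : ℕ ↦ ((a n * y ^ n : ℝ) : ℂ)) (f (ofComplex (I * t))) := by
    refine hs.congr_fun ?_
    intro n
    have h1 : (qExpansion 1 ⇑f).coeff n = (a n : ℂ) := ha n
    rw [h1, hq]
    push_cast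
    rfl
  intro h0
  rw [h0] at hs'
  have hs2 : HasSum (fun n : ℕ ↦ (a n * y ^ n : ℝ)) 0 := by
    rw [← Complex.hasSum_ofReal, Complex.ofReal_zero]
    exact hs'
  have h1 := hs2.summable.sum_add_tsum_nat_add 6
  rw [hs2.tsum_eq] at h1
  have htail : ‖∑' m : ℕ, (a (m + 6) * y ^ (m + 6) : ℝ)‖ ≤ 36 * y ^ 6 * (1 - 3 / 2 * y)⁻¹ := by
    refine tsum_of_norm_bounded (f := fun m : ℕ ↦ (a (m + 6) * y ^ (m + 6) : ℝ))
      (g := fun m : ℕ ↦ 36 * y ^ 6 * (3 / 2 * y) ^ m) ?_ fun m ↦ ?_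
    · exact (hasSum_geometric_of_lt_one (by positivity) hy23).mul_left _
    · rw [Real.norm_eq_abs, abs_mul, abs_of_pos (pow_pos hy0 _)]
      calc |(a (m + 6) : ℝ)| * y ^ (m + 6) ≤ ((m + 6 : ℕ) : ℝ) ^ 2 * y ^ (m + 6) := by
            gcongr
            exact hn (m + 6) (by omega)
        _ ≤ 36 * (3 / 2) ^ m * y ^ (m + 6) := by
            gcongr
            exact sq_le_geom m
        _ = 36 * y ^ 6 * (3 / 2 * y) ^ m := by
            rw [mul_pow, pow_add]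
            ring
  rw [Real.norm_eq_abs] at htail
  simp only [Finset.sum_range_succ, Finset.sum_range_zero, a0, a1] at h1
  have e2 := abs_le.mp a2
  have e3 := abs_le.mp a3
  have e4 := abs_le.mp a4
  have e5 := abs_le.mp a5
  have e6 := abs_le.mp htail
  have p2 : 0 < y ^ 2 := pow_pos hy0 2
  have p3 : 0 < y ^ 3 := pow_pos hy0 3
  have p4 : 0 < y ^ 4 := pow_pos hy0 4
  have p5 : 0 < y ^ 5 := pow_pos hy0 5
  have f2 : -(B * y ^ 2) ≤ a 2 * y ^ 2 := by nlinarith [e2.1]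
  have f3 : -(3 * y ^ 3) ≤ a 3 * y ^ 3 := by nlinarith [e3.1]
  have f4 : -(C * y ^ 4) ≤ a 4 * y ^ 4 := by nlinarith [e4.1]
  have f5 : -(4 * y ^ 5) ≤ a 5 * y ^ 5 := by nlinarith [e5.1]
  have hfin := mul_lt_mul_of_pos_left hmain hy0
  norm_num at h1
  nlinarith [e6.1, f2, f3, f4, f5, hfin, h1]

/-- The whole imaginary axis, by the Fricke involution. -/
theorem im_axis_ne_zero_of_newform {f : CuspForm (Gamma0 N) 2} (hf : f.IsNewform) {t₀ : ℝ}
    (ht₀ : 0 < t₀) (hN : N * t₀ ^ 2 = 1) (h : ∀ t : ℝ, t₀ ≤ t → f (ofComplex (I * t)) ≠ 0)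
    (t : ℝ) (ht : 0 < t) : f (ofComplex (I * t)) ≠ 0 := by
  rcases le_or_gt t₀ t with h1 | h1
  · exact h t h1
  · have hN0 : (0 : ℝ) < N := by exact_mod_cast NeZero.pos N
    set u : ℝ := 1 / (N * t) with hu
    have hu0 : 0 < u := by positivity
    have hut : t₀ ≤ u := by
      rw [hu, le_div_iff₀ (by positivity)]
      have : (N : ℝ) * t ≤ N * t₀ := by gcongr
      nlinarith
    have hz : ((ofComplex (I * t) : ℍ) : ℂ) =
        -1 / (N * ((ofComplex (I * u) : ℍ) : ℂ)) := by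
      rw [ofComplex_eq (by simpa using ht), ofComplex_eq (by simpa using hu0), hu]
      have ht' : (t : ℂ) ≠ 0 := by exact_mod_cast ht.ne'
      have hN' : (N : ℂ) ≠ 0 := by exact_mod_cast hN0.ne'
      have hI := I_ne_zero
      push_cast
      field_simp
      rw [I_sq]
    rw [newform_fricke hf (ofComplex (I * u)) (ofComplex (I * t)) hz]
    have h2 : sign f N ≠ 0 := by
      rcases sign_eq_one_or hf (exact_self (NeZero.ne N)) with h3 | h3 <;> rw [h3] <;> norm_num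
    have h4 : ((ofComplex (I * u) : ℍ) : ℂ) ≠ 0 := (ofComplex (I * u)).ne_zero
    have hN' : (N : ℂ) ≠ 0 := by exact_mod_cast hN0.ne'
    exact mul_ne_zero h2 (mul_ne_zero (mul_ne_zero hN' (pow_ne_zero 2 h4)) (h u hut))

/-- The root number is `1` if `f` does not vanish at the fixed point of the Fricke involution. -/
theorem rootNumber_eq_one {f : CuspForm (Gamma0 N) 2} (hf : f.IsNewform) {t₀ : ℝ}
    (ht₀ : 0 < t₀) (hN : N * t₀ ^ 2 = 1) (h : f (ofComplex (I * t₀)) ≠ 0) :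
    rootNumber f = 1 := by
  have hN0 : (0 : ℝ) < N := by exact_mod_cast NeZero.pos N
  have hc : (N : ℂ) * t₀ ^ 2 = 1 := by exact_mod_cast hN
  have hI := I_ne_zero
  have hN' : (N : ℂ) ≠ 0 := by exact_mod_cast hN0.ne'
  have ht' : (t₀ : ℂ) ≠ 0 := by exact_mod_cast ht₀.ne'
  have hz : ((ofComplex (I * t₀) : ℍ) : ℂ) = -1 / (N * ((ofComplex (I * t₀) : ℍ) : ℂ)) := by
    rw [ofComplex_eq (by simpa using ht₀), eq_div_iff (mul_ne_zero hN' (mul_ne_zero hI ht'))]
    linear_combination (I ^ 2) * hc + I_sq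
  have h1 := newform_fricke hf (ofComplex (I * t₀)) (ofComplex (I * t₀)) hz
  have h2 : (N : ℂ) * ((ofComplex (I * t₀) : ℍ) : ℂ) ^ 2 = -1 := by
    rw [ofComplex_eq (by simpa using ht₀)]
    linear_combination (I ^ 2) * hc + I_sq
  rw [h2] at h1
  have h3 : (1 + sign f N) * f (ofComplex (I * t₀)) = 0 := by linear_combination h1
  have h4 := (mul_eq_zero.mp h3).resolve_right h
  rw [rootNumber]
  linear_combination -h4

theorem exp_lower (u : ℝ) (hu : 0 ≤ u) : 1 + u + u ^ 2 / 2 + u ^ 3 / 6 + u ^ 4 / 24 + u ^ 5 / 120 +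
    u ^ 6 / 720 ≤ Real.exp u := by
  have h := Real.sum_le_exp_of_nonneg hu 7
  simp only [Finset.sum_range_succ, Finset.sum_range_zero, Nat.factorial] at h
  norm_num at h
  linarith

/-- Numerical bound. -/
theorem exp_le {M : ℕ} {s u x₀ : ℝ} (hs : 0 < s) (hsM : (M : ℝ) ≤ s ^ 2) (hu : 0 ≤ u)
    (hus : u * s ≤ 6.283) (hx0 : 0 < x₀)
    (hx : 1 / x₀ ≤ 1 + u + u ^ 2 / 2 + u ^ 3 / 6 + u ^ 4 / 24 + u ^ 5 / 120 + u ^ 6 / 720)
    {t : ℝ} (ht : 1 ≤ M * t ^ 2) (ht0 : 0 < t) : Real.exp (-(2 * π * t)) ≤ x₀ := by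
  have hst : 1 ≤ s * t := by
    have h1 : 1 ≤ (s * t) ^ 2 := by
      rw [mul_pow]
      exact ht.trans (by gcongr)
    have h2 : 0 < s * t := by positivity
    nlinarith
  have hπ : 6.283 ≤ 2 * π := by
    have := Real.pi_gt_d4
    linarith
  have h1 : u ≤ 2 * π * t := by
    have h3 : u ≤ 2 * π / s := by
      rw [le_div_iff₀ hs]
      exact hus.trans hπ
    refine h3.trans ?_
    rw [div_le_iff₀ hs]
    have : (0 : ℝ) < 2 * π := by positivity
    nlinarith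
  have h2 : 1 / x₀ ≤ Real.exp (2 * π * t) :=
    hx.trans ((exp_lower u hu).trans (Real.exp_le_exp.mpr h1))
  rw [Real.exp_neg]
  rw [one_div] at h2
  exact (inv_le_comm₀ (Real.exp_pos _) hx0).mpr h2

/-- An integral bound from a real bound. -/
theorem abs_le_of_norm_le {z : ℂ} {a : ℤ} (hz : z = a) {d n : ℕ} (h : ‖z‖ ≤ d * √n) {b : ℕ}
    (hb : d ^ 2 * n < (b + 1) ^ 2) : |(a : ℝ)| ≤ b := by
  have h1 : |(a : ℝ)| ≤ d * √n := by
    rw [hz] at h
    simpa using h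
  have h2 : (d * √n) ^ 2 < ((b : ℝ) + 1) ^ 2 := by
    rw [mul_pow, Real.sq_sqrt (Nat.cast_nonneg n)]
    exact_mod_cast hb
  have h3 : |(a : ℝ)| < b + 1 :=
    h1.trans_lt (lt_of_pow_lt_pow_left₀ 2 (by positivity) h2)
  have h4 : |a| < b + 1 := by exact_mod_cast h3
  have h5 : |a| ≤ b := by omega
  exact_mod_cast h5

section curve

variable {W : WeierstrassCurve ℤ}

/-- The first coefficients of the newform of a semistable elliptic curve. -/
theorem exists_data (hΔ : W.Δ ≠ 0) {g : CuspForm (Gamma0 W.conductorLevel) 2} (hg : g.IsNewform)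
    (hgW : ∀ l : ℕ, l.Prime → ¬ l ∣ W.conductorLevel → qCoeff g l = (W.apOfModel l : ℂ)) :
    ∃ a : ℕ → ℤ, (∀ n, qCoeff g n = a n) ∧ a 0 = 0 ∧ a 1 = 1 ∧ |(a 2 : ℝ)| ≤ 2 ∧
      |(a 3 : ℝ)| ≤ 3 ∧ |(a 4 : ℝ)| ≤ 2 ∧ |(a 5 : ℝ)| ≤ 4 ∧ (∀ n, 6 ≤ n → |(a n : ℝ)| ≤ n ^ 2) ∧
      (2 ∣ W.conductorLevel → |(a 2 : ℝ)| ≤ 1 ∧ |(a 4 : ℝ)| ≤ 1) := by
  have hN0 : W.conductorLevel ≠ 0 := W.conductorLevel_pos.ne'
  have : NeZero W.conductorLevel := ⟨hN0⟩
  choose a ha using exists_int_qCoeff hg fun l hl hlN ↦ ⟨_, hgW l hl hlN⟩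
  have hle : ∀ n : ℕ, n ≠ 0 → ‖qCoeff g n‖ ≤ n.divisors.card * √n :=
    fun n hn ↦ Bounds.newform_norm_le hΔ hg hgW hn
  have b2 : |(a 2 : ℝ)| ≤ 2 := by
    have := abs_le_of_norm_le (ha 2) (hle 2 (by norm_num)) (b := 2) (by decide)
    exact_mod_cast this
  have b3 : |(a 3 : ℝ)| ≤ 3 := by
    have := abs_le_of_norm_le (ha 3) (hle 3 (by norm_num)) (b := 3) (by decide)
    exact_mod_cast this
  have b5 : |(a 5 : ℝ)| ≤ 4 := by
    have := abs_le_of_norm_le (ha 5) (hle 5 (by norm_num)) (b := 4) (by decide)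
    exact_mod_cast this
  have key : |(a 4 : ℝ)| ≤ 2 ∧
      (2 ∣ W.conductorLevel → |(a 2 : ℝ)| ≤ 1 ∧ |(a 4 : ℝ)| ≤ 1) := by
    by_cases h2 : 2 ∣ W.conductorLevel
    · have h4 : ¬ 2 ^ 2 ∣ W.conductorLevel := fun h ↦ by
        have := W.squarefree_conductorLevel 2 (by rwa [← pow_two])
        norm_num at this
      have h5 := (newformBadPrimeCoeff' hN0 g hg 2 Nat.prime_two h2).1 h4
      have h6 := hg.1.qCoeff_prime_pow_of_dvd 2 0 Nat.prime_two h2
      norm_num at h6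
      rw [ha 2] at h5 h6
      rw [ha 4] at h6
      have h5' : a 2 ^ 2 = 1 := by exact_mod_cast h5
      have h6' : a 4 = a 2 * a 2 := by exact_mod_cast h6
      have h7 : a 4 = 1 := by rw [h6', ← pow_two, h5']
      have h8 : |a 2| ≤ 1 := by
        rw [← sq_le_one_iff_abs_le_one, h5']
      have h8' : |(a 2 : ℝ)| ≤ 1 := by exact_mod_cast h8
      have h9 : |(a 4 : ℝ)| = 1 := by rw [h7]; simp
      exact ⟨by rw [h9]; norm_num, fun _ ↦ ⟨h8', h9.le⟩⟩
    · refine ⟨?_, fun h ↦ absurd h h2⟩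
      have h6 := hg.1.qCoeff_prime_pow_of_not_dvd 2 0 Nat.prime_two h2
      norm_num at h6
      rw [ha 4, ha 2, hg.1.qCoeff_one] at h6
      have h6' : a 4 = a 2 * a 2 - 2 := by
        have : ((a 4 : ℤ) : ℂ) = ((a 2 * a 2 - 2 : ℤ) : ℂ) := by
          rw [h6]
          push_cast
          ring
        exact_mod_cast this
      have h7 : |a 2| ≤ 2 := by exact_mod_cast b2
      have h8 : |a 4| ≤ 2 := by
        have h9 := abs_le.mp h7
        rw [h6', abs_le]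
        constructor <;> nlinarith [h9.1, h9.2, mul_self_nonneg (a 2)]
      exact_mod_cast h8
  refine ⟨a, ha, ?_, ?_, b2, b3, key.1, b5, ?_, key.2⟩
  · have h0 : qCoeff g 0 = 0 := H22.cusp_qCoeff_zero g
    rw [ha 0] at h0
    exact_mod_cast h0
  · have h1 := hg.1.qCoeff_one
    rw [ha 1] at h1
    exact_mod_cast h1
  · intro n hn
    have h1 := hle n (by omega)
    rw [ha n] at h1
    have h2 : |(a n : ℝ)| ≤ n.divisors.card * √n := by simpa using h1
    have h3 : (n.divisors.card : ℝ) ≤ n := by exact_mod_cast Nat.card_divisors_le_self n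
    have h4 : √(n : ℝ) ≤ n := by
      rw [Real.sqrt_le_left (by positivity)]
      have : (1 : ℝ) ≤ n := by exact_mod_cast (by omega : 1 ≤ n)
      nlinarith
    calc |(a n : ℝ)| ≤ n.divisors.card * √n := h2
      _ ≤ n * n := by gcongr
      _ = n ^ 2 := by ring

/-- **Semistable elliptic curves of conductor `< 29` or `= 30`.**  The newform has no zero on the
imaginary axis, the root number is `1`, `L(g, 1) ≠ 0`, the analytic rank is zero, and
`L(g, 1)` is a non-zero rational multiple of the real period. -/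
theorem conductor_small (W : WeierstrassCurve ℤ) (hΔ : W.Δ ≠ 0) (hW : W.IsSemistableModel)
    (hN : W.conductorLevel < 29 ∨ W.conductorLevel = 30) :
    ∃ g : CuspForm (Gamma0 W.conductorLevel) 2, g.IsNewform ∧
      (∀ l : ℕ, l.Prime → ¬ l ∣ W.conductorLevel → qCoeff g l = (W.apOfModel l : ℂ)) ∧
      (∀ t : ℝ, 0 < t → g (ofComplex (I * t)) ≠ 0) ∧
      rootNumber g = 1 ∧ LFun.LF g 1 ≠ 0 ∧ Parity.analyticRank g = 0 ∧
      ∃ Ω : ℝ, 0 < Ω ∧ (∀ x : ℝ, (x : ℂ) ∈ periodGroup g ↔ ∃ m : ℤ, x = m * Ω) ∧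
        (∀ l : ℕ, l.Prime → ¬ l ∣ W.conductorLevel →
          ∃ m : ℤ, ((W.reductionMod l).card : ℂ) * LFun.LF g 1 = m * Ω) ∧
        ∃ q : ℚ, q ≠ 0 ∧ LFun.LF g 1 = q * Ω := by
  have hN0 : W.conductorLevel ≠ 0 := W.conductorLevel_pos.ne'
  have : NeZero W.conductorLevel := ⟨hN0⟩
  obtain ⟨g, hg, hgW, Ω, hΩ, h1, h2, q, hq⟩ := curve_central_value W hΔ hW
  obtain ⟨a, ha, a0, a1, a2, a3, a4, a5, an, ae⟩ := exists_data hΔ hg hgW
  have hNR : (0 : ℝ) < W.conductorLevel := by exact_mod_cast W.conductorLevel_pos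
  set t₀ : ℝ := 1 / √(W.conductorLevel : ℝ) with ht₀
  have ht₀0 : 0 < t₀ := by positivity
  have hNt : (W.conductorLevel : ℝ) * t₀ ^ 2 = 1 := by
    rw [ht₀, div_pow, Real.sq_sqrt hNR.le]
    field_simp
  have hax : ∀ t : ℝ, t₀ ≤ t → g (ofComplex (I * t)) ≠ 0 := by
    intro t ht
    have ht0 : 0 < t := ht₀0.trans_le ht
    have hM : ∀ M : ℕ, W.conductorLevel ≤ M → 1 ≤ (M : ℝ) * t ^ 2 := by
      intro M hM
      have h3 : (W.conductorLevel : ℝ) ≤ M := by exact_mod_cast hM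
      calc (1 : ℝ) = W.conductorLevel * t₀ ^ 2 := hNt.symm
        _ ≤ M * t ^ 2 := by gcongr
    by_cases hev : 2 ∣ W.conductorLevel
    · obtain ⟨a2', a4'⟩ := ae hev
      have hx : Real.exp (-(2 * π * t)) ≤ 8 / 25 :=
        exp_le (M := 30) (s := 5.478) (u := 1.146) (by norm_num) (by norm_num) (by norm_num)
          (by norm_num) (by norm_num) (by norm_num) (hM 30 (by omega)) ht0
      exact im_axis_ne_zero ha a0 a1 a2' a3 a4' a5 an ht0 hx (by norm_num) (by norm_num)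
    · have h23 : W.conductorLevel ≤ 23 := by
        have hsq := W.squarefree_conductorLevel
        have h24 : ¬ W.conductorLevel = 25 := fun h ↦ by
          rw [h] at hsq
          exact absurd (hsq 5 (by norm_num)) (by norm_num)
        have h27 : ¬ W.conductorLevel = 27 := fun h ↦ by
          rw [h] at hsq
          exact absurd (hsq 3 (by norm_num)) (by norm_num)
        omega
      have hx : Real.exp (-(2 * π * t)) ≤ 7 / 25 :=
        exp_le (M := 23) (s := 4.796) (u := 1.31) (by norm_num) (by norm_num) (by norm_num)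
          (by norm_num) (by norm_num) (by norm_num) (hM 23 h23) ht0
      exact im_axis_ne_zero ha a0 a1 a2 a3 a4 a5 an ht0 hx (by norm_num) (by norm_num)
  have hax' := im_axis_ne_zero_of_newform hg ht₀0 hNt hax
  have hc := conj_qCoeff hg fun l hl hlN ↦ ⟨_, hgW l hl hlN⟩
  have h3 : LFun.LF g 1 ≠ 0 := LF_one_ne_zero' hc hax'
  refine ⟨g, hg, hgW, hax', rootNumber_eq_one hg ht₀0 hNt (hax t₀ le_rfl), h3, ?_, Ω, hΩ, h1, h2,
    q, ?_, hq⟩
  · rw [Parity.analyticRank, analyticOrderNatAt,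
      ((LFun.differentiable_LF g).analyticAt 1).analyticOrderAt_eq_zero.mpr h3]
    rfl
  · rintro rfl
    apply h3
    rw [hq]
    simp

end curve

end Fermat.Agent.Cor.CentralSmall
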