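import Mathlib
import Fermat.Agent.Cor.CentralSmall
import Fermat.Agent.Cor.CentralFifth

/-!
# The sign of the central value (corollary file, not used for S01)

For the semistable elliptic curves of conductor `< 29` or `30` the value `L(W, 1)` is positive; for
conductor `11` it is exactly `Ω / 5`, with `Ω` the least positive real period of the newform.
-/

set_option autoImplicit false

open UpperHalfPlane hiding I
open Complex CongruenceSubgroup Filter Function ModularFormClass Set MeasureTheory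
open scoped MatrixGroups ModularForm Topology ComplexConjugate Real Manifold

noncomputable section

namespace Fermat.Agent.Cor.CentralSign

open Fermat.Agent.H16 Fermat.Agent.Cor.CentralValue Fermat.Agent.Cor.CentralEleven
open Fermat.Agent.Cor.RootNumber Fermat.Agent.Cor.Parity Fermat.Agent.Cor.CentralSmall

variable {N : ℕ} [NeZero N]

/-- The first term of the expansion dominates the others. -/
theorem im_axis_pos {f : CuspForm (Gamma0 N) 2} {a : ℕ → ℤ} (ha : ∀ n, qCoeff f n = a n)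
    (a0 : a 0 = 0) (a1 : a 1 = 1) {B C : ℝ} (a2 : |(a 2 : ℝ)| ≤ B) (a3 : |(a 3 : ℝ)| ≤ 3)
    (a4 : |(a 4 : ℝ)| ≤ C) (a5 : |(a 5 : ℝ)| ≤ 4) (hn : ∀ n, 6 ≤ n → |(a n : ℝ)| ≤ n ^ 2)
    {t : ℝ} (ht : 0 < t) {x₀ : ℝ} (hx : Real.exp (-(2 * π * t)) ≤ x₀) (hx₀ : x₀ < 2 / 3)
    (hB : B * x₀ + 3 * x₀ ^ 2 + C * x₀ ^ 3 + 4 * x₀ ^ 4 + 36 * x₀ ^ 5 * (1 - 3 / 2 * x₀)⁻¹ < 1) :
    0 < (f (ofComplex (I * t))).re := by
  set y : ℝ := Real.exp (-(2 * π * t)) with hy
  have hy0 : 0 < y := Real.exp_pos _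
  have hB0 : 0 ≤ B := (abs_nonneg _).trans a2
  have hC0 : 0 ≤ C := (abs_nonneg _).trans a4
  have hy23 : 3 / 2 * y < 1 := by linarith
  have hinv : (1 - 3 / 2 * y)⁻¹ ≤ (1 - 3 / 2 * x₀)⁻¹ := by
    apply inv_anti₀
    · linarith
    · linarith
  have hinv0 : 0 ≤ (1 - 3 / 2 * y)⁻¹ := by
    rw [inv_nonneg]
    linarith
  have hmain : B * y + 3 * y ^ 2 + C * y ^ 3 + 4 * y ^ 4 + 36 * y ^ 5 * (1 - 3 / 2 * y)⁻¹ < 1 := by
    have hx00 : 0 ≤ x₀ := hy0.le.trans hx
    refine lt_of_le_of_lt ?_ hB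
    gcongr
  have hh : (1 : ℝ) ∈ (Gamma0 N : Subgroup (GL (Fin 2) ℝ)).strictPeriods := by
    simp [strictPeriods_Gamma0]
  have hs := ModularForm.hasSum_qExpansion f one_pos hh (ofComplex (I * t))
  have hq : Periodic.qParam 1 ((ofComplex (I * t) : ℍ) : ℂ) = (y : ℂ) := by
    rw [ofComplex_eq (by simpa using ht), Periodic.qParam, hy, Complex.ofReal_exp]
    congr 1
    push_cast
    have := I_mul_I
    linear_combination (2 * π * t : ℂ) * this
  have hs' : HasSum (fun n : ℕ ↦ ((a n * y ^ n : ℝ) : ℂ)) (f (ofComplex (I * t))) := by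
    refine hs.congr_fun ?_
    intro n
    have h1 : (qExpansion 1 ⇑f).coeff n = (a n : ℂ) := ha n
    rw [h1, hq]
    push_cast
    rfl
  by_contra h0
  push Not at h0
  set F : ℝ := (f (ofComplex (I * t))).re with hF
  have hs2 : HasSum (fun n : ℕ ↦ (a n * y ^ n : ℝ)) F := by
    have h1 := Complex.hasSum_re hs'
    simpa only [Complex.ofReal_re] using h1
  have h1 := hs2.summable.sum_add_tsum_nat_add 6
  rw [hs2.tsum_eq] at h1
  have htail : ‖∑' m : ℕ, (a (m + 6) * y ^ (m + 6) : ℝ)‖ ≤ 36 * y ^ 6 * (1 - 3 / 2 * y)⁻¹ := by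
    refine tsum_of_norm_bounded (f := fun m : ℕ ↦ (a (m + 6) * y ^ (m + 6) : ℝ))
      (g := fun m : ℕ ↦ 36 * y ^ 6 * (3 / 2 * y) ^ m) ?_ fun m ↦ ?_
    · exact (hasSum_geometric_of_lt_one (by positivity) hy23).mul_left _
    · rw [Real.norm_eq_abs, abs_mul, abs_of_pos (pow_pos hy0 _)]
      calc |(a (m + 6) : ℝ)| * y ^ (m + 6) ≤ ((m + 6 : ℕ) : ℝ) ^ 2 * y ^ (m + 6) := by
            gcongr
            exact hn (m + 6) (by omega)
        _ ≤ 36 * (3 / 2) ^ m * y ^ (m + 6) := by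
            gcongr
            exact sq_le_geom m
        _ = 36 * y ^ 6 * (3 / 2 * y) ^ m := by
            rw [mul_pow, pow_add]
            ring
  rw [Real.norm_eq_abs] at htail
  simp only [Finset.sum_range_succ, Finset.sum_range_zero, a0, a1] at h1
  have e2 := abs_le.mp a2
  have e3 := abs_le.mp a3
  have e4 := abs_le.mp a4
  have e5 := abs_le.mp a5
  have e6 := abs_le.mp htail
  have p2 : 0 < y ^ 2 := pow_pos hy0 2
  have p3 : 0 < y ^ 3 := pow_pos hy0 3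
  have p4 : 0 < y ^ 4 := pow_pos hy0 4
  have p5 : 0 < y ^ 5 := pow_pos hy0 5
  have f2 : -(B * y ^ 2) ≤ a 2 * y ^ 2 := by
    have := mul_le_mul_of_nonneg_right e2.1 p2.le
    linarith
  have f3 : -(3 * y ^ 3) ≤ a 3 * y ^ 3 := by
    have := mul_le_mul_of_nonneg_right e3.1 p3.le
    linarith
  have f4 : -(C * y ^ 4) ≤ a 4 * y ^ 4 := by
    have := mul_le_mul_of_nonneg_right e4.1 p4.le
    linarith
  have f5 : -(4 * y ^ 5) ≤ a 5 * y ^ 5 := by
    have := mul_le_mul_of_nonneg_right e5.1 p5.le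
    linarith
  have hfin := mul_lt_mul_of_pos_left hmain hy0
  norm_num at h1
  linarith [e6.1, f2, f3, f4, f5, hfin, h1, h0]

/-- A form with real coefficients and without zeros on the imaginary axis has `L(f, 1) > 0`. -/
theorem LF_one_pos {f : CuspForm (Gamma0 N) 2} (h : ∀ n, conj (qCoeff f n) = qCoeff f n)
    (hne : ∀ t : ℝ, 0 < t → f (ofComplex (I * t)) ≠ 0)
    (h1pos : 0 < (f (ofComplex (I * (1 : ℝ)))).re) : ∃ x : ℝ, 0 < x ∧ LFun.LF f 1 = x := by
  set φ : ℝ → ℝ := fun t ↦ (f (ofComplex (I * t))).re with hφ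
  have hreal : ∀ t ∈ Ioi (0 : ℝ), f (ofComplex (I * t)) = φ t := by
    intro t ht
    have h1 := congrFun (slash_J_eq h) (ofComplex (I * t))
    rw [slash_J_apply] at h1
    have h2 : (J • (ofComplex (I * t)) : ℍ) = ofComplex (I * t) := by
      apply UpperHalfPlane.ext
      rw [coe_J_smul, ofComplex_eq (by simpa using ht)]
      simp
    rw [h2] at h1
    exact (Complex.conj_eq_iff_re.mp h1).symm
  have hφ0 : ∀ t ∈ Ioi (0 : ℝ), φ t ≠ 0 := by
    intro t ht h0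
    apply hne t ht
    rw [hreal t ht, h0, Complex.ofReal_zero]
  have hcont : ContinuousOn φ (Ioi 0) :=
    Complex.continuous_re.comp_continuousOn (continuousOn_im_axis f)
  have hint : IntegrableOn φ (Ioi 0) := (integrableOn f).re
  have hI : ∫ t in Ioi (0 : ℝ), f (ofComplex (I * t)) = ((∫ t in Ioi (0 : ℝ), φ t : ℝ) : ℂ) := by
    rw [setIntegral_congr_fun measurableSet_Ioi hreal]
    exact integral_complex_ofReal
  have hsupp : ∀ ψ : ℝ → ℝ, IntegrableOn ψ (Ioi 0) → (∀ t ∈ Ioi (0 : ℝ), 0 < ψ t) →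
      0 < ∫ t in Ioi (0 : ℝ), ψ t := by
    intro ψ hψ hpos
    rw [setIntegral_pos_iff_support_of_nonneg_ae ?_ hψ]
    · have h3 : support ψ ∩ Ioi 0 = Ioi (0 : ℝ) := by
        rw [Set.inter_eq_right]
        intro t ht
        exact (hpos t ht).ne'
      rw [h3, Real.volume_Ioi]
      exact ENNReal.zero_lt_top
    · rw [Filter.EventuallyLE, ae_restrict_iff' measurableSet_Ioi]
      exact Eventually.of_forall fun t ht ↦ (hpos t ht).le
  have hpos : ∀ t ∈ Ioi (0 : ℝ), 0 < φ t := by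
    intro t ht
    by_contra h2
    push Not at h2
    obtain ⟨u, hu, hu0⟩ := isPreconnected_Ioi.intermediate_value ht
      (by norm_num : (1 : ℝ) ∈ Ioi 0) hcont ⟨h2, h1pos.le⟩
    exact hφ0 u hu hu0
  refine ⟨2 * π * ∫ t in Ioi (0 : ℝ), φ t, mul_pos (by positivity) (hsupp φ hint hpos), ?_⟩
  rw [LF_one_eq_integral, hI]
  push_cast
  rfl

theorem exp_one_le : Real.exp (-(2 * π * 1)) ≤ 1 / 5 := by
  rw [Real.exp_neg, one_div]
  apply inv_anti₀ (by norm_num)
  have h1 := Real.add_one_le_exp (2 * π * 1)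
  have h2 := Real.pi_gt_three
  linarith

/-- **Positivity of the central value** for the semistable curves of small conductor. -/
theorem pos_of_small {W : WeierstrassCurve ℤ} (hΔ : W.Δ ≠ 0) {g : CuspForm (Gamma0 W.conductorLevel) 2}
    (hg : g.IsNewform)
    (hgW : ∀ l : ℕ, l.Prime → ¬ l ∣ W.conductorLevel → qCoeff g l = (W.apOfModel l : ℂ))
    (hne : ∀ t : ℝ, 0 < t → g (ofComplex (I * t)) ≠ 0) : ∃ x : ℝ, 0 < x ∧ LFun.LF g 1 = x := by
  have : NeZero W.conductorLevel := ⟨W.conductorLevel_pos.ne'⟩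
  obtain ⟨a, ha, a0, a1, a2, a3, a4, a5, hn, -⟩ := exists_data hΔ hg hgW
  refine LF_one_pos (fun n ↦ ?_) hne ?_
  · rw [ha, map_intCast]
  · refine im_axis_pos ha a0 a1 a2 a3 a4 a5 hn one_pos exp_one_le (by norm_num) ?_
    norm_num

/-- For the semistable elliptic curves of conductor `< 29` or `30`, `L(W, 1)` is a positive rational
multiple of the least positive real period. -/
theorem conductor_small_pos (W : WeierstrassCurve ℤ) (hΔ : W.Δ ≠ 0) (hW : W.IsSemistableModel)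
    (hN : W.conductorLevel < 29 ∨ W.conductorLevel = 30) :
    ∃ g : CuspForm (Gamma0 W.conductorLevel) 2, g.IsNewform ∧
      (∀ l : ℕ, l.Prime → ¬ l ∣ W.conductorLevel → qCoeff g l = (W.apOfModel l : ℂ)) ∧
      ∃ (Ω : ℝ) (q : ℚ), 0 < Ω ∧ (∀ x : ℝ, (x : ℂ) ∈ periodGroup g ↔ ∃ m : ℤ, x = m * Ω) ∧
        0 < q ∧ LFun.LF g 1 = q * Ω := by
  obtain ⟨g, hg, hgW, hne, -, -, -, Ω, hΩ, h1, -, q, -, hq⟩ := conductor_small W hΔ hW hN
  refine ⟨g, hg, hgW, Ω, q, hΩ, h1, ?_, hq⟩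
  obtain ⟨x, hx, hx'⟩ := pos_of_small hΔ hg hgW hne
  rw [hq] at hx'
  have h2 : (q : ℝ) * Ω = x := by exact_mod_cast hx'
  have h3 : (0 : ℝ) < q := by
    by_contra h4
    push Not at h4
    have := mul_nonpos_of_nonpos_of_nonneg h4 hΩ.le
    linarith
  exact_mod_cast h3

/-- **The central value for conductor 11**: `L(W, 1) = Ω / 5`. -/
theorem conductor_eleven (W : WeierstrassCurve ℤ) (hΔ : W.Δ ≠ 0) (hW : W.IsSemistableModel)
    (h11 : W.conductorLevel = 11) :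
    ∃ (g : CuspForm (Gamma0 W.conductorLevel) 2) (Ω : ℝ), g.IsNewform ∧
      (∀ n, qCoeff g n = (LWeil.aN W n : ℂ)) ∧ 0 < Ω ∧
      (∀ x : ℝ, (x : ℂ) ∈ periodGroup g ↔ ∃ m : ℤ, x = m * Ω) ∧ LFun.LF g 1 = Ω / 5 := by
  have : NeZero W.conductorLevel := ⟨W.conductorLevel_pos.ne'⟩
  obtain ⟨g, hg, hga⟩ := LWeil.exists_newform hΔ hW
  have hN : ∀ q : ℕ, q.Prime → (q ∣ W.conductorLevel ↔ (q : ℤ) ∣ W.Δ) := fun q hq =>
    W.prime_dvd_conductorLevel_iff hΔ hq
  have hgn : ∀ n, qCoeff g n = (LWeil.aN W n : ℂ) := LWeil.qCoeff_eq_aN hg.1 hN hga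
  obtain ⟨Ωp, Ωm, u, v, h⟩ := MSD.exists_isCoords hg fun l hl _ ↦ ⟨_, hga l hl⟩
  have hap : ∀ q : ℕ, q.Prime → ¬ q ∣ W.conductorLevel → qCoeff g q = (W.apOfModel q : ℂ) := by
    intro q hq hqd
    rw [hga q hq, AffCount.ap_eq_of_good hq fun h' ↦ hqd ((hN q hq).mpr h')]
  obtain ⟨e2, e3⟩ := CentralFifth.a_two W hΔ hW h11
  have h2 := hap 2 Nat.prime_two (by rw [h11]; decide)
  have h3 := hap 3 Nat.prime_three (by rw [h11]; decide)
  rw [e2] at h2
  rw [e3] at h3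
  refine ⟨g, Ωp, hg, hgn, h.pos, h.real_period, ?_⟩
  obtain ⟨x, hx, hx'⟩ := pos_of_small hΔ hg hap fun t _ ↦
    ne_zero_of_level_eq h11 g hg.1.ne_zero _
  rw [h.zero.1] at hx' ⊢
  rcases CentralFifth.level_eleven h11 hg h h2 h3 with h5 | h5 <;> rw [h5] at hx' ⊢
  · push_cast
    ring
  · exfalso
    have h6 : (-1 / 5 : ℝ) * Ωp = x := by
      have h7 : (((-1 / 5 : ℝ) * Ωp : ℝ) : ℂ) = x := by
        rw [← hx']
        push_cast
        ring
      exact_mod_cast h7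
    have := h.pos
    linarith

end Fermat.Agent.Cor.CentralSign
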