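import Fermat.Agent.CFT.SecondIneq

/-!
# Chebotarev I : the logarithm of `L(s, χ)`

For a ray class character `χ` (`HChar`) let `Lam χ s = -∑ log (1 - χ(v) N v^{-s})`, `s > 1`.  It is
continuous, `exp (Lam χ s) = L(s, χ)`, and it differs from `Sc χ s = ∑ χ(v) N v^{-s}` by a bounded
function.  If `L(s, χ)` has a nonzero limit for `s → 1⁺`, then `Sc χ s` is bounded.
-/

set_option autoImplicit false
set_option linter.unusedSectionVars false
set_option linter.style.haveILetI false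

open scoped Classical nonZeroDivisors Topology

namespace Fermat.Agent.Cor.Cheb

open NumberField Filter IsDedekindDomain Fermat.Agent.H03 Fermat.Agent.CFT Module

variable {K : Type*} [Field K] [NumberField K] {𝔪 : Ideal (𝓞 K)}

/-- the summand -/
noncomputable def tm (χ : HChar 𝔪) (s : ℝ) (v : HeightOneSpectrum (𝓞 K)) : ℂ :=
  χ.ψ v.asIdeal * (nrm K s v.asIdeal : ℂ)

/-- the sum over the primes -/
noncomputable def Sc (χ : HChar 𝔪) (s : ℝ) : ℂ := ∑' v, tm χ s v

/-- the `L`-function -/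
noncomputable def Ls (χ : HChar 𝔪) (s : ℝ) : ℂ := ∑' I : Ideal (𝓞 K), χ.ψ I * (nrm K s I : ℂ)

/-- its logarithm -/
noncomputable def Lam (χ : HChar 𝔪) (s : ℝ) : ℂ := ∑' v, -Complex.log (1 - tm χ s v)

theorem two_le_absNorm (v : HeightOneSpectrum (𝓞 K)) : (2 : ℝ) ≤ Ideal.absNorm v.asIdeal := by
  have h1 : Ideal.absNorm v.asIdeal ≠ 0 := Ideal.absNorm_eq_zero_iff.not.mpr v.ne_bot
  have h2 : Ideal.absNorm v.asIdeal ≠ 1 := by
    rw [Ne, Ideal.absNorm_eq_one_iff]
    exact v.isPrime.ne_top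
  have h3 : 2 ≤ Ideal.absNorm v.asIdeal := by omega
  exact_mod_cast h3

theorem nrm_anti {s t : ℝ} (hst : s ≤ t) (v : HeightOneSpectrum (𝓞 K)) :
    nrm K t v.asIdeal ≤ nrm K s v.asIdeal :=
  Real.rpow_le_rpow_of_exponent_le (one_le_absNorm K v) (by linarith)

theorem nrm_le_half {s : ℝ} (hs : 1 ≤ s) (v : HeightOneSpectrum (𝓞 K)) :
    nrm K s v.asIdeal ≤ 1 / 2 := by
  refine (nrm_anti hs v).trans ?_
  have h := two_le_absNorm v
  rw [nrm, Real.rpow_neg_one, one_div]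
  exact inv_anti₀ (by norm_num) h

theorem norm_tm_le (χ : HChar 𝔪) (s : ℝ) (v : HeightOneSpectrum (𝓞 K)) :
    ‖tm χ s v‖ ≤ nrm K s v.asIdeal := by
  rw [tm, norm_mul, Complex.norm_real, Real.norm_of_nonneg (nrm_nonneg K s _)]
  exact mul_le_of_le_one_left (nrm_nonneg K s _) (χ.norm_le _)

theorem norm_tm_le_half (χ : HChar 𝔪) {s : ℝ} (hs : 1 ≤ s) (v : HeightOneSpectrum (𝓞 K)) :
    ‖tm χ s v‖ ≤ 1 / 2 := (norm_tm_le χ s v).trans (nrm_le_half hs v)

theorem norm_log_le (χ : HChar 𝔪) {s : ℝ} (hs : 1 ≤ s) (v : HeightOneSpectrum (𝓞 K)) :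
    ‖-Complex.log (1 - tm χ s v)‖ ≤ 3 / 2 * nrm K s v.asIdeal := by
  rw [norm_neg, sub_eq_add_neg]
  have h1 := Complex.norm_log_one_add_half_le_self (z := -tm χ s v)
    (by rw [norm_neg]; exact norm_tm_le_half χ hs v)
  rw [norm_neg] at h1
  exact h1.trans (mul_le_mul_of_nonneg_left (norm_tm_le χ s v) (by norm_num))

theorem norm_log_sub_le (χ : HChar 𝔪) {s : ℝ} (hs : 1 ≤ s) (v : HeightOneSpectrum (𝓞 K)) :
    ‖-Complex.log (1 - tm χ s v) - tm χ s v‖ ≤ nrm K 2 v.asIdeal := by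
  have h0 := norm_tm_le_half χ hs v
  have h1 := Complex.norm_log_one_add_sub_self_le (z := -tm χ s v)
    (by rw [norm_neg]; linarith)
  have e : -Complex.log (1 - tm χ s v) - tm χ s v =
      -(Complex.log (1 + -tm χ s v) - -tm χ s v) := by
    rw [sub_eq_add_neg 1]
    ring
  rw [e, norm_neg]
  refine h1.trans ?_
  rw [norm_neg]
  have h2 : (1 - ‖tm χ s v‖)⁻¹ ≤ 2 := by
    rw [inv_le_comm₀ (by linarith) (by norm_num)]
    linarith
  have h3 : ‖tm χ s v‖ ^ 2 ≤ nrm K 2 v.asIdeal := by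
    have h4 : ‖tm χ s v‖ ≤ nrm K 1 v.asIdeal := (norm_tm_le χ s v).trans (nrm_anti hs v)
    have h5 : nrm K 1 v.asIdeal ^ 2 = nrm K 2 v.asIdeal := by
      rw [nrm, nrm, ← Real.rpow_natCast, ← Real.rpow_mul (by positivity)]
      norm_num
    rw [← h5]
    exact pow_le_pow_left₀ (norm_nonneg _) h4 2
  have h6 : 0 ≤ ‖tm χ s v‖ ^ 2 := by positivity
  have h7 : ‖tm χ s v‖ ^ 2 * (1 - ‖tm χ s v‖)⁻¹ / 2 ≤ ‖tm χ s v‖ ^ 2 := by
    nlinarith [mul_le_mul_of_nonneg_left h2 h6]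
  exact h7.trans h3

theorem summable_tm (χ : HChar 𝔪) {s : ℝ} (hs : 1 < s) (hs2 : s ≤ 2) : Summable (tm χ s) :=
  Summable.of_norm_bounded (summable_nrm_prime K hs hs2) (norm_tm_le χ s)

theorem summable_log (χ : HChar 𝔪) {s : ℝ} (hs : 1 < s) (hs2 : s ≤ 2) :
    Summable fun v => -Complex.log (1 - tm χ s v) :=
  Summable.of_norm_bounded ((summable_nrm_prime K hs hs2).mul_left (3 / 2))
    (fun v => norm_log_le χ hs.le v)

/-- `Lam` and `Sc` differ by a bounded function -/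
theorem norm_Lam_sub_Sc_le (χ : HChar 𝔪) {s : ℝ} (hs : 1 < s) (hs2 : s ≤ 2) :
    ‖Lam χ s - Sc χ s‖ ≤ ∑' v : HeightOneSpectrum (𝓞 K), nrm K 2 v.asIdeal := by
  rw [Lam, Sc, ← (summable_log χ hs hs2).tsum_sub (summable_tm χ hs hs2)]
  exact tsum_of_norm_bounded (summable_nrm_prime K (by norm_num) le_rfl).hasSum
    (fun v => norm_log_sub_le χ hs.le v)

/-- **the logarithm of the Euler product** -/
theorem exp_Lam (χ : HChar 𝔪) {s : ℝ} (hs : 1 < s) (hs2 : s ≤ 2) :
    Complex.exp (Lam χ s) = Ls χ s := by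
  have hs0 : s ≠ 0 := by linarith
  have h1 := tendsto_T (summable_twist K χ.norm_le hs hs2)
  have h2 : ∀ S : Finset (HeightOneSpectrum (𝓞 K)),
      T (twist K χ.ψ hs0) S = Complex.exp (-∑ v ∈ S, -Complex.log (1 - tm χ s v)) * Ls χ s := by
    intro S
    rw [T_eq (summable_twist K χ.norm_le hs hs2)]
    congr 1
    rw [← Finset.sum_neg_distrib, Complex.exp_sum]
    refine Finset.prod_congr rfl fun v _ => ?_
    have h3 : (1 : ℂ) - tm χ s v ≠ 0 := by
      intro h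
      have h4 := norm_tm_le_half χ hs.le v
      rw [← sub_eq_zero.mp h, norm_one] at h4
      norm_num at h4
    rw [neg_neg, Complex.exp_log h3]
    rfl
  have h3 : Tendsto (fun S : Finset (HeightOneSpectrum (𝓞 K)) =>
      Complex.exp (-∑ v ∈ S, -Complex.log (1 - tm χ s v)) * Ls χ s) atTop
      (𝓝 (Complex.exp (-Lam χ s) * Ls χ s)) := by
    refine Tendsto.mul_const _ ?_
    refine (Complex.continuous_exp.tendsto _).comp ?_
    have h := (summable_log χ hs hs2).hasSum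
    rw [HasSum, SummationFilter.unconditional_filter] at h
    exact h.neg
  have h4 : Complex.exp (-Lam χ s) * Ls χ s = 1 := by
    refine tendsto_nhds_unique h3 ?_
    exact h1.congr h2
  rw [Complex.exp_neg] at h4
  have h5 := Complex.exp_ne_zero (Lam χ s)
  field_simp at h4
  exact h4.symm

theorem continuousOn_nrm (v : HeightOneSpectrum (𝓞 K)) : Continuous fun s : ℝ =>
    nrm K s v.asIdeal := by
  refine Continuous.rpow continuous_const continuous_neg fun s => Or.inl ?_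
  have := two_le_absNorm v
  positivity

theorem continuousOn_Lam (χ : HChar 𝔪) {a : ℝ} (ha : 1 < a) (ha2 : a ≤ 2) :
    ContinuousOn (Lam χ) (Set.Icc a 2) := by
  change ContinuousOn (fun s => ∑' v, -Complex.log (1 - tm χ s v)) (Set.Icc a 2)
  refine continuousOn_tsum (f := fun v s => -Complex.log (1 - tm χ s v))
    (u := fun v => 3 / 2 * nrm K a v.asIdeal) (fun v => ?_)
    ((summable_nrm_prime K ha ha2).mul_left _) (fun v s hs => ?_)
  · refine ContinuousOn.neg (ContinuousOn.clog ?_ ?_)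
    · unfold tm
      exact (continuous_const.sub (continuous_const.mul
        (Complex.continuous_ofReal.comp (continuousOn_nrm v)))).continuousOn
    · intro s hs
      rw [Complex.mem_slitPlane_iff]
      left
      have h1 := norm_tm_le_half χ (ha.le.trans hs.1) v
      have h2 := (Complex.abs_re_le_norm (tm χ s v)).trans h1
      rw [Complex.sub_re, Complex.one_re]
      linarith [(abs_le.mp h2).2]
  · exact (norm_log_le χ (ha.le.trans hs.1) v).trans
      (mul_le_mul_of_nonneg_left (nrm_anti hs.1 v) (by norm_num))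

/-- a continuous integer valued function on an interval is constant -/
theorem eq_of_int {f : ℝ → ℝ} {a b : ℝ} (hab : a ≤ b) (hf : ContinuousOn f (Set.Icc a b))
    (hint : ∀ x ∈ Set.Icc a b, ∃ k : ℤ, f x = k) (hb : f b = 0) : f a = 0 := by
  by_contra hne
  obtain ⟨k, hk⟩ := hint a ⟨le_rfl, hab⟩
  have hk0 : k ≠ 0 := by
    rintro rfl
    exact hne (by rw [hk]; simp)
  have h1 : (1 : ℝ) ≤ |f a| := by
    rw [hk]
    have : (1 : ℤ) ≤ |k| := Int.one_le_abs hk0
    exact_mod_cast this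
  have h2 : (1 / 2 : ℝ) ∈ Set.Icc (|f b|) (|f a|) := ⟨by rw [hb]; norm_num, by linarith⟩
  obtain ⟨x, hx, hx2⟩ := intermediate_value_Icc' hab hf.abs h2
  obtain ⟨m, hm⟩ := hint x hx
  have hx3 : |f x| = 1 / 2 := hx2
  rw [hm] at hx3
  have h3 : (2 : ℝ) * |(m : ℝ)| = 1 := by rw [hx3]; norm_num
  have h4 : (2 : ℤ) * |m| = 1 := by exact_mod_cast h3
  omega

/-- **boundedness of `Sc`** -/
theorem exists_norm_bound (χ : HChar 𝔪) {z : ℂ} (hz : z ≠ 0)
    (hlim : Tendsto (Ls χ) (𝓝[>] 1) (𝓝 z)) :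
    ∃ C : ℝ, ∀ᶠ s in 𝓝[>] (1 : ℝ), ‖Sc χ s‖ ≤ C := by
  have h1 : Tendsto (fun s => Ls χ s / z) (𝓝[>] 1) (𝓝 1) := by
    have := hlim.div_const z
    rwa [div_self hz] at this
  have h2 : ∀ᶠ s in 𝓝[>] (1 : ℝ), ‖Ls χ s / z - 1‖ < 1 / 2 := by
    have := (Metric.tendsto_nhds.mp h1) (1 / 2) (by norm_num)
    filter_upwards [this] with s hs
    rwa [dist_eq_norm] at hs
  obtain ⟨b, hb1, hb⟩ := (mem_nhdsGT_iff_exists_Ioc_subset).mp h2
  obtain ⟨s₁, hs₁⟩ : ∃ s₁, s₁ = min b 2 := ⟨_, rfl⟩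
  have hs₁1 : 1 < s₁ := by rw [hs₁]; exact lt_min hb1 (by norm_num)
  have hs₁2 : s₁ ≤ 2 := by rw [hs₁]; exact min_le_right _ _
  have hg : ∀ s, 1 < s → s ≤ s₁ → ‖Ls χ s / z - 1‖ < 1 / 2 := fun s h h' =>
    hb ⟨h, h'.trans (by rw [hs₁]; exact min_le_left _ _)⟩
  obtain ⟨D, hD⟩ : ∃ D : ℝ → ℂ, D = fun s => Lam χ s - Complex.log (Ls χ s / z) := ⟨_, rfl⟩
  have hexp : ∀ s, 1 < s → s ≤ s₁ → Complex.exp (D s) = z := by
    intro s h h'
    have h3 : Ls χ s / z ≠ 0 := by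
      intro h0
      have := hg s h h'
      rw [h0, zero_sub, norm_neg, norm_one] at this
      norm_num at this
    rw [hD]
    beta_reduce
    rw [Complex.exp_sub, Complex.exp_log h3, exp_Lam χ h (h'.trans hs₁2)]
    have h4 : Ls χ s ≠ 0 := fun h0 => h3 (by rw [h0, zero_div])
    field_simp
  have hper : ∀ s, 1 < s → s ≤ s₁ → ∃ k : ℤ, D s - D s₁ = k * (2 * Real.pi * Complex.I) := by
    intro s h h'
    have h3 := (hexp s h h').trans (hexp s₁ hs₁1 le_rfl).symm
    obtain ⟨k, hk⟩ := Complex.exp_eq_exp_iff_exists_int.mp h3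
    exact ⟨k, by rw [hk]; ring⟩
  have hcont : ∀ a, 1 < a → a ≤ s₁ → ContinuousOn D (Set.Icc a s₁) := by
    intro a ha ha'
    have h3 : ContinuousOn (Lam χ) (Set.Icc a s₁) :=
      (continuousOn_Lam χ ha (ha'.trans hs₁2)).mono (Set.Icc_subset_Icc_right hs₁2)
    have h4 : ContinuousOn (fun s => Ls χ s / z) (Set.Icc a s₁) := by
      have h5 : ContinuousOn (fun s => Complex.exp (Lam χ s) / z) (Set.Icc a s₁) :=
        (Complex.continuous_exp.comp_continuousOn h3).div_const z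
      refine h5.congr fun s hs => ?_
      change Ls χ s / z = Complex.exp (Lam χ s) / z
      rw [exp_Lam χ (lt_of_lt_of_le ha hs.1) (hs.2.trans hs₁2)]
    rw [hD]
    refine h3.sub (h4.clog fun s hs => ?_)
    rw [Complex.mem_slitPlane_iff]
    left
    have h6 := hg s (lt_of_lt_of_le ha hs.1) hs.2
    have h7 := (Complex.abs_re_le_norm (Ls χ s / z - 1)).trans h6.le
    rw [Complex.sub_re, Complex.one_re] at h7
    linarith [(abs_le.mp h7).1]
  have him : ∀ k : ℤ, ((k : ℂ) * (2 * Real.pi * Complex.I)).im / (2 * Real.pi) = k := by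
    intro k
    have h1 : ((k : ℂ) * (2 * Real.pi * Complex.I)).im = k * (2 * Real.pi) := by simp
    rw [h1, mul_div_assoc, div_self (by positivity), mul_one]
  have hconst : ∀ s, 1 < s → s ≤ s₁ → D s = D s₁ := by
    intro s h h'
    obtain ⟨k, hk⟩ := hper s h h'
    have h3 := eq_of_int (f := fun t => (D t - D s₁).im / (2 * Real.pi)) h'
      ((Complex.continuous_im.comp_continuousOn ((hcont s h h').sub continuousOn_const)).div_const _)
      (fun t ht => by
        obtain ⟨k, hk⟩ := hper t (lt_of_lt_of_le h ht.1) ht.2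
        refine ⟨k, ?_⟩
        beta_reduce
        rw [hk, him]) (by simp)
    beta_reduce at h3
    rw [hk, him] at h3
    have h4 : (k : ℂ) = 0 := by exact_mod_cast h3
    rw [h4, zero_mul] at hk
    exact sub_eq_zero.mp hk
  refine ⟨‖D s₁‖ + 3 / 4 + ∑' v : HeightOneSpectrum (𝓞 K), nrm K 2 v.asIdeal, ?_⟩
  have h8 : Set.Ioc 1 s₁ ∈ 𝓝[>] (1 : ℝ) := Ioc_mem_nhdsGT hs₁1
  filter_upwards [h8] with s hs
  have h9 := norm_Lam_sub_Sc_le χ hs.1 (hs.2.trans hs₁2)
  have h10 : Lam χ s = D s₁ + Complex.log (Ls χ s / z) := by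
    rw [← hconst s hs.1 hs.2, hD]
    ring
  have h11 : ‖Complex.log (Ls χ s / z)‖ ≤ 3 / 4 := by
    have h12 := hg s hs.1 hs.2
    have h13 := Complex.norm_log_one_add_half_le_self (z := Ls χ s / z - 1) h12.le
    rw [add_sub_cancel] at h13
    linarith
  have h14 : Sc χ s = D s₁ + Complex.log (Ls χ s / z) - (Lam χ s - Sc χ s) := by
    rw [← h10]; ring
  rw [h14]
  refine (norm_sub_le _ _).trans (add_le_add ((norm_add_le _ _).trans ?_) h9)
  exact add_le_add le_rfl h11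

end Fermat.Agent.Cor.Cheb
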