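import Fermat.Agent.Cor.Cheb1

/-!
# Chebotarev II : `L(s, χ)` has a limit for `s → 1⁺`

The difference of the sums of the Lipschitz function `fs` over two cosets of an ideal converges for
`s → 1⁺` (dominated convergence); the decomposition of `L(s, χ)` of `H03.LBound` is then
`A(s) Z(s) + l(s)` with `l` convergent, `A(1) = 0` for nontrivial `χ`, and `(s - 1) Z(s)` convergent.
-/

set_option autoImplicit false
set_option linter.unusedSectionVars false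
set_option linter.style.haveILetI false
set_option maxHeartbeats 400000

open scoped Classical nonZeroDivisors Topology

namespace Fermat.Agent.Cor.Cheb

open NumberField NumberField.mixedEmbedding NumberField.Units
  NumberField.Units.dirichletUnitTheorem NumberField.InfinitePlace Module Filter IsDedekindDomain
  Fermat.Agent.H03 Fermat.Agent.CFT

section

variable (K : Type*) [Field K] [NumberField K]

theorem tendsto_fs (x : 𝓞 K) : Tendsto (fun s : ℝ => fs K s x) (𝓝[>] 1) (𝓝 (fs K 1 x)) := by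
  by_cases hx : x = 0
  · subst hx
    rw [fs_zero K one_ne_zero]
    refine tendsto_const_nhds.congr' ?_
    filter_upwards [eventually_Ioc] with s hs
    rw [fs_zero K (by linarith [hs.1])]
  · have h1 := one_le_norm_int K hx
    have hc : Continuous (fun s : ℝ => fs K s x) := by
      simp only [fs_eq]
      refine continuous_const.mul (Continuous.rpow continuous_const continuous_neg fun s => Or.inl ?_)
      positivity
    exact (hc.tendsto 1).mono_left nhdsWithin_le_nhds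

/-- a dominating function -/
theorem exists_dom (h : 𝓞 K) : ∃ g : 𝓞 K → ℝ, Summable g ∧ ∀ s : ℝ, 1 < s → s ≤ 2 → ∀ x,
    |fs K s (x + h) - fs K s x| ≤ g x := by
  obtain ⟨C, ρ, hC, hρ, hL⟩ := exists_lipschitz K (mixedEmbedding K (h : K))
  set n : ℝ := (finrank ℚ K : ℝ) with hn
  have hsum : Summable fun x : 𝓞 K => ‖mixedEmbedding K (x : K)‖ ^ (-n - 1) :=
    summable_norm_rpow K (by linarith)
  have hfin : {x : 𝓞 K | ‖mixedEmbedding K (x : K)‖ < ρ}.Finite := by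
    have h1 := hsum.tendsto_cofinite_zero
    have hpos : (0 : ℝ) < ρ ^ (-n - 1) := Real.rpow_pos_of_pos (by linarith) _
    have h2 := h1.eventually (gt_mem_nhds hpos)
    rw [Filter.eventually_cofinite] at h2
    refine (h2.union (Set.finite_singleton (0 : 𝓞 K))).subset ?_
    intro x hx
    by_cases hx0 : x = 0
    · right; exact hx0
    · left
      simp only [Set.mem_ofPred_eq, not_lt] at hx ⊢
      have hx1 : 0 < ‖mixedEmbedding K (x : K)‖ := by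
        rw [norm_pos_iff]; simpa using hx0
      exact Real.rpow_le_rpow_of_nonpos hx1 hx.le (by linarith)
  set T : Finset (𝓞 K) := hfin.toFinset with hT
  set g : 𝓞 K → ℝ := fun x => (if x ∈ T then 1 else 0) +
    C * ‖mixedEmbedding K (x : K)‖ ^ (-n - 1) with hg
  have hgsum : Summable g := by
    refine Summable.add ?_ (hsum.mul_left C)
    exact summable_of_ne_finset_zero (s := T) (fun x hx => if_neg hx)
  refine ⟨g, hgsum, ?_⟩
  intro s hs hs2 x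
  by_cases hx : ‖mixedEmbedding K (x : K)‖ < ρ
  · have hxT : x ∈ T := by simpa [hT] using hx
    have h1 : |fs K s (x + h) - fs K s x| ≤ 1 := by
      rw [abs_le]
      have a1 := fs_nonneg K s (x + h)
      have a2 := fs_nonneg K s x
      have a3 := fs_le_one K (by linarith : 0 < s) (x + h)
      have a4 := fs_le_one K (by linarith : 0 < s) x
      constructor <;> linarith
    simp only [hg, if_pos hxT]
    have : 0 ≤ C * ‖mixedEmbedding K (x : K)‖ ^ (-n - 1) := by positivity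
    linarith
  · have h1 := hL s (mixedEmbedding K (x : K)) hs.le hs2 (not_lt.mp hx)
    have e : fs K s (x + h) = Fs K s (mixedEmbedding K (x : K) + mixedEmbedding K (h : K)) := by
      simp [fs]
    rw [e]
    refine h1.trans ?_
    simp only [hg]
    have : (0 : ℝ) ≤ if x ∈ T then 1 else 0 := by split_ifs <;> norm_num
    linarith

/-- the difference of the sums over two cosets converges -/
theorem exists_coset_lim (I : Ideal (𝓞 K)) (a b : 𝓞 K) : ∃ z : ℝ,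
    Tendsto (fun s : ℝ => ∑' y : I, fs K s (y + a) - ∑' y : I, fs K s (y + b)) (𝓝[>] 1) (𝓝 z) := by
  obtain ⟨g, hg, hdom⟩ := exists_dom K (a - b)
  have inj : Function.Injective (fun y : I => (y : 𝓞 K) + b) := fun x y h =>
    Subtype.ext (add_right_cancel h)
  have h1 : Tendsto (fun s : ℝ => ∑' y : I, (fs K s (y + a) - fs K s (y + b))) (𝓝[>] 1)
      (𝓝 (∑' y : I, (fs K 1 (y + a) - fs K 1 (y + b)))) := by
    refine tendsto_tsum_of_dominated_convergence (hg.comp_injective inj)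
      (fun y => (tendsto_fs K _).sub (tendsto_fs K _)) ?_
    filter_upwards [eventually_Ioc] with s hs y
    have e : ((y : 𝓞 K) + b) + (a - b) = y + a := by ring
    have h2 := hdom s hs.1 hs.2 ((y : 𝓞 K) + b)
    rw [e] at h2
    rw [Real.norm_eq_abs]
    exact h2
  refine ⟨_, h1.congr' ?_⟩
  filter_upwards [eventually_Ioc] with s hs
  exact (summable_fs_coset K hs.1 hs.2 I a).tsum_sub (summable_fs_coset K hs.1 hs.2 I b)

/-- periodic functions -/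
theorem exists_periodic_lim (I : Ideal (𝓞 K)) (hI : I ≠ ⊥) [Fintype (𝓞 K ⧸ I)]
    (g : (𝓞 K ⧸ I) → ℂ) : ∃ z : ℂ, Tendsto (fun s : ℝ =>
      ∑' x : 𝓞 K, g (Ideal.Quotient.mk I x) * (fs K s x : ℂ) -
        (∑ q, g q) / (Ideal.absNorm I : ℂ) * ((ZL K s : ℝ) : ℂ)) (𝓝[>] 1) (𝓝 z) := by
  choose l hl using fun a b : 𝓞 K ⧸ I => exists_coset_lim K I (rep I a) (rep I b)
  set N : ℂ := (Ideal.absNorm I : ℂ) with hN
  have hNcard : N = Fintype.card (𝓞 K ⧸ I) := by rw [hN, absNorm_eq_card]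
  have hN0 : N ≠ 0 := by
    rw [hN]
    exact_mod_cast (Ideal.absNorm_eq_zero_iff.not.mpr hI)
  obtain ⟨B, hB⟩ : ∃ B, ∀ q, ‖g q‖ ≤ B := by
    refine ⟨∑ q, ‖g q‖, fun q => ?_⟩
    exact Finset.single_le_sum (f := fun q => ‖g q‖) (fun _ _ => norm_nonneg _) (Finset.mem_univ q)
  have hlim : Tendsto (fun s : ℝ => N⁻¹ * ∑ q, ∑ q', g q *
      (((∑' y : I, fs K s (y + rep I q) - ∑' y : I, fs K s (y + rep I q') : ℝ)) : ℂ)) (𝓝[>] 1)
      (𝓝 (N⁻¹ * ∑ q, ∑ q', g q * ((l q q' : ℝ) : ℂ))) := by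
    refine Tendsto.const_mul _ (tendsto_finsetSum _ fun q _ => tendsto_finsetSum _ fun q' _ => ?_)
    exact Tendsto.const_mul _ ((Complex.continuous_ofReal.tendsto _).comp (hl q q'))
  refine ⟨_, hlim.congr' ?_⟩
  filter_upwards [eventually_Ioc] with s hs
  obtain ⟨hs', hs2⟩ := hs
  have hs1 := summable_fs K hs' hs2
  have hsC : Summable (fun x : 𝓞 K => (fs K s x : ℂ)) := Complex.ofRealCLM.summable hs1
  have hsg : Summable (fun x : 𝓞 K => g (Ideal.Quotient.mk I x) * (fs K s x : ℂ)) := by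
    refine Summable.of_norm_bounded (hs1.mul_left B) fun x => ?_
    rw [norm_mul, Complex.norm_real, Real.norm_of_nonneg (fs_nonneg K s x)]
    exact mul_le_mul_of_nonneg_right (hB _) (fs_nonneg K s x)
  set Z : (𝓞 K ⧸ I) → ℝ := fun q => ∑' y : I, fs K s (y + rep I q) with hZ
  have hfull : ∀ h : (𝓞 K ⧸ I) → ℂ, Summable (fun x : 𝓞 K => h (Ideal.Quotient.mk I x) * (fs K s x : ℂ)) →
      ∑' x : 𝓞 K, h (Ideal.Quotient.mk I x) * (fs K s x : ℂ) = ∑ q, h q * (Z q : ℂ) := by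
    intro h hh
    rw [← (cosetEquiv I).tsum_eq]
    have hh' := (cosetEquiv I).summable_iff.mpr hh
    refine (Summable.tsum_prod hh').trans ?_
    rw [tsum_fintype]
    refine Finset.sum_congr rfl fun q _ => ?_
    have e : ∀ y : I, (h (Ideal.Quotient.mk I ((cosetEquiv I) (q, y))) *
        (fs K s ((cosetEquiv I) (q, y)) : ℂ)) = h q * ((fs K s (y + rep I q) : ℝ) : ℂ) := by
      intro y
      rw [mk_cosetEquiv]
      rfl
    refine (tsum_congr e).trans ?_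
    rw [tsum_mul_left, hZ, Complex.ofReal_tsum]
  have h1 : ((ZL K s : ℝ) : ℂ) = ∑ q, (Z q : ℂ) := by
    rw [ZL, Complex.ofReal_tsum]
    have := hfull (fun _ => 1) (by simpa using hsC)
    simpa using this
  rw [hfull g hsg, h1]
  have e1 : ∑ q, ∑ q', g q * ((Z q : ℂ) - Z q') =
      N * ∑ q, g q * (Z q : ℂ) - (∑ q, g q) * ∑ q, (Z q : ℂ) := by
    simp only [mul_sub, Finset.sum_sub_distrib, Finset.sum_const, Finset.card_univ,
      nsmul_eq_mul, ← hNcard]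
    rw [Finset.mul_sum, Finset.sum_mul]
    simp only [Finset.mul_sum]
  have e2 : ∀ q q' : 𝓞 K ⧸ I,
      (((∑' y : I, fs K s (y + rep I q) - ∑' y : I, fs K s (y + rep I q') : ℝ)) : ℂ) =
        (Z q : ℂ) - Z q' := fun q q' => by rw [hZ]; push_cast; rfl
  simp only [e2]
  rw [e1]
  field_simp

end

section

variable {K : Type*} [Field K] [NumberField K] {𝔪 : Ideal (𝓞 K)} (χ : HChar 𝔪) (h𝔪 : 𝔪 ≠ ⊥)

theorem exists_F_lim [Fintype (𝓞 K ⧸ 𝔪)] (J : Ideal (𝓞 K)) (hJ : J ≠ ⊥) (hJc : IsCoprime J 𝔪) :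
    ∃ z : ℂ, Tendsto (fun s : ℝ => ∑' x : 𝓞 K, χ.F J (Ideal.span {x}) * (fs K s x : ℂ) -
        χ.G h𝔪 / ((Ideal.absNorm J : ℂ) * Ideal.absNorm 𝔪) * ((ZL K s : ℝ) : ℂ)) (𝓝[>] 1) (𝓝 z) := by
  have hI : J * 𝔪 ≠ ⊥ := mul_ne_zero hJ h𝔪
  haveI : Finite (𝓞 K ⧸ J * 𝔪) := Ring.HasFiniteQuotients.finiteQuotient hI
  haveI := Fintype.ofFinite (𝓞 K ⧸ J * 𝔪)
  haveI : Finite (𝓞 K ⧸ J) := Ring.HasFiniteQuotients.finiteQuotient hJ
  haveI := Fintype.ofFinite (𝓞 K ⧸ J)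
  set e := Ideal.quotientMulEquivQuotientProd J 𝔪 hJc with he
  set h : (𝓞 K ⧸ J * 𝔪) → ℂ := fun q => if (e q).1 = 0 then χ.g h𝔪 (e q).2 else 0 with hh
  obtain ⟨z, hz⟩ := exists_periodic_lim K (J * 𝔪) hI h
  refine ⟨z, hz.congr' ?_⟩
  filter_upwards [eventually_Ioc] with s hs
  have e1 : ∀ x : 𝓞 K, e (Ideal.Quotient.mk (J * 𝔪) x) = (Ideal.Quotient.mk J x, Ideal.Quotient.mk 𝔪 x) := by
    intro x
    rfl
  have e2 : ∀ x : 𝓞 K, h (Ideal.Quotient.mk (J * 𝔪) x) * (fs K s x : ℂ) =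
      χ.F J (Ideal.span {x}) * (fs K s x : ℂ) := by
    intro x
    by_cases hx : x = 0
    · subst hx
      rw [fs_zero K (by linarith [hs.1])]
      simp
    · congr 1
      simp only [hh, e1, HChar.F]
      rw [Ideal.Quotient.eq_zero_iff_mem, HChar.g_mk _ _ hx, Ideal.dvd_span_singleton]
  have e3 : ∑ q, h q = χ.G h𝔪 := by
    rw [HChar.G, ← e.toEquiv.symm.sum_comp, Fintype.sum_prod_type]
    rw [Finset.sum_eq_single 0]
    · refine Finset.sum_congr rfl fun q _ => ?_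
      simp [hh]
    · intro a _ ha
      refine Finset.sum_eq_zero fun q _ => ?_
      simp [hh, ha]
    · intro h; exact absurd (Finset.mem_univ _) h
  rw [e3, tsum_congr e2, map_mul, Nat.cast_mul]

/-- norms of the representatives -/
noncomputable def NC (C : ClassGroup (𝓞 K)) : ℝ := ((Ideal.absNorm (cRep 𝔪 h𝔪 C) : ℕ) : ℝ)

theorem NC_pos (C : ClassGroup (𝓞 K)) : 0 < NC h𝔪 C := by
  have := Nat.pos_of_ne_zero (Ideal.absNorm_eq_zero_iff.not.mpr (cRep_ne_bot 𝔪 h𝔪 C))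
  unfold NC
  exact_mod_cast this

/-- coefficients -/
noncomputable def cf [Fintype (𝓞 K ⧸ 𝔪)] (C : ClassGroup (𝓞 K)) : ℂ :=
  ((torsionOrder K : ℂ) * χ.ψ (cRep 𝔪 h𝔪 C))⁻¹ * (χ.G h𝔪 / (Ideal.absNorm 𝔪 : ℂ))

theorem sum_cf [Fintype (𝓞 K ⧸ 𝔪)] : ∑ C, cf χ h𝔪 C = χ.kap h𝔪 := rfl

theorem F_top_eq (s : ℝ) : χ.L ⊤ s = Ls χ s := by
  rw [HChar.L, Ls]
  exact tsum_congr fun I => by rw [χ.F_top]

/-- **the decomposition** -/
theorem exists_decomp [Fintype (𝓞 K ⧸ 𝔪)] : ∃ z : ℂ, Tendsto (fun s : ℝ =>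
    Ls χ s - (∑ C, cf χ h𝔪 C * ((NC h𝔪 C ^ (s - 1) : ℝ) : ℂ)) * ((ZL K s : ℝ) : ℂ))
      (𝓝[>] 1) (𝓝 z) := by
  have htop : IsCoprime (⊤ : Ideal (𝓞 K)) 𝔪 := Ideal.isCoprime_iff_sup_eq.mpr (by simp)
  choose l hl using fun C : ClassGroup (𝓞 K) =>
    exists_F_lim χ h𝔪 (⊤ * cRep 𝔪 h𝔪 C) (mul_ne_zero top_ne_bot (cRep_ne_bot 𝔪 h𝔪 C))
      (IsCoprime.mul_left htop (cRep_coprime 𝔪 h𝔪 C))
  have hpow : ∀ C : ClassGroup (𝓞 K), Tendsto (fun s : ℝ => ((NC h𝔪 C ^ s : ℝ) : ℂ)) (𝓝[>] 1)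
      (𝓝 ((NC h𝔪 C ^ (1 : ℝ) : ℝ) : ℂ)) := by
    intro C
    have hc : Continuous (fun s : ℝ => ((NC h𝔪 C ^ s : ℝ) : ℂ)) :=
      Complex.continuous_ofReal.comp (Continuous.rpow continuous_const continuous_id
        fun s => Or.inl (NC_pos h𝔪 C).ne')
    exact (hc.tendsto 1).mono_left nhdsWithin_le_nhds
  have h1 : Tendsto (fun s : ℝ => ∑ C : ClassGroup (𝓞 K),
      ((torsionOrder K : ℂ) * χ.ψ (cRep 𝔪 h𝔪 C))⁻¹ * (((NC h𝔪 C ^ s : ℝ) : ℂ) *
        (∑' x : 𝓞 K, χ.F (⊤ * cRep 𝔪 h𝔪 C) (Ideal.span {x}) * (fs K s x : ℂ) -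
        χ.G h𝔪 / ((Ideal.absNorm (⊤ * cRep 𝔪 h𝔪 C) : ℂ) * Ideal.absNorm 𝔪) * ((ZL K s : ℝ) : ℂ))))
      (𝓝[>] 1) (𝓝 (∑ C : ClassGroup (𝓞 K), ((torsionOrder K : ℂ) * χ.ψ (cRep 𝔪 h𝔪 C))⁻¹ *
        (((NC h𝔪 C ^ (1 : ℝ) : ℝ) : ℂ) * l C))) := by
    refine tendsto_finsetSum _ fun C _ => ?_
    exact Tendsto.const_mul _ ((hpow C).mul (hl C))
  refine ⟨_, h1.congr' ?_⟩
  filter_upwards [eventually_Ioc] with s hs
  rw [← F_top_eq, χ.hasSum_L h𝔪 ⊤ hs.1 hs.2, Finset.sum_mul, ← Finset.sum_sub_distrib]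
  refine Finset.sum_congr rfl fun C _ => ?_
  have hNpos := NC_pos h𝔪 C
  have hw : (torsionOrder K : ℂ) ≠ 0 := by exact_mod_cast (torsionOrder_pos K).ne'
  have hψ := χ.ne_zero (cRep_ne_bot 𝔪 h𝔪 C) (cRep_coprime 𝔪 h𝔪 C)
  have hnrm : nrm K s (cRep 𝔪 h𝔪 C) = (NC h𝔪 C ^ s)⁻¹ := by
    rw [nrm, ← NC, Real.rpow_neg hNpos.le]
  have hNs : NC h𝔪 C ^ s = NC h𝔪 C * NC h𝔪 C ^ (s - 1) := by
    rw [show s = 1 + (s - 1) by ring, Real.rpow_add hNpos, Real.rpow_one]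
    congr 2
    ring
  have hm0 : (Ideal.absNorm 𝔪 : ℂ) ≠ 0 := by
    exact_mod_cast Ideal.absNorm_eq_zero_iff.not.mpr h𝔪
  have hNC : ((Ideal.absNorm (⊤ * cRep 𝔪 h𝔪 C) : ℕ) : ℂ) = ((NC h𝔪 C : ℝ) : ℂ) := by
    rw [Ideal.top_mul, NC]; simp
  have hN0 : ((NC h𝔪 C : ℝ) : ℂ) ≠ 0 := by exact_mod_cast hNpos.ne'
  obtain ⟨t, ht⟩ : ∃ t : ℂ, ((NC h𝔪 C ^ (s - 1) : ℝ) : ℂ) = t := ⟨_, rfl⟩
  have ht0 : t ≠ 0 := by
    rw [← ht]
    exact_mod_cast (Real.rpow_pos_of_pos hNpos _).ne'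
  rw [hNC, cf, hnrm, hNs, Complex.ofReal_mul, Complex.ofReal_mul, Complex.ofReal_inv,
    Complex.ofReal_mul, ht, Complex.ofReal_natCast]
  field_simp

end

section

variable (K : Type*) [Field K] [NumberField K]

/-- the trivial character -/
noncomputable def trivChar : HChar (⊤ : Ideal (𝓞 K)) where
  ψ := triv K
  supp I h := absurd (Ideal.isCoprime_iff_sup_eq.mpr (by simp)) h
  norm_one I h _ := by rw [triv_apply, if_neg (show I ≠ 0 from h), norm_one]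
  triv x hx _ := by
    rw [triv_apply, if_neg]
    intro h
    exact hx (Ideal.span_singleton_eq_bot.mp h)

theorem Ls_trivChar {s : ℝ} (hs : s ≠ 0) : Ls (trivChar K) s = ((zK K s : ℝ) : ℂ) := by
  rw [Ls, zK, Complex.ofReal_tsum]
  refine tsum_congr fun I => ?_
  change triv K I * _ = _
  rw [triv_apply]
  split_ifs with h0
  · rw [h0, show (0 : Ideal (𝓞 K)) = ⊥ from rfl, nrm_bot K hs]; simp
  · rw [one_mul]

theorem tendsto_sub_one : Tendsto (fun s : ℝ => ((s - 1 : ℝ) : ℂ)) (𝓝[>] 1) (𝓝 0) := by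
  have hc : Continuous (fun s : ℝ => ((s - 1 : ℝ) : ℂ)) :=
    Complex.continuous_ofReal.comp (continuous_id.sub continuous_const)
  have := (hc.tendsto 1).mono_left (nhdsWithin_le_nhds (s := Set.Ioi (1 : ℝ)))
  simpa using this

/-- `(s - 1) Z(s)` has a limit -/
theorem exists_ZL_lim : ∃ z : ℂ, Tendsto (fun s : ℝ => ((s - 1 : ℝ) : ℂ) * ((ZL K s : ℝ) : ℂ))
    (𝓝[>] 1) (𝓝 z) := by
  have htop : (⊤ : Ideal (𝓞 K)) ≠ ⊥ := top_ne_bot
  haveI : Finite (𝓞 K ⧸ (⊤ : Ideal (𝓞 K))) := Ring.HasFiniteQuotients.finiteQuotient htop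
  haveI := Fintype.ofFinite (𝓞 K ⧸ (⊤ : Ideal (𝓞 K)))
  obtain ⟨l, hl⟩ := exists_decomp (trivChar K) htop
  have h1 : Tendsto (fun s : ℝ => ((s - 1 : ℝ) : ℂ) * Ls (trivChar K) s) (𝓝[>] 1)
      (𝓝 ((dedekindZeta_residue K : ℝ) : ℂ)) := by
    have h2 := (Complex.continuous_ofReal.tendsto _).comp (tendsto_zK K)
    refine h2.congr' ?_
    filter_upwards [eventually_Ioc] with s hs
    rw [Ls_trivChar K (by linarith [hs.1]), Function.comp_apply, Complex.ofReal_mul]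
  have h2 := (tendsto_sub_one.mul hl)
  have h3 := h1.sub h2
  -- the factor
  have h4 : Tendsto (fun s : ℝ => ∑ C, cf (trivChar K) htop C * ((NC htop C ^ (s - 1) : ℝ) : ℂ))
      (𝓝[>] 1) (𝓝 (∑ C, cf (trivChar K) htop C * 1)) := by
    refine tendsto_finsetSum _ fun C _ => Tendsto.const_mul _ ?_
    have hc : Continuous (fun s : ℝ => ((NC htop C ^ (s - 1) : ℝ) : ℂ)) :=
      Complex.continuous_ofReal.comp (Continuous.rpow continuous_const
        (continuous_id.sub continuous_const) fun s => Or.inl (NC_pos htop C).ne')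
    have := (hc.tendsto 1).mono_left (nhdsWithin_le_nhds (s := Set.Ioi (1 : ℝ)))
    simpa using this
  have hA : ∑ C, cf (trivChar K) htop C * 1 ≠ 0 := by
    intro h0
    rw [h0] at h4
    -- then `(s-1) ζ(s)` would tend to `0`
    obtain ⟨B, hB, hBs⟩ := exists_ZL_upper K
    have h5 : Tendsto (fun s : ℝ => ((s - 1 : ℝ) : ℂ) *
        ((∑ C, cf (trivChar K) htop C * ((NC htop C ^ (s - 1) : ℝ) : ℂ)) * ((ZL K s : ℝ) : ℂ)))
        (𝓝[>] 1) (𝓝 0) := by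
      have h6 : Tendsto (fun s : ℝ => ‖∑ C, cf (trivChar K) htop C *
          ((NC htop C ^ (s - 1) : ℝ) : ℂ)‖ * B) (𝓝[>] 1) (𝓝 0) := by
        have := h4.norm.mul_const B
        simpa using this
      refine squeeze_zero_norm' ?_ h6
      filter_upwards [hBs, eventually_Ioc] with s hs hs1
      have h7 : 0 < s - 1 := by linarith [hs1.1]
      rw [norm_mul, norm_mul, Complex.norm_real, Complex.norm_real, Real.norm_of_nonneg h7.le,
        Real.norm_of_nonneg (ZL_nonneg K s)]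
      have h8 : (s - 1) * ZL K s ≤ B := by
        have := mul_le_mul_of_nonneg_left hs h7.le
        rwa [mul_div_cancel₀ _ h7.ne'] at this
      calc (s - 1) * (‖∑ C, cf (trivChar K) htop C * ((NC htop C ^ (s - 1) : ℝ) : ℂ)‖ * ZL K s) =
          ‖∑ C, cf (trivChar K) htop C * ((NC htop C ^ (s - 1) : ℝ) : ℂ)‖ * ((s - 1) * ZL K s) := by
            ring
        _ ≤ _ := mul_le_mul_of_nonneg_left h8 (norm_nonneg _)
    have h6 : Tendsto (fun s : ℝ => ((s - 1 : ℝ) : ℂ) * Ls (trivChar K) s) (𝓝[>] 1)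
        (𝓝 (0 * l + 0)) := by
      refine (h2.add h5).congr fun s => ?_
      ring
    have h7 := tendsto_nhds_unique h6 h1
    have h8 := dedekindZeta_residue_pos K
    rw [zero_mul, add_zero] at h7
    have h9 : dedekindZeta_residue K = 0 := by exact_mod_cast h7.symm
    exact h8.ne' h9
  have h10 := h3.div h4 hA
  refine ⟨_, h10.congr' ?_⟩
  have h11 := h4.eventually_ne hA
  filter_upwards [h11] with s hs
  have e : ((s - 1 : ℝ) : ℂ) * Ls (trivChar K) s - ((s - 1 : ℝ) : ℂ) * (Ls (trivChar K) s -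
      (∑ C, cf (trivChar K) htop C * ((NC htop C ^ (s - 1) : ℝ) : ℂ)) * ((ZL K s : ℝ) : ℂ)) =
      (((s - 1 : ℝ) : ℂ) * ((ZL K s : ℝ) : ℂ)) *
        (∑ C, cf (trivChar K) htop C * ((NC htop C ^ (s - 1) : ℝ) : ℂ)) := by ring
  rw [Pi.div_apply, e, mul_div_assoc, div_self hs, mul_one]

end

section

variable {K : Type*} [Field K] [NumberField K] {𝔪 : Ideal (𝓞 K)}

/-- `(N^{s-1} - 1) / (s - 1)` has a limit -/
theorem exists_slope_lim {N : ℝ} (hN : 0 < N) : ∃ z : ℝ,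
    Tendsto (fun s : ℝ => (N ^ (s - 1) - 1) / (s - 1)) (𝓝[>] 1) (𝓝 z) := by
  have h1 : HasDerivAt (fun s : ℝ => N ^ (s - 1)) (Real.log N * (1 : ℝ) * N ^ ((1 : ℝ) - 1)) 1 := by
    have h2 : HasDerivAt (fun s : ℝ => s - 1) 1 1 := (hasDerivAt_id 1).sub_const 1
    exact h2.const_rpow hN
  have h3 := h1.hasDerivWithinAt (s := Set.Ioi (1 : ℝ))
  rw [hasDerivWithinAt_iff_tendsto_slope' (by simp)] at h3
  refine ⟨_, h3.congr' ?_⟩
  filter_upwards [self_mem_nhdsWithin] with s hs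
  rw [slope_def_field]
  simp

/-- **`L(s, χ)` has a limit for `s → 1⁺`** -/
theorem exists_tendsto (χ : HChar 𝔪) (h𝔪 : 𝔪 ≠ ⊥)
    (hχ : ∃ J : Ideal (𝓞 K), J ≠ ⊥ ∧ IsCoprime J 𝔪 ∧ χ.ψ J ≠ 1) :
    ∃ z : ℂ, Tendsto (Ls χ) (𝓝[>] 1) (𝓝 z) := by
  haveI : Finite (𝓞 K ⧸ 𝔪) := Ring.HasFiniteQuotients.finiteQuotient h𝔪
  haveI := Fintype.ofFinite (𝓞 K ⧸ 𝔪)
  obtain ⟨l, hl⟩ := exists_decomp χ h𝔪
  obtain ⟨ζ, hζ⟩ := exists_ZL_lim K
  choose d hd using fun C : ClassGroup (𝓞 K) => exists_slope_lim (NC_pos h𝔪 C)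
  have hk : ∑ C, cf χ h𝔪 C = 0 := (sum_cf χ h𝔪).trans (χ.kap_eq_zero h𝔪 hχ)
  have h1 : Tendsto (fun s : ℝ => ∑ C, cf χ h𝔪 C *
      (((NC h𝔪 C ^ (s - 1) - 1) / (s - 1) : ℝ) : ℂ)) (𝓝[>] 1)
      (𝓝 (∑ C, cf χ h𝔪 C * ((d C : ℝ) : ℂ))) :=
    tendsto_finsetSum _ fun C _ => Tendsto.const_mul _
      ((Complex.continuous_ofReal.tendsto _).comp (hd C))
  have h2 := hl.add (h1.mul hζ)
  refine ⟨_, h2.congr' ?_⟩
  filter_upwards [eventually_Ioc] with s hs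
  have hs1 : ((s - 1 : ℝ) : ℂ) ≠ 0 := by
    have : s - 1 ≠ 0 := by linarith [hs.1]
    exact_mod_cast this
  have e1 : (∑ C, cf χ h𝔪 C * (((NC h𝔪 C ^ (s - 1) - 1) / (s - 1) : ℝ) : ℂ)) *
      (((s - 1 : ℝ) : ℂ) * ((ZL K s : ℝ) : ℂ)) =
      (∑ C, cf χ h𝔪 C * ((NC h𝔪 C ^ (s - 1) : ℝ) : ℂ)) * ((ZL K s : ℝ) : ℂ) := by
    have e2 : ∑ C, cf χ h𝔪 C * (((NC h𝔪 C ^ (s - 1) - 1) / (s - 1) : ℝ) : ℂ) =
        (∑ C, cf χ h𝔪 C * ((NC h𝔪 C ^ (s - 1) : ℝ) : ℂ)) / ((s - 1 : ℝ) : ℂ) := by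
      rw [Finset.sum_div, ← sub_eq_zero, ← Finset.sum_sub_distrib]
      have e3 : ∀ C, cf χ h𝔪 C * (((NC h𝔪 C ^ (s - 1) - 1) / (s - 1) : ℝ) : ℂ) -
          cf χ h𝔪 C * ((NC h𝔪 C ^ (s - 1) : ℝ) : ℂ) / ((s - 1 : ℝ) : ℂ) =
          cf χ h𝔪 C * (-(((s - 1 : ℝ) : ℂ))⁻¹) := by
        intro C
        rw [Complex.ofReal_div, Complex.ofReal_sub, Complex.ofReal_one]
        field_simp
        ring
      rw [Finset.sum_congr rfl fun C _ => e3 C, ← Finset.sum_mul, hk, zero_mul]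
    rw [e2]
    field_simp
  rw [e1]
  ring

end

end Fermat.Agent.Cor.Cheb
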