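import Fermat.Agent.Cor.Cheb2

/-!
# Chebotarev III : densities of the classes of a ray class homomorphism

`exists_density` : let `c` be a homomorphism from the ideals prime to `𝔪` onto a finite abelian group `A`,
trivial on the `(x)`, `x ≡ 1 mod 𝔪`, whose kernel has density at least `1/|A|`.  Then
`|A| ∑_{c(v) = a} N v^{-s} = log (1/(s-1)) + O(1)` for every `a ∈ A`.
-/

set_option autoImplicit false
set_option linter.unusedSectionVars false
set_option linter.style.haveILetI false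

open scoped Classical nonZeroDivisors Topology

namespace Fermat.Agent.Cor.Cheb

open NumberField Filter IsDedekindDomain Fermat.Agent.H03 Fermat.Agent.CFT Module

variable {K : Type*} [Field K] [NumberField K] {𝔪 : Ideal (𝓞 K)} {A : Type*} [AddCommGroup A]

/-- the primes with `c(v) = a` -/
def Cl (c : IdealHom 𝔪 A) (a : A) (v : HeightOneSpectrum (𝓞 K)) : Prop :=
  IsCoprime v.asIdeal 𝔪 ∧ c.toFun v.asIdeal = a

/-- orthogonality -/
theorem sum_char [Finite A] (c : IdealHom 𝔪 A) (b : A) {s : ℝ} (hs : 1 < s) (hs2 : s ≤ 2) :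
    ∑ ψ : AddChar A ℂ, ψ (-b) * Sc (c.char ψ) s =
      (((Nat.card A : ℝ) * psum K s (Cl c b) : ℝ) : ℂ) := by
  haveI := Fintype.ofFinite A
  have hsum : ∀ ψ : AddChar A ℂ, Summable fun v : HeightOneSpectrum (𝓞 K) =>
      ψ (-b) * tm (c.char ψ) s v := fun ψ => (summable_tm _ hs hs2).mul_left _
  have h1 : ∀ ψ : AddChar A ℂ, ψ (-b) * Sc (c.char ψ) s =
      ∑' v : HeightOneSpectrum (𝓞 K), ψ (-b) * tm (c.char ψ) s v := fun ψ => by
    rw [Sc, tsum_mul_left]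
  rw [Finset.sum_congr rfl fun ψ _ => h1 ψ, ← Summable.tsum_finsetSum fun ψ _ => hsum ψ, psum,
    ← tsum_mul_left, Complex.ofReal_tsum]
  refine tsum_congr fun v => ?_
  by_cases hv : IsCoprime v.asIdeal 𝔪
  · have e : ∀ ψ : AddChar A ℂ, ψ (-b) * tm (c.char ψ) s v =
        ψ (c.toFun v.asIdeal - b) * (nrm K s v.asIdeal : ℂ) := by
      intro ψ
      rw [tm, c.char_apply, if_pos ⟨v.ne_bot, hv⟩, ← mul_assoc, ← AddChar.map_add_eq_mul,
        neg_add_eq_sub]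
    rw [Finset.sum_congr rfl fun ψ _ => e ψ, ← Finset.sum_mul, AddChar.sum_apply_eq_ite]
    by_cases h0 : c.toFun v.asIdeal = b
    · rw [if_pos (sub_eq_zero.mpr h0), if_pos (show Cl c b v from ⟨hv, h0⟩),
        Nat.card_eq_fintype_card]
      push_cast
      rfl
    · rw [if_neg (fun h => h0 (sub_eq_zero.mp h)), if_neg (fun h : Cl c b v => h0 h.2)]
      simp
  · have e : ∀ ψ : AddChar A ℂ, ψ (-b) * tm (c.char ψ) s v = 0 := by
      intro ψ
      rw [tm, c.char_apply, if_neg fun h => hv h.2, zero_mul, mul_zero]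
    rw [Finset.sum_congr rfl fun ψ _ => e ψ, if_neg fun h : Cl c b v => hv h.1]
    simp

/-- the trivial character -/
theorem Sc_one [Finite A] (c : IdealHom 𝔪 A) {s : ℝ} :
    Sc (c.char 1) s = ((psum K s (fun v => IsCoprime v.asIdeal 𝔪) : ℝ) : ℂ) := by
  rw [Sc, psum, Complex.ofReal_tsum]
  refine tsum_congr fun v => ?_
  rw [tm, c.char_apply]
  by_cases hv : IsCoprime v.asIdeal 𝔪
  · rw [if_pos ⟨v.ne_bot, hv⟩, if_pos hv, AddChar.one_apply, one_mul]
  · rw [if_neg fun h => hv h.2, if_neg hv]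
    simp

theorem re_Sc (χ : HChar 𝔪) {s : ℝ} (hs : 1 < s) (hs2 : s ≤ 2) : (Sc χ s).re =
    ∑' v : HeightOneSpectrum (𝓞 K), (χ.ψ v.asIdeal).re * nrm K s v.asIdeal := by
  rw [Sc, Complex.re_tsum (summable_tm χ hs hs2)]
  exact tsum_congr fun v => by rw [tm, Complex.re_mul_ofReal]

theorem finite_not_coprime (h𝔪 : 𝔪 ≠ ⊥) :
    {v : HeightOneSpectrum (𝓞 K) | ¬ IsCoprime v.asIdeal 𝔪}.Finite := by
  refine (Ideal.finite_factors h𝔪).subset fun v hv => ?_
  rw [Set.mem_ofPred_eq] at hv ⊢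
  by_contra h
  refine hv ((Ideal.isCoprime_iff_sup_eq).mpr ?_)
  by_contra h1
  exact h (Ideal.dvd_iff_le.mpr ((le_sup_right).trans_eq
    (v.isMaximal.eq_of_le h1 le_sup_left).symm))

variable [Finite A]

/-- **densities** -/
theorem exists_density (c : IdealHom 𝔪 A) (h𝔪 : 𝔪 ≠ ⊥)
    (hsurj : ∀ a : A, ∃ I : Ideal (𝓞 K), I ≠ ⊥ ∧ IsCoprime I 𝔪 ∧ c.toFun I = a)
    (hker : ∃ C : ℝ, ∀ᶠ s in 𝓝[>] (1 : ℝ), ell s - C ≤ (Nat.card A : ℝ) * psum K s (Cl c 0))
    (a : A) : ∃ C : ℝ, ∀ᶠ s in 𝓝[>] (1 : ℝ),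
      |(Nat.card A : ℝ) * psum K s (Cl c a) - ell s| ≤ C := by
  haveI := Fintype.ofFinite A
  -- the trivial character
  obtain ⟨C1, hC1⟩ : ∃ C : ℝ, ∀ᶠ s in 𝓝[>] (1 : ℝ), ‖Sc (c.char 1) s - (ell s : ℂ)‖ ≤ C := by
    obtain ⟨U, hU⟩ := exists_upper K
    obtain ⟨V, hV⟩ := exists_lower K
    have hfin : {v : HeightOneSpectrum (𝓞 K) | Deg1 K v ∧ ¬ IsCoprime v.asIdeal 𝔪}.Finite :=
      (finite_not_coprime h𝔪).subset fun v hv => hv.2
    refine ⟨|U| + |V| + hfin.toFinset.card, ?_⟩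
    filter_upwards [hU, hV, eventually_Ioc] with s hU hV hs
    rw [Sc_one, ← Complex.ofReal_sub, Complex.norm_real, Real.norm_eq_abs, abs_le]
    have h1 := psum_le_add_of_finite K hs.1 hs.2 hfin
    have h2 : psum K s (fun v => IsCoprime v.asIdeal 𝔪) ≤
        ∑' v : HeightOneSpectrum (𝓞 K), nrm K s v.asIdeal := by
      refine Summable.tsum_le_tsum (fun v => ?_) (summable_psum K hs.1 hs.2 _)
        (summable_nrm_prime K hs.1 hs.2)
      split_ifs
      · exact le_rfl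
      · exact nrm_nonneg K s _
    have h3 := le_abs_self U
    have h4 := le_abs_self V
    have h5 := abs_nonneg U
    have h6 := abs_nonneg V
    have h7 : (0 : ℝ) ≤ hfin.toFinset.card := Nat.cast_nonneg _
    constructor <;> linarith
  -- nontrivial characters : upper bounds of the real part
  have hnt : ∀ ψ : AddChar A ℂ, ψ ≠ 1 →
      ∃ J : Ideal (𝓞 K), J ≠ ⊥ ∧ IsCoprime J 𝔪 ∧ (c.char ψ).ψ J ≠ 1 := by
    intro ψ hψ
    obtain ⟨b, hb⟩ : ∃ b, ψ b ≠ 1 := by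
      by_contra hcon
      push Not at hcon
      exact hψ (DFunLike.ext _ _ fun a => hcon a)
    obtain ⟨J, hJ0, hJc, rfl⟩ := hsurj b
    exact ⟨J, hJ0, hJc, by rw [c.char_apply, if_pos ⟨hJ0, hJc⟩]; exact hb⟩
  have hup : ∀ ψ : AddChar A ℂ, ∃ C : ℝ, ψ ≠ 1 → ∀ᶠ s in 𝓝[>] (1 : ℝ),
      (Sc (c.char ψ) s).re ≤ C := by
    intro ψ
    by_cases hψ : ψ = 1
    · exact ⟨0, fun h => absurd hψ h⟩
    · obtain ⟨C, hC⟩ := exists_char_bound (c.char ψ) h𝔪 (hnt ψ hψ)
      refine ⟨C, fun _ => ?_⟩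
      filter_upwards [hC, eventually_Ioc] with s hs hs1
      rw [re_Sc _ hs1.1 hs1.2]
      exact hs
  choose U hU using hup
  obtain ⟨C2, hC2⟩ := hker
  -- lower bounds
  have hlow : ∀ ψ : AddChar A ℂ, ψ ≠ 1 → ∃ C : ℝ, ∀ᶠ s in 𝓝[>] (1 : ℝ),
      -C ≤ (Sc (c.char ψ) s).re := by
    intro ψ hψ
    refine ⟨C1 + C2 + ∑ φ : AddChar A ℂ, |U φ|, ?_⟩
    have hall : ∀ᶠ s in 𝓝[>] (1 : ℝ), ∀ φ : AddChar A ℂ, φ ≠ 1 → (Sc (c.char φ) s).re ≤ U φ := by
      rw [eventually_all]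
      intro φ
      by_cases hφ : φ = 1
      · exact Eventually.of_forall fun s h => absurd hφ h
      · filter_upwards [hU φ hφ] with s hs _
        exact hs
    filter_upwards [hall, hC1, hC2, eventually_Ioc] with s h1 h2 h3 hs
    have h4 := congrArg Complex.re (sum_char c 0 hs.1 hs.2)
    rw [Complex.ofReal_re, Complex.re_sum] at h4
    have h5 : ∀ φ : AddChar A ℂ, (φ (-0) * Sc (c.char φ) s).re = (Sc (c.char φ) s).re := by
      intro φ
      rw [neg_zero, AddChar.map_zero_eq_one, one_mul]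
    rw [Finset.sum_congr rfl fun φ _ => h5 φ] at h4
    rw [← Finset.add_sum_erase _ _ (Finset.mem_univ (1 : AddChar A ℂ)),
      ← Finset.add_sum_erase _ _ (Finset.mem_erase.mpr ⟨hψ, Finset.mem_univ ψ⟩)] at h4
    have h6 : ∑ φ ∈ ((Finset.univ : Finset (AddChar A ℂ)).erase 1).erase ψ,
        (Sc (c.char φ) s).re ≤ ∑ φ : AddChar A ℂ, |U φ| := by
      refine (Finset.sum_le_sum (fun φ hφ => ?_)).trans
        (Finset.sum_le_sum_of_subset_of_nonneg (Finset.subset_univ _) fun _ _ _ => abs_nonneg _)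
      have hφ1 : φ ≠ 1 := (Finset.mem_erase.mp (Finset.mem_erase.mp hφ).2).1
      exact (h1 φ hφ1).trans (le_abs_self _)
    have h7 : (Sc (c.char 1) s).re ≤ ell s + C1 := by
      have := (Complex.abs_re_le_norm _).trans h2
      rw [Complex.sub_re, Complex.ofReal_re] at this
      linarith [(abs_le.mp this).2]
    linarith
  -- boundedness
  have hbd : ∀ ψ : AddChar A ℂ, ∃ C : ℝ, ψ ≠ 1 → ∀ᶠ s in 𝓝[>] (1 : ℝ), ‖Sc (c.char ψ) s‖ ≤ C := by
    intro ψ
    by_cases hψ : ψ = 1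
    · exact ⟨0, fun h => absurd hψ h⟩
    obtain ⟨z, hz⟩ := exists_tendsto (c.char ψ) h𝔪 (hnt ψ hψ)
    obtain ⟨C, hC⟩ := hlow ψ hψ
    have hz0 : z ≠ 0 := by
      rintro rfl
      obtain ⟨B, hB⟩ : ∃ B, B = ∑' v : HeightOneSpectrum (𝓞 K), nrm K 2 v.asIdeal := ⟨_, rfl⟩
      have h1 : ∀ᶠ s in 𝓝[>] (1 : ℝ), Real.exp (-(C + B)) ≤ ‖Ls (c.char ψ) s‖ := by
        filter_upwards [hC, eventually_Ioc] with s hs hs1
        rw [← exp_Lam _ hs1.1 hs1.2, Complex.norm_exp]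
        apply Real.exp_le_exp.mpr
        have h2 := norm_Lam_sub_Sc_le (c.char ψ) hs1.1 hs1.2
        have h3 := (Complex.abs_re_le_norm _).trans h2
        rw [Complex.sub_re, ← hB] at h3
        linarith [(abs_le.mp h3).1]
      have h2 := hz.norm
      rw [norm_zero] at h2
      have h3 := ge_of_tendsto h2 h1
      exact absurd h3 (not_le.mpr (Real.exp_pos _))
    obtain ⟨C', hC'⟩ := exists_norm_bound (c.char ψ) hz0 hz
    exact ⟨C', fun _ => hC'⟩
  choose B hB using hbd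
  have hall : ∀ᶠ s in 𝓝[>] (1 : ℝ), ∀ φ : AddChar A ℂ, φ ≠ 1 → ‖Sc (c.char φ) s‖ ≤ B φ := by
    rw [eventually_all]
    intro φ
    by_cases hφ : φ = 1
    · exact Eventually.of_forall fun s h => absurd hφ h
    · filter_upwards [hB φ hφ] with s hs _
      exact hs
  refine ⟨C1 + ∑ φ : AddChar A ℂ, |B φ|, ?_⟩
  filter_upwards [hall, hC1, eventually_Ioc] with s h1 h2 hs
  have h3 := sum_char c a hs.1 hs.2
  rw [← Finset.add_sum_erase _ _ (Finset.mem_univ (1 : AddChar A ℂ)), AddChar.one_apply,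
    one_mul] at h3
  have h4 : ‖(((Nat.card A : ℝ) * psum K s (Cl c a) : ℝ) : ℂ) - (ell s : ℂ)‖ ≤
      C1 + ∑ φ : AddChar A ℂ, |B φ| := by
    rw [← h3]
    have e : Sc (c.char 1) s + ∑ x ∈ Finset.univ.erase 1, x (-a) * Sc (c.char x) s - (ell s : ℂ) =
        (Sc (c.char 1) s - (ell s : ℂ)) + ∑ x ∈ Finset.univ.erase 1, x (-a) * Sc (c.char x) s := by
      ring
    rw [e]
    refine (norm_add_le _ _).trans (add_le_add h2 ?_)
    refine (norm_sum_le _ _).trans ?_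
    refine (Finset.sum_le_sum (fun φ hφ => ?_)).trans
      (Finset.sum_le_sum_of_subset_of_nonneg (Finset.subset_univ _) fun _ _ _ => abs_nonneg _)
    rw [norm_mul, AddChar.norm_apply, one_mul]
    exact (h1 φ (Finset.mem_erase.mp hφ).1).trans (le_abs_self _)
  rw [← Complex.ofReal_sub, Complex.norm_real, Real.norm_eq_abs] at h4
  exact h4

end Fermat.Agent.Cor.Cheb
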