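import Fermat.Agent.Cor.Cheb3
import Fermat.Agent.DS.Cheb

/-!
# Chebotarev IV : lower bounds for the density of the primes with given Frobenius

The results of `Fermat.Agent.DS` give such lower bounds for `g` and `g⁻¹` together; here we use
`exists_density` to separate `g` from `g⁻¹`.
-/

set_option autoImplicit false
set_option linter.unusedSectionVars false
set_option linter.style.haveILetI false

open scoped Classical nonZeroDivisors Topology Pointwise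

namespace Fermat.Agent.Cor.Cheb

open NumberField Filter IsDedekindDomain Module IntermediateField Fermat.Agent.CFT Fermat.Agent.H03
  Fermat.Agent.ZC Fermat.Agent.H25 Fermat.Agent.DS Ideal MulAction

noncomputable section

section range

variable {K : Type*} [Field K] [NumberField K] {𝔪 : Ideal (𝓞 K)} {A : Type*} [AddCommGroup A]
  [Finite A] (c : IdealHom 𝔪 A)

/-- **Equidistribution in the range**, degree one primes, lower bound -/
theorem exists_density_range (h𝔪 : 𝔪 ≠ ⊥) {n : ℕ} (hn : Nat.card (idRange c) = n)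
    (hlow : ∃ C : ℝ, ∀ᶠ s in 𝓝[>] (1 : ℝ), ell s - C ≤
      (n : ℝ) * psum K s (fun v => IsCoprime v.asIdeal 𝔪 ∧ c.toFun v.asIdeal = 0))
    {a : A} (ha : a ∈ idRange c) : ∃ C : ℝ, ∀ᶠ s in 𝓝[>] (1 : ℝ), ell s - C ≤
      (n : ℝ) * psum K s
        (fun v => Deg1 K v ∧ IsCoprime v.asIdeal 𝔪 ∧ c.toFun v.asIdeal = a) := by
  have key : ∀ (v : HeightOneSpectrum (𝓞 K)) (b : idRange c),
      Cl (restr c) b v ↔ (IsCoprime v.asIdeal 𝔪 ∧ c.toFun v.asIdeal = b) := by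
    intro v b
    refine and_congr_right fun hv => ?_
    rw [← restr_coe c v.ne_bot hv]
    exact Subtype.ext_iff
  have e0 : Cl (restr c) 0 = fun v => IsCoprime v.asIdeal 𝔪 ∧ c.toFun v.asIdeal = 0 := by
    funext v
    exact propext (key v 0)
  obtain ⟨C, hC⟩ := exists_density (restr c) h𝔪 (restr_surj c) (by
    obtain ⟨C, hC⟩ := hlow
    refine ⟨C, ?_⟩
    filter_upwards [hC] with s hs
    rw [hn, e0]
    exact hs) ⟨a, ha⟩
  obtain ⟨B, hB⟩ := bdd1_not_deg1 (K := K)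
  refine ⟨C + n * B, ?_⟩
  filter_upwards [hC, hB, eventually_Ioc] with s h1 h2 hs
  rw [hn] at h1
  have h3 := psum_le_add K hs.1 hs.2 (P := Cl (restr c) ⟨a, ha⟩)
    (Q := fun v => Deg1 K v ∧ IsCoprime v.asIdeal 𝔪 ∧ c.toFun v.asIdeal = a)
    (R := fun v => ¬ Deg1 K v) (by
      intro v hv
      have hv' := (key v ⟨a, ha⟩).mp hv
      by_cases h : Deg1 K v
      · exact Or.inl ⟨h, hv'⟩
      · exact Or.inr h)
  have h4 : (0 : ℝ) ≤ n := Nat.cast_nonneg _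
  have h5 := mul_le_mul_of_nonneg_left (h3.trans (add_le_add le_rfl h2)) h4
  have h6 := (abs_le.mp h1).1
  linarith

end range

section one

variable {L : Type*} [Field L] [NumberField L] [IsGalois ℚ L]

variable {m : ℕ} {C : Type*} [CommGroup C] [Finite C] (κ₀ : (ZMod m)ˣ →* C) (hκ₀ : κ₀ (-1) = 1)
  (κ : Gal(L/ℚ) →* C) {D : ℕ} (hD0 : D ≠ 0) (hmD : m ∣ D)
  (hur : ∀ p : ℕ, p.Prime → ¬ p ∣ D → Algebra.IsUnramifiedIn (𝓞 L) (span {(p : ℤ)}))
  (hκ : ∀ p : ℕ, p.Prime → ¬ p ∣ D → ∀ (P : Ideal (𝓞 L)) (φ : Gal(L/ℚ)), P.IsPrime →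
    P.LiesOver (span {(p : ℤ)}) → IsArithFrobAt ℤ φ P → κ φ = nmod κ₀ p)
  (x : Gal(L/ℚ)) (hinj : ∀ y ∈ Subgroup.zpowers x, κ y = 1 → y = 1)

include hD0 hur hκ hinj hκ₀ hmD in
/-- the basic lower bound. -/
theorem exists_frobSet_lower1 : ∃ E : ℝ, ∀ᶠ s in 𝓝[>] (1 : ℝ), ell s - E ≤
    (Nat.card (Subgroup.centralizer {x} : Subgroup Gal(L/ℚ)) : ℝ) * qsum (FrobSet x) s := by
  obtain ⟨hcard, hmem⟩ := card_range_eq κ₀ hκ₀ κ hD0 hmD hur hκ x hinj
  set c := normHom (K := fixF L (Subgroup.zpowers x)) κ₀ hκ₀ D hmD with hc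
  have hD1 := span_D_ne_bot (K := fixF L (Subgroup.zpowers x)) hD0
  have hfr : Module.finrank (fixF L (Subgroup.zpowers x)) L = orderOf x := by
    rw [← Nat.card_zpowers]
    exact IntermediateField.finrank_fixedField_eq_card (Subgroup.zpowers x)
  have hlow : ∃ C : ℝ, ∀ᶠ s in 𝓝[>] (1 : ℝ), ell s - C ≤
      (orderOf x : ℝ) * psum (fixF L (Subgroup.zpowers x)) s (fun v =>
        IsCoprime v.asIdeal (Ideal.span {(D : 𝓞 (fixF L (Subgroup.zpowers x)))}) ∧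
          c.toFun v.asIdeal = 0) := by
    obtain ⟨C1, h1⟩ := exists_split_lower (fixF L (Subgroup.zpowers x)) L
    obtain ⟨C2, h2⟩ := bdd1_dvd hD1
    refine ⟨C1 + orderOf x * C2, ?_⟩
    filter_upwards [h1, h2, eventually_Ioc] with s hs1 hs2 hs
    rw [hfr] at hs1
    have h3 := psum_le_add (fixF L (Subgroup.zpowers x)) hs.1 hs.2
      (P := fun v => Deg1 (fixF L (Subgroup.zpowers x)) v ∧ Spl (fixF L (Subgroup.zpowers x)) L v)
      (Q := fun v => IsCoprime v.asIdeal (Ideal.span {(D : 𝓞 (fixF L (Subgroup.zpowers x)))}) ∧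
          c.toFun v.asIdeal = 0)
      (R := fun v => ¬ IsCoprime v.asIdeal
        (Ideal.span {(D : 𝓞 (fixF L (Subgroup.zpowers x)))})) (by
        rintro v ⟨hv1, hvs⟩
        by_cases hcop : IsCoprime v.asIdeal
          (Ideal.span {(D : 𝓞 (fixF L (Subgroup.zpowers x)))})
        · refine Or.inl ⟨hcop, ?_⟩
          rw [hc, DS.normHom_apply, spl_class κ₀ κ hur hκ hv1 hvs hcop]
          rfl
        · exact Or.inr hcop)
    have h4 : (0 : ℝ) ≤ orderOf x := Nat.cast_nonneg _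
    have h5 := mul_le_mul_of_nonneg_left (h3.trans (add_le_add le_rfl hs2)) h4
    linarith
  obtain ⟨E, hE⟩ := exists_density_range c hD1 hcard hlow hmem
  refine ⟨E, ?_⟩
  filter_upwards [hE, eventually_Ioc] with s hs hs1
  refine hs.trans ?_
  -- the two sums
  obtain ⟨T, hT⟩ : ∃ T : Set ℕ, T = {p : ℕ | ¬ p ∣ D ∧ nmod κ₀ p = κ x} := ⟨_, rfl⟩
  have hT' : ∀ p, p ∈ T ↔ ¬ p ∣ D ∧ nmod κ₀ p = κ x := fun p => by rw [hT]; rfl
  have h1 : psum (fixF L (Subgroup.zpowers x)) s (fun v =>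
      Deg1 (fixF L (Subgroup.zpowers x)) v ∧
      IsCoprime v.asIdeal (Ideal.span {(D : 𝓞 (fixF L (Subgroup.zpowers x)))}) ∧
        c.toFun v.asIdeal = Additive.ofMul (κ x)) ≤
      psum (fixF L (Subgroup.zpowers x)) s (fun v =>
        Deg1 (fixF L (Subgroup.zpowers x)) v ∧
          absNorm v.asIdeal ∈ T) := by
    refine psum_mono hs1.1 hs1.2 ?_
    rintro v ⟨hv1, hv2, hv3⟩
    refine ⟨hv1, (hT' _).mpr ⟨not_dvd_of_coprime hv2 hv1, ?_⟩⟩
    rw [hc, DS.normHom_apply] at hv3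
    exact Additive.ofMul.injective hv3
  refine (mul_le_mul_of_nonneg_left h1 (Nat.cast_nonneg _)).trans ?_
  rw [psum_deg1_eq _ _ hs1.1 hs1.2, qsum, ← tsum_mul_left, ← tsum_mul_left]
  have hle : ∀ p : Nat.Primes, (orderOf x : ℝ) *
      (if (p : ℕ) ∈ T then
        (idealCount (fixF L (Subgroup.zpowers x)) p : ℝ) * (1 / ((p : ℕ) : ℝ) ^ s) else 0) ≤
      (Nat.card (Subgroup.centralizer {x} : Subgroup Gal(L/ℚ)) : ℝ) *
        (if (p : ℕ) ∈ FrobSet x then 1 / ((p : ℕ) : ℝ) ^ s else 0) := by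
    intro p
    have hp0 : (0 : ℝ) ≤ 1 / ((p : ℕ) : ℝ) ^ s := by positivity
    by_cases hpT : (p : ℕ) ∈ T
    · rw [if_pos hpT]
      have hp := (hT' _).mp hpT
      have h2 := ord_mul_idealCount_le p.2 (hur p p.2 hp.1) x (by
        intro P φ hP hPo hφ hmem
        have h3 := hκ p p.2 hp.1 P φ hP hPo hφ
        rw [hp.2] at h3
        have hyx : x ∈ Subgroup.zpowers x := Subgroup.mem_zpowers x
        have h4 := hinj (φ * x⁻¹) (mul_mem hmem (inv_mem hyx)) (by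
          rw [map_mul, map_inv, h3, mul_inv_cancel])
        exact mul_inv_eq_one.mp h4)
      have h3 : ((orderOf x * idealCount (fixF L (Subgroup.zpowers x)) p : ℕ) : ℝ) ≤
          ((if (p : ℕ) ∈ FrobSet x then
            Nat.card (Subgroup.centralizer {x} : Subgroup Gal(L/ℚ)) else 0 : ℕ) : ℝ) := by
        exact_mod_cast h2
      push_cast at h3
      have h4 := mul_le_mul_of_nonneg_right h3 hp0
      rw [mul_assoc] at h4
      refine h4.trans (le_of_eq ?_)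
      split_ifs <;> simp
    · rw [if_neg hpT, mul_zero]
      split_ifs
      · positivity
      · rw [mul_zero]
  have hsum2 := (summable_qsum (FrobSet x) hs1.1).mul_left
    (Nat.card (Subgroup.centralizer {x} : Subgroup Gal(L/ℚ)) : ℝ)
  refine Summable.tsum_le_tsum hle ?_ hsum2
  refine Summable.of_nonneg_of_le (fun p => ?_) hle hsum2
  refine mul_nonneg (Nat.cast_nonneg _) ?_
  split_ifs
  · positivity
  · exact le_rfl

end one

section cross

variable (F : IntermediateField ℚ Qb) [NumberField F] [IsGalois ℚ F]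
  {m : ℕ} [NeZero m] {C : Type} [CommGroup C] [Finite C] (κ₀ : (ZMod m)ˣ →* C)

theorem exists_lower_rho1 (hκ₀ : κ₀ (-1) = 1) (ρ : GQ)
    (hρ : ∀ k : ℤ, κ₀ (cyc m ρ) ^ k = 1 → ρ ^ k ∈ F.fixingSubgroup) :
    ∃ E : ℝ, ∀ᶠ s in 𝓝[>] (1 : ℝ), ell s - E ≤
      (Nat.card (Subgroup.centralizer {AlgEquiv.restrictNormalHom (Ω F κ₀) ρ} :
        Subgroup Gal(Ω F κ₀/ℚ)) : ℝ) *
        qsum (FrobSet (AlgEquiv.restrictNormalHom (Ω F κ₀) ρ)) s := by
  refine exists_frobSet_lower1 κ₀ hκ₀ (κΩ F κ₀) (DΩ_ne_zero F κ₀) (Dvd.intro _ rfl)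
    (fun p hp h => unram_Ω F κ₀ hp h) (fun p hp h P φ hP hPo hφ => hκΩ F κ₀ hp h P φ hP hPo hφ)
    _ ?_
  rintro y ⟨k, rfl⟩ hy
  simp only at hy ⊢
  rw [← map_zpow, κΩ_restrict] at hy
  have h1 : κ₀ (cyc m ρ) ^ k = 1 := by rw [← map_zpow, ← map_zpow]; exact hy
  have h2 : ρ ^ k ∈ UΩ F κ₀ := ⟨hρ k h1, hy⟩
  rw [← fixingSubgroup_Ω] at h2
  rw [← map_zpow]
  exact (restrict_eq_one_iff _).mpr h2

theorem exists_lower_F1 (hκ₀ : κ₀ (-1) = 1) (hsurj : Function.Surjective κ₀) (hm : m.Prime)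
    (hmF : ¬ (m : ℤ) ∣ discr F) (σ : GQ) :
    ∃ E : ℝ, ∀ᶠ s in 𝓝[>] (1 : ℝ),
      (Nat.card {τ : C // Nat.card Gal(F/ℚ) ∣ orderOf τ} : ℝ) * ell s - E ≤
      (Nat.card (Subgroup.centralizer {AlgEquiv.restrictNormalHom F σ} :
        Subgroup Gal(F/ℚ)) : ℝ) * Nat.card C *
        qsum (FrobSet (AlgEquiv.restrictNormalHom F σ)) s := by
  haveI : Fintype {τ : C // Nat.card Gal(F/ℚ) ∣ orderOf τ} := Fintype.ofFinite _
  have hρ : ∀ τ : {τ : C // Nat.card Gal(F/ℚ) ∣ orderOf τ}, ∃ ρ : GQ,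
      AlgEquiv.restrictNormalHom F ρ = AlgEquiv.restrictNormalHom F σ ∧
        κ₀ (cyc m ρ) = τ.1 := by
    intro τ
    obtain ⟨u, hu⟩ := hsurj τ.1
    obtain ⟨i, hi, hi'⟩ := exists_fix_cyc F hm hmF ((cyc m σ)⁻¹ * u)
    refine ⟨σ * i, ?_, ?_⟩
    · rw [map_mul, (restrict_eq_one_iff F).mpr hi, mul_one]
    · rw [map_mul, hi', mul_inv_cancel_left, hu]
  choose ρ hρ1 hρ2 using hρ
  have hlow : ∀ τ : {τ : C // Nat.card Gal(F/ℚ) ∣ orderOf τ}, ∃ E : ℝ, ∀ᶠ s in 𝓝[>] (1 : ℝ),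
      ell s - E ≤
      (Nat.card (Subgroup.centralizer {AlgEquiv.restrictNormalHom (Ω F κ₀) (ρ τ)} :
        Subgroup Gal(Ω F κ₀/ℚ)) : ℝ) *
        qsum (FrobSet (AlgEquiv.restrictNormalHom (Ω F κ₀) (ρ τ))) s := by
    intro τ
    refine exists_lower_rho1 F κ₀ hκ₀ (ρ τ) ?_
    intro k hk
    rw [hρ2 τ] at hk
    have h1 : (orderOf τ.1 : ℤ) ∣ k := orderOf_dvd_iff_zpow_eq_one.mpr hk
    have h2 : (Nat.card Gal(F/ℚ) : ℤ) ∣ k := dvd_trans (by exact_mod_cast τ.2) h1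
    rw [← restrict_eq_one_iff, map_zpow]
    obtain ⟨j, rfl⟩ := h2
    rw [zpow_mul, zpow_natCast, pow_card_eq_one', one_zpow]
  choose E hE using hlow
  obtain ⟨Cz, hCz⟩ := bddQ_finite (T := {p : ℕ | p ∣ DΩ F κ₀}) (by
    refine (Nat.divisors (DΩ F κ₀)).finite_toSet.subset ?_
    intro p hp
    exact Nat.mem_divisors.mpr ⟨hp, DΩ_ne_zero F κ₀⟩)
  have hE' : ∀ᶠ s in 𝓝[>] (1 : ℝ), ∀ τ : {τ : C // Nat.card Gal(F/ℚ) ∣ orderOf τ},
      ell s - E τ ≤
      (Nat.card (Subgroup.centralizer {AlgEquiv.restrictNormalHom (Ω F κ₀) (ρ τ)} :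
        Subgroup Gal(Ω F κ₀/ℚ)) : ℝ) *
        qsum (FrobSet (AlgEquiv.restrictNormalHom (Ω F κ₀) (ρ τ))) s :=
    eventually_all.mpr hE
  set cF : ℝ := (Nat.card (Subgroup.centralizer {AlgEquiv.restrictNormalHom F σ} :
        Subgroup Gal(F/ℚ)) : ℝ) * Nat.card C with hcF
  have hcF0 : 0 ≤ cF := by positivity
  set nT : ℕ := Fintype.card {τ : C // Nat.card Gal(F/ℚ) ∣ orderOf τ} with hnT
  refine ⟨∑ τ, E τ + cF * (nT * Cz), ?_⟩
  filter_upwards [hE', hCz, eventually_Ioc] with s h1 h2 hs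
  have hq : ∀ T : Set ℕ, 0 ≤ qsum T s := by
    intro T
    refine tsum_nonneg fun p => ?_
    split_ifs
    · positivity
    · exact le_rfl
  have h3 : ∑ τ, (ell s - E τ) ≤ ∑ τ : {τ : C // Nat.card Gal(F/ℚ) ∣ orderOf τ},
      cF * qsum (FrobSet (AlgEquiv.restrictNormalHom (Ω F κ₀) (ρ τ))) s := by
    refine Finset.sum_le_sum fun τ _ => (h1 τ).trans ?_
    refine mul_le_mul_of_nonneg_right ?_ (hq _)
    have h4 := card_centralizer_le F κ₀ (ρ τ)
    rw [hρ1 τ] at h4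
    rw [hcF]
    exact_mod_cast h4
  rw [Finset.sum_sub_distrib, Finset.sum_const, nsmul_eq_mul, Finset.card_univ, ← hnT,
    ← Finset.mul_sum] at h3
  have h5 : ∑ τ, qsum (FrobSet (AlgEquiv.restrictNormalHom (Ω F κ₀) (ρ τ))) s ≤
      qsum (FrobSet (AlgEquiv.restrictNormalHom F σ)) s +
        nT * qsum {p : ℕ | p ∣ DΩ F κ₀} s := by
    refine sum_qsum_le _ _ _ (fun p hp hpZ τ hτ => ?_) (fun p hp hpZ τ τ' hτ hτ' => ?_) hs.1
    · rw [← hρ1 τ]
      exact (frobSet_restrict F κ₀ hp hpZ hτ).1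
    · have h6 := (frobSet_restrict F κ₀ hp hpZ hτ).2
      have h7 := (frobSet_restrict F κ₀ hp hpZ hτ').2
      rw [hρ2] at h6 h7
      exact Subtype.ext (h6.trans h7.symm)
  have h6 : (nT : ℝ) * qsum {p : ℕ | p ∣ DΩ F κ₀} s ≤ nT * Cz :=
    mul_le_mul_of_nonneg_left h2 (Nat.cast_nonneg _)
  have h7 := mul_le_mul_of_nonneg_left (h5.trans (add_le_add le_rfl h6)) hcF0
  have h8 : (Nat.card {τ : C // Nat.card Gal(F/ℚ) ∣ orderOf τ} : ℝ) = nT := by
    rw [Nat.card_eq_fintype_card]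
  rw [h8]
  linarith

end cross

section main

variable (F : IntermediateField ℚ Qb) [NumberField F] [IsGalois ℚ F]

/-- **lower bound for the density of the primes with Frobenius `g`** -/
theorem exists_lower_class1 (g : Gal(F/ℚ)) {ε : ℝ} (hε : 0 < ε) :
    ∃ E : ℝ, ∀ᶠ s in 𝓝[>] (1 : ℝ), (1 - ε) * ell s - E ≤
      (Nat.card (Subgroup.centralizer {g} : Subgroup Gal(F/ℚ)) : ℝ) * qsum (FrobSet g) s := by
  obtain ⟨σ, rfl⟩ := AlgEquiv.restrictNormalHom_surjective (F := ℚ) (K₁ := F) Qb g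
  obtain ⟨m, N, hN, κ₀, hm, hmB, hκ₀, hsurj, hcard⟩ :=
    exists_kappa (n := Nat.card Gal(F/ℚ)) Nat.card_pos.ne' (discr F).natAbs hε
  haveI : NeZero m := ⟨hm.ne_zero⟩
  haveI : Finite (Multiplicative (ZMod N)) := inferInstanceAs (Finite (ZMod N))
  have hmF : ¬ (m : ℤ) ∣ discr F := by
    intro h
    have h1 := Nat.le_of_dvd (Int.natAbs_pos.mpr (discr_ne_zero F)) (Int.natCast_dvd.mp h)
    omega
  obtain ⟨E, hE⟩ := exists_lower_F1 F κ₀ hκ₀ hsurj hm hmF σ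
  have hcN : Nat.card (Multiplicative (ZMod N)) = N := by
    rw [Nat.card_congr Multiplicative.toAdd, Nat.card_zmod]
  have hN0 : (0 : ℝ) < N := by exact_mod_cast Nat.pos_of_ne_zero (NeZero.ne N)
  refine ⟨E / N, ?_⟩
  filter_upwards [hE, tendsto_ell.eventually_ge_atTop 0] with s hs hell
  rw [hcN] at hs
  set Q : ℝ := (Nat.card (Subgroup.centralizer {AlgEquiv.restrictNormalHom F σ} :
        Subgroup Gal(F/ℚ)) : ℝ) *
        qsum (FrobSet (AlgEquiv.restrictNormalHom F σ)) s with hQ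
  have h1 : (Nat.card {τ : Multiplicative (ZMod N) // Nat.card Gal(F/ℚ) ∣ orderOf τ} : ℝ) *
      ell s - E ≤ N * Q := by
    rw [hQ]
    linarith
  have h2 := mul_le_mul_of_nonneg_right hcard hell
  have h3 : N * ((1 - ε) * ell s - E / N) ≤ N * Q := by
    have e : N * ((1 - ε) * ell s - E / N) = (1 - ε) * N * ell s - E := by
      field_simp
    rw [e]
    linarith
  exact le_of_mul_le_mul_left h3 hN0

end main

end

end Fermat.Agent.Cor.Cheb
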