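import Fermat.Agent.Cor.Cheb4

/-!
# Chebotarev V : the density theorem for Galois extensions of `ℚ` inside `Qb`
-/

set_option autoImplicit false
set_option linter.unusedSectionVars false
set_option linter.style.haveILetI false

open scoped Classical nonZeroDivisors Topology Pointwise

namespace Fermat.Agent.Cor.Cheb

open NumberField Filter IsDedekindDomain Module IntermediateField Fermat.Agent.CFT Fermat.Agent.H03
  Fermat.Agent.ZC Fermat.Agent.H25 Fermat.Agent.DS Ideal MulAction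

noncomputable section

theorem idealCount_rat {p : ℕ} (hp : p.Prime) : idealCount ℚ p = 1 := by
  have hfr : absNorm (span {(p : 𝓞 ℚ)}) = p := by
    rw [absNorm_span_singleton]
    have h1 : Algebra.norm ℤ ((p : ℤ) : 𝓞 ℚ) = (p : ℤ) ^ finrank ℤ (𝓞 ℚ) := by
      rw [← eq_intCast (algebraMap ℤ (𝓞 ℚ)), Algebra.norm_algebraMap]
    rw [RingOfIntegers.rank, Module.finrank_self, pow_one] at h1
    have h2 : ((p : ℤ) : 𝓞 ℚ) = (p : 𝓞 ℚ) := by push_cast; rfl
    rw [← h2, h1]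
    exact Int.natAbs_natCast p
  have huni : ∀ I : Ideal (𝓞 ℚ), absNorm I = p → I = span {(p : 𝓞 ℚ)} := by
    intro I hI
    have h1 : (p : 𝓞 ℚ) ∈ I := by
      have := absNorm_mem I
      rwa [hI] at this
    have h2 : I ∣ span {(p : 𝓞 ℚ)} :=
      Ideal.dvd_iff_le.mpr ((span_singleton_le_iff_mem _).mpr h1)
    obtain ⟨J, hJ⟩ := h2
    have h3 := congrArg absNorm hJ
    rw [map_mul, hfr, hI] at h3
    have h4 : absNorm J = 1 := Nat.eq_of_mul_eq_mul_left hp.pos (by rw [mul_one]; exact h3.symm)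
    rw [absNorm_eq_one_iff] at h4
    rw [hJ, h4, mul_top]
  rw [idealCount, Nat.card_eq_one_iff_unique]
  exact ⟨⟨fun a b => Subtype.ext ((huni _ a.2).trans (huni _ b.2).symm)⟩, ⟨⟨_, hfr⟩⟩⟩

/-- `∑ p^{-s} = log (1/(s-1)) + O(1)` -/
theorem qsum_univ_bound : ∃ C : ℝ, ∀ᶠ s in 𝓝[>] (1 : ℝ), |qsum Set.univ s - ell s| ≤ C := by
  obtain ⟨U, hU⟩ := exists_upper ℚ
  obtain ⟨V, hV⟩ := exists_lower ℚ
  refine ⟨|U| + |V|, ?_⟩
  filter_upwards [hU, hV, eventually_Ioc] with s h1 h2 hs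
  have h3 : qsum Set.univ s = psum ℚ s (Deg1 ℚ) := by
    have e : Deg1 ℚ = fun v => Deg1 ℚ v ∧ absNorm v.asIdeal ∈ (Set.univ : Set ℕ) := by
      funext v
      exact propext ⟨fun h => ⟨h, trivial⟩, fun h => h.1⟩
    rw [e, psum_deg1_eq ℚ Set.univ hs.1 hs.2, qsum]
    refine tsum_congr fun p => ?_
    rw [if_pos (Set.mem_univ _), if_pos (Set.mem_univ _), idealCount_rat p.2, Nat.cast_one, one_mul]
  have h4 : psum ℚ s (Deg1 ℚ) ≤ ∑' v : HeightOneSpectrum (𝓞 ℚ), nrm ℚ s v.asIdeal := by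
    refine Summable.tsum_le_tsum (fun v => ?_) (summable_psum ℚ hs.1 hs.2 _)
      (summable_nrm_prime ℚ hs.1 hs.2)
    split_ifs
    · exact le_rfl
    · exact nrm_nonneg ℚ s _
  rw [h3, abs_le]
  have h5 := le_abs_self U
  have h6 := le_abs_self V
  have h7 := abs_nonneg U
  have h8 := abs_nonneg V
  constructor <;> linarith

variable (F : IntermediateField ℚ Qb) [NumberField F] [IsGalois ℚ F]

theorem exists_upper_sum : ∃ C : ℝ, ∀ᶠ s in 𝓝[>] (1 : ℝ),
    ∑ g : Gal(F/ℚ), (Nat.card (Subgroup.centralizer {g} : Subgroup Gal(F/ℚ)) : ℝ) *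
      qsum (FrobSet g) s ≤ Nat.card Gal(F/ℚ) * ell s + C := by
  have hG0 : (0 : ℝ) < Nat.card Gal(F/ℚ) := by exact_mod_cast Nat.card_pos
  set W : Set ℕ := ((discr F).natAbs.divisors : Set ℕ) with hW
  obtain ⟨Cw, hCw⟩ := bddQ_finite (T := W) (Finset.finite_toSet _)
  obtain ⟨U, hU⟩ := qsum_univ_bound
  set M : ℝ := ∑ g : Gal(F/ℚ),
    (Nat.card (Subgroup.centralizer {g} : Subgroup Gal(F/ℚ)) : ℝ) with hM
  have hM0 : 0 ≤ M := Finset.sum_nonneg fun g _ => Nat.cast_nonneg _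
  refine ⟨Nat.card Gal(F/ℚ) * U + M * Cw, ?_⟩
  filter_upwards [hU, hCw, eventually_Ioc] with s h1 h2 hs
  have hmain : ∑ g : Gal(F/ℚ),
      (Nat.card (Subgroup.centralizer {g} : Subgroup Gal(F/ℚ)) : ℝ) * qsum (FrobSet g) s ≤
      Nat.card Gal(F/ℚ) * qsum Set.univ s + M * qsum W s := by
    simp only [qsum]
    simp_rw [← tsum_mul_left]
    rw [← Summable.tsum_finsetSum fun g _ => (summable_qsum (FrobSet g) hs.1).mul_left _,
      ← ((summable_qsum Set.univ hs.1).mul_left _).tsum_add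
        ((summable_qsum W hs.1).mul_left _)]
    refine Summable.tsum_le_tsum (fun p => ?_)
      (summable_sum fun g _ => (summable_qsum (FrobSet g) hs.1).mul_left _)
      (((summable_qsum Set.univ hs.1).mul_left _).add ((summable_qsum W hs.1).mul_left _))
    have hp0 : 0 ≤ 1 / ((p : ℕ) : ℝ) ^ s := by positivity
    have e : ∀ g : Gal(F/ℚ),
        (Nat.card (Subgroup.centralizer {g} : Subgroup Gal(F/ℚ)) : ℝ) *
          (if (p : ℕ) ∈ FrobSet g then 1 / ((p : ℕ) : ℝ) ^ s else 0) =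
        (1 : ℝ) * (Nat.card (Subgroup.centralizer {g} : Subgroup Gal(F/ℚ)) : ℝ) *
          (if (p : ℕ) ∈ FrobSet g then 1 else 0) * (1 / ((p : ℕ) : ℝ) ^ s) := by
      intro g
      split_ifs <;> ring
    rw [Finset.sum_congr rfl fun g _ => e g, ← Finset.sum_mul, if_pos (Set.mem_univ _)]
    by_cases hpW : (p : ℕ) ∈ W
    · rw [if_pos hpW]
      have h3 : ∑ g : Gal(F/ℚ), (1 : ℝ) *
          (Nat.card (Subgroup.centralizer {g} : Subgroup Gal(F/ℚ)) : ℝ) *
          (if (p : ℕ) ∈ FrobSet g then 1 else 0) ≤ M := by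
        refine Finset.sum_le_sum fun g _ => ?_
        rw [one_mul]
        refine mul_le_of_le_one_right (Nat.cast_nonneg _) ?_
        split_ifs <;> norm_num
      have h4 := mul_le_mul_of_nonneg_right h3 hp0
      have h5 : 0 ≤ (Nat.card Gal(F/ℚ) : ℝ) * (1 / ((p : ℕ) : ℝ) ^ s) :=
        mul_nonneg hG0.le hp0
      linarith
    · rw [if_neg hpW, mul_zero, add_zero]
      have hdisc : ¬ ((p : ℕ) : ℤ) ∣ discr F := by
        intro h
        apply hpW
        rw [hW, Finset.mem_coe, Nat.mem_divisors]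
        exact ⟨Int.natCast_dvd.mp h, Int.natAbs_ne_zero.mpr (discr_ne_zero F)⟩
      have hur : Algebra.IsUnramifiedIn (𝓞 F) (Ideal.span {((p : ℕ) : ℤ)}) :=
        (not_dvd_discr_iff_isUnramifiedIn F (𝓞 F) (Nat.prime_iff_prime_int.mp p.2)).mp hdisc
      have h3 := sum_frob_le p.2 hur (fun _ : Gal(F/ℚ) => (1 : ℝ)) (fun _ => zero_le_one)
        (fun _ _ => rfl) zero_le_one (fun _ _ => le_rfl)
      have h4 := mul_le_mul_of_nonneg_right h3 hp0
      rw [mul_one] at h4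
      exact h4
  have h3 : qsum Set.univ s ≤ ell s + U := by linarith [(abs_le.mp h1).2]
  have h4 := mul_le_mul_of_nonneg_left h3 hG0.le
  have h5 := mul_le_mul_of_nonneg_left h2 hM0
  linarith

theorem exists_upper_class1 (g : Gal(F/ℚ)) {ε : ℝ} (hε : 0 < ε) :
    ∃ E : ℝ, ∀ᶠ s in 𝓝[>] (1 : ℝ),
      (Nat.card (Subgroup.centralizer {g} : Subgroup Gal(F/ℚ)) : ℝ) * qsum (FrobSet g) s ≤
        (1 + ε) * ell s + E := by
  have hG0 : (0 : ℝ) < Nat.card Gal(F/ℚ) := by exact_mod_cast Nat.card_pos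
  set δ : ℝ := ε / Nat.card Gal(F/ℚ) with hδ
  have hδ0 : 0 < δ := div_pos hε hG0
  choose E hE using fun h : Gal(F/ℚ) => exists_lower_class1 F h hδ0
  obtain ⟨C, hC⟩ := exists_upper_sum F
  have hE' : ∀ᶠ s in 𝓝[>] (1 : ℝ), ∀ h : Gal(F/ℚ), (1 - δ) * ell s - E h ≤
      (Nat.card (Subgroup.centralizer {h} : Subgroup Gal(F/ℚ)) : ℝ) * qsum (FrobSet h) s :=
    eventually_all.mpr hE
  refine ⟨C + ∑ h ∈ Finset.univ.erase g, E h, ?_⟩
  filter_upwards [hE', hC, tendsto_ell.eventually_ge_atTop 0] with s h1 h2 hell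
  rw [← Finset.add_sum_erase _ _ (Finset.mem_univ g)] at h2
  have h3 : ∑ h ∈ Finset.univ.erase g, ((1 - δ) * ell s - E h) ≤
      ∑ h ∈ Finset.univ.erase g, (Nat.card (Subgroup.centralizer {h} : Subgroup Gal(F/ℚ)) : ℝ) *
        qsum (FrobSet h) s := Finset.sum_le_sum fun h _ => h1 h
  rw [Finset.sum_sub_distrib, Finset.sum_const, nsmul_eq_mul] at h3
  have h4 : ((Finset.univ.erase g).card : ℝ) = Nat.card Gal(F/ℚ) - 1 := by
    rw [Finset.card_erase_of_mem (Finset.mem_univ g), Finset.card_univ,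
      Nat.cast_sub Fintype.card_pos, Nat.card_eq_fintype_card, Nat.cast_one]
  rw [h4] at h3
  have h5 : (Nat.card Gal(F/ℚ) : ℝ) * δ = ε := by
    rw [hδ]
    field_simp
  have h6 : ((Nat.card Gal(F/ℚ) : ℝ) - 1) * ((1 - δ) * ell s) =
      Nat.card Gal(F/ℚ) * ell s - ell s - (Nat.card Gal(F/ℚ) * δ) * ell s + δ * ell s := by
    ring
  rw [h6, h5] at h3
  have h7 : 0 ≤ δ * ell s := mul_nonneg hδ0.le hell
  linarith

/-- **Chebotarev's theorem** for Galois extensions inside `Qb` -/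
theorem tendsto_class (g : Gal(F/ℚ)) :
    Tendsto (fun s : ℝ => qsum (FrobSet g) s / qsum Set.univ s) (𝓝[>] 1)
      (𝓝 (1 / (Nat.card (Subgroup.centralizer {g} : Subgroup Gal(F/ℚ)) : ℝ))) := by
  set Z : ℝ := (Nat.card (Subgroup.centralizer {g} : Subgroup Gal(F/ℚ)) : ℝ) with hZ
  have hZ0 : 0 < Z := by rw [hZ]; exact_mod_cast Nat.card_pos
  have h1 : Tendsto (fun s : ℝ => Z * qsum (FrobSet g) s / ell s) (𝓝[>] 1) (𝓝 1) := by
    rw [Metric.tendsto_nhds]
    intro ε hε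
    obtain ⟨E₁, hE₁⟩ := exists_lower_class1 F g (ε := ε / 4) (by positivity)
    obtain ⟨E₂, hE₂⟩ := exists_upper_class1 F g (ε := ε / 4) (by positivity)
    filter_upwards [hE₁, hE₂, tendsto_ell.eventually_gt_atTop 0,
      tendsto_ell.eventually_gt_atTop (4 * (|E₁| + |E₂|) / ε)] with s h1 h2 h3 h4
    rw [Real.dist_eq, abs_lt]
    have h5 : 4 * (|E₁| + |E₂|) < ell s * ε := by rwa [div_lt_iff₀ hε] at h4
    have h6 := le_abs_self E₁
    have h7 := le_abs_self E₂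
    have h8 := abs_nonneg E₁
    have h9 := abs_nonneg E₂
    constructor
    · rw [lt_sub_iff_add_lt, lt_div_iff₀ h3]
      nlinarith
    · rw [sub_lt_iff_lt_add, div_lt_iff₀ h3]
      nlinarith
  have h2 : Tendsto (fun s : ℝ => qsum Set.univ s / ell s) (𝓝[>] 1) (𝓝 1) := by
    obtain ⟨C, hC⟩ := qsum_univ_bound
    rw [Metric.tendsto_nhds]
    intro ε hε
    filter_upwards [hC, tendsto_ell.eventually_gt_atTop 0,
      tendsto_ell.eventually_gt_atTop (C / ε)] with s h1 h3 h4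
    rw [Real.dist_eq, div_sub_one h3.ne', abs_div, abs_of_pos h3, div_lt_iff₀ h3]
    rw [div_lt_iff₀ hε] at h4
    rw [mul_comm]
    exact h1.trans_lt h4
  have h3 := (h1.div h2 one_ne_zero).const_mul (1 / Z)
  rw [div_one, mul_one] at h3
  refine h3.congr' ?_
  filter_upwards [tendsto_ell.eventually_gt_atTop 0] with s hs
  simp only [Pi.div_apply]
  rw [div_div_div_cancel_right₀ hs.ne', ← mul_div_assoc, ← mul_assoc, one_div,
    inv_mul_cancel₀ hZ0.ne', one_mul]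

end

end Fermat.Agent.Cor.Cheb
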