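import Fermat.Agent.Cor.Chebotarev

/-!
# Chebotarev VI : Frobenius elements in a Galois extension of number fields
-/

set_option autoImplicit false
set_option linter.unusedSectionVars false
set_option linter.style.haveILetI false

open scoped Classical nonZeroDivisors Topology Pointwise

namespace Fermat.Agent.Cor.Cheb

open NumberField Filter IsDedekindDomain Module IntermediateField Fermat.Agent.CFT Fermat.Agent.H03
  Fermat.Agent.ZC Fermat.Agent.H25 Fermat.Agent.DS Ideal MulAction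

noncomputable section

section basic

variable {K L : Type*} [Field K] [NumberField K] [Field L] [NumberField L] [Algebra K L]

instance instSMulComm : SMulCommClass Gal(L/K) (𝓞 K) (𝓞 L) where
  smul_comm g a x := by
    apply RingOfIntegers.ext
    rw [Algebra.smul_def, Algebra.smul_def]
    change g ((algebraMap (𝓞 K) (𝓞 L) a : 𝓞 L) * (x : L)) =
      (algebraMap (𝓞 K) (𝓞 L) a : 𝓞 L) * g (x : L)
    rw [map_mul]
    congr 1
    exact g.commutes (a : K)

/-- `g` is a Frobenius element at the prime `P` above `v` -/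
def FrAt (g : Gal(L/K)) (v : HeightOneSpectrum (𝓞 K)) (P : Ideal (𝓞 L)) : Prop :=
  P.IsPrime ∧ P.LiesOver v.asIdeal ∧ ∀ x : 𝓞 L, g • x - x ^ absNorm v.asIdeal ∈ P

/-- `g` is a Frobenius element of some prime of `L` above `v` -/
def Fr (g : Gal(L/K)) (v : HeightOneSpectrum (𝓞 K)) : Prop := ∃ P : Ideal (𝓞 L), FrAt g v P

theorem FrAt.conj {g : Gal(L/K)} {v : HeightOneSpectrum (𝓞 K)} {P : Ideal (𝓞 L)}
    (h : FrAt g v P) (t : Gal(L/K)) : FrAt (t * g * t⁻¹) v (t • P) := by
  obtain ⟨h1, h2, h3⟩ := h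
  refine ⟨inferInstance, inferInstance, fun x => ?_⟩
  have h4 := Ideal.smul_mem_pointwise_smul t _ P (h3 (t⁻¹ • x))
  rw [smul_sub, smul_pow', smul_inv_smul, ← mul_smul, ← mul_smul] at h4
  exact h4

theorem Fr.conj {g : Gal(L/K)} {v : HeightOneSpectrum (𝓞 K)} (h : Fr g v) (t : Gal(L/K)) :
    Fr (t * g * t⁻¹) v := by
  obtain ⟨P, hP⟩ := h
  exact ⟨t • P, hP.conj t⟩

variable (L) in
/-- trivial inertia -/
def Good (v : HeightOneSpectrum (𝓞 K)) : Prop :=
  ∀ P : Ideal (𝓞 L), P.IsPrime → P.LiesOver v.asIdeal →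
    ∀ g : Gal(L/K), (∀ x : 𝓞 L, g • x - x ∈ P) → g = 1

theorem FrAt.unique {g h : Gal(L/K)} {v : HeightOneSpectrum (𝓞 K)} {P : Ideal (𝓞 L)}
    (hv : Good L v) (hg : FrAt g v P) (hh : FrAt h v P) : g = h := by
  have h1 : g * h⁻¹ = 1 := by
    refine hv P hg.1 hg.2.1 _ fun x => ?_
    have h2 := hg.2.2 (h⁻¹ • x)
    have h3 := hh.2.2 (h⁻¹ • x)
    have h4 := P.sub_mem h2 h3
    rw [sub_sub_sub_cancel_right, smul_inv_smul, ← mul_smul] at h4
    exact h4
  exact mul_inv_eq_one.mp h1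

theorem Fr.isConj [IsGalois K L] {g h : Gal(L/K)} {v : HeightOneSpectrum (𝓞 K)}
    (hv : Good L v) (hg : Fr g v) (hh : Fr h v) : IsConj g h := by
  obtain ⟨P, hP⟩ := hg
  obtain ⟨Q, hQ⟩ := hh
  have h1 := hP.1
  have h2 := hQ.1
  obtain ⟨t, ht⟩ := Algebra.IsInvariant.exists_smul_of_under_eq (𝓞 K) (𝓞 L) Gal(L/K) P Q
    (by rw [← hP.2.1.over, ← hQ.2.1.over])
  have h3 := hP.conj t
  rw [← ht] at h3
  exact isConj_iff.mpr ⟨t, FrAt.unique hv h3 hQ⟩

theorem finite_not_good : {v : HeightOneSpectrum (𝓞 K) | ¬ Good L v}.Finite := by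
  haveI : FiniteDimensional K L := Module.Finite.of_restrictScalars_finite ℚ K L
  haveI : Finite Gal(L/K) := inferInstance
  have hx : ∀ g : Gal(L/K), g ≠ 1 → ∃ x : 𝓞 L, g • x - x ≠ 0 := by
    intro g hg
    by_contra hcon
    push Not at hcon
    apply hg
    apply AlgEquiv.ext
    intro y
    obtain ⟨a, b, hb, rfl⟩ := IsFractionRing.div_surjective (A := 𝓞 L) y
    have h1 : ∀ x : 𝓞 L, g (x : L) = x := by
      intro x
      have := congrArg (fun z : 𝓞 L => (z : L)) (sub_eq_zero.mp (hcon x))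
      exact this
    rw [map_div₀]
    change g (a : L) / g (b : L) = _
    rw [h1, h1]
    rfl
  choose! x hx using hx
  have hfin : ∀ g : Gal(L/K), g ≠ 1 → {v : HeightOneSpectrum (𝓞 K) |
      ((absNorm (span {g • x g - x g}) : ℕ) : 𝓞 K) ∈ v.asIdeal}.Finite := by
    intro g hg
    have h0 : absNorm (span {g • x g - x g}) ≠ 0 := by
      rw [Ne, absNorm_eq_zero_iff, span_singleton_eq_bot]
      exact hx g hg
    refine (Ideal.finite_factors (I := span {((absNorm (span {g • x g - x g}) : ℕ) : 𝓞 K)}) ?_).subset ?_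
    · rw [Ne, Submodule.zero_eq_bot, span_singleton_eq_bot]
      exact_mod_cast h0
    · intro v hv
      exact (Ideal.dvd_span_singleton).mpr hv
  have hfin2 : (⋃ g : {g : Gal(L/K) // g ≠ 1}, {v : HeightOneSpectrum (𝓞 K) |
      ((absNorm (span {g.1 • x g.1 - x g.1}) : ℕ) : 𝓞 K) ∈ v.asIdeal}).Finite :=
    Set.finite_iUnion fun g => hfin g.1 g.2
  refine hfin2.subset fun v hv => ?_
  rw [Set.mem_ofPred_eq, Good] at hv
  push Not at hv
  obtain ⟨P, hP, hPo, g, hg, hg1⟩ := hv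
  rw [Set.mem_iUnion]
  refine ⟨⟨g, hg1⟩, ?_⟩
  rw [Set.mem_ofPred_eq, hPo.over, Ideal.mem_comap, map_natCast]
  have h1 : span {g • x g - x g} ≤ P := (span_singleton_le_iff_mem _).mpr (hg _)
  exact h1 (absNorm_mem _)

end basic

/-- group theory : the class equation -/
theorem sum_centralizer_le {G : Type*} [Group G] [Fintype G] (S : G → Prop)
    (hS : ∀ g h, S g → S h → IsConj g h) :
    ∑ g : G, (if S g then (Nat.card (Subgroup.centralizer {g} : Subgroup G) : ℝ) else 0) ≤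
      Nat.card G := by
  by_cases hex : ∃ g, S g
  · obtain ⟨g₀, hg₀⟩ := hex
    have h1 : ∀ g, S g → Nat.card (Subgroup.centralizer {g} : Subgroup G) =
        Nat.card (Subgroup.centralizer {g₀} : Subgroup G) := by
      intro g hg
      have h2 := card_class_mul g
      have h3 := card_class_mul g₀
      have h4 : Nat.card {h : G // IsConj g h} = Nat.card {h : G // IsConj g₀ h} := by
        refine Nat.card_congr (Equiv.subtypeEquivRight fun h => ?_)
        exact ⟨fun h' => (hS g₀ g hg₀ hg).trans h', fun h' => (hS g g₀ hg hg₀).trans h'⟩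
      rw [h4] at h2
      have h5 : 0 < Nat.card {h : G // IsConj g₀ h} := by
        haveI : Nonempty {h : G // IsConj g₀ h} := ⟨⟨g₀, IsConj.refl g₀⟩⟩
        exact Nat.card_pos
      exact Nat.eq_of_mul_eq_mul_left h5 (h2.trans h3.symm)
    rw [← Finset.sum_filter, Finset.sum_congr rfl (fun g hg => by
      rw [h1 g (Finset.mem_filter.mp hg).2]), Finset.sum_const, nsmul_eq_mul]
    have h2 : (Finset.univ.filter S).card ≤ Nat.card {h : G // IsConj g₀ h} := by
      rw [Nat.card_eq_fintype_card, Fintype.card_subtype]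
      refine Finset.card_le_card fun g hg => ?_
      rw [Finset.mem_filter] at hg ⊢
      exact ⟨hg.1, hS _ _ hg₀ hg.2⟩
    have h3 := card_class_mul g₀
    rw [← h3]
    push_cast
    exact mul_le_mul_of_nonneg_right (by exact_mod_cast h2) (Nat.cast_nonneg _)
  · push Not at hex
    rw [Finset.sum_eq_zero fun g _ => if_neg (hex g)]
    exact Nat.cast_nonneg _

section closure

variable {K M : Type*} [Field K] [NumberField K] [Field M] [NumberField M] [IsGalois ℚ M]
  [Algebra K M]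

theorem isArith_iff {p : ℕ} {P : Ideal (𝓞 M)} [hPo : P.LiesOver (span {(p : ℤ)})]
    (g : Gal(M/ℚ)) : IsArithFrobAt ℤ g P ↔ ∀ x : 𝓞 M, g • x - x ^ p ∈ P := by
  have h : Nat.card (ℤ ⧸ P.under ℤ) = p := by
    rw [← hPo.over, Int.card_ideal_quot]
  constructor
  · intro hg x
    have := hg x
    rw [h] at this
    exact this
  · intro hg x
    rw [h]
    exact hg x

theorem absNorm_under {p : ℕ} (hp : p.Prime) {P : Ideal (𝓞 M)} [P.IsPrime]
    [hPo : P.LiesOver (span {(p : ℤ)})] (h : Gal(M/K))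
    (hh : ∀ x : 𝓞 M, h • x - x ^ p ∈ P) : absNorm (P.under (𝓞 K)) = p := by
  have hP0 := ne_bot_of_liesOver hp P
  have hq0 : P.under (𝓞 K) ≠ ⊥ := mt Ideal.eq_bot_of_comap_eq_bot hP0
  haveI : (P.under (𝓞 K)).IsMaximal := Ideal.IsPrime.isMaximal inferInstance hq0
  haveI : (P.under (𝓞 K)).LiesOver (span {(p : ℤ)}) := inferInstance
  letI : Field (𝓞 K ⧸ P.under (𝓞 K)) := Ideal.Quotient.field _
  haveI : Finite (𝓞 K ⧸ P.under (𝓞 K)) := Ideal.finiteQuotientOfFreeOfNeBot _ hq0
  letI := Fintype.ofFinite (𝓞 K ⧸ P.under (𝓞 K))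
  have h1 : ∀ y : 𝓞 K ⧸ P.under (𝓞 K), y ^ p = y := by
    intro y
    obtain ⟨y, rfl⟩ := Ideal.Quotient.mk_surjective y
    rw [← map_pow]
    symm
    rw [Ideal.Quotient.eq, Ideal.mem_comap, map_sub, map_pow]
    have h2 := hh (algebraMap (𝓞 K) (𝓞 M) y)
    rwa [smul_algebraMap] at h2
  have h2 : absNorm (P.under (𝓞 K)) ≤ p := by
    rw [absNorm_apply, Submodule.cardQuot_apply, Nat.card_eq_fintype_card]
    rw [← FiniteField.X_pow_card_sub_X_natDegree_eq (𝓞 K ⧸ P.under (𝓞 K)) hp.one_lt]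
    refine Polynomial.card_le_degree_of_subset_roots fun y _ => ?_
    rw [Polynomial.mem_roots (FiniteField.X_pow_card_sub_X_ne_zero _ hp.one_lt)]
    simp [h1 y]
  have h3 := pow_inertiaDeg p (P.under (𝓞 K))
  have h4 : (P.under (𝓞 K)).inertiaDeg ℤ ≠ 0 := by
    intro h0
    rw [h0, pow_zero] at h3
    exact (inferInstance : (P.under (𝓞 K)).IsPrime).ne_top (absNorm_eq_one_iff.mp h3.symm)
  have h5 : p ≤ p ^ (P.under (𝓞 K)).inertiaDeg ℤ := Nat.le_self_pow h4 p
  rw [h3] at h5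
  exact le_antisymm h2 h5

end closure

end

end Fermat.Agent.Cor.Cheb
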