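import Fermat.Agent.Cor.Cheb6

/-!
# Chebotarev VII : counting degree one primes of an arbitrary base field
-/

set_option autoImplicit false
set_option linter.unusedSectionVars false
set_option linter.style.haveILetI false

open scoped Classical nonZeroDivisors Topology Pointwise

namespace Fermat.Agent.Cor.Cheb

open NumberField Filter IsDedekindDomain Module IntermediateField Fermat.Agent.CFT Fermat.Agent.H03
  Fermat.Agent.ZC Fermat.Agent.H25 Fermat.Agent.DS Ideal MulAction

noncomputable section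

/-- sums over degree one primes -/
theorem psum_deg1_fiber (K : Type*) [Field K] [NumberField K]
    (R : HeightOneSpectrum (𝓞 K) → Prop) {s : ℝ} (hs : 1 < s) (hs2 : s ≤ 2) :
    HasSum (fun p : Nat.Primes =>
      (Nat.card {v : HeightOneSpectrum (𝓞 K) // absNorm v.asIdeal = p ∧ R v} : ℝ) *
        (1 / ((p : ℕ) : ℝ) ^ s)) (psum K s (fun v => Deg1 K v ∧ R v)) := by
  obtain ⟨Q, hQ⟩ : ∃ Q : HeightOneSpectrum (𝓞 K) → Prop,
    Q = fun v => Deg1 K v ∧ R v := ⟨_, rfl⟩
  have hQ' : ∀ v, Q v ↔ Deg1 K v ∧ R v := fun v => by rw [hQ]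
  rw [← hQ]
  unfold psum
  let β := {v : HeightOneSpectrum (𝓞 K) // Q v}
  let g : β → Nat.Primes := fun v => ⟨Ideal.absNorm v.1.asIdeal, ((hQ' v.1).mp v.2).1⟩
  have h1 : ∑' v : HeightOneSpectrum (𝓞 K), (if Q v then
      nrm K s v.asIdeal else 0) = ∑' v : β, nrm K s v.1.asIdeal := by
    refine Eq.trans ?_
      (tsum_subtype {v : HeightOneSpectrum (𝓞 K) | Q v}
        (fun v => nrm K s v.asIdeal)).symm
    refine tsum_congr fun v => ?_
    rw [Set.indicator_apply]
    exact if_congr Iff.rfl rfl rfl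
  have hβ : Summable fun v : β => nrm K s v.1.asIdeal :=
    (summable_nrm_prime K hs hs2).comp_injective Subtype.val_injective
  have h2 := hβ.hasSum.tsum_fiberwise g
  rw [h1]
  have e3 : (fun p : Nat.Primes =>
      (Nat.card {v : HeightOneSpectrum (𝓞 K) // absNorm v.asIdeal = p ∧ R v} : ℝ) *
        (1 / ((p : ℕ) : ℝ) ^ s)) = fun p : Nat.Primes =>
      ∑' b : g ⁻¹' {p}, nrm K s b.1.1.asIdeal := by
    funext p
    have e1 : ∀ b : g ⁻¹' {p}, nrm K s b.1.1.asIdeal = 1 / ((p : ℕ) : ℝ) ^ s := by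
      intro b
      have : Ideal.absNorm b.1.1.asIdeal = (p : ℕ) := congrArg Subtype.val b.2
      rw [nrm, this, Real.rpow_neg (Nat.cast_nonneg _), one_div]
    rw [tsum_congr e1, tsum_const, nsmul_eq_mul]
    congr 2
    refine (Nat.card_congr
      ⟨fun b => ⟨b.1.1, congrArg Subtype.val b.2, ((hQ' _).mp b.1.2).2⟩,
        fun v => ⟨⟨v.1, (hQ' _).mpr ⟨by
          change (absNorm v.1.asIdeal).Prime
          rw [v.2.1]; exact p.2, v.2.2⟩⟩, Subtype.ext v.2.1⟩, ?_, ?_⟩).symm
    · intro b; rfl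
    · intro v; rfl
  rw [e3]
  exact h2

variable {K M : Type*} [Field K] [NumberField K] [Field M] [NumberField M] [IsGalois ℚ M]
  [Algebra K M]

theorem restrictScalars_smul_ideal (a : Gal(M/K)) (P : Ideal (𝓞 M)) :
    (AlgEquiv.restrictScalarsHom ℚ a : Gal(M/ℚ)) • P = a • P := by
  ext x
  rw [Ideal.mem_pointwise_smul_iff_inv_smul_mem, Ideal.mem_pointwise_smul_iff_inv_smul_mem]
  rw [← map_inv]
  rfl

/-- **the count** -/
theorem card_centralizer_le_mul {p : ℕ} (hp : p.Prime)
    (hur : Algebra.IsUnramifiedIn (𝓞 M) (span {(p : ℤ)})) (h : Gal(M/K))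
    (hmem : p ∈ FrobSet (AlgEquiv.restrictScalarsHom ℚ h : Gal(M/ℚ))) :
    Nat.card (Subgroup.centralizer {(AlgEquiv.restrictScalarsHom ℚ h : Gal(M/ℚ))} :
      Subgroup Gal(M/ℚ)) ≤
    Nat.card {v : HeightOneSpectrum (𝓞 K) // absNorm v.asIdeal = p ∧ Fr h v} *
      Nat.card (Subgroup.centralizer {h} : Subgroup Gal(M/K)) := by
  haveI : IsGalois K M := IsGalois.tower_top_of_isGalois ℚ K M
  haveI : FiniteDimensional K M := Module.Finite.of_restrictScalars_finite ℚ K M
  haveI : Finite Gal(M/K) := inferInstance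
  set r : Gal(M/K) →* Gal(M/ℚ) := AlgEquiv.restrictScalarsHom ℚ with hr
  have hrinj : Function.Injective r := AlgEquiv.restrictScalarsHom_injective ℚ
  set VS := {v : HeightOneSpectrum (𝓞 K) // absNorm v.asIdeal = p ∧ Fr h v} with hVS
  haveI : Finite VS := by
    haveI : Finite {I : Ideal (𝓞 K) // absNorm I = p} :=
      (Ideal.finite_setOfPred_absNorm_eq p).to_subtype
    refine Finite.of_injective (fun v : VS => (⟨v.1.asIdeal, v.2.1⟩ :
      {I : Ideal (𝓞 K) // absNorm I = p})) fun v w hvw => ?_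
    exact Subtype.ext (HeightOneSpectrum.ext (congrArg Subtype.val hvw))
  obtain ⟨P, hP, hPo, hφ⟩ := hmem
  have hstab : stabilizer Gal(M/ℚ) P = Subgroup.zpowers (r h) :=
    frob_generates hp hur P (r h) hφ
  -- the primes
  have hcomm : ∀ z : (Subgroup.centralizer {r h} : Subgroup Gal(M/ℚ)),
      z.1 * r h * z.1⁻¹ = r h := by
    intro z
    have h1 := Subgroup.mem_centralizer_singleton_iff.mp z.2
    rw [h1, mul_inv_cancel_right]
  have hfrob : ∀ z : (Subgroup.centralizer {r h} : Subgroup Gal(M/ℚ)),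
      IsArithFrobAt ℤ (r h) (z.1 • P) := by
    intro z
    have h1 := hφ.conj z.1
    rwa [hcomm z] at h1
  have hpow : ∀ z : (Subgroup.centralizer {r h} : Subgroup Gal(M/ℚ)),
      ∀ x : 𝓞 M, h • x - x ^ p ∈ z.1 • P := fun z => (isArith_iff (r h)).mp (hfrob z)
  have hvs : ∀ z : (Subgroup.centralizer {r h} : Subgroup Gal(M/ℚ)), ∃ v : VS,
      v.1.asIdeal = (z.1 • P).under (𝓞 K) := by
    intro z
    have h1 := absNorm_under hp h (hpow z)
    let v : HeightOneSpectrum (𝓞 K) := ⟨(z.1 • P).under (𝓞 K), inferInstance, fun h0 => by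
      rw [h0, absNorm_bot] at h1
      exact hp.ne_zero h1.symm⟩
    refine ⟨⟨v, h1, z.1 • P, inferInstance, ⟨rfl⟩, ?_⟩, rfl⟩
    rw [show absNorm v.asIdeal = p from h1]
    exact hpow z
  choose V hV using hvs
  let rep : VS → (Subgroup.centralizer {r h} : Subgroup Gal(M/ℚ)) := fun v =>
    if hv : ∃ z, V z = v then hv.choose else 1
  have hrep : ∀ z, V (rep (V z)) = V z := by
    intro z
    have hv : ∃ z', V z' = V z := ⟨z, rfl⟩
    have e : rep (V z) = hv.choose := dif_pos hv
    rw [e]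
    exact hv.choose_spec
  -- the element of the centralizer
  have hc : ∀ z : (Subgroup.centralizer {r h} : Subgroup Gal(M/ℚ)),
      ∃ c : (Subgroup.centralizer {h} : Subgroup Gal(M/K)), r c.1 = z.1 * (rep (V z)).1⁻¹ := by
    intro z
    have hu : ((rep (V z)).1 • P).under (𝓞 K) = (z.1 • P).under (𝓞 K) := by
      rw [← hV, ← hV, hrep]
    obtain ⟨a, ha⟩ := Algebra.IsInvariant.exists_smul_of_under_eq (𝓞 K) (𝓞 M) Gal(M/K)
      ((rep (V z)).1 • P) (z.1 • P) hu
    rw [← restrictScalars_smul_ideal a] at ha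
    change z.1 • P = r a • (rep (V z)).1 • P at ha
    -- `a` centralizes `h`
    have h1 : r a * r h * (r a)⁻¹ = r h := by
      have h2 := (hfrob (rep (V z))).conj (r a)
      rw [← ha] at h2
      exact frob_unique hp hur (z.1 • P) h2 (hfrob z)
    have h2 : a ∈ (Subgroup.centralizer {h} : Subgroup Gal(M/K)) := by
      rw [Subgroup.mem_centralizer_singleton_iff]
      apply hrinj
      rw [map_mul, map_mul]
      exact mul_inv_eq_iff_eq_mul.mp h1
    have h3 : (rep (V z)).1⁻¹ * (r a)⁻¹ * z.1 ∈ stabilizer Gal(M/ℚ) P := by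
      rw [mem_stabilizer_iff, mul_smul, mul_smul, ha, inv_smul_smul, inv_smul_smul]
    rw [hstab] at h3
    obtain ⟨k, hk⟩ := h3
    simp only at hk
    refine ⟨⟨a * h ^ k, mul_mem h2 (Subgroup.zpow_mem _ (by
      rw [Subgroup.mem_centralizer_singleton_iff]) k)⟩, ?_⟩
    have h4 : Commute (rep (V z)).1 (r h ^ k) := by
      have h5 := Subgroup.mem_centralizer_singleton_iff.mp (rep (V z)).2
      exact (show Commute (rep (V z)).1 (r h) from h5).zpow_right k
    change r (a * h ^ k) = _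
    rw [map_mul, map_zpow, eq_mul_inv_iff_mul_eq, mul_assoc, ← h4.eq, hk]
    group
  choose c hc using hc
  rw [← Nat.card_prod]
  refine Nat.card_le_card_of_injective (fun z => (V z, c z)) fun z z' hz => ?_
  have h1 : V z = V z' := congrArg Prod.fst hz
  have h2 : c z = c z' := congrArg Prod.snd hz
  have h3 := hc z
  rw [h2, hc z', h1] at h3
  exact (Subtype.ext (mul_right_cancel h3)).symm

end

end Fermat.Agent.Cor.Cheb
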