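import Fermat.Agent.Cor.Cheb7

/-!
# Chebotarev VIII : bounds over an arbitrary base field
-/

set_option autoImplicit false
set_option linter.unusedSectionVars false
set_option linter.style.haveILetI false

open scoped Classical nonZeroDivisors Topology Pointwise

namespace Fermat.Agent.Cor.Cheb

open NumberField Filter IsDedekindDomain Module IntermediateField Fermat.Agent.CFT Fermat.Agent.H03
  Fermat.Agent.ZC Fermat.Agent.H25 Fermat.Agent.DS Ideal MulAction

noncomputable section

theorem exists_lower_abs (M : Type*) [Field M] [NumberField M] [IsGalois ℚ M] (g : Gal(M/ℚ))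
    {ε : ℝ} (hε : 0 < ε) : ∃ E : ℝ, ∀ᶠ s in 𝓝[>] (1 : ℝ), (1 - ε) * ell s - E ≤
      (Nat.card (Subgroup.centralizer {g} : Subgroup Gal(M/ℚ)) : ℝ) * qsum (FrobSet g) s := by
  let i : M →ₐ[ℚ] Qb := IsAlgClosed.lift
  let F : IntermediateField ℚ Qb := i.fieldRange
  let e : M ≃ₐ[ℚ] F := AlgEquiv.ofInjectiveField i
  haveI : FiniteDimensional ℚ F := Module.Finite.equiv e.toLinearEquiv
  haveI : NumberField F := { to_charZero := inferInstance, to_finiteDimensional := inferInstance }
  haveI : IsGalois ℚ F := IsGalois.of_algEquiv e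
  have h := exists_lower_class1 F (e.autCongr g) hε
  have h1 : Nat.card (Subgroup.centralizer {e.autCongr g} : Subgroup Gal(F/ℚ)) =
      Nat.card (Subgroup.centralizer {g} : Subgroup Gal(M/ℚ)) := by
    refine (Nat.card_congr (e.autCongr.toEquiv.subtypeEquiv fun x => ?_)).symm
    rw [Subgroup.mem_centralizer_singleton_iff, Subgroup.mem_centralizer_singleton_iff]
    change _ ↔ e.autCongr x * e.autCongr g = e.autCongr g * e.autCongr x
    rw [← map_mul, ← map_mul, e.autCongr.injective.eq_iff]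
  rw [h1, frobSet_transport e g] at h
  exact h

theorem card_preimage {H G : Type*} [Group H] [Group G] (φ : H →* G)
    (hφ : Function.Surjective φ) (P : G → Prop) :
    Nat.card {h : H // P (φ h)} = Nat.card {x : G // P x} * Nat.card φ.ker := by
  choose s hs using hφ
  rw [← Nat.card_prod]
  have key : ∀ (x : G) (k : φ.ker), φ (s x * k.1) = x := by
    intro x k
    rw [map_mul, hs, k.2, mul_one]
  exact Nat.card_congr
    { toFun := fun h => (⟨φ h.1, h.2⟩, ⟨(s (φ h.1))⁻¹ * h.1, by
        rw [MonoidHom.mem_ker, map_mul, map_inv, hs, inv_mul_cancel]⟩)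
      invFun := fun q => ⟨s q.1.1 * q.2.1, by
        rw [key]
        exact q.1.2⟩
      left_inv := fun h => Subtype.ext (mul_inv_cancel_left _ _)
      right_inv := by
        rintro ⟨⟨x, hx⟩, k⟩
        refine Prod.ext (Subtype.ext (key x k)) (Subtype.ext ?_)
        change (s (φ (s x * k.1)))⁻¹ * (s x * k.1) = k.1
        rw [key, inv_mul_cancel_left] }

section psum

variable {K : Type*} [Field K] [NumberField K]

theorem sum_psum_le {ι : Type*} [Fintype ι] (w : ι → ℝ) (hw : ∀ i, 0 ≤ w i)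
    (R : ι → HeightOneSpectrum (𝓞 K) → Prop) (R0 Z : HeightOneSpectrum (𝓞 K) → Prop) {B : ℝ}
    (hB : 0 ≤ B)
    (h : ∀ v, ¬ Z v → ∑ i, (if R i v then w i else 0) ≤ if R0 v then B else 0)
    {s : ℝ} (hs : 1 < s) (hs2 : s ≤ 2) :
    ∑ i, w i * psum K s (R i) ≤ B * psum K s R0 + (∑ i, w i) * psum K s Z := by
  unfold psum
  simp_rw [← tsum_mul_left]
  rw [← Summable.tsum_finsetSum fun i _ => (summable_psum K hs hs2 (R i)).mul_left _,
    ← ((summable_psum K hs hs2 R0).mul_left _).tsum_add ((summable_psum K hs hs2 Z).mul_left _)]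
  refine Summable.tsum_le_tsum (fun v => ?_)
    (summable_sum fun i _ => (summable_psum K hs hs2 (R i)).mul_left _)
    (((summable_psum K hs hs2 R0).mul_left _).add ((summable_psum K hs hs2 Z).mul_left _))
  have hn := nrm_nonneg K s v.asIdeal
  have e : ∀ i, w i * (if R i v then nrm K s v.asIdeal else 0) =
      (if R i v then w i else 0) * nrm K s v.asIdeal := by
    intro i
    split_ifs <;> ring
  rw [Finset.sum_congr rfl fun i _ => e i, ← Finset.sum_mul]
  by_cases hZ : Z v
  · rw [if_pos hZ]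
    have h1 : ∑ i, (if R i v then w i else 0) ≤ ∑ i, w i := by
      refine Finset.sum_le_sum fun i _ => ?_
      split_ifs
      · exact le_rfl
      · exact hw i
    have h2 := mul_le_mul_of_nonneg_right h1 hn
    have h3 : 0 ≤ B * (if R0 v then nrm K s v.asIdeal else 0) := by
      refine mul_nonneg hB ?_
      split_ifs
      · exact hn
      · exact le_rfl
    linarith
  · rw [if_neg hZ, mul_zero, add_zero]
    refine (mul_le_mul_of_nonneg_right (h v hZ) hn).trans (le_of_eq ?_)
    split_ifs <;> ring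

/-- finite sets of primes have bounded sum -/
theorem psum_bdd_of_finite {Z : HeightOneSpectrum (𝓞 K) → Prop} (hZ : {v | Z v}.Finite) :
    ∃ C : ℝ, ∀ᶠ s in 𝓝[>] (1 : ℝ), psum K s Z ≤ C := by
  refine ⟨hZ.toFinset.card, ?_⟩
  filter_upwards [eventually_Ioc] with s hs
  rw [psum, tsum_eq_sum (s := hZ.toFinset)]
  · refine (Finset.sum_le_card_nsmul _ _ 1 fun v _ => ?_).trans (by simp)
    split_ifs
    · rw [nrm, Real.rpow_neg (Nat.cast_nonneg _)]
      refine inv_le_one_of_one_le₀ (Real.one_le_rpow ?_ (by linarith [hs.1]))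
      have h1 : absNorm v.asIdeal ≠ 0 := by
        rw [Ne, absNorm_eq_zero_iff]
        exact v.ne_bot
      exact_mod_cast Nat.one_le_iff_ne_zero.mpr h1
    · exact zero_le_one
  · intro v hv
    exact if_neg fun h => hv (hZ.mem_toFinset.mpr h)

end psum

section lowerM

variable {K M : Type*} [Field K] [NumberField K] [Field M] [NumberField M] [IsGalois ℚ M]
  [Algebra K M]

/-- lower bound for fields which are Galois over `ℚ` -/
theorem exists_lower_M (h : Gal(M/K)) {ε : ℝ} (hε : 0 < ε) :
    ∃ E : ℝ, ∀ᶠ s in 𝓝[>] (1 : ℝ), (1 - ε) * ell s - E ≤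
      (Nat.card (Subgroup.centralizer {h} : Subgroup Gal(M/K)) : ℝ) *
        psum K s (fun v => Deg1 K v ∧ Fr h v) := by
  set r : Gal(M/K) →* Gal(M/ℚ) := AlgEquiv.restrictScalarsHom ℚ with hr
  obtain ⟨E, hE⟩ := exists_lower_abs M (r h) hε
  set W : Set ℕ := ((discr M).natAbs.divisors : Set ℕ) with hW
  obtain ⟨Cw, hCw⟩ := bddQ_finite (T := W) (Finset.finite_toSet _)
  set Z₀ : ℝ := (Nat.card (Subgroup.centralizer {r h} : Subgroup Gal(M/ℚ)) : ℝ) with hZ₀
  set Z : ℝ := (Nat.card (Subgroup.centralizer {h} : Subgroup Gal(M/K)) : ℝ) with hZ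
  have hZ₀0 : 0 ≤ Z₀ := Nat.cast_nonneg _
  have hZ0 : 0 ≤ Z := Nat.cast_nonneg _
  refine ⟨E + Z₀ * Cw, ?_⟩
  filter_upwards [hE, hCw, eventually_Ioc] with s h1 h2 hs
  have hsum := psum_deg1_fiber K (Fr h) hs.1 hs.2
  have h3 : Z₀ * qsum (FrobSet (r h)) s ≤
      Z * psum K s (fun v => Deg1 K v ∧ Fr h v) + Z₀ * qsum W s := by
    rw [← hsum.tsum_eq, qsum, qsum, ← tsum_mul_left, ← tsum_mul_left, ← tsum_mul_left,
      ← (hsum.summable.mul_left _).tsum_add ((summable_qsum W hs.1).mul_left _)]
    refine Summable.tsum_le_tsum (fun p => ?_) ((summable_qsum _ hs.1).mul_left _)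
      ((hsum.summable.mul_left _).add ((summable_qsum W hs.1).mul_left _))
    have hp0 : 0 ≤ 1 / ((p : ℕ) : ℝ) ^ s := by positivity
    by_cases hpF : (p : ℕ) ∈ FrobSet (r h)
    · rw [if_pos hpF]
      by_cases hpW : (p : ℕ) ∈ W
      · rw [if_pos hpW]
        refine le_add_of_nonneg_left ?_
        exact mul_nonneg hZ0 (mul_nonneg (Nat.cast_nonneg _) hp0)
      · rw [if_neg hpW, mul_zero, add_zero]
        have hdisc : ¬ ((p : ℕ) : ℤ) ∣ discr M := by
          intro h
          apply hpW
          rw [hW, Finset.mem_coe, Nat.mem_divisors]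
          exact ⟨Int.natCast_dvd.mp h, Int.natAbs_ne_zero.mpr (discr_ne_zero M)⟩
        have hur : Algebra.IsUnramifiedIn (𝓞 M) (Ideal.span {((p : ℕ) : ℤ)}) :=
          (not_dvd_discr_iff_isUnramifiedIn M (𝓞 M) (Nat.prime_iff_prime_int.mp p.2)).mp hdisc
        have h4 := card_centralizer_le_mul p.2 hur h hpF
        have h5 : Z₀ ≤ (Nat.card {v : HeightOneSpectrum (𝓞 K) //
            absNorm v.asIdeal = (p : ℕ) ∧ Fr h v} : ℝ) * Z := by
          rw [hZ₀, hZ]
          exact_mod_cast h4
        have h6 := mul_le_mul_of_nonneg_right h5 hp0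
        refine h6.trans (le_of_eq ?_)
        ring
    · rw [if_neg hpF, mul_zero]
      refine add_nonneg (mul_nonneg hZ0 (mul_nonneg (Nat.cast_nonneg _) hp0)) ?_
      refine mul_nonneg hZ₀0 ?_
      split_ifs
      · exact hp0
      · exact le_rfl
  have h4 := mul_le_mul_of_nonneg_left h2 hZ₀0
  linarith

variable {L : Type*} [Field L] [NumberField L] [Algebra K L] [Algebra L M]
  [IsScalarTower K L M] [IsGalois K L]

theorem Fr.restrict {h : Gal(M/K)} {v : HeightOneSpectrum (𝓞 K)} (hv : Fr h v) :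
    Fr (AlgEquiv.restrictNormalHom (F := K) (K₁ := M) L h) v := by
  obtain ⟨P, hP, hPo, hx⟩ := hv
  refine ⟨P.under (𝓞 L), inferInstance, ?_, fun x => ?_⟩
  · refine ⟨?_⟩
    rw [hPo.over, Ideal.under_under]
  · rw [Ideal.mem_comap, map_sub, map_pow]
    have h1 := hx (algebraMap (𝓞 L) (𝓞 M) x)
    have h2 : algebraMap (𝓞 L) (𝓞 M)
        ((AlgEquiv.restrictNormalHom (F := K) (K₁ := M) L h) • x) =
        h • algebraMap (𝓞 L) (𝓞 M) x := by
      apply RingOfIntegers.ext
      exact AlgEquiv.restrictNormal_commutes h L (x : L)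
    rw [h2]
    exact h1

include M in
/-- lower bound -/
theorem exists_lower_tower (g : Gal(L/K)) {ε : ℝ} (hε : 0 < ε) :
    ∃ E : ℝ, ∀ᶠ s in 𝓝[>] (1 : ℝ), (1 - ε) * ell s - E ≤
      (Nat.card (Subgroup.centralizer {g} : Subgroup Gal(L/K)) : ℝ) *
        psum K s (fun v => Deg1 K v ∧ Fr g v) := by
  haveI : IsGalois K M := IsGalois.tower_top_of_isGalois ℚ K M
  haveI : FiniteDimensional K M := Module.Finite.of_restrictScalars_finite ℚ K M
  haveI : FiniteDimensional K L := Module.Finite.of_restrictScalars_finite ℚ K L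
  haveI : Finite Gal(M/K) := inferInstance
  haveI : Finite Gal(L/K) := inferInstance
  haveI := Fintype.ofFinite Gal(M/K)
  set φ : Gal(M/K) →* Gal(L/K) := AlgEquiv.restrictNormalHom (F := K) (K₁ := M) L with hφ
  have hφs : Function.Surjective φ :=
    AlgEquiv.restrictNormalHom_surjective (F := K) (K₁ := L) M
  choose E hE using fun h : Gal(M/K) => exists_lower_M h hε
  obtain ⟨C, hC⟩ := psum_bdd_of_finite (finite_not_good (K := K) (L := M))
  set w : Gal(M/K) → ℝ := fun h => if IsConj g (φ h) then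
    (Nat.card (Subgroup.centralizer {h} : Subgroup Gal(M/K)) : ℝ) else 0 with hw
  have hw0 : ∀ h, 0 ≤ w h := by
    intro h
    rw [hw]
    dsimp only
    split_ifs
    · exact Nat.cast_nonneg _
    · exact le_rfl
  -- the number of elements
  set n : ℕ := Nat.card {h : Gal(M/K) // IsConj g (φ h)} with hn
  set Z : ℕ := Nat.card (Subgroup.centralizer {g} : Subgroup Gal(L/K)) with hZ
  have hnZ : n * Z = Nat.card Gal(M/K) := by
    have h1 := card_preimage φ hφs (fun x => IsConj g x)
    have h2 := card_preimage φ hφs (fun _ => True)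
    rw [Nat.card_congr (Equiv.subtypeUnivEquiv fun _ => trivial),
      Nat.card_congr (Equiv.subtypeUnivEquiv fun _ => trivial)] at h2
    rw [hn, hZ, h1, h2, ← card_class_mul g]
    ring
  have hn0 : 0 < n := by
    rcases Nat.eq_zero_or_pos n with h0 | h0
    · rw [h0, zero_mul] at hnZ
      exact absurd hnZ.symm Nat.card_pos.ne'
    · exact h0
  have hE' : ∀ᶠ s in 𝓝[>] (1 : ℝ), ∀ h : Gal(M/K), (1 - ε) * ell s - E h ≤
      (Nat.card (Subgroup.centralizer {h} : Subgroup Gal(M/K)) : ℝ) *
        psum K s (fun v => Deg1 K v ∧ Fr h v) := eventually_all.mpr hE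
  refine ⟨(∑ h, (if IsConj g (φ h) then E h else 0) + (∑ h, w h) * C) / n, ?_⟩
  filter_upwards [hE', hC, eventually_Ioc] with s h1 h2 hs
  have h3 := sum_psum_le w hw0 (fun h v => Deg1 K v ∧ Fr h v) (fun v => Deg1 K v ∧ Fr g v)
    (fun v => ¬ Good M v) (B := (Nat.card Gal(M/K) : ℝ)) (Nat.cast_nonneg _) (by
      intro v hv
      rw [not_not] at hv
      by_cases hex : ∃ h, IsConj g (φ h) ∧ (Deg1 K v ∧ Fr h v)
      · obtain ⟨h, hc, hd, hf⟩ := hex
        have hg : Fr g v := by
          obtain ⟨c, hc'⟩ := isConj_iff.mp hc.symm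
          rw [← hc']
          exact (Fr.restrict (L := L) hf).conj c
        rw [if_pos ⟨hd, hg⟩]
        refine le_trans (Finset.sum_le_sum fun h _ => ?_)
          (sum_centralizer_le (fun h : Gal(M/K) => Fr h v) fun a b ha hb => ha.isConj hv hb)
        rw [hw]
        dsimp only
        split_ifs with h4 h5 h6 h7
        · exact le_rfl
        · exact absurd h4.2 h6
        · exact Nat.cast_nonneg _
        · exact le_rfl
        · exact Nat.cast_nonneg _
        · exact le_rfl
      · push Not at hex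
        refine le_trans (le_of_eq (Finset.sum_eq_zero fun h _ => ?_)) ?_
        · split_ifs with h4
          · rw [hw]
            dsimp only
            exact if_neg fun h5 => hex h h5 h4.1 h4.2
          · rfl
        split_ifs
        · exact Nat.cast_nonneg _
        · exact le_rfl) hs.1 hs.2
  have h4 : ∑ h : Gal(M/K), (if IsConj g (φ h) then ((1 - ε) * ell s - E h) else 0) ≤
      ∑ h, w h * psum K s (fun v => Deg1 K v ∧ Fr h v) := by
    refine Finset.sum_le_sum fun h _ => ?_
    rw [hw]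
    dsimp only
    split_ifs
    · exact h1 h
    · rw [zero_mul]
  have h5 : ∑ h : Gal(M/K), (if IsConj g (φ h) then ((1 - ε) * ell s - E h) else 0) =
      n * ((1 - ε) * ell s) - ∑ h, (if IsConj g (φ h) then E h else 0) := by
    have e : ∀ h : Gal(M/K), (if IsConj g (φ h) then ((1 - ε) * ell s - E h) else 0) =
        (if IsConj g (φ h) then (1 - ε) * ell s else 0) - (if IsConj g (φ h) then E h else 0) := by
      intro h
      split_ifs <;> ring
    rw [Finset.sum_congr rfl fun h _ => e h, Finset.sum_sub_distrib, ← Finset.sum_filter,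
      Finset.sum_const, nsmul_eq_mul]
    congr 2
    rw [hn, Nat.card_eq_fintype_card, Fintype.card_subtype]
  rw [h5] at h4
  have h6 : (Nat.card Gal(M/K) : ℝ) = n * Z := by exact_mod_cast hnZ.symm
  rw [h6] at h3
  have h7 : 0 ≤ ∑ h, w h := Finset.sum_nonneg fun h _ => hw0 h
  have h8 := mul_le_mul_of_nonneg_left h2 h7
  have hn0' : (0 : ℝ) < n := by exact_mod_cast hn0
  have h9 : (n : ℝ) * ((1 - ε) * ell s -
      (∑ h, (if IsConj g (φ h) then E h else 0) + (∑ h, w h) * C) / n) ≤
      n * (Z * psum K s (fun v => Deg1 K v ∧ Fr g v)) := by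
    have e : (n : ℝ) * ((1 - ε) * ell s -
      (∑ h, (if IsConj g (φ h) then E h else 0) + (∑ h, w h) * C) / n) =
      n * ((1 - ε) * ell s) - (∑ h, (if IsConj g (φ h) then E h else 0) + (∑ h, w h) * C) := by
      field_simp
    rw [e]
    linarith
  exact le_of_mul_le_mul_left h9 hn0'

end lowerM

end

end Fermat.Agent.Cor.Cheb
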