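import Fermat.Agent.Cor.Cheb5

/-!
# Chebotarev's density theorem

`chebotarev` : let `L/ℚ` be a finite Galois extension with group `G` and `g ∈ G`.  The set of the prime
numbers `p` such that `g` is a Frobenius element of some prime of `L` above `p` has Dirichlet density
`|C| / |G|`, where `C` is the conjugacy class of `g`.
-/

set_option autoImplicit false
set_option linter.unusedSectionVars false
set_option linter.style.haveILetI false

open scoped Classical nonZeroDivisors Topology Pointwise

namespace Fermat.Agent.Cor.Cheb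

open NumberField Filter IsDedekindDomain Module IntermediateField Fermat.Agent.CFT Fermat.Agent.H03
  Fermat.Agent.ZC Fermat.Agent.H25 Fermat.Agent.DS Ideal MulAction

noncomputable section

section transport

variable {L L' : Type*} [Field L] [NumberField L] [Field L'] [NumberField L'] (e : L ≃ₐ[ℚ] L')

/-- the isomorphism of the rings of integers -/
def oe : 𝓞 L' →+* 𝓞 L := RingOfIntegers.mapRingHom (e.symm : L' →+* L)

theorem oe_coe (x : 𝓞 L') : ((oe e x : 𝓞 L) : L) = e.symm (x : L') := rfl

theorem isArithFrobAt_comap {g : Gal(L/ℚ)} {P : Ideal (𝓞 L)} (h : IsArithFrobAt ℤ g P) :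
    IsArithFrobAt ℤ (e.autCongr g) (P.comap (oe e)) := by
  intro x
  have h1 := h (oe e x)
  have hu : (P.comap (oe e)).under ℤ = P.under ℤ := by
    rw [Ideal.under, Ideal.under, Ideal.comap_comap]
    congr 1
    exact Subsingleton.elim _ _
  rw [hu, Ideal.mem_comap, map_sub, map_pow]
  have h2 : oe e (MulSemiringAction.toAlgHom ℤ (𝓞 L') (e.autCongr g) x) =
      MulSemiringAction.toAlgHom ℤ (𝓞 L) g (oe e x) := by
    apply RingOfIntegers.ext
    change e.symm (e (g (e.symm (x : L')))) = g (e.symm (x : L'))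
    rw [AlgEquiv.symm_apply_apply]
  rw [h2]
  exact h1

theorem liesOver_comap {p : ℕ} {P : Ideal (𝓞 L)} (h : P.LiesOver (span {(p : ℤ)})) :
    (P.comap (oe e)).LiesOver (span {(p : ℤ)}) := by
  refine ⟨?_⟩
  rw [h.over, Ideal.under, Ideal.under, Ideal.comap_comap]
  congr 1
  exact Subsingleton.elim _ _

theorem frobSet_subset [IsGalois ℚ L] [IsGalois ℚ L'] (g : Gal(L/ℚ)) :
    FrobSet g ⊆ FrobSet (e.autCongr g) := by
  rintro p ⟨P, hP, hPo, hφ⟩
  exact ⟨P.comap (oe e), inferInstance, liesOver_comap e hPo, isArithFrobAt_comap e hφ⟩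

theorem frobSet_transport [IsGalois ℚ L] [IsGalois ℚ L'] (g : Gal(L/ℚ)) :
    FrobSet (e.autCongr g) = FrobSet g := by
  refine Set.Subset.antisymm ?_ (frobSet_subset e g)
  have h := frobSet_subset e.symm (e.autCongr g)
  have h2 : e.symm.autCongr (e.autCongr g) = g := by
    ext x
    simp
  rwa [h2] at h

end transport

/-- `|C| |Z(g)| = |G|`. -/
theorem card_class_mul {G : Type*} [Group G] [Finite G] (g : G) :
    Nat.card {h : G // IsConj g h} * Nat.card (Subgroup.centralizer {g} : Subgroup G) =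
      Nat.card G := by
  have h1 : Nat.card {h : G // IsConj g h} = Nat.card (MulAction.orbit (ConjAct G) g) := by
    refine Nat.card_congr (Equiv.subtypeEquivRight fun h => ?_)
    rw [ConjAct.mem_orbit_conjAct, isConj_comm]
  rw [h1, Subgroup.nat_card_centralizer_nat_card_stabilizer, ← Nat.card_prod,
    Nat.card_congr (MulAction.orbitProdStabilizerEquivGroup (ConjAct G) g)]
  exact Nat.card_congr ConjAct.ofConjAct.toEquiv

/-- **Chebotarev's density theorem** over `ℚ` (Dirichlet density). -/
theorem chebotarev (L : Type*) [Field L] [NumberField L] [IsGalois ℚ L] (g : Gal(L/ℚ)) :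
    Tendsto (fun s : ℝ =>
      (∑' p : Nat.Primes, if (∃ P : Ideal (𝓞 L), P.IsPrime ∧
        P.LiesOver (Ideal.span {((p : ℕ) : ℤ)}) ∧ IsArithFrobAt ℤ g P) then
          1 / ((p : ℕ) : ℝ) ^ s else 0) / ∑' p : Nat.Primes, 1 / ((p : ℕ) : ℝ) ^ s)
      (𝓝[>] 1) (𝓝 ((Nat.card {h : Gal(L/ℚ) // IsConj g h} : ℝ) / Nat.card Gal(L/ℚ))) := by
  let i : L →ₐ[ℚ] Qb := IsAlgClosed.lift
  let F : IntermediateField ℚ Qb := i.fieldRange
  let e : L ≃ₐ[ℚ] F := AlgEquiv.ofInjectiveField i
  haveI : FiniteDimensional ℚ F := Module.Finite.equiv e.toLinearEquiv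
  haveI : NumberField F := { to_charZero := inferInstance, to_finiteDimensional := inferInstance }
  haveI : IsGalois ℚ F := IsGalois.of_algEquiv e
  have h := tendsto_class F (e.autCongr g)
  have hz : (1 : ℝ) / (Nat.card (Subgroup.centralizer {e.autCongr g} : Subgroup Gal(F/ℚ)) : ℝ) =
      (Nat.card {h : Gal(L/ℚ) // IsConj g h} : ℝ) / Nat.card Gal(L/ℚ) := by
    have h1 : Nat.card (Subgroup.centralizer {e.autCongr g} : Subgroup Gal(F/ℚ)) =
        Nat.card (Subgroup.centralizer {g} : Subgroup Gal(L/ℚ)) := by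
      refine (Nat.card_congr (e.autCongr.toEquiv.subtypeEquiv fun x => ?_)).symm
      rw [Subgroup.mem_centralizer_singleton_iff, Subgroup.mem_centralizer_singleton_iff]
      change _ ↔ e.autCongr x * e.autCongr g = e.autCongr g * e.autCongr x
      rw [← map_mul, ← map_mul, e.autCongr.injective.eq_iff]
    have h2 := card_class_mul g
    have h3 : (Nat.card (Subgroup.centralizer {g} : Subgroup Gal(L/ℚ)) : ℝ) ≠ 0 := by
      exact_mod_cast Nat.card_pos.ne'
    have h4 : (Nat.card Gal(L/ℚ) : ℝ) ≠ 0 := by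
      exact_mod_cast Nat.card_pos.ne'
    rw [h1, div_eq_div_iff h3 h4, one_mul]
    exact_mod_cast h2.symm
  rw [hz, frobSet_transport e g] at h
  refine h.congr fun s => ?_
  rw [qsum, qsum]
  simp only [Set.mem_univ, if_true]
  rfl

end

end Fermat.Agent.Cor.Cheb
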