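import Fermat.Agent.Cor.Cheb8

/-!
# Chebotarev's density theorem for number fields

`chebotarev_general` : let `L/K` be a finite Galois extension of number fields with group `G`, and
`g ∈ G`.  The set of the primes `v` of `K` such that `g` is a Frobenius element at some prime `P` of
`L` above `v` (i.e. `g x ≡ x ^ N v mod P` for all `x`) has Dirichlet density `|C| / |G|`, where `C` is
the conjugacy class of `g`.
-/

set_option autoImplicit false
set_option linter.unusedSectionVars false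
set_option linter.style.haveILetI false

open scoped Classical nonZeroDivisors Topology Pointwise

namespace Fermat.Agent.Cor.Cheb

open NumberField Filter IsDedekindDomain Module IntermediateField Fermat.Agent.CFT Fermat.Agent.H03
  Fermat.Agent.ZC Fermat.Agent.H25 Fermat.Agent.DS Ideal MulAction

noncomputable section

/-- a number field is contained in a number field which is Galois over `ℚ`. -/
theorem exists_galois_closure (L : Type*) [Field L] [NumberField L] :
    ∃ (M : Type) (_ : Field M) (_ : NumberField M) (_ : Algebra L M), IsGalois ℚ M := by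
  let i : L →ₐ[ℚ] Qb := IsAlgClosed.lift
  let F : IntermediateField ℚ Qb := i.fieldRange
  let e : L ≃ₐ[ℚ] F := AlgEquiv.ofInjectiveField i
  haveI : FiniteDimensional ℚ F := Module.Finite.equiv e.toLinearEquiv
  haveI : IsGalois ℚ Qb := H51.isGalois_Qbar
  let N : IntermediateField ℚ Qb := IntermediateField.normalClosure ℚ F Qb
  haveI : FiniteDimensional ℚ N := normalClosure.is_finiteDimensional ℚ F Qb
  haveI : Normal ℚ N := normalClosure.normal ℚ F Qb
  haveI : NumberField N := { to_charZero := inferInstance, to_finiteDimensional := inferInstance }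
  refine ⟨N, inferInstance, inferInstance,
    ((inclusion F.le_normalClosure).toRingHom.comp (e : L →+* F)).toAlgebra, ?_⟩
  exact { to_isSeparable := inferInstance, to_normal := inferInstance }

variable {K L : Type*} [Field K] [NumberField K] [Field L] [NumberField L] [Algebra K L]
  [IsGalois K L]

theorem exists_lower_L (g : Gal(L/K)) {ε : ℝ} (hε : 0 < ε) :
    ∃ E : ℝ, ∀ᶠ s in 𝓝[>] (1 : ℝ), (1 - ε) * ell s - E ≤
      (Nat.card (Subgroup.centralizer {g} : Subgroup Gal(L/K)) : ℝ) *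
        psum K s (fun v => Deg1 K v ∧ Fr g v) := by
  obtain ⟨M, _, _, _, _⟩ := exists_galois_closure L
  letI : Algebra K M := ((algebraMap L M).comp (algebraMap K L)).toAlgebra
  haveI : IsScalarTower K L M := IsScalarTower.of_algebraMap_eq fun x => rfl
  exact exists_lower_tower (M := M) g hε

variable (K) in
theorem psum_true_bound : ∃ C : ℝ, ∀ᶠ s in 𝓝[>] (1 : ℝ),
    |psum K s (fun _ => True) - ell s| ≤ C := by
  obtain ⟨U, hU⟩ := exists_upper K
  obtain ⟨V, hV⟩ := exists_lower K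
  refine ⟨|U| + |V|, ?_⟩
  filter_upwards [hU, hV, eventually_Ioc] with s h1 h2 hs
  have h3 : psum K s (fun _ => True) = ∑' v : HeightOneSpectrum (𝓞 K), nrm K s v.asIdeal := by
    rw [psum]
    exact tsum_congr fun v => if_pos trivial
  have h4 : psum K s (Deg1 K) ≤ psum K s (fun _ => True) :=
    psum_mono hs.1 hs.2 fun _ _ => trivial
  rw [abs_le]
  have h5 := le_abs_self U
  have h6 := le_abs_self V
  have h7 := abs_nonneg U
  have h8 := abs_nonneg V
  rw [← h3] at h1
  constructor <;> linarith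

variable (K L) in
theorem exists_upper_sum_L [Fintype Gal(L/K)] : ∃ C : ℝ, ∀ᶠ s in 𝓝[>] (1 : ℝ),
    ∑ g : Gal(L/K), (Nat.card (Subgroup.centralizer {g} : Subgroup Gal(L/K)) : ℝ) *
      psum K s (Fr g) ≤ Nat.card Gal(L/K) * ell s + C := by
  obtain ⟨U, hU⟩ := psum_true_bound K
  obtain ⟨C, hC⟩ := psum_bdd_of_finite (finite_not_good (K := K) (L := L))
  set W : ℝ := ∑ g : Gal(L/K), (Nat.card (Subgroup.centralizer {g} : Subgroup Gal(L/K)) : ℝ)
    with hW
  have hW0 : 0 ≤ W := Finset.sum_nonneg fun g _ => Nat.cast_nonneg _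
  refine ⟨Nat.card Gal(L/K) * U + W * C, ?_⟩
  filter_upwards [hU, hC, eventually_Ioc] with s h1 h2 hs
  have h3 := sum_psum_le
    (fun g : Gal(L/K) => (Nat.card (Subgroup.centralizer {g} : Subgroup Gal(L/K)) : ℝ))
    (fun g => Nat.cast_nonneg _) (fun g v => Fr g v) (fun _ => True) (fun v => ¬ Good L v)
    (B := (Nat.card Gal(L/K) : ℝ)) (Nat.cast_nonneg _) (by
      intro v hv
      rw [not_not] at hv
      rw [if_pos trivial]
      exact sum_centralizer_le (fun g : Gal(L/K) => Fr g v) fun a b ha hb => ha.isConj hv hb)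
    hs.1 hs.2
  have h4 : psum K s (fun _ => True) ≤ ell s + U := by linarith [(abs_le.mp h1).2]
  have h5 := mul_le_mul_of_nonneg_left h4 (Nat.cast_nonneg (α := ℝ) (Nat.card Gal(L/K)))
  have h6 := mul_le_mul_of_nonneg_left h2 hW0
  have h7 : ∑ g : Gal(L/K), (Nat.card (Subgroup.centralizer {g} : Subgroup Gal(L/K)) : ℝ) *
      psum K s (Fr g) ≤ (Nat.card Gal(L/K) : ℝ) * psum K s (fun _ => True) +
        W * psum K s (fun v => ¬ Good L v) := h3
  linarith

theorem exists_upper_L (g : Gal(L/K)) {ε : ℝ} (hε : 0 < ε) :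
    ∃ E : ℝ, ∀ᶠ s in 𝓝[>] (1 : ℝ),
      (Nat.card (Subgroup.centralizer {g} : Subgroup Gal(L/K)) : ℝ) * psum K s (Fr g) ≤
        (1 + ε) * ell s + E := by
  haveI : FiniteDimensional K L := Module.Finite.of_restrictScalars_finite ℚ K L
  haveI : Finite Gal(L/K) := inferInstance
  haveI := Fintype.ofFinite Gal(L/K)
  have hG0 : (0 : ℝ) < Nat.card Gal(L/K) := by exact_mod_cast Nat.card_pos
  set δ : ℝ := ε / Nat.card Gal(L/K) with hδ
  have hδ0 : 0 < δ := div_pos hε hG0
  choose E hE using fun h : Gal(L/K) => exists_lower_L h hδ0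
  obtain ⟨C, hC⟩ := exists_upper_sum_L K L
  have hE' : ∀ᶠ s in 𝓝[>] (1 : ℝ), ∀ h : Gal(L/K), (1 - δ) * ell s - E h ≤
      (Nat.card (Subgroup.centralizer {h} : Subgroup Gal(L/K)) : ℝ) *
        psum K s (fun v => Deg1 K v ∧ Fr h v) := eventually_all.mpr hE
  refine ⟨C + ∑ h ∈ Finset.univ.erase g, E h, ?_⟩
  filter_upwards [hE', hC, tendsto_ell.eventually_ge_atTop 0, eventually_Ioc] with s h1 h2 hell hs
  rw [← Finset.add_sum_erase _ _ (Finset.mem_univ g)] at h2
  have h3 : ∑ h ∈ Finset.univ.erase g, ((1 - δ) * ell s - E h) ≤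
      ∑ h ∈ Finset.univ.erase g, (Nat.card (Subgroup.centralizer {h} : Subgroup Gal(L/K)) : ℝ) *
        psum K s (Fr h) := by
    refine Finset.sum_le_sum fun h _ => (h1 h).trans ?_
    refine mul_le_mul_of_nonneg_left ?_ (Nat.cast_nonneg _)
    exact psum_mono hs.1 hs.2 fun v hv => hv.2
  rw [Finset.sum_sub_distrib, Finset.sum_const, nsmul_eq_mul] at h3
  have h4 : ((Finset.univ.erase g).card : ℝ) = Nat.card Gal(L/K) - 1 := by
    rw [Finset.card_erase_of_mem (Finset.mem_univ g), Finset.card_univ,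
      Nat.cast_sub Fintype.card_pos, Nat.card_eq_fintype_card, Nat.cast_one]
  rw [h4] at h3
  have h5 : (Nat.card Gal(L/K) : ℝ) * δ = ε := by
    rw [hδ]
    field_simp
  have h6 : ((Nat.card Gal(L/K) : ℝ) - 1) * ((1 - δ) * ell s) =
      Nat.card Gal(L/K) * ell s - ell s - (Nat.card Gal(L/K) * δ) * ell s + δ * ell s := by
    ring
  rw [h6, h5] at h3
  have h7 : 0 ≤ δ * ell s := mul_nonneg hδ0.le hell
  linarith

/-- the density, squeezed between the bounds -/
theorem tendsto_of_bounds {f t : ℝ → ℝ} {Z : ℝ} (hZ0 : 0 < Z)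
    (hlow : ∀ ε : ℝ, 0 < ε → ∃ E : ℝ, ∀ᶠ s in 𝓝[>] (1 : ℝ), (1 - ε) * ell s - E ≤ Z * f s)
    (hup : ∀ ε : ℝ, 0 < ε → ∃ E : ℝ, ∀ᶠ s in 𝓝[>] (1 : ℝ), Z * f s ≤ (1 + ε) * ell s + E)
    (ht : ∃ C : ℝ, ∀ᶠ s in 𝓝[>] (1 : ℝ), |t s - ell s| ≤ C) :
    Tendsto (fun s : ℝ => f s / t s) (𝓝[>] 1) (𝓝 (1 / Z)) := by
  have h1 : Tendsto (fun s : ℝ => Z * f s / ell s) (𝓝[>] 1) (𝓝 1) := by
    rw [Metric.tendsto_nhds]
    intro ε hε
    obtain ⟨E₁, hE₁⟩ := hlow (ε / 4) (by positivity)
    obtain ⟨E₂, hE₂⟩ := hup (ε / 4) (by positivity)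
    filter_upwards [hE₁, hE₂, tendsto_ell.eventually_gt_atTop 0,
      tendsto_ell.eventually_gt_atTop (4 * (|E₁| + |E₂|) / ε)] with s h1 h2 h3 h4
    rw [Real.dist_eq, abs_lt]
    have h5 : 4 * (|E₁| + |E₂|) < ell s * ε := by rwa [div_lt_iff₀ hε] at h4
    have h6 := le_abs_self E₁
    have h7 := le_abs_self E₂
    have h8 := abs_nonneg E₁
    have h9 := abs_nonneg E₂
    constructor
    · rw [lt_sub_iff_add_lt, lt_div_iff₀ h3]
      nlinarith
    · rw [sub_lt_iff_lt_add, div_lt_iff₀ h3]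
      nlinarith
  have h2 : Tendsto (fun s : ℝ => t s / ell s) (𝓝[>] 1) (𝓝 1) := by
    obtain ⟨C, hC⟩ := ht
    rw [Metric.tendsto_nhds]
    intro ε hε
    filter_upwards [hC, tendsto_ell.eventually_gt_atTop 0,
      tendsto_ell.eventually_gt_atTop (C / ε)] with s h1 h3 h4
    rw [Real.dist_eq, div_sub_one h3.ne', abs_div, abs_of_pos h3, div_lt_iff₀ h3]
    rw [div_lt_iff₀ hε] at h4
    rw [mul_comm]
    exact h1.trans_lt h4
  have h3 := (h1.div h2 one_ne_zero).const_mul (1 / Z)
  rw [div_one, mul_one] at h3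
  refine h3.congr' ?_
  filter_upwards [tendsto_ell.eventually_gt_atTop 0] with s hs
  simp only [Pi.div_apply]
  rw [div_div_div_cancel_right₀ hs.ne', ← mul_div_assoc, ← mul_assoc, one_div,
    inv_mul_cancel₀ hZ0.ne', one_mul]

theorem one_div_centralizer {G : Type*} [Group G] [Finite G] (g : G) :
    (1 : ℝ) / (Nat.card (Subgroup.centralizer {g} : Subgroup G) : ℝ) =
      (Nat.card {h : G // IsConj g h} : ℝ) / Nat.card G := by
  have h2 := card_class_mul g
  have h3 : (Nat.card (Subgroup.centralizer {g} : Subgroup G) : ℝ) ≠ 0 := by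
    exact_mod_cast Nat.card_pos.ne'
  have h4 : (Nat.card G : ℝ) ≠ 0 := by
    exact_mod_cast Nat.card_pos.ne'
  rw [div_eq_div_iff h3 h4, one_mul]
  exact_mod_cast h2.symm

/-- **Chebotarev's density theorem**, for a finite Galois extension of number fields
(Dirichlet density). -/
theorem chebotarev_general (K L : Type*) [Field K] [NumberField K] [Field L] [NumberField L]
    [Algebra K L] [IsGalois K L] (g : Gal(L/K)) :
    Tendsto (fun s : ℝ =>
      (∑' v : HeightOneSpectrum (𝓞 K), if (∃ P : Ideal (𝓞 L), P.IsPrime ∧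
        P.LiesOver v.asIdeal ∧ ∀ x : 𝓞 L, g • x - x ^ absNorm v.asIdeal ∈ P) then
          (absNorm v.asIdeal : ℝ) ^ (-s) else 0) /
        ∑' v : HeightOneSpectrum (𝓞 K), (absNorm v.asIdeal : ℝ) ^ (-s))
      (𝓝[>] 1) (𝓝 ((Nat.card {h : Gal(L/K) // IsConj g h} : ℝ) / Nat.card Gal(L/K))) := by
  haveI : FiniteDimensional K L := Module.Finite.of_restrictScalars_finite ℚ K L
  haveI : Finite Gal(L/K) := inferInstance
  rw [← one_div_centralizer g]
  have h := tendsto_of_bounds (f := fun s => psum K s (Fr g)) (t := fun s => psum K s fun _ => True)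
    (Z := (Nat.card (Subgroup.centralizer {g} : Subgroup Gal(L/K)) : ℝ))
    (by exact_mod_cast Nat.card_pos)
    (fun ε hε => by
      obtain ⟨E, hE⟩ := exists_lower_L g hε
      refine ⟨E, ?_⟩
      filter_upwards [hE, eventually_Ioc] with s h1 hs
      refine h1.trans (mul_le_mul_of_nonneg_left ?_ (Nat.cast_nonneg _))
      exact psum_mono hs.1 hs.2 fun v hv => hv.2)
    (fun ε hε => exists_upper_L g hε) (psum_true_bound K)
  refine h.congr fun s => ?_
  rw [psum, psum]
  simp only [if_true]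
  rfl

/-- the same with degree one primes only -/
theorem chebotarev_deg_one (K L : Type*) [Field K] [NumberField K] [Field L] [NumberField L]
    [Algebra K L] [IsGalois K L] (g : Gal(L/K)) :
    {v : HeightOneSpectrum (𝓞 K) | (absNorm v.asIdeal).Prime ∧ ∃ P : Ideal (𝓞 L), P.IsPrime ∧
        P.LiesOver v.asIdeal ∧ ∀ x : 𝓞 L, g • x - x ^ absNorm v.asIdeal ∈ P}.Infinite := by
  intro hfin
  obtain ⟨C, hC⟩ := psum_bdd_of_finite (K := K) (Z := fun v => Deg1 K v ∧ Fr g v) hfin
  obtain ⟨E, hE⟩ := exists_lower_L g (ε := 1 / 2) (by norm_num)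
  have h1 : ∀ᶠ s in 𝓝[>] (1 : ℝ), ell s ≤ 2 *
      ((Nat.card (Subgroup.centralizer {g} : Subgroup Gal(L/K)) : ℝ) * C + E) := by
    filter_upwards [hC, hE] with s h1 h2
    have h4 := mul_le_mul_of_nonneg_left h1 (Nat.cast_nonneg (α := ℝ)
      (Nat.card (Subgroup.centralizer {g} : Subgroup Gal(L/K))))
    linarith
  obtain ⟨s, h2, h3⟩ := (h1.and (tendsto_ell.eventually_gt_atTop (2 *
      ((Nat.card (Subgroup.centralizer {g} : Subgroup Gal(L/K)) : ℝ) * C + E)))).exists
  linarith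

end

end Fermat.Agent.Cor.Cheb
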