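import Fermat.Agent.Cor.FrobDense

/-!
# Chebotarev's theorem for unions of conjugacy classes, over an arbitrary number field

`chebotarev_set` : let `L/K` be a finite Galois extension of number fields, `C` a subset of its Galois
group and `S` a set of primes of `K` such that `v ∈ S` iff `Frob_v ∈ C`, with finitely many exceptions.
Then `S` has Dirichlet density `|C| / |Gal(L/K)|`.
-/

set_option autoImplicit false
set_option linter.unusedSectionVars false
set_option linter.style.haveILetI false

open scoped Classical nonZeroDivisors Topology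

namespace Fermat.Agent.Cor.Cheb

open NumberField Filter IsDedekindDomain Module Ideal

noncomputable section

/-- **Chebotarev's density theorem for sets of Frobenius elements** -/
theorem chebotarev_set (K L : Type*) [Field K] [NumberField K] [Field L] [NumberField L]
    [Algebra K L] [IsGalois K L] (C : Set Gal(L/K)) (S : Set (HeightOneSpectrum (𝓞 K)))
    (Z : Set (HeightOneSpectrum (𝓞 K))) (hZ : Z.Finite)
    (hS : ∀ v ∉ Z, ∀ (g : Gal(L/K)) (P : Ideal (𝓞 L)), P.IsPrime → P.LiesOver v.asIdeal →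
      (∀ x : 𝓞 L, g • x - x ^ absNorm v.asIdeal ∈ P) → (v ∈ S ↔ g ∈ C)) :
    Tendsto (fun s : ℝ =>
      (∑' v : HeightOneSpectrum (𝓞 K), if v ∈ S then (absNorm v.asIdeal : ℝ) ^ (-s) else 0) /
        ∑' v : HeightOneSpectrum (𝓞 K), (absNorm v.asIdeal : ℝ) ^ (-s))
      (𝓝[>] 1) (𝓝 ((Nat.card C : ℝ) / Nat.card Gal(L/K))) := by
  haveI : FiniteDimensional K L := Module.Finite.of_restrictScalars_finite ℚ K L
  haveI : Finite Gal(L/K) := inferInstance
  haveI := Fintype.ofFinite Gal(L/K)
  have h := equidistribution K L (fun g => if g ∈ C then 1 else 0)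
    (fun v => if v ∈ S then 1 else 0) Z hZ (fun v hv g P hP hPo hx => by
      by_cases h1 : g ∈ C
      · rw [if_pos h1, if_pos ((hS v hv g P hP hPo hx).mpr h1)]
      · rw [if_neg h1, if_neg fun h2 => h1 ((hS v hv g P hP hPo hx).mp h2)])
  have h1 := (Complex.continuous_re.tendsto _).comp h
  have e1 : ((∑ g : Gal(L/K), (if g ∈ C then (1 : ℂ) else 0)) / (Nat.card Gal(L/K) : ℂ)).re =
      (Nat.card C : ℝ) / Nat.card Gal(L/K) := by
    have e2 : ∑ g : Gal(L/K), (if g ∈ C then (1 : ℂ) else 0) = ((Nat.card C : ℝ) : ℂ) := by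
      rw [Finset.sum_boole, Nat.card_eq_fintype_card, Fintype.card_subtype, Complex.ofReal_natCast]
    rw [e2, ← Complex.ofReal_natCast (Nat.card Gal(L/K)), ← Complex.ofReal_div, Complex.ofReal_re]
  rw [e1] at h1
  refine h1.congr fun s => ?_
  have e3 : ∑' v : HeightOneSpectrum (𝓞 K),
      (if v ∈ S then (1 : ℂ) else 0) * (((absNorm v.asIdeal : ℝ) ^ (-s) : ℝ) : ℂ) =
      ((∑' v : HeightOneSpectrum (𝓞 K), if v ∈ S then (absNorm v.asIdeal : ℝ) ^ (-s) else 0 : ℝ) :
        ℂ) := by
    rw [Complex.ofReal_tsum]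
    refine tsum_congr fun v => ?_
    split_ifs
    · rw [one_mul]
    · rw [zero_mul, Complex.ofReal_zero]
  simp only [Function.comp_apply]
  rw [e3, ← Complex.ofReal_div, Complex.ofReal_re]

end

end Fermat.Agent.Cor.Cheb
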