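import Fermat.Agent.Cor.ChebotarevDens

/-!
# Density zero, and counting matrices

* `HasDensity.zero_of_forall` : a set contained in sets of arbitrarily small density has density zero;
* `card_trace_le`, `card_GL2`, `card_trace_zero` : counting the matrices in `GL₂(𝔽_p)` with given trace.
-/

set_option autoImplicit false
set_option linter.unusedSectionVars false
set_option linter.style.haveILetI false

open scoped Classical nonZeroDivisors Topology

namespace Fermat.Agent.Cor.Cheb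

open Filter Fermat.Agent.H03 Fermat.Agent.ZC Fermat.Agent.CFT

theorem qsum_mono {S T : Set ℕ} (h : S ⊆ T) {s : ℝ} (hs : 1 < s) : qsum S s ≤ qsum T s := by
  rw [qsum, qsum]
  refine Summable.tsum_le_tsum (fun p => ?_) (summable_qsum S hs) (summable_qsum T hs)
  have h0 : 0 ≤ 1 / ((p : ℕ) : ℝ) ^ s := by positivity
  by_cases h1 : (p : ℕ) ∈ S
  · rw [if_pos h1, if_pos (h h1)]
  · rw [if_neg h1]
    split_ifs
    · exact h0
    · exact le_rfl

theorem qsum_nonneg (S : Set ℕ) (s : ℝ) : 0 ≤ qsum S s := by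
  refine tsum_nonneg fun p => ?_
  split_ifs
  · positivity
  · exact le_rfl

theorem HasDensity.zero_of_forall {S : Set ℕ}
    (h : ∀ ε : ℝ, 0 < ε → ∃ (T : Set ℕ) (δ : ℝ), HasDensity T δ ∧ δ < ε ∧ S ⊆ T) :
    HasDensity S 0 := by
  rw [hasDensity_iff, Metric.tendsto_nhds]
  intro ε hε
  obtain ⟨T, δ, hT, hδ, hST⟩ := h ε hε
  rw [hasDensity_iff] at hT
  filter_upwards [hT.eventually (gt_mem_nhds hδ), eventually_Ioc] with s hs hs1
  rw [Real.dist_eq, sub_zero, abs_of_nonneg (div_nonneg (qsum_nonneg _ _) (qsum_nonneg _ _))]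
  refine lt_of_le_of_lt ?_ hs
  exact div_le_div_of_nonneg_right (qsum_mono hST hs1.1) (qsum_nonneg _ _)

section count

variable (p : ℕ) [hp : Fact p.Prime]

theorem card_GL2 : Nat.card (Matrix.GeneralLinearGroup (Fin 2) (ZMod p)) =
    (p ^ 2 - 1) * (p ^ 2 - p) := by
  rw [Matrix.card_GL_field, Fin.prod_univ_two, ZMod.card]
  simp

theorem card_trace_le (t : ZMod p) :
    Nat.card {M : Matrix.GeneralLinearGroup (Fin 2) (ZMod p) //
      (M : Matrix (Fin 2) (Fin 2) (ZMod p)).trace = t} ≤ p ^ 3 := by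
  have h : Nat.card (ZMod p × ZMod p × ZMod p) = p ^ 3 := by
    rw [Nat.card_prod, Nat.card_prod, Nat.card_zmod]
    ring
  rw [← h]
  refine Nat.card_le_card_of_injective (fun M => (M.1.1 0 0, M.1.1 0 1, M.1.1 1 0)) ?_
  rintro ⟨M, hM⟩ ⟨N, hN⟩ hMN
  have h1 : M.1 0 0 = N.1 0 0 := congrArg Prod.fst hMN
  have h2 : M.1 0 1 = N.1 0 1 := congrArg (fun z => z.2.1) hMN
  have h3 : M.1 1 0 = N.1 1 0 := congrArg (fun z => z.2.2) hMN
  rw [Matrix.trace_fin_two] at hM hN
  have h4 : M.1 1 1 = N.1 1 1 := by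
    have h5 := hM.trans hN.symm
    rw [h1] at h5
    exact add_left_cancel h5
  apply Subtype.ext
  apply Units.ext
  ext i j
  fin_cases i <;> fin_cases j
  · exact h1
  · exact h2
  · exact h3
  · exact h4

/-- the proportion of matrices with trace `t` is small -/
theorem ratio_le (hp2 : 2 < p) (t : ZMod p) :
    (Nat.card {M : Matrix.GeneralLinearGroup (Fin 2) (ZMod p) //
      (M : Matrix (Fin 2) (Fin 2) (ZMod p)).trace = t} : ℝ) /
      Nat.card (Matrix.GeneralLinearGroup (Fin 2) (ZMod p)) ≤ 4 / p := by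
  have h1 := card_trace_le p t
  have hp1 : (3 : ℝ) ≤ p := by exact_mod_cast hp2
  have hp0 : (0 : ℝ) < p := by linarith
  have h2 : ((Nat.card (Matrix.GeneralLinearGroup (Fin 2) (ZMod p)) : ℕ) : ℝ) =
      ((p : ℝ) ^ 2 - 1) * ((p : ℝ) ^ 2 - p) := by
    rw [card_GL2]
    have h3 : 1 ≤ p ^ 2 := Nat.one_le_pow _ _ (by omega)
    have h4 : p ≤ p ^ 2 := Nat.le_self_pow (by norm_num) p
    push_cast [Nat.cast_sub h3, Nat.cast_sub h4]
    ring
  have h3 : (p : ℝ) ^ 4 / 4 ≤ ((p : ℝ) ^ 2 - 1) * ((p : ℝ) ^ 2 - p) := by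
    have h5 : (p : ℝ) ^ 2 / 2 ≤ (p : ℝ) ^ 2 - 1 := by nlinarith
    have h6 : (p : ℝ) ^ 2 / 2 ≤ (p : ℝ) ^ 2 - p := by nlinarith
    calc (p : ℝ) ^ 4 / 4 = ((p : ℝ) ^ 2 / 2) * ((p : ℝ) ^ 2 / 2) := by ring
      _ ≤ _ := mul_le_mul h5 h6 (by positivity) (by nlinarith)
  have h4 : (0 : ℝ) < ((p : ℝ) ^ 2 - 1) * ((p : ℝ) ^ 2 - p) := lt_of_lt_of_le (by positivity) h3
  rw [h2, div_le_div_iff₀ h4 hp0]
  have h5 : (Nat.card {M : Matrix.GeneralLinearGroup (Fin 2) (ZMod p) //
      (M : Matrix (Fin 2) (Fin 2) (ZMod p)).trace = t} : ℝ) ≤ (p : ℝ) ^ 3 := by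
    exact_mod_cast h1
  calc _ ≤ (p : ℝ) ^ 3 * p := mul_le_mul_of_nonneg_right h5 hp0.le
    _ = 4 * ((p : ℝ) ^ 4 / 4) := by ring
    _ ≤ _ := mul_le_mul_of_nonneg_left h3 (by norm_num)

theorem card_trace_eq_sum (t : ZMod p) :
    Nat.card {M : Matrix.GeneralLinearGroup (Fin 2) (ZMod p) //
      (M : Matrix (Fin 2) (Fin 2) (ZMod p)).trace = t} =
    ∑ a : ZMod p, ∑ b : ZMod p, (if b = 0 then (if a * (t - a) = 0 then 0 else p) else p - 1) := by
  have e : {M : Matrix.GeneralLinearGroup (Fin 2) (ZMod p) //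
      (M : Matrix (Fin 2) (Fin 2) (ZMod p)).trace = t} ≃
      (Σ a : ZMod p, Σ b : ZMod p, {c : ZMod p // a * (t - a) - b * c ≠ 0}) :=
    { toFun := fun M => ⟨M.1.1 0 0, M.1.1 0 1, M.1.1 1 0, by
        have h1 := M.2
        rw [Matrix.trace_fin_two] at h1
        have h2 : M.1.1 1 1 = t - M.1.1 0 0 := eq_sub_of_add_eq' h1
        rw [← h2, ← Matrix.det_fin_two]
        exact ((Matrix.isUnit_iff_isUnit_det _).mp M.1.isUnit).ne_zero⟩
      invFun := fun q => ⟨Matrix.GeneralLinearGroup.mkOfDetNeZero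
        !![q.1, q.2.1; q.2.2.1, t - q.1] (by
          rw [Matrix.det_fin_two_of]
          exact q.2.2.2), by
          change Matrix.trace !![q.1, q.2.1; q.2.2.1, t - q.1] = t
          rw [Matrix.trace_fin_two_of]
          ring⟩
      left_inv := by
        rintro ⟨M, hM⟩
        apply Subtype.ext
        apply Units.ext
        change !![M.1 0 0, M.1 0 1; M.1 1 0, t - M.1 0 0] = M.1
        have h1 := hM
        rw [Matrix.trace_fin_two] at h1
        have h2 : M.1 1 1 = t - M.1 0 0 := eq_sub_of_add_eq' h1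
        rw [← h2]
        exact (Matrix.eta_fin_two M.1).symm
      right_inv := by
        rintro ⟨a, b, c, h⟩
        rfl }
  rw [Nat.card_congr e, Nat.card_eq_fintype_card, Fintype.card_sigma]
  refine Finset.sum_congr rfl fun a _ => ?_
  rw [Fintype.card_sigma]
  refine Finset.sum_congr rfl fun b _ => ?_
  split_ifs with hb ha
  · have key : ∀ x : ZMod p, a * (t - a) - b * x = a * (t - a) := fun x => by
      rw [hb, zero_mul, sub_zero]
    rw [Fintype.card_eq_zero_iff]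
    exact ⟨fun c => c.2 ((key _).trans ha)⟩
  · have key : ∀ x : ZMod p, a * (t - a) - b * x = a * (t - a) := fun x => by
      rw [hb, zero_mul, sub_zero]
    exact (Fintype.card_congr (Equiv.subtypeUnivEquiv fun c => by
      rw [key c]; exact ha)).trans (ZMod.card p)
  · have h1 : ∀ c : ZMod p, a * (t - a) - b * c ≠ 0 ↔ c ≠ a * (t - a) / b := by
      intro c
      rw [Ne, Ne, sub_eq_zero, eq_div_iff hb, eq_comm, mul_comm b c]
    rw [Fintype.card_congr (Equiv.subtypeEquivRight h1)]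
    have h2 := Fintype.card_subtype_compl (fun c : ZMod p => c = a * (t - a) / b)
    rw [Fintype.card_subtype_eq, ZMod.card] at h2
    exact h2

theorem card_trace_zero : Nat.card {M : Matrix.GeneralLinearGroup (Fin 2) (ZMod p) //
      (M : Matrix (Fin 2) (Fin 2) (ZMod p)).trace = 0} = p ^ 2 * (p - 1) := by
  rw [card_trace_eq_sum]
  have h1 : ∀ a : ZMod p, ∑ b : ZMod p,
      (if b = 0 then (if a * (0 - a) = 0 then 0 else p) else p - 1) =
      (if a = 0 then 0 else p) + (p - 1) * (p - 1) := by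
    intro a
    rw [← Finset.add_sum_erase _ _ (Finset.mem_univ (0 : ZMod p)), if_pos rfl]
    congr 1
    · refine if_congr ?_ rfl rfl
      rw [zero_sub, mul_neg, neg_eq_zero, mul_self_eq_zero]
    · rw [Finset.sum_congr rfl fun b hb => if_neg (Finset.ne_of_mem_erase hb), Finset.sum_const,
        Finset.card_erase_of_mem (Finset.mem_univ _), Finset.card_univ, ZMod.card, smul_eq_mul]
  rw [Finset.sum_congr rfl fun a _ => h1 a, Finset.sum_add_distrib, Finset.sum_const,
    Finset.card_univ, ZMod.card, smul_eq_mul,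
    ← Finset.add_sum_erase _ _ (Finset.mem_univ (0 : ZMod p)), if_pos rfl,
    Finset.sum_congr rfl fun b hb => if_neg (Finset.ne_of_mem_erase hb), Finset.sum_const,
    Finset.card_erase_of_mem (Finset.mem_univ _), Finset.card_univ, ZMod.card, smul_eq_mul,
    zero_add]
  obtain ⟨k, hk⟩ : ∃ k, p = k + 1 := ⟨p - 1, (Nat.succ_pred_prime hp.out).symm⟩
  rw [hk, Nat.add_sub_cancel]
  ring

theorem card_trace_ne_zero {t : ZMod p} (ht : t ≠ 0) :
    Nat.card {M : Matrix.GeneralLinearGroup (Fin 2) (ZMod p) //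
      (M : Matrix (Fin 2) (Fin 2) (ZMod p)).trace = t} = p * (p ^ 2 - p - 1) := by
  rw [card_trace_eq_sum]
  have h1 : ∀ a : ZMod p, ∑ b : ZMod p,
      (if b = 0 then (if a * (t - a) = 0 then 0 else p) else p - 1) =
      (if a = 0 ∨ a = t then 0 else p) + (p - 1) * (p - 1) := by
    intro a
    rw [← Finset.add_sum_erase _ _ (Finset.mem_univ (0 : ZMod p)), if_pos rfl]
    congr 1
    · refine if_congr ?_ rfl rfl
      rw [mul_eq_zero, sub_eq_zero, eq_comm (a := t)]
    · rw [Finset.sum_congr rfl fun b hb => if_neg (Finset.ne_of_mem_erase hb), Finset.sum_const,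
        Finset.card_erase_of_mem (Finset.mem_univ _), Finset.card_univ, ZMod.card, smul_eq_mul]
  have h2 : ∑ a : ZMod p, (if a = 0 ∨ a = t then 0 else p) = p * (p - 2) := by
    rw [Finset.sum_ite, Finset.sum_const_zero, zero_add, Finset.sum_const, smul_eq_mul, mul_comm]
    congr 1
    have h3 : (Finset.univ.filter fun a : ZMod p => ¬ (a = 0 ∨ a = t)) =
        (Finset.univ.erase 0).erase t := by
      ext a
      simp [not_or, and_comm]
    rw [h3, Finset.card_erase_of_mem (Finset.mem_erase.mpr ⟨ht, Finset.mem_univ _⟩),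
      Finset.card_erase_of_mem (Finset.mem_univ _), Finset.card_univ, ZMod.card]
    omega
  rw [Finset.sum_congr rfl fun a _ => h1 a, Finset.sum_add_distrib, Finset.sum_const,
    Finset.card_univ, ZMod.card, smul_eq_mul, h2, ← mul_add]
  congr 1
  obtain ⟨k, hk⟩ : ∃ k, p = k + 2 := ⟨p - 2, by have := hp.out.two_le; omega⟩
  rw [hk, show k + 2 - 1 = k + 1 from rfl, show k + 2 - 2 = k from rfl]
  have h4 : (k + 2) ^ 2 - (k + 2) - 1 = k + (k + 1) * (k + 1) := by
    have : (k + 2) ^ 2 = (k + (k + 1) * (k + 1)) + 1 + (k + 2) := by ring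
    omega
  rw [h4]

theorem ratio_zero : (Nat.card {M : Matrix.GeneralLinearGroup (Fin 2) (ZMod p) //
      (M : Matrix (Fin 2) (Fin 2) (ZMod p)).trace = 0} : ℝ) /
      Nat.card (Matrix.GeneralLinearGroup (Fin 2) (ZMod p)) = p / ((p : ℝ) ^ 2 - 1) := by
  have hp2 := hp.out.two_le
  have hp1 : (2 : ℝ) ≤ p := by exact_mod_cast hp2
  rw [card_trace_zero, card_GL2]
  have h3 : 1 ≤ p ^ 2 := Nat.one_le_pow _ _ (by omega)
  have h4 : p ≤ p ^ 2 := Nat.le_self_pow (by norm_num) p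
  have h5 : 1 ≤ p := by omega
  push_cast [Nat.cast_sub h3, Nat.cast_sub h4, Nat.cast_sub h5]
  have h6 : (p : ℝ) ^ 2 - 1 ≠ 0 := by nlinarith
  have h7 : (p : ℝ) ^ 2 - p ≠ 0 := by nlinarith
  rw [div_eq_div_iff (mul_ne_zero h6 h7) h6]
  ring

theorem ratio_ne_zero {t : ZMod p} (ht : t ≠ 0) :
    (Nat.card {M : Matrix.GeneralLinearGroup (Fin 2) (ZMod p) //
      (M : Matrix (Fin 2) (Fin 2) (ZMod p)).trace = t} : ℝ) /
      Nat.card (Matrix.GeneralLinearGroup (Fin 2) (ZMod p)) =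
      ((p : ℝ) ^ 2 - p - 1) / ((p - 1) * ((p : ℝ) ^ 2 - 1)) := by
  have hp2 := hp.out.two_le
  have hp1 : (2 : ℝ) ≤ p := by exact_mod_cast hp2
  rw [card_trace_ne_zero p ht, card_GL2]
  have h3 : 1 ≤ p ^ 2 := Nat.one_le_pow _ _ (by omega)
  have h4 : p ≤ p ^ 2 := Nat.le_self_pow (by norm_num) p
  have h5 : 1 ≤ p ^ 2 - p := by
    have : p * 2 ≤ p ^ 2 := by nlinarith
    omega
  push_cast [Nat.cast_sub h3, Nat.cast_sub h5, Nat.cast_sub h4]
  have h6 : (p : ℝ) ^ 2 - 1 ≠ 0 := by nlinarith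
  have h7 : (p : ℝ) ^ 2 - p ≠ 0 := by nlinarith
  have h8 : (p : ℝ) - 1 ≠ 0 := by linarith
  rw [div_eq_div_iff (mul_ne_zero h6 h7) (mul_ne_zero h8 h6)]
  ring

end count

end Fermat.Agent.Cor.Cheb
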