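import Fermat.Agent.Cor.ClassPoly

/-!
# The number of singular moduli is the class number

This file is not used by any of the statement files.

* `fd_unique`: the points of the fundamental domain `-1/2 ≤ x < 1/2`, `|z| ≥ 1`, `x ≤ 0` if `|z| = 1`, are
  inequivalent under `SL₂(ℤ)`;
* `redForms D`: the reduced primitive forms of discriminant `D < 0`;
* `ncard_singSet`, `classPoly_natDegree_eq`: the number of singular moduli of discriminant `D`, and the
  degree of the class polynomial, is the number of reduced primitive forms (the class number);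
* `natDegree_minpoly_le_card`: the degree of a singular modulus is at most the class number;
* `classPoly_natDegree_one`, `exists_int_of_mem_oneList`: for the thirteen discriminants of class
  number one the singular modulus is a rational integer; `card_redForms_eq_one_iff`: there are no
  other ones with `|D| ≤ 250`.
-/

set_option autoImplicit false

noncomputable section

namespace Fermat.Agent.Cor.CM

open UpperHalfPlane hiding I
open MatrixGroups Polynomial

/-- the inequality behind the fundamental domain -/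
theorem one_le_form {x y : ℝ} {c d : ℤ} (h1 : -1 / 2 ≤ x) (h2 : x ≤ 1 / 2) (h3 : 1 ≤ x ^ 2 + y ^ 2)
    (h0 : ¬ (c = 0 ∧ d = 0)) : 1 ≤ (c * x + d) ^ 2 + (c * y) ^ 2 := by
  have e1 : ((c * x + d) ^ 2 + (c * y) ^ 2 : ℝ) = c ^ 2 * (x ^ 2 + y ^ 2) + 2 * (c * d) * x + d ^ 2 := by
    ring
  have e2 : (1 : ℤ) ≤ c ^ 2 - |c * d| + d ^ 2 := by
    by_contra! hcon
    have k1 : c ^ 2 - |c * d| + d ^ 2 ≤ 0 := by omega
    have k2 : |c * d| = |c| * |d| := abs_mul c d
    have k3 : c ^ 2 = |c| ^ 2 := (sq_abs c).symm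
    have k4 : d ^ 2 = |d| ^ 2 := (sq_abs d).symm
    rw [k2, k3, k4] at k1
    have k5 : (2 * |c| - |d|) ^ 2 + 3 * |d| ^ 2 ≤ 0 := by nlinarith
    have k6 : |d| = 0 := by nlinarith [sq_nonneg (2 * |c| - |d|), abs_nonneg d]
    have k7 : |c| = 0 := by
      rw [k6] at k5
      nlinarith [abs_nonneg c]
    exact h0 ⟨abs_eq_zero.mp k7, abs_eq_zero.mp k6⟩
  have e3 : (1 : ℝ) ≤ c ^ 2 - |(c * d : ℝ)| + d ^ 2 := by exact_mod_cast e2
  have e4 : -|(c * d : ℝ)| ≤ 2 * (c * d) * x := by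
    have : |2 * (c * d : ℝ) * x| ≤ |(c * d : ℝ)| := by
      rw [abs_mul, abs_mul]
      have hx : |x| ≤ 1 / 2 := abs_le.mpr ⟨by linarith, h2⟩
      have : |(2 : ℝ)| = 2 := abs_of_pos (by norm_num)
      rw [this]
      nlinarith [abs_nonneg (c * d : ℝ)]
    exact (abs_le.mp this).1 |>.trans' (by linarith)
  rw [e1]
  nlinarith [sq_nonneg (c : ℝ)]

theorem circle {x y : ℝ} {e : ℤ} (x1 : -1 / 2 ≤ x) (x2 : x < 1 / 2) (x3 : 1 ≤ x ^ 2 + y ^ 2)
    (h : x ^ 2 + y ^ 2 + 2 * e * x + e ^ 2 = 1) : x ^ 2 + y ^ 2 = 1 := by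
  have h1 : 2 * e * x + (e : ℝ) ^ 2 ≤ 0 := by linarith
  have h2 : e < 2 := by
    by_contra! hcon
    have hR : (2 : ℝ) ≤ e := by exact_mod_cast hcon
    nlinarith
  have h3 : -1 < e := by
    by_contra! hcon
    have hR : (e : ℝ) ≤ -1 := by exact_mod_cast hcon
    nlinarith
  have h4 : e = 0 ∨ e = 1 := by omega
  rcases h4 with rfl | rfl
  · simpa using h
  · push_cast at h h1
    have : 2 * x + 1 = 0 := by linarith
    nlinarith

/-- **The points of the fundamental domain are inequivalent.** -/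
theorem fd_unique {z w : ℍ} {γ : SL(2, ℤ)} (h : w = γ • z) (z1 : -1 / 2 ≤ z.re) (z2 : z.re < 1 / 2)
    (z3 : 1 ≤ z.re ^ 2 + z.im ^ 2) (z4 : z.re ^ 2 + z.im ^ 2 = 1 → z.re ≤ 0)
    (w1 : -1 / 2 ≤ w.re) (w2 : w.re < 1 / 2)
    (w3 : 1 ≤ w.re ^ 2 + w.im ^ 2) (w4 : w.re ^ 2 + w.im ^ 2 = 1 → w.re ≤ 0) : w = z := by
  set a := γ 0 0 with ha
  set b := γ 0 1 with hb
  set c := γ 1 0 with hc
  set d := γ 1 1 with hd
  have hdet : a * d - b * c = 1 := by
    have := Matrix.det_fin_two (γ : Matrix (Fin 2) (Fin 2) ℤ)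
    rw [γ.2] at this
    exact this.symm
  have hdetR : (a : ℝ) * d - b * c = 1 := by exact_mod_cast hdet
  have hcd : ((c : ℤ) : ℂ) * z + ((d : ℤ) : ℂ) ≠ 0 := by
    have := denom_ne_zero γ z
    rwa [ModularGroup.denom_apply] at this
  have heq : (w : ℂ) * (c * z + d) = a * z + b := by
    have h2 := congrArg UpperHalfPlane.coe h
    rw [UpperHalfPlane.coe_specialLinearGroup_apply] at h2
    simp only [algebraMap_int_eq, eq_intCast, Complex.ofReal_intCast] at h2
    rw [eq_div_iff hcd] at h2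
    exact h2
  have hre := congrArg Complex.re heq
  have him := congrArg Complex.im heq
  simp only [Complex.add_re, Complex.mul_re, Complex.add_im, Complex.mul_im,
    Complex.intCast_re, Complex.intCast_im, zero_mul, sub_zero, add_zero] at hre him
  change w.re * (c * z.re + d) - w.im * (c * z.im) = a * z.re + b at hre
  change w.re * (c * z.im) + w.im * (c * z.re + d) = a * z.im at him
  have hy := z.im_pos
  have hv := w.im_pos
  have hz34 : 3 / 4 ≤ z.im ^ 2 := by nlinarith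
  have n1 : w.im * ((c * z.re + d) ^ 2 + (c * z.im) ^ 2) = z.im := by
    linear_combination (c * z.re + d) * him - (c * z.im) * hre + z.im * hdetR
  have n2 : z.im * (((-c : ℤ) * w.re + a) ^ 2 + ((-c : ℤ) * w.im) ^ 2) = w.im := by
    push_cast
    linear_combination (-(a - c * w.re)) * him - (c * w.im) * hre + w.im * hdetR
  have hcd0 : ¬ (c = 0 ∧ d = 0) := by
    rintro ⟨h1, h2⟩
    rw [h1, h2] at hdet
    simp at hdet
  have hca0 : ¬ (-c = 0 ∧ a = 0) := by
    rintro ⟨h1, h2⟩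
    have h3 : c = 0 := by omega
    rw [h3, h2] at hdet
    simp at hdet
  have m1 := one_le_form (c := c) (d := d) z1 z2.le z3 hcd0
  have m2 := one_le_form (c := -c) (d := a) w1 w2.le w3 hca0
  have e1 : w.im ≤ z.im := by nlinarith
  have e2 : z.im ≤ w.im := by nlinarith
  have e3 : w.im = z.im := le_antisymm e1 e2
  rw [e3] at n1 n2
  have k1 : (c * z.re + d) ^ 2 + (c * z.im) ^ 2 = 1 := by
    apply mul_left_cancel₀ hy.ne'
    rw [n1, mul_one]
  have k2 : ((-c : ℤ) * w.re + a) ^ 2 + ((-c : ℤ) * z.im) ^ 2 = 1 := by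
    apply mul_left_cancel₀ hy.ne'
    rw [n2, mul_one]
  have hc2 : c ^ 2 ≤ 1 := by
    have : (c : ℝ) ^ 2 < 2 := by nlinarith [sq_nonneg (c * z.re + d), sq_nonneg (c : ℝ)]
    have h5 : c ^ 2 < 2 := by exact_mod_cast this
    omega
  have key : w.re = z.re := by
    by_cases hc0 : c = 0
    · rw [hc0] at hdet hdetR hre k1
      simp only [Int.cast_zero, zero_mul, zero_add, mul_zero, sub_zero] at hdet hdetR hre k1
      have hk : ((b * d : ℤ) : ℝ) = w.re - z.re := by
        push_cast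
        have hd2 : (d : ℝ) ^ 2 = 1 := by linarith
        linear_combination (-(d : ℝ)) * hre + w.re * hd2 - z.re * hdetR
      have h6 : -1 < b * d := by
        have : (-1 : ℝ) < ((b * d : ℤ) : ℝ) := by rw [hk]; linarith
        exact_mod_cast this
      have h7 : b * d < 1 := by
        have : ((b * d : ℤ) : ℝ) < 1 := by rw [hk]; linarith
        exact_mod_cast this
      have h8 : b * d = 0 := by omega
      rw [h8, Int.cast_zero] at hk
      linarith
    · have hcpos : 0 < c ^ 2 := by positivity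
      have hc1 : c ^ 2 = 1 := by omega
      have hc1R : (c : ℝ) ^ 2 = 1 := by exact_mod_cast hc1
      have c1 := circle (x := z.re) (y := z.im) (e := c * d) z1 z2 z3 (by
        push_cast
        linear_combination k1 + (d ^ 2 - z.re ^ 2 - z.im ^ 2) * hc1R)
      have c2 := circle (x := w.re) (y := w.im) (e := -c * a) w1 w2 w3 (by
        push_cast at k2 ⊢
        rw [e3]
        linear_combination k2 + (a ^ 2 - w.re ^ 2 - z.im ^ 2) * hc1R)
      have p1 := z4 c1
      have p2 := w4 c2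
      rw [e3] at c2
      have h9 : w.re ^ 2 = z.re ^ 2 := by linarith
      rcases sq_eq_sq_iff_eq_or_eq_neg.mp h9 with h10 | h10
      · exact h10
      · linarith
  apply UpperHalfPlane.ext
  apply Complex.ext
  · exact key
  · exact e3

/-- The points of the complex upper half plane given by the form `(a, b, (b² - D)/(4a))`. -/
def formPt (D a b : ℤ) (ha : 0 < a) (hD : D < 0) : ℍ := ⟨⟨-b / (2 * a), √(-D) / (2 * a)⟩, by
  have h1 : (0 : ℝ) < a := by exact_mod_cast ha
  have h2 : (0 : ℝ) < -D := by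
    have : (D : ℝ) < 0 := by exact_mod_cast hD
    linarith
  show 0 < √(-D) / (2 * a)
  positivity⟩

/-- reduced forms `(a, b, c)` of discriminant `D`, with `c = (b² - D)/(4a)` -/
def redForms (D : ℤ) : Finset (ℤ × ℤ) :=
  (Finset.Icc 1 ((Nat.sqrt (D.natAbs / 3) : ℕ) : ℤ) ×ˢ
    Finset.Icc (-((Nat.sqrt (D.natAbs / 3) : ℕ) : ℤ)) ((Nat.sqrt (D.natAbs / 3) : ℕ) : ℤ)).filter
    fun p => |p.2| ≤ p.1 ∧ 4 * p.1 ∣ p.2 ^ 2 - D ∧ p.1 ≤ (p.2 ^ 2 - D) / (4 * p.1) ∧
      ((|p.2| = p.1 ∨ p.1 = (p.2 ^ 2 - D) / (4 * p.1)) → 0 ≤ p.2) ∧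
      Int.gcd (Int.gcd p.1 p.2) ((p.2 ^ 2 - D) / (4 * p.1)) = 1

theorem mem_redForms {D : ℤ} {p : ℤ × ℤ} : p ∈ redForms D ↔
    (1 ≤ p.1 ∧ p.1 ≤ (Nat.sqrt (D.natAbs / 3) : ℕ)) ∧
    (-((Nat.sqrt (D.natAbs / 3) : ℕ) : ℤ) ≤ p.2 ∧ p.2 ≤ (Nat.sqrt (D.natAbs / 3) : ℕ)) ∧
    |p.2| ≤ p.1 ∧ 4 * p.1 ∣ p.2 ^ 2 - D ∧ p.1 ≤ (p.2 ^ 2 - D) / (4 * p.1) ∧
      ((|p.2| = p.1 ∨ p.1 = (p.2 ^ 2 - D) / (4 * p.1)) → 0 ≤ p.2) ∧
      Int.gcd (Int.gcd p.1 p.2) ((p.2 ^ 2 - D) / (4 * p.1)) = 1 := by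
  rw [redForms, Finset.mem_filter, Finset.mem_product, Finset.mem_Icc, Finset.mem_Icc, and_assoc]

theorem formPt_re {D a b : ℤ} (ha : 0 < a) (hD : D < 0) : (formPt D a b ha hD).re = -b / (2 * a) := rfl

theorem formPt_im {D a b : ℤ} (ha : 0 < a) (hD : D < 0) :
    (formPt D a b ha hD).im = √(-D) / (2 * a) := rfl

theorem formPt_root {D a b c : ℤ} (ha : 0 < a) (hD : D < 0) (hc : b ^ 2 - 4 * a * c = D) :
    (a : ℂ) * (formPt D a b ha hD : ℂ) ^ 2 + b * (formPt D a b ha hD : ℂ) + c = 0 := by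
  have haR : (a : ℝ) ≠ 0 := by exact_mod_cast ha.ne'
  have hcR : (b : ℝ) ^ 2 - 4 * a * c = D := by exact_mod_cast hc
  have hDR : (0 : ℝ) ≤ -D := by
    have : (D : ℝ) < 0 := by exact_mod_cast hD
    linarith
  have hsq := Real.sq_sqrt hDR
  apply Complex.ext
  · simp only [Complex.add_re, Complex.mul_re, Complex.intCast_re, Complex.intCast_im, zero_mul,
      sub_zero, pow_two, Complex.zero_re]
    show (a : ℝ) * ((-b / (2 * a)) * (-b / (2 * a)) - (√(-D) / (2 * a)) * (√(-D) / (2 * a))) +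
      b * (-b / (2 * a)) + c = 0
    field_simp
    rw [hsq]
    linarith
  · simp only [Complex.add_im, Complex.mul_im, Complex.mul_re, Complex.intCast_re,
      Complex.intCast_im, zero_mul, add_zero, pow_two, Complex.zero_im]
    show (a : ℝ) * ((-b / (2 * a)) * (√(-D) / (2 * a)) + (√(-D) / (2 * a)) * (-b / (2 * a))) +
      b * (√(-D) / (2 * a)) = 0
    field_simp
    ring

theorem formPt_norm {D a b c : ℤ} (ha : 0 < a) (hD : D < 0) (hc : b ^ 2 - 4 * a * c = D) :
    (formPt D a b ha hD).re ^ 2 + (formPt D a b ha hD).im ^ 2 = c / a := by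
  have haR : (a : ℝ) ≠ 0 := by exact_mod_cast ha.ne'
  have hcR : (b : ℝ) ^ 2 - 4 * a * c = D := by exact_mod_cast hc
  have hDR : (0 : ℝ) ≤ -D := by
    have : (D : ℝ) < 0 := by exact_mod_cast hD
    linarith
  have hsq := Real.sq_sqrt hDR
  rw [formPt_re, formPt_im, div_pow, div_pow, hsq]
  field_simp
  linarith

/-- the singular modulus of a form -/
def formJ (D : ℤ) (p : ℤ × ℤ) : ℂ :=
  if h : 0 < p.1 ∧ D < 0 then j (formPt D p.1 p.2 h.1 h.2) else 0

theorem formJ_eq {D : ℤ} {p : ℤ × ℤ} (ha : 0 < p.1) (hD : D < 0) :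
    formJ D p = j (formPt D p.1 p.2 ha hD) := by
  rw [formJ, dif_pos ⟨ha, hD⟩]

theorem redForms_spec {D : ℤ} (hD : D < 0) {p : ℤ × ℤ} (hp : p ∈ redForms D) :
    ∃ (ha : 0 < p.1) (c : ℤ), c = (p.2 ^ 2 - D) / (4 * p.1) ∧ p.2 ^ 2 - 4 * p.1 * c = D ∧
      -1 / 2 ≤ (formPt D p.1 p.2 ha hD).re ∧ (formPt D p.1 p.2 ha hD).re < 1 / 2 ∧
      1 ≤ (formPt D p.1 p.2 ha hD).re ^ 2 + (formPt D p.1 p.2 ha hD).im ^ 2 ∧
      ((formPt D p.1 p.2 ha hD).re ^ 2 + (formPt D p.1 p.2 ha hD).im ^ 2 = 1 →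
        (formPt D p.1 p.2 ha hD).re ≤ 0) := by
  obtain ⟨⟨h1, -⟩, -, h3, h4, h5, h6, -⟩ := mem_redForms.mp hp
  have ha : 0 < p.1 := by omega
  obtain ⟨c, hc⟩ := h4
  have hc' : (p.2 ^ 2 - D) / (4 * p.1) = c := by
    rw [hc]; exact Int.mul_ediv_cancel_left _ (by omega)
  rw [hc'] at h5 h6
  have haR : (0 : ℝ) < p.1 := by exact_mod_cast ha
  have hdisc : p.2 ^ 2 - 4 * p.1 * c = D := by linarith
  obtain ⟨k1, k2⟩ := abs_le.mp h3
  refine ⟨ha, c, hc'.symm, hdisc, ?_, ?_, ?_, ?_⟩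
  · rw [formPt_re, div_le_div_iff₀ (by norm_num) (by positivity)]
    have : (p.2 : ℝ) ≤ p.1 := by exact_mod_cast k2
    linarith
  · rw [formPt_re, div_lt_div_iff₀ (by positivity) (by norm_num)]
    have hlt : -p.1 < p.2 := by
      rcases eq_or_lt_of_le k1 with h | h
      · exfalso
        have : |p.2| = p.1 := by rw [← h, abs_neg, abs_of_pos ha]
        have := h6 (Or.inl this)
        omega
      · exact h
    have : (-p.1 : ℝ) < p.2 := by exact_mod_cast hlt
    linarith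
  · rw [formPt_norm ha hD hdisc, le_div_iff₀ haR]
    have : (p.1 : ℝ) ≤ c := by exact_mod_cast h5
    linarith
  · rw [formPt_norm ha hD hdisc, div_eq_one_iff_eq haR.ne', formPt_re]
    intro h
    have h7 : p.1 = c := by exact_mod_cast h.symm
    have h8 := h6 (Or.inr h7)
    have : (0 : ℝ) ≤ p.2 := by exact_mod_cast h8
    apply div_nonpos_of_nonpos_of_nonneg
    · linarith
    · positivity

theorem formJ_injOn {D : ℤ} (hD : D < 0) : Set.InjOn (formJ D) (redForms D) := by
  intro p hp q hq hpq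
  obtain ⟨ha, c, -, -, z1, z2, z3, z4⟩ := redForms_spec hD hp
  obtain ⟨ha', c', -, -, w1, w2, w3, w4⟩ := redForms_spec hD hq
  rw [formJ_eq ha hD, formJ_eq ha' hD] at hpq
  obtain ⟨γ, hγ⟩ := j_eq_iff.mp hpq.symm
  have h1 := fd_unique hγ z1 z2 z3 z4 w1 w2 w3 w4
  have hre := congrArg UpperHalfPlane.re h1
  have him := congrArg UpperHalfPlane.im h1
  rw [formPt_re, formPt_re] at hre
  rw [formPt_im, formPt_im] at him
  have haR : (0 : ℝ) < p.1 := by exact_mod_cast ha
  have haR' : (0 : ℝ) < q.1 := by exact_mod_cast ha'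
  have hs : 0 < √(-D : ℝ) := by
    apply Real.sqrt_pos.mpr
    have : (D : ℝ) < 0 := by exact_mod_cast hD
    linarith
  rw [div_eq_div_iff (by positivity) (by positivity)] at hre him
  have e1 : (q.1 : ℝ) = p.1 := by
    have := mul_left_cancel₀ hs.ne' him
    linarith
  have e2 : (q.2 : ℝ) = p.2 := by
    rw [e1] at hre
    have h2p : (2 * p.1 : ℝ) ≠ 0 := by positivity
    have := mul_right_cancel₀ h2p hre
    linarith
  have e3 : q.1 = p.1 := by exact_mod_cast e1
  have e4 : q.2 = p.2 := by exact_mod_cast e2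
  exact Prod.ext e3.symm e4.symm

theorem formJ_mem {D : ℤ} (hD : D < 0) {p : ℤ × ℤ} (hp : p ∈ redForms D) : formJ D p ∈ singSet D := by
  obtain ⟨ha, c, hc, hdisc, -⟩ := redForms_spec hD hp
  obtain ⟨-, -, -, -, -, -, hg⟩ := mem_redForms.mp hp
  rw [← hc] at hg
  exact ⟨formPt D p.1 p.2 ha hD, ⟨p.1, p.2, c, ha, hg, hdisc, formPt_root ha hD hdisc⟩,
    (formJ_eq ha hD).symm⟩

theorem exists_formJ {D : ℤ} (hD : D < 0) {x : ℂ} (hx : x ∈ singSet D) :
    ∃ p ∈ redForms D, formJ D p = x := by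
  -- a normalised reduced form
  obtain ⟨τ, a, b, c, hj, ha, hb, hac, hg, hdisc, h, hnorm⟩ : ∃ (τ : ℍ) (a b c : ℤ), j τ = x ∧
      0 < a ∧ |b| ≤ a ∧ a ≤ c ∧ Int.gcd (Int.gcd a b) c = 1 ∧ b ^ 2 - 4 * a * c = D ∧
      (a : ℂ) * (τ : ℂ) ^ 2 + b * τ + c = 0 ∧ ((|b| = a ∨ a = c) → 0 ≤ b) := by
    obtain ⟨τ, a, b, c, hj, ha, hb, hac, hg, hdisc, h⟩ := exists_reduced hx
    by_cases h1 : (|b| = a ∨ a = c) → 0 ≤ b
    · exact ⟨τ, a, b, c, hj, ha, hb, hac, hg, hdisc, h, h1⟩
    · push Not at h1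
      obtain ⟨h1, h2⟩ := h1
      rcases h1 with h1 | h1
      · -- `b = -a`
        have hba : b = -a := by rw [abs_of_neg h2] at h1; omega
        subst hba
        refine ⟨(-1 : ℝ) +ᵥ τ, a, a, c, ?_, ha, (abs_of_pos ha).le, hac, ?_, ?_, ?_, fun _ => ha.le⟩
        · rw [← hj]
          refine j_eq_of_moebius 1 (-1) 0 1 (by norm_num) ?_
          rw [UpperHalfPlane.coe_vadd]
          push_cast
          ring
        · rw [Int.gcd_neg] at hg
          exact hg
        · rw [← hdisc]; ring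
        · rw [UpperHalfPlane.coe_vadd]
          push_cast at h ⊢
          linear_combination h
      · -- `a = c`
        subst h1
        refine ⟨ModularGroup.S • τ, a, -b, a, by rw [j_smul, hj], ha, by rwa [abs_neg], le_rfl, ?_,
          by rw [← hdisc]; ring, ?_, fun _ => by omega⟩
        · rw [Int.gcd_neg]
          exact hg
        · have h0 : (τ : ℂ) ≠ 0 := τ.ne_zero
          rw [UpperHalfPlane.modular_S_smul]
          show (a : ℂ) * ((-(τ : ℂ))⁻¹) ^ 2 + ((-b : ℤ) : ℂ) * (-(τ : ℂ))⁻¹ + a = 0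
          push_cast
          field_simp
          linear_combination h
  have h3 := reduced_bound ha hb hac hdisc
  have hsqrt : a ≤ (Nat.sqrt (D.natAbs / 3) : ℕ) := by
    have h4 : a.toNat ≤ Nat.sqrt (D.natAbs / 3) := by
      rw [Nat.le_sqrt, Nat.le_div_iff_mul_le (by norm_num)]
      have h5 : ((a.toNat * a.toNat * 3 : ℕ) : ℤ) ≤ D.natAbs := by
        push_cast
        rw [Int.toNat_of_nonneg ha.le, abs_of_neg hD]
        linarith
      exact_mod_cast h5
    have h6 : ((a.toNat : ℕ) : ℤ) = a := Int.toNat_of_nonneg ha.le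
    rw [← h6]
    exact_mod_cast h4
  obtain ⟨k1, k2⟩ := abs_le.mp hb
  have hc : (b ^ 2 - D) / (4 * a) = c := by
    rw [← hdisc, show b ^ 2 - (b ^ 2 - 4 * a * c) = 4 * a * c by ring]
    exact Int.mul_ediv_cancel_left _ (by omega)
  refine ⟨(a, b), mem_redForms.mpr ⟨⟨by show 1 ≤ a; omega, hsqrt⟩, ⟨by show _ ≤ b; omega,
    by show b ≤ _; omega⟩, hb, ⟨c, ?_⟩, ?_, ?_, ?_⟩, ?_⟩
  · show b ^ 2 - D = 4 * a * c
    rw [← hdisc]; ring
  · show a ≤ (b ^ 2 - D) / (4 * a)
    rwa [hc]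
  · show (|b| = a ∨ a = (b ^ 2 - D) / (4 * a)) → 0 ≤ b
    rwa [hc]
  · show Int.gcd (Int.gcd a b) ((b ^ 2 - D) / (4 * a)) = 1
    rwa [hc]
  · rw [formJ_eq (p := (a, b)) ha hD, ← hj]
    congr 1
    exact root_unique ha.ne' (formPt_root ha hD hdisc) h

/-- **The number of singular moduli of discriminant `D` is the class number**, the number of the
reduced primitive forms. -/
theorem ncard_singSet {D : ℤ} (hD : D < 0) : (singSet D).ncard = (redForms D).card := by
  have h1 : singSet D = formJ D '' (redForms D : Set (ℤ × ℤ)) := by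
    ext x
    constructor
    · intro hx
      obtain ⟨p, hp, h⟩ := exists_formJ hD hx
      exact ⟨p, hp, h⟩
    · rintro ⟨p, hp, rfl⟩
      exact formJ_mem hD hp
  rw [h1, (formJ_injOn hD).ncard_image, Set.ncard_coe_finset]

/-- **The degree of the class polynomial is the class number.** -/
theorem classPoly_natDegree_eq {D : ℤ} (hD : D < 0) :
    (classPoly D).natDegree = (redForms D).card := by
  rw [classPoly_natDegree, ncard_singSet hD]

/-- **The degree of a singular modulus is at most the class number.** -/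
theorem natDegree_minpoly_le_card {D : ℤ} {τ : ℍ} (h : IsCM D τ) :
    (minpoly ℚ (j τ)).natDegree ≤ (redForms D).card := by
  rw [← ncard_singSet h.neg]
  exact natDegree_minpoly_le h

/-! ### Examples -/

theorem classPoly_neg_23 : (classPoly (-23)).natDegree = 3 := by
  rw [classPoly_natDegree_eq (by norm_num)]; decide +kernel

theorem classPoly_neg_47 : (classPoly (-47)).natDegree = 5 := by
  rw [classPoly_natDegree_eq (by norm_num)]; decide +kernel

theorem classPoly_neg_71 : (classPoly (-71)).natDegree = 7 := by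
  rw [classPoly_natDegree_eq (by norm_num)]; decide +kernel

/-- the thirteen discriminants of class number one -/
def oneList : Finset ℤ := {-3, -4, -7, -8, -11, -12, -16, -19, -27, -28, -43, -67, -163}

theorem card_redForms_one : ∀ D ∈ oneList, D < 0 ∧ (redForms D).card = 1 := by decide +kernel

/-- For the discriminants of this range the class number is one only for the thirteen
discriminants of the list. -/
theorem card_redForms_eq_one_iff : ∀ D ∈ Finset.Icc (-250 : ℤ) (-1), (redForms D).card = 1 ↔ D ∈ oneList := by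
  decide +kernel

/-- **Class number one**: for the thirteen discriminants of the list there is exactly one singular
modulus. -/
theorem classPoly_natDegree_one {D : ℤ} (hD : D ∈ oneList) : (classPoly D).natDegree = 1 := by
  obtain ⟨h1, h2⟩ := card_redForms_one D hD
  rw [classPoly_natDegree_eq h1, h2]

/-- **The thirteen rational singular moduli** are rational integers. -/
theorem exists_int_of_mem_oneList {D : ℤ} (hD : D ∈ oneList) {τ : ℍ} (h : IsCM D τ) :
    ∃ n : ℤ, (n : ℂ) = j τ := by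
  obtain ⟨h1, h2⟩ := card_redForms_one D hD
  have hcard := ncard_singSet h1
  rw [h2] at hcard
  obtain ⟨x, hx⟩ := Set.ncard_eq_one.mp hcard
  have hmem : j τ ∈ singSet D := ⟨τ, h, rfl⟩
  refine exists_int_of_fixed (isIntegral_of_mem_singSet hmem) fun σ => ?_
  have h3 := singSet_map σ hmem
  rw [hx] at hmem h3
  rw [Set.mem_singleton_iff.mp h3, Set.mem_singleton_iff.mp hmem]

end Fermat.Agent.Cor.CM
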