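import Fermat.Agent.Cor.ClassPoly

/-!
# The singular moduli of discriminant -19, -43, -67, -163

This file is not used by any of the statement files.

* `j_bound`: `|j(τ) - 1/q - 744| ≤ 210000 |q|` for `|q| ≤ 1/500000`;
* `exp_19`, `exp_43`, `exp_67`, `exp_163`: numerical values of `exp(π√d)`;
* `j_half_sqrt_neg_nineteen`: `j((1 + √-19)/2) = (-96)³`;
* `j_half_sqrt_neg_43`: `j((1 + √-43)/2) = (-960)³`;
* `j_half_sqrt_neg_67`: `j((1 + √-67)/2) = (-5280)³`;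
* `j_half_sqrt_neg_163`: `j((1 + √-163)/2) = (-640320)³`;
* `exp_pi_sqrt_163`: `|exp(π√163) - 262537412640768744| < 10⁻¹²`.

Together with `Fermat.Agent.Cor.CMValues` this gives all thirteen rational singular moduli of the
imaginary quadratic orders of class number one.  The method: by the file
`Fermat.Agent.Cor.ClassPoly` the four numbers are rational integers, and they are known up to an
error less than `1/2`.
-/

set_option autoImplicit false

noncomputable section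

namespace Fermat.Agent.Cor.CM

open UpperHalfPlane hiding I
open MatrixGroups ModularForm Fermat.Agent.Igusa Filter Topology

section numerics

theorem exp_lower {y r : ℝ} (n : ℕ) (hy0 : 0 ≤ y) (hy1 : y ≤ 1) (hn : 0 < n)
    (h : r ≤ ∑ m ∈ Finset.range n, y ^ m / m.factorial -
      y ^ n * ((n.succ : ℝ) / (n.factorial * n))) : r ≤ Real.exp y := by
  have h1 := Real.exp_bound (x := y) (by rwa [abs_of_nonneg hy0]) hn
  rw [abs_of_nonneg hy0] at h1
  have h2 := (abs_le.mp h1).1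
  linarith

theorem exp_upper {y r : ℝ} (n : ℕ) (hy0 : 0 ≤ y) (hy1 : y ≤ 1) (hn : 0 < n)
    (h : ∑ m ∈ Finset.range n, y ^ m / m.factorial +
      y ^ n * ((n.succ : ℝ) / (n.factorial * n)) ≤ r) : Real.exp y ≤ r := by
  have h1 := Real.exp_bound (x := y) (by rwa [abs_of_nonneg hy0]) hn
  rw [abs_of_nonneg hy0] at h1
  have h2 := (abs_le.mp h1).2
  linarith

theorem exp_pi_sqrt_lower {d s y r A : ℝ} (n : ℕ) (hs0 : 0 < s) (hs : s ^ 2 < d)
    (hy0 : 0 ≤ y) (hy1 : y ≤ 1) (hy : 64 * y ≤ 3.14159265358979323846 * s) (hn : 0 < n)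
    (h : r ≤ ∑ m ∈ Finset.range n, y ^ m / m.factorial -
      y ^ n * ((n.succ : ℝ) / (n.factorial * n))) (hr : 0 ≤ r) (hA : A < r ^ 64) :
    A < Real.exp (Real.pi * √d) := by
  have h1 := exp_lower n hy0 hy1 hn h
  have h2 : s < √d := Real.lt_sqrt_of_sq_lt hs
  have h3 : 64 * y ≤ Real.pi * √d := by
    refine hy.trans ?_
    exact mul_le_mul Real.pi_gt_d20.le h2.le hs0.le Real.pi_pos.le
  calc A < r ^ 64 := hA
    _ ≤ Real.exp y ^ 64 := pow_le_pow_left₀ hr h1 64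
    _ = Real.exp (64 * y) := by rw [← Real.exp_nat_mul]; norm_num
    _ ≤ Real.exp (Real.pi * √d) := Real.exp_le_exp.mpr h3

theorem exp_pi_sqrt_upper {d s y r A : ℝ} (n : ℕ) (hs0 : 0 < s) (hs : d < s ^ 2)
    (hy0 : 0 ≤ y) (hy1 : y ≤ 1) (hy : 3.14159265358979323847 * s ≤ 64 * y) (hn : 0 < n)
    (h : ∑ m ∈ Finset.range n, y ^ m / m.factorial +
      y ^ n * ((n.succ : ℝ) / (n.factorial * n)) ≤ r) (hA : r ^ 64 < A) :
    Real.exp (Real.pi * √d) < A := by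
  have h1 := exp_upper n hy0 hy1 hn h
  have h2 : √d < s := (Real.sqrt_lt' hs0).mpr hs
  have h3 : Real.pi * √d ≤ 64 * y := by
    refine le_trans ?_ hy
    exact mul_le_mul Real.pi_lt_d20.le h2.le (Real.sqrt_nonneg _) (by norm_num)
  calc Real.exp (Real.pi * √d) ≤ Real.exp (64 * y) := Real.exp_le_exp.mpr h3
    _ = Real.exp y ^ 64 := by rw [← Real.exp_nat_mul]; norm_num
    _ ≤ r ^ 64 := pow_le_pow_left₀ (Real.exp_pos _).le h1 64
    _ < A := hA

theorem exp_19 : 885479.7 < Real.exp (Real.pi * √19) ∧ Real.exp (Real.pi * √19) < 885479.8 := by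
  constructor
  · refine exp_pi_sqrt_lower (s := 4.35889894354067) (y := 0.21396695154324)
      (r := 1.23858172089707) 9 (by norm_num) (by norm_num) (by norm_num) (by norm_num)
      (by norm_num) (by norm_num) ?_ (by norm_num) (by norm_num)
    norm_num [Finset.sum_range_succ, Nat.factorial]
  · refine exp_pi_sqrt_upper (s := 4.35889894354068) (y := 0.21396695154325)
      (r := 1.23858172090287) 9 (by norm_num) (by norm_num) (by norm_num) (by norm_num)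
      (by norm_num) (by norm_num) ?_ (by norm_num)
    norm_num [Finset.sum_range_succ, Nat.factorial]

theorem exp_43 : 884736743.9 < Real.exp (Real.pi * √43) ∧
    Real.exp (Real.pi * √43) < 884736744.1 := by
  constructor
  · refine exp_pi_sqrt_lower (s := 6.5574385243020006) (y := 0.3218875108486540)
      (r := 1.3797295626199101) 12 (by norm_num) (by norm_num) (by norm_num) (by norm_num)
      (by norm_num) (by norm_num) ?_ (by norm_num) (by norm_num)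
    norm_num [Finset.sum_range_succ, Nat.factorial]
  · refine exp_pi_sqrt_upper (s := 6.5574385243020007) (y := 0.3218875108486541)
      (r := 1.3797295626199162) 12 (by norm_num) (by norm_num) (by norm_num) (by norm_num)
      (by norm_num) (by norm_num) ?_ (by norm_num)
    norm_num [Finset.sum_range_succ, Nat.factorial]

theorem exp_67 : 147197952743.9 < Real.exp (Real.pi * √67) ∧
    Real.exp (Real.pi * √67) < 147197952744.1 := by
  constructor
  · refine exp_pi_sqrt_lower (s := 8.185352771872449969) (y := 0.401797564611802181)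
      (r := 1.494508760590311944) 14 (by norm_num) (by norm_num) (by norm_num) (by norm_num)
      (by norm_num) (by norm_num) ?_ (by norm_num) (by norm_num)
    norm_num [Finset.sum_range_succ, Nat.factorial]
  · refine exp_pi_sqrt_upper (s := 8.185352771872449970) (y := 0.401797564611802182)
      (r := 1.494508760590312018) 14 (by norm_num) (by norm_num) (by norm_num) (by norm_num)
      (by norm_num) (by norm_num) ?_ (by norm_num)
    norm_num [Finset.sum_range_succ, Nat.factorial]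

theorem exp_163 : 262537412640768743.9 < Real.exp (Real.pi * √163) ∧
    Real.exp (Real.pi * √163) < 262537412640768744.1 := by
  constructor
  · refine exp_pi_sqrt_lower (s := 12.7671453348037046617109520) (y := 0.6267057811114456211768177)
      (r := 1.8714354956515889745082556) 20 (by norm_num) (by norm_num) (by norm_num) (by norm_num)
      (by norm_num) (by norm_num) ?_ (by norm_num) (by norm_num)
    norm_num [Finset.sum_range_succ, Nat.factorial]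
  · refine exp_pi_sqrt_upper (s := 12.7671453348037046617109521) (y := 0.6267057811114456211788127)
      (r := 1.8714354956515889745120648) 20 (by norm_num) (by norm_num) (by norm_num) (by norm_num)
      (by norm_num) (by norm_num) ?_ (by norm_num)
    norm_num [Finset.sum_range_succ, Nat.factorial]

end numerics

section estimate

theorem pow_four_le (n : ℕ) : (n + 2) ^ 4 ≤ 16 * 6 ^ n := by
  induction n with
  | zero => norm_num
  | succ k ih =>
    have : (k + 1 + 2) ^ 4 ≤ 6 * (k + 2) ^ 4 := by ring_nf; nlinarith [Nat.zero_le k, Nat.zero_le (k ^ 2), Nat.zero_le (k ^ 3), Nat.zero_le (k ^ 4)]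
    calc (k + 1 + 2) ^ 4 ≤ 6 * (k + 2) ^ 4 := this
      _ ≤ 6 * (16 * 6 ^ k) := by gcongr
      _ = 16 * 6 ^ (k + 1) := by ring

theorem sigma_three_le (n : ℕ) : ∑ d ∈ n.divisors, d ^ 3 ≤ n ^ 4 := by
  calc ∑ d ∈ n.divisors, d ^ 3 ≤ ∑ d ∈ n.divisors, n ^ 3 :=
        Finset.sum_le_sum fun d hd => Nat.pow_le_pow_left (Nat.divisor_le hd) 3
    _ = n.divisors.card * n ^ 3 := by rw [Finset.sum_const, smul_eq_mul]
    _ ≤ n * n ^ 3 := by gcongr; exact Nat.card_divisors_le_self n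
    _ = n ^ 4 := by ring

/-- `E₄ = 1 + 240 q + O(q²)` -/
theorem E4_bound (τ : ℍ) {q : ℂ} (hq : q = Function.Periodic.qParam ((1 : ℕ) : ℝ) (τ : ℂ))
    (hx : ‖q‖ ≤ 1 / 500000) : ‖E₄ τ - (1 + 240 * q)‖ ≤ 4080 * ‖q‖ ^ 2 := by
  have h1 := ModularForm.hasSum_qExpansion (f := (E₄ : ModularForm 𝒮ℒ 4)) (h := 1)
    one_pos one_mem_strictPeriods_SL τ
  have hq1 : Function.Periodic.qParam (1 : ℝ) (τ : ℂ) = q := by rw [hq, Nat.cast_one]
  have hc : ∀ n : ℕ, (qExpansion 1 (E₄ : ℍ → ℂ)).coeff n =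
      ((if n = 0 then 1 else 240 * ∑ d ∈ n.divisors, (d : ℤ) ^ 3 : ℤ) : ℂ) := by
    intro n
    rw [H29.qExp_E4, H29.toC, PowerSeries.coeff_map, H29.pe, ModularCurve.eisenstein4,
      PowerSeries.coeff_mk]
    rfl
  rw [hq1] at h1
  have h2 := (hasSum_nat_add_iff' 2).mpr h1
  rw [Finset.sum_range_succ, Finset.sum_range_one, hc, hc] at h2
  simp only [if_true, one_ne_zero, if_false, Nat.divisors_one, Finset.sum_singleton, pow_zero,
    pow_one, mul_one, Int.cast_one, Nat.cast_one, one_pow, Int.cast_ofNat] at h2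
  have hx0 := norm_nonneg q
  have hg : HasSum (fun n : ℕ => 3840 * ‖q‖ ^ 2 * (6 * ‖q‖) ^ n)
      (3840 * ‖q‖ ^ 2 * (1 - 6 * ‖q‖)⁻¹) :=
    (hasSum_geometric_of_lt_one (by positivity) (by linarith)).mul_left _
  have h3 : ∀ n : ℕ, ‖(qExpansion 1 (E₄ : ℍ → ℂ)).coeff (n + 2) * q ^ (n + 2)‖ ≤
      3840 * ‖q‖ ^ 2 * (6 * ‖q‖) ^ n := by
    intro n
    rw [hc, if_neg (by omega), norm_mul, norm_pow]
    have e1 : ‖((240 * ∑ d ∈ (n + 2).divisors, (d : ℤ) ^ 3 : ℤ) : ℂ)‖ ≤ 3840 * 6 ^ n := by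
      have e2 : ((240 * ∑ d ∈ (n + 2).divisors, (d : ℤ) ^ 3 : ℤ) : ℂ) =
          ((240 * ∑ d ∈ (n + 2).divisors, d ^ 3 : ℕ) : ℂ) := by push_cast; rfl
      rw [e2, Complex.norm_natCast]
      have e3 : 240 * ∑ d ∈ (n + 2).divisors, d ^ 3 ≤ 3840 * 6 ^ n := by
        have := sigma_three_le (n + 2)
        have := pow_four_le n
        omega
      exact_mod_cast e3
    calc _ ≤ 3840 * 6 ^ n * ‖q‖ ^ (n + 2) := by gcongr
      _ = 3840 * ‖q‖ ^ 2 * (6 * ‖q‖) ^ n := by rw [mul_pow, pow_add]; ring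
  have h4 := tsum_of_norm_bounded hg h3
  rw [h2.tsum_eq] at h4
  refine h4.trans ?_
  have h5 : (1 - 6 * ‖q‖)⁻¹ ≤ 17 / 16 := by
    rw [inv_le_comm₀ (by linarith) (by norm_num)]
    linarith
  calc 3840 * ‖q‖ ^ 2 * (1 - 6 * ‖q‖)⁻¹ ≤ 3840 * ‖q‖ ^ 2 * (17 / 16) := by gcongr
    _ = 4080 * ‖q‖ ^ 2 := by ring

/-- `∏ (1 - qⁿ) = 1 - q + O(q²)` -/
theorem euler_bound {q : ℂ} (hx : ‖q‖ ≤ 1 / 500000) : ‖euler q - (1 - q)‖ ≤ 2 * ‖q‖ ^ 2 := by
  have hx0 := norm_nonneg q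
  have hm := ModularForm.multipliable_one_sub_pow (q := q) (by linarith)
  have h1 := hm.hasProd.tendsto_prod_nat
  have h2 : Tendsto (fun N : ℕ => ∏ i ∈ Finset.range (N + 1), (1 - q ^ (i + 1))) atTop
      (𝓝 (euler q)) := h1.comp (tendsto_add_atTop_nat 1)
  have h3 : Tendsto (fun N : ℕ => ‖∏ i ∈ Finset.range (N + 1), (1 - q ^ (i + 1)) - (1 - q)‖) atTop
      (𝓝 ‖euler q - (1 - q)‖) := (h2.sub_const _).norm
  refine le_of_tendsto h3 (Eventually.of_forall fun N => ?_)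
  rw [Finset.prod_range_succ']
  have e1 : (∏ k ∈ Finset.range N, (1 - q ^ (k + 1 + 1))) * (1 - q ^ (0 + 1)) - (1 - q) =
      (1 - q) * (∏ k ∈ Finset.range N, (1 + -q ^ (k + 2)) - 1) := by
    simp only [← sub_eq_add_neg]
    rw [zero_add, pow_one]
    ring
  rw [e1, norm_mul]
  have e2 := Finset.norm_prod_one_add_sub_one_le (Finset.range N) (fun k => -q ^ (k + 2))
  have e3 : ∑ i ∈ Finset.range N, ‖-q ^ (i + 2)‖ ≤ ‖q‖ ^ 2 * (1 - ‖q‖)⁻¹ := by
    have e4 : HasSum (fun n : ℕ => ‖q‖ ^ 2 * ‖q‖ ^ n) (‖q‖ ^ 2 * (1 - ‖q‖)⁻¹) :=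
      (hasSum_geometric_of_lt_one hx0 (by linarith)).mul_left _
    refine le_trans (le_of_eq ?_) (sum_le_hasSum (Finset.range N) (fun i _ => by positivity) e4)
    refine Finset.sum_congr rfl fun i _ => ?_
    rw [norm_neg, norm_pow, pow_add]; ring
  have e5 : ‖q‖ ^ 2 * (1 - ‖q‖)⁻¹ ≤ 1.1 * ‖q‖ ^ 2 := by
    have : (1 - ‖q‖)⁻¹ ≤ 1.1 := by
      rw [inv_le_comm₀ (by linarith) (by norm_num)]
      norm_num
      linarith
    nlinarith [sq_nonneg ‖q‖]
  have e6 : Real.exp (∑ i ∈ Finset.range N, ‖-q ^ (i + 2)‖) - 1 ≤ 1.5 * ‖q‖ ^ 2 := by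
    have f1 : Real.exp (∑ i ∈ Finset.range N, ‖-q ^ (i + 2)‖) ≤ Real.exp (1.1 * ‖q‖ ^ 2) :=
      Real.exp_le_exp.mpr (e3.trans e5)
    have f2 : 1.1 * ‖q‖ ^ 2 ≤ 0.1 := by nlinarith
    have f3 := Real.exp_bound_div_one_sub_of_interval (x := 1.1 * ‖q‖ ^ 2) (by positivity) (by linarith)
    have f4 : 1 / (1 - 1.1 * ‖q‖ ^ 2) ≤ 1 + 1.5 * ‖q‖ ^ 2 := by
      rw [div_le_iff₀ (by linarith)]
      nlinarith [sq_nonneg ‖q‖]
    linarith
  have e7 : ‖1 - q‖ ≤ 1.1 := by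
    calc ‖1 - q‖ ≤ ‖(1 : ℂ)‖ + ‖q‖ := norm_sub_le _ _
      _ ≤ 1.1 := by rw [norm_one]; norm_num; linarith
  calc ‖1 - q‖ * ‖∏ k ∈ Finset.range N, (1 + -q ^ (k + 2)) - 1‖ ≤ 1.1 * (1.5 * ‖q‖ ^ 2) := by
        gcongr
        exact e2.trans e6
    _ ≤ 2 * ‖q‖ ^ 2 := by nlinarith [sq_nonneg ‖q‖]

/-- `(1 + u)ⁿ = 1 + n u + O(u²)` -/
theorem one_add_pow_bound {u : ℂ} (hu : ‖u‖ ≤ 1 / 100000) (n : ℕ) (hn : n ≤ 24) :
    ‖(1 + u) ^ n - (1 + n * u)‖ ≤ n ^ 2 * ‖u‖ ^ 2 := by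
  induction n with
  | zero => simp
  | succ k ih =>
    have hk : (k : ℝ) ≤ 23 := by exact_mod_cast (by omega : k ≤ 23)
    have hk0 : (0 : ℝ) ≤ k := Nat.cast_nonneg k
    have h1 : (1 + u) ^ (k + 1) - (1 + ((k + 1 : ℕ) : ℂ) * u) =
        (1 + u) * ((1 + u) ^ k - (1 + k * u)) + k * u ^ 2 := by
      push_cast; ring
    have hx0 := norm_nonneg u
    have h2 : ‖1 + u‖ ≤ 1 + ‖u‖ := by
      calc ‖1 + u‖ ≤ ‖(1 : ℂ)‖ + ‖u‖ := norm_add_le _ _
        _ = 1 + ‖u‖ := by rw [norm_one]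
    rw [h1]
    calc _ ≤ ‖(1 + u) * ((1 + u) ^ k - (1 + k * u))‖ + ‖(k : ℂ) * u ^ 2‖ := norm_add_le _ _
      _ = ‖1 + u‖ * ‖(1 + u) ^ k - (1 + k * u)‖ + k * ‖u‖ ^ 2 := by
        rw [norm_mul, norm_mul, norm_pow, Complex.norm_natCast]
      _ ≤ (1 + ‖u‖) * (k ^ 2 * ‖u‖ ^ 2) + k * ‖u‖ ^ 2 := by
        gcongr
        exact ih (by omega)
      _ = ((1 + ‖u‖) * k ^ 2 + k) * ‖u‖ ^ 2 := by ring
      _ ≤ ((k + 1 : ℕ) : ℝ) ^ 2 * ‖u‖ ^ 2 := by
        gcongr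
        push_cast
        nlinarith [mul_nonneg hk0 hk0, mul_nonneg (mul_nonneg hk0 hk0) hx0]


theorem euler_pow_bound {q : ℂ} (hx : ‖q‖ ≤ 1 / 500000) :
    ‖euler q ^ 24 - (1 - 24 * q)‖ ≤ 630 * ‖q‖ ^ 2 := by
  have hx0 := norm_nonneg q
  have h1 := euler_bound hx
  set u := euler q - 1 with hu
  have h2 : ‖u‖ ≤ 1.001 * ‖q‖ := by
    have : u = (euler q - (1 - q)) - q := by rw [hu]; ring
    rw [this]
    calc _ ≤ ‖euler q - (1 - q)‖ + ‖q‖ := norm_sub_le _ _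
      _ ≤ 2 * ‖q‖ ^ 2 + ‖q‖ := by gcongr
      _ ≤ 1.001 * ‖q‖ := by nlinarith
  have h3 := one_add_pow_bound (u := u) (by linarith) 24 le_rfl
  have h4 : euler q ^ 24 - (1 - 24 * q) =
      ((1 + u) ^ 24 - (1 + (24 : ℕ) * u)) + 24 * (euler q - (1 - q)) := by
    have : euler q = 1 + u := by rw [hu]; ring
    rw [this]; push_cast; ring
  rw [h4]
  calc _ ≤ ‖(1 + u) ^ 24 - (1 + (24 : ℕ) * u)‖ + ‖24 * (euler q - (1 - q))‖ := norm_add_le _ _
    _ ≤ ((24 : ℕ) : ℝ) ^ 2 * ‖u‖ ^ 2 + 24 * (2 * ‖q‖ ^ 2) := by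
      gcongr
      rw [norm_mul]
      norm_num
      linarith
    _ ≤ ((24 : ℕ) : ℝ) ^ 2 * (1.001 * ‖q‖) ^ 2 + 24 * (2 * ‖q‖ ^ 2) := by gcongr
    _ ≤ 630 * ‖q‖ ^ 2 := by
      push_cast
      nlinarith [sq_nonneg ‖q‖]

/-- **The principal part of `j`**: `|j(τ) - 1/q - 744| ≤ 210000 |q|` for `|q| ≤ 1/500000`. -/
theorem j_bound (τ : ℍ) {q : ℂ} (hq : q = Function.Periodic.qParam ((1 : ℕ) : ℝ) (τ : ℂ))
    (hx : ‖q‖ ≤ 1 / 500000) : ‖j τ - (q⁻¹ + 744)‖ ≤ 210000 * ‖q‖ := by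
  have hx0 := norm_nonneg q
  have hE := E4_bound τ hq hx
  have hP := euler_pow_bound hx
  have hd := dl_eq τ
  rw [← hq] at hd
  have hd0 := dl_ne_zero τ
  have hj : j τ = E₄ τ ^ 3 / dl τ := rfl
  rw [hd] at hj hd0
  have hq0 : q ≠ 0 := left_ne_zero_of_mul hd0
  have hP0 : euler q ^ 24 ≠ 0 := right_ne_zero_of_mul hd0
  set E := E₄ τ with hEd
  set P := euler q ^ 24 with hPd
  set v := E - (1 + 240 * q) with hvd
  set w := P - (1 - 24 * q) with hwd
  set x := ‖q‖ with hxd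
  have hxpos : 0 < x := norm_pos_iff.mpr hq0
  have hnum : E ^ 3 - P * (1 + 744 * q) = 190656 * q ^ 2 + 13824000 * q ^ 3 +
      3 * v * (1 + 240 * q) ^ 2 + 3 * v ^ 2 * (1 + 240 * q) + v ^ 3 - w * (1 + 744 * q) := by
    rw [hvd, hwd]; ring
  have a1 : ‖1 + 240 * q‖ ≤ 1.001 := by
    calc _ ≤ ‖(1 : ℂ)‖ + ‖240 * q‖ := norm_add_le _ _
      _ = 1 + 240 * x := by rw [norm_one, norm_mul]; norm_num [hxd]
      _ ≤ 1.001 := by norm_num; linarith
  have a2 : ‖1 + 744 * q‖ ≤ 1.01 := by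
    calc _ ≤ ‖(1 : ℂ)‖ + ‖744 * q‖ := norm_add_le _ _
      _ = 1 + 744 * x := by rw [norm_one, norm_mul]; norm_num [hxd]
      _ ≤ 1.01 := by norm_num; linarith
  have b1 : ‖190656 * q ^ 2‖ ≤ 190656 * x ^ 2 := by rw [norm_mul, norm_pow]; norm_num [hxd]
  have b2 : ‖13824000 * q ^ 3‖ ≤ 30 * x ^ 2 := by
    rw [norm_mul, norm_pow]
    norm_num
    have : x ^ 3 = x * x ^ 2 := by ring
    rw [this]
    nlinarith [sq_nonneg x]
  have b3 : ‖3 * v * (1 + 240 * q) ^ 2‖ ≤ 12300 * x ^ 2 := by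
    rw [norm_mul, norm_mul, norm_pow]
    calc _ ≤ ‖(3 : ℂ)‖ * (4080 * x ^ 2) * 1.001 ^ 2 := by gcongr
      _ ≤ 12300 * x ^ 2 := by norm_num; nlinarith [sq_nonneg x]
  have hv1 : ‖v‖ ≤ 0.01 := by
    refine hE.trans ?_
    have : x ^ 2 ≤ (1 / 500000) ^ 2 := by gcongr
    norm_num at this ⊢
    linarith
  have b4 : ‖3 * v ^ 2 * (1 + 240 * q)‖ ≤ 130 * x ^ 2 := by
    rw [norm_mul, norm_mul, norm_pow]
    calc _ ≤ ‖(3 : ℂ)‖ * (‖v‖ * ‖v‖) * 1.001 := by
          rw [pow_two]; gcongr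
      _ ≤ ‖(3 : ℂ)‖ * (0.01 * (4080 * x ^ 2)) * 1.001 := by gcongr
      _ ≤ 130 * x ^ 2 := by norm_num; nlinarith [sq_nonneg x]
  have b5 : ‖v ^ 3‖ ≤ 1 * x ^ 2 := by
    rw [norm_pow]
    calc ‖v‖ ^ 3 = ‖v‖ ^ 2 * ‖v‖ := by ring
      _ ≤ 0.01 ^ 2 * (4080 * x ^ 2) := by gcongr
      _ ≤ 1 * x ^ 2 := by nlinarith [sq_nonneg x]
  have b6 : ‖w * (1 + 744 * q)‖ ≤ 640 * x ^ 2 := by
    rw [norm_mul]
    calc _ ≤ (630 * x ^ 2) * 1.01 := by gcongr
      _ ≤ 640 * x ^ 2 := by nlinarith [sq_nonneg x]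
  have c1 : ‖E ^ 3 - P * (1 + 744 * q)‖ ≤ 204000 * x ^ 2 := by
    rw [hnum]
    refine (norm_sub_le _ _).trans ?_
    have d1 := norm_add_le (190656 * q ^ 2 + 13824000 * q ^ 3 + 3 * v * (1 + 240 * q) ^ 2 +
      3 * v ^ 2 * (1 + 240 * q)) (v ^ 3)
    have d2 := norm_add_le (190656 * q ^ 2 + 13824000 * q ^ 3 + 3 * v * (1 + 240 * q) ^ 2)
      (3 * v ^ 2 * (1 + 240 * q))
    have d3 := norm_add_le (190656 * q ^ 2 + 13824000 * q ^ 3) (3 * v * (1 + 240 * q) ^ 2)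
    have d4 := norm_add_le (190656 * q ^ 2) (13824000 * q ^ 3)
    have d5 := sq_nonneg x
    linarith
  have c2 : 0.99 ≤ ‖P‖ := by
    have e1 : (1 : ℂ) = P - w + 24 * q := by rw [hwd]; ring
    have e2 : (1 : ℝ) ≤ ‖P‖ + ‖w‖ + 24 * x := by
      calc (1 : ℝ) = ‖P - w + 24 * q‖ := by rw [← e1, norm_one]
        _ ≤ ‖P - w‖ + ‖24 * q‖ := norm_add_le _ _
        _ ≤ ‖P‖ + ‖w‖ + 24 * x := by
          gcongr
          · exact norm_sub_le _ _
          · rw [norm_mul]; norm_num [hxd]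
    have e3 : x ^ 2 ≤ (1 / 500000) ^ 2 := by gcongr
    norm_num at e3 ⊢
    linarith
  have c3 : j τ - (q⁻¹ + 744) = (E ^ 3 - P * (1 + 744 * q)) / (q * P) := by
    rw [hj]
    field_simp
  rw [c3, norm_div, norm_mul, div_le_iff₀ (mul_pos hxpos (by linarith))]
  refine c1.trans ?_
  have : 210000 * x * (x * ‖P‖) = (210000 * ‖P‖) * x ^ 2 := by ring
  change 204000 * x ^ 2 ≤ 210000 * x * (x * ‖P‖)
  rw [this]
  gcongr
  linarith

/-- `q` at the point `(1 + √-d)/2` -/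
theorem qParam_half {τ : ℍ} {d : ℝ} (h : (τ : ℂ) ^ 2 - τ + ((1 + d) / 4 : ℝ) = 0) :
    Function.Periodic.qParam ((1 : ℕ) : ℝ) (τ : ℂ) = (-(Real.exp (Real.pi * √d))⁻¹ : ℝ) := by
  have hre := re_eq_half_of_sq h
  rw [qParam_of_re_half hre]
  have h1 := congrArg Complex.re h
  simp only [Complex.add_re, Complex.sub_re, pow_two, Complex.mul_re, Complex.ofReal_re,
    Complex.zero_re] at h1
  change τ.re * τ.re - τ.im * τ.im - τ.re + (1 + d) / 4 = 0 at h1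
  rw [hre] at h1
  have h2 : √d = 2 * τ.im := by
    have : d = (2 * τ.im) ^ 2 := by linarith
    rw [this, Real.sqrt_sq (by linarith [τ.im_pos])]
  rw [h2, ← Real.exp_neg]
  congr 3
  ring

/-- the integer `j(τ)` from the value of `exp(π√d)` -/
theorem j_int_bound {τ : ℍ} {d : ℝ} (h : (τ : ℂ) ^ 2 - τ + ((1 + d) / 4 : ℝ) = 0)
    (hd : 500000 ≤ Real.exp (Real.pi * √d)) {n : ℤ} (hn : (n : ℂ) = j τ) :
    |(n : ℝ) + Real.exp (Real.pi * √d) - 744| ≤ 210000 / Real.exp (Real.pi * √d) := by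
  set R := Real.exp (Real.pi * √d) with hR
  have hRpos : 0 < R := Real.exp_pos _
  have hq := qParam_half h
  rw [← hR] at hq
  have hnorm : ‖((-R⁻¹ : ℝ) : ℂ)‖ = R⁻¹ := by
    rw [Complex.norm_real, Real.norm_eq_abs, abs_neg, abs_of_pos (inv_pos.mpr hRpos)]
  have h1 := j_bound τ hq.symm (by
    rw [hnorm, inv_le_comm₀ hRpos (by norm_num)]
    norm_num
    exact hd)
  rw [hnorm, ← hn] at h1
  have h2 : ((n : ℂ) - ((((-R⁻¹ : ℝ) : ℂ))⁻¹ + 744)) = ((n + R - 744 : ℝ) : ℂ) := by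
    push_cast
    rw [inv_neg, inv_inv]
    ring
  rw [h2, Complex.norm_real, Real.norm_eq_abs] at h1
  rw [div_eq_mul_inv]
  exact h1

end estimate

section values

/-- the point `(1 + √-d)/2` -/
def halfPt (d : ℝ) (hd : 0 < d) : ℍ := ⟨⟨1 / 2, √d / 2⟩, by
  show 0 < √d / 2
  positivity⟩

theorem halfPt_eq (d : ℝ) (hd : 0 < d) :
    ((halfPt d hd : ℍ) : ℂ) ^ 2 - halfPt d hd + ((1 + d) / 4 : ℝ) = 0 := by
  have h1 : ((halfPt d hd : ℍ) : ℂ) = ⟨1 / 2, √d / 2⟩ := rfl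
  have h2 := Real.sq_sqrt hd.le
  rw [h1]
  apply Complex.ext
  · simp [pow_two]
    linarith
  · simp [pow_two]
    ring

/-- **`j((1 + √-19)/2) = -884736 = (-96)³`.** -/
theorem j_half_sqrt_neg_nineteen {τ : ℍ} (h : (τ : ℂ) ^ 2 - τ + 5 = 0) : j τ = (-96) ^ 3 := by
  obtain ⟨n, hn⟩ := exists_int_19 h
  obtain ⟨e1, e2⟩ := exp_19
  have h1 := j_int_bound (d := 19) (by rw [← h]; norm_num) (by linarith) hn
  have h2 : 210000 / Real.exp (Real.pi * √19) ≤ 0.24 := by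
    rw [div_le_iff₀ (Real.exp_pos _)]; linarith
  obtain ⟨h3, h4⟩ := abs_le.mp (h1.trans h2)
  have h5 : (-884737 : ℝ) < n := by linarith
  have h6 : (n : ℝ) < -884735 := by linarith
  have h7 : -884737 < n := by exact_mod_cast h5
  have h8 : n < -884735 := by exact_mod_cast h6
  rw [← hn, show n = -884736 by omega]
  norm_num

/-- **`j((1 + √-43)/2) = -884736000 = (-960)³`.** -/
theorem j_half_sqrt_neg_43 {τ : ℍ} (h : (τ : ℂ) ^ 2 - τ + 11 = 0) : j τ = (-960) ^ 3 := by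
  obtain ⟨n, hn⟩ := exists_int_43 h
  obtain ⟨e1, e2⟩ := exp_43
  have h1 := j_int_bound (d := 43) (by rw [← h]; norm_num) (by linarith) hn
  have h2 : 210000 / Real.exp (Real.pi * √43) ≤ 0.24 := by
    rw [div_le_iff₀ (Real.exp_pos _)]; linarith
  obtain ⟨h3, h4⟩ := abs_le.mp (h1.trans h2)
  have h5 : (-884736001 : ℝ) < n := by linarith
  have h6 : (n : ℝ) < -884735999 := by linarith
  have h7 : -884736001 < n := by exact_mod_cast h5
  have h8 : n < -884735999 := by exact_mod_cast h6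
  rw [← hn, show n = -884736000 by omega]
  norm_num

/-- **`j((1 + √-67)/2) = -147197952000 = (-5280)³`.** -/
theorem j_half_sqrt_neg_67 {τ : ℍ} (h : (τ : ℂ) ^ 2 - τ + 17 = 0) : j τ = (-5280) ^ 3 := by
  obtain ⟨n, hn⟩ := exists_int_67 h
  obtain ⟨e1, e2⟩ := exp_67
  have h1 := j_int_bound (d := 67) (by rw [← h]; norm_num) (by linarith) hn
  have h2 : 210000 / Real.exp (Real.pi * √67) ≤ 0.24 := by
    rw [div_le_iff₀ (Real.exp_pos _)]; linarith
  obtain ⟨h3, h4⟩ := abs_le.mp (h1.trans h2)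
  have h5 : (-147197952001 : ℝ) < n := by linarith
  have h6 : (n : ℝ) < -147197951999 := by linarith
  have h7 : -147197952001 < n := by exact_mod_cast h5
  have h8 : n < -147197951999 := by exact_mod_cast h6
  rw [← hn, show n = -147197952000 by omega]
  norm_num

theorem int_163 {τ : ℍ} (h : (τ : ℂ) ^ 2 - τ + 41 = 0) :
    ((-262537412640768000 : ℤ) : ℂ) = j τ := by
  obtain ⟨n, hn⟩ := exists_int_163 h
  obtain ⟨e1, e2⟩ := exp_163
  have h1 := j_int_bound (d := 163) (by rw [← h]; norm_num) (by linarith) hn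
  have h2 : 210000 / Real.exp (Real.pi * √163) ≤ 0.24 := by
    rw [div_le_iff₀ (Real.exp_pos _)]; linarith
  obtain ⟨h3, h4⟩ := abs_le.mp (h1.trans h2)
  have h5 : (-262537412640768001 : ℝ) < n := by linarith
  have h6 : (n : ℝ) < -262537412640767999 := by linarith
  have h7 : -262537412640768001 < n := by exact_mod_cast h5
  have h8 : n < -262537412640767999 := by exact_mod_cast h6
  rw [← hn, show n = -262537412640768000 by omega]

/-- **`j((1 + √-163)/2) = -262537412640768000 = (-640320)³`.** -/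
theorem j_half_sqrt_neg_163 {τ : ℍ} (h : (τ : ℂ) ^ 2 - τ + 41 = 0) : j τ = (-640320) ^ 3 := by
  rw [← int_163 h]
  norm_num

/-- **Hermite's remark**: `exp(π√163)` is close to an integer. -/
theorem exp_pi_sqrt_163 : |Real.exp (Real.pi * √163) - 262537412640768744| < 1 / 10 ^ 12 := by
  have h : ((halfPt 163 (by norm_num) : ℍ) : ℂ) ^ 2 - halfPt 163 (by norm_num) + 41 = 0 := by
    have := halfPt_eq 163 (by norm_num)
    rw [← this]; norm_num
  obtain ⟨e1, e2⟩ := exp_163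
  have h1 := j_int_bound (d := 163) (by rw [← h]; norm_num) (by linarith) (int_163 h)
  have h2 : 210000 / Real.exp (Real.pi * √163) < 1 / 10 ^ 12 := by
    rw [div_lt_iff₀ (Real.exp_pos _)]
    norm_num
    linarith
  refine lt_of_eq_of_lt ?_ (h1.trans_lt h2)
  congr 1
  push_cast
  ring

end values

end Fermat.Agent.Cor.CM
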