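import Fermat.Agent.Cor.Transport
import Fermat.Agent.Cor.CMValues

/-!
# The class polynomials

This file is not used by any of the statement files.

* `IsCM D τ`: the point `τ` of the upper half plane is a root of a primitive integral quadratic form
  of discriminant `D`;
* `IsCM.conj`: if `τ` has discriminant `D` and `j(τ') = σ(j(τ))` for an automorphism `σ` of the field
  `ℂ`, then `τ'` has discriminant `D`;
* `singSet_finite`: the number of singular moduli of discriminant `D` is finite (reduction theory);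
* `exists_classPoly`, `classPoly`: the monic polynomial whose roots are the singular moduli of
  discriminant `D` has rational integral coefficients;
* `natDegree_minpoly_le`: the degree of a singular modulus is at most the number of singular moduli
  of its discriminant;
* `exists_int_19`, `exists_int_43`, `exists_int_67`, `exists_int_163`: the singular moduli of
  discriminant `-19`, `-43`, `-67`, `-163` are rational integers.
-/

set_option autoImplicit false

noncomputable section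

namespace Fermat.Agent.Cor.CM

open UpperHalfPlane hiding I
open MatrixGroups ModularForm Polynomial

/-- `τ` has complex multiplication with discriminant `D`: it is a root of a primitive integral
quadratic form of discriminant `D`. -/
def IsCM (D : ℤ) (τ : ℍ) : Prop := ∃ a b c : ℤ, 0 < a ∧ Int.gcd (Int.gcd a b) c = 1 ∧
  b ^ 2 - 4 * a * c = D ∧ (a : ℂ) * (τ : ℂ) ^ 2 + b * τ + c = 0

theorem IsCM.neg {D : ℤ} {τ : ℍ} (h : IsCM D τ) : D < 0 := by
  obtain ⟨a, b, c, ha, -, hD, hτ⟩ := h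
  rw [← hD]
  exact disc_neg ha.ne' hτ

/-- two equations of the same point -/
theorem exists_mul_of_primitive {τ : ℍ} {a b c s u v : ℤ} (ha : a ≠ 0)
    (hg : Int.gcd (Int.gcd a b) c = 1)
    (h : (a : ℂ) * (τ : ℂ) ^ 2 + b * τ + c = 0) (h' : (s : ℂ) * (τ : ℂ) ^ 2 + u * τ + v = 0) :
    ∃ k : ℤ, s = k * a ∧ u = k * b ∧ v = k * c := by
  have h1 : ((a * u - s * b : ℤ) : ℂ) * τ + ((a * v - s * c : ℤ) : ℂ) = 0 := by
    push_cast
    linear_combination a * h' - s * h
  obtain ⟨m1, m2⟩ := eq_zero_of_lin h1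
  have m1' : a * u = s * b := by linarith
  have m2' : a * v = s * c := by linarith
  have hbez1 := Int.gcd_eq_gcd_ab a b
  have hbez2 := Int.gcd_eq_gcd_ab (Int.gcd a b) c
  rw [hg] at hbez2
  have hdvd : a ∣ s := by
    have hb : 1 = (a * Int.gcdA a b + b * Int.gcdB a b) * Int.gcdA (Int.gcd a b) c +
        c * Int.gcdB (Int.gcd a b) c := by
      rw [← hbez1]
      exact_mod_cast hbez2
    refine ⟨(Int.gcdA a b * s + Int.gcdB a b * u) * Int.gcdA (Int.gcd a b) c +
      v * Int.gcdB (Int.gcd a b) c, ?_⟩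
    generalize Int.gcdA (Int.gcd a b) c = x at *
    generalize Int.gcdB (Int.gcd a b) c = y at *
    linear_combination s * hb - Int.gcdB a b * x * m1' - y * m2'
  obtain ⟨k, hk⟩ := hdvd
  refine ⟨k, by rw [hk]; ring, ?_, ?_⟩
  · apply mul_left_cancel₀ ha
    rw [m1', hk]; ring
  · apply mul_left_cancel₀ ha
    rw [m2', hk]; ring

/-- the primitive equation -/
theorem exists_primitive {τ : ℍ} {s u v : ℤ} (hs : s ≠ 0)
    (h : (s : ℂ) * (τ : ℂ) ^ 2 + u * τ + v = 0) :
    ∃ (k D : ℤ), k ≠ 0 ∧ u ^ 2 - 4 * s * v = k ^ 2 * D ∧ IsCM D τ := by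
  set g : ℕ := Int.gcd (Int.gcd s u) v with hg
  have hgpos : 0 < g := by
    rw [hg, Int.gcd_pos_iff]
    left
    have : 0 < Int.gcd s u := Int.gcd_pos_iff.mpr (Or.inl hs)
    exact_mod_cast this.ne'
  have hg0 : (g : ℤ) ≠ 0 := by exact_mod_cast hgpos.ne'
  have d1 : (g : ℤ) ∣ Int.gcd s u := Int.gcd_dvd_left ..
  obtain ⟨v', hv⟩ : (g : ℤ) ∣ v := Int.gcd_dvd_right ..
  obtain ⟨s', hs'⟩ : (g : ℤ) ∣ s := d1.trans (Int.gcd_dvd_left ..)
  obtain ⟨u', hu⟩ : (g : ℤ) ∣ u := d1.trans (Int.gcd_dvd_right ..)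
  have hprim : Int.gcd (Int.gcd s' u') v' = 1 := by
    have e1 : Int.gcd s u = g * Int.gcd s' u' := by
      rw [hs', hu, Int.gcd_mul_left, Int.natAbs_natCast]
    have e2 : g = g * Int.gcd (Int.gcd s' u') v' := by
      conv_lhs => rw [hg, e1, hv]
      push_cast
      rw [Int.gcd_mul_left, Int.natAbs_natCast]
    exact Nat.eq_of_mul_eq_mul_left hgpos (by rw [mul_one]; exact e2.symm)
  have hgC : (g : ℂ) ≠ 0 := by exact_mod_cast hgpos.ne'
  have hs'0 : s' ≠ 0 := by
    rintro rfl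
    exact hs (by rw [hs']; ring)
  have heq : (s' : ℂ) * (τ : ℂ) ^ 2 + u' * τ + v' = 0 := by
    apply mul_left_cancel₀ hgC
    have e1 : (s : ℂ) = g * s' := by exact_mod_cast congrArg (Int.cast : ℤ → ℂ) hs'
    have e2 : (u : ℂ) = g * u' := by exact_mod_cast congrArg (Int.cast : ℤ → ℂ) hu
    have e3 : (v : ℂ) = g * v' := by exact_mod_cast congrArg (Int.cast : ℤ → ℂ) hv
    rw [e1, e2, e3] at h
    linear_combination h
  refine ⟨g, u' ^ 2 - 4 * s' * v', hg0, by rw [hs', hu, hv]; ring, ?_⟩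
  rcases lt_or_gt_of_ne hs'0 with hneg | hpos
  · refine ⟨-s', -u', -v', by omega, ?_, by ring, ?_⟩
    · rw [Int.gcd_neg, Int.neg_gcd, Int.gcd_neg]
      exact hprim
    · push_cast
      linear_combination -heq
  · exact ⟨s', u', v', hpos, hprim, rfl, heq⟩

/-- a point has only one discriminant -/
theorem IsCM.sq_mul {τ : ℍ} {D : ℤ} (h : IsCM D τ) {s u v : ℤ}
    (h' : (s : ℂ) * (τ : ℂ) ^ 2 + u * τ + v = 0) : ∃ k : ℤ, u ^ 2 - 4 * s * v = k ^ 2 * D := by
  obtain ⟨a, b, c, ha, hg, rfl, hτ⟩ := h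
  obtain ⟨k, rfl, rfl, rfl⟩ := exists_mul_of_primitive ha.ne' hg hτ h'
  exact ⟨k, by ring⟩

theorem eq_of_sq_mul {D D' k k' : ℤ} (hD : D < 0) (h1 : D = k ^ 2 * D') (h2 : D' = k' ^ 2 * D) :
    D = D' := by
  have h3 : (k * k') ^ 2 = 1 := by
    have : D * ((k * k') ^ 2 - 1) = 0 := by
      linear_combination (-1 : ℤ) * h1 - k ^ 2 * h2
    have := (mul_eq_zero.mp this).resolve_left hD.ne
    linarith
  have h5 : IsUnit k := IsUnit.of_mul_eq_one (k * k' ^ 2) (by linear_combination h3)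
  have h6 : k ^ 2 = 1 := by
    rcases Int.isUnit_iff.mp h5 with h | h <;> rw [h] <;> norm_num
  rw [h1, h6, one_mul]

/-- **The conjugates of a singular modulus** of discriminant `D` are singular moduli of
discriminant `D`. -/
theorem IsCM.conj {D : ℤ} {τ τ' : ℍ} (h : IsCM D τ) (σ : ℂ ≃+* ℂ) (hj : j τ' = σ (j τ)) :
    IsCM D τ' := by
  obtain ⟨a, b, c, ha, hg, hD, hτ⟩ := id h
  obtain ⟨s, u, v, hs, h1, h2⟩ := conj_aux (σ : ℂ →+* ℂ) hj ha.ne' hτ
  obtain ⟨k, D', hk, h3, h4⟩ := exists_primitive hs h1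
  obtain ⟨a', b', c', ha', hg', hD', hτ'⟩ := id h4
  have hj' : j τ = σ.symm (j τ') := by rw [hj, σ.symm_apply_apply]
  obtain ⟨s₁, u₁, v₁, hs₁, h5, h6⟩ := conj_aux (σ.symm : ℂ →+* ℂ) hj' ha'.ne' hτ'
  obtain ⟨k', h7⟩ := h.sq_mul h5
  have e1 : D = k ^ 2 * D' := by rw [← hD, ← h2, h3]
  have e2 : D' = k' ^ 2 * D := by rw [← hD', ← h6, h7]
  rw [eq_of_sq_mul h.neg e1 e2]
  exact h4

theorem IsCM.of_j_eq {D : ℤ} {τ τ' : ℍ} (h : IsCM D τ) (hj : j τ' = j τ) : IsCM D τ' :=
  h.conj (RingEquiv.refl ℂ) hj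

theorem IsCM.unique {D D' : ℤ} {τ : ℍ} (h : IsCM D τ) (h' : IsCM D' τ) : D = D' := by
  obtain ⟨a, b, c, ha, hg, hD, hτ⟩ := id h
  obtain ⟨a', b', c', ha', hg', hD', hτ'⟩ := id h'
  obtain ⟨k, h1⟩ := h.sq_mul hτ'
  obtain ⟨k', h2⟩ := h'.sq_mul hτ
  exact eq_of_sq_mul h.neg (by rw [← h2, hD]) (by rw [← h1, hD'])

/-- the set of the singular moduli of discriminant `D` -/
def singSet (D : ℤ) : Set ℂ := {x | ∃ τ : ℍ, IsCM D τ ∧ j τ = x}

theorem singSet_map {D : ℤ} (σ : ℂ ≃+* ℂ) {x : ℂ} (h : x ∈ singSet D) : σ x ∈ singSet D := by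
  obtain ⟨τ, hτ, rfl⟩ := h
  obtain ⟨τ', hτ'⟩ := j_surjective (σ (j τ))
  exact ⟨τ', hτ.conj σ hτ', hτ'⟩

theorem isIntegral_of_mem_singSet {D : ℤ} {x : ℂ} (h : x ∈ singSet D) : IsIntegral ℤ x := by
  obtain ⟨τ, ⟨a, b, c, ha, -, -, hτ⟩, rfl⟩ := h
  exact isIntegral_j_of_quadratic τ a b c ha.ne' hτ

/-- the root of an equation in the upper half plane is unique -/
theorem root_unique {τ τ' : ℍ} {a b c : ℤ} (ha : a ≠ 0)
    (h : (a : ℂ) * (τ : ℂ) ^ 2 + b * τ + c = 0) (h' : (a : ℂ) * (τ' : ℂ) ^ 2 + b * τ' + c = 0) :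
    τ = τ' := by
  have haC : (a : ℂ) ≠ 0 := by exact_mod_cast ha
  have h1 : ((τ : ℂ) - τ') * (a * (τ + τ') + b) = 0 := by linear_combination h - h'
  rcases mul_eq_zero.mp h1 with h2 | h2
  · exact UpperHalfPlane.ext (sub_eq_zero.mp h2)
  · exfalso
    have h3 := congrArg Complex.im h2
    simp only [Complex.add_im, Complex.mul_im, Complex.intCast_re, Complex.intCast_im, zero_mul,
      add_zero, Complex.zero_im] at h3
    have haR : (a : ℝ) ≠ 0 := by exact_mod_cast ha
    have h4 := (mul_eq_zero.mp h3).resolve_left haR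
    have h5 := τ.im_pos
    have h6 := τ'.im_pos
    change τ.im + τ'.im = 0 at h4
    linarith

/-- Every singular modulus of discriminant `D` comes from a reduced form. -/
theorem exists_reduced {D : ℤ} {x : ℂ} (h : x ∈ singSet D) : ∃ (τ : ℍ) (a b c : ℤ), j τ = x ∧
    0 < a ∧ |b| ≤ a ∧ a ≤ c ∧ Int.gcd (Int.gcd a b) c = 1 ∧ b ^ 2 - 4 * a * c = D ∧
      (a : ℂ) * (τ : ℂ) ^ 2 + b * τ + c = 0 := by
  obtain ⟨τ, hτ, rfl⟩ := h
  obtain ⟨γ, hγ⟩ := ModularGroup.exists_smul_mem_fd τ
  have h1 : IsCM D (γ • τ) := hτ.of_j_eq (j_smul γ τ)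
  obtain ⟨a, b, c, ha, hg, hD, h2⟩ := h1
  refine ⟨γ • τ, a, b, c, j_smul γ τ, ha, ?_, ?_, hg, hD, h2⟩
  all_goals
    set z := γ • τ
    have haR : (0 : ℝ) < a := by exact_mod_cast ha
    have e1 := congrArg Complex.re h2
    have e2 := congrArg Complex.im h2
    simp only [Complex.add_re, Complex.mul_re, Complex.intCast_re, Complex.intCast_im, zero_mul,
      sub_zero, pow_two, Complex.add_im, Complex.mul_im, add_zero, Complex.zero_re,
      Complex.zero_im] at e1 e2
    change a * (z.re * z.re - z.im * z.im) + b * z.re + c = 0 at e1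
    change a * (z.re * z.im + z.im * z.re) + b * z.im = 0 at e2
    have him := z.im_pos
    have e3 : 2 * a * z.re + b = 0 := by
      have : z.im * (2 * a * z.re + b) = 0 := by linear_combination e2
      exact (mul_eq_zero.mp this).resolve_left him.ne'
  · have e4 := hγ.2
    have e5 : |(b : ℝ)| ≤ a := by
      have : (b : ℝ) = -(2 * a * z.re) := by linarith
      rw [this, abs_neg, abs_mul, abs_of_pos (by linarith)]
      nlinarith
    exact_mod_cast e5
  · have e4 := hγ.1
    rw [Complex.normSq_apply] at e4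
    change 1 ≤ z.re * z.re + z.im * z.im at e4
    have e5 : (c : ℝ) = a * (z.re * z.re + z.im * z.im) := by
      have hb : (b : ℝ) = -(2 * a * z.re) := by linarith
      rw [hb] at e1
      linear_combination e1
    have e6 : (a : ℝ) ≤ c := by
      rw [e5]; nlinarith
    exact_mod_cast e6

/-- bounds for reduced forms -/
theorem reduced_bound {D a b c : ℤ} (ha : 0 < a) (hb : |b| ≤ a) (hac : a ≤ c)
    (hD : b ^ 2 - 4 * a * c = D) : 3 * a ^ 2 ≤ -D := by
  have h1 : b ^ 2 ≤ a ^ 2 := sq_le_sq' (by linarith [abs_le.mp hb |>.1]) (abs_le.mp hb).2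
  nlinarith

/-- **The number of singular moduli of given discriminant is finite.** -/
theorem singSet_finite (D : ℤ) : (singSet D).Finite := by
  have hfin : (Set.Icc (-|D|) |D| ×ˢ (Set.Icc (-|D|) |D| ×ˢ Set.Icc (-|D|) |D|)).Finite :=
    (Set.finite_Icc _ _).prod ((Set.finite_Icc _ _).prod (Set.finite_Icc _ _))
  refine (hfin.biUnion (t := fun p => {x : ℂ | ∃ τ : ℍ, j τ = x ∧ p.1 ≠ 0 ∧
    (p.1 : ℂ) * (τ : ℂ) ^ 2 + p.2.1 * τ + p.2.2 = 0}) ?_).subset ?_
  · rintro ⟨a, b, c⟩ -
    refine Set.Subsingleton.finite ?_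
    rintro x ⟨τ, rfl, ha, h⟩ y ⟨τ', rfl, -, h'⟩
    rw [root_unique ha h h']
  · intro x hx
    obtain ⟨τ, a, b, c, hj, ha, hb, hac, -, hD, h⟩ := exists_reduced hx
    have h1 := reduced_bound ha hb hac hD
    have h2 : D < 0 := by nlinarith
    have h3 : |D| = -D := abs_of_neg h2
    have hb1 := abs_le.mp hb
    have h4 : a ≤ -D := by nlinarith
    have h5 : c ≤ -D := by
      have : b ^ 2 ≤ a ^ 2 := sq_le_sq' hb1.1 hb1.2
      nlinarith
    simp only [Set.mem_iUnion, exists_prop, Set.mem_prod, Set.mem_Icc, h3]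
    refine ⟨(a, b, c), ⟨⟨by linarith, h4⟩, ⟨by linarith, by linarith⟩, ⟨by linarith, h5⟩⟩, τ, hj,
      ha.ne', h⟩

/-- An algebraic integer fixed by all automorphisms of `ℂ` is a rational integer. -/
theorem exists_int_of_fixed {x : ℂ} (hx : IsIntegral ℤ x) (h : ∀ σ : ℂ ≃+* ℂ, σ x = x) :
    ∃ n : ℤ, (n : ℂ) = x := by
  obtain ⟨r, rfl⟩ := IntStr.exists_rat_of_forall_aut x h
  have h1 : IsIntegral ℤ r := by
    have e : ((r : ℚ) : ℂ) = algebraMap ℚ ℂ r := by simp
    rw [e] at hx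
    exact (isIntegral_algebraMap_iff (algebraMap ℚ ℂ).injective).mp hx
  obtain ⟨n, hn⟩ := IsIntegrallyClosed.isIntegral_iff.mp h1
  exact ⟨n, by rw [← hn]; simp⟩

/-- **The class polynomial** of discriminant `D` has rational integral coefficients. -/
theorem exists_classPoly (D : ℤ) : ∃ H : ℤ[X], H.Monic ∧
    H.map (Int.castRingHom ℂ) = ∏ x ∈ (singSet_finite D).toFinset, (X - C x) := by
  classical
  set S := (singSet_finite D).toFinset with hS
  set P : ℂ[X] := ∏ x ∈ S, (X - C x) with hP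
  have hmon : P.Monic := monic_prod_of_monic _ _ fun x _ => monic_X_sub_C x
  have hfix : ∀ σ : ℂ ≃+* ℂ, P.map (σ : ℂ →+* ℂ) = P := by
    intro σ
    have himg : S.image σ = S := by
      apply Finset.eq_of_subset_of_card_le
      · intro y hy
        obtain ⟨x, hx, rfl⟩ := Finset.mem_image.mp hy
        rw [hS, Set.Finite.mem_toFinset] at hx ⊢
        exact singSet_map σ hx
      · rw [Finset.card_image_of_injective _ σ.injective]
    rw [hP, Polynomial.map_prod]
    simp only [Polynomial.map_sub, map_X, map_C]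
    conv_rhs => rw [← himg]
    rw [Finset.prod_image (fun a _ b _ h => σ.injective h)]
    rfl
  have hint : ∀ i, IsIntegral ℤ (P.coeff i) := by
    intro i
    refine Polynomial.isIntegral_coeff_prod _ _ ?_ i
    intro x hx k
    rw [hS, Set.Finite.mem_toFinset] at hx
    have hxi := isIntegral_of_mem_singSet hx
    rw [coeff_sub, coeff_X, coeff_C]
    refine IsIntegral.sub ?_ ?_
    · split_ifs
      · exact isIntegral_one
      · exact isIntegral_zero
    · split_ifs
      · exact hxi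
      · exact isIntegral_zero
  have hlift : P ∈ lifts (Int.castRingHom ℂ) := by
    rw [lifts_iff_coeff_lifts]
    intro i
    obtain ⟨n, hn⟩ := exists_int_of_fixed (hint i) fun σ => by
      have := congrArg (fun Q : ℂ[X] => Q.coeff i) (hfix σ)
      simpa [coeff_map] using this
    exact ⟨n, hn⟩
  obtain ⟨H, hH, -, hHm⟩ := lifts_and_natDegree_eq_and_monic hlift hmon
  exact ⟨H, hHm, hH⟩

/-- the class polynomial -/
def classPoly (D : ℤ) : ℤ[X] := (exists_classPoly D).choose

theorem classPoly_monic (D : ℤ) : (classPoly D).Monic := (exists_classPoly D).choose_spec.1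

theorem classPoly_map (D : ℤ) : (classPoly D).map (Int.castRingHom ℂ) =
    ∏ x ∈ (singSet_finite D).toFinset, (X - C x) := (exists_classPoly D).choose_spec.2

/-- The roots of the class polynomial are the singular moduli of discriminant `D`. -/
theorem classPoly_aeval_eq_zero_iff {D : ℤ} {x : ℂ} : aeval x (classPoly D) = 0 ↔ x ∈ singSet D := by
  classical
  have h1 : aeval x (classPoly D) = ((classPoly D).map (Int.castRingHom ℂ)).eval x := by
    rw [eval_map, aeval_def]; rfl
  rw [h1, classPoly_map, eval_prod, Finset.prod_eq_zero_iff]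
  constructor
  · rintro ⟨y, hy, h2⟩
    rw [eval_sub, eval_X, eval_C, sub_eq_zero] at h2
    rw [h2]
    exact (singSet_finite D).mem_toFinset.mp hy
  · intro hx
    exact ⟨x, (singSet_finite D).mem_toFinset.mpr hx, by simp⟩

theorem classPoly_natDegree (D : ℤ) : (classPoly D).natDegree = (singSet D).ncard := by
  classical
  have h1 := congrArg natDegree (classPoly_map D)
  rw [(classPoly_monic D).natDegree_map, natDegree_prod_of_monic _ _ fun x _ => monic_X_sub_C x] at h1
  rw [h1, Set.ncard_eq_toFinset_card _ (singSet_finite D)]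
  simp

/-- **The degree of a singular modulus** is at most the number of the singular moduli of its
discriminant. -/
theorem natDegree_minpoly_le {D : ℤ} {τ : ℍ} (h : IsCM D τ) :
    (minpoly ℚ (j τ)).natDegree ≤ (singSet D).ncard := by
  have h1 : aeval (j τ) (classPoly D) = 0 := classPoly_aeval_eq_zero_iff.mpr ⟨τ, h, rfl⟩
  have h2 : aeval (j τ) ((classPoly D).map (Int.castRingHom ℚ)) = 0 := by
    rw [← h1]
    exact aeval_map_algebraMap ℚ (j τ) (classPoly D)
  rw [← classPoly_natDegree, ← (classPoly_monic D).natDegree_map (Int.castRingHom ℚ)]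
  exact natDegree_le_of_dvd (minpoly.dvd ℚ _ h2)
    ((classPoly_monic D).map (Int.castRingHom ℚ)).ne_zero

/-- the discriminant `1 - 4m` -/
theorem isCM_of_eq {τ : ℍ} {m : ℤ} (h : (τ : ℂ) ^ 2 - τ + m = 0) : IsCM (1 - 4 * m) τ := by
  refine ⟨1, -1, m, one_pos, ?_, by ring, ?_⟩
  · have : Int.gcd 1 (-1) = 1 := by decide
    rw [this]
    simp
  · push_cast
    linear_combination h

/-- If all reduced forms of discriminant `1 - 4m` are principal, the singular modulus
`j((1 + √(1 - 4m))/2)` is a rational integer. -/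
theorem exists_int_of_reduced {m : ℤ} (hm : ∀ a b c : ℤ, 0 < a → |b| ≤ a → a ≤ c →
    b ^ 2 - 4 * a * c = 1 - 4 * m → a = 1 ∧ (b = 1 ∨ b = -1) ∧ c = m) {τ : ℍ}
    (h : (τ : ℂ) ^ 2 - τ + m = 0) : ∃ n : ℤ, (n : ℂ) = j τ := by
  have hone : ∀ x ∈ singSet (1 - 4 * m), x = j τ := by
    intro x hx
    obtain ⟨τ', a, b, c, hj, ha, hb, hac, -, hD, h'⟩ := exists_reduced hx
    obtain ⟨rfl, hb', rfl⟩ := hm a b c ha hb hac hD
    rw [← hj]
    rcases hb' with rfl | rfl
    · have hr : (τ : ℂ) = ((1 : ℝ) +ᵥ τ' : ℍ) := by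
        congr 1
        refine root_unique (a := 1) (b := -1) (c := c) one_ne_zero ?_ ?_
        · push_cast
          linear_combination h
        · rw [UpperHalfPlane.coe_vadd]
          push_cast at h' ⊢
          linear_combination h'
      refine j_eq_of_moebius 1 (-1) 0 1 (by norm_num) ?_
      rw [hr, UpperHalfPlane.coe_vadd]
      push_cast
      ring
    · rw [root_unique (a := 1) (b := -1) (c := c) one_ne_zero h' (by
        push_cast
        linear_combination h)]
  refine exists_int_of_fixed (isIntegral_of_mem_singSet ⟨τ, isCM_of_eq h, rfl⟩) fun σ => ?_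
  exact hone _ (singSet_map σ ⟨τ, isCM_of_eq h, rfl⟩)

/-- `j((1 + √-19)/2)` is a rational integer. -/
theorem exists_int_19 {τ : ℍ} (h : (τ : ℂ) ^ 2 - τ + 5 = 0) : ∃ n : ℤ, (n : ℂ) = j τ := by
  refine exists_int_of_reduced (m := 5) ?_ (by push_cast; exact h)
  intro a b c ha hb hac hD
  have h1 := reduced_bound ha hb hac hD
  have h2 : a ≤ 2 := by nlinarith
  obtain ⟨h3, h4⟩ := abs_le.mp hb
  interval_cases a <;> interval_cases b <;> omega

/-- `j((1 + √-43)/2)` is a rational integer. -/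
theorem exists_int_43 {τ : ℍ} (h : (τ : ℂ) ^ 2 - τ + 11 = 0) : ∃ n : ℤ, (n : ℂ) = j τ := by
  refine exists_int_of_reduced (m := 11) ?_ (by push_cast; exact h)
  intro a b c ha hb hac hD
  have h1 := reduced_bound ha hb hac hD
  have h2 : a ≤ 3 := by nlinarith
  obtain ⟨h3, h4⟩ := abs_le.mp hb
  interval_cases a <;> interval_cases b <;> omega

/-- `j((1 + √-67)/2)` is a rational integer. -/
theorem exists_int_67 {τ : ℍ} (h : (τ : ℂ) ^ 2 - τ + 17 = 0) : ∃ n : ℤ, (n : ℂ) = j τ := by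
  refine exists_int_of_reduced (m := 17) ?_ (by push_cast; exact h)
  intro a b c ha hb hac hD
  have h1 := reduced_bound ha hb hac hD
  have h2 : a ≤ 4 := by nlinarith
  obtain ⟨h3, h4⟩ := abs_le.mp hb
  interval_cases a <;> interval_cases b <;> omega

/-- `j((1 + √-163)/2)` is a rational integer. -/
theorem exists_int_163 {τ : ℍ} (h : (τ : ℂ) ^ 2 - τ + 41 = 0) : ∃ n : ℤ, (n : ℂ) = j τ := by
  refine exists_int_of_reduced (m := 41) ?_ (by push_cast; exact h)
  intro a b c ha hb hac hD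
  have h1 := reduced_bound ha hb hac hD
  have h2 : a ≤ 7 := by nlinarith
  obtain ⟨h3, h4⟩ := abs_le.mp hb
  interval_cases a <;> interval_cases b <;> omega

end Fermat.Agent.Cor.CM
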