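import Fermat.Agent.Cor.LatticeBasis
import Fermat.Agent.S16
import Fermat.Agent.H19.HeckeBound2

/-!
# There is no semistable elliptic curve of conductor 23 or 29

For a prime `N` such that `S₂(Γ₀(N))` has dimension two, the characteristic polynomial `P` of `T₂` on the lattice of
forms with integral coefficients is monic of degree two with integral coefficients. A semistable elliptic curve of
conductor `N` gives an integral root `a`, hence `P = (X - a) (X - b)` with `b` integral, and `|a|, |b| < 3` by the Hecke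
bound. On the other hand `T₂ - 3` belongs to the Eisenstein ideal, whose index in the Hecke algebra is the numerator `n`
of `(N - 1) / 12`; so `n` divides `P(3) = (3 - a) (3 - b)`. For `N = 23` and `N = 29` this is impossible, since `n = 11`
resp. `n = 7`.

This file is not used by any of the statement files.
-/

set_option autoImplicit false

namespace Fermat.Agent.Cor.Conductor23

open ModularCurve ModularFormClass CongruenceSubgroup WeierstrassCurve CuspForm
open Fermat.Agent.Main Fermat.Agent.Cor.GenusOne Fermat.Agent.Cor.SmallConductor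
open Fermat.Agent.Cor.EigenTable Fermat.Agent.Cor.LatticeBasis

variable {N : ℕ} [hN : Fact N.Prime]

theorem dvd_of_quot {A : Type*} [CommRing A] (I : Ideal A) {t : A} {P : Polynomial ℤ}
    (hP : Polynomial.eval₂ (Int.castRingHom A) t P = 0) {m : ℤ} (hm : t - (m : A) ∈ I) {n : ℕ}
    (hn : Nat.card (A ⧸ I) = n) (hnp : n.Prime) : (n : ℤ) ∣ P.eval m := by
  have h1 : Ideal.Quotient.mk I t = (m : A ⧸ I) := by
    rw [← map_intCast (Ideal.Quotient.mk I), Ideal.Quotient.eq]
    exact hm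
  have h2 : ((P.eval m : ℤ) : A ⧸ I) = 0 := by
    have h3 := congrArg (Ideal.Quotient.mk I) hP
    rw [Polynomial.hom_eval₂, h1, map_zero] at h3
    have h4 : (Ideal.Quotient.mk I).comp (Int.castRingHom A) = Int.castRingHom (A ⧸ I) :=
      RingHom.ext_int _ _
    rw [h4] at h3
    have h5 := Polynomial.eval₂_hom (Int.castRingHom (A ⧸ I)) (p := P) m
    rw [eq_intCast, h3, eq_intCast] at h5
    exact h5.symm
  have h6 : addOrderOf (1 : A ⧸ I) = n := by
    have h7 : addOrderOf (1 : A ⧸ I) ∣ n := hn ▸ addOrderOf_dvd_natCard _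
    rcases (Nat.dvd_prime hnp).mp h7 with h8 | h8
    · exfalso
      rw [AddMonoid.addOrderOf_eq_one_iff] at h8
      have h9 : Subsingleton (A ⧸ I) := subsingleton_of_zero_eq_one h8.symm
      rw [Nat.card_of_subsingleton (0 : A ⧸ I)] at hn
      exact hnp.one_lt.ne hn
    · exact h8
  rw [← h6, addOrderOf_dvd_iff_zsmul_eq_zero, zsmul_one]
  exact h2

/-- the Hecke operator `T_ℓ` on the lattice, as an element of the Hecke algebra -/
noncomputable def tau {ℓ : ℕ} (hℓ : ℓ.Prime) (hℓN : ¬ ℓ ∣ N) : heckeLatticeAlgebra N ∅ :=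
  latticeRestrictHom N ∅ (heckeAlgebra.T hℓ hℓN (Set.notMem_empty _))

/-- the Hecke operator `T_ℓ` on the lattice -/
noncomputable def TL {ℓ : ℕ} (hℓ : ℓ.Prime) (hℓN : ¬ ℓ ∣ N) : Module.End ℤ (LL N) :=
  (tau hℓ hℓN : heckeLatticeAlgebra N ∅)

theorem TL_coe {ℓ : ℕ} (hℓ : ℓ.Prime) (hℓN : ¬ ℓ ∣ N) (f : LL N) :
    ((TL hℓ hℓN f : LL N) : CuspForm (Gamma0 N) 2) = heckeTLin 2 hℓ hℓN f := rfl

/-- `T_ℓ - (1 + ℓ)` is in the Eisenstein ideal -/
theorem tau_sub_mem {ℓ : ℕ} (hℓ : ℓ.Prime) (hℓN : ¬ ℓ ∣ N) :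
    tau hℓ hℓN - ((1 + ℓ : ℤ) : heckeLatticeAlgebra N ∅) ∈
      Ideal.map ((latticeRestrictHom N ∅).toRingHom.comp (heckeEvalForms N 2))
        (eisensteinIdeal N) := by
  have h1 := heckeGen_sub_mem_eigenIdeal (eisensteinSystem N) ⟨ℓ, hℓ⟩ (1 + ℓ)
    (by rw [eisensteinSystem_of_not_dvd (ℓ := ⟨ℓ, hℓ⟩) hℓN]; simp)
  have h2 := Ideal.mem_map_of_mem
    ((latticeRestrictHom N ∅).toRingHom.comp (heckeEvalForms N 2)) h1
  have h3 : ((latticeRestrictHom N ∅).toRingHom.comp (heckeEvalForms N 2))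
      (heckeGen ⟨ℓ, hℓ⟩ - MvPolynomial.C (1 + ℓ : ℤ)) =
      tau hℓ hℓN - ((1 + ℓ : ℤ) : heckeLatticeAlgebra N ∅) := by
    rw [map_sub]
    congr 1
    · rw [RingHom.comp_apply, heckeEvalForms_heckeGen_of_not_dvd (ℓ := ⟨ℓ, hℓ⟩) hℓN]
      rfl
    · have e : (MvPolynomial.C (1 + ℓ : ℤ) : HeckeAlg) = ((1 + ℓ : ℤ) : HeckeAlg) :=
        eq_intCast MvPolynomial.C _
      rw [e, map_intCast]
  rw [← h3]
  exact h2

/-- **The characteristic polynomial and the Eisenstein ideal.** -/
theorem eisenstein_dvd (hn : (eisensteinNumerator N).Prime) {ℓ : ℕ} (hℓ : ℓ.Prime)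
    (hℓN : ¬ ℓ ∣ N) : (eisensteinNumerator N : ℤ) ∣ (TL hℓ hℓN).charpoly.eval (1 + ℓ : ℤ) := by
  have h1 : Polynomial.eval₂ (Int.castRingHom (heckeLatticeAlgebra N ∅)) (tau hℓ hℓN)
      (TL hℓ hℓN).charpoly = 0 := by
    apply Subtype.ext
    have h2 := LinearMap.aeval_self_charpoly (TL hℓ hℓN)
    have h3 := Polynomial.hom_eval₂ (TL hℓ hℓN).charpoly
      (Int.castRingHom (heckeLatticeAlgebra N ∅)) (heckeLatticeAlgebra N ∅).val.toRingHom
      (tau hℓ hℓN)
    have h4 : (heckeLatticeAlgebra N ∅).val.toRingHom.comp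
      (Int.castRingHom (heckeLatticeAlgebra N ∅)) = algebraMap ℤ (Module.End ℤ (LL N)) :=
      RingHom.ext_int _ _
    rw [h4] at h3
    exact h3.trans h2
  exact dvd_of_quot _ h1 (tau_sub_mem hℓ hℓN) (S16.result N) hn

/-- the Hecke bound for the eigenvalues of `T_ℓ` -/
theorem abs_lt_of_isRoot {ℓ : ℕ} (hℓ : ℓ.Prime) (hℓN : ¬ ℓ ∣ N) {a : ℤ}
    (h : (TL hℓ hℓN).charpoly.IsRoot a) : |a| < ℓ + 1 := by
  have h1 : (heckeTLin (N := N) 2 hℓ hℓN).charpoly.IsRoot (a : ℂ) := by
    rw [charpoly_eq N (TL_coe hℓ hℓN)]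
    have := h.map (f := Int.castRingHom ℂ)
    simpa using this
  have hfd : FiniteDimensional ℂ (CuspForm (Gamma0 N) 2) :=
    Fermat.Agent.H22.finiteDimensional_cuspForm N 2
  have h2 := (Module.End.hasEigenvalue_iff_isRoot_charpoly _ _).mpr h1
  obtain ⟨g, hg⟩ := h2.exists_hasEigenvector
  have h3 := H19.norm_lt_of_heckeT hg.2 hℓ.one_lt (a := (a : ℂ)) (fun τ => by
    have h4 := DFunLike.congr_fun hg.apply_eq_smul τ
    exact h4)
  rw [Complex.norm_intCast] at h3
  exact_mod_cast h3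

/-- an eigenform with an integral eigenvalue gives a root -/
theorem isRoot_of_eigenform {ℓ : ℕ} (hℓ : ℓ.Prime) (hℓN : ¬ ℓ ∣ N) {f : CuspForm (Gamma0 N) 2}
    (hf : f.IsNormalizedEigenform) {a : ℤ} (ha : qCoeff f ℓ = a) :
    (TL hℓ hℓN).charpoly.IsRoot a := by
  have hfd : FiniteDimensional ℂ (CuspForm (Gamma0 N) 2) :=
    Fermat.Agent.H22.finiteDimensional_cuspForm N 2
  have h1 : (heckeTLin (N := N) 2 hℓ hℓN).charpoly.IsRoot (a : ℂ) := by
    refine (Module.End.hasEigenvalue_iff_isRoot_charpoly _ _).mp ?_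
    refine Module.End.hasEigenvalue_of_hasEigenvector (x := f) ⟨?_, hf.ne_zero⟩
    rw [Module.End.mem_eigenspace_iff, ← ha]
    exact H23.heckeTLin_eigen hf hℓ hℓN
  rw [charpoly_eq N (TL_coe hℓ hℓN), Polynomial.IsRoot.def, Polynomial.eval_map] at h1
  have h2 := Polynomial.eval₂_hom (Int.castRingHom ℂ) (p := (TL hℓ hℓN).charpoly) a
  rw [eq_intCast, h1, eq_intCast] at h2
  exact_mod_cast h2.symm

/-- a monic integral quadratic polynomial with an integral root -/
theorem exists_root {P : Polynomial ℤ} (hP : P.Monic) (hd : P.natDegree = 2) {a : ℤ}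
    (ha : P.IsRoot a) : ∃ b : ℤ, P.IsRoot b ∧ ∀ x : ℤ, P.eval x = (x - a) * (x - b) := by
  have h2 : P.coeff 2 = 1 := by
    have := hP.coeff_natDegree
    rwa [hd] at this
  have he : ∀ x : ℤ, P.eval x = P.coeff 0 + P.coeff 1 * x + x ^ 2 := by
    intro x
    rw [Polynomial.eval_eq_sum_range, hd, Finset.sum_range_succ, Finset.sum_range_succ,
      Finset.sum_range_succ, Finset.sum_range_zero, h2]
    ring
  have ha' : P.coeff 0 + P.coeff 1 * a + a ^ 2 = 0 := by rw [← he]; exact ha
  refine ⟨-P.coeff 1 - a, ?_, fun x => ?_⟩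
  · rw [Polynomial.IsRoot.def, he]
    linear_combination ha'
  · rw [he]
    linear_combination ha'

/-- **Main congruence.** -/
theorem exists_int (hg : genusFormula N = 2) (hn : (eisensteinNumerator N).Prime) {ℓ : ℕ}
    (hℓ : ℓ.Prime) (hℓN : ¬ ℓ ∣ N) {f : CuspForm (Gamma0 N) 2} (hf : f.IsNormalizedEigenform)
    {a : ℤ} (ha : qCoeff f ℓ = a) :
    |a| < ℓ + 1 ∧ ∃ b : ℤ, |b| < ℓ + 1 ∧
      (eisensteinNumerator N : ℤ) ∣ (1 + ℓ - a) * (1 + ℓ - b) := by
  have h1 := isRoot_of_eigenform hℓ hℓN hf ha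
  have hd : (TL hℓ hℓN).charpoly.natDegree = 2 := by
    rw [LinearMap.charpoly_natDegree, finrank_lattice]
    exact_mod_cast (Fermat.Agent.S20.result N).trans hg
  obtain ⟨b, hb, h2⟩ := exists_root (LinearMap.charpoly_monic _) hd h1
  refine ⟨abs_lt_of_isRoot hℓ hℓN h1, b, abs_lt_of_isRoot hℓ hℓN hb, ?_⟩
  rw [← h2]
  exact eisenstein_dvd hn hℓ hℓN

/-! ### Conductors 23 and 29 -/

theorem genus_twentythree : genusFormula 23 = 2 :=
  genus_eq (a := 24) (b := 0) (c := 0) (d := 2) (by decide +kernel) (by decide) (by decide)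
    (by decide +kernel) (by norm_num)

theorem genus_twentynine : genusFormula 29 = 2 :=
  genus_eq (a := 30) (b := 2) (c := 0) (d := 2) (by decide +kernel) (by decide) (by decide)
    (by decide +kernel) (by norm_num)

theorem numerator_twentythree : eisensteinNumerator 23 = 11 := by decide

theorem numerator_twentynine : eisensteinNumerator 29 = 7 := by decide

/-- No normalised eigenform of level `23` has an integral eigenvalue for `T₂`. -/
theorem coeff_two_ne_23 {f : CuspForm (Gamma0 23) 2} (hf : f.IsNormalizedEigenform) (a : ℤ) :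
    qCoeff f 2 ≠ a := by
  intro ha
  have : Fact (Nat.Prime 23) := ⟨by norm_num⟩
  obtain ⟨h1, b, h2, h3⟩ := exists_int (N := 23) genus_twentythree
    (by rw [numerator_twentythree]; norm_num) (ℓ := 2) (by norm_num) (by norm_num) hf ha
  rw [numerator_twentythree] at h3
  rw [abs_lt] at h1 h2
  obtain ⟨h4, h5⟩ := h1
  obtain ⟨h6, h7⟩ := h2
  norm_num at h4 h5 h6 h7 h3
  interval_cases a <;> interval_cases b <;> revert h3 <;> decide

/-- No normalised eigenform of level `29` has an integral eigenvalue for `T₂`. -/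
theorem coeff_two_ne_29 {f : CuspForm (Gamma0 29) 2} (hf : f.IsNormalizedEigenform) (a : ℤ) :
    qCoeff f 2 ≠ a := by
  intro ha
  have : Fact (Nat.Prime 29) := ⟨by norm_num⟩
  obtain ⟨h1, b, h2, h3⟩ := exists_int (N := 29) genus_twentynine
    (by rw [numerator_twentynine]; norm_num) (ℓ := 2) (by norm_num) (by norm_num) hf ha
  rw [numerator_twentynine] at h3
  rw [abs_lt] at h1 h2
  obtain ⟨h4, h5⟩ := h1
  obtain ⟨h6, h7⟩ := h2
  norm_num at h4 h5 h6 h7 h3
  interval_cases a <;> interval_cases b <;> revert h3 <;> decide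

/-- **There is no semistable elliptic curve of conductor `23`.** -/
theorem conductorLevel_ne_23 (W : WeierstrassCurve ℤ) (hΔ : W.Δ ≠ 0) (hW : W.IsSemistableModel) :
    W.conductorLevel ≠ 23 := by
  intro h
  have h1 := modular_conductorLevel W hΔ hW
  rw [h] at h1
  obtain ⟨f, hf, h2⟩ := h1
  exact coeff_two_ne_23 hf _ (h2 2 (by norm_num) (by norm_num))

/-- **There is no semistable elliptic curve of conductor `29`.** -/
theorem conductorLevel_ne_29 (W : WeierstrassCurve ℤ) (hΔ : W.Δ ≠ 0) (hW : W.IsSemistableModel) :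
    W.conductorLevel ≠ 29 := by
  intro h
  have h1 := modular_conductorLevel W hΔ hW
  rw [h] at h1
  obtain ⟨f, hf, h2⟩ := h1
  exact coeff_two_ne_29 hf _ (h2 2 (by norm_num) (by norm_num))

/-! ### All semistable conductors below 31 -/

/-- `y² + xy + y = x³ + x + 2`, of conductor `30` -/
def E30 : WeierstrassCurve ℤ := ⟨1, 0, 1, 1, 2⟩

theorem E30_Δ : E30.Δ = -2160 := by norm_num [E30, WeierstrassCurve.Δ, b₂, b₄, b₆, b₈]
theorem E30_c₄ : E30.c₄ = -71 := by norm_num [E30, WeierstrassCurve.c₄, b₂, b₄]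

theorem E30_semistable : E30.IsSemistableModel :=
  isSemistableModel_of_gcd (by rw [E30_Δ, E30_c₄]; decide)

theorem conductorLevel_E30 : E30.conductorLevel = 30 := by
  rw [conductorLevel_eq _ (by rw [E30_Δ]; norm_num), E30_Δ]; decide +kernel

/-- **Semistable conductors less than `31`**: a positive integer `N < 31` is the conductor of a semistable elliptic
curve over `ℚ` if and only if `N = 11, 14, 15, 17, 19, 21, 26` or `30`. -/
theorem exists_conductorLevel_iff {N : ℕ} (hN : N < 31) :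
    (∃ W : WeierstrassCurve ℤ, W.Δ ≠ 0 ∧ W.IsSemistableModel ∧ W.conductorLevel = N) ↔
      N ∈ ({11, 14, 15, 17, 19, 21, 26, 30} : Finset ℕ) := by
  constructor
  · rintro ⟨W, hΔ, hW, rfl⟩
    have h1 := eleven_le_conductor W hΔ hW
    rw [← conductorLevel_eq W hΔ] at h1
    have h22 := conductorLevel_ne_22 W hΔ hW
    have h23 := conductorLevel_ne_23 W hΔ hW
    have h29 := conductorLevel_ne_29 W hΔ hW
    have hsq := W.squarefree_conductorLevel
    obtain ⟨h11, h13⟩ := h1
    generalize W.conductorLevel = N at *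
    interval_cases N
    all_goals first
      | decide
      | exact absurd rfl h13
      | exact absurd rfl h22
      | exact absurd rfl h23
      | exact absurd rfl h29
      | exact absurd hsq (by decide +kernel)
  · intro h
    simp only [Finset.mem_insert, Finset.mem_singleton] at h
    rcases h with rfl | rfl | rfl | rfl | rfl | rfl | rfl | rfl
    · exact ⟨E11, by rw [E11_Δ]; norm_num, E11_semistable, conductorLevel_E11⟩
    · exact ⟨E14, by rw [E14_Δ]; norm_num, E14_semistable, conductorLevel_E14⟩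
    · exact ⟨E15, by rw [E15_Δ]; norm_num, E15_semistable, conductorLevel_E15⟩
    · exact ⟨E17, by rw [E17_Δ]; norm_num, E17_semistable, conductorLevel_E17⟩
    · exact ⟨E19, by rw [E19_Δ]; norm_num, E19_semistable, conductorLevel_E19⟩
    · exact ⟨E21, by rw [E21_Δ]; norm_num, E21_semistable, conductorLevel_E21⟩
    · exact ⟨E26a, by rw [E26a_Δ]; norm_num, E26a_semistable, conductorLevel_E26a⟩
    · exact ⟨E30, by rw [E30_Δ]; norm_num, E30_semistable, conductorLevel_E30⟩

end Fermat.Agent.Cor.Conductor23
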