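import Fermat.Agent.Cor.NagellLutz
import Fermat.Agent.Cor.CanonicalHeight

/-!
# Congruent numbers

A positive integer `n` is *congruent* if it is the area of a right triangle with rational sides.
For `n` squarefree: `n` is congruent iff the elliptic curve `y² = x³ - n²x` has positive rank over
`ℚ`, iff it has infinitely many rational points; its torsion subgroup is its `2`-torsion.
-/

namespace Fermat.Agent.Cor.MW

open WeierstrassCurve WeierstrassCurve.Affine WeierstrassCurve.Affine.Point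
open Fermat.Agent.H08

section Rank

variable {K : Type*} [Field K] [NumberField K] [DecidableEq K] (E : WeierstrassCurve K)
  [E.IsElliptic]

/-- The rank is positive iff there is a point of infinite order. -/
theorem rank_pos_iff : 0 < Module.finrank ℤ E.toAffine.Point ↔
    ∃ P : E.toAffine.Point, ¬ IsOfFinAddOrder P := by
  have hb := mwBasis_spec E
  constructor
  · intro h
    refine ⟨mwBasis E ⟨0, h⟩, fun ht ↦ ?_⟩
    obtain ⟨n, hn, hx⟩ := isOfFinAddOrder_iff_nsmul_eq_zero.mp ht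
    have h1 := Fintype.linearIndependent_iff.mp hb.indep
      (Pi.single (⟨0, h⟩ : Fin (Module.finrank ℤ E.toAffine.Point)) (n : ℤ))
      (by
        rw [Finset.sum_eq_single (⟨0, h⟩ : Fin (Module.finrank ℤ E.toAffine.Point))]
        · rw [Pi.single_eq_same, natCast_zsmul, hx]
        · intro j _ hj; rw [Pi.single_eq_of_ne hj, zero_smul]
        · intro h; exact absurd (Finset.mem_univ _) h) ⟨0, h⟩
    rw [Pi.single_eq_same] at h1
    exact hn.ne' (by exact_mod_cast h1)
  · rintro ⟨P, hP⟩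
    by_contra h
    have h0 : Module.finrank ℤ E.toAffine.Point = 0 := by omega
    obtain ⟨m, hm⟩ := hb.span P
    have : IsEmpty (Fin (Module.finrank ℤ E.toAffine.Point)) := by rw [h0]; infer_instance
    rw [Finset.univ_eq_empty, Finset.sum_empty, sub_zero] at hm
    exact hP hm

/-- `E(K)` is infinite iff the rank is positive. -/
theorem infinite_iff : Infinite E.toAffine.Point ↔ 0 < Module.finrank ℤ E.toAffine.Point := by
  rw [rank_pos_iff]
  constructor
  · intro h
    by_contra hc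
    push Not at hc
    have h1 : Finite (AddCommGroup.torsion E.toAffine.Point) := torsion_finite K E
    have h2 : Finite E.toAffine.Point :=
      Finite.of_injective (fun P ↦ (⟨P, hc P⟩ : AddCommGroup.torsion E.toAffine.Point))
        fun P Q h ↦ congrArg Subtype.val h
    exact not_finite E.toAffine.Point
  · rintro ⟨P, hP⟩
    exact Infinite.of_injective _ (injective_nsmul_iff_not_isOfFinAddOrder.mpr hP)

end Rank

/-- `n` is the area of a right triangle with rational sides. -/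
def IsCongruent (n : ℕ) : Prop :=
  ∃ a b c : ℚ, 0 < a ∧ 0 < b ∧ 0 < c ∧ a ^ 2 + b ^ 2 = c ^ 2 ∧ a * b / 2 = n

/-- The curve `y² = x³ - n²x` over `ℤ`. -/
def En (n : ℕ) : WeierstrassCurve ℤ := ⟨0, 0, 0, -(n : ℤ) ^ 2, 0⟩

lemma En_coeffs (n : ℕ) : (WQ (En n)).a₁ = 0 ∧ (WQ (En n)).a₂ = 0 ∧ (WQ (En n)).a₃ = 0 ∧
    (WQ (En n)).a₄ = -(n : ℚ) ^ 2 ∧ (WQ (En n)).a₆ = 0 := by
  refine ⟨?_, ?_, ?_, ?_, ?_⟩ <;> simp [WQ, En]

lemma En_b (n : ℕ) : (WQ (En n)).b₂ = 0 ∧ (WQ (En n)).b₄ = -2 * (n : ℚ) ^ 2 ∧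
    (WQ (En n)).b₆ = 0 ∧ (WQ (En n)).b₈ = -(n : ℚ) ^ 4 := by
  obtain ⟨h1, h2, h3, h4, h6⟩ := En_coeffs n
  refine ⟨?_, ?_, ?_, ?_⟩
  · rw [WeierstrassCurve.b₂, h1, h2]; ring
  · rw [WeierstrassCurve.b₄, h1, h3, h4]; ring
  · rw [WeierstrassCurve.b₆, h3, h6]; ring
  · rw [WeierstrassCurve.b₈, h1, h2, h3, h4, h6]; ring

lemma En_Δ (n : ℕ) : (WQ (En n)).Δ = 64 * (n : ℚ) ^ 6 := by
  obtain ⟨h2, h4, h6, h8⟩ := En_b n
  rw [WeierstrassCurve.Δ, h2, h4, h6, h8]; ring

lemma En_isElliptic {n : ℕ} (hn : 0 < n) : (WQ (En n)).IsElliptic := by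
  refine ⟨isUnit_iff_ne_zero.mpr ?_⟩
  rw [En_Δ]
  have : (n : ℚ) ≠ 0 := by exact_mod_cast hn.ne'
  positivity

lemma En_eqn {n : ℕ} {P : (WQ (En n)).Point} (hP : P ≠ 0) :
    py P ^ 2 = px P ^ 3 - (n : ℚ) ^ 2 * px P := by
  obtain ⟨h1, h2, h3, h4, h6⟩ := En_coeffs n
  have := eqn_of_ne_zero hP
  rw [h1, h2, h3, h4, h6] at this
  linear_combination this

/-- A point of order two has `y = 0`, and conversely. -/
lemma En_two {n : ℕ} {P : (WQ (En n)).Point} (hP : P ≠ 0) : 2 • P = 0 ↔ py P = 0 := by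
  obtain ⟨h1, h2, h3, h4, h6⟩ := En_coeffs n
  have hneg : py (-P) = -py P := by
    rw [py_neg hP, h1, h3]; ring
  constructor
  · intro h
    rw [two_nsmul] at h
    have h5 : P = -P := eq_neg_of_add_eq_zero_left h
    have h6 : py P = -py P := by conv_lhs => rw [h5, hneg]
    linarith
  · intro h
    obtain ⟨x, y, hns, rfl⟩ := exists_eq_some hP
    rw [two_nsmul]
    have hy : y = 0 := h
    refine add_self_of_Y_eq ?_
    rw [WeierstrassCurve.Affine.negY, h1, h3, hy]; ring

/-- The coordinates of `2P`: `x(2P)`, `x(2P) ± n` are squares. -/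
lemma En_double {n : ℕ} {P : (WQ (En n)).Point} (hP : P ≠ 0) (hy : py P ≠ 0) :
    px (P + P) = ((px P ^ 2 + (n : ℚ) ^ 2) / (2 * py P)) ^ 2 := by
  obtain ⟨h2, h4, h6, h8⟩ := En_b n
  have h2P : P + P ≠ 0 := by
    rw [← two_nsmul]; exact fun h ↦ hy ((En_two hP).mp h)
  have hd := px_double hP h2P
  rw [h2, h4, h6, h8] at hd
  have he := En_eqn hP
  have h5 : px (P + P) * (4 * py P ^ 2) = (px P ^ 2 + (n : ℚ) ^ 2) ^ 2 := by
    rw [he]; linear_combination hd
  rw [div_pow, eq_div_iff (by positivity), ← h5]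
  ring

lemma En_double_sub {n : ℕ} {P : (WQ (En n)).Point} (hP : P ≠ 0) (hy : py P ≠ 0) :
    px (P + P) - n = ((px P ^ 2 - 2 * n * px P - (n : ℚ) ^ 2) / (2 * py P)) ^ 2 := by
  have he := En_eqn hP
  rw [En_double hP hy]
  field_simp
  linear_combination (-4 * (n : ℚ)) * he

lemma En_double_add {n : ℕ} {P : (WQ (En n)).Point} (hP : P ≠ 0) (hy : py P ≠ 0) :
    px (P + P) + n = ((px P ^ 2 + 2 * n * px P - (n : ℚ) ^ 2) / (2 * py P)) ^ 2 := by
  have he := En_eqn hP
  rw [En_double hP hy]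
  field_simp
  linear_combination (4 * (n : ℚ)) * he

/-- A rational number whose square is an integer is an integer. -/
lemma int_of_sq {x : ℚ} {m : ℤ} (h : (m : ℚ) = x ^ 2) : ∃ k : ℤ, x = k ∧ m = k ^ 2 := by
  have hx : ∃ k : ℤ, x = k := by
    refine isInt_of_val fun p hp ↦ ?_
    by_contra hc
    rw [not_le] at hc
    have h1 : Rat.padicValuation p (m : ℚ) ≤ 1 := by
      rw [Rat.padicValuation_cast]; exact Int.padicValuation_le_one _ _
    rw [h, map_pow] at h1
    exact absurd h1 (not_le.mpr (one_lt_pow₀ hc two_ne_zero))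
  obtain ⟨k, hk⟩ := hx
  refine ⟨k, hk, ?_⟩
  rw [hk] at h
  exact_mod_cast h

/-- **Torsion of `E_n`**: for `n` squarefree every rational torsion point of `y² = x³ - n²x` is
killed by two. -/
theorem En_torsion {n : ℕ} (hn : Squarefree n) {P : (WQ (En n)).Point}
    (ht : IsOfFinAddOrder P) : 2 • P = 0 := by
  have hn0 : 0 < n := Nat.pos_of_ne_zero hn.ne_zero
  have hnQ : (0 : ℚ) < n := by exact_mod_cast hn0
  have ha₁ : (2 : ℤ) ∣ (En n).a₁ := dvd_zero _
  by_contra hne
  have hN0 : 0 < addOrderOf P := ht.addOrderOf_pos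
  have hmul : ∀ k : ℕ, IsOfFinAddOrder (k • P) := fun k ↦ ht.nsmul
  -- odd order
  have hodd : ∀ R : (WQ (En n)).Point, R ≠ 0 → IsOfFinAddOrder R →
      (∃ k : ℕ, (2 * k + 1) • R = 0) → False := by
    rintro R hR0 hRt ⟨k, hk⟩
    -- `R = 2R'`, `R' = 2R''`
    have hhalf : ∀ S : (WQ (En n)).Point, (2 * k + 1) • S = 0 → S ≠ 0 →
        (2 * k + 1) • ((k + 1) • S) = 0 ∧ ((k + 1) • S) ≠ 0 ∧ S = (k + 1) • S + (k + 1) • S := by
      intro S hS hS0
      have h1 : S = (k + 1) • S + (k + 1) • S := by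
        rw [← add_nsmul, show k + 1 + (k + 1) = (2 * k + 1) + 1 by ring, add_nsmul, hS, zero_add,
          one_nsmul]
      refine ⟨?_, ?_, h1⟩
      · rw [smul_smul, mul_comm, ← smul_smul, hS, nsmul_zero]
      · intro h0
        rw [h0, add_zero] at h1
        exact hS0 h1
    have hyne : ∀ S : (WQ (En n)).Point, (2 * k + 1) • S = 0 → S ≠ 0 → py S ≠ 0 := by
      intro S hS hS0 hy
      have h2 := (En_two hS0).mpr hy
      apply hS0
      have : (2 * k + 1) • S = k • (2 • S) + S := by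
        rw [add_nsmul, one_nsmul, smul_smul, mul_comm]
      rw [this, h2, nsmul_zero, zero_add] at hS
      exact hS
    obtain ⟨k1, h10, e1⟩ := hhalf R hk hR0
    set R' := (k + 1) • R with hR'
    obtain ⟨k2, h20, e2⟩ := hhalf R' k1 h10
    set R'' := (k + 1) • R' with hR''
    have hR't : IsOfFinAddOrder R' := hRt.nsmul
    have y1 := hyne R' k1 h10
    have y2 := hyne R'' k2 h20
    -- integrality
    obtain ⟨X, Y, hX, hY⟩ := torsion_integral h10 hR't (Or.inr ha₁)
    obtain ⟨Z, _, hZ, -⟩ := torsion_integral hR0 hRt (Or.inr ha₁)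
    have s0 := En_double h20 y2
    have s1 := En_double_sub h20 y2
    have s2 := En_double_add h20 y2
    rw [← e2, hX] at s0 s1 s2
    obtain ⟨u, -, hu⟩ := int_of_sq s0
    obtain ⟨v, -, hv⟩ := int_of_sq (m := X - n) (by push_cast; exact s1)
    obtain ⟨w, -, hw⟩ := int_of_sq (m := X + n) (by push_cast; exact s2)
    -- `4 Y² Z = (X² + n²)²`
    have t0 : Z * (4 * Y ^ 2) = (X ^ 2 + (n : ℤ) ^ 2) ^ 2 := by
      have := En_double h10 y1
      rw [← e1, hX, hY, hZ] at this
      have hY0 : (Y : ℚ) ≠ 0 := by rw [← hY]; exact y1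
      rw [div_pow, eq_div_iff (by positivity)] at this
      have h' : ((Z * (4 * Y ^ 2) : ℤ) : ℚ) = (((X ^ 2 + (n : ℤ) ^ 2) ^ 2 : ℤ) : ℚ) := by
        push_cast; linear_combination this
      exact_mod_cast h'
    have heq : Y ^ 2 = u ^ 2 * v ^ 2 * w ^ 2 := by
      have := En_eqn h10
      rw [hX, hY] at this
      have h' : ((Y ^ 2 : ℤ) : ℚ) = ((X * (X - n) * (X + n) : ℤ) : ℚ) := by
        push_cast; linear_combination this
      have h'' : Y ^ 2 = X * (X - n) * (X + n) := by exact_mod_cast h'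
      rw [h'', hv, hw]
      congr 2
    have hdvd : u ∣ (n : ℤ) ^ 2 := by
      have h1 : u ^ 2 ∣ (X ^ 2 + (n : ℤ) ^ 2) ^ 2 :=
        ⟨Z * (4 * (v ^ 2 * w ^ 2)), by rw [← t0, heq]; ring⟩
      have h2 : u ∣ X ^ 2 + (n : ℤ) ^ 2 := (Int.pow_dvd_pow_iff two_ne_zero).mp h1
      have h3 : u ∣ X ^ 2 := by rw [hu]; exact ⟨u ^ 3, by ring⟩
      exact (dvd_add_right h3).mp h2
    have hvu : (n : ℤ) = u ^ 2 - v ^ 2 := by rw [← hu, ← hv]; ring
    have hunit : IsUnit u := by
      by_contra hnu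
      have hu0 : u.natAbs ≠ 1 := fun h ↦ hnu (Int.isUnit_iff_natAbs_eq.mpr h)
      obtain ⟨p, hp, hpu⟩ := Nat.exists_prime_and_dvd hu0
      have hpZ : Prime (p : ℤ) := Nat.prime_iff_prime_int.mp hp
      have hpu' : (p : ℤ) ∣ u := Int.natCast_dvd.mpr hpu
      have hpn : (p : ℤ) ∣ n := hpZ.dvd_of_dvd_pow (hpu'.trans hdvd)
      have hpv : (p : ℤ) ∣ v := by
        refine hpZ.dvd_of_dvd_pow (n := 2) ?_
        have : v ^ 2 = u ^ 2 - n := by rw [hvu]; ring
        rw [this]
        exact dvd_sub (Dvd.dvd.pow hpu' two_ne_zero) hpn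
      have hpp : (p : ℤ) * p ∣ n := by
        rw [hvu, ← pow_two]
        exact dvd_sub (pow_dvd_pow_of_dvd hpu' 2) (pow_dvd_pow_of_dvd hpv 2)
      have hpp' : p * p ∣ n := by exact_mod_cast hpp
      exact hp.one_lt.ne' (Nat.isUnit_iff.mp (hn p hpp'))
    have hu2 : u ^ 2 = 1 := by
      rcases Int.isUnit_iff.mp hunit with h | h <;> rw [h] <;> norm_num
    rw [hu2] at hvu
    have hv2 : v ^ 2 = 0 := by
      have h1 : 0 ≤ v ^ 2 := sq_nonneg v
      have h2 : (1 : ℤ) ≤ n := by exact_mod_cast hn0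
      linarith
    have : Y ^ 2 = 0 := by rw [heq, hv2]; ring
    have hY0 : Y = 0 := pow_eq_zero_iff two_ne_zero |>.mp this
    rw [hY0] at hY
    exact y1 (by rw [hY]; norm_num)
  -- order four
  have hfour : ∀ R : (WQ (En n)).Point, 2 • R ≠ 0 → 2 • (2 • R) = 0 → False := by
    intro R h2R h4R
    have hR0 : R ≠ 0 := by rintro rfl; exact h2R (nsmul_zero _)
    have hy : py R ≠ 0 := fun h ↦ h2R ((En_two hR0).mpr h)
    have hy2 := (En_two h2R).mp h4R
    have he := En_eqn h2R
    rw [hy2] at he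
    rw [two_nsmul] at he
    have s0 := En_double hR0 hy
    have s1 := En_double_sub hR0 hy
    have s2 := En_double_add hR0 hy
    set x := px (R + R)
    have hx : x = 0 ∨ x = n ∨ x = -n := by
      have : x * ((x - n) * (x + n)) = 0 := by linear_combination -he
      rcases mul_eq_zero.mp this with h | h
      · exact Or.inl h
      · rcases mul_eq_zero.mp h with h | h
        · exact Or.inr (Or.inl (by linarith))
        · exact Or.inr (Or.inr (by linarith))
    rcases hx with hx | hx | hx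
    · rw [hx] at s1
      have := sq_nonneg ((px R ^ 2 - 2 * n * px R - (n : ℚ) ^ 2) / (2 * py R))
      linarith
    · rw [hx] at s0 s2
      set s := (px R ^ 2 + (n : ℚ) ^ 2) / (2 * py R)
      set t := (px R ^ 2 + 2 * n * px R - (n : ℚ) ^ 2) / (2 * py R)
      have hs : s ≠ 0 := by
        intro h; rw [h] at s0; norm_num at s0; exact hn0.ne' (by exact_mod_cast s0)
      have h2 : (2 : ℚ) = (t / s) ^ 2 := by
        rw [div_pow, ← s0, ← s2]; field_simp; ring
      obtain ⟨k, -, hk⟩ := int_of_sq (m := 2) (by push_cast; exact h2)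
      have hk1 : k ^ 2 < 2 ^ 2 := by rw [← hk]; norm_num
      have hk2 : |k| < 2 := by rwa [sq_lt_sq, abs_two] at hk1
      rw [abs_lt] at hk2
      have : k = -1 ∨ k = 0 ∨ k = 1 := by omega
      rcases this with h | h | h <;> rw [h] at hk <;> norm_num at hk
    · rw [hx] at s0
      have := sq_nonneg ((px R ^ 2 + (n : ℚ) ^ 2) / (2 * py R))
      linarith
  -- the order of `P` is a power of two times an odd number
  obtain ⟨e, m, hm, hN⟩ := Nat.exists_eq_two_pow_mul_odd hN0.ne'
  obtain ⟨k, hk⟩ := hm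
  by_cases hm1 : m = 1
  · -- a power of two
    rw [hm1, mul_one] at hN
    have he2 : 2 ≤ e := by
      by_contra hc
      have : e = 0 ∨ e = 1 := by omega
      rcases this with h | h
      · rw [h, pow_zero] at hN
        rw [AddMonoid.addOrderOf_eq_one_iff] at hN
        exact hne (by rw [hN, nsmul_zero])
      · rw [h, pow_one] at hN
        exact hne (by rw [← hN, addOrderOf_nsmul_eq_zero])
    obtain ⟨f, rfl⟩ := Nat.exists_eq_add_of_le he2
    refine hfour (2 ^ f • P) ?_ ?_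
    · intro h0
      rw [smul_smul] at h0
      have h1 := Nat.le_of_dvd (by positivity) (addOrderOf_dvd_of_nsmul_eq_zero h0)
      rw [hN, pow_add] at h1
      have : 0 < 2 ^ f := by positivity
      omega
    · rw [smul_smul, smul_smul, show 2 * 2 * 2 ^ f = addOrderOf P by rw [hN]; ring,
        addOrderOf_nsmul_eq_zero]
  · refine hodd (2 ^ e • P) ?_ (hmul _) ⟨k, ?_⟩
    · intro h0
      have h1 := Nat.le_of_dvd (by positivity) (addOrderOf_dvd_of_nsmul_eq_zero h0)
      rw [hN] at h1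
      have h2 : 0 < 2 ^ e := by positivity
      have h3 : 2 ≤ m := by
        have : 0 < m := Nat.pos_of_ne_zero (by rintro rfl; omega)
        omega
      nlinarith
    · rw [smul_smul, ← hk, mul_comm, ← hN, addOrderOf_nsmul_eq_zero]

/-- A positive integer is congruent iff `y² = x³ - n²x` has a rational point with `y ≠ 0`. -/
theorem isCongruent_iff_exists {n : ℕ} (hn : 0 < n) :
    IsCongruent n ↔ ∃ x y : ℚ, y ≠ 0 ∧ y ^ 2 = x ^ 3 - (n : ℚ) ^ 2 * x := by
  have hnQ : (0 : ℚ) < n := by exact_mod_cast hn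
  constructor
  · rintro ⟨a, b, c, ha, hb, hc, h1, h2⟩
    refine ⟨n * (a + c) / b, 2 * n ^ 2 * (a + c) / b ^ 2, by positivity, ?_⟩
    have h3 : (n : ℚ) = a * b / 2 := h2.symm
    rw [h3]
    field_simp
    linear_combination h1
  · rintro ⟨x, y, hy, h⟩
    have hx : x ≠ 0 := by rintro rfl; apply hy; have : y ^ 2 = 0 := by rw [h]; ring
                          exact pow_eq_zero_iff two_ne_zero |>.mp this
    have hxn : x ^ 2 - (n : ℚ) ^ 2 ≠ 0 := by
      intro h0
      apply hy
      have : y ^ 2 = 0 := by rw [h]; linear_combination x * h0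
      exact pow_eq_zero_iff two_ne_zero |>.mp this
    refine ⟨|(x ^ 2 - n ^ 2) / y|, |2 * n * x / y|, |(x ^ 2 + n ^ 2) / y|, ?_, ?_, ?_, ?_, ?_⟩
    · exact abs_pos.mpr (div_ne_zero hxn hy)
    · exact abs_pos.mpr (div_ne_zero (by positivity) hy)
    · exact abs_pos.mpr (div_ne_zero (by positivity) hy)
    · rw [sq_abs, sq_abs, sq_abs]
      field_simp
      ring
    · rw [← abs_mul]
      have h5 : (x ^ 2 - (n : ℚ) ^ 2) / y * (2 * n * x / y) = 2 * n := by
        field_simp
        linear_combination (-1 : ℚ) * h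
      rw [h5, abs_of_pos (by positivity)]
      ring

/-- **The congruent number problem and elliptic curves.** A squarefree positive integer `n` is
congruent iff the elliptic curve `y² = x³ - n²x` has positive rank over `ℚ`. -/
theorem isCongruent_iff_rank {n : ℕ} (hn : Squarefree n) :
    IsCongruent n ↔ 0 < Module.finrank ℤ (WQ (En n)).Point := by
  have hn0 : 0 < n := Nat.pos_of_ne_zero hn.ne_zero
  have := En_isElliptic hn0
  rw [isCongruent_iff_exists hn0, rank_pos_iff (WQ (En n))]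
  constructor
  · rintro ⟨x, y, hy, h⟩
    obtain ⟨h1, h2, h3, h4, h6⟩ := En_coeffs n
    have heq : (WQ (En n)).Equation x y := by
      rw [WeierstrassCurve.Affine.equation_iff, h1, h2, h3, h4, h6]
      linear_combination h
    have hns : (WQ (En n)).Nonsingular x y :=
      (WeierstrassCurve.Affine.equation_iff_nonsingular (W := WQ (En n))).mp heq
    refine ⟨Point.some x y hns, fun ht ↦ hy ?_⟩
    exact (En_two (some_ne_zero hns)).mp (En_torsion hn ht)
  · rintro ⟨P, hP⟩
    have hP0 : P ≠ 0 := by rintro rfl; exact hP IsOfFinAddOrder.zero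
    refine ⟨px P, py P, fun hy ↦ hP ?_, En_eqn hP0⟩
    exact isOfFinAddOrder_iff_nsmul_eq_zero.mpr ⟨2, two_pos, (En_two hP0).mpr hy⟩

/-- ... iff it has infinitely many rational points. -/
theorem isCongruent_iff_infinite {n : ℕ} (hn : Squarefree n) :
    IsCongruent n ↔ Infinite (WQ (En n)).Point := by
  have := En_isElliptic (Nat.pos_of_ne_zero hn.ne_zero)
  rw [isCongruent_iff_rank hn, infinite_iff]

/-- `5`, `6` and `7` are congruent numbers. -/
theorem isCongruent_five : IsCongruent 5 := ⟨3 / 2, 20 / 3, 41 / 6, by norm_num⟩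
theorem isCongruent_six : IsCongruent 6 := ⟨3, 4, 5, by norm_num⟩
theorem isCongruent_seven : IsCongruent 7 := ⟨35 / 12, 24 / 5, 337 / 60, by norm_num⟩

end Fermat.Agent.Cor.MW
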