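import Fermat.Agent.Cor.InfiniteZeros
import Mathlib.Analysis.Calculus.Deriv.Star

/-!
# Symmetries of the L-function of a semistable elliptic curve

Let `W` be a semistable elliptic curve over `ℚ` with root number `w`.
* `L(W, s̄)` and `Λ(W, s̄)` are the complex conjugates of `L(W, s)` and `Λ(W, s)`;
* the zeros in the critical strip are symmetric with respect to the real axis and to the critical line `Re s = 1`;
* `Λ(W, 1 + it)` is real for `w = 1` and purely imaginary for `w = -1` (`t` real);
* for every `T` there is a zero in the critical strip with `T < Im s`.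

This file is not used by any of the statement files.
-/

set_option autoImplicit false

noncomputable section

namespace Fermat.Agent.Cor.CriticalLine

open Complex Filter Set ComplexConjugate
open Fermat.Agent.Cor.LWeil Fermat.Agent.Cor.AffCount
open scoped Real Topology

variable {W : WeierstrassCurve ℤ} {L Λ : ℂ → ℂ}

theorem differentiable_conj_conj {f : ℂ → ℂ} (hf : Differentiable ℂ f) :
    Differentiable ℂ (conj ∘ f ∘ conj) := fun z => by
  have h := (hf (conj z)).conj_conj
  rwa [Complex.conj_conj] at h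

theorem eq_of_re_gt {f g : ℂ → ℂ} (hf : Differentiable ℂ f) (hg : Differentiable ℂ g)
    (h : ∀ s : ℂ, 3 / 2 < s.re → f s = g s) : f = g := by
  have h1 : AnalyticOnNhd ℂ f univ := fun z _ => hf.analyticAt z
  have h2 : AnalyticOnNhd ℂ g univ := fun z _ => hg.analyticAt z
  refine h1.eq_of_eventuallyEq h2 (z₀ := 2) ?_
  filter_upwards [(isOpen_lt continuous_const Complex.continuous_re).mem_nhds
      (show (3 / 2 : ℝ) < (2 : ℂ).re by norm_num)] with z hz
  exact h z hz

theorem arg_natCast_ne_pi (n : ℕ) : (n : ℂ).arg ≠ π := by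
  rw [Complex.natCast_arg]
  exact Real.pi_ne_zero.symm

/-- **`L(W, s̄)` is the complex conjugate of `L(W, s)`.** -/
theorem L_conj (h : IsHasseWeil W L Λ) (s : ℂ) : L (conj s) = conj (L s) := by
  have key : L = conj ∘ L ∘ conj := by
    refine eq_of_re_gt h.differentiable_L (differentiable_conj_conj h.differentiable_L)
      fun z hz => ?_
    have h1 := h.lSeriesHasSum z hz
    have h2 := h.lSeriesHasSum (conj z) (by rwa [Complex.conj_re])
    unfold LSeriesHasSum at h1 h2
    have h3 := h2.map (starRingEnd ℂ) Complex.continuous_conj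
    have e : (starRingEnd ℂ) ∘ LSeries.term (fun n => (aN W n : ℂ)) (conj z) =
        LSeries.term (fun n => (aN W n : ℂ)) z := by
      funext n
      rw [Function.comp_apply, LSeries.term_def, LSeries.term_def]
      split_ifs with hn
      · simp
      · rw [map_div₀, Complex.cpow_conj _ _ (arg_natCast_ne_pi n), Complex.conj_conj]
        simp
    rw [e] at h3
    exact h1.unique h3
  have h4 := congrFun key (conj s)
  simpa using h4

/-- **`Λ(W, s̄)` is the complex conjugate of `Λ(W, s)`.** -/
theorem Λ_conj (h : IsHasseWeil W L Λ) (s : ℂ) : Λ (conj s) = conj (Λ s) := by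
  have key : Λ = conj ∘ Λ ∘ conj := by
    refine eq_of_re_gt h.differentiable_Λ (differentiable_conj_conj h.differentiable_Λ)
      fun z hz => ?_
    have hz1 : ∀ n : ℕ, z ≠ -n := Parity.ne_neg_nat_of_re_pos (by linarith)
    have hz2 : ∀ n : ℕ, conj z ≠ -n :=
      Parity.ne_neg_nat_of_re_pos (by rw [Complex.conj_re]; linarith)
    rw [Function.comp_apply, Function.comp_apply, h.Λ_eq z hz1, h.Λ_eq (conj z) hz2, L_conj h,
      Complex.Gamma_conj]
    have e1 : (W.conductorLevel : ℂ) ^ (conj z / 2) =
        conj ((W.conductorLevel : ℂ) ^ (z / 2)) := by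
      rw [show conj z / 2 = conj (z / 2) by rw [map_div₀, map_ofNat],
        Complex.cpow_conj _ _ (arg_natCast_ne_pi _)]
      simp
    have e2 : (2 * (π : ℂ)) ^ (-conj z) = conj ((2 * (π : ℂ)) ^ (-z)) := by
      have harg : (2 * (π : ℂ)).arg ≠ π := by
        rw [show (2 * (π : ℂ)) = ((2 * π : ℝ) : ℂ) by push_cast; ring,
          Complex.arg_ofReal_of_nonneg (by positivity)]
        exact Real.pi_ne_zero.symm
      rw [show -conj z = conj (-z) by simp, Complex.cpow_conj _ _ harg, map_mul, map_ofNat,
        Complex.conj_ofReal]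
    rw [e1, e2]
    simp
  have h4 := congrFun key (conj s)
  simpa using h4

/-- the zeros of `L` with `0 < Re s < 2` are symmetric with respect to the point `1` -/
theorem two_sub_zero (h : IsHasseWeil W L Λ) {s : ℂ}
    (hs : L s = 0) (h0 : 0 < s.re) (h2 : s.re < 2) : L (2 - s) = 0 := by
  have hz1 : ∀ n : ℕ, s ≠ -n := Parity.ne_neg_nat_of_re_pos h0
  have hz2 : ∀ n : ℕ, 2 - s ≠ -n := Parity.ne_neg_nat_of_re_pos (by
    have : (2 - s).re = 2 - s.re := by simp
    rw [this]
    linarith)
  have h3 : Λ (2 - s) = 0 := by rw [h.functional_equation, h.Λ_eq s hz1, hs]; simp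
  rw [h.Λ_eq _ hz2] at h3
  have hG : Complex.Gamma (2 - s) ≠ 0 := Complex.Gamma_ne_zero hz2
  have hN : (W.conductorLevel : ℂ) ^ ((2 - s) / 2) ≠ 0 := by
    rw [Ne, Complex.cpow_eq_zero_iff]
    push Not
    intro h'
    exact absurd h' (by exact_mod_cast NeZero.ne W.conductorLevel)
  have hpi : (2 * (π : ℂ)) ^ (-(2 - s)) ≠ 0 := by
    rw [Ne, Complex.cpow_eq_zero_iff]
    push Not
    intro h'
    exact absurd h' (by simp [Real.pi_ne_zero])
  rcases mul_eq_zero.mp h3 with h4 | h4
  · exact absurd h4 (mul_ne_zero (mul_ne_zero hN hpi) hG)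
  · exact h4

/-- the zeros of `L` are symmetric with respect to the real axis -/
theorem conj_zero (h : IsHasseWeil W L Λ) {s : ℂ} (hs : L s = 0) : L (conj s) = 0 := by
  rw [L_conj h, hs, map_zero]

theorem conj_Λ_line (h : IsHasseWeil W L Λ) (t : ℝ) :
    conj (Λ (1 + t * I)) = LWeil.rootNumber W * Λ (1 + t * I) := by
  rw [← Λ_conj h, ← h.functional_equation]
  congr 1
  simp only [map_add, map_one, map_mul, Complex.conj_ofReal, Complex.conj_I]
  ring

/-- **On the critical line `Λ` is real if the root number is `1`.** -/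
theorem im_Λ_line (h : IsHasseWeil W L Λ) (hw : LWeil.rootNumber W = 1) (t : ℝ) :
    (Λ (1 + t * I)).im = 0 := by
  have h1 := conj_Λ_line h t
  rw [hw, Int.cast_one, one_mul] at h1
  exact Complex.conj_eq_iff_im.mp h1

/-- **On the critical line `Λ` is purely imaginary if the root number is `-1`.** -/
theorem re_Λ_line (h : IsHasseWeil W L Λ) (hw : LWeil.rootNumber W = -1) (t : ℝ) :
    (Λ (1 + t * I)).re = 0 := by
  have h1 := congrArg Complex.re (conj_Λ_line h t)
  rw [hw] at h1
  simp at h1
  linarith

/-- the zeros in the critical strip have unbounded imaginary parts -/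
theorem exists_zero_im_gt (h : IsHasseWeil W L Λ) (hΔ : W.Δ ≠ 0) (hW : W.IsSemistableModel) (T : ℝ) :
    ∃ s : ℂ, L s = 0 ∧ 1 / 2 ≤ s.re ∧ s.re ≤ 3 / 2 ∧ T < s.im := by
  obtain ⟨s, h1, h2, h3, h4⟩ := InfiniteZeros.exists_zero_im_gt h hΔ hW T
  rcases lt_abs.mp h4 with h5 | h5
  · exact ⟨s, h1, h2, h3, h5⟩
  · exact ⟨conj s, conj_zero h h1, by rwa [Complex.conj_re], by rwa [Complex.conj_re],
      by rwa [Complex.conj_im]⟩

end Fermat.Agent.Cor.CriticalLine
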