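import Mathlib
import Fermat.Agent.Cor.CatalanEven

/-!
# The rational points of `y ^ 2 = x ^ 3 + 1`

* `rat_points`: `y ^ 2 = x ^ 3 + 1` in rational numbers only for `x ∈ {-1, 0, 2}` (Euler), by the
  descent of `Fermat.Agent.Cor.CatalanEven.descent`;
* `card_point`: the Mordell-Weil group of `E : y ^ 2 = x ^ 3 + 1` (conductor `36`) has exactly six
  elements; `isAddCyclic_point`: it is cyclic, generated by `(2, 3)`.

This file is not used by any of the statement files.
-/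

set_option autoImplicit false

namespace Fermat.Agent.Cor.EulerRat

open Fermat.Agent.Cor.CatalanEven

lemma coprime_natAbs {u : ℤ} {e : ℕ} (h : IsCoprime u (e : ℤ)) : Nat.Coprime u.natAbs e := by
  have h1 := Int.isCoprime_iff_gcd_eq_one.mp h
  exact h1

/-- `a ^ 3 + e ^ 6 = v ^ 2` with `a`, `e` coprime, `e > 0` -/
theorem int_points {a v : ℤ} {e : ℕ} (he : 0 < e) (hae : IsCoprime a (e : ℤ))
    (h : a ^ 3 + (e : ℤ) ^ 6 = v ^ 2) : e = 1 ∧ (a = -1 ∨ a = 0 ∨ a = 2) := by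
  have he' : (0 : ℤ) < e := by exact_mod_cast he
  have hmul : (a + (e : ℤ) ^ 2) * (a ^ 2 - a * (e : ℤ) ^ 2 + (e : ℤ) ^ 4) = v ^ 2 := by
    rw [← h]; ring
  have hpos2 : 0 < a ^ 2 - a * (e : ℤ) ^ 2 + (e : ℤ) ^ 4 := by
    have h4 : (0 : ℤ) < (e : ℤ) ^ 4 := by positivity
    nlinarith [sq_nonneg (2 * a - (e : ℤ) ^ 2)]
  have hnn : 0 ≤ a + (e : ℤ) ^ 2 := by
    by_contra hcon
    have h1 : a + (e : ℤ) ^ 2 < 0 := by omega
    have h2 := mul_neg_of_neg_of_pos h1 hpos2
    have h3 := sq_nonneg v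
    omega
  by_cases h3 : (3 : ℤ) ∣ a + (e : ℤ) ^ 2
  · obtain ⟨w, hw⟩ := h3
    have haw : a = 3 * w - (e : ℤ) ^ 2 := by linarith
    have hw0 : 0 ≤ w := by omega
    have e1 : a ^ 2 - a * (e : ℤ) ^ 2 + (e : ℤ) ^ 4 =
        3 * (3 * w ^ 2 - 3 * w * (e : ℤ) ^ 2 + (e : ℤ) ^ 4) := by rw [haw]; ring
    rw [hw, e1] at hmul
    have h9 : (3 : ℤ) ∣ v := by
      apply Int.prime_three.dvd_of_dvd_pow (n := 2)
      rw [← hmul]
      exact ⟨w * (3 * (3 * w ^ 2 - 3 * w * (e : ℤ) ^ 2 + (e : ℤ) ^ 4)), by ring⟩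
    obtain ⟨v', rfl⟩ := h9
    have hmul' : w * (3 * w ^ 2 - 3 * w * (e : ℤ) ^ 2 + (e : ℤ) ^ 4) = v' ^ 2 := by
      apply mul_left_cancel₀ (by norm_num : (9 : ℤ) ≠ 0)
      linear_combination hmul
    have hwe : IsCoprime w (e : ℤ) := by
      refine isCoprime_of_prime_dvd (fun h0 => by omega) fun z hz h4 h5 => ?_
      have h6 : z ∣ a := by
        rw [haw]
        exact dvd_sub (h4.mul_left 3) (h5.trans (dvd_pow_self _ two_ne_zero))
      exact hz.not_isUnit (hae.isUnit_of_dvd' h6 h5)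
    have hcop : IsCoprime w (3 * w ^ 2 - 3 * w * (e : ℤ) ^ 2 + (e : ℤ) ^ 4) := by
      have h4 : IsCoprime w ((e : ℤ) ^ 4 + w * (3 * w - 3 * (e : ℤ) ^ 2)) :=
        (hwe.pow_right (n := 4)).add_mul_left_right _
      have e2 : (e : ℤ) ^ 4 + w * (3 * w - 3 * (e : ℤ) ^ 2) =
          3 * w ^ 2 - 3 * w * (e : ℤ) ^ 2 + (e : ℤ) ^ 4 := by ring
      rwa [e2] at h4
    have hpos3 : 0 < 3 * w ^ 2 - 3 * w * (e : ℤ) ^ 2 + (e : ℤ) ^ 4 := by omega
    by_cases hw00 : w = 0
    · have h5 : a = -((e : ℤ) * e) := by rw [haw, hw00]; ring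
      have h6 : IsUnit (e : ℤ) := by
        rw [h5] at hae
        exact hae.isUnit_of_dvd' (dvd_neg.mpr (dvd_mul_right _ _)) dvd_rfl
      have h7 : e = 1 := by
        rw [Int.isUnit_iff] at h6
        omega
      refine ⟨h7, Or.inl ?_⟩
      rw [h5, h7]; norm_num
    obtain ⟨s, hs | hs⟩ := Int.sq_of_isCoprime hcop hmul'
    · obtain ⟨t, ht | ht⟩ := Int.sq_of_isCoprime hcop.symm (by rw [mul_comm]; exact hmul')
      · have h0 : s ≠ 0 := by
          rintro rfl
          exact hw00 (by rw [hs]; norm_num)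
        · have hcs : Nat.Coprime e s.natAbs := by
            rw [hs] at hwe
            exact (coprime_natAbs ((IsCoprime.pow_left_iff (by norm_num)).mp hwe)).symm
          have h1 := descent s.natAbs e t (Int.natAbs_pos.mpr h0) hcs (by
            have e4 : ((s.natAbs : ℕ) : ℤ) ^ 4 = s ^ 4 := by
              rw [show (4 : ℕ) = 2 * 2 by norm_num, pow_mul, pow_mul, Int.natAbs_sq]
            rw [Int.natAbs_sq, e4, ← ht, hs]
            ring)
          refine ⟨h1.1, Or.inr (Or.inr ?_)⟩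
          have h5 : s ^ 2 = 1 := by
            rw [← Int.natAbs_sq, h1.2]; norm_num
          rw [haw, hs, h5, h1.1]; norm_num
      · exfalso
        have := sq_nonneg t
        omega
    · exfalso
      have h5 := sq_nonneg s
      omega
  · have hcop : IsCoprime (a + (e : ℤ) ^ 2) (a ^ 2 - a * (e : ℤ) ^ 2 + (e : ℤ) ^ 4) := by
      refine isCoprime_of_prime_dvd (fun h0 => by omega) fun z hz h4 h5 => ?_
      have h6 : z ∣ 3 * (e : ℤ) ^ 4 := by
        have := dvd_sub h5 (h4.mul_right (a - 2 * (e : ℤ) ^ 2))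
        have e2 : a ^ 2 - a * (e : ℤ) ^ 2 + (e : ℤ) ^ 4 -
          (a + (e : ℤ) ^ 2) * (a - 2 * (e : ℤ) ^ 2) = 3 * (e : ℤ) ^ 4 := by ring
        rwa [e2] at this
      rcases hz.dvd_or_dvd h6 with h7 | h7
      · have h8 : Associated z 3 := hz.irreducible.associated_of_dvd Int.prime_three.irreducible h7
        exact h3 (h8.symm.dvd.trans h4)
      · have h8 : z ∣ (e : ℤ) := hz.dvd_of_dvd_pow h7
        have h9 : z ∣ a := by
          have := dvd_sub h4 (h8.trans (dvd_pow_self _ two_ne_zero))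
          rwa [add_sub_cancel_right] at this
        exact hz.not_isUnit (hae.isUnit_of_dvd' h9 h8)
    obtain ⟨t, ht | ht⟩ := Int.sq_of_isCoprime hcop.symm (by rw [mul_comm]; exact hmul)
    · obtain ⟨r, hr | hr⟩ := Int.sq_of_isCoprime hcop hmul
      · have har : a = r ^ 2 - (e : ℤ) ^ 2 := by linarith
        have hcr : Nat.Coprime r.natAbs e := by
          have h4 : IsCoprime (a + (e : ℤ) * e) (e : ℤ) := hae.add_mul_left_left _
          have e2 : a + (e : ℤ) * e = r ^ 2 := by rw [har]; ring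
          rw [e2] at h4
          exact coprime_natAbs ((IsCoprime.pow_left_iff (by norm_num)).mp h4)
        have h1 := descent e r.natAbs t he hcr (by
          have e4 : ((r.natAbs : ℕ) : ℤ) ^ 4 = r ^ 4 := by
            rw [show (4 : ℕ) = 2 * 2 by norm_num, pow_mul, pow_mul, Int.natAbs_sq]
          rw [Int.natAbs_sq, e4, ← ht, har]
          ring)
        refine ⟨h1.2, Or.inr (Or.inl ?_)⟩
        have h5 : r ^ 2 = 1 := by
          rw [← Int.natAbs_sq, h1.1]; norm_num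
        rw [har, h5, h1.2]; norm_num
      · exfalso
        have h5 := sq_nonneg r
        have h6 : a + (e : ℤ) ^ 2 = 0 := by omega
        exact h3 (h6 ▸ dvd_zero _)
    · exfalso
      have := sq_nonneg t
      omega

/-- **Theorem (Euler).** The rational solutions of `y ^ 2 = x ^ 3 + 1` have `x ∈ {-1, 0, 2}`. -/
theorem rat_points {x y : ℚ} (h : y ^ 2 = x ^ 3 + 1) : x = -1 ∨ x = 0 ∨ x = 2 := by
  have hd0 : (x.den : ℚ) ≠ 0 := by exact_mod_cast x.den_ne_zero
  have hx : x = x.num / x.den := (Rat.num_div_den x).symm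
  -- `d (a ^ 3 + d ^ 3)` is a square
  have h1 : ((x.den : ℤ) * (x.num ^ 3 + (x.den : ℤ) ^ 3) : ℤ) = (y * x.den ^ 2) ^ 2 := by
    have h2 : (y * x.den ^ 2) ^ 2 = y ^ 2 * x.den ^ 4 := by ring
    rw [h2, h]
    have h3 : x ^ 3 = x.num ^ 3 / x.den ^ 3 := by
      conv_lhs => rw [hx]
      rw [div_pow]
    rw [h3]
    push_cast
    field_simp
  have hsq : IsSquare ((x.den : ℤ) * (x.num ^ 3 + (x.den : ℤ) ^ 3)) := by
    rw [← Rat.isSquare_intCast_iff]
    exact ⟨y * x.den ^ 2, by rw [h1]; ring⟩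
  obtain ⟨v, hv⟩ := hsq
  have hv' : (x.den : ℤ) * (x.num ^ 3 + (x.den : ℤ) ^ 3) = v ^ 2 := by rw [hv]; ring
  have hd : (0 : ℤ) < x.den := by exact_mod_cast x.den_pos
  have hred : IsCoprime x.num (x.den : ℤ) := Rat.isCoprime_num_den x
  have hcop : IsCoprime (x.den : ℤ) (x.num ^ 3 + (x.den : ℤ) ^ 3) := by
    have h2 : IsCoprime (x.den : ℤ) (x.num ^ 3 + (x.den : ℤ) * (x.den : ℤ) ^ 2) :=
      (hred.symm.pow_right (n := 3)).add_mul_left_right _
    have e2 : x.num ^ 3 + (x.den : ℤ) * (x.den : ℤ) ^ 2 = x.num ^ 3 + (x.den : ℤ) ^ 3 := by ring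
    rwa [e2] at h2
  obtain ⟨e0, he0 | he0⟩ := Int.sq_of_isCoprime hcop hv'
  · have hnn : 0 ≤ x.num ^ 3 + (x.den : ℤ) ^ 3 := by
      by_contra hcon
      have h2 := mul_neg_of_pos_of_neg hd (by omega : x.num ^ 3 + (x.den : ℤ) ^ 3 < 0)
      have h3 := sq_nonneg v
      omega
    obtain ⟨t, ht⟩ : ∃ t : ℤ, x.num ^ 3 + (x.den : ℤ) ^ 3 = t ^ 2 := by
      obtain ⟨t, ht | ht⟩ := Int.sq_of_isCoprime hcop.symm (by rw [mul_comm]; exact hv')
      · exact ⟨t, ht⟩
      · refine ⟨0, ?_⟩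
        have h3 := sq_nonneg t
        have h4 : x.num ^ 3 + (x.den : ℤ) ^ 3 = 0 := by omega
        rw [h4]; norm_num
    have he00 : e0 ≠ 0 := by
      rintro rfl
      norm_num at he0
    have hnat : ((e0.natAbs : ℕ) : ℤ) ^ 2 = x.den := by rw [Int.natAbs_sq, he0]
    have hce : IsCoprime x.num ((e0.natAbs : ℕ) : ℤ) := by
      rw [← hnat] at hred
      exact (IsCoprime.pow_right_iff (by norm_num)).mp hred
    obtain ⟨h5, h6⟩ := int_points (v := t) (Int.natAbs_pos.mpr he00) hce (by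
      rw [← ht, ← hnat]; ring)
    have h7 : (x.den : ℤ) = 1 := by rw [← hnat, h5]; norm_num
    have h8 : (x.den : ℚ) = 1 := by exact_mod_cast h7
    have h9 : x = x.num := by rw [hx, h8, div_one]; simp
    rcases h6 with h6 | h6 | h6
    · left; rw [h9, h6]; norm_num
    · right; left; rw [h9, h6]; norm_num
    · right; right; rw [h9, h6]; norm_num
  · exfalso
    have := sq_nonneg e0
    omega

/-- the five affine points -/
theorem rat_points_iff {x y : ℚ} : y ^ 2 = x ^ 3 + 1 ↔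
    (x = -1 ∧ y = 0) ∨ (x = 0 ∧ y = 1) ∨ (x = 0 ∧ y = -1) ∨ (x = 2 ∧ y = 3) ∨
      (x = 2 ∧ y = -3) := by
  constructor
  · intro h
    rcases rat_points h with rfl | rfl | rfl
    · left
      refine ⟨rfl, ?_⟩
      norm_num at h
      exact h
    · right
      have h1 : (y - 1) * (y + 1) = 0 := by linear_combination h
      rcases mul_eq_zero.mp h1 with h2 | h2
      · exact Or.inl ⟨rfl, by linarith⟩
      · exact Or.inr (Or.inl ⟨rfl, by linarith⟩)
    · right; right; right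
      have h1 : (y - 3) * (y + 3) = 0 := by linear_combination h
      rcases mul_eq_zero.mp h1 with h2 | h2
      · exact Or.inl ⟨rfl, by linarith⟩
      · exact Or.inr ⟨rfl, by linarith⟩
  · rintro (⟨rfl, rfl⟩ | ⟨rfl, rfl⟩ | ⟨rfl, rfl⟩ | ⟨rfl, rfl⟩ | ⟨rfl, rfl⟩) <;> norm_num

/-! ### the Mordell-Weil group -/

open WeierstrassCurve WeierstrassCurve.Affine WeierstrassCurve.Affine.Point

/-- the elliptic curve `y ^ 2 = x ^ 3 + 1` -/
def W : WeierstrassCurve.Affine ℚ := ⟨0, 0, 0, 0, 1⟩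

lemma equation_W (x y : ℚ) : W.Equation x y ↔ y ^ 2 = x ^ 3 + 1 := by
  rw [equation_iff]
  simp [W]

lemma nonsingular_W (x y : ℚ) : W.Nonsingular x y ↔ y ^ 2 = x ^ 3 + 1 := by
  rw [nonsingular_iff, equation_W]
  refine ⟨fun h => h.1, fun h => ⟨h, ?_⟩⟩
  simp only [W]
  by_contra hcon
  push Not at hcon
  obtain ⟨h1, h2⟩ := hcon
  have hy : y = 0 := by linarith
  have hx : x = 0 := by
    have : x ^ 2 = 0 := by linarith
    exact pow_eq_zero_iff two_ne_zero |>.mp this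
  rw [hx, hy] at h
  norm_num at h

/-- the coordinates -/
def coord : W.Point → Option (ℚ × ℚ)
  | 0 => none
  | Point.some x y _ => some (x, y)

lemma coord_injective : Function.Injective coord := by
  rintro (_ | ⟨x, y, h⟩) (_ | ⟨x', y', h'⟩) he
  · rfl
  · exact absurd he (by simp [coord])
  · exact absurd he (by simp [coord])
  · have h1 : (x, y) = (x', y') := Option.some_injective _ he
    obtain ⟨rfl, rfl⟩ := Prod.mk.inj h1
    rfl

lemma range_coord : Set.range coord = (({Option.none, Option.some (-1, 0), Option.some (0, 1),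
    Option.some (0, -1), Option.some (2, 3), Option.some (2, -3)} : Finset (Option (ℚ × ℚ))) :
      Set (Option (ℚ × ℚ))) := by
  ext u
  simp only [Set.mem_range, Finset.coe_insert, Finset.coe_singleton, Set.mem_insert_iff,
    Set.mem_singleton_iff]
  constructor
  · rintro ⟨P, rfl⟩
    rcases P with _ | ⟨x, y, h⟩
    · exact Or.inl rfl
    · right
      rcases rat_points_iff.mp ((nonsingular_W x y).mp h) with ⟨rfl, rfl⟩ | ⟨rfl, rfl⟩ |
        ⟨rfl, rfl⟩ | ⟨rfl, rfl⟩ | ⟨rfl, rfl⟩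
      · exact Or.inl rfl
      · exact Or.inr (Or.inl rfl)
      · exact Or.inr (Or.inr (Or.inl rfl))
      · exact Or.inr (Or.inr (Or.inr (Or.inl rfl)))
      · exact Or.inr (Or.inr (Or.inr (Or.inr rfl)))
  · rintro (rfl | rfl | rfl | rfl | rfl | rfl)
    · exact ⟨0, rfl⟩
    · exact ⟨Point.some (-1) 0 ((nonsingular_W _ _).mpr (by norm_num)), rfl⟩
    · exact ⟨Point.some 0 1 ((nonsingular_W _ _).mpr (by norm_num)), rfl⟩
    · exact ⟨Point.some 0 (-1) ((nonsingular_W _ _).mpr (by norm_num)), rfl⟩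
    · exact ⟨Point.some 2 3 ((nonsingular_W _ _).mpr (by norm_num)), rfl⟩
    · exact ⟨Point.some 2 (-3) ((nonsingular_W _ _).mpr (by norm_num)), rfl⟩

/-- **The Mordell-Weil group of `y ^ 2 = x ^ 3 + 1` has exactly six elements.** -/
theorem card_point : Nat.card W.Point = 6 := by
  rw [← Nat.card_range_of_injective coord_injective, range_coord, Nat.card_coe_set_eq,
    Set.ncard_coe_finset]
  decide

/-- the point `(2, 3)` -/
def P₀ : W.Point := Point.some 2 3 ((nonsingular_W _ _).mpr (by norm_num))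

lemma two_smul_P₀ : ∃ h : W.Nonsingular 0 1, (2 : ℕ) • P₀ = Point.some 0 1 h := by
  have hy : (3 : ℚ) ≠ W.negY 2 3 := by
    rw [negY]; simp only [W]; norm_num
  have hs : W.slope 2 2 3 3 = 2 := by
    rw [slope_of_Y_ne rfl hy, negY]; simp only [W]; norm_num
  refine ⟨(nonsingular_W _ _).mpr (by norm_num), ?_⟩
  rw [two_nsmul, P₀, add_self_of_Y_ne hy]
  simp only [some.injEq]
  refine ⟨?_, ?_⟩
  · rw [hs, addX]; simp only [W]; norm_num
  · rw [hs, addY, negAddY, addX, negY]; simp only [W]; norm_num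

/-- **The Mordell-Weil group of `y ^ 2 = x ^ 3 + 1` is cyclic of order six, generated by
`(2, 3)`.** -/
theorem addOrderOf_P₀ : addOrderOf P₀ = 6 := by
  have hfin : Finite W.Point := Nat.finite_of_card_ne_zero (by rw [card_point]; norm_num)
  have h6 : addOrderOf P₀ ∣ 6 := by
    rw [← card_point]; exact addOrderOf_dvd_natCard P₀
  obtain ⟨h01, h2⟩ := two_smul_P₀
  have hne2 : (2 : ℕ) • P₀ ≠ 0 := by rw [h2]; exact some_ne_zero h01
  have hne3 : (3 : ℕ) • P₀ ≠ 0 := by
    intro h3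
    rw [show (3 : ℕ) = 2 + 1 by norm_num, add_nsmul, one_nsmul, h2] at h3
    have h4 : (Point.some 0 1 h01 : W.Point) = -P₀ := eq_neg_of_add_eq_zero_left h3
    rw [P₀, neg_some] at h4
    simp only [some.injEq] at h4
    norm_num at h4
  have hd2 : ¬ addOrderOf P₀ ∣ 2 := fun h => hne2 (addOrderOf_dvd_iff_nsmul_eq_zero.mp h)
  have hd3 : ¬ addOrderOf P₀ ∣ 3 := fun h => hne3 (addOrderOf_dvd_iff_nsmul_eq_zero.mp h)
  have hle : addOrderOf P₀ ≤ 6 := Nat.le_of_dvd (by norm_num) h6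
  generalize addOrderOf P₀ = m at *
  interval_cases m <;> simp_all

theorem isAddCyclic_point : IsAddCyclic W.Point := by
  have hfin : Finite W.Point := Nat.finite_of_card_ne_zero (by rw [card_point]; norm_num)
  exact isAddCyclic_of_addOrderOf_eq_card P₀ (by rw [addOrderOf_P₀, card_point])

end Fermat.Agent.Cor.EulerRat
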