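import Mathlib
import Fermat.Agent.Cor.EulerRat

/-!
# No three cubes in arithmetic progression

* `rat_points_27`: the only rational solution of `y ^ 2 = x ^ 3 - 27` is `(3, 0)` (by the
  3-isogeny to `y ^ 2 = x ^ 3 + 1`);
* `sum_cubes_eq_two_mul`: `x ^ 3 + y ^ 3 = 2 z ^ 3` in rational numbers only for `x = -y`, `z = 0`
  or `x = y = z` (Euler, Legendre);
* `cubes_ap`: there are no three distinct integral cubes `a ^ 3`, `b ^ 3`, `c ^ 3` in arithmetic
  progression with `b ≠ 0`.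

This file is not used by any of the statement files.
-/

set_option autoImplicit false

namespace Fermat.Agent.Cor.CubesAP

open Fermat.Agent.Cor

/-- a rational root of `X ^ 3 - A X ^ 2 - B` is an integer -/
lemma int_root {x : ℚ} {A B : ℤ} (h : x ^ 3 = A * x ^ 2 + B) : ∃ a : ℤ, x = a := by
  have hd0 : (x.den : ℚ) ≠ 0 := by exact_mod_cast x.den_ne_zero
  have hx : x * x.den = x.num := Rat.mul_den_eq_num x
  have h1 : x.num ^ 3 = (x.den : ℤ) * (A * x.num ^ 2 + B * (x.den : ℤ) ^ 2) := by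
    have h2 : (x.num : ℚ) ^ 3 = x.den * (A * x.num ^ 2 + B * x.den ^ 2) := by
      rw [← hx]
      linear_combination (x.den : ℚ) ^ 3 * h
    exact_mod_cast h2
  have hred : IsCoprime x.num (x.den : ℤ) := Rat.isCoprime_num_den x
  have h3 : IsUnit (x.den : ℤ) :=
    (hred.pow_left (m := 3)).isUnit_of_dvd' ⟨_, h1⟩ dvd_rfl
  have h4 : x.den = 1 := by
    rw [Int.isUnit_iff] at h3
    have := x.den_pos
    omega
  refine ⟨x.num, ?_⟩
  rw [← hx, h4]
  norm_num

/-- **The rational points of `y ^ 2 = x ^ 3 - 27`.** -/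
theorem rat_points_27 {x y : ℚ} (h : y ^ 2 = x ^ 3 - 27) : x = 3 ∧ y = 0 := by
  have hx0 : x ≠ 0 := by
    rintro rfl
    have := sq_nonneg y
    norm_num at h
    linarith
  have hV : (y * (x ^ 3 + 216) / (27 * x ^ 3)) ^ 2 = ((x ^ 3 - 108) / (9 * x ^ 2)) ^ 3 + 1 := by
    have e1 : (y * (x ^ 3 + 216) / (27 * x ^ 3)) ^ 2 =
        (x ^ 3 - 27) * (x ^ 3 + 216) ^ 2 / (27 * x ^ 3) ^ 2 := by
      rw [div_pow, mul_pow, h]
    rw [e1]
    field_simp
    ring
  rcases EulerRat.rat_points hV with h1 | h1 | h1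
  · have h2 : (x - 3) * (x + 6) ^ 2 = 0 := by
      field_simp at h1
      linear_combination h1
    rcases mul_eq_zero.mp h2 with h3 | h3
    · have h4 : x = 3 := by linarith
      refine ⟨h4, ?_⟩
      rw [h4] at h
      norm_num at h
      exact h
    · exfalso
      have h4 : x + 6 = 0 := pow_eq_zero_iff two_ne_zero |>.mp h3
      have h5 : x = -6 := by linarith
      have h6 := sq_nonneg y
      rw [h5] at h
      norm_num at h
      linarith
  · exfalso
    have h2 : x ^ 3 = ((0 : ℤ) : ℚ) * x ^ 2 + ((108 : ℤ) : ℚ) := by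
      field_simp at h1
      push_cast
      linear_combination h1
    obtain ⟨a, ha⟩ := int_root h2
    rw [ha] at h2
    have h3 : a ^ 3 = 108 := by
      push_cast at h2
      ring_nf at h2
      exact_mod_cast h2
    have h4 : 0 < a := by
      by_contra hcon
      have : a ^ 3 ≤ 0 := Odd.pow_nonpos (by decide) (by omega)
      omega
    rcases (show a ≤ 4 ∨ 5 ≤ a by omega) with h5 | h5
    · interval_cases a <;> norm_num at h3
    · nlinarith [mul_self_nonneg (a - 5), mul_pos h4 h4]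
  · exfalso
    have h2 : x ^ 3 = ((18 : ℤ) : ℚ) * x ^ 2 + ((108 : ℤ) : ℚ) := by
      field_simp at h1
      push_cast
      linear_combination h1
    obtain ⟨a, ha⟩ := int_root h2
    rw [ha] at h2
    have h3 : a ^ 2 * (a - 18) = 108 := by
      have h4 : (a : ℚ) ^ 2 * (a - 18) = 108 := by
        push_cast at h2
        linear_combination h2
      exact_mod_cast h4
    rcases (show a ≤ 18 ∨ 19 ≤ a by omega) with h5 | h5
    · nlinarith [sq_nonneg a, mul_nonneg (sq_nonneg a) (by omega : (0 : ℤ) ≤ 18 - a)]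
    · nlinarith [mul_nonneg (sq_nonneg a) (by omega : (0 : ℤ) ≤ a - 19)]

/-- **Theorem (Euler, Legendre).** `x ^ 3 + y ^ 3 = 2 z ^ 3` in rational numbers only for `x = -y`
(and `z = 0`) or `x = y = z`. -/
theorem sum_cubes_eq_two_mul {x y z : ℚ} (h : x ^ 3 + y ^ 3 = 2 * z ^ 3) :
    (x = -y ∧ z = 0) ∨ (x = y ∧ y = z) := by
  by_cases hs : x + y = 0
  · left
    have hx : x = -y := by linarith
    refine ⟨hx, ?_⟩
    rw [hx] at h
    have h1 : z ^ 3 = 0 := by linear_combination -h / 2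
    exact pow_eq_zero_iff (by norm_num) |>.mp h1
  · right
    have key : (9 * (x - y) / (x + y)) ^ 2 = (6 * z / (x + y)) ^ 3 - 27 := by
      field_simp
      linear_combination 108 * h
    obtain ⟨h1, h2⟩ := rat_points_27 key
    have h3 : 9 * (x - y) = 0 := by
      rcases div_eq_zero_iff.mp h2 with h3 | h3
      · exact h3
      · exact absurd h3 hs
    have h4 : x = y := by linarith
    refine ⟨h4, ?_⟩
    rw [div_eq_iff hs, h4] at h1
    linarith

/-- **No three cubes in arithmetic progression.** -/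
theorem cubes_ap {a b c : ℤ} (h : b ^ 3 - a ^ 3 = c ^ 3 - b ^ 3) (hb : b ≠ 0) :
    a = b ∧ b = c := by
  have h1 : (a : ℚ) ^ 3 + (c : ℚ) ^ 3 = 2 * (b : ℚ) ^ 3 := by
    have h2 : ((b ^ 3 - a ^ 3 : ℤ) : ℚ) = ((c ^ 3 - b ^ 3 : ℤ) : ℚ) := by rw [h]
    push_cast at h2
    linarith
  rcases sum_cubes_eq_two_mul h1 with ⟨-, h3⟩ | ⟨h3, h4⟩
  · exact absurd (by exact_mod_cast h3) hb
  · have h5 : a = c := by exact_mod_cast h3
    have h6 : c = b := by exact_mod_cast h4
    exact ⟨h5.trans h6, h6.symm⟩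

/-- `x ^ 3 + 2 y ^ 3 = z ^ 3` in integers only for `y = 0`, `x = z` or `-x = y = z`. -/
theorem two_mul_cube {x y z : ℤ} (h : x ^ 3 + 2 * y ^ 3 = z ^ 3) :
    (y = 0 ∧ x = z) ∨ (x = -z ∧ y = z) := by
  have h1 : (z : ℚ) ^ 3 + (-(x : ℚ)) ^ 3 = 2 * (y : ℚ) ^ 3 := by
    have h2 : ((x ^ 3 + 2 * y ^ 3 : ℤ) : ℚ) = ((z ^ 3 : ℤ) : ℚ) := by rw [h]
    push_cast at h2
    linear_combination -h2
  rcases sum_cubes_eq_two_mul h1 with ⟨h3, h4⟩ | ⟨h3, h4⟩
  · left
    refine ⟨by exact_mod_cast h4, ?_⟩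
    have h5 : (x : ℚ) = z := by linarith
    exact_mod_cast h5
  · right
    have h5 : (x : ℚ) = ((-z : ℤ) : ℚ) := by push_cast; linarith
    have h6 : (y : ℚ) = z := by linarith
    exact ⟨by exact_mod_cast h5, by exact_mod_cast h6⟩

end Fermat.Agent.Cor.CubesAP
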