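import Fermat.Agent.Cor.IntegralPoints

/-!
# Square values of cubic polynomials

A cubic polynomial with integral coefficients and nonzero discriminant takes only finitely many
square values at integers; only finitely many multiples of a point of infinite order are integral.
-/

namespace Fermat.Agent.Cor.Thue

open WeierstrassCurve

/-- `y² = ax³ + bx² + cx + d` has only finitely many solutions in integers, if `a ≠ 0` and the
discriminant of the cubic is not zero. -/
theorem cubic_squares_finite {a b c d : ℤ} (ha : a ≠ 0)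
    (hD : b ^ 2 * c ^ 2 - 4 * a * c ^ 3 - 4 * b ^ 3 * d - 27 * a ^ 2 * d ^ 2 +
      18 * a * b * c * d ≠ 0) :
    {z : ℤ × ℤ | z.2 ^ 2 = a * z.1 ^ 3 + b * z.1 ^ 2 + c * z.1 + d}.Finite := by
  set W : WeierstrassCurve ℤ := ⟨0, b, 0, a * c, a ^ 2 * d⟩ with hW
  have hΔ : W.Δ ≠ 0 := by
    have h1 : W.Δ = 16 * a ^ 2 * (b ^ 2 * c ^ 2 - 4 * a * c ^ 3 - 4 * b ^ 3 * d -
        27 * a ^ 2 * d ^ 2 + 18 * a * b * c * d) := by
      simp only [WeierstrassCurve.Δ, WeierstrassCurve.b₂, WeierstrassCurve.b₄,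
        WeierstrassCurve.b₆, WeierstrassCurve.b₈, hW]
      ring
    rw [h1]
    exact mul_ne_zero (mul_ne_zero (by norm_num) (pow_ne_zero _ ha)) hD
  have h := weierstrass_integral_points_finite W hΔ
  set φ : ℤ × ℤ → ℤ × ℤ := fun z ↦ (a * z.1, a * z.2) with hφ
  have hinj : Function.Injective φ := by
    rintro ⟨x, y⟩ ⟨x', y'⟩ h
    simp only [hφ, Prod.mk.injEq] at h
    rw [mul_left_cancel₀ ha h.1, mul_left_cancel₀ ha h.2]
  refine (h.preimage (f := φ) hinj.injOn).subset ?_
  rintro ⟨x, y⟩ hxy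
  have hxy' : y ^ 2 = a * x ^ 3 + b * x ^ 2 + c * x + d := hxy
  show W.toAffine.Equation (a * x) (a * y)
  rw [W.toAffine.equation_iff]
  show (a * y) ^ 2 + 0 * (a * x) * (a * y) + 0 * (a * y) =
    (a * x) ^ 3 + b * (a * x) ^ 2 + (a * c) * (a * x) + a ^ 2 * d
  linear_combination a ^ 2 * hxy'

/-- A cubic polynomial with integral coefficients and nonzero discriminant is a square for only
finitely many integers. -/
theorem finite_isSquare_cubic {a b c d : ℤ} (ha : a ≠ 0)
    (hD : b ^ 2 * c ^ 2 - 4 * a * c ^ 3 - 4 * b ^ 3 * d - 27 * a ^ 2 * d ^ 2 +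
      18 * a * b * c * d ≠ 0) :
    {n : ℤ | IsSquare (a * n ^ 3 + b * n ^ 2 + c * n + d)}.Finite := by
  refine ((cubic_squares_finite ha hD).image Prod.fst).subset ?_
  rintro n ⟨m, hm⟩
  exact ⟨(n, m), by show m ^ 2 = _; rw [hm]; ring, rfl⟩

/-- The integral points of an elliptic curve over `ℚ`, as a subset of `W(ℚ)`. -/
theorem finite_integral_points (W : WeierstrassCurve ℤ) (hΔ : W.Δ ≠ 0) :
    {P : (W.map (Int.castRingHom ℚ)).toAffine.Point | ∃ (x y : ℤ)
      (h : (W.map (Int.castRingHom ℚ)).toAffine.Nonsingular (x : ℚ) (y : ℚ)),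
      P = WeierstrassCurve.Affine.Point.some _ _ h}.Finite := by
  have h := weierstrass_integral_points_finite W hΔ
  classical
  have key : ∀ z : ℤ × ℤ, {P : (W.map (Int.castRingHom ℚ)).toAffine.Point |
      ∃ (h : (W.map (Int.castRingHom ℚ)).toAffine.Nonsingular (z.1 : ℚ) (z.2 : ℚ)),
      P = WeierstrassCurve.Affine.Point.some _ _ h}.Finite := by
    intro z
    refine Set.Subsingleton.finite ?_
    rintro P ⟨h1, rfl⟩ Q ⟨h2, rfl⟩
    rfl
  refine (h.biUnion fun z _ ↦ key z).subset ?_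
  rintro P ⟨x, y, h1, rfl⟩
  simp only [Set.mem_iUnion]
  refine ⟨(x, y), ?_, h1, rfl⟩
  show W.toAffine.Equation x y
  have h2 := (WeierstrassCurve.Affine.equation_iff _ _).1 h1.1
  rw [W.toAffine.equation_iff]
  simp only [WeierstrassCurve.map_a₁, WeierstrassCurve.map_a₂, WeierstrassCurve.map_a₃,
    WeierstrassCurve.map_a₄, WeierstrassCurve.map_a₆, eq_intCast] at h2
  exact_mod_cast h2

/-- Only finitely many multiples of a point of infinite order are integral. -/
theorem finite_integral_multiples (W : WeierstrassCurve ℤ) (hΔ : W.Δ ≠ 0)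
    {P : (W.map (Int.castRingHom ℚ)).toAffine.Point} (hP : addOrderOf P = 0) :
    {n : ℤ | ∃ (x y : ℤ)
      (h : (W.map (Int.castRingHom ℚ)).toAffine.Nonsingular (x : ℚ) (y : ℚ)),
      n • P = WeierstrassCurve.Affine.Point.some _ _ h}.Finite := by
  have hinj : Function.Injective (fun n : ℤ ↦ n • P) :=
    injective_zsmul_iff_not_isOfFinAddOrder.2 (addOrderOf_eq_zero_iff.1 hP)
  exact ((finite_integral_points W hΔ).preimage (f := fun n : ℤ ↦ n • P) hinj.injOn).subset
    fun n hn ↦ hn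

end Fermat.Agent.Cor.Thue
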