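import Fermat.Agent.Cor.InfiniteZeros
import Fermat.Agent.H23.EigenChar
import Mathlib.NumberTheory.LSeries.Injectivity

/-!
# The L-function of every nonzero cusp form of weight two has infinitely many zeros

For every nonzero `f ∈ S₂(Γ₀(N))` (not necessarily an eigenform) the completed L-function `Λ(f, s)` has infinitely
many zeros.

This file is not used by any of the statement files.
-/

set_option autoImplicit false

noncomputable section

namespace Fermat.Agent.Cor.CuspFormZeros

open Complex CongruenceSubgroup Filter ModularFormClass Set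
open Fermat.Agent.Cor.LFun
open scoped Real Topology

variable {N : ℕ} [NeZero N] {f : CuspForm (Gamma0 N) 2}

/-- a cusp form of weight two is zero if its completed L-function vanishes identically -/
theorem eq_zero_of_Lam (h : ∀ z, Lam f z = 0) : f = 0 := by
  have h1 : ∀ x : ℝ, 2 < x → LSeries (fun n => qCoeff f n) x = 0 := fun x hx => by
    rw [lSeries_eq f (by simpa using hx)]
    exact InfiniteZeros.LF_eq_zero (by rw [Complex.ofReal_re]; linarith) (h _)
  have h2 : (fun x : ℝ => LSeries (fun n => qCoeff f n) x) =ᶠ[atTop] 0 :=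
    (eventually_gt_atTop 2).mono h1
  rcases LSeries_eventually_eq_zero_iff'.mp h2 with h3 | h3
  · have h4 : f = (0 : ℂ) • f := by
      refine H23.eq_of_qCoeff_eq fun n => ?_
      rw [H22.cusp_qCoeff_smul, zero_mul]
      rcases eq_or_ne n 0 with rfl | hn
      · exact H22.cusp_qCoeff_zero f
      · exact h3 n hn
    rw [h4, zero_smul]
  · have h4 : LSeriesSummable (fun n => qCoeff f n) 3 :=
      (lSeriesHasSum f (s := 3) (by norm_num)).summable
    have h5 := h4.abscissaOfAbsConv_le
    rw [h3] at h5
    simp at h5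

/-- **The completed L-function of a nonzero cusp form of weight two has infinitely many zeros.** -/
theorem infinite_zeros_Lam (hf : f ≠ 0) : {s | Lam f s = 0}.Infinite := by
  intro hfin
  obtain ⟨A, hA⟩ := InfiniteZeros.exists_growth f
  have hne : ∃ z, Lam f z ≠ 0 := by
    by_contra h
    push Not at h
    exact hf (eq_zero_of_Lam h)
  obtain ⟨P, a, b, hP, hF⟩ :=
    EntireOrder.exists_eq_poly_mul_exp (differentiable_Lam f) hne hfin hA
  obtain ⟨R, hR⟩ := EntireOrder.exists_one_le hP
  obtain ⟨ε, hε, hεb⟩ : ∃ ε : ℝ, (ε = 1 ∨ ε = -1) ∧ 0 ≤ -(ε * b.im) := by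
    rcases le_total b.im 0 with h | h
    · exact ⟨1, Or.inl rfl, by linarith⟩
    · exact ⟨-1, Or.inr rfl, by linarith⟩
  have h1 := InfiniteZeros.tendsto_Lam f hε
  have h2 : ∀ᶠ y : ℝ in atTop, Real.exp (a.re + b.re) ≤ ‖Lam f (1 + (ε * y : ℝ) * I)‖ := by
    filter_upwards [eventually_ge_atTop (|R| + 1), eventually_ge_atTop 0] with y hy hy0
    have hnorm : R ≤ ‖(1 : ℂ) + ((ε * y : ℝ) : ℂ) * I‖ := by
      have h3 : |(1 + ((ε * y : ℝ) : ℂ) * I).im| ≤ ‖(1 : ℂ) + ((ε * y : ℝ) : ℂ) * I‖ :=
        Complex.abs_im_le_norm _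
      have h4 : (1 + ((ε * y : ℝ) : ℂ) * I).im = ε * y := by simp
      have h5 : |ε * y| = y := by
        rcases hε with rfl | rfl <;> simp [abs_of_nonneg hy0]
      rw [h4, h5] at h3
      have := le_abs_self R
      linarith
    rw [hF, norm_mul, Complex.norm_exp]
    have h6 : (a + b * (1 + ((ε * y : ℝ) : ℂ) * I)).re = a.re + b.re - ε * y * b.im := by
      simp
      ring
    rw [h6]
    have h7 : Real.exp (a.re + b.re) ≤ Real.exp (a.re + b.re - ε * y * b.im) := by
      refine Real.exp_le_exp.mpr ?_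
      nlinarith
    exact h7.trans (le_mul_of_one_le_left (Real.exp_pos _).le (hR _ hnorm))
  exact absurd (ge_of_tendsto h1 h2) (not_le.mpr (Real.exp_pos _))

end Fermat.Agent.Cor.CuspFormZeros
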