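import Mathlib
import Fermat.Agent.H09.GoodP
import Fermat.Agent.H09.S12Red
import Fermat.Agent.Frob.VarChange

set_option autoImplicit false

/-!
# Torsion points of order `p` and cuspidal reduction

Let `W` be an elliptic curve over `ℤ` such that after the change of variables `(1, r, s, t)` the
prime `ℓ` divides all `aᵢ`. Then every point of prime order `p` of `W(ℚ̄)` has
`v (x - r) < 1` at the places over `ℓ`, if `ℓ ≠ p` or `p ≥ 11`.
-/

namespace Fermat.Agent.Cor.CuspTors

open Polynomial WeierstrassCurve WeierstrassCurve.Affine WeierstrassCurve.Affine.Point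
open Fermat.Agent.H08 Fermat.Agent.H05 Fermat.Agent.H09 Fermat.Agent.Frob

local notation "Qb" => AlgebraicClosure ℚ

section Gauss

variable {F : Type*} [Field F] {A : ValuationSubring F}

/-- Gauss's lemma: for an integral polynomial the leading coefficient times a product of roots of
valuation `> 1` is integral. -/
theorem gauss (s : Multiset F) : ∀ f : F[X], f ≠ 0 → (∀ j, f.coeff j ∈ A) →
    (s.map (fun r => X - C r)).prod ∣ f → (∀ r ∈ s, 1 < A.valuation r) →
    f.leadingCoeff * s.prod ∈ A := by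
  induction s using Multiset.induction_on with
  | empty =>
    intro f hf hc _ _
    rw [Multiset.prod_zero, mul_one]
    exact hc _
  | cons a s ih =>
    intro f hf hc hd hs
    have ha := hs a (Multiset.mem_cons_self a s)
    have ha0 : a ≠ 0 := by
      rintro rfl
      rw [_root_.map_zero] at ha
      exact absurd ha (not_lt.mpr zero_le_one)
    have hainv : a⁻¹ ∈ A := by
      rw [← A.valuation_le_one_iff, map_inv₀]
      exact (inv_lt_one_of_one_lt₀ ha).le
    rw [Multiset.map_cons, Multiset.prod_cons] at hd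
    obtain ⟨h, hh⟩ := hd
    obtain ⟨g, hg⟩ : ∃ g : F[X], g = C a * ((s.map (fun r => X - C r)).prod * h) := ⟨_, rfl⟩
    have e : f = (C a⁻¹ * X - 1) * g := by
      have e1 : (C a⁻¹ * C a : F[X]) = 1 := by rw [← C_mul, inv_mul_cancel₀ ha0, C_1]
      rw [hh, hg]
      linear_combination (-X * (s.map (fun r => X - C r)).prod * h) * e1
    have e0 : f = C a⁻¹ * (X * g) - g := by rw [e]; ring
    have hg0 : g ≠ 0 := by
      intro h0
      rw [h0, mul_zero] at e
      exact hf e
    have hgc : ∀ j, g.coeff j ∈ A := by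
      intro j
      induction j with
      | zero =>
        have h1 : g.coeff 0 = -f.coeff 0 := by
          rw [e0, coeff_sub, coeff_C_mul, coeff_X_mul_zero]
          ring
        rw [h1]
        exact neg_mem (hc 0)
      | succ j ihj =>
        have h1 : g.coeff (j + 1) = a⁻¹ * g.coeff j - f.coeff (j + 1) := by
          rw [e0, coeff_sub, coeff_C_mul, coeff_X_mul]
          ring
        rw [h1]
        exact sub_mem (mul_mem hainv ihj) (hc _)
    have hdg : (s.map (fun r => X - C r)).prod ∣ g := ⟨C a * h, by rw [hg]; ring⟩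
    have key := ih g hg0 hgc hdg (fun r hr => hs r (Multiset.mem_cons_of_mem hr))
    have hlead : g.leadingCoeff = a * f.leadingCoeff := by
      have e2 : f = (X - C a) * (C a⁻¹ * g) := by
        rw [e]
        have e1 : (C a * C a⁻¹ : F[X]) = 1 := by rw [← C_mul, mul_inv_cancel₀ ha0, C_1]
        linear_combination g * e1
      have h3 : f.leadingCoeff = a⁻¹ * g.leadingCoeff := by
        rw [e2, leadingCoeff_mul, leadingCoeff_X_sub_C, one_mul, leadingCoeff_mul, leadingCoeff_C]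
      rw [h3, ← mul_assoc, mul_inv_cancel₀ ha0, one_mul]
    rw [hlead] at key
    rw [Multiset.prod_cons]
    have e4 : f.leadingCoeff * (a * s.prod) = a * f.leadingCoeff * s.prod := by ring
    rw [e4]
    exact key

end Gauss

section Main

variable {F : Type*} [Field F] [CharZero F] [DecidableEq F] {A : ValuationSubring F}

/-- A point of order `p` in the kernel of reduction: `v(p) v(x) ^ ((p - 1) / 2) ≤ 1`. -/
theorem val_le {W : WeierstrassCurve.Affine F} (hW : IsIntegralFor A.valuation W) {p : ℕ}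
    (hp : p.Prime) (hp3 : 3 ≤ p) (hA : A.LiesOverPrime p) {P : W.Point}
    (h1 : 1 < A.valuation (px P)) (hpP : p • P = 0) :
    A.valuation (p : F) * A.valuation (px P) ^ ((p - 1) / 2) ≤ 1 := by
  have hodd : Odd p := hp.odd_of_ne_two (by omega)
  have hpF : (p : F) ≠ 0 := Nat.cast_ne_zero.mpr hp.ne_zero
  have hP0 : P ≠ 0 := by
    rintro rfl
    have : px (0 : W.Point) = 0 := rfl
    rw [this, _root_.map_zero] at h1
    exact absurd h1 (not_lt.mpr zero_le_one)
  have hord : addOrderOf P = p := addOrderOf_eq_prime hpP hP0 (hp := ⟨hp⟩)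
  set f := W.preΨ' p with hf
  have hf0 : f ≠ 0 := W.preΨ'_ne_zero hpF
  have hc : ∀ j, f.coeff j ∈ A := by
    obtain ⟨W', hW'⟩ := exists_integral_model hW
    intro j
    rw [hf, ← hW', map_preΨ', coeff_map]
    exact ((W'.preΨ' p).coeff j).2
  set m := (p - 1) / 2 with hm
  have hmp : 2 * m + 1 = p := by
    obtain ⟨k, hk⟩ := hodd
    omega
  have hk0 : ∀ k ∈ Finset.Icc 1 m, k • P ≠ 0 := by
    intro k hk h0
    rw [Finset.mem_Icc] at hk
    have hd : p ∣ k := by rw [← hord]; exact addOrderOf_dvd_of_nsmul_eq_zero h0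
    have := Nat.le_of_dvd (by omega) hd
    omega
  have hkp : ∀ k : ℕ, p • (k • P) = 0 := fun k => by rw [smul_comm, hpP, smul_zero]
  have hval : ∀ k ∈ Finset.Icc 1 m, A.valuation (px (k • P)) = A.valuation (px P) := by
    intro k hk
    have hk0' := hk0 k hk
    rw [Finset.mem_Icc] at hk
    obtain ⟨hE, hlt⟩ := mult_formula hW h1 k
    have hvk : A.valuation ((k : F) ^ 2) = 1 := by
      rw [map_pow]
      have : A.valuation ((k : ℤ) : F) = 1 := Fermat.Agent.H09.val_intCast_eq_one hp hA (by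
        intro hd
        have h2 := Nat.le_of_dvd (by omega) (Int.natCast_dvd_natCast.mp hd)
        omega)
      rw [Int.cast_natCast] at this
      rw [this, one_pow]
    have h2 : A.valuation ((px (k • P))⁻¹ * px P) = 1 := by
      have h3 : (px (k • P))⁻¹ * px P = ((px (k • P))⁻¹ * px P - (k : F) ^ 2) + (k : F) ^ 2 := by
        ring
      rw [h3, Valuation.map_add_eq_of_lt_right _ (by rw [hvk]; exact hlt), hvk]
    rw [map_mul, map_inv₀] at h2
    have hne : A.valuation (px (k • P)) ≠ 0 := by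
      rcases hE with h0 | h0
      · exact absurd h0 hk0'
      · exact (zero_lt_one.trans h0).ne'
    field_simp at h2
    exact h2.symm
  -- the multiset of roots
  set S : Multiset F := (Finset.Icc 1 m).val.map (fun k => px (k • P)) with hS
  have hnodup : S.Nodup := by
    rw [hS, Multiset.nodup_map_iff_inj_on (Finset.Icc 1 m).nodup]
    intro i hi j hj hij
    have hi' : i ∈ Finset.Icc 1 m := hi
    have hj' : j ∈ Finset.Icc 1 m := hj
    have hi0 := hk0 i hi'
    have hj0 := hk0 j hj'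
    rw [Finset.mem_Icc] at hi' hj'
    rcases (px_eq_iff hi0 hj0).mp hij with h | h
    · have h4 : ((i : ℤ) - j) • P = 0 := by
        rw [sub_smul, natCast_zsmul, natCast_zsmul, h, sub_self]
      have h5 : (p : ℤ) ∣ (i : ℤ) - j := by
        rw [← hord]; exact addOrderOf_dvd_iff_zsmul_eq_zero.mpr h4
      have h6 := Int.eq_zero_of_abs_lt_dvd h5 (by rw [abs_lt]; constructor <;> omega)
      omega
    · have h4 : (i + j) • P = 0 := by
        rw [add_smul, h, neg_add_cancel]
      have h5 : p ∣ i + j := by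
        rw [← hord]; exact addOrderOf_dvd_of_nsmul_eq_zero h4
      have := Nat.le_of_dvd (by omega) h5
      omega
  have hroots : S ≤ f.roots := by
    rw [Multiset.le_iff_subset hnodup]
    intro x hx
    rw [hS, Multiset.mem_map] at hx
    obtain ⟨k, hk, rfl⟩ := hx
    rw [mem_roots hf0, IsRoot.def, ← xc_eq_px, hf, ← smul_eq_zero_iff_eval (hk0 k hk) hodd]
    exact hkp k
  have hdvd : (S.map (fun r => X - C r)).prod ∣ f :=
    (Multiset.prod_X_sub_C_dvd_iff_le_roots hf0 S).mpr hroots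
  have key := gauss S f hf0 hc hdvd (by
    intro x hx
    rw [hS, Multiset.mem_map] at hx
    obtain ⟨k, hk, rfl⟩ := hx
    rw [hval k hk]
    exact h1)
  have hlead : f.leadingCoeff = p := by
    have h6 := W.natDegree_preΨ' hpF
    rw [if_neg (Nat.not_even_iff_odd.mpr hodd)] at h6
    have h7 := W.coeff_preΨ' p
    rw [if_neg (Nat.not_even_iff_odd.mpr hodd), if_neg (Nat.not_even_iff_odd.mpr hodd)] at h7
    rw [leadingCoeff, h6]
    exact h7
  rw [hlead, ← A.valuation_le_one_iff, map_mul] at key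
  have hprod : A.valuation S.prod = A.valuation (px P) ^ m := by
    have h8 : S.prod = ∏ k ∈ Finset.Icc 1 m, px (k • P) := rfl
    rw [h8, map_prod, Finset.prod_congr rfl hval, Finset.prod_const, Nat.card_Icc,
      Nat.add_sub_cancel]
  rwa [hprod] at key

end Main

section Cusp

variable {W : WeierstrassCurve ℤ} {ℓ p : ℕ} {r s t : ℤ} {A : ValuationSubring Qb}

/-- **Cuspidal reduction**: all points of order `p` reduce to the cusp. -/
theorem val_sub_lt_one (hℓ : ℓ.Prime) (hp : p.Prime) (h : ℓ ≠ p ∨ 11 ≤ p)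
    (d₁ : (ℓ : ℤ) ∣ W.a₁ + 2 * s)
    (d₂ : (ℓ : ℤ) ∣ W.a₂ - s * W.a₁ + 3 * r - s ^ 2)
    (d₃ : (ℓ : ℤ) ∣ W.a₃ + r * W.a₁ + 2 * t)
    (d₄ : (ℓ : ℤ) ∣ W.a₄ - s * W.a₃ + 2 * r * W.a₂ - (t + r * s) * W.a₁ + 3 * r ^ 2 - 2 * s * t)
    (d₆ : (ℓ : ℤ) ∣ W.a₆ + r * W.a₄ + r ^ 2 * W.a₂ + r ^ 3 - t * W.a₃ - t ^ 2 - r * t * W.a₁)
    (hA : A.LiesOverPrime ℓ) {R : ((W.map (Int.castRingHom ℚ))⁄Qb).Point} (hR0 : R ≠ 0)
    (hR : p • R = 0) : A.valuation (px R - (r : Qb)) < 1 := by
  classical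
  obtain ⟨u, hu⟩ := IsAlgClosed.exists_pow_nat_eq (ℓ : Qb) (n := 6) (by norm_num)
  have hℓ0 : (ℓ : Qb) ≠ 0 := Nat.cast_ne_zero.mpr hℓ.ne_zero
  have hu0 : u ≠ 0 := by
    rintro rfl
    rw [zero_pow (by norm_num)] at hu
    exact hℓ0 hu.symm
  have hvℓ : A.valuation (ℓ : Qb) < 1 := by
    have := Fermat.Agent.H09.val_intCast_lt_one (c := (ℓ : ℤ)) hA (dvd_refl _)
    rwa [Int.cast_natCast] at this
  have hvu6 : A.valuation u ^ 6 = A.valuation (ℓ : Qb) := by rw [← map_pow, hu]
  have hvu : A.valuation u < 1 := by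
    by_contra hcon
    have := one_le_pow₀ (not_lt.mp hcon) (n := 6)
    rw [hvu6] at this
    exact absurd hvℓ (not_lt.mpr this)
  have hvu0 : A.valuation u ≠ 0 := (Valuation.ne_zero_iff _).mpr hu0
  let Cv : VariableChange Qb := ⟨Units.mk0 u hu0, (r : Qb), (s : Qb), (t : Qb)⟩
  let V : WeierstrassCurve Qb := Cv • ((W.map (Int.castRingHom ℚ))⁄Qb)
  have hV : V = Cv • ((W.map (Int.castRingHom ℚ))⁄Qb) := rfl
  have c1 : ((W.map (Int.castRingHom ℚ))⁄Qb).a₁ = (W.a₁ : Qb) := by
    rw [← map_int_Qb]; rfl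
  have c2 : ((W.map (Int.castRingHom ℚ))⁄Qb).a₂ = (W.a₂ : Qb) := by
    rw [← map_int_Qb]; rfl
  have c3 : ((W.map (Int.castRingHom ℚ))⁄Qb).a₃ = (W.a₃ : Qb) := by
    rw [← map_int_Qb]; rfl
  have c4 : ((W.map (Int.castRingHom ℚ))⁄Qb).a₄ = (W.a₄ : Qb) := by
    rw [← map_int_Qb]; rfl
  have c6 : ((W.map (Int.castRingHom ℚ))⁄Qb).a₆ = (W.a₆ : Qb) := by
    rw [← map_int_Qb]; rfl
  have hdiv : ∀ (i : ℕ) (z : Qb) (c : ℤ), i ≤ 6 → (ℓ : ℤ) ∣ c → u ^ i * z = (c : Qb) →
      A.valuation z ≤ 1 := by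
    intro i z c hi hd hz
    obtain ⟨e, rfl⟩ := hd
    have h1 : z = u ^ (6 - i) * (e : Qb) := by
      apply mul_left_cancel₀ (pow_ne_zero i hu0)
      rw [hz, ← mul_assoc, ← pow_add, Nat.add_sub_cancel' hi, hu]
      push_cast
      rfl
    rw [h1, map_mul, map_pow]
    exact mul_le_one' (pow_le_one' hvu.le _) (Fermat.Agent.H09.val_intCast_le_one A e)
  have hVint : IsIntegralFor A.valuation V := by
    refine ⟨?_, ?_, ?_, ?_, ?_⟩
    · refine hdiv 1 _ _ (by norm_num) d₁ ?_
      have := vc_a₁ hV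
      rw [c1] at this
      rw [pow_one]
      push_cast
      exact this
    · refine hdiv 2 _ _ (by norm_num) d₂ ?_
      have := vc_a₂ hV
      rw [c1, c2] at this
      push_cast
      exact this
    · refine hdiv 3 _ _ (by norm_num) d₃ ?_
      have := vc_a₃ hV
      rw [c1, c3] at this
      push_cast
      exact this
    · refine hdiv 4 _ _ (by norm_num) d₄ ?_
      have := vc_a₄ hV
      rw [c1, c2, c3, c4] at this
      push_cast
      exact this
    · refine hdiv 6 _ _ (by norm_num) d₆ ?_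
      have := vc_a₆ hV
      rw [c1, c2, c3, c4, c6] at this
      push_cast
      exact this
  obtain ⟨R', hR'⟩ := (vcEquiv hV).surjective R
  have hR'0 : R' ≠ 0 := by
    rintro rfl
    rw [_root_.map_zero] at hR'
    exact hR0 hR'.symm
  have hpR' : p • R' = 0 := by
    apply (vcEquiv hV).injective
    rw [map_nsmul, hR', hR, _root_.map_zero]
  have hpx : px R - (r : Qb) = u ^ 2 * px R' := by
    rw [← hR', vcEquiv_apply, px_vcFun hV hR'0]
    change u ^ 2 * px R' + (r : Qb) - (r : Qb) = _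
    ring
  rw [hpx, map_mul, map_pow]
  by_contra hcon
  rw [not_lt] at hcon
  set w := A.valuation u with hw
  set x := A.valuation (px R') with hx
  have hx1 : 1 < x := by
    by_contra hx1
    rw [not_lt] at hx1
    have h2 : w ^ 2 * x < 1 := mul_lt_one_of_lt_of_le (pow_lt_one₀ zero_le hvu two_ne_zero) hx1
    exact absurd h2 (not_lt.mpr hcon)
  by_cases hℓp : ℓ = p
  · subst hℓp
    have h11 : 11 ≤ ℓ := by
      rcases h with h | h
      · exact absurd rfl h
      · exact h
    have h3 := val_le hVint hℓ (by omega) hA hx1 hpR'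
    rw [← hvu6, ← hx] at h3
    set m := (ℓ - 1) / 2 with hm
    have hm5 : 5 ≤ m := by omega
    have h4 : 1 ≤ (w ^ 2 * x) ^ m := one_le_pow₀ hcon
    have h5 : (w ^ 2 * x) ^ m = w ^ (2 * m - 6) * (w ^ 6 * x ^ m) := by
      rw [mul_pow, ← pow_mul, ← mul_assoc, ← pow_add]
      congr 2
      omega
    have h6 : (w ^ 2 * x) ^ m < 1 := by
      rw [h5]
      exact mul_lt_one_of_lt_of_le (pow_lt_one₀ zero_le hvu (by omega)) h3
    exact absurd h6 (not_lt.mpr h4)
  · have hvp := val_prime_eq_one hp hℓ hℓp hA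
    exact hR'0 (InE1.eq_zero_of_torsion hVint (Or.inr hx1) hpR' hvp)

/-- the same, in terms of `VariableChange` -/
theorem val_sub_lt_one' (hℓ : ℓ.Prime) (hp : p.Prime) (h : ℓ ≠ p ∨ 11 ≤ p)
    (d₁ : (ℓ : ℤ) ∣ ((⟨1, r, s, t⟩ : VariableChange ℤ) • W).a₁)
    (d₂ : (ℓ : ℤ) ∣ ((⟨1, r, s, t⟩ : VariableChange ℤ) • W).a₂)
    (d₃ : (ℓ : ℤ) ∣ ((⟨1, r, s, t⟩ : VariableChange ℤ) • W).a₃)
    (d₄ : (ℓ : ℤ) ∣ ((⟨1, r, s, t⟩ : VariableChange ℤ) • W).a₄)
    (d₆ : (ℓ : ℤ) ∣ ((⟨1, r, s, t⟩ : VariableChange ℤ) • W).a₆)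
    (hA : A.LiesOverPrime ℓ) {R : ((W.map (Int.castRingHom ℚ))⁄Qb).Point} (hR0 : R ≠ 0)
    (hR : p • R = 0) : A.valuation (px R - (r : Qb)) < 1 := by
  rw [variableChange_a₁] at d₁
  rw [variableChange_a₂] at d₂
  rw [variableChange_a₃] at d₃
  rw [variableChange_a₄] at d₄
  rw [variableChange_a₆] at d₆
  simp only [inv_one, Units.val_one, one_pow, one_mul] at d₁ d₂ d₃ d₄ d₆
  exact val_sub_lt_one hℓ hp h d₁ d₂ d₃ d₄ d₆ hA hR0 hR

end Cusp

end Fermat.Agent.Cor.CuspTors
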