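import Mathlib
import Fermat.Agent.Cor.CuspTors

set_option autoImplicit false

/-!
# Cuspidal reduction: multiples of a point, and points of order 5
-/

namespace Fermat.Agent.Cor.CuspTors

open Polynomial WeierstrassCurve WeierstrassCurve.Affine WeierstrassCurve.Affine.Point
open Fermat.Agent.H08 Fermat.Agent.H05 Fermat.Agent.H09 Fermat.Agent.Frob

local notation "Qb" => AlgebraicClosure ℚ

variable {W : WeierstrassCurve ℤ} {ℓ : ℕ} {r s t : ℤ} {A : ValuationSubring Qb}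

/-- If `u ^ N = ℓ` and `ℓ ∣ aᵢ` (after the change of variables `(1, r, s, t)`) for all `i ≤ N`, and
`aᵢ = 0` for `i > N`, the curve scaled by `u` is integral. -/
theorem scaled {u : Qb} {N : ℕ} (hN : N = 6 ∨ (N = 3 ∧
      W.a₄ - s * W.a₃ + 2 * r * W.a₂ - (t + r * s) * W.a₁ + 3 * r ^ 2 - 2 * s * t = 0 ∧
      W.a₆ + r * W.a₄ + r ^ 2 * W.a₂ + r ^ 3 - t * W.a₃ - t ^ 2 - r * t * W.a₁ = 0))
    (hu : u ^ N = (ℓ : Qb)) (hℓ : ℓ.Prime)
    (d₁ : (ℓ : ℤ) ∣ W.a₁ + 2 * s)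
    (d₂ : (ℓ : ℤ) ∣ W.a₂ - s * W.a₁ + 3 * r - s ^ 2)
    (d₃ : (ℓ : ℤ) ∣ W.a₃ + r * W.a₁ + 2 * t)
    (d₄ : (ℓ : ℤ) ∣ W.a₄ - s * W.a₃ + 2 * r * W.a₂ - (t + r * s) * W.a₁ + 3 * r ^ 2 - 2 * s * t)
    (d₆ : (ℓ : ℤ) ∣ W.a₆ + r * W.a₄ + r ^ 2 * W.a₂ + r ^ 3 - t * W.a₃ - t ^ 2 - r * t * W.a₁)
    (hA : A.LiesOverPrime ℓ) :
    A.valuation u < 1 ∧ A.valuation u ≠ 0 ∧ A.valuation u ^ N = A.valuation (ℓ : Qb) ∧
    ∃ (V : WeierstrassCurve.Affine Qb), IsIntegralFor A.valuation V ∧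
      ∃ e : V.Point ≃+ ((W.map (Int.castRingHom ℚ))⁄Qb).Point, ∀ P, P ≠ 0 →
        px (e P) - (r : Qb) = u ^ 2 * px P := by
  classical
  have hN0 : N ≠ 0 := by rcases hN with rfl | ⟨rfl, -⟩ <;> norm_num
  have hℓ0 : (ℓ : Qb) ≠ 0 := Nat.cast_ne_zero.mpr hℓ.ne_zero
  have hu0 : u ≠ 0 := by
    rintro rfl
    rw [zero_pow hN0] at hu
    exact hℓ0 hu.symm
  have hvℓ : A.valuation (ℓ : Qb) < 1 := by
    have := Fermat.Agent.H09.val_intCast_lt_one (c := (ℓ : ℤ)) hA (dvd_refl _)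
    rwa [Int.cast_natCast] at this
  have hvu6 : A.valuation u ^ N = A.valuation (ℓ : Qb) := by rw [← map_pow, hu]
  have hvu : A.valuation u < 1 := by
    by_contra hcon
    have := one_le_pow₀ (not_lt.mp hcon) (n := N)
    rw [hvu6] at this
    exact absurd hvℓ (not_lt.mpr this)
  have hvu0 : A.valuation u ≠ 0 := (Valuation.ne_zero_iff _).mpr hu0
  refine ⟨hvu, hvu0, hvu6, ?_⟩
  let Cv : VariableChange Qb := ⟨Units.mk0 u hu0, (r : Qb), (s : Qb), (t : Qb)⟩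
  let V : WeierstrassCurve Qb := Cv • ((W.map (Int.castRingHom ℚ))⁄Qb)
  have hV : V = Cv • ((W.map (Int.castRingHom ℚ))⁄Qb) := rfl
  have c1 : ((W.map (Int.castRingHom ℚ))⁄Qb).a₁ = (W.a₁ : Qb) := by
    rw [← map_int_Qb]; rfl
  have c2 : ((W.map (Int.castRingHom ℚ))⁄Qb).a₂ = (W.a₂ : Qb) := by
    rw [← map_int_Qb]; rfl
  have c3 : ((W.map (Int.castRingHom ℚ))⁄Qb).a₃ = (W.a₃ : Qb) := by
    rw [← map_int_Qb]; rfl
  have c4 : ((W.map (Int.castRingHom ℚ))⁄Qb).a₄ = (W.a₄ : Qb) := by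
    rw [← map_int_Qb]; rfl
  have c6 : ((W.map (Int.castRingHom ℚ))⁄Qb).a₆ = (W.a₆ : Qb) := by
    rw [← map_int_Qb]; rfl
  have hdiv : ∀ (i : ℕ) (z : Qb) (c : ℤ), i ≤ N ∨ c = 0 → (ℓ : ℤ) ∣ c → u ^ i * z = (c : Qb) →
      A.valuation z ≤ 1 := by
    intro i z c hi hd hz
    rcases hi with hi | rfl
    · obtain ⟨e, rfl⟩ := hd
      have h1 : z = u ^ (N - i) * (e : Qb) := by
        apply mul_left_cancel₀ (pow_ne_zero i hu0)
        rw [hz, ← mul_assoc, ← pow_add, Nat.add_sub_cancel' hi, hu]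
        push_cast
        rfl
      rw [h1, map_mul, map_pow]
      exact mul_le_one' (pow_le_one' hvu.le _) (Fermat.Agent.H09.val_intCast_le_one A e)
    · rw [Int.cast_zero] at hz
      rcases mul_eq_zero.mp hz with h | h
      · exact absurd h (pow_ne_zero i hu0)
      · rw [h, _root_.map_zero]
        exact zero_le_one
  have hVint : IsIntegralFor A.valuation V := by
    refine ⟨?_, ?_, ?_, ?_, ?_⟩
    · refine hdiv 1 _ _ (Or.inl (by omega)) d₁ ?_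
      have := vc_a₁ hV
      rw [c1] at this
      rw [pow_one]
      push_cast
      exact this
    · refine hdiv 2 _ _ (Or.inl (by omega)) d₂ ?_
      have := vc_a₂ hV
      rw [c1, c2] at this
      push_cast
      exact this
    · refine hdiv 3 _ _ (Or.inl (by omega)) d₃ ?_
      have := vc_a₃ hV
      rw [c1, c3] at this
      push_cast
      exact this
    · refine hdiv 4 _ _ (by
        rcases hN with rfl | ⟨-, h, -⟩
        · exact Or.inl (by norm_num)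
        · exact Or.inr h) d₄ ?_
      have := vc_a₄ hV
      rw [c1, c2, c3, c4] at this
      push_cast
      exact this
    · refine hdiv 6 _ _ (by
        rcases hN with rfl | ⟨-, -, h⟩
        · exact Or.inl (by norm_num)
        · exact Or.inr h) d₆ ?_
      have := vc_a₆ hV
      rw [c1, c2, c3, c4, c6] at this
      push_cast
      exact this
  refine ⟨V, hVint, vcEquiv hV, fun P hP => ?_⟩
  rw [vcEquiv_apply, px_vcFun hV hP]
  change u ^ 2 * px P + (r : Qb) - (r : Qb) = _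
  ring

/-- **Multiples of a point not reducing to the cusp** do not reduce to the cusp, if their
`x`-coordinate is rational. -/
theorem nsmul_not_lt (hℓ : ℓ.Prime)
    (d₁ : (ℓ : ℤ) ∣ W.a₁ + 2 * s)
    (d₂ : (ℓ : ℤ) ∣ W.a₂ - s * W.a₁ + 3 * r - s ^ 2)
    (d₃ : (ℓ : ℤ) ∣ W.a₃ + r * W.a₁ + 2 * t)
    (d₄ : (ℓ : ℤ) ∣ W.a₄ - s * W.a₃ + 2 * r * W.a₂ - (t + r * s) * W.a₁ + 3 * r ^ 2 - 2 * s * t)
    (d₆ : (ℓ : ℤ) ∣ W.a₆ + r * W.a₄ + r ^ 2 * W.a₂ + r ^ 3 - t * W.a₃ - t ^ 2 - r * t * W.a₁)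
    (hA : A.LiesOverPrime ℓ) {R : ((W.map (Int.castRingHom ℚ))⁄Qb).Point}
    (h : ¬ A.valuation (px R - (r : Qb)) < 1) (n : ℕ) (x : ℚ) (hx : px (n • R) = (x : Qb))
    (h0 : n • R ≠ 0) : ¬ A.valuation (px (n • R) - (r : Qb)) < 1 := by
  obtain ⟨u, hu⟩ := IsAlgClosed.exists_pow_nat_eq (ℓ : Qb) (n := 6) (by norm_num)
  obtain ⟨hvu, hvu0, hvu6, V, hV, e, he⟩ := scaled (Or.inl rfl) hu hℓ d₁ d₂ d₃ d₄ d₆ hA
  have hR0 : R ≠ 0 := by rintro rfl; exact h0 (nsmul_zero n)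
  obtain ⟨R', rfl⟩ := e.surjective R
  have hR'0 : R' ≠ 0 := by rintro rfl; exact hR0 (_root_.map_zero e)
  have hnR' : n • R' ≠ 0 := by
    intro h1
    apply h0
    rw [← map_nsmul, h1, _root_.map_zero]
  rw [he R' hR'0, map_mul, map_pow, not_lt] at h
  have hx1 : 1 < A.valuation (px R') := by
    by_contra hx1
    rw [not_lt] at hx1
    have h2 : A.valuation u ^ 2 * A.valuation (px R') < 1 :=
      mul_lt_one_of_lt_of_le (pow_lt_one₀ zero_le hvu two_ne_zero) hx1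
    exact absurd h2 (not_lt.mpr h)
  have hE : n • R' ∈ E1 A.valuation V hV :=
    (E1 A.valuation V hV).nsmul_mem (show R' ∈ E1 A.valuation V hV from Or.inr hx1) n
  have hgt : 1 < A.valuation (px (n • R')) := by
    rcases (show InE1 A.valuation (n • R') from hE) with h1 | h1
    · exact absurd h1 hnR'
    · exact h1
  have hxn : px (n • e R') - (r : Qb) = u ^ 2 * px (n • R') := by
    rw [← map_nsmul, he _ hnR']
  intro hlt
  have h2 : A.valuation u ^ 2 < A.valuation (px (n • e R') - (r : Qb)) := by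
    rw [hxn, map_mul, map_pow]
    exact lt_mul_of_one_lt_right (zero_lt_iff.mpr (pow_ne_zero 2 hvu0)) hgt
  have hq : px (n • e R') - (r : Qb) = ((x - (r : ℚ) : ℚ) : Qb) := by
    rw [hx]; push_cast; rfl
  rw [hq] at h2 hlt
  have hq0 : x - (r : ℚ) ≠ 0 := by
    intro h3
    rw [h3, Rat.cast_zero, _root_.map_zero] at h2
    exact absurd h2 (not_lt.mpr zero_le)
  obtain ⟨k, hk⟩ := val_ratCast_eq_zpow (F := Qb) hℓ hA hq0
  rw [hk] at h2 hlt
  have hvℓ0 : 0 < A.valuation (ℓ : Qb) := by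
    rw [← hvu6]; exact zero_lt_iff.mpr (pow_ne_zero 6 hvu0)
  have hvℓ1 : A.valuation (ℓ : Qb) < 1 := by
    rw [← hvu6]; exact pow_lt_one₀ zero_le hvu (by norm_num)
  have hk1 : 1 ≤ k := by
    by_contra hk1
    have hk2 : k ≤ 0 := by omega
    have h3 : 1 ≤ A.valuation (ℓ : Qb) ^ k := by
      obtain ⟨m, rfl⟩ := Int.exists_eq_neg_ofNat hk2
      rw [zpow_neg, zpow_natCast]
      exact (one_le_inv₀ (pow_pos hvℓ0 m)).mpr (pow_le_one' hvℓ1.le m)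
    exact absurd hlt (not_lt.mpr h3)
  have h4 : A.valuation (ℓ : Qb) ^ k ≤ A.valuation u ^ 2 := by
    obtain ⟨m, rfl⟩ := Int.eq_ofNat_of_zero_le (by omega : 0 ≤ k)
    rw [zpow_natCast, ← hvu6, ← pow_mul]
    exact pow_le_pow_right_of_le_one' hvu.le (by omega)
  exact absurd h2 (not_lt.mpr h4)

/-- **Points of order 5** on `(a₁, a₂, a₃, 0, 0)` with `5 ∣ a₁, a₂, a₃`. -/
theorem val_px_lt_one_of_five (w4 : W.a₄ = 0) (w6 : W.a₆ = 0) (h1 : (5 : ℤ) ∣ W.a₁)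
    (h2 : (5 : ℤ) ∣ W.a₂) (h3 : (5 : ℤ) ∣ W.a₃) (hA : A.LiesOverPrime 5)
    {R : ((W.map (Int.castRingHom ℚ))⁄Qb).Point} (hR0 : R ≠ 0) (hR : 5 • R = 0) :
    A.valuation (px R) < 1 := by
  obtain ⟨u, hu⟩ := IsAlgClosed.exists_pow_nat_eq ((5 : ℕ) : Qb) (n := 3) (by norm_num)
  have z4 : W.a₄ - 0 * W.a₃ + 2 * 0 * W.a₂ - (0 + 0 * 0) * W.a₁ + 3 * 0 ^ 2 - 2 * 0 * 0 = 0 := by
    rw [w4]; ring
  have z6 : W.a₆ + 0 * W.a₄ + 0 ^ 2 * W.a₂ + 0 ^ 3 - 0 * W.a₃ - 0 ^ 2 - 0 * 0 * W.a₁ = 0 := by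
    rw [w6]; ring
  have hp5 : Nat.Prime 5 := by norm_num
  obtain ⟨hvu, hvu0, hvu3, V, hV, e, he⟩ := scaled (W := W) (r := 0) (s := 0) (t := 0)
    (ℓ := 5) (Or.inr ⟨rfl, z4, z6⟩) hu hp5 (by simpa using h1) (by simpa using h2)
    (by simpa using h3) (by rw [z4]; exact dvd_zero _) (by rw [z6]; exact dvd_zero _) hA
  obtain ⟨R', rfl⟩ := e.surjective R
  have hR'0 : R' ≠ 0 := by rintro rfl; exact hR0 (_root_.map_zero e)
  have hpR' : 5 • R' = 0 := by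
    apply e.injective
    rw [map_nsmul, hR, _root_.map_zero]
  have hpx := he R' hR'0
  rw [Int.cast_zero, sub_zero] at hpx
  rw [hpx, map_mul, map_pow]
  by_contra hcon
  rw [not_lt] at hcon
  set w := A.valuation u with hw
  set x := A.valuation (px R') with hx
  have hx1 : 1 < x := by
    by_contra hx1
    rw [not_lt] at hx1
    have h2 : w ^ 2 * x < 1 := mul_lt_one_of_lt_of_le (pow_lt_one₀ zero_le hvu two_ne_zero) hx1
    exact absurd h2 (not_lt.mpr hcon)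
  have h4 := val_le hV hp5 (by norm_num) hA hx1 hpR'
  rw [← hvu3, ← hx] at h4
  have h5 : 1 ≤ (w ^ 2 * x) ^ 2 := one_le_pow₀ hcon
  have h6 : (w ^ 2 * x) ^ 2 = w * (w ^ 3 * x ^ 2) := by
    rw [mul_pow, ← pow_mul, ← mul_assoc, ← pow_succ']
  have h7 : (w ^ 2 * x) ^ 2 < 1 := by
    rw [h6]
    exact mul_lt_one_of_lt_of_le hvu h4
  exact absurd h7 (not_lt.mpr h5)

end Fermat.Agent.Cor.CuspTors
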