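import Fermat.Agent.Cor.ShafQ2

/-!
# The number of cyclic extensions of `ℚ` of odd prime degree `p` unramified outside `S`

For an odd prime `p` and a finite set `S ∋ p` of primes there are exactly `(p^(1+δ) - 1)/(p - 1)` Galois extensions
`F ⊂ ℚ̄` of `ℚ` of degree `p` which are unramified outside `S`, `δ` the number of the `q ∈ S` with `q ≡ 1 mod p`
(`card_fields`); for `S = {p}` there is exactly one (`card_fields_p`).

This file is not used by any of the statement files.
-/

set_option autoImplicit false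
set_option linter.unusedSectionVars false
set_option linter.style.haveILetI false
set_option maxHeartbeats 400000

noncomputable section

namespace Fermat.Agent.Cor.CyclicCount

open Fermat.Agent.CC Fermat.Agent.CFT.EC
open Fermat.Agent.Cor.ShafQ

variable {p : ℕ} [hp : Fact p.Prime] {S : Finset Nat.Primes}

/-- the Galois extensions of `ℚ` of degree `p` which are unramified outside `S` -/
def Fd (p : ℕ) (S : Finset Nat.Primes) : Type :=
  {F : IntermediateField ℚ (AlgebraicClosure ℚ) // F.IsUnramifiedOutside S ∧ IsGalois ℚ F ∧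
    Module.finrank ℚ F = p}

theorem exists_char (F : Fd p S) : ∃ f : GQ →* Multiplicative (ZMod p),
    f.ker = F.1.fixingSubgroup ∧ Function.Surjective f := by
  obtain ⟨F, hF, hG, hd⟩ := F
  haveI := H51.isGalois_Qbar
  haveI := hF.1
  haveI hN : F.fixingSubgroup.Normal := (InfiniteGalois.normal_iff_isGalois F).mpr hG
  have h1 : Nat.card (GQ ⧸ F.fixingSubgroup) = p :=
    (IntermediateField.finrank_eq_fixingSubgroup_index Qb F).symm.trans hd
  have h2 : Nat.card (Multiplicative (ZMod p)) = p := by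
    rw [Nat.card_congr Multiplicative.toAdd, Nat.card_zmod]
  let e : (GQ ⧸ F.fixingSubgroup) ≃* Multiplicative (ZMod p) := mulEquivOfPrimeCardEq (p := p) h1 h2
  refine ⟨e.toMonoidHom.comp (QuotientGroup.mk' _), ?_,
    e.surjective.comp (QuotientGroup.mk'_surjective _)⟩
  ext g
  rw [MonoidHom.mem_ker, MonoidHom.comp_apply]
  exact (e.map_eq_one_iff).trans (QuotientGroup.eq_one_iff g)

theorem exists_field (f : CharS p S) (hf : f.1 ≠ 1) : ∃ F : Fd p S, F.1.fixingSubgroup = f.1.ker := by
  haveI := H51.isGalois_Qbar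
  obtain ⟨F', hF', h1⟩ := f.2
  haveI := hF'.1
  have hop : IsOpen (f.1.ker : Set GQ) := Subgroup.isOpen_mono (fun σ hσ => h1 σ hσ)
    (IntermediateField.fixingSubgroup_isOpen F')
  have hF : (IntermediateField.fixedField f.1.ker).fixingSubgroup = f.1.ker :=
    InfiniteGalois.fixingSubgroup_fixedField
      (⟨f.1.ker, Subgroup.isClosed_of_isOpen _ hop⟩ : ClosedSubgroup GQ)
  set F := IntermediateField.fixedField f.1.ker with hFdef
  have hfd : FiniteDimensional ℚ F := by
    rw [← InfiniteGalois.isOpen_iff_finite, hF]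
    exact hop
  haveI hG : IsGalois ℚ F := (InfiniteGalois.normal_iff_isGalois F).mp (by
    rw [hF]
    infer_instance)
  have hsurj : Function.Surjective f.1 := by
    obtain ⟨g, hg⟩ : ∃ g, f.1 g ≠ 1 := by
      by_contra hcon
      push Not at hcon
      exact hf (MonoidHom.ext hcon)
    have hu : Multiplicative.toAdd (f.1 g) ≠ (0 : ZMod p) := fun h0 => hg h0
    haveI : NeZero p := ⟨hp.out.ne_zero⟩
    intro x
    refine ⟨g ^ (Multiplicative.toAdd x / Multiplicative.toAdd (f.1 g) : ZMod p).val, ?_⟩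
    rw [map_pow]
    apply Multiplicative.toAdd.injective
    rw [toAdd_pow, nsmul_eq_mul, ZMod.natCast_zmod_val, div_mul_cancel₀ _ hu]
  refine ⟨⟨F, ⟨hfd, fun q hq A hA => ?_⟩, hG, ?_⟩, hF⟩
  · rw [hF]
    exact fun σ hσ => h1 σ (hF'.2 q hq A hA hσ)
  · refine (IntermediateField.finrank_eq_fixingSubgroup_index Qb F).trans ?_
    rw [hF, Subgroup.index_ker, MonoidHom.range_eq_top.mpr hsurj,
      Nat.card_congr Subgroup.topEquiv.toEquiv, Nat.card_congr Multiplicative.toAdd, Nat.card_zmod]

/-- the chosen character of a field -/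
def ch (F : Fd p S) : GQ →* Multiplicative (ZMod p) := (exists_char F).choose

theorem ch_ker (F : Fd p S) : (ch F).ker = F.1.fixingSubgroup := (exists_char F).choose_spec.1

theorem ch_surj (F : Fd p S) : Function.Surjective (ch F) := (exists_char F).choose_spec.2

theorem toAdd_pow_apply (f : GQ →* Multiplicative (ZMod p)) (a : ZMod p) (g : GQ) :
    Multiplicative.toAdd ((f ^ a.val) g) = a * Multiplicative.toAdd (f g) := by
  haveI : NeZero p := ⟨hp.out.ne_zero⟩
  rw [MonoidHom.pow_apply, toAdd_pow, nsmul_eq_mul, ZMod.natCast_zmod_val]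

theorem pow_ker (f : GQ →* Multiplicative (ZMod p)) (a : (ZMod p)ˣ) :
    (f ^ (a : ZMod p).val).ker = f.ker := by
  ext g
  rw [MonoidHom.mem_ker, MonoidHom.mem_ker, ← toAdd_eq_zero, ← toAdd_eq_zero, toAdd_pow_apply]
  exact Units.mul_right_eq_zero a

/-- the multiples of the chosen characters -/
def Θ (x : Fd p S × (ZMod p)ˣ) : {f : CharS p S // ¬ f.1 = 1} :=
  ⟨⟨ch x.1 ^ ((x.2 : ZMod p)).val, x.1.1, x.1.2.1, fun σ hσ => by
    rw [← MonoidHom.mem_ker, pow_ker, ch_ker]; exact hσ⟩, fun h => by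
    have h1 := pow_ker (ch x.1) x.2
    have h2 : (ch x.1 ^ ((x.2 : ZMod p)).val).ker = ⊤ := by
      have h3 : ch x.1 ^ ((x.2 : ZMod p)).val = 1 := h
      rw [h3]
      exact MonoidHom.ker_one
    rw [h2] at h1
    obtain ⟨g, hg⟩ := ch_surj x.1 (Multiplicative.ofAdd 1)
    have h4 : g ∈ (ch x.1).ker := by rw [← h1]; trivial
    rw [MonoidHom.mem_ker, hg] at h4
    haveI : Fact (1 < p) := ⟨hp.out.one_lt⟩
    exact one_ne_zero (α := ZMod p) h4⟩

theorem Θ_bijective : Function.Bijective (Θ (p := p) (S := S)) := by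
  haveI := H51.isGalois_Qbar
  haveI : Fact (1 < p) := ⟨hp.out.one_lt⟩
  constructor
  · rintro ⟨F, a⟩ ⟨F', a'⟩ h
    have h1 : ch F ^ (a : ZMod p).val = ch F' ^ (a' : ZMod p).val :=
      congrArg (fun x => x.1.1) h
    have h2 : F.1.fixingSubgroup = F'.1.fixingSubgroup := by
      rw [← ch_ker, ← ch_ker, ← pow_ker (ch F) a, ← pow_ker (ch F') a', h1]
    have h3 : F = F' := by
      apply Subtype.ext
      rw [← InfiniteGalois.fixedField_fixingSubgroup F.1, h2,
        InfiniteGalois.fixedField_fixingSubgroup F'.1]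
    subst h3
    obtain ⟨g, hg⟩ := ch_surj F (Multiplicative.ofAdd 1)
    have h4 := congrArg (fun f => Multiplicative.toAdd (f g)) h1
    simp only [toAdd_pow_apply, hg, toAdd_ofAdd, mul_one] at h4
    rw [Units.ext h4]
  · rintro ⟨f, hf⟩
    obtain ⟨F, hF⟩ := exists_field f hf
    obtain ⟨g₀, hg₀⟩ := ch_surj F (Multiplicative.ofAdd 1)
    have hker : ∀ g, ch F g = 1 ↔ f.1 g = 1 := fun g => by
      rw [← MonoidHom.mem_ker, ch_ker, hF, MonoidHom.mem_ker]
    have ha : Multiplicative.toAdd (f.1 g₀) ≠ (0 : ZMod p) := by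
      intro h0
      have h1 := (hker g₀).mpr h0
      rw [hg₀] at h1
      exact one_ne_zero (α := ZMod p) h1
    refine ⟨⟨F, Units.mk0 _ ha⟩, Subtype.ext (Subtype.ext (MonoidHom.ext fun g => ?_))⟩
    apply Multiplicative.toAdd.injective
    change Multiplicative.toAdd ((ch F ^ (Multiplicative.toAdd (f.1 g₀)).val) g) = _
    rw [toAdd_pow_apply]
    haveI : NeZero p := ⟨hp.out.ne_zero⟩
    set k : ZMod p := Multiplicative.toAdd (ch F g) with hk
    have h1 : ch F (g * (g₀ ^ k.val)⁻¹) = 1 := by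
      apply Multiplicative.toAdd.injective
      rw [map_mul, map_inv, map_pow, hg₀, toAdd_mul, toAdd_inv, toAdd_pow, toAdd_ofAdd, nsmul_eq_mul,
        ZMod.natCast_zmod_val, mul_one, ← hk, add_neg_cancel, toAdd_one]
    have h2 := (hker _).mp h1
    have h3 := congrArg Multiplicative.toAdd h2
    rw [map_mul, map_inv, map_pow, toAdd_mul, toAdd_inv, toAdd_pow, nsmul_eq_mul,
      ZMod.natCast_zmod_val, toAdd_one, add_neg_eq_zero] at h3
    rw [h3, mul_comm]

/-- **The number of cyclic extensions of `ℚ` of odd prime degree `p` unramified outside `S`**, `p ∈ S`: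
`#{F} · (p - 1) = p^(1+δ) - 1`, `δ = #{q ∈ S : q ≡ 1 mod p}`. -/
theorem card_fields (hp2 : p ≠ 2) (hpS : pP p ∈ S) :
    Nat.card (Fd p S) * (p - 1) =
      p ^ (1 + (S.filter fun q : Nat.Primes => (q : ℕ) % p = 1).card) - 1 := by
  classical
  have h1 := Nat.card_congr (Equiv.ofBijective _ (Θ_bijective (p := p) (S := S)))
  rw [Nat.card_prod, Nat.card_eq_fintype_card (α := (ZMod p)ˣ), ZMod.card_units] at h1
  rw [h1, ← card_char hp2 hpS]
  have hfin : Finite (CharS p S) := Nat.finite_of_card_ne_zero (by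
    rw [card_char hp2 hpS]; exact pow_ne_zero _ hp.out.ne_zero)
  haveI := Fintype.ofFinite (CharS p S)
  let f₀ : CharS p S := ⟨1, ⊥, IntermediateField.isUnramifiedOutside_bot S, fun _ _ => rfl⟩
  have h2 : ∀ f : CharS p S, f.1 = 1 ↔ f = f₀ := fun f =>
    ⟨fun h => Subtype.ext h, fun h => congrArg Subtype.val h⟩
  rw [Nat.card_eq_fintype_card, Nat.card_eq_fintype_card, Fintype.card_subtype_compl]
  congr 1
  rw [Fintype.card_congr (Equiv.subtypeEquivRight h2), Fintype.card_subtype_eq]

/-- for `S = {p}` there is exactly one such field -/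
theorem card_fields_p (hp2 : p ≠ 2) : Nat.card (Fd p {pP p}) = 1 := by
  have h1 := card_fields (p := p) hp2 (Finset.mem_singleton_self (pP p))
  rw [Finset.filter_singleton, if_neg (show ¬ ((pP p : Nat.Primes) : ℕ) % p = 1 from ?_),
    Finset.card_empty, add_zero, pow_one] at h1
  · exact Nat.eq_of_mul_eq_mul_right (Nat.sub_pos_of_lt hp.out.one_lt) (by rw [h1, one_mul])
  · change ¬ p % p = 1
    rw [Nat.mod_self]
    norm_num

end Fermat.Agent.Cor.CyclicCount
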