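import Fermat.Agent.DefRing.TestAlg
import Fermat.Agent.H19.Trans
import Fermat.Agent.TW.Tan

/-!
# Deformation conditions which descend along jointly injective families

A property `C` of Galois representations over local rings is called *descending* (`Desc C p`) if it
holds for `ρ` over `R` as soon as the homomorphisms `φ : R → B` for which it holds for `ρ ⊗ B` are
jointly injective, and detect the ideals `(pⁿ)`. Together with invariance under isomorphisms and
base change this gives a deformation condition in the sense of `IsDeformationCondition`.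
-/

set_option autoImplicit false
set_option linter.unusedSectionVars false
set_option linter.unusedVariables false

noncomputable section

namespace Fermat.Agent.Cor.DefCond

open IsLocalRing TensorProduct GaloisRep
open Fermat.Agent.H04 (PreTest)

local notation "Qb" => AlgebraicClosure ℚ
local notation "Γℚ" => AlgebraicClosure ℚ ≃ₐ[ℚ] AlgebraicClosure ℚ

/-- base change of an endomorphism along a ring homomorphism -/
def bcE {R B : Type} [CommRing R] [CommRing B] (φ : R →+* B) {V : Type} [AddCommGroup V]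
    [Module R V] (T : V →ₗ[R] V) :
    letI := φ.toAlgebra
    B ⊗[R] V →ₗ[B] B ⊗[R] V :=
  letI := φ.toAlgebra
  T.baseChange B

section entries

variable {R B : Type} [CommRing R] [CommRing B] (φ : R →+* B) {V : Type} [AddCommGroup V]
    [Module R V]

theorem apply_entry_of_bcE (T : V →ₗ[R] V) (h : bcE φ T = 0) {n : Type} [Fintype n]
    [DecidableEq n] (b : Module.Basis n R V) (i j : n) :
    φ (LinearMap.toMatrix b b T i j) = 0 := by
  let _ : Algebra R B := φ.toAlgebra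
  have h1 : LinearMap.toMatrix (Algebra.TensorProduct.basis B b) (Algebra.TensorProduct.basis B b)
      (T.baseChange B) i j = 0 := by
    have h2 : T.baseChange B = 0 := h
    rw [h2, map_zero, Matrix.zero_apply]
  rw [LinearMap.toMatrix_baseChange, Matrix.map_apply] at h1
  exact h1

end entries

/-- descending properties -/
def Desc (C : ∀ ⦃A : Type⦄ [CommRing A] [IsLocalRing A], GaloisRepAdic A → Prop) (p : ℕ) : Prop :=
  ∀ (R : Type) [CommRing R] [IsLocalRing R] (ρ : GaloisRepAdic R),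
    (∃ (B : Type) (_ : CommRing B) (_ : IsLocalRing B) (φ : R →+* B) (hφ : IsLocalHom φ),
      C (ρ.baseChangeAlong φ hφ)) →
    (∀ x : R, (∀ (B : Type) [CommRing B] [IsLocalRing B] (φ : R →+* B) (hφ : IsLocalHom φ),
      C (ρ.baseChangeAlong φ hφ) → φ x = 0) → x = 0) →
    (∀ n : ℕ, ∃ M, n ≤ M ∧ ∀ x : R,
      (∀ (B : Type) [CommRing B] [IsLocalRing B] (φ : R →+* B) (hφ : IsLocalHom φ),
        C (ρ.baseChangeAlong φ hφ) → φ x ∈ Ideal.span {((p ^ M : ℕ) : B)}) →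
      x ∈ Ideal.span {((p ^ n : ℕ) : R)}) →
    C ρ

/-- endomorphisms are detected by jointly injective families -/
theorem end_eq_zero {C : ∀ ⦃A : Type⦄ [CommRing A] [IsLocalRing A], GaloisRepAdic A → Prop}
    {R : Type} [CommRing R] [IsLocalRing R] {ρ : GaloisRepAdic R}
    (hinj : ∀ x : R, (∀ (B : Type) [CommRing B] [IsLocalRing B] (φ : R →+* B)
      (hφ : IsLocalHom φ), C (ρ.baseChangeAlong φ hφ) → φ x = 0) → x = 0)
    (T : ρ.V →ₗ[R] ρ.V)
    (h : ∀ (B : Type) [CommRing B] [IsLocalRing B] (φ : R →+* B) (hφ : IsLocalHom φ),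
      C (ρ.baseChangeAlong φ hφ) → bcE φ T = 0) : T = 0 := by
  classical
  let b := Module.finBasis R ρ.V
  apply (LinearMap.toMatrix b b).injective
  rw [map_zero]
  ext i j
  exact hinj _ fun B _ _ φ hφ hC => apply_entry_of_bcE φ T (h B φ hφ hC) b i j

theorem bcE_rho {R B : Type} [CommRing R] [IsLocalRing R] [CommRing B] [IsLocalRing B]
    (ρ : GaloisRepAdic R) (φ : R →+* B) (hφ : IsLocalHom φ) (σ : Γℚ) :
    (ρ.baseChangeAlong φ hφ).ρ σ = bcE φ (ρ.ρ σ) := rfl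

section basic

/-- unramified representations descend -/
theorem desc_unr (p q : ℕ) : Desc (fun _A _ _ ρ => ρ.IsUnramifiedAt q) p := by
  intro R _ _ ρ _ hinj _ P hP σ hσ
  rw [← sub_eq_zero]
  refine end_eq_zero (C := fun _A _ _ ρ => ρ.IsUnramifiedAt q) hinj _ fun B _ _ φ hφ hC => ?_
  let _ : Algebra R B := φ.toAlgebra
  change (ρ.ρ σ - 1).baseChange B = 0
  rw [LinearMap.baseChange_sub, LinearMap.baseChange_one]
  exact sub_eq_zero.2 (hC P hP σ hσ)

/-- unipotent inertia descends -/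
theorem desc_unip (p q : ℕ) : Desc (fun _A _ _ ρ => ρ.IsUnipotentOnInertiaAt q) p := by
  intro R _ _ ρ _ hinj _ P hP σ hσ
  rw [← sub_eq_zero]
  ext n
  rw [Polynomial.coeff_zero]
  refine hinj _ fun B _ _ φ hφ hC => ?_
  have h1 := hC P hP σ hσ
  let _ : Algebra R B := φ.toAlgebra
  change ((ρ.ρ σ).baseChange B).charpoly = _ at h1
  rw [LinearMap.charpoly_baseChange] at h1
  have h2 : ((ρ.ρ σ).charpoly - (Polynomial.X - 1) ^ 2).map φ = 0 := by
    rw [Polynomial.map_sub, Polynomial.map_pow, Polynomial.map_sub, Polynomial.map_X,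
      Polynomial.map_one, sub_eq_zero]
    exact h1
  rw [← Polynomial.coeff_map, h2, Polynomial.coeff_zero]

theorem modEq_of_act {p : ℕ} (hp : p.Prime) {n M a a' : ℕ} (hnM : n ≤ M) {σ : Γℚ}
    (h : ∀ μ : Qb, μ ^ p ^ n = 1 → σ μ = μ ^ a) (h' : ∀ μ : Qb, μ ^ p ^ M = 1 → σ μ = μ ^ a') :
    a' ≡ a [MOD p ^ n] := by
  have : NeZero (p ^ n) := ⟨pow_ne_zero _ hp.ne_zero⟩
  have : NeZero ((p ^ n : ℕ) : Qb) := ⟨Nat.cast_ne_zero.2 (NeZero.ne _)⟩
  obtain ⟨ζ, hζ⟩ := HasEnoughRootsOfUnity.exists_primitiveRoot Qb (p ^ n)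
  have h1 := h ζ hζ.pow_eq_one
  have h2 := h' ζ (by
    obtain ⟨c, hc⟩ := pow_dvd_pow p hnM
    rw [hc, pow_mul, hζ.pow_eq_one, one_pow])
  have h3 : ζ ^ a' = ζ ^ a := h2.symm.trans h1
  have hζ0 : ζ ≠ 0 := hζ.ne_zero (NeZero.ne _)
  have h4 : ((p ^ n : ℕ) : ℤ) ∣ (a' : ℤ) - a := by
    rw [← hζ.zpow_eq_one_iff_dvd, zpow_sub₀ hζ0, zpow_natCast, zpow_natCast, h3,
      div_self (pow_ne_zero _ hζ0)]
  exact (Nat.modEq_iff_dvd.2 h4).symm

theorem cast_sub_mem {A : Type} [CommRing A] {p n a a' : ℕ} (h : a' ≡ a [MOD p ^ n]) :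
    (a' : A) - (a : A) ∈ Ideal.span {((p ^ n : ℕ) : A)} := by
  have h1 : ((p ^ n : ℕ) : ℤ) ∣ (a' : ℤ) - a := (Nat.modEq_iff_dvd.1 h.symm)
  obtain ⟨c, hc⟩ := h1
  rw [Ideal.mem_span_singleton]
  refine ⟨(c : A), ?_⟩
  have h2 := congrArg (fun z : ℤ => (z : A)) hc
  simpa using h2

/-- cyclotomic determinants descend -/
theorem desc_det {p : ℕ} (hp : p.Prime) : Desc (fun _A _ _ ρ => ρ.DetIsCyclotomic p) p := by
  intro R _ _ ρ hne _ hcl
  refine ⟨?_, fun n σ a hσ => ?_⟩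
  · obtain ⟨B, _, _, φ, hφ, hC⟩ := hne
    intro hu
    have h1 := hu.map φ
    rw [map_natCast] at h1
    exact hC.1 h1
  · obtain ⟨M, hnM, hM⟩ := hcl n
    have : NeZero (p ^ M) := ⟨pow_ne_zero _ hp.ne_zero⟩
    obtain ⟨a', ha'⟩ := TW.exists_pow_action (p ^ M) σ
    have h1 : LinearMap.det (ρ.ρ σ) - (a' : R) ∈ Ideal.span {((p ^ n : ℕ) : R)} := by
      refine hM _ fun B _ _ φ hφ hC => ?_
      have h2 := hC.2 M σ a' ha'
      let _ : Algebra R B := φ.toAlgebra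
      change LinearMap.det ((ρ.ρ σ).baseChange B) - _ ∈ _ at h2
      rw [LinearMap.det_baseChange] at h2
      rw [map_sub, map_natCast]
      exact h2
    have h3 := Ideal.add_mem _ h1 (cast_sub_mem (A := R) (modEq_of_act hp hnM hσ ha'))
    rwa [sub_add_sub_cancel] at h3

end basic

section main

variable {𝒪 : Type} [CommRing 𝒪] [IsLocalRing 𝒪]

theorem natCast_mem_of_test {p : ℕ} (hpO : (p : 𝒪) ∈ maximalIdeal 𝒪) {A : Type} [CommRing A]
    [IsLocalRing A] [Algebra 𝒪 A] (h : IsLocalHom (algebraMap 𝒪 A)) :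
    (p : A) ∈ maximalIdeal A := by
  intro hu
  rw [← map_natCast (algebraMap 𝒪 A)] at hu
  exact hpO (h.map_nonunit _ hu)

theorem pow_natCast_eq_zero {p : ℕ} (hpO : (p : 𝒪) ∈ maximalIdeal 𝒪) {A : Type} [CommRing A]
    [IsLocalRing A] [Algebra 𝒪 A] (hA : IsArtinianTestAlgebra 𝒪 A) :
    ∃ N : ℕ, ∀ M, N ≤ M → ((p ^ M : ℕ) : A) = 0 := by
  have := hA.isArtinian
  obtain ⟨N, hN⟩ := (isArtinianRing_iff_isNilpotent_maximalIdeal A).mp inferInstance
  refine ⟨N, fun M hM => ?_⟩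
  have h1 : ((p ^ M : ℕ) : A) ∈ maximalIdeal A ^ M := by
    rw [Nat.cast_pow]
    exact Ideal.pow_mem_pow (natCast_mem_of_test hpO hA.isLocalHom) M
  have h2 := Ideal.pow_le_pow_right hM h1
  rw [hN] at h2
  exact h2

/-- ideals of a complete noetherian local ring are closed -/
theorem mem_of_forall_quot {A : Type} [CommRing A] [IsLocalRing A] [IsNoetherianRing A]
    (J : Ideal A) (x : A)
    (h : ∀ m : ℕ, Ideal.Quotient.mk (maximalIdeal A ^ (m + 1)) x ∈
      J.map (Ideal.Quotient.mk (maximalIdeal A ^ (m + 1)))) : x ∈ J := by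
  have h1 : ∀ m : ℕ, x ∈ J ⊔ maximalIdeal A ^ m := by
    intro m
    obtain ⟨y, hy, hxy⟩ := (Ideal.mem_map_iff_of_surjective _ Ideal.Quotient.mk_surjective).1 (h m)
    have h2 : x - y ∈ maximalIdeal A ^ (m + 1) := by
      rw [← Ideal.Quotient.eq, hxy]
    have h3 : x = y + (x - y) := by ring
    rw [h3]
    exact Submodule.add_mem_sup hy (Ideal.pow_le_pow_right (Nat.le_succ m) h2)
  have h4 : IsHausdorff (maximalIdeal A) (A ⧸ J) := inferInstance
  rw [← Ideal.Quotient.eq_zero_iff_mem]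
  refine h4.haus _ fun m => ?_
  rw [SModEq.zero]
  obtain ⟨y, hy, z, hz, hyz⟩ := Submodule.mem_sup.1 (h1 m)
  rw [← hyz, map_add, Ideal.Quotient.eq_zero_iff_mem.2 hy, zero_add]
  have h5 : (Ideal.Quotient.mk J z : A ⧸ J) = z • (1 : A ⧸ J) := by
    rw [Algebra.smul_def, mul_one]; rfl
  rw [h5]
  exact Submodule.smul_mem_smul hz Submodule.mem_top

/-- **Descending properties are deformation conditions.** -/
theorem isDefCond_of_desc {p : ℕ} [Finite (ResidueField 𝒪)]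
    (hpO : (p : 𝒪) ∈ maximalIdeal 𝒪)
    {C : ∀ ⦃A : Type⦄ [CommRing A] [IsLocalRing A], GaloisRepAdic A → Prop}
    (hiso : ∀ (A : Type) [CommRing A] [IsLocalRing A] (ρ ρ' : GaloisRepAdic A),
      ρ.IsEquiv ρ' → C ρ → C ρ')
    (hbc : ∀ (A B : Type) [CommRing A] [IsLocalRing A] [CommRing B] [IsLocalRing B]
      (φ : A →+* B) (hφ : IsLocalHom φ) (ρ : GaloisRepAdic A), C ρ → C (ρ.baseChangeAlong φ hφ))
    (hdesc : Desc C p) :
    IsDeformationCondition 𝒪 (fun A [CommRing A] [IsLocalRing A] [Algebra 𝒪 A]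
      (ρ : GaloisRepAdic A) => C ρ) where
  of_isEquiv A _ _ _ _ ρ ρ' e h := hiso A ρ ρ' e h
  baseChangeAlong A B _ _ _ _ _ _ _ _ φ hφ ρ h := hbc A B (φ : A →+* B) hφ ρ h
  of_baseChangeAlong_injective A B _ _ _ _ _ _ hA hB φ hφ hinj ρ h := by
    refine hdesc A ρ ⟨B, _, _, (φ : A →+* B), hφ, h⟩ (fun x hx => ?_) (fun n => ?_)
    · have h1 := hx B (φ : A →+* B) hφ h
      exact hinj (h1.trans (map_zero φ).symm)
    · obtain ⟨N, hN⟩ := pow_natCast_eq_zero (p := p) hpO hA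
      refine ⟨max n N, le_max_left _ _, fun x hx => ?_⟩
      have h1 := hx B (φ : A →+* B) hφ h
      have h2 : ((p ^ (max n N) : ℕ) : B) = 0 := by
        rw [← map_natCast φ, hN _ (le_max_right _ _), map_zero]
      rw [h2, Ideal.mem_span_singleton, zero_dvd_iff] at h1
      have h3 : x = 0 := hinj (h1.trans (map_zero φ).symm)
      rw [h3]
      exact Ideal.zero_mem _
  of_fibreProduct A B Cc P _ _ _ _ _ _ _ _ _ _ _ _ hA hB hC hP f g pA pB hpA hpB hcomm hinj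
      hsurj ρ h h' := by
    have key : ∀ x : P, pA x = 0 → pB x = 0 → x = 0 := by
      intro x h1 h2
      apply hinj
      simp only [h1, h2, map_zero]
    refine hdesc P ρ ⟨A, _, _, (pA : P →+* A), hpA, h⟩ (fun x hx => ?_) (fun n => ?_)
    · exact key x (hx A (pA : P →+* A) hpA h) (hx B (pB : P →+* B) hpB h')
    · obtain ⟨N, hN⟩ := pow_natCast_eq_zero (p := p) hpO hP
      refine ⟨max n N, le_max_left _ _, fun x hx => ?_⟩
      have h1 := hx A (pA : P →+* A) hpA h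
      have h1' := hx B (pB : P →+* B) hpB h'
      have h2 : ((p ^ (max n N) : ℕ) : A) = 0 := by
        rw [← map_natCast pA, hN _ (le_max_right _ _), map_zero]
      have h2' : ((p ^ (max n N) : ℕ) : B) = 0 := by
        rw [← map_natCast pB, hN _ (le_max_right _ _), map_zero]
      rw [h2, Ideal.mem_span_singleton, zero_dvd_iff] at h1
      rw [h2', Ideal.mem_span_singleton, zero_dvd_iff] at h1'
      rw [key x h1 h1']
      exact Ideal.zero_mem _
  iff_forall_surjective A _ _ _ _ _ hloc hres ρ := by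
    refine ⟨fun h B _ _ _ hB q hq _ => hbc A B (q : A →+* B) hq ρ h, fun h => ?_⟩
    have hA : PreTest 𝒪 A := Fermat.Agent.H04.preTest_iff.mpr ⟨hloc, hres⟩
    have hnt : ∀ n : ℕ, maximalIdeal A ^ (n + 1) ≠ ⊤ := fun n h =>
      (IsLocalRing.maximalIdeal.isMaximal A).ne_top
        (top_le_iff.mp (h ▸ Ideal.pow_le_self (Nat.succ_ne_zero n)))
    have hlocQ : ∀ n : ℕ, IsLocalRing (A ⧸ maximalIdeal A ^ (n + 1)) := fun n =>
      Fermat.Agent.H04.isLocalRing_quotient _ (hnt n)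
    have htest : ∀ n : ℕ, IsArtinianTestAlgebra 𝒪 (A ⧸ maximalIdeal A ^ (n + 1)) := fun n =>
      Fermat.Agent.H04.test_quotient_pow hA (n + 1)
    have hmk : ∀ n : ℕ, IsLocalHom ((Ideal.Quotient.mkₐ 𝒪 (maximalIdeal A ^ (n + 1)) :
        A →ₐ[𝒪] A ⧸ maximalIdeal A ^ (n + 1)) : A →+* A ⧸ maximalIdeal A ^ (n + 1)) := fun n =>
      IsLocalHom.of_surjective _ (Ideal.Quotient.mkₐ_surjective 𝒪 (maximalIdeal A ^ (n + 1)))
    have hC : ∀ n : ℕ, C (ρ.baseChangeAlong ((Ideal.Quotient.mkₐ 𝒪 (maximalIdeal A ^ (n + 1)) :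
        A →ₐ[𝒪] A ⧸ maximalIdeal A ^ (n + 1)) : A →+* A ⧸ maximalIdeal A ^ (n + 1)) (hmk n)) :=
      fun n => h (htest n) (Ideal.Quotient.mkₐ 𝒪 (maximalIdeal A ^ (n + 1))) (hmk n)
        (Ideal.Quotient.mkₐ_surjective 𝒪 _)
    refine hdesc A ρ ⟨_, _, _, _, hmk 0, hC 0⟩ (fun x hx => ?_) (fun n => ?_)
    · rw [← Ideal.mem_bot]
      refine mem_of_forall_quot ⊥ x fun m => ?_
      have h1 := hx _ _ (hmk m) (hC m)
      have h2 : Ideal.Quotient.mk (maximalIdeal A ^ (m + 1)) x = 0 := h1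
      rw [h2]
      exact Ideal.zero_mem _
    · refine ⟨n, le_rfl, fun x hx => mem_of_forall_quot _ x fun m => ?_⟩
      have h1 := hx _ _ (hmk m) (hC m)
      rw [Ideal.map_span, Set.image_singleton, map_natCast]
      exact h1

/-- intersections of deformation conditions -/
theorem isDefCond_forall {ι : Sort*}
    {𝒟 : ι → ∀ ⦃A : Type⦄ [CommRing A] [IsLocalRing A] [Algebra 𝒪 A], GaloisRepAdic A → Prop}
    (h : ∀ i, IsDeformationCondition 𝒪 (𝒟 i)) :
    IsDeformationCondition 𝒪 (fun A [CommRing A] [IsLocalRing A] [Algebra 𝒪 A]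
      (ρ : GaloisRepAdic A) => ∀ i, 𝒟 i ρ) where
  of_isEquiv A _ _ _ hA ρ ρ' e hρ i := (h i).of_isEquiv hA e (hρ i)
  baseChangeAlong A B _ _ _ _ _ _ hA hB φ hφ ρ hρ i := (h i).baseChangeAlong hA hB φ hφ (hρ i)
  of_baseChangeAlong_injective A B _ _ _ _ _ _ hA hB φ hφ hinj ρ hρ i :=
    (h i).of_baseChangeAlong_injective hA hB φ hφ hinj (hρ i)
  of_fibreProduct A B Cc P _ _ _ _ _ _ _ _ _ _ _ _ hA hB hC hP f g pA pB hpA hpB hcomm hinj
      hsurj ρ h1 h2 i :=
    (h i).of_fibreProduct hA hB hC hP f g pA pB hpA hpB hcomm hinj hsurj (h1 i) (h2 i)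
  iff_forall_surjective A _ _ _ _ _ hloc hres ρ := by
    refine ⟨fun hρ B _ _ _ hB q hq hs i =>
      ((h i).iff_forall_surjective hloc hres ρ).1 (hρ i) hB q hq hs, fun hρ i =>
      ((h i).iff_forall_surjective hloc hres ρ).2 fun B _ _ _ hB q hq hs => hρ hB q hq hs i⟩

theorem isDefCond_and
    {𝒟 𝒟' : ∀ ⦃A : Type⦄ [CommRing A] [IsLocalRing A] [Algebra 𝒪 A], GaloisRepAdic A → Prop}
    (h : IsDeformationCondition 𝒪 𝒟) (h' : IsDeformationCondition 𝒪 𝒟') :
    IsDeformationCondition 𝒪 (fun A [CommRing A] [IsLocalRing A] [Algebra 𝒪 A]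
      (ρ : GaloisRepAdic A) => 𝒟 ρ ∧ 𝒟' ρ) where
  of_isEquiv A _ _ _ hA ρ ρ' e hρ := ⟨h.of_isEquiv hA e hρ.1, h'.of_isEquiv hA e hρ.2⟩
  baseChangeAlong A B _ _ _ _ _ _ hA hB φ hφ ρ hρ :=
    ⟨h.baseChangeAlong hA hB φ hφ hρ.1, h'.baseChangeAlong hA hB φ hφ hρ.2⟩
  of_baseChangeAlong_injective A B _ _ _ _ _ _ hA hB φ hφ hinj ρ hρ :=
    ⟨h.of_baseChangeAlong_injective hA hB φ hφ hinj hρ.1,
      h'.of_baseChangeAlong_injective hA hB φ hφ hinj hρ.2⟩
  of_fibreProduct A B Cc P _ _ _ _ _ _ _ _ _ _ _ _ hA hB hC hP f g pA pB hpA hpB hcomm hinj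
      hsurj ρ h1 h2 :=
    ⟨h.of_fibreProduct hA hB hC hP f g pA pB hpA hpB hcomm hinj hsurj h1.1 h2.1,
      h'.of_fibreProduct hA hB hC hP f g pA pB hpA hpB hcomm hinj hsurj h1.2 h2.2⟩
  iff_forall_surjective A _ _ _ _ _ hloc hres ρ := by
    refine ⟨fun hρ B _ _ _ hB q hq hs =>
      ⟨(h.iff_forall_surjective hloc hres ρ).1 hρ.1 hB q hq hs,
        (h'.iff_forall_surjective hloc hres ρ).1 hρ.2 hB q hq hs⟩, fun hρ =>
      ⟨(h.iff_forall_surjective hloc hres ρ).2 fun B _ _ _ hB q hq hs => (hρ hB q hq hs).1,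
        (h'.iff_forall_surjective hloc hres ρ).2 fun B _ _ _ hB q hq hs => (hρ hB q hq hs).2⟩⟩

end main

end Fermat.Agent.Cor.DefCond

end
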