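import Fermat.Agent.Cor.DefCondA

/-!
# Flatness at `p` is a deformation condition
-/

set_option autoImplicit false
set_option linter.unusedSectionVars false
set_option linter.unusedVariables false

noncomputable section

namespace Fermat.Agent.Cor.DefCond

open IsLocalRing TensorProduct GaloisRep
open Fermat.Agent.H04 (PreTest)
open Fermat.Agent.H19 (HasHopf levAct levAct_mk isFlatAt_iff)

local notation "Qb" => AlgebraicClosure ℚ
local notation "Γℚ" => AlgebraicClosure ℚ ≃ₐ[ℚ] AlgebraicClosure ℚ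

/-- joint injection into two modules with Hopf orders -/
theorem hasHopf_of_two {ℓ : ℕ} {M M₁ M₂ : Type} [AddCommGroup M] [AddCommGroup M₁]
    [AddCommGroup M₂] {act : Γℚ →* AddMonoid.End M} {act₁ : Γℚ →* AddMonoid.End M₁}
    {act₂ : Γℚ →* AddMonoid.End M₂} (h₁ : HasHopf ℓ act₁) (h₂ : HasHopf ℓ act₂)
    (p₁ : M →+ M₁) (p₂ : M →+ M₂) (hp₁ : ∀ σ m, p₁ (act σ m) = act₁ σ (p₁ m))
    (hp₂ : ∀ σ m, p₂ (act σ m) = act₂ σ (p₂ m))
    (hinj : ∀ m, p₁ m = 0 → p₂ m = 0 → m = 0) : HasHopf ℓ act := by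
  let N : Bool → Type := fun b => match b with
    | true => M₁
    | false => M₂
  let i1 : ∀ b, AddCommGroup (N b) := fun b => match b with
    | true => inferInstanceAs (AddCommGroup M₁)
    | false => inferInstanceAs (AddCommGroup M₂)
  let a1 : ∀ b, Γℚ →* AddMonoid.End (N b) := fun b => match b with
    | true => act₁
    | false => act₂
  let q1 : ∀ b, M →+ N b := fun b => match b with
    | true => p₁
    | false => p₂
  refine HasHopf.of_family (ι := Bool) (N := N) (actN := a1) ?_ q1 ?_ ?_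
  · rintro (_ | _)
    · exact h₂
    · exact h₁
  · rintro (_ | _) σ m
    · exact hp₂ σ m
    · exact hp₁ σ m
  · intro m hm
    exact hinj m (hm true) (hm false)

section act

variable {R : Type} [CommRing R] [IsLocalRing R]

/-- the additive action on `V` -/
def actA (ρ : GaloisRepAdic R) : Γℚ →* AddMonoid.End ρ.V where
  toFun σ := (ρ.ρ σ).toAddMonoidHom
  map_one' := by
    apply AddMonoidHom.ext
    intro v
    change ρ.ρ 1 v = v
    rw [map_one]; rfl
  map_mul' σ τ := by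
    apply AddMonoidHom.ext
    intro v
    change ρ.ρ (σ * τ) v = ρ.ρ σ (ρ.ρ τ v)
    rw [map_mul]; rfl

theorem hasHopf_act {ℓ : ℕ} {ρ : GaloisRepAdic R} (h : HasHopf ℓ (levAct ρ ⊥)) :
    HasHopf ℓ (actA ρ) := by
  refine HasHopf.of_injective h
    (Submodule.mkQ ((⊥ : Ideal R) • (⊤ : Submodule R ρ.V))).toAddMonoidHom
    (fun σ m => rfl) ?_
  rw [injective_iff_map_eq_zero]
  intro x hx
  have h3 : x ∈ (⊥ : Ideal R) • (⊤ : Submodule R ρ.V) :=
    (Submodule.Quotient.mk_eq_zero _).1 hx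
  rw [Submodule.bot_smul] at h3
  exact (Submodule.mem_bot R).1 h3

/-- quotients of quotients -/
theorem hasHopf_mono' {p : ℕ} {ρ : GaloisRepAdic R} {I J : Ideal R} (hIJ : I ≤ J)
    [Finite (R ⧸ I)] (h : HasHopf p (levAct ρ I)) : HasHopf p (levAct ρ J) := by
  have hle : I • (⊤ : Submodule R ρ.V) ≤ J • ⊤ := Submodule.smul_mono_left hIJ
  refine HasHopf.of_surjective h (Submodule.factor hle).toAddMonoidHom ?_ ?_
  · intro σ x
    obtain ⟨v, rfl⟩ := Submodule.Quotient.mk_surjective _ x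
    rfl
  · intro x
    obtain ⟨v, rfl⟩ := Submodule.Quotient.mk_surjective _ x
    exact ⟨Submodule.Quotient.mk v, rfl⟩

variable {B : Type} [CommRing B] [IsLocalRing B]

/-- the map `V / J V → B ⊗ V` for `φ : R → B` killing `J` -/
def toBC (ρ : GaloisRepAdic R) (φ : R →+* B) (hφ : IsLocalHom φ) (J : Ideal R)
    (hJ : ∀ x ∈ J, φ x = 0) :
    (ρ.V ⧸ (J • (⊤ : Submodule R ρ.V))) →+ (ρ.baseChangeAlong φ hφ).V :=
  letI := φ.toAlgebra
  (Submodule.liftQ (J • (⊤ : Submodule R ρ.V)) (TensorProduct.mk R B ρ.V 1) (by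
    rw [Submodule.smul_le]
    intro a ha v _
    rw [LinearMap.mem_ker, TensorProduct.mk_apply, TensorProduct.tmul_smul,
      TensorProduct.smul_tmul', Algebra.smul_def]
    have h1 : algebraMap R B a = 0 := hJ a ha
    rw [h1, zero_mul, TensorProduct.zero_tmul])).toAddMonoidHom

theorem toBC_act (ρ : GaloisRepAdic R) (φ : R →+* B) (hφ : IsLocalHom φ) (J : Ideal R)
    (hJ : ∀ x ∈ J, φ x = 0) (σ : Γℚ) (m : ρ.V ⧸ (J • (⊤ : Submodule R ρ.V))) :
    toBC ρ φ hφ J hJ (levAct ρ J σ m) =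
      actA (ρ.baseChangeAlong φ hφ) σ (toBC ρ φ hφ J hJ m) := by
  obtain ⟨v, rfl⟩ := Submodule.Quotient.mk_surjective _ m
  let _ : Algebra R B := φ.toAlgebra
  change (1 : B) ⊗ₜ[R] (ρ.ρ σ v) = (ρ.ρ σ).baseChange B ((1 : B) ⊗ₜ[R] v)
  rw [LinearMap.baseChange_tmul]

theorem coord_of_toBC (ρ : GaloisRepAdic R) (φ : R →+* B) (hφ : IsLocalHom φ) (J : Ideal R)
    (hJ : ∀ x ∈ J, φ x = 0) (v : ρ.V)
    (h : toBC ρ φ hφ J hJ (Submodule.Quotient.mk v) = 0) {n : Type} (b : Module.Basis n R ρ.V)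
    (j : n) : φ (b.repr v j) = 0 := by
  let _ : Algebra R B := φ.toAlgebra
  have h1 : (1 : B) ⊗ₜ[R] v = 0 := h
  have h2 : (Algebra.TensorProduct.basis B b).repr ((1 : B) ⊗ₜ[R] v) j = 0 := by
    rw [h1, map_zero, Finsupp.zero_apply]
  rw [Algebra.TensorProduct.basis_repr_tmul, one_smul, Finsupp.mapRange_apply] at h2
  exact h2

theorem mem_smul_top_of_coord {J : Ideal R} {V : Type} [AddCommGroup V] [Module R V] {n : Type}
    [Fintype n] (b : Module.Basis n R V) (v : V) (h : ∀ j, b.repr v j ∈ J) :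
    v ∈ J • (⊤ : Submodule R V) := by
  rw [← b.sum_repr v]
  exact Submodule.sum_mem _ fun j _ => Submodule.smul_mem_smul (h j) Submodule.mem_top

/-- one map with kernel `J` -/
theorem hasHopf_of_map {ℓ : ℕ} {ρ : GaloisRepAdic R} (φ : R →+* B) (hφ : IsLocalHom φ)
    {J : Ideal R} (hJ : ∀ x, φ x = 0 ↔ x ∈ J)
    (h : HasHopf ℓ (levAct (ρ.baseChangeAlong φ hφ) ⊥)) : HasHopf ℓ (levAct ρ J) := by
  refine HasHopf.of_injective (hasHopf_act h) (toBC ρ φ hφ J fun x hx => (hJ x).2 hx)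
    (toBC_act ρ φ hφ J _) ?_
  rw [injective_iff_map_eq_zero]
  intro x hx
  obtain ⟨v, rfl⟩ := Submodule.Quotient.mk_surjective _ x
  rw [Submodule.Quotient.mk_eq_zero]
  let b := Module.finBasis R ρ.V
  exact mem_smul_top_of_coord b v fun j =>
    (hJ _).1 (coord_of_toBC ρ φ hφ J (fun x hx => (hJ x).2 hx) v hx b j)

/-- two jointly injective maps -/
theorem hasHopf_of_maps {ℓ : ℕ} {ρ : GaloisRepAdic R} {B' : Type} [CommRing B'] [IsLocalRing B']
    (φ : R →+* B) (hφ : IsLocalHom φ) (φ' : R →+* B') (hφ' : IsLocalHom φ')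
    (hinj : ∀ x, φ x = 0 → φ' x = 0 → x = 0)
    (h : HasHopf ℓ (levAct (ρ.baseChangeAlong φ hφ) ⊥))
    (h' : HasHopf ℓ (levAct (ρ.baseChangeAlong φ' hφ') ⊥)) : HasHopf ℓ (levAct ρ ⊥) := by
  have hz : ∀ x ∈ (⊥ : Ideal R), φ x = 0 := fun x hx => by rw [(Ideal.mem_bot).1 hx, map_zero]
  have hz' : ∀ x ∈ (⊥ : Ideal R), φ' x = 0 := fun x hx => by rw [(Ideal.mem_bot).1 hx, map_zero]
  refine hasHopf_of_two (hasHopf_act h) (hasHopf_act h') (toBC ρ φ hφ ⊥ hz) (toBC ρ φ' hφ' ⊥ hz')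
    (toBC_act ρ φ hφ ⊥ hz) (toBC_act ρ φ' hφ' ⊥ hz') ?_
  intro x hx hx'
  obtain ⟨v, rfl⟩ := Submodule.Quotient.mk_surjective _ x
  rw [Submodule.Quotient.mk_eq_zero]
  let b := Module.finBasis R ρ.V
  refine mem_smul_top_of_coord b v fun j => ?_
  rw [Ideal.mem_bot]
  exact hinj _ (coord_of_toBC ρ φ hφ ⊥ hz v hx b j) (coord_of_toBC ρ φ' hφ' ⊥ hz' v hx' b j)

end act

variable {𝒪 : Type} [CommRing 𝒪] [IsLocalRing 𝒪]

/-- **Flatness is a deformation condition.** -/
theorem isDefCond_flat (p : ℕ) [Finite (ResidueField 𝒪)] :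
    IsDeformationCondition 𝒪 (fun A [CommRing A] [IsLocalRing A] [Algebra 𝒪 A]
      (ρ : GaloisRepAdic A) => ρ.IsFlatAt p) where
  of_isEquiv A _ _ _ _ ρ ρ' e h := H19.isFlatAt_of_isEquiv e h
  baseChangeAlong A B _ _ _ _ _ _ _ hB φ hφ ρ h := by
    have := Fermat.Agent.H04.finite_of_test hB
    have : Finite (ResidueField B) := Finite.of_surjective _ (residue_surjective (R := B))
    exact H19.isFlatAt_baseChangeAlong _ hφ h
  of_baseChangeAlong_injective A B _ _ _ _ _ _ hA hB φ hφ hinj ρ h := by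
    have fA := Fermat.Agent.H04.finite_of_test hA
    have fB := Fermat.Agent.H04.finite_of_test hB
    have f1 : Finite (A ⧸ (⊥ : Ideal A)) := Finite.of_surjective _ Ideal.Quotient.mk_surjective
    have f2 : Finite (B ⧸ (⊥ : Ideal B)) := Finite.of_surjective _ Ideal.Quotient.mk_surjective
    rw [isFlatAt_iff] at h ⊢
    refine ⟨Finite.of_surjective _ (residue_surjective (R := A)), fun I _ => ?_⟩
    refine hasHopf_mono' bot_le (hasHopf_of_map (φ : A →+* B) hφ (fun x => ?_) (h.2 ⊥ f2))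
    rw [Ideal.mem_bot]
    exact ⟨fun hx => hinj (hx.trans (map_zero φ).symm), fun hx => by rw [hx, map_zero]⟩
  of_fibreProduct A B Cc P _ _ _ _ _ _ _ _ _ _ _ _ hA hB hC hP f g pA pB hpA hpB hcomm hinj
      hsurj ρ h h' := by
    have fA := Fermat.Agent.H04.finite_of_test hA
    have fB := Fermat.Agent.H04.finite_of_test hB
    have fP := Fermat.Agent.H04.finite_of_test hP
    have f1 : Finite (A ⧸ (⊥ : Ideal A)) := Finite.of_surjective _ Ideal.Quotient.mk_surjective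
    have f2 : Finite (B ⧸ (⊥ : Ideal B)) := Finite.of_surjective _ Ideal.Quotient.mk_surjective
    have f3 : Finite (P ⧸ (⊥ : Ideal P)) := Finite.of_surjective _ Ideal.Quotient.mk_surjective
    rw [isFlatAt_iff] at h h' ⊢
    refine ⟨Finite.of_surjective _ (residue_surjective (R := P)), fun I _ => ?_⟩
    refine hasHopf_mono' bot_le (hasHopf_of_maps (pA : P →+* A) hpA (pB : P →+* B) hpB
      (fun x h1 h2 => ?_) (h.2 ⊥ f1) (h'.2 ⊥ f2))
    apply hinj
    have e1 : pA x = 0 := h1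
    have e2 : pB x = 0 := h2
    simp only [e1, e2, map_zero]
  iff_forall_surjective A _ _ _ _ _ hloc hres ρ := by
    have hA : PreTest 𝒪 A := Fermat.Agent.H04.preTest_iff.mpr ⟨hloc, hres⟩
    have fA : Finite (ResidueField A) := Fermat.Agent.H04.finite_residueField hA
    refine ⟨fun h B _ _ _ hB q hq _ => ?_, fun h => ?_⟩
    · have := Fermat.Agent.H04.finite_of_test hB
      have : Finite (ResidueField B) := Finite.of_surjective _ (residue_surjective (R := B))
      exact H19.isFlatAt_baseChangeAlong _ hq h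
    rw [isFlatAt_iff]
    have key : ∀ I : Ideal A, I ≠ ⊤ → Finite (A ⧸ I) → HasHopf p (levAct ρ I) := by
      intro I hI hfin
      have l1 : IsLocalRing (A ⧸ I) := Fermat.Agent.H04.isLocalRing_quotient I hI
      have t1 : IsArtinianTestAlgebra 𝒪 (A ⧸ I) := Fermat.Agent.H04.test_iff.mpr
        ⟨Fermat.Agent.H04.preTest_of_surjective (Ideal.Quotient.mkₐ 𝒪 I)
          (Ideal.Quotient.mkₐ_surjective 𝒪 I) hA, inferInstance⟩
      have l2 : IsLocalHom ((Ideal.Quotient.mkₐ 𝒪 I : A →ₐ[𝒪] A ⧸ I) : A →+* A ⧸ I) :=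
        IsLocalHom.of_surjective _ (Ideal.Quotient.mkₐ_surjective 𝒪 I)
      have f2 : Finite ((A ⧸ I) ⧸ (⊥ : Ideal (A ⧸ I))) :=
        Finite.of_surjective _ Ideal.Quotient.mk_surjective
      have h1 := h t1 (Ideal.Quotient.mkₐ 𝒪 I) l2 (Ideal.Quotient.mkₐ_surjective 𝒪 I)
      rw [isFlatAt_iff] at h1
      refine hasHopf_of_map _ l2 (fun x => ?_) (h1.2 ⊥ f2)
      exact Ideal.Quotient.eq_zero_iff_mem
    refine ⟨fA, fun I hI => ?_⟩
    by_cases hI' : I = ⊤
    · subst hI'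
      have fm : Finite (A ⧸ maximalIdeal A) := fA
      exact hasHopf_mono' le_top (key (maximalIdeal A)
        (IsLocalRing.maximalIdeal.isMaximal A).ne_top fm)
    · exact key I hI' hI

end Fermat.Agent.Cor.DefCond

end
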