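import Fermat.Agent.Cor.DefCondA
import Fermat.Agent.TW.LocFinal

/-!
# The strictly ordinary condition is a deformation condition
-/

set_option autoImplicit false
set_option linter.unusedSectionVars false

noncomputable section

namespace Fermat.Agent.Cor.DefCond

open IsLocalRing TensorProduct GaloisRep

local notation "Qb" => AlgebraicClosure ℚ
local notation "Γℚ" => AlgebraicClosure ℚ ≃ₐ[ℚ] AlgebraicClosure ℚ

section line

variable {R V : Type} [CommRing R] [AddCommGroup V] [Module R V]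

/-- determinant and trace of a triangular endomorphism -/
theorem det_trace_of_tri (b : Module.Basis (Fin 2) R V) (T : V →ₗ[R] V) {d c e : R}
    (h0 : T (b 0) = d • b 0) (h1 : T (b 1) = c • b 0 + e • b 1) :
    LinearMap.det T = d * e ∧ LinearMap.trace R V T = d + e := by
  have m00 : LinearMap.toMatrix b b T 0 0 = d := by
    rw [LinearMap.toMatrix_apply, h0]; simp
  have m10 : LinearMap.toMatrix b b T 1 0 = 0 := by
    rw [LinearMap.toMatrix_apply, h0]; simp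
  have m11 : LinearMap.toMatrix b b T 1 1 = e := by
    rw [LinearMap.toMatrix_apply, h1]; simp
  constructor
  · rw [← LinearMap.det_toMatrix b, Matrix.det_fin_two, m00, m10, m11, mul_zero, sub_zero]
  · rw [LinearMap.trace_eq_matrix_trace R b, Matrix.trace_fin_two, m00, m11]

/-- An operator `N` with `N² = u N`, `tr N = u` a unit, has as range a line. -/
theorem exists_basis_aux {N : V →ₗ[R] V} {u : R} (hN : N ∘ₗ N = u • N)
    (htr : LinearMap.trace R V N = u) (c : Module.Basis (Fin 2) R V)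
    (hu : IsUnit (LinearMap.toMatrix c c N 0 0)) :
    ∃ b : Module.Basis (Fin 2) R V, LinearMap.range N = R ∙ b 0 := by
  set n := LinearMap.toMatrix c c N with hn
  have e1 : n * n = u • n := by
    rw [hn, ← LinearMap.toMatrix_comp c c c, hN, map_smul]
  have e2 : n 0 0 + n 1 1 = u := by
    rw [← Matrix.trace_fin_two, hn, ← LinearMap.trace_eq_matrix_trace R c]
    exact htr
  have e3 := congrFun (congrFun e1 0) 0
  rw [Matrix.mul_apply, Fin.sum_univ_two, Matrix.smul_apply, smul_eq_mul, ← e2] at e3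
  have hdet : n 0 1 * n 1 0 = n 0 0 * n 1 1 := by linear_combination e3
  obtain ⟨v, hv⟩ := hu
  have hN0 : N (c 0) = n 0 0 • c 0 + n 1 0 • c 1 := by
    rw [← c.sum_repr (N (c 0)), Fin.sum_univ_two, hn, LinearMap.toMatrix_apply,
      LinearMap.toMatrix_apply]
  have hN1 : N (c 1) = n 0 1 • c 0 + n 1 1 • c 1 := by
    rw [← c.sum_repr (N (c 1)), Fin.sum_univ_two, hn, LinearMap.toMatrix_apply,
      LinearMap.toMatrix_apply]
  let f : V →ₗ[R] V := Matrix.toLin c c !![n 0 0, 0; n 1 0, 1]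
  have hf : IsUnit (LinearMap.toMatrix c c f).det := by
    rw [LinearMap.toMatrix_toLin, Matrix.det_fin_two]
    simp [← hv]
  let e := LinearEquiv.ofIsUnitDet hf
  have he : ∀ y, e y = f y := fun y => rfl
  have hf0 : f (c 0) = N (c 0) := by
    rw [Matrix.toLin_self, Fin.sum_univ_two, hN0]
    simp
  refine ⟨c.map e, ?_⟩
  have hb0 : (c.map e) 0 = N (c 0) := by
    rw [Module.Basis.map_apply, he, hf0]
  rw [hb0]
  apply le_antisymm
  · rintro _ ⟨y, rfl⟩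
    rw [← c.sum_repr y, Fin.sum_univ_two, map_add, map_smul, map_smul]
    refine add_mem (Submodule.smul_mem _ _ (Submodule.mem_span_singleton_self _))
      (Submodule.smul_mem _ _ ?_)
    rw [Submodule.mem_span_singleton]
    refine ⟨n 0 1 * (v⁻¹ : Rˣ), ?_⟩
    have hv1 : ((v⁻¹ : Rˣ) : R) * n 0 0 = 1 := by rw [← hv, Units.inv_mul]
    rw [hN0, hN1, smul_add, smul_smul, smul_smul]
    congr 2
    · linear_combination (n 0 1) * hv1
    · linear_combination ((v⁻¹ : Rˣ) : R) * hdet + (n 1 1) * hv1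
  · rw [Submodule.span_singleton_le_iff_mem]
    exact ⟨c 0, rfl⟩

theorem exists_basis_of_idem [IsLocalRing R] {N : V →ₗ[R] V} {u : R} (hu : IsUnit u)
    (hN : N ∘ₗ N = u • N) (htr : LinearMap.trace R V N = u) (c : Module.Basis (Fin 2) R V) :
    ∃ b : Module.Basis (Fin 2) R V, LinearMap.range N = R ∙ b 0 := by
  have e2 : LinearMap.toMatrix c c N 0 0 + LinearMap.toMatrix c c N 1 1 = u := by
    rw [← Matrix.trace_fin_two, ← LinearMap.trace_eq_matrix_trace R c]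
    exact htr
  rw [← e2] at hu
  rcases IsLocalRing.isUnit_or_isUnit_of_isUnit_add hu with h | h
  · exact exists_basis_aux hN htr c h
  · refine exists_basis_aux hN htr (c.reindex (Equiv.swap 0 1)) ?_
    rw [LinearMap.toMatrix_apply] at h ⊢
    rw [Module.Basis.reindex_apply, Module.Basis.repr_reindex_apply]
    simpa using h

end line

section facts

variable {R : Type} [CommRing R] [IsLocalRing R] {p : ℕ}

/-- on suitable inertia elements the cyclotomic character is not `1` modulo `p` -/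
theorem exists_inertia_unit (hp : p.Prime) (hp2 : p ≠ 2) {P : ValuationSubring Qb}
    (hP : P.LiesOverPrime p) : ∃ σ ∈ P.inertiaSubgroupIn ℚ, ∀ (A : Type) [CommRing A]
      [IsLocalRing A] (ρ : GaloisRepAdic A), ρ.DetIsCyclotomic p →
      IsUnit (LinearMap.det (ρ.ρ σ) - 1) := by
  obtain ⟨w, ζ, x, hPL, C⟩ := TW.exists_data hp hP
  obtain ⟨σ, hσ, hxσ⟩ := TW.x_surj_inertia hPL C hp2
  refine ⟨σ, hσ, fun A _ _ ρ hρ => ?_⟩
  have hpow : ∀ μ : Qb, μ ^ p ^ 1 = 1 → σ μ = μ ^ (x σ).val := by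
    intro μ hμ
    rw [pow_one] at hμ
    obtain ⟨a, rfl⟩ := C.zp_surj hμ
    rw [C.act_zp, C.zp_mul]
  have h1 := hρ.2 1 σ (x σ).val hpow
  have hf : Fact p.Prime := ⟨hp⟩
  have hchar : CharP (ResidueField A) p := by
    refine (CharP.charP_iff_prime_eq_zero hp).2 ?_
    rw [← map_natCast (residue A), residue_eq_zero_iff]
    exact hρ.1
  rw [pow_one] at h1
  have h2 : LinearMap.det (ρ.ρ σ) - ((x σ).val : A) ∈ maximalIdeal A :=
    (Ideal.span_singleton_le_iff_mem (maximalIdeal A)).2 hρ.1 h1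
  by_contra hcon
  have h3 : LinearMap.det (ρ.ρ σ) - 1 ∈ maximalIdeal A := hcon
  have h4 := Ideal.sub_mem _ h3 h2
  rw [sub_sub_sub_cancel_left, ← residue_eq_zero_iff, map_sub, map_natCast, map_one,
    sub_eq_zero] at h4
  apply hxσ
  have h5 : (((x σ).val : ℕ) : ResidueField A) = ((1 : ℕ) : ResidueField A) := by
    rw [h4, Nat.cast_one]
  rw [CharP.natCast_eq_natCast (ResidueField A) p] at h5
  have h6 := (ZMod.natCast_eq_natCast_iff _ _ _).2 h5
  rw [ZMod.natCast_zmod_val, Nat.cast_one] at h6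
  exact h6

/-- identities satisfied by strictly ordinary representations -/
theorem facts {ρ : GaloisRepAdic R} (hs : ρ.IsStrictOrdinaryAt p) {P : ValuationSubring Qb}
    (hP : P.LiesOverPrime p) {σ₀ : Γℚ} (hσ₀ : σ₀ ∈ P.inertiaSubgroupIn ℚ) {u : R}
    (hu : u = LinearMap.det (ρ.ρ σ₀) - 1) :
    (ρ.ρ σ₀ - 1) ∘ₗ (ρ.ρ σ₀ - 1) = u • (ρ.ρ σ₀ - 1) ∧
    LinearMap.trace R ρ.V (ρ.ρ σ₀ - 1) = u ∧
    (∀ σ ∈ P.inertiaSubgroupIn ℚ, ((ρ.ρ σ₀ - 1) - u • 1) ∘ₗ (ρ.ρ σ - 1) = 0) ∧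
    ∀ σ ∈ P.decompositionSubgroup ℚ, ∃ x z : R,
      ρ.ρ σ ∘ₗ (ρ.ρ σ₀ - 1) = x • (ρ.ρ σ₀ - 1) ∧
      ((ρ.ρ σ₀ - 1) - u • 1) ∘ₗ (ρ.ρ σ - z • 1) = 0 ∧
      ∀ (n a : ℕ), (∀ μ : Qb, μ ^ p ^ n = 1 → σ μ = μ ^ a) →
        x - (a : R) * z ∈ Ideal.span {((p ^ n : ℕ) : R)} := by
  obtain ⟨L, ⟨b, hL⟩, hD, hI, hxz⟩ := hs.2 P hP
  have hb0 : b 0 ∈ L := by rw [hL]; exact Submodule.mem_span_singleton_self _
  obtain ⟨d, hd⟩ : ∃ d, ρ.ρ σ₀ (b 0) - b 0 = d • b 0 := by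
    have := hI σ₀ hσ₀ (b 0)
    rw [hL, Submodule.mem_span_singleton] at this
    obtain ⟨d, hd⟩ := this
    exact ⟨d, hd.symm⟩
  obtain ⟨c, hc⟩ : ∃ c, ρ.ρ σ₀ (b 1) - b 1 = c • b 0 := by
    have := hI σ₀ hσ₀ (b 1)
    rw [hL, Submodule.mem_span_singleton] at this
    obtain ⟨c, hc⟩ := this
    exact ⟨c, hc.symm⟩
  obtain ⟨h1, h2⟩ := det_trace_of_tri b (ρ.ρ σ₀) (d := 1 + d) (c := c) (e := 1)
    (by rw [add_smul, one_smul, ← hd]; abel) (by rw [one_smul, ← hc]; abel)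
  have hud : u = d := by rw [hu, h1]; ring
  have hN : ∀ w ∈ L, (ρ.ρ σ₀ - 1) w = u • w := by
    intro w hw
    rw [hL, Submodule.mem_span_singleton] at hw
    obtain ⟨t, rfl⟩ := hw
    rw [map_smul, LinearMap.sub_apply, Module.End.one_apply, hd, hud, smul_comm]
  have hNL : ∀ v, (ρ.ρ σ₀ - 1) v ∈ L := fun v => hI σ₀ hσ₀ v
  refine ⟨?_, ?_, fun σ hσ => ?_, fun σ hσ => ?_⟩
  · ext v
    rw [LinearMap.comp_apply, LinearMap.smul_apply]
    exact hN _ (hNL v)
  · rw [map_sub, h2, LinearMap.trace_one, ρ.finrank_eq, hud]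
    push_cast
    ring
  · ext v
    rw [LinearMap.comp_apply, LinearMap.sub_apply, LinearMap.smul_apply, Module.End.one_apply,
      LinearMap.zero_apply, sub_eq_zero]
    exact hN _ (hI σ hσ v)
  · obtain ⟨x, z, hx, hz, hxz'⟩ := hxz σ hσ
    refine ⟨x, z, ?_, ?_, hxz'⟩
    · ext v
      rw [LinearMap.comp_apply, LinearMap.smul_apply]
      exact hx _ (hNL v)
    · ext v
      rw [LinearMap.comp_apply, LinearMap.sub_apply, LinearMap.smul_apply, Module.End.one_apply,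
        LinearMap.zero_apply, sub_eq_zero]
      refine hN _ ?_
      have := hz v
      rwa [LinearMap.sub_apply, LinearMap.smul_apply, Module.End.one_apply]

/-- the identities suffice -/
theorem strict_of_facts {ρ : GaloisRepAdic R} {P : ValuationSubring Qb} {N : ρ.V →ₗ[R] ρ.V} {u : R}
    (hu : IsUnit u)
    (h1 : N ∘ₗ N = u • N) (h2 : LinearMap.trace R ρ.V N = u)
    (h3 : ∀ σ ∈ P.inertiaSubgroupIn ℚ, (N - u • 1) ∘ₗ (ρ.ρ σ - 1) = 0)
    (h4 : ∀ σ ∈ P.decompositionSubgroup ℚ, ∃ x z : R,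
      ρ.ρ σ ∘ₗ N = x • N ∧ (N - u • 1) ∘ₗ (ρ.ρ σ - z • 1) = 0 ∧
      ∀ (n a : ℕ), (∀ μ : Qb, μ ^ p ^ n = 1 → σ μ = μ ^ a) →
        x - (a : R) * z ∈ Ideal.span {((p ^ n : ℕ) : R)}) :
    ∃ L : Submodule R ρ.V,
      (∃ b : Module.Basis (Fin 2) R ρ.V, L = R ∙ b 0) ∧
      (∀ σ ∈ P.decompositionSubgroup ℚ, ∀ v ∈ L, ρ.ρ σ v ∈ L) ∧
      (∀ σ ∈ P.inertiaSubgroupIn ℚ, ∀ v : ρ.V, ρ.ρ σ v - v ∈ L) ∧
      (∀ σ ∈ P.decompositionSubgroup ℚ, ∃ x z : R,
        (∀ w ∈ L, ρ.ρ σ w = x • w) ∧ (∀ v : ρ.V, ρ.ρ σ v - z • v ∈ L) ∧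
        ∀ (n a : ℕ), (∀ μ : AlgebraicClosure ℚ, μ ^ p ^ n = 1 → σ μ = μ ^ a) →
          x - (a : R) * z ∈ Ideal.span {((p ^ n : ℕ) : R)}) := by
  have hmem : ∀ v, (N - u • 1) v = 0 → v ∈ LinearMap.range N := by
    intro v hv
    rw [LinearMap.sub_apply, LinearMap.smul_apply, Module.End.one_apply, sub_eq_zero] at hv
    obtain ⟨u', rfl⟩ := hu
    refine ⟨((u'⁻¹ : Rˣ) : R) • v, ?_⟩
    rw [map_smul, hv, smul_smul, Units.inv_mul, one_smul]
  refine ⟨LinearMap.range N, exists_basis_of_idem hu h1 h2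
    (Module.finBasisOfFinrankEq R ρ.V ρ.finrank_eq), ?_, ?_, ?_⟩
  · rintro σ hσ _ ⟨w, rfl⟩
    obtain ⟨x, z, hx, -, -⟩ := h4 σ hσ
    have := LinearMap.congr_fun hx w
    rw [LinearMap.comp_apply, LinearMap.smul_apply] at this
    rw [this]
    exact Submodule.smul_mem _ _ ⟨w, rfl⟩
  · intro σ hσ v
    exact hmem _ (LinearMap.congr_fun (h3 σ hσ) v)
  · intro σ hσ
    obtain ⟨x, z, hx, hz, hxz⟩ := h4 σ hσ
    refine ⟨x, z, ?_, fun v => ?_, hxz⟩
    · rintro _ ⟨w, rfl⟩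
      exact LinearMap.congr_fun hx w
    · exact hmem _ (LinearMap.congr_fun hz v)

end facts

end Fermat.Agent.Cor.DefCond

end
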