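import Fermat.Agent.Cor.DefCondB
import Fermat.Agent.Cor.DefCondC

/-!
# The deformation problems of Taylor and Wiles are deformation conditions
-/

set_option autoImplicit false
set_option linter.unusedSectionVars false
set_option linter.unusedVariables false

noncomputable section

namespace Fermat.Agent.Cor.DefCond

open IsLocalRing TensorProduct GaloisRep

local notation "Qb" => AlgebraicClosure ℚ
local notation "Γℚ" => AlgebraicClosure ℚ ≃ₐ[ℚ] AlgebraicClosure ℚ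

section bc

variable {R B V : Type} [CommRing R] [CommRing B] [Algebra R B] [AddCommGroup V] [Module R V]

theorem bc_smul' (u : R) (T : V →ₗ[R] V) :
    (u • T).baseChange B = algebraMap R B u • T.baseChange B := by
  rw [LinearMap.baseChange_smul, algebraMap_smul]

theorem bc_sub_one (T : V →ₗ[R] V) : (T - 1).baseChange B = T.baseChange B - 1 := by
  rw [LinearMap.baseChange_sub, LinearMap.baseChange_one]

theorem bc_sub_smul_one (T : V →ₗ[R] V) (u : R) :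
    (T - u • 1).baseChange B = T.baseChange B - algebraMap R B u • 1 := by
  rw [LinearMap.baseChange_sub, bc_smul', LinearMap.baseChange_one]

theorem trace_aux {M : Type} [AddCommGroup M] [Module B M] [Module.Free B M] [Module.Finite B M]
    [Nontrivial B] (hf : Module.finrank B M = 2) {T T₀ : M →ₗ[B] M} {u x z : B}
    (ht : LinearMap.trace B M (T₀ - 1) = u) (h5 : T ∘ₗ (T₀ - 1) = x • (T₀ - 1))
    (h6 : (T₀ - 1 - u • 1) ∘ₗ (T - z • 1) = 0) :
    LinearMap.trace B M (T ∘ₗ (T₀ - 1)) = x * u ∧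
      LinearMap.trace B M ((T₀ - 1 - u • 1) ∘ₗ T) = -(z * u) := by
  constructor
  · rw [h5, map_smul, ht, smul_eq_mul]
  · have h7 : (T₀ - 1 - u • 1) ∘ₗ T = z • (T₀ - 1 - u • 1) := by
      rw [LinearMap.comp_sub, sub_eq_zero] at h6
      rw [h6]
      ext t
      simp
    rw [h7, map_smul, map_sub, ht, map_smul, LinearMap.trace_one, hf, smul_eq_mul, smul_eq_mul]
    push_cast
    ring

end bc

/-- **Strict ordinarity descends.** -/
theorem desc_strict {p : ℕ} (hp : p.Prime) (hp2 : p ≠ 2) :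
    Desc (fun _A _ _ ρ => ρ.DetIsCyclotomic p ∧ ρ.IsStrictOrdinaryAt p) p := by
  intro R _ _ ρ hne hinj hcl
  have hdet : ρ.DetIsCyclotomic p := by
    refine desc_det hp R ρ ?_ (fun x hx => hinj x fun B _ _ φ hφ hC => hx B φ hφ hC.1) ?_
    · obtain ⟨B, i1, i2, φ, hφ, hC⟩ := hne
      exact ⟨B, i1, i2, φ, hφ, hC.1⟩
    · intro n
      obtain ⟨M, h1, h2⟩ := hcl n
      exact ⟨M, h1, fun x hx => h2 x fun B _ _ φ hφ hC => hx B φ hφ hC.1⟩
  refine ⟨hdet, hdet.1, fun P hP => ?_⟩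
  obtain ⟨σ₀, hσ₀, hunit⟩ := exists_inertia_unit hp hp2 hP
  have hu := hunit R ρ hdet
  obtain ⟨u, hueq⟩ : ∃ u, u = LinearMap.det (ρ.ρ σ₀) - 1 := ⟨_, rfl⟩
  rw [← hueq] at hu
  have huB : ∀ (B : Type) [CommRing B] [IsLocalRing B] (φ : R →+* B) (hφ : IsLocalHom φ),
      φ u = LinearMap.det ((ρ.baseChangeAlong φ hφ).ρ σ₀) - 1 := by
    intro B _ _ φ hφ
    let _ : Algebra R B := φ.toAlgebra
    change _ = LinearMap.det ((ρ.ρ σ₀).baseChange B) - 1
    rw [LinearMap.det_baseChange, hueq, map_sub, map_one]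
    rfl
  have key := fun (T : ρ.V →ₗ[R] ρ.V) => end_eq_zero
    (C := fun _A _ _ ρ => ρ.DetIsCyclotomic p ∧ ρ.IsStrictOrdinaryAt p) hinj T
  have kinj : ∀ x y : R, (∀ (B : Type) [CommRing B] [IsLocalRing B] (φ : R →+* B)
      (hφ : IsLocalHom φ), (ρ.baseChangeAlong φ hφ).DetIsCyclotomic p ∧
      (ρ.baseChangeAlong φ hφ).IsStrictOrdinaryAt p → φ x = φ y) → x = y := by
    intro x y h
    rw [← sub_eq_zero]
    refine hinj _ fun B _ _ φ hφ hC => ?_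
    rw [map_sub, h B φ hφ hC, sub_self]
  refine strict_of_facts hu (N := ρ.ρ σ₀ - 1) ?_ ?_ ?_ ?_
  · rw [← sub_eq_zero]
    refine key _ fun B _ _ φ hφ hC => ?_
    obtain ⟨h1, -, -, -⟩ := facts hC.2 hP hσ₀ (huB B φ hφ)
    let _ : Algebra R B := φ.toAlgebra
    change ((ρ.ρ σ₀ - 1) ∘ₗ (ρ.ρ σ₀ - 1) - u • (ρ.ρ σ₀ - 1)).baseChange B = 0
    rw [LinearMap.baseChange_sub, LinearMap.baseChange_comp, bc_smul', bc_sub_one]
    exact sub_eq_zero.2 h1
  · refine kinj _ _ fun B _ _ φ hφ hC => ?_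
    obtain ⟨-, h2, -, -⟩ := facts hC.2 hP hσ₀ (huB B φ hφ)
    let _ : Algebra R B := φ.toAlgebra
    have h3 : LinearMap.trace B (B ⊗[R] ρ.V) ((ρ.ρ σ₀ - 1).baseChange B) = φ u := by
      rw [bc_sub_one]
      exact h2
    rw [LinearMap.trace_baseChange] at h3
    exact h3
  · intro σ hσ
    refine key _ fun B _ _ φ hφ hC => ?_
    obtain ⟨-, -, h3, -⟩ := facts hC.2 hP hσ₀ (huB B φ hφ)
    let _ : Algebra R B := φ.toAlgebra
    change (((ρ.ρ σ₀ - 1) - u • 1) ∘ₗ (ρ.ρ σ - 1)).baseChange B = 0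
    rw [LinearMap.baseChange_comp, bc_sub_smul_one, bc_sub_one, bc_sub_one]
    exact h3 σ hσ
  · intro σ hσ
    obtain ⟨v, hv⟩ := hu
    have hv1 : ((v⁻¹ : Rˣ) : R) * u = 1 := by rw [← hv, Units.inv_mul]
    obtain ⟨x, hx⟩ : ∃ x, x = ((v⁻¹ : Rˣ) : R) *
      LinearMap.trace R ρ.V (ρ.ρ σ ∘ₗ (ρ.ρ σ₀ - 1)) := ⟨_, rfl⟩
    obtain ⟨z, hz⟩ : ∃ z, z = -(((v⁻¹ : Rˣ) : R) *
      LinearMap.trace R ρ.V (((ρ.ρ σ₀ - 1) - u • 1) ∘ₗ ρ.ρ σ)) := ⟨_, rfl⟩
    have hxz : ∀ (B : Type) [CommRing B] [IsLocalRing B] (φ : R →+* B) (hφ : IsLocalHom φ),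
        (ρ.baseChangeAlong φ hφ).DetIsCyclotomic p ∧
        (ρ.baseChangeAlong φ hφ).IsStrictOrdinaryAt p →
        (ρ.baseChangeAlong φ hφ).ρ σ ∘ₗ ((ρ.baseChangeAlong φ hφ).ρ σ₀ - 1) =
          φ x • ((ρ.baseChangeAlong φ hφ).ρ σ₀ - 1) ∧
        (((ρ.baseChangeAlong φ hφ).ρ σ₀ - 1) - φ u • 1) ∘ₗ
          ((ρ.baseChangeAlong φ hφ).ρ σ - φ z • 1) = 0 ∧
        ∀ (n a : ℕ), (∀ μ : Qb, μ ^ p ^ n = 1 → σ μ = μ ^ a) →
          φ (x - (a : R) * z) ∈ Ideal.span {((p ^ n : ℕ) : B)} := by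
      intro B _ _ φ hφ hC
      obtain ⟨h1, h2, h3, h4⟩ := facts hC.2 hP hσ₀ (huB B φ hφ)
      obtain ⟨x', z', h5, h6, h7⟩ := h4 σ hσ
      have hT := trace_aux (ρ.baseChangeAlong φ hφ).finrank_eq h2 h5 h6
      have hvB : φ ((v⁻¹ : Rˣ) : R) * φ u = 1 := by rw [← map_mul, hv1, map_one]
      let _ : Algebra R B := φ.toAlgebra
      have hx' : φ x = x' := by
        have e1 : LinearMap.trace B (B ⊗[R] ρ.V)
            ((ρ.ρ σ ∘ₗ (ρ.ρ σ₀ - 1)).baseChange B) = x' * φ u := by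
          rw [LinearMap.baseChange_comp, bc_sub_one]
          exact hT.1
        rw [LinearMap.trace_baseChange] at e1
        have e2 : φ (LinearMap.trace R ρ.V (ρ.ρ σ ∘ₗ (ρ.ρ σ₀ - 1))) = x' * φ u := e1
        rw [hx, map_mul, e2]
        linear_combination x' * hvB
      have hz' : φ z = z' := by
        have e1 : LinearMap.trace B (B ⊗[R] ρ.V)
            ((((ρ.ρ σ₀ - 1) - u • 1) ∘ₗ ρ.ρ σ).baseChange B) = -(z' * φ u) := by
          rw [LinearMap.baseChange_comp, bc_sub_smul_one, bc_sub_one]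
          exact hT.2
        rw [LinearMap.trace_baseChange] at e1
        have e2 : φ (LinearMap.trace R ρ.V (((ρ.ρ σ₀ - 1) - u • 1) ∘ₗ ρ.ρ σ)) =
          -(z' * φ u) := e1
        rw [hz, map_neg, map_mul, e2]
        linear_combination z' * hvB
      rw [hx', hz']
      refine ⟨h5, h6, fun n a hna => ?_⟩
      rw [map_sub, map_mul, map_natCast, hx', hz']
      exact h7 n a hna
    refine ⟨x, z, ?_, ?_, fun n a hna => ?_⟩
    · rw [← sub_eq_zero]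
      refine key _ fun B _ _ φ hφ hC => ?_
      obtain ⟨h5, -, -⟩ := hxz B φ hφ hC
      let _ : Algebra R B := φ.toAlgebra
      change (ρ.ρ σ ∘ₗ (ρ.ρ σ₀ - 1) - x • (ρ.ρ σ₀ - 1)).baseChange B = 0
      rw [LinearMap.baseChange_sub, LinearMap.baseChange_comp, bc_smul', bc_sub_one]
      exact sub_eq_zero.2 h5
    · refine key _ fun B _ _ φ hφ hC => ?_
      obtain ⟨-, h6, -⟩ := hxz B φ hφ hC
      let _ : Algebra R B := φ.toAlgebra
      change (((ρ.ρ σ₀ - 1) - u • 1) ∘ₗ (ρ.ρ σ - z • 1)).baseChange B = 0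
      rw [LinearMap.baseChange_comp, bc_sub_smul_one, bc_sub_one, bc_sub_smul_one]
      exact h6
    · obtain ⟨M, hnM, hM⟩ := hcl n
      have : NeZero (p ^ M) := ⟨pow_ne_zero _ hp.ne_zero⟩
      obtain ⟨a', ha'⟩ := TW.exists_pow_action (p ^ M) σ
      have h8 : x - (a' : R) * z ∈ Ideal.span {((p ^ n : ℕ) : R)} :=
        hM _ fun B _ _ φ hφ hC => (hxz B φ hφ hC).2.2 M a' ha'
      have h9 := Ideal.mul_mem_right z _ (cast_sub_mem (A := R) (modEq_of_act hp hnM hna ha'))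
      have h10 := Ideal.add_mem _ h8 h9
      convert h10 using 1
      ring

section final

variable {𝒪 : Type} [CommRing 𝒪] [IsLocalRing 𝒪] [Finite (ResidueField 𝒪)]

/-- cyclotomic determinant -/
theorem isDefCond_det {p : ℕ} (hp : p.Prime) (hpO : (p : 𝒪) ∈ maximalIdeal 𝒪) :
    IsDeformationCondition 𝒪 (fun A [CommRing A] [IsLocalRing A] [Algebra 𝒪 A]
      (ρ : GaloisRepAdic A) => ρ.DetIsCyclotomic p) :=
  isDefCond_of_desc hpO (fun A _ _ ρ ρ' e h => H19.detIsCyclotomic_of_isEquiv e h)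
    (fun A B _ _ _ _ φ hφ ρ h => H19.detIsCyclotomic_baseChangeAlong φ hφ h) (desc_det hp)

theorem isDefCond_unr {p : ℕ} (hpO : (p : 𝒪) ∈ maximalIdeal 𝒪) (q : ℕ) :
    IsDeformationCondition 𝒪 (fun A [CommRing A] [IsLocalRing A] [Algebra 𝒪 A]
      (ρ : GaloisRepAdic A) => ρ.IsUnramifiedAt q) :=
  isDefCond_of_desc hpO (fun A _ _ ρ ρ' e h => H19.isUnramifiedAt_of_isEquiv e h)
    (fun A B _ _ _ _ φ hφ ρ h => H19.isUnramifiedAt_baseChangeAlong φ hφ h) (desc_unr p q)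

theorem isDefCond_unip {p : ℕ} (hpO : (p : 𝒪) ∈ maximalIdeal 𝒪) (q : ℕ) :
    IsDeformationCondition 𝒪 (fun A [CommRing A] [IsLocalRing A] [Algebra 𝒪 A]
      (ρ : GaloisRepAdic A) => ρ.IsUnipotentOnInertiaAt q) :=
  isDefCond_of_desc hpO (fun A _ _ ρ ρ' e h => H19.isUnipotent_of_isEquiv e h)
    (fun A B _ _ _ _ φ hφ ρ h => H19.isUnipotent_baseChangeAlong φ hφ h) (desc_unip p q)

theorem isDefCond_strict {p : ℕ} (hp : p.Prime) (hp2 : p ≠ 2)
    (hpO : (p : 𝒪) ∈ maximalIdeal 𝒪) :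
    IsDeformationCondition 𝒪 (fun A [CommRing A] [IsLocalRing A] [Algebra 𝒪 A]
      (ρ : GaloisRepAdic A) => ρ.DetIsCyclotomic p ∧ ρ.IsStrictOrdinaryAt p) :=
  isDefCond_of_desc hpO (fun A _ _ ρ ρ' e h => ⟨H19.detIsCyclotomic_of_isEquiv e h.1,
      H19.isStrictOrdinaryAt_of_isEquiv e h.2⟩)
    (fun A B _ _ _ _ φ hφ ρ h => ⟨H19.detIsCyclotomic_baseChangeAlong φ hφ h.1,
      H19.isStrictOrdinaryAt_baseChangeAlong φ hφ h.2⟩) (desc_strict hp hp2)

/-- unramified outside `S` -/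
theorem isDefCond_unrOutside {p : ℕ} (hpO : (p : 𝒪) ∈ maximalIdeal 𝒪) (S : Finset ℕ) :
    IsDeformationCondition 𝒪 (fun A [CommRing A] [IsLocalRing A] [Algebra 𝒪 A]
      (ρ : GaloisRepAdic A) => ∀ q : ℕ, q.Prime → q ∉ S → ρ.IsUnramifiedAt q) :=
  isDefCond_forall fun q => isDefCond_forall fun _ => isDefCond_forall fun _ =>
    isDefCond_unr hpO q

theorem isDefCond_unipAt {p : ℕ} (hpO : (p : 𝒪) ∈ maximalIdeal 𝒪) (S : Finset ℕ) :
    IsDeformationCondition 𝒪 (fun A [CommRing A] [IsLocalRing A] [Algebra 𝒪 A]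
      (ρ : GaloisRepAdic A) => ∀ q ∈ S, q.Prime → q ≠ p → ρ.IsUnipotentOnInertiaAt q) :=
  isDefCond_forall fun q => isDefCond_forall fun _ => isDefCond_forall fun _ =>
    isDefCond_forall fun _ => isDefCond_unip hpO q

/-- **The flat deformation problem**: cyclotomic determinant, flat at `p`, unramified outside `S`,
unipotent on inertia at the primes of `Smin`. -/
theorem isDefCond_flatCondition {p : ℕ} (hp : p.Prime) (hpO : (p : 𝒪) ∈ maximalIdeal 𝒪)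
    (S Smin : Finset ℕ) :
    IsDeformationCondition 𝒪 (fun _A _ _ _ ρ => flatCondition 𝒪 p S ρ ∧
      ∀ q ∈ Smin, q.Prime → q ≠ p → ρ.IsUnipotentOnInertiaAt q) :=
  isDefCond_and (isDefCond_and (isDefCond_det hp hpO)
    (isDefCond_and (isDefCond_flat p) (isDefCond_unrOutside hpO S))) (isDefCond_unipAt hpO Smin)

theorem isDefCond_congr
    {𝒟 𝒟' : ∀ ⦃A : Type⦄ [CommRing A] [IsLocalRing A] [Algebra 𝒪 A], GaloisRepAdic A → Prop}
    (h : IsDeformationCondition 𝒪 𝒟)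
    (e : ∀ ⦃A : Type⦄ [CommRing A] [IsLocalRing A] [Algebra 𝒪 A] (ρ : GaloisRepAdic A),
      𝒟 ρ ↔ 𝒟' ρ) : IsDeformationCondition 𝒪 𝒟' := by
  have : 𝒟 = 𝒟' := by
    funext A i1 i2 i3 ρ
    exact propext (e ρ)
  rw [← this]
  exact h

/-- **The strictly ordinary deformation problem.** -/
theorem isDefCond_strictOrdinaryCondition {p : ℕ} (hp : p.Prime) (hp2 : p ≠ 2)
    (hpO : (p : 𝒪) ∈ maximalIdeal 𝒪) (S Smin : Finset ℕ) :
    IsDeformationCondition 𝒪 (fun _A _ _ _ ρ => strictOrdinaryCondition 𝒪 p S ρ ∧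
      ∀ q ∈ Smin, q.Prime → q ≠ p → ρ.IsUnipotentOnInertiaAt q) := by
  refine isDefCond_congr (isDefCond_and (isDefCond_and (isDefCond_strict hp hp2 hpO)
    (isDefCond_unrOutside hpO S)) (isDefCond_unipAt hpO Smin)) ?_
  intro A _ _ _ ρ
  exact ⟨fun h => ⟨⟨h.1.1.1, h.1.1.2, h.1.2⟩, h.2⟩, fun h => ⟨⟨⟨h.1.1, h.1.2.1⟩, h.1.2.2⟩, h.2⟩⟩

end final

end Fermat.Agent.Cor.DefCond

end
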