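import Fermat.Agent.Cor.DefCondD
import Fermat.Agent.TW.S56B
import Fermat.Agent.H25.SelH
import Fermat.Agent.CFT.EC.GW
import Fermat.Agent.DefRing.Burnside

/-!
# Finiteness of the tangent space

For an odd prime `p`, a finite field `k` of characteristic `p` and
`r : Gal(ℚ̄/ℚ) → GL₂(k)` unramified outside the finite set `S ∋ p` with cyclotomic determinant,
`H¹(G_S, ad⁰ r)` is finite (from the Greenberg–Wiles formula).  Hence every deformation problem
which consists of deformations unramified outside a finite set of primes with cyclotomic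
determinant has a finite tangent space.
-/

set_option autoImplicit false
set_option linter.unusedSectionVars false

noncomputable section

namespace Fermat.Agent.Cor.DefCond

open IsLocalRing GaloisRep Matrix Fermat.Agent.CC Fermat.Agent.TW
open Fermat.Agent.H04 (DN M2 Dat IsCont ofMat Compat)
open Fermat.Agent.H25.SB (ePair ePair_apply eq_zero_of_trace_form zs_eq_zero trF_smul trF_smul_left
  trF_smul_right smul_mu exists_zeta castD castD_resD DK_bot)
open Fermat.Agent.H25.TR (plv plv_over)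
open Fermat.Agent.CFT.EC (GW SelS mem_SelS)
open Fermat.Agent.LF (DK)

section pairing

variable {k : Type} [Field k] [Finite k] {p : ℕ} [hpf : Fact p.Prime] [CharP k p]
  {S : Finset Nat.Primes} {r : GQ →* Mt k} {χ : GQ →* k}

theorem two_ne_zero_of (k : Type) [Field k] {p : ℕ} [hpf : Fact p.Prime] [CharP k p]
    (hp2 : p ≠ 2) : (2 : k) ≠ 0 := by
  intro h
  have h1 : ((2 : ℕ) : k) = 0 := by exact_mod_cast h
  rw [CharP.cast_eq_zero_iff k p] at h1
  exact hp2 ((Nat.prime_dvd_prime_iff_eq hpf.out Nat.prime_two).1 h1)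

/-- the trace pairing of `ad⁰` and `ad⁰(1)` with values in `μ_p` is perfect -/
theorem pr_ePair_of [Algebra (ZMod p) k] (hp2 : p ≠ 2) (hU : (levS S).isOpen r.ker)
    (hdet : ∀ g, (r g).det = χ g)
    (hχ : ∀ (σ : GQ) (a : ℕ), (∀ x : Qb, x ^ p = 1 → σ x = x ^ a) → χ σ = a)
    {l : k →ₗ[ZMod p] ZMod p} (hl : ∀ a : k, (∀ z, l (z * a) = 0) → a = 0) {m : Mu p}
    (hm : m ≠ 0) : CC.Pr p (levS S) (ePair r χ l m) where
  fA := inferInstance
  fB := inferInstance
  he := by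
    intro g X Y
    have : NeZero p := ⟨hpf.out.ne_zero⟩
    obtain ⟨a, ha⟩ := exists_pow_action p g
    rw [ePair_apply, ePair_apply, trF_smul, hχ g a ha, smul_mu ha, ← nsmul_eq_mul, map_nsmul,
      map_nsmul]
  smA := fun X => ⟨r.ker, hU, fun s hs => Ad0.smul_of_trivial hs rfl X⟩
  smB := fun X => ⟨r.ker, hU, fun s hs => Ad0.smul_of_trivial hs (by
    rw [← hdet, show r s = 1 from hs, Matrix.det_one]) X⟩
  kA X := by
    have h1 : (p : k) • X = 0 := by rw [CharP.cast_eq_zero, zero_smul]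
    rwa [Nat.cast_smul_eq_nsmul] at h1
  kB X := by
    have h1 : (p : k) • X = 0 := by rw [CharP.cast_eq_zero, zero_smul]
    rwa [Nat.cast_smul_eq_nsmul] at h1
  hl X hX := by
    apply Ad0.ext
    refine eq_zero_of_trace_form (two_ne_zero_of k hp2) X.trace_val fun Y hY => ?_
    refine hl _ fun z => zs_eq_zero (hm := TorP.killed m) hm ?_
    have := hX (z • Ad0.mk Y hY)
    rw [ePair_apply, trF_smul_right] at this
    exact this
  hr Y hY := by
    apply Ad0.ext
    refine eq_zero_of_trace_form (two_ne_zero_of k hp2) Y.trace_val fun X hX => ?_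
    rw [Matrix.trace_mul_comm]
    refine hl _ fun z => zs_eq_zero (hm := TorP.killed m) hm ?_
    have := hY (z • Ad0.mk X hX)
    rw [ePair_apply, trF_smul_left] at this
    exact this

/-- **Finiteness of `H¹(G_S, M)`** for every module `M` which has a perfect `μ_p`-dual. -/
theorem finite_H1_of_pr (hp2 : p ≠ 2) (hpS : pP p ∈ S) {M M' : Type} [AddCommGroup M]
    [AddCommGroup M'] [DistribMulAction GQ M] [DistribMulAction GQ M'] {e : M →+ M' →+ Mu p}
    (h : CC.Pr p (levS S) e) : Finite (H1 (levS S) M) := by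
  let A : S → ValuationSubring Qb := fun q => plv q.1 q.1.2
  have hA : ∀ q : S, (A q).LiesOverPrime ((q : Nat.Primes) : ℕ) := fun q => plv_over _ _
  have h1 := (CFT.EC.gw hp2 S hpS A hA M M' e h (fun q => ⊤)).1
  exact Finite.of_injective (β := SelS S A M fun q => ⊤)
    (fun x => ⟨x, (mem_SelS S A).2 fun q => trivial⟩) fun a b hab => congrArg Subtype.val hab

/-- **Finiteness of `H¹(G_S, ad⁰ r)`**, `p` odd. -/
theorem finite_H1_ad0 (hp2 : p ≠ 2) (hpS : pP p ∈ S) (hU : (levS S).isOpen r.ker)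
    (hdet : ∀ g, (r g).det = χ g)
    (hχ : ∀ (σ : GQ) (a : ℕ), (∀ x : Qb, x ^ p = 1 → σ x = x ^ a) → χ σ = a) :
    Finite (H1 (levS S) (Ad0 r (1 : GQ →* k))) := by
  let _ : Algebra (ZMod p) k := ZMod.algebra k p
  obtain ⟨l, hl⟩ := exists_functional (p := p) k
  obtain ⟨m, hm⟩ := exists_zeta (p := p)
  exact finite_H1_of_pr hp2 hpS (pr_ePair_of hp2 hU hdet hχ hl hm)

end pairing

section tangent

variable {𝒪 : Type} [CommRing 𝒪] [IsLocalRing 𝒪] [Finite (ResidueField 𝒪)]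

/-- **Finiteness of the tangent space** of a deformation problem with cyclotomic determinant and
ramification in a finite set of primes. -/
theorem tangentFinite_of {p : ℕ} (hp : p.Prime) (hp2 : p ≠ 2)
    {ρbar : ResidualGaloisRep (ResidueField 𝒪)} (habs : ρbar.IsAbsolutelyIrreducible)
    (hdet : (GaloisRepAdic.ofResidualGaloisRep ρbar).DetIsCyclotomic p)
    {𝒟 : ∀ ⦃A : Type⦄ [CommRing A] [IsLocalRing A] [Algebra 𝒪 A], GaloisRepAdic A → Prop}
    (S : Finset ℕ) (hρ : ∀ q : ℕ, q.Prime → q ∉ S → ρbar.IsUnramifiedAt q)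
    (h1 : ∀ ρ : GaloisRepAdic (DN 𝒪), 𝒟 ρ → ρ.DetIsCyclotomic p)
    (h2 : ∀ ρ : GaloisRepAdic (DN 𝒪), 𝒟 ρ → ∀ q : ℕ, q.Prime → q ∉ S → ρ.IsUnramifiedAt q) :
    TangentFinite 𝒪 ρbar 𝒟 := by
  have hpf : Fact p.Prime := ⟨hp⟩
  have hcharP : CharP (ResidueField 𝒪) p := charP_of ρbar p hp hdet
  obtain ⟨b, D, hD⟩ := Fermat.Agent.H04.exists_dat ρbar habs
  obtain ⟨S', hS'⟩ : ∃ S' : Finset Nat.Primes, S' = insert (pP p) (S.subtype Nat.Prime) :=
    ⟨_, rfl⟩
  have hpS : pP p ∈ S' := hS' ▸ Finset.mem_insert_self _ _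
  have hmem : ∀ q : Nat.Primes, q ∉ S' → (q : ℕ) ∉ S := by
    intro q hq hq'
    apply hq
    rw [hS']
    exact Finset.mem_insert_of_mem (Finset.mem_subtype.2 hq')
  have hU : (levS S').isOpen (rbM ρbar b).ker :=
    isOpen_rbM ρbar b fun q hq => hρ q q.2 (hmem q hq)
  have hχ : ∀ (σ : GQ) (a : ℕ), (∀ x : Qb, x ^ p = 1 → σ x = x ^ a) → chiM ρbar b σ = a := by
    intro σ a ha
    have h1 := hdet.2 1 σ a (fun μ hμ => ha μ (by rwa [pow_one] at hμ))
    have hp0 : (p : ResidueField 𝒪) = 0 := CharP.cast_eq_zero _ p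
    rw [pow_one, hp0, Ideal.mem_span_singleton'] at h1
    obtain ⟨c, hc⟩ := h1
    rw [mul_zero, eq_comm, sub_eq_zero] at hc
    change (rbM ρbar b σ).det = _
    rw [det_rbM]
    exact hc
  have hfin : Finite (H1 (levS S') (Ad0 (rbM ρbar b) (1 : GQ →* ResidueField 𝒪))) :=
    finite_H1_ad0 hp2 hpS hU (fun _ => rfl) hχ
  obtain ⟨ζ, hζ⟩ : ∃ ζ : Qb, IsPrimitiveRoot ζ p := by
    have : NeZero (p : Qb) := ⟨Nat.cast_ne_zero.2 hp.ne_zero⟩
    exact HasEnoughRootsOfUnity.exists_primitiveRoot Qb p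
  obtain ⟨x, CY⟩ := exists_CY hp hζ
  have hrb' : ∀ σ i j, residue 𝒪 (D.cf σ i j) = rbM ρbar b σ i j := fun σ i j => by
    rw [hD σ i j, rbM_apply]
  unfold TangentFinite
  let φ : ResidueField 𝒪 →+* ResidueField (DN 𝒪) :=
    (residue (DN 𝒪)).comp (algebraMap (ResidueField 𝒪) (DualNumber (ResidueField 𝒪)))
  -- the cohomology class of a deformation
  have key : ∀ ρ : GaloisRepAdic (DN 𝒪), 𝒟 ρ → ρ.residual.IsEquiv (ρbar.baseChangeAlong φ) →
      ∃ (s : GQ →* M2 (DN 𝒪)) (hs : IsCont s) (hF : ∀ σ, FM (s σ) = rbM ρbar b σ)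
        (_ : (levS S').isOpen s.ker) (_ : ∀ σ, sn (s σ).det = 0), ρ.IsEquiv (ofMat s hs) := by
    intro ρ hρ' hres
    obtain ⟨s, hs, hred, heq⟩ := Fermat.Agent.H04.exists_mat hD φ (fun c => rfl) ρ hres
    refine ⟨s, hs, fun σ => FM_of_red hrb' hred σ, ?_, fun σ => ?_, heq⟩
    · exact level_of_unr hs (fun q hq hqS => H19.isUnramifiedAt_of_isEquiv heq (h2 ρ hρ' q hq hqS))
        hmem
    · rw [det_of_cyc CY hs (H19.detIsCyclotomic_of_isEquiv heq (h1 ρ hρ')), sn_natCast]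
  choose s hs hF hU' htr heq using key
  refine Finite.of_injective (β := H1 (levS S') (Ad0 (rbM ρbar b) (1 : GQ →* ResidueField 𝒪)))
    (fun c => H1.mk _ _ (cls S' (hF c.out.1 c.out.2.1 c.out.2.2)
      (hU' c.out.1 c.out.2.1 c.out.2.2) (htr c.out.1 c.out.2.1 c.out.2.2))) ?_
  intro c c' hcc
  obtain ⟨P, hP, hPs⟩ := exists_conj_of_cls hcc
  have h3 := Fermat.Agent.H04.isEquiv_of_matrix (hs c.out.1 c.out.2.1 c.out.2.2)
    (hs c'.out.1 c'.out.2.1 c'.out.2.2) P hP hPs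
  obtain ⟨e1⟩ := heq c.out.1 c.out.2.1 c.out.2.2
  obtain ⟨e2⟩ := h3
  obtain ⟨e3⟩ := heq c'.out.1 c'.out.2.1 c'.out.2.2
  rw [← Quotient.out_eq c, ← Quotient.out_eq c']
  exact Quotient.sound ⟨(e1.trans e2).trans e3.symm⟩

end tangent

end Fermat.Agent.Cor.DefCond

end
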