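import Fermat.Agent.Cor.DefCondD

/-!
# The ordinary condition is a deformation condition
-/

set_option autoImplicit false
set_option linter.unusedSectionVars false
set_option linter.unusedVariables false

noncomputable section

namespace Fermat.Agent.Cor.DefCond

open IsLocalRing TensorProduct GaloisRep

local notation "Qb" => AlgebraicClosure ℚ
local notation "Γℚ" => AlgebraicClosure ℚ ≃ₐ[ℚ] AlgebraicClosure ℚ

section facts

variable {R : Type} [CommRing R] [IsLocalRing R] {p : ℕ}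

/-- identities satisfied by ordinary representations -/
theorem facts_ord {ρ : GaloisRepAdic R} (hs : ρ.IsOrdinaryAt p) {P : ValuationSubring Qb}
    (hP : P.LiesOverPrime p) {σ₀ : Γℚ} (hσ₀ : σ₀ ∈ P.inertiaSubgroupIn ℚ) {u : R}
    (hu : u = LinearMap.det (ρ.ρ σ₀) - 1) :
    (ρ.ρ σ₀ - 1) ∘ₗ (ρ.ρ σ₀ - 1) = u • (ρ.ρ σ₀ - 1) ∧
    LinearMap.trace R ρ.V (ρ.ρ σ₀ - 1) = u ∧
    (∀ σ ∈ P.inertiaSubgroupIn ℚ, ((ρ.ρ σ₀ - 1) - u • 1) ∘ₗ (ρ.ρ σ - 1) = 0) ∧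
    ∀ σ ∈ P.decompositionSubgroup ℚ,
      ((ρ.ρ σ₀ - 1) - u • 1) ∘ₗ (ρ.ρ σ ∘ₗ (ρ.ρ σ₀ - 1)) = 0 := by
  obtain ⟨L, ⟨b, hL⟩, hD, hI⟩ := hs P hP
  obtain ⟨d, hd⟩ : ∃ d, ρ.ρ σ₀ (b 0) - b 0 = d • b 0 := by
    have := hI σ₀ hσ₀ (b 0)
    rw [hL, Submodule.mem_span_singleton] at this
    obtain ⟨d, hd⟩ := this
    exact ⟨d, hd.symm⟩
  obtain ⟨c, hc⟩ : ∃ c, ρ.ρ σ₀ (b 1) - b 1 = c • b 0 := by
    have := hI σ₀ hσ₀ (b 1)
    rw [hL, Submodule.mem_span_singleton] at this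
    obtain ⟨c, hc⟩ := this
    exact ⟨c, hc.symm⟩
  obtain ⟨h1, h2⟩ := det_trace_of_tri b (ρ.ρ σ₀) (d := 1 + d) (c := c) (e := 1)
    (by rw [add_smul, one_smul, ← hd]; abel) (by rw [one_smul, ← hc]; abel)
  have hud : u = d := by rw [hu, h1]; ring
  have hN : ∀ w ∈ L, (ρ.ρ σ₀ - 1) w = u • w := by
    intro w hw
    rw [hL, Submodule.mem_span_singleton] at hw
    obtain ⟨t, rfl⟩ := hw
    rw [map_smul, LinearMap.sub_apply, Module.End.one_apply, hd, hud, smul_comm]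
  have hNL : ∀ v, (ρ.ρ σ₀ - 1) v ∈ L := fun v => hI σ₀ hσ₀ v
  refine ⟨?_, ?_, fun σ hσ => ?_, fun σ hσ => ?_⟩
  · ext v
    rw [LinearMap.comp_apply, LinearMap.smul_apply]
    exact hN _ (hNL v)
  · rw [map_sub, h2, LinearMap.trace_one, ρ.finrank_eq, hud]
    push_cast
    ring
  · ext v
    rw [LinearMap.comp_apply, LinearMap.sub_apply, LinearMap.smul_apply, Module.End.one_apply,
      LinearMap.zero_apply, sub_eq_zero]
    exact hN _ (hI σ hσ v)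
  · ext v
    rw [LinearMap.comp_apply, LinearMap.comp_apply, LinearMap.sub_apply, LinearMap.smul_apply,
      Module.End.one_apply, LinearMap.zero_apply, sub_eq_zero]
    exact hN _ (hD σ hσ _ (hNL v))

/-- the identities suffice -/
theorem ord_of_facts {ρ : GaloisRepAdic R} {P : ValuationSubring Qb} {N : ρ.V →ₗ[R] ρ.V} {u : R}
    (hu : IsUnit u)
    (h1 : N ∘ₗ N = u • N) (h2 : LinearMap.trace R ρ.V N = u)
    (h3 : ∀ σ ∈ P.inertiaSubgroupIn ℚ, (N - u • 1) ∘ₗ (ρ.ρ σ - 1) = 0)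
    (h4 : ∀ σ ∈ P.decompositionSubgroup ℚ, (N - u • 1) ∘ₗ (ρ.ρ σ ∘ₗ N) = 0) :
    ∃ L : Submodule R ρ.V,
      (∃ b : Module.Basis (Fin 2) R ρ.V, L = R ∙ b 0) ∧
      (∀ σ ∈ P.decompositionSubgroup ℚ, ∀ v ∈ L, ρ.ρ σ v ∈ L) ∧
      (∀ σ ∈ P.inertiaSubgroupIn ℚ, ∀ v : ρ.V, ρ.ρ σ v - v ∈ L) := by
  have hmem : ∀ v, (N - u • 1) v = 0 → v ∈ LinearMap.range N := by
    intro v hv
    rw [LinearMap.sub_apply, LinearMap.smul_apply, Module.End.one_apply, sub_eq_zero] at hv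
    obtain ⟨u', rfl⟩ := hu
    refine ⟨((u'⁻¹ : Rˣ) : R) • v, ?_⟩
    rw [map_smul, hv, smul_smul, Units.inv_mul, one_smul]
  refine ⟨LinearMap.range N, exists_basis_of_idem hu h1 h2
    (Module.finBasisOfFinrankEq R ρ.V ρ.finrank_eq), ?_, ?_⟩
  · rintro σ hσ _ ⟨w, rfl⟩
    exact hmem _ (LinearMap.congr_fun (h4 σ hσ) w)
  · intro σ hσ v
    exact hmem _ (LinearMap.congr_fun (h3 σ hσ) v)

end facts

/-- **Ordinarity descends.** -/
theorem desc_ord {p : ℕ} (hp : p.Prime) (hp2 : p ≠ 2) :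
    Desc (fun _A _ _ ρ => ρ.DetIsCyclotomic p ∧ ρ.IsOrdinaryAt p) p := by
  intro R _ _ ρ hne hinj hcl
  have hdet : ρ.DetIsCyclotomic p := by
    refine desc_det hp R ρ ?_ (fun x hx => hinj x fun B _ _ φ hφ hC => hx B φ hφ hC.1) ?_
    · obtain ⟨B, i1, i2, φ, hφ, hC⟩ := hne
      exact ⟨B, i1, i2, φ, hφ, hC.1⟩
    · intro n
      obtain ⟨M, h1, h2⟩ := hcl n
      exact ⟨M, h1, fun x hx => h2 x fun B _ _ φ hφ hC => hx B φ hφ hC.1⟩
  refine ⟨hdet, fun P hP => ?_⟩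
  obtain ⟨σ₀, hσ₀, hunit⟩ := exists_inertia_unit hp hp2 hP
  have hu := hunit R ρ hdet
  obtain ⟨u, hueq⟩ : ∃ u, u = LinearMap.det (ρ.ρ σ₀) - 1 := ⟨_, rfl⟩
  rw [← hueq] at hu
  have huB : ∀ (B : Type) [CommRing B] [IsLocalRing B] (φ : R →+* B) (hφ : IsLocalHom φ),
      φ u = LinearMap.det ((ρ.baseChangeAlong φ hφ).ρ σ₀) - 1 := by
    intro B _ _ φ hφ
    let _ : Algebra R B := φ.toAlgebra
    change _ = LinearMap.det ((ρ.ρ σ₀).baseChange B) - 1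
    rw [LinearMap.det_baseChange, hueq, map_sub, map_one]
    rfl
  have key := fun (T : ρ.V →ₗ[R] ρ.V) => end_eq_zero
    (C := fun _A _ _ ρ => ρ.DetIsCyclotomic p ∧ ρ.IsOrdinaryAt p) hinj T
  refine ord_of_facts hu (N := ρ.ρ σ₀ - 1) ?_ ?_ ?_ ?_
  · rw [← sub_eq_zero]
    refine key _ fun B _ _ φ hφ hC => ?_
    obtain ⟨h1, -, -, -⟩ := facts_ord hC.2 hP hσ₀ (huB B φ hφ)
    let _ : Algebra R B := φ.toAlgebra
    change ((ρ.ρ σ₀ - 1) ∘ₗ (ρ.ρ σ₀ - 1) - u • (ρ.ρ σ₀ - 1)).baseChange B = 0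
    rw [LinearMap.baseChange_sub, LinearMap.baseChange_comp, bc_smul', bc_sub_one]
    exact sub_eq_zero.2 h1
  · rw [← sub_eq_zero]
    refine hinj _ fun B _ _ φ hφ hC => ?_
    obtain ⟨-, h2, -, -⟩ := facts_ord hC.2 hP hσ₀ (huB B φ hφ)
    let _ : Algebra R B := φ.toAlgebra
    have h3 : LinearMap.trace B (B ⊗[R] ρ.V) ((ρ.ρ σ₀ - 1).baseChange B) = φ u := by
      rw [bc_sub_one]
      exact h2
    rw [LinearMap.trace_baseChange] at h3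
    rw [map_sub]
    exact sub_eq_zero.2 h3
  · intro σ hσ
    refine key _ fun B _ _ φ hφ hC => ?_
    obtain ⟨-, -, h3, -⟩ := facts_ord hC.2 hP hσ₀ (huB B φ hφ)
    let _ : Algebra R B := φ.toAlgebra
    change (((ρ.ρ σ₀ - 1) - u • 1) ∘ₗ (ρ.ρ σ - 1)).baseChange B = 0
    rw [LinearMap.baseChange_comp, bc_sub_smul_one, bc_sub_one, bc_sub_one]
    exact h3 σ hσ
  · intro σ hσ
    refine key _ fun B _ _ φ hφ hC => ?_
    obtain ⟨-, -, -, h4⟩ := facts_ord hC.2 hP hσ₀ (huB B φ hφ)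
    let _ : Algebra R B := φ.toAlgebra
    change (((ρ.ρ σ₀ - 1) - u • 1) ∘ₗ (ρ.ρ σ ∘ₗ (ρ.ρ σ₀ - 1))).baseChange B = 0
    rw [LinearMap.baseChange_comp, LinearMap.baseChange_comp, bc_sub_smul_one, bc_sub_one]
    exact h4 σ hσ

section final

variable {𝒪 : Type} [CommRing 𝒪] [IsLocalRing 𝒪] [Finite (ResidueField 𝒪)]

theorem isDefCond_ord {p : ℕ} (hp : p.Prime) (hp2 : p ≠ 2)
    (hpO : (p : 𝒪) ∈ maximalIdeal 𝒪) :
    IsDeformationCondition 𝒪 (fun A [CommRing A] [IsLocalRing A] [Algebra 𝒪 A]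
      (ρ : GaloisRepAdic A) => ρ.DetIsCyclotomic p ∧ ρ.IsOrdinaryAt p) :=
  isDefCond_of_desc hpO (fun A _ _ ρ ρ' e h => ⟨H19.detIsCyclotomic_of_isEquiv e h.1,
      H19.isOrdinaryAt_of_isEquiv e h.2⟩)
    (fun A B _ _ _ _ φ hφ ρ h => ⟨H19.detIsCyclotomic_baseChangeAlong φ hφ h.1,
      H19.isOrdinaryAt_baseChangeAlong φ hφ h.2⟩) (desc_ord hp hp2)

/-- **The ordinary deformation problem.** -/
theorem isDefCond_ordinaryCondition {p : ℕ} (hp : p.Prime) (hp2 : p ≠ 2)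
    (hpO : (p : 𝒪) ∈ maximalIdeal 𝒪) (S Smin : Finset ℕ) :
    IsDeformationCondition 𝒪 (fun _A _ _ _ ρ => ordinaryCondition 𝒪 p S ρ ∧
      ∀ q ∈ Smin, q.Prime → q ≠ p → ρ.IsUnipotentOnInertiaAt q) := by
  refine isDefCond_congr (isDefCond_and (isDefCond_and (isDefCond_ord hp hp2 hpO)
    (isDefCond_unrOutside hpO S)) (isDefCond_unipAt hpO Smin)) ?_
  intro A _ _ _ ρ
  exact ⟨fun h => ⟨⟨h.1.1.1, h.1.1.2, h.1.2⟩, h.2⟩, fun h => ⟨⟨⟨h.1.1, h.1.2.1⟩, h.1.2.2⟩, h.2⟩⟩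

/-! ### The six deformation problems of the prelude -/

theorem isDeformationCondition_flat {p : ℕ} (hp : p.Prime) (hpO : (p : 𝒪) ∈ maximalIdeal 𝒪)
    (S : Finset ℕ) : IsDeformationCondition 𝒪 (flatCondition 𝒪 p S) :=
  isDefCond_congr (isDefCond_flatCondition hp hpO S ∅) fun A _ _ _ ρ =>
    ⟨fun h => h.1, fun h => ⟨h, fun q hq => absurd hq (Finset.notMem_empty q)⟩⟩

theorem isDeformationCondition_minimalFlat {p : ℕ} (hp : p.Prime)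
    (hpO : (p : 𝒪) ∈ maximalIdeal 𝒪) (S : Finset ℕ) :
    IsDeformationCondition 𝒪 (minimalFlatCondition 𝒪 p S) :=
  isDefCond_flatCondition hp hpO S S

theorem isDeformationCondition_strictOrdinary {p : ℕ} (hp : p.Prime) (hp2 : p ≠ 2)
    (hpO : (p : 𝒪) ∈ maximalIdeal 𝒪) (S : Finset ℕ) :
    IsDeformationCondition 𝒪 (strictOrdinaryCondition 𝒪 p S) :=
  isDefCond_congr (isDefCond_strictOrdinaryCondition hp hp2 hpO S ∅) fun A _ _ _ ρ =>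
    ⟨fun h => h.1, fun h => ⟨h, fun q hq => absurd hq (Finset.notMem_empty q)⟩⟩

theorem isDeformationCondition_minimalStrictOrdinary {p : ℕ} (hp : p.Prime) (hp2 : p ≠ 2)
    (hpO : (p : 𝒪) ∈ maximalIdeal 𝒪) (S : Finset ℕ) :
    IsDeformationCondition 𝒪 (minimalStrictOrdinaryCondition 𝒪 p S) :=
  isDefCond_strictOrdinaryCondition hp hp2 hpO S S

theorem isDeformationCondition_ordinary {p : ℕ} (hp : p.Prime) (hp2 : p ≠ 2)
    (hpO : (p : 𝒪) ∈ maximalIdeal 𝒪) (S : Finset ℕ) :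
    IsDeformationCondition 𝒪 (ordinaryCondition 𝒪 p S) :=
  isDefCond_congr (isDefCond_ordinaryCondition hp hp2 hpO S ∅) fun A _ _ _ ρ =>
    ⟨fun h => h.1, fun h => ⟨h, fun q hq => absurd hq (Finset.notMem_empty q)⟩⟩

theorem isDeformationCondition_minimalOrdinary {p : ℕ} (hp : p.Prime) (hp2 : p ≠ 2)
    (hpO : (p : 𝒪) ∈ maximalIdeal 𝒪) (S : Finset ℕ) :
    IsDeformationCondition 𝒪 (minimalOrdinaryCondition 𝒪 p S) :=
  isDefCond_ordinaryCondition hp hp2 hpO S S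

end final

end Fermat.Agent.Cor.DefCond

end
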