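import Fermat.Agent.Cor.DefCondE
import Fermat.Agent.Cor.DefCondO
import Fermat.Agent.S53
import Fermat.Agent.S56

/-!
# Existence of the universal deformation rings of Mazur, Taylor and Wiles

Let `p` be an odd prime, `𝒪` a complete discrete valuation ring with finite residue field `k` of
characteristic `p`, and `ρbar : Gal(ℚ̄/ℚ) → GL₂(k)` absolutely irreducible. For each of the six
deformation problems of the prelude (flat, ordinary, strictly ordinary, and their minimal variants)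
and for the two deformation problems with Taylor–Wiles primes of statement S56: if `ρbar` itself
is of the given type, then the universal deformation ring exists (statement S53 + the
deformation problem is a deformation condition (DefCondA-D, O) + the tangent space is finite
(DefCondE)).  Combined with S56: there is `r` such that for all `n` there are `r` Taylor–Wiles
primes `q ≡ 1 mod p^(n+1)` for which the universal deformation ring `R_Q` exists and is a quotient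
of `𝒪⟦X₁, …, X_r⟧`.
-/

set_option autoImplicit false
set_option linter.unusedSectionVars false

noncomputable section

namespace Fermat.Agent.Cor.DefCond

open IsLocalRing GaloisRep Polynomial
open Fermat.Agent.H04 (DN)

section exist

variable {𝒪 : Type} [CommRing 𝒪] [IsDomain 𝒪] [IsDiscreteValuationRing 𝒪]
  [IsAdicComplete (maximalIdeal 𝒪) 𝒪] [Finite (ResidueField 𝒪)]

theorem natCast_mem_of_det {𝒪 : Type} [CommRing 𝒪] [IsLocalRing 𝒪] {p : ℕ}
    {ρbar : ResidualGaloisRep (ResidueField 𝒪)}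
    (hdet : (GaloisRepAdic.ofResidualGaloisRep ρbar).DetIsCyclotomic p) :
    (p : 𝒪) ∈ maximalIdeal 𝒪 := by
  have h2 := hdet.1
  rw [IsLocalRing.mem_maximalIdeal, mem_nonunits_iff, isUnit_iff_ne_zero, not_not] at h2
  rw [← residue_eq_zero_iff, map_natCast]
  exact h2

/-- **Existence of universal deformation rings**: `𝒟` any deformation condition which implies
that the determinant is cyclotomic and that there is no ramification outside a finite set. -/
theorem nonempty_data {p : ℕ} (hp : p.Prime) (hp2 : p ≠ 2)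
    {ρbar : ResidualGaloisRep (ResidueField 𝒪)} (habs : ρbar.IsAbsolutelyIrreducible)
    {𝒟 : ∀ ⦃A : Type⦄ [CommRing A] [IsLocalRing A] [Algebra 𝒪 A], GaloisRepAdic A → Prop}
    (h𝒟 : IsDeformationCondition 𝒪 𝒟) (hbar : 𝒟 (GaloisRepAdic.ofResidualGaloisRep ρbar))
    (S : Finset ℕ)
    (h1 : ∀ ⦃A : Type⦄ [CommRing A] [IsLocalRing A] [Algebra 𝒪 A] (ρ : GaloisRepAdic A), 𝒟 ρ →
      ρ.DetIsCyclotomic p)
    (h2 : ∀ ⦃A : Type⦄ [CommRing A] [IsLocalRing A] [Algebra 𝒪 A] (ρ : GaloisRepAdic A), 𝒟 ρ →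
      ∀ q : ℕ, q.Prime → q ∉ S → ρ.IsUnramifiedAt q) :
    Nonempty (DeformationRingData 𝒪 ρbar 𝒟) :=
  S53.result 𝒪 ρbar 𝒟 habs h𝒟 hbar (tangentFinite_of hp hp2 habs (h1 _ hbar) S
    (fun q hq hqS => h2 _ hbar q hq hqS) (fun ρ h => h1 ρ h) (fun ρ h => h2 ρ h))

variable {p : ℕ} (hp : p.Prime) (hp2 : p ≠ 2) {ρbar : ResidualGaloisRep (ResidueField 𝒪)}
  (habs : ρbar.IsAbsolutelyIrreducible)

include hp hp2 habs

/-- the universal flat deformation ring -/
theorem nonempty_flat (S Smin : Finset ℕ)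
    (hbar : flatCondition 𝒪 p S (GaloisRepAdic.ofResidualGaloisRep ρbar) ∧
      ∀ q ∈ Smin, q.Prime → q ≠ p →
        (GaloisRepAdic.ofResidualGaloisRep ρbar).IsUnipotentOnInertiaAt q) :
    Nonempty (DeformationRingData 𝒪 ρbar (fun _A _ _ _ ρ => flatCondition 𝒪 p S ρ ∧
      ∀ q ∈ Smin, q.Prime → q ≠ p → ρ.IsUnipotentOnInertiaAt q)) :=
  nonempty_data hp hp2 habs (isDefCond_flatCondition hp (natCast_mem_of_det hbar.1.1) S Smin) hbar S
    (fun _ _ _ _ _ h => h.1.1) (fun _ _ _ _ _ h => h.1.2.2)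

/-- the universal strictly ordinary deformation ring -/
theorem nonempty_strictOrdinary (S Smin : Finset ℕ)
    (hbar : strictOrdinaryCondition 𝒪 p S (GaloisRepAdic.ofResidualGaloisRep ρbar) ∧
      ∀ q ∈ Smin, q.Prime → q ≠ p →
        (GaloisRepAdic.ofResidualGaloisRep ρbar).IsUnipotentOnInertiaAt q) :
    Nonempty (DeformationRingData 𝒪 ρbar (fun _A _ _ _ ρ => strictOrdinaryCondition 𝒪 p S ρ ∧
      ∀ q ∈ Smin, q.Prime → q ≠ p → ρ.IsUnipotentOnInertiaAt q)) :=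
  nonempty_data hp hp2 habs
    (isDefCond_strictOrdinaryCondition hp hp2 (natCast_mem_of_det hbar.1.1) S Smin) hbar S
    (fun _ _ _ _ _ h => h.1.1) (fun _ _ _ _ _ h => h.1.2.2)

/-- the universal ordinary deformation ring -/
theorem nonempty_ordinary (S Smin : Finset ℕ)
    (hbar : ordinaryCondition 𝒪 p S (GaloisRepAdic.ofResidualGaloisRep ρbar) ∧
      ∀ q ∈ Smin, q.Prime → q ≠ p →
        (GaloisRepAdic.ofResidualGaloisRep ρbar).IsUnipotentOnInertiaAt q) :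
    Nonempty (DeformationRingData 𝒪 ρbar (fun _A _ _ _ ρ => ordinaryCondition 𝒪 p S ρ ∧
      ∀ q ∈ Smin, q.Prime → q ≠ p → ρ.IsUnipotentOnInertiaAt q)) :=
  nonempty_data hp hp2 habs
    (isDefCond_ordinaryCondition hp hp2 (natCast_mem_of_det hbar.1.1) S Smin) hbar S
    (fun _ _ _ _ _ h => h.1.1) (fun _ _ _ _ _ h => h.1.2.2)

theorem nonempty_flatCondition (S : Finset ℕ)
    (hbar : flatCondition 𝒪 p S (GaloisRepAdic.ofResidualGaloisRep ρbar)) :
    Nonempty (DeformationRingData 𝒪 ρbar (flatCondition 𝒪 p S)) :=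
  nonempty_data hp hp2 habs (isDeformationCondition_flat hp (natCast_mem_of_det hbar.1) S) hbar S
    (fun _ _ _ _ _ h => h.1) (fun _ _ _ _ _ h => h.2.2)

theorem nonempty_minimalFlatCondition (S : Finset ℕ)
    (hbar : minimalFlatCondition 𝒪 p S (GaloisRepAdic.ofResidualGaloisRep ρbar)) :
    Nonempty (DeformationRingData 𝒪 ρbar (minimalFlatCondition 𝒪 p S)) :=
  nonempty_data hp hp2 habs (isDeformationCondition_minimalFlat hp (natCast_mem_of_det hbar.1.1) S)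
    hbar S (fun _ _ _ _ _ h => h.1.1) (fun _ _ _ _ _ h => h.1.2.2)

theorem nonempty_strictOrdinaryCondition (S : Finset ℕ)
    (hbar : strictOrdinaryCondition 𝒪 p S (GaloisRepAdic.ofResidualGaloisRep ρbar)) :
    Nonempty (DeformationRingData 𝒪 ρbar (strictOrdinaryCondition 𝒪 p S)) :=
  nonempty_data hp hp2 habs
    (isDeformationCondition_strictOrdinary hp hp2 (natCast_mem_of_det hbar.1) S) hbar S
    (fun _ _ _ _ _ h => h.1) (fun _ _ _ _ _ h => h.2.2)

theorem nonempty_minimalStrictOrdinaryCondition (S : Finset ℕ)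
    (hbar : minimalStrictOrdinaryCondition 𝒪 p S (GaloisRepAdic.ofResidualGaloisRep ρbar)) :
    Nonempty (DeformationRingData 𝒪 ρbar (minimalStrictOrdinaryCondition 𝒪 p S)) :=
  nonempty_data hp hp2 habs
    (isDeformationCondition_minimalStrictOrdinary hp hp2 (natCast_mem_of_det hbar.1.1) S) hbar S
    (fun _ _ _ _ _ h => h.1.1) (fun _ _ _ _ _ h => h.1.2.2)

theorem nonempty_ordinaryCondition (S : Finset ℕ)
    (hbar : ordinaryCondition 𝒪 p S (GaloisRepAdic.ofResidualGaloisRep ρbar)) :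
    Nonempty (DeformationRingData 𝒪 ρbar (ordinaryCondition 𝒪 p S)) :=
  nonempty_data hp hp2 habs
    (isDeformationCondition_ordinary hp hp2 (natCast_mem_of_det hbar.1) S) hbar S
    (fun _ _ _ _ _ h => h.1) (fun _ _ _ _ _ h => h.2.2)

theorem nonempty_minimalOrdinaryCondition (S : Finset ℕ)
    (hbar : minimalOrdinaryCondition 𝒪 p S (GaloisRepAdic.ofResidualGaloisRep ρbar)) :
    Nonempty (DeformationRingData 𝒪 ρbar (minimalOrdinaryCondition 𝒪 p S)) :=
  nonempty_data hp hp2 habs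
    (isDeformationCondition_minimalOrdinary hp hp2 (natCast_mem_of_det hbar.1.1) S) hbar S
    (fun _ _ _ _ _ h => h.1.1) (fun _ _ _ _ _ h => h.1.2.2)

end exist

section TaylorWiles

variable {𝒪 : Type} [CommRing 𝒪] [IsDomain 𝒪] [IsDiscreteValuationRing 𝒪]
  [IsAdicComplete (maximalIdeal 𝒪) 𝒪] [Finite (ResidueField 𝒪)]

/-- **Taylor–Wiles primes, strictly ordinary case, with existence of `R_Q`.** -/
theorem taylorWiles_strictOrdinary
    (p : ℕ) [Fact p.Prime] (hp2 : p ≠ 2)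
    (ρbar : ResidualGaloisRep (ResidueField 𝒪))
    (habs : ρbar.IsAbsolutelyIrreducible)
    (hsplit : ∀ σ : AlgebraicClosure ℚ ≃ₐ[ℚ] AlgebraicClosure ℚ,
      ∃ α β : ResidueField 𝒪, LinearMap.charpoly (ρbar.ρ σ) = (X - C α) * (X - C β))
    (hTW : ∀ (K : Type) [Field K] [Algebra (ResidueField 𝒪) K]
      (G : Subgroup (AlgebraicClosure ℚ ≃ₐ[ℚ] AlgebraicClosure ℚ)), G.index = 2 →
      ∀ V : Submodule K (ρbar.baseChange K).V,
        (∀ σ ∈ G, ∀ x ∈ V, (ρbar.baseChange K).ρ σ x ∈ V) → V = ⊥ ∨ V = ⊤)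
    (S Smin : Finset ℕ) (hpSmin : p ∈ Smin) (hSmin : Smin ⊆ S) (hS : ∀ q ∈ S, q.Prime)
    (hmin : ∀ q : ℕ, q.Prime → q ≠ p → (q ∈ Smin ↔ ¬ ρbar.IsUnramifiedAt q))
    (hbar : minimalStrictOrdinaryCondition 𝒪 p Smin (GaloisRepAdic.ofResidualGaloisRep ρbar)) :
    ∃ r : ℕ, ∀ n : ℕ, ∃ qv : Fin r → ℕ, Function.Injective qv ∧
      (∀ i, (qv i).Prime ∧ qv i ∉ S ∧ p ^ (n + 1) ∣ qv i - 1) ∧
      (∀ i, ∀ P : ValuationSubring (AlgebraicClosure ℚ), P.LiesOverPrime (qv i) →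
        ∀ φ : AlgebraicClosure ℚ ≃ₐ[ℚ] AlgebraicClosure ℚ, P.IsFrobeniusAt φ (qv i) →
          ∃ α β : ResidueField 𝒪, α ≠ β ∧ LinearMap.charpoly (ρbar.ρ φ) = (X - C α) * (X - C β)) ∧
      ∃ (DQ : DeformationRingData 𝒪 ρbar (fun _A _ _ _ ρ =>
          strictOrdinaryCondition 𝒪 p (Smin ∪ Finset.univ.image qv) ρ ∧
            ∀ q ∈ Smin, q.Prime → q ≠ p → ρ.IsUnipotentOnInertiaAt q))
        (γ : MvPowerSeries (Fin r) 𝒪 →ₐ[𝒪] DQ.R), Function.Surjective γ := by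
  have hp : p.Prime := Fact.out
  obtain ⟨⟨r, hr⟩, -⟩ := S56.result p hp2 (natCast_mem_of_det hbar.1.1) ρbar habs hbar.1.1 hsplit
    hTW S Smin hpSmin hSmin hS hmin
  refine ⟨r, fun n => ?_⟩
  obtain ⟨qv, h1, h2, h3, h4⟩ := hr n
  obtain ⟨DQ⟩ := nonempty_strictOrdinary hp hp2 habs (Smin ∪ Finset.univ.image qv) Smin
    ⟨⟨hbar.1.1, hbar.1.2.1, fun q hq hqS =>
      hbar.1.2.2 q hq fun h => hqS (Finset.mem_union_left _ h)⟩, hbar.2⟩
  exact ⟨qv, h1, h2, h3, DQ, h4 DQ⟩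

/-- **Taylor–Wiles primes, flat case, with existence of `R_Q`.** -/
theorem taylorWiles_flat
    (p : ℕ) [Fact p.Prime] (hp2 : p ≠ 2)
    (ρbar : ResidualGaloisRep (ResidueField 𝒪))
    (habs : ρbar.IsAbsolutelyIrreducible)
    (hsplit : ∀ σ : AlgebraicClosure ℚ ≃ₐ[ℚ] AlgebraicClosure ℚ,
      ∃ α β : ResidueField 𝒪, LinearMap.charpoly (ρbar.ρ σ) = (X - C α) * (X - C β))
    (hTW : ∀ (K : Type) [Field K] [Algebra (ResidueField 𝒪) K]
      (G : Subgroup (AlgebraicClosure ℚ ≃ₐ[ℚ] AlgebraicClosure ℚ)), G.index = 2 →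
      ∀ V : Submodule K (ρbar.baseChange K).V,
        (∀ σ ∈ G, ∀ x ∈ V, (ρbar.baseChange K).ρ σ x ∈ V) → V = ⊥ ∨ V = ⊤)
    (S Smin : Finset ℕ) (hpSmin : p ∈ Smin) (hSmin : Smin ⊆ S) (hS : ∀ q ∈ S, q.Prime)
    (hmin : ∀ q : ℕ, q.Prime → q ≠ p → (q ∈ Smin ↔ ¬ ρbar.IsUnramifiedAt q))
    (hbar : minimalFlatCondition 𝒪 p Smin (GaloisRepAdic.ofResidualGaloisRep ρbar)) :
    ∃ r : ℕ, ∀ n : ℕ, ∃ qv : Fin r → ℕ, Function.Injective qv ∧
      (∀ i, (qv i).Prime ∧ qv i ∉ S ∧ p ^ (n + 1) ∣ qv i - 1) ∧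
      (∀ i, ∀ P : ValuationSubring (AlgebraicClosure ℚ), P.LiesOverPrime (qv i) →
        ∀ φ : AlgebraicClosure ℚ ≃ₐ[ℚ] AlgebraicClosure ℚ, P.IsFrobeniusAt φ (qv i) →
          ∃ α β : ResidueField 𝒪, α ≠ β ∧ LinearMap.charpoly (ρbar.ρ φ) = (X - C α) * (X - C β)) ∧
      ∃ (DQ : DeformationRingData 𝒪 ρbar (fun _A _ _ _ ρ =>
          flatCondition 𝒪 p (Smin ∪ Finset.univ.image qv) ρ ∧
            ∀ q ∈ Smin, q.Prime → q ≠ p → ρ.IsUnipotentOnInertiaAt q))
        (γ : MvPowerSeries (Fin r) 𝒪 →ₐ[𝒪] DQ.R), Function.Surjective γ := by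
  have hp : p.Prime := Fact.out
  obtain ⟨-, r, hr⟩ := S56.result p hp2 (natCast_mem_of_det hbar.1.1) ρbar habs hbar.1.1 hsplit
    hTW S Smin hpSmin hSmin hS hmin
  refine ⟨r, fun n => ?_⟩
  obtain ⟨qv, h1, h2, h3, h4⟩ := hr n
  obtain ⟨DQ⟩ := nonempty_flat hp hp2 habs (Smin ∪ Finset.univ.image qv) Smin
    ⟨⟨hbar.1.1, hbar.1.2.1, fun q hq hqS =>
      hbar.1.2.2 q hq fun h => hqS (Finset.mem_union_left _ h)⟩, hbar.2⟩
  exact ⟨qv, h1, h2, h3, DQ, h4 DQ⟩

end TaylorWiles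

end Fermat.Agent.Cor.DefCond

end
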