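import Fermat.Agent.Cor.DefCondF
import Fermat.Agent.L00.S55E

/-!
# Mazur's theorem: the universal deformation ring of `ρbar : G_{ℚ,S} → GL₂(k)`

Let `p` be an odd prime, `𝒪` a complete discrete valuation ring with finite residue field `k` of
characteristic `p`, `S` a finite set of primes and `ρbar` an absolutely irreducible two-dimensional
representation of `Gal(ℚ̄/ℚ)` over `k`, unramified outside `S`. Then the deformations of `ρbar`
which are unramified outside `S` (no condition on the determinant) have a universal deformation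
ring (`mazur`). The tangent space is (contained in) `H¹(G_S, ad ρbar)`, which is finite by the
Greenberg–Wiles formula.
-/

set_option autoImplicit false
set_option linter.unusedSectionVars false

noncomputable section

namespace Fermat.Agent.Cor.DefCond

open IsLocalRing GaloisRep Matrix Fermat.Agent.CC Fermat.Agent.TW
open Fermat.Agent.H04 (DN M2 Dat IsCont ofMat Compat)
open Fermat.Agent.L00.Tr (MT)

section ad

variable {k : Type} [Field k]

/-- the adjoint representation on `M₂(k)`, over `𝔽_p` -/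
def adRho (p : ℕ) [Algebra (ZMod p) k] (r : GQ →* Mt k) : Representation (ZMod p) GQ (Mt k) where
  toFun g := (LinearMap.mulLeft (ZMod p) (r g)).comp (LinearMap.mulRight (ZMod p) (r g⁻¹))
  map_one' := by
    refine LinearMap.ext fun X => ?_
    change r 1 * (X * r 1⁻¹) = X
    rw [inv_one, map_one, one_mul, mul_one]
  map_mul' g h := by
    refine LinearMap.ext fun X => ?_
    change r (g * h) * (X * r (g * h)⁻¹) = r g * (r h * (X * r h⁻¹) * r g⁻¹)
    rw [_root_.mul_inv_rev, map_mul, map_mul]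
    simp only [mul_assoc]

theorem adRho_apply (p : ℕ) [Algebra (ZMod p) k] (r : GQ →* Mt k) (g : GQ) (X : Mt k) :
    adRho p r g X = r g * (X * r g⁻¹) := rfl

theorem adRho_eq_one {p : ℕ} [Algebra (ZMod p) k] {r : GQ →* Mt k} {g : GQ} (h : r g = 1) :
    adRho p r g = 1 := by
  refine LinearMap.ext fun X => ?_
  have h1 : r g⁻¹ = 1 := by
    have := r_mul_inv r g
    rwa [h, one_mul] at this
  rw [adRho_apply, h, h1, one_mul, mul_one]
  rfl

/-- the adjoint representation on `M₂(k)`, as an object of `Rep` -/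
def adRep (p : ℕ) [Algebra (ZMod p) k] (r : GQ →* Mt k) : Rep (ZMod p) GQ := Rep.of (adRho p r)

/-- **Finiteness of `H¹(G_S, ad ρbar)`**, `p` odd. -/
theorem finite_H1_ad [Finite k] {p : ℕ} [hpf : Fact p.Prime] [Algebra (ZMod p) k] (hp2 : p ≠ 2)
    {S : Finset Nat.Primes} (hpS : pP p ∈ S) (ρbar : ResidualGaloisRep k)
    (b : Module.Basis (Fin 2) k ρbar.V)
    (hunr : ∀ q : Nat.Primes, q ∉ S → ρbar.IsUnramifiedAt q) :
    Finite (H1 (levS S) (MT (adRep p (rbM ρbar b)))) := by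
  have hfin : Finite (adRep p (rbM ρbar b)) := inferInstanceAs (Finite (Fin 2 → Fin 2 → k))
  have : FiniteDimensional (ZMod p) (adRep p (rbM ρbar b)) := Module.Finite.of_finite
  refine finite_H1_of_pr hp2 hpS (Fermat.Agent.L00.Tr.pr_ePair (adRep p (rbM ρbar b)) hpS
    (fun m => ?_) fun q hq A hA g hg => ?_)
  · obtain ⟨L, hL, h⟩ := ρbar.factorsThroughFiniteLevel
    refine ⟨L, hL, fun σ hσ => ?_⟩
    have h1 : rbM ρbar b σ = 1 := rbM_eq_one ρbar b (h σ fun x hx =>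
      (IntermediateField.mem_fixingSubgroup_iff L σ).1 hσ x hx)
    change adRho p (rbM ρbar b) σ m = m
    rw [adRho_eq_one h1]
    rfl
  · exact adRho_eq_one (rbM_eq_one ρbar b (hunr q hq A hA g hg))

end ad

section cls

variable {𝒪 : Type} [CommRing 𝒪] [IsLocalRing 𝒪] {p : ℕ} [Algebra (ZMod p) (ResidueField 𝒪)]
  {rb : GQ →* Mt (ResidueField 𝒪)} {s s' : GQ →* M2 (DN 𝒪)}

/-- a matrix as an element of the adjoint module -/
def toMT (p : ℕ) [Algebra (ZMod p) (ResidueField 𝒪)] (rb : GQ →* Mt (ResidueField 𝒪))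
    (X : Mt (ResidueField 𝒪)) : MT (adRep p rb) := X

/-- the matrix of an element of the adjoint module -/
def ofMT (x : MT (adRep p rb)) : Mt (ResidueField 𝒪) := x

theorem ofMT_toMT (X : Mt (ResidueField 𝒪)) : ofMT (toMT p rb X) = X := rfl

theorem ofMT_add (x y : MT (adRep p rb)) : ofMT (x + y) = ofMT x + ofMT y := rfl

theorem ofMT_sub (x y : MT (adRep p rb)) : ofMT (x - y) = ofMT x - ofMT y := rfl

theorem ofMT_smul (g : GQ) (x : MT (adRep p rb)) : ofMT (g • x) = rb g * (ofMT x * rb g⁻¹) := rfl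

theorem ofMT_inj {x y : MT (adRep p rb)} (h : ofMT x = ofMT y) : x = y := h

/-- The class of a lift. -/
def clsF (p : ℕ) [Algebra (ZMod p) (ResidueField 𝒪)] (S' : Finset Nat.Primes)
    (hs : ∀ σ, FM (s σ) = rb σ) (hU : (levS S').isOpen s.ker) :
    Z1 (levS S') (MT (adRep p rb)) :=
  ⟨fun σ => toMT p rb (xi rb s σ), ⟨s.ker, hU, fun g t ht => by
    apply ofMT_inj
    have ht' : s t = 1 := ht
    have h1 : rb t = 1 := by rw [← hs, ht', FM_one]
    have h2 : rb t⁻¹ = 1 := by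
      have := r_mul_inv rb t
      rwa [h1, one_mul] at this
    change xi rb s (g * t) = xi rb s g
    rw [xi, xi, map_mul, ht', mul_one, _root_.mul_inv_rev, map_mul, h2, one_mul]⟩, fun g h => by
    apply ofMT_inj
    have h1 := isCoc_xi hs g h
    rw [ofMT_add, ofMT_smul, ofMT_toMT, ofMT_toMT, ofMT_toMT, h1, MonoidHom.one_apply, one_smul,
      mul_assoc]⟩

theorem clsF_val (S' : Finset Nat.Primes) (hs : ∀ σ, FM (s σ) = rb σ)
    (hU : (levS S').isOpen s.ker) (σ : GQ) : ofMT ((clsF p S' hs hU).1 σ) = xi rb s σ := rfl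

/-- Cohomologous classes give conjugate lifts. -/
theorem exists_conj_of_clsF {S' : Finset Nat.Primes} {hs : ∀ σ, FM (s σ) = rb σ}
    {hU : (levS S').isOpen s.ker} {hs' : ∀ σ, FM (s' σ) = rb σ} {hU' : (levS S').isOpen s'.ker}
    (h : H1.mk _ _ (clsF p S' hs hU) = H1.mk _ _ (clsF p S' hs' hU')) :
    ∃ P : M2 (DN 𝒪), IsUnit P ∧ ∀ σ, P * s σ = s' σ * P := by
  rw [H1.mk_eq_mk] at h
  obtain ⟨a, ha⟩ := h
  obtain ⟨P, hP⟩ : ∃ P : M2 (DN 𝒪), P = Matrix.of (fun i j =>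
    DN.mk 𝒪 ((1 : Mt (ResidueField 𝒪)) i j) (ofMT a i j)) := ⟨_, rfl⟩
  have h1 : FM P = 1 := by rw [hP]; ext i j; rfl
  have h2 : SM P = ofMT a := by rw [hP]; ext i j; rfl
  refine ⟨P, isUnit_of_FM h1, fun σ => mat_ext ?_ ?_⟩
  · rw [FM_mul, FM_mul, h1, hs, hs', one_mul, mul_one]
  · rw [SM_mul, SM_mul, h1, h2, hs, hs', one_mul, mul_one]
    have h3 := congrArg ofMT (ha σ)
    rw [ofMT_add, ofMT_sub, ofMT_smul, clsF_val, clsF_val] at h3
    have h4 := congrArg (fun X => X * rb σ) h3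
    beta_reduce at h4
    rw [xi_mul_rb, add_mul, xi_mul_rb, sub_mul, mul_assoc (rb σ), mul_assoc (ofMT a), r_inv_mul,
      mul_one] at h4
    rw [h4]
    abel

end cls

section tangent

variable {𝒪 : Type} [CommRing 𝒪] [IsLocalRing 𝒪] [Finite (ResidueField 𝒪)]

/-- **Finiteness of the tangent space** of a deformation problem with ramification in a finite
set of primes, `p` odd. -/
theorem tangentFinite_unr {p : ℕ} (hp : p.Prime) (hp2 : p ≠ 2) [CharP (ResidueField 𝒪) p]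
    {ρbar : ResidualGaloisRep (ResidueField 𝒪)} (habs : ρbar.IsAbsolutelyIrreducible)
    {𝒟 : ∀ ⦃A : Type⦄ [CommRing A] [IsLocalRing A] [Algebra 𝒪 A], GaloisRepAdic A → Prop}
    (S : Finset ℕ) (hρ : ∀ q : ℕ, q.Prime → q ∉ S → ρbar.IsUnramifiedAt q)
    (h2 : ∀ ρ : GaloisRepAdic (DN 𝒪), 𝒟 ρ → ∀ q : ℕ, q.Prime → q ∉ S → ρ.IsUnramifiedAt q) :
    TangentFinite 𝒪 ρbar 𝒟 := by
  have hpf : Fact p.Prime := ⟨hp⟩
  let _ : Algebra (ZMod p) (ResidueField 𝒪) := ZMod.algebra _ p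
  obtain ⟨b, D, hD⟩ := Fermat.Agent.H04.exists_dat ρbar habs
  obtain ⟨S', hS'⟩ : ∃ S' : Finset Nat.Primes, S' = insert (pP p) (S.subtype Nat.Prime) :=
    ⟨_, rfl⟩
  have hpS : pP p ∈ S' := hS' ▸ Finset.mem_insert_self _ _
  have hmem : ∀ q : Nat.Primes, q ∉ S' → (q : ℕ) ∉ S := by
    intro q hq hq'
    apply hq
    rw [hS']
    exact Finset.mem_insert_of_mem (Finset.mem_subtype.2 hq')
  have hfin : Finite (H1 (levS S') (MT (adRep p (rbM ρbar b)))) :=
    finite_H1_ad hp2 hpS ρbar b fun q hq => hρ q q.2 (hmem q hq)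
  have hrb' : ∀ σ i j, residue 𝒪 (D.cf σ i j) = rbM ρbar b σ i j := fun σ i j => by
    rw [hD σ i j, rbM_apply]
  unfold TangentFinite
  let φ : ResidueField 𝒪 →+* ResidueField (DN 𝒪) :=
    (residue (DN 𝒪)).comp (algebraMap (ResidueField 𝒪) (DualNumber (ResidueField 𝒪)))
  have key : ∀ ρ : GaloisRepAdic (DN 𝒪), 𝒟 ρ → ρ.residual.IsEquiv (ρbar.baseChangeAlong φ) →
      ∃ (s : GQ →* M2 (DN 𝒪)) (hs : IsCont s) (hF : ∀ σ, FM (s σ) = rbM ρbar b σ)
        (_ : (levS S').isOpen s.ker), ρ.IsEquiv (ofMat s hs) := by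
    intro ρ hρ' hres
    obtain ⟨s, hs, hred, heq⟩ := Fermat.Agent.H04.exists_mat hD φ (fun c => rfl) ρ hres
    exact ⟨s, hs, fun σ => FM_of_red hrb' hred σ, level_of_unr hs
      (fun q hq hqS => H19.isUnramifiedAt_of_isEquiv heq (h2 ρ hρ' q hq hqS)) hmem, heq⟩
  choose s hs hF hU' heq using key
  refine Finite.of_injective (β := H1 (levS S') (MT (adRep p (rbM ρbar b))))
    (fun c => H1.mk _ _ (clsF p S' (hF c.out.1 c.out.2.1 c.out.2.2)
      (hU' c.out.1 c.out.2.1 c.out.2.2))) ?_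
  intro c c' hcc
  obtain ⟨P, hP, hPs⟩ := exists_conj_of_clsF hcc
  have h3 := Fermat.Agent.H04.isEquiv_of_matrix (hs c.out.1 c.out.2.1 c.out.2.2)
    (hs c'.out.1 c'.out.2.1 c'.out.2.2) P hP hPs
  obtain ⟨e1⟩ := heq c.out.1 c.out.2.1 c.out.2.2
  obtain ⟨e2⟩ := h3
  obtain ⟨e3⟩ := heq c'.out.1 c'.out.2.1 c'.out.2.2
  rw [← Quotient.out_eq c, ← Quotient.out_eq c']
  exact Quotient.sound ⟨(e1.trans e2).trans e3.symm⟩

end tangent

section mazur

variable {𝒪 : Type} [CommRing 𝒪] [IsDomain 𝒪] [IsDiscreteValuationRing 𝒪]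
  [IsAdicComplete (maximalIdeal 𝒪) 𝒪] [Finite (ResidueField 𝒪)]

/-- Existence of universal deformation rings: `𝒟` any deformation condition which implies that
there is no ramification outside a finite set. -/
theorem nonempty_data_unr {p : ℕ} (hp : p.Prime) (hp2 : p ≠ 2) [CharP (ResidueField 𝒪) p]
    {ρbar : ResidualGaloisRep (ResidueField 𝒪)} (habs : ρbar.IsAbsolutelyIrreducible)
    {𝒟 : ∀ ⦃A : Type⦄ [CommRing A] [IsLocalRing A] [Algebra 𝒪 A], GaloisRepAdic A → Prop}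
    (h𝒟 : IsDeformationCondition 𝒪 𝒟) (hbar : 𝒟 (GaloisRepAdic.ofResidualGaloisRep ρbar))
    (S : Finset ℕ)
    (h2 : ∀ ⦃A : Type⦄ [CommRing A] [IsLocalRing A] [Algebra 𝒪 A] (ρ : GaloisRepAdic A), 𝒟 ρ →
      ∀ q : ℕ, q.Prime → q ∉ S → ρ.IsUnramifiedAt q) :
    Nonempty (DeformationRingData 𝒪 ρbar 𝒟) :=
  S53.result 𝒪 ρbar 𝒟 habs h𝒟 hbar (tangentFinite_unr (p := p) hp hp2 habs S
    (fun q hq hqS => h2 _ hbar q hq hqS) (fun ρ h => h2 ρ h))

/-- **Mazur's theorem**: `p` odd, `ρbar : Gal(ℚ̄/ℚ) → GL₂(k)` absolutely irreducible and unramified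
outside the finite set `S`. Then the universal deformation ring for deformations unramified
outside `S` exists. -/
theorem mazur {p : ℕ} (hp : p.Prime) (hp2 : p ≠ 2) [CharP (ResidueField 𝒪) p]
    {ρbar : ResidualGaloisRep (ResidueField 𝒪)} (habs : ρbar.IsAbsolutelyIrreducible)
    (S : Finset ℕ) (hunr : ∀ q : ℕ, q.Prime → q ∉ S → ρbar.IsUnramifiedAt q) :
    Nonempty (DeformationRingData 𝒪 ρbar (fun A [CommRing A] [IsLocalRing A] [Algebra 𝒪 A]
      (ρ : GaloisRepAdic A) => ∀ q : ℕ, q.Prime → q ∉ S → ρ.IsUnramifiedAt q)) := by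
  have hpO : (p : 𝒪) ∈ maximalIdeal 𝒪 := by
    rw [← residue_eq_zero_iff, map_natCast]
    exact CharP.cast_eq_zero _ p
  exact nonempty_data_unr hp hp2 habs (isDefCond_unrOutside hpO S) hunr S fun _ _ _ _ _ h => h

/-- **Mazur's theorem with fixed determinant** (the cyclotomic character). -/
theorem mazur_det {p : ℕ} (hp : p.Prime) (hp2 : p ≠ 2)
    {ρbar : ResidualGaloisRep (ResidueField 𝒪)} (habs : ρbar.IsAbsolutelyIrreducible)
    (S : Finset ℕ) (hunr : ∀ q : ℕ, q.Prime → q ∉ S → ρbar.IsUnramifiedAt q)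
    (hdet : (GaloisRepAdic.ofResidualGaloisRep ρbar).DetIsCyclotomic p) :
    Nonempty (DeformationRingData 𝒪 ρbar (fun A [CommRing A] [IsLocalRing A] [Algebra 𝒪 A]
      (ρ : GaloisRepAdic A) => ρ.DetIsCyclotomic p ∧
        ∀ q : ℕ, q.Prime → q ∉ S → ρ.IsUnramifiedAt q)) :=
  nonempty_data hp hp2 habs (isDefCond_and (isDefCond_det hp (natCast_mem_of_det hdet))
    (isDefCond_unrOutside (natCast_mem_of_det hdet) S)) ⟨hdet, hunr⟩ S
    (fun _ _ _ _ _ h => h.1) (fun _ _ _ _ _ h => h.2)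

end mazur

end Fermat.Agent.Cor.DefCond

end
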