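import Fermat.Agent.Cor.DefCondG

/-!
# Obstruction theory: `H²(G_S, ad ρbar) = 0` implies that deformations lift
-/

set_option autoImplicit false
set_option linter.unusedSectionVars false

noncomputable section

namespace Fermat.Agent.Cor.DefCond

open IsLocalRing GaloisRep Matrix Fermat.Agent.CC Fermat.Agent.TW
open Fermat.Agent.H04 (M2 mapM PreTest)
open Fermat.Agent.L00.Tr (MT)

section eps

variable {𝒪 : Type} [CommRing 𝒪] [IsLocalRing 𝒪] {A : Type} [CommRing A] [IsLocalRing A]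
  [Algebra 𝒪 A]

/-- the element `a` reduces to `x` -/
def Rd (a : A) (x : ResidueField 𝒪) : Prop :=
  ∃ c : 𝒪, residue 𝒪 c = x ∧ a - algebraMap 𝒪 A c ∈ maximalIdeal A

/-- multiplication of the residue field with an element killed by the maximal ideal -/
def em (ε : A) (x : ResidueField 𝒪) : A :=
  ε * algebraMap 𝒪 A (Function.surjInv residue_surjective x)

theorem em_residue {ε : A} (hε : ∀ a ∈ maximalIdeal A, a * ε = 0)
    (hloc : IsLocalHom (algebraMap 𝒪 A)) (c : 𝒪) :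
    em ε (residue 𝒪 c) = ε * algebraMap 𝒪 A c := by
  have h1 : residue 𝒪 (Function.surjInv residue_surjective (residue 𝒪 c)) = residue 𝒪 c :=
    Function.surjInv_eq _ _
  have h2 : Function.surjInv residue_surjective (residue 𝒪 c) - c ∈ maximalIdeal 𝒪 := by
    rw [← residue_eq_zero_iff, map_sub, h1, sub_self]
  have h3 : algebraMap 𝒪 A (Function.surjInv residue_surjective (residue 𝒪 c) - c) ∈
      maximalIdeal A := fun hu => h2 (hloc.map_nonunit _ hu)
  have h4 := hε _ h3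
  rw [map_sub] at h4
  unfold em
  linear_combination h4

theorem em_add {ε : A} (hε : ∀ a ∈ maximalIdeal A, a * ε = 0)
    (hloc : IsLocalHom (algebraMap 𝒪 A)) (x y : ResidueField 𝒪) :
    em ε (x + y) = em ε x + em ε y := by
  obtain ⟨c, rfl⟩ := residue_surjective x
  obtain ⟨d, rfl⟩ := residue_surjective y
  rw [← map_add, em_residue hε hloc, em_residue hε hloc, em_residue hε hloc, map_add, mul_add]

theorem em_mul {ε : A} (hε : ∀ a ∈ maximalIdeal A, a * ε = 0)
    (hloc : IsLocalHom (algebraMap 𝒪 A)) {a : A} {x : ResidueField 𝒪} (h : Rd a x)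
    (y : ResidueField 𝒪) : a * em ε y = em ε (x * y) := by
  obtain ⟨c, rfl, hc⟩ := h
  obtain ⟨d, rfl⟩ := residue_surjective y
  rw [← map_mul, em_residue hε hloc, em_residue hε hloc, map_mul]
  linear_combination (algebraMap 𝒪 A d) * hε _ hc

theorem em_inj {ε : A} (hε : ∀ a ∈ maximalIdeal A, a * ε = 0)
    (hloc : IsLocalHom (algebraMap 𝒪 A)) (hε0 : ε ≠ 0) {x y : ResidueField 𝒪}
    (h : em ε x = em ε y) : x = y := by
  obtain ⟨c, rfl⟩ := residue_surjective x
  obtain ⟨d, rfl⟩ := residue_surjective y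
  rw [em_residue hε hloc, em_residue hε hloc] at h
  rw [← sub_eq_zero, ← map_sub, residue_eq_zero_iff]
  intro hu
  apply hε0
  have h1 : IsUnit (algebraMap 𝒪 A (c - d)) := hu.map _
  rw [map_sub] at h1
  refine h1.mul_left_injective ?_
  beta_reduce
  rw [zero_mul, mul_sub, h, sub_self]

theorem exists_em {ε : A} (hε : ∀ a ∈ maximalIdeal A, a * ε = 0)
    (hA : PreTest 𝒪 A) {y : A} (hy : y ∈ Ideal.span {ε}) : ∃ x : ResidueField 𝒪, em ε x = y := by
  obtain ⟨a, rfl⟩ := Ideal.mem_span_singleton'.1 hy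
  obtain ⟨c, hc⟩ := hA.approx a
  refine ⟨residue 𝒪 c, ?_⟩
  rw [em_residue hε hA.isLocalHom]
  linear_combination -(hε _ hc)

theorem rd_unique {a : A} {x y : ResidueField 𝒪} (hx : Rd a x) (hy : Rd a y) : x = y := by
  obtain ⟨c, rfl, hc⟩ := hx
  obtain ⟨d, rfl, hd⟩ := hy
  rw [← sub_eq_zero, ← map_sub, residue_eq_zero_iff]
  intro hu
  have h1 : IsUnit (algebraMap 𝒪 A (c - d)) := hu.map _
  have h2 := Ideal.sub_mem _ hd hc
  rw [sub_sub_sub_cancel_left, ← map_sub] at h2
  exact h2 h1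

theorem rd_one : Rd (𝒪 := 𝒪) (1 : A) 1 :=
  ⟨1, map_one _, by rw [map_one, sub_self]; exact Ideal.zero_mem _⟩

theorem rd_zero : Rd (𝒪 := 𝒪) (0 : A) 0 :=
  ⟨0, map_zero _, by rw [map_zero, sub_self]; exact Ideal.zero_mem _⟩

theorem rd_of_map {B : Type} [CommRing B] [IsLocalRing B] [Algebra 𝒪 B] (π : A →ₐ[𝒪] B) {a : A}
    {x : ResidueField 𝒪} (h : Rd (π a) x) : Rd a x := by
  obtain ⟨c, hc, h⟩ := h
  refine ⟨c, hc, fun hu => h ?_⟩
  have h1 := hu.map π
  rwa [map_sub, AlgHom.commutes] at h1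

theorem rd_map {B : Type} [CommRing B] [IsLocalRing B] [Algebra 𝒪 B] (π : A →ₐ[𝒪] B)
    (hπ : IsLocalHom (π : A →+* B)) {a : A} {x : ResidueField 𝒪} (h : Rd a x) : Rd (π a) x := by
  obtain ⟨c, hc, h⟩ := h
  refine ⟨c, hc, fun hu => h ?_⟩
  refine hπ.map_nonunit _ ?_
  rwa [RingHom.coe_coe, map_sub, AlgHom.commutes]

/-- the matrix `M` reduces to `N` -/
def RM (M : M2 A) (N : Mt (ResidueField 𝒪)) : Prop := ∀ i j, Rd (M i j) (N i j)

/-- matrix version of `em` -/
def emM (ε : A) (X : Mt (ResidueField 𝒪)) : M2 A := X.map (em ε)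

theorem emM_add {ε : A} (hε : ∀ a ∈ maximalIdeal A, a * ε = 0)
    (hloc : IsLocalHom (algebraMap 𝒪 A)) (X Y : Mt (ResidueField 𝒪)) :
    emM ε (X + Y) = emM ε X + emM ε Y := by
  ext i j
  exact em_add hε hloc _ _

theorem mul_emM {ε : A} (hε : ∀ a ∈ maximalIdeal A, a * ε = 0)
    (hloc : IsLocalHom (algebraMap 𝒪 A)) {M : M2 A} {N : Mt (ResidueField 𝒪)} (h : RM M N)
    (X : Mt (ResidueField 𝒪)) : M * emM ε X = emM ε (N * X) := by
  ext i j
  change (M * emM ε X) i j = em ε ((N * X) i j)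
  rw [Matrix.mul_apply, Matrix.mul_apply, Fin.sum_univ_two, Fin.sum_univ_two, em_add hε hloc,
    ← em_mul hε hloc (h i 0), ← em_mul hε hloc (h i 1)]
  rfl

theorem emM_mul {ε : A} (hε : ∀ a ∈ maximalIdeal A, a * ε = 0)
    (hloc : IsLocalHom (algebraMap 𝒪 A)) {M : M2 A} {N : Mt (ResidueField 𝒪)} (h : RM M N)
    (X : Mt (ResidueField 𝒪)) : emM ε X * M = emM ε (X * N) := by
  ext i j
  change (emM ε X * M) i j = em ε ((X * N) i j)
  rw [Matrix.mul_apply, Matrix.mul_apply, Fin.sum_univ_two, Fin.sum_univ_two, em_add hε hloc,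
    mul_comm (X i 0), mul_comm (X i 1), ← em_mul hε hloc (h 0 j), ← em_mul hε hloc (h 1 j),
    mul_comm (M 0 j), mul_comm (M 1 j)]
  rfl

theorem emM_inj {ε : A} (hε : ∀ a ∈ maximalIdeal A, a * ε = 0)
    (hloc : IsLocalHom (algebraMap 𝒪 A)) (hε0 : ε ≠ 0) {X Y : Mt (ResidueField 𝒪)}
    (h : emM ε X = emM ε Y) : X = Y := by
  ext i j
  exact em_inj hε hloc hε0 (congrFun (congrFun h i) j)

theorem exists_emM {ε : A} (hε : ∀ a ∈ maximalIdeal A, a * ε = 0)
    (hA : PreTest 𝒪 A) {M : M2 A} (hM : ∀ i j, M i j ∈ Ideal.span {ε}) :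
    ∃ X : Mt (ResidueField 𝒪), emM ε X = M := by
  choose X hX using fun i j => exists_em hε hA (hM i j)
  exact ⟨Matrix.of X, by ext i j; exact hX i j⟩

theorem rm_unique {M : M2 A} {N N' : Mt (ResidueField 𝒪)} (h : RM M N) (h' : RM M N') :
    N = N' := by
  ext i j
  exact rd_unique (h i j) (h' i j)

theorem rm_one : RM (𝒪 := 𝒪) (1 : M2 A) 1 := by
  intro i j
  rw [Matrix.one_apply, Matrix.one_apply]
  split_ifs
  · exact rd_one
  · exact rd_zero

end eps

section lift

variable {𝒪 : Type} [CommRing 𝒪] [IsLocalRing 𝒪] {A B : Type} [CommRing A] [IsLocalRing A]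
  [Algebra 𝒪 A] [CommRing B] [IsLocalRing B] [Algebra 𝒪 B] {p : ℕ}
  [Algebra (ZMod p) (ResidueField 𝒪)]

/-- **Lifting along a small extension**: if `H²(G_S, ad ρbar) = 0` and `π : A → B` is surjective
with kernel `(ε)`, `ε 𝔪_A = 0`, then every deformation to `B` of level `S` lifts to `A`. -/
theorem exists_lift {S' : Finset Nat.Primes} {rb : GQ →* Mt (ResidueField 𝒪)}
    (hH2 : ∀ x : H2 (levS S') (MT (adRep p rb)), x = 0) (hA : PreTest 𝒪 A)
    {ε : A} (hε : ∀ a ∈ maximalIdeal A, a * ε = 0) (hε0 : ε ≠ 0) (π : A →ₐ[𝒪] B)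
    (hπ : Function.Surjective π) (hπε : π ε = 0) (hker : ∀ a, π a = 0 → a ∈ Ideal.span {ε})
    (s : GQ →* M2 B) (hs : (levS S').isOpen s.ker) (hred : ∀ σ, RM (s σ) (rb σ)) :
    ∃ s' : GQ →* M2 A, mapM (π : A →+* B) s' = s ∧ (levS S').isOpen s'.ker ∧
      ∀ σ, RM (s' σ) (rb σ) := by
  have hloc := hA.isLocalHom
  obtain ⟨τ, hτ⟩ : ∃ τ : B → A, ∀ b, π (τ b) = b := ⟨_, Function.surjInv_eq hπ⟩
  obtain ⟨γ, hγ⟩ : ∃ γ : GQ → M2 A, ∀ g, γ g = (s g).map τ := ⟨_, fun _ => rfl⟩
  have hγπ : ∀ g, (γ g).map π = s g := by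
    intro g
    rw [hγ]
    ext i j
    exact hτ _
  have hmapmul : ∀ M N : M2 A, (M * N).map π = M.map π * N.map π := fun M N =>
    Matrix.map_mul (f := (π : A →+* B))
  have hγr : ∀ g, RM (γ g) (rb g) := by
    intro g i j
    refine rd_of_map π ?_
    have h1 : π (γ g i j) = s g i j := congrFun (congrFun (hγπ g) i) j
    rw [h1]
    exact hred g i j
  have hδ : ∀ g h, ∃ X : Mt (ResidueField 𝒪), emM ε X = γ g * γ h - γ (g * h) := by
    intro g h
    refine exists_emM hε hA fun i j => hker _ ?_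
    have h1 : (γ g * γ h).map π = (γ (g * h)).map π := by
      rw [hmapmul, hγπ, hγπ, hγπ, map_mul]
    rw [Matrix.sub_apply, map_sub, sub_eq_zero]
    exact congrFun (congrFun h1 i) j
  choose δ hδ using hδ
  -- cocycle identity
  have hcoc : ∀ g h j, δ (g * h) j + δ g h * rb j = δ g (h * j) + rb g * δ h j := by
    intro g h j
    apply emM_inj hε hloc hε0
    rw [emM_add hε hloc, emM_add hε hloc, ← emM_mul hε hloc (hγr j), ← mul_emM hε hloc (hγr g),
      hδ, hδ, hδ, hδ, sub_mul, mul_sub, mul_assoc g h j, mul_assoc (γ g)]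
    abel
  -- dependence on cosets
  have hγt : ∀ g, ∀ t ∈ s.ker, γ (g * t) = γ g := by
    intro g t ht
    have ht' : s t = 1 := ht
    rw [hγ, hγ, map_mul, ht', mul_one]
  have hrbt : ∀ t ∈ s.ker, rb t = 1 := by
    intro t ht
    have ht' : s t = 1 := ht
    have h1 := hred t
    rw [ht'] at h1
    exact rm_unique h1 rm_one
  have hrbt' : ∀ g, ∀ t ∈ s.ker, rb (g * t)⁻¹ = rb g⁻¹ := by
    intro g t ht
    rw [_root_.mul_inv_rev, map_mul, hrbt _ (inv_mem ht), one_mul]
  have hδt : ∀ g h, ∀ t ∈ s.ker, ∀ t' ∈ s.ker, δ (g * t) (h * t') = δ g h := by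
    intro g h t ht t' ht'
    apply emM_inj hε hloc hε0
    have h1 : g * t * (h * t') = g * h * (h⁻¹ * t * h * t') := by group
    have h2 : h⁻¹ * t * h * t' ∈ s.ker := by
      refine mul_mem ?_ ht'
      have := (MonoidHom.normal_ker s).conj_mem t ht h⁻¹
      rwa [inv_inv] at this
    rw [hδ, hδ, hγt g t ht, hγt h t' ht', h1, hγt _ _ h2]
  -- the class
  let c : Z2 (levS S') (MT (adRep p rb)) := ⟨fun g h => toMT p rb (δ g h * rb (g * h)⁻¹),
    ⟨s.ker, hs, fun g h t ht t' ht' => by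
      have h1 : g * t * (h * t') = g * h * (h⁻¹ * t * h * t') := by group
      have h2 : h⁻¹ * t * h * t' ∈ s.ker := by
        refine mul_mem ?_ ht'
        have := (MonoidHom.normal_ker s).conj_mem t ht h⁻¹
        rwa [inv_inv] at this
      change toMT p rb (δ (g * t) (h * t') * rb (g * t * (h * t'))⁻¹) =
        toMT p rb (δ g h * rb (g * h)⁻¹)
      rw [hδt g h t ht t' ht', h1, hrbt' _ _ h2]⟩, fun g h j => by
      apply ofMT_inj
      rw [ofMT_add, ofMT_add, ofMT_smul, ofMT_toMT, ofMT_toMT, ofMT_toMT, ofMT_toMT]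
      have h1 := congrArg (fun X => X * rb (g * h * j)⁻¹) (hcoc g h j)
      beta_reduce at h1
      rw [add_mul, add_mul] at h1
      have h2 : δ g h * rb j * rb (g * h * j)⁻¹ = δ g h * rb (g * h)⁻¹ := by
        have h3 : j * (g * h * j)⁻¹ = (g * h)⁻¹ := by group
        rw [mul_assoc, ← map_mul, h3]
      have h3 : rb g * δ h j * rb (g * h * j)⁻¹ = rb g * (δ h j * rb (h * j)⁻¹ * rb g⁻¹) := by
        have h4 : (g * h * j)⁻¹ = (h * j)⁻¹ * g⁻¹ := by group
        rw [mul_assoc, h4, map_mul, mul_assoc (δ h j)]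
      rw [h2, h3] at h1
      rw [← mul_assoc g h j, h1, add_comm]⟩
  obtain ⟨x, ⟨U, hU, hxU⟩, hx⟩ := H2.mk_eq_zero.1 (hH2 (H2.mk _ _ c))
  have hx' : ∀ g h, δ g h = rb g * ofMT (x h) * rb h - ofMT (x (g * h)) * rb (g * h) +
      ofMT (x g) * rb (g * h) := by
    intro g h
    have h1 : δ g h * rb (g * h)⁻¹ = rb g * (ofMT (x h) * rb g⁻¹) - ofMT (x (g * h)) +
        ofMT (x g) := congrArg ofMT (hx g h)
    have h2 := congrArg (fun X => X * rb (g * h)) h1
    beta_reduce at h2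
    rw [mul_assoc (δ g h), r_inv_mul, mul_one, add_mul, sub_mul] at h2
    rw [h2]
    congr 2
    rw [mul_assoc, mul_assoc, mul_assoc, ← map_mul, inv_mul_cancel_left]
  -- the corrected lift
  have hmul : ∀ g h, (γ g - emM ε (ofMT (x g) * rb g)) * (γ h - emM ε (ofMT (x h) * rb h)) =
      γ (g * h) - emM ε (ofMT (x (g * h)) * rb (g * h)) := by
    intro g h
    have h1 : emM ε (ofMT (x g) * rb g) * emM ε (ofMT (x h) * rb h) = 0 := by
      have h2 : RM (emM ε (ofMT (x g) * rb g) : M2 A) (0 : Mt (ResidueField 𝒪)) := by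
        intro i j
        refine rd_of_map π ?_
        have h3 : π (emM ε (ofMT (x g) * rb g) i j) = 0 := by
          change π (ε * _) = 0
          rw [map_mul, hπε, zero_mul]
        rw [h3]
        exact rd_zero
      rw [mul_emM hε hloc h2, zero_mul]
      ext i j
      change em ε ((0 : Mt (ResidueField 𝒪)) i j) = 0
      have h4 := em_add hε hloc (0 : ResidueField 𝒪) 0
      rw [add_zero] at h4
      exact left_eq_add.1 h4
    have h5 : γ g * γ h = γ (g * h) + emM ε (δ g h) := by rw [hδ]; abel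
    rw [sub_mul, mul_sub, mul_sub, h1, h5, mul_emM hε hloc (hγr g), emM_mul hε hloc (hγr h),
      sub_zero, hx']
    have h6 : ofMT (x g) * rb g * rb h = ofMT (x g) * rb (g * h) := by rw [map_mul, mul_assoc]
    rw [h6, emM_add hε hloc]
    have h7 : emM ε (rb g * ofMT (x h) * rb h - ofMT (x (g * h)) * rb (g * h)) +
        emM ε (ofMT (x (g * h)) * rb (g * h)) = (emM ε (rb g * (ofMT (x h) * rb h)) : M2 A) := by
      rw [← emM_add hε hloc, sub_add_cancel, mul_assoc]
    rw [← h7]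
    abel
  have hπs : ∀ g, (γ g - emM ε (ofMT (x g) * rb g)).map π = s g := by
    intro g
    ext i j
    have h1 : π (γ g i j) = s g i j := congrFun (congrFun (hγπ g) i) j
    have h3 : π (emM ε (ofMT (x g) * rb g) i j) = 0 := by
      change π (ε * _) = 0
      rw [map_mul, hπε, zero_mul]
    rw [Matrix.map_apply, Matrix.sub_apply, map_sub, h1, h3, sub_zero]
  have hπl : IsLocalHom (π : A →+* B) := IsLocalHom.of_surjective (π : A →+* B) hπ
  have hone : γ 1 - emM ε (ofMT (x 1) * rb 1) = 1 := by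
    have h1 := hmul 1 1
    rw [mul_one] at h1
    have h2 : IsUnit (γ 1 - emM ε (ofMT (x 1) * rb 1)) := by
      rw [Matrix.isUnit_iff_isUnit_det]
      refine hπl.map_nonunit _ ?_
      have h3 : (π : A →+* B) (γ 1 - emM ε (ofMT (x 1) * rb 1)).det =
          ((γ 1 - emM ε (ofMT (x 1) * rb 1)).map π).det := by
        rw [RingHom.map_det]
        rfl
      rw [h3, hπs, map_one, Matrix.det_one]
      exact isUnit_one
    exact h2.mul_left_cancel (h1.trans (mul_one _).symm)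
  let s' : GQ →* M2 A :=
    { toFun := fun g => γ g - emM ε (ofMT (x g) * rb g)
      map_one' := hone
      map_mul' := fun g h => (hmul g h).symm }
  refine ⟨s', ?_, ?_, fun σ i j => ?_⟩
  · ext g i j
    exact congrFun (congrFun (hπs g) i) j
  · refine (levS S').mono _ _ ((levS S').inf _ _ hU hs) fun t ht => ?_
    change γ t - emM ε (ofMT (x t) * rb t) = 1
    have h1 := hγt 1 t ht.2
    have h2 := hxU 1 t ht.1
    rw [one_mul] at h1 h2
    rw [h1, h2, hrbt t ht.2, ← map_one rb]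
    exact hone
  · refine rd_of_map π ?_
    have h1 : π (s' σ i j) = s σ i j := congrFun (congrFun (hπs σ) i) j
    rw [h1]
    exact hred σ i j

end lift

end Fermat.Agent.Cor.DefCond

end
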