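import Fermat.Agent.Cor.DefCondH

/-!
# The universal deformation ring is formally smooth if `H²(G_S, ad ρbar) = 0`
-/

set_option autoImplicit false
set_option linter.unusedSectionVars false

noncomputable section

namespace Fermat.Agent.Cor.DefCond

open IsLocalRing GaloisRep Matrix Fermat.Agent.CC Fermat.Agent.TW
open Fermat.Agent.H04 (M2 Dat IsCont IsNRep ofMat Compat mapM PreTest)
open Fermat.Agent.L00.Tr (MT)

section level

variable {A : Type} [CommRing A] [IsLocalRing A]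

theorem exists_pow_eq_bot (A : Type) [CommRing A] [IsLocalRing A] [Finite A] :
    ∃ n, maximalIdeal A ^ n = ⊥ :=
  (isArtinianRing_iff_isNilpotent_maximalIdeal A).mp inferInstance

theorem level_of_unr_fin [Finite A] {s : GQ →* M2 A} (hs : IsCont s) {S : Finset ℕ}
    (h : ∀ q : ℕ, q.Prime → q ∉ S → (ofMat s hs).IsUnramifiedAt q) {S' : Finset Nat.Primes}
    (hS' : ∀ q : Nat.Primes, q ∉ S' → (q : ℕ) ∉ S) : (levS S').isOpen s.ker := by
  refine levS_isOpen_of ?_ fun q hq P hP τ hτ => ?_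
  · obtain ⟨n, hn⟩ := exists_pow_eq_bot A
    obtain ⟨L, hL, h2⟩ := hs n
    refine ⟨L, hL, fun σ hσ => ?_⟩
    have h3 := h2 σ fun x hx => (IntermediateField.mem_fixingSubgroup_iff L σ).1 hσ x hx
    change s σ = 1
    ext i j
    have h4 := h3 i j
    rw [hn, Ideal.mem_bot] at h4
    exact sub_eq_zero.1 h4
  · have h1 : (ofMat s hs).ρ τ = 1 := h q q.2 (hS' q hq) P hP τ hτ
    change s τ = 1
    apply Matrix.toLin'.injective
    have h2 : Matrix.toLin' (s τ) = 1 := h1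
    rw [h2, Matrix.toLin'_one]
    rfl

theorem cont_of_level {s : GQ →* M2 A} {S' : Finset Nat.Primes} (h : (levS S').isOpen s.ker) :
    IsCont s := by
  obtain ⟨F, hF, hFs⟩ := h
  intro n
  refine ⟨F, hF.1, fun σ hσ i j => ?_⟩
  have h1 : s σ = 1 := hFs ((IntermediateField.mem_fixingSubgroup_iff F σ).2 fun x hx => hσ x hx)
  rw [h1, sub_self]
  exact Ideal.zero_mem _

theorem unr_of_level {s : GQ →* M2 A} {S' : Finset Nat.Primes} (h : (levS S').isOpen s.ker)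
    {S : Finset ℕ} (hS' : ∀ q : Nat.Primes, (q : ℕ) ∉ S → q ∉ S') (q : ℕ) (hq : q.Prime)
    (hqS : q ∉ S) : (ofMat s (cont_of_level h)).IsUnramifiedAt q := by
  obtain ⟨F, hF, hFs⟩ := h
  intro P hP τ hτ
  have h1 : s τ = 1 := hFs (hF.2 ⟨q, hq⟩ (hS' ⟨q, hq⟩ hqS) P hP hτ)
  change Matrix.toLin' (s τ) = 1
  rw [h1, Matrix.toLin'_one]
  rfl

end level

section step

variable {𝒪 : Type} [CommRing 𝒪] [IsDomain 𝒪] [IsDiscreteValuationRing 𝒪]
  [IsAdicComplete (maximalIdeal 𝒪) 𝒪] [Finite (ResidueField 𝒪)]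
  {ρbar : ResidualGaloisRep (ResidueField 𝒪)}

/-- the deformation problem "unramified outside `S`" -/
def UnrT (𝒪 : Type) [CommRing 𝒪] (S : Finset ℕ) :
    ∀ ⦃A : Type⦄ [CommRing A] [IsLocalRing A] [Algebra 𝒪 A], GaloisRepAdic A → Prop :=
  fun _A _ _ _ ρ => ∀ q : ℕ, q.Prime → q ∉ S → ρ.IsUnramifiedAt q

theorem rm_iff {A : Type} [CommRing A] [IsLocalRing A] [Algebra 𝒪 A]
    (hloc : IsLocalHom (algebraMap 𝒪 A)) {D : Dat 𝒪}
    {rb : GQ →* Mt (ResidueField 𝒪)} (hrb : ∀ σ i j, residue 𝒪 (D.cf σ i j) = rb σ i j)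
    (s : GQ →* M2 A) :
    (∀ σ, RM (s σ) (rb σ)) ↔ ∀ σ i j, s σ i j - algebraMap 𝒪 A (D.cf σ i j) ∈ maximalIdeal A := by
  constructor
  · intro h σ i j
    obtain ⟨c, hc, h1⟩ := h σ i j
    have h2 : c - D.cf σ i j ∈ maximalIdeal 𝒪 := by
      rw [← residue_eq_zero_iff, map_sub, hc, hrb, sub_self]
    have h3 : algebraMap 𝒪 A (c - D.cf σ i j) ∈ maximalIdeal A := fun hu =>
      h2 (hloc.map_nonunit _ hu)
    have h4 := Ideal.add_mem _ h1 h3
    rw [map_sub, sub_add_sub_cancel] at h4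
    exact h4
  · intro h σ i j
    exact ⟨_, hrb σ i j, h σ i j⟩

/-- lifting along a small extension -/
theorem small_step {S : Finset ℕ} {S' : Finset Nat.Primes}
    (hS' : ∀ q : Nat.Primes, q ∈ S' ↔ (q : ℕ) ∈ S)
    (DQ : DeformationRingData 𝒪 ρbar (UnrT 𝒪 S))
    {b : Module.Basis (Fin 2) (ResidueField 𝒪) ρbar.V} {D : Dat 𝒪} (hD : Compat D ρbar b)
    {p : ℕ} [Algebra (ZMod p) (ResidueField 𝒪)]
    (hH2 : ∀ x : H2 (levS S') (MT (adRep p (rbM ρbar b))), x = 0)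
    {A B : Type} [CommRing A] [IsLocalRing A] [Algebra 𝒪 A] [CommRing B] [IsLocalRing B]
    [Algebra 𝒪 B] [Finite A] [Finite B] (hA : PreTest 𝒪 A)
    {ε : A} (hε : ∀ a ∈ maximalIdeal A, a * ε = 0) (hε0 : ε ≠ 0) (π : A →ₐ[𝒪] B)
    (hπ : Function.Surjective π) (hπε : π ε = 0) (hker : ∀ a, π a = 0 → a ∈ Ideal.span {ε})
    (f : DQ.R →ₐ[𝒪] B) (hf : IsLocalHom (f : DQ.R →+* B)) :
    ∃ f' : DQ.R →ₐ[𝒪] A, IsLocalHom (f' : DQ.R →+* A) ∧ π.comp f' = f := by
  have hrb' : ∀ σ i j, residue 𝒪 (D.cf σ i j) = rbM ρbar b σ i j := fun σ i j => by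
    rw [hD σ i j, rbM_apply]
  have hB : PreTest 𝒪 B := Fermat.Agent.H04.preTest_of_surjective π hπ hA
  have hπl : IsLocalHom (π : A →+* B) := IsLocalHom.of_surjective (π : A →+* B) hπ
  have hAc : IsAdicComplete (maximalIdeal A) A := by
    obtain ⟨n, hn⟩ := exists_pow_eq_bot A
    exact isAdicComplete_of_pow _ n hn
  have hBc : IsAdicComplete (maximalIdeal B) B := by
    obtain ⟨n, hn⟩ := exists_pow_eq_bot B
    exact isAdicComplete_of_pow _ n hn
  have hlA : IsLocalHom (algebraMap 𝒪 A) := hA.isLocalHom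
  have hlB : IsLocalHom (algebraMap 𝒪 B) := hB.isLocalHom
  obtain ⟨r0, hr0, hred0, heq0⟩ := Fermat.Agent.H04.exists_mat hD
    (IsLocalRing.ResidueField.map (algebraMap 𝒪 DQ.R)) (fun c => rfl) DQ.ρ DQ.residual_isEquiv
  obtain ⟨r, hr, heq⟩ := Fermat.Agent.H04.exists_isNRep (D := D) DQ.instIsLocalHom r0 hr0 hred0
  have hrρ : (ofMat r hr.cont).IsEquiv DQ.ρ := by
    obtain ⟨e1⟩ := heq
    obtain ⟨e0⟩ := heq0
    exact ⟨e1.trans e0.symm⟩
  have hbase : ∀ {C : Type} [CommRing C] [IsLocalRing C] [Algebra 𝒪 C] (φ : DQ.R →ₐ[𝒪] C)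
      (hφ : IsLocalHom (φ : DQ.R →+* C)),
      (DQ.ρ.baseChangeAlong (φ : DQ.R →+* C) hφ).IsEquiv
        (ofMat (mapM (φ : DQ.R →+* C) r) (hr.cont.map _ hφ)) := by
    intro C _ _ _ φ hφ
    obtain ⟨e1⟩ := Fermat.Agent.H04.ofMat_baseChange r hr.cont (φ : DQ.R →+* C) hφ
    obtain ⟨e2⟩ := hrρ
    exact ⟨(e2.symm.baseChangeAlong _ hφ).trans e1⟩
  -- the deformation to `B`
  have hsN := hr.map f hf
  have hlev : (levS S').isOpen (mapM (f : DQ.R →+* B) r).ker :=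
    level_of_unr_fin hsN.cont (fun q hq hqS => H19.isUnramifiedAt_of_isEquiv (hbase f hf)
      (H19.isUnramifiedAt_baseChangeAlong _ hf (DQ.isOfType q hq hqS)))
      fun q hq h => hq ((hS' q).2 h)
  obtain ⟨s', h1, h2, h3⟩ := exists_lift hH2 hA hε hε0 π hπ hπε hker (mapM (f : DQ.R →+* B) r) hlev
    ((rm_iff hlB hrb' _).2 hsN.red)
  have hs' := cont_of_level h2
  have hred' := (rm_iff hlA hrb' s').1 h3
  have htype : UnrT 𝒪 S (ofMat s' hs') := fun q hq hqS =>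
    unr_of_level h2 (fun q hq h => hq ((hS' q).1 h)) q hq hqS
  obtain ⟨f', ⟨hf', heq'⟩, -⟩ := DQ.universal A (Fermat.Agent.H04.preTest_iff.1 hA).2
    (ofMat s' hs') htype (Fermat.Agent.H04.residual_ofMat hD
      (IsLocalRing.ResidueField.map (algebraMap 𝒪 A)) (fun c => rfl) s' hs' hred')
  refine ⟨f', hf', ?_⟩
  have hg : IsLocalHom ((π.comp f' : DQ.R →ₐ[𝒪] B) : DQ.R →+* B) := by
    constructor
    intro x hx
    exact hf'.map_nonunit _ (hπl.map_nonunit _ hx)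
  have hgN := hr.map (π.comp f') hg
  -- `ofMat (mapM g r) ≅ ofMat (mapM f r)`
  have e1 : (ofMat (mapM (f' : DQ.R →+* A) r) (hr.cont.map _ hf')).IsEquiv (ofMat s' hs') := by
    obtain ⟨a⟩ := hbase f' hf'
    obtain ⟨c⟩ := heq'
    exact ⟨a.symm.trans c⟩
  have e2 : (ofMat (mapM (π : A →+* B) (mapM (f' : DQ.R →+* A) r))
      ((hr.cont.map _ hf').map _ hπl)).IsEquiv (ofMat (mapM (π : A →+* B) s')
      (hs'.map _ hπl)) := by
    obtain ⟨a⟩ := Fermat.Agent.H04.ofMat_baseChange (mapM (f' : DQ.R →+* A) r)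
      (hr.cont.map _ hf') (π : A →+* B) hπl
    obtain ⟨c⟩ := Fermat.Agent.H04.ofMat_baseChange s' hs' (π : A →+* B) hπl
    obtain ⟨d⟩ := e1
    exact ⟨(a.symm.trans (d.baseChangeAlong _ hπl)).trans c⟩
  have e3 : (ofMat (mapM ((π.comp f' : DQ.R →ₐ[𝒪] B) : DQ.R →+* B) r) hgN.cont).IsEquiv
      (ofMat (mapM (f : DQ.R →+* B) r) hsN.cont) := by
    have h4 : ofMat (mapM (π : A →+* B) s') (hs'.map _ hπl) =
      ofMat (mapM (f : DQ.R →+* B) r) hsN.cont := by congr 1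
    rw [← h4]
    exact e2
  have e4 := Fermat.Agent.H04.IsNRep.eq_of_isEquiv hlB hgN hsN e3
  obtain ⟨χ, -, hχ⟩ := DQ.universal B (Fermat.Agent.H04.preTest_iff.1 hB).2
    (ofMat (mapM (f : DQ.R →+* B) r) hsN.cont)
    (fun q hq hqS => H19.isUnramifiedAt_of_isEquiv (hbase f hf)
      (H19.isUnramifiedAt_baseChangeAlong _ hf (DQ.isOfType q hq hqS)))
    (Fermat.Agent.H04.residual_ofMat hD
      (IsLocalRing.ResidueField.map (algebraMap 𝒪 B)) (fun c => rfl) _ hsN.cont hsN.red)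
  have u1 := hχ f ⟨hf, hbase f hf⟩
  have u2 := hχ (π.comp f') ⟨hg, by
    have h5 := hbase (π.comp f') hg
    have h6 : ofMat (mapM ((π.comp f' : DQ.R →ₐ[𝒪] B) : DQ.R →+* B) r) (hr.cont.map _ hg) =
        ofMat (mapM (f : DQ.R →+* B) r) hsN.cont := by
      congr 1
    rw [h6] at h5
    exact h5⟩
  rw [u1, u2]

end step

section general

variable {𝒪 : Type} [CommRing 𝒪] [IsLocalRing 𝒪]

/-- in a finite local ring, every nonzero ideal contains a nonzero element killed by the maximal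
ideal -/
theorem exists_socle {A : Type} [CommRing A] [IsLocalRing A] [Finite A] (K : Ideal A)
    (hK : K ≠ ⊥) : ∃ ε ∈ K, ε ≠ 0 ∧ ∀ a ∈ maximalIdeal A, a * ε = 0 := by
  obtain ⟨x, hx, hx0⟩ := Submodule.exists_mem_ne_zero_of_ne_bot hK
  obtain ⟨ε, ⟨h1, h2⟩, hmin⟩ := Set.exists_min_image {y : A | y ∈ K ∧ y ≠ 0}
    (fun y => ((Ideal.span {y} : Ideal A) : Set A).ncard) (Set.toFinite _) ⟨x, hx, hx0⟩
  refine ⟨ε, h1, h2, fun a ha => ?_⟩
  by_contra hcon
  have h3 := hmin (a * ε) ⟨Ideal.mul_mem_left _ _ h1, hcon⟩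
  have h4 : ((Ideal.span {a * ε} : Ideal A) : Set A) ⊆ (Ideal.span {ε} : Ideal A) := by
    intro y hy
    obtain ⟨c, rfl⟩ := Ideal.mem_span_singleton'.1 hy
    exact Ideal.mem_span_singleton'.2 ⟨c * a, by ring⟩
  have h5 := Set.eq_of_subset_of_ncard_le h4 h3 (Set.toFinite _)
  have h6 : ε ∈ ((Ideal.span {a * ε} : Ideal A) : Set A) := by
    rw [h5]
    exact Ideal.mem_span_singleton_self ε
  obtain ⟨c, hc⟩ := Ideal.mem_span_singleton'.1 h6
  have h7 : IsUnit (1 - c * a) := by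
    by_contra hu
    have h8 : 1 - c * a ∈ maximalIdeal A := hu
    have h9 := Ideal.add_mem _ h8 (Ideal.mul_mem_left _ c ha)
    rw [sub_add_cancel] at h9
    exact (Ideal.ne_top_iff_one _).1 (maximalIdeal.isMaximal A).ne_top h9
  apply h2
  refine h7.mul_right_injective ?_
  beta_reduce
  rw [mul_zero]
  linear_combination -hc

/-- lifting along all surjections of finite local algebras from lifting along small extensions -/
theorem lift_of_small {R : Type} [CommRing R] [Algebra 𝒪 R] [IsLocalRing R]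
    (hstep : ∀ {A B : Type} [CommRing A] [IsLocalRing A] [Algebra 𝒪 A] [CommRing B] [IsLocalRing B]
      [Algebra 𝒪 B] [Finite A] [Finite B] (_ : PreTest 𝒪 A)
      {ε : A} (_ : ∀ a ∈ maximalIdeal A, a * ε = 0) (_ : ε ≠ 0) (π : A →ₐ[𝒪] B)
      (_ : Function.Surjective π) (_ : π ε = 0) (_ : ∀ a, π a = 0 → a ∈ Ideal.span {ε})
      (f : R →ₐ[𝒪] B) (_ : IsLocalHom (f : R →+* B)),
      ∃ f' : R →ₐ[𝒪] A, IsLocalHom (f' : R →+* A) ∧ π.comp f' = f) (n : ℕ) :
    ∀ {A B : Type} [CommRing A] [IsLocalRing A] [Algebra 𝒪 A] [CommRing B] [IsLocalRing B]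
      [Algebra 𝒪 B] [Finite A] [Finite B] (_ : PreTest 𝒪 A) (_ : Nat.card A ≤ n)
      (π : A →ₐ[𝒪] B) (_ : Function.Surjective π)
      (f : R →ₐ[𝒪] B) (_ : IsLocalHom (f : R →+* B)),
      ∃ f' : R →ₐ[𝒪] A, IsLocalHom (f' : R →+* A) ∧ π.comp f' = f := by
  classical
  induction n with
  | zero =>
    intro A B _ _ _ _ _ _ _ _ _ hc
    have : 0 < Nat.card A := Nat.card_pos
    omega
  | succ n ih =>
    intro A B _ _ _ _ _ _ _ _ hA hc π hπ f hf
    by_cases hinj : Function.Injective π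
    · let e := AlgEquiv.ofBijective π ⟨hinj, hπ⟩
      have he : ∀ a, e a = π a := fun a => rfl
      refine ⟨(e.symm : B →ₐ[𝒪] A).comp f, ⟨fun x hx => ?_⟩, ?_⟩
      · have h1 : IsUnit (e (e.symm (f x))) := hx.map e
        rw [AlgEquiv.apply_symm_apply] at h1
        exact hf.map_nonunit _ h1
      · ext x
        change π (e.symm (f x)) = f x
        rw [← he, AlgEquiv.apply_symm_apply]
    · have hK : RingHom.ker (π : A →+* B) ≠ ⊥ := fun h =>
        hinj ((RingHom.injective_iff_ker_eq_bot (π : A →+* B)).2 h)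
      obtain ⟨ε, h1, h2, h3⟩ := exists_socle _ hK
      have h1' : π ε = 0 := h1
      have hJ : (Ideal.span {ε} : Ideal A) ≠ ⊤ := by
        intro h
        have h4 : (1 : A) ∈ Ideal.span {ε} := h ▸ Submodule.mem_top
        obtain ⟨c, hc⟩ := Ideal.mem_span_singleton'.1 h4
        have h5 := congrArg π hc
        rw [map_mul, h1', mul_zero, map_one] at h5
        exact zero_ne_one h5
      have hlocQ := Fermat.Agent.H04.isLocalRing_quotient _ hJ
      have hsurj := Ideal.Quotient.mkₐ_surjective 𝒪 (Ideal.span {ε} : Ideal A)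
      have hQ : PreTest 𝒪 (A ⧸ (Ideal.span {ε} : Ideal A)) :=
        Fermat.Agent.H04.preTest_of_surjective (Ideal.Quotient.mkₐ 𝒪 _) hsurj hA
      have hfinQ : Finite (A ⧸ (Ideal.span {ε} : Ideal A)) := Finite.of_surjective _ hsurj
      have hcard : Nat.card (A ⧸ (Ideal.span {ε} : Ideal A)) ≤ n := by
        have := Fintype.ofFinite A
        have := Fintype.ofFinite (A ⧸ (Ideal.span {ε} : Ideal A))
        have h4 := Fintype.card_lt_of_surjective_not_injective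
          (Ideal.Quotient.mkₐ 𝒪 (Ideal.span {ε} : Ideal A)) hsurj fun h => h2 (h (by
            rw [map_zero]
            exact Ideal.Quotient.eq_zero_iff_mem.2 (Ideal.mem_span_singleton_self ε)))
        rw [← Nat.card_eq_fintype_card, ← Nat.card_eq_fintype_card] at h4
        omega
      let π' : (A ⧸ (Ideal.span {ε} : Ideal A)) →ₐ[𝒪] B :=
        Ideal.Quotient.liftₐ (Ideal.span {ε}) π (fun a ha => by
          obtain ⟨c, rfl⟩ := Ideal.mem_span_singleton'.1 ha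
          rw [map_mul, h1', mul_zero])
      have hπ' : ∀ a, π' (Ideal.Quotient.mk _ a) = π a := fun a => rfl
      obtain ⟨f₁, hf₁, hf₁'⟩ := ih hQ hcard π' (fun y => by
        obtain ⟨a, rfl⟩ := hπ y
        exact ⟨Ideal.Quotient.mk _ a, hπ' a⟩) f hf
      obtain ⟨f', hf', hf''⟩ := hstep hA h3 h2 (Ideal.Quotient.mkₐ 𝒪 (Ideal.span {ε} : Ideal A))
        hsurj (Ideal.Quotient.eq_zero_iff_mem.2 (Ideal.mem_span_singleton_self ε))
        (fun a ha => Ideal.Quotient.eq_zero_iff_mem.1 ha) f₁ hf₁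
      refine ⟨f', hf', ?_⟩
      rw [← hf₁', ← hf'']
      rfl

end general

end Fermat.Agent.Cor.DefCond

end
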