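import Fermat.Agent.DefRing.Tangent
import Fermat.Agent.TW.Tan

/-!
# Formally smooth complete local algebras are power series rings

`𝒪` a complete noetherian local ring with finite residue field `k` and `R` a complete noetherian
local `𝒪`-algebra with residue field `k`, with the lifting property for surjections of finite local
`𝒪`-algebras and with exactly `|k| ^ d` homomorphisms to the dual numbers. Then
`R ≅ 𝒪⟦X₁, …, X_d⟧`.
-/

set_option autoImplicit false
set_option linter.unusedSectionVars false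

noncomputable section

namespace Fermat.Agent.Cor.DefCond

open IsLocalRing Fermat.Agent.TW
open Fermat.Agent.H04 (DN PreTest XI)

section derivation

variable {𝒪 : Type} [CommRing 𝒪] [IsLocalRing 𝒪] {A : Type} [CommRing A] [IsLocalRing A]
  [Algebra 𝒪 A]

/-- elements of `𝔪` which are not in `K ⊇ 𝔪_𝒪 A + 𝔪²` are detected by the dual numbers -/
theorem exists_map_DN_of_notMem (hA : PreTest 𝒪 A) (K : Ideal A)
    (h1 : (maximalIdeal 𝒪).map (algebraMap 𝒪 A) ≤ K) (h2 : maximalIdeal A ^ 2 ≤ K)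
    (h3 : K ≤ maximalIdeal A) {m : A} (hm : m ∈ maximalIdeal A) (hmK : m ∉ K) :
    ∃ f : A →ₐ[𝒪] DN 𝒪, IsLocalHom (f : A →+* DN 𝒪) ∧ f m ≠ 0 := by
  obtain ⟨aug, haug, haug0⟩ := Fermat.Agent.H04.exists_aug hA
  let B := A ⧸ K
  let σ : ResidueField 𝒪 →+* B := Ideal.Quotient.lift (maximalIdeal 𝒪)
    ((Ideal.Quotient.mk K).comp (algebraMap 𝒪 A)) (fun a ha => by
      rw [RingHom.comp_apply, Ideal.Quotient.eq_zero_iff_mem]
      exact h1 (Ideal.mem_map_of_mem _ ha))
  have hσ : ∀ c : 𝒪, σ (residue 𝒪 c) = Ideal.Quotient.mk K (algebraMap 𝒪 A c) := fun c => rfl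
  let : Module (ResidueField 𝒪) B := Module.compHom B σ
  have hsmul : ∀ (c : 𝒪) (y : A), residue 𝒪 c • (Ideal.Quotient.mk K y) =
      Ideal.Quotient.mk K (algebraMap 𝒪 A c * y) := fun c y => rfl
  have hnot : (Ideal.Quotient.mk K m : B) ∉
      Submodule.span (ResidueField 𝒪) {(1 : B)} := by
    intro hmem
    obtain ⟨c, hc⟩ := Submodule.mem_span_singleton.mp hmem
    obtain ⟨c, rfl⟩ := residue_surjective c
    have h5 : Ideal.Quotient.mk K (algebraMap 𝒪 A c * 1) = Ideal.Quotient.mk K m := by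
      rw [← hsmul, map_one]; exact hc
    rw [mul_one, Ideal.Quotient.eq] at h5
    have h6 : algebraMap 𝒪 A c ∈ maximalIdeal A := by
      have := Ideal.add_mem _ (h3 h5) hm
      simpa using this
    have h7 : c ∈ maximalIdeal 𝒪 := fun hu => h6 (hu.map _)
    have h8 : algebraMap 𝒪 A c ∈ K := h1 (Ideal.mem_map_of_mem _ h7)
    apply hmK
    have := Ideal.sub_mem _ h8 h5
    simpa using this
  obtain ⟨l, hl, hl1⟩ := Submodule.exists_le_ker_of_notMem hnot
  have hl1' : l (1 : B) = 0 := by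
    have : (1 : B) ∈ LinearMap.ker l := hl1 (Submodule.mem_span_singleton_self _)
    exact this
  have haugc : ∀ c : 𝒪, aug (algebraMap 𝒪 A c) = residue 𝒪 c := fun c => by
    rw [AlgHom.commutes]; rfl
  have hlc : ∀ c : 𝒪, l (Ideal.Quotient.mk K (algebraMap 𝒪 A c)) = 0 := by
    intro c
    have : (Ideal.Quotient.mk K (algebraMap 𝒪 A c) : B) = residue 𝒪 c • (1 : B) := by
      have := hsmul c 1
      rw [mul_one, map_one] at this
      exact this.symm
    rw [this, map_smul, hl1', smul_zero]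
  have hmul : ∀ a b : A, l (Ideal.Quotient.mk K (a * b)) =
      aug a * l (Ideal.Quotient.mk K b) + aug b * l (Ideal.Quotient.mk K a) := by
    intro a b
    obtain ⟨c, hc⟩ := hA.approx a
    obtain ⟨d, hd⟩ := hA.approx b
    have h5 : (a - algebraMap 𝒪 A c) * (b - algebraMap 𝒪 A d) ∈ K := by
      apply h2
      rw [pow_two]
      exact Ideal.mul_mem_mul hc hd
    have h6 : Ideal.Quotient.mk K (a * b) = residue 𝒪 c • (Ideal.Quotient.mk K b) +
        residue 𝒪 d • (Ideal.Quotient.mk K a) -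
        Ideal.Quotient.mk K (algebraMap 𝒪 A (c * d)) := by
      rw [hsmul, hsmul, ← map_add, ← map_sub, Ideal.Quotient.eq]
      convert h5 using 1
      rw [map_mul]
      ring
    have ha : aug a = residue 𝒪 c := by
      have := (haug0 _).mpr hc
      rwa [map_sub, haugc, sub_eq_zero] at this
    have hb : aug b = residue 𝒪 d := by
      have := (haug0 _).mpr hd
      rwa [map_sub, haugc, sub_eq_zero] at this
    rw [h6, map_sub, map_add, map_smul, map_smul, hlc, sub_zero, ha, hb, smul_eq_mul, smul_eq_mul]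
  let f : A →ₐ[𝒪] DN 𝒪 :=
    { toFun := fun a => DN.mk 𝒪 (aug a) (l (Ideal.Quotient.mk K a))
      map_one' := by rw [map_one, map_one, hl1']; rfl
      map_mul' := fun a b => by rw [Fermat.Agent.H04.DN.mk_mul, map_mul aug, hmul]
      map_zero' := by rw [map_zero, map_zero, map_zero]; rfl
      map_add' := fun a b => by rw [Fermat.Agent.H04.DN.mk_add, map_add, map_add, map_add]
      commutes' := fun c => by rw [haugc, hlc]; rfl }
  have hf : ∀ a, f a = DN.mk 𝒪 (aug a) (l (Ideal.Quotient.mk K a)) := fun a => rfl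
  refine ⟨f, ⟨fun a ha => ?_⟩, fun hfg => ?_⟩
  · rw [RingHom.coe_coe, hf] at ha
    exact haug.map_nonunit _ (Fermat.Agent.H04.DN.isUnit_fst ha)
  · rw [hf] at hfg
    exact hl (Fermat.Agent.H04.DN.mk_inj (hfg.trans Fermat.Agent.H04.DN.zero_eq)).2

/-- a subalgebra of an artinian local algebra which generates `A` modulo `𝔪_𝒪 A + 𝔪²` is `A` -/
theorem mem_of_mod (hA : PreTest 𝒪 A) {N : ℕ} (hN : maximalIdeal A ^ N = ⊥)
    (T : Subalgebra 𝒪 A) (h : ∀ a : A, ∃ t ∈ T, a - t ∈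
      (maximalIdeal 𝒪).map (algebraMap 𝒪 A) ⊔ maximalIdeal A ^ 2) (a : A) : a ∈ T := by
  have hmO : ∀ c ∈ maximalIdeal 𝒪, algebraMap 𝒪 A c ∈ maximalIdeal A := fun c hc hu =>
    hc (hA.isLocalHom.map_nonunit c hu)
  -- step 1
  have s1 : ∀ y ∈ (maximalIdeal 𝒪).map (algebraMap 𝒪 A), ∀ a : A, ∃ t ∈ T,
      a * y - t ∈ maximalIdeal A ^ 2 := by
    intro y hy
    refine Submodule.span_induction (p := fun y _ => ∀ a : A, ∃ t ∈ T,
      a * y - t ∈ maximalIdeal A ^ 2) ?_ ?_ ?_ ?_ hy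
    · rintro _ ⟨c, hc, rfl⟩ a
      obtain ⟨d, hd⟩ := hA.approx a
      refine ⟨algebraMap 𝒪 A (d * c), T.algebraMap_mem _, ?_⟩
      rw [map_mul, ← sub_mul, pow_two]
      exact Ideal.mul_mem_mul hd (hmO c hc)
    · intro a
      exact ⟨0, T.zero_mem, by rw [mul_zero, sub_zero]; exact Ideal.zero_mem _⟩
    · intro x y _ _ hx hy a
      obtain ⟨t, ht, h1⟩ := hx a
      obtain ⟨t', ht', h2⟩ := hy a
      refine ⟨t + t', T.add_mem ht ht', ?_⟩
      rw [mul_add, add_sub_add_comm]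
      exact Ideal.add_mem _ h1 h2
    · intro b x _ hx a
      obtain ⟨t, ht, h1⟩ := hx (a * b)
      refine ⟨t, ht, ?_⟩
      rwa [smul_eq_mul, ← mul_assoc]
  have s2 : ∀ a : A, ∃ t ∈ T, a - t ∈ maximalIdeal A ^ 2 := by
    intro a
    obtain ⟨t, ht, h1⟩ := h a
    obtain ⟨y, hy, z, hz, hyz⟩ := Submodule.mem_sup.1 h1
    obtain ⟨t', ht', h2⟩ := s1 y hy 1
    refine ⟨t + t', T.add_mem ht ht', ?_⟩
    have h3 : a - (t + t') = (1 * y - t') + z := by
      rw [one_mul]
      linear_combination -hyz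
    rw [h3]
    exact Ideal.add_mem _ h2 hz
  -- step 3
  have s3 : ∀ j : ℕ, ∀ b ∈ maximalIdeal A ^ (j + 1), ∃ t ∈ T,
      b - t ∈ maximalIdeal A ^ (j + 2) := by
    intro j
    induction j with
    | zero => exact fun b _ => s2 b
    | succ j ih =>
      intro b hb
      rw [pow_succ' _ (j + 1)] at hb
      refine Submodule.mul_induction_on hb (C := fun b => ∃ t ∈ T,
        b - t ∈ maximalIdeal A ^ (j + 1 + 2)) ?_ ?_
      · intro x hx y hy
        obtain ⟨t, ht, h1⟩ := s2 x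
        obtain ⟨t', ht', h2⟩ := ih y hy
        have htm : t ∈ maximalIdeal A := by
          have h3 := Ideal.sub_mem _ hx (Ideal.pow_le_self two_ne_zero h1)
          rwa [sub_sub_cancel] at h3
        refine ⟨t * t', T.mul_mem ht ht', ?_⟩
        have h4 : x * y - t * t' = t * (y - t') + (x - t) * y := by ring
        rw [h4]
        refine Ideal.add_mem _ ?_ ?_
        · have h5 := Ideal.mul_mem_mul htm h2
          rw [← pow_succ'] at h5
          exact h5
        · have h5 := Ideal.mul_mem_mul h1 hy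
          rw [← pow_add] at h5
          exact Ideal.pow_le_pow_right (by omega) h5
      · rintro x y ⟨t, ht, h1⟩ ⟨t', ht', h2⟩
        refine ⟨t + t', T.add_mem ht ht', ?_⟩
        rw [add_sub_add_comm]
        exact Ideal.add_mem _ h1 h2
  have s4 : ∀ j : ℕ, ∀ a : A, ∃ t ∈ T, a - t ∈ maximalIdeal A ^ (j + 1) := by
    intro j
    induction j with
    | zero =>
      intro a
      obtain ⟨t, ht, h1⟩ := s2 a
      exact ⟨t, ht, Ideal.pow_le_pow_right (by omega) h1⟩
    | succ j ih =>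
      intro a
      obtain ⟨t, ht, h1⟩ := ih a
      obtain ⟨t', ht', h2⟩ := s3 j _ h1
      refine ⟨t + t', T.add_mem ht ht', ?_⟩
      rwa [← sub_sub]
  obtain ⟨t, ht, h1⟩ := s4 N a
  have h2 := Ideal.pow_le_pow_right (Nat.le_succ N) h1
  rw [hN, Ideal.mem_bot, sub_eq_zero] at h2
  rw [h2]
  exact ht

end derivation

section pow

variable {𝒪 : Type} [CommRing 𝒪] [IsLocalRing 𝒪] {d : ℕ}

theorem preTest_powerSeries : PreTest 𝒪 (MvPowerSeries (Fin d) 𝒪) where
  isLocalHom := ⟨fun c hc => by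
    rw [MvPowerSeries.isUnit_iff_constantCoeff, MvPowerSeries.algebraMap_apply] at hc
    simpa using hc⟩
  approx f := by
    refine ⟨MvPowerSeries.constantCoeff f, fun hu => ?_⟩
    rw [MvPowerSeries.isUnit_iff_constantCoeff, MvPowerSeries.algebraMap_apply] at hu
    simp at hu

theorem X_mem_maximalIdeal (i : Fin d) :
    (MvPowerSeries.X i : MvPowerSeries (Fin d) 𝒪) ∈ maximalIdeal (MvPowerSeries (Fin d) 𝒪) := by
  intro hu
  rw [MvPowerSeries.isUnit_iff_constantCoeff] at hu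
  simp at hu

/-- at most `|k| ^ d` homomorphisms from the power series ring to the dual numbers -/
theorem card_hom_powerSeries [Finite (ResidueField 𝒪)] :
    Finite {f : MvPowerSeries (Fin d) 𝒪 →ₐ[𝒪] DN 𝒪 //
      IsLocalHom (f : MvPowerSeries (Fin d) 𝒪 →+* DN 𝒪)} ∧
    Nat.card {f : MvPowerSeries (Fin d) 𝒪 →ₐ[𝒪] DN 𝒪 //
      IsLocalHom (f : MvPowerSeries (Fin d) 𝒪 →+* DN 𝒪)} ≤ Nat.card (ResidueField 𝒪) ^ d := by
  have hinj : Function.Injective (fun (f : {f : MvPowerSeries (Fin d) 𝒪 →ₐ[𝒪] DN 𝒪 //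
      IsLocalHom (f : MvPowerSeries (Fin d) 𝒪 →+* DN 𝒪)}) (i : Fin d) =>
        sn (f.1 (MvPowerSeries.X i))) := by
    intro f g hfg
    have h1 : ∀ (h : {f : MvPowerSeries (Fin d) 𝒪 →ₐ[𝒪] DN 𝒪 //
      IsLocalHom (f : MvPowerSeries (Fin d) 𝒪 →+* DN 𝒪)}) i,
        h.1 (MvPowerSeries.X i) ∈ maximalIdeal (DN 𝒪) := by
      intro h i hu
      exact X_mem_maximalIdeal i (h.2.map_nonunit _ hu)
    apply Subtype.ext
    refine Fermat.Agent.H04.algHom_unique f.1 g.1 (maximalIdeal (DN 𝒪)) (h1 f) (fun i => ?_)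
      maximalIdeal_sq
    refine dn_ext ?_ (congrFun hfg i)
    rw [mem_maximalIdeal_iff_fs.1 (h1 f i), mem_maximalIdeal_iff_fs.1 (h1 g i)]
  refine ⟨Finite.of_injective _ hinj, (Nat.card_le_card_of_injective _ hinj).trans ?_⟩
  rw [Nat.card_fun, Nat.card_fin]

end pow

/-- **Formally smooth algebras are power series rings.** -/
theorem powerSeries_of_smooth {𝒪 : Type} [CommRing 𝒪] [IsLocalRing 𝒪] [IsNoetherianRing 𝒪]
    [IsAdicComplete (maximalIdeal 𝒪) 𝒪] [Finite (ResidueField 𝒪)]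
    {R : Type} [CommRing R] [IsLocalRing R] [IsNoetherianRing R]
    [IsAdicComplete (maximalIdeal R) R] [Algebra 𝒪 R] (hR : PreTest 𝒪 R) (d : ℕ)
    (hfin : Finite {f : R →ₐ[𝒪] DN 𝒪 // IsLocalHom (f : R →+* DN 𝒪)})
    (hcard : Nat.card {f : R →ₐ[𝒪] DN 𝒪 // IsLocalHom (f : R →+* DN 𝒪)} =
      Nat.card (ResidueField 𝒪) ^ d)
    (hsm : ∀ {A B : Type} [CommRing A] [IsLocalRing A] [Algebra 𝒪 A] [CommRing B] [IsLocalRing B]
      [Algebra 𝒪 B] [Finite A] [Finite B] (_ : PreTest 𝒪 A)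
      (π : A →ₐ[𝒪] B) (_ : Function.Surjective π)
      (f : R →ₐ[𝒪] B) (_ : IsLocalHom (f : R →+* B)),
      ∃ f' : R →ₐ[𝒪] A, IsLocalHom (f' : R →+* A) ∧ π.comp f' = f) :
    Nonempty (MvPowerSeries (Fin d) 𝒪 ≃ₐ[𝒪] R) := by
  classical
  obtain ⟨γ, hγ⟩ := exists_surjective_powerSeries hR d hfin hcard.le
  have hγl : IsLocalHom (γ : MvPowerSeries (Fin d) 𝒪 →+* R) :=
    IsLocalHom.of_surjective (γ : MvPowerSeries (Fin d) 𝒪 →+* R) hγ
  have hP : PreTest 𝒪 (MvPowerSeries (Fin d) 𝒪) := preTest_powerSeries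
  have hPres : Finite (ResidueField (MvPowerSeries (Fin d) 𝒪)) :=
    Fermat.Agent.H04.finite_residueField hP
  obtain ⟨Q, hQdef⟩ : ∃ Q : Ideal (MvPowerSeries (Fin d) 𝒪), Q =
    (maximalIdeal 𝒪).map (algebraMap 𝒪 (MvPowerSeries (Fin d) 𝒪)) ⊔
      maximalIdeal (MvPowerSeries (Fin d) 𝒪) ^ 2 := ⟨_, rfl⟩
  have hQ1 : (maximalIdeal 𝒪).map (algebraMap 𝒪 (MvPowerSeries (Fin d) 𝒪)) ≤ Q :=
    hQdef ▸ le_sup_left
  have hQ2 : maximalIdeal (MvPowerSeries (Fin d) 𝒪) ^ 2 ≤ Q := hQdef ▸ le_sup_right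
  have hQm : Q ≤ maximalIdeal (MvPowerSeries (Fin d) 𝒪) := by
    rw [hQdef]
    refine sup_le ?_ (Ideal.pow_le_self two_ne_zero)
    rw [Ideal.map_le_iff_le_comap]
    exact fun c hc hu => hc (hP.isLocalHom.map_nonunit c hu)
  -- all homomorphisms from the power series ring to the dual numbers factor through `γ`
  obtain ⟨hfP, hcP⟩ := card_hom_powerSeries (𝒪 := 𝒪) (d := d)
  let G : {f : R →ₐ[𝒪] DN 𝒪 // IsLocalHom (f : R →+* DN 𝒪)} →
      {f : MvPowerSeries (Fin d) 𝒪 →ₐ[𝒪] DN 𝒪 //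
        IsLocalHom (f : MvPowerSeries (Fin d) 𝒪 →+* DN 𝒪)} := fun f =>
    ⟨f.1.comp γ, ⟨fun x hx => hγl.map_nonunit _ (f.2.map_nonunit _ hx)⟩⟩
  have hGinj : Function.Injective G := by
    intro f g hfg
    apply Subtype.ext
    ext x
    obtain ⟨y, rfl⟩ := hγ x
    exact congrArg (fun F => F.1 y) hfg
  have hGbij : Function.Bijective G := hGinj.bijective_of_nat_card_le (hcP.trans hcard.ge)
  have hkerQ : RingHom.ker γ ≤ Q := by
    intro f hf
    have hf0 : γ f = 0 := hf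
    have hfm : f ∈ maximalIdeal (MvPowerSeries (Fin d) 𝒪) := by
      intro hu
      have h1 := hu.map γ
      rw [hf0] at h1
      exact not_isUnit_zero h1
    by_contra hfQ
    obtain ⟨F, hF, hFf⟩ := exists_map_DN_of_notMem hP Q hQ1 hQ2 hQm hfm hfQ
    obtain ⟨F', hF'⟩ := hGbij.2 ⟨F, hF⟩
    apply hFf
    have h1 : F = F'.1.comp γ := (congrArg Subtype.val hF').symm
    rw [h1, AlgHom.comp_apply, hf0, map_zero]
  -- the quotient by `Q`
  have hlocC : IsLocalRing (MvPowerSeries (Fin d) 𝒪 ⧸ Q) :=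
    Fermat.Agent.H04.isLocalRing_quotient Q fun h =>
      (maximalIdeal.isMaximal _).ne_top (top_le_iff.1 (h ▸ hQm))
  have hfinC : Finite (MvPowerSeries (Fin d) 𝒪 ⧸ Q) :=
    IsLocalRing.finite_quotient_iff.mpr ⟨2, hQ2⟩
  let e := Ideal.quotientKerAlgEquivOfSurjective (f := γ) hγ
  have he : ∀ x, e (Ideal.Quotient.mk _ x) = γ x := fun x => rfl
  let g₀ : R →ₐ[𝒪] MvPowerSeries (Fin d) 𝒪 ⧸ Q :=
    (Ideal.Quotient.factorₐ 𝒪 hkerQ).comp (e.symm : R →ₐ[𝒪] _)
  have hg₀ : ∀ x, g₀ (γ x) = Ideal.Quotient.mk Q x := by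
    intro x
    change Ideal.Quotient.factorₐ 𝒪 hkerQ (e.symm (γ x)) = _
    rw [← he, AlgEquiv.symm_apply_apply]
    rfl
  have hg₀l : IsLocalHom (g₀ : R →+* MvPowerSeries (Fin d) 𝒪 ⧸ Q) :=
    IsLocalHom.of_surjective _ fun y => by
      obtain ⟨x, rfl⟩ := Ideal.Quotient.mk_surjective y
      exact ⟨γ x, hg₀ x⟩
  -- the kernel of `γ` is contained in all powers of the maximal ideal
  have hkey : ∀ n : ℕ, 2 ≤ n → ∀ f, γ f = 0 →
      f ∈ maximalIdeal (MvPowerSeries (Fin d) 𝒪) ^ n := by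
    intro n hn f hf
    have hne : maximalIdeal (MvPowerSeries (Fin d) 𝒪) ^ n ≠ ⊤ := fun h =>
      (maximalIdeal.isMaximal (MvPowerSeries (Fin d) 𝒪)).ne_top
        (top_le_iff.1 (h ▸ Ideal.pow_le_self (by omega)))
    have hlocA := Fermat.Agent.H04.isLocalRing_quotient _ hne
    have hfinA : Finite (MvPowerSeries (Fin d) 𝒪 ⧸
      maximalIdeal (MvPowerSeries (Fin d) 𝒪) ^ n) :=
      IsLocalRing.finite_quotient_iff.mpr ⟨n, le_rfl⟩
    have hA : PreTest 𝒪 (MvPowerSeries (Fin d) 𝒪 ⧸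
        maximalIdeal (MvPowerSeries (Fin d) 𝒪) ^ n) :=
      Fermat.Agent.H04.preTest_of_surjective (Ideal.Quotient.mkₐ 𝒪 _)
        (Ideal.Quotient.mkₐ_surjective _ _) hP
    have hle : maximalIdeal (MvPowerSeries (Fin d) 𝒪) ^ n ≤ Q :=
      (Ideal.pow_le_pow_right hn).trans hQ2
    obtain ⟨g, hgl, hg⟩ := hsm hA (Ideal.Quotient.factorₐ 𝒪 hle)
      (Ideal.Quotient.factor_surjective hle) g₀ hg₀l
    -- `h = g ∘ γ` is surjective
    have hmaxA : maximalIdeal (MvPowerSeries (Fin d) 𝒪 ⧸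
        maximalIdeal (MvPowerSeries (Fin d) 𝒪) ^ n) =
        (maximalIdeal (MvPowerSeries (Fin d) 𝒪)).map (Ideal.Quotient.mk _) := by
      apply le_antisymm
      · intro y hy
        obtain ⟨x, rfl⟩ := Ideal.Quotient.mk_surjective y
        exact Ideal.mem_map_of_mem _ fun hu => hy (hu.map _)
      · rw [Ideal.map_le_iff_le_comap]
        intro x hx hu
        have := IsLocalHom.of_surjective (Ideal.Quotient.mk
          (maximalIdeal (MvPowerSeries (Fin d) 𝒪) ^ n)) Ideal.Quotient.mk_surjective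
        exact hx (this.map_nonunit _ hu)
    have hpowA : maximalIdeal (MvPowerSeries (Fin d) 𝒪 ⧸
        maximalIdeal (MvPowerSeries (Fin d) 𝒪) ^ n) ^ n = ⊥ := by
      rw [hmaxA, ← Ideal.map_pow]
      exact Ideal.map_quotient_self _
    have hsurj : Function.Surjective (g.comp γ) := by
      intro a
      have h1 : a ∈ (g.comp γ).range := by
        refine mem_of_mod hA hpowA _ (fun a => ?_) a
        obtain ⟨x, rfl⟩ := Ideal.Quotient.mk_surjective a
        refine ⟨g (γ x), ⟨x, rfl⟩, ?_⟩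
        obtain ⟨y, hy⟩ := Ideal.Quotient.mk_surjective (g (γ x))
        rw [← hy, ← map_sub]
        have h2 : x - y ∈ Q := by
          rw [← Ideal.Quotient.eq, ← hg₀]
          have h3 : Ideal.Quotient.factorₐ 𝒪 hle (g (γ x)) = g₀ (γ x) :=
            congrArg (fun F => F (γ x)) hg
          rw [← h3, ← hy]
          rfl
        have h4 := Ideal.mem_map_of_mem (Ideal.Quotient.mk
          (maximalIdeal (MvPowerSeries (Fin d) 𝒪) ^ n)) h2
        rw [hQdef, Ideal.map_sup, Ideal.map_pow, Ideal.map_map, ← hmaxA] at h4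
        exact h4
      obtain ⟨x, hx⟩ := h1
      exact ⟨x, hx⟩
    -- it is an automorphism of the quotient
    have hkill : ∀ x ∈ maximalIdeal (MvPowerSeries (Fin d) 𝒪) ^ n, (g.comp γ) x = 0 := by
      intro x hx
      have h1 : (maximalIdeal (MvPowerSeries (Fin d) 𝒪)).map (g.comp γ).toRingHom ≤
          maximalIdeal _ := by
        rw [Ideal.map_le_iff_le_comap]
        intro y hy hu
        exact hy (hγl.map_nonunit _ (hgl.map_nonunit _ hu))
      have h2 := Ideal.mem_map_of_mem (g.comp γ).toRingHom hx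
      rw [Ideal.map_pow] at h2
      have h3 := Ideal.pow_right_mono h1 n h2
      rw [hpowA] at h3
      exact h3
    let hbar := Ideal.Quotient.liftₐ (maximalIdeal (MvPowerSeries (Fin d) 𝒪) ^ n) (g.comp γ) hkill
    have hbars : Function.Surjective hbar := fun a => by
      obtain ⟨x, hx⟩ := hsurj a
      exact ⟨Ideal.Quotient.mk _ x, hx⟩
    have hbari : Function.Injective hbar := Finite.injective_iff_surjective.2 hbars
    have h1 : hbar (Ideal.Quotient.mk _ f) = 0 := by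
      change g (γ f) = 0
      rw [hf, map_zero]
    exact Ideal.Quotient.eq_zero_iff_mem.1 (hbari (h1.trans (map_zero hbar).symm))
  have hinj : Function.Injective γ := by
    rw [injective_iff_map_eq_zero]
    intro f hf
    have h1 : f ∈ ⨅ n, maximalIdeal (MvPowerSeries (Fin d) 𝒪) ^ n := by
      rw [Submodule.mem_iInf]
      intro n
      exact Ideal.pow_le_pow_right (Nat.le_add_right n 2) (hkey (n + 2) (by omega) f hf)
    rw [Ideal.iInf_pow_eq_bot_of_isLocalRing _ (maximalIdeal.isMaximal _).ne_top] at h1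
    exact h1
  exact ⟨AlgEquiv.ofBijective γ ⟨hinj, hγ⟩⟩

end Fermat.Agent.Cor.DefCond

end
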