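import Fermat.Agent.CFT.EC.GW
import Fermat.Agent.CC.Desc11

/-!
# Tate's theorems modulo `p` over `ℚ`, for every `S`

Let `p` be an odd prime, `S` a finite set of primes with `p ∈ S`, and `M × M' → μ_p` a perfect pairing of finite
Galois modules killed by `p` and unramified outside `S`. The files `CC/*`, `CFT/*` prove the Greenberg–Wiles formula
(`CFT.EC.gw`), `#Ш²(M) = #Ш¹(M')` (`CC.ptCard`) and the exactness at `P²` (`CC.E2all'`). We deduce, for every such `S`: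

* `finite_H1`, `finite_H2`: `H¹(G_S, M)` and `H²(G_S, M)` are finite;
* `exact_P1`: exactness at `P¹`: the images of `H¹(G_S, M)` and `H¹(G_S, M')` are exact annihilators of each other;
* `global_euler`: **Tate's global Euler characteristic formula** `#H¹ · #M^c = #H⁰ · #H² · #M`;
* `local_euler`: the product of the local Euler characteristics `∏ #H¹(D_q, M) = #M · ∏ #H⁰(D_q, M) · ∏ #H²(D_q, M)`.

This file is not used by any of the statement files.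
-/

set_option autoImplicit false
set_option maxHeartbeats 400000

noncomputable section

namespace Fermat.Agent.Cor.PT

open Fermat.Agent.CC Fermat.Agent.CFT.EC
open Fermat.Agent.LF (DK)

section Abs

variable {p : ℕ} [Fact p.Prime] {G : Type} [Group G] {T : Type} [AddCommGroup T]
  [DistribMulAction G T] {𝒢 : GLD p G T} {M M' : Type} [AddCommGroup M] [AddCommGroup M']
  [DistribMulAction G M] [DistribMulAction G M'] {e : M →+ M' →+ T} (h : Pr p 𝒢.𝓛 e)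

theorem gSel_top : gSel 𝒢 M (fun _ => ⊤) = ⊤ := by
  refine (AddSubgroup.eq_top_iff' _).mpr fun x => ?_
  rw [mem_gSel]
  exact fun v => trivial

theorem gSel_bot : (gSel 𝒢 M (fun _ => ⊥) : AddSubgroup (H1 𝒢.𝓛 M)) = 𝒢.Sh1 M := by
  ext x
  rw [mem_gSel]
  constructor
  · intro hx
    exact funext fun v => AddSubgroup.mem_bot.mp (hx v)
  · intro hx v
    exact AddSubgroup.mem_bot.mpr (congrFun hx v)

theorem gDual_bot (v : 𝒢.V) : gDual 𝒢 h v ⊥ = ⊤ := by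
  refine (AddSubgroup.eq_top_iff' _).mpr fun y => ?_
  rw [mem_gDual]
  intro x hx
  rw [AddSubgroup.mem_bot.mp hx, map_zero]
  rfl

theorem gDual_top (v : 𝒢.V) : gDual 𝒢 h v ⊤ = ⊥ := by
  rw [eq_bot_iff]
  intro y hy
  rw [mem_gDual] at hy
  exact AddSubgroup.mem_bot.mpr ((𝒢.ld v M M' e h).b1 y fun x => hy x trivial)

/-- the formula for `L = ⊤` -/
theorem gwf_top {c : G} (hG : ∀ L, GWf 𝒢 c h L) :
    Finite (H1 𝒢.𝓛 M) ∧ Nat.card (H1 𝒢.𝓛 M) * cfix c M * Nat.card (H0 G M') * 𝒢.c0 M =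
      Nat.card (𝒢.Sh1 M') * 𝒢.c1 M * Nat.card (H0 G M) := by
  obtain ⟨g1, -, g3⟩ := hG fun _ => ⊤
  rw [show (gSel 𝒢 M' fun v => gDual 𝒢 h v ⊤) = 𝒢.Sh1 M' by
    rw [← gSel_bot]; congr 1; funext v; exact gDual_top h v] at g3
  rw [gSel_top] at g1 g3
  have e0 : (∏ v, Nat.card (H0 (𝒢.D v) M)) = 𝒢.c0 M := by rw [GLD.c0, Nat.card_pi]
  have e1 : (∏ v : 𝒢.V, Nat.card (⊤ : AddSubgroup (H1 (𝒢.L v) M))) = 𝒢.c1 M := by
    rw [GLD.c1, Nat.card_pi]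
    exact Finset.prod_congr rfl fun v _ => AddSubgroup.card_top
  rw [e0, e1, AddSubgroup.card_top] at g3
  exact ⟨Finite.of_equiv _ AddSubgroup.topEquiv.toEquiv, g3⟩

/-- the formula for `L = ⊥` -/
theorem gwf_bot {c : G} (hG : ∀ L, GWf 𝒢 c h L) :
    Finite (H1 𝒢.𝓛 M') ∧ Nat.card (𝒢.Sh1 M) * cfix c M * Nat.card (H0 G M') * 𝒢.c0 M =
      Nat.card (H1 𝒢.𝓛 M') * Nat.card (H0 G M) := by
  obtain ⟨-, g2, g3⟩ := hG fun _ => ⊥
  rw [show (gSel 𝒢 M' fun v => gDual 𝒢 h v ⊥) = ⊤ by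
    rw [← gSel_top]; congr 1; funext v; exact gDual_bot h v] at g2 g3
  rw [gSel_bot] at g3
  have e0 : (∏ v, Nat.card (H0 (𝒢.D v) M)) = 𝒢.c0 M := by rw [GLD.c0, Nat.card_pi]
  have e1 : (∏ v : 𝒢.V, Nat.card (⊥ : AddSubgroup (H1 (𝒢.L v) M))) = 1 :=
    Finset.prod_eq_one fun v _ => AddSubgroup.card_bot
  rw [e0, e1, AddSubgroup.card_top, mul_one] at g3
  exact ⟨Finite.of_equiv _ AddSubgroup.topEquiv.toEquiv, g3⟩

include h in
/-- **exactness at `P¹`** from the Greenberg–Wiles formula -/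
theorem e5_of_gwf {c : G} (hG : ∀ L, GWf 𝒢 c h L) : 𝒢.E5 h := by
  have := h.fA
  have := h.fB
  obtain ⟨f1, g1⟩ := gwf_top h hG
  obtain ⟨f2, g2⟩ := gwf_bot h hG
  rw [𝒢.E5_iff h]
  have k1 := card_ker_range (𝒢.l1 M)
  have k2 := card_ker_range (𝒢.l1 M')
  change Nat.card (H1 𝒢.𝓛 M) = Nat.card (𝒢.Sh1 M) * _ at k1
  change Nat.card (H1 𝒢.𝓛 M') = Nat.card (𝒢.Sh1 M') * _ at k2
  rw [k1] at g1
  rw [k2] at g2
  have p1 : 0 < Nat.card (𝒢.Sh1 M') * Nat.card (H0 G M) := Nat.mul_pos Nat.card_pos Nat.card_pos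
  refine Nat.eq_of_mul_eq_mul_left p1 ?_
  calc Nat.card (𝒢.Sh1 M') * Nat.card (H0 G M) *
        (Nat.card (𝒢.l1 M).range * Nat.card (𝒢.l1 M').range)
      = Nat.card (𝒢.l1 M).range *
        (Nat.card (𝒢.Sh1 M') * Nat.card (𝒢.l1 M').range * Nat.card (H0 G M)) := by ring
    _ = Nat.card (𝒢.Sh1 M) * Nat.card (𝒢.l1 M).range * cfix c M * Nat.card (H0 G M') * 𝒢.c0 M := by
        rw [← g2]; ring
    _ = _ := by rw [g1]; ring

variable {c : G} (hp2 : p ≠ 2) (hcc : c * c = 1) (cT : ∀ t : T, c • t = -t)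
  (hG : ∀ L, GWf 𝒢 c h L) (hG' : ∀ L, GWf 𝒢 c h.flip L)

include hp2 hcc cT hG hG' in
/-- the product of the local Euler characteristics -/
theorem local_of_gwf : 𝒢.c1 M = 𝒢.c0 M * 𝒢.c2 M * Nat.card M := by
  have := h.fA
  have := h.fB
  obtain ⟨f1, g1⟩ := gwf_top h hG
  obtain ⟨f2, g2⟩ := gwf_bot h.flip hG'
  have e3 := cfix_dual 𝒢.τ hp2 hcc cT h
  rw [𝒢.c0_eq h.flip] at g2
  have p1 : 0 < Nat.card (𝒢.Sh1 M') * Nat.card (H0 G M) := by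
    have : Finite (H1 𝒢.𝓛 M') := (gwf_top h.flip hG').1
    exact Nat.mul_pos Nat.card_pos Nat.card_pos
  refine Nat.eq_of_mul_eq_mul_left p1 ?_
  calc Nat.card (𝒢.Sh1 M') * Nat.card (H0 G M) * 𝒢.c1 M
      = Nat.card (H1 𝒢.𝓛 M) * cfix c M * Nat.card (H0 G M') * 𝒢.c0 M := by rw [g1]; ring
    _ = (Nat.card (H1 𝒢.𝓛 M) * Nat.card (H0 G M')) * cfix c M * 𝒢.c0 M := by ring
    _ = _ := by rw [← g2, ← e3]; ring

include hp2 hcc cT hG' in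
/-- the global Euler characteristic -/
theorem global_of_gwf (hs : Nat.card (𝒢.Sh2 M) = Nat.card (𝒢.Sh1 M')) (hE : 𝒢.E2 h) :
    Nat.card (H1 𝒢.𝓛 M) * cfix c M = Nat.card (H0 G M) * Nat.card (H2 𝒢.𝓛 M) * Nat.card M := by
  have := h.fA
  have := h.fB
  obtain ⟨f2, g2⟩ := gwf_bot h.flip hG'
  have e3 := cfix_dual 𝒢.τ hp2 hcc cT h
  have e2 := 𝒢.card_E2 h hE
  rw [𝒢.c0_eq h.flip] at g2
  rw [hs] at e2
  refine Nat.eq_of_mul_eq_mul_left (Nat.card_pos (α := H0 G M')) ?_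
  calc Nat.card (H0 G M') * (Nat.card (H1 𝒢.𝓛 M) * cfix c M)
      = (Nat.card (H1 𝒢.𝓛 M) * Nat.card (H0 G M')) * cfix c M := by ring
    _ = (Nat.card (𝒢.Sh1 M') * 𝒢.c2 M) * (cfix c M * cfix c M') * Nat.card (H0 G M) := by
        rw [← g2]; ring
    _ = _ := by rw [← e2, e3]; ring

include h in
theorem finite_H2_of (hs : Finite (𝒢.Sh2 M)) : Finite (H2 𝒢.𝓛 M) := by
  have := 𝒢.finP2A h
  refine Nat.finite_of_card_ne_zero ?_
  rw [card_ker_range (𝒢.l2 M)]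
  have : Finite (𝒢.l2 M).ker := hs
  exact (Nat.mul_pos Nat.card_pos Nat.card_pos).ne'

end Abs

section Main

variable {p : ℕ} [hp : Fact p.Prime] {S : Finset Nat.Primes} {M M' : Type} [AddCommGroup M]
  [AddCommGroup M'] [DistribMulAction GQ M] [DistribMulAction GQ M'] {e : M →+ M' →+ Mu p}

theorem cc_mul_cc : cc * cc = 1 := complexConjugation_mul_self

theorem exists_places (S : Finset Nat.Primes) : ∃ A : S → ValuationSubring Qb,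
    ∀ q : S, (A q).LiesOverPrime ((q : Nat.Primes) : ℕ) :=
  ⟨fun q => (H05.exists_liesOverPrime Qb q.1.2).choose,
    fun q => (H05.exists_liesOverPrime Qb q.1.2).choose_spec⟩

theorem gwf (𝒟 : Dat p S) (hp2 : p ≠ 2) (hpS : pP p ∈ S) (h : Pr p (𝒟.gld hp2 hpS).𝓛 e)
    (L : ∀ v, AddSubgroup (H1 ((𝒟.gld hp2 hpS).L v) M)) : GWf (𝒟.gld hp2 hpS) cc h L :=
  gw hp2 S hpS 𝒟.A 𝒟.hA M M' e h L

theorem sha (𝒟 : Dat p S) (hp2 : p ≠ 2) (hpS : pP p ∈ S) (h : Pr p (levS S) e) :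
    Finite ((𝒟.gld hp2 hpS).Sh2 M) ∧
      Nat.card ((𝒟.gld hp2 hpS).Sh2 M) = Nat.card ((𝒟.gld hp2 hpS).Sh1 M') := by
  obtain ⟨h1, -, h3⟩ := ptCard hp2 S hpS 𝒟.A 𝒟.hA M M' e h
  have e2 : ((𝒟.gld hp2 hpS).Sh2 M : AddSubgroup (H2 (levS S) M)) = Sh2S S 𝒟.A M :=
    sh2_eq 𝒟 hp2 hpS
  have e1 : ((𝒟.gld hp2 hpS).Sh1 M' : AddSubgroup (H1 (levS S) M')) = Sh1S S 𝒟.A M' :=
    sh1_eq 𝒟 hp2 hpS
  rw [e1, e2]
  exact ⟨h1, h3⟩

variable (hp2 : p ≠ 2) (hpS : pP p ∈ S) (A : S → ValuationSubring Qb)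
  (hA : ∀ q : S, (A q).LiesOverPrime ((q : Nat.Primes) : ℕ)) (h : Pr p (levS S) e)

/-- **exactness at `P¹`**: a family `(y_q)` of local classes which is orthogonal to `H¹(G_S, M')` for the sum of the
local pairings (normalised invariants) comes from `H¹(G_S, M)`. -/
theorem exact_P1 (𝒟 : Dat p S) (h : Pr p (𝒟.gld hp2 hpS).𝓛 e) : (𝒟.gld hp2 hpS).E5 h :=
  e5_of_gwf (𝒢 := 𝒟.gld hp2 hpS) h (gwf 𝒟 hp2 hpS h)

/-- **exactness at `P²`** -/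
theorem exact_P2 (𝒟 : Dat p S) (h : Pr p (𝒟.gld hp2 hpS).𝓛 e) : (𝒟.gld hp2 hpS).E2 h :=
  E2all' 𝒟 hp2 hpS h

theorem finite_H1_aux (𝒟 : Dat p S) (h : Pr p (𝒟.gld hp2 hpS).𝓛 e) :
    Finite (H1 (𝒟.gld hp2 hpS).𝓛 M) := (gwf_top h (gwf 𝒟 hp2 hpS h)).1

theorem finite_H2_aux (𝒟 : Dat p S) (h : Pr p (𝒟.gld hp2 hpS).𝓛 e) :
    Finite (H2 (𝒟.gld hp2 hpS).𝓛 M) := finite_H2_of h (sha 𝒟 hp2 hpS h).1

theorem global_aux (𝒟 : Dat p S) (h : Pr p (𝒟.gld hp2 hpS).𝓛 e) :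
    Nat.card (H1 (𝒟.gld hp2 hpS).𝓛 M) * cfix cc M =
      Nat.card (H0 GQ M) * Nat.card (H2 (𝒟.gld hp2 hpS).𝓛 M) * Nat.card M :=
  global_of_gwf h hp2 cc_mul_cc cc_mu (gwf 𝒟 hp2 hpS h.flip) (sha 𝒟 hp2 hpS h).2
    (exact_P2 hp2 hpS 𝒟 h)

theorem local_aux (𝒟 : Dat p S) (h : Pr p (𝒟.gld hp2 hpS).𝓛 e) :
    (𝒟.gld hp2 hpS).c1 M = (𝒟.gld hp2 hpS).c0 M * (𝒟.gld hp2 hpS).c2 M * Nat.card M :=
  local_of_gwf h hp2 cc_mul_cc cc_mu (gwf 𝒟 hp2 hpS h) (gwf 𝒟 hp2 hpS h.flip)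

include hp2 hpS h in
/-- `H¹(G_S, M)` is finite -/
theorem finite_H1 : Finite (H1 (levS S) M) := by
  obtain ⟨A, hA⟩ := exists_places S
  obtain ⟨𝒟, rfl⟩ := exists_dat hp2 S A hA
  exact finite_H1_aux hp2 hpS 𝒟 h

include hp2 hpS h in
/-- `H²(G_S, M)` is finite -/
theorem finite_H2 : Finite (H2 (levS S) M) := by
  obtain ⟨A, hA⟩ := exists_places S
  obtain ⟨𝒟, rfl⟩ := exists_dat hp2 S A hA
  exact finite_H2_aux hp2 hpS 𝒟 h

include hp2 hpS h in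
/-- **Tate's global Euler characteristic formula** (`p` odd, `pM = 0`, every finite `S ∋ p`):
`#H¹(G_S, M) · #M^c = #H⁰(G_S, M) · #H²(G_S, M) · #M`. -/
theorem global_euler : Nat.card (H1 (levS S) M) * cfix cc M =
    Nat.card (H0 GQ M) * Nat.card (H2 (levS S) M) * Nat.card M := by
  obtain ⟨A, hA⟩ := exists_places S
  obtain ⟨𝒟, rfl⟩ := exists_dat hp2 S A hA
  exact global_aux hp2 hpS 𝒟 h

include hp2 hpS hA h in
/-- **the product of the local Euler characteristics** -/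
theorem local_euler : ∏ q : S, Nat.card (H1 (lev.sub (DK (A q) ⊥)) M) =
    (∏ q : S, Nat.card (H0 (DK (A q) ⊥) M)) *
      (∏ q : S, Nat.card (H2 (lev.sub (DK (A q) ⊥)) M)) * Nat.card M := by
  obtain ⟨𝒟, rfl⟩ := exists_dat hp2 S A hA
  have h1 := local_aux hp2 hpS 𝒟 h
  rw [GLD.c0, GLD.c1, GLD.c2, Nat.card_pi, Nat.card_pi, Nat.card_pi] at h1
  exact h1

end Main

end Fermat.Agent.Cor.PT
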