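import Fermat.Agent.Cor.DefCondI
import Fermat.Agent.Cor.DefCondJ
import Fermat.Agent.Cor.PoitouTate

/-!
# The tangent space of the universal deformation ring; the unobstructed case

`p` odd, `ρbar : Gal(ℚ̄/ℚ) → GL₂(k)` absolutely irreducible, unramified outside the finite set
`S ∋ p`, and `R` its universal deformation ring (deformations unramified outside `S`).

* `card_hom_eq`: `Hom(R, k[ε]) ≃ H¹(G_S, ad ρbar)`.
* `card_H1_ad`: if `ρbar` is odd, `#H¹(G_S, ad ρbar) = (#k)³ · #H²(G_S, ad ρbar)`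
  (Tate's global Euler characteristic).
* `mazur_unobstructed`: if `ρbar` is odd and `H²(G_S, ad ρbar) = 0`, then `R ≅ 𝒪⟦X₁, X₂, X₃⟧`.
-/

set_option autoImplicit false
set_option linter.unusedSectionVars false

noncomputable section

namespace Fermat.Agent.Cor.DefCond

open IsLocalRing GaloisRep Matrix Fermat.Agent.CC Fermat.Agent.TW
open Fermat.Agent.H04 (DN M2 Dat IsCont IsNRep ofMat Compat mapM PreTest)
open Fermat.Agent.L00.Tr (MT)
open Fermat.Agent.CFT.EC (cc cfix)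

section schur

variable {k : Type} [Field k]

/-- Schur's lemma -/
theorem scalar_of_commute (ρbar : ResidualGaloisRep k) (habs : ρbar.IsAbsolutelyIrreducible)
    (b : Module.Basis (Fin 2) k ρbar.V) {X : Mt k}
    (hX : ∀ σ, X * rbM ρbar b σ = rbM ρbar b σ * X) : X = X 0 0 • (1 : Mt k) := by
  have h1 : ∀ Y : Mt k, X * Y = Y * X := by
    intro Y
    have h2 : Y ∈ Submodule.span k (Set.range fun σ => LinearMap.toMatrix b b (ρbar.ρ σ)) := by
      rw [Fermat.Agent.H04.span_toMatrix_eq_top ρbar habs b]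
      trivial
    refine Submodule.span_induction (p := fun Y _ => X * Y = Y * X) ?_ ?_ ?_ ?_ h2
    · rintro _ ⟨σ, rfl⟩
      exact hX σ
    · rw [mul_zero, zero_mul]
    · intro Y Z _ _ hY hZ
      rw [mul_add, add_mul, hY, hZ]
    · intro a Y _ hY
      rw [mul_smul_comm, smul_mul_assoc, hY]
  have e1 := h1 !![0, 1; 0, 0]
  have e2 := h1 !![0, 0; 1, 0]
  have a1 := congrFun (congrFun e1 0) 1
  have a2 := congrFun (congrFun e1 0) 0
  have a3 := congrFun (congrFun e2 0) 0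
  simp [Matrix.mul_apply, Fin.sum_univ_two] at a1 a2 a3
  ext i j
  fin_cases i <;> fin_cases j
  · simp
  · simp [a3]
  · simp [← a2]
  · simp [← a1]

end schur

section tangent

variable {𝒪 : Type} [CommRing 𝒪] [IsLocalRing 𝒪] {p : ℕ} [Algebra (ZMod p) (ResidueField 𝒪)]

/-- Equivalent lifts to the dual numbers have the same class. -/
theorem clsF_eq_of_isEquiv {ρbar : ResidualGaloisRep (ResidueField 𝒪)}
    (habs : ρbar.IsAbsolutelyIrreducible) (b : Module.Basis (Fin 2) (ResidueField 𝒪) ρbar.V)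
    {s s' : GQ →* M2 (DN 𝒪)} {S' : Finset Nat.Primes}
    (hs : ∀ σ, FM (s σ) = rbM ρbar b σ) (hU : (levS S').isOpen s.ker)
    (hs' : ∀ σ, FM (s' σ) = rbM ρbar b σ) (hU' : (levS S').isOpen s'.ker)
    (h : (ofMat s (cont_of_level hU)).IsEquiv (ofMat s' (cont_of_level hU'))) :
    H1.mk _ _ (clsF p S' hs hU) = H1.mk _ _ (clsF p S' hs' hU') := by
  obtain ⟨P, hP, hPs⟩ := Fermat.Agent.H04.exists_matrix_of_isEquiv h
  have h1 : ∀ σ, FM P * rbM ρbar b σ = rbM ρbar b σ * FM P := by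
    intro σ
    have := congrArg FM (hPs σ)
    rwa [FM_mul, FM_mul, hs, hs'] at this
  have h2 := scalar_of_commute ρbar habs b h1
  obtain ⟨c, hc⟩ : ∃ c, c = FM P 0 0 := ⟨_, rfl⟩
  rw [← hc] at h2
  have hc0 : c ≠ 0 := by
    rintro rfl
    rw [Matrix.isUnit_iff_isUnit_det, isUnit_iff_fs] at hP
    apply hP
    have : fs P.det = (FM P).det := by
      rw [FM, ← RingHom.mapMatrix_apply, ← RingHom.map_det]
    rw [this, h2, zero_smul, Matrix.det_zero]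
  rw [H1.mk_eq_mk]
  refine ⟨toMT p (rbM ρbar b) (c⁻¹ • SM P), fun σ => ?_⟩
  apply ofMT_inj
  rw [ofMT_add, ofMT_sub, ofMT_smul, clsF_val, clsF_val, ofMT_toMT]
  have h3 := congrArg SM (hPs σ)
  rw [SM_mul, SM_mul, h2, hs, hs', ← xi_mul_rb (rb := rbM ρbar b) (s := s),
    ← xi_mul_rb (rb := rbM ρbar b) (s := s')] at h3
  have h4 := congrArg (fun X => c⁻¹ • (X * rbM ρbar b σ⁻¹)) h3
  beta_reduce at h4
  simp only [smul_mul_assoc, one_mul, mul_smul_comm, mul_one, add_mul, smul_add, mul_assoc,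
    r_mul_inv, smul_smul, inv_mul_cancel₀ hc0, one_smul] at h4
  rw [smul_mul_assoc, mul_smul_comm]
  have h5 : xi (rbM ρbar b) s σ = (c⁻¹ • (rbM ρbar b σ * (SM P * rbM ρbar b σ⁻¹)) +
      xi (rbM ρbar b) s' σ) - c⁻¹ • SM P := by
    rw [← h4]
    abel
  rw [h5]
  abel

/-- the lift attached to a cocycle -/
def liftOf {rb : GQ →* Mt (ResidueField 𝒪)} (z : GQ → MT (adRep p rb))
    (hz : ∀ g h, z (g * h) = z g + g • z h) : GQ →* M2 (DN 𝒪) where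
  toFun σ := Matrix.of fun i j => DN.mk 𝒪 (rb σ i j) ((ofMT (z σ) * rb σ) i j)
  map_one' := by
    have h0 : z 1 = 0 := by
      have := hz 1 1
      rw [mul_one, one_smul] at this
      exact left_eq_add.1 this
    refine mat_ext ?_ ?_
    · rw [FM_one]
      ext i j
      change rb 1 i j = _
      rw [map_one]
    · rw [SM_one]
      ext i j
      change (ofMT (z 1) * rb 1) i j = 0
      rw [h0]
      change ((0 : Mt (ResidueField 𝒪)) * rb 1) i j = 0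
      rw [zero_mul]
      rfl
  map_mul' g h := by
    have f1 : ∀ σ, FM (Matrix.of fun i j => DN.mk 𝒪 (rb σ i j) ((ofMT (z σ) * rb σ) i j)) =
      rb σ := fun σ => by ext i j; rfl
    have f2 : ∀ σ, SM (Matrix.of fun i j => DN.mk 𝒪 (rb σ i j) ((ofMT (z σ) * rb σ) i j)) =
      ofMT (z σ) * rb σ := fun σ => by ext i j; rfl
    refine mat_ext ?_ ?_
    · rw [FM_mul, f1, f1, f1, map_mul]
    · rw [SM_mul, f1, f1, f2, f2, f2, hz, ofMT_add, ofMT_smul, map_mul, add_mul]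
      have h1 : rb g * (ofMT (z h) * rb g⁻¹) * (rb g * rb h) = rb g * (ofMT (z h) * rb h) := by
        rw [mul_assoc, mul_assoc, ← mul_assoc (rb g⁻¹), r_inv_mul, one_mul]
      rw [h1, add_comm, mul_assoc]

theorem FM_liftOf {rb : GQ →* Mt (ResidueField 𝒪)} (z : GQ → MT (adRep p rb))
    (hz : ∀ g h, z (g * h) = z g + g • z h) (σ : GQ) : FM (liftOf z hz σ) = rb σ := by
  ext i j
  rfl

theorem SM_liftOf {rb : GQ →* Mt (ResidueField 𝒪)} (z : GQ → MT (adRep p rb))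
    (hz : ∀ g h, z (g * h) = z g + g • z h) (σ : GQ) :
    SM (liftOf z hz σ) = ofMT (z σ) * rb σ := by
  ext i j
  rfl

theorem isOpen_liftOf {rb : GQ →* Mt (ResidueField 𝒪)} {S' : Finset Nat.Primes}
    (hrb : (levS S').isOpen rb.ker) (z : Z1 (levS S') (MT (adRep p rb))) :
    (levS S').isOpen (liftOf z.1 z.2.2).ker := by
  obtain ⟨U, hU, h⟩ := z.2.1
  refine (levS S').mono _ _ ((levS S').inf _ _ hU hrb) fun t ht => ?_
  have h1 : rb t = 1 := ht.2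
  have h0 : z.1 1 = 0 := by
    have := z.2.2 1 1
    rw [mul_one, one_smul] at this
    exact left_eq_add.1 this
  have h2 := h 1 t ht.1
  rw [one_mul, h0] at h2
  change liftOf z.1 z.2.2 t = 1
  refine mat_ext ?_ ?_
  · rw [FM_liftOf, FM_one, h1]
  · rw [SM_liftOf, SM_one, h2]
    change (0 : Mt (ResidueField 𝒪)) * rb t = 0
    rw [zero_mul]

theorem clsF_liftOf {rb : GQ →* Mt (ResidueField 𝒪)} {S' : Finset Nat.Primes}
    (hrb : (levS S').isOpen rb.ker) (z : Z1 (levS S') (MT (adRep p rb))) :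
    clsF p S' (FM_liftOf z.1 z.2.2) (isOpen_liftOf hrb z) = z := by
  apply Subtype.ext
  funext σ
  apply ofMT_inj
  rw [clsF_val, xi, SM_liftOf, mul_assoc, r_mul_inv, mul_one]

end tangent

section main

variable {𝒪 : Type} [CommRing 𝒪] [IsDomain 𝒪] [IsDiscreteValuationRing 𝒪]
  [IsAdicComplete (maximalIdeal 𝒪) 𝒪] [Finite (ResidueField 𝒪)]
  {ρbar : ResidualGaloisRep (ResidueField 𝒪)}

/-- **The tangent space is `H¹(G_S, ad ρbar)`.** -/
theorem card_hom_eq {S : Finset ℕ} {S' : Finset Nat.Primes}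
    (hS' : ∀ q : Nat.Primes, q ∈ S' ↔ (q : ℕ) ∈ S)
    (DQ : DeformationRingData 𝒪 ρbar (UnrT 𝒪 S))
    (hunr : ∀ q : ℕ, q.Prime → q ∉ S → ρbar.IsUnramifiedAt q)
    {b : Module.Basis (Fin 2) (ResidueField 𝒪) ρbar.V} {D : Dat 𝒪} (hD : Compat D ρbar b)
    {p : ℕ} [Algebra (ZMod p) (ResidueField 𝒪)] :
    ∃ F : {f : DQ.R →ₐ[𝒪] DN 𝒪 // IsLocalHom (f : DQ.R →+* DN 𝒪)} →
      H1 (levS S') (MT (adRep p (rbM ρbar b))), Function.Bijective F := by
  have hfin : Finite (DN 𝒪) := inferInstance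
  have hrb' : ∀ σ i j, residue 𝒪 (D.cf σ i j) = rbM ρbar b σ i j := fun σ i j => by
    rw [hD σ i j, rbM_apply]
  have hrbo : (levS S').isOpen (rbM ρbar b).ker :=
    isOpen_rbM ρbar b fun q hq => hunr q q.2 fun h => hq ((hS' q).2 h)
  have hDN : PreTest 𝒪 (DN 𝒪) := (Fermat.Agent.H04.test_DN (𝒪 := 𝒪)).preTest
  have hlD : IsLocalHom (algebraMap 𝒪 (DN 𝒪)) := hDN.isLocalHom
  obtain ⟨r0, hr0, hred0, heq0⟩ := Fermat.Agent.H04.exists_mat hD
    (IsLocalRing.ResidueField.map (algebraMap 𝒪 DQ.R)) (fun c => rfl) DQ.ρ DQ.residual_isEquiv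
  obtain ⟨r, hr, heq⟩ := Fermat.Agent.H04.exists_isNRep (D := D) DQ.instIsLocalHom r0 hr0 hred0
  have hrρ : (ofMat r hr.cont).IsEquiv DQ.ρ := by
    obtain ⟨e1⟩ := heq
    obtain ⟨e0⟩ := heq0
    exact ⟨e1.trans e0.symm⟩
  have hbase : ∀ (φ : DQ.R →ₐ[𝒪] DN 𝒪) (hφ : IsLocalHom (φ : DQ.R →+* DN 𝒪)),
      (DQ.ρ.baseChangeAlong (φ : DQ.R →+* DN 𝒪) hφ).IsEquiv
        (ofMat (mapM (φ : DQ.R →+* DN 𝒪) r) (hr.cont.map _ hφ)) := by
    intro φ hφ
    obtain ⟨e1⟩ := Fermat.Agent.H04.ofMat_baseChange r hr.cont (φ : DQ.R →+* DN 𝒪) hφ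
    obtain ⟨e2⟩ := hrρ
    exact ⟨(e2.symm.baseChangeAlong _ hφ).trans e1⟩
  have hunrφ : ∀ (φ : DQ.R →ₐ[𝒪] DN 𝒪) (hφ : IsLocalHom (φ : DQ.R →+* DN 𝒪)),
      UnrT 𝒪 S (ofMat (mapM (φ : DQ.R →+* DN 𝒪) r) (hr.cont.map _ hφ)) :=
    fun φ hφ q hq hqS => H19.isUnramifiedAt_of_isEquiv (hbase φ hφ)
      (H19.isUnramifiedAt_baseChangeAlong _ hφ (DQ.isOfType q hq hqS))
  have hlev : ∀ (φ : DQ.R →ₐ[𝒪] DN 𝒪) (hφ : IsLocalHom (φ : DQ.R →+* DN 𝒪)),
      (levS S').isOpen (mapM (φ : DQ.R →+* DN 𝒪) r).ker := fun φ hφ =>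
    level_of_unr_fin (hr.cont.map _ hφ) (hunrφ φ hφ) fun q hq h => hq ((hS' q).2 h)
  have hFM : ∀ (φ : DQ.R →ₐ[𝒪] DN 𝒪) (hφ : IsLocalHom (φ : DQ.R →+* DN 𝒪)) σ,
      FM (mapM (φ : DQ.R →+* DN 𝒪) r σ) = rbM ρbar b σ := fun φ hφ σ =>
    FM_of_red hrb' (hr.map φ hφ).red σ
  refine ⟨fun φ => H1.mk _ _ (clsF p S' (hFM φ.1 φ.2) (hlev φ.1 φ.2)), ?_, ?_⟩
  · intro φ ψ hφψ
    obtain ⟨P, hP, hPs⟩ := exists_conj_of_clsF hφψ
    have h1 : mapM (φ.1 : DQ.R →+* DN 𝒪) r = mapM (ψ.1 : DQ.R →+* DN 𝒪) r :=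
      Fermat.Agent.H04.IsNRep.eq_of_isEquiv hlD (hr.map φ.1 φ.2) (hr.map ψ.1 ψ.2)
        (Fermat.Agent.H04.isEquiv_of_matrix _ _ P hP hPs)
    have hres := Fermat.Agent.H04.residual_ofMat hD
      (IsLocalRing.ResidueField.map (algebraMap 𝒪 (DN 𝒪))) (fun c => rfl)
      (mapM (φ.1 : DQ.R →+* DN 𝒪) r) (hr.map φ.1 φ.2).cont (hr.map φ.1 φ.2).red
    obtain ⟨χ, -, hχ⟩ := DQ.universal (DN 𝒪)
      (Fermat.Agent.H04.test_DN (𝒪 := 𝒪)).residue_surjective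
      (ofMat (mapM (φ.1 : DQ.R →+* DN 𝒪) r) (hr.map φ.1 φ.2).cont) (hunrφ φ.1 φ.2) hres
    have e1 := hχ φ.1 ⟨φ.2, hbase φ.1 φ.2⟩
    have e2 := hχ ψ.1 ⟨ψ.2, by
      have h2 := hbase ψ.1 ψ.2
      have h3 : ofMat (mapM (ψ.1 : DQ.R →+* DN 𝒪) r) (hr.cont.map _ ψ.2) =
        ofMat (mapM (φ.1 : DQ.R →+* DN 𝒪) r) (hr.map φ.1 φ.2).cont := by
        congr 1
        exact h1.symm
      rw [h3] at h2
      exact h2⟩
    exact Subtype.ext (e1.trans e2.symm)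
  · intro x
    obtain ⟨z, rfl⟩ := H1.mk_surjective x
    have hU := isOpen_liftOf hrbo z
    have hred : ∀ σ i j, liftOf z.1 z.2.2 σ i j - algebraMap 𝒪 (DN 𝒪) (D.cf σ i j) ∈
        maximalIdeal (DN 𝒪) := by
      intro σ i j
      rw [mem_maximalIdeal_iff_fs, map_sub, fs_algebraMap, hrb', sub_eq_zero]
      exact congrFun (congrFun (FM_liftOf z.1 z.2.2 σ) i) j
    obtain ⟨φ, ⟨hφ, heq'⟩, -⟩ := DQ.universal (DN 𝒪)
      (Fermat.Agent.H04.test_DN (𝒪 := 𝒪)).residue_surjective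
      (ofMat (liftOf z.1 z.2.2) (cont_of_level hU))
      (fun q hq hqS => unr_of_level hU (fun q hq h => hq ((hS' q).1 h)) q hq hqS)
      (Fermat.Agent.H04.residual_ofMat hD
        (IsLocalRing.ResidueField.map (algebraMap 𝒪 (DN 𝒪))) (fun c => rfl) _
        (cont_of_level hU) hred)
    refine ⟨⟨φ, hφ⟩, ?_⟩
    have h1 : (ofMat (mapM (φ : DQ.R →+* DN 𝒪) r) (cont_of_level (hlev φ hφ))).IsEquiv
        (ofMat (liftOf z.1 z.2.2) (cont_of_level hU)) := by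
      obtain ⟨a⟩ := hbase φ hφ
      obtain ⟨c⟩ := heq'
      exact ⟨a.symm.trans c⟩
    have h2 := clsF_eq_of_isEquiv (p := p) DQ.absIrr b (hFM φ hφ) (hlev φ hφ)
      (FM_liftOf z.1 z.2.2) hU h1
    rw [clsF_liftOf hrbo z] at h2
    exact h2

end main

end Fermat.Agent.Cor.DefCond

end
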