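import Fermat.Agent.Cor.DefCondK

/-!
# Mazur's theorem in the unobstructed case: `R ≅ 𝒪⟦X₁, X₂, X₃⟧`
-/

set_option autoImplicit false
set_option linter.unusedSectionVars false

noncomputable section

namespace Fermat.Agent.Cor.DefCond

open IsLocalRing GaloisRep Matrix Fermat.Agent.CC Fermat.Agent.TW
open Fermat.Agent.H04 (DN M2 Dat IsCont IsNRep ofMat Compat mapM PreTest)
open Fermat.Agent.L00.Tr (MT)
open Fermat.Agent.CFT.EC (cc cfix)

section ad

variable {k : Type} [Field k]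

/-- the matrix of an element of the adjoint module -/
def unM {p : ℕ} [Algebra (ZMod p) k] {r : GQ →* Mt k} (x : MT (adRep p r)) : Mt k := x

/-- a matrix as an element of the adjoint module -/
def inM (p : ℕ) [Algebra (ZMod p) k] (r : GQ →* Mt k) (X : Mt k) : MT (adRep p r) := X

/-- `H⁰(G_ℚ, ad ρbar)` is the space of scalar matrices -/
theorem card_H0_ad [Finite k] (ρbar : ResidualGaloisRep k) (habs : ρbar.IsAbsolutelyIrreducible)
    (b : Module.Basis (Fin 2) k ρbar.V) (p : ℕ) [Algebra (ZMod p) k] :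
    Nat.card (H0 GQ (MT (adRep p (rbM ρbar b)))) = Nat.card k := by
  have hsc : ∀ a : k, ∀ g : GQ, rbM ρbar b g * (a • (1 : Mt k) * rbM ρbar b g⁻¹) =
      a • (1 : Mt k) := by
    intro a g
    rw [smul_mul_assoc, one_mul, mul_smul_comm, r_mul_inv]
  refine Nat.card_congr (Equiv.ofBijective (fun a : k =>
    (⟨inM p (rbM ρbar b) (a • (1 : Mt k)), fun g => hsc a g⟩ :
      H0 GQ (MT (adRep p (rbM ρbar b))))) ⟨?_, ?_⟩).symm
  · intro a a' h
    have h0 : inM p (rbM ρbar b) (a • (1 : Mt k)) = inM p (rbM ρbar b) (a' • (1 : Mt k)) :=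
      congrArg Subtype.val h
    have h1 : a • (1 : Mt k) = a' • (1 : Mt k) := h0
    have h2 := congrFun (congrFun h1 0) 0
    simpa using h2
  · rintro ⟨X, hX⟩
    have h1 : ∀ σ, unM X * rbM ρbar b σ = rbM ρbar b σ * unM X := by
      intro σ
      have h2 : rbM ρbar b σ * (unM X * rbM ρbar b σ⁻¹) = unM X := congrArg unM (hX σ)
      have h3 := congrArg (fun Y : Mt k => Y * rbM ρbar b σ) h2
      beta_reduce at h3
      rw [mul_assoc, mul_assoc, r_inv_mul, mul_one] at h3
      exact h3.symm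
    have h2 := scalar_of_commute ρbar habs b h1
    exact ⟨unM X 0 0, Subtype.ext h2.symm⟩

/-- complex conjugation is not trivial -/
theorem cc_ne_one : (cc : GQ) ≠ 1 := by
  intro h
  obtain ⟨x, hx⟩ := IsAlgClosed.exists_pow_nat_eq (-1 : AlgebraicClosure ℚ) (n := 2) (by norm_num)
  have h1 := complexEmbedding_complexConjugation x
  have h2 : complexConjugation x = x := by
    have : (cc : GQ) x = (1 : GQ) x := by rw [h]
    exact this
  rw [h2] at h1
  obtain ⟨y, hy⟩ := Complex.conj_eq_iff_real.1 h1.symm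
  have h3 := congrArg complexEmbedding hx
  rw [map_pow, map_neg, map_one, hy] at h3
  have h4 : y ^ 2 = -1 := by exact_mod_cast h3
  nlinarith [sq_nonneg y]

/-- the centraliser of an involution of determinant `-1` in `M₂(k)` has `(#k)²` elements -/
theorem card_centralizer [Finite k] (h2 : (2 : k) ≠ 0) {C : Mt k} (hC : C * C = 1)
    (hdet : C.det = -1) : Nat.card {X : Mt k // C * (X * C) = X} = Nat.card k ^ 2 := by
  have htr : C 0 0 + C 1 1 = 0 := by
    have e0 : C ≠ 0 := by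
      rintro rfl
      rw [zero_mul] at hC
      have := congrFun (congrFun hC 0) 0
      simp at this
    have e00 := congrFun (congrFun hC 0) 0
    have e01 := congrFun (congrFun hC 0) 1
    have e10 := congrFun (congrFun hC 1) 0
    have e11 := congrFun (congrFun hC 1) 1
    rw [Matrix.det_fin_two] at hdet
    simp [Matrix.mul_apply, Fin.sum_univ_two] at e00 e01 e10 e11
    by_contra hne
    apply e0
    have f01 : C 0 1 = 0 := by
      have : (C 0 0 + C 1 1) * C 0 1 = 0 := by linear_combination e01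
      exact (mul_eq_zero.1 this).resolve_left hne
    have f10 : C 1 0 = 0 := by
      have : (C 0 0 + C 1 1) * C 1 0 = 0 := by linear_combination e10
      exact (mul_eq_zero.1 this).resolve_left hne
    have f00 : C 0 0 = 0 := by
      have : (C 0 0 + C 1 1) * C 0 0 = 0 := by linear_combination e00 + hdet
      exact (mul_eq_zero.1 this).resolve_left hne
    have f11 : C 1 1 = 0 := by
      have : (C 0 0 + C 1 1) * C 1 1 = 0 := by linear_combination e11 + hdet
      exact (mul_eq_zero.1 this).resolve_left hne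
    ext i j
    fin_cases i <;> fin_cases j
    · exact f00
    · exact f01
    · exact f10
    · exact f11
  have h11 : C 1 1 = -C 0 0 := by linear_combination htr
  have hq : C 0 0 * C 0 0 + C 0 1 * C 1 0 = 1 := by
    rw [Matrix.det_fin_two, h11] at hdet
    linear_combination -hdet
  have hmem : ∀ s t : k, C * ((s • (1 : Mt k) + t • C) * C) = s • (1 : Mt k) + t • C := by
    intro s t
    rw [add_mul, smul_mul_assoc, smul_mul_assoc, one_mul, hC, mul_add, mul_smul_comm,
      mul_smul_comm, hC, mul_one]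
  have hbij : Function.Bijective (fun st : k × k =>
      (⟨st.1 • (1 : Mt k) + st.2 • C, hmem _ _⟩ : {X : Mt k // C * (X * C) = X})) := by
    constructor
    · rintro ⟨s, t⟩ ⟨s', t'⟩ h
      have h1 : s • (1 : Mt k) + t • C = s' • (1 : Mt k) + t' • C := congrArg Subtype.val h
      have e00 := congrFun (congrFun h1 0) 0
      have e01 := congrFun (congrFun h1 0) 1
      have e10 := congrFun (congrFun h1 1) 0
      have e11 := congrFun (congrFun h1 1) 1
      simp [h11] at e00 e11 e01 e10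
      have hs : s = s' := by
        have : 2 * (s - s') = 0 := by linear_combination e00 + e11
        exact sub_eq_zero.1 ((mul_eq_zero.1 this).resolve_left h2)
      subst hs
      have f00 : (t - t') * C 0 0 = 0 := by linear_combination e00
      have f01 : (t - t') * C 0 1 = 0 := by
        rcases e01 with e | e
        · rw [e, sub_self, zero_mul]
        · rw [e, mul_zero]
      have ht : t = t' := by
        rw [← sub_eq_zero]
        calc t - t' = (t - t') * (C 0 0 * C 0 0 + C 0 1 * C 1 0) := by rw [hq, mul_one]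
          _ = ((t - t') * C 0 0) * C 0 0 + ((t - t') * C 0 1) * C 1 0 := by ring
          _ = 0 := by rw [f00, f01, zero_mul, zero_mul, add_zero]
      rw [ht]
    · rintro ⟨X, hX⟩
      have hXC : X * C = C * X := by
        have h3 := congrArg (fun Y => C * Y) hX
        beta_reduce at h3
        rw [← mul_assoc, hC, one_mul] at h3
        exact h3
      have e00 := congrFun (congrFun hXC 0) 0
      have e01 := congrFun (congrFun hXC 0) 1
      have e10 := congrFun (congrFun hXC 1) 0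
      simp [Matrix.mul_apply, Fin.sum_univ_two, h11] at e00 e01 e10
      obtain ⟨t, ht⟩ : ∃ t, 2 * t = C 0 0 * (X 0 0 - X 1 1) + 2 * (C 0 1 * X 1 0) :=
        ⟨2⁻¹ * (C 0 0 * (X 0 0 - X 1 1) + 2 * (C 0 1 * X 1 0)), by
          rw [← mul_assoc, mul_inv_cancel₀ h2, one_mul]⟩
      obtain ⟨s, hs⟩ : ∃ s, 2 * s = X 0 0 + X 1 1 :=
        ⟨2⁻¹ * (X 0 0 + X 1 1), by rw [← mul_assoc, mul_inv_cancel₀ h2, one_mul]⟩
      refine ⟨(s, t), Subtype.ext ?_⟩
      change s • (1 : Mt k) + t • C = X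
      have a1 : C 0 1 * (X 0 0 - X 1 1) = 2 * (C 0 0 * X 0 1) := by linear_combination e01
      have a2 : C 1 0 * (X 0 0 - X 1 1) = 2 * (C 0 0 * X 1 0) := by linear_combination -e10
      have a3 : C 0 1 * X 1 0 = C 1 0 * X 0 1 := by linear_combination -e00
      have g01 : t * C 0 1 = X 0 1 := by
        have : 2 * (t * C 0 1 - X 0 1) = 0 := by
          linear_combination (C 0 1) * ht + (C 0 0) * a1 + 2 * (C 0 1) * a3 +
            2 * (X 0 1) * hq
        exact sub_eq_zero.1 ((mul_eq_zero.1 this).resolve_left h2)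
      have g10 : t * C 1 0 = X 1 0 := by
        have : 2 * (t * C 1 0 - X 1 0) = 0 := by
          linear_combination (C 1 0) * ht + (C 0 0) * a2 + 2 * (X 1 0) * hq
        exact sub_eq_zero.1 ((mul_eq_zero.1 this).resolve_left h2)
      have g00 : 2 * (t * C 0 0) = X 0 0 - X 1 1 := by
        linear_combination (C 0 0) * ht - (C 0 1) * a2 + (X 0 0 - X 1 1) * hq
      ext i j
      fin_cases i <;> fin_cases j
      · change (s • (1 : Mt k) + t • C) 0 0 = X 0 0
        rw [Matrix.add_apply, Matrix.smul_apply, Matrix.smul_apply, Matrix.one_apply_eq,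
          smul_eq_mul, smul_eq_mul, mul_one]
        have : 2 * (s + t * C 0 0 - X 0 0) = 0 := by linear_combination hs + g00
        exact sub_eq_zero.1 ((mul_eq_zero.1 this).resolve_left h2)
      · change (s • (1 : Mt k) + t • C) 0 1 = X 0 1
        rw [Matrix.add_apply, Matrix.smul_apply, Matrix.smul_apply,
          Matrix.one_apply_ne (by decide), smul_zero, smul_eq_mul, zero_add, g01]
      · change (s • (1 : Mt k) + t • C) 1 0 = X 1 0
        rw [Matrix.add_apply, Matrix.smul_apply, Matrix.smul_apply,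
          Matrix.one_apply_ne (by decide), smul_zero, smul_eq_mul, zero_add, g10]
      · change (s • (1 : Mt k) + t • C) 1 1 = X 1 1
        rw [Matrix.add_apply, Matrix.smul_apply, Matrix.smul_apply, Matrix.one_apply_eq,
          smul_eq_mul, smul_eq_mul, mul_one, h11]
        have : 2 * (s + t * -C 0 0 - X 1 1) = 0 := by linear_combination hs - g00
        exact sub_eq_zero.1 ((mul_eq_zero.1 this).resolve_left h2)
  rw [← Nat.card_congr (Equiv.ofBijective _ hbij), Nat.card_prod, sq]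

/-- the invariants of complex conjugation in `ad ρbar`, `ρbar` odd -/
theorem cfix_ad [Finite k] (h2 : (2 : k) ≠ 0) (ρbar : ResidualGaloisRep k) (hodd : ρbar.IsOdd)
    (b : Module.Basis (Fin 2) k ρbar.V) (p : ℕ) [Algebra (ZMod p) k] :
    cfix cc (MT (adRep p (rbM ρbar b))) = Nat.card k ^ 2 := by
  have hcc : (cc : GQ) * cc = 1 := complexConjugation_mul_self
  have hinv : (cc : GQ)⁻¹ = cc := inv_eq_of_mul_eq_one_right hcc
  have hC : rbM ρbar b cc * rbM ρbar b cc = 1 := by rw [← map_mul, hcc, map_one]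
  have hdet : (rbM ρbar b cc).det = -1 := by
    rw [det_rbM]
    exact hodd cc hcc cc_ne_one
  rw [← card_centralizer h2 hC hdet]
  refine Nat.card_congr (Equiv.subtypeEquivRight fun X => ?_)
  change rbM ρbar b cc * (unM X * rbM ρbar b cc⁻¹) = unM X ↔ _
  rw [hinv]
  exact Iff.rfl

/-- **Tate's Euler characteristic formula for `ad ρbar`**: `ρbar` odd and absolutely irreducible,
`p` odd; `#H¹(G_S, ad ρbar) = (#k)³ · #H²(G_S, ad ρbar)`. -/
theorem card_H1_ad [Finite k] {p : ℕ} [hpf : Fact p.Prime] [CharP k p] [Algebra (ZMod p) k]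
    (hp2 : p ≠ 2) {S : Finset Nat.Primes} (hpS : pP p ∈ S) (ρbar : ResidualGaloisRep k)
    (habs : ρbar.IsAbsolutelyIrreducible) (hodd : ρbar.IsOdd)
    (b : Module.Basis (Fin 2) k ρbar.V)
    (hunr : ∀ q : Nat.Primes, q ∉ S → ρbar.IsUnramifiedAt q) :
    Nat.card (H1 (levS S) (MT (adRep p (rbM ρbar b)))) =
      Nat.card k ^ 3 * Nat.card (H2 (levS S) (MT (adRep p (rbM ρbar b)))) := by
  have hfin : Finite (adRep p (rbM ρbar b)) := inferInstanceAs (Finite (Fin 2 → Fin 2 → k))
  have : FiniteDimensional (ZMod p) (adRep p (rbM ρbar b)) := Module.Finite.of_finite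
  have hpr := Fermat.Agent.L00.Tr.pr_ePair (adRep p (rbM ρbar b)) hpS
    (fun m => by
      obtain ⟨L, hL, h⟩ := ρbar.factorsThroughFiniteLevel
      refine ⟨L, hL, fun σ hσ => ?_⟩
      have h1 : rbM ρbar b σ = 1 := rbM_eq_one ρbar b (h σ fun x hx =>
        (IntermediateField.mem_fixingSubgroup_iff L σ).1 hσ x hx)
      change adRho p (rbM ρbar b) σ m = m
      rw [adRho_eq_one h1]
      rfl) (fun q hq A hA g hg => adRho_eq_one (rbM_eq_one ρbar b (hunr q hq A hA g hg)))
  have h1 := PT.global_euler hp2 hpS hpr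
  have h2 : Nat.card (MT (adRep p (rbM ρbar b))) = Nat.card k ^ 4 := by
    have : Nat.card (MT (adRep p (rbM ρbar b))) = Nat.card (Fin 2 → Fin 2 → k) := rfl
    rw [this, Nat.card_fun, Nat.card_fun, Nat.card_fin, ← pow_mul]
  rw [cfix_ad (two_ne_zero_of k hp2) ρbar hodd b p, card_H0_ad ρbar habs b p, h2] at h1
  have hpos : 0 < Nat.card k ^ 2 := pow_pos Nat.card_pos 2
  refine Nat.eq_of_mul_eq_mul_right hpos (h1.trans ?_)
  ring

end ad

section main

variable {𝒪 : Type} [CommRing 𝒪] [IsDomain 𝒪] [IsDiscreteValuationRing 𝒪]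
  [IsAdicComplete (maximalIdeal 𝒪) 𝒪] [Finite (ResidueField 𝒪)]
  {ρbar : ResidualGaloisRep (ResidueField 𝒪)}

theorem H2_eq_zero_of_basis {k : Type} [Field k] {p : ℕ} [Algebra (ZMod p) k]
    (ρbar : ResidualGaloisRep k) (b b' : Module.Basis (Fin 2) k ρbar.V) {S' : Finset Nat.Primes}
    (h : ∀ x : H2 (levS S') (MT (adRep p (rbM ρbar b))), x = 0) :
    ∀ x : H2 (levS S') (MT (adRep p (rbM ρbar b'))), x = 0 := by
  -- conjugation by the base change matrix
  obtain ⟨P, hP⟩ : ∃ P : Mt k, P = b.toMatrix b' := ⟨_, rfl⟩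
  obtain ⟨Q, hQ⟩ : ∃ Q : Mt k, Q = b'.toMatrix b := ⟨_, rfl⟩
  have hPQ : P * Q = 1 := by rw [hP, hQ, Module.Basis.toMatrix_mul_toMatrix_flip]
  have hQP : Q * P = 1 := by rw [hP, hQ, Module.Basis.toMatrix_mul_toMatrix_flip]
  have hc : ∀ σ, P * rbM ρbar b' σ = rbM ρbar b σ * P := by
    intro σ
    rw [rbM_apply, rbM_apply, hP, basis_toMatrix_mul_linearMap_toMatrix,
      linearMap_toMatrix_mul_basis_toMatrix]
  have hact : ∀ (σ : GQ) (X : Mt k), P * (rbM ρbar b' σ * (X * rbM ρbar b' σ⁻¹)) * Q =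
      rbM ρbar b σ * ((P * X * Q) * rbM ρbar b σ⁻¹) := by
    intro σ X
    have h1 : rbM ρbar b' σ⁻¹ * Q = Q * rbM ρbar b σ⁻¹ := by
      have h2 := hc σ⁻¹
      calc rbM ρbar b' σ⁻¹ * Q = Q * P * (rbM ρbar b' σ⁻¹ * Q) := by rw [hQP, one_mul]
        _ = Q * (P * rbM ρbar b' σ⁻¹) * Q := by simp only [mul_assoc]
        _ = Q * rbM ρbar b σ⁻¹ * (P * Q) := by rw [h2]; simp only [mul_assoc]
        _ = _ := by rw [hPQ, mul_one]
    calc P * (rbM ρbar b' σ * (X * rbM ρbar b' σ⁻¹)) * Q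
        = (P * rbM ρbar b' σ) * X * (rbM ρbar b' σ⁻¹ * Q) := by simp only [mul_assoc]
      _ = _ := by rw [hc, h1]; simp only [mul_assoc]
  have hact' : ∀ (σ : GQ) (X : Mt k), Q * (rbM ρbar b σ * (X * rbM ρbar b σ⁻¹)) * P =
      rbM ρbar b' σ * ((Q * X * P) * rbM ρbar b' σ⁻¹) := by
    intro σ X
    have h1 := hact σ (Q * X * P)
    have h2 : P * (Q * X * P) * Q = X := by
      calc P * (Q * X * P) * Q = (P * Q) * X * (P * Q) := by simp only [mul_assoc]
        _ = X := by rw [hPQ, one_mul, mul_one]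
    rw [h2] at h1
    rw [← h1]
    calc Q * (P * (rbM ρbar b' σ * ((Q * X * P) * rbM ρbar b' σ⁻¹)) * Q) * P
        = (Q * P) * (rbM ρbar b' σ * ((Q * X * P) * rbM ρbar b' σ⁻¹)) * (Q * P) := by
          simp only [mul_assoc]
      _ = _ := by rw [hQP, one_mul, mul_one]
  intro x
  obtain ⟨f, rfl⟩ := H2.mk_surjective x
  let f' : Z2 (levS S') (MT (adRep p (rbM ρbar b))) :=
    ⟨fun g h => inM p _ (P * unM (f.1 g h) * Q),
      f.2.1.comp (fun X => inM p _ (P * unM X * Q)), fun g h j => by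
        have h1 := f.2.2 g h j
        have h2 : rbM ρbar b' g * (unM (f.1 h j) * rbM ρbar b' g⁻¹) + unM (f.1 g (h * j)) =
          unM (f.1 (g * h) j) + unM (f.1 g h) := congrArg unM h1
        have h3 := congrArg (fun X : Mt k => P * X * Q) h2
        beta_reduce at h3
        rw [mul_add, mul_add, add_mul, add_mul, hact] at h3
        exact h3⟩
  obtain ⟨φ, hφ, h1⟩ := H2.mk_eq_zero.1 (h (H2.mk _ _ f'))
  rw [H2.mk_eq_zero]
  refine ⟨fun g => inM p _ (Q * unM (φ g) * P), hφ.comp (fun X => inM p _ (Q * unM X * P)),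
    fun g h => ?_⟩
  have h2 : P * unM (f.1 g h) * Q = rbM ρbar b g * (unM (φ h) * rbM ρbar b g⁻¹) -
    unM (φ (g * h)) + unM (φ g) := congrArg unM (h1 g h)
  have h3 := congrArg (fun X : Mt k => Q * X * P) h2
  beta_reduce at h3
  have h4 : Q * (P * unM (f.1 g h) * Q) * P = unM (f.1 g h) := by
    calc Q * (P * unM (f.1 g h) * Q) * P = (Q * P) * unM (f.1 g h) * (Q * P) := by
          simp only [mul_assoc]
      _ = _ := by rw [hQP, one_mul, mul_one]
  rw [h4, mul_add, mul_sub, add_mul, sub_mul, hact'] at h3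
  exact h3

/-- **Mazur's theorem, unobstructed case**: `p` odd, `ρbar` odd, absolutely irreducible and
unramified outside the finite set `S ∋ p`. If `H²(G_S, ad ρbar) = 0`, then the universal deformation
ring (deformations unramified outside `S`) is the power series ring in three variables. -/
theorem mazur_unobstructed {p : ℕ} (hp : p.Prime) (hp2 : p ≠ 2) [CharP (ResidueField 𝒪) p]
    [Algebra (ZMod p) (ResidueField 𝒪)]
    (hodd : ρbar.IsOdd) (S : Finset ℕ) (hpS : p ∈ S)
    (hunr : ∀ q : ℕ, q.Prime → q ∉ S → ρbar.IsUnramifiedAt q)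
    (b : Module.Basis (Fin 2) (ResidueField 𝒪) ρbar.V)
    (hH2 : ∀ x : H2 (levS (S.subtype Nat.Prime)) (MT (adRep p (rbM ρbar b))), x = 0)
    (DQ : DeformationRingData 𝒪 ρbar (UnrT 𝒪 S)) :
    Nonempty (MvPowerSeries (Fin 3) 𝒪 ≃ₐ[𝒪] DQ.R) := by
  have hpf : Fact p.Prime := ⟨hp⟩
  obtain ⟨b', D, hD⟩ := Fermat.Agent.H04.exists_dat ρbar DQ.absIrr
  have hH2' := H2_eq_zero_of_basis ρbar b b' hH2
  have hS' : ∀ q : Nat.Primes, q ∈ S.subtype Nat.Prime ↔ (q : ℕ) ∈ S := fun q =>
    Finset.mem_subtype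
  have hpS' : pP p ∈ S.subtype Nat.Prime := (hS' _).2 hpS
  have hunr' : ∀ q : Nat.Primes, q ∉ S.subtype Nat.Prime → ρbar.IsUnramifiedAt q :=
    fun q hq => hunr q q.2 fun h => hq ((hS' q).2 h)
  obtain ⟨F, hF⟩ := card_hom_eq hS' DQ hunr hD (p := p)
  have hfin : Finite (H1 (levS (S.subtype Nat.Prime)) (MT (adRep p (rbM ρbar b')))) :=
    finite_H1_ad hp2 hpS' ρbar b' hunr'
  have hcard := card_H1_ad hp2 hpS' ρbar DQ.absIrr hodd b' hunr'
  have hone : Nat.card (H2 (levS (S.subtype Nat.Prime)) (MT (adRep p (rbM ρbar b')))) = 1 := by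
    have : Subsingleton (H2 (levS (S.subtype Nat.Prime)) (MT (adRep p (rbM ρbar b')))) :=
      ⟨fun x y => (hH2' x).trans (hH2' y).symm⟩
    exact Nat.card_of_subsingleton 0
  rw [hone, mul_one] at hcard
  have hR : PreTest 𝒪 DQ.R := Fermat.Agent.H04.preTest_iff.mpr
    ⟨DQ.instIsLocalHom, DQ.residue_surjective⟩
  refine powerSeries_of_smooth hR 3 (Finite.of_injective _ hF.1)
    ((Nat.card_congr (Equiv.ofBijective F hF)).trans hcard) ?_
  intro A B _ _ _ _ _ _ _ _ hA π hπ f hf
  refine lift_of_small (R := DQ.R) ?_ (Nat.card A) hA le_rfl π hπ f hf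
  intro A B _ _ _ _ _ _ _ _ hA ε hε hε0 π hπ hπε hker f hf
  exact small_step hS' DQ hD hH2' hA hε hε0 π hπ hπε hker f hf

/-- The universal deformation ring exists and is `𝒪⟦X₁, X₂, X₃⟧` if `H²(G_S, ad ρbar) = 0`
(in terms of the continuous cohomology of the prelude). -/
theorem exists_mazur_unobstructed {p : ℕ} (hp : p.Prime) (hp2 : p ≠ 2)
    [CharP (ResidueField 𝒪) p] [Algebra (ZMod p) (ResidueField 𝒪)]
    (habs : ρbar.IsAbsolutelyIrreducible) (hodd : ρbar.IsOdd) (S : Finset ℕ) (hpS : p ∈ S)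
    (hunr : ∀ q : ℕ, q.Prime → q ∉ S → ρbar.IsUnramifiedAt q)
    (b : Module.Basis (Fin 2) (ResidueField 𝒪) ρbar.V)
    (hH2 : Subsingleton (groupCohomology.continuousH2S (S.subtype Nat.Prime)
      (adRep p (rbM ρbar b)))) :
    ∃ DQ : DeformationRingData 𝒪 ρbar (UnrT 𝒪 S),
      Nonempty (MvPowerSeries (Fin 3) 𝒪 ≃ₐ[𝒪] DQ.R) := by
  obtain ⟨DQ⟩ := mazur hp hp2 habs S hunr
  refine ⟨DQ, mazur_unobstructed hp hp2 hodd S hpS hunr b (fun x => ?_) DQ⟩
  have hbij := Fermat.Agent.L00.Tr.Psi2_bijective (S.subtype Nat.Prime) (adRep p (rbM ρbar b))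
  exact hbij.1 (Subsingleton.elim _ _)

/-- If `#H¹(G_S, ad ρbar) ≤ (#k) ^ m`, the universal deformation ring is a quotient of
`𝒪⟦X₁, …, X_m⟧`. -/
theorem exists_quotient {p : ℕ} (hp : p.Prime) (hp2 : p ≠ 2) [CharP (ResidueField 𝒪) p]
    [Algebra (ZMod p) (ResidueField 𝒪)] (S : Finset ℕ) (hpS : p ∈ S)
    (hunr : ∀ q : ℕ, q.Prime → q ∉ S → ρbar.IsUnramifiedAt q)
    (DQ : DeformationRingData 𝒪 ρbar (UnrT 𝒪 S)) :
    ∃ b : Module.Basis (Fin 2) (ResidueField 𝒪) ρbar.V, ∀ m : ℕ,
      Nat.card (H1 (levS (S.subtype Nat.Prime)) (MT (adRep p (rbM ρbar b)))) ≤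
        Nat.card (ResidueField 𝒪) ^ m →
      ∃ γ : MvPowerSeries (Fin m) 𝒪 →ₐ[𝒪] DQ.R, Function.Surjective γ := by
  have hpf : Fact p.Prime := ⟨hp⟩
  obtain ⟨b, D, hD⟩ := Fermat.Agent.H04.exists_dat ρbar DQ.absIrr
  have hS' : ∀ q : Nat.Primes, q ∈ S.subtype Nat.Prime ↔ (q : ℕ) ∈ S := fun q =>
    Finset.mem_subtype
  have hfin : Finite (H1 (levS (S.subtype Nat.Prime)) (MT (adRep p (rbM ρbar b)))) :=
    finite_H1_ad hp2 ((hS' _).2 hpS) ρbar b
      fun q hq => hunr q q.2 fun h => hq ((hS' q).2 h)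
  obtain ⟨F, hF⟩ := card_hom_eq hS' DQ hunr hD (p := p)
  refine ⟨b, fun m hm => exists_surjective_powerSeries (Fermat.Agent.H04.preTest_iff.mpr
    ⟨DQ.instIsLocalHom, DQ.residue_surjective⟩) m (Finite.of_injective _ hF.1)
    ((Nat.card_congr (Equiv.ofBijective F hF)).le.trans hm)⟩

end main

end Fermat.Agent.Cor.DefCond

end
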