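import Fermat.Agent.Cor.DefCondI

/-!
# The obstruction map

`π : A → B` a surjection of finite local `𝒪`-algebras whose kernel `V` is killed by `𝔪_A`, and `s` a
deformation to `B` of level `S`. The obstructions to lifting `s` to the quotients `A / ker φ`,
`φ ∈ Hom(V, k)`, form a homomorphism `Hom(V, k) → H²(G_S, ad ρbar)`.
-/

set_option autoImplicit false
set_option linter.unusedSectionVars false

noncomputable section

namespace Fermat.Agent.Cor.DefCond

open IsLocalRing GaloisRep Matrix Fermat.Agent.CC Fermat.Agent.TW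
open Fermat.Agent.H04 (M2 mapM PreTest)
open Fermat.Agent.L00.Tr (MT)

section second

variable {𝒪 : Type} [CommRing 𝒪] [IsLocalRing 𝒪] {A B : Type} [CommRing A] [IsLocalRing A]
  [Algebra 𝒪 A] [CommRing B] [IsLocalRing B] [Algebra 𝒪 B] {p : ℕ}
  [Algebra (ZMod p) (ResidueField 𝒪)]

/-- lifting, given a primitive of the obstruction cocycle -/
theorem exists_lift_of_primitive {S' : Finset Nat.Primes} {rb : GQ →* Mt (ResidueField 𝒪)}
    (hA : PreTest 𝒪 A)
    {ε : A} (hε : ∀ a ∈ maximalIdeal A, a * ε = 0) (π : A →ₐ[𝒪] B)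
    (hπ : Function.Surjective π) (hπε : π ε = 0)
    (s : GQ →* M2 B) (hs : (levS S').isOpen s.ker) (hred : ∀ σ, RM (s σ) (rb σ))
    (γ : GQ → M2 A) (hγπ : ∀ g, (γ g).map π = s g) (hγr : ∀ g, RM (γ g) (rb g))
    (hγt : ∀ g, ∀ t ∈ s.ker, γ (g * t) = γ g) (hrbt : ∀ t ∈ s.ker, rb t = 1)
    (δ : GQ → GQ → Mt (ResidueField 𝒪))
    (hδ : ∀ g h, emM ε (δ g h) = γ g * γ h - γ (g * h))
    (x : GQ → MT (adRep p rb)) (hxc : (levS S').Const1 x)
    (hx : ∀ g h, toMT p rb (δ g h * rb (g * h)⁻¹) = d1 x g h) :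
    ∃ s' : GQ →* M2 A, mapM (π : A →+* B) s' = s ∧ (levS S').isOpen s'.ker ∧
      ∀ σ, RM (s' σ) (rb σ) := by
  have hloc := hA.isLocalHom
  obtain ⟨U, hU, hxU⟩ := hxc
  have hx' : ∀ g h, δ g h = rb g * ofMT (x h) * rb h - ofMT (x (g * h)) * rb (g * h) +
      ofMT (x g) * rb (g * h) := by
    intro g h
    have h1 : δ g h * rb (g * h)⁻¹ = rb g * (ofMT (x h) * rb g⁻¹) - ofMT (x (g * h)) +
        ofMT (x g) := congrArg ofMT (hx g h)
    have h2 := congrArg (fun X => X * rb (g * h)) h1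
    beta_reduce at h2
    rw [mul_assoc (δ g h), r_inv_mul, mul_one, add_mul, sub_mul] at h2
    rw [h2]
    congr 2
    rw [mul_assoc, mul_assoc, mul_assoc, ← map_mul, inv_mul_cancel_left]
  have hmul : ∀ g h, (γ g - emM ε (ofMT (x g) * rb g)) * (γ h - emM ε (ofMT (x h) * rb h)) =
      γ (g * h) - emM ε (ofMT (x (g * h)) * rb (g * h)) := by
    intro g h
    have h1 : emM ε (ofMT (x g) * rb g) * emM ε (ofMT (x h) * rb h) = 0 := by
      have h2 : RM (emM ε (ofMT (x g) * rb g) : M2 A) (0 : Mt (ResidueField 𝒪)) := by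
        intro i j
        refine rd_of_map π ?_
        have h3 : π (emM ε (ofMT (x g) * rb g) i j) = 0 := by
          change π (ε * _) = 0
          rw [map_mul, hπε, zero_mul]
        rw [h3]
        exact rd_zero
      rw [mul_emM hε hloc h2, zero_mul]
      ext i j
      change em ε ((0 : Mt (ResidueField 𝒪)) i j) = 0
      have h4 := em_add hε hloc (0 : ResidueField 𝒪) 0
      rw [add_zero] at h4
      exact left_eq_add.1 h4
    have h5 : γ g * γ h = γ (g * h) + emM ε (δ g h) := by rw [hδ]; abel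
    rw [sub_mul, mul_sub, mul_sub, h1, h5, mul_emM hε hloc (hγr g), emM_mul hε hloc (hγr h),
      sub_zero, hx']
    have h6 : ofMT (x g) * rb g * rb h = ofMT (x g) * rb (g * h) := by rw [map_mul, mul_assoc]
    rw [h6, emM_add hε hloc]
    have h7 : emM ε (rb g * ofMT (x h) * rb h - ofMT (x (g * h)) * rb (g * h)) +
        emM ε (ofMT (x (g * h)) * rb (g * h)) = (emM ε (rb g * (ofMT (x h) * rb h)) : M2 A) := by
      rw [← emM_add hε hloc, sub_add_cancel, mul_assoc]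
    rw [← h7]
    abel
  have hπs : ∀ g, (γ g - emM ε (ofMT (x g) * rb g)).map π = s g := by
    intro g
    ext i j
    have h1 : π (γ g i j) = s g i j := congrFun (congrFun (hγπ g) i) j
    have h3 : π (emM ε (ofMT (x g) * rb g) i j) = 0 := by
      change π (ε * _) = 0
      rw [map_mul, hπε, zero_mul]
    rw [Matrix.map_apply, Matrix.sub_apply, map_sub, h1, h3, sub_zero]
  have hπl : IsLocalHom (π : A →+* B) := IsLocalHom.of_surjective (π : A →+* B) hπ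
  have hone : γ 1 - emM ε (ofMT (x 1) * rb 1) = 1 := by
    have h1 := hmul 1 1
    rw [mul_one] at h1
    have h2 : IsUnit (γ 1 - emM ε (ofMT (x 1) * rb 1)) := by
      rw [Matrix.isUnit_iff_isUnit_det]
      refine hπl.map_nonunit _ ?_
      have h3 : (π : A →+* B) (γ 1 - emM ε (ofMT (x 1) * rb 1)).det =
          ((γ 1 - emM ε (ofMT (x 1) * rb 1)).map π).det := by
        rw [RingHom.map_det]
        rfl
      rw [h3, hπs, map_one, Matrix.det_one]
      exact isUnit_one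
    exact h2.mul_left_cancel (h1.trans (mul_one _).symm)
  let s' : GQ →* M2 A :=
    { toFun := fun g => γ g - emM ε (ofMT (x g) * rb g)
      map_one' := hone
      map_mul' := fun g h => (hmul g h).symm }
  refine ⟨s', ?_, ?_, fun σ i j => ?_⟩
  · ext g i j
    exact congrFun (congrFun (hπs g) i) j
  · refine (levS S').mono _ _ ((levS S').inf _ _ hU hs) fun t ht => ?_
    change γ t - emM ε (ofMT (x t) * rb t) = 1
    have h1 := hγt 1 t ht.2
    have h2 := hxU 1 t ht.1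
    rw [one_mul] at h1 h2
    rw [h1, h2, hrbt t ht.2, ← map_one rb]
    exact hone
  · refine rd_of_map π ?_
    have h1 : π (s' σ i j) = s σ i j := congrFun (congrFun (hπs σ) i) j
    rw [h1]
    exact hred σ i j

end second

section functional

variable {𝒪 : Type} [CommRing 𝒪] [IsLocalRing 𝒪] {A : Type} [CommRing A] [IsLocalRing A]
  [Algebra 𝒪 A] {V : Ideal A}

theorem phi_mul (hV : ∀ a ∈ maximalIdeal A, ∀ v ∈ V, a * v = 0)
    (φ : V →ₗ[𝒪] ResidueField 𝒪) {a : A} {x : ResidueField 𝒪} (h : Rd a x) {v : A} (hv : v ∈ V)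
    (hav : a * v ∈ V) : φ ⟨a * v, hav⟩ = x * φ ⟨v, hv⟩ := by
  obtain ⟨c, rfl, hc⟩ := h
  have h1 : (⟨a * v, hav⟩ : V) = c • ⟨v, hv⟩ := by
    apply Subtype.ext
    change a * v = c • v
    have h2 := hV _ hc v hv
    rw [Algebra.smul_def]
    linear_combination h2
  rw [h1, map_smul, Algebra.smul_def]
  rfl

/-- a functional applied to the entries of a matrix -/
def phiM (φ : V →ₗ[𝒪] ResidueField 𝒪) (M : M2 A) (hM : ∀ i j, M i j ∈ V) :
    Mt (ResidueField 𝒪) := Matrix.of fun i j => φ ⟨M i j, hM i j⟩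

theorem phiM_add (φ : V →ₗ[𝒪] ResidueField 𝒪) {M N : M2 A} (hM : ∀ i j, M i j ∈ V)
    (hN : ∀ i j, N i j ∈ V) (hMN : ∀ i j, (M + N) i j ∈ V) :
    phiM φ (M + N) hMN = phiM φ M hM + phiM φ N hN := by
  ext i j
  exact map_add φ ⟨M i j, hM i j⟩ ⟨N i j, hN i j⟩

theorem phiM_mul_left (hV : ∀ a ∈ maximalIdeal A, ∀ v ∈ V, a * v = 0)
    (φ : V →ₗ[𝒪] ResidueField 𝒪) {N : M2 A} {X : Mt (ResidueField 𝒪)} (h : RM N X) {M : M2 A}
    (hM : ∀ i j, M i j ∈ V) (hNM : ∀ i j, (N * M) i j ∈ V) :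
    phiM φ (N * M) hNM = X * phiM φ M hM := by
  ext i j
  change φ ⟨(N * M) i j, _⟩ = (X * phiM φ M hM) i j
  have h1 : (⟨(N * M) i j, hNM i j⟩ : V) = ⟨N i 0 * M 0 j, V.mul_mem_left _ (hM 0 j)⟩ +
      ⟨N i 1 * M 1 j, V.mul_mem_left _ (hM 1 j)⟩ := by
    apply Subtype.ext
    change (N * M) i j = N i 0 * M 0 j + N i 1 * M 1 j
    rw [Matrix.mul_apply, Fin.sum_univ_two]
  rw [h1, map_add, phi_mul hV φ (h i 0) (hM 0 j), phi_mul hV φ (h i 1) (hM 1 j),
    Matrix.mul_apply, Fin.sum_univ_two]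
  rfl

theorem phiM_mul_right (hV : ∀ a ∈ maximalIdeal A, ∀ v ∈ V, a * v = 0)
    (φ : V →ₗ[𝒪] ResidueField 𝒪) {N : M2 A} {X : Mt (ResidueField 𝒪)} (h : RM N X) {M : M2 A}
    (hM : ∀ i j, M i j ∈ V) (hMN : ∀ i j, (M * N) i j ∈ V) :
    phiM φ (M * N) hMN = phiM φ M hM * X := by
  ext i j
  change φ ⟨(M * N) i j, _⟩ = (phiM φ M hM * X) i j
  have h1 : (⟨(M * N) i j, hMN i j⟩ : V) = ⟨N 0 j * M i 0, V.mul_mem_left _ (hM i 0)⟩ +
      ⟨N 1 j * M i 1, V.mul_mem_left _ (hM i 1)⟩ := by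
    apply Subtype.ext
    change (M * N) i j = N 0 j * M i 0 + N 1 j * M i 1
    rw [Matrix.mul_apply, Fin.sum_univ_two, mul_comm (M i 0), mul_comm (M i 1)]
  rw [h1, map_add, phi_mul hV φ (h 0 j) (hM i 0), phi_mul hV φ (h 1 j) (hM i 1),
    Matrix.mul_apply, Fin.sum_univ_two, mul_comm (X 0 j), mul_comm (X 1 j)]
  rfl

/-- the kernel of a functional, as an ideal of `A` -/
def kerPhi (hV : ∀ a ∈ maximalIdeal A, ∀ v ∈ V, a * v = 0) (hA : PreTest 𝒪 A)
    (φ : V →ₗ[𝒪] ResidueField 𝒪) : Ideal A where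
  carrier := {v | ∃ h : v ∈ V, φ ⟨v, h⟩ = 0}
  zero_mem' := ⟨V.zero_mem, map_zero φ⟩
  add_mem' := by
    rintro a b ⟨ha, ha'⟩ ⟨hb, hb'⟩
    refine ⟨V.add_mem ha hb, ?_⟩
    have h1 := map_add φ ⟨a, ha⟩ ⟨b, hb⟩
    rw [ha', hb', add_zero] at h1
    exact h1
  smul_mem' := by
    rintro a v ⟨hv, hv'⟩
    obtain ⟨c, hc⟩ := hA.approx a
    refine ⟨V.mul_mem_left a hv, ?_⟩
    have h1 := phi_mul hV φ (a := a) (x := residue 𝒪 c) ⟨c, rfl, hc⟩ hv (V.mul_mem_left a hv)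
    rw [hv', mul_zero] at h1
    exact h1

end functional

section ob

variable {𝒪 : Type} [CommRing 𝒪] [IsLocalRing 𝒪] {A B : Type} [CommRing A] [IsLocalRing A]
  [Algebra 𝒪 A] [CommRing B] [IsLocalRing B] [Algebra 𝒪 B] {p : ℕ}
  [Algebra (ZMod p) (ResidueField 𝒪)]

/-- **The obstruction map**: an additive map `Hom(V, k) → H²(G_S, ad ρbar)`, `V = ker (A → B)`, such
that `s` lifts to `A / ker φ` if `φ` is in its kernel. -/
theorem exists_obstruction {S' : Finset Nat.Primes} {rb : GQ →* Mt (ResidueField 𝒪)}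
    (hA : PreTest 𝒪 A) (π : A →ₐ[𝒪] B) (hπ : Function.Surjective π) {V : Ideal A}
    (hVker : ∀ a, a ∈ V ↔ π a = 0) (hV : ∀ a ∈ maximalIdeal A, ∀ v ∈ V, a * v = 0)
    (s : GQ →* M2 B) (hs : (levS S').isOpen s.ker) (hred : ∀ σ, RM (s σ) (rb σ)) :
    ∃ Ob : (V →ₗ[𝒪] ResidueField 𝒪) →+ H2 (levS S') (MT (adRep p rb)),
      ∀ φ : V →ₗ[𝒪] ResidueField 𝒪, φ ≠ 0 → Ob φ = 0 →
        ∀ (π' : (A ⧸ kerPhi hV hA φ) →ₐ[𝒪] B), (∀ a, π' (Ideal.Quotient.mk _ a) = π a) →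
        ∀ [IsLocalRing (A ⧸ kerPhi hV hA φ)],
        ∃ s' : GQ →* M2 (A ⧸ kerPhi hV hA φ),
          mapM (π' : (A ⧸ kerPhi hV hA φ) →+* B) s' = s ∧ (levS S').isOpen s'.ker ∧
            ∀ σ, RM (s' σ) (rb σ) := by
  have hloc := hA.isLocalHom
  obtain ⟨τ, hτ⟩ : ∃ τ : B → A, ∀ b, π (τ b) = b := ⟨_, Function.surjInv_eq hπ⟩
  obtain ⟨γ, hγ⟩ : ∃ γ : GQ → M2 A, ∀ g, γ g = (s g).map τ := ⟨_, fun _ => rfl⟩
  have hγπ : ∀ g, (γ g).map π = s g := by
    intro g
    rw [hγ]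
    ext i j
    exact hτ _
  have hmapmul : ∀ M N : M2 A, (M * N).map π = M.map π * N.map π := fun M N =>
    Matrix.map_mul (f := (π : A →+* B))
  have hγr : ∀ g, RM (γ g) (rb g) := by
    intro g i j
    refine rd_of_map π ?_
    have h1 : π (γ g i j) = s g i j := congrFun (congrFun (hγπ g) i) j
    rw [h1]
    exact hred g i j
  have hΔ : ∀ g h i j, (γ g * γ h - γ (g * h)) i j ∈ V := by
    intro g h i j
    have h1 : (γ g * γ h).map π = (γ (g * h)).map π := by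
      rw [hmapmul, hγπ, hγπ, hγπ, map_mul]
    rw [hVker, Matrix.sub_apply, map_sub, sub_eq_zero]
    exact congrFun (congrFun h1 i) j
  have hVl : ∀ (N M : M2 A), (∀ i j, M i j ∈ V) → ∀ i j, (N * M) i j ∈ V := by
    intro N M hM i j
    rw [Matrix.mul_apply, Fin.sum_univ_two]
    exact V.add_mem (V.mul_mem_left _ (hM _ _)) (V.mul_mem_left _ (hM _ _))
  have hVr : ∀ (N M : M2 A), (∀ i j, M i j ∈ V) → ∀ i j, (M * N) i j ∈ V := by
    intro N M hM i j
    rw [Matrix.mul_apply, Fin.sum_univ_two]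
    exact V.add_mem (V.mul_mem_right _ (hM _ _)) (V.mul_mem_right _ (hM _ _))
  have hVadd : ∀ (N M : M2 A), (∀ i j, N i j ∈ V) → (∀ i j, M i j ∈ V) →
      ∀ i j, (N + M) i j ∈ V := fun N M hN hM i j => V.add_mem (hN i j) (hM i j)
  obtain ⟨δ, hδ⟩ : ∃ δ : (V →ₗ[𝒪] ResidueField 𝒪) → GQ → GQ → Mt (ResidueField 𝒪),
      ∀ φ g h, δ φ g h = phiM φ _ (hΔ g h) := ⟨_, fun _ _ _ => rfl⟩
  have hcoc : ∀ φ g h j, δ φ (g * h) j + δ φ g h * rb j = δ φ g (h * j) + rb g * δ φ h j := by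
    intro φ g h j
    rw [hδ, hδ, hδ, hδ, ← phiM_mul_right hV φ (hγr j) (hΔ g h) (hVr _ _ (hΔ g h)),
      ← phiM_mul_left hV φ (hγr g) (hΔ h j) (hVl _ _ (hΔ h j)),
      ← phiM_add φ _ _ (hVadd _ _ (hΔ _ _) (hVr _ _ (hΔ g h))),
      ← phiM_add φ _ _ (hVadd _ _ (hΔ _ _) (hVl _ _ (hΔ h j)))]
    congr 1
    rw [sub_mul, mul_sub, mul_assoc g h j, mul_assoc (γ g)]
    abel
  have hγt : ∀ g, ∀ t ∈ s.ker, γ (g * t) = γ g := by
    intro g t ht
    have ht' : s t = 1 := ht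
    rw [hγ, hγ, map_mul, ht', mul_one]
  have hrbt : ∀ t ∈ s.ker, rb t = 1 := by
    intro t ht
    have ht' : s t = 1 := ht
    have h1 := hred t
    rw [ht'] at h1
    exact rm_unique h1 rm_one
  have hrbt' : ∀ g, ∀ t ∈ s.ker, rb (g * t)⁻¹ = rb g⁻¹ := by
    intro g t ht
    rw [_root_.mul_inv_rev, map_mul, hrbt _ (inv_mem ht), one_mul]
  have hconj : ∀ h, ∀ t ∈ s.ker, ∀ t' ∈ s.ker, h⁻¹ * t * h * t' ∈ s.ker := by
    intro h t ht t' ht'
    refine mul_mem ?_ ht'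
    have := (MonoidHom.normal_ker s).conj_mem t ht h⁻¹
    rwa [inv_inv] at this
  have hδt : ∀ φ g h, ∀ t ∈ s.ker, ∀ t' ∈ s.ker, δ φ (g * t) (h * t') = δ φ g h := by
    intro φ g h t ht t' ht'
    have h1 : g * t * (h * t') = g * h * (h⁻¹ * t * h * t') := by group
    rw [hδ, hδ]
    have h3 : γ (g * t) * γ (h * t') - γ (g * t * (h * t')) = γ g * γ h - γ (g * h) := by
      rw [hγt g t ht, hγt h t' ht', h1, hγt _ _ (hconj h t ht t' ht')]
    congr 1
  let c : (V →ₗ[𝒪] ResidueField 𝒪) → Z2 (levS S') (MT (adRep p rb)) := fun φ =>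
    ⟨fun g h => toMT p rb (δ φ g h * rb (g * h)⁻¹),
    ⟨s.ker, hs, fun g h t ht t' ht' => by
      have h1 : g * t * (h * t') = g * h * (h⁻¹ * t * h * t') := by group
      change toMT p rb (δ φ (g * t) (h * t') * rb (g * t * (h * t'))⁻¹) =
        toMT p rb (δ φ g h * rb (g * h)⁻¹)
      rw [hδt φ g h t ht t' ht', h1, hrbt' _ _ (hconj h t ht t' ht')]⟩, fun g h j => by
      apply ofMT_inj
      rw [ofMT_add, ofMT_add, ofMT_smul, ofMT_toMT, ofMT_toMT, ofMT_toMT, ofMT_toMT]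
      have h1 := congrArg (fun X => X * rb (g * h * j)⁻¹) (hcoc φ g h j)
      beta_reduce at h1
      rw [add_mul, add_mul] at h1
      have h2 : δ φ g h * rb j * rb (g * h * j)⁻¹ = δ φ g h * rb (g * h)⁻¹ := by
        have h3 : j * (g * h * j)⁻¹ = (g * h)⁻¹ := by group
        rw [mul_assoc, ← map_mul, h3]
      have h3 : rb g * δ φ h j * rb (g * h * j)⁻¹ =
          rb g * (δ φ h j * rb (h * j)⁻¹ * rb g⁻¹) := by
        have h4 : (g * h * j)⁻¹ = (h * j)⁻¹ * g⁻¹ := by group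
        rw [mul_assoc, h4, map_mul, mul_assoc (δ φ h j)]
      rw [h2, h3] at h1
      rw [← mul_assoc g h j, h1, add_comm]⟩
  refine ⟨AddMonoidHom.mk' (fun φ => H2.mk _ _ (c φ)) (fun φ ψ => ?_), ?_⟩
  · rw [← map_add]
    congr 1
    apply Subtype.ext
    funext g h
    apply ofMT_inj
    change δ (φ + ψ) g h * rb (g * h)⁻¹ = δ φ g h * rb (g * h)⁻¹ + δ ψ g h * rb (g * h)⁻¹
    rw [← add_mul]
    congr 1
    rw [hδ, hδ, hδ]
    rfl
  · intro φ hφ hOb π' hπ' hlocQ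
    have hOb' : H2.mk _ _ (c φ) = 0 := hOb
    obtain ⟨x, hxc, hx⟩ := H2.mk_eq_zero.1 hOb'
    -- an element with `φ = 1`
    obtain ⟨v, hv⟩ : ∃ v : V, φ v = 1 := by
      have h1 : ∃ w : V, φ w ≠ 0 := by
        by_contra hcon
        push Not at hcon
        exact hφ (LinearMap.ext fun w => hcon w)
      obtain ⟨w, hw⟩ := h1
      obtain ⟨a, ha⟩ := residue_surjective (φ w)⁻¹
      refine ⟨a • w, ?_⟩
      rw [map_smul, Algebra.smul_def]
      change residue 𝒪 a * φ w = 1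
      rw [ha, inv_mul_cancel₀ hw]
    have hsurj := Ideal.Quotient.mkₐ_surjective 𝒪 (kerPhi hV hA φ)
    have hQ : PreTest 𝒪 (A ⧸ kerPhi hV hA φ) :=
      Fermat.Agent.H04.preTest_of_surjective (Ideal.Quotient.mkₐ 𝒪 _) hsurj hA
    have hmkl : IsLocalHom (Ideal.Quotient.mk (kerPhi hV hA φ)) :=
      IsLocalHom.of_surjective _ Ideal.Quotient.mk_surjective
    have hε : ∀ a ∈ maximalIdeal (A ⧸ kerPhi hV hA φ),
        a * Ideal.Quotient.mk (kerPhi hV hA φ) (v : A) = 0 := by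
      intro a ha
      obtain ⟨a, rfl⟩ := Ideal.Quotient.mk_surjective a
      rw [← map_mul, hV a (fun hu => ha (hu.map _)) v v.2, map_zero]
    have hmk : ∀ w (hw : w ∈ V), em (Ideal.Quotient.mk (kerPhi hV hA φ) (v : A)) (φ ⟨w, hw⟩) =
        Ideal.Quotient.mk (kerPhi hV hA φ) w := by
      intro w hw
      obtain ⟨a, ha⟩ := residue_surjective (φ ⟨w, hw⟩)
      rw [← ha, em_residue hε hQ.isLocalHom]
      have h1 : Ideal.Quotient.mk (kerPhi hV hA φ) (v : A) * algebraMap 𝒪 _ a =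
        Ideal.Quotient.mk (kerPhi hV hA φ) ((v : A) * algebraMap 𝒪 A a) := rfl
      rw [h1, Ideal.Quotient.eq]
      refine ⟨V.sub_mem (V.mul_mem_right _ v.2) hw, ?_⟩
      have h2 : (⟨(v : A) * algebraMap 𝒪 A a - w, V.sub_mem (V.mul_mem_right _ v.2) hw⟩ : V) =
          a • v - ⟨w, hw⟩ := by
        apply Subtype.ext
        change (v : A) * algebraMap 𝒪 A a - w = a • (v : A) - w
        rw [Algebra.smul_def, mul_comm]
      rw [h2, map_sub, map_smul, hv, ← ha, Algebra.smul_def, mul_one]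
      exact sub_self _
    refine exists_lift_of_primitive (p := p) hQ hε π' (fun b => by
        obtain ⟨a, rfl⟩ := hπ b
        exact ⟨Ideal.Quotient.mk _ a, hπ' a⟩) (by rw [hπ', ← hVker]; exact v.2) s hs hred
      (fun g => (γ g).map (Ideal.Quotient.mk (kerPhi hV hA φ))) (fun g => ?_) (fun g i j => ?_)
      (fun g t ht => ?_) hrbt (δ φ) (fun g h => ?_) x hxc (fun g h => hx g h)
    · rw [← hγπ g]
      ext i j
      exact hπ' _
    · exact rd_map (Ideal.Quotient.mkₐ 𝒪 (kerPhi hV hA φ)) hmkl (hγr g i j)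
    · rw [hγt g t ht]
    · ext i j
      have h1 : emM (Ideal.Quotient.mk (kerPhi hV hA φ) (v : A)) (δ φ g h) i j =
          em (Ideal.Quotient.mk (kerPhi hV hA φ) (v : A)) (φ ⟨_, hΔ g h i j⟩) := by
        rw [hδ]
        rfl
      rw [h1, hmk, Matrix.sub_apply, map_sub, Matrix.mul_apply, Matrix.sub_apply, Matrix.mul_apply,
        map_sum]
      simp only [map_mul, Matrix.map_apply]

end ob

end Fermat.Agent.Cor.DefCond

end
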