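import Fermat.Agent.Cor.DefCondJ
import Fermat.Agent.Cor.DefCondM

/-!
# The number of relations of a complete local algebra

`R = P / J` with `P` a local noetherian `𝒪`-algebra, `J ≤ 𝔪_𝒪 P + 𝔪_P²`, such that the obstructions
to lifting homomorphisms from `R` to finite local algebras are in the finite group `H`. Then `J` is
generated by `r` elements with `|k| ^ r ≤ |H|`.
-/

set_option autoImplicit false
set_option linter.unusedSectionVars false

noncomputable section

namespace Fermat.Agent.Cor.DefCond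

open IsLocalRing Fermat.Agent.TW
open Fermat.Agent.H04 (DN PreTest)

/-- bases of finite modules killed by the maximal ideal -/
theorem exists_basis_of_killed {𝒪 : Type} [CommRing 𝒪] [IsLocalRing 𝒪]
    [Finite (ResidueField 𝒪)] {V : Type} [AddCommGroup V] [Module 𝒪 V] [Finite V]
    (h : ∀ c ∈ maximalIdeal 𝒪, ∀ v : V, c • v = 0) :
    ∃ (r : ℕ) (b : Fin r → V), (∀ v : V, ∃ c : Fin r → 𝒪, v = ∑ i, c i • b i) ∧
      Nat.card (ResidueField 𝒪) ^ r ≤ Nat.card (V →ₗ[𝒪] ResidueField 𝒪) := by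
  have htor : Module.IsTorsionBySet 𝒪 V (maximalIdeal 𝒪 : Set 𝒪) := fun v c => h c c.2 v
  let : Module (ResidueField 𝒪) V := htor.module
  have hsmul : ∀ (c : 𝒪) (v : V), residue 𝒪 c • v = c • v := fun c v => rfl
  have : Module.Finite (ResidueField 𝒪) V := inferInstance
  have hfin : Finite (V →ₗ[𝒪] ResidueField 𝒪) :=
    Finite.of_injective (fun φ => (φ : V → ResidueField 𝒪)) DFunLike.coe_injective
  let b := Module.finBasis (ResidueField 𝒪) V
  refine ⟨Module.finrank (ResidueField 𝒪) V, b, fun v => ?_, ?_⟩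
  · choose c hc using fun i => residue_surjective (b.repr v i)
    refine ⟨c, ?_⟩
    conv_lhs => rw [← b.sum_repr v]
    refine Finset.sum_congr rfl fun i _ => ?_
    rw [← hc i, hsmul]
  · let Φ : (Fin (Module.finrank (ResidueField 𝒪) V) → ResidueField 𝒪) →
        (V →ₗ[𝒪] ResidueField 𝒪) := fun t =>
      { toFun := fun v => ∑ i, b.repr v i * t i
        map_add' := fun v w => by
          simp only [map_add, Finsupp.add_apply, add_mul, Finset.sum_add_distrib]
        map_smul' := fun c v => by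
          rw [← hsmul]
          simp only [map_smul, Finsupp.smul_apply, smul_eq_mul, RingHom.id_apply, mul_assoc,
            ← Finset.mul_sum]
          rfl }
    have hΦ : Function.Injective Φ := by
      intro t t' htt
      funext j
      have h1 := congrArg (fun F => F (b j)) htt
      have h2 : ∀ t, Φ t (b j) = t j := by
        intro t
        change ∑ i, b.repr (b j) i * t i = t j
        rw [Finset.sum_eq_single j]
        · rw [b.repr_self, Finsupp.single_eq_same, one_mul]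
        · intro i _ hi
          rw [b.repr_self, Finsupp.single_eq_of_ne hi, zero_mul]
        · intro hj
          exact absurd (Finset.mem_univ j) hj
      beta_reduce at h1
      rw [h2, h2] at h1
      exact h1
    have h3 := Nat.card_le_card_of_injective Φ hΦ
    rw [Nat.card_fun, Nat.card_fin] at h3
    exact h3

set_option maxHeartbeats 1000000 in
/-- **The number of relations.** -/
theorem relations_bound {𝒪 : Type} [CommRing 𝒪] [IsLocalRing 𝒪] [Finite (ResidueField 𝒪)]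
    {P : Type} [CommRing P] [IsLocalRing P] [IsNoetherianRing P] [Algebra 𝒪 P]
    (hP : PreTest 𝒪 P) {R : Type} [CommRing R] [IsLocalRing R] [Algebra 𝒪 R]
    (γ : P →ₐ[𝒪] R) (hγ : Function.Surjective γ)
    (hker : RingHom.ker γ ≤ (maximalIdeal 𝒪).map (algebraMap 𝒪 P) ⊔ maximalIdeal P ^ 2)
    {H : Type} [AddCommGroup H] [Finite H]
    (hob : ∀ {A B : Type} [CommRing A] [IsLocalRing A] [Algebra 𝒪 A] [CommRing B] [IsLocalRing B]
      [Algebra 𝒪 B] [Finite A] [Finite B] (hA : PreTest 𝒪 A) (π : A →ₐ[𝒪] B)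
      (_ : Function.Surjective π) {V : Ideal A} (_ : ∀ a, a ∈ V ↔ π a = 0)
      (hV : ∀ a ∈ maximalIdeal A, ∀ v ∈ V, a * v = 0) (f : R →ₐ[𝒪] B)
      (_ : IsLocalHom (f : R →+* B)),
      ∃ Ob : (V →ₗ[𝒪] ResidueField 𝒪) →+ H,
        ∀ φ : V →ₗ[𝒪] ResidueField 𝒪, φ ≠ 0 → Ob φ = 0 →
          ∀ (π' : (A ⧸ kerPhi hV hA φ) →ₐ[𝒪] B), (∀ a, π' (Ideal.Quotient.mk _ a) = π a) →
          ∀ [IsLocalRing (A ⧸ kerPhi hV hA φ)],
          ∃ f' : R →ₐ[𝒪] (A ⧸ kerPhi hV hA φ),
            IsLocalHom (f' : R →+* (A ⧸ kerPhi hV hA φ)) ∧ π'.comp f' = f) :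
    ∃ (r : ℕ) (F : Fin r → P), RingHom.ker γ = Ideal.span (Set.range F) ∧
      Nat.card (ResidueField 𝒪) ^ r ≤ Nat.card H := by
  classical
  have hγl : IsLocalHom (γ : P →+* R) := IsLocalHom.of_surjective (γ : P →+* R) hγ
  have hPres : Finite (ResidueField P) := Fermat.Agent.H04.finite_residueField hP
  obtain ⟨J, hJ⟩ : ∃ J : Ideal P, J = RingHom.ker γ := ⟨_, rfl⟩
  have hmJ : ∀ x, x ∈ J ↔ γ x = 0 := fun x => by rw [hJ]; exact Iff.rfl
  rw [← hJ] at hker ⊢
  obtain ⟨Q, hQdef⟩ : ∃ Q : Ideal P, Q =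
    (maximalIdeal 𝒪).map (algebraMap 𝒪 P) ⊔ maximalIdeal P ^ 2 := ⟨_, rfl⟩
  rw [← hQdef] at hker
  have hQ2 : maximalIdeal P ^ 2 ≤ Q := hQdef ▸ le_sup_right
  have hQm : Q ≤ maximalIdeal P := by
    rw [hQdef]
    refine sup_le ?_ (Ideal.pow_le_self two_ne_zero)
    rw [Ideal.map_le_iff_le_comap]
    exact fun c hc hu => hc (hP.isLocalHom.map_nonunit c hu)
  -- Artin–Rees
  obtain ⟨n, hn, hAR⟩ : ∃ n, 2 ≤ n ∧ maximalIdeal P ^ n ⊓ J ≤ maximalIdeal P * J := by
    obtain ⟨k, hk⟩ := Ideal.exists_pow_inf_eq_pow_smul (maximalIdeal P) J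
    refine ⟨k + 2, by omega, ?_⟩
    have h1 := hk (k + 2) (by omega)
    have h2 : k + 2 - k = 2 := by omega
    rw [h2, smul_eq_mul, smul_eq_mul, Ideal.mul_top, smul_eq_mul] at h1
    rw [h1]
    refine (Ideal.mul_mono_right (inf_le_right)).trans ?_
    exact Ideal.mul_mono_left (Ideal.pow_le_self two_ne_zero)
  obtain ⟨KA, hKA⟩ : ∃ K : Ideal P, K = maximalIdeal P * J ⊔ maximalIdeal P ^ n := ⟨_, rfl⟩
  obtain ⟨KB, hKB⟩ : ∃ K : Ideal P, K = J ⊔ maximalIdeal P ^ n := ⟨_, rfl⟩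
  have hnA : maximalIdeal P ^ n ≤ KA := hKA ▸ le_sup_right
  have hnB : maximalIdeal P ^ n ≤ KB := hKB ▸ le_sup_right
  have hJB : J ≤ KB := hKB ▸ le_sup_left
  have hAB : KA ≤ KB := by
    rw [hKA]
    exact sup_le (Ideal.mul_le_right.trans hJB) hnB
  have hBQ : KB ≤ Q := by
    rw [hKB]
    exact sup_le hker ((Ideal.pow_le_pow_right hn).trans hQ2)
  have hBm : KB ≤ maximalIdeal P := hBQ.trans hQm
  have hAm : KA ≤ maximalIdeal P := hAB.trans hBm
  have hmne := (maximalIdeal.isMaximal P).ne_top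
  have hlocA : IsLocalRing (P ⧸ KA) := Fermat.Agent.H04.isLocalRing_quotient _ fun h =>
    hmne (top_le_iff.1 (h ▸ hAm))
  have hlocB : IsLocalRing (P ⧸ KB) := Fermat.Agent.H04.isLocalRing_quotient _ fun h =>
    hmne (top_le_iff.1 (h ▸ hBm))
  have hfinA : Finite (P ⧸ KA) := IsLocalRing.finite_quotient_iff.mpr ⟨n, hnA⟩
  have hfinB : Finite (P ⧸ KB) := IsLocalRing.finite_quotient_iff.mpr ⟨n, hnB⟩
  have hA : PreTest 𝒪 (P ⧸ KA) := Fermat.Agent.H04.preTest_of_surjective (Ideal.Quotient.mkₐ 𝒪 _)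
    (Ideal.Quotient.mkₐ_surjective _ _) hP
  have hmkA : IsLocalHom (Ideal.Quotient.mk KA) :=
    IsLocalHom.of_surjective _ Ideal.Quotient.mk_surjective
  let π : (P ⧸ KA) →ₐ[𝒪] (P ⧸ KB) := Ideal.Quotient.factorₐ 𝒪 hAB
  have hπmk : ∀ x, π (Ideal.Quotient.mk KA x) = Ideal.Quotient.mk KB x := fun x => rfl
  have hπ : Function.Surjective π := Ideal.Quotient.factor_surjective hAB
  obtain ⟨V, hVdef⟩ : ∃ V : Ideal (P ⧸ KA), ∀ a, a ∈ V ↔ π a = 0 :=
    ⟨RingHom.ker π, fun a => Iff.rfl⟩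
  have hVmk : ∀ y, Ideal.Quotient.mk KA y ∈ V ↔ y ∈ KB := fun y => by
    rw [hVdef, hπmk, Ideal.Quotient.eq_zero_iff_mem]
  have hV : ∀ a ∈ maximalIdeal (P ⧸ KA), ∀ v ∈ V, a * v = 0 := by
    intro a ha v hv
    obtain ⟨x, rfl⟩ := Ideal.Quotient.mk_surjective a
    obtain ⟨y, rfl⟩ := Ideal.Quotient.mk_surjective v
    rw [hVmk] at hv
    have hx : x ∈ maximalIdeal P := fun hu => ha (hu.map _)
    rw [← map_mul, Ideal.Quotient.eq_zero_iff_mem]
    have h1 := Ideal.mul_mem_mul hx hv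
    rw [hKB, Ideal.mul_sup] at h1
    rw [hKA]
    exact (sup_le_sup_left Ideal.mul_le_right (maximalIdeal P * J) :
      maximalIdeal P * J ⊔ maximalIdeal P * maximalIdeal P ^ n ≤ _) h1
  -- the homomorphism `R → B`
  let e := Ideal.quotientKerAlgEquivOfSurjective (f := γ) hγ
  have he : ∀ x, e (Ideal.Quotient.mk _ x) = γ x := fun x => rfl
  have hJB' : RingHom.ker γ ≤ KB := hJ ▸ hJB
  let f : R →ₐ[𝒪] P ⧸ KB := (Ideal.Quotient.factorₐ 𝒪 hJB').comp (e.symm : R →ₐ[𝒪] _)
  have hf : ∀ x, f (γ x) = Ideal.Quotient.mk KB x := by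
    intro x
    change Ideal.Quotient.factorₐ 𝒪 hJB' (e.symm (γ x)) = _
    rw [← he, AlgEquiv.symm_apply_apply]
    rfl
  have hfl : IsLocalHom (f : R →+* P ⧸ KB) := IsLocalHom.of_surjective _ fun y => by
    obtain ⟨x, rfl⟩ := Ideal.Quotient.mk_surjective y
    exact ⟨γ x, hf x⟩
  obtain ⟨Ob, hOb⟩ := hob hA π hπ hVdef hV f hfl
  have hinj : Function.Injective Ob := by
    rw [injective_iff_map_eq_zero]
    intro φ hφ
    by_contra hφ0
    have hle : kerPhi hV hA φ ≤ V := fun a ⟨ha, _⟩ => ha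
    have hneV : kerPhi hV hA φ ≠ ⊤ := by
      intro h
      have h1 : (1 : P ⧸ KA) ∈ V := hle (h ▸ Submodule.mem_top)
      rw [hVdef, map_one] at h1
      exact one_ne_zero h1
    have hlocA' := Fermat.Agent.H04.isLocalRing_quotient _ hneV
    have hA' : PreTest 𝒪 ((P ⧸ KA) ⧸ kerPhi hV hA φ) :=
      Fermat.Agent.H04.preTest_of_surjective (Ideal.Quotient.mkₐ 𝒪 _)
      (Ideal.Quotient.mkₐ_surjective _ _) hA
    have hmkA' : IsLocalHom (Ideal.Quotient.mk (kerPhi hV hA φ)) :=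
      IsLocalHom.of_surjective _ Ideal.Quotient.mk_surjective
    let π' : ((P ⧸ KA) ⧸ kerPhi hV hA φ) →ₐ[𝒪] P ⧸ KB :=
      Ideal.Quotient.liftₐ _ π fun a ha => (hVdef a).1 (hle ha)
    have hπ' : ∀ a, π' (Ideal.Quotient.mk _ a) = π a := fun a => rfl
    obtain ⟨f', hf'l, hf'⟩ := hOb φ hφ0 hφ π' hπ'
    have hmax : (maximalIdeal P).map ((Ideal.Quotient.mk (kerPhi hV hA φ)).comp
        (Ideal.Quotient.mk KA)) = maximalIdeal ((P ⧸ KA) ⧸ kerPhi hV hA φ) := by
      apply le_antisymm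
      · rw [Ideal.map_le_iff_le_comap]
        intro x hx hu
        exact hx (hmkA.map_nonunit _ (hmkA'.map_nonunit _ hu))
      · intro y hy
        obtain ⟨y, rfl⟩ := Ideal.Quotient.mk_surjective y
        obtain ⟨x, rfl⟩ := Ideal.Quotient.mk_surjective y
        exact Ideal.mem_map_of_mem ((Ideal.Quotient.mk (kerPhi hV hA φ)).comp
          (Ideal.Quotient.mk KA)) fun hu => hy ((hu.map (Ideal.Quotient.mk KA)).map _)
    have hpow : maximalIdeal ((P ⧸ KA) ⧸ kerPhi hV hA φ) ^ n = ⊥ := by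
      rw [← hmax, ← Ideal.map_pow, eq_bot_iff, Ideal.map_le_iff_le_comap]
      intro x hx
      have h1 : Ideal.Quotient.mk KA x = 0 := Ideal.Quotient.eq_zero_iff_mem.2 (hnA hx)
      rw [Ideal.mem_comap, RingHom.comp_apply, h1, map_zero]
      exact Ideal.zero_mem _
    have hsurj : Function.Surjective (f'.comp γ) := by
      intro a
      have h1 : a ∈ (f'.comp γ).range := by
        refine mem_of_mod hA' hpow _ (fun a => ?_) a
        obtain ⟨a, rfl⟩ := Ideal.Quotient.mk_surjective a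
        obtain ⟨x, rfl⟩ := Ideal.Quotient.mk_surjective a
        refine ⟨f' (γ x), ⟨x, rfl⟩, ?_⟩
        obtain ⟨y, hy⟩ := Ideal.Quotient.mk_surjective (f' (γ x))
        obtain ⟨y, rfl⟩ := Ideal.Quotient.mk_surjective y
        rw [← hy, ← map_sub, ← map_sub]
        have h2 : x - y ∈ Q := by
          apply hBQ
          rw [← Ideal.Quotient.eq, ← hf]
          have h3 : π' (f' (γ x)) = f (γ x) := congrArg (fun F => F (γ x)) hf'
          rw [← h3, ← hy]
          rfl
        have h4 := Ideal.mem_map_of_mem ((Ideal.Quotient.mk (kerPhi hV hA φ)).comp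
          (Ideal.Quotient.mk KA)) h2
        rw [hQdef, Ideal.map_sup, Ideal.map_pow, Ideal.map_map, hmax] at h4
        exact h4
      obtain ⟨x, hx⟩ := h1
      exact ⟨x, hx⟩
    have hkill : ∀ x ∈ KB, (f'.comp γ) x = 0 := by
      intro x hx
      rw [hKB] at hx
      obtain ⟨y, hy, z, hz, rfl⟩ := Submodule.mem_sup.1 hx
      have h1 : (f'.comp γ) y = 0 := by
        rw [AlgHom.comp_apply, (hmJ y).1 hy, map_zero]
      have h2 : (f'.comp γ) z = 0 := by
        have h3 : (maximalIdeal P).map (f'.comp γ).toRingHom ≤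
            maximalIdeal ((P ⧸ KA) ⧸ kerPhi hV hA φ) := by
          rw [Ideal.map_le_iff_le_comap]
          intro y hy hu
          exact hy (hγl.map_nonunit _ (hf'l.map_nonunit _ hu))
        have h4 := Ideal.mem_map_of_mem (f'.comp γ).toRingHom hz
        rw [Ideal.map_pow] at h4
        have h5 := Ideal.pow_right_mono h3 n h4
        rw [hpow] at h5
        exact h5
      rw [map_add, h1, h2, add_zero]
    let h' : (P ⧸ KB) →ₐ[𝒪] ((P ⧸ KA) ⧸ kerPhi hV hA φ) :=
      Ideal.Quotient.liftₐ KB (f'.comp γ) hkill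
    have hh' : Function.Surjective h' := fun a => by
      obtain ⟨x, hx⟩ := hsurj a
      exact ⟨Ideal.Quotient.mk _ x, hx⟩
    have hπs : Function.Surjective π' := fun b => by
      obtain ⟨a, rfl⟩ := hπ b
      exact ⟨Ideal.Quotient.mk _ a, hπ' a⟩
    have hfinA' : Finite ((P ⧸ KA) ⧸ kerPhi hV hA φ) :=
      Finite.of_surjective _ Ideal.Quotient.mk_surjective
    have hπi : Function.Injective π' := by
      have h1 : Function.Injective (h' ∘ π') :=
        Finite.injective_iff_surjective.2 (hh'.comp hπs)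
      exact Function.Injective.of_comp h1
    apply hφ0
    ext v
    have h1 : π' (Ideal.Quotient.mk (kerPhi hV hA φ) v) = π' 0 := by
      rw [hπ', map_zero, ← hVdef]
      exact v.2
    have h2 := Ideal.Quotient.eq_zero_iff_mem.1 (hπi h1)
    obtain ⟨_, h3⟩ := h2
    exact h3
  have hVk : ∀ c ∈ maximalIdeal 𝒪, ∀ v : V, c • v = 0 := by
    intro c hc v
    apply Subtype.ext
    change c • (v : P ⧸ KA) = 0
    rw [Algebra.smul_def]
    exact hV _ (fun hu => hc (hA.isLocalHom.map_nonunit c hu)) v v.2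
  obtain ⟨r, b, hb, hr⟩ := exists_basis_of_killed hVk
  have hlift : ∀ i, ∃ y ∈ J, Ideal.Quotient.mk KA y = (b i : P ⧸ KA) := by
    intro i
    obtain ⟨y, hy⟩ := Ideal.Quotient.mk_surjective (b i : P ⧸ KA)
    have h1 : Ideal.Quotient.mk KA y ∈ V := by
      rw [hy]
      exact (b i).2
    rw [hVmk, hKB] at h1
    obtain ⟨z, hz, w, hw, rfl⟩ := Submodule.mem_sup.1 h1
    refine ⟨z, hz, ?_⟩
    rw [← hy, map_add, Ideal.Quotient.eq_zero_iff_mem.2 (hnA hw), add_zero]
  choose F hFJ hF using hlift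
  refine ⟨r, F, ?_, hr.trans (Nat.card_le_card_of_injective Ob hinj)⟩
  apply le_antisymm
  · refine Submodule.le_of_le_smul_of_le_jacobson_bot (I := maximalIdeal P)
      (IsNoetherian.noetherian J) ?_ ?_
    · exact (IsLocalRing.jacobson_eq_maximalIdeal ⊥ bot_ne_top).ge
    · intro y hy
      have h1 : Ideal.Quotient.mk KA y ∈ V := (hVmk y).2 (hJB hy)
      obtain ⟨c, hc⟩ := hb ⟨_, h1⟩
      have h2 : Ideal.Quotient.mk KA y = ∑ i, Ideal.Quotient.mk KA (algebraMap 𝒪 P (c i) * F i) := by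
        have h3 := congrArg (Subtype.val) hc
        rw [AddSubmonoidClass.coe_finsetSum] at h3
        refine h3.trans (Finset.sum_congr rfl fun i _ => ?_)
        rw [map_mul, hF]
        change c i • (b i : P ⧸ KA) = _
        rw [Algebra.smul_def]
        rfl
      rw [← map_sum, Ideal.Quotient.eq, hKA] at h2
      obtain ⟨u, hu, w, hw, huw⟩ := Submodule.mem_sup.1 h2
      have hs : ∑ i, algebraMap 𝒪 P (c i) * F i ∈ Ideal.span (Set.range F) :=
        Ideal.sum_mem _ fun i _ => Ideal.mul_mem_left _ _ (Ideal.subset_span ⟨i, rfl⟩)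
      have hs' : ∑ i, algebraMap 𝒪 P (c i) * F i ∈ J :=
        Ideal.sum_mem _ fun i _ => Ideal.mul_mem_left _ _ (hFJ i)
      have hwJ : w ∈ J := by
        have h4 : w = y - ∑ i, algebraMap 𝒪 P (c i) * F i - u := by rw [← huw]; ring
        rw [h4]
        exact J.sub_mem (J.sub_mem hy hs') (Ideal.mul_le_right hu)
      have h5 : y = ∑ i, algebraMap 𝒪 P (c i) * F i + (u + w) := by rw [huw]; ring
      rw [h5, smul_eq_mul]
      exact Ideal.add_mem _ (Ideal.mem_sup_left hs)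
        (Ideal.mem_sup_right (Ideal.add_mem _ hu (hAR ⟨hw, hwJ⟩)))
  · rw [Ideal.span_le]
    rintro _ ⟨i, rfl⟩
    exact hFJ i

end Fermat.Agent.Cor.DefCond

end
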