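import Fermat.Agent.Cor.DefCondN

/-!
# Presentations of complete local algebras; obstructions for the universal deformation ring
-/

set_option autoImplicit false
set_option linter.unusedSectionVars false

noncomputable section

namespace Fermat.Agent.Cor.DefCond

open IsLocalRing GaloisRep Matrix Fermat.Agent.CC Fermat.Agent.TW
open Fermat.Agent.H04 (DN M2 Dat IsCont IsNRep ofMat Compat mapM PreTest)
open Fermat.Agent.L00.Tr (MT)

/-- the number of homomorphisms to the dual numbers is a power of `|k|` -/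
theorem exists_card_hom {𝒪 : Type} [CommRing 𝒪] [IsLocalRing 𝒪] [Finite (ResidueField 𝒪)]
    {R : Type} [CommRing R] [IsLocalRing R] [Algebra 𝒪 R] (hR : PreTest 𝒪 R)
    (hfin : Finite {f : R →ₐ[𝒪] DN 𝒪 // IsLocalHom (f : R →+* DN 𝒪)}) :
    ∃ d, Nat.card {f : R →ₐ[𝒪] DN 𝒪 // IsLocalHom (f : R →+* DN 𝒪)} =
      Nat.card (ResidueField 𝒪) ^ d := by
  obtain ⟨aug, haug, haug0⟩ := Fermat.Agent.H04.exists_aug hR
  have haugc : ∀ c : 𝒪, aug (algebraMap 𝒪 R c) = residue 𝒪 c := fun c => by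
    rw [AlgHom.commutes]; rfl
  let W : Submodule (ResidueField 𝒪) (R → ResidueField 𝒪) :=
    { carrier := {l | (∀ a b, l (a + b) = l a + l b) ∧
        (∀ a b, l (a * b) = aug a * l b + aug b * l a) ∧ ∀ c : 𝒪, l (algebraMap 𝒪 R c) = 0}
      zero_mem' := ⟨fun a b => by simp, fun a b => by simp, fun c => rfl⟩
      add_mem' := by
        rintro l m ⟨h1, h2, h3⟩ ⟨h1', h2', h3'⟩
        refine ⟨fun a b => ?_, fun a b => ?_, fun c => ?_⟩
        · rw [Pi.add_apply, Pi.add_apply, Pi.add_apply, h1, h1']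
          ring
        · rw [Pi.add_apply, Pi.add_apply, Pi.add_apply, h2, h2']
          ring
        · rw [Pi.add_apply, h3, h3', add_zero]
      smul_mem' := by
        rintro t l ⟨h1, h2, h3⟩
        refine ⟨fun a b => ?_, fun a b => ?_, fun c => ?_⟩
        · rw [Pi.smul_apply, Pi.smul_apply, Pi.smul_apply, h1, smul_add]
        · rw [Pi.smul_apply, Pi.smul_apply, Pi.smul_apply, h2]
          simp only [smul_eq_mul]
          ring
        · rw [Pi.smul_apply, h3, smul_zero] }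
  have hfs : ∀ (f : {f : R →ₐ[𝒪] DN 𝒪 // IsLocalHom (f : R →+* DN 𝒪)}) a,
      fs (f.1 a) = aug a := by
    intro f a
    obtain ⟨c, hc⟩ := hR.approx a
    have h1 : fs (f.1 (a - algebraMap 𝒪 R c)) = 0 := by
      rw [← mem_maximalIdeal_iff_fs]
      intro hu
      exact hc (f.2.map_nonunit _ hu)
    have h2 := (haug0 _).mpr hc
    rw [map_sub, haugc, sub_eq_zero] at h2
    rw [map_sub, map_sub, AlgHom.commutes, fs_algebraMap, sub_eq_zero] at h1
    rw [h1, h2]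
  have hWmem : ∀ f : {f : R →ₐ[𝒪] DN 𝒪 // IsLocalHom (f : R →+* DN 𝒪)},
      (fun a => sn (f.1 a)) ∈ W := by
    intro f
    refine ⟨fun a b => ?_, fun a b => ?_, fun c => ?_⟩
    · beta_reduce
      rw [map_add, sn_add]
    · beta_reduce
      rw [map_mul, sn_mul, hfs, hfs]
      ring
    · beta_reduce
      rw [AlgHom.commutes, sn_algebraMap]
  let Φ : {f : R →ₐ[𝒪] DN 𝒪 // IsLocalHom (f : R →+* DN 𝒪)} → W := fun f =>
    ⟨fun a => sn (f.1 a), hWmem f⟩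
  have hΦ : Function.Bijective Φ := by
    constructor
    · intro f g hfg
      apply Subtype.ext
      ext a
      refine dn_ext ?_ (congrFun (congrArg Subtype.val hfg) a)
      rw [hfs, hfs]
    · rintro ⟨l, h1, h2, h3⟩
      have h0 : l 0 = 0 := by
        have := h1 0 0
        rw [add_zero] at this
        exact left_eq_add.1 this
      have h11 : l 1 = 0 := by
        have := h3 1
        rwa [map_one] at this
      let f : R →ₐ[𝒪] DN 𝒪 :=
        { toFun := fun a => DN.mk 𝒪 (aug a) (l a)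
          map_one' := by rw [map_one, h11]; rfl
          map_mul' := fun a b => by rw [Fermat.Agent.H04.DN.mk_mul, map_mul aug, h2]
          map_zero' := by rw [map_zero, h0]; rfl
          map_add' := fun a b => by rw [Fermat.Agent.H04.DN.mk_add, map_add, h1]
          commutes' := fun c => by rw [haugc, h3]; rfl }
      refine ⟨⟨f, ⟨fun a ha => haug.map_nonunit _ (Fermat.Agent.H04.DN.isUnit_fst ha)⟩⟩, ?_⟩
      rfl
  have hW : Finite W := Finite.of_surjective Φ hΦ.2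
  refine ⟨Module.finrank (ResidueField 𝒪) W, ?_⟩
  rw [Nat.card_eq_of_bijective Φ hΦ, Module.natCard_eq_pow_finrank (K := ResidueField 𝒪)]

/-- minimal presentations -/
theorem exists_presentation {𝒪 : Type} [CommRing 𝒪] [IsLocalRing 𝒪] [IsNoetherianRing 𝒪]
    [IsAdicComplete (maximalIdeal 𝒪) 𝒪] [Finite (ResidueField 𝒪)]
    {R : Type} [CommRing R] [IsLocalRing R] [IsNoetherianRing R]
    [IsAdicComplete (maximalIdeal R) R] [Algebra 𝒪 R] (hR : PreTest 𝒪 R) (d : ℕ)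
    (hfin : Finite {f : R →ₐ[𝒪] DN 𝒪 // IsLocalHom (f : R →+* DN 𝒪)})
    (hcard : Nat.card {f : R →ₐ[𝒪] DN 𝒪 // IsLocalHom (f : R →+* DN 𝒪)} =
      Nat.card (ResidueField 𝒪) ^ d) :
    ∃ γ : MvPowerSeries (Fin d) 𝒪 →ₐ[𝒪] R, Function.Surjective γ ∧ RingHom.ker γ ≤
      (maximalIdeal 𝒪).map (algebraMap 𝒪 (MvPowerSeries (Fin d) 𝒪)) ⊔
      maximalIdeal (MvPowerSeries (Fin d) 𝒪) ^ 2 := by
  classical
  obtain ⟨γ, hγ⟩ := exists_surjective_powerSeries hR d hfin hcard.le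
  have hγl : IsLocalHom (γ : MvPowerSeries (Fin d) 𝒪 →+* R) :=
    IsLocalHom.of_surjective (γ : MvPowerSeries (Fin d) 𝒪 →+* R) hγ
  have hP : PreTest 𝒪 (MvPowerSeries (Fin d) 𝒪) := preTest_powerSeries
  refine ⟨γ, hγ, ?_⟩
  obtain ⟨Q, hQdef⟩ : ∃ Q : Ideal (MvPowerSeries (Fin d) 𝒪), Q =
    (maximalIdeal 𝒪).map (algebraMap 𝒪 (MvPowerSeries (Fin d) 𝒪)) ⊔
      maximalIdeal (MvPowerSeries (Fin d) 𝒪) ^ 2 := ⟨_, rfl⟩
  rw [← hQdef]
  have hQ1 : (maximalIdeal 𝒪).map (algebraMap 𝒪 (MvPowerSeries (Fin d) 𝒪)) ≤ Q :=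
    hQdef ▸ le_sup_left
  have hQ2 : maximalIdeal (MvPowerSeries (Fin d) 𝒪) ^ 2 ≤ Q := hQdef ▸ le_sup_right
  have hQm : Q ≤ maximalIdeal (MvPowerSeries (Fin d) 𝒪) := by
    rw [hQdef]
    refine sup_le ?_ (Ideal.pow_le_self two_ne_zero)
    rw [Ideal.map_le_iff_le_comap]
    exact fun c hc hu => hc (hP.isLocalHom.map_nonunit c hu)
  -- all homomorphisms from the power series ring to the dual numbers factor through `γ`
  obtain ⟨hfP, hcP⟩ := card_hom_powerSeries (𝒪 := 𝒪) (d := d)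
  let G : {f : R →ₐ[𝒪] DN 𝒪 // IsLocalHom (f : R →+* DN 𝒪)} →
      {f : MvPowerSeries (Fin d) 𝒪 →ₐ[𝒪] DN 𝒪 //
        IsLocalHom (f : MvPowerSeries (Fin d) 𝒪 →+* DN 𝒪)} := fun f =>
    ⟨f.1.comp γ, ⟨fun x hx => hγl.map_nonunit _ (f.2.map_nonunit _ hx)⟩⟩
  have hGinj : Function.Injective G := by
    intro f g hfg
    apply Subtype.ext
    ext x
    obtain ⟨y, rfl⟩ := hγ x
    exact congrArg (fun F => F.1 y) hfg
  have hGbij : Function.Bijective G := hGinj.bijective_of_nat_card_le (hcP.trans hcard.ge)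
  intro f hf
  have hf0 : γ f = 0 := hf
  have hfm : f ∈ maximalIdeal (MvPowerSeries (Fin d) 𝒪) := by
    intro hu
    have h1 := hu.map γ
    rw [hf0] at h1
    exact not_isUnit_zero h1
  by_contra hfQ
  obtain ⟨F, hF, hFf⟩ := exists_map_DN_of_notMem hP Q hQ1 hQ2 hQm hfm hfQ
  obtain ⟨F', hF'⟩ := hGbij.2 ⟨F, hF⟩
  apply hFf
  have h1 : F = F'.1.comp γ := (congrArg Subtype.val hF').symm
  rw [h1, AlgHom.comp_apply, hf0, map_zero]

section step

variable {𝒪 : Type} [CommRing 𝒪] [IsDomain 𝒪] [IsDiscreteValuationRing 𝒪]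
  [IsAdicComplete (maximalIdeal 𝒪) 𝒪] [Finite (ResidueField 𝒪)]
  {ρbar : ResidualGaloisRep (ResidueField 𝒪)}

/-- **Obstructions for the universal deformation ring.** -/
theorem exists_obstruction_hom {S : Finset ℕ} {S' : Finset Nat.Primes}
    (hS' : ∀ q : Nat.Primes, q ∈ S' ↔ (q : ℕ) ∈ S)
    (DQ : DeformationRingData 𝒪 ρbar (UnrT 𝒪 S))
    {b : Module.Basis (Fin 2) (ResidueField 𝒪) ρbar.V} {D : Dat 𝒪} (hD : Compat D ρbar b)
    {p : ℕ} [Algebra (ZMod p) (ResidueField 𝒪)]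
    {A B : Type} [CommRing A] [IsLocalRing A] [Algebra 𝒪 A] [CommRing B] [IsLocalRing B]
    [Algebra 𝒪 B] [Finite A] [Finite B] (hA : PreTest 𝒪 A) (π : A →ₐ[𝒪] B)
    (hπ : Function.Surjective π) {V : Ideal A} (hVker : ∀ a, a ∈ V ↔ π a = 0)
    (hV : ∀ a ∈ maximalIdeal A, ∀ v ∈ V, a * v = 0)
    (f : DQ.R →ₐ[𝒪] B) (hf : IsLocalHom (f : DQ.R →+* B)) :
    ∃ Ob : (V →ₗ[𝒪] ResidueField 𝒪) →+ H2 (levS S') (MT (adRep p (rbM ρbar b))),
      ∀ φ : V →ₗ[𝒪] ResidueField 𝒪, φ ≠ 0 → Ob φ = 0 →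
        ∀ (π' : (A ⧸ kerPhi hV hA φ) →ₐ[𝒪] B), (∀ a, π' (Ideal.Quotient.mk _ a) = π a) →
        ∀ [IsLocalRing (A ⧸ kerPhi hV hA φ)],
        ∃ f' : DQ.R →ₐ[𝒪] (A ⧸ kerPhi hV hA φ),
          IsLocalHom (f' : DQ.R →+* (A ⧸ kerPhi hV hA φ)) ∧ π'.comp f' = f := by
  have hrb' : ∀ σ i j, residue 𝒪 (D.cf σ i j) = rbM ρbar b σ i j := fun σ i j => by
    rw [hD σ i j, rbM_apply]
  have hB : PreTest 𝒪 B := Fermat.Agent.H04.preTest_of_surjective π hπ hA
  have hBc : IsAdicComplete (maximalIdeal B) B := by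
    obtain ⟨n, hn⟩ := exists_pow_eq_bot B
    exact isAdicComplete_of_pow _ n hn
  have hlB : IsLocalHom (algebraMap 𝒪 B) := hB.isLocalHom
  obtain ⟨r0, hr0, hred0, heq0⟩ := Fermat.Agent.H04.exists_mat hD
    (IsLocalRing.ResidueField.map (algebraMap 𝒪 DQ.R)) (fun c => rfl) DQ.ρ DQ.residual_isEquiv
  obtain ⟨r, hr, heq⟩ := Fermat.Agent.H04.exists_isNRep (D := D) DQ.instIsLocalHom r0 hr0 hred0
  have hrρ : (ofMat r hr.cont).IsEquiv DQ.ρ := by
    obtain ⟨e1⟩ := heq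
    obtain ⟨e0⟩ := heq0
    exact ⟨e1.trans e0.symm⟩
  have hbase : ∀ {C : Type} [CommRing C] [IsLocalRing C] [Algebra 𝒪 C] (φ : DQ.R →ₐ[𝒪] C)
      (hφ : IsLocalHom (φ : DQ.R →+* C)),
      (DQ.ρ.baseChangeAlong (φ : DQ.R →+* C) hφ).IsEquiv
        (ofMat (mapM (φ : DQ.R →+* C) r) (hr.cont.map _ hφ)) := by
    intro C _ _ _ φ hφ
    obtain ⟨e1⟩ := Fermat.Agent.H04.ofMat_baseChange r hr.cont (φ : DQ.R →+* C) hφ
    obtain ⟨e2⟩ := hrρ
    exact ⟨(e2.symm.baseChangeAlong _ hφ).trans e1⟩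
  -- the deformation to `B`
  have hsN := hr.map f hf
  have hlev : (levS S').isOpen (mapM (f : DQ.R →+* B) r).ker :=
    level_of_unr_fin hsN.cont (fun q hq hqS => H19.isUnramifiedAt_of_isEquiv (hbase f hf)
      (H19.isUnramifiedAt_baseChangeAlong _ hf (DQ.isOfType q hq hqS)))
      fun q hq h => hq ((hS' q).2 h)
  have hkey : ∀ {C : Type} [CommRing C] [IsLocalRing C] [Algebra 𝒪 C] [Finite C]
      (_ : PreTest 𝒪 C) (π : C →ₐ[𝒪] B) (_ : Function.Surjective π) (s' : GQ →* M2 C)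
      (_ : mapM (π : C →+* B) s' = mapM (f : DQ.R →+* B) r) (_ : (levS S').isOpen s'.ker)
      (_ : ∀ σ, RM (s' σ) (rbM ρbar b σ)),
      ∃ f' : DQ.R →ₐ[𝒪] C, IsLocalHom (f' : DQ.R →+* C) ∧ π.comp f' = f := by
    intro C _ _ _ _ hC π hπ s' h1 h2 h3
    have hCc : IsAdicComplete (maximalIdeal C) C := by
      obtain ⟨n, hn⟩ := exists_pow_eq_bot C
      exact isAdicComplete_of_pow _ n hn
    have hlC : IsLocalHom (algebraMap 𝒪 C) := hC.isLocalHom
    have hπl : IsLocalHom (π : C →+* B) := IsLocalHom.of_surjective (π : C →+* B) hπ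
    have hs' := cont_of_level h2
    have hred' := (rm_iff hlC hrb' s').1 h3
    have htype : UnrT 𝒪 S (ofMat s' hs') := fun q hq hqS =>
      unr_of_level h2 (fun q hq h => hq ((hS' q).1 h)) q hq hqS
    obtain ⟨f', ⟨hf', heq'⟩, -⟩ := DQ.universal C (Fermat.Agent.H04.preTest_iff.1 hC).2
      (ofMat s' hs') htype (Fermat.Agent.H04.residual_ofMat hD
        (IsLocalRing.ResidueField.map (algebraMap 𝒪 C)) (fun c => rfl) s' hs' hred')
    refine ⟨f', hf', ?_⟩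
    have hg : IsLocalHom ((π.comp f' : DQ.R →ₐ[𝒪] B) : DQ.R →+* B) := by
      constructor
      intro x hx
      exact hf'.map_nonunit _ (hπl.map_nonunit _ hx)
    have hgN := hr.map (π.comp f') hg
    -- `ofMat (mapM g r) ≅ ofMat (mapM f r)`
    have e1 : (ofMat (mapM (f' : DQ.R →+* C) r) (hr.cont.map _ hf')).IsEquiv (ofMat s' hs') := by
      obtain ⟨a⟩ := hbase f' hf'
      obtain ⟨c⟩ := heq'
      exact ⟨a.symm.trans c⟩
    have e2 : (ofMat (mapM (π : C →+* B) (mapM (f' : DQ.R →+* C) r))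
        ((hr.cont.map _ hf').map _ hπl)).IsEquiv (ofMat (mapM (π : C →+* B) s')
        (hs'.map _ hπl)) := by
      obtain ⟨a⟩ := Fermat.Agent.H04.ofMat_baseChange (mapM (f' : DQ.R →+* C) r)
        (hr.cont.map _ hf') (π : C →+* B) hπl
      obtain ⟨c⟩ := Fermat.Agent.H04.ofMat_baseChange s' hs' (π : C →+* B) hπl
      obtain ⟨d⟩ := e1
      exact ⟨(a.symm.trans (d.baseChangeAlong _ hπl)).trans c⟩
    have e3 : (ofMat (mapM ((π.comp f' : DQ.R →ₐ[𝒪] B) : DQ.R →+* B) r) hgN.cont).IsEquiv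
        (ofMat (mapM (f : DQ.R →+* B) r) hsN.cont) := by
      have h4 : ofMat (mapM (π : C →+* B) s') (hs'.map _ hπl) =
        ofMat (mapM (f : DQ.R →+* B) r) hsN.cont := by congr 1
      rw [← h4]
      exact e2
    have e4 := Fermat.Agent.H04.IsNRep.eq_of_isEquiv hlB hgN hsN e3
    obtain ⟨χ, -, hχ⟩ := DQ.universal B (Fermat.Agent.H04.preTest_iff.1 hB).2
      (ofMat (mapM (f : DQ.R →+* B) r) hsN.cont)
      (fun q hq hqS => H19.isUnramifiedAt_of_isEquiv (hbase f hf)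
        (H19.isUnramifiedAt_baseChangeAlong _ hf (DQ.isOfType q hq hqS)))
      (Fermat.Agent.H04.residual_ofMat hD
        (IsLocalRing.ResidueField.map (algebraMap 𝒪 B)) (fun c => rfl) _ hsN.cont hsN.red)
    have u1 := hχ f ⟨hf, hbase f hf⟩
    have u2 := hχ (π.comp f') ⟨hg, by
      have h5 := hbase (π.comp f') hg
      have h6 : ofMat (mapM ((π.comp f' : DQ.R →ₐ[𝒪] B) : DQ.R →+* B) r) (hr.cont.map _ hg) =
          ofMat (mapM (f : DQ.R →+* B) r) hsN.cont := by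
        congr 1
      rw [h6] at h5
      exact h5⟩
    rw [u1, u2]
  obtain ⟨Ob, hOb⟩ := exists_obstruction (p := p) hA π hπ hVker hV (mapM (f : DQ.R →+* B) r) hlev
    ((rm_iff hlB hrb' _).2 hsN.red)
  refine ⟨Ob, fun φ hφ0 hφ π' hπ' hloc' => ?_⟩
  obtain ⟨s', h1, h2, h3⟩ := hOb φ hφ0 hφ π' hπ'
  have hfin' : Finite (A ⧸ kerPhi hV hA φ) :=
    Finite.of_surjective _ Ideal.Quotient.mk_surjective
  exact hkey (Fermat.Agent.H04.preTest_of_surjective (Ideal.Quotient.mkₐ 𝒪 _)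
    (Ideal.Quotient.mkₐ_surjective _ _) hA) π' (fun y => by
      obtain ⟨a, rfl⟩ := hπ y
      exact ⟨Ideal.Quotient.mk _ a, hπ' a⟩) s' h1 h2 h3

end step

end Fermat.Agent.Cor.DefCond

end
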