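import Fermat.Agent.Cor.DefCondL
import Fermat.Agent.Cor.DefCondP

/-!
# Mazur's presentation of the universal deformation ring

`p` odd, `ρbar : Gal(ℚ̄/ℚ) → GL₂(k)` absolutely irreducible, unramified outside the finite set
`S ∋ p`, and `R` its universal deformation ring (deformations unramified outside `S`).

* `mazur_presentation`: `R ≅ 𝒪⟦X₁, …, X_d⟧ / (f₁, …, f_r)` with `(#k) ^ d = #H¹(G_S, ad ρbar)` and
  `(#k) ^ r ≤ #H²(G_S, ad ρbar)`.
* `mazur_presentation_of_odd`: if `ρbar` is odd, then `r + 3 ≤ d`.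
* `four_le_ringKrullDim`: if `ρbar` is odd, then `R` has Krull dimension at least `4`.
-/

set_option autoImplicit false
set_option linter.unusedSectionVars false

noncomputable section

namespace Fermat.Agent.Cor.DefCond

open IsLocalRing GaloisRep Matrix Fermat.Agent.CC Fermat.Agent.TW
open Fermat.Agent.H04 (DN M2 Dat IsCont IsNRep ofMat Compat mapM PreTest)
open Fermat.Agent.L00.Tr (MT)

section dim

theorem le_of_add_le {x : WithBot ℕ∞} {a r : ℕ}
    (h : ((a + r : ℕ) : WithBot ℕ∞) ≤ x + ((r : ℕ) : WithBot ℕ∞)) :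
    ((a : ℕ) : WithBot ℕ∞) ≤ x := by
  induction x with
  | bot =>
    rw [WithBot.bot_add, le_bot_iff] at h
    exact absurd h (WithBot.natCast_ne_bot _)
  | coe x =>
    induction x with
    | top => exact WithBot.coe_le_coe.2 le_top
    | coe n =>
      have h1 : ((a + r : ℕ) : ℕ∞) ≤ ((n + r : ℕ) : ℕ∞) := by
        have h2 : ((a + r : ℕ) : WithBot ℕ∞) ≤ (((n + r : ℕ) : ℕ∞) : WithBot ℕ∞) := by
          refine h.trans (le_of_eq ?_)
          push_cast
          rfl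
        exact WithBot.coe_le_coe.1 h2
      have h3 : a + r ≤ n + r := Nat.cast_le.1 h1
      exact WithBot.coe_le_coe.2 (Nat.cast_le.2 (by omega))

theorem le_ringKrullDim_powerSeries (𝒪 : Type) [CommRing 𝒪] [IsDomain 𝒪]
    [IsDiscreteValuationRing 𝒪] (d : ℕ) :
    ((d + 1 : ℕ) : WithBot ℕ∞) ≤ ringKrullDim (MvPowerSeries (Fin d) 𝒪) := by
  induction d with
  | zero =>
    have h := ringKrullDim_le_of_surjective (MvPowerSeries.constantCoeff (σ := Fin 0) (R := 𝒪))
      (fun c => ⟨MvPowerSeries.C c, by simp⟩)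
    rw [IsDiscreteValuationRing.ringKrullDim_eq_one] at h
    simpa using h
  | succ d ih =>
    have hinj : Function.Injective (Fin.succ : Fin d → Fin (d + 1)) := Fin.succ_injective d
    have h := ringKrullDim_succ_le_of_surjective
      (MvPowerSeries.killCompl (R := 𝒪) (⟨Fin.succ, hinj⟩ : Fin d ↪ Fin (d + 1))).toRingHom
      (fun y => ⟨_, MvPowerSeries.killCompl_rename_app y⟩)
      (r := MvPowerSeries.X 0) MvPowerSeries.X_mem_nonzeroDivisors
      (MvPowerSeries.killCompl_X_eq_zero (by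
        rintro ⟨i, hi⟩
        exact Fin.succ_ne_zero i hi))
    refine le_trans ?_ h
    push_cast at ih ⊢
    exact add_le_add_left ih 1

end dim

section fin

variable {k : Type} [Field k]

theorem finite_H2_ad [Finite k] {p : ℕ} [hpf : Fact p.Prime] [Algebra (ZMod p) k] (hp2 : p ≠ 2)
    {S : Finset Nat.Primes} (hpS : pP p ∈ S) (ρbar : ResidualGaloisRep k)
    (b : Module.Basis (Fin 2) k ρbar.V)
    (hunr : ∀ q : Nat.Primes, q ∉ S → ρbar.IsUnramifiedAt q) :
    Finite (H2 (levS S) (MT (adRep p (rbM ρbar b)))) := by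
  have hfin : Finite (adRep p (rbM ρbar b)) := inferInstanceAs (Finite (Fin 2 → Fin 2 → k))
  have : FiniteDimensional (ZMod p) (adRep p (rbM ρbar b)) := Module.Finite.of_finite
  have hpr := Fermat.Agent.L00.Tr.pr_ePair (adRep p (rbM ρbar b)) hpS
    (fun m => by
      obtain ⟨L, hL, h⟩ := ρbar.factorsThroughFiniteLevel
      refine ⟨L, hL, fun σ hσ => ?_⟩
      have h1 : rbM ρbar b σ = 1 := rbM_eq_one ρbar b (h σ fun x hx =>
        (IntermediateField.mem_fixingSubgroup_iff L σ).1 hσ x hx)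
      change adRho p (rbM ρbar b) σ m = m
      rw [adRho_eq_one h1]
      rfl) (fun q hq A hA g hg => adRho_eq_one (rbM_eq_one ρbar b (hunr q hq A hA g hg)))
  exact PT.finite_H2 hp2 hpS hpr

end fin

section main

variable {𝒪 : Type} [CommRing 𝒪] [IsDomain 𝒪] [IsDiscreteValuationRing 𝒪]
  [IsAdicComplete (maximalIdeal 𝒪) 𝒪] [Finite (ResidueField 𝒪)]
  {ρbar : ResidualGaloisRep (ResidueField 𝒪)}

/-- **Mazur's presentation of the universal deformation ring**: `p` odd, `ρbar` absolutely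
irreducible and unramified outside the finite set `S ∋ p`. The universal deformation ring is
`𝒪⟦X₁, …, X_d⟧ / (f₁, …, f_r)` with `(#k) ^ d = #H¹(G_S, ad ρbar)` and
`(#k) ^ r ≤ #H²(G_S, ad ρbar)`. -/
theorem mazur_presentation {p : ℕ} (hp : p.Prime) (hp2 : p ≠ 2)
    [Algebra (ZMod p) (ResidueField 𝒪)] (S : Finset ℕ) (hpS : p ∈ S)
    (hunr : ∀ q : ℕ, q.Prime → q ∉ S → ρbar.IsUnramifiedAt q)
    (DQ : DeformationRingData 𝒪 ρbar (UnrT 𝒪 S)) :
    ∃ (b : Module.Basis (Fin 2) (ResidueField 𝒪) ρbar.V) (d r : ℕ)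
      (F : Fin r → MvPowerSeries (Fin d) 𝒪),
      Nat.card (ResidueField 𝒪) ^ d =
        Nat.card (H1 (levS (S.subtype Nat.Prime)) (MT (adRep p (rbM ρbar b)))) ∧
      Nat.card (ResidueField 𝒪) ^ r ≤
        Nat.card (H2 (levS (S.subtype Nat.Prime)) (MT (adRep p (rbM ρbar b)))) ∧
      Nonempty ((MvPowerSeries (Fin d) 𝒪 ⧸ Ideal.span (Set.range F)) ≃ₐ[𝒪] DQ.R) := by
  have hpf : Fact p.Prime := ⟨hp⟩
  obtain ⟨b, D, hD⟩ := Fermat.Agent.H04.exists_dat ρbar DQ.absIrr
  have hS' : ∀ q : Nat.Primes, q ∈ S.subtype Nat.Prime ↔ (q : ℕ) ∈ S := fun q =>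
    Finset.mem_subtype
  have hpS' : pP p ∈ S.subtype Nat.Prime := (hS' _).2 hpS
  have hunr' : ∀ q : Nat.Primes, q ∉ S.subtype Nat.Prime → ρbar.IsUnramifiedAt q :=
    fun q hq => hunr q q.2 fun h => hq ((hS' q).2 h)
  have hfin1 : Finite (H1 (levS (S.subtype Nat.Prime)) (MT (adRep p (rbM ρbar b)))) :=
    finite_H1_ad hp2 hpS' ρbar b hunr'
  have hfin2 : Finite (H2 (levS (S.subtype Nat.Prime)) (MT (adRep p (rbM ρbar b)))) :=
    finite_H2_ad hp2 hpS' ρbar b hunr'
  obtain ⟨F, hF⟩ := card_hom_eq hS' DQ hunr hD (p := p)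
  have hR : PreTest 𝒪 DQ.R := Fermat.Agent.H04.preTest_iff.mpr
    ⟨DQ.instIsLocalHom, DQ.residue_surjective⟩
  have hfinH : Finite {f : DQ.R →ₐ[𝒪] DN 𝒪 // IsLocalHom (f : DQ.R →+* DN 𝒪)} :=
    Finite.of_injective _ hF.1
  obtain ⟨d, hd⟩ := exists_card_hom hR hfinH
  obtain ⟨γ, hγ, hker⟩ := exists_presentation hR d hfinH hd
  have hP : PreTest 𝒪 (MvPowerSeries (Fin d) 𝒪) := preTest_powerSeries
  obtain ⟨r, G, hG, hr⟩ := relations_bound hP γ hγ hker
    (H := H2 (levS (S.subtype Nat.Prime)) (MT (adRep p (rbM ρbar b))))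
    (fun {A B} _ _ _ _ _ _ _ _ hA π hπ V hVker hV f hf =>
      exists_obstruction_hom hS' DQ hD hA π hπ hVker hV f hf)
  refine ⟨b, d, r, G, ?_, hr, ?_⟩
  · rw [← hd]
    exact Nat.card_congr (Equiv.ofBijective F hF)
  · rw [← hG]
    exact ⟨Ideal.quotientKerAlgEquivOfSurjective hγ⟩

/-- **Mazur**: if moreover `ρbar` is odd, there are at least three more variables than relations. -/
theorem mazur_presentation_of_odd {p : ℕ} (hp : p.Prime) (hp2 : p ≠ 2)
    [CharP (ResidueField 𝒪) p] (hodd : ρbar.IsOdd) (S : Finset ℕ) (hpS : p ∈ S)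
    (hunr : ∀ q : ℕ, q.Prime → q ∉ S → ρbar.IsUnramifiedAt q)
    (DQ : DeformationRingData 𝒪 ρbar (UnrT 𝒪 S)) :
    ∃ (d r : ℕ) (F : Fin r → MvPowerSeries (Fin d) 𝒪), r + 3 ≤ d ∧
      Nonempty ((MvPowerSeries (Fin d) 𝒪 ⧸ Ideal.span (Set.range F)) ≃ₐ[𝒪] DQ.R) := by
  have hpf : Fact p.Prime := ⟨hp⟩
  let _ : Algebra (ZMod p) (ResidueField 𝒪) := ZMod.algebra _ p
  have hS' : ∀ q : Nat.Primes, q ∈ S.subtype Nat.Prime ↔ (q : ℕ) ∈ S := fun q =>
    Finset.mem_subtype
  have hpS' : pP p ∈ S.subtype Nat.Prime := (hS' _).2 hpS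
  have hunr' : ∀ q : Nat.Primes, q ∉ S.subtype Nat.Prime → ρbar.IsUnramifiedAt q :=
    fun q hq => hunr q q.2 fun h => hq ((hS' q).2 h)
  obtain ⟨b, d, r, F, hd, hr, hF⟩ := mazur_presentation hp hp2 S hpS hunr DQ
  refine ⟨d, r, F, ?_, hF⟩
  have hcard := card_H1_ad hp2 hpS' ρbar DQ.absIrr hodd b hunr'
  have h1 : Nat.card (ResidueField 𝒪) ^ (r + 3) ≤ Nat.card (ResidueField 𝒪) ^ d := by
    rw [hd, hcard, pow_add, mul_comm]
    exact Nat.mul_le_mul_left _ hr
  exact (Nat.pow_le_pow_iff_right Finite.one_lt_card).1 h1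

/-- **Mazur**: `p` odd, `ρbar` odd, absolutely irreducible, unramified outside the finite set
`S ∋ p`. The universal deformation ring has Krull dimension at least `4`. -/
theorem four_le_ringKrullDim {p : ℕ} (hp : p.Prime) (hp2 : p ≠ 2)
    [CharP (ResidueField 𝒪) p] (hodd : ρbar.IsOdd) (S : Finset ℕ) (hpS : p ∈ S)
    (hunr : ∀ q : ℕ, q.Prime → q ∉ S → ρbar.IsUnramifiedAt q)
    (DQ : DeformationRingData 𝒪 ρbar (UnrT 𝒪 S)) :
    4 ≤ ringKrullDim DQ.R := by
  classical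
  obtain ⟨d, r, F, hdr, ⟨e⟩⟩ := mazur_presentation_of_odd hp hp2 hodd S hpS hunr DQ
  have hle : Ideal.span (Set.range F) ≤ maximalIdeal (MvPowerSeries (Fin d) 𝒪) := by
    refine IsLocalRing.le_maximalIdeal fun h => ?_
    have h1 : (Ideal.Quotient.mk (Ideal.span (Set.range F)) 1) = 0 :=
      Ideal.Quotient.eq_zero_iff_mem.2 (h ▸ Submodule.mem_top)
    have h2 := congrArg e h1
    rw [map_one, map_one, map_zero] at h2
    exact one_ne_zero h2
  have h1 := ringKrullDim_le_ringKrullDim_quotient_add_card (Finset.univ.image F) (by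
    rw [Finset.coe_image, Finset.coe_univ, Set.image_univ, IsLocalRing.ringJacobson_eq_maximalIdeal]
    exact fun x hx => hle (Ideal.subset_span hx))
  rw [Finset.coe_image, Finset.coe_univ, Set.image_univ,
    ringKrullDim_eq_of_ringEquiv e.toRingEquiv] at h1
  have h2 : ((Finset.univ.image F).card : WithBot ℕ∞) ≤ ((r : ℕ) : WithBot ℕ∞) := by
    have h3 : (Finset.univ.image F).card ≤ r :=
      Finset.card_image_le.trans (by rw [Finset.card_univ, Fintype.card_fin])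
    exact_mod_cast h3
  have h3 := (le_ringKrullDim_powerSeries 𝒪 d).trans (h1.trans (add_le_add_right h2 _))
  have h4 : ((4 + r : ℕ) : WithBot ℕ∞) ≤ ((d + 1 : ℕ) : WithBot ℕ∞) := by
    have : 4 + r ≤ d + 1 := by omega
    exact_mod_cast this
  exact le_of_add_le (h4.trans h3)

end main

end Fermat.Agent.Cor.DefCond

end
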