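import Fermat.Agent.Cor.DefCondQ

/-!
# Mazur's presentation, in terms of the continuous cohomology of the prelude

The cardinalities of `H¹(G_S, ad ρbar)` and `H²(G_S, ad ρbar)` do not depend on the basis; the
presentation theorem for all bases, with `continuousH1S` and `continuousH2S`.
-/

set_option autoImplicit false
set_option linter.unusedSectionVars false

noncomputable section

namespace Fermat.Agent.Cor.DefCond

open IsLocalRing GaloisRep Matrix Fermat.Agent.CC Fermat.Agent.TW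
open Fermat.Agent.H04 (DN M2 Dat IsCont IsNRep ofMat Compat mapM PreTest)
open Fermat.Agent.L00.Tr (MT)

section coef

variable {G : Type*} [Group G] (𝓛 : Lev G) {A B : Type*} [AddCommGroup A] [AddCommGroup B]
  [DistribMulAction G A] [DistribMulAction G B]

theorem card_H1_of_equiv (f : A →+ B) (hf : ∀ (g : G) (a : A), f (g • a) = g • f a)
    (f' : B →+ A) (hf' : ∀ (g : G) (a : B), f' (g • a) = g • f' a) (h : ∀ a, f' (f a) = a)
    (h' : ∀ b, f (f' b) = b) : Nat.card (H1 𝓛 A) = Nat.card (H1 𝓛 B) := by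
  refine Nat.card_congr ⟨H1coef 𝓛 f hf, H1coef 𝓛 f' hf', fun x => ?_, fun x => ?_⟩
  · obtain ⟨z, rfl⟩ := H1.mk_surjective x
    change H1.mk _ _ _ = _
    congr 1
    exact Subtype.ext (funext fun σ => h _)
  · obtain ⟨z, rfl⟩ := H1.mk_surjective x
    change H1.mk _ _ _ = _
    congr 1
    exact Subtype.ext (funext fun σ => h' _)

theorem card_H2_of_equiv (f : A →+ B) (hf : ∀ (g : G) (a : A), f (g • a) = g • f a)
    (f' : B →+ A) (hf' : ∀ (g : G) (a : B), f' (g • a) = g • f' a) (h : ∀ a, f' (f a) = a)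
    (h' : ∀ b, f (f' b) = b) : Nat.card (H2 𝓛 A) = Nat.card (H2 𝓛 B) := by
  refine Nat.card_congr ⟨H2coef 𝓛 f hf, H2coef 𝓛 f' hf', fun x => ?_, fun x => ?_⟩
  · obtain ⟨z, rfl⟩ := H2.mk_surjective x
    change H2.mk _ _ _ = _
    congr 1
    exact Subtype.ext (funext fun σ => funext fun τ => h _)
  · obtain ⟨z, rfl⟩ := H2.mk_surjective x
    change H2.mk _ _ _ = _
    congr 1
    exact Subtype.ext (funext fun σ => funext fun τ => h' _)

end coef

section basis

variable {k : Type} [Field k] {ρbar : ResidualGaloisRep k} (p : ℕ) [Algebra (ZMod p) k]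
  (b b' : Module.Basis (Fin 2) k ρbar.V)

/-- change of basis -/
def conjB : MT (adRep p (rbM ρbar b')) →+ MT (adRep p (rbM ρbar b)) where
  toFun X := inM p _ (b.toMatrix b' * unM X * b'.toMatrix b)
  map_zero' := by
    change b.toMatrix b' * (0 : Mt k) * b'.toMatrix b = 0
    rw [mul_zero, zero_mul]
  map_add' X Y := by
    change b.toMatrix b' * (unM X + unM Y) * b'.toMatrix b =
      b.toMatrix b' * unM X * b'.toMatrix b + b.toMatrix b' * unM Y * b'.toMatrix b
    rw [mul_add, add_mul]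

theorem conjB_conjB (X : MT (adRep p (rbM ρbar b))) : conjB p b b' (conjB p b' b X) = X := by
  change b.toMatrix b' * (b'.toMatrix b * unM X * b.toMatrix b') * b'.toMatrix b = unM X
  have h1 : b.toMatrix b' * b'.toMatrix b = (1 : Mt k) := by
    rw [Module.Basis.toMatrix_mul_toMatrix_flip]
  calc b.toMatrix b' * (b'.toMatrix b * unM X * b.toMatrix b') * b'.toMatrix b
      = (b.toMatrix b' * b'.toMatrix b) * unM X * (b.toMatrix b' * b'.toMatrix b) := by
        simp only [mul_assoc]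
    _ = _ := by rw [h1, one_mul, mul_one]

theorem conjB_smul (σ : GQ) (X : MT (adRep p (rbM ρbar b'))) :
    conjB p b b' (σ • X) = σ • conjB p b b' X := by
  change b.toMatrix b' * (rbM ρbar b' σ * (unM X * rbM ρbar b' σ⁻¹)) * b'.toMatrix b =
    rbM ρbar b σ * ((b.toMatrix b' * unM X * b'.toMatrix b) * rbM ρbar b σ⁻¹)
  have hQP : b'.toMatrix b * b.toMatrix b' = (1 : Mt k) := by
    rw [Module.Basis.toMatrix_mul_toMatrix_flip]
  have hPQ : b.toMatrix b' * b'.toMatrix b = (1 : Mt k) := by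
    rw [Module.Basis.toMatrix_mul_toMatrix_flip]
  have hc : ∀ σ, b.toMatrix b' * rbM ρbar b' σ = rbM ρbar b σ * b.toMatrix b' := by
    intro σ
    rw [rbM_apply, rbM_apply, basis_toMatrix_mul_linearMap_toMatrix,
      linearMap_toMatrix_mul_basis_toMatrix]
  have h1 : rbM ρbar b' σ⁻¹ * b'.toMatrix b = b'.toMatrix b * rbM ρbar b σ⁻¹ := by
    have h2 := hc σ⁻¹
    calc rbM ρbar b' σ⁻¹ * b'.toMatrix b
        = b'.toMatrix b * b.toMatrix b' * (rbM ρbar b' σ⁻¹ * b'.toMatrix b) := by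
          rw [hQP, one_mul]
      _ = b'.toMatrix b * (b.toMatrix b' * rbM ρbar b' σ⁻¹) * b'.toMatrix b := by
          simp only [mul_assoc]
      _ = b'.toMatrix b * rbM ρbar b σ⁻¹ * (b.toMatrix b' * b'.toMatrix b) := by
          rw [h2]; simp only [mul_assoc]
      _ = _ := by rw [hPQ, mul_one]
  calc b.toMatrix b' * (rbM ρbar b' σ * (unM X * rbM ρbar b' σ⁻¹)) * b'.toMatrix b
      = (b.toMatrix b' * rbM ρbar b' σ) * unM X * (rbM ρbar b' σ⁻¹ * b'.toMatrix b) := by
        simp only [mul_assoc]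
    _ = _ := by rw [hc, h1]; simp only [mul_assoc]

/-- the cardinality of `H¹(G_S, ad ρbar)` does not depend on the basis -/
theorem card_H1_basis (S' : Finset Nat.Primes) :
    Nat.card (H1 (levS S') (MT (adRep p (rbM ρbar b)))) =
      Nat.card (H1 (levS S') (MT (adRep p (rbM ρbar b')))) :=
  card_H1_of_equiv _ (conjB p b' b) (conjB_smul p b' b) (conjB p b b') (conjB_smul p b b')
    (conjB_conjB p b b') (conjB_conjB p b' b)

/-- the cardinality of `H²(G_S, ad ρbar)` does not depend on the basis -/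
theorem card_H2_basis (S' : Finset Nat.Primes) :
    Nat.card (H2 (levS S') (MT (adRep p (rbM ρbar b)))) =
      Nat.card (H2 (levS S') (MT (adRep p (rbM ρbar b')))) :=
  card_H2_of_equiv _ (conjB p b' b) (conjB_smul p b' b) (conjB p b b') (conjB_smul p b b')
    (conjB_conjB p b b') (conjB_conjB p b' b)

/-- comparison with the continuous cohomology of the prelude, degree one -/
theorem card_H1_eq_continuousH1S (S' : Finset Nat.Primes) :
    Nat.card (H1 (levS S') (MT (adRep p (rbM ρbar b)))) =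
      Nat.card (groupCohomology.continuousH1S S' (adRep p (rbM ρbar b))) := by
  refine Nat.card_congr (Equiv.ofBijective (fun x =>
    (⟨Fermat.Agent.L00.Tr.Psi1 S' (adRep p (rbM ρbar b)) x,
      (Fermat.Agent.L00.Tr.mem_range_Psi1 S' _ _).2 ⟨x, rfl⟩⟩ :
      groupCohomology.continuousH1S S' (adRep p (rbM ρbar b)))) ⟨?_, ?_⟩)
  · intro x y h
    exact Fermat.Agent.L00.Tr.Psi1_injective S' _ (congrArg Subtype.val h)
  · rintro ⟨y, hy⟩
    obtain ⟨x, rfl⟩ := (Fermat.Agent.L00.Tr.mem_range_Psi1 S' _ _).1 hy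
    exact ⟨x, rfl⟩

/-- comparison with the continuous cohomology of the prelude, degree two -/
theorem card_H2_eq_continuousH2S (S' : Finset Nat.Primes) :
    Nat.card (H2 (levS S') (MT (adRep p (rbM ρbar b)))) =
      Nat.card (groupCohomology.continuousH2S S' (adRep p (rbM ρbar b))) :=
  Nat.card_congr (Equiv.ofBijective _ (Fermat.Agent.L00.Tr.Psi2_bijective S' _))

end basis

section integral

theorem ringKrullDim_le_of_isIntegral (A B : Type*) [CommRing A] [CommRing B] [Algebra A B]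
    [Algebra.IsIntegral A B] : ringKrullDim B ≤ ringKrullDim A := by
  refine Order.krullDim_le_of_strictMono (fun P : PrimeSpectrum B =>
    PrimeSpectrum.comap (algebraMap A B) P) fun P Q hPQ => ?_
  have h1 : P.asIdeal < Q.asIdeal := hPQ
  have h2 : Ideal.comap (algebraMap A B) P.asIdeal < Ideal.comap (algebraMap A B) Q.asIdeal :=
    Ideal.IsIntegral.comap_lt_comap h1
  exact h2

end integral

section main

variable {𝒪 : Type} [CommRing 𝒪] [IsDomain 𝒪] [IsDiscreteValuationRing 𝒪]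
  [IsAdicComplete (maximalIdeal 𝒪) 𝒪] [Finite (ResidueField 𝒪)]
  {ρbar : ResidualGaloisRep (ResidueField 𝒪)}

/-- **Mazur's theorem**: `p` odd, `ρbar` absolutely irreducible and unramified outside the finite
set `S ∋ p`. The universal deformation ring exists and is `𝒪⟦X₁, …, X_d⟧ / (f₁, …, f_r)` with
`(#k) ^ d = #H¹(G_S, ad ρbar)` and `(#k) ^ r ≤ #H²(G_S, ad ρbar)`. -/
theorem exists_mazur_presentation {p : ℕ} (hp : p.Prime) (hp2 : p ≠ 2)
    [CharP (ResidueField 𝒪) p] [Algebra (ZMod p) (ResidueField 𝒪)]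
    (habs : ρbar.IsAbsolutelyIrreducible) (S : Finset ℕ) (hpS : p ∈ S)
    (hunr : ∀ q : ℕ, q.Prime → q ∉ S → ρbar.IsUnramifiedAt q)
    (b : Module.Basis (Fin 2) (ResidueField 𝒪) ρbar.V) :
    ∃ (DQ : DeformationRingData 𝒪 ρbar (UnrT 𝒪 S)) (d r : ℕ)
      (F : Fin r → MvPowerSeries (Fin d) 𝒪),
      Nat.card (ResidueField 𝒪) ^ d =
        Nat.card (groupCohomology.continuousH1S (S.subtype Nat.Prime)
          (adRep p (rbM ρbar b))) ∧
      Nat.card (ResidueField 𝒪) ^ r ≤
        Nat.card (groupCohomology.continuousH2S (S.subtype Nat.Prime)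
          (adRep p (rbM ρbar b))) ∧
      Nonempty ((MvPowerSeries (Fin d) 𝒪 ⧸ Ideal.span (Set.range F)) ≃ₐ[𝒪] DQ.R) := by
  obtain ⟨DQ⟩ := mazur hp hp2 habs S hunr
  obtain ⟨b', d, r, F, hd, hr, hF⟩ := mazur_presentation hp hp2 S hpS hunr DQ
  refine ⟨DQ, d, r, F, ?_, ?_, hF⟩
  · exact hd.trans ((card_H1_basis p b' b (S.subtype Nat.Prime)).trans
      (card_H1_eq_continuousH1S p b (S.subtype Nat.Prime)))
  · exact hr.trans_eq ((card_H2_basis p b' b (S.subtype Nat.Prime)).trans
      (card_H2_eq_continuousH2S p b (S.subtype Nat.Prime)))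

/-- **Mazur's theorem, odd case**: `p` odd, `ρbar` odd, absolutely irreducible and unramified
outside the finite set `S ∋ p`. The universal deformation ring exists, has a presentation with at
least three more variables than relations, and has Krull dimension at least `4`. -/
theorem exists_mazur_odd {p : ℕ} (hp : p.Prime) (hp2 : p ≠ 2)
    [CharP (ResidueField 𝒪) p] (habs : ρbar.IsAbsolutelyIrreducible) (hodd : ρbar.IsOdd)
    (S : Finset ℕ) (hpS : p ∈ S)
    (hunr : ∀ q : ℕ, q.Prime → q ∉ S → ρbar.IsUnramifiedAt q) :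
    ∃ DQ : DeformationRingData 𝒪 ρbar (UnrT 𝒪 S), 4 ≤ ringKrullDim DQ.R ∧
      ∃ (d r : ℕ) (F : Fin r → MvPowerSeries (Fin d) 𝒪), r + 3 ≤ d ∧
        Nonempty ((MvPowerSeries (Fin d) 𝒪 ⧸ Ideal.span (Set.range F)) ≃ₐ[𝒪] DQ.R) := by
  obtain ⟨DQ⟩ := mazur hp hp2 habs S hunr
  exact ⟨DQ, four_le_ringKrullDim hp hp2 hodd S hpS hunr DQ,
    mazur_presentation_of_odd hp hp2 hodd S hpS hunr DQ⟩

/-- `p` odd, `ρbar` odd: the universal deformation ring is not finite over `𝒪`. -/
theorem not_finite_universal {p : ℕ} (hp : p.Prime) (hp2 : p ≠ 2)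
    [CharP (ResidueField 𝒪) p] (hodd : ρbar.IsOdd) (S : Finset ℕ) (hpS : p ∈ S)
    (hunr : ∀ q : ℕ, q.Prime → q ∉ S → ρbar.IsUnramifiedAt q)
    (DQ : DeformationRingData 𝒪 ρbar (UnrT 𝒪 S)) : ¬ Module.Finite 𝒪 DQ.R := by
  intro hfin
  have h1 : ringKrullDim DQ.R ≤ 1 := (ringKrullDim_le_of_isIntegral 𝒪 DQ.R).trans_eq
    (IsDiscreteValuationRing.ringKrullDim_eq_one 𝒪)
  have h2 := (four_le_ringKrullDim hp hp2 hodd S hpS hunr DQ).trans h1
  have h3 : ((4 : ℕ) : WithBot ℕ∞) ≤ ((1 : ℕ) : WithBot ℕ∞) := h2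
  have h4 : 4 ≤ 1 := by exact_mod_cast h3
  omega

end main

end Fermat.Agent.Cor.DefCond

end
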