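import Fermat.Agent.Cor.DefCondR

/-!
# Unobstructed deformation problems

`p` odd, `ρbar` odd, absolutely irreducible and unramified outside the finite set `S ∋ p`, `R` its
universal deformation ring (deformations unramified outside `S`).

* `mazur_presentation_exact`: `R ≅ 𝒪⟦X₁, …, X_{n+3}⟧ / (f₁, …, f_n)`, where
  `#H²(G_S, ad ρbar) = (#k) ^ n` and `#H¹(G_S, ad ρbar) = (#k) ^ (n + 3)`.
* `unobstructed_tfae`: `H²(G_S, ad ρbar) = 0` iff `R ≅ 𝒪⟦X₁, X₂, X₃⟧` iff `R` is a quotient of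
  `𝒪⟦X₁, X₂, X₃⟧` iff `#H¹(G_S, ad ρbar) = (#k) ^ 3`.
-/

set_option autoImplicit false
set_option linter.unusedSectionVars false

noncomputable section

namespace Fermat.Agent.Cor.DefCond

open IsLocalRing GaloisRep Matrix Fermat.Agent.CC Fermat.Agent.TW
open Fermat.Agent.H04 (DN M2 Dat IsCont IsNRep ofMat Compat mapM PreTest)
open Fermat.Agent.L00.Tr (MT)

/-- adding zeros to a list of generators -/
theorem span_pad {P : Type*} [CommRing P] {r n : ℕ} (h : r ≤ n) (F : Fin r → P) :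
    ∃ F' : Fin n → P, Ideal.span (Set.range F') = Ideal.span (Set.range F) := by
  refine ⟨fun i => if hi : (i : ℕ) < r then F ⟨i, hi⟩ else 0, le_antisymm ?_ ?_⟩
  · rw [Ideal.span_le]
    rintro _ ⟨i, rfl⟩
    by_cases hi : (i : ℕ) < r
    · beta_reduce
      rw [dif_pos hi]
      exact Ideal.subset_span ⟨_, rfl⟩
    · beta_reduce
      rw [dif_neg hi]
      exact Ideal.zero_mem _
  · rw [Ideal.span_le]
    rintro _ ⟨i, rfl⟩
    refine Ideal.subset_span ⟨⟨i, i.2.trans_le h⟩, ?_⟩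
    beta_reduce
    rw [dif_pos i.2]

section main

variable {𝒪 : Type} [CommRing 𝒪] [IsDomain 𝒪] [IsDiscreteValuationRing 𝒪]
  [IsAdicComplete (maximalIdeal 𝒪) 𝒪] [Finite (ResidueField 𝒪)]
  {ρbar : ResidualGaloisRep (ResidueField 𝒪)}

/-- Tate's Euler characteristic formula for `ad ρbar`, in terms of the continuous cohomology of the
prelude. -/
theorem card_continuousH1S_ad {p : ℕ} (hp : p.Prime) (hp2 : p ≠ 2)
    [CharP (ResidueField 𝒪) p] [Algebra (ZMod p) (ResidueField 𝒪)]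
    (habs : ρbar.IsAbsolutelyIrreducible) (hodd : ρbar.IsOdd) (S : Finset ℕ) (hpS : p ∈ S)
    (hunr : ∀ q : ℕ, q.Prime → q ∉ S → ρbar.IsUnramifiedAt q)
    (b : Module.Basis (Fin 2) (ResidueField 𝒪) ρbar.V) :
    Nat.card (groupCohomology.continuousH1S (S.subtype Nat.Prime) (adRep p (rbM ρbar b))) =
      Nat.card (ResidueField 𝒪) ^ 3 *
        Nat.card (groupCohomology.continuousH2S (S.subtype Nat.Prime)
          (adRep p (rbM ρbar b))) := by
  have hpf : Fact p.Prime := ⟨hp⟩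
  have hS' : ∀ q : Nat.Primes, q ∈ S.subtype Nat.Prime ↔ (q : ℕ) ∈ S := fun q =>
    Finset.mem_subtype
  have h1 := card_H1_ad hp2 ((hS' _).2 hpS) ρbar habs hodd b
    fun q hq => hunr q q.2 fun h => hq ((hS' q).2 h)
  refine (card_H1_eq_continuousH1S p b (S.subtype Nat.Prime)).symm.trans (h1.trans ?_)
  exact congrArg _ (card_H2_eq_continuousH2S p b (S.subtype Nat.Prime))

/-- **Mazur's presentation**: `R ≅ 𝒪⟦X₁, …, X_{n+3}⟧ / (f₁, …, f_n)` with
`#H²(G_S, ad ρbar) = (#k) ^ n` and `#H¹(G_S, ad ρbar) = (#k) ^ (n + 3)`. -/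
theorem mazur_presentation_exact {p : ℕ} (hp : p.Prime) (hp2 : p ≠ 2)
    [CharP (ResidueField 𝒪) p] [Algebra (ZMod p) (ResidueField 𝒪)] (hodd : ρbar.IsOdd)
    (S : Finset ℕ) (hpS : p ∈ S) (hunr : ∀ q : ℕ, q.Prime → q ∉ S → ρbar.IsUnramifiedAt q)
    (b : Module.Basis (Fin 2) (ResidueField 𝒪) ρbar.V)
    (DQ : DeformationRingData 𝒪 ρbar (UnrT 𝒪 S)) :
    ∃ (n : ℕ) (F : Fin n → MvPowerSeries (Fin (n + 3)) 𝒪),
      Nat.card (groupCohomology.continuousH2S (S.subtype Nat.Prime)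
        (adRep p (rbM ρbar b))) = Nat.card (ResidueField 𝒪) ^ n ∧
      Nat.card (groupCohomology.continuousH1S (S.subtype Nat.Prime)
        (adRep p (rbM ρbar b))) = Nat.card (ResidueField 𝒪) ^ (n + 3) ∧
      Nonempty ((MvPowerSeries (Fin (n + 3)) 𝒪 ⧸ Ideal.span (Set.range F)) ≃ₐ[𝒪] DQ.R) := by
  obtain ⟨b', d, r, F, hd, hr, hF⟩ := mazur_presentation hp hp2 S hpS hunr DQ
  have hcard := card_continuousH1S_ad hp hp2 DQ.absIrr hodd S hpS hunr b
  have hd' := hd.trans ((card_H1_basis p b' b (S.subtype Nat.Prime)).trans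
    (card_H1_eq_continuousH1S p b (S.subtype Nat.Prime)))
  have hr' := hr.trans_eq ((card_H2_basis p b' b (S.subtype Nat.Prime)).trans
    (card_H2_eq_continuousH2S p b (S.subtype Nat.Prime)))
  have hq : 1 < Nat.card (ResidueField 𝒪) := Finite.one_lt_card
  have h1 : r + 3 ≤ d := by
    refine (Nat.pow_le_pow_iff_right hq).1 ?_
    refine le_trans ?_ (hcard.symm.trans hd'.symm).le
    rw [pow_add, mul_comm]
    exact Nat.mul_le_mul_left _ hr'
  obtain ⟨n, rfl⟩ : ∃ n, d = n + 3 := ⟨d - 3, by omega⟩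
  obtain ⟨F', hF'⟩ := span_pad (n := n) (by omega) F
  refine ⟨n, F', ?_, hd'.symm, by rw [hF']; exact hF⟩
  have h2 := hcard.symm.trans hd'.symm
  rw [pow_add, mul_comm (Nat.card (ResidueField 𝒪) ^ n)] at h2
  exact Nat.eq_of_mul_eq_mul_left (pow_pos (by omega) 3) h2

/-- **Unobstructed deformation problems**: `H²(G_S, ad ρbar) = 0` iff `R ≅ 𝒪⟦X₁, X₂, X₃⟧` iff `R` is
a quotient of `𝒪⟦X₁, X₂, X₃⟧` iff `#H¹(G_S, ad ρbar) = (#k) ^ 3`. -/
theorem unobstructed_tfae {p : ℕ} (hp : p.Prime) (hp2 : p ≠ 2)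
    [CharP (ResidueField 𝒪) p] [Algebra (ZMod p) (ResidueField 𝒪)] (hodd : ρbar.IsOdd)
    (S : Finset ℕ) (hpS : p ∈ S) (hunr : ∀ q : ℕ, q.Prime → q ∉ S → ρbar.IsUnramifiedAt q)
    (b : Module.Basis (Fin 2) (ResidueField 𝒪) ρbar.V)
    (DQ : DeformationRingData 𝒪 ρbar (UnrT 𝒪 S)) :
    List.TFAE [
      Subsingleton (groupCohomology.continuousH2S (S.subtype Nat.Prime)
        (adRep p (rbM ρbar b))),
      Nonempty (MvPowerSeries (Fin 3) 𝒪 ≃ₐ[𝒪] DQ.R),
      ∃ γ : MvPowerSeries (Fin 3) 𝒪 →ₐ[𝒪] DQ.R, Function.Surjective γ,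
      Nat.card (groupCohomology.continuousH1S (S.subtype Nat.Prime)
        (adRep p (rbM ρbar b))) = Nat.card (ResidueField 𝒪) ^ 3] := by
  have hpf : Fact p.Prime := ⟨hp⟩
  have hcard := card_continuousH1S_ad hp hp2 DQ.absIrr hodd S hpS hunr b
  have hq : 1 < Nat.card (ResidueField 𝒪) := Finite.one_lt_card
  have hpos : 0 < Nat.card (ResidueField 𝒪) ^ 3 := pow_pos (by omega) 3
  tfae_have 1 → 2 := by
    intro h
    refine mazur_unobstructed hp hp2 hodd S hpS hunr b (fun x => ?_) DQ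
    have hbij := Fermat.Agent.L00.Tr.Psi2_bijective (S.subtype Nat.Prime) (adRep p (rbM ρbar b))
    exact hbij.1 (Subsingleton.elim _ _)
  tfae_have 2 → 3 := by
    rintro ⟨e⟩
    exact ⟨e, e.surjective⟩
  tfae_have 3 → 4 := by
    rintro ⟨γ, hγ⟩
    obtain ⟨b', D, hD⟩ := Fermat.Agent.H04.exists_dat ρbar DQ.absIrr
    have hS' : ∀ q : Nat.Primes, q ∈ S.subtype Nat.Prime ↔ (q : ℕ) ∈ S := fun q =>
      Finset.mem_subtype
    obtain ⟨F, hF⟩ := card_hom_eq hS' DQ hunr hD (p := p)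
    have hγl : IsLocalHom (γ : MvPowerSeries (Fin 3) 𝒪 →+* DQ.R) :=
      IsLocalHom.of_surjective (γ : MvPowerSeries (Fin 3) 𝒪 →+* DQ.R) hγ
    obtain ⟨hfP, hcP⟩ := card_hom_powerSeries (𝒪 := 𝒪) (d := 3)
    let G : {f : DQ.R →ₐ[𝒪] DN 𝒪 // IsLocalHom (f : DQ.R →+* DN 𝒪)} →
        {f : MvPowerSeries (Fin 3) 𝒪 →ₐ[𝒪] DN 𝒪 //
          IsLocalHom (f : MvPowerSeries (Fin 3) 𝒪 →+* DN 𝒪)} := fun f =>
      ⟨f.1.comp γ, ⟨fun x hx => hγl.map_nonunit _ (f.2.map_nonunit _ hx)⟩⟩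
    have hGinj : Function.Injective G := by
      intro f g hfg
      apply Subtype.ext
      ext x
      obtain ⟨y, rfl⟩ := hγ x
      exact congrArg (fun F => F.1 y) hfg
    have h1 : Nat.card (groupCohomology.continuousH1S (S.subtype Nat.Prime)
        (adRep p (rbM ρbar b))) ≤ Nat.card (ResidueField 𝒪) ^ 3 := by
      refine le_trans (le_of_eq ?_) ((Nat.card_le_card_of_injective G hGinj).trans hcP)
      exact ((card_H1_basis p b' b (S.subtype Nat.Prime)).trans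
        (card_H1_eq_continuousH1S p b (S.subtype Nat.Prime))).symm.trans
        (Nat.card_congr (Equiv.ofBijective F hF)).symm
    have hfin2 : Finite (groupCohomology.continuousH2S (S.subtype Nat.Prime)
        (adRep p (rbM ρbar b))) := by
      have h2 : Finite (H2 (levS (S.subtype Nat.Prime)) (MT (adRep p (rbM ρbar b)))) :=
        finite_H2_ad hp2 ((hS' _).2 hpS) ρbar b fun q hq => hunr q q.2 fun h => hq ((hS' q).2 h)
      exact Finite.of_surjective _ (Fermat.Agent.L00.Tr.Psi2_bijective (S.subtype Nat.Prime)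
        (adRep p (rbM ρbar b))).2
    have h2 : 0 < Nat.card (groupCohomology.continuousH2S (S.subtype Nat.Prime)
        (adRep p (rbM ρbar b))) := Nat.card_pos
    refine le_antisymm h1 ?_
    rw [hcard]
    exact Nat.le_mul_of_pos_right _ h2
  tfae_have 4 → 1 := by
    intro h
    rw [hcard] at h
    have h1 : Nat.card (groupCohomology.continuousH2S (S.subtype Nat.Prime)
        (adRep p (rbM ρbar b))) = 1 :=
      Nat.eq_of_mul_eq_mul_left hpos (h.trans (mul_one _).symm)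
    exact (Nat.card_eq_one_iff_unique.1 h1).1
  tfae_finish

end main

end Fermat.Agent.Cor.DefCond

end
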