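import Fermat.Agent.Cor.DefCondI
import Fermat.Agent.CFT.HasseS

/-!
# The cyclotomic character with values in a ring killed by a power of `p`
-/

set_option autoImplicit false
set_option linter.unusedSectionVars false

noncomputable section

namespace Fermat.Agent.Cor.DefCond

open IsLocalRing GaloisRep Matrix Fermat.Agent.CC Fermat.Agent.TW
open Fermat.Agent.H04 (DN M2 Dat IsCont IsNRep ofMat Compat mapM PreTest)

theorem exists_zeta_pow {p : ℕ} (hp : p.Prime) (N : ℕ) : ∃ ζ : Qb, IsPrimitiveRoot ζ (p ^ N) := by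
  have : NeZero (p ^ N) := ⟨pow_ne_zero _ hp.ne_zero⟩
  have : NeZero ((p ^ N : ℕ) : Qb) := ⟨Nat.cast_ne_zero.2 (pow_ne_zero _ hp.ne_zero)⟩
  exact HasEnoughRootsOfUnity.exists_primitiveRoot Qb (p ^ N)

theorem modEq_of_zeta {n a b : ℕ} {ζ : Qb} (hζ : IsPrimitiveRoot ζ n) (h : ζ ^ a = ζ ^ b)
    (h0 : ζ ≠ 0) : a ≡ b [MOD n] := by
  rcases le_total a b with hab | hab
  · refine (Nat.modEq_iff_dvd' hab).2 (hζ.dvd_of_pow_eq_one _ ?_)
    refine mul_left_cancel₀ (pow_ne_zero a h0) ?_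
    rw [← pow_add, Nat.add_sub_cancel' hab, mul_one, h]
  · refine ((Nat.modEq_iff_dvd' hab).2 (hζ.dvd_of_pow_eq_one _ ?_)).symm
    refine mul_left_cancel₀ (pow_ne_zero b h0) ?_
    rw [← pow_add, Nat.add_sub_cancel' hab, mul_one, h]

theorem sub_mem_of_modEq {A : Type} [CommRing A] {n a b : ℕ} (h : a ≡ b [MOD n]) :
    (a : A) - b ∈ Ideal.span {((n : ℕ) : A)} := by
  obtain ⟨k, hk⟩ := Nat.modEq_iff_dvd.1 h
  have h1 := congrArg (Int.cast : ℤ → A) hk
  push_cast at h1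
  rw [Ideal.mem_span_singleton']
  exact ⟨-k, by linear_combination h1⟩

/-- the cyclotomic character with values in `A` -/
theorem exists_cyc {A : Type} [CommRing A] {p : ℕ} (hp : p.Prime) {N : ℕ}
    (hN : ((p ^ N : ℕ) : A) = 0) {S' : Finset Nat.Primes}
    (hpS : ∀ q : Nat.Primes, (q : ℕ) = p → q ∈ S') :
    ∃ c : GQ →* A, (levS S').isOpen c.ker ∧
      ∀ σ (a : ℕ), (∀ x : Qb, x ^ p ^ N = 1 → σ x = x ^ a) → c σ = a := by
  have : NeZero (p ^ N) := ⟨pow_ne_zero _ hp.ne_zero⟩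
  choose a ha using exists_pow_action (p ^ N)
  obtain ⟨ζ, hζ⟩ := exists_zeta_pow hp N
  have hcast : ∀ {m n : ℕ}, ζ ^ m = ζ ^ n → (m : A) = n := by
    intro m n h
    have h1 := sub_mem_of_modEq (A := A) (modEq_of_zeta hζ h (hζ.ne_zero (NeZero.ne _)))
    rw [hN, Ideal.mem_span_singleton'] at h1
    obtain ⟨k, hk⟩ := h1
    rw [mul_zero] at hk
    exact sub_eq_zero.1 hk.symm
  have haζ : ∀ σ : GQ, σ ζ = ζ ^ a σ := fun σ => ha σ ζ hζ.pow_eq_one
  let c : GQ →* A :=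
    { toFun := fun σ => (a σ : A)
      map_one' := by
        have h1 : ζ ^ a 1 = ζ ^ 1 := by
          rw [← haζ, pow_one]
          rfl
        rw [hcast h1, Nat.cast_one]
      map_mul' := fun σ τ => by
        rw [← Nat.cast_mul]
        apply hcast
        rw [← haζ, pow_mul, ← haζ σ]
        change σ (τ ζ) = _
        rw [haζ τ, map_pow] }
  have hc : ∀ σ, c σ = a σ := fun σ => rfl
  refine ⟨c, ?_, fun σ b hb => ?_⟩
  · have hint : IsIntegral ℚ ζ := Algebra.IsIntegral.isIntegral _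
    have : FiniteDimensional ℚ (IntermediateField.adjoin ℚ {ζ}) :=
      IntermediateField.adjoin.finiteDimensional hint
    refine ⟨IntermediateField.adjoin ℚ {ζ}, ⟨inferInstance, ?_⟩, fun t ht => ?_⟩
    · intro q hq B hB σ hσ
      apply Fermat.Agent.CFT.mem_fix_adjoin
      have hqp : (q : ℕ) ≠ p := fun h => hq (hpS q h)
      refine H05.inertia_apply_rootOfUnity (m := p ^ N) q.2 hB ?_ hσ hζ.pow_eq_one
      exact fun h => hqp ((Nat.prime_dvd_prime_iff_eq q.2 hp).1 (q.2.dvd_of_dvd_pow h))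
    · have h1 : t ζ = ζ := (IntermediateField.mem_fixingSubgroup_iff _ _).mp ht _
        (IntermediateField.mem_adjoin_simple_self ℚ _)
      change c t = 1
      rw [hc, ← Nat.cast_one]
      apply hcast
      rw [← haζ, h1, pow_one]
  · rw [hc]
    apply hcast
    rw [← haζ, hb ζ hζ.pow_eq_one]

section det

variable {A : Type} [CommRing A] [IsLocalRing A] {p N : ℕ} {s : GQ →* M2 A} {c : GQ →* A}

theorem det_ofMat (hs : IsCont s) (σ : GQ) : LinearMap.det ((ofMat s hs).ρ σ) = (s σ).det := by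
  change LinearMap.det (Matrix.toLin' (s σ)) = _
  rw [LinearMap.det_toLin']

theorem det_eq_of_cyc (hp : p.Prime) (hN : ((p ^ N : ℕ) : A) = 0)
    (hc : ∀ σ (a : ℕ), (∀ x : Qb, x ^ p ^ N = 1 → σ x = x ^ a) → c σ = a) (hs : IsCont s)
    (h : (ofMat s hs).DetIsCyclotomic p) (σ : GQ) : (s σ).det = c σ := by
  have : NeZero (p ^ N) := ⟨pow_ne_zero _ hp.ne_zero⟩
  obtain ⟨a, ha⟩ := exists_pow_action (p ^ N) σ
  have h1 := h.2 N σ a ha
  rw [hN, Ideal.mem_span_singleton', det_ofMat] at h1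
  obtain ⟨k, hk⟩ := h1
  rw [mul_zero] at hk
  rw [hc σ a ha]
  exact sub_eq_zero.1 hk.symm

theorem detIsCyclotomic_of (hp : p.Prime) (hpA : (p : A) ∈ maximalIdeal A)
    (hc : ∀ σ (a : ℕ), (∀ x : Qb, x ^ p ^ N = 1 → σ x = x ^ a) → c σ = a) (hs : IsCont s)
    (h : ∀ σ, (s σ).det = c σ) : (ofMat s hs).DetIsCyclotomic p := by
  refine ⟨hpA, fun n σ b hb => ?_⟩
  have : NeZero (p ^ max n N) := ⟨pow_ne_zero _ hp.ne_zero⟩
  obtain ⟨a, ha⟩ := exists_pow_action (p ^ max n N) σ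
  have hle : ∀ {m : ℕ}, m ≤ max n N → ∀ x : Qb, x ^ p ^ m = 1 → σ x = x ^ a := by
    intro m hm x hx
    apply ha
    obtain ⟨k, hk⟩ := pow_dvd_pow p hm
    rw [hk, pow_mul, hx, one_pow]
  have h1 := hc σ a (hle (le_max_right _ _))
  rw [det_ofMat, h, h1]
  apply sub_mem_of_modEq
  obtain ⟨ζ, hζ⟩ := exists_zeta_pow hp n
  refine modEq_of_zeta hζ ?_ (hζ.ne_zero (pow_ne_zero _ hp.ne_zero))
  rw [← hle (le_max_left _ _) ζ hζ.pow_eq_one, hb ζ hζ.pow_eq_one]

end det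

end Fermat.Agent.Cor.DefCond

end
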