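import Fermat.Agent.Cor.DefCondM

/-!
# The obstruction map with fixed determinant
-/

set_option autoImplicit false
set_option linter.unusedSectionVars false

noncomputable section

namespace Fermat.Agent.Cor.DefCond

open IsLocalRing GaloisRep Matrix Fermat.Agent.CC Fermat.Agent.TW
open Fermat.Agent.H04 (M2 mapM PreTest)
open Fermat.Agent.L00.Tr (MT)

section first

variable {𝒪 : Type} [CommRing 𝒪] [IsLocalRing 𝒪] {A B : Type} [CommRing A] [IsLocalRing A]
  [Algebra 𝒪 A] [CommRing B] [IsLocalRing B] [Algebra 𝒪 B]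

theorem rd_zero_mem {a : A} (hloc : IsLocalHom (algebraMap 𝒪 A)) (h : Rd (𝒪 := 𝒪) a 0) :
    a ∈ maximalIdeal A := by
  obtain ⟨c, hc, h1⟩ := h
  have h2 : algebraMap 𝒪 A c ∈ maximalIdeal A := fun hu =>
    (residue_eq_zero_iff c).1 hc (hloc.map_nonunit _ hu)
  have h3 := Ideal.add_mem _ h1 h2
  rwa [sub_add_cancel] at h3

/-- the determinant of `M - εX` -/
theorem det_sub_emM {ε : A} (hε : ∀ a ∈ maximalIdeal A, a * ε = 0) (hεm : ε ∈ maximalIdeal A)
    (hloc : IsLocalHom (algebraMap 𝒪 A))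
    {M : M2 A} {N : Mt (ResidueField 𝒪)} (h : RM M N) (X : Mt (ResidueField 𝒪))
    (hX : N 0 0 * X 1 1 + N 1 1 * X 0 0 - N 0 1 * X 1 0 - N 1 0 * X 0 1 = 0) :
    (M - emM ε X).det = M.det := by
  have hee : ∀ x y : ResidueField 𝒪, (em ε x : A) * em ε y = 0 := by
    intro x y
    change ε * _ * (ε * _) = 0
    rw [mul_mul_mul_comm, hε ε hεm, zero_mul]
  have hme : ∀ i j i' j', M i j * em ε (X i' j') = em ε (N i j * X i' j') := by
    intro i j i' j'
    obtain ⟨c, hc, h1⟩ := h i j
    obtain ⟨d, hd⟩ := residue_surjective (X i' j')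
    rw [← hc, ← hd, ← map_mul, em_residue hε hloc, em_residue hε hloc, map_mul]
    have h2 := hε _ h1
    linear_combination (algebraMap 𝒪 A d) * h2
  have h0 : (em ε (0 : ResidueField 𝒪) : A) = 0 := by
    have h4 := em_add hε hloc (0 : ResidueField 𝒪) 0
    rw [add_zero] at h4
    exact left_eq_add.1 h4
  have key : M 0 0 * em ε (X 1 1) + M 1 1 * em ε (X 0 0) =
      M 0 1 * em ε (X 1 0) + M 1 0 * em ε (X 0 1) := by
    rw [hme, hme, hme, hme, ← em_add hε hloc, ← em_add hε hloc]
    congr 1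
    linear_combination hX
  rw [Matrix.det_fin_two, Matrix.det_fin_two]
  change (M 0 0 - em ε (X 0 0)) * (M 1 1 - em ε (X 1 1)) -
    (M 0 1 - em ε (X 0 1)) * (M 1 0 - em ε (X 1 0)) = _
  linear_combination -key + hee (X 0 0) (X 1 1) - hee (X 0 1) (X 1 0)

theorem trace_adj {k : Type} [Field k] {R Y : Mt k} (h : Y.trace = 0) :
    R 0 0 * (Y * R) 1 1 + R 1 1 * (Y * R) 0 0 - R 0 1 * (Y * R) 1 0 - R 1 0 * (Y * R) 0 1 = 0 := by
  rw [Matrix.trace_fin_two] at h
  simp only [Matrix.mul_apply, Fin.sum_univ_two]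
  linear_combination (R 0 0 * R 1 1 - R 0 1 * R 1 0) * h

theorem trace_of_adj {k : Type} [Field k] {R R' X : Mt k} (hR : R * R' = 1)
    (h : R 0 0 * X 1 1 + R 1 1 * X 0 0 - R 0 1 * X 1 0 - R 1 0 * X 0 1 = 0) :
    (X * R').trace = 0 := by
  have h1 : R' * R = 1 := mul_eq_one_comm.1 hR
  have h2 : R.det ≠ 0 := by
    intro h3
    have h4 := congrArg Matrix.det hR
    rw [Matrix.det_mul, h3, zero_mul, Matrix.det_one] at h4
    exact zero_ne_one h4
  have h3 : R.det • R' = R.adjugate := by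
    have h5 : R.adjugate * (R * R') = R.det • R' := by
      rw [← mul_assoc, Matrix.adjugate_mul, smul_mul_assoc, one_mul]
    rw [← h5, hR, mul_one]
  have h4 : R.det * (X * R').trace = 0 := by
    rw [← smul_eq_mul, ← Matrix.trace_smul, ← mul_smul_comm, h3, Matrix.adjugate_fin_two,
      Matrix.trace_fin_two]
    simp only [Matrix.mul_apply, Fin.sum_univ_two, Matrix.of_apply, Matrix.cons_val_zero,
      Matrix.cons_val_one, Matrix.cons_val_fin_one, Matrix.cons_val']
    linear_combination h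
  exact (mul_eq_zero.1 h4).resolve_left h2

end first

section second

variable {𝒪 : Type} [CommRing 𝒪] [IsLocalRing 𝒪] {A B : Type} [CommRing A] [IsLocalRing A]
  [Algebra 𝒪 A] [CommRing B] [IsLocalRing B] [Algebra 𝒪 B]

/-- lifting with prescribed determinant, given a primitive of the obstruction cocycle -/
theorem exists_lift_det_of_primitive {S' : Finset Nat.Primes} {rb : GQ →* Mt (ResidueField 𝒪)}
    (hA : PreTest 𝒪 A)
    {ε : A} (hε : ∀ a ∈ maximalIdeal A, a * ε = 0) (π : A →ₐ[𝒪] B)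
    (hπ : Function.Surjective π) (hπε : π ε = 0)
    (s : GQ →* M2 B) (hred : ∀ σ, RM (s σ) (rb σ))
    {U : Subgroup GQ} (hU : (levS S').isOpen U)
    (γ : GQ → M2 A) (hγπ : ∀ g, (γ g).map π = s g) (hγr : ∀ g, RM (γ g) (rb g))
    (hγt : ∀ g, ∀ t ∈ U, γ (g * t) = γ g) (hrbt : ∀ t ∈ U, rb t = 1)
    (c : GQ → A) (hγdet : ∀ g, (γ g).det = c g)
    (δ : GQ → GQ → Mt (ResidueField 𝒪))
    (hδ : ∀ g h, emM ε (δ g h) = γ g * γ h - γ (g * h))
    (x : GQ → Ad0 rb (1 : GQ →* ResidueField 𝒪)) (hxc : (levS S').Const1 x)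
    (hx : ∀ g h, δ g h * rb (g * h)⁻¹ = (d1 x g h).val) :
    ∃ s' : GQ →* M2 A, mapM (π : A →+* B) s' = s ∧ (levS S').isOpen s'.ker ∧
      (∀ σ, RM (s' σ) (rb σ)) ∧ ∀ σ, (s' σ).det = c σ := by
  have hloc := hA.isLocalHom
  obtain ⟨V, hV, hxU⟩ := hxc
  have hx' : ∀ g h, δ g h = rb g * (x h).val * rb h - (x (g * h)).val * rb (g * h) +
      (x g).val * rb (g * h) := by
    intro g h
    have h1 : δ g h * rb (g * h)⁻¹ = (1 : ResidueField 𝒪) • (rb g * (x h).val * rb g⁻¹) -
        (x (g * h)).val + (x g).val := (hx g h)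
    have h2 := congrArg (fun X => X * rb (g * h)) h1
    beta_reduce at h2
    rw [mul_assoc (δ g h), r_inv_mul, mul_one, one_smul, add_mul, sub_mul] at h2
    rw [h2]
    congr 2
    rw [mul_assoc (rb g * (x h).val), ← map_mul, inv_mul_cancel_left]
  have hπe : ∀ X : Mt (ResidueField 𝒪), ∀ i j, π (emM ε X i j) = 0 := by
    intro X i j
    change π (ε * _) = 0
    rw [map_mul, hπε, zero_mul]
  have hmul : ∀ g h, (γ g - emM ε ((x g).val * rb g)) * (γ h - emM ε ((x h).val * rb h)) =
      γ (g * h) - emM ε ((x (g * h)).val * rb (g * h)) := by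
    intro g h
    have h1 : emM ε ((x g).val * rb g) * emM ε ((x h).val * rb h) = 0 := by
      have h2 : RM (emM ε ((x g).val * rb g) : M2 A) (0 : Mt (ResidueField 𝒪)) := by
        intro i j
        refine rd_of_map π ?_
        rw [hπe]
        exact rd_zero
      rw [mul_emM hε hloc h2, zero_mul]
      ext i j
      change em ε ((0 : Mt (ResidueField 𝒪)) i j) = 0
      have h4 := em_add hε hloc (0 : ResidueField 𝒪) 0
      rw [add_zero] at h4
      exact left_eq_add.1 h4
    have h5 : γ g * γ h = γ (g * h) + emM ε (δ g h) := by rw [hδ]; abel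
    rw [sub_mul, mul_sub, mul_sub, h1, h5, mul_emM hε hloc (hγr g), emM_mul hε hloc (hγr h),
      sub_zero, hx']
    have h6 : (x g).val * rb g * rb h = (x g).val * rb (g * h) := by rw [map_mul, mul_assoc]
    rw [h6, emM_add hε hloc]
    have h7 : emM ε (rb g * (x h).val * rb h - (x (g * h)).val * rb (g * h)) +
        emM ε ((x (g * h)).val * rb (g * h)) = (emM ε (rb g * ((x h).val * rb h)) : M2 A) := by
      rw [← emM_add hε hloc, sub_add_cancel, mul_assoc]
    rw [← h7]
    abel
  have hπs : ∀ g, (γ g - emM ε ((x g).val * rb g)).map π = s g := by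
    intro g
    ext i j
    have h1 : π (γ g i j) = s g i j := congrFun (congrFun (hγπ g) i) j
    rw [Matrix.map_apply, Matrix.sub_apply, map_sub, h1, hπe, sub_zero]
  have hπl : IsLocalHom (π : A →+* B) := IsLocalHom.of_surjective (π : A →+* B) hπ
  have hone : γ 1 - emM ε ((x 1).val * rb 1) = 1 := by
    have h1 := hmul 1 1
    rw [mul_one] at h1
    have h2 : IsUnit (γ 1 - emM ε ((x 1).val * rb 1)) := by
      rw [Matrix.isUnit_iff_isUnit_det]
      refine hπl.map_nonunit _ ?_
      have h3 : (π : A →+* B) (γ 1 - emM ε ((x 1).val * rb 1)).det =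
          ((γ 1 - emM ε ((x 1).val * rb 1)).map π).det := by
        rw [RingHom.map_det]
        rfl
      rw [h3, hπs, map_one, Matrix.det_one]
      exact isUnit_one
    exact h2.mul_left_cancel (h1.trans (mul_one _).symm)
  let s' : GQ →* M2 A :=
    { toFun := fun g => γ g - emM ε ((x g).val * rb g)
      map_one' := hone
      map_mul' := fun g h => (hmul g h).symm }
  have hεm : ε ∈ maximalIdeal A := by
    intro hu
    have h1 := hu.map π
    rw [hπε] at h1
    exact not_isUnit_zero h1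
  refine ⟨s', ?_, ?_, fun σ i j => ?_, fun σ => ?_⟩
  · ext g i j
    exact congrFun (congrFun (hπs g) i) j
  · refine (levS S').mono _ _ ((levS S').inf _ _ hV hU) fun t ht => ?_
    change γ t - emM ε ((x t).val * rb t) = 1
    have h1 := hγt 1 t ht.2
    have h2 := hxU 1 t ht.1
    rw [one_mul] at h1 h2
    rw [h1, h2, hrbt t ht.2, ← map_one rb]
    exact hone
  · refine rd_of_map π ?_
    have h1 : π (s' σ i j) = s σ i j := congrFun (congrFun (hπs σ) i) j
    rw [h1]
    exact hred σ i j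
  · rw [← hγdet σ]
    exact det_sub_emM hε hεm hloc (hγr σ) _ (trace_adj (x σ).trace_val)

end second

section third

variable {𝒪 : Type} [CommRing 𝒪] [IsLocalRing 𝒪] {A B : Type} [CommRing A] [IsLocalRing A]
  [Algebra 𝒪 A] [CommRing B] [IsLocalRing B] [Algebra 𝒪 B]

/-- set-theoretic lifts with prescribed determinant -/
theorem exists_lift_det (π : A →ₐ[𝒪] B) (hπ : Function.Surjective π) (s : GQ →* M2 B)
    (c : GQ →* A) (hc : ∀ g, (s g).det = π (c g)) :
    ∃ γ : GQ → M2 A, (∀ g, (γ g).map π = s g) ∧ (∀ g, (γ g).det = c g) ∧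
      ∀ g g', s g = s g' → c g = c g' → γ g = γ g' := by
  have hπl : IsLocalHom (π : A →+* B) := IsLocalHom.of_surjective (π : A →+* B) hπ
  obtain ⟨τ, hτ⟩ : ∃ τ : B → A, ∀ b, π (τ b) = b := ⟨_, Function.surjInv_eq hπ⟩
  have hdet : ∀ M : M2 B, π ((M.map τ).det) = M.det := by
    intro M
    rw [Matrix.det_fin_two, Matrix.det_fin_two, map_sub, map_mul, map_mul]
    simp only [Matrix.map_apply, hτ]
  have hu : ∀ g, IsUnit ((s g).map τ).det := by
    intro g
    refine hπl.map_nonunit _ ?_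
    have h1 : (π : A →+* B) ((s g).map τ).det = (s g).det := hdet (s g)
    rw [h1, ← Matrix.isUnit_iff_isUnit_det]
    exact IsUnit.map s (Group.isUnit g)
  let w : M2 B → A → A := fun M a => a * Ring.inverse (M.map τ).det
  refine ⟨fun g => !![τ (s g 0 0) * w (s g) (c g), τ (s g 0 1);
    τ (s g 1 0) * w (s g) (c g), τ (s g 1 1)], fun g => ?_, fun g => ?_, fun g g' h1 h2 => ?_⟩
  · have hw : π (w (s g) (c g)) = 1 := by
      change π (c g * Ring.inverse ((s g).map τ).det) = 1
      obtain ⟨u, hu'⟩ := hu g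
      rw [← hu', Ring.inverse_unit, map_mul, ← hc, ← hdet (s g), ← hu', ← map_mul, Units.mul_inv,
        map_one]
    ext i j
    fin_cases i <;> fin_cases j <;> simp [hw, hτ]
  · rw [Matrix.det_fin_two]
    simp only [Matrix.of_apply, Matrix.cons_val_zero, Matrix.cons_val_one,
      Matrix.cons_val_fin_one, Matrix.cons_val']
    have h1 : w (s g) (c g) * ((s g).map τ).det = c g := by
      change c g * Ring.inverse ((s g).map τ).det * ((s g).map τ).det = c g
      rw [mul_assoc, Ring.inverse_mul_cancel _ (hu g), mul_one]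
    rw [Matrix.det_fin_two] at h1
    simp only [Matrix.map_apply] at h1
    linear_combination h1
  · beta_reduce
    rw [h1, h2]

end third

end Fermat.Agent.Cor.DefCond

end
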