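import Fermat.Agent.Cor.DefCondT
import Fermat.Agent.Cor.DefCondU
import Fermat.Agent.Cor.DefCondP

/-!
# The obstruction map for deformations with cyclotomic determinant
-/

set_option autoImplicit false
set_option linter.unusedSectionVars false

noncomputable section

namespace Fermat.Agent.Cor.DefCond

open IsLocalRing GaloisRep Matrix Fermat.Agent.CC Fermat.Agent.TW
open Fermat.Agent.H04 (DN M2 Dat IsCont IsNRep ofMat Compat mapM PreTest)

section ob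

variable {𝒪 : Type} [CommRing 𝒪] [IsLocalRing 𝒪] {A B : Type} [CommRing A] [IsLocalRing A]
  [Algebra 𝒪 A] [CommRing B] [IsLocalRing B] [Algebra 𝒪 B]

/-- **The obstruction map with fixed determinant.** -/
theorem exists_obstruction_det {S' : Finset Nat.Primes} {rb : GQ →* Mt (ResidueField 𝒪)}
    (hA : PreTest 𝒪 A) (π : A →ₐ[𝒪] B) (hπ : Function.Surjective π) {V : Ideal A}
    (hVker : ∀ a, a ∈ V ↔ π a = 0) (hV : ∀ a ∈ maximalIdeal A, ∀ v ∈ V, a * v = 0)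
    (s : GQ →* M2 B) (hs : (levS S').isOpen s.ker) (hred : ∀ σ, RM (s σ) (rb σ))
    (c : GQ →* A) (hcl : (levS S').isOpen c.ker) (hcs : ∀ g, (s g).det = π (c g)) :
    ∃ Ob : (V →ₗ[𝒪] ResidueField 𝒪) →+ H2 (levS S') (Ad0 rb (1 : GQ →* ResidueField 𝒪)),
      ∀ φ : V →ₗ[𝒪] ResidueField 𝒪, φ ≠ 0 → Ob φ = 0 →
        ∀ (π' : (A ⧸ kerPhi hV hA φ) →ₐ[𝒪] B), (∀ a, π' (Ideal.Quotient.mk _ a) = π a) →
        ∀ [IsLocalRing (A ⧸ kerPhi hV hA φ)],
        ∃ s' : GQ →* M2 (A ⧸ kerPhi hV hA φ),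
          mapM (π' : (A ⧸ kerPhi hV hA φ) →+* B) s' = s ∧ (levS S').isOpen s'.ker ∧
            (∀ σ, RM (s' σ) (rb σ)) ∧ ∀ σ, (s' σ).det = Ideal.Quotient.mk _ (c σ) := by
  have hloc := hA.isLocalHom
  obtain ⟨γ, hγπ, hγdet, hγcongr⟩ := exists_lift_det π hπ s c hcs
  have hmapmul : ∀ M N : M2 A, (M * N).map π = M.map π * N.map π := fun M N =>
    Matrix.map_mul (f := (π : A →+* B))
  have hγr : ∀ g, RM (γ g) (rb g) := by
    intro g i j
    refine rd_of_map π ?_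
    have h1 : π (γ g i j) = s g i j := congrFun (congrFun (hγπ g) i) j
    rw [h1]
    exact hred g i j
  have hΔ : ∀ g h i j, (γ g * γ h - γ (g * h)) i j ∈ V := by
    intro g h i j
    have h1 : (γ g * γ h).map π = (γ (g * h)).map π := by
      rw [hmapmul, hγπ, hγπ, hγπ, map_mul]
    rw [hVker, Matrix.sub_apply, map_sub, sub_eq_zero]
    exact congrFun (congrFun h1 i) j
  have hVm : ∀ v ∈ V, v ∈ maximalIdeal A := by
    intro v hv hu
    have h1 := hu.map π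
    rw [(hVker v).1 hv] at h1
    exact not_isUnit_zero h1
  have hVl : ∀ (N M : M2 A), (∀ i j, M i j ∈ V) → ∀ i j, (N * M) i j ∈ V := by
    intro N M hM i j
    rw [Matrix.mul_apply, Fin.sum_univ_two]
    exact V.add_mem (V.mul_mem_left _ (hM _ _)) (V.mul_mem_left _ (hM _ _))
  have hVr : ∀ (N M : M2 A), (∀ i j, M i j ∈ V) → ∀ i j, (M * N) i j ∈ V := by
    intro N M hM i j
    rw [Matrix.mul_apply, Fin.sum_univ_two]
    exact V.add_mem (V.mul_mem_right _ (hM _ _)) (V.mul_mem_right _ (hM _ _))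
  have hVadd : ∀ (N M : M2 A), (∀ i j, N i j ∈ V) → (∀ i j, M i j ∈ V) →
      ∀ i j, (N + M) i j ∈ V := fun N M hN hM i j => V.add_mem (hN i j) (hM i j)
  obtain ⟨δ, hδ⟩ : ∃ δ : (V →ₗ[𝒪] ResidueField 𝒪) → GQ → GQ → Mt (ResidueField 𝒪),
      ∀ φ g h, δ φ g h = phiM φ _ (hΔ g h) := ⟨_, fun _ _ _ => rfl⟩
  have hcoc : ∀ φ g h j, δ φ (g * h) j + δ φ g h * rb j = δ φ g (h * j) + rb g * δ φ h j := by
    intro φ g h j
    rw [hδ, hδ, hδ, hδ, ← phiM_mul_right hV φ (hγr j) (hΔ g h) (hVr _ _ (hΔ g h)),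
      ← phiM_mul_left hV φ (hγr g) (hΔ h j) (hVl _ _ (hΔ h j)),
      ← phiM_add φ _ _ (hVadd _ _ (hΔ _ _) (hVr _ _ (hΔ g h))),
      ← phiM_add φ _ _ (hVadd _ _ (hΔ _ _) (hVl _ _ (hΔ h j)))]
    congr 1
    rw [sub_mul, mul_sub, mul_assoc g h j, mul_assoc (γ g)]
    abel
  -- the trace
  have htr : ∀ φ g h, (δ φ g h * rb (g * h)⁻¹).trace = 0 := by
    intro φ g h
    refine trace_of_adj (r_mul_inv rb (g * h)) ?_
    obtain ⟨M, hM⟩ : ∃ M : M2 A, M = γ (g * h) := ⟨_, rfl⟩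
    obtain ⟨Δ, hΔ'⟩ : ∃ Δ : M2 A, Δ = γ g * γ h - γ (g * h) := ⟨_, rfl⟩
    have hMr : RM M (rb (g * h)) := by rw [hM]; exact hγr _
    have hΔV : ∀ i j, Δ i j ∈ V := by rw [hΔ']; exact hΔ g h
    have hδ' : ∀ i j, δ φ g h i j = φ ⟨Δ i j, hΔV i j⟩ := by
      intro i j
      subst hΔ'
      rw [hδ]
      rfl
    have h1 : (M + Δ).det = M.det := by
      have h2 : M + Δ = γ g * γ h := by rw [hΔ', hM]; abel
      rw [h2, Matrix.det_mul, hM, hγdet, hγdet, hγdet, map_mul]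
    have h2 : Δ 0 0 * Δ 1 1 = 0 := hV _ (hVm _ (hΔV 0 0)) _ (hΔV 1 1)
    have h3 : Δ 0 1 * Δ 1 0 = 0 := hV _ (hVm _ (hΔV 0 1)) _ (hΔV 1 0)
    rw [Matrix.det_fin_two, Matrix.det_fin_two] at h1
    simp only [Matrix.add_apply] at h1
    have h4 : M 0 0 * Δ 1 1 + M 1 1 * Δ 0 0 - M 0 1 * Δ 1 0 - M 1 0 * Δ 0 1 = 0 := by
      linear_combination h1 - h2 + h3
    rw [hδ', hδ', hδ', hδ', ← phi_mul hV φ (hMr 0 0) (hΔV 1 1) (V.mul_mem_left _ (hΔV 1 1)),
      ← phi_mul hV φ (hMr 1 1) (hΔV 0 0) (V.mul_mem_left _ (hΔV 0 0)),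
      ← phi_mul hV φ (hMr 0 1) (hΔV 1 0) (V.mul_mem_left _ (hΔV 1 0)),
      ← phi_mul hV φ (hMr 1 0) (hΔV 0 1) (V.mul_mem_left _ (hΔV 0 1)), ← map_add, ← map_sub,
      ← map_sub]
    have h5 : ((⟨M 0 0 * Δ 1 1, V.mul_mem_left _ (hΔV 1 1)⟩ : V) +
        ⟨M 1 1 * Δ 0 0, V.mul_mem_left _ (hΔV 0 0)⟩ -
        ⟨M 0 1 * Δ 1 0, V.mul_mem_left _ (hΔV 1 0)⟩ -
        ⟨M 1 0 * Δ 0 1, V.mul_mem_left _ (hΔV 0 1)⟩) = 0 := Subtype.ext h4
    rw [h5, map_zero]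
  have hγt : ∀ g, ∀ t ∈ s.ker ⊓ c.ker, γ (g * t) = γ g := by
    intro g t ht
    have h1 : s t = 1 := ht.1
    have h2 : c t = 1 := ht.2
    exact hγcongr _ _ (by rw [map_mul, h1, mul_one]) (by rw [map_mul, h2, mul_one])
  have hrbt : ∀ t ∈ s.ker ⊓ c.ker, rb t = 1 := by
    intro t ht
    have ht' : s t = 1 := ht.1
    have h1 := hred t
    rw [ht'] at h1
    exact rm_unique h1 rm_one
  have hrbt' : ∀ g, ∀ t ∈ s.ker ⊓ c.ker, rb (g * t)⁻¹ = rb g⁻¹ := by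
    intro g t ht
    rw [_root_.mul_inv_rev, map_mul, hrbt _ (inv_mem ht), one_mul]
  have hconj : ∀ h, ∀ t ∈ s.ker ⊓ c.ker, ∀ t' ∈ s.ker ⊓ c.ker,
      h⁻¹ * t * h * t' ∈ s.ker ⊓ c.ker := by
    intro h t ht t' ht'
    refine mul_mem ⟨?_, ?_⟩ ht'
    · have := (MonoidHom.normal_ker s).conj_mem t ht.1 h⁻¹
      rwa [inv_inv] at this
    · have := (MonoidHom.normal_ker c).conj_mem t ht.2 h⁻¹
      rwa [inv_inv] at this
  have hδt : ∀ φ g h, ∀ t ∈ s.ker ⊓ c.ker, ∀ t' ∈ s.ker ⊓ c.ker,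
      δ φ (g * t) (h * t') = δ φ g h := by
    intro φ g h t ht t' ht'
    have h1 : g * t * (h * t') = g * h * (h⁻¹ * t * h * t') := by group
    rw [hδ, hδ]
    have h3 : γ (g * t) * γ (h * t') - γ (g * t * (h * t')) = γ g * γ h - γ (g * h) := by
      rw [hγt g t ht, hγt h t' ht', h1, hγt _ _ (hconj h t ht t' ht')]
    congr 1
  let z : (V →ₗ[𝒪] ResidueField 𝒪) → Z2 (levS S') (Ad0 rb (1 : GQ →* ResidueField 𝒪)) := fun φ =>
    ⟨fun g h => Ad0.mk (δ φ g h * rb (g * h)⁻¹) (htr φ g h),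
    ⟨s.ker ⊓ c.ker, (levS S').inf _ _ hs hcl, fun g h t ht t' ht' => by
      have h1 : g * t * (h * t') = g * h * (h⁻¹ * t * h * t') := by group
      apply Ad0.ext
      change δ φ (g * t) (h * t') * rb (g * t * (h * t'))⁻¹ = δ φ g h * rb (g * h)⁻¹
      rw [hδt φ g h t ht t' ht', h1, hrbt' _ _ (hconj h t ht t' ht')]⟩, fun g h j => by
      apply Ad0.ext
      rw [Ad0.val_add, Ad0.val_add, Ad0.val_gsmul, Ad0.val_mk, Ad0.val_mk, Ad0.val_mk, Ad0.val_mk,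
        MonoidHom.one_apply, one_smul]
      have h1 := congrArg (fun X => X * rb (g * h * j)⁻¹) (hcoc φ g h j)
      beta_reduce at h1
      rw [add_mul, add_mul] at h1
      have h2 : δ φ g h * rb j * rb (g * h * j)⁻¹ = δ φ g h * rb (g * h)⁻¹ := by
        have h3 : j * (g * h * j)⁻¹ = (g * h)⁻¹ := by group
        rw [mul_assoc, ← map_mul, h3]
      have h3 : rb g * δ φ h j * rb (g * h * j)⁻¹ =
          rb g * (δ φ h j * rb (h * j)⁻¹) * rb g⁻¹ := by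
        have h4 : (g * h * j)⁻¹ = (h * j)⁻¹ * g⁻¹ := by group
        rw [h4, map_mul]
        simp only [mul_assoc]
      rw [h2, h3] at h1
      rw [← mul_assoc g h j, h1, add_comm]⟩
  refine ⟨AddMonoidHom.mk' (fun φ => H2.mk _ _ (z φ)) (fun φ ψ => ?_), ?_⟩
  · rw [← map_add]
    congr 1
    apply Subtype.ext
    funext g h
    apply Ad0.ext
    change δ (φ + ψ) g h * rb (g * h)⁻¹ = δ φ g h * rb (g * h)⁻¹ + δ ψ g h * rb (g * h)⁻¹
    rw [← add_mul]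
    congr 1
    rw [hδ, hδ, hδ]
    rfl
  · intro φ hφ hOb π' hπ' hlocQ
    have hOb' : H2.mk _ _ (z φ) = 0 := hOb
    obtain ⟨x, hxc, hx⟩ := H2.mk_eq_zero.1 hOb'
    -- an element with `φ = 1`
    obtain ⟨v, hv⟩ : ∃ v : V, φ v = 1 := by
      have h1 : ∃ w : V, φ w ≠ 0 := by
        by_contra hcon
        push Not at hcon
        exact hφ (LinearMap.ext fun w => hcon w)
      obtain ⟨w, hw⟩ := h1
      obtain ⟨a, ha⟩ := residue_surjective (φ w)⁻¹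
      refine ⟨a • w, ?_⟩
      rw [map_smul, Algebra.smul_def]
      change residue 𝒪 a * φ w = 1
      rw [ha, inv_mul_cancel₀ hw]
    have hsurj := Ideal.Quotient.mkₐ_surjective 𝒪 (kerPhi hV hA φ)
    have hQ : PreTest 𝒪 (A ⧸ kerPhi hV hA φ) :=
      Fermat.Agent.H04.preTest_of_surjective (Ideal.Quotient.mkₐ 𝒪 _) hsurj hA
    have hmkl : IsLocalHom (Ideal.Quotient.mk (kerPhi hV hA φ)) :=
      IsLocalHom.of_surjective _ Ideal.Quotient.mk_surjective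
    have hε : ∀ a ∈ maximalIdeal (A ⧸ kerPhi hV hA φ),
        a * Ideal.Quotient.mk (kerPhi hV hA φ) (v : A) = 0 := by
      intro a ha
      obtain ⟨a, rfl⟩ := Ideal.Quotient.mk_surjective a
      rw [← map_mul, hV a (fun hu => ha (hu.map _)) v v.2, map_zero]
    have hmk : ∀ w (hw : w ∈ V), em (Ideal.Quotient.mk (kerPhi hV hA φ) (v : A)) (φ ⟨w, hw⟩) =
        Ideal.Quotient.mk (kerPhi hV hA φ) w := by
      intro w hw
      obtain ⟨a, ha⟩ := residue_surjective (φ ⟨w, hw⟩)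
      rw [← ha, em_residue hε hQ.isLocalHom]
      have h1 : Ideal.Quotient.mk (kerPhi hV hA φ) (v : A) * algebraMap 𝒪 _ a =
        Ideal.Quotient.mk (kerPhi hV hA φ) ((v : A) * algebraMap 𝒪 A a) := rfl
      rw [h1, Ideal.Quotient.eq]
      refine ⟨V.sub_mem (V.mul_mem_right _ v.2) hw, ?_⟩
      have h2 : (⟨(v : A) * algebraMap 𝒪 A a - w, V.sub_mem (V.mul_mem_right _ v.2) hw⟩ : V) =
          a • v - ⟨w, hw⟩ := by
        apply Subtype.ext
        change (v : A) * algebraMap 𝒪 A a - w = a • (v : A) - w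
        rw [Algebra.smul_def, mul_comm]
      rw [h2, map_sub, map_smul, hv, ← ha, Algebra.smul_def, mul_one]
      exact sub_self _
    refine exists_lift_det_of_primitive hQ hε π' (fun b => by
        obtain ⟨a, rfl⟩ := hπ b
        exact ⟨Ideal.Quotient.mk _ a, hπ' a⟩) (by rw [hπ', ← hVker]; exact v.2) s hred
      ((levS S').inf _ _ hs hcl)
      (fun g => (γ g).map (Ideal.Quotient.mk (kerPhi hV hA φ))) (fun g => ?_) (fun g i j => ?_)
      (fun g t ht => ?_) hrbt (fun σ => Ideal.Quotient.mk (kerPhi hV hA φ) (c σ)) (fun g => ?_)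
      (δ φ) (fun g h => ?_) x hxc (fun g h => congrArg Ad0.val (hx g h))
    · rw [← hγπ g]
      ext i j
      exact hπ' _
    · exact rd_map (Ideal.Quotient.mkₐ 𝒪 (kerPhi hV hA φ)) hmkl (hγr g i j)
    · rw [hγt g t ht]
    · rw [← hγdet g, RingHom.map_det]
      rfl
    · ext i j
      have h1 : emM (Ideal.Quotient.mk (kerPhi hV hA φ) (v : A)) (δ φ g h) i j =
          em (Ideal.Quotient.mk (kerPhi hV hA φ) (v : A)) (φ ⟨_, hΔ g h i j⟩) := by
        rw [hδ]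
        rfl
      rw [h1, hmk, Matrix.sub_apply, map_sub, Matrix.mul_apply, Matrix.sub_apply, Matrix.mul_apply,
        map_sum]
      simp only [map_mul, Matrix.map_apply]

end ob

end Fermat.Agent.Cor.DefCond

end
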