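import Fermat.Agent.Cor.DefCondL

/-!
# Tate's Euler characteristic formula for `ad⁰ ρbar`
-/

set_option autoImplicit false
set_option linter.unusedSectionVars false

noncomputable section

namespace Fermat.Agent.Cor.DefCond

open IsLocalRing GaloisRep Matrix Fermat.Agent.CC Fermat.Agent.TW
open Fermat.Agent.L00.Tr (MT)
open Fermat.Agent.CFT.EC (cc cfix)
open Fermat.Agent.H25.SB (ePair exists_zeta)

section split

variable {k : Type} [Field k]

/-- splitting off the scalar matrices -/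
theorem card_split (h2 : (2 : k) ≠ 0) {r : GQ →* Mt k} {χ : GQ →* k} (P : Mt k → Prop)
    (hP : ∀ X (t : k), P X → P (X + t • (1 : Mt k))) :
    Nat.card {X : Mt k // P X} = Nat.card {X : Ad0 r χ // P X.val} * Nat.card k := by
  rw [← Nat.card_prod]
  have htr : ∀ X : Mt k, (X + (-(2⁻¹ * X.trace)) • (1 : Mt k)).trace = 0 := by
    intro X
    rw [Matrix.trace_add, Matrix.trace_smul, Matrix.trace_one, smul_eq_mul, Fintype.card_fin]
    push_cast
    field_simp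
    ring
  refine Nat.card_congr ⟨fun X => ⟨⟨Ad0.mk (X.1 + (-(2⁻¹ * X.1.trace)) • (1 : Mt k)) (htr X.1),
    hP _ _ X.2⟩, 2⁻¹ * X.1.trace⟩, fun Y => ⟨Y.1.1.val + Y.2 • (1 : Mt k), hP _ _ Y.1.2⟩,
    fun X => ?_, fun Y => ?_⟩
  · apply Subtype.ext
    change X.1 + (-(2⁻¹ * X.1.trace)) • (1 : Mt k) + (2⁻¹ * X.1.trace) • (1 : Mt k) = X.1
    rw [add_assoc, ← add_smul, neg_add_cancel, zero_smul, add_zero]
  · obtain ⟨⟨Y, hY⟩, t⟩ := Y
    have h1 : 2⁻¹ * (Y.val + t • (1 : Mt k)).trace = t := by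
      rw [Matrix.trace_add, Y.trace_val, Matrix.trace_smul, Matrix.trace_one, smul_eq_mul,
        Fintype.card_fin]
      push_cast
      field_simp
      ring
    refine Prod.ext (Subtype.ext (Ad0.ext ?_)) h1
    change Y.val + t • (1 : Mt k) + (-(2⁻¹ * (Y.val + t • (1 : Mt k)).trace)) • (1 : Mt k) = Y.val
    rw [h1, add_assoc, ← add_smul, add_neg_cancel, zero_smul, add_zero]

theorem conj_scalar {r : GQ →* Mt k} (σ : GQ) (X : Mt k) (t : k)
    (h : r σ * X * r σ⁻¹ = X) : r σ * (X + t • (1 : Mt k)) * r σ⁻¹ = X + t • (1 : Mt k) := by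
  rw [mul_add, add_mul, h, mul_smul_comm, mul_one, smul_mul_assoc, r_mul_inv]

variable [Finite k] {p : ℕ} [hpf : Fact p.Prime] [CharP k p]

theorem card_Ad0 (hp2 : p ≠ 2) (r : GQ →* Mt k) :
    Nat.card (Ad0 r (1 : GQ →* k)) = Nat.card k ^ 3 := by
  have h1 := card_split (two_ne_zero_of k hp2) (r := r) (χ := 1) (fun _ => True)
    fun _ _ _ => trivial
  rw [Nat.card_congr (Equiv.subtypeUnivEquiv fun _ => trivial),
    Nat.card_congr (Equiv.subtypeUnivEquiv fun _ => trivial)] at h1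
  have h2 : Nat.card (Mt k) = Nat.card k ^ 4 := by
    have : Nat.card (Mt k) = Nat.card (Fin 2 → Fin 2 → k) := rfl
    rw [this, Nat.card_fun, Nat.card_fun, Nat.card_fin, ← pow_mul]
  rw [h2, pow_succ] at h1
  exact (Nat.eq_of_mul_eq_mul_right Nat.card_pos h1).symm

theorem card_H0_Ad0 [Algebra (ZMod p) k] (hp2 : p ≠ 2) (ρbar : ResidualGaloisRep k)
    (habs : ρbar.IsAbsolutelyIrreducible) (b : Module.Basis (Fin 2) k ρbar.V) :
    Nat.card (H0 GQ (Ad0 (rbM ρbar b) (1 : GQ →* k))) = 1 := by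
  have h1 := card_split (two_ne_zero_of k hp2) (r := rbM ρbar b) (χ := 1)
    (fun X => ∀ σ, rbM ρbar b σ * X * rbM ρbar b σ⁻¹ = X)
    fun X t h σ => conj_scalar σ X t (h σ)
  have h2 : Nat.card {X : Mt k // ∀ σ, rbM ρbar b σ * X * rbM ρbar b σ⁻¹ = X} = Nat.card k := by
    rw [← card_H0_ad ρbar habs b p]
    refine Nat.card_congr ⟨fun X => ⟨inM p _ X.1, fun σ => ?_⟩, fun X => ⟨unM X.1, fun σ => ?_⟩,
      fun X => rfl, fun X => rfl⟩
    · have h3 := X.2 σ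
      rw [mul_assoc] at h3
      exact h3
    · rw [mul_assoc]
      exact congrArg unM (X.2 σ)
  have h3 : Nat.card {X : Ad0 (rbM ρbar b) (1 : GQ →* k) //
      ∀ σ, rbM ρbar b σ * X.val * rbM ρbar b σ⁻¹ = X.val} =
      Nat.card (H0 GQ (Ad0 (rbM ρbar b) (1 : GQ →* k))) := by
    refine Nat.card_congr ⟨fun X => ⟨X.1, fun σ => ?_⟩, fun X => ⟨X.1, fun σ => ?_⟩,
      fun X => rfl, fun X => rfl⟩
    · apply Ad0.ext
      rw [Ad0.val_gsmul, MonoidHom.one_apply, one_smul]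
      exact X.2 σ
    · have h4 := congrArg Ad0.val (X.2 σ)
      rw [Ad0.val_gsmul, MonoidHom.one_apply, one_smul] at h4
      exact h4
  rw [h2, h3] at h1
  exact (Nat.eq_of_mul_eq_mul_right Nat.card_pos ((one_mul _).trans h1)).symm

theorem cfix_Ad0 [Algebra (ZMod p) k] (hp2 : p ≠ 2) (ρbar : ResidualGaloisRep k)
    (hodd : ρbar.IsOdd) (b : Module.Basis (Fin 2) k ρbar.V) :
    cfix cc (Ad0 (rbM ρbar b) (1 : GQ →* k)) = Nat.card k := by
  have h1 := card_split (two_ne_zero_of k hp2) (r := rbM ρbar b) (χ := 1)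
    (fun X => rbM ρbar b cc * X * rbM ρbar b cc⁻¹ = X) fun X t h => conj_scalar cc X t h
  have h2 : Nat.card {X : Mt k // rbM ρbar b cc * X * rbM ρbar b cc⁻¹ = X} = Nat.card k ^ 2 := by
    rw [← cfix_ad (two_ne_zero_of k hp2) ρbar hodd b p]
    refine Nat.card_congr ⟨fun X => ⟨inM p _ X.1, ?_⟩, fun X => ⟨unM X.1, ?_⟩,
      fun X => rfl, fun X => rfl⟩
    · have h3 := X.2
      rw [mul_assoc] at h3
      exact h3
    · rw [mul_assoc]
      exact congrArg unM X.2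
  have h3 : Nat.card {X : Ad0 (rbM ρbar b) (1 : GQ →* k) //
      rbM ρbar b cc * X.val * rbM ρbar b cc⁻¹ = X.val} =
      cfix cc (Ad0 (rbM ρbar b) (1 : GQ →* k)) := by
    refine Nat.card_congr ⟨fun X => ⟨X.1, ?_⟩, fun X => ⟨X.1, ?_⟩,
      fun X => rfl, fun X => rfl⟩
    · apply Ad0.ext
      rw [Ad0.val_gsmul, MonoidHom.one_apply, one_smul]
      exact X.2
    · have h4 := congrArg Ad0.val X.2
      rw [Ad0.val_gsmul, MonoidHom.one_apply, one_smul] at h4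
      exact h4
  rw [h2, h3, pow_two] at h1
  exact (Nat.eq_of_mul_eq_mul_right Nat.card_pos h1).symm

/-- **Tate's Euler characteristic formula for `ad⁰ ρbar`**: `p` odd, `ρbar` odd, absolutely
irreducible, with cyclotomic determinant; `#H¹(G_S, ad⁰ ρbar) = (#k)² · #H²(G_S, ad⁰ ρbar)`. -/
theorem card_H1_Ad0 (hp2 : p ≠ 2) {S : Finset Nat.Primes} (hpS : pP p ∈ S)
    (ρbar : ResidualGaloisRep k)
    (habs : ρbar.IsAbsolutelyIrreducible) (hodd : ρbar.IsOdd)
    (b : Module.Basis (Fin 2) k ρbar.V)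
    (hunr : ∀ q : Nat.Primes, q ∉ S → ρbar.IsUnramifiedAt q)
    (hχ : ∀ (σ : GQ) (a : ℕ), (∀ x : Qb, x ^ p = 1 → σ x = x ^ a) → chiM ρbar b σ = a) :
    Finite (H2 (levS S) (Ad0 (rbM ρbar b) (1 : GQ →* k))) ∧
    Nat.card (H1 (levS S) (Ad0 (rbM ρbar b) (1 : GQ →* k))) =
      Nat.card k ^ 2 * Nat.card (H2 (levS S) (Ad0 (rbM ρbar b) (1 : GQ →* k))) := by
  let _ : Algebra (ZMod p) k := ZMod.algebra k p
  obtain ⟨l, hl⟩ := exists_functional (p := p) k
  obtain ⟨m, hm⟩ := exists_zeta (p := p)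
  have hU : (levS S).isOpen (rbM ρbar b).ker := isOpen_rbM ρbar b hunr
  have hpr := pr_ePair_of hp2 hU (fun _ => rfl) hχ hl hm
  refine ⟨PT.finite_H2 hp2 hpS hpr, ?_⟩
  have h1 := PT.global_euler hp2 hpS hpr
  rw [card_Ad0 hp2, card_H0_Ad0 hp2 ρbar habs b, cfix_Ad0 hp2 ρbar hodd b] at h1
  refine Nat.eq_of_mul_eq_mul_right (Nat.card_pos (α := k)) (h1.trans ?_)
  ring

end split

end Fermat.Agent.Cor.DefCond

end
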