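import Fermat.Agent.Cor.DefCondV
import Fermat.Agent.Cor.DefCondX

/-!
# The universal deformation ring with cyclotomic determinant: obstructions and tangent space
-/

set_option autoImplicit false
set_option linter.unusedSectionVars false

noncomputable section

namespace Fermat.Agent.Cor.DefCond

open IsLocalRing GaloisRep Matrix Fermat.Agent.CC Fermat.Agent.TW
open Fermat.Agent.H04 (DN M2 Dat IsCont IsNRep ofMat Compat mapM PreTest)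
open Fermat.Agent.L00.Tr (MT)

/-- the deformation problem "cyclotomic determinant, unramified outside `S`" -/
def DetUnrT (𝒪 : Type) [CommRing 𝒪] (p : ℕ) (S : Finset ℕ) :
    ∀ ⦃A : Type⦄ [CommRing A] [IsLocalRing A] [Algebra 𝒪 A], GaloisRepAdic A → Prop :=
  fun _A _ _ _ ρ => ρ.DetIsCyclotomic p ∧ ∀ q : ℕ, q.Prime → q ∉ S → ρ.IsUnramifiedAt q

theorem exists_natCast_pow_eq_zero {A : Type} [CommRing A] [IsLocalRing A] [Finite A] {p : ℕ}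
    (hpA : (p : A) ∈ maximalIdeal A) : ∃ N : ℕ, ((p ^ N : ℕ) : A) = 0 := by
  obtain ⟨N, hN⟩ := exists_pow_eq_bot A
  refine ⟨N, ?_⟩
  have h1 := Ideal.pow_mem_pow hpA N
  rw [hN, Ideal.mem_bot] at h1
  rw [Nat.cast_pow, h1]

section coc

variable {𝒪 : Type} [CommRing 𝒪] [IsLocalRing 𝒪] {p : ℕ} [Algebra (ZMod p) (ResidueField 𝒪)]
  {rb : GQ →* Mt (ResidueField 𝒪)} {S' : Finset Nat.Primes}

/-- a cocycle with values in `ad⁰` as a cocycle with values in `ad` -/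
def toAd (p : ℕ) [Algebra (ZMod p) (ResidueField 𝒪)]
    (z : Z1 (levS S') (Ad0 rb (1 : GQ →* ResidueField 𝒪))) :
    Z1 (levS S') (MT (adRep p rb)) :=
  ⟨fun g => toMT p rb (z.1 g).val, z.2.1.comp (fun X => toMT p rb X.val), fun g h => by
    have h1 := congrArg Ad0.val (z.2.2 g h)
    rw [Ad0.val_add, Ad0.val_gsmul, MonoidHom.one_apply, one_smul, mul_assoc] at h1
    exact h1⟩

theorem mk_eq_of_toAd (h2 : (2 : ResidueField 𝒪) ≠ 0)
    {z w : Z1 (levS S') (Ad0 rb (1 : GQ →* ResidueField 𝒪))}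
    (h : H1.mk _ _ (toAd p z) = H1.mk _ _ (toAd p w)) : H1.mk _ _ z = H1.mk _ _ w := by
  rw [H1.mk_eq_mk] at h ⊢
  obtain ⟨a, ha⟩ := h
  have htr : (ofMT a + (-(2⁻¹ * (ofMT a).trace)) • (1 : Mt (ResidueField 𝒪))).trace = 0 := by
    rw [Matrix.trace_add, Matrix.trace_smul, Matrix.trace_one, smul_eq_mul, Fintype.card_fin]
    push_cast
    field_simp
    ring
  refine ⟨Ad0.mk _ htr, fun σ => ?_⟩
  apply Ad0.ext
  rw [Ad0.val_add, Ad0.val_sub, Ad0.val_gsmul, MonoidHom.one_apply, one_smul, Ad0.val_mk]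
  have h1 : (z.1 σ).val = (w.1 σ).val + (rb σ * (ofMT a * rb σ⁻¹) - ofMT a) := ha σ
  rw [h1, mul_add, add_mul, mul_smul_comm, mul_one, smul_mul_assoc, r_mul_inv, mul_assoc]
  abel

end coc

section main

variable {𝒪 : Type} [CommRing 𝒪] [IsDomain 𝒪] [IsDiscreteValuationRing 𝒪]
  [IsAdicComplete (maximalIdeal 𝒪) 𝒪] [Finite (ResidueField 𝒪)]
  {ρbar : ResidualGaloisRep (ResidueField 𝒪)}

/-- **Obstructions for the universal deformation ring with cyclotomic determinant.** -/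
theorem exists_obstruction_hom_det {p : ℕ} (hp : p.Prime) (hpO : (p : 𝒪) ∈ maximalIdeal 𝒪)
    {S : Finset ℕ} {S' : Finset Nat.Primes}
    (hS' : ∀ q : Nat.Primes, q ∈ S' ↔ (q : ℕ) ∈ S) (hpS : p ∈ S)
    (DQ : DeformationRingData 𝒪 ρbar (DetUnrT 𝒪 p S))
    {b : Module.Basis (Fin 2) (ResidueField 𝒪) ρbar.V} {D : Dat 𝒪} (hD : Compat D ρbar b)
    {A B : Type} [CommRing A] [IsLocalRing A] [Algebra 𝒪 A] [CommRing B] [IsLocalRing B]
    [Algebra 𝒪 B] [Finite A] [Finite B] (hA : PreTest 𝒪 A) (π : A →ₐ[𝒪] B)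
    (hπ : Function.Surjective π) {V : Ideal A} (hVker : ∀ a, a ∈ V ↔ π a = 0)
    (hV : ∀ a ∈ maximalIdeal A, ∀ v ∈ V, a * v = 0)
    (f : DQ.R →ₐ[𝒪] B) (hf : IsLocalHom (f : DQ.R →+* B)) :
    ∃ Ob : (V →ₗ[𝒪] ResidueField 𝒪) →+
        H2 (levS S') (Ad0 (rbM ρbar b) (1 : GQ →* ResidueField 𝒪)),
      ∀ φ : V →ₗ[𝒪] ResidueField 𝒪, φ ≠ 0 → Ob φ = 0 →
        ∀ (π' : (A ⧸ kerPhi hV hA φ) →ₐ[𝒪] B), (∀ a, π' (Ideal.Quotient.mk _ a) = π a) →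
        ∀ [IsLocalRing (A ⧸ kerPhi hV hA φ)],
        ∃ f' : DQ.R →ₐ[𝒪] (A ⧸ kerPhi hV hA φ),
          IsLocalHom (f' : DQ.R →+* (A ⧸ kerPhi hV hA φ)) ∧ π'.comp f' = f := by
  have hrb' : ∀ σ i j, residue 𝒪 (D.cf σ i j) = rbM ρbar b σ i j := fun σ i j => by
    rw [hD σ i j, rbM_apply]
  have hB : PreTest 𝒪 B := Fermat.Agent.H04.preTest_of_surjective π hπ hA
  have hBc : IsAdicComplete (maximalIdeal B) B := by
    obtain ⟨n, hn⟩ := exists_pow_eq_bot B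
    exact isAdicComplete_of_pow _ n hn
  have hlB : IsLocalHom (algebraMap 𝒪 B) := hB.isLocalHom
  have hpC : ∀ {C : Type} [CommRing C] [IsLocalRing C] [Algebra 𝒪 C] (_ : PreTest 𝒪 C),
      (p : C) ∈ maximalIdeal C := by
    intro C _ _ _ hC hu
    rw [← map_natCast (algebraMap 𝒪 C)] at hu
    exact hpO (hC.isLocalHom.map_nonunit _ hu)
  obtain ⟨N, hN⟩ := exists_natCast_pow_eq_zero (hpC hA)
  have hNB : ((p ^ N : ℕ) : B) = 0 := by rw [← map_natCast π, hN, map_zero]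
  obtain ⟨c, hcl, hc⟩ := exists_cyc hp hN (S' := S') fun q hq => (hS' q).2 (hq ▸ hpS)
  have hcB : ∀ σ (a : ℕ), (∀ x : Qb, x ^ p ^ N = 1 → σ x = x ^ a) → π (c σ) = a := by
    intro σ a ha
    rw [hc σ a ha, map_natCast]
  obtain ⟨r0, hr0, hred0, heq0⟩ := Fermat.Agent.H04.exists_mat hD
    (IsLocalRing.ResidueField.map (algebraMap 𝒪 DQ.R)) (fun c => rfl) DQ.ρ DQ.residual_isEquiv
  obtain ⟨r, hr, heq⟩ := Fermat.Agent.H04.exists_isNRep (D := D) DQ.instIsLocalHom r0 hr0 hred0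
  have hrρ : (ofMat r hr.cont).IsEquiv DQ.ρ := by
    obtain ⟨e1⟩ := heq
    obtain ⟨e0⟩ := heq0
    exact ⟨e1.trans e0.symm⟩
  have hbase : ∀ {C : Type} [CommRing C] [IsLocalRing C] [Algebra 𝒪 C] (φ : DQ.R →ₐ[𝒪] C)
      (hφ : IsLocalHom (φ : DQ.R →+* C)),
      (DQ.ρ.baseChangeAlong (φ : DQ.R →+* C) hφ).IsEquiv
        (ofMat (mapM (φ : DQ.R →+* C) r) (hr.cont.map _ hφ)) := by
    intro C _ _ _ φ hφ
    obtain ⟨e1⟩ := Fermat.Agent.H04.ofMat_baseChange r hr.cont (φ : DQ.R →+* C) hφ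
    obtain ⟨e2⟩ := hrρ
    exact ⟨(e2.symm.baseChangeAlong _ hφ).trans e1⟩
  -- the deformation to `B`
  have hsN := hr.map f hf
  have hunrB : ∀ q : ℕ, q.Prime → q ∉ S →
      (ofMat (mapM (f : DQ.R →+* B) r) hsN.cont).IsUnramifiedAt q := fun q hq hqS =>
    H19.isUnramifiedAt_of_isEquiv (hbase f hf)
      (H19.isUnramifiedAt_baseChangeAlong _ hf (DQ.isOfType.2 q hq hqS))
  have hdetB : (ofMat (mapM (f : DQ.R →+* B) r) hsN.cont).DetIsCyclotomic p :=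
    H19.detIsCyclotomic_of_isEquiv (hbase f hf)
      (H19.detIsCyclotomic_baseChangeAlong _ hf DQ.isOfType.1)
  have hlev : (levS S').isOpen (mapM (f : DQ.R →+* B) r).ker :=
    level_of_unr_fin hsN.cont hunrB fun q hq h => hq ((hS' q).2 h)
  have hkey : ∀ {C : Type} [CommRing C] [IsLocalRing C] [Algebra 𝒪 C] [Finite C]
      (_ : PreTest 𝒪 C) (π : C →ₐ[𝒪] B) (_ : Function.Surjective π) (s' : GQ →* M2 C)
      (_ : mapM (π : C →+* B) s' = mapM (f : DQ.R →+* B) r) (_ : (levS S').isOpen s'.ker)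
      (_ : ∀ σ, RM (s' σ) (rbM ρbar b σ))
      (_ : ∀ hs' : IsCont s', (ofMat s' hs').DetIsCyclotomic p),
      ∃ f' : DQ.R →ₐ[𝒪] C, IsLocalHom (f' : DQ.R →+* C) ∧ π.comp f' = f := by
    intro C _ _ _ _ hC π hπ s' h1 h2 h3 h4
    have hCc : IsAdicComplete (maximalIdeal C) C := by
      obtain ⟨n, hn⟩ := exists_pow_eq_bot C
      exact isAdicComplete_of_pow _ n hn
    have hlC : IsLocalHom (algebraMap 𝒪 C) := hC.isLocalHom
    have hπl : IsLocalHom (π : C →+* B) := IsLocalHom.of_surjective (π : C →+* B) hπ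
    have hs' := cont_of_level h2
    have hred' := (rm_iff hlC hrb' s').1 h3
    have htype : DetUnrT 𝒪 p S (ofMat s' hs') := ⟨h4 hs', fun q hq hqS =>
      unr_of_level h2 (fun q hq h => hq ((hS' q).1 h)) q hq hqS⟩
    obtain ⟨f', ⟨hf', heq'⟩, -⟩ := DQ.universal C (Fermat.Agent.H04.preTest_iff.1 hC).2
      (ofMat s' hs') htype (Fermat.Agent.H04.residual_ofMat hD
        (IsLocalRing.ResidueField.map (algebraMap 𝒪 C)) (fun c => rfl) s' hs' hred')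
    refine ⟨f', hf', ?_⟩
    have hg : IsLocalHom ((π.comp f' : DQ.R →ₐ[𝒪] B) : DQ.R →+* B) := by
      constructor
      intro x hx
      exact hf'.map_nonunit _ (hπl.map_nonunit _ hx)
    have hgN := hr.map (π.comp f') hg
    -- `ofMat (mapM g r) ≅ ofMat (mapM f r)`
    have e1 : (ofMat (mapM (f' : DQ.R →+* C) r) (hr.cont.map _ hf')).IsEquiv (ofMat s' hs') := by
      obtain ⟨a⟩ := hbase f' hf'
      obtain ⟨c⟩ := heq'
      exact ⟨a.symm.trans c⟩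
    have e2 : (ofMat (mapM (π : C →+* B) (mapM (f' : DQ.R →+* C) r))
        ((hr.cont.map _ hf').map _ hπl)).IsEquiv (ofMat (mapM (π : C →+* B) s')
        (hs'.map _ hπl)) := by
      obtain ⟨a⟩ := Fermat.Agent.H04.ofMat_baseChange (mapM (f' : DQ.R →+* C) r)
        (hr.cont.map _ hf') (π : C →+* B) hπl
      obtain ⟨c⟩ := Fermat.Agent.H04.ofMat_baseChange s' hs' (π : C →+* B) hπl
      obtain ⟨d⟩ := e1
      exact ⟨(a.symm.trans (d.baseChangeAlong _ hπl)).trans c⟩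
    have e3 : (ofMat (mapM ((π.comp f' : DQ.R →ₐ[𝒪] B) : DQ.R →+* B) r) hgN.cont).IsEquiv
        (ofMat (mapM (f : DQ.R →+* B) r) hsN.cont) := by
      have h4 : ofMat (mapM (π : C →+* B) s') (hs'.map _ hπl) =
        ofMat (mapM (f : DQ.R →+* B) r) hsN.cont := by congr 1
      rw [← h4]
      exact e2
    have e4 := Fermat.Agent.H04.IsNRep.eq_of_isEquiv hlB hgN hsN e3
    obtain ⟨χ, -, hχ⟩ := DQ.universal B (Fermat.Agent.H04.preTest_iff.1 hB).2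
      (ofMat (mapM (f : DQ.R →+* B) r) hsN.cont) ⟨hdetB, hunrB⟩
      (Fermat.Agent.H04.residual_ofMat hD
        (IsLocalRing.ResidueField.map (algebraMap 𝒪 B)) (fun c => rfl) _ hsN.cont hsN.red)
    have u1 := hχ f ⟨hf, hbase f hf⟩
    have u2 := hχ (π.comp f') ⟨hg, by
      have h5 := hbase (π.comp f') hg
      have h6 : ofMat (mapM ((π.comp f' : DQ.R →ₐ[𝒪] B) : DQ.R →+* B) r) (hr.cont.map _ hg) =
          ofMat (mapM (f : DQ.R →+* B) r) hsN.cont := by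
        congr 1
      rw [h6] at h5
      exact h5⟩
    rw [u1, u2]
  have hcs : ∀ g, (mapM (f : DQ.R →+* B) r g).det = π (c g) := fun g =>
    det_eq_of_cyc (c := ((π : A →+* B) : A →* B).comp c) hp hNB hcB hsN.cont hdetB g
  obtain ⟨Ob, hOb⟩ := exists_obstruction_det hA π hπ hVker hV (mapM (f : DQ.R →+* B) r) hlev
    ((rm_iff hlB hrb' _).2 hsN.red) c hcl hcs
  refine ⟨Ob, fun φ hφ0 hφ π' hπ' hloc' => ?_⟩
  obtain ⟨s', h1, h2, h3, h4⟩ := hOb φ hφ0 hφ π' hπ'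
  have hfin' : Finite (A ⧸ kerPhi hV hA φ) :=
    Finite.of_surjective _ Ideal.Quotient.mk_surjective
  have hC : PreTest 𝒪 (A ⧸ kerPhi hV hA φ) :=
    Fermat.Agent.H04.preTest_of_surjective (Ideal.Quotient.mkₐ 𝒪 _)
    (Ideal.Quotient.mkₐ_surjective _ _) hA
  refine hkey hC π' (fun y => by
      obtain ⟨a, rfl⟩ := hπ y
      exact ⟨Ideal.Quotient.mk _ a, hπ' a⟩) s' h1 h2 h3 fun hs' => ?_
  refine detIsCyclotomic_of (N := N)
    (c := ((Ideal.Quotient.mk (kerPhi hV hA φ)) : A →* _).comp c) hp (hpC hC) (fun σ a ha => ?_)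
    hs' h4
  change Ideal.Quotient.mk (kerPhi hV hA φ) (c σ) = a
  rw [hc σ a ha, map_natCast]

/-- **The tangent space with cyclotomic determinant is `H¹(G_S, ad⁰ ρbar)`.** -/
theorem card_hom_eq_det {p : ℕ} (hp : p.Prime) (hp2 : p ≠ 2) [CharP (ResidueField 𝒪) p]
    {S : Finset ℕ} {S' : Finset Nat.Primes}
    (hS' : ∀ q : Nat.Primes, q ∈ S' ↔ (q : ℕ) ∈ S) (hpS : p ∈ S)
    (DQ : DeformationRingData 𝒪 ρbar (DetUnrT 𝒪 p S))
    (hunr : ∀ q : ℕ, q.Prime → q ∉ S → ρbar.IsUnramifiedAt q)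
    {b : Module.Basis (Fin 2) (ResidueField 𝒪) ρbar.V} {D : Dat 𝒪} (hD : Compat D ρbar b)
    (hχb : ∀ (σ : GQ) (a : ℕ), (∀ x : Qb, x ^ p = 1 → σ x = x ^ a) → chiM ρbar b σ = a) :
    ∃ F : {f : DQ.R →ₐ[𝒪] DN 𝒪 // IsLocalHom (f : DQ.R →+* DN 𝒪)} →
      H1 (levS S') (Ad0 (rbM ρbar b) (1 : GQ →* ResidueField 𝒪)), Function.Bijective F := by
  have hpf : Fact p.Prime := ⟨hp⟩
  let _ : Algebra (ZMod p) (ResidueField 𝒪) := ZMod.algebra _ p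
  have hfin : Finite (DN 𝒪) := inferInstance
  have hrb' : ∀ σ i j, residue 𝒪 (D.cf σ i j) = rbM ρbar b σ i j := fun σ i j => by
    rw [hD σ i j, rbM_apply]
  have hrbo : (levS S').isOpen (rbM ρbar b).ker :=
    isOpen_rbM ρbar b fun q hq => hunr q q.2 fun h => hq ((hS' q).2 h)
  have hDN : PreTest 𝒪 (DN 𝒪) := (Fermat.Agent.H04.test_DN (𝒪 := 𝒪)).preTest
  have hlD : IsLocalHom (algebraMap 𝒪 (DN 𝒪)) := hDN.isLocalHom
  obtain ⟨ζ, hζ⟩ : ∃ ζ : Qb, IsPrimitiveRoot ζ p := by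
    have : NeZero (p : Qb) := ⟨Nat.cast_ne_zero.2 hp.ne_zero⟩
    exact HasEnoughRootsOfUnity.exists_primitiveRoot Qb p
  obtain ⟨x, CY⟩ := exists_CY hp hζ
  obtain ⟨r0, hr0, hred0, heq0⟩ := Fermat.Agent.H04.exists_mat hD
    (IsLocalRing.ResidueField.map (algebraMap 𝒪 DQ.R)) (fun c => rfl) DQ.ρ DQ.residual_isEquiv
  obtain ⟨r, hr, heq⟩ := Fermat.Agent.H04.exists_isNRep (D := D) DQ.instIsLocalHom r0 hr0 hred0
  have hrρ : (ofMat r hr.cont).IsEquiv DQ.ρ := by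
    obtain ⟨e1⟩ := heq
    obtain ⟨e0⟩ := heq0
    exact ⟨e1.trans e0.symm⟩
  have hbase : ∀ (φ : DQ.R →ₐ[𝒪] DN 𝒪) (hφ : IsLocalHom (φ : DQ.R →+* DN 𝒪)),
      (DQ.ρ.baseChangeAlong (φ : DQ.R →+* DN 𝒪) hφ).IsEquiv
        (ofMat (mapM (φ : DQ.R →+* DN 𝒪) r) (hr.cont.map _ hφ)) := by
    intro φ hφ
    obtain ⟨e1⟩ := Fermat.Agent.H04.ofMat_baseChange r hr.cont (φ : DQ.R →+* DN 𝒪) hφ
    obtain ⟨e2⟩ := hrρ
    exact ⟨(e2.symm.baseChangeAlong _ hφ).trans e1⟩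
  have htypeφ : ∀ (φ : DQ.R →ₐ[𝒪] DN 𝒪) (hφ : IsLocalHom (φ : DQ.R →+* DN 𝒪)),
      DetUnrT 𝒪 p S (ofMat (mapM (φ : DQ.R →+* DN 𝒪) r) (hr.cont.map _ hφ)) :=
    fun φ hφ => ⟨H19.detIsCyclotomic_of_isEquiv (hbase φ hφ)
      (H19.detIsCyclotomic_baseChangeAlong _ hφ DQ.isOfType.1),
      fun q hq hqS => H19.isUnramifiedAt_of_isEquiv (hbase φ hφ)
      (H19.isUnramifiedAt_baseChangeAlong _ hφ (DQ.isOfType.2 q hq hqS))⟩
  have hlev : ∀ (φ : DQ.R →ₐ[𝒪] DN 𝒪) (hφ : IsLocalHom (φ : DQ.R →+* DN 𝒪)),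
      (levS S').isOpen (mapM (φ : DQ.R →+* DN 𝒪) r).ker := fun φ hφ =>
    level_of_unr_fin (hr.cont.map _ hφ) (htypeφ φ hφ).2 fun q hq h => hq ((hS' q).2 h)
  have hFM : ∀ (φ : DQ.R →ₐ[𝒪] DN 𝒪) (hφ : IsLocalHom (φ : DQ.R →+* DN 𝒪)) σ,
      FM (mapM (φ : DQ.R →+* DN 𝒪) r σ) = rbM ρbar b σ := fun φ hφ σ =>
    FM_of_red hrb' (hr.map φ hφ).red σ
  have htr : ∀ (φ : DQ.R →ₐ[𝒪] DN 𝒪) (hφ : IsLocalHom (φ : DQ.R →+* DN 𝒪)) σ,
      sn (mapM (φ : DQ.R →+* DN 𝒪) r σ).det = 0 := fun φ hφ σ => by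
    rw [det_of_cyc CY (hr.cont.map _ hφ) (htypeφ φ hφ).1, sn_natCast]
  refine ⟨fun φ => H1.mk _ _ (cls S' (hFM φ.1 φ.2) (hlev φ.1 φ.2) (htr φ.1 φ.2)), ?_, ?_⟩
  · intro φ ψ hφψ
    obtain ⟨P, hP, hPs⟩ := exists_conj_of_cls hφψ
    have h1 : mapM (φ.1 : DQ.R →+* DN 𝒪) r = mapM (ψ.1 : DQ.R →+* DN 𝒪) r :=
      Fermat.Agent.H04.IsNRep.eq_of_isEquiv hlD (hr.map φ.1 φ.2) (hr.map ψ.1 ψ.2)
        (Fermat.Agent.H04.isEquiv_of_matrix _ _ P hP hPs)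
    have hres := Fermat.Agent.H04.residual_ofMat hD
      (IsLocalRing.ResidueField.map (algebraMap 𝒪 (DN 𝒪))) (fun c => rfl)
      (mapM (φ.1 : DQ.R →+* DN 𝒪) r) (hr.map φ.1 φ.2).cont (hr.map φ.1 φ.2).red
    obtain ⟨χ, -, hχ⟩ := DQ.universal (DN 𝒪)
      (Fermat.Agent.H04.test_DN (𝒪 := 𝒪)).residue_surjective
      (ofMat (mapM (φ.1 : DQ.R →+* DN 𝒪) r) (hr.map φ.1 φ.2).cont) (htypeφ φ.1 φ.2) hres
    have e1 := hχ φ.1 ⟨φ.2, hbase φ.1 φ.2⟩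
    have e2 := hχ ψ.1 ⟨ψ.2, by
      have h2 := hbase ψ.1 ψ.2
      have h3 : ofMat (mapM (ψ.1 : DQ.R →+* DN 𝒪) r) (hr.cont.map _ ψ.2) =
        ofMat (mapM (φ.1 : DQ.R →+* DN 𝒪) r) (hr.map φ.1 φ.2).cont := by
        congr 1
        exact h1.symm
      rw [h3] at h2
      exact h2⟩
    exact Subtype.ext (e1.trans e2.symm)
  · intro y
    obtain ⟨z0, rfl⟩ := H1.mk_surjective y
    obtain ⟨z, hz⟩ : ∃ z, z = toAd p z0 := ⟨_, rfl⟩
    have hztr : ∀ σ, (ofMT (z.1 σ)).trace = 0 := fun σ => by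
      rw [hz]
      exact (z0.1 σ).trace_val
    have hU := isOpen_liftOf hrbo z
    have hred : ∀ σ i j, liftOf z.1 z.2.2 σ i j - algebraMap 𝒪 (DN 𝒪) (D.cf σ i j) ∈
        maximalIdeal (DN 𝒪) := by
      intro σ i j
      rw [mem_maximalIdeal_iff_fs, map_sub, fs_algebraMap, hrb', sub_eq_zero]
      exact congrFun (congrFun (FM_liftOf z.1 z.2.2 σ) i) j
    have hp1 : ((p ^ 1 : ℕ) : DN 𝒪) = 0 := by rw [pow_one, dn_natCast_eq_zero]
    obtain ⟨c, hcl, hc⟩ := exists_cyc hp hp1 (S' := S') fun q hq => (hS' q).2 (hq ▸ hpS)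
    have hpDN : (p : DN 𝒪) ∈ maximalIdeal (DN 𝒪) := by
      rw [dn_natCast_eq_zero]
      exact Ideal.zero_mem _
    have hdetL : ∀ σ, (liftOf z.1 z.2.2 σ).det = c σ := by
      intro σ
      have : NeZero (p ^ 1) := ⟨pow_ne_zero _ hp.ne_zero⟩
      obtain ⟨a, ha⟩ := exists_pow_action (p ^ 1) σ
      rw [hc σ a ha]
      refine dn_ext ?_ ?_
      · have h1 : fs (liftOf z.1 z.2.2 σ).det = (FM (liftOf z.1 z.2.2 σ)).det := by
          rw [FM, ← RingHom.mapMatrix_apply, ← RingHom.map_det]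
        rw [h1, FM_liftOf, map_natCast]
        exact hχb σ a (by rwa [pow_one] at ha)
      · rw [sn_natCast, sn_det, FM_liftOf, SM_liftOf, mul_assoc, Matrix.mul_adjugate,
          mul_smul_comm, mul_one, Matrix.trace_smul, hztr, smul_zero]
    have hcont := cont_of_level hU
    have htypeL : DetUnrT 𝒪 p S (ofMat (liftOf z.1 z.2.2) hcont) :=
      ⟨detIsCyclotomic_of hp hpDN hc hcont hdetL,
        fun q hq hqS => unr_of_level hU (fun q hq h => hq ((hS' q).1 h)) q hq hqS⟩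
    obtain ⟨φ, ⟨hφ, heq'⟩, -⟩ := DQ.universal (DN 𝒪)
      (Fermat.Agent.H04.test_DN (𝒪 := 𝒪)).residue_surjective
      (ofMat (liftOf z.1 z.2.2) hcont) htypeL
      (Fermat.Agent.H04.residual_ofMat hD
        (IsLocalRing.ResidueField.map (algebraMap 𝒪 (DN 𝒪))) (fun c => rfl) _ hcont hred)
    refine ⟨⟨φ, hφ⟩, mk_eq_of_toAd (p := p) (two_ne_zero_of _ hp2) ?_⟩
    have h1 : (ofMat (mapM (φ : DQ.R →+* DN 𝒪) r) (cont_of_level (hlev φ hφ))).IsEquiv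
        (ofMat (liftOf z.1 z.2.2) (cont_of_level hU)) := by
      obtain ⟨a⟩ := hbase φ hφ
      obtain ⟨c⟩ := heq'
      exact ⟨a.symm.trans c⟩
    have h2 := clsF_eq_of_isEquiv (p := p) DQ.absIrr b (hFM φ hφ) (hlev φ hφ)
      (FM_liftOf z.1 z.2.2) hU h1
    rw [clsF_liftOf hrbo z] at h2
    have h5 : toAd p (cls S' (hFM φ hφ) (hlev φ hφ) (htr φ hφ)) =
        clsF p S' (hFM φ hφ) (hlev φ hφ) := Subtype.ext (funext fun σ => rfl)
    exact (congrArg _ h5).trans (h2.trans (congrArg _ hz))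

end main

end Fermat.Agent.Cor.DefCond

end
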