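import Fermat.Agent.Cor.DefCondW
import Fermat.Agent.Cor.DefCondS

/-!
# Mazur's presentation of the universal deformation ring with cyclotomic determinant

`p` odd, `ρbar : Gal(ℚ̄/ℚ) → GL₂(k)` absolutely irreducible with cyclotomic determinant and
unramified outside the finite set `S ∋ p`, and `R` its universal deformation ring for deformations
with cyclotomic determinant, unramified outside `S`.

* `mazur_det_presentation`: `R ≅ 𝒪⟦X₁, …, X_{n+2}⟧ / (f₁, …, f_n)`, where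
  `#H²(G_S, ad⁰ ρbar) = (#k) ^ n` and `#H¹(G_S, ad⁰ ρbar) = (#k) ^ (n + 2)`.
* `three_le_ringKrullDim`: `R` has Krull dimension at least `3`.
-/

set_option autoImplicit false
set_option linter.unusedSectionVars false

noncomputable section

namespace Fermat.Agent.Cor.DefCond

open IsLocalRing GaloisRep Matrix Fermat.Agent.CC Fermat.Agent.TW
open Fermat.Agent.H04 (DN M2 Dat IsCont IsNRep ofMat Compat mapM PreTest)

section main

variable {𝒪 : Type} [CommRing 𝒪] [IsDomain 𝒪] [IsDiscreteValuationRing 𝒪]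
  [IsAdicComplete (maximalIdeal 𝒪) 𝒪] [Finite (ResidueField 𝒪)]
  {ρbar : ResidualGaloisRep (ResidueField 𝒪)}

theorem chiM_of_det {p : ℕ} [CharP (ResidueField 𝒪) p]
    (hdet : (GaloisRepAdic.ofResidualGaloisRep ρbar).DetIsCyclotomic p)
    (b : Module.Basis (Fin 2) (ResidueField 𝒪) ρbar.V) (σ : GQ) (a : ℕ)
    (ha : ∀ x : Qb, x ^ p = 1 → σ x = x ^ a) : chiM ρbar b σ = a := by
  have h1 := hdet.2 1 σ a (fun μ hμ => ha μ (by rwa [pow_one] at hμ))
  have hp0 : (p : ResidueField 𝒪) = 0 := CharP.cast_eq_zero _ p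
  rw [pow_one, hp0, Ideal.mem_span_singleton'] at h1
  obtain ⟨c, hc⟩ := h1
  rw [mul_zero, eq_comm, sub_eq_zero] at hc
  change (rbM ρbar b σ).det = _
  rw [det_rbM]
  exact hc

/-- **Mazur's presentation with cyclotomic determinant.** -/
theorem mazur_det_presentation {p : ℕ} (hp : p.Prime) (hp2 : p ≠ 2)
    (hdet : (GaloisRepAdic.ofResidualGaloisRep ρbar).DetIsCyclotomic p) (hodd : ρbar.IsOdd)
    (S : Finset ℕ) (hpS : p ∈ S) (hunr : ∀ q : ℕ, q.Prime → q ∉ S → ρbar.IsUnramifiedAt q)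
    (DQ : DeformationRingData 𝒪 ρbar (DetUnrT 𝒪 p S)) :
    ∃ (b : Module.Basis (Fin 2) (ResidueField 𝒪) ρbar.V) (n : ℕ)
      (F : Fin n → MvPowerSeries (Fin (n + 2)) 𝒪),
      Nat.card (H2 (levS (S.subtype Nat.Prime))
        (Ad0 (rbM ρbar b) (1 : GQ →* ResidueField 𝒪))) = Nat.card (ResidueField 𝒪) ^ n ∧
      Nat.card (H1 (levS (S.subtype Nat.Prime))
        (Ad0 (rbM ρbar b) (1 : GQ →* ResidueField 𝒪))) = Nat.card (ResidueField 𝒪) ^ (n + 2) ∧
      Nonempty ((MvPowerSeries (Fin (n + 2)) 𝒪 ⧸ Ideal.span (Set.range F)) ≃ₐ[𝒪] DQ.R) := by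
  have hpf : Fact p.Prime := ⟨hp⟩
  have hcharP : CharP (ResidueField 𝒪) p := charP_of ρbar p hp hdet
  have hpO : (p : 𝒪) ∈ maximalIdeal 𝒪 := by
    rw [← residue_eq_zero_iff, map_natCast]
    exact CharP.cast_eq_zero _ p
  obtain ⟨b, D, hD⟩ := Fermat.Agent.H04.exists_dat ρbar DQ.absIrr
  have hS' : ∀ q : Nat.Primes, q ∈ S.subtype Nat.Prime ↔ (q : ℕ) ∈ S := fun q =>
    Finset.mem_subtype
  have hpS' : pP p ∈ S.subtype Nat.Prime := (hS' _).2 hpS
  have hunr' : ∀ q : Nat.Primes, q ∉ S.subtype Nat.Prime → ρbar.IsUnramifiedAt q :=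
    fun q hq => hunr q q.2 fun h => hq ((hS' q).2 h)
  have hχ := chiM_of_det hdet b
  obtain ⟨hfin2, hcard⟩ := card_H1_Ad0 hp2 hpS' ρbar DQ.absIrr hodd b hunr' hχ
  have hfin1 : Finite (H1 (levS (S.subtype Nat.Prime))
      (Ad0 (rbM ρbar b) (1 : GQ →* ResidueField 𝒪))) :=
    finite_H1_ad0 hp2 hpS' (isOpen_rbM ρbar b hunr') (fun _ => rfl) hχ
  obtain ⟨F, hF⟩ := card_hom_eq_det hp hp2 hS' hpS DQ hunr hD hχ
  have hR : PreTest 𝒪 DQ.R := Fermat.Agent.H04.preTest_iff.mpr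
    ⟨DQ.instIsLocalHom, DQ.residue_surjective⟩
  have hfinH : Finite {f : DQ.R →ₐ[𝒪] DN 𝒪 // IsLocalHom (f : DQ.R →+* DN 𝒪)} :=
    Finite.of_injective _ hF.1
  obtain ⟨d, hd⟩ := exists_card_hom hR hfinH
  obtain ⟨γ, hγ, hker⟩ := exists_presentation hR d hfinH hd
  have hP : PreTest 𝒪 (MvPowerSeries (Fin d) 𝒪) := preTest_powerSeries
  obtain ⟨r, G, hG, hr⟩ := relations_bound hP γ hγ hker
    (H := H2 (levS (S.subtype Nat.Prime)) (Ad0 (rbM ρbar b) (1 : GQ →* ResidueField 𝒪)))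
    (fun {A B} _ _ _ _ _ _ _ _ hA π hπ V hVker hV f hf =>
      exists_obstruction_hom_det hp hpO hS' hpS DQ hD hA π hπ hVker hV f hf)
  have hd' : Nat.card (ResidueField 𝒪) ^ d = Nat.card (H1 (levS (S.subtype Nat.Prime))
      (Ad0 (rbM ρbar b) (1 : GQ →* ResidueField 𝒪))) :=
    hd.symm.trans (Nat.card_congr (Equiv.ofBijective F hF))
  have hq : 1 < Nat.card (ResidueField 𝒪) := Finite.one_lt_card
  have h1 : r + 2 ≤ d := by
    refine (Nat.pow_le_pow_iff_right hq).1 ?_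
    refine le_trans ?_ (hcard.symm.trans hd'.symm).le
    rw [pow_add, mul_comm]
    exact Nat.mul_le_mul_left _ hr
  obtain ⟨n, rfl⟩ : ∃ n, d = n + 2 := ⟨d - 2, by omega⟩
  obtain ⟨F', hF'⟩ := span_pad (n := n) (by omega) G
  refine ⟨b, n, F', ?_, hd'.symm, ?_⟩
  · have h2 := hcard.symm.trans hd'.symm
    rw [pow_add, mul_comm (Nat.card (ResidueField 𝒪) ^ n)] at h2
    exact Nat.eq_of_mul_eq_mul_left (pow_pos (by omega) 2) h2
  · rw [hF', ← hG]
    exact ⟨Ideal.quotientKerAlgEquivOfSurjective hγ⟩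

/-- **Mazur**: the universal deformation ring with cyclotomic determinant has Krull dimension at
least `3`. -/
theorem three_le_ringKrullDim {p : ℕ} (hp : p.Prime) (hp2 : p ≠ 2)
    (hdet : (GaloisRepAdic.ofResidualGaloisRep ρbar).DetIsCyclotomic p) (hodd : ρbar.IsOdd)
    (S : Finset ℕ) (hpS : p ∈ S) (hunr : ∀ q : ℕ, q.Prime → q ∉ S → ρbar.IsUnramifiedAt q)
    (DQ : DeformationRingData 𝒪 ρbar (DetUnrT 𝒪 p S)) :
    3 ≤ ringKrullDim DQ.R := by
  classical
  obtain ⟨b, n, F, -, -, ⟨e⟩⟩ := mazur_det_presentation hp hp2 hdet hodd S hpS hunr DQ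
  have hle : Ideal.span (Set.range F) ≤ maximalIdeal (MvPowerSeries (Fin (n + 2)) 𝒪) := by
    refine IsLocalRing.le_maximalIdeal fun h => ?_
    have h1 : (Ideal.Quotient.mk (Ideal.span (Set.range F)) 1) = 0 :=
      Ideal.Quotient.eq_zero_iff_mem.2 (h ▸ Submodule.mem_top)
    have h2 := congrArg e h1
    rw [map_one, map_one, map_zero] at h2
    exact one_ne_zero h2
  have h1 := ringKrullDim_le_ringKrullDim_quotient_add_card (Finset.univ.image F) (by
    rw [Finset.coe_image, Finset.coe_univ, Set.image_univ, IsLocalRing.ringJacobson_eq_maximalIdeal]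
    exact fun x hx => hle (Ideal.subset_span hx))
  rw [Finset.coe_image, Finset.coe_univ, Set.image_univ,
    ringKrullDim_eq_of_ringEquiv e.toRingEquiv] at h1
  have h2 : ((Finset.univ.image F).card : WithBot ℕ∞) ≤ ((n : ℕ) : WithBot ℕ∞) := by
    have h3 : (Finset.univ.image F).card ≤ n :=
      Finset.card_image_le.trans (by rw [Finset.card_univ, Fintype.card_fin])
    exact_mod_cast h3
  have h3 := (le_ringKrullDim_powerSeries 𝒪 (n + 2)).trans (h1.trans (add_le_add_right h2 _))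
  have h4 : ((3 + n : ℕ) : WithBot ℕ∞) ≤ ((n + 2 + 1 : ℕ) : WithBot ℕ∞) := by
    have : 3 + n ≤ n + 2 + 1 := by omega
    exact_mod_cast this
  exact le_of_add_le (h4.trans h3)

/-- Existence, presentation and dimension of the universal deformation ring with cyclotomic
determinant. -/
theorem exists_mazur_det {p : ℕ} (hp : p.Prime) (hp2 : p ≠ 2)
    (habs : ρbar.IsAbsolutelyIrreducible)
    (hdet : (GaloisRepAdic.ofResidualGaloisRep ρbar).DetIsCyclotomic p) (hodd : ρbar.IsOdd)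
    (S : Finset ℕ) (hpS : p ∈ S) (hunr : ∀ q : ℕ, q.Prime → q ∉ S → ρbar.IsUnramifiedAt q) :
    ∃ DQ : DeformationRingData 𝒪 ρbar (DetUnrT 𝒪 p S), 3 ≤ ringKrullDim DQ.R ∧
      ∃ (n : ℕ) (F : Fin n → MvPowerSeries (Fin (n + 2)) 𝒪),
        Nonempty ((MvPowerSeries (Fin (n + 2)) 𝒪 ⧸ Ideal.span (Set.range F)) ≃ₐ[𝒪] DQ.R) := by
  obtain ⟨DQ⟩ := mazur_det hp hp2 habs S hunr hdet
  obtain ⟨b, n, F, -, -, h⟩ := mazur_det_presentation hp hp2 hdet hodd S hpS hunr DQ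
  exact ⟨DQ, three_le_ringKrullDim hp hp2 hdet hodd S hpS hunr DQ, n, F, h⟩

end main

end Fermat.Agent.Cor.DefCond

end
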