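import Fermat.Agent.Cor.DefCondY

/-!
# Unobstructed deformation problems with cyclotomic determinant

`p` odd, `ρbar` odd, absolutely irreducible with cyclotomic determinant, unramified outside the
finite set `S ∋ p`, `R` its universal deformation ring for deformations with cyclotomic determinant,
unramified outside `S`: `H²(G_S, ad⁰ ρbar) = 0` iff `R ≅ 𝒪⟦X₁, X₂⟧` iff `R` is a quotient of
`𝒪⟦X₁, X₂⟧` iff `#H¹(G_S, ad⁰ ρbar) = (#k) ^ 2`.
-/

set_option autoImplicit false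
set_option linter.unusedSectionVars false

noncomputable section

namespace Fermat.Agent.Cor.DefCond

open IsLocalRing GaloisRep Matrix Fermat.Agent.CC Fermat.Agent.TW
open Fermat.Agent.H04 (DN M2 Dat IsCont IsNRep ofMat Compat mapM PreTest)

variable {𝒪 : Type} [CommRing 𝒪] [IsDomain 𝒪] [IsDiscreteValuationRing 𝒪]
  [IsAdicComplete (maximalIdeal 𝒪) 𝒪] [Finite (ResidueField 𝒪)]
  {ρbar : ResidualGaloisRep (ResidueField 𝒪)}

/-- **Unobstructed deformation problems with cyclotomic determinant.** -/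
theorem unobstructed_det_tfae {p : ℕ} (hp : p.Prime) (hp2 : p ≠ 2)
    (hdet : (GaloisRepAdic.ofResidualGaloisRep ρbar).DetIsCyclotomic p) (hodd : ρbar.IsOdd)
    (S : Finset ℕ) (hpS : p ∈ S) (hunr : ∀ q : ℕ, q.Prime → q ∉ S → ρbar.IsUnramifiedAt q)
    (DQ : DeformationRingData 𝒪 ρbar (DetUnrT 𝒪 p S)) :
    ∃ b : Module.Basis (Fin 2) (ResidueField 𝒪) ρbar.V, List.TFAE [
      Subsingleton (H2 (levS (S.subtype Nat.Prime))
        (Ad0 (rbM ρbar b) (1 : GQ →* ResidueField 𝒪))),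
      Nonempty (MvPowerSeries (Fin 2) 𝒪 ≃ₐ[𝒪] DQ.R),
      ∃ γ : MvPowerSeries (Fin 2) 𝒪 →ₐ[𝒪] DQ.R, Function.Surjective γ,
      Nat.card (H1 (levS (S.subtype Nat.Prime))
        (Ad0 (rbM ρbar b) (1 : GQ →* ResidueField 𝒪))) = Nat.card (ResidueField 𝒪) ^ 2] := by
  have hpf : Fact p.Prime := ⟨hp⟩
  have hcharP : CharP (ResidueField 𝒪) p := charP_of ρbar p hp hdet
  have hpO : (p : 𝒪) ∈ maximalIdeal 𝒪 := by
    rw [← residue_eq_zero_iff, map_natCast]
    exact CharP.cast_eq_zero _ p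
  obtain ⟨b, D, hD⟩ := Fermat.Agent.H04.exists_dat ρbar DQ.absIrr
  have hS' : ∀ q : Nat.Primes, q ∈ S.subtype Nat.Prime ↔ (q : ℕ) ∈ S := fun q =>
    Finset.mem_subtype
  have hpS' : pP p ∈ S.subtype Nat.Prime := (hS' _).2 hpS
  have hunr' : ∀ q : Nat.Primes, q ∉ S.subtype Nat.Prime → ρbar.IsUnramifiedAt q :=
    fun q hq => hunr q q.2 fun h => hq ((hS' q).2 h)
  have hχ := chiM_of_det hdet b
  obtain ⟨hfin2, hcard⟩ := card_H1_Ad0 hp2 hpS' ρbar DQ.absIrr hodd b hunr' hχ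
  have hfin1 : Finite (H1 (levS (S.subtype Nat.Prime))
      (Ad0 (rbM ρbar b) (1 : GQ →* ResidueField 𝒪))) :=
    finite_H1_ad0 hp2 hpS' (isOpen_rbM ρbar b hunr') (fun _ => rfl) hχ
  obtain ⟨F, hF⟩ := card_hom_eq_det hp hp2 hS' hpS DQ hunr hD hχ
  have hR : PreTest 𝒪 DQ.R := Fermat.Agent.H04.preTest_iff.mpr
    ⟨DQ.instIsLocalHom, DQ.residue_surjective⟩
  have hfinH : Finite {f : DQ.R →ₐ[𝒪] DN 𝒪 // IsLocalHom (f : DQ.R →+* DN 𝒪)} :=
    Finite.of_injective _ hF.1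
  have hq : 1 < Nat.card (ResidueField 𝒪) := Finite.one_lt_card
  have hpos : 0 < Nat.card (ResidueField 𝒪) ^ 2 := pow_pos (by omega) 2
  refine ⟨b, ?_⟩
  tfae_have 1 → 2 := by
    intro h
    have hone : Nat.card (H2 (levS (S.subtype Nat.Prime))
        (Ad0 (rbM ρbar b) (1 : GQ →* ResidueField 𝒪))) = 1 := Nat.card_of_subsingleton 0
    have hd : Nat.card {f : DQ.R →ₐ[𝒪] DN 𝒪 // IsLocalHom (f : DQ.R →+* DN 𝒪)} =
        Nat.card (ResidueField 𝒪) ^ 2 := by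
      rw [Nat.card_congr (Equiv.ofBijective F hF), hcard, hone, mul_one]
    obtain ⟨γ, hγ, hker⟩ := exists_presentation hR 2 hfinH hd
    have hP : PreTest 𝒪 (MvPowerSeries (Fin 2) 𝒪) := preTest_powerSeries
    obtain ⟨r, G, hG, hr⟩ := relations_bound hP γ hγ hker
      (H := H2 (levS (S.subtype Nat.Prime)) (Ad0 (rbM ρbar b) (1 : GQ →* ResidueField 𝒪)))
      (fun {A B} _ _ _ _ _ _ _ _ hA π hπ V hVker hV f hf =>
        exists_obstruction_hom_det hp hpO hS' hpS DQ hD hA π hπ hVker hV f hf)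
    rw [hone] at hr
    have hr0 : r = 0 := by
      by_contra h0
      have h1 := Nat.one_lt_pow h0 hq
      omega
    subst hr0
    have hbot : RingHom.ker γ = ⊥ := by
      rw [hG, Set.range_eq_empty, Ideal.span_empty]
    have hinj : Function.Injective γ := (RingHom.injective_iff_ker_eq_bot γ).2 hbot
    exact ⟨AlgEquiv.ofBijective γ ⟨hinj, hγ⟩⟩
  tfae_have 2 → 3 := by
    rintro ⟨e⟩
    exact ⟨e, e.surjective⟩
  tfae_have 3 → 4 := by
    rintro ⟨γ, hγ⟩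
    have hγl : IsLocalHom (γ : MvPowerSeries (Fin 2) 𝒪 →+* DQ.R) :=
      IsLocalHom.of_surjective (γ : MvPowerSeries (Fin 2) 𝒪 →+* DQ.R) hγ
    obtain ⟨hfP, hcP⟩ := card_hom_powerSeries (𝒪 := 𝒪) (d := 2)
    let G : {f : DQ.R →ₐ[𝒪] DN 𝒪 // IsLocalHom (f : DQ.R →+* DN 𝒪)} →
        {f : MvPowerSeries (Fin 2) 𝒪 →ₐ[𝒪] DN 𝒪 //
          IsLocalHom (f : MvPowerSeries (Fin 2) 𝒪 →+* DN 𝒪)} := fun f =>
      ⟨f.1.comp γ, ⟨fun x hx => hγl.map_nonunit _ (f.2.map_nonunit _ hx)⟩⟩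
    have hGinj : Function.Injective G := by
      intro f g hfg
      apply Subtype.ext
      ext x
      obtain ⟨y, rfl⟩ := hγ x
      exact congrArg (fun F => F.1 y) hfg
    have h1 : Nat.card (H1 (levS (S.subtype Nat.Prime))
        (Ad0 (rbM ρbar b) (1 : GQ →* ResidueField 𝒪))) ≤ Nat.card (ResidueField 𝒪) ^ 2 := by
      rw [← Nat.card_congr (Equiv.ofBijective F hF)]
      exact (Nat.card_le_card_of_injective G hGinj).trans hcP
    refine le_antisymm h1 ?_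
    rw [hcard]
    exact Nat.le_mul_of_pos_right _ Nat.card_pos
  tfae_have 4 → 1 := by
    intro h
    rw [hcard] at h
    have h1 := Nat.eq_of_mul_eq_mul_left hpos (h.trans (mul_one _).symm)
    exact (Nat.card_eq_one_iff_unique.1 h1).1
  tfae_finish

end Fermat.Agent.Cor.DefCond

end
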