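import Mathlib
import Fermat.Agent.AL.Level
import Fermat.Agent.H01.Cusp
import Fermat.Agent.H01.JQ

set_option autoImplicit false

/-!
# Cusp forms of weight two and eta products

Let `N` be a positive integer and `e = ∑_{d ∣ N} d`, and assume that `2 e = 12 · #{d ∣ N}` and
`∑_{d ∣ N} gcd(d, g) ^ 2 N / d ≤ e g` for all `g ∣ N` (this holds for `N = 11, 14, 15`, and these
are the only squarefree `N` with this property). Then for every cusp form `f` of weight two for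
`Γ₀(N)` the function `f ^ e / ∏_{d ∣ N} Δ(d z)` is constant (`exists_const`): it is invariant under
`Γ₀(N)`, holomorphic because `Δ` has no zeros, and bounded at the cusps: at the cusp `γ ∞`, with
`g = gcd(N, γ₁₀)`, the numerator is `O(exp(-2 π e y / w))` where `w = N / g`, and the
denominator is at least a constant times `exp(-2 π y ∑_d gcd(d, g) ^ 2 / d)`.

Hence the `q`-expansion of `f`, if its first coefficient is `1`, is
`q ∏_{d ∣ N} ∏_n (1 - q ^ (d n)) ^ k` with `k = 24 / e` (`qExpansion_eq`, `qCoeff_eq`).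
-/

namespace Fermat.Agent.Cor.Eichler

open UpperHalfPlane Function ModularForm CongruenceSubgroup Filter Asymptotics
open scoped Manifold Topology MatrixGroups ModularForm Real
open Fermat.Agent.IntStr Fermat.Agent.AL

noncomputable section

local notation "Δ" => ModularForm.discriminant

/-- the function `Δ(d z)` -/
def Dd (d : ℕ) (z : ℍ) : ℂ := Δ (aff d 1 0 z)

theorem im_aff {a d : ℕ} (ha : 0 < a) (hd : 0 < d) (b : ℤ) (z : ℍ) :
    (aff a d b z).im = (a : ℝ) / d * z.im := by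
  have : (aff a d b z).im = ((aff a d b z : ℍ) : ℂ).im := rfl
  rw [this, coe_aff ha hd, Complex.div_natCast_im]
  simp only [Complex.add_im, Complex.mul_im, Complex.natCast_re, Complex.natCast_im, zero_mul,
    add_zero, Complex.intCast_im]
  rw [div_mul_eq_mul_div]
  rfl

theorem Dd_slash {d : ℕ} (hd : 0 < d) (γ : SL(2, ℤ)) :
    ∃ (a' d' : ℕ) (b' : ℤ), 0 < a' ∧ 0 < d' ∧ a' * d' = d ∧ a' ∣ Nat.gcd d (γ 1 0).natAbs ∧
      Dd d ∣[(12 : ℤ)] γ = fun z ↦ (((1 : ℕ) : ℂ) / d') ^ (12 : ℤ) * Δ (aff a' d' b' z) := by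
  have hdet := det_eq γ
  obtain ⟨δ, a', d', b', h1, h2, h0, h3, h4, h5, h6⟩ :=
    hnf (x := d * γ 0 0) (y := d * γ 0 1) (z := γ 1 0) (w := γ 1 1) (D := d) hd
      (by linear_combination (d : ℤ) * hdet)
  refine ⟨a', d', b', h1, h2, h0, Nat.dvd_gcd ⟨d', h0.symm⟩ ?_, ?_⟩
  · rw [← Int.natCast_dvd]
    exact ⟨δ 1 0, by rw [h5, mul_comm]⟩
  · have h := slash_aff (k := 12) Δ (a := d) (d := 1) (b := 0) (a' := a') (d' := d') (b' := b')
      (γ := γ) (δ := δ) hd one_pos h1 h2 (by rw [← h3]; ring) (by rw [← h4]; ring)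
      (by rw [← h5]; push_cast; ring) (by rw [← h6]; push_cast; ring)
    rw [isS1_discriminant.slash] at h
    exact h

theorem Dd_slash_level {N d : ℕ} (hd : 0 < d) (hdN : d ∣ N) {γ : SL(2, ℤ)} (hγ : γ ∈ Gamma0 N) :
    Dd d ∣[(12 : ℤ)] γ = Dd d := by
  have hdet := det_eq γ
  have h1 : ((N : ℤ)) ∣ γ 1 0 := by
    rw [Gamma0_mem] at hγ
    exact (ZMod.intCast_zmod_eq_zero_iff_dvd _ _).mp (by simpa using hγ)
  obtain ⟨c, hc⟩ : (d : ℤ) ∣ γ 1 0 := (Int.natCast_dvd_natCast.mpr hdN).trans h1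
  let δ : SL(2, ℤ) := ⟨!![γ 0 0, d * γ 0 1; c, γ 1 1], by
    rw [Matrix.det_fin_two_of]; linear_combination hdet + γ 0 1 * hc⟩
  have h := slash_aff (k := 12) Δ (a := d) (d := 1) (b := 0) (a' := d) (d' := 1) (b' := 0)
      (γ := γ) (δ := δ) hd one_pos hd one_pos
      (by change _ = γ 0 0 * (d : ℤ); ring)
      (by change _ = γ 0 0 * 0 + (d * γ 0 1) * ((1 : ℕ) : ℤ); push_cast; ring)
      (by change _ = c * (d : ℤ); rw [hc]; push_cast; ring)
      (by change _ = c * 0 + γ 1 1 * ((1 : ℕ) : ℤ); push_cast; ring)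
  rw [isS1_discriminant.slash] at h
  have h' : (fun z ↦ (((1 : ℕ) : ℂ) / ((1 : ℕ) : ℂ)) ^ (12 : ℤ) * Δ (aff d 1 0 z)) = Dd d := by
    ext z; simp [Dd]
  rw [h'] at h
  exact h

theorem Dd_ne_zero (d : ℕ) (z : ℍ) : Dd d z ≠ 0 := discriminant_ne_zero _

theorem mdiff_Dd {d : ℕ} (hd : 0 < d) : MDiff (Dd d) :=
  mdiff_comp_aff isS1_discriminant.holo hd one_pos 0

theorem Dd_lower {d : ℕ} (hd : 0 < d) (γ : SL(2, ℤ)) :
    (fun z : ℍ ↦ Real.exp (-2 * π * ((Nat.gcd d (γ 1 0).natAbs : ℝ) ^ 2 / d) * z.im))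
      =O[atImInfty] (Dd d ∣[(12 : ℤ)] γ) := by
  obtain ⟨a', d', b', ha, hd', had, hag, h⟩ := Dd_slash hd γ
  rw [h]
  have h1 := exp_isBigO_discriminant.comp_tendsto (tendsto_aff ha hd' b')
  have h2 : (fun z : ℍ ↦ Real.exp (-2 * π * ((Nat.gcd d (γ 1 0).natAbs : ℝ) ^ 2 / d) * z.im))
      =O[atImInfty] ((fun τ : ℍ ↦ Real.exp (-2 * π * τ.im)) ∘ aff a' d' b') := by
    refine IsBigO.of_bound 1 (Eventually.of_forall fun z ↦ ?_)
    rw [one_mul, comp_apply, Real.norm_eq_abs, Real.norm_eq_abs, Real.abs_exp, Real.abs_exp,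
      Real.exp_le_exp, im_aff ha hd']
    have hle : (a' : ℝ) ≤ (Nat.gcd d (γ 1 0).natAbs : ℝ) := by
      exact_mod_cast Nat.le_of_dvd (Nat.gcd_pos_of_pos_left _ hd) hag
    have e1 : (a' : ℝ) / d' = (a' : ℝ) ^ 2 / d := by
      rw [← had]; push_cast
      have : (a' : ℝ) ≠ 0 := by exact_mod_cast ha.ne'
      have : (d' : ℝ) ≠ 0 := by exact_mod_cast hd'.ne'
      field_simp
    have e2 : (a' : ℝ) / d' ≤ (Nat.gcd d (γ 1 0).natAbs : ℝ) ^ 2 / d := by
      rw [e1]; gcongr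
    have e3 : (a' : ℝ) / d' * z.im ≤ (Nat.gcd d (γ 1 0).natAbs : ℝ) ^ 2 / d * z.im :=
      mul_le_mul_of_nonneg_right e2 z.im_pos.le
    have e4 := mul_le_mul_of_nonneg_left e3 (show (0 : ℝ) ≤ 2 * π by positivity)
    linarith
  refine (h2.trans h1).trans ?_
  have hd0 : (((1 : ℕ) : ℂ) / d') ^ (12 : ℤ) ≠ 0 := by
    have : (d' : ℂ) ≠ 0 := by exact_mod_cast hd'.ne'
    apply zpow_ne_zero
    simp [this]
  refine IsBigO.of_bound ‖((((1 : ℕ) : ℂ) / d') ^ (12 : ℤ))⁻¹‖ (Eventually.of_forall fun z ↦ ?_)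
  rw [← norm_mul, ← mul_assoc, inv_mul_cancel₀ hd0, one_mul]
  rfl

/-- conjugates of unipotent elements in `Γ₀(N)` -/
theorem conj_mem {N w : ℕ} (γ : SL(2, ℤ)) (h : (N : ℤ) ∣ γ 1 0 ^ 2 * w) :
    γ * ModularGroup.T ^ (w : ℤ) * γ⁻¹ ∈ Gamma0 N := by
  rw [Gamma0_mem]
  have h1 : (γ * ModularGroup.T ^ (w : ℤ) * γ⁻¹ : SL(2, ℤ)) 1 0 = -(γ 1 0 ^ 2 * w) := by
    rw [Matrix.SpecialLinearGroup.coe_mul, Matrix.SpecialLinearGroup.coe_mul,
      ModularGroup.coe_T_zpow, Matrix.SpecialLinearGroup.coe_inv, Matrix.adjugate_fin_two]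
    simp [Matrix.mul_apply, Fin.sum_univ_two]
    ring
  rw [h1, ZMod.intCast_zmod_eq_zero_iff_dvd]
  exact (dvd_neg).mpr h

theorem slash_upper {N w : ℕ} [NeZero N] (hw : 0 < w) (f : CuspForm (Gamma0 N) 2) (γ : SL(2, ℤ))
    (h : (N : ℤ) ∣ γ 1 0 ^ 2 * w) :
    (⇑f ∣[(2 : ℤ)] γ) =O[atImInfty] fun z : ℍ ↦ Real.exp (-2 * π * z.im / (w : ℝ)) := by
  refine IsZeroAtImInfty.exp_decay_atImInfty (isCuspidal_coe f γ) (by exact_mod_cast hw) ?_
    (MDifferentiable.slash (CuspFormClass.holo f) 2 _) (isMN_coe f |>.bdd γ)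
  apply H01.periodic_comp_ofComplex_of_vadd
  intro z
  have h1 := AL.slash_T_zpow (k := 2) (⇑f ∣[(2 : ℤ)] γ) (w : ℤ) z
  rw [← SlashAction.slash_mul] at h1
  have h2 : γ * ModularGroup.T ^ (w : ℤ) = (γ * ModularGroup.T ^ (w : ℤ) * γ⁻¹) * γ := by group
  rw [h2, SlashAction.slash_mul, (isMN_coe f).slash _ (conj_mem γ h)] at h1
  rw [h1]
  simp

/-- the product of the `Δ(d z)`, `d ∣ N` -/
def PN (N : ℕ) (z : ℍ) : ℂ := ∏ d ∈ N.divisors, Dd d z

theorem PN_ne_zero (N : ℕ) (z : ℍ) : PN N z ≠ 0 := Finset.prod_ne_zero_iff.mpr fun _ _ ↦ Dd_ne_zero _ _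

/-- the quotient -/
def hq (N e : ℕ) (f : ℍ → ℂ) (z : ℍ) : ℂ := f z ^ e / PN N z

theorem hq_smul {N e : ℕ} (h2 : e * 2 = 12 * N.divisors.card) (f : ℍ → ℂ) (γ : SL(2, ℤ)) (z : ℍ) :
    hq N e f (γ • z) = (f ∣[(2 : ℤ)] γ) z ^ e / ∏ d ∈ N.divisors, (Dd d ∣[(12 : ℤ)] γ) z := by
  have hγ := denom_ne_zero γ z
  have e1 : ∀ (k : ℤ) (g : ℍ → ℂ), (g ∣[k] γ) z = g (γ • z) * (denom γ z ^ k)⁻¹ := by
    intro k g
    rw [SL_slash_apply, zpow_neg]
  rw [e1, hq, PN]
  simp_rw [e1]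
  rw [Finset.prod_mul_distrib, Finset.prod_const, mul_pow, inv_pow, inv_pow]
  have e3 : (denom γ z ^ (2 : ℤ)) ^ e = (denom γ z ^ (12 : ℤ)) ^ N.divisors.card := by
    rw [← zpow_natCast, ← zpow_mul, ← zpow_natCast, ← zpow_mul]
    congr 1
    have : ((e * 2 : ℕ) : ℤ) = ((12 * N.divisors.card : ℕ) : ℤ) := by rw [h2]
    push_cast at this
    linarith
  rw [e3]
  have h5 : ((denom γ z ^ (12 : ℤ)) ^ N.divisors.card)⁻¹ ≠ 0 :=
    inv_ne_zero (pow_ne_zero _ (zpow_ne_zero _ hγ))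
  exact (mul_div_mul_right _ _ h5).symm

theorem hq_slash {N e : ℕ} (f : ℍ → ℂ) (γ : SL(2, ℤ)) (z : ℍ) :
    (hq N e f ∣[(0 : ℤ)] γ) z = hq N e f (γ • z) := by
  rw [SL_slash_apply]; simp

theorem isMN_hq {N e : ℕ} [NeZero N] (h2 : e * 2 = 12 * N.divisors.card)
    (h3 : ∀ g ∈ N.divisors, ∑ d ∈ N.divisors, Nat.gcd d g ^ 2 * (N / d) ≤ e * g)
    (f : CuspForm (Gamma0 N) 2) : IsMN N 0 (hq N e f) where
  slash γ hγ := by
    ext z
    rw [hq_slash, hq_smul h2, (isMN_coe f).slash γ hγ, hq, PN]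
    congr 1
    refine Finset.prod_congr rfl fun d hd ↦ ?_
    rw [Dd_slash_level (Nat.pos_of_mem_divisors hd) (Nat.dvd_of_mem_divisors hd) hγ]
  holo := by
    have h1 : MDiff (fun z : ℍ ↦ f z ^ e) := (CuspFormClass.holo f).pow e
    have h2 : MDiff (PN N) := by
      have : PN N = ∏ d ∈ N.divisors, Dd d := by ext z; simp [PN]
      rw [this]
      exact MDifferentiable.prod fun d hd ↦ mdiff_Dd (Nat.pos_of_mem_divisors hd)
    exact MDifferentiable.div h1 h2 (PN_ne_zero N)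
  bdd γ := by
    have hN : 0 < N := Nat.pos_of_ne_zero (NeZero.ne N)
    set c : ℕ := (γ 1 0).natAbs with hc
    set g : ℕ := Nat.gcd N c with hg
    have hg0 : 0 < g := Nat.gcd_pos_of_pos_left _ hN
    obtain ⟨w, hw⟩ : g ∣ N := Nat.gcd_dvd_left ..
    have hw0 : 0 < w := by
      rcases Nat.eq_zero_or_pos w with h | h
      · rw [h, mul_zero] at hw; omega
      · exact h
    have hgc : (g : ℤ) ∣ γ 1 0 := by
      rw [Int.natCast_dvd]; exact Nat.gcd_dvd_right ..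
    have hup := (slash_upper hw0 f γ (by
      rw [hw]; push_cast
      rw [pow_two]
      exact mul_dvd_mul_right (dvd_mul_of_dvd_left hgc _) _)).pow e
    have hlow : (fun z : ℍ ↦ ∏ d ∈ N.divisors, Real.exp (-2 * π * ((Nat.gcd d c : ℝ) ^ 2 / d) * z.im))
        =O[atImInfty] (fun z ↦ ∏ d ∈ N.divisors, (Dd d ∣[(12 : ℤ)] γ) z) :=
      IsBigO.finsetProd fun d hd ↦ Dd_lower (Nat.pos_of_mem_divisors hd) γ
    have hmid : (fun z : ℍ ↦ Real.exp (-2 * π * z.im / (w : ℝ)) ^ e) =O[atImInfty]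
        (fun z : ℍ ↦ ∏ d ∈ N.divisors, Real.exp (-2 * π * ((Nat.gcd d c : ℝ) ^ 2 / d) * z.im)) := by
      refine IsBigO.of_bound 1 (Eventually.of_forall fun z ↦ ?_)
      rw [one_mul, ← Real.exp_nat_mul, ← Real.exp_sum, Real.norm_eq_abs, Real.norm_eq_abs,
        Real.abs_exp, Real.abs_exp, Real.exp_le_exp, ← Finset.sum_mul, ← Finset.mul_sum]
      have k1 := h3 g (Nat.mem_divisors.mpr ⟨Nat.gcd_dvd_left .., hN.ne'⟩)
      have k2 : (∑ d ∈ N.divisors, ((Nat.gcd d c : ℝ) ^ 2 / d)) * N ≤ e * g := by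
        have k3 : ((∑ d ∈ N.divisors, Nat.gcd d g ^ 2 * (N / d) : ℕ) : ℝ) ≤ ((e * g : ℕ) : ℝ) := by
          exact_mod_cast k1
        push_cast at k3
        refine le_trans (le_of_eq ?_) k3
        rw [Finset.sum_mul]
        refine Finset.sum_congr rfl fun d hd ↦ ?_
        have hd1 := Nat.dvd_of_mem_divisors hd
        have hd0 : (d : ℝ) ≠ 0 := by exact_mod_cast (Nat.pos_of_mem_divisors hd).ne'
        have k4 : Nat.gcd d g = Nat.gcd d c := by
          rw [hg, ← Nat.gcd_assoc, Nat.gcd_eq_left hd1]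
        rw [k4, Nat.cast_div hd1 hd0]
        field_simp
      have hw1 : (w : ℝ) ≠ 0 := by exact_mod_cast hw0.ne'
      have hg1 : (0 : ℝ) < g := by exact_mod_cast hg0
      have k5 : (∑ d ∈ N.divisors, ((Nat.gcd d c : ℝ) ^ 2 / d)) ≤ e / w := by
        rw [le_div_iff₀ (by exact_mod_cast hw0)]
        have k6 : (N : ℝ) = g * w := by exact_mod_cast hw
        rw [k6, ← mul_assoc, mul_right_comm] at k2
        nlinarith [k2, hg1]
      have k7 := mul_le_mul_of_nonneg_right k5 z.im_pos.le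
      have k8 := mul_le_mul_of_nonneg_left k7 (show (0 : ℝ) ≤ 2 * π by positivity)
      have k9 : (e : ℝ) * (-2 * π * z.im / w) = -(2 * π * (e / w * z.im)) := by
        field_simp
      rw [k9]
      linarith
    obtain ⟨C, hC⟩ := ((hup.trans hmid).trans hlow).bound
    have key : (hq N e f ∣[(0 : ℤ)] γ) =O[atImInfty] (1 : ℍ → ℝ) := by
      refine IsBigO.of_bound (max C 0) ?_
      filter_upwards [hC] with z hz
      rw [hq_slash, hq_smul h2, norm_div, Pi.one_apply, norm_one, mul_one]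
      rcases eq_or_ne ‖∏ d ∈ N.divisors, (Dd d ∣[(12 : ℤ)] γ) z‖ 0 with h0 | h0
      · rw [h0, div_zero]; exact le_max_right _ _
      · rw [div_le_iff₀ (lt_of_le_of_ne (norm_nonneg _) h0.symm)]
        refine hz.trans ?_
        gcongr
        exact le_max_left _ _
    exact key

/-- `f ^ e` is a multiple of the product of the `Δ(d z)` -/
theorem exists_const {N e : ℕ} [NeZero N] (h2 : e * 2 = 12 * N.divisors.card)
    (h3 : ∀ g ∈ N.divisors, ∑ d ∈ N.divisors, Nat.gcd d g ^ 2 * (N / d) ≤ e * g)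
    (f : CuspForm (Gamma0 N) 2) : ∃ c : ℂ, ∀ z, f z ^ e = c * PN N z := by
  obtain ⟨c, hc⟩ := ModularForm.eq_const_of_weight_zero (isMN_hq h2 h3 f).form
  refine ⟨c, fun z ↦ ?_⟩
  have := congrFun hc z
  rw [IsMN.coe_form, hq, Function.const_apply, div_eq_iff (PN_ne_zero N z)] at this
  exact this

/-! ### `q`-expansions -/

open PowerSeries in
/-- the substitution `X ↦ X ^ d` -/
def ex (R : Type) [CommRing R] (d : ℕ) : PowerSeries R →+* PowerSeries R :=
  if h : d ≠ 0 then (PowerSeries.expand d h : PowerSeries R →ₐ[R] PowerSeries R).toRingHom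
  else RingHom.id _

section

variable {R : Type} [CommRing R] {d : ℕ}

theorem ex_eq (h : d ≠ 0) (F : PowerSeries R) : ex R d F = PowerSeries.expand d h F := by
  rw [ex, dif_pos h]; rfl

theorem coeff_ex (h : d ≠ 0) (F : PowerSeries R) (n : ℕ) :
    (ex R d F).coeff n = if d ∣ n then F.coeff (n / d) else 0 := by
  rw [ex_eq h, PowerSeries.coeff_expand]

theorem ex_X (h : d ≠ 0) : ex R d PowerSeries.X = PowerSeries.X ^ d := by
  rw [ex_eq h, PowerSeries.expand_X]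

theorem constantCoeff_ex (h : d ≠ 0) (F : PowerSeries R) :
    PowerSeries.constantCoeff (ex R d F) = PowerSeries.constantCoeff F := by
  rw [ex_eq h, PowerSeries.constantCoeff_expand]

theorem map_ex {S : Type} [CommRing S] (φ : R →+* S) (h : d ≠ 0) (F : PowerSeries R) :
    (ex R d F).map φ = ex S d (F.map φ) := by
  rw [ex_eq h, ex_eq h, PowerSeries.map_expand]

end

/-- `∏ (1 - q ^ n)` with complex coefficients -/
def eC : PowerSeries ℂ := ModularCurve.etaProd.map (Int.castRingHom ℂ)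

theorem qExpansion_disc : qExpansion 1 Δ = PowerSeries.X * eC ^ 24 := by
  rw [H01.qExpansion_discriminant, ModularCurve.dedekindEtaUnit, map_pow, eC]

theorem Dd_mem_QR {d : ℕ} (hd : 0 < d) : Dd d ∈ QR 1 := by
  have hD := isS1_discriminant.isM1.mem_QR
  refine ⟨?_, mdiff_Dd hd, hD.2.2.comp_tendsto (tendsto_aff hd one_pos 0)⟩
  apply H01.periodic_comp_ofComplex_of_vadd
  intro z
  have h1 := AL.slash_T_zpow (k := 12) (Dd d) 1 z
  rw [Dd_slash_level (N := 1 * d) hd (dvd_mul_left d 1) (by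
    rw [one_mul, Gamma0_mem, zpow_one, ModularGroup.T]; simp)] at h1
  rw [h1]
  simp

theorem qExpansion_Dd {d : ℕ} (hd : 0 < d) :
    qExpansion 1 (Dd d) = PowerSeries.X ^ d * ex ℂ d eC ^ 24 := by
  have hD := isS1_discriminant.isM1.mem_QR
  rw [← ex_X hd.ne', ← map_pow, ← map_mul, ← qExpansion_disc]
  ext n
  rw [coeff_ex hd.ne']
  exact AL.qExp_comp_mul hD hd (Dd_mem_QR hd) n

theorem constantCoeff_eC : PowerSeries.constantCoeff eC = 1 := by
  rw [eC, ← PowerSeries.coeff_zero_eq_constantCoeff_apply, PowerSeries.coeff_map,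
    PowerSeries.coeff_zero_eq_constantCoeff_apply, ModularCurve.constantCoeff_etaProd, map_one]

/-- the product `∏_{d ∣ N} ∏ (1 - q ^ (d n)) ^ k` -/
def vv (R : Type) [CommRing R] (N k : ℕ) (E : PowerSeries R) : PowerSeries R :=
  ∏ d ∈ N.divisors, ex R d E ^ k

theorem constantCoeff_vv (N k : ℕ) : PowerSeries.constantCoeff (vv ℂ N k eC) = 1 := by
  rw [vv, map_prod]
  refine Finset.prod_eq_one fun d hd ↦ ?_
  rw [map_pow, constantCoeff_ex (Nat.pos_of_mem_divisors hd).ne', constantCoeff_eC, one_pow]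

theorem PN_mem_QR (N : ℕ) : PN N ∈ QR 1 := by
  have : PN N = ∏ d ∈ N.divisors, Dd d := by ext z; simp [PN]
  rw [this]
  exact Subalgebra.prod_mem _ fun d hd ↦ Dd_mem_QR (Nat.pos_of_mem_divisors hd)

theorem qExpansion_prod {ι : Type} (s : Finset ι) (F : ι → ℍ → ℂ) (hF : ∀ i ∈ s, F i ∈ QR 1) :
    qExpansion 1 (∏ i ∈ s, F i) = ∏ i ∈ s, qExpansion 1 (F i) := by
  classical
  induction s using Finset.induction_on with
  | empty => simp [qExpansion_one]
  | insert a s ha ih =>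
    rw [Finset.prod_insert ha, Finset.prod_insert ha, qExp_mul (hF a (Finset.mem_insert_self _ _))
      (Subalgebra.prod_mem _ fun i hi ↦ hF i (Finset.mem_insert_of_mem hi)),
      ih fun i hi ↦ hF i (Finset.mem_insert_of_mem hi)]

theorem qExpansion_PN (N e k : ℕ) (hsum : ∑ d ∈ N.divisors, d = e) (hek : e * k = 24) :
    qExpansion 1 (PN N) = (PowerSeries.X * vv ℂ N k eC) ^ e := by
  have : PN N = ∏ d ∈ N.divisors, Dd d := by ext z; simp [PN]
  rw [this, qExpansion_prod _ _ fun d hd ↦ Dd_mem_QR (Nat.pos_of_mem_divisors hd)]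
  rw [Finset.prod_congr rfl fun d hd ↦ qExpansion_Dd (Nat.pos_of_mem_divisors hd),
    Finset.prod_mul_distrib, Finset.prod_pow_eq_pow_sum, hsum, mul_pow, vv, ← Finset.prod_pow]
  simp_rw [← pow_mul, mul_comm k e, hek]

theorem qExpansion_pow {f : ℍ → ℂ} (hf : f ∈ QR 1) (e : ℕ) :
    qExpansion 1 (f ^ e) = qExpansion 1 f ^ e := by
  induction e with
  | zero => rw [pow_zero, pow_zero, qExpansion_one]
  | succ n ih => rw [pow_succ, pow_succ, qExp_mul (pow_mem hf n) hf, ih]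

/-- `e`-th roots of power series -/
theorem eq_of_pow_eq {u v : PowerSeries ℂ} {e : ℕ} (he : 0 < e)
    (hu : PowerSeries.constantCoeff u = 1) (hv : PowerSeries.constantCoeff v = 1)
    (h : u ^ e = v ^ e) : u = v := by
  have h1 := (Commute.all u v).geom_sum₂_mul e
  rw [h, sub_self] at h1
  rcases mul_eq_zero.mp h1 with h2 | h2
  · exfalso
    have h3 := congrArg (PowerSeries.constantCoeff) h2
    simp only [map_sum, map_mul, map_pow, hu, hv, one_pow, mul_one, Finset.sum_const,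
      Finset.card_range, map_zero] at h3
    rw [nsmul_eq_mul, mul_one] at h3
    exact he.ne' (by exact_mod_cast h3)
  · exact sub_eq_zero.mp h2

theorem eq_X_mul {φ v : PowerSeries ℂ} {c : ℂ} {e : ℕ} (he : 0 < e) (h0 : φ.coeff 0 = 0)
    (h1 : φ.coeff 1 = 1) (hv : PowerSeries.constantCoeff v = 1)
    (h5 : φ ^ e = c • (PowerSeries.X * v) ^ e) : φ = PowerSeries.X * v := by
  obtain ⟨u, hu⟩ : PowerSeries.X ∣ φ := by
    rw [PowerSeries.X_dvd_iff, ← PowerSeries.coeff_zero_eq_constantCoeff_apply]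
    exact h0
  have hu1 : PowerSeries.constantCoeff u = 1 := by
    rw [hu] at h1
    rw [← PowerSeries.coeff_zero_eq_constantCoeff_apply]
    have := PowerSeries.coeff_succ_X_mul 0 u
    rw [zero_add] at this
    rw [← this]
    exact h1
  rw [hu, mul_pow, mul_pow, ← mul_smul_comm] at h5
  have h7 : u ^ e = c • v ^ e :=
    mul_left_cancel₀ (pow_ne_zero e PowerSeries.X_ne_zero) h5
  have hc1 : c = 1 := by
    have h8 := congrArg PowerSeries.constantCoeff h7
    rw [map_pow, hu1, PowerSeries.smul_eq_C_mul, map_mul, map_pow, hv,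
      PowerSeries.constantCoeff_C, one_pow, mul_one] at h8
    exact h8.symm
  rw [hc1, one_smul] at h7
  rw [hu, eq_of_pow_eq he hu1 hv h7]

theorem coeff_zero_cusp {N : ℕ} [NeZero N] (f : CuspForm (Gamma0 N) 2) :
    (qExpansion 1 f).coeff 0 = 0 := by
  have h := isCuspidal_coe f 1
  rw [SlashAction.slash_one] at h
  rw [qExpansion_coeff_zero one_pos (QR.analyticAt one_pos (AL.coe_mem_QR f))
    (AL.coe_mem_QR f).1]
  exact h.valueAtInfty_eq_zero

/-- **the `q`-expansion of the newform** -/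
theorem qExpansion_eq {N e k : ℕ} [NeZero N] (h2 : e * 2 = 12 * N.divisors.card)
    (h3 : ∀ g ∈ N.divisors, ∑ d ∈ N.divisors, Nat.gcd d g ^ 2 * (N / d) ≤ e * g)
    (hsum : ∑ d ∈ N.divisors, d = e) (hek : e * k = 24)
    (f : CuspForm (Gamma0 N) 2) (h1 : (qExpansion 1 f).coeff 1 = 1) :
    qExpansion 1 f = PowerSeries.X * vv ℂ N k eC := by
  have he : 0 < e := Nat.pos_of_ne_zero (by rintro rfl; simp at hek)
  obtain ⟨c, hc⟩ := exists_const h2 h3 f
  have hf : (f : ℍ → ℂ) ∈ QR 1 := AL.coe_mem_QR f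
  have h4 : (⇑f) ^ e = c • PN N := by
    ext z
    simp [hc z]
  have h5 : qExpansion 1 f ^ e = c • (PowerSeries.X * vv ℂ N k eC) ^ e := by
    rw [← qExpansion_PN N e k hsum hek, ← qExp_smul (PN_mem_QR N), ← h4, qExpansion_pow hf]
  exact eq_X_mul he (coeff_zero_cusp f) h1 (constantCoeff_vv N k) h5

/-! ### Finite products -/

section Trunc

variable {R : Type} [CommRing R]

/-- congruence modulo `X ^ m` -/
def md (R : Type) [CommRing R] (m : ℕ) : PowerSeries R →+* PowerSeries R ⧸ Ideal.span {(PowerSeries.X : PowerSeries R) ^ m} :=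
  Ideal.Quotient.mk _

theorem md_eq {m : ℕ} {a b : PowerSeries R} :
    md R m a = md R m b ↔ (PowerSeries.X : PowerSeries R) ^ m ∣ a - b := by
  rw [md, Ideal.Quotient.eq, Ideal.mem_span_singleton]

theorem md_coeff {m : ℕ} {a b : PowerSeries R} (h : md R m a = md R m b) {n : ℕ} (hn : n < m) :
    a.coeff n = b.coeff n := by
  have := PowerSeries.X_pow_dvd_iff.mp (md_eq.mp h) n hn
  rw [map_sub, sub_eq_zero] at this
  exact this

theorem md_factor {m i : ℕ} (h : m ≤ i) : md R m (1 - PowerSeries.X ^ i) = 1 := by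
  rw [← map_one (md R m), md_eq]
  have : (1 - PowerSeries.X ^ i : PowerSeries R) - 1 = -PowerSeries.X ^ i := by ring
  rw [this]
  exact (pow_dvd_pow _ h).trans (dvd_neg.mpr dvd_rfl)

theorem md_prod {m : ℕ} {s : Finset ℕ} (hs : Finset.range m ⊆ s) :
    md R (m + 1) (∏ n ∈ s, (1 - PowerSeries.X ^ (n + 1))) =
      md R (m + 1) (∏ n ∈ Finset.range m, (1 - PowerSeries.X ^ (n + 1))) := by
  rw [map_prod, map_prod]
  symm
  refine Finset.prod_subset hs fun i _ hi ↦ ?_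
  rw [Finset.mem_range, not_lt] at hi
  exact md_factor (by omega)

theorem md_etaProd (m : ℕ) : md ℤ (m + 1) ModularCurve.etaProd =
    md ℤ (m + 1) (∏ n ∈ Finset.range m, (1 - PowerSeries.X ^ (n + 1))) := by
  rw [md_eq, PowerSeries.X_pow_dvd_iff, H01.etaProd_eq]
  intro j hj
  obtain ⟨s, hs1, hs2⟩ := ((PowerSeries.coeff_prod_one_sub_X_pow_eventually_eq ℤ j).and
    (eventually_ge_atTop (Finset.range m))).exists
  rw [map_sub, ← hs1, md_coeff (md_prod hs2) hj, sub_self]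

theorem md_ex {m d : ℕ} (hd : d ≠ 0) {a b : PowerSeries R} (h : md R m a = md R m b) :
    md R m (ex R d a) = md R m (ex R d b) := by
  rw [md_eq] at h ⊢
  obtain ⟨c, hc⟩ := h
  rw [← map_sub, hc, map_mul, map_pow, ex_X hd, ← pow_mul]
  exact Dvd.dvd.mul_right (pow_dvd_pow _ (Nat.le_mul_of_pos_left _ (Nat.pos_of_ne_zero hd))) _

theorem md_vv {m N k : ℕ} {a b : PowerSeries R} (h : md R m a = md R m b) :
    md R m (vv R N k a) = md R m (vv R N k b) := by
  rw [vv, vv, map_prod, map_prod]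
  refine Finset.prod_congr rfl fun d hd ↦ ?_
  rw [map_pow, map_pow, md_ex (Nat.pos_of_mem_divisors hd).ne' h]

end Trunc

open Polynomial in
/-- the polynomial `X ∏_{d ∣ N} ∏_{n ≤ m} (1 - X ^ (d n)) ^ k` -/
def etaPoly (N k m : ℕ) : ℤ[X] :=
  X * ∏ d ∈ N.divisors, (∏ n ∈ Finset.range m, (1 - X ^ (d * (n + 1)))) ^ k

theorem coe_etaPoly (N k m : ℕ) : ((etaPoly N k m : Polynomial ℤ) : PowerSeries ℤ) =
    PowerSeries.X * vv ℤ N k (∏ n ∈ Finset.range m, (1 - PowerSeries.X ^ (n + 1))) := by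
  rw [etaPoly, vv, ← Polynomial.coeToPowerSeries.ringHom_apply, map_mul, map_prod]
  congr 1
  · simp
  · refine Finset.prod_congr rfl fun d hd ↦ ?_
    rw [map_pow, map_prod, map_prod]
    congr 1
    refine Finset.prod_congr rfl fun n _ ↦ ?_
    rw [map_sub, map_sub, map_one, map_one, map_pow, map_pow,
      ex_X (Nat.pos_of_mem_divisors hd).ne', ← pow_mul]
    simp

theorem coeff_etaPoly (N k m n : ℕ) (hn : n ≤ m) :
    (etaPoly N k m).coeff n = (PowerSeries.X * vv ℤ N k ModularCurve.etaProd).coeff n := by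
  rw [← Polynomial.coeff_coe, coe_etaPoly]
  refine md_coeff (m := m + 1) ?_ (by omega)
  rw [map_mul, map_mul, md_vv (md_etaProd m)]

theorem map_vv (N k : ℕ) : (vv ℤ N k ModularCurve.etaProd).map (Int.castRingHom ℂ) = vv ℂ N k eC := by
  rw [vv, vv, map_prod]
  refine Finset.prod_congr rfl fun d hd ↦ ?_
  rw [map_pow, map_ex _ (Nat.pos_of_mem_divisors hd).ne', eC]

/-- **Fourier coefficients of the newform** -/
theorem qCoeff_eq {N e k : ℕ} [NeZero N] (h2 : e * 2 = 12 * N.divisors.card)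
    (h3 : ∀ g ∈ N.divisors, ∑ d ∈ N.divisors, Nat.gcd d g ^ 2 * (N / d) ≤ e * g)
    (hsum : ∑ d ∈ N.divisors, d = e) (hek : e * k = 24)
    (f : CuspForm (Gamma0 N) 2) (h1 : (qExpansion 1 f).coeff 1 = 1) {n m : ℕ} (hnm : n ≤ m) :
    (qExpansion 1 f).coeff n = ((etaPoly N k m).coeff n : ℂ) := by
  rw [qExpansion_eq h2 h3 hsum hek f h1, ← map_vv, coeff_etaPoly N k m n hnm, ← PowerSeries.map_X
    (Int.castRingHom ℂ), ← map_mul, PowerSeries.coeff_map]
  rfl

end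

end Fermat.Agent.Cor.Eichler
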