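import Mathlib
import Fermat.Agent.Cor.EtaQuot
import Fermat.Agent.H13.LevelOne
import Fermat.Agent.Q.Frobenius

/-!
# Ramanujan's congruences

* Ramanujan's function `τ(n)` is the `n`-th Fourier coefficient of `Δ`, and
  `τ(n) ≡ n² σ₃(n) (mod 60)`, `τ(n) ≡ n σ₁(n) (mod 5)`, `τ(n) ≡ n σ₃(n) (mod 7)`,
  `τ(n) ≡ σ₁₁(n) (mod 691)`.
* The identities `E₄² = E₈`, `E₄ E₆ = E₁₀`, `691 E₁₂ = 441 E₄³ + 250 E₆²` with integral coefficients and the
  corresponding convolution identities for the sums of powers of divisors.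
* The generating function of the numbers of partitions is the inverse of `∏ (1 - X ^ n)` and
  **Ramanujan's partition congruences** `p(5n+4) ≡ 0 (mod 5)`, `p(7n+5) ≡ 0 (mod 7)`, `p(11n+6) ≡ 0 (mod 11)`:
  they follow from the fact that `Δ ^ ((p² - 1) / 24)` is a derivative modulo `p = 5, 7, 11`.
-/

set_option autoImplicit false

namespace Fermat.Agent.Cor.RamCong

open PowerSeries PowerSeries.WithPiTopology Finset
open Fermat.Agent.H13 Fermat.Agent.Cor.Eichler

noncomputable section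

/-! ### The tau function -/

/-- Ramanujan's function: the coefficient of `X ^ n` in `X ∏ (1 - X ^ m) ^ 24` -/
def tau (n : ℕ) : ℤ :=
  (Polynomial.X * (∏ m ∈ range n, (1 - Polynomial.X ^ (m + 1))) ^ 24 : Polynomial ℤ).coeff n

theorem deltaZ_eq : deltaZ = X * ModularCurve.etaProd ^ 24 := by
  have h1 := H13.qExpansion_discriminant
  have h2 := H01.qExpansion_discriminant
  rw [h2, map_delta, delta] at h1
  have hinj : Function.Injective (PowerSeries.map (Int.castRingHom ℂ)) := by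
    intro a b h
    ext n
    have := congrArg (coeff n) h
    simpa using this
  apply hinj
  rw [← h1, map_mul, map_X, ModularCurve.dedekindEtaUnit]

theorem tau_eq (n : ℕ) : tau n = coeff n deltaZ := by
  have h := coeff_etaPoly 1 24 n n le_rfl
  rw [etaPoly, vv, Nat.divisors_one, Finset.prod_singleton, Finset.prod_singleton] at h
  simp only [one_mul] at h
  rw [tau, h, deltaZ_eq, ex_eq one_ne_zero, PowerSeries.expand_one_apply]

/-- `τ(n)` is the `n`-th Fourier coefficient of `Δ` -/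
theorem qExpansion_coeff_discriminant (n : ℕ) :
    (UpperHalfPlane.qExpansion 1 ModularForm.discriminant).coeff n = (tau n : ℂ) := by
  rw [H13.qExpansion_discriminant, map_delta, delta, coeff_map, tau_eq]
  rfl

/-- **`τ(n) ≡ n² σ₃(n)` modulo `60`** -/
theorem tau_mod_sixty (n : ℕ) : (60 : ℤ) ∣ tau n - n ^ 2 * ArithmeticFunction.sigma 3 n := by
  have h : deltaZ - theta (theta (sser ℤ 3)) =
      60 * (4 * sser ℤ 3 * theta (theta (sser ℤ 3)) - 5 * theta (sser ℤ 3) ^ 2) := by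
    rw [delta_rc_Z, e4]
    ring
  have h1 := congrArg (coeff n) h
  rw [map_sub, coeff_theta, coeff_theta, coeff_sser, coeff_ofNat_mul] at h1
  rw [tau_eq]
  refine ⟨_, Eq.trans ?_ h1⟩
  ring

theorem sser_card (p : ℕ) [Fact p.Prime] : sser (ZMod p) p = sser (ZMod p) 1 := by
  ext n
  rw [coeff_sser, coeff_sser, ArithmeticFunction.sigma_apply, ArithmeticFunction.sigma_apply]
  push_cast
  exact Finset.sum_congr rfl fun d _ ↦ by rw [ZMod.pow_card, pow_one]

theorem ofNat_self_eq_zero (p : ℕ) : ((p : ℕ) : (ZMod p)⟦X⟧) = 0 := by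
  rw [← map_natCast (PowerSeries.C (R := ZMod p)), ZMod.natCast_self, map_zero]

local instance : Fact (Nat.Prime 7) := ⟨by norm_num⟩
local instance : Fact (Nat.Prime 11) := ⟨by norm_num⟩
local instance : Fact (Nat.Prime 5) := ⟨by norm_num⟩

theorem delta_mod_five : delta (ZMod 5) = theta (sser (ZMod 5) 1) := by
  have h5 : (5 : (ZMod 5)⟦X⟧) = 0 := ofNat_self_eq_zero 5
  have hs : sser (ZMod 5) 5 = sser (ZMod 5) 1 := sser_card 5
  have hB := theta_e6 (R := ZMod 5)
  have hA := delta_spec (R := ZMod 5)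
  have hT : theta (e6 (ZMod 5)) = -504 * theta (sser (ZMod 5) 1) := by
    rw [e6, theta_sub, theta_one, theta_ofNat_mul, hs]; ring
  rw [hT] at hB
  rw [e6, e2, e4, hs] at hB
  rw [e4, e6, hs] at hA
  set s := sser (ZMod 5) 1
  set t := theta s
  set s3 := sser (ZMod 5) 3
  set d := delta (ZMod 5)
  linear_combination 2 * hA + 2 * hB + (-691 * d + 403 * t +
    2 * (48 * s3 * (1 + 240 * s3) ^ 2 + 96 * s * (1 - 504 * s))) * h5

theorem delta_mod_seven : delta (ZMod 7) = theta (sser (ZMod 7) 3) := by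
  have h7 : (7 : (ZMod 7)⟦X⟧) = 0 := ofNat_self_eq_zero 7
  have hA := theta_e4 (R := ZMod 7)
  have hB := theta_e6 (R := ZMod 7)
  have hC := delta_spec (R := ZMod 7)
  have hT : theta (e6 (ZMod 7)) = -504 * theta (sser (ZMod 7) 5) := by
    rw [e6, theta_sub, theta_one, theta_ofNat_mul]; ring
  have hU : theta (e4 (ZMod 7)) = 240 * theta (sser (ZMod 7) 3) := by
    rw [e4, theta_add, theta_one, theta_ofNat_mul]; ring
  have h6 : e6 (ZMod 7) = 1 - 504 * sser (ZMod 7) 5 := rfl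
  rw [hT] at hB
  rw [hU] at hA
  set x := e4 (ZMod 7)
  set w := e2 (ZMod 7)
  set z := e6 (ZMod 7)
  set s5 := sser (ZMod 7) 5
  set t5 := theta s5
  set t3 := theta (sser (ZMod 7) 3)
  set d := delta (ZMod 7)
  linear_combination (-1 : (ZMod 7)⟦X⟧) * hC + hA - x * hB - (x * w - z) * h6 +
    (247 * d - 103 * t3 - 144 * x * t5 + 72 * s5 * (x * w - z)) * h7

/-! ### The Eisenstein series of weight 10 and 12 -/

theorem isOne_e10 : IsOne 10 (1 - 264 * sser ℚ 9) := by
  refine ⟨ModularForm.E (k := 10) (by norm_num), ?_⟩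
  ext n
  rw [EisensteinSeries.E_qExpansion_coeff _ ⟨5, rfl⟩, coeff_qc, map_sub, coeff_ofNat_mul, coeff_sser,
    coeff_one]
  rw [show bernoulli 10 = 5 / 66 by decide +kernel]
  split_ifs with h
  · subst h; simp
  · push_cast
    norm_num

theorem isOne_e12 : IsOne 12 (691 + 65520 * sser ℚ 11) := by
  have h : IsOne 12 (1 + C (65520 / 691 : ℚ) * sser ℚ 11) := by
    refine ⟨ModularForm.E (k := 12) (by norm_num), ?_⟩
    ext n
    rw [EisensteinSeries.E_qExpansion_coeff _ ⟨6, rfl⟩, coeff_qc, map_add, coeff_C_mul, coeff_sser,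
      coeff_one]
    rw [show bernoulli 12 = -691 / 2730 by decide +kernel]
    split_ifs with h
    · subst h; simp
    · push_cast
      norm_num
  refine (h.C_mul 691).congr ?_
  have e1 : (C (691 : ℚ) : ℚ⟦X⟧) = 691 := by rw [map_ofNat]
  have e2 : (C (691 : ℚ) : ℚ⟦X⟧) * C (65520 / 691 : ℚ) = 65520 := by
    rw [← map_mul, show (691 : ℚ) * (65520 / 691) = 65520 by norm_num, map_ofNat]
  linear_combination e1 + sser ℚ 11 * e2

theorem e10_Z : e4 ℤ * e6 ℤ = 1 - 264 * sser ℤ 9 := by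
  apply mapZ_injective
  simp only [map_mul, map_sub, map_one, map_e4, map_e6, map_ofNat, map_sser]
  have hA0 : coeff 0 (1 - 264 * sser ℚ 9) = 1 := by
    rw [map_sub, coeff_ofNat_mul, coeff_zero_sser]; simp
  have h := ((isOne_e4.mul isOne_e6).cast (l := 10) (by norm_num)).eq_of_lt isOne_e10 hA0 (by norm_num)
  rw [coeff_zero_mul', coeff_zero_e4, coeff_zero_e6, mul_one, map_one, one_mul] at h
  exact h

theorem coeff_one_mul {R : Type} [CommRing R] {a b : R⟦X⟧} (ha : coeff 0 a = 0) (hb : coeff 0 b = 0) :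
    coeff 1 (a * b) = 0 := by
  rw [coeff_mul, Finset.Nat.antidiagonal_succ]
  simp [ha, hb]

theorem e12_Z : 691 + 65520 * sser ℤ 11 = 441 * e4 ℤ ^ 3 + 250 * e6 ℤ ^ 2 := by
  apply mapZ_injective
  simp only [map_mul, map_add, map_pow, map_e4, map_e6, map_ofNat, map_sser]
  have h1 : IsOne 12 (691 + 65520 * sser ℚ 11 - 441 * e4 ℚ ^ 3 - 250 * e6 ℚ ^ 2) := by
    have h4 := ((isOne_e4.pow 3).C_mul 441).cast (l := 12) (by norm_num)
    have h6 := ((isOne_e6.pow 2).C_mul 250).cast (l := 12) (by norm_num)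
    refine ((isOne_e12.sub h4).sub h6).congr ?_
    rw [map_ofNat, map_ofNat]
  have h0 : coeff 0 (691 + 65520 * sser ℚ 11 - 441 * e4 ℚ ^ 3 - 250 * e6 ℚ ^ 2) = 0 := by
    rw [map_sub, map_sub, map_add, coeff_ofNat_mul, coeff_ofNat_mul, coeff_ofNat_mul,
      coeff_zero_sser, coeff_zero_pow', coeff_zero_pow', coeff_zero_e4, coeff_zero_e6]
    have : coeff 0 (691 : ℚ⟦X⟧) = 691 := by
      rw [show (691 : ℚ⟦X⟧) = C (691 : ℚ) by rw [map_ofNat], coeff_zero_C]
    rw [this]; norm_num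
  obtain ⟨ψ, hψ⟩ := exists_eq_delta_mul _ h0
  have h2 := ((h1.div_delta h0 hψ).cast (l := 0) (by norm_num)).eq_C_of_zero
  have h3 : coeff 1 (691 + 65520 * sser ℚ 11 - 441 * e4 ℚ ^ 3 - 250 * e6 ℚ ^ 2) = 0 := by
    have e : (691 + 65520 * sser ℚ 11 - 441 * e4 ℚ ^ 3 - 250 * e6 ℚ ^ 2) =
        65520 * sser ℚ 11 - 317520 * sser ℚ 3 + 252000 * sser ℚ 5 -
        76204800 * (sser ℚ 3 * sser ℚ 3) - 6096384000 * (sser ℚ 3 * (sser ℚ 3 * sser ℚ 3)) -
        63504000 * (sser ℚ 5 * sser ℚ 5) := by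
      rw [e4, e6]; ring
    rw [e, map_sub, map_sub, map_sub, map_add, map_sub, coeff_ofNat_mul, coeff_ofNat_mul,
      coeff_ofNat_mul, coeff_ofNat_mul, coeff_ofNat_mul, coeff_ofNat_mul, coeff_one_sser,
      coeff_one_sser, coeff_one_sser, coeff_one_mul (coeff_zero_sser 3) (coeff_zero_sser 3),
      coeff_one_mul (coeff_zero_sser 5) (coeff_zero_sser 5),
      coeff_one_mul (coeff_zero_sser 3) (by rw [coeff_zero_mul', coeff_zero_sser, zero_mul])]
    norm_num
  rw [hψ, h2, mul_comm, coeff_C_mul, coeff_one_delta, mul_one] at h3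
  rw [h2, h3, map_zero, mul_zero] at hψ
  linear_combination hψ

section
variable (R : Type) [CommRing R]

theorem e10_R : e4 R * e6 R = 1 - 264 * sser R 9 := by
  have := congrArg (PowerSeries.map (Int.castRingHom R)) e10_Z
  simp only [map_mul, map_sub, map_one, map_e4, map_e6, map_ofNat, map_sser] at this
  exact this

theorem e12_R : 691 + 65520 * sser R 11 = 441 * e4 R ^ 3 + 250 * e6 R ^ 2 := by
  have := congrArg (PowerSeries.map (Int.castRingHom R)) e12_Z
  simp only [map_mul, map_add, map_pow, map_e4, map_e6, map_ofNat, map_sser] at this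
  exact this

end

theorem delta_mod_691 : delta (ZMod 691) = sser (ZMod 691) 11 := by
  have h691 : (691 : (ZMod 691)⟦X⟧) = 0 := ofNat_self_eq_zero 691
  have hE := e12_R (ZMod 691)
  have hD := delta_spec (R := ZMod 691)
  set y := e4 (ZMod 691)
  set z := e6 (ZMod 691)
  set s := sser (ZMod 691) 11
  set d := delta (ZMod 691)
  linear_combination (-199 : (ZMod 691)⟦X⟧) * hE + 87759 * hD +
    (-219461 * d + 18869 * s + 199 * (1 - z ^ 2)) * h691

theorem coeff_delta (p n : ℕ) : coeff n (delta (ZMod p)) = (tau n : ZMod p) := by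
  rw [delta, coeff_map, tau_eq]; rfl

theorem dvd_of_cast {p : ℕ} {a b : ℤ} (h : (a : ZMod p) = b) : (p : ℤ) ∣ a - b := by
  rw [← ZMod.intCast_zmod_eq_zero_iff_dvd, Int.cast_sub, h, sub_self]

/-- **`τ(n) ≡ n σ₁(n)` modulo `5`** -/
theorem tau_mod_five (n : ℕ) : (5 : ℤ) ∣ tau n - n * ArithmeticFunction.sigma 1 n := by
  apply dvd_of_cast (p := 5)
  rw [← coeff_delta, delta_mod_five, coeff_theta, coeff_sser]
  push_cast
  rfl

/-- **`τ(n) ≡ n σ₃(n)` modulo `7`** -/
theorem tau_mod_seven (n : ℕ) : (7 : ℤ) ∣ tau n - n * ArithmeticFunction.sigma 3 n := by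
  apply dvd_of_cast (p := 7)
  rw [← coeff_delta, delta_mod_seven, coeff_theta, coeff_sser]
  push_cast
  rfl

/-- **Ramanujan's congruence** `τ(n) ≡ σ₁₁(n)` modulo `691` -/
theorem tau_mod_691 (n : ℕ) : (691 : ℤ) ∣ tau n - ArithmeticFunction.sigma 11 n := by
  apply dvd_of_cast (p := 691)
  rw [← coeff_delta, delta_mod_691, coeff_sser]
  push_cast
  rfl

/-! ### Identities between the sums of powers of divisors -/

theorem isOne_e8 : IsOne 8 (1 + 480 * sser ℚ 7) := by
  refine ⟨ModularForm.E (k := 8) (by norm_num), ?_⟩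
  ext n
  rw [EisensteinSeries.E_qExpansion_coeff _ ⟨4, rfl⟩, coeff_qc, map_add, coeff_ofNat_mul, coeff_sser,
    coeff_one]
  rw [show bernoulli 8 = -1 / 30 by decide +kernel]
  split_ifs with h
  · subst h; simp
  · push_cast
    norm_num

/-- `E₈ = E₄²` -/
theorem e8_Z : e4 ℤ ^ 2 = 1 + 480 * sser ℤ 7 := by
  apply mapZ_injective
  simp only [map_pow, map_add, map_mul, map_one, map_e4, map_ofNat, map_sser]
  have hA0 : coeff 0 (1 + 480 * sser ℚ 7) = 1 := by
    rw [map_add, coeff_ofNat_mul, coeff_zero_sser]; simp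
  have h := ((isOne_e4.pow 2).cast (l := 8) (by norm_num)).eq_of_lt isOne_e8 hA0 (by norm_num)
  rw [coeff_zero_pow', coeff_zero_e4, one_pow, map_one, one_mul] at h
  exact h

/-- `σ₇(n) = σ₃(n) + 120 ∑ σ₃(m) σ₃(n - m)` -/
theorem sigma_seven (n : ℕ) : ArithmeticFunction.sigma 7 n = ArithmeticFunction.sigma 3 n +
    120 * ∑ x ∈ antidiagonal n, ArithmeticFunction.sigma 3 x.1 * ArithmeticFunction.sigma 3 x.2 := by
  have h : 480 * sser ℤ 7 = 480 * (sser ℤ 3 + 120 * (sser ℤ 3 * sser ℤ 3)) := by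
    have := e8_Z
    rw [e4] at this
    linear_combination -this
  have h1 := congrArg (coeff n) h
  rw [coeff_ofNat_mul, coeff_ofNat_mul, map_add, coeff_ofNat_mul, coeff_mul] at h1
  simp only [coeff_sser] at h1
  have h2 : ((ArithmeticFunction.sigma 7 n : ℕ) : ℤ) = ((ArithmeticFunction.sigma 3 n +
      120 * ∑ x ∈ antidiagonal n, ArithmeticFunction.sigma 3 x.1 *
        ArithmeticFunction.sigma 3 x.2 : ℕ) : ℤ) := by
    push_cast
    linarith
  exact_mod_cast h2

/-- `11 σ₉(n) + 10 σ₃(n) = 21 σ₅(n) + 5040 ∑ σ₃(m) σ₅(n - m)` -/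
theorem sigma_nine (n : ℕ) :
    11 * ArithmeticFunction.sigma 9 n + 10 * ArithmeticFunction.sigma 3 n =
      21 * ArithmeticFunction.sigma 5 n +
    5040 * ∑ x ∈ antidiagonal n, ArithmeticFunction.sigma 3 x.1 * ArithmeticFunction.sigma 5 x.2 := by
  have h : 24 * (11 * sser ℤ 9 + 10 * sser ℤ 3) =
      24 * (21 * sser ℤ 5 + 5040 * (sser ℤ 3 * sser ℤ 5)) := by
    have := e10_Z
    rw [e4, e6] at this
    linear_combination this
  have h1 := congrArg (coeff n) h
  rw [coeff_ofNat_mul, coeff_ofNat_mul, map_add, map_add, coeff_ofNat_mul, coeff_ofNat_mul,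
    coeff_ofNat_mul, coeff_ofNat_mul, coeff_mul] at h1
  simp only [coeff_sser] at h1
  have h2 : ((11 * ArithmeticFunction.sigma 9 n + 10 * ArithmeticFunction.sigma 3 n : ℕ) : ℤ) =
      ((21 * ArithmeticFunction.sigma 5 n + 5040 * ∑ x ∈ antidiagonal n,
        ArithmeticFunction.sigma 3 x.1 * ArithmeticFunction.sigma 5 x.2 : ℕ) : ℤ) := by
    push_cast
    linarith
  exact_mod_cast h2

/-- `5 σ₃(n) + σ₁(n) = 6 n σ₁(n) + 12 ∑ σ₁(m) σ₁(n - m)` -/
theorem sigma_three (n : ℕ) :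
    5 * ArithmeticFunction.sigma 3 n + ArithmeticFunction.sigma 1 n =
      6 * n * ArithmeticFunction.sigma 1 n +
    12 * ∑ x ∈ antidiagonal n, ArithmeticFunction.sigma 1 x.1 * ArithmeticFunction.sigma 1 x.2 := by
  have h : 48 * (5 * sser ℤ 3 + sser ℤ 1) =
      48 * (6 * theta (sser ℤ 1) + 12 * (sser ℤ 1 * sser ℤ 1)) := by
    have := theta_e2_Z
    rw [e2, e4, theta_sub, theta_one, theta_ofNat_mul] at this
    linear_combination this
  have h1 := congrArg (coeff n) h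
  rw [coeff_ofNat_mul, coeff_ofNat_mul, map_add, map_add, coeff_ofNat_mul, coeff_ofNat_mul,
    coeff_ofNat_mul, coeff_mul, coeff_theta] at h1
  simp only [coeff_sser] at h1
  have h2 : ((5 * ArithmeticFunction.sigma 3 n + ArithmeticFunction.sigma 1 n : ℕ) : ℤ) =
      ((6 * n * ArithmeticFunction.sigma 1 n + 12 * ∑ x ∈ antidiagonal n,
        ArithmeticFunction.sigma 1 x.1 * ArithmeticFunction.sigma 1 x.2 : ℕ) : ℤ) := by
    push_cast
    linarith
  exact_mod_cast h2

/-- `n τ(n) = τ(n) - 24 ∑ σ₁(m) τ(n - m)` -/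
theorem tau_recursion (n : ℕ) :
    n * tau n = tau n - 24 * ∑ x ∈ antidiagonal n, ArithmeticFunction.sigma 1 x.1 * tau x.2 := by
  have h : theta deltaZ = deltaZ - 24 * (sser ℤ 1 * deltaZ) := by
    have := theta_delta_Z
    rw [e2] at this
    linear_combination this
  have h1 := congrArg (coeff n) h
  rw [map_sub, coeff_ofNat_mul, coeff_mul, coeff_theta] at h1
  simp only [coeff_sser, ← tau_eq] at h1
  exact h1

/-- `τ(n) = n² σ₃(n) + 60 ∑ (4 b² - 5 a b) σ₃(a) σ₃(b)`, the sum over `a + b = n` -/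
theorem tau_formula (n : ℕ) : tau n = n ^ 2 * ArithmeticFunction.sigma 3 n +
    60 * ∑ x ∈ antidiagonal n, (4 * (x.2 : ℤ) ^ 2 - 5 * x.1 * x.2) *
      (ArithmeticFunction.sigma 3 x.1 * ArithmeticFunction.sigma 3 x.2) := by
  have h : deltaZ = theta (theta (sser ℤ 3)) +
      60 * (4 * (sser ℤ 3 * theta (theta (sser ℤ 3))) -
        5 * (theta (sser ℤ 3) * theta (sser ℤ 3))) := by
    rw [delta_rc_Z, e4]
    ring
  have h1 := congrArg (coeff n) h
  rw [map_add, coeff_theta, coeff_theta, coeff_sser, coeff_ofNat_mul, map_sub, coeff_ofNat_mul,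
    coeff_ofNat_mul, coeff_mul, coeff_mul] at h1
  simp only [coeff_theta, coeff_sser] at h1
  rw [tau_eq, h1, mul_sum, mul_sum, ← sum_sub_distrib]
  congr 1
  · ring
  · congr 1
    exact sum_congr rfl fun x _ ↦ by ring

/-- the first values of `τ` -/
theorem tau_values : tau 1 = 1 ∧ tau 2 = -24 ∧ tau 3 = 252 ∧ tau 4 = -1472 ∧ tau 5 = 4830 := by
  refine ⟨?_, ?_, ?_, ?_, ?_⟩ <;> rw [tau_formula] <;> decide +kernel

/-! ### Partitions -/

theorem pow_char (p : ℕ) [hp : Fact p.Prime] (f : (ZMod p)⟦X⟧) :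
    f ^ p = expand p hp.out.ne_zero f := by
  have := Q.powerSeries_pow_char p f
  rw [this]
  ext n
  rw [coeff_map, frobenius_def, ZMod.pow_card]

/-- the generating function of the numbers of partitions -/
def pser : ℤ⟦X⟧ := PowerSeries.mk fun n ↦ (Fintype.card (Nat.Partition n) : ℤ)

theorem pser_mul : pser * ModularCurve.etaProd = 1 := by
  rw [H01.etaProd_eq]
  let _ : TopologicalSpace ℤ := ⊥
  have _ : DiscreteTopology ℤ := ⟨rfl⟩
  have h1 := Nat.Partition.hasProd_powerSeriesMk_card_restricted ℤ (fun _ ↦ True)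
  have h2 : (PowerSeries.mk fun n ↦ ((Nat.Partition.restricted n (fun _ ↦ True)).card : ℤ)) =
      pser := by
    rw [pser]
    congr 1
    ext n
    rw [Nat.Partition.restricted]
    simp
  rw [h2] at h1
  have h3 := h1.mul (hasProd_one_sub_X_pow ℤ)
  have h4 : (fun i : ℕ ↦ (if True then ∑' j : ℕ, (X : ℤ⟦X⟧) ^ ((i + 1) * j) else 1) *
      (1 - X ^ (i + 1))) = fun _ ↦ 1 := by
    ext1 i
    rw [if_pos trivial]
    simp_rw [pow_mul]
    exact tsum_pow_mul_one_sub_of_constantCoeff_eq_zero (by simp)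
  rw [h4] at h3
  exact h3.unique hasProd_one

/-- the principle: if `Δ ^ k` is in the image of `θ` modulo `p`, `24 k = p² - 1`, then
`p(p m - k) ≡ 0` modulo `p`. -/
theorem partition_congr (p : ℕ) [hp : Fact p.Prime] {k : ℕ} (hk : 24 * k + 1 = p ^ 2)
    {G : (ZMod p)⟦X⟧} (hG : delta (ZMod p) ^ k = theta G) {n m : ℕ} (hm : n + k = p * m) :
    p ∣ Fintype.card (Nat.Partition n) := by
  set E : (ZMod p)⟦X⟧ := ModularCurve.etaProd.map (Int.castRingHom (ZMod p)) with hE
  set P : (ZMod p)⟦X⟧ := pser.map (Int.castRingHom (ZMod p)) with hP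
  have h1 : P * E = 1 := by rw [hP, hE, ← map_mul, pser_mul, map_one]
  have h2 : delta (ZMod p) = X * E ^ 24 := by
    rw [delta, deltaZ_eq, map_mul, map_X, map_pow]
  have h3 : expand p hp.out.ne_zero (E ^ p) * (X ^ k * P) = theta G := by
    rw [← pow_char, ← hG, h2, ← pow_mul, ← pow_two, ← hk, mul_pow, ← pow_mul, pow_succ]
    linear_combination (X ^ k * E ^ (24 * k)) * h1
  have h4 := congrArg (Uop p) h3
  rw [Uop_expand_mul] at h4
  have h5 : Uop p (theta G) = 0 := by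
    ext n
    rw [coeff_Uop, coeff_theta, map_zero]
    push_cast
    rw [CharP.cast_eq_zero (ZMod p) p]
    ring
  rw [h5] at h4
  have hE0 : E ≠ 0 := by
    rintro h
    rw [h, mul_zero] at h1
    exact zero_ne_one h1
  have h6 := (mul_eq_zero.mp h4).resolve_left (pow_ne_zero p hE0)
  have h7 := congrArg (coeff m) h6
  rw [coeff_Uop, map_zero, mul_comm m p, ← hm, coeff_X_pow_mul, hP, coeff_map, pser, coeff_mk] at h7
  have h8 : ((Fintype.card (Nat.Partition n) : ℕ) : ZMod p) = 0 := by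
    simpa using h7
  exact (ZMod.natCast_eq_zero_iff _ _).mp h8

/-- **Ramanujan (1919)**: `p(5 n + 4) ≡ 0` modulo `5`. -/
theorem partition_five (n : ℕ) : 5 ∣ Fintype.card (Nat.Partition (5 * n + 4)) :=
  partition_congr 5 (k := 1) (by norm_num) (G := sser (ZMod 5) 1) (by rw [pow_one, delta_mod_five])
    (m := n + 1) (by ring)

theorem delta_sq_mod_seven : delta (ZMod 7) ^ 2 =
    theta (6 * e4 (ZMod 7) ^ 4 + 4 * e4 (ZMod 7)) := by
  have h7 : (7 : (ZMod 7)⟦X⟧) = 0 := ofNat_self_eq_zero 7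
  have hA := theta_e4 (R := ZMod 7)
  have hB := theta_e6 (R := ZMod 7)
  have hC := delta_spec (R := ZMod 7)
  have hT : theta (e6 (ZMod 7)) = -504 * theta (sser (ZMod 7) 5) := by
    rw [e6, theta_sub, theta_one, theta_ofNat_mul]; ring
  have h6 : e6 (ZMod 7) = 1 - 504 * sser (ZMod 7) 5 := rfl
  rw [hT] at hB
  rw [theta_add, theta_ofNat_mul, theta_ofNat_mul, theta_pow]
  set x := e4 (ZMod 7)
  set w := e2 (ZMod 7)
  set z := e6 (ZMod 7)
  set s5 := sser (ZMod 7) 5
  set t5 := theta s5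
  set T := theta x
  set d := delta (ZMod 7)
  have hz : z = 1 := by linear_combination h6 - 72 * s5 * h7
  have hw : w = x ^ 2 := by linear_combination (-1 : (ZMod 7)⟦X⟧) * hB - w * hz - 144 * t5 * h7
  have hd : d = 1 - x ^ 3 := by
    linear_combination (-1 : (ZMod 7)⟦X⟧) * hC + (z + 1) * hz + 247 * d * h7
  have hT' : T = 5 * x ^ 3 - 5 := by
    linear_combination 5 * hA + 5 * x * hw - 5 * hz - 2 * T * h7
  push_cast
  linear_combination (d + 1 - x ^ 3) * hd - (24 * x ^ 3 + 4) * hT' +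
    (-17 * x ^ 6 + 14 * x ^ 3 + 3) * h7

/-- **Ramanujan (1919)**: `p(7 n + 5) ≡ 0` modulo `7`. -/
theorem partition_seven (n : ℕ) : 7 ∣ Fintype.card (Nat.Partition (7 * n + 5)) :=
  partition_congr 7 (k := 2) (by norm_num) delta_sq_mod_seven (m := n + 1) (by ring)

theorem delta_pow_mod_eleven : delta (ZMod 11) ^ 5 =
    theta (5 * e4 (ZMod 11) ^ 12 + 5 * e4 (ZMod 11) ^ 7 + 4 * e4 (ZMod 11) ^ 2 +
      3 * e6 (ZMod 11) ^ 3 + 9 * e6 (ZMod 11) ^ 8) := by
  have h11 : (11 : (ZMod 11)⟦X⟧) = 0 := ofNat_self_eq_zero 11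
  have hs : sser (ZMod 11) 11 = sser (ZMod 11) 1 := sser_card 11
  have hA := theta_e4 (R := ZMod 11)
  have hB := theta_e6 (R := ZMod 11)
  have hC := delta_spec (R := ZMod 11)
  have h10 := e10_R (ZMod 11)
  have h12 := e12_R (ZMod 11)
  have h2 : e2 (ZMod 11) = 1 - 24 * sser (ZMod 11) 1 := rfl
  rw [hs] at h12
  rw [theta_add, theta_add, theta_add, theta_add, theta_ofNat_mul, theta_ofNat_mul,
    theta_ofNat_mul, theta_ofNat_mul, theta_ofNat_mul, theta_pow, theta_pow, theta_pow,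
    theta_pow, theta_pow]
  set y := e4 (ZMod 11)
  set w := e2 (ZMod 11)
  set z := e6 (ZMod 11)
  set s := sser (ZMod 11) 1
  set s9 := sser (ZMod 11) 9
  set Ty := theta y
  set Tz := theta z
  set d := delta (ZMod 11)
  have H : y * z = 1 := by linear_combination h10 - 24 * s9 * h11
  have hw : w = 5 * y ^ 3 + 7 * z ^ 2 := by
    linear_combination h2 + 5 * h12 + (-314 - 29784 * s + 200 * y ^ 3 + 113 * z ^ 2) * h11
  have hd : d = y ^ 3 - z ^ 2 := by linear_combination hC - 157 * d * h11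
  have hTy : Ty = 9 * y ^ 4 + 2 * z := by
    linear_combination 4 * hA + 4 * y * hw + 28 * z * H + (-Ty + y ^ 4 + 2 * z) * h11
  have hTz : Tz = 2 * y ^ 2 + 9 * z ^ 3 := by
    linear_combination 6 * hB + 6 * z * hw + 30 * y ^ 2 * H + (-Tz + 2 * y ^ 2 + 3 * z ^ 3) * h11
  have m1 : y ^ 12 * z ^ 2 = y ^ 10 := by linear_combination y ^ 10 * (y * z + 1) * H
  have m2 : y ^ 9 * z ^ 4 = y ^ 5 := by
    linear_combination y ^ 5 * ((y * z) ^ 3 + (y * z) ^ 2 + y * z + 1) * H
  have m3 : y ^ 6 * z ^ 6 = 1 := by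
    linear_combination ((y * z) ^ 5 + (y * z) ^ 4 + (y * z) ^ 3 + (y * z) ^ 2 + y * z + 1) * H
  have m4 : y ^ 3 * z ^ 8 = z ^ 5 := by linear_combination z ^ 5 * ((y * z) ^ 2 + y * z + 1) * H
  have m5 : y ^ 11 * z = y ^ 10 := by linear_combination y ^ 10 * H
  have m6 : y ^ 6 * z = y ^ 5 := by linear_combination y ^ 5 * H
  have m8 : y ^ 2 * z ^ 2 = 1 := by linear_combination (y * z + 1) * H
  have m9 : y ^ 2 * z ^ 7 = z ^ 5 := by linear_combination z ^ 5 * (y * z + 1) * H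
  push_cast
  rw [hd, hTy, hTz]
  linear_combination -5 * m1 + 10 * m2 - 10 * m3 + 5 * m4 - 120 * m5 - 70 * m6 - 16 * H -
    18 * m8 - 144 * m9 +
    (-49 * y ^ 15 - 40 * y ^ 10 - 12 * y ^ 5 - 4 - 20 * z ^ 5 - 59 * z ^ 10) * h11

/-- **Ramanujan (1919)**: `p(11 n + 6) ≡ 0` modulo `11`. -/
theorem partition_eleven (n : ℕ) : 11 ∣ Fintype.card (Nat.Partition (11 * n + 6)) :=
  partition_congr 11 (k := 5) (by norm_num) delta_pow_mod_eleven (m := n + 1) (by ring)

end

end Fermat.Agent.Cor.RamCong
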