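import Mathlib
import Fermat.Agent.Cor.RamCong
import Fermat.Agent.H22.Hecke
import Fermat.Agent.DS.Rankin

/-!
# Mordell's theorem and the L-function of the discriminant

* `qCoeff_mul_of_lt`, `qCoeff_pow_of_lt`: a normalised cusp form of weight `k < 24` on `SL₂(ℤ)` is a Hecke eigenform:
  its coefficients are multiplicative, and `a(p ^ (r + 2)) = a(p) a(p ^ (r + 1)) - p ^ (k - 1) a(p ^ r)`.
* `tau_mul`, `tau_pow`: **Mordell's theorem (1917)**, conjectured by Ramanujan: the function `τ` is multiplicative and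
  `τ(p ^ (r + 2)) = τ(p) τ(p ^ (r + 1)) - p ^ 11 τ(p ^ r)`.
* `hasProd_LD`: the Euler product of `L(Δ, s) = ∑ τ(n) n ^ {-s}` for `Re s > 7`; `LD_ne_zero`: no zeros there.
* `differentiable_LD`, `LamD_functional`: `L(Δ, s)` is entire and `Λ(s) = (2 π) ^ {-s} Γ(s) L(Δ, s)` satisfies
  `Λ(12 - s) = Λ(s)`.
* `LamD_pos`, `LD_pos`: `Λ(x) > 0` for all real `x`, `L(Δ, x) > 0` for all real `x > 0`; `LD_neg_nat`: the trivial
  zeros; `LD_eq_zero_iff`: there are no other zeros with `Re s < 5` (and none with `Re s > 7`).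

This file is not used by any of the statement files.
-/

set_option autoImplicit false

namespace Fermat.Agent.Cor.Mordell

open ModularFormClass ModularForm CongruenceSubgroup UpperHalfPlane
open Fermat.Agent.H22 Fermat.Agent.Cor.RamCong
open scoped MatrixGroups
open Filter Asymptotics Complex MeasureTheory Set

noncomputable section

/-! ### The Hecke relations -/

/-- if a cusp form of level one and weight `k` is determined by its first coefficient, every
normalised form is an eigenform. -/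
theorem hecke_relation {k : ℤ} (H : ∀ h : CuspForm (Gamma0 1) k, qCoeff ⇑h 1 = 0 → h = 0)
    {g : CuspForm (Gamma0 1) k} (h1 : qCoeff ⇑g 1 = 1) {p : ℕ} (hp : p.Prime) (n : ℕ) :
    qCoeff ⇑g (p * n) + (p : ℂ) ^ (k - 1) * (if p ∣ n then qCoeff ⇑g (n / p) else 0) =
      qCoeff ⇑g p * qCoeff ⇑g n := by
  have hpN : ¬ p ∣ 1 := fun h ↦ hp.one_lt.ne' (Nat.dvd_one.mp h)
  have h2 : CuspForm.heckeTLin k hp hpN g - qCoeff ⇑g p • g = 0 := by
    apply H
    rw [cusp_qCoeff_sub, cusp_qCoeff_smul, qCoeff_heckeTLin, coeffHeckeT_of_not_dvd _ hpN, one_mul,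
      h1, mul_one, sub_self]
  have h3 : qCoeff ⇑(CuspForm.heckeTLin k hp hpN g) n = qCoeff ⇑(qCoeff ⇑g p • g) n := by
    rw [sub_eq_zero.mp h2]
  rw [cusp_qCoeff_smul, qCoeff_heckeTLin, coeffHeckeT_apply] at h3
  rw [← h3, mul_comm p n]
  split_ifs <;> simp

theorem index_one : (Gamma0 1).index = 1 := by
  rw [Subgroup.index_eq_one, eq_top_iff]
  intro γ _
  rw [Gamma0_mem]
  exact Subsingleton.elim _ _

theorem eq_zero_of_lt {k : ℤ} (hk : k < 24) (h : CuspForm (Gamma0 1) k) (h1 : qCoeff ⇑h 1 = 0) :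
    h = 0 := by
  apply cusp_eq_zero_of_qCoeff
  intro n hn
  rw [index_one] at hn
  have : n = 0 ∨ n = 1 := by
    have : (k * (1 : ℕ)).toNat / 12 ≤ 1 := by
      have : (k * (1 : ℕ)).toNat < 24 := by omega
      omega
    omega
  rcases this with rfl | rfl
  · exact cusp_qCoeff_zero h
  · exact h1


section Lt

variable {k : ℕ} {g : CuspForm (Gamma0 1) (k : ℤ)}

theorem hr_of_lt (hk : k < 24) (hk0 : 0 < k) (h1 : qCoeff ⇑g 1 = 1) :
    DS.HR 1 (fun p ↦ (p : ℂ) ^ (k - 1)) (fun n ↦ qCoeff ⇑g n) := by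
  intro p hp _ n
  have h := hecke_relation (fun h ↦ eq_zero_of_lt (by omega) h) h1 hp n
  have e : (p : ℂ) ^ ((k : ℤ) - 1) = (p : ℂ) ^ (k - 1) := by
    rw [← zpow_natCast]
    congr 1
    omega
  rw [e] at h
  exact h

/-- the coefficients of a normalised cusp form of level one and weight less than `24` are
multiplicative -/
theorem qCoeff_mul_of_lt (hk : k < 24) (hk0 : 0 < k) (h1 : qCoeff ⇑g 1 = 1) {m n : ℕ}
    (h : m.Coprime n) : qCoeff ⇑g (m * n) = qCoeff ⇑g m * qCoeff ⇑g n :=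
  (hr_of_lt hk hk0 h1).mul_coprime h1 h (Nat.coprime_one_right m)

theorem qCoeff_pow_of_lt (hk : k < 24) (hk0 : 0 < k) (h1 : qCoeff ⇑g 1 = 1) {p : ℕ}
    (hp : p.Prime) (r : ℕ) :
    qCoeff ⇑g (p ^ (r + 2)) =
      qCoeff ⇑g p * qCoeff ⇑g (p ^ (r + 1)) - (p : ℂ) ^ (k - 1) * qCoeff ⇑g (p ^ r) :=
  (hr_of_lt hk hk0 h1).pow_rec hp (fun h ↦ hp.one_lt.ne' (Nat.dvd_one.mp h)) r

end Lt

/-- a cusp form on `SL₂(ℤ)` as a form on `Γ₀(1)` -/
def restr {k : ℤ} (f : CuspForm 𝒮ℒ k) : CuspForm (Gamma0 1) k where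
  toFun := f
  slash_action_eq' γ hγ := SlashInvariantFormClass.slash_action_eq f γ
    (by obtain ⟨a, _, rfl⟩ := hγ; exact ⟨a, rfl⟩)
  holo' := f.holo'
  zero_at_cusps' hc := f.zero_at_cusps' (hc.mono (by
    rintro γ ⟨a, _, rfl⟩; exact ⟨a, rfl⟩))

@[simp] theorem coe_restr {k : ℤ} (f : CuspForm 𝒮ℒ k) : ⇑(restr f) = ⇑f := rfl

theorem qCoeff_disc (n : ℕ) : qCoeff ⇑(restr CuspForm.discriminant) n = (tau n : ℂ) := by
  rw [← qExpansion_coeff_discriminant]
  rfl

theorem tau_hr : DS.HR 1 (fun p ↦ (p : ℂ) ^ 11) (fun n ↦ (tau n : ℂ)) := by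
  intro p hp _ n
  have h1 : qCoeff ⇑(restr CuspForm.discriminant) 1 = 1 := by
    rw [qCoeff_disc, tau_values.1, Int.cast_one]
  have h := hecke_relation (fun h ↦ eq_zero_of_lt (by norm_num) h) h1 hp n
  simp only [qCoeff_disc] at h
  exact h

/-- **Mordell (1917), conjectured by Ramanujan**: `τ(m n) = τ(m) τ(n)` for coprime `m`, `n`. -/
theorem tau_mul {m n : ℕ} (h : m.Coprime n) : tau (m * n) = tau m * tau n := by
  have h1 := tau_hr.mul_coprime (by simp [tau_values.1]) h (Nat.coprime_one_right m)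
  exact_mod_cast h1

/-- **Mordell (1917), conjectured by Ramanujan** -/
theorem tau_pow {p : ℕ} (hp : p.Prime) (r : ℕ) :
    tau (p ^ (r + 2)) = tau p * tau (p ^ (r + 1)) - p ^ 11 * tau (p ^ r) := by
  have h1 := tau_hr.pow_rec hp (fun h ↦ hp.one_lt.ne' (Nat.dvd_one.mp h)) r
  exact_mod_cast h1

/-! ### The L-function -/

theorem twelve_pos : (0 : ℤ) < 12 := by norm_num

/-- the completed L-function of `Δ` -/
def LamD (s : ℂ) : ℂ := ModularForm.Λ twelve_pos (restr CuspForm.discriminant) s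

/-- the L-function of `Δ` -/
def LD (s : ℂ) : ℂ := ModularForm.L twelve_pos (restr CuspForm.discriminant) s

theorem differentiable_LD : Differentiable ℂ LD := CuspForm.differentiable_L twelve_pos _

theorem differentiable_LamD : Differentiable ℂ LamD := CuspForm.differentiable_Λ twelve_pos _

/-- **Hecke's bound** `τ(n) = O(n⁶)` -/
theorem tau_isBigO : (fun n : ℕ ↦ (tau n : ℂ)) =O[atTop] fun n : ℕ ↦ (n : ℝ) ^ (7 - 1 : ℝ) := by
  have h := CuspFormClass.qExpansion_isBigO (k := 12)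
    (Γ := (Gamma0 1 : Subgroup (GL (Fin 2) ℝ))) (restr CuspForm.discriminant)
  rw [strictWidthInfty_Gamma0] at h
  have h2 : ((12 : ℤ) / 2 : ℝ) = 7 - 1 := by norm_num
  rw [h2] at h
  exact h.congr_left fun n ↦ qCoeff_disc n

theorem lSeriesSummable_tau {s : ℂ} (hs : 7 < s.re) :
    LSeriesSummable (fun n ↦ (tau n : ℂ)) s :=
  LSeriesSummable_of_isBigO_rpow hs tau_isBigO

/-- `L(Δ, s) = ∑ τ(n) n ^ {-s}` for `Re s > 7` -/
theorem lSeries_tau {s : ℂ} (hs : 7 < s.re) : LSeries (fun n ↦ (tau n : ℂ)) s = LD s := by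
  have h := CuspForm.hasSum_L (k := 12) (Γ := (Gamma0 1 : Subgroup (GL (Fin 2) ℝ)))
    (hk := twelve_pos) (restr CuspForm.discriminant) (s := s) (by norm_num; linarith)
  rw [strictWidthInfty_Gamma0, Complex.ofReal_one, Complex.one_cpow, one_mul] at h
  have hs0 : s ≠ 0 := by
    rintro rfl
    norm_num at hs
  rw [LSeries, LD, ← h.tsum_eq]
  refine tsum_congr fun n ↦ ?_
  rw [LSeries.term_of_ne_zero' hs0, ← qCoeff_disc]
  rfl

/-- the Euler factor -/
def eulerPoly (p : ℕ) (X : ℂ) : ℂ := 1 - tau p * X + (p : ℂ) ^ 11 * X ^ 2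

theorem term_one (s : ℂ) : LSeries.term (fun n ↦ (tau n : ℂ)) s 1 = 1 := by
  rw [LSeries.term_of_ne_zero one_ne_zero, tau_values.1, Nat.cast_one, Complex.one_cpow, div_one,
    Int.cast_one]

theorem term_mul (s : ℂ) {m n : ℕ} (hmn : m.Coprime n) :
    LSeries.term (fun n ↦ (tau n : ℂ)) s (m * n) =
      LSeries.term (fun n ↦ (tau n : ℂ)) s m * LSeries.term (fun n ↦ (tau n : ℂ)) s n := by
  rcases eq_or_ne m 0 with rfl | hm
  · rw [zero_mul, LSeries.term_zero, zero_mul]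
  rcases eq_or_ne n 0 with rfl | hn
  · rw [mul_zero, LSeries.term_zero, mul_zero]
  rw [LSeries.term_of_ne_zero (mul_ne_zero hm hn), LSeries.term_of_ne_zero hm,
    LSeries.term_of_ne_zero hn, tau_mul hmn, Nat.cast_mul,
    Complex.natCast_mul_natCast_cpow, Int.cast_mul]
  exact (div_mul_div_comm _ _ _ _).symm

theorem term_prime_pow {p : ℕ} (hp : p.Prime) (s : ℂ) (r : ℕ) :
    LSeries.term (fun n ↦ (tau n : ℂ)) s (p ^ (r + 2)) =
      tau p * (p : ℂ) ^ (-s) * LSeries.term (fun n ↦ (tau n : ℂ)) s (p ^ (r + 1)) -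
      (p : ℂ) ^ 11 * ((p : ℂ) ^ (-s)) ^ 2 *
        LSeries.term (fun n ↦ (tau n : ℂ)) s (p ^ r) := by
  have hp0 : (p : ℂ) ≠ 0 := by exact_mod_cast hp.ne_zero
  have hpow (e : ℕ) : ((p ^ e : ℕ) : ℂ) ^ s = (((p : ℂ) ^ s)) ^ e := by
    rw [Nat.cast_pow, ← Complex.cpow_nat_mul, ← Complex.natCast_cpow_natCast_mul]
  have hs0 : (p : ℂ) ^ s ≠ 0 := by
    rw [Complex.cpow_ne_zero_iff]
    exact Or.inl hp0
  rw [LSeries.term_of_ne_zero (pow_ne_zero _ hp.ne_zero),
    LSeries.term_of_ne_zero (pow_ne_zero _ hp.ne_zero),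
    LSeries.term_of_ne_zero (pow_ne_zero _ hp.ne_zero), tau_pow hp, hpow, hpow, hpow,
    Complex.cpow_neg]
  push_cast
  field_simp
  ring

theorem tsum_prime_pow {p : ℕ} (hp : p.Prime) {s : ℂ} (hs : 7 < s.re) :
    (∑' e : ℕ, LSeries.term (fun n ↦ (tau n : ℂ)) s (p ^ e)) *
      eulerPoly p ((p : ℂ) ^ (-s)) = 1 := by
  set t : ℕ → ℂ := fun e ↦ LSeries.term (fun n ↦ (tau n : ℂ)) s (p ^ e) with ht
  have hsum : Summable t :=
    (lSeriesSummable_tau hs).comp_injective (Nat.pow_right_injective hp.two_le)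
  have h0 : t 0 = 1 := by
    rw [ht]
    simp only [pow_zero]
    exact term_one s
  have h1 : t 1 = tau p * (p : ℂ) ^ (-s) := by
    rw [ht]
    simp only [pow_one]
    rw [LSeries.term_of_ne_zero hp.ne_zero, Complex.cpow_neg, div_eq_mul_inv]
  have hS1 : ∑' e, t e = t 0 + ∑' e, t (e + 1) := hsum.tsum_eq_zero_add
  have hsum1 : Summable fun e ↦ t (e + 1) := (summable_nat_add_iff 1).mpr hsum
  have hS2 : ∑' e, t (e + 1) = t 1 + ∑' e, t (e + 2) := hsum1.tsum_eq_zero_add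
  have hrec : ∑' e, t (e + 2) = tau p * (p : ℂ) ^ (-s) * ∑' e, t (e + 1) -
      (p : ℂ) ^ 11 * ((p : ℂ) ^ (-s)) ^ 2 * ∑' e, t e := by
    rw [← tsum_mul_left, ← tsum_mul_left,
      ← (hsum1.mul_left _).tsum_sub (hsum.mul_left _)]
    exact tsum_congr fun e ↦ term_prime_pow hp s e
  rw [eulerPoly]
  rw [hrec, h1] at hS2
  rw [h0] at hS1
  have h3 : ∑' e, t (e + 1) = ∑' e, t e - 1 := by rw [hS1]; ring
  rw [h3] at hS2
  linear_combination hS2

/-- **The Euler product** `L(Δ, s) = ∏ (1 - τ(p) p ^ {-s} + p ^ {11 - 2s})⁻¹` for `Re s > 7` -/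
theorem hasProd_LD {s : ℂ} (hs : 7 < s.re) :
    HasProd (fun p : Nat.Primes ↦ (eulerPoly p (((p : ℕ) : ℂ) ^ (-s)))⁻¹) (LD s) := by
  have h := EulerProduct.eulerProduct_hasProd (f := LSeries.term (fun n ↦ (tau n : ℂ)) s)
    (term_one s) (fun hmn ↦ term_mul s hmn) (lSeriesSummable_tau hs).norm
    (LSeries.term_zero _ _)
  have h2 : (fun p : Nat.Primes ↦ (eulerPoly p (((p : ℕ) : ℂ) ^ (-s)))⁻¹) =
      fun p : Nat.Primes ↦ ∑' e : ℕ, LSeries.term (fun n ↦ (tau n : ℂ)) s ((p : ℕ) ^ e) := by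
    funext p
    exact (eq_inv_of_mul_eq_one_left (tsum_prime_pow p.2 hs)).symm
  rw [h2, ← lSeries_tau hs]
  exact h

/-- `Λ(s) = (2 π)^{-s} Γ(s) L(Δ, s)` -/
theorem LD_eq (s : ℂ) : LD s = LamD s * (2 / Gammaℂ s) := rfl

theorem slash_disc (z : ℍ) : translate (restr CuspForm.discriminant) ModularGroup.S z =
    ModularForm.discriminant z := by
  rw [coe_translate, coe_restr]
  exact congrFun discriminant_S_invariant z

/-- **The functional equation** `Λ(12 - s) = Λ(s)` -/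
theorem LamD_functional (s : ℂ) : LamD (12 - s) = LamD s := by
  have h := (weakFEPair twelve_pos (restr CuspForm.discriminant)).functional_equation s
  have hk : ((weakFEPair twelve_pos (restr CuspForm.discriminant)).k : ℂ) = 12 := by
    simp
  have hε : (weakFEPair twelve_pos (restr CuspForm.discriminant)).ε = 1 := by
    show Complex.I ^ (12 : ℤ) = 1
    rw [show (12 : ℤ) = 4 * 3 by norm_num, zpow_mul, show (4 : ℤ) = ((4 : ℕ) : ℤ) by norm_num,
      zpow_natCast, I_pow_four, one_zpow]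
  rw [hk, hε, one_smul] at h
  have h1 : LamD s = mellin (weakFEPair twelve_pos (restr CuspForm.discriminant)).f s := by
    rw [LamD, ModularForm.Λ,
      (CuspForm.isStrongFEPair twelve_pos (restr CuspForm.discriminant)).Λ_eq]
  rw [h1]
  rw [LamD, ModularForm.Λ, h,
    (CuspForm.isStrongFEPair twelve_pos (restr CuspForm.discriminant)).symm_Λ_eq]
  congr 1
  funext t
  exact slash_disc _

/-! ### Positivity -/

theorem eta_conj {t : ℝ} (ht : 0 < t) :
    (starRingEnd ℂ) (ModularForm.eta (Complex.I * t)) = ModularForm.eta (Complex.I * t) := by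
  have hq : ∀ h : ℝ, (starRingEnd ℂ) (Function.Periodic.qParam h (Complex.I * t)) =
      Function.Periodic.qParam h (Complex.I * t) := by
    intro h
    rw [Function.Periodic.qParam, ← Complex.exp_conj]
    congr 1
    simp only [map_div₀, map_mul, conj_I, conj_ofReal, map_ofNat]
    ring_nf
  have hz : Complex.I * t ∈ {z : ℂ | 0 < z.im} := by simp [ht]
  have hm : Multipliable fun n : ℕ ↦ (1 - eta_q n (Complex.I * t)) := by
    have := (multipliableLocallyUniformlyOn_eta).multipliable hz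
    exact this
  rw [ModularForm.eta, map_mul, hq]
  congr 1
  rw [hm.map_tprod (starRingEnd ℂ) Complex.continuous_conj]
  congr 1
  funext n
  rw [map_sub, map_one, eta_q, map_pow, hq]


/-- `Δ(i t) > 0` -/
theorem disc_pos {t : ℝ} (ht : 0 < t) :
    ∃ x : ℝ, 0 < x ∧ (restr CuspForm.discriminant) (ofComplex (Complex.I * t)) = x := by
  have hz : 0 < (Complex.I * t).im := by simp [ht]
  obtain ⟨y, hy⟩ := Complex.conj_eq_iff_real.mp (eta_conj ht)
  have hy0 : y ≠ 0 := by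
    rintro rfl
    rw [ofReal_zero] at hy
    exact eta_ne_zero (z := Complex.I * t) hz hy
  refine ⟨y ^ 24, by positivity, ?_⟩
  rw [coe_restr, ofComplex_apply_of_im_pos hz]
  show ModularForm.discriminant ⟨Complex.I * t, hz⟩ = _
  rw [discriminant, ofReal_pow, ← hy]

/-- **`Λ(x) > 0` for all real `x`** -/
theorem LamD_pos (x : ℝ) : ∃ y : ℝ, 0 < y ∧ LamD x = y := by
  have hm := ((CuspForm.isStrongFEPair twelve_pos (restr CuspForm.discriminant)).hasMellin x).1
  have hint : IntegrableOn (fun t : ℝ ↦ (t : ℂ) ^ ((x : ℂ) - 1) •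
      (restr CuspForm.discriminant) (ofComplex (Complex.I * t))) (Ioi 0) := hm
  set v : ℝ → ℝ := fun t ↦ ((t : ℂ) ^ ((x : ℂ) - 1) •
      (restr CuspForm.discriminant) (ofComplex (Complex.I * t))).re with hv
  have hv1 : ∀ t : ℝ, 0 < t → 0 < v t ∧ (t : ℂ) ^ ((x : ℂ) - 1) •
      (restr CuspForm.discriminant) (ofComplex (Complex.I * t)) = v t := by
    intro t ht
    obtain ⟨y, hy, h1⟩ := disc_pos ht
    have h2 : (t : ℂ) ^ ((x : ℂ) - 1) = ((t ^ (x - 1) : ℝ) : ℂ) := by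
      rw [ofReal_cpow ht.le]
      push_cast
      rfl
    have h3 : (t : ℂ) ^ ((x : ℂ) - 1) • (restr CuspForm.discriminant) (ofComplex (Complex.I * t)) =
        ((t ^ (x - 1) * y : ℝ) : ℂ) := by
      rw [h1, h2, smul_eq_mul, ← ofReal_mul]
    have h4 : v t = t ^ (x - 1) * y := by
      rw [hv]
      simp only []
      rw [h3, ofReal_re]
    refine ⟨?_, ?_⟩
    · rw [h4]
      have := Real.rpow_pos_of_pos ht (x - 1)
      positivity
    · rw [h3, h4]
  have hvi : IntegrableOn v (Ioi 0) := hint.re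
  have h3 : LamD x = ((∫ t in Ioi (0 : ℝ), v t : ℝ) : ℂ) := by
    rw [LamD, CuspForm.Λ_eq_mellin, mellin, ← integral_complex_ofReal]
    exact setIntegral_congr_fun measurableSet_Ioi fun t ht ↦ (hv1 t ht).2
  refine ⟨_, ?_, h3⟩
  rw [setIntegral_pos_iff_support_of_nonneg_ae
    ((ae_restrict_mem measurableSet_Ioi).mono fun t ht ↦ (hv1 t ht).1.le) hvi]
  have h5 : Ioi (0 : ℝ) ⊆ Function.support v ∩ Ioi 0 := fun t ht ↦ ⟨(hv1 t ht).1.ne', ht⟩
  exact lt_of_lt_of_le (by simp) (measure_mono h5)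

/-- **`L(Δ, x) > 0` for all real `x > 0`** -/
theorem LD_pos {x : ℝ} (hx : 0 < x) : ∃ y : ℝ, 0 < y ∧ LD x = y := by
  obtain ⟨y, hy, h⟩ := LamD_pos x
  refine ⟨y * ((2 * Real.pi) ^ x / Real.Gamma x), ?_, ?_⟩
  · have := Real.Gamma_pos_of_pos hx
    have h2 : 0 < (2 * Real.pi) ^ x := Real.rpow_pos_of_pos (by positivity) x
    positivity
  · rw [LD_eq, h, Gammaℂ, ofReal_mul]
    congr 1
    rw [ofReal_div, ofReal_cpow (by positivity), Complex.cpow_neg, Complex.Gamma_ofReal]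
    have h1 : ((2 * Real.pi : ℝ) : ℂ) = 2 * Real.pi := by push_cast; rfl
    rw [h1]
    have h2 : (2 * (Real.pi : ℂ)) ^ (x : ℂ) ≠ 0 := by
      rw [Complex.cpow_ne_zero_iff]
      left
      exact mul_ne_zero two_ne_zero (by exact_mod_cast Real.pi_ne_zero)
    have h3 : (Real.Gamma x : ℂ) ≠ 0 := by exact_mod_cast (Real.Gamma_pos_of_pos hx).ne'
    field_simp

/-- the trivial zeros -/
theorem LD_neg_nat (n : ℕ) : LD (-n) = 0 := by
  rw [LD_eq, Gammaℂ, Complex.Gamma_neg_nat_eq_zero, mul_zero, div_zero, mul_zero]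

/-- the Euler factors do not vanish for `Re s > 7` -/
theorem eulerPoly_ne_zero {p : ℕ} (hp : p.Prime) {s : ℂ} (hs : 7 < s.re) :
    eulerPoly p ((p : ℂ) ^ (-s)) ≠ 0 :=
  right_ne_zero_of_mul_eq_one (tsum_prime_pow hp hs)


theorem multipliable_eulerPoly {s : ℂ} (hs : 7 < s.re) :
    Multipliable (fun p : Nat.Primes ↦ eulerPoly p (((p : ℕ) : ℂ) ^ (-s))) := by
  have h1 : Summable fun p : Nat.Primes ↦ ‖- (tau p : ℂ) * ((p : ℕ) : ℂ) ^ (-s)‖ := by
    have h := (lSeriesSummable_tau hs).norm.comp_injective (Nat.Primes.coe_nat_injective)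
    refine h.congr fun p ↦ ?_
    simp only [Function.comp_apply]
    rw [LSeries.term_of_ne_zero p.2.ne_zero, Complex.cpow_neg, neg_mul, norm_neg, div_eq_mul_inv]
  have h2 : Summable fun p : Nat.Primes ↦
      ‖((p : ℕ) : ℂ) ^ 11 * (((p : ℕ) : ℂ) ^ (-s)) ^ 2‖ := by
    have hs2 : 11 - 2 * s.re < -1 := by linarith
    have h := (Real.summable_nat_rpow.mpr hs2).comp_injective (Nat.Primes.coe_nat_injective)
    refine Summable.of_nonneg_of_le (fun _ ↦ norm_nonneg _) (fun p ↦ ?_) h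
    have hp : (0 : ℝ) < (p : ℕ) := by exact_mod_cast p.2.pos
    show ‖((p : ℕ) : ℂ) ^ 11 * (((p : ℕ) : ℂ) ^ (-s)) ^ 2‖ ≤ ((p : ℕ) : ℝ) ^ (11 - 2 * s.re)
    rw [norm_mul, norm_pow, norm_pow, Complex.norm_natCast_cpow_of_pos p.2.pos, Complex.neg_re,
      Complex.norm_natCast, Real.rpow_sub hp, mul_comm (2 : ℝ), Real.rpow_mul hp.le,
      Real.rpow_neg hp.le, Real.rpow_two, inv_pow, div_eq_mul_inv]
    refine mul_le_mul_of_nonneg_right (le_of_eq ?_) (by positivity)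
    rw [← Real.rpow_natCast]
    norm_num
  have h3 : Summable fun p : Nat.Primes ↦ ‖- (tau p : ℂ) * ((p : ℕ) : ℂ) ^ (-s) +
      ((p : ℕ) : ℂ) ^ 11 * (((p : ℕ) : ℂ) ^ (-s)) ^ 2‖ :=
    Summable.of_nonneg_of_le (fun _ ↦ norm_nonneg _) (fun p ↦ norm_add_le _ _) (h1.add h2)
  refine (multipliable_one_add_of_summable h3).congr fun p ↦ ?_
  rw [eulerPoly]
  ring

/-- `L(Δ, s) ≠ 0` for `Re s > 7` -/
theorem LD_ne_zero {s : ℂ} (hs : 7 < s.re) : LD s ≠ 0 := by
  have h1 := hasProd_LD hs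
  have h2 := (multipliable_eulerPoly hs).hasProd
  have h3 := h1.mul h2
  have h4 : (fun p : Nat.Primes ↦ (eulerPoly p (((p : ℕ) : ℂ) ^ (-s)))⁻¹ *
        eulerPoly p (((p : ℕ) : ℂ) ^ (-s))) = fun _ ↦ 1 := by
    funext p
    exact inv_mul_cancel₀ (eulerPoly_ne_zero p.2 hs)
  rw [h4] at h3
  have h5 := h3.unique hasProd_one
  exact left_ne_zero_of_mul_eq_one h5

theorem LamD_ne_zero {s : ℂ} (hs : 7 < s.re) : LamD s ≠ 0 := by
  intro h
  apply LD_ne_zero hs
  rw [LD_eq, h, zero_mul]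

/-- `Λ(s) ≠ 0` for `Re s < 5` -/
theorem LamD_ne_zero' {s : ℂ} (hs : s.re < 5) : LamD s ≠ 0 := by
  rw [← LamD_functional]
  apply LamD_ne_zero
  rw [sub_re]
  have : (12 : ℂ).re = 12 := by norm_num
  rw [this]
  linarith

/-- the zeros of `L(Δ, s)` with `Re s < 5` are exactly `0, -1, -2, …` -/
theorem LD_eq_zero_iff {s : ℂ} (hs : s.re < 5) : LD s = 0 ↔ ∃ n : ℕ, s = -n := by
  rw [LD_eq, mul_eq_zero, or_iff_right (LamD_ne_zero' hs), div_eq_zero_iff,
    or_iff_right two_ne_zero, Gammaℂ, mul_eq_zero, Complex.Gamma_eq_zero_iff, or_iff_right]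
  rw [mul_eq_zero, not_or]
  refine ⟨two_ne_zero, Complex.cpow_ne_zero_iff.mpr (Or.inl ?_)⟩
  exact mul_ne_zero two_ne_zero (by exact_mod_cast Real.pi_ne_zero)


/-! ### Congruences at the primes -/

theorem tau_prime_691 {p : ℕ} (hp : p.Prime) : (691 : ℤ) ∣ tau p - (1 + (p : ℤ) ^ 11) := by
  have h := tau_mod_691 p
  rw [ArithmeticFunction.sigma_apply, hp.sum_divisors] at h
  push_cast at h
  convert h using 2
  ring

theorem tau_prime_seven {p : ℕ} (hp : p.Prime) : (7 : ℤ) ∣ tau p - p * (1 + (p : ℤ) ^ 3) := by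
  have h := tau_mod_seven p
  rw [ArithmeticFunction.sigma_apply, hp.sum_divisors] at h
  push_cast at h
  convert h using 2
  ring

theorem tau_prime_five {p : ℕ} (hp : p.Prime) : (5 : ℤ) ∣ tau p - p * (1 + (p : ℤ)) := by
  have h := tau_mod_five p
  rw [ArithmeticFunction.sigma_apply, hp.sum_divisors] at h
  push_cast at h
  convert h using 2
  ring


end

end Fermat.Agent.Cor.Mordell
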