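import Fermat.Agent.Cor.EntireOrder
import Fermat.Agent.Cor.Mordell

/-!
# The L-function of the discriminant has infinitely many zeros in the critical strip

`infinite_zeros`: `L(Δ, s)` has infinitely many zeros with `5 ≤ Re s ≤ 7` (all zeros outside of this strip are
`0, -1, -2, …`).

Proof (as for elliptic curves in `Cor/InfiniteZeros`): `|Λ(s)| ≤ exp(A (1 + |s|) ^ (3 / 2))`, so if there were only
finitely many zeros, `Λ(s) = P(s) exp(a + b s)`; this does not tend to zero in one of the two directions of the line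
`Re s = 6`, contrary to the lemma of Riemann and Lebesgue.

This file is not used by any of the statement files.
-/

set_option autoImplicit false

noncomputable section

namespace Fermat.Agent.Cor.DeltaZeros

open Complex CongruenceSubgroup Filter MeasureTheory ModularFormClass Set UpperHalfPlane
open Fermat.Agent.Cor.Mordell Fermat.Agent.Cor.RamCong
open scoped Real Topology FourierTransform Nat

theorem Gamma_le {σ : ℝ} (hσ : 2 ≤ σ) :
    Real.Gamma σ ≤ Real.exp (2 * (1 + σ) ^ (3 / 2 : ℝ)) := by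
  have hc1 : (⌈σ⌉₊ : ℝ) ≤ 1 + σ := by
    have := (Nat.ceil_lt_add_one (show 0 ≤ σ by linarith)).le
    linarith
  have hc2 : σ ≤ (⌈σ⌉₊ : ℝ) := Nat.le_ceil σ
  have h1 : Real.Gamma σ ≤ Real.Gamma ((⌈σ⌉₊ : ℝ) + 1) :=
    Real.Gamma_strictMonoOn_Ici.monotoneOn hσ (show (2 : ℝ) ≤ _ by linarith) (by linarith)
  rw [Real.Gamma_nat_eq_factorial] at h1
  have h2 : ((⌈σ⌉₊)! : ℝ) ≤ (⌈σ⌉₊ : ℝ) ^ ⌈σ⌉₊ := by exact_mod_cast Nat.factorial_le_pow _
  have h4 : (⌈σ⌉₊ : ℝ) ^ ⌈σ⌉₊ ≤ (1 + σ) ^ ⌈σ⌉₊ := pow_le_pow_left₀ (by positivity) hc1 _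
  have hpos : 0 < 1 + σ := by linarith
  have h5 : (1 + σ) ^ ⌈σ⌉₊ = Real.exp (⌈σ⌉₊ * Real.log (1 + σ)) := by
    rw [Real.exp_nat_mul, Real.exp_log hpos]
  have h6 : Real.log (1 + σ) ≤ (1 + σ) ^ (1 / 2 : ℝ) / (1 / 2) :=
    Real.log_le_rpow_div hpos.le (by norm_num)
  have h7 : 0 ≤ Real.log (1 + σ) := Real.log_nonneg (by linarith)
  refine (h1.trans (h2.trans h4)).trans ?_
  rw [h5]
  refine Real.exp_le_exp.mpr ?_
  calc (⌈σ⌉₊ : ℝ) * Real.log (1 + σ) ≤ (1 + σ) * ((1 + σ) ^ (1 / 2 : ℝ) / (1 / 2)) :=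
        mul_le_mul hc1 h6 h7 hpos.le
    _ = 2 * ((1 + σ) ^ (1 : ℝ) * (1 + σ) ^ (1 / 2 : ℝ)) := by rw [Real.rpow_one]; ring
    _ = 2 * (1 + σ) ^ (3 / 2 : ℝ) := by
        rw [← Real.rpow_add hpos]
        norm_num

theorem norm_Gamma_le {s : ℂ} (hs : 0 < s.re) : ‖Complex.Gamma s‖ ≤ Real.Gamma s.re := by
  rw [Complex.Gamma_eq_integral hs, Real.Gamma_eq_integral hs, Complex.GammaIntegral]
  refine (norm_integral_le_integral_norm _).trans_eq
    (setIntegral_congr_fun measurableSet_Ioi fun x (hx : 0 < x) => ?_)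
  rw [norm_mul, Complex.norm_real, Real.norm_of_nonneg (Real.exp_pos _).le,
    Complex.norm_cpow_eq_rpow_re_of_pos hx]
  simp

theorem exists_bound_LD : ∃ B : ℝ, ∀ s : ℂ, 8 ≤ s.re → ‖LD s‖ ≤ B := by
  have h8 : LSeriesSummable (fun n ↦ (tau n : ℂ)) 8 := lSeriesSummable_tau (by norm_num)
  refine ⟨∑' n, ‖LSeries.term (fun n ↦ (tau n : ℂ)) 8 n‖, fun s hs ↦ ?_⟩
  have h1 := (lSeriesSummable_tau (s := s) (by linarith)).LSeriesHasSum
  rw [lSeries_tau (by linarith)] at h1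
  refine HasSum.norm_le_of_bounded h1 h8.norm.hasSum fun n ↦ ?_
  exact LSeries.norm_term_le_of_re_le_re _ (by simpa using hs) n

/-- `Λ(s) = (2 π)^(-s) Γ(s) L(s)` for `Re s > 0` -/
theorem LamD_eq {s : ℂ} (hs : 0 < s.re) :
    LamD s = (2 * π : ℂ) ^ (-s) * Complex.Gamma s * LD s := by
  rw [LD_eq, Gammaℂ]
  have h1 : (2 * π : ℂ) ^ (-s) ≠ 0 :=
    Complex.cpow_ne_zero_iff.mpr (Or.inl (mul_ne_zero two_ne_zero (by exact_mod_cast Real.pi_ne_zero)))
  have h2 : Complex.Gamma s ≠ 0 := Complex.Gamma_ne_zero_of_re_pos hs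
  field_simp

theorem norm_LamD {s : ℂ} (hs : 0 < s.re) :
    ‖LamD s‖ = (2 * π) ^ (-s.re) * ‖Complex.Gamma s‖ * ‖LD s‖ := by
  have h1 : (2 * π : ℂ) = ((2 * π : ℝ) : ℂ) := by push_cast; rfl
  rw [LamD_eq hs, norm_mul, norm_mul, h1, Complex.norm_cpow_eq_rpow_re_of_pos (by positivity),
    Complex.neg_re]

theorem le_rpow {x : ℝ} (hx : 0 ≤ x) : x ≤ (1 + x) ^ (3 / 2 : ℝ) := by
  have h1 : (1 + x) ^ (1 : ℝ) ≤ (1 + x) ^ (3 / 2 : ℝ) :=
    Real.rpow_le_rpow_of_exponent_le (by linarith) (by norm_num)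
  rw [Real.rpow_one] at h1
  linarith

theorem one_le_rpow' {x : ℝ} (hx : 0 ≤ x) : 1 ≤ (1 + x) ^ (3 / 2 : ℝ) :=
  Real.one_le_rpow (by linarith) (by norm_num)

theorem exists_bound_right :
    ∃ A : ℝ, 0 ≤ A ∧ ∀ s : ℂ, 8 ≤ s.re → ‖LamD s‖ ≤ Real.exp (A * (1 + ‖s‖) ^ (3 / 2 : ℝ)) := by
  obtain ⟨B, hB⟩ := exists_bound_LD
  refine ⟨2 + |B|, by positivity, fun s hs => ?_⟩
  have hs0 : 0 < s.re := by linarith
  have hle : s.re ≤ ‖s‖ := Complex.re_le_norm s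
  rw [norm_LamD hs0]
  have e2 : (2 * π) ^ (-s.re) ≤ 1 :=
    Real.rpow_le_one_of_one_le_of_nonpos (by linarith [Real.pi_gt_three]) (by linarith)
  have e3 : ‖Complex.Gamma s‖ ≤ Real.exp (2 * (1 + ‖s‖) ^ (3 / 2 : ℝ)) := by
    refine (norm_Gamma_le hs0).trans ((Gamma_le (by linarith)).trans ?_)
    refine Real.exp_le_exp.mpr (mul_le_mul_of_nonneg_left ?_ (by norm_num))
    exact Real.rpow_le_rpow (by linarith) (by linarith) (by norm_num)
  have e4 : ‖LD s‖ ≤ Real.exp (|B| * (1 + ‖s‖) ^ (3 / 2 : ℝ)) := by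
    refine (hB s hs).trans ((le_abs_self B).trans ?_)
    have h1 := Real.add_one_le_exp (|B| * (1 + ‖s‖) ^ (3 / 2 : ℝ))
    have h2 := one_le_rpow' (norm_nonneg s)
    have h3 := abs_nonneg B
    nlinarith
  have h2 := mul_le_mul e2 e3 (norm_nonneg _) zero_le_one
  have h3 := mul_le_mul h2 e4 (norm_nonneg _) (by positivity)
  refine h3.trans (le_of_eq ?_)
  rw [one_mul, ← Real.exp_add]
  congr 1
  ring

/-- `Λ` is bounded in the strip `4 ≤ Re s ≤ 8` -/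
theorem exists_bound_strip : ∃ B : ℝ, ∀ s : ℂ, 4 ≤ s.re → s.re ≤ 8 → ‖LamD s‖ ≤ B := by
  set f : ℝ → ℂ := fun t ↦ (restr CuspForm.discriminant) (ofComplex (Complex.I * t)) with hf
  have hm : ∀ s : ℂ, IntegrableOn (fun t : ℝ ↦ (t : ℂ) ^ (s - 1) • f t) (Ioi 0) := fun s ↦
    ((CuspForm.isStrongFEPair twelve_pos (restr CuspForm.discriminant)).hasMellin s).1
  have hΛ : ∀ s : ℂ, LamD s = ∫ t in Ioi (0 : ℝ), (t : ℂ) ^ (s - 1) • f t := by
    intro s
    rw [LamD, CuspForm.Λ_eq_mellin, mellin]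
  refine ⟨(∫ t in Ioi (0 : ℝ), ‖(t : ℂ) ^ ((4 : ℂ) - 1) • f t‖) +
    ∫ t in Ioi (0 : ℝ), ‖(t : ℂ) ^ ((8 : ℂ) - 1) • f t‖, fun s h4 h8 ↦ ?_⟩
  rw [hΛ, ← integral_add (hm 4).norm (hm 8).norm]
  refine (norm_integral_le_integral_norm _).trans
    (setIntegral_mono_on (hm s).norm ((hm 4).norm.add (hm 8).norm) measurableSet_Ioi
      fun t ht ↦ ?_)
  have ht0 : 0 < t := ht
  simp only [norm_smul]
  rw [Complex.norm_cpow_eq_rpow_re_of_pos ht0, Complex.norm_cpow_eq_rpow_re_of_pos ht0,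
    Complex.norm_cpow_eq_rpow_re_of_pos ht0, ← add_mul]
  refine mul_le_mul_of_nonneg_right ?_ (norm_nonneg _)
  have e4 : ((4 : ℂ) - 1).re = 3 := by norm_num
  have e8 : ((8 : ℂ) - 1).re = 7 := by norm_num
  have es : (s - 1).re = s.re - 1 := by simp
  rw [e4, e8, es]
  have p3 : 0 < t ^ (3 : ℝ) := Real.rpow_pos_of_pos ht0 3
  have p7 : 0 < t ^ (7 : ℝ) := Real.rpow_pos_of_pos ht0 7
  rcases le_total t 1 with h | h
  · have := Real.rpow_le_rpow_of_exponent_ge ht0 h (show (3 : ℝ) ≤ s.re - 1 by linarith)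
    linarith
  · have := Real.rpow_le_rpow_of_exponent_le h (show s.re - 1 ≤ 7 by linarith)
    linarith

/-- **the growth of the completed L-function** -/
theorem exists_growth :
    ∃ A : ℝ, ∀ s : ℂ, ‖LamD s‖ ≤ Real.exp (A * (1 + ‖s‖) ^ (3 / 2 : ℝ)) := by
  obtain ⟨A1, hA1, h1⟩ := exists_bound_right
  obtain ⟨B, hB⟩ := exists_bound_strip
  refine ⟨A1 * 13 ^ (3 / 2 : ℝ) + A1 + |B|, fun s => ?_⟩
  have hX := one_le_rpow' (norm_nonneg s)
  set X := (1 + ‖s‖) ^ (3 / 2 : ℝ) with hXdef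
  have h3 : (0 : ℝ) < 13 ^ (3 / 2 : ℝ) := by positivity
  have hB0 := abs_nonneg B
  have h13 : 0 ≤ A1 * 13 ^ (3 / 2 : ℝ) := by positivity
  rcases le_or_gt 8 s.re with hs | hs
  · refine (h1 s hs).trans (Real.exp_le_exp.mpr ?_)
    exact mul_le_mul_of_nonneg_right (by linarith) (by linarith)
  rcases le_or_gt 4 s.re with hs' | hs'
  · refine (hB s hs' hs.le).trans ((le_abs_self B).trans ?_)
    have h4 := Real.add_one_le_exp ((A1 * 13 ^ (3 / 2 : ℝ) + A1 + |B|) * X)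
    have h6 : |B| * 1 ≤ (A1 * 13 ^ (3 / 2 : ℝ) + A1 + |B|) * X :=
      mul_le_mul (by linarith) hX (by norm_num) (by positivity)
    linarith
  · rw [← LamD_functional s]
    have h12 : (12 - s).re = 12 - s.re := by simp
    refine (h1 (12 - s) (by rw [h12]; linarith)).trans (Real.exp_le_exp.mpr ?_)
    have h5 : ‖12 - s‖ ≤ 12 + ‖s‖ := by
      refine (norm_sub_le _ _).trans ?_
      norm_num
    have h6 : (1 + ‖12 - s‖) ^ (3 / 2 : ℝ) ≤ 13 ^ (3 / 2 : ℝ) * X := by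
      rw [hXdef, ← Real.mul_rpow (by norm_num) (by positivity)]
      refine Real.rpow_le_rpow (by positivity) ?_ (by norm_num)
      have := norm_nonneg s
      linarith
    calc A1 * (1 + ‖12 - s‖) ^ (3 / 2 : ℝ) ≤ A1 * (13 ^ (3 / 2 : ℝ) * X) :=
          mul_le_mul_of_nonneg_left h6 hA1
      _ = (A1 * 13 ^ (3 / 2 : ℝ)) * X := by ring
      _ ≤ (A1 * 13 ^ (3 / 2 : ℝ) + A1 + |B|) * X :=
          mul_le_mul_of_nonneg_right (by linarith) (by linarith)

/-- **the lemma of Riemann and Lebesgue** on the line `Re s = 6` -/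
theorem tendsto_LamD {ε : ℝ} (hε : ε = 1 ∨ ε = -1) :
    Tendsto (fun y : ℝ => ‖LamD (6 + (ε * y : ℝ) * Complex.I)‖) atTop (𝓝 0) := by
  set f : ℝ → ℂ := fun t ↦ (restr CuspForm.discriminant) (ofComplex (Complex.I * t)) with hf
  have h1 := Real.zero_at_infty_fourier
    (fun u : ℝ => Real.exp (-(6 : ℝ) * u) • f (Real.exp (-u)))
  have h2 : Tendsto (fun y : ℝ => ε * y / (2 * π)) atTop (cocompact ℝ) := by
    rcases hε with rfl | rfl
    · refine Tendsto.mono_right ?_ atTop_le_cocompact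
      simp only [one_mul]
      exact tendsto_id.atTop_div_const (by positivity)
    · refine Tendsto.mono_right ?_ atBot_le_cocompact
      simp only [neg_mul, one_mul]
      exact (tendsto_neg_atTop_atBot).atBot_div_const (by positivity)
  have h3 := (h1.comp h2).norm
  rw [norm_zero] at h3
  refine h3.congr fun y => ?_
  have hre : (6 + ((ε * y : ℝ) : ℂ) * Complex.I).re = 6 := by simp
  have him : (6 + ((ε * y : ℝ) : ℂ) * Complex.I).im = ε * y := by simp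
  rw [LamD, CuspForm.Λ_eq_mellin, mellin_eq_fourier, hre, him]
  rfl

/-- **The completed L-function of the discriminant has infinitely many zeros.** -/
theorem infinite_zeros_LamD : {s | LamD s = 0}.Infinite := by
  intro hfin
  obtain ⟨A, hA⟩ := exists_growth
  have hne : ∃ z, LamD z ≠ 0 := by
    obtain ⟨y, hy, h⟩ := LamD_pos 6
    exact ⟨((6 : ℝ) : ℂ), by rw [h]; exact_mod_cast hy.ne'⟩
  obtain ⟨P, a, b, hP, hF⟩ :=
    EntireOrder.exists_eq_poly_mul_exp differentiable_LamD hne hfin hA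
  obtain ⟨R, hR⟩ := EntireOrder.exists_one_le hP
  obtain ⟨ε, hε, hεb⟩ : ∃ ε : ℝ, (ε = 1 ∨ ε = -1) ∧ 0 ≤ -(ε * b.im) := by
    rcases le_total b.im 0 with h | h
    · exact ⟨1, Or.inl rfl, by linarith⟩
    · exact ⟨-1, Or.inr rfl, by linarith⟩
  have h1 := tendsto_LamD hε
  have h2 : ∀ᶠ y : ℝ in atTop,
      Real.exp (a.re + 6 * b.re) ≤ ‖LamD (6 + (ε * y : ℝ) * Complex.I)‖ := by
    filter_upwards [eventually_ge_atTop (|R| + 1), eventually_ge_atTop 0] with y hy hy0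
    have hnorm : R ≤ ‖(6 : ℂ) + ((ε * y : ℝ) : ℂ) * Complex.I‖ := by
      have h3 : |(6 + ((ε * y : ℝ) : ℂ) * Complex.I).im| ≤
          ‖(6 : ℂ) + ((ε * y : ℝ) : ℂ) * Complex.I‖ := Complex.abs_im_le_norm _
      have h4 : (6 + ((ε * y : ℝ) : ℂ) * Complex.I).im = ε * y := by simp
      have h5 : |ε * y| = y := by
        rcases hε with rfl | rfl <;> simp [abs_of_nonneg hy0]
      rw [h4, h5] at h3
      have := le_abs_self R
      linarith
    rw [hF, norm_mul, Complex.norm_exp]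
    have h6 : (a + b * (6 + ((ε * y : ℝ) : ℂ) * Complex.I)).re =
        a.re + 6 * b.re - ε * y * b.im := by
      simp
      ring
    rw [h6]
    have h7 : Real.exp (a.re + 6 * b.re) ≤ Real.exp (a.re + 6 * b.re - ε * y * b.im) := by
      refine Real.exp_le_exp.mpr ?_
      nlinarith
    exact h7.trans (le_mul_of_one_le_left (Real.exp_pos _).le (hR _ hnorm))
  exact absurd (ge_of_tendsto h1 h2) (not_le.mpr (Real.exp_pos _))

/-- **`L(Δ, s)` has infinitely many zeros in the strip `5 ≤ Re s ≤ 7`.** -/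
theorem infinite_zeros : {s | LD s = 0 ∧ 5 ≤ s.re ∧ s.re ≤ 7}.Infinite := by
  refine infinite_zeros_LamD.mono fun s (hs : LamD s = 0) ↦ ⟨?_, ?_, ?_⟩
  · rw [LD_eq, hs, zero_mul]
  · by_contra h
    exact LamD_ne_zero' (not_le.mp h) hs
  · by_contra h
    exact LamD_ne_zero (not_le.mp h) hs

end Fermat.Agent.Cor.DeltaZeros
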