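import Fermat.Agent.Cor.RankExamples

/-!
# The derivative of the L-function at the centre

Let `f` be a newform of weight two and level `N` with root number `-1`. Then
`L'(f, 1) = 4π ∫_{1/√N}^∞ f(it) log(√N t) dt = 2 ∑ (a_n / n) E₁(2πn / √N)`, where
`E₁(y) = ∫_1^∞ exp(-yt) dt / t` is the exponential integral.

If `W` is a semistable elliptic curve over `ℚ` of conductor `N ≤ 82` with root number `-1`, then `L'(W, 1)` is a
positive real number.

This file is not used by any of the statement files.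
-/

set_option autoImplicit false

noncomputable section

namespace Fermat.Agent.Cor.DerivSeries

open Complex CongruenceSubgroup Filter MeasureTheory ModularFormClass Set Asymptotics
open Fermat.Agent.Cor.LFun Fermat.Agent.Cor.CentralSeries
open scoped Real Topology

/-- The exponential integral `E₁(y) = ∫_1^∞ exp(-yt) dt / t`. -/
def expInt (y : ℝ) : ℝ := ∫ t in Ioi (1 : ℝ), Real.exp (-(y * t)) / t

theorem integrableOn_exp_div {c a : ℝ} (hc : 0 < c) (ha : 0 < a) :
    IntegrableOn (fun t => Real.exp (-(a * t)) / t) (Ioi c) := by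
  have h := (exp_neg_integrableOn_Ioi c ha).const_mul c⁻¹
  refine Integrable.mono' h ?_ ?_
  · refine ContinuousOn.aestronglyMeasurable ?_ measurableSet_Ioi
    exact ContinuousOn.div (by fun_prop) continuousOn_id fun t ht => (hc.trans ht).ne'
  · refine (ae_restrict_mem measurableSet_Ioi).mono fun t (ht : c < t) => ?_
    have ht0 : 0 < t := hc.trans ht
    rw [Real.norm_of_nonneg (by positivity), div_eq_inv_mul,
      show -(a * t) = -a * t by ring]
    gcongr

theorem E_log {c : ℝ} (hc : 0 < c) {n : ℕ} (hn : n ≠ 0) :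
    E c (fun t => Real.log (t / c)) n = expInt (2 * π * n * c) / (2 * π * n) := by
  have hn0 : (0 : ℝ) < n := by exact_mod_cast Nat.pos_of_ne_zero hn
  obtain ⟨a, ha⟩ : ∃ a : ℝ, a = 2 * π * n := ⟨_, rfl⟩
  have ha0 : 0 < a := by rw [ha]; positivity
  have h1 : IntegrableOn (fun t => Real.exp (-(a * t)) * Real.log (t / c)) (Ioi c) := by
    rw [ha]
    exact (isWeight_log hc).integrableOn hn
  have h2 := (integrableOn_exp_div hc ha0).const_mul a⁻¹
  have hderiv : ∀ t ∈ Ioi c, HasDerivAt (fun t => -(Real.exp (-(a * t)) * Real.log (t / c)) / a)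
      (Real.exp (-(a * t)) * Real.log (t / c) - a⁻¹ * (Real.exp (-(a * t)) / t)) t := by
    intro t (ht : c < t)
    have ht0 : 0 < t := hc.trans ht
    have d1 : HasDerivAt (fun t => Real.exp (-(a * t))) (Real.exp (-(a * t)) * (-(a * 1))) t :=
      (((hasDerivAt_id t).const_mul a).neg).exp
    have d2 : HasDerivAt (fun t => Real.log (t / c)) (1 / c / (t / c)) t :=
      ((hasDerivAt_id t).div_const c).log (by simp only [id]; positivity)
    refine (((d1.mul d2).neg).div_const a).congr_deriv ?_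
    have e : (1 / c / (t / c) : ℝ) = 1 / t := by field_simp
    rw [e]
    field_simp
    ring
  have hcont : ContinuousWithinAt (fun t => -(Real.exp (-(a * t)) * Real.log (t / c)) / a) (Ici c) c := by
    have : ContinuousAt (fun t => -(Real.exp (-(a * t)) * Real.log (t / c)) / a) c := by
      refine ContinuousAt.div_const (ContinuousAt.neg (ContinuousAt.mul (by fun_prop) ?_)) _
      exact ContinuousAt.log (by fun_prop) (by positivity)
    exact this.continuousWithinAt
  have htend : Tendsto (fun t => -(Real.exp (-(a * t)) * Real.log (t / c)) / a) atTop (𝓝 0) := by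
    have h5 : Tendsto (fun t => Real.exp (-(a * t)) * Real.log (t / c)) atTop (𝓝 0) := by
      have h6 : Tendsto (fun t : ℝ => c⁻¹ * (t * Real.exp (-a * t))) atTop (𝓝 (c⁻¹ * 0)) := by
        refine Tendsto.const_mul _ ?_
        have := tendsto_rpow_mul_exp_neg_mul_atTop_nhds_zero 1 a ha0
        simpa using this
      rw [mul_zero] at h6
      refine tendsto_of_tendsto_of_tendsto_of_le_of_le' tendsto_const_nhds h6 ?_ ?_
      · filter_upwards [eventually_ge_atTop c] with t ht
        exact mul_nonneg (Real.exp_pos _).le (Real.log_nonneg (by rwa [one_le_div hc]))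
      · filter_upwards [eventually_ge_atTop c] with t ht
        have ht0 : 0 < t := hc.trans_le ht
        have h7 : Real.log (t / c) ≤ t / c := Real.log_le_self (by positivity)
        calc Real.exp (-(a * t)) * Real.log (t / c) ≤ Real.exp (-(a * t)) * (t / c) := by gcongr
          _ = c⁻¹ * (t * Real.exp (-a * t)) := by rw [neg_mul]; ring
    have h8 := (h5.neg).div_const a
    simpa using h8
  have key := integral_Ioi_of_hasDerivAt_of_tendsto hcont hderiv (h1.sub h2) htend
  rw [integral_sub h1 h2, div_self hc.ne', Real.log_one, mul_zero, neg_zero, zero_div, sub_zero,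
    integral_const_mul] at key
  have h3 : ∫ t in Ioi c, Real.exp (-(a * t)) / t = expInt (a * c) := by
    have h4 := integral_comp_mul_left_Ioi' (fun t => Real.exp (-(a * t)) / t) 1 hc
    rw [mul_one] at h4
    rw [← h4, expInt, smul_eq_mul, ← integral_const_mul]
    refine setIntegral_congr_fun measurableSet_Ioi fun t (ht : 1 < t) => ?_
    have ht0 : 0 < t := one_pos.trans ht
    rw [show a * (c * t) = a * c * t by ring]
    field_simp
  rw [E, ← ha]
  rw [h3] at key
  rw [div_eq_inv_mul]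
  linarith

section form

variable {N : ℕ} [NeZero N] {f : CuspForm (Gamma0 N) 2}

/-- `L'(f, 1) = 4π ∫_{1/√N}^∞ f(it) log(√N t) dt` if the root number is `-1` -/
theorem hasDerivAt_LF (hf : f.IsNewform) (hw : Parity.rootNumber f = -1) :
    HasDerivAt (LF f) (4 * π * ∫ t in Ioi (√N)⁻¹, (Real.log (t / (√N)⁻¹) : ℂ) * phi f t) 1 := by
  have hN : (0 : ℝ) < N := by exact_mod_cast Nat.pos_of_ne_zero (NeZero.ne N)
  have h1 := hasDerivAt_Lam' hf
  rw [hw] at h1
  obtain ⟨J, hJ⟩ : ∃ J : ℂ, J = ∫ t in Ioi (√N)⁻¹, (Real.log (t / (√N)⁻¹) : ℂ) * phi f t := ⟨_, rfl⟩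
  rw [← hJ] at h1 ⊢
  have h2 := ((differentiable_LF f) 1).hasDerivAt
  have h3 : HasDerivAt (Parity.fac N) (deriv (Parity.fac N) 1) 1 :=
    (Parity.analyticAt_fac (by norm_num)).differentiableAt.hasDerivAt
  have h4 := h3.mul h2
  have h5 : Parity.fac N * LF f =ᶠ[𝓝 1] Lam f := by
    filter_upwards [(isOpen_lt continuous_const Complex.continuous_re).mem_nhds
      (show (0 : ℝ) < (1 : ℂ).re by norm_num)] with z hz
    exact (Parity.Lam_eq_fac f hz).symm
  have h6 := (h1.unique (h4.congr_of_eventuallyEq h5.symm))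
  rw [Parity.LF_one_eq_zero hf hw, mul_zero, zero_add] at h6
  have h7 : Parity.fac N 1 = √N / (2 * π) := by
    have e : (N : ℂ) ^ ((1 : ℂ) / 2) = √N := by
      rw [Real.sqrt_eq_rpow, Complex.ofReal_cpow hN.le]
      norm_num
    rw [Parity.fac, e, Complex.cpow_neg_one, Complex.Gamma_one, mul_one, div_eq_mul_inv]
  have hs : ((√(N : ℝ) : ℝ) : ℂ) ≠ 0 := by
    have : √(N : ℝ) ≠ 0 := by positivity
    exact_mod_cast this
  have hpi : (π : ℂ) ≠ 0 := by exact_mod_cast Real.pi_ne_zero
  rw [h7] at h6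
  have h8 : deriv (LF f) 1 = 4 * π * J := by
    field_simp at h6
    linear_combination -h6
  rw [← h8]
  exact h2

/-- **The derivative at the centre** (Buhler–Gross–Zagier): `L'(f, 1) = 2 ∑ (a_n / n) E₁(2πn / √N)`. -/
theorem deriv_series (hf : f.IsNewform) (hw : Parity.rootNumber f = -1) :
    HasSum (fun n : ℕ => 2 * (qCoeff f n / n * expInt (2 * π * n / √N))) (deriv (LF f) 1) := by
  obtain ⟨C, hC⟩ := exists_bound f
  have hc := sqrt_pos' (N := N)
  have h := (isWeight_log hc).hasSum (H22.cusp_qCoeff_zero f) hC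
    (φ := phi f) (fun t ht => hasSum_phi f (hc.trans ht))
  rw [(hasDerivAt_LF hf hw).deriv]
  have h2 := h.mul_left (4 * π : ℂ)
  have e : (fun n : ℕ => 2 * (qCoeff f n / n * expInt (2 * π * n / √N))) = fun n =>
      4 * π * (qCoeff f n * (E (√N)⁻¹ (fun t => Real.log (t / (√N)⁻¹)) n : ℂ)) := by
    funext n
    rcases eq_or_ne n 0 with rfl | hn
    · rw [H22.cusp_qCoeff_zero f]
      simp
    · rw [E_log hc hn]
      have hn0 : (n : ℂ) ≠ 0 := by exact_mod_cast hn
      have hpi : (π : ℂ) ≠ 0 := by exact_mod_cast Real.pi_ne_zero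
      rw [show 2 * π * n / √N = 2 * π * n * (√N)⁻¹ from div_eq_mul_inv _ _]
      push_cast
      field_simp
      ring
  rw [e]
  exact h2

theorem sum_pos {c : ℝ} {k : ℝ → ℝ} (h : IsWeight c k) (hc : Real.exp (-(2 * π * c)) < 1 / 2)
    {b : ℕ → ℝ} (h0 : b 0 = 0) (h1 : b 1 = 1) (hb : ∀ n, |b n| ≤ n) {S : ℝ}
    (hs : HasSum (fun n => b n * E c k n) S) : 0 < S := by
  set x := Real.exp (-(2 * π * c)) with hx
  have hx0 : 0 < x := Real.exp_pos _
  rw [← hasSum_nat_add_iff' 2, Finset.sum_range_succ, Finset.sum_range_one, h0, h1, zero_mul,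
    zero_add, one_mul] at hs
  have hg : HasSum (fun n : ℕ => x ^ n * (x * E c k 1)) ((1 - x)⁻¹ * (x * E c k 1)) :=
    (hasSum_geometric_of_lt_one hx0.le (by linarith)).mul_right _
  have h2 := hs.norm_le_of_bounded hg fun n => by
    rw [norm_mul, Real.norm_eq_abs, Real.norm_of_nonneg (h.E_nonneg _)]
    calc |b (n + 2)| * E c k (n + 2) ≤ (n + 2 : ℕ) * E c k (n + 2) :=
          mul_le_mul_of_nonneg_right (hb (n + 2)) (h.E_nonneg _)
      _ ≤ x ^ (n + 1) * E c k 1 := h.E_le (n + 1)
      _ = x ^ n * (x * E c k 1) := by ring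
  have hE := h.E_one_pos
  have h3 : (1 - x)⁻¹ * (x * E c k 1) < E c k 1 := by
    rw [inv_mul_lt_iff₀ (by linarith)]
    nlinarith
  rw [Real.norm_eq_abs] at h2
  have h4 := (abs_le.mp h2).1
  linarith

/-- **Positivity of the derivative at the centre.** -/
theorem deriv_pos (hf : f.IsNewform) (hw : Parity.rootNumber f = -1) (hN : N ≤ 82) {b : ℕ → ℝ}
    (hb : ∀ n, |b n| ≤ n) (hbf : ∀ n, qCoeff f n = (b n : ℂ)) :
    ∃ x : ℝ, 0 < x ∧ HasDerivAt (LF f) x 1 := by
  have hc := sqrt_pos' (N := N)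
  obtain ⟨C, hC⟩ := exists_bound f
  have h := (isWeight_log hc).hasSum (H22.cusp_qCoeff_zero f) hC
    (φ := phi f) (fun t ht => hasSum_phi f (hc.trans ht))
  have e : (fun n => qCoeff f n * (E (√N)⁻¹ (fun t => Real.log (t / (√N)⁻¹)) n : ℂ)) = fun n =>
      ((b n * E (√N)⁻¹ (fun t => Real.log (t / (√N)⁻¹)) n : ℝ) : ℂ) := by
    funext n
    rw [hbf]
    push_cast
    ring
  rw [e] at h
  have hre := Complex.hasSum_re h
  have him := Complex.hasSum_im h
  simp only [Complex.ofReal_re] at hre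
  simp only [Complex.ofReal_im] at him
  have him0 := him.unique hasSum_zero
  have h0 : b 0 = 0 := by simpa using hb 0
  have h1 : b 1 = 1 := by
    have h2 := hbf 1
    rw [hf.1.qCoeff_one] at h2
    exact_mod_cast h2.symm
  have hpos := sum_pos (isWeight_log hc) (exp_lt_half hN) h0 h1 hb hre
  refine ⟨4 * π * (∫ t in Ioi (√(N : ℝ))⁻¹, (Real.log (t / (√N)⁻¹) : ℂ) * phi f t).re,
    by positivity, ?_⟩
  have h3 := hasDerivAt_LF hf hw
  have h4 : ((4 * π * (∫ t in Ioi (√(N : ℝ))⁻¹, (Real.log (t / (√N)⁻¹) : ℂ) * phi f t).re : ℝ) : ℂ) =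
      4 * π * ∫ t in Ioi (√N)⁻¹, (Real.log (t / (√N)⁻¹) : ℂ) * phi f t := by
    rw [← Complex.re_add_im (∫ t in Ioi (√(N : ℝ))⁻¹, (Real.log (t / (√N)⁻¹) : ℂ) * phi f t), him0]
    push_cast
    simp
  rw [h4]
  exact h3

end form

/-! ### Semistable elliptic curves -/

open Fermat.Agent.Cor.LWeil Fermat.Agent.Cor.AffCount

variable {W : WeierstrassCurve ℤ} {L Λ : ℂ → ℂ}

/-- `L'(W, 1) = 2 ∑ (a_n / n) E₁(2πn / √N)` for a semistable elliptic curve with root number `-1` -/
theorem curve_deriv_series (h : IsHasseWeil W L Λ) (hΔ : W.Δ ≠ 0) (hW : W.IsSemistableModel)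
    (hw : LWeil.rootNumber W = -1) :
    HasSum (fun n : ℕ => 2 * ((aN W n : ℂ) / n * expInt (2 * π * n / √W.conductorLevel)))
      (deriv L 1) := by
  obtain ⟨f, hf, hfW⟩ := exists_newform hΔ hW
  rw [RankOne.eq_LF h hΔ hf hfW]
  have h1 := deriv_series hf (by rw [RankOne.rootNumber_form hf hfW, hw]; norm_num)
  simp only [qCoeff_eq_aN hf.1 (fun q hq => W.prime_dvd_conductorLevel_iff hΔ hq) hfW] at h1
  exact h1

/-- **`L'(W, 1) > 0`** for a semistable elliptic curve of conductor at most `82` with root number `-1` -/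
theorem curve_deriv_pos (h : IsHasseWeil W L Λ) (hΔ : W.Δ ≠ 0) (hW : W.IsSemistableModel)
    (hN : W.conductorLevel ≤ 82) (hw : LWeil.rootNumber W = -1) :
    ∃ x : ℝ, 0 < x ∧ HasDerivAt L x 1 := by
  obtain ⟨f, hf, hfW⟩ := exists_newform hΔ hW
  rw [RankOne.eq_LF h hΔ hf hfW]
  have hq : ∀ n, qCoeff f n = ((aN W n : ℝ) : ℂ) := fun n => by
    rw [qCoeff_eq_aN hf.1 (fun q hq => W.prime_dvd_conductorLevel_iff hΔ hq) hfW]
    push_cast
    rfl
  refine deriv_pos hf (by rw [RankOne.rootNumber_form hf hfW, hw]; norm_num) hN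
    (b := fun n => (aN W n : ℝ)) (fun n => ?_) hq
  rcases eq_or_ne n 0 with rfl | hn
  · simp [aN]
  · have h1 := SmallRank.norm_le hΔ hf (fun q hq hqN => by
      rw [hfW q hq, ap_eq_of_good hq fun h' => hqN ((W.prime_dvd_conductorLevel_iff hΔ hq).mpr h')])
      n hn
    rwa [hq, Complex.norm_real, Real.norm_eq_abs] at h1

/-- `L'(E, 1) > 0` for the curve `37a` -/
theorem deriv_pos_37 : ∃ L Λ : ℂ → ℂ, IsHasseWeil RankExamples.W37 L Λ ∧ L 1 = 0 ∧
    ∃ x : ℝ, 0 < x ∧ HasDerivAt L x 1 := by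
  obtain ⟨h1, h2, h3, h4, L, Λ, h5, -⟩ := RankExamples.hasRankOne_37
  exact ⟨L, Λ, h5, h5.one_eq_zero h4, curve_deriv_pos h5 h1 h2 (by rw [h3]; norm_num) h4⟩

end Fermat.Agent.Cor.DerivSeries
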