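import Fermat.Agent.Cor.ZetaZeros
import Mathlib.NumberTheory.LSeries.DirichletContinuation
import Mathlib.Analysis.MellinInversion

/-!
# Dirichlet L-functions have infinitely many zeros in the critical strip

For every primitive Dirichlet character `χ` modulo `N ≠ 1` the L-function `L(χ, s)` has infinitely many zeros with
`0 < Re s < 1`.

Proof: the completed L-function `F` is entire, `|F(s)| ≤ exp(A (1 + |s|) ^ (3 / 2))` and `F(iy) → 0` for `y → ±∞` (lemma of
Riemann and Lebesgue for the Mellin transforms of the theta kernels); now use `Cor/EntireOrder`.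

This file is not used by any of the statement files.
-/

set_option autoImplicit false

noncomputable section

namespace Fermat.Agent.Cor.DirichletZeros

open Complex Filter MeasureTheory Set
open scoped Real Topology FourierTransform

/-- bounded in `-3 ≤ Re s ≤ 4`, and with limit zero in both directions of the line `Re s = 0` -/
structure Nice (F : ℂ → ℂ) : Prop where
  bound : ∃ B : ℝ, ∀ s : ℂ, -3 ≤ s.re → s.re ≤ 4 → ‖F s‖ ≤ B
  lim : ∀ ε : ℝ, (ε = 1 ∨ ε = -1) → Tendsto (fun y : ℝ => ‖F ((ε * y : ℝ) * I)‖) atTop (𝓝 0)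

theorem Nice.add {F G : ℂ → ℂ} (hF : Nice F) (hG : Nice G) : Nice fun s => F s + G s where
  bound := by
    obtain ⟨B, hB⟩ := hF.bound
    obtain ⟨C, hC⟩ := hG.bound
    exact ⟨B + C, fun s h1 h2 => (norm_add_le _ _).trans (add_le_add (hB s h1 h2) (hC s h1 h2))⟩
  lim ε hε := by
    have h := (hF.lim ε hε).add (hG.lim ε hε)
    rw [add_zero] at h
    exact squeeze_zero (fun y => norm_nonneg _) (fun y => norm_add_le _ _) h

theorem nice_zero : Nice fun _ => 0 where
  bound := ⟨0, fun s _ _ => by simp⟩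
  lim ε _ := by simp

theorem Nice.sum {ι : Type*} {F : ι → ℂ → ℂ} (S : Finset ι) (h : ∀ i, Nice (F i)) :
    Nice fun s => ∑ i ∈ S, F i s := by
  classical
  induction S using Finset.induction_on with
  | empty => simpa using nice_zero
  | insert i S hi ih =>
    simp only [Finset.sum_insert hi]
    exact (h i).add ih

theorem Nice.mul_of_bound {F G : ℂ → ℂ} (hF : Nice F) {C : ℝ}
    (hG : ∀ s : ℂ, -3 ≤ s.re → s.re ≤ 4 → ‖G s‖ ≤ C) : Nice fun s => G s * F s where
  bound := by
    obtain ⟨B, hB⟩ := hF.bound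
    refine ⟨C * B, fun s h1 h2 => ?_⟩
    rw [norm_mul]
    exact mul_le_mul (hG s h1 h2) (hB s h1 h2) (norm_nonneg _) ((norm_nonneg _).trans (hG s h1 h2))
  lim ε hε := by
    have h := (hF.lim ε hε).const_mul C
    rw [mul_zero] at h
    refine squeeze_zero (fun y => norm_nonneg _) (fun y => ?_) h
    rw [norm_mul]
    refine mul_le_mul_of_nonneg_right (hG _ ?_ ?_) (norm_nonneg _) <;> simp

theorem Nice.const_mul {F : ℂ → ℂ} (hF : Nice F) (c : ℂ) : Nice fun s => c * F s :=
  hF.mul_of_bound (G := fun _ => c) (C := ‖c‖) fun _ _ _ => le_rfl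

theorem tendsto_mellin (f : ℝ → ℂ) (c : ℝ) {ε : ℝ} (hε : ε = 1 ∨ ε = -1) :
    Tendsto (fun y : ℝ => ‖mellin f (c + (ε * y : ℝ) * I)‖) atTop (𝓝 0) := by
  have h1 := Real.zero_at_infty_fourier
    (fun u : ℝ => Real.exp (-c * u) • f (Real.exp (-u)))
  have h2 : Tendsto (fun y : ℝ => ε * y / (2 * π)) atTop (cocompact ℝ) := by
    rcases hε with rfl | rfl
    · refine Tendsto.mono_right ?_ atTop_le_cocompact
      simp only [one_mul]
      exact tendsto_id.atTop_div_const (by positivity)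
    · refine Tendsto.mono_right ?_ atBot_le_cocompact
      simp only [neg_mul, one_mul]
      exact (tendsto_neg_atTop_atBot).atBot_div_const (by positivity)
  have h3 := (h1.comp h2).norm
  rw [norm_zero] at h3
  refine h3.congr fun y => ?_
  have hre : ((c : ℂ) + ((ε * y : ℝ) : ℂ) * I).re = c := by simp
  have him : ((c : ℂ) + ((ε * y : ℝ) : ℂ) * I).im = ε * y := by simp
  rw [mellin_eq_fourier, hre, him]
  rfl

/-- Mellin transforms at `(s + δ) / 2`, `0 ≤ δ ≤ 1` -/
theorem nice_mellin {f : ℝ → ℂ} (hf : ∀ s : ℂ, MellinConvergent f s) {δ : ℝ} (h0 : 0 ≤ δ)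
    (h1 : δ ≤ 1) : Nice fun s => mellin f ((s + δ) / 2) where
  bound := by
    obtain ⟨B, hB⟩ := ZetaZeros.exists_bound_mellin (a := -2) (b := 3) (hf _) (hf _)
    refine ⟨B, fun s h2 h3 => ?_⟩
    have e : ((s + δ) / 2).re = (s.re + δ) / 2 := by simp
    refine hB _ ?_ ?_ <;> rw [e] <;> linarith
  lim ε hε := by
    have h := (tendsto_mellin f (δ / 2) hε).comp
      (tendsto_id.atTop_div_const (show (0 : ℝ) < 2 by norm_num))
    refine h.congr fun y => ?_
    simp only [Function.comp_apply, id]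
    congr 2
    push_cast
    ring

variable {N : ℕ} [NeZero N]

theorem nice_completed₀ (Φ : ZMod N → ℂ) : Nice (ZMod.completedLFunction₀ Φ) := by
  have hN : (1 : ℝ) ≤ N := by exact_mod_cast Nat.pos_of_ne_zero (NeZero.ne N)
  have hNb : ∀ s : ℂ, -3 ≤ s.re → s.re ≤ 4 → ‖(N : ℂ) ^ (-s)‖ ≤ (N : ℝ) ^ (3 : ℝ) := by
    intro s h1 _
    rw [Complex.norm_natCast_cpow_of_pos (Nat.pos_of_ne_zero (NeZero.ne N)), Complex.neg_re]
    exact Real.rpow_le_rpow_of_exponent_le hN (by linarith)
  have heven : ∀ a : UnitAddCircle, Nice (HurwitzZeta.completedHurwitzZetaEven₀ a) := by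
    intro a
    have h := (nice_mellin (f := (HurwitzZeta.hurwitzEvenFEPair a).f_modif) (fun s =>
      ((HurwitzZeta.hurwitzEvenFEPair a).isStrongFEPair_toStrongFEPair.hasMellin s).1)
      (δ := 0) le_rfl zero_le_one).const_mul (1 / 2)
    have e : HurwitzZeta.completedHurwitzZetaEven₀ a = fun s : ℂ => (1 / 2 : ℂ) *
        mellin (HurwitzZeta.hurwitzEvenFEPair a).f_modif ((s + (0 : ℝ)) / 2) := by
      funext s
      have : HurwitzZeta.completedHurwitzZetaEven₀ a s =
        mellin (HurwitzZeta.hurwitzEvenFEPair a).f_modif (s / 2) / 2 := rfl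
      rw [this, Complex.ofReal_zero, add_zero]
      ring
    rw [e]
    exact h
  have hodd : ∀ a : UnitAddCircle, Nice (HurwitzZeta.completedHurwitzZetaOdd a) := by
    intro a
    have h := (nice_mellin (f := (HurwitzZeta.hurwitzOddFEPair a).f) (fun s =>
      ((HurwitzZeta.isStrong_hurwitzOddFEPair a).hasMellin s).1)
      (δ := 1) zero_le_one le_rfl).const_mul (1 / 2)
    have e : HurwitzZeta.completedHurwitzZetaOdd a = fun s : ℂ => (1 / 2 : ℂ) *
        mellin (HurwitzZeta.hurwitzOddFEPair a).f ((s + (1 : ℝ)) / 2) := by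
      funext s
      rw [HurwitzZeta.completedHurwitzZetaOdd, (HurwitzZeta.isStrong_hurwitzOddFEPair a).Λ_eq,
        Complex.ofReal_one]
      ring
    rw [e]
    exact h
  have h1 : Nice fun s => (N : ℂ) ^ (-s) * ∑ j : ZMod N, Φ j *
      HurwitzZeta.completedHurwitzZetaEven₀ (ZMod.toAddCircle j) s :=
    (Nice.sum Finset.univ fun j => (heven (ZMod.toAddCircle j)).const_mul (Φ j)).mul_of_bound hNb
  have h2 : Nice fun s => (N : ℂ) ^ (-s) * ∑ j : ZMod N, Φ j *
      HurwitzZeta.completedHurwitzZetaOdd (ZMod.toAddCircle j) s :=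
    (Nice.sum Finset.univ fun j => (hodd (ZMod.toAddCircle j)).const_mul (Φ j)).mul_of_bound hNb
  exact h1.add h2

variable {χ : DirichletCharacter ℂ N}

theorem nice_completed (hN : N ≠ 1) (hχ : χ ≠ 1) : Nice χ.completedLFunction := by
  have e : χ.completedLFunction = ZMod.completedLFunction₀ χ := by
    funext s
    have h0 : χ (0 : ZMod N) = 0 := χ.map_zero' hN
    rw [DirichletCharacter.completedLFunction, ZMod.completedLFunction_eq, h0,
      χ.sum_eq_zero_of_ne_one hχ]
    simp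
  rw [e]
  exact nice_completed₀ _

theorem exists_bound_LF (χ : DirichletCharacter ℂ N) :
    ∃ B : ℝ, ∀ s : ℂ, 4 ≤ s.re → ‖χ.LFunction s‖ ≤ B := by
  have h4 : LSeriesSummable (fun n => χ n) 4 :=
    χ.LSeriesSummable_of_one_lt_re (by norm_num)
  refine ⟨∑' n, ‖LSeries.term (fun n => χ n) 4 n‖, fun s hs => ?_⟩
  rw [DirichletCharacter.LFunction_eq_LSeries χ (by linarith)]
  refine tsum_of_norm_bounded h4.norm.hasSum fun n => ?_
  exact LSeries.norm_term_le_of_re_le_re _ (by simpa using hs) n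

theorem norm_Gammaℝ_le {s : ℂ} (hs : 4 ≤ s.re) :
    ‖Gammaℝ s‖ ≤ Real.exp (2 * (1 + s.re) ^ (3 / 2 : ℝ)) := by
  have hre : (s / 2).re = s.re / 2 := by simp
  rw [Gammaℝ_def, norm_mul, ZetaZeros.norm_pi_cpow]
  have e2 : π ^ (-s.re / 2) ≤ 1 :=
    Real.rpow_le_one_of_one_le_of_nonpos (by linarith [Real.pi_gt_three]) (by linarith)
  have e3 : ‖Complex.Gamma (s / 2)‖ ≤ Real.exp (2 * (1 + s.re) ^ (3 / 2 : ℝ)) := by
    refine (RankBound.norm_Gamma_le (by rw [hre]; linarith)).trans
      ((ZetaZeros.Gamma_le (by rw [hre]; linarith)).trans ?_)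
    refine Real.exp_le_exp.mpr (mul_le_mul_of_nonneg_left ?_ (by norm_num))
    exact Real.rpow_le_rpow (by rw [hre]; linarith) (by rw [hre]; linarith) (by norm_num)
  have h1 := mul_le_mul e2 e3 (norm_nonneg _) zero_le_one
  rwa [one_mul] at h1

omit [NeZero N] in
theorem norm_gammaFactor_le {s : ℂ} (hs : 4 ≤ s.re) :
    ‖χ.gammaFactor s‖ ≤ Real.exp (2 * (2 : ℝ) ^ (3 / 2 : ℝ) * (1 + ‖s‖) ^ (3 / 2 : ℝ)) := by
  have hle : s.re ≤ ‖s‖ := Complex.re_le_norm s
  have key : ∀ z : ℂ, 4 ≤ z.re → z.re ≤ s.re + 1 →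
      ‖Gammaℝ z‖ ≤ Real.exp (2 * (2 : ℝ) ^ (3 / 2 : ℝ) * (1 + ‖s‖) ^ (3 / 2 : ℝ)) := by
    intro z hz hz'
    refine (norm_Gammaℝ_le hz).trans (Real.exp_le_exp.mpr ?_)
    rw [mul_assoc]
    refine mul_le_mul_of_nonneg_left ?_ (by norm_num)
    rw [← Real.mul_rpow (by norm_num) (by positivity)]
    exact Real.rpow_le_rpow (by linarith) (by linarith [norm_nonneg s]) (by norm_num)
  rcases χ.even_or_odd with h | h
  · rw [h.gammaFactor_def]
    exact key s hs (by linarith)
  · rw [h.gammaFactor_def]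
    have e : (s + 1).re = s.re + 1 := by simp
    exact key (s + 1) (by rw [e]; linarith) (by rw [e])

omit [NeZero N] in
theorem gammaFactor_ne_zero {s : ℂ} (hs : 0 < s.re) : χ.gammaFactor s ≠ 0 := by
  rcases χ.even_or_odd with h | h
  · rw [h.gammaFactor_def]
    exact Gammaℝ_ne_zero_of_re_pos hs
  · rw [h.gammaFactor_def]
    exact Gammaℝ_ne_zero_of_re_pos (by
      have e : (s + 1).re = s.re + 1 := by simp
      rw [e]
      linarith)

theorem exists_bound_right (hN : N ≠ 1) (χ : DirichletCharacter ℂ N) :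
    ∃ A : ℝ, 0 ≤ A ∧ ∀ s : ℂ, 4 ≤ s.re →
      ‖χ.completedLFunction s‖ ≤ Real.exp (A * (1 + ‖s‖) ^ (3 / 2 : ℝ)) := by
  obtain ⟨B, hB⟩ := exists_bound_LF χ
  refine ⟨2 * (2 : ℝ) ^ (3 / 2 : ℝ) + |B|, by positivity, fun s hs => ?_⟩
  have hX := ZetaZeros.one_le_rpow' (norm_nonneg s)
  have h1 := DirichletCharacter.LFunction_eq_completed_div_gammaFactor χ s (Or.inr hN)
  have h2 : χ.completedLFunction s = χ.gammaFactor s * χ.LFunction s := by
    rw [h1, mul_div_cancel₀]
    exact gammaFactor_ne_zero (by linarith)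
  have e4 : ‖χ.LFunction s‖ ≤ Real.exp (|B| * (1 + ‖s‖) ^ (3 / 2 : ℝ)) := by
    refine (hB s hs).trans ((le_abs_self B).trans ?_)
    have h1 := Real.add_one_le_exp (|B| * (1 + ‖s‖) ^ (3 / 2 : ℝ))
    have h3 := abs_nonneg B
    nlinarith
  rw [h2, norm_mul]
  refine (mul_le_mul (norm_gammaFactor_le hs) e4 (norm_nonneg _) (by positivity)).trans
    (le_of_eq ?_)
  rw [← Real.exp_add]
  congr 1
  ring

theorem exists_growth (hN : N ≠ 1) (hχ1 : χ ≠ 1) (hχ : χ.IsPrimitive) :
    ∃ A : ℝ, ∀ s : ℂ, ‖χ.completedLFunction s‖ ≤ Real.exp (A * (1 + ‖s‖) ^ (3 / 2 : ℝ)) := by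
  obtain ⟨A1, hA1, h1⟩ := exists_bound_right hN χ
  obtain ⟨A2, hA2, h2⟩ := exists_bound_right hN χ⁻¹
  obtain ⟨B, hB⟩ := (nice_completed hN hχ1).bound
  have hN1 : (1 : ℝ) ≤ N := by exact_mod_cast Nat.pos_of_ne_zero (NeZero.ne N)
  have hlog : 0 ≤ Real.log N := Real.log_nonneg hN1
  set w := ‖χ.rootNumber‖ with hw
  have hw0 : 0 ≤ w := norm_nonneg _
  refine ⟨A1 + |B| + (A2 * 3 ^ (3 / 2 : ℝ) + Real.log N + w), fun s => ?_⟩
  have hX := ZetaZeros.one_le_rpow' (norm_nonneg s)
  have hX2 : 1 + ‖s‖ ≤ (1 + ‖s‖) ^ (3 / 2 : ℝ) := by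
    have h4 : (1 + ‖s‖) ^ (1 : ℝ) ≤ (1 + ‖s‖) ^ (3 / 2 : ℝ) :=
      Real.rpow_le_rpow_of_exponent_le (by linarith [norm_nonneg s]) (by norm_num)
    rwa [Real.rpow_one] at h4
  set X := (1 + ‖s‖) ^ (3 / 2 : ℝ) with hXdef
  have hB0 := abs_nonneg B
  have h4 : 0 ≤ A2 * 3 ^ (3 / 2 : ℝ) := by positivity
  rcases le_or_gt 4 s.re with hs | hs
  · refine (h1 s hs).trans (Real.exp_le_exp.mpr ?_)
    exact mul_le_mul_of_nonneg_right (by linarith) (by linarith)
  rcases le_or_gt (-3) s.re with hs' | hs'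
  · refine (hB s hs' hs.le).trans ((le_abs_self B).trans ?_)
    have h5 := Real.add_one_le_exp ((A1 + |B| + (A2 * 3 ^ (3 / 2 : ℝ) + Real.log N + w)) * X)
    have h6 : |B| * 1 ≤ (A1 + |B| + (A2 * 3 ^ (3 / 2 : ℝ) + Real.log N + w)) * X :=
      mul_le_mul (by linarith) hX (by norm_num) (by positivity)
    linarith
  · have h5 := DirichletCharacter.IsPrimitive.completedLFunction_one_sub hχ (1 - s)
    rw [sub_sub_cancel] at h5
    rw [h5, norm_mul, norm_mul, ← hw,
      Complex.norm_natCast_cpow_of_pos (Nat.pos_of_ne_zero (NeZero.ne N))]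
    have hre : (1 - s - 1 / 2).re = 1 / 2 - s.re := by
      simp
      ring
    have hre' : (1 - s).re = 1 - s.re := by simp
    have e1 : (N : ℝ) ^ ((1 - s - 1 / 2).re) ≤ Real.exp (Real.log N * X) := by
      rw [Real.rpow_def_of_pos (by linarith), hre]
      refine Real.exp_le_exp.mpr (mul_le_mul_of_nonneg_left ?_ hlog)
      have := Complex.abs_re_le_norm s
      have := neg_abs_le s.re
      linarith
    have e2 : w ≤ Real.exp (w * X) := by
      have := Real.add_one_le_exp (w * X)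
      nlinarith
    have e3 : ‖χ⁻¹.completedLFunction (1 - s)‖ ≤ Real.exp (A2 * 3 ^ (3 / 2 : ℝ) * X) := by
      refine (h2 (1 - s) (by rw [hre']; linarith)).trans (Real.exp_le_exp.mpr ?_)
      have h6 : ‖1 - s‖ ≤ 1 + ‖s‖ := by
        refine (norm_sub_le _ _).trans ?_
        rw [norm_one]
      rw [mul_assoc, hXdef, ← Real.mul_rpow (by norm_num) (by positivity)]
      refine mul_le_mul_of_nonneg_left ?_ hA2
      refine Real.rpow_le_rpow (by positivity) ?_ (by norm_num)
      have := norm_nonneg s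
      linarith
    have h6 := mul_le_mul (mul_le_mul e1 e2 hw0 (by positivity)) e3 (norm_nonneg _) (by positivity)
    refine h6.trans ?_
    rw [← Real.exp_add, ← Real.exp_add]
    refine Real.exp_le_exp.mpr ?_
    have h7 : 0 ≤ (A1 + |B|) * X := by positivity
    linarith

theorem infinite_zeros_completed (hN : N ≠ 1) (hχ1 : χ ≠ 1) (hχ : χ.IsPrimitive) :
    {s | χ.completedLFunction s = 0}.Infinite := by
  intro hfin
  obtain ⟨A, hA⟩ := exists_growth hN hχ1 hχ
  have hne : ∃ z, χ.completedLFunction z ≠ 0 := by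
    refine ⟨2, fun h => ?_⟩
    have h1 := DirichletCharacter.LFunction_eq_completed_div_gammaFactor χ 2 (Or.inr hN)
    rw [h, zero_div] at h1
    exact DirichletCharacter.LFunction_ne_zero_of_one_le_re χ (Or.inl hχ1) (by norm_num) h1
  obtain ⟨P, a, b, hP, hF⟩ := EntireOrder.exists_eq_poly_mul_exp
    (DirichletCharacter.differentiable_completedLFunction hχ1) hne hfin hA
  obtain ⟨R, hR⟩ := EntireOrder.exists_one_le hP
  obtain ⟨ε, hε, hεb⟩ : ∃ ε : ℝ, (ε = 1 ∨ ε = -1) ∧ 0 ≤ -(ε * b.im) := by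
    rcases le_total b.im 0 with h | h
    · exact ⟨1, Or.inl rfl, by linarith⟩
    · exact ⟨-1, Or.inr rfl, by linarith⟩
  have h1 := (nice_completed hN hχ1).lim ε hε
  have h2 : ∀ᶠ y : ℝ in atTop, Real.exp a.re ≤ ‖χ.completedLFunction ((ε * y : ℝ) * I)‖ := by
    filter_upwards [eventually_ge_atTop (|R| + 1), eventually_ge_atTop 0] with y hy hy0
    have hnorm : R ≤ ‖((ε * y : ℝ) : ℂ) * I‖ := by
      have h5 : |ε * y| = y := by
        rcases hε with rfl | rfl <;> simp [abs_of_nonneg hy0]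
      rw [norm_mul, Complex.norm_I, mul_one, Complex.norm_real, Real.norm_eq_abs, h5]
      have := le_abs_self R
      linarith
    rw [hF, norm_mul, Complex.norm_exp]
    have h6 : (a + b * (((ε * y : ℝ) : ℂ) * I)).re = a.re - ε * y * b.im := by
      simp
      ring
    rw [h6]
    have h7 : Real.exp a.re ≤ Real.exp (a.re - ε * y * b.im) := by
      refine Real.exp_le_exp.mpr ?_
      nlinarith
    exact h7.trans (le_mul_of_one_le_left (Real.exp_pos _).le (hR _ hnorm))
  exact absurd (ge_of_tendsto h1 h2) (not_le.mpr (Real.exp_pos _))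

/-- **The L-function of a primitive Dirichlet character modulo `N ≠ 1` has infinitely many zeros in the critical
strip.** -/
theorem infinite_zeros (hN : N ≠ 1) (hχ : χ.IsPrimitive) :
    {s : ℂ | χ.LFunction s = 0 ∧ 0 < s.re ∧ s.re < 1}.Infinite := by
  have hχ1 : χ ≠ 1 := by
    rintro rfl
    rw [DirichletCharacter.isPrimitive_def, DirichletCharacter.conductor_one] at hχ
    exact hN hχ.symm
  refine (infinite_zeros_completed hN hχ1 hχ).mono fun s (hs : χ.completedLFunction s = 0) => ?_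
  have h3 : χ.LFunction s = 0 := by
    rw [DirichletCharacter.LFunction_eq_completed_div_gammaFactor χ s (Or.inr hN), hs, zero_div]
  refine ⟨h3, ?_, ?_⟩
  · by_contra h
    push Not at h
    have h5 := DirichletCharacter.IsPrimitive.completedLFunction_one_sub hχ (1 - s)
    rw [sub_sub_cancel, hs] at h5
    have hNc : (N : ℂ) ^ (1 - s - 1 / 2) ≠ 0 := by
      rw [Ne, Complex.cpow_eq_zero_iff]
      push Not
      intro h'
      exact absurd h' (by exact_mod_cast NeZero.ne N)
    have hχi : χ⁻¹ ≠ 1 := inv_ne_one.mpr hχ1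
    have hre' : 1 ≤ (1 - s).re := by
      rw [Complex.sub_re, Complex.one_re]
      linarith
    have h6 := DirichletCharacter.LFunction_ne_zero_of_one_le_re χ⁻¹ (Or.inl hχi) hre'
    rw [DirichletCharacter.LFunction_eq_completed_div_gammaFactor χ⁻¹ (1 - s) (Or.inr hN)] at h6
    have h7 : χ⁻¹.completedLFunction (1 - s) ≠ 0 := fun h => h6 (by rw [h, zero_div])
    have h8 : χ.rootNumber = 0 := by
      rcases mul_eq_zero.mp h5.symm with h | h
      · rcases mul_eq_zero.mp h with h | h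
        · exact absurd h hNc
        · exact h
      · exact absurd h h7
    -- the root number does not vanish: otherwise the completed L-function would vanish identically
    have h9 := DirichletCharacter.IsPrimitive.completedLFunction_one_sub hχ (-1)
    rw [h8, mul_zero, zero_mul] at h9
    have h10 := DirichletCharacter.LFunction_eq_completed_div_gammaFactor χ (1 - (-1)) (Or.inr hN)
    rw [h9, zero_div] at h10
    exact DirichletCharacter.LFunction_ne_zero_of_one_le_re χ (Or.inl hχ1) (by norm_num) h10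
  · by_contra h
    push Not at h
    exact DirichletCharacter.LFunction_ne_zero_of_one_le_re χ (Or.inl hχ1) h h3

end Fermat.Agent.Cor.DirichletZeros
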