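import Mathlib
import Fermat.Agent.Cor.AdelicMazur
import Fermat.Agent.Cor.InverseGalois

/-!
# Division fields of semistable elliptic curves

Let `W` be a semistable elliptic curve over `ℚ` and `N` an integer coprime to `6` such that `W[p]` is irreducible for
all primes `p ∣ N`.

* `cocycle_trivial`: `H¹(Gal(ℚ(W[N])/ℚ), W[N]) = 0`;
* `divisible_descends`: if `P ∈ W(ℚ)` is divisible by `N` in `W(ℚ(W[N]))`, then `P` is divisible by `N` in `W(ℚ)`.

This file is not used by any of the statement files.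
-/

set_option autoImplicit false
set_option linter.style.haveILetI false

noncomputable section

namespace Fermat.Agent.Cor.DivisionFields

open WeierstrassCurve WeierstrassCurve.Affine WeierstrassCurve.Affine.Point
open Fermat.Agent.Ell Fermat.Agent.Cor.Surj Fermat.Agent.Cor.InverseGalois

local notation "Qb" => AlgebraicClosure ℚ
local notation "Γq" => AlgebraicClosure ℚ ≃ₐ[ℚ] AlgebraicClosure ℚ

/-- multiplication by `2` is invertible on `W[N]`, `N` odd -/
theorem exists_half {A : Type*} [AddCommGroup A] {N : ℕ} (hN : Odd N) :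
    ∃ h : ℤ, ∀ x : A, N • x = 0 → (2 : ℤ) • (h • x) = x := by
  obtain ⟨k, hk⟩ := hN
  refine ⟨-k, fun x hx => ?_⟩
  have h1 : ((2 * k + 1 : ℕ) : ℤ) • x = 0 := by rw [natCast_zsmul, ← hk, hx]
  have h2 : (2 : ℤ) * -(k : ℤ) = 1 - ((2 * k + 1 : ℕ) : ℤ) := by push_cast; ring
  rw [← mul_smul, h2, sub_smul, one_smul, h1, sub_zero]

/-- **Vanishing of `H¹(Gal(ℚ(W[N])/ℚ), W[N])`**: every cocycle of `Gal(ℚ̄/ℚ)` with values in `W[N]` which vanishes on
the automorphisms acting trivially on `W[N]` is a coboundary. -/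
theorem cocycle_trivial (W : WeierstrassCurve ℤ) (hΔ : W.Δ ≠ 0) (hss : W.IsSemistableModel)
    {N : ℕ} (hN : N.Coprime 6) (hirr : ∀ p : ℕ, p.Prime → p ∣ N → W.ModRepIsIrreducible p)
    (c : (AlgebraicClosure ℚ ≃ₐ[ℚ] AlgebraicClosure ℚ) → TorsN W N)
    (hc : ∀ σ τ, c (σ * τ) = c σ + σ • c τ)
    (hc0 : ∀ σ, (∀ x : TorsN W N, σ • x = x) → c σ = 0) :
    ∃ x : TorsN W N, ∀ σ, c σ = σ • x - x := by
  have hodd : Odd N := by
    rw [← Nat.not_even_iff_odd]
    intro h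
    have h1 := Nat.dvd_gcd (even_iff_two_dvd.mp h) (show 2 ∣ 6 by norm_num)
    rw [hN] at h1
    norm_num at h1
  obtain ⟨h, hh⟩ := exists_half (A := TorsN W N) hodd
  have hNx : ∀ x : TorsN W N, N • x = 0 := fun x => by
    have := Submodule.smul_torsionBy (R := ℤ) _ x
    rwa [natCast_zsmul] at this
  obtain ⟨σ₀, hσ₀⟩ := galois_surjective_tors W hΔ hss hN hirr (AddEquiv.neg _)
  have hneg : ∀ x : TorsN W N, σ₀ • x = -x := hσ₀
  have hsm : ∀ (σ : Γq) (x : TorsN W N), σ • (-x) = -(σ • x) := fun σ x =>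
    map_neg (DistribSMul.toAddMonoidHom (TorsN W N) σ) x
  have hz : ∀ (σ : Γq) (k : ℤ) (x : TorsN W N), σ • (k • x) = k • (σ • x) := fun σ k x =>
    map_zsmul (DistribSMul.toAddMonoidHom (TorsN W N) σ) k x
  -- the value of the cocycle depends only on the action on `W[N]`
  have hcong : ∀ σ τ : Γq, (∀ x : TorsN W N, σ • x = τ • x) → c σ = c τ := by
    intro σ τ hστ
    have h1 : c (τ⁻¹ * σ) = 0 := hc0 _ fun x => by rw [mul_smul, hστ, inv_smul_smul]
    have h2 : σ = τ * (τ⁻¹ * σ) := by group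
    rw [h2, hc, h1, smul_zero (A := TorsN W N) τ, add_zero]
  refine ⟨-(h • c σ₀), fun σ => ?_⟩
  have h1 : c (σ * σ₀) = c (σ₀ * σ) := hcong _ _ fun x => by
    rw [mul_smul, mul_smul, hneg, hneg, hsm]
  rw [hc, hc, hneg] at h1
  -- `2 c(σ) = c(σ₀) - σ c(σ₀)`
  have h2 : (2 : ℤ) • c σ = c σ₀ - σ • c σ₀ := by
    rw [two_zsmul]
    have h3 : c σ + c σ = (c σ + σ • c σ₀) + c σ - σ • c σ₀ := by abel
    rw [h3, h1]
    abel
  have h3 : c σ = h • ((2 : ℤ) • c σ) := by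
    rw [smul_smul, mul_comm, ← smul_smul, hh (c σ) (hNx _)]
  rw [h3, h2, hsm, hz, smul_sub]
  abel

/-- **Divisibility descends from the division field**: if a rational point `P` is divisible by `N` in `W(ℚ(W[N]))`,
then it is divisible by `N` in `W(ℚ)`. -/
theorem divisible_descends (W : WeierstrassCurve ℤ) (hΔ : W.Δ ≠ 0) (hss : W.IsSemistableModel)
    {N : ℕ} (hN : N.Coprime 6) (hirr : ∀ p : ℕ, p.Prime → p ∣ N → W.ModRepIsIrreducible p)
    (P Q : ((W.map (Int.castRingHom ℚ))⁄(AlgebraicClosure ℚ)).Point)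
    (hP : ∀ σ : AlgebraicClosure ℚ ≃ₐ[ℚ] AlgebraicClosure ℚ, σ • P = P) (hQ : N • Q = P)
    (hQN : ∀ σ : AlgebraicClosure ℚ ≃ₐ[ℚ] AlgebraicClosure ℚ,
      (∀ x : ((W.map (Int.castRingHom ℚ))⁄(AlgebraicClosure ℚ)).Point, N • x = 0 → σ • x = x) →
        σ • Q = Q) :
    ∃ Q' : ((W.map (Int.castRingHom ℚ))⁄(AlgebraicClosure ℚ)).Point, N • Q' = P ∧
      ∀ σ : AlgebraicClosure ℚ ≃ₐ[ℚ] AlgebraicClosure ℚ, σ • Q' = Q' := by
  have hmem : ∀ σ : Γq, σ • Q - Q ∈ Submodule.torsionBy ℤ (Pts (WQ W)) (N : ℤ) := by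
    intro σ
    rw [Submodule.mem_torsionBy_iff, natCast_zsmul, nsmul_sub]
    have h1 : N • (σ • Q) = σ • (N • Q) :=
      (map_nsmul (DistribSMul.toAddMonoidHom (Pts (WQ W)) σ) N Q).symm
    rw [h1, hQ, hP, sub_self]
  obtain ⟨x, hx⟩ := cocycle_trivial W hΔ hss hN hirr (fun σ => ⟨σ • Q - Q, hmem σ⟩)
    (fun σ τ => by
      apply Subtype.ext
      change (σ * τ) • Q - Q = (σ • Q - Q) + σ • (τ • Q - Q)
      rw [mul_smul]
      have h1 : σ • (τ • Q - Q) = σ • (τ • Q) - σ • Q :=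
        map_sub (DistribSMul.toAddMonoidHom (Pts (WQ W)) σ) (τ • Q) Q
      rw [h1]
      abel)
    (fun σ h => by
      apply Subtype.ext
      change σ • Q - Q = 0
      rw [hQN σ (fun y hy => ?_), sub_self]
      have hy' : y ∈ Submodule.torsionBy ℤ (Pts (WQ W)) (N : ℤ) := by
        rw [Submodule.mem_torsionBy_iff, natCast_zsmul]
        exact hy
      exact congrArg Subtype.val (h ⟨y, hy'⟩))
  refine ⟨Q - x, ?_, fun σ => ?_⟩
  · have h1 : N • (x : Pts (WQ W)) = 0 := by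
      have := x.2
      rwa [Submodule.mem_torsionBy_iff, natCast_zsmul] at this
    rw [nsmul_sub, hQ]
    exact (congrArg (fun z => P - z) h1).trans (sub_zero P)
  · have h1 : σ • Q - Q = σ • (x : Pts (WQ W)) - x := congrArg Subtype.val (hx σ)
    have h2 : σ • (Q - (x : Pts (WQ W))) = σ • Q - σ • (x : Pts (WQ W)) :=
      map_sub (DistribSMul.toAddMonoidHom (Pts (WQ W)) σ) Q x
    refine h2.trans ?_
    rw [sub_eq_sub_iff_add_eq_add] at h1 ⊢
    rw [h1]
    abel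

end Fermat.Agent.Cor.DivisionFields
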