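import Mathlib
import Fermat.Agent.Cor.DivisionFields
import Fermat.Agent.Cor.AdelicFull

/-!
# The maximal abelian subextension of `ℚ(W[N])`

Let `W` be a semistable elliptic curve over `ℚ` and `N` an integer coprime to `6` such that `W[p]` is irreducible for
all primes `p ∣ N`.

* `exists_commutator`: every automorphism which fixes the `N`-th roots of unity acts on `W[N]` as an element of the
  commutator subgroup of `Gal(ℚ̄/ℚ)`;
* `mem_cyclotomic`: `ℚ(W[N]) ∩ ℚᵃᵇ ⊆ ℚ(ζ_N)`;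
* `root_of_unity_fixed`: `ℚ(ζ_N) ⊆ ℚ(W[N])`;
* `inter_abelian`: `ℚ(W[N]) ∩ ℚᵃᵇ = ℚ(ζ_N)` (here `ℚᵃᵇ` is the set of the algebraic numbers fixed by the commutator
  subgroup); `inter_abelian_uniform`: all semistable curves, prime factors of `N` at least `11` and different from
  `13`; `inter_abelian_full`: all semistable curves with full `2`-torsion, all `N` coprime to `6`.

This file is not used by any of the statement files.
-/

set_option autoImplicit false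
set_option linter.style.haveILetI false

noncomputable section

namespace Fermat.Agent.Cor.DivisionFields

open WeierstrassCurve WeierstrassCurve.Affine WeierstrassCurve.Affine.Point Matrix
open Fermat.Agent.Ell Fermat.Agent.Cor.Surj Fermat.Agent.Cor.InverseGalois
open Fermat.Agent.H12.LL Fermat.Agent.H11N
open Fermat.Agent.Cor.H11 (HasFullTwo irreducible_of_fullTwo)

local notation "Qb" => AlgebraicClosure ℚ
local notation "Γq" => AlgebraicClosure ℚ ≃ₐ[ℚ] AlgebraicClosure ℚ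

variable {W : WeierstrassCurve ℤ}

/-- the action on `W[pⁿ]` depends only on the matrix modulo `pⁿ` -/
theorem smul_eq_of_cong (hΔ : W.Δ ≠ 0) {p : ℕ} [hp : Fact p.Prime] {n : ℕ} {σ τ : Γq}
    (h : Cong n (matZ p hΔ σ) (matZ p hΔ τ)) (v : TT (WQ W) p) : σ • v.1 n = τ • v.1 n := by
  haveI := isElliptic_WQ hΔ
  obtain ⟨B, hB⟩ := h
  set m := mtx (tB (p := p) hΔ) with hm
  have h1 : rr (WQ W) p σ = rr (WQ W) p τ + (p : ℤ_[p]) ^ n • m.symm B := by
    apply m.injective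
    rw [map_add, map_smul, m.apply_symm_apply]
    exact hB
  have h2 : rr (WQ W) p σ v = rr (WQ W) p τ v + (p ^ n : ℕ) • (m.symm B v) := by
    rw [h1, LinearMap.add_apply, LinearMap.smul_apply, ← Nat.cast_smul_eq_nsmul ℤ_[p],
      Nat.cast_pow]
  let φ : TT (WQ W) p →+ Pts (WQ W) := AddMonoidHom.mk' (fun v => v.1 n) (fun _ _ => rfl)
  have h3 := congrArg φ h2
  rw [map_add, map_nsmul] at h3
  have h4 : (p ^ n : ℕ) • φ (m.symm B v) = 0 := TateMod.tors (m.symm B v) n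
  rw [h4, add_zero] at h3
  exact h3

/-- Two automorphisms which agree on the points of `W[q^k]`, `q^k` the `q`-part of `N`, agree on `W[N]`. -/
theorem agree_of_level (hΔ : W.Δ ≠ 0) {N : ℕ} (hN0 : N ≠ 0) {σ τ : Γq}
    (h : ∀ (q : ℕ) [Fact q.Prime], q ∣ N → ∀ v : TT (WQ W) q,
      σ • v.1 (N.factorization q) = τ • v.1 (N.factorization q))
    {x : Pts (WQ W)} (hx : N • x = 0) : σ • x = τ • x := by
  haveI := isElliptic_WQ hΔ
  set y : Pts (WQ W) := σ • x - τ • x with hy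
  suffices hy0 : y = 0 from sub_eq_zero.mp hy0
  have hsm : ∀ (ρ : Γq) (k : ℕ) (z : Pts (WQ W)), k • (ρ • z) = ρ • (k • z) := fun ρ k z =>
    (map_nsmul (DistribSMul.toAddMonoidHom (Pts (WQ W)) ρ) k z).symm
  have hs0 : ∀ ρ : Γq, ρ • (0 : Pts (WQ W)) = 0 := fun ρ => smul_zero (A := Pts (WQ W)) ρ
  have hNy : N • y = 0 := by
    rw [hy, nsmul_sub, hsm, hsm, hx, hs0, hs0, sub_zero]
  have hqy : ∀ q : ℕ, q.Prime → q ∣ N → (N / q ^ N.factorization q) • y = 0 := by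
    intro q hq hqN
    haveI : Fact q.Prime := ⟨hq⟩
    set k := N.factorization q with hk
    set c := N / q ^ k with hc
    have hcN : q ^ k * c = N := Nat.ordProj_mul_ordCompl_eq_self N q
    have hcx : q ^ k • (c • x) = 0 := by rw [← mul_smul, hcN, hx]
    obtain ⟨v, hv⟩ := TateMod.exists_lift (pts_div (WQ W) q) hcx
    have h2 : σ • v.1 k = τ • v.1 k := h q hqN v
    rw [hy, nsmul_sub, hsm, hsm, ← hv, h2, sub_self]
  rw [← AddMonoid.addOrderOf_eq_one_iff]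
  by_contra hne
  obtain ⟨q, hq, hqy'⟩ := Nat.exists_prime_and_dvd hne
  have h1 : q ∣ N := hqy'.trans (addOrderOf_dvd_of_nsmul_eq_zero hNy)
  exact Nat.not_dvd_ordCompl hq hN0 (hqy'.trans (addOrderOf_dvd_of_nsmul_eq_zero (hqy q hq h1)))

/-- Every automorphism fixing the `N`-th roots of unity acts on `W[N]` as an element of the commutator subgroup. -/
theorem exists_commutator (W : WeierstrassCurve ℤ) (hΔ : W.Δ ≠ 0) (hss : W.IsSemistableModel)
    {N : ℕ} (hN : N.Coprime 6) (hirr : ∀ p : ℕ, p.Prime → p ∣ N → W.ModRepIsIrreducible p)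
    (σ : AlgebraicClosure ℚ ≃ₐ[ℚ] AlgebraicClosure ℚ)
    (hσ : ∀ ζ : AlgebraicClosure ℚ, ζ ^ N = 1 → σ ζ = ζ) :
    ∃ τ ∈ commutator (AlgebraicClosure ℚ ≃ₐ[ℚ] AlgebraicClosure ℚ),
      ∀ x : ((W.map (Int.castRingHom ℚ))⁄(AlgebraicClosure ℚ)).Point, N • x = 0 → τ • x = σ • x := by
  classical
  haveI := isElliptic_WQ hΔ
  have hN0 : N ≠ 0 := by
    rintro rfl
    norm_num at hN
  have hpf : ∀ q ∈ N.primeFactors, q.Prime ∧ q ∣ N := fun q hq =>
    ⟨Nat.prime_of_mem_primeFactors hq, Nat.dvd_of_mem_primeFactors hq⟩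
  have hB : ∀ (q : ℕ) [Fact q.Prime], ∃ B : Matrix (Fin 2) (Fin 2) ℤ_[q], q ∣ N →
      B.det = 1 ∧ Cong (N.factorization q) B (matZ q hΔ σ) := by
    intro q hqf
    by_cases hqN : q ∣ N
    · have h1 := (zRep_detIsCyclotomic hΔ (hirr q hqf.out hqN)).2 (N.factorization q) σ 1
        (fun μ hμ => by
          rw [pow_one]
          apply hσ
          obtain ⟨c, hc⟩ := Nat.ordProj_dvd N q
          rw [hc, pow_mul, hμ, one_pow])
      rw [Ideal.mem_span_singleton] at h1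
      obtain ⟨c, hc⟩ := h1
      obtain ⟨B, hB1, hB2⟩ := exists_det_one (p := q) (n := N.factorization q)
        (A := matZ q hΔ σ) (c := c) (IsUnit.of_mul_eq_one _ (det_mul_det_inv (matZ q hΔ) σ)) (by
          rw [matZ_apply, det_mtx]
          have h2 : LinearMap.det (rr (WQ W) q σ) - ((1 : ℕ) : ℤ_[q]) =
            ((q ^ N.factorization q : ℕ) : ℤ_[q]) * c := hc
          push_cast at h2
          linear_combination h2)
      exact ⟨B, fun _ => ⟨hB1, hB2⟩⟩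
    · exact ⟨1, fun h => absurd h hqN⟩
  choose B hB using hB
  obtain ⟨τ, hτ, hτ'⟩ := exists_sl_fin (Γ := Γq) (fun q _ => matZ q hΔ) N.primeFactors
    (fun q hq => ⟨(hpf q hq).1, five_le_of_dvd hN (hpf q hq).1 (hpf q hq).2⟩)
    (fun q hqf hq => by
      have hq5 := five_le_of_dvd hN (hpf q hq).1 (hpf q hq).2
      have hi := hirr q (hpf q hq).1 (hpf q hq).2
      exact elem_of_gl (by omega) fun A hA n =>
        exists_gl (exists_mod hΔ hss hi (by omega)) hq5 (exists_det_adic hΔ hi) A hA n)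
    (∑ q ∈ N.primeFactors, N.factorization q) B (fun q _ hq => (hB q (hpf q hq).2).1)
  refine ⟨τ, hτ, fun x hx => agree_of_level hΔ hN0 (fun q hqf hqN v => ?_) hx⟩
  have hq : q ∈ N.primeFactors := Nat.mem_primeFactors.mpr ⟨hqf.out, hqN, hN0⟩
  exact smul_eq_of_cong hΔ (((hτ' q hq).of_le
    (Finset.single_le_sum (f := fun q => N.factorization q) (fun _ _ => Nat.zero_le _) hq)).trans
      (hB q hqN).2) v

/-- Every element of `ℚ(W[N])` which is fixed by the commutators lies in `ℚ(ζ_N)`. -/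
theorem mem_cyclotomic_of_commutator (W : WeierstrassCurve ℤ) (hΔ : W.Δ ≠ 0)
    (hss : W.IsSemistableModel) {N : ℕ} (hN : N.Coprime 6)
    (hirr : ∀ p : ℕ, p.Prime → p ∣ N → W.ModRepIsIrreducible p) {α : AlgebraicClosure ℚ}
    (hα : ∀ σ : AlgebraicClosure ℚ ≃ₐ[ℚ] AlgebraicClosure ℚ,
      (∀ x : ((W.map (Int.castRingHom ℚ))⁄(AlgebraicClosure ℚ)).Point, N • x = 0 → σ • x = x) →
        σ α = α)
    (hfix : ∀ τ ∈ commutator (AlgebraicClosure ℚ ≃ₐ[ℚ] AlgebraicClosure ℚ), τ α = α) :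
    α ∈ IntermediateField.adjoin ℚ {ζ : AlgebraicClosure ℚ | ζ ^ N = 1} := by
  rw [← InfiniteGalois.fixedField_fixingSubgroup
    (IntermediateField.adjoin ℚ {ζ : AlgebraicClosure ℚ | ζ ^ N = 1})]
  rw [IntermediateField.mem_fixedField_iff]
  intro σ hσ
  obtain ⟨τ, hτ, hτ'⟩ := exists_commutator W hΔ hss hN hirr σ (fun ζ hζ =>
    (IntermediateField.mem_fixingSubgroup_iff _ _).mp hσ ζ
      (IntermediateField.subset_adjoin ℚ _ hζ))
  have h1 : (τ⁻¹ * σ) α = α := hα _ fun x hx => by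
    rw [mul_smul, ← hτ' x hx, inv_smul_smul]
  have h2 : σ = τ * (τ⁻¹ * σ) := by group
  rw [h2, AlgEquiv.mul_apply, h1]
  exact hfix τ hτ

/-- the commutators fix the elements of the abelian extensions -/
theorem commutator_fix_of_abelian (L : IntermediateField ℚ Qb) [IsGalois ℚ L]
    (hcomm : ∀ s t : L ≃ₐ[ℚ] L, s * t = t * s) {α : Qb} (hL : α ∈ L) :
    ∀ τ ∈ commutator Γq, τ α = α := by
  intro τ hτ
  letI : CommGroup (L ≃ₐ[ℚ] L) := { (inferInstance : Group (L ≃ₐ[ℚ] L)) with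
    mul_comm := hcomm }
  have h1 : AlgEquiv.restrictNormalHom L τ = 1 :=
    MonoidHom.mem_ker.mp (Abelianization.commutator_subset_ker
      (AlgEquiv.restrictNormalHom (F := ℚ) (K₁ := Qb) L) hτ)
  have h2 := AlgEquiv.restrictNormal_commutes τ L ⟨α, hL⟩
  have h3 : τ.restrictNormal L = 1 := h1
  rw [h3] at h2
  exact h2.symm

/-- **`ℚ(W[N]) ∩ ℚᵃᵇ ⊆ ℚ(ζ_N)`**: `W` semistable, `N` coprime to `6`, `W[p]` irreducible for all primes `p ∣ N`.
Every element of `ℚ(W[N])` which lies in an abelian extension `L` of `ℚ` lies in `ℚ(ζ_N)`. -/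
theorem mem_cyclotomic (W : WeierstrassCurve ℤ) (hΔ : W.Δ ≠ 0) (hss : W.IsSemistableModel)
    {N : ℕ} (hN : N.Coprime 6) (hirr : ∀ p : ℕ, p.Prime → p ∣ N → W.ModRepIsIrreducible p)
    {α : AlgebraicClosure ℚ}
    (hα : ∀ σ : AlgebraicClosure ℚ ≃ₐ[ℚ] AlgebraicClosure ℚ,
      (∀ x : ((W.map (Int.castRingHom ℚ))⁄(AlgebraicClosure ℚ)).Point, N • x = 0 → σ • x = x) →
        σ α = α)
    (L : IntermediateField ℚ (AlgebraicClosure ℚ)) [IsGalois ℚ L]
    (hcomm : ∀ s t : L ≃ₐ[ℚ] L, s * t = t * s) (hL : α ∈ L) :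
    α ∈ IntermediateField.adjoin ℚ {ζ : AlgebraicClosure ℚ | ζ ^ N = 1} :=
  mem_cyclotomic_of_commutator W hΔ hss hN hirr hα (commutator_fix_of_abelian L hcomm hL)

/-- An automorphism which is trivial on `W[pⁿ]` fixes the roots of unity of order `pⁿ`. -/
theorem root_of_unity_fixed_pow (hΔ : W.Δ ≠ 0) {p : ℕ} [hp : Fact p.Prime]
    (hirr : W.ModRepIsIrreducible p) (n : ℕ) (σ : Γq)
    (hσ : ∀ x : Pts (WQ W), p ^ n • x = 0 → σ • x = x) (ζ : Qb) (hζ : ζ ^ p ^ n = 1) : σ ζ = ζ := by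
  haveI := isElliptic_WQ hΔ
  haveI : NeZero (p ^ n) := ⟨pow_ne_zero _ hp.out.ne_zero⟩
  -- a primitive root of unity
  obtain ⟨ξ, hξ⟩ := HasEnoughRootsOfUnity.exists_primitiveRoot Qb (p ^ n)
  have h0 : (σ ξ) ^ p ^ n = 1 := by rw [← map_pow, hξ.pow_eq_one, map_one]
  obtain ⟨a, -, ha⟩ := hξ.eq_pow_of_pow_eq_one h0
  have hall : ∀ μ : Qb, μ ^ p ^ n = 1 → σ μ = μ ^ a := by
    intro μ hμ
    obtain ⟨i, -, rfl⟩ := hξ.eq_pow_of_pow_eq_one hμ
    rw [map_pow, ← ha, ← pow_mul, ← pow_mul, mul_comm]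
  have h1 := (zRep_detIsCyclotomic hΔ hirr).2 n σ a hall
  rw [Ideal.mem_span_singleton, Nat.cast_pow] at h1
  -- the determinant is `1` modulo `p ^ n`
  have h2 : (p : ℤ_[p]) ^ n ∣ LinearMap.det (rr (WQ W) p σ) -
      LinearMap.det (1 : Module.End ℤ_[p] (TT (WQ W) p)) := by
    apply det_congr (tB (p := p) hΔ)
    intro v
    have h1 : (rr (WQ W) p σ v - v).1 n = 0 := by
      change σ • v.1 n - v.1 n = 0
      rw [hσ _ (TateMod.tors v n), sub_self]
    obtain ⟨g, hg⟩ := TateMod.exists_eq_pow_smul h1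
    exact ⟨g, hg.symm⟩
  rw [map_one] at h2
  have h3 : (p : ℤ_[p]) ^ n ∣ (a : ℤ_[p]) - 1 := by
    have h4 : (p : ℤ_[p]) ^ n ∣ LinearMap.det (rr (WQ W) p σ) - (a : ℤ_[p]) := h1
    have h5 := dvd_sub h2 h4
    rwa [sub_sub_sub_cancel_left] at h5
  rw [← Ideal.mem_span_singleton, ← PadicInt.ker_toZModPow, RingHom.mem_ker, map_sub, map_natCast,
    map_one, sub_eq_zero] at h3
  have h4 : a ≡ 1 [MOD p ^ n] := (ZMod.natCast_eq_natCast_iff _ _ _).mp (by
    rw [h3, Nat.cast_one])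
  rw [hall ζ hζ, pow_eq_pow_of_modEq h4 hζ, pow_one]

/-- **`ℚ(ζ_N) ⊆ ℚ(W[N])`**: an automorphism which is trivial on `W[N]` fixes the `N`-th roots of unity. -/
theorem root_of_unity_fixed (W : WeierstrassCurve ℤ) (hΔ : W.Δ ≠ 0) {N : ℕ} (hN0 : N ≠ 0)
    (hirr : ∀ p : ℕ, p.Prime → p ∣ N → W.ModRepIsIrreducible p)
    (σ : AlgebraicClosure ℚ ≃ₐ[ℚ] AlgebraicClosure ℚ)
    (hσ : ∀ x : ((W.map (Int.castRingHom ℚ))⁄(AlgebraicClosure ℚ)).Point, N • x = 0 → σ • x = x)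
    (ζ : AlgebraicClosure ℚ) (hζ : ζ ^ N = 1) : σ ζ = ζ := by
  have hζ0 : ζ ≠ 0 := by
    rintro rfl
    rw [zero_pow hN0] at hζ
    exact zero_ne_one hζ
  set η : Qb := σ ζ / ζ with hη
  suffices h : η = 1 from (div_eq_one_iff_eq hζ0).mp h
  have hηN : η ^ N = 1 := by rw [hη, div_pow, ← map_pow, hζ, map_one, div_one]
  have hq : ∀ q : ℕ, q.Prime → q ∣ N → η ^ (N / q ^ N.factorization q) = 1 := by
    intro q hq hqN
    haveI : Fact q.Prime := ⟨hq⟩
    have hcN : q ^ N.factorization q * (N / q ^ N.factorization q) = N :=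
      Nat.ordProj_mul_ordCompl_eq_self N q
    have h1 := root_of_unity_fixed_pow hΔ (hirr q hq hqN) (N.factorization q) σ
      (fun x hx => hσ x (by
        rw [← hcN, mul_comm, mul_smul]
        have h2 : (N / q ^ N.factorization q) • (q ^ N.factorization q • x) = 0 := by
          rw [hx]
          exact smul_zero (A := Pts (WQ W)) (N / q ^ N.factorization q)
        exact h2)) (ζ ^ (N / q ^ N.factorization q)) (by rw [← pow_mul, mul_comm, hcN, hζ])
    rw [hη, div_pow, ← map_pow, h1, div_self (pow_ne_zero _ hζ0)]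
  rw [← orderOf_eq_one_iff]
  by_contra hne
  obtain ⟨q, hq', hqη⟩ := Nat.exists_prime_and_dvd hne
  have h1 : q ∣ N := hqη.trans (orderOf_dvd_of_pow_eq_one hηN)
  exact Nat.not_dvd_ordCompl hq' hN0 (hqη.trans (orderOf_dvd_of_pow_eq_one (hq q hq' h1)))

theorem fix_adjoin {S : Set Qb} {σ : Γq} (h : ∀ s ∈ S, σ s = s) {x : Qb}
    (hx : x ∈ IntermediateField.adjoin ℚ S) : σ x = x := by
  induction hx using IntermediateField.adjoin_induction with
  | mem x hx => exact h x hx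
  | algebraMap x => exact σ.commutes x
  | add x y _ _ hx hy => rw [map_add, hx, hy]
  | inv x _ hx => rw [map_inv₀, hx]
  | mul x y _ _ hx hy => rw [map_mul, hx, hy]

/-- the commutators fix the roots of unity -/
theorem commutator_fix {N : ℕ} (hN0 : N ≠ 0) {τ : Γq} (hτ : τ ∈ commutator Γq) {ζ : Qb}
    (hζ : ζ ^ N = 1) : τ ζ = ζ := by
  haveI : NeZero N := ⟨hN0⟩
  obtain ⟨ξ, hξ⟩ := HasEnoughRootsOfUnity.exists_primitiveRoot Qb N
  have hcomm : ∀ (s t : Γq) (μ : Qb), μ ^ N = 1 → s (t μ) = t (s μ) := by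
    intro s t μ hμ
    obtain ⟨i, -, rfl⟩ := hξ.eq_pow_of_pow_eq_one hμ
    obtain ⟨a, -, ha⟩ := hξ.eq_pow_of_pow_eq_one (show (s ξ) ^ N = 1 by
      rw [← map_pow, hξ.pow_eq_one, map_one])
    obtain ⟨b, -, hb⟩ := hξ.eq_pow_of_pow_eq_one (show (t ξ) ^ N = 1 by
      rw [← map_pow, hξ.pow_eq_one, map_one])
    rw [map_pow, map_pow, map_pow, map_pow, ← ha, ← hb, map_pow, map_pow, ← ha, ← hb,
      ← pow_mul ξ a b, ← pow_mul ξ b a, mul_comm a b]
  let H : Subgroup Γq :=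
    { carrier := {g | ∀ μ : Qb, μ ^ N = 1 → g μ = μ}
      one_mem' := fun _ _ => rfl
      mul_mem' := fun {a b} ha hb μ hμ => by rw [AlgEquiv.mul_apply, hb μ hμ, ha μ hμ]
      inv_mem' := fun {a} ha μ hμ => by
        have h1 := ha μ hμ
        apply a.injective
        rw [h1]
        exact a.apply_symm_apply μ }
  have hle : commutator Γq ≤ H := by
    rw [commutator_def, Subgroup.commutator_le]
    intro s _ t _ μ hμ
    have h1 : (s⁻¹ (t⁻¹ μ)) ^ N = 1 := by rw [← map_pow, ← map_pow, hμ, map_one, map_one]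
    have h2 := hcomm s t _ h1
    change s (t (s⁻¹ (t⁻¹ μ))) = μ
    rw [h2]
    have h3 : s (s⁻¹ (t⁻¹ μ)) = t⁻¹ μ := s.apply_symm_apply _
    rw [h3]
    exact t.apply_symm_apply _
  exact hle hτ ζ hζ

/-- **`ℚ(W[N]) ∩ ℚᵃᵇ = ℚ(ζ_N)`**: `W` semistable, `N` coprime to `6`, `W[p]` irreducible for all primes `p ∣ N`. -/
theorem inter_abelian (W : WeierstrassCurve ℤ) (hΔ : W.Δ ≠ 0) (hss : W.IsSemistableModel)
    {N : ℕ} (hN : N.Coprime 6) (hirr : ∀ p : ℕ, p.Prime → p ∣ N → W.ModRepIsIrreducible p)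
    (α : AlgebraicClosure ℚ) :
    ((∀ σ : AlgebraicClosure ℚ ≃ₐ[ℚ] AlgebraicClosure ℚ,
      (∀ x : ((W.map (Int.castRingHom ℚ))⁄(AlgebraicClosure ℚ)).Point, N • x = 0 → σ • x = x) →
        σ α = α) ∧
      ∀ τ ∈ commutator (AlgebraicClosure ℚ ≃ₐ[ℚ] AlgebraicClosure ℚ), τ α = α) ↔
    α ∈ IntermediateField.adjoin ℚ {ζ : AlgebraicClosure ℚ | ζ ^ N = 1} := by
  have hN0 : N ≠ 0 := by
    rintro rfl
    norm_num at hN
  constructor
  · rintro ⟨hα, hα'⟩
    exact mem_cyclotomic_of_commutator W hΔ hss hN hirr hα hα'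
  · intro h
    exact ⟨fun σ hσ => fix_adjoin (fun ζ hζ => root_of_unity_fixed W hΔ hN0 hirr σ hσ ζ hζ) h,
      fun τ hτ => fix_adjoin (fun ζ hζ => commutator_fix hN0 hτ hζ) h⟩

/-- The uniform version: all semistable curves, `N` prime to `2 · 3 · 5 · 7 · 13`. -/
theorem inter_abelian_uniform (W : WeierstrassCurve ℤ) (hΔ : W.Δ ≠ 0) (hss : W.IsSemistableModel)
    {N : ℕ} (hN : ∀ p : ℕ, p.Prime → p ∣ N → 11 ≤ p ∧ p ≠ 13) (α : AlgebraicClosure ℚ) :
    ((∀ σ : AlgebraicClosure ℚ ≃ₐ[ℚ] AlgebraicClosure ℚ,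
      (∀ x : ((W.map (Int.castRingHom ℚ))⁄(AlgebraicClosure ℚ)).Point, N • x = 0 → σ • x = x) →
        σ α = α) ∧
      ∀ τ ∈ commutator (AlgebraicClosure ℚ ≃ₐ[ℚ] AlgebraicClosure ℚ), τ α = α) ↔
    α ∈ IntermediateField.adjoin ℚ {ζ : AlgebraicClosure ℚ | ζ ^ N = 1} :=
  inter_abelian W hΔ hss (coprime_six_of hN)
    (fun p hp hpN => Mazur.modRep_irreducible hΔ hss hp (hN p hp hpN).1 (hN p hp hpN).2) α

/-- The version for the curves with full `2`-torsion: all `N` coprime to `6`. -/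
theorem inter_abelian_full (W : WeierstrassCurve ℤ) (hΔ : W.Δ ≠ 0) (hss : W.IsSemistableModel)
    (h2 : HasFullTwo W) {N : ℕ} (hN : N.Coprime 6) (α : AlgebraicClosure ℚ) :
    ((∀ σ : AlgebraicClosure ℚ ≃ₐ[ℚ] AlgebraicClosure ℚ,
      (∀ x : ((W.map (Int.castRingHom ℚ))⁄(AlgebraicClosure ℚ)).Point, N • x = 0 → σ • x = x) →
        σ α = α) ∧
      ∀ τ ∈ commutator (AlgebraicClosure ℚ ≃ₐ[ℚ] AlgebraicClosure ℚ), τ α = α) ↔
    α ∈ IntermediateField.adjoin ℚ {ζ : AlgebraicClosure ℚ | ζ ^ N = 1} :=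
  inter_abelian W hΔ hss hN
    (fun _ hp hpN => irreducible_of_fullTwo hΔ hss h2 hp (five_le_of_dvd hN hp hpN)) α

end Fermat.Agent.Cor.DivisionFields
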