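import Mathlib
import Fermat.Agent.Cor.DivisionFieldsAb
import Fermat.Agent.Cor.Radicals

/-!
# Division points of rational points and radicals

Let `W` be a semistable elliptic curve over `ℚ`, `N` an integer coprime to `6` such that `W[p]` is irreducible for
all primes `p ∣ N`, and `Q ∈ W(ℚ̄)` a point with `N Q ∈ W(ℚ)`.

* `rational_of_fixed`: if `Q` is fixed by a derived subgroup of `Gal(ℚ̄/ℚ)`, then `Q ∈ W(ℚ)`;
* `rational_of_rad`: if the `x`-coordinate of `Q` is expressible by radicals over `ℚ`, then `Q ∈ W(ℚ)`;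
  `rational_of_rad_uniform`: all semistable curves, prime factors of `N` at least `11` and different from `13`;
  `rational_of_rad_full`: all semistable curves with full `2`-torsion, all `N` coprime to `6`;
* `rational_of_commutator`: if `Q ∈ W(ℚᵃᵇ)`, then `Q ∈ W(ℚ)`.

This file is not used by any of the statement files.
-/

set_option autoImplicit false
set_option linter.style.haveILetI false

noncomputable section

namespace Fermat.Agent.Cor.DivisionRad

open WeierstrassCurve WeierstrassCurve.Affine WeierstrassCurve.Affine.Point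
open Fermat.Agent.Ell Fermat.Agent.Cor.Surj
open Fermat.Agent.Cor.H11 (HasFullTwo irreducible_of_fullTwo)

local notation "Qb" => AlgebraicClosure ℚ
local notation "Γq" => AlgebraicClosure ℚ ≃ₐ[ℚ] AlgebraicClosure ℚ

/-- No nonzero point of `W[N]` is fixed by a derived subgroup. -/
theorem eq_zero_of_fixed (W : WeierstrassCurve ℤ) (hΔ : W.Δ ≠ 0) (hss : W.IsSemistableModel)
    {N : ℕ} (hN : N.Coprime 6) (hirr : ∀ p : ℕ, p.Prime → p ∣ N → W.ModRepIsIrreducible p)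
    (n : ℕ) (x : Pts (WQ W)) (hNx : N • x = 0) (hx : ∀ σ ∈ derivedSeries Γq n, σ • x = x) :
    x = 0 := by
  rw [← AddMonoid.addOrderOf_eq_one_iff]
  by_contra hne
  obtain ⟨q, hq, hqx⟩ := Nat.exists_prime_and_dvd hne
  have hqN : q ∣ N := hqx.trans (addOrderOf_dvd_of_nsmul_eq_zero hNx)
  have hN0 : N ≠ 0 := by
    rintro rfl
    norm_num at hN
  obtain ⟨k, hk⟩ := hqx
  have hord : 0 < addOrderOf x := Nat.pos_of_ne_zero fun h => hN0 (by
    have := addOrderOf_dvd_of_nsmul_eq_zero hNx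
    rw [h] at this
    exact Nat.eq_zero_of_zero_dvd this)
  have hy : q • (k • x) = 0 := by rw [← mul_smul, ← hk, addOrderOf_nsmul_eq_zero]
  have h1 : k • x = 0 := Radicals.eq_zero_of_fixed W hΔ hss hq (five_le_of_dvd hN hq hqN)
    (hirr q hq hqN) n _ hy fun σ hσ => by
      have h1 : σ • (k • x : Pts (WQ W)) = k • (σ • x : Pts (WQ W)) :=
        map_nsmul (DistribSMul.toAddMonoidHom (Pts (WQ W)) σ) k x
      exact h1.trans (congrArg (fun z : Pts (WQ W) => k • z) (hx σ hσ))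
  have h2 : addOrderOf x ∣ k := addOrderOf_dvd_of_nsmul_eq_zero h1
  have hk0 : 0 < k := by
    rcases Nat.eq_zero_or_pos k with rfl | h
    · rw [mul_zero] at hk
      omega
    · exact h
  have h3 := Nat.le_of_dvd hk0 h2
  rw [hk] at h3
  have := hq.two_le
  nlinarith

/-- If `N Q` is rational and `Q` is fixed by a derived subgroup, then `Q` is rational. -/
theorem rational_of_fixed (W : WeierstrassCurve ℤ) (hΔ : W.Δ ≠ 0) (hss : W.IsSemistableModel)
    {N : ℕ} (hN : N.Coprime 6) (hirr : ∀ p : ℕ, p.Prime → p ∣ N → W.ModRepIsIrreducible p)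
    (n : ℕ) (Q : ((W.map (Int.castRingHom ℚ))⁄(AlgebraicClosure ℚ)).Point)
    (hQ : ∀ σ : AlgebraicClosure ℚ ≃ₐ[ℚ] AlgebraicClosure ℚ, σ • (N • Q) = N • Q)
    (hfix : ∀ σ ∈ derivedSeries (AlgebraicClosure ℚ ≃ₐ[ℚ] AlgebraicClosure ℚ) n, σ • Q = Q)
    (σ : AlgebraicClosure ℚ ≃ₐ[ℚ] AlgebraicClosure ℚ) : σ • Q = Q := by
  change Pts (WQ W) at Q
  rw [← sub_eq_zero]
  refine eq_zero_of_fixed W hΔ hss hN hirr n _ ?_ fun τ hτ => ?_
  · have h1 : σ • (N • Q : Pts (WQ W)) = N • (σ • Q : Pts (WQ W)) :=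
      map_nsmul (DistribSMul.toAddMonoidHom (Pts (WQ W)) σ) N Q
    have h2 : N • (σ • Q : Pts (WQ W)) = N • Q := h1.symm.trans (hQ σ)
    rw [nsmul_sub, h2, sub_self]
  · have h1 : τ • (σ • Q - Q : Pts (WQ W)) = τ • (σ • Q : Pts (WQ W)) - τ • Q :=
      map_sub (DistribSMul.toAddMonoidHom (Pts (WQ W)) τ) _ _
    have h2 : σ⁻¹ * τ * σ ∈ derivedSeries Γq n := by
      have h3 := (inferInstance : (derivedSeries Γq n).Normal).conj_mem τ hτ σ⁻¹
      rwa [inv_inv] at h3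
    have h3 : τ • (σ • Q : Pts (WQ W)) = σ • Q := by
      have h4 : τ * σ = σ * (σ⁻¹ * τ * σ) := by group
      rw [← mul_smul, h4, mul_smul, hfix _ h2]
    rw [h1, h3, hfix τ hτ]

/-- the `y`-coordinate is expressible by radicals if the `x`-coordinate is -/
theorem y_rad_of_x (W : WeierstrassCurve ℤ) {x y : AlgebraicClosure ℚ}
    (h : ((W.map (Int.castRingHom ℚ))⁄(AlgebraicClosure ℚ)).Nonsingular x y)
    (hx : x ∈ solvableByRad ℚ (AlgebraicClosure ℚ)) : y ∈ solvableByRad ℚ (AlgebraicClosure ℚ) := by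
  set S := solvableByRad ℚ (AlgebraicClosure ℚ) with hS
  have hQ : ∀ r : ℚ, algebraMap ℚ Qb r ∈ S := fun r => algebraMap_mem S r
  have hZ : ∀ k : ℕ, (k : Qb) ∈ S := fun k => natCast_mem S k
  have h1 : ((W.map (Int.castRingHom ℚ))⁄Qb).a₁ ∈ S := hQ _
  have h2 : ((W.map (Int.castRingHom ℚ))⁄Qb).a₂ ∈ S := hQ _
  have h3 : ((W.map (Int.castRingHom ℚ))⁄Qb).a₃ ∈ S := hQ _
  have h4 : ((W.map (Int.castRingHom ℚ))⁄Qb).a₄ ∈ S := hQ _
  have h6 : ((W.map (Int.castRingHom ℚ))⁄Qb).a₆ ∈ S := hQ _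
  have heq := (Affine.equation_iff _ _).mp h.1
  set a₁ := ((W.map (Int.castRingHom ℚ))⁄Qb).a₁
  set a₂ := ((W.map (Int.castRingHom ℚ))⁄Qb).a₂
  set a₃ := ((W.map (Int.castRingHom ℚ))⁄Qb).a₃
  set a₄ := ((W.map (Int.castRingHom ℚ))⁄Qb).a₄
  set a₆ := ((W.map (Int.castRingHom ℚ))⁄Qb).a₆
  have h5 : (2 * y + (a₁ * x + a₃)) ^ 2 ∈ S := by
    have : (2 * y + (a₁ * x + a₃)) ^ 2 =
        ((4 : ℕ) : Qb) * (x ^ 3 + a₂ * x ^ 2 + a₄ * x + a₆) + (a₁ * x + a₃) ^ 2 := by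
      push_cast
      linear_combination 4 * heq
    rw [this]
    exact add_mem (mul_mem (hZ 4) (add_mem (add_mem (add_mem (pow_mem hx 3)
      (mul_mem h2 (pow_mem hx 2))) (mul_mem h4 hx)) h6)) (pow_mem (add_mem (mul_mem h1 hx) h3) 2)
  have h7 : 2 * y + (a₁ * x + a₃) ∈ S := solvableByRad.rad_mem two_ne_zero h5
  have h8 : y = (2 * y + (a₁ * x + a₃) - (a₁ * x + a₃)) * ((2 : ℕ) : Qb)⁻¹ := by
    push_cast
    field_simp
    ring
  rw [h8]
  exact mul_mem (sub_mem h7 (add_mem (mul_mem h1 hx) h3)) (inv_mem (hZ 2))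

/-- **Radicals**: if `N Q ∈ W(ℚ)` and the `x`-coordinate of `Q` is expressible by radicals over `ℚ`, then `Q ∈ W(ℚ)`. -/
theorem rational_of_rad (W : WeierstrassCurve ℤ) (hΔ : W.Δ ≠ 0) (hss : W.IsSemistableModel)
    {N : ℕ} (hN : N.Coprime 6) (hirr : ∀ p : ℕ, p.Prime → p ∣ N → W.ModRepIsIrreducible p)
    {x y : AlgebraicClosure ℚ}
    (h : ((W.map (Int.castRingHom ℚ))⁄(AlgebraicClosure ℚ)).Nonsingular x y)
    (hQ : ∀ σ : AlgebraicClosure ℚ ≃ₐ[ℚ] AlgebraicClosure ℚ,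
      σ • (N • Point.some x y h) = N • Point.some x y h)
    (hx : x ∈ solvableByRad ℚ (AlgebraicClosure ℚ))
    (σ : AlgebraicClosure ℚ ≃ₐ[ℚ] AlgebraicClosure ℚ) :
    σ • Point.some x y h = Point.some x y h := by
  obtain ⟨n, hn⟩ := Radicals.exists_fixed_of_rad hx
  obtain ⟨m, hm⟩ := Radicals.exists_fixed_of_rad (y_rad_of_x W h hx)
  refine rational_of_fixed W hΔ hss hN hirr (max n m) _ hQ (fun τ hτ => ?_) σ
  have h1 : τ x = x := hn τ (derivedSeries_antitone _ (le_max_left n m) hτ)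
  have h2 : τ y = y := hm τ (derivedSeries_antitone _ (le_max_right n m) hτ)
  rw [algEquiv_smul_def, Point.map_some]
  simp only [AlgEquiv.coe_toAlgHom, h1, h2]

/-- **The maximal abelian extension**: if `N Q ∈ W(ℚ)` and `Q ∈ W(ℚᵃᵇ)`, then `Q ∈ W(ℚ)`. -/
theorem rational_of_commutator (W : WeierstrassCurve ℤ) (hΔ : W.Δ ≠ 0)
    (hss : W.IsSemistableModel) {N : ℕ} (hN : N.Coprime 6)
    (hirr : ∀ p : ℕ, p.Prime → p ∣ N → W.ModRepIsIrreducible p)
    (Q : ((W.map (Int.castRingHom ℚ))⁄(AlgebraicClosure ℚ)).Point)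
    (hQ : ∀ σ : AlgebraicClosure ℚ ≃ₐ[ℚ] AlgebraicClosure ℚ, σ • (N • Q) = N • Q)
    (hfix : ∀ σ ∈ commutator (AlgebraicClosure ℚ ≃ₐ[ℚ] AlgebraicClosure ℚ), σ • Q = Q)
    (σ : AlgebraicClosure ℚ ≃ₐ[ℚ] AlgebraicClosure ℚ) : σ • Q = Q :=
  rational_of_fixed W hΔ hss hN hirr 1 Q hQ (by rwa [derivedSeries_one]) σ

/-- **Radicals**, uniform version: `W` any semistable elliptic curve over `ℚ`, prime factors of `N` at least `11` and
different from `13`: the `N`-division points of rational points are rational or not expressible by radicals. -/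
theorem rational_of_rad_uniform (W : WeierstrassCurve ℤ) (hΔ : W.Δ ≠ 0)
    (hss : W.IsSemistableModel) {N : ℕ} (hN : ∀ p : ℕ, p.Prime → p ∣ N → 11 ≤ p ∧ p ≠ 13)
    {x y : AlgebraicClosure ℚ}
    (h : ((W.map (Int.castRingHom ℚ))⁄(AlgebraicClosure ℚ)).Nonsingular x y)
    (hQ : ∀ σ : AlgebraicClosure ℚ ≃ₐ[ℚ] AlgebraicClosure ℚ,
      σ • (N • Point.some x y h) = N • Point.some x y h)
    (hx : x ∈ solvableByRad ℚ (AlgebraicClosure ℚ))
    (σ : AlgebraicClosure ℚ ≃ₐ[ℚ] AlgebraicClosure ℚ) :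
    σ • Point.some x y h = Point.some x y h :=
  rational_of_rad W hΔ hss (coprime_six_of hN)
    (fun p hp hpN => Mazur.modRep_irreducible hΔ hss hp (hN p hp hpN).1 (hN p hp hpN).2) h hQ hx σ

/-- **Radicals**, full `2`-torsion: all `N` coprime to `6`. -/
theorem rational_of_rad_full (W : WeierstrassCurve ℤ) (hΔ : W.Δ ≠ 0)
    (hss : W.IsSemistableModel) (h2 : HasFullTwo W) {N : ℕ} (hN : N.Coprime 6)
    {x y : AlgebraicClosure ℚ}
    (h : ((W.map (Int.castRingHom ℚ))⁄(AlgebraicClosure ℚ)).Nonsingular x y)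
    (hQ : ∀ σ : AlgebraicClosure ℚ ≃ₐ[ℚ] AlgebraicClosure ℚ,
      σ • (N • Point.some x y h) = N • Point.some x y h)
    (hx : x ∈ solvableByRad ℚ (AlgebraicClosure ℚ))
    (σ : AlgebraicClosure ℚ ≃ₐ[ℚ] AlgebraicClosure ℚ) :
    σ • Point.some x y h = Point.some x y h :=
  rational_of_rad W hΔ hss hN
    (fun _ hp hpN => irreducible_of_fullTwo hΔ hss h2 hp (five_le_of_dvd hN hp hpN)) h hQ hx σ

end Fermat.Agent.Cor.DivisionRad
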