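import Fermat.Agent.Cor.SmallConductor
import Fermat.Agent.AL.OldBasis
import Fermat.Agent.H14.Num4
import Fermat.Agent.Igusa.Degree3

/-!
# Effective comparison of eigenforms and of semistable elliptic curves

With `ψ(N) = N ∏_{q ∣ N} (1 + 1/q)`:

* `eigenform_eq`: two normalised eigenforms of level `N` with `a_p(f) = a_p(g)` for all primes
  `p ≤ ψ(N)/6` are equal;
* `newform_eq`: newforms `f`, `g` of levels `N`, `N'` with `a_p(f) = a_p(g)` for all primes
  `p ∤ M`, `p ≤ R ψ(M)/6` (`M = lcm(N, N')`, `R` the product of the primes dividing `M`) are equal and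
  `N = N'`;
* `ap_eq_of_le`: semistable elliptic curves `W`, `W'` over `ℚ` of conductors `N`, `N'` such that
  `#W(𝔽_p) = #W'(𝔽_p)` for all primes `p ∤ M`, `p ≤ M ψ(M)/6`, `M = lcm(N, N')`, have the same
  conductor and `#W(𝔽_p) = #W'(𝔽_p)` for **all** good primes.

This file is not used by any of the statement files.
-/

set_option autoImplicit false

noncomputable section

namespace Fermat.Agent.Cor.Effective

open CongruenceSubgroup ModularCurve
open ModularFormClass (qCoeff)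

/-! ### Coefficients of eigenforms from the prime coefficients -/

theorem coeff_eq_of_primes {N₁ N₂ : ℕ} {f : CuspForm (Gamma0 N₁) 2} {g : CuspForm (Gamma0 N₂) 2}
    (hf : f.IsNormalizedEigenform) (hg : g.IsNormalizedEigenform) {B : ℕ} (P : ℕ → Prop)
    (hP : ∀ p, p.Prime → P p → (p ∣ N₁ ↔ p ∣ N₂))
    (h : ∀ p, p.Prime → P p → p ≤ B → qCoeff f p = qCoeff g p) (n : ℕ) (hn : n ≤ B)
    (hnP : ∀ p, p.Prime → p ∣ n → P p) : qCoeff f n = qCoeff g n := by
  induction n using Nat.strong_induction_on with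
  | _ n ih =>
    rcases eq_or_ne n 0 with rfl | hn0
    · rw [H22.cusp_qCoeff_zero, H22.cusp_qCoeff_zero]
    rcases eq_or_ne n 1 with rfl | hn1
    · rw [hf.qCoeff_one, hg.qCoeff_one]
    obtain ⟨p, hp, hpn⟩ := Nat.exists_prime_and_dvd hn1
    obtain ⟨r, m, hpm, hnr⟩ := Nat.exists_eq_pow_mul_and_not_dvd hn0 p hp.ne_one
    have hr : r ≠ 0 := by
      rintro rfl
      rw [pow_zero, one_mul] at hnr
      exact hpm (hnr ▸ hpn)
    have hm0 : m ≠ 0 := by
      rintro rfl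
      exact hn0 (by rw [hnr, mul_zero])
    have hpr : 0 < p ^ r := pow_pos hp.pos r
    rcases eq_or_ne m 1 with hm1 | hm1
    · -- a prime power
      rw [hm1, mul_one] at hnr
      have hPp := hnP p hp hpn
      obtain ⟨s, rfl⟩ := Nat.exists_eq_succ_of_ne_zero hr
      rcases eq_or_ne s 0 with rfl | hs
      · rw [Nat.succ_eq_add_one, zero_add, pow_one] at hnr
        subst hnr
        exact h n hp hPp hn
      obtain ⟨t, rfl⟩ := Nat.exists_eq_succ_of_ne_zero hs
      have hlt1 : p ^ (t + 1) < n := by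
        rw [hnr]; exact Nat.pow_lt_pow_right hp.one_lt (by simp)
      have hlt2 : p ^ t < n := by
        rw [hnr]; exact Nat.pow_lt_pow_right hp.one_lt (by simp only [Nat.succ_eq_add_one]; omega)
      have hlt3 : p < n := by
        rw [hnr]
        calc p = p ^ 1 := (pow_one p).symm
          _ < _ := Nat.pow_lt_pow_right hp.one_lt (by simp)
      have hdv : ∀ k, k ≠ 0 → ∀ q, q.Prime → q ∣ p ^ k → P q := fun k hk q hq hqd ↦ by
        rw [(Nat.prime_dvd_prime_iff_eq hq hp).mp (hq.dvd_of_dvd_pow hqd)]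
        exact hPp
      have e1 : qCoeff f (p ^ (t + 1)) = qCoeff g (p ^ (t + 1)) :=
        ih _ hlt1 (hlt1.le.trans hn) (hdv _ (by simp))
      have e2 : qCoeff f (p ^ t) = qCoeff g (p ^ t) := by
        rcases eq_or_ne t 0 with rfl | ht
        · rw [pow_zero, hf.qCoeff_one, hg.qCoeff_one]
        · exact ih _ hlt2 (hlt2.le.trans hn) (hdv _ ht)
      have e3 : qCoeff f p = qCoeff g p := h p hp hPp (hlt3.le.trans hn)
      rw [hnr]
      change qCoeff f (p ^ (t + 2)) = qCoeff g (p ^ (t + 2))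
      by_cases hd : p ∣ N₁
      · rw [hf.qCoeff_prime_pow_of_dvd p t hp hd,
          hg.qCoeff_prime_pow_of_dvd p t hp ((hP p hp hPp).mp hd), e1, e3]
      · rw [hf.qCoeff_prime_pow_of_not_dvd p t hp hd,
          hg.qCoeff_prime_pow_of_not_dvd p t hp (fun hh ↦ hd ((hP p hp hPp).mpr hh)), e1, e2, e3]
    · -- a proper coprime factorisation
      have hcop : (p ^ r).Coprime m := Nat.Coprime.pow_left r
        ((Nat.Prime.coprime_iff_not_dvd hp).mpr hpm)
      have hpr1 : 1 < p ^ r := Nat.one_lt_pow hr hp.one_lt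
      have hlt1 : p ^ r < n := by
        rw [hnr]
        exact lt_mul_of_one_lt_right hpr (by omega)
      have hlt2 : m < n := by
        rw [hnr]
        exact lt_mul_of_one_lt_left (Nat.pos_of_ne_zero hm0) hpr1
      rw [hnr, hf.qCoeff_mul_of_coprime _ _ hcop, hg.qCoeff_mul_of_coprime _ _ hcop,
        ih _ hlt1 (hlt1.le.trans hn) (fun q hq hqd ↦ hnP q hq (hnr ▸ hqd.mul_right m)),
        ih _ hlt2 (hlt2.le.trans hn) (fun q hq hqd ↦ hnP q hq (hnr ▸ hqd.mul_left (p ^ r)))]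

/-! ### The Sturm bound -/

theorem index_eq (N : ℕ) [NeZero N] : (Gamma0 N).index = dedekindPsi N :=
  Fermat.Agent.H14.card_X N

theorem sturm (N : ℕ) [NeZero N] {f g : CuspForm (Gamma0 N) 2}
    (h : ∀ n ≤ dedekindPsi N / 6, qCoeff f n = qCoeff g n) : f = g := by
  rw [← sub_eq_zero]
  refine H22.cusp_eq_zero_of_qCoeff _ fun n hn ↦ ?_
  rw [AL.qCoeff_sub, sub_eq_zero]
  apply h
  refine hn.trans_eq ?_
  rw [index_eq]
  have : ((2 : ℤ) * (dedekindPsi N : ℤ)).toNat = 2 * dedekindPsi N := by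
    have h1 : ((2 : ℤ) * (dedekindPsi N : ℤ)) = ((2 * dedekindPsi N : ℕ) : ℤ) := by push_cast; rfl
    rw [h1, Int.toNat_natCast]
  rw [this]
  omega

/-- **Two normalised eigenforms of level `N` which agree at all primes `p ≤ ψ(N)/6` are equal.** -/
theorem eigenform_eq {N : ℕ} [NeZero N] {f g : CuspForm (Gamma0 N) 2}
    (hf : f.IsNormalizedEigenform) (hg : g.IsNormalizedEigenform)
    (h : ∀ p, p.Prime → p ≤ dedekindPsi N / 6 → qCoeff f p = qCoeff g p) : f = g :=
  sturm N fun n hn ↦ coeff_eq_of_primes hf hg (fun _ ↦ True) (fun _ _ _ ↦ Iff.rfl)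
    (fun p hp _ hpB ↦ h p hp hpB) n hn (fun _ _ _ ↦ trivial)

/-! ### Depletion -/

theorem exists_depletion {N q : ℕ} [NeZero N] (hq : q.Prime) (hqN : q ∣ N)
    (f : CuspForm (Gamma0 N) 2) :
    ∃ g : CuspForm (Gamma0 (N * q)) 2, ∀ n, qCoeff g n = if q ∣ n then 0 else qCoeff f n := by
  have : NeZero (N * q) := ⟨mul_ne_zero (NeZero.ne N) hq.ne_zero⟩
  have h1 : N * 1 ∣ N * q := by rw [mul_one]; exact dvd_mul_right _ _
  refine ⟨AL.degen one_pos h1 2 f - AL.degen hq.pos dvd_rfl 2 (CuspForm.heckeULin 2 hqN f),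
    fun n ↦ ?_⟩
  rw [AL.qCoeff_sub, AL.qCoeff_degen, AL.qCoeff_degen, if_pos (one_dvd n), Nat.div_one,
    H22.qCoeff_heckeULin, ModularForm.coeffHeckeU_apply]
  split_ifs with hd
  · rw [Nat.div_mul_cancel hd, sub_self]
  · rw [sub_zero]

theorem exists_depletion_list {N : ℕ} [NeZero N] (l : List ℕ) (hl : ∀ q ∈ l, q.Prime ∧ q ∣ N)
    (f : CuspForm (Gamma0 N) 2) : ∃ g : CuspForm (Gamma0 (N * l.prod)) 2,
      ∀ n, qCoeff g n = if ∀ q ∈ l, ¬ q ∣ n then qCoeff f n else 0 := by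
  induction l with
  | nil =>
    have h1 : N * 1 ∣ N * ([] : List ℕ).prod := by simp
    have : NeZero (N * ([] : List ℕ).prod) := ⟨by simpa using NeZero.ne N⟩
    refine ⟨AL.degen one_pos h1 2 f, fun n ↦ ?_⟩
    rw [AL.qCoeff_degen]
    simp
  | cons q l ih =>
    have hq := hl q (by simp)
    obtain ⟨g, hg⟩ := ih (fun q hq ↦ hl q (by simp [hq]))
    have hprod : l.prod ≠ 0 := by
      rw [Ne, List.prod_eq_zero_iff]
      intro h0
      exact (hl 0 (by simp [h0])).1.ne_zero rfl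
    have : NeZero (N * l.prod) := ⟨mul_ne_zero (NeZero.ne N) hprod⟩
    obtain ⟨g', hg'⟩ := exists_depletion hq.1 (hq.2.mul_right l.prod) g
    have he : N * l.prod * q = N * (q :: l).prod := by rw [List.prod_cons]; ring
    rw [← he]
    refine ⟨g', fun n ↦ ?_⟩
    rw [hg', hg]
    by_cases hd : q ∣ n
    · simp [hd]
    · simp [hd]

theorem psi_mul_list {N : ℕ} (hN : N ≠ 0) (l : List ℕ) (hl : ∀ q ∈ l, q.Prime ∧ q ∣ N) :
    dedekindPsi (N * l.prod) = dedekindPsi N * l.prod := by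
  induction l with
  | nil => simp
  | cons q l ih =>
    have hq := hl q (by simp)
    have hprod : l.prod ≠ 0 := by
      rw [Ne, List.prod_eq_zero_iff]
      intro h0
      exact (hl 0 (by simp [h0])).1.ne_zero rfl
    have he : N * (q :: l).prod = N * l.prod * q := by rw [List.prod_cons]; ring
    rw [he, Igusa.dedekindPsi_mul_prime hq.1 (mul_ne_zero hN hprod),
      if_pos (hq.2.mul_right l.prod), ih (fun q hq ↦ hl q (by simp [hq])), List.prod_cons]
    ring

/-- the product of the primes dividing `M` -/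
def radM (M : ℕ) : ℕ := ∏ q ∈ M.primeFactors, q

theorem radM_of_squarefree {M : ℕ} (hM : Squarefree M) : radM M = M :=
  Nat.prod_primeFactors_of_squarefree hM

/-- **Newforms which agree at the good primes up to an explicit bound are equal.** -/
theorem newform_eq {N₁ N₂ : ℕ} [NeZero N₁] [NeZero N₂] {f : CuspForm (Gamma0 N₁) 2}
    {g : CuspForm (Gamma0 N₂) 2} (hf : f.IsNewform) (hg : g.IsNewform)
    (h : ∀ p, p.Prime → ¬ p ∣ N₁ → ¬ p ∣ N₂ →
      p ≤ dedekindPsi (Nat.lcm N₁ N₂) * radM (Nat.lcm N₁ N₂) / 6 → qCoeff f p = qCoeff g p) :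
    N₁ = N₂ ∧ (f : UpperHalfPlane → ℂ) = g := by
  set M := Nat.lcm N₁ N₂ with hM
  have hM0 : M ≠ 0 := Nat.lcm_ne_zero (NeZero.ne N₁) (NeZero.ne N₂)
  have : NeZero M := ⟨hM0⟩
  have h1 : N₁ * 1 ∣ M := by rw [mul_one]; exact Nat.dvd_lcm_left _ _
  have h2 : N₂ * 1 ∣ M := by rw [mul_one]; exact Nat.dvd_lcm_right _ _
  have hl : ∀ q ∈ M.primeFactors.toList, q.Prime ∧ q ∣ M := fun q hq ↦ by
    rw [Finset.mem_toList] at hq
    exact ⟨Nat.prime_of_mem_primeFactors hq, Nat.dvd_of_mem_primeFactors hq⟩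
  have hprod : M.primeFactors.toList.prod = radM M := by
    rw [radM, ← Finset.prod_map_toList, List.map_id']
  have hR0 : radM M ≠ 0 := Finset.prod_ne_zero_iff.mpr fun q hq ↦
    (Nat.prime_of_mem_primeFactors hq).ne_zero
  have hF := exists_depletion_list _ hl (AL.degen one_pos h1 2 f)
  have hG := exists_depletion_list _ hl (AL.degen one_pos h2 2 g)
  have hpsi := psi_mul_list hM0 _ hl
  rw [hprod] at hF hG hpsi
  obtain ⟨F, hF⟩ := hF
  obtain ⟨G, hG⟩ := hG
  have : NeZero (M * radM M) := ⟨mul_ne_zero hM0 hR0⟩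
  have hcop : ∀ n : ℕ, (∀ q ∈ M.primeFactors.toList, ¬ q ∣ n) ↔
      ∀ p, p.Prime → p ∣ n → ¬ p ∣ M := fun n ↦
    ⟨fun hn p hp hpn hpM ↦ hn p (by simp [hp, hpM, hM0]) hpn, fun hn q hq hqn ↦
      hn q (hl q hq).1 hqn (hl q hq).2⟩
  have hndiv : ∀ p : ℕ, ¬ p ∣ M → ¬ p ∣ N₁ ∧ ¬ p ∣ N₂ := fun p hp ↦
    ⟨fun h ↦ hp (h.trans (Nat.dvd_lcm_left _ _)), fun h ↦ hp (h.trans (Nat.dvd_lcm_right _ _))⟩
  have hFG : F = G := by
    refine sturm _ fun n hn ↦ ?_
    rw [hF, hG, AL.qCoeff_degen, AL.qCoeff_degen, if_pos (one_dvd n), if_pos (one_dvd n),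
      Nat.div_one]
    split_ifs with hc
    · rw [hcop] at hc
      rw [hpsi] at hn
      refine coeff_eq_of_primes hf.1 hg.1 (fun p ↦ ¬ p ∣ M)
        (fun p _ hp ↦ ⟨fun h ↦ absurd h (hndiv p hp).1, fun h ↦ absurd h (hndiv p hp).2⟩)
        (fun p hp hpM hpB ↦ h p hp (hndiv p hpM).1 (hndiv p hpM).2 hpB) n hn hc
    · rfl
  refine AL.newform_unique hf hg (D := M) hM0 fun ℓ hℓ _ _ hℓM ↦ ?_
  have hc : ∀ q ∈ M.primeFactors.toList, ¬ q ∣ ℓ := by
    rw [hcop]
    intro p hp hpℓ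
    rwa [(Nat.prime_dvd_prime_iff_eq hp hℓ).mp hpℓ]
  have e1 := hF ℓ
  have e2 := hG ℓ
  rw [if_pos hc, AL.qCoeff_degen, if_pos (one_dvd ℓ), Nat.div_one] at e1 e2
  rw [← e1, ← e2, hFG]

/-! ### Semistable elliptic curves -/

open Fermat.Agent.Cor.SmallConductor in
/-- **Effective comparison of semistable elliptic curves over `ℚ`.** -/
theorem ap_eq_of_le {W W' : WeierstrassCurve ℤ} (hΔ : W.Δ ≠ 0) (hW : W.IsSemistableModel)
    (hΔ' : W'.Δ ≠ 0) (hW' : W'.IsSemistableModel)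
    (h : ∀ p : ℕ, p.Prime → ¬ (p : ℤ) ∣ W.Δ → ¬ (p : ℤ) ∣ W'.Δ →
      p ≤ dedekindPsi (Nat.lcm W.conductorLevel W'.conductorLevel) *
        Nat.lcm W.conductorLevel W'.conductorLevel / 6 → W.apOfModel p = W'.apOfModel p) :
    W.conductorLevel = W'.conductorLevel ∧
      ∀ p : ℕ, p.Prime → ¬ (p : ℤ) ∣ W.Δ → W.apOfModel p = W'.apOfModel p := by
  obtain ⟨f, hf, hfW⟩ := exists_newform W hΔ hW
  obtain ⟨g, hg, hgW⟩ := exists_newform W' hΔ' hW'
  have : NeZero W.conductorLevel := ⟨W.conductorLevel_pos.ne'⟩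
  have : NeZero W'.conductorLevel := ⟨W'.conductorLevel_pos.ne'⟩
  have hsq : Squarefree (Nat.lcm W.conductorLevel W'.conductorLevel) := by
    rw [Nat.squarefree_iff_factorization_le_one
      (Nat.lcm_ne_zero W.conductorLevel_pos.ne' W'.conductorLevel_pos.ne')]
    intro p
    rw [Nat.factorization_lcm W.conductorLevel_pos.ne' W'.conductorLevel_pos.ne']
    have h1 := (Nat.squarefree_iff_factorization_le_one W.conductorLevel_pos.ne').mp
      W.squarefree_conductorLevel p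
    have h2 := (Nat.squarefree_iff_factorization_le_one W'.conductorLevel_pos.ne').mp
      W'.squarefree_conductorLevel p
    exact sup_le h1 h2
  obtain ⟨h1, h2⟩ := newform_eq hf hg fun p hp hp1 hp2 hpB ↦ by
    rw [radM_of_squarefree hsq] at hpB
    rw [hfW p hp hp1, hgW p hp hp2, h p hp (fun hh ↦ hp1
      ((W.prime_dvd_conductorLevel_iff hΔ hp).mpr hh)) (fun hh ↦ hp2
      ((W'.prime_dvd_conductorLevel_iff hΔ' hp).mpr hh)) hpB]
  refine ⟨h1, fun p hp hpW ↦ ?_⟩
  have hp1 : ¬ p ∣ W.conductorLevel := fun hh ↦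
    hpW ((W.prime_dvd_conductorLevel_iff hΔ hp).mp hh)
  have hp2 : ¬ p ∣ W'.conductorLevel := h1 ▸ hp1
  have e1 := hfW p hp hp1
  have e2 := hgW p hp hp2
  rw [h2, e2] at e1
  exact_mod_cast e1.symm

end Fermat.Agent.Cor.Effective
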