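import Mathlib
import Fermat.Agent.Cor.EtaQuot
import Fermat.Agent.S60

set_option autoImplicit false

/-!
# Eichler's theorem

A corollary of the modularity of semistable elliptic curves over `ℚ` (in the form of
`Fermat.Agent.P2.Full`: the level is the radical of the discriminant) and of the elementary fact
(`Fermat.Agent.Cor.EtaQuot`) that a cusp form `f` of weight two for `Γ₀(N)`, `N = 11, 14, 15`,
satisfies `f ^ e = c ∏_{d ∣ N} Δ(d z)`, where `e` is the sum of the divisors of `N`.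

For the elliptic curves

* `y² + y = x³ - x²` (conductor `11`),
* `y² + xy + y = x³ - x` (conductor `14`),
* `y² + xy + y = x³ + x²` (conductor `15`),

the number of affine solutions modulo a prime `p ∤ N` is `p - a(p)` where `a(p)` is the coefficient
of `X ^ p` in the polynomial with integer coefficients

* `X ∏_{n ≤ p} (1 - X ^ n) ^ 2 (1 - X ^ (11 n)) ^ 2`,
* `X ∏_{n ≤ p} (1 - X ^ n) (1 - X ^ (2 n)) (1 - X ^ (7 n)) (1 - X ^ (14 n))`,
* `X ∏_{n ≤ p} (1 - X ^ n) (1 - X ^ (3 n)) (1 - X ^ (5 n)) (1 - X ^ (15 n))`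

respectively: `eichler_11`, `eichler_14`, `eichler_15`. The first one is a theorem of Eichler (1954).

Further corollaries:

* `finrank_cuspForm_11`, `finrank_cuspForm_14`, `finrank_cuspForm_15`: the space of cusp forms of
  weight two for `Γ₀(N)` is one-dimensional;
* `a11_mul`, `a11_pow`, ...: the coefficients of the three products are multiplicative and satisfy
  the recursion of Hecke eigenforms;
* `five_dvd`, `six_dvd`, `four_dvd`: the congruences `a(p) ≡ p + 1` modulo `5`, `6`, `4`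
  respectively (from the rational torsion of the curves).
-/

namespace Fermat.Agent.Cor.Eichler

open WeierstrassCurve CongruenceSubgroup Polynomial

noncomputable section

/-- the modularity theorem for semistable curves over `ℚ` -/
theorem full : P2.Full :=
  P2.full_of_mz2 H09.M2.mz2All_three H09.M2.mz2All_five H28N.sel3Mult Ell.sel3Good ZK.switch5Two

/-- points and solutions -/
def pointEquiv {F : Type} [Field F] (W : WeierstrassCurve F) (hΔ : W.Δ ≠ 0) :
    W.toAffine.Point ≃ Option {P : F × F // W.toAffine.Equation P.1 P.2} where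
  toFun P := match P with
    | .zero => none
    | .some x y h => some ⟨(x, y), h.1⟩
  invFun o := match o with
    | none => .zero
    | some P => .some P.1.1 P.1.2
      ((Affine.equation_iff_nonsingular_of_Δ_ne_zero hΔ).mp P.2)
  left_inv := by rintro (_ | ⟨x, y, h⟩) <;> rfl
  right_inv := by rintro (_ | ⟨⟨x, y⟩, h⟩) <;> rfl

theorem apOfModel_eq_sub (W : WeierstrassCurve ℤ) (p : ℕ) [Fact p.Prime] (h : ¬ (p : ℤ) ∣ W.Δ) :
    W.apOfModel p =
      p - Nat.card {P : ZMod p × ZMod p // (W.reductionMod p).toAffine.Equation P.1 P.2} := by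
  have hΔ : (W.reductionMod p).Δ ≠ 0 := by
    rw [reductionMod, map_Δ]
    intro h0
    exact h ((ZMod.intCast_zmod_eq_zero_iff_dvd _ _).mp (by simpa using h0))
  rw [apOfModel, traceOfFrobenius, card, Nat.card_congr (pointEquiv _ hΔ),
    Finite.card_option, Nat.card_zmod]
  push_cast
  ring

/-- the level is the squarefree number with the given support -/
theorem level_eq {M N : ℕ} (hM : Squarefree M) (hN : Squarefree N)
    (h : ∀ q : ℕ, q.Prime → (q ∣ M ↔ q ∣ N)) : M = N := by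
  rw [← Nat.prod_primeFactors_of_squarefree hM, ← Nat.prod_primeFactors_of_squarefree hN]
  congr 1
  ext q
  simp only [Nat.mem_primeFactors, ne_eq, hM.ne_zero, hN.ne_zero, not_false_eq_true, and_true]
  exact ⟨fun hq ↦ ⟨hq.1, (h q hq.1).mp hq.2⟩, fun hq ↦ ⟨hq.1, (h q hq.1).mpr hq.2⟩⟩

variable {N e k : ℕ} [NeZero N] (h2 : e * 2 = 12 * N.divisors.card)
    (h3 : ∀ g ∈ N.divisors, ∑ d ∈ N.divisors, Nat.gcd d g ^ 2 * (N / d) ≤ e * g)
    (hsum : ∑ d ∈ N.divisors, d = e) (hek : e * k = 24) (hN : Squarefree N)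
    (W : WeierstrassCurve ℤ) (hΔ : W.Δ ≠ 0) (hW : W.IsSemistableModel)
    (hs : ∀ q : ℕ, q.Prime → ((q : ℤ) ∣ W.Δ ↔ q ∣ N))

include h2 h3 hsum hek hN hΔ hW hs

/-- The eta product is a normalised eigenform, and it belongs to `W`. -/
theorem exists_form : ∃ f : CuspForm (Gamma0 N) 2, f.IsNormalizedEigenform ∧
    (∀ n m : ℕ, n ≤ m → ModularFormClass.qCoeff f n = ((etaPoly N k m).coeff n : ℂ)) ∧
    ∀ p m : ℕ, p.Prime → ¬ p ∣ N → p ≤ m → W.apOfModel p = (etaPoly N k m).coeff p := by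
  obtain ⟨M, _, hsq, hM, f, hf, hfW⟩ := full W hΔ hW
  obtain rfl : M = N := level_eq hsq hN fun q hq ↦ (hM q hq).trans (hs q hq)
  refine ⟨f, hf, fun n m hnm ↦ qCoeff_eq h2 h3 hsum hek f hf.qCoeff_one hnm,
    fun p m hp hpN hpm ↦ ?_⟩
  have h1 := hfW p hp (fun h ↦ hpN ((hs p hp).mp h)) hpN
  have h4 := qCoeff_eq h2 h3 hsum hek f hf.qCoeff_one hpm
  rw [ModularFormClass.qCoeff, h4] at h1
  exact_mod_cast h1.symm

/-- the number of solutions modulo `p` -/
theorem card_eq {p m : ℕ} (hp : p.Prime) (hpN : ¬ p ∣ N) (hpm : p ≤ m) :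
    (Nat.card {P : ZMod p × ZMod p // (W.reductionMod p).toAffine.Equation P.1 P.2} : ℤ) =
      p - (etaPoly N k m).coeff p := by
  have : Fact p.Prime := ⟨hp⟩
  obtain ⟨f, -, -, hf⟩ := exists_form h2 h3 hsum hek hN W hΔ hW hs
  rw [← hf p m hp hpN hpm, apOfModel_eq_sub W p fun h ↦ hpN ((hs p hp).mp h)]
  ring

/-- the space of cusp forms of weight two is one-dimensional -/
theorem finrank_cuspForm : Module.finrank ℂ (CuspForm (Gamma0 N) 2) = 1 := by
  obtain ⟨f, hf, hf1, -⟩ := exists_form h2 h3 hsum hek hN W hΔ hW hs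
  have key : ∀ g : CuspForm (Gamma0 N) 2, ModularFormClass.qCoeff g 1 = 1 → g = f := by
    intro g hg
    refine DFunLike.coe_injective (IntStr.eq_of_qExpansion_eq one_pos (AL.coe_mem_QR g)
      (AL.coe_mem_QR f) ?_)
    rw [qExpansion_eq h2 h3 hsum hek g hg, qExpansion_eq h2 h3 hsum hek f hf.qCoeff_one]
  have hadd : ∀ g₁ g₂ : CuspForm (Gamma0 N) 2, ModularFormClass.qCoeff (g₁ + g₂ : CuspForm (Gamma0 N) 2) 1 =
      ModularFormClass.qCoeff g₁ 1 + ModularFormClass.qCoeff g₂ 1 := fun g₁ g₂ ↦ AL.qCoeff_add g₁ g₂ 1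
  have hsmul : ∀ (c : ℂ) (g : CuspForm (Gamma0 N) 2), ModularFormClass.qCoeff (c • g : CuspForm (Gamma0 N) 2) 1 =
      c * ModularFormClass.qCoeff g 1 := fun c g ↦ AL.qCoeff_smul c g 1
  refine finrank_eq_one f ?_ fun g ↦ ⟨ModularFormClass.qCoeff g 1, ?_⟩
  · rintro rfl
    have := hsmul 0 (0 : CuspForm (Gamma0 N) 2)
    rw [zero_smul, hf.qCoeff_one, zero_mul] at this
    exact one_ne_zero this
  · have h1 := key (g + (1 - ModularFormClass.qCoeff g 1) • f) (by
      rw [hadd, hsmul, hf.qCoeff_one]; ring)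
    rw [sub_smul, one_smul] at h1
    have h4 : g + (f - ModularFormClass.qCoeff g 1 • f) = f := h1
    have h5 : g - ModularFormClass.qCoeff g 1 • f = 0 := by
      have : g - ModularFormClass.qCoeff g 1 • f =
        (g + (f - ModularFormClass.qCoeff g 1 • f)) - f := by abel
      rw [this, h4, sub_self]
    exact (sub_eq_zero.mp h5).symm

/-- the coefficients are multiplicative -/
theorem etaPoly_mul {m n : ℕ} (h : m.Coprime n) : (etaPoly N k (m * n)).coeff (m * n) =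
    (etaPoly N k m).coeff m * (etaPoly N k n).coeff n := by
  obtain ⟨f, hf, hf1, -⟩ := exists_form h2 h3 hsum hek hN W hΔ hW hs
  have := hf.qCoeff_mul_of_coprime m n h
  rw [hf1 _ _ le_rfl, hf1 _ _ le_rfl, hf1 _ _ le_rfl] at this
  exact_mod_cast this

/-- the recursion at good primes -/
theorem etaPoly_pow {p : ℕ} (hp : p.Prime) (hpN : ¬ p ∣ N) (r : ℕ) :
    (etaPoly N k (p ^ (r + 2))).coeff (p ^ (r + 2)) =
      (etaPoly N k p).coeff p * (etaPoly N k (p ^ (r + 1))).coeff (p ^ (r + 1)) -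
        p * (etaPoly N k (p ^ r)).coeff (p ^ r) := by
  obtain ⟨f, hf, hf1, -⟩ := exists_form h2 h3 hsum hek hN W hΔ hW hs
  have := hf.qCoeff_prime_pow_of_not_dvd p r hp hpN
  rw [hf1 _ _ le_rfl, hf1 _ _ le_rfl, hf1 _ _ le_rfl, hf1 _ _ le_rfl] at this
  exact_mod_cast this

/-- the recursion at bad primes -/
theorem etaPoly_pow_of_dvd {p : ℕ} (hp : p.Prime) (hpN : p ∣ N) (r : ℕ) :
    (etaPoly N k (p ^ (r + 2))).coeff (p ^ (r + 2)) =
      (etaPoly N k p).coeff p * (etaPoly N k (p ^ (r + 1))).coeff (p ^ (r + 1)) := by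
  obtain ⟨f, hf, hf1, -⟩ := exists_form h2 h3 hsum hek hN W hΔ hW hs
  have := hf.qCoeff_prime_pow_of_dvd p r hp hpN
  rw [hf1 _ _ le_rfl, hf1 _ _ le_rfl, hf1 _ _ le_rfl] at this
  exact_mod_cast this

omit h2 h3 hsum hek hN hΔ hW hs

/-- the curve `y² + y = x³ - x²` -/
def W11 : WeierstrassCurve ℤ := ⟨0, -1, 1, 0, 0⟩
/-- the curve `y² + xy + y = x³ - x` -/
def W14 : WeierstrassCurve ℤ := ⟨1, 0, 1, -1, 0⟩
/-- the curve `y² + xy + y = x³ + x²` -/
def W15 : WeierstrassCurve ℤ := ⟨1, 1, 1, 0, 0⟩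

theorem W11_Δ : W11.Δ = -11 := by decide
theorem W14_Δ : W14.Δ = -28 := by decide
theorem W15_Δ : W15.Δ = -15 := by decide
theorem W11_c4 : W11.c₄ = 16 := by decide
theorem W14_c4 : W14.c₄ = 25 := by decide
theorem W15_c4 : W15.c₄ = 1 := by decide

theorem semistable_of_coprime {W : WeierstrassCurve ℤ} (h : IsCoprime W.Δ W.c₄) :
    W.IsSemistableModel := by
  intro p hp h1 h2
  obtain ⟨a, b, hab⟩ := h
  have : (p : ℤ) ∣ 1 := by rw [← hab]; exact dvd_add (h1.mul_left _) (h2.mul_left _)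
  exact hp.one_lt.ne' (by exact_mod_cast Int.eq_one_of_dvd_one (by positivity) this)

theorem W11_semistable : W11.IsSemistableModel :=
  semistable_of_coprime (by rw [W11_Δ, W11_c4]; decide)
theorem W14_semistable : W14.IsSemistableModel :=
  semistable_of_coprime (by rw [W14_Δ, W14_c4]; decide)
theorem W15_semistable : W15.IsSemistableModel :=
  semistable_of_coprime (by rw [W15_Δ, W15_c4]; decide)

theorem W11_supp (q : ℕ) (_ : q.Prime) : (q : ℤ) ∣ W11.Δ ↔ q ∣ 11 := by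
  rw [W11_Δ, dvd_neg]
  exact_mod_cast Iff.rfl

theorem W15_supp (q : ℕ) (_ : q.Prime) : (q : ℤ) ∣ W15.Δ ↔ q ∣ 15 := by
  rw [W15_Δ, dvd_neg]
  exact_mod_cast Iff.rfl

theorem W14_supp (q : ℕ) (hq : q.Prime) : (q : ℤ) ∣ W14.Δ ↔ q ∣ 14 := by
  rw [W14_Δ, dvd_neg]
  have h1 : (q : ℤ) ∣ 28 ↔ q ∣ 28 := by exact_mod_cast Iff.rfl
  rw [h1]
  constructor
  · intro h
    rcases (hq.dvd_mul (m := 2) (n := 14)).mp h with h | h
    · exact h.trans (by decide)
    · exact h
  · intro h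
    exact h.trans (by decide)

theorem etaPoly_11 (m : ℕ) : etaPoly 11 2 m =
    X * ∏ n ∈ Finset.range m, ((1 - X ^ (n + 1)) ^ 2 * (1 - X ^ (11 * (n + 1))) ^ 2) := by
  rw [etaPoly, show Nat.divisors 11 = {1, 11} by decide, Finset.prod_pair (by decide),
    Finset.prod_mul_distrib, Finset.prod_pow, Finset.prod_pow]
  simp only [one_mul]

theorem etaPoly_14 (m : ℕ) : etaPoly 14 1 m =
    X * ∏ n ∈ Finset.range m, ((1 - X ^ (n + 1)) * (1 - X ^ (2 * (n + 1))) *
      (1 - X ^ (7 * (n + 1))) * (1 - X ^ (14 * (n + 1)))) := by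
  rw [etaPoly, show Nat.divisors 14 = {1, 2, 7, 14} by decide, Finset.prod_insert (by decide),
    Finset.prod_insert (by decide), Finset.prod_pair (by decide),
    Finset.prod_mul_distrib, Finset.prod_mul_distrib, Finset.prod_mul_distrib]
  simp only [one_mul, pow_one, mul_assoc]

theorem etaPoly_15 (m : ℕ) : etaPoly 15 1 m =
    X * ∏ n ∈ Finset.range m, ((1 - X ^ (n + 1)) * (1 - X ^ (3 * (n + 1))) *
      (1 - X ^ (5 * (n + 1))) * (1 - X ^ (15 * (n + 1)))) := by
  rw [etaPoly, show Nat.divisors 15 = {1, 3, 5, 15} by decide, Finset.prod_insert (by decide),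
    Finset.prod_insert (by decide), Finset.prod_pair (by decide),
    Finset.prod_mul_distrib, Finset.prod_mul_distrib, Finset.prod_mul_distrib]
  simp only [one_mul, pow_one, mul_assoc]

/-- `n`-th coefficient of `X ∏ (1 - X ^ m) ^ 2 (1 - X ^ (11 m)) ^ 2` -/
def a11 (n : ℕ) : ℤ :=
  (X * ∏ m ∈ Finset.range n, ((1 - X ^ (m + 1)) ^ 2 * (1 - X ^ (11 * (m + 1))) ^ 2) : ℤ[X]).coeff n

/-- `n`-th coefficient of `X ∏ (1 - X ^ m) (1 - X ^ (2 m)) (1 - X ^ (7 m)) (1 - X ^ (14 m))` -/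
def a14 (n : ℕ) : ℤ :=
  (X * ∏ m ∈ Finset.range n, ((1 - X ^ (m + 1)) * (1 - X ^ (2 * (m + 1))) *
      (1 - X ^ (7 * (m + 1))) * (1 - X ^ (14 * (m + 1)))) : ℤ[X]).coeff n

/-- `n`-th coefficient of `X ∏ (1 - X ^ m) (1 - X ^ (3 m)) (1 - X ^ (5 m)) (1 - X ^ (15 m))` -/
def a15 (n : ℕ) : ℤ :=
  (X * ∏ m ∈ Finset.range n, ((1 - X ^ (m + 1)) * (1 - X ^ (3 * (m + 1))) *
      (1 - X ^ (5 * (m + 1))) * (1 - X ^ (15 * (m + 1)))) : ℤ[X]).coeff n

theorem a11_eq (n : ℕ) : a11 n = (etaPoly 11 2 n).coeff n := by rw [a11, etaPoly_11]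
theorem a14_eq (n : ℕ) : a14 n = (etaPoly 14 1 n).coeff n := by rw [a14, etaPoly_14]
theorem a15_eq (n : ℕ) : a15 n = (etaPoly 15 1 n).coeff n := by rw [a15, etaPoly_15]

theorem coprime_11 {p : ℕ} (hp : p.Prime) (h : p ≠ 11) : ¬ p ∣ 11 :=
  fun h' ↦ h ((Nat.prime_dvd_prime_iff_eq hp Nat.prime_eleven).mp h')

theorem coprime_14 {p : ℕ} (hp : p.Prime) (h : p ≠ 2) (h' : p ≠ 7) : ¬ p ∣ 14 := by
  intro h1
  rcases (hp.dvd_mul (m := 2) (n := 7)).mp h1 with h1 | h1
  · exact h ((Nat.prime_dvd_prime_iff_eq hp Nat.prime_two).mp h1)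
  · exact h' ((Nat.prime_dvd_prime_iff_eq hp (by decide)).mp h1)

theorem coprime_15 {p : ℕ} (hp : p.Prime) (h : p ≠ 3) (h' : p ≠ 5) : ¬ p ∣ 15 := by
  intro h1
  rcases (hp.dvd_mul (m := 3) (n := 5)).mp h1 with h1 | h1
  · exact h ((Nat.prime_dvd_prime_iff_eq hp Nat.prime_three).mp h1)
  · exact h' ((Nat.prime_dvd_prime_iff_eq hp Nat.prime_five).mp h1)

theorem squarefree_14 : Squarefree 14 := by
  rw [Nat.squarefree_iff_prime_squarefree]
  intro p hp h
  have h1 : p ≤ 3 := by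
    by_contra h2
    have := Nat.le_of_dvd (by norm_num) h
    nlinarith
  have h2 := hp.two_le
  interval_cases p <;> revert h <;> decide

theorem squarefree_15 : Squarefree 15 := by
  rw [Nat.squarefree_iff_prime_squarefree]
  intro p hp h
  have h1 : p ≤ 3 := by
    by_contra h2
    have := Nat.le_of_dvd (by norm_num) h
    nlinarith
  have h2 := hp.two_le
  interval_cases p <;> revert h <;> decide

/-- **Eichler's theorem** (1954). For every prime `p ≠ 11` the number of solutions of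
`y² + y = x³ - x²` modulo `p` is `p - a(p)`, where `a(p)` is the coefficient of `X ^ p` in
`X ∏ (1 - X ^ n) ^ 2 (1 - X ^ (11 n)) ^ 2`. -/
theorem eichler_11 (p : ℕ) (hp : p.Prime) (h11 : p ≠ 11) :
    (Nat.card {P : ZMod p × ZMod p // P.2 ^ 2 + P.2 = P.1 ^ 3 - P.1 ^ 2} : ℤ) =
      p - (X * ∏ n ∈ Finset.range p,
        ((1 - X ^ (n + 1)) ^ 2 * (1 - X ^ (11 * (n + 1))) ^ 2) : ℤ[X]).coeff p := by
  have h := card_eq (N := 11) (e := 12) (k := 2) (by decide) (by decide) (by decide) (by decide)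
    (Nat.prime_eleven.squarefree) W11 (by rw [W11_Δ]; decide) W11_semistable W11_supp hp
    (coprime_11 hp h11) le_rfl
  rw [etaPoly_11] at h
  rw [← h]
  congr 1
  refine Nat.card_congr (Equiv.subtypeEquivRight fun P ↦ ?_)
  rw [Affine.equation_iff]
  simp only [reductionMod, W11, map_a₁, map_a₂, map_a₃, map_a₄, map_a₆, map_zero, map_one,
    map_neg, zero_mul, one_mul, add_zero]
  rw [neg_one_mul, ← sub_eq_add_neg]

/-- the curve of conductor `14` -/
theorem eichler_14 (p : ℕ) (hp : p.Prime) (h2 : p ≠ 2) (h7 : p ≠ 7) :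
    (Nat.card {P : ZMod p × ZMod p // P.2 ^ 2 + P.1 * P.2 + P.2 = P.1 ^ 3 - P.1} : ℤ) =
      p - (X * ∏ n ∈ Finset.range p, ((1 - X ^ (n + 1)) * (1 - X ^ (2 * (n + 1))) *
      (1 - X ^ (7 * (n + 1))) * (1 - X ^ (14 * (n + 1)))) : ℤ[X]).coeff p := by
  have h := card_eq (N := 14) (e := 24) (k := 1) (by decide) (by decide) (by decide) (by decide)
    squarefree_14 W14 (by rw [W14_Δ]; decide) W14_semistable W14_supp hp
    (coprime_14 hp h2 h7) le_rfl
  rw [etaPoly_14] at h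
  rw [← h]
  congr 1
  refine Nat.card_congr (Equiv.subtypeEquivRight fun P ↦ ?_)
  rw [Affine.equation_iff]
  simp only [reductionMod, W14, map_a₁, map_a₂, map_a₃, map_a₄, map_a₆, map_zero, map_one,
    map_neg, zero_mul, one_mul, add_zero]
  rw [neg_one_mul, ← sub_eq_add_neg]

/-- the curve of conductor `15` -/
theorem eichler_15 (p : ℕ) (hp : p.Prime) (h3 : p ≠ 3) (h5 : p ≠ 5) :
    (Nat.card {P : ZMod p × ZMod p // P.2 ^ 2 + P.1 * P.2 + P.2 = P.1 ^ 3 + P.1 ^ 2} : ℤ) =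
      p - (X * ∏ n ∈ Finset.range p, ((1 - X ^ (n + 1)) * (1 - X ^ (3 * (n + 1))) *
      (1 - X ^ (5 * (n + 1))) * (1 - X ^ (15 * (n + 1)))) : ℤ[X]).coeff p := by
  have h := card_eq (N := 15) (e := 24) (k := 1) (by decide) (by decide) (by decide) (by decide)
    squarefree_15 W15 (by rw [W15_Δ]; decide) W15_semistable W15_supp hp
    (coprime_15 hp h3 h5) le_rfl
  rw [etaPoly_15] at h
  rw [← h]
  congr 1
  refine Nat.card_congr (Equiv.subtypeEquivRight fun P ↦ ?_)
  rw [Affine.equation_iff]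
  simp only [reductionMod, W15, map_a₁, map_a₂, map_a₃, map_a₄, map_a₆, map_zero, map_one,
    zero_mul, one_mul, add_zero]

/-- `dim S₂(Γ₀(11)) = 1` -/
theorem finrank_cuspForm_11 : Module.finrank ℂ (CuspForm (Gamma0 11) 2) = 1 :=
  finrank_cuspForm (N := 11) (e := 12) (k := 2) (by decide) (by decide) (by decide) (by decide)
    (Nat.prime_eleven.squarefree) W11 (by rw [W11_Δ]; decide) W11_semistable W11_supp

/-- `dim S₂(Γ₀(14)) = 1` -/
theorem finrank_cuspForm_14 : Module.finrank ℂ (CuspForm (Gamma0 14) 2) = 1 :=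
  finrank_cuspForm (N := 14) (e := 24) (k := 1) (by decide) (by decide) (by decide) (by decide)
    squarefree_14 W14 (by rw [W14_Δ]; decide) W14_semistable W14_supp

/-- `dim S₂(Γ₀(15)) = 1` -/
theorem finrank_cuspForm_15 : Module.finrank ℂ (CuspForm (Gamma0 15) 2) = 1 :=
  finrank_cuspForm (N := 15) (e := 24) (k := 1) (by decide) (by decide) (by decide) (by decide)
    squarefree_15 W15 (by rw [W15_Δ]; decide) W15_semistable W15_supp

/-- the coefficients of `q ∏ (1 - q ^ n) ^ 2 (1 - q ^ (11 n)) ^ 2` are multiplicative -/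
theorem a11_mul {m n : ℕ} (h : m.Coprime n) : a11 (m * n) = a11 m * a11 n := by
  rw [a11_eq, a11_eq, a11_eq]
  exact etaPoly_mul (N := 11) (e := 12) (k := 2) (by decide) (by decide) (by decide) (by decide)
    (Nat.prime_eleven.squarefree) W11 (by rw [W11_Δ]; decide) W11_semistable W11_supp h

theorem a11_pow {p : ℕ} (hp : p.Prime) (h11 : p ≠ 11) (r : ℕ) :
    a11 (p ^ (r + 2)) = a11 p * a11 (p ^ (r + 1)) - p * a11 (p ^ r) := by
  rw [a11_eq, a11_eq, a11_eq, a11_eq]
  exact etaPoly_pow (N := 11) (e := 12) (k := 2) (by decide) (by decide) (by decide) (by decide)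
    (Nat.prime_eleven.squarefree) W11 (by rw [W11_Δ]; decide) W11_semistable W11_supp hp
    (coprime_11 hp h11) r

theorem a14_mul {m n : ℕ} (h : m.Coprime n) : a14 (m * n) = a14 m * a14 n := by
  rw [a14_eq, a14_eq, a14_eq]
  exact etaPoly_mul (N := 14) (e := 24) (k := 1) (by decide) (by decide) (by decide) (by decide)
    squarefree_14 W14 (by rw [W14_Δ]; decide) W14_semistable W14_supp h

theorem a14_pow {p : ℕ} (hp : p.Prime) (h2 : p ≠ 2) (h7 : p ≠ 7) (r : ℕ) :
    a14 (p ^ (r + 2)) = a14 p * a14 (p ^ (r + 1)) - p * a14 (p ^ r) := by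
  rw [a14_eq, a14_eq, a14_eq, a14_eq]
  exact etaPoly_pow (N := 14) (e := 24) (k := 1) (by decide) (by decide) (by decide) (by decide)
    squarefree_14 W14 (by rw [W14_Δ]; decide) W14_semistable W14_supp hp (coprime_14 hp h2 h7) r

theorem a15_mul {m n : ℕ} (h : m.Coprime n) : a15 (m * n) = a15 m * a15 n := by
  rw [a15_eq, a15_eq, a15_eq]
  exact etaPoly_mul (N := 15) (e := 24) (k := 1) (by decide) (by decide) (by decide) (by decide)
    squarefree_15 W15 (by rw [W15_Δ]; decide) W15_semistable W15_supp h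

theorem a15_pow {p : ℕ} (hp : p.Prime) (h3 : p ≠ 3) (h5 : p ≠ 5) (r : ℕ) :
    a15 (p ^ (r + 2)) = a15 p * a15 (p ^ (r + 1)) - p * a15 (p ^ r) := by
  rw [a15_eq, a15_eq, a15_eq, a15_eq]
  exact etaPoly_pow (N := 15) (e := 24) (k := 1) (by decide) (by decide) (by decide) (by decide)
    squarefree_15 W15 (by rw [W15_Δ]; decide) W15_semistable W15_supp hp (coprime_15 hp h3 h5) r

/-! ### Torsion and congruences -/

section Torsion

variable {F : Type} [Field F] [DecidableEq F]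

/-- duplication -/
theorem double_eq {W : WeierstrassCurve.Affine F} {x y x' y' : F} (l : F)
    (h : W.Nonsingular x y) (h' : W.Nonsingular x' y') (hy : y - W.negY x y ≠ 0)
    (hl : l * (y - W.negY x y) = 3 * x ^ 2 + 2 * W.a₂ * x + W.a₄ - W.a₁ * y)
    (hx' : x' = l ^ 2 + W.a₁ * l - W.a₂ - x - x)
    (hy' : y' = -(l * (x' - x) + y) - W.a₁ * x' - W.a₃) :
    (Affine.Point.some x y h + Affine.Point.some x y h : W.Point) = Affine.Point.some x' y' h' := by
  have hy1 : y ≠ W.negY x y := sub_ne_zero.mp hy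
  have hs : W.slope x x y y = l := by
    rw [Affine.slope_of_Y_ne rfl hy1, ← hl, mul_div_cancel_right₀ _ hy]
  rw [Affine.Point.add_self_of_Y_ne hy1]
  have e1 : W.addX x x (W.slope x x y y) = x' := by rw [hs, hx', Affine.addX]
  have e2 : W.addY x x y (W.slope x x y y) = y' := by
    rw [Affine.addY, Affine.negAddY, hs, Affine.negY, Affine.addX, ← hx', hy']
  simp only [Affine.Point.some.injEq]
  exact ⟨e1, e2⟩

theorem neg_eq_self {W : WeierstrassCurve.Affine F} {x y : F} (h : W.Nonsingular x y)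
    (hy : y = W.negY x y) :
    (Affine.Point.some x y h + Affine.Point.some x y h : W.Point) = 0 :=
  Affine.Point.add_self_of_Y_eq hy

end Torsion

/-- the congruence `a(p) ≡ p + 1` modulo `5` in level `11` -/
theorem five_dvd {p : ℕ} (hp : p.Prime) (h11 : p ≠ 11) : (5 : ℤ) ∣ p + 1 - a11 p := by
  have : Fact p.Prime := ⟨hp⟩
  obtain ⟨f, -, -, hf⟩ := exists_form (N := 11) (e := 12) (k := 2) (by decide) (by decide)
    (by decide) (by decide) (Nat.prime_eleven.squarefree) W11 (by rw [W11_Δ]; decide)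
    W11_semistable W11_supp
  have h1 := hf p p hp (coprime_11 hp h11) le_rfl
  rw [← a11_eq, apOfModel, traceOfFrobenius, card, Nat.card_zmod] at h1
  rw [← h1]
  have hΔ : (W11.reductionMod p).Δ ≠ 0 := by
    rw [reductionMod, map_Δ]
    intro h0
    exact coprime_11 hp h11 ((W11_supp p hp).mp
      ((ZMod.intCast_zmod_eq_zero_iff_dvd _ _).mp (by simpa using h0)))
  set E := (W11.reductionMod p).toAffine with hE
  have ha : E.a₁ = 0 ∧ E.a₂ = -1 ∧ E.a₃ = 1 ∧ E.a₄ = 0 ∧ E.a₆ = 0 := by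
    simp [hE, reductionMod, W11]
  obtain ⟨ha1, ha2, ha3, ha4, ha6⟩ := ha
  have ns : ∀ x y : ZMod p, y ^ 2 + y = x ^ 3 - x ^ 2 → E.Nonsingular x y := by
    intro x y hxy
    refine (Affine.equation_iff_nonsingular_of_Δ_ne_zero hΔ).mp ?_
    rw [Affine.equation_iff, ha1, ha2, ha3, ha4, ha6]
    linear_combination hxy
  have n0 := ns 0 0 (by ring)
  have n1 := ns 1 (-1) (by ring)
  have n2 := ns 0 (-1) (by ring)
  have d1 : (Affine.Point.some 0 0 n0 + Affine.Point.some 0 0 n0 : E.Point) =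
      Affine.Point.some 1 (-1) n1 :=
    double_eq 0 n0 n1 (by simp [Affine.negY, ha1, ha3]) (by simp [ha1, ha2, ha4])
      (by simp [ha1, ha2]) (by simp [ha1, ha3])
  have d2 : (Affine.Point.some 1 (-1) n1 + Affine.Point.some 1 (-1) n1 : E.Point) =
      Affine.Point.some 0 (-1) n2 :=
    double_eq (-1) n1 n2 (by simp [Affine.negY, ha1, ha3])
      (by rw [Affine.negY, ha1, ha2, ha3, ha4]; ring)
      (by rw [ha1, ha2]; ring) (by rw [ha1, ha3]; ring)
  have d3 : (-Affine.Point.some 0 0 n0 : E.Point) = Affine.Point.some 0 (-1) n2 := by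
    rw [Affine.Point.neg_some]
    simp [Affine.negY, ha3]
  have h5 : (5 : ℕ) • (Affine.Point.some 0 0 n0 : E.Point) = 0 := by
    rw [show (5 : ℕ) = 2 * 2 + 1 by norm_num, add_smul, one_smul, mul_smul, two_smul, two_smul,
      d1, d2, ← d3, neg_add_cancel]
  have : Fact (Nat.Prime 5) := ⟨Nat.prime_five⟩
  have h6 := addOrderOf_eq_prime (p := 5) h5 (Affine.Point.some_ne_zero n0)
  have h7 := addOrderOf_dvd_natCard (Affine.Point.some 0 0 n0 : E.Point)
  rw [h6] at h7
  have h8 : (p : ℤ) + 1 - ((p : ℤ) + 1 - (Nat.card E.Point : ℤ)) = (Nat.card E.Point : ℤ) := by ring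
  rw [h8]
  exact_mod_cast h7

/-- the congruence `a(p) ≡ p + 1` modulo `6` in level `14` -/
theorem six_dvd {p : ℕ} (hp : p.Prime) (hp2 : p ≠ 2) (hp7 : p ≠ 7) : (6 : ℤ) ∣ p + 1 - a14 p := by
  have : Fact p.Prime := ⟨hp⟩
  obtain ⟨f, -, -, hf⟩ := exists_form (N := 14) (e := 24) (k := 1) (by decide) (by decide)
    (by decide) (by decide) squarefree_14 W14 (by rw [W14_Δ]; decide)
    W14_semistable W14_supp
  have h1 := hf p p hp (coprime_14 hp hp2 hp7) le_rfl
  rw [← a14_eq, apOfModel, traceOfFrobenius, card, Nat.card_zmod] at h1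
  rw [← h1]
  have hΔ : (W14.reductionMod p).Δ ≠ 0 := by
    rw [reductionMod, map_Δ]
    intro h0
    exact coprime_14 hp hp2 hp7 ((W14_supp p hp).mp
      ((ZMod.intCast_zmod_eq_zero_iff_dvd _ _).mp (by simpa using h0)))
  set E := (W14.reductionMod p).toAffine with hE
  have ha : E.a₁ = 1 ∧ E.a₂ = 0 ∧ E.a₃ = 1 ∧ E.a₄ = -1 ∧ E.a₆ = 0 := by
    simp [hE, reductionMod, W14]
  obtain ⟨ha1, ha2, ha3, ha4, ha6⟩ := ha
  have ns : ∀ x y : ZMod p, y ^ 2 + x * y + y = x ^ 3 - x → E.Nonsingular x y := by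
    intro x y hxy
    refine (Affine.equation_iff_nonsingular_of_Δ_ne_zero hΔ).mp ?_
    rw [Affine.equation_iff, ha1, ha2, ha3, ha4, ha6]
    linear_combination hxy
  have n0 := ns 0 0 (by ring)
  have n1 := ns 0 (-1) (by ring)
  have n2 := ns (-1) 0 (by ring)
  have d1 : (Affine.Point.some 0 0 n0 + Affine.Point.some 0 0 n0 : E.Point) =
      Affine.Point.some 0 (-1) n1 :=
    double_eq (-1) n0 n1 (by simp [Affine.negY, ha1, ha3]) (by simp [Affine.negY, ha1, ha2, ha3, ha4])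
      (by simp [ha1, ha2]) (by simp [ha1, ha3])
  have d2 : (-Affine.Point.some 0 0 n0 : E.Point) = Affine.Point.some 0 (-1) n1 := by
    rw [Affine.Point.neg_some]
    simp [Affine.negY, ha3]
  have d3 : (Affine.Point.some (-1) 0 n2 + Affine.Point.some (-1) 0 n2 : E.Point) = 0 :=
    neg_eq_self n2 (by simp [Affine.negY, ha1, ha3])
  have h3 : (3 : ℕ) • (Affine.Point.some 0 0 n0 : E.Point) = 0 := by
    rw [show (3 : ℕ) = 2 + 1 by norm_num, add_smul, one_smul, two_smul, d1, ← d2, neg_add_cancel]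
  have h2 : (2 : ℕ) • (Affine.Point.some (-1) 0 n2 : E.Point) = 0 := by
    rw [two_smul, d3]
  have : Fact (Nat.Prime 3) := ⟨Nat.prime_three⟩
  have h6 := addOrderOf_eq_prime (p := 3) h3 (Affine.Point.some_ne_zero n0)
  have h6' := addOrderOf_eq_prime (p := 2) h2 (Affine.Point.some_ne_zero n2)
  have h7 := addOrderOf_dvd_natCard (Affine.Point.some 0 0 n0 : E.Point)
  have h7' := addOrderOf_dvd_natCard (Affine.Point.some (-1) 0 n2 : E.Point)
  rw [h6] at h7
  rw [h6'] at h7'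
  have h8 : (p : ℤ) + 1 - ((p : ℤ) + 1 - (Nat.card E.Point : ℤ)) = (Nat.card E.Point : ℤ) := by ring
  have h9 := Nat.Coprime.mul_dvd_of_dvd_of_dvd (by decide) h7 h7'
  rw [h8]
  exact_mod_cast h9

/-- the congruence `a(p) ≡ p + 1` modulo `4` in level `15` -/
theorem four_dvd {p : ℕ} (hp : p.Prime) (hp3 : p ≠ 3) (hp5 : p ≠ 5) : (4 : ℤ) ∣ p + 1 - a15 p := by
  have : Fact p.Prime := ⟨hp⟩
  obtain ⟨f, -, -, hf⟩ := exists_form (N := 15) (e := 24) (k := 1) (by decide) (by decide)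
    (by decide) (by decide) squarefree_15 W15 (by rw [W15_Δ]; decide)
    W15_semistable W15_supp
  have h1 := hf p p hp (coprime_15 hp hp3 hp5) le_rfl
  rw [← a15_eq, apOfModel, traceOfFrobenius, card, Nat.card_zmod] at h1
  rw [← h1]
  have hΔ : (W15.reductionMod p).Δ ≠ 0 := by
    rw [reductionMod, map_Δ]
    intro h0
    exact coprime_15 hp hp3 hp5 ((W15_supp p hp).mp
      ((ZMod.intCast_zmod_eq_zero_iff_dvd _ _).mp (by simpa using h0)))
  set E := (W15.reductionMod p).toAffine with hE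
  have ha : E.a₁ = 1 ∧ E.a₂ = 1 ∧ E.a₃ = 1 ∧ E.a₄ = 0 ∧ E.a₆ = 0 := by
    simp [hE, reductionMod, W15]
  obtain ⟨ha1, ha2, ha3, ha4, ha6⟩ := ha
  have ns : ∀ x y : ZMod p, y ^ 2 + x * y + y = x ^ 3 + x ^ 2 → E.Nonsingular x y := by
    intro x y hxy
    refine (Affine.equation_iff_nonsingular_of_Δ_ne_zero hΔ).mp ?_
    rw [Affine.equation_iff, ha1, ha2, ha3, ha4, ha6]
    linear_combination hxy
  have n0 := ns 0 0 (by ring)
  have n1 := ns (-1) 0 (by ring)
  have d1 : (Affine.Point.some 0 0 n0 + Affine.Point.some 0 0 n0 : E.Point) =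
      Affine.Point.some (-1) 0 n1 :=
    double_eq 0 n0 n1 (by simp [Affine.negY, ha1, ha3]) (by simp [ha1, ha2, ha4])
      (by simp [ha1, ha2]) (by simp [ha1, ha3])
  have d3 : (Affine.Point.some (-1) 0 n1 + Affine.Point.some (-1) 0 n1 : E.Point) = 0 :=
    neg_eq_self n1 (by simp [Affine.negY, ha1, ha3])
  have h3 : (2 ^ 1 : ℕ) • (Affine.Point.some 0 0 n0 : E.Point) ≠ 0 := by
    rw [pow_one, two_smul, d1]
    exact Affine.Point.some_ne_zero n1
  have h2 : (2 ^ (1 + 1) : ℕ) • (Affine.Point.some 0 0 n0 : E.Point) = 0 := by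
    rw [pow_succ, pow_one, mul_smul, two_smul, two_smul, d1, d3]
  have h6 := addOrderOf_eq_prime_pow (p := 2) (n := 1) h3 h2
  have h7 := addOrderOf_dvd_natCard (Affine.Point.some 0 0 n0 : E.Point)
  rw [h6] at h7
  have h8 : (p : ℤ) + 1 - ((p : ℤ) + 1 - (Nat.card E.Point : ℤ)) = (Nat.card E.Point : ℤ) := by ring
  rw [h8]
  exact_mod_cast h7

end

end Fermat.Agent.Cor.Eichler
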