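import Mathlib
import Fermat.Agent.Cor.SupersingularJ
import Fermat.Agent.M5.CuspCases
import Fermat.Agent.H14.Gamma0

/-!
# Cusp forms of prime level and supersingular curves

For a prime `p ≥ 5` the space of cusp forms of weight `2` for `Γ₀(p)` has dimension one less than the number of
supersingular `j`-invariants in characteristic `p` (Eichler, Deuring).

This file is not used by any of the statement files.
-/

set_option autoImplicit false

namespace Fermat.Agent.Cor.Bounds

open ModularCurve

variable {p : ℕ} [hp : Fact p.Prime]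

/-- the number of roots of `x² + b x + 1` over a field in which `b² ≠ 4` -/
lemma card_roots_quadratic {k : Type*} [Field k] {b w : k} (hw : w ^ 2 + b * w + 1 = 0)
    (hdisc : b ^ 2 - 4 ≠ 0) : Nat.card {x : k // x ^ 2 + b * x + 1 = 0} = 2 := by
  classical
  have h1 : ∀ x : k, x ^ 2 + b * x + 1 = 0 ↔ x ∈ ({w, -b - w} : Finset k) := by
    intro x
    rw [Finset.mem_insert, Finset.mem_singleton]
    constructor
    · intro hx
      have h2 : (x - w) * (x - (-b - w)) = 0 := by linear_combination hx - hw
      rcases mul_eq_zero.mp h2 with h3 | h3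
      · left; exact sub_eq_zero.mp h3
      · right; exact sub_eq_zero.mp h3
    · rintro (rfl | rfl)
      · exact hw
      · linear_combination hw
  have h2 : w ≠ -b - w := by
    intro h
    apply hdisc
    linear_combination (2 * w + b) * h - 4 * hw
  rw [Nat.card_congr (Equiv.subtypeEquivRight h1), Nat.card_eq_fintype_card, Fintype.card_coe,
    Finset.card_pair h2]

lemma nuTwo_prime (h5 : 5 ≤ p) : nuTwo p = if p % 4 = 1 then 2 else 0 := by
  have hodd : p % 2 = 1 := Nat.odd_iff.mp (hp.out.odd_of_ne_two (by omega))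
  split_ifs with h
  · obtain ⟨w, hw⟩ := (ZMod.exists_sq_eq_neg_one_iff (p := p)).mpr (by omega)
    have h4 : ((0 : ZMod p)) ^ 2 - 4 ≠ 0 := by
      intro h0
      have h1 : ((4 : ℕ) : ZMod p) = 0 := by
        push_cast
        linear_combination - h0
      rw [ZMod.natCast_eq_zero_iff] at h1
      have := Nat.le_of_dvd (by norm_num) h1
      omega
    have h2 := card_roots_quadratic (k := ZMod p) (b := 0) (w := w) (by linear_combination - hw) h4
    rw [nuTwo]
    refine (Nat.card_congr (Equiv.subtypeEquivRight fun x => ?_)).trans h2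
    rw [zero_mul, add_zero]
  · rw [nuTwo, Nat.card_eq_zero]
    left
    refine ⟨fun x => ?_⟩
    have h1 : IsSquare (-1 : ZMod p) := ⟨x.1, by linear_combination - x.2⟩
    rw [ZMod.exists_sq_eq_neg_one_iff] at h1
    omega

lemma nuThree_prime (h5 : 5 ≤ p) : nuThree p = if p % 3 = 1 then 2 else 0 := by
  have h3 : (3 : ZMod p) ≠ 0 := by
    intro h0
    have h1 : ((3 : ℕ) : ZMod p) = 0 := by exact_mod_cast h0
    rw [ZMod.natCast_eq_zero_iff] at h1
    have := Nat.le_of_dvd (by norm_num) h1
    omega
  split_ifs with h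
  · have hdvd : 3 ∣ Nat.card (ZMod p)ˣ := by
      rw [Nat.card_eq_fintype_card, ZMod.card_units]
      omega
    have : Fact (Nat.Prime 3) := ⟨Nat.prime_three⟩
    obtain ⟨u, hu⟩ := exists_prime_orderOf_dvd_card' (G := (ZMod p)ˣ) 3 hdvd
    set w : ZMod p := (u : ZMod p) with hw
    have h1 : w ^ 3 = 1 := by
      rw [hw, ← Units.val_pow_eq_pow_val, ← hu, pow_orderOf_eq_one, Units.val_one]
    have h2 : w ≠ 1 := by
      intro h
      have h4 : u = 1 := Units.ext h
      rw [h4, orderOf_one] at hu
      omega
    have h4 : w ^ 2 + 1 * w + 1 = 0 := by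
      have h5 : (w - 1) * (w ^ 2 + 1 * w + 1) = 0 := by linear_combination h1
      exact (mul_eq_zero.mp h5).resolve_left (sub_ne_zero.mpr h2)
    have h6 := card_roots_quadratic h4 (by
      intro h0
      apply h3
      linear_combination - h0)
    rw [nuThree]
    refine (Nat.card_congr (Equiv.subtypeEquivRight fun x => ?_)).trans h6
    rw [one_mul]
  · rw [nuThree, Nat.card_eq_zero]
    left
    refine ⟨fun x => ?_⟩
    have h1 : x.1 ^ 3 = 1 := by linear_combination (x.1 - 1) * x.2
    have h2 : x.1 ≠ 1 := by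
      intro h
      apply h3
      have h4 := x.2
      rw [h] at h4
      linear_combination h4
    have h4 : orderOf x.1 = 3 := by
      have : Fact (Nat.Prime 3) := ⟨Nat.prime_three⟩
      exact orderOf_eq_prime h1 h2
    have h5 : x.1 ≠ 0 := by
      intro h
      rw [h, zero_pow three_ne_zero] at h1
      exact zero_ne_one h1
    have h6 : 3 ∣ p - 1 := by
      rw [← h4]
      exact orderOf_dvd_of_pow_eq_one (ZMod.pow_card_sub_one_eq_one h5)
    have h7 := hp.out.two_le
    omega

/-- **The dimension of `S₂(Γ₀(p))` and the supersingular curves.** -/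
theorem finrank_add_one_eq_card_supersingular (h5 : 5 ≤ p)
    [DecidableEq (AlgebraicClosure (ZMod p))] :
    Module.finrank ℂ (CuspForm (CongruenceSubgroup.Gamma0 p) 2) + 1 =
      Nat.card {j : AlgebraicClosure (ZMod p) // IsSupersingularJ p j} := by
  have hne : NeZero p := ⟨hp.out.ne_zero⟩
  have h1 := Fermat.Agent.H14.finrank_cuspForm_two p
  have h2 := Fermat.Agent.M5.dedekindPsi_prime hp.out
  have h3 : cuspCount p = 2 := by
    rw [cuspCount, hp.out.divisors, Finset.sum_pair hp.out.one_lt.ne]
    simp [Nat.div_self hp.out.pos]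
  rw [genusFormula, h2, h3, nuTwo_prime h5, nuThree_prime h5] at h1
  rw [card_supersingular_j h5]
  have hodd : p % 2 = 1 := Nat.odd_iff.mp (hp.out.odd_of_ne_two (by omega))
  have hmod3 : p % 3 ≠ 0 := by
    intro h
    have h4 : 3 ∣ p := Nat.dvd_of_mod_eq_zero h
    have := (Nat.prime_dvd_prime_iff_eq Nat.prime_three hp.out).mp h4
    omega
  set g := Module.finrank ℂ (CuspForm (CongruenceSubgroup.Gamma0 p) 2) with hg
  have hkey : 12 * (g : ℤ) + 3 * (if p % 4 = 1 then 2 else 0) + 4 * (if p % 3 = 1 then 2 else 0) =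
      p + 1 := by
    have h4 : (12 * (g : ℚ) + 3 * (if p % 4 = 1 then 2 else 0) + 4 * (if p % 3 = 1 then 2 else 0)) =
        p + 1 := by
      rw [h1]
      push_cast
      split_ifs <;> ring
    have h5 : ((12 * (g : ℤ) + 3 * (if p % 4 = 1 then 2 else 0) + 4 * (if p % 3 = 1 then 2 else 0) : ℤ) : ℚ) =
        ((p + 1 : ℤ) : ℚ) := by
      push_cast
      split_ifs at h4 ⊢ <;> linarith
    exact_mod_cast h5
  split_ifs at hkey ⊢ <;> omega

end Fermat.Agent.Cor.Bounds
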