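import Mathlib
import Fermat.Agent.Cor.Eichler
import Fermat.Agent.Cor.Parity
import Fermat.Agent.Cor.Hasse

set_option autoImplicit false

/-!
# The newforms of level 11, 14, 15: Hasse's bound, zeros, and the central value

Let `N = 11, 14, 15` and let `f` be a cusp form of weight two for `Γ₀(N)` whose first Fourier
coefficient is `1`, so that `f ^ e = ∏_{d ∣ N} Δ(d z)` (`Fermat.Agent.Cor.EtaQuot`).

* `a11_sq_lt`, `a14_sq_lt`, `a15_sq_lt`: the coefficients `a(p)` of the eta products satisfy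
  `a(p) ^ 2 < 4 p` (Hasse's bound for the corresponding elliptic curves);
* `form_ne_zero`: `f` has no zeros in the upper half plane;
* `vi_pos`: `f(i t)` is a positive real number for all `t > 0`;
* `central_value_11`, `central_value_14`, `central_value_15`: `L(f, 1)` is a positive real number;
* `analyticRank_11`, ...: the order of vanishing of `L(f, s)` at `s = 1` is `0`;
* `curve_central_value_pos`: the same for the newform of every semistable elliptic curve over `ℚ`
  whose bad primes are the prime divisors of `N`.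

This file is not used by any of the statement files.
-/

namespace Fermat.Agent.Cor.Eichler

open CongruenceSubgroup ModularFormClass Complex MeasureTheory Set Filter
open UpperHalfPlane hiding I
open scoped MatrixGroups Real Topology ComplexConjugate
open Fermat.Agent.IntStr

noncomputable section

/-! ### Hasse's bound for the coefficients -/

/-- `a(p)² < 4 p` in level `11` -/
theorem a11_sq_lt {p : ℕ} (hp : p.Prime) (h11 : p ≠ 11) : a11 p ^ 2 < 4 * p := by
  obtain ⟨f, -, -, hf⟩ := exists_form (N := 11) (e := 12) (k := 2) (by decide) (by decide)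
    (by decide) (by decide) (Nat.prime_eleven.squarefree) W11 (by rw [W11_Δ]; decide)
    W11_semistable W11_supp
  rw [a11_eq, ← hf p p hp (coprime_11 hp h11) le_rfl]
  exact Bounds.apOfModel_sq_lt W11 hp fun h ↦ coprime_11 hp h11 ((W11_supp p hp).mp h)

/-- `a(p)² < 4 p` in level `14` -/
theorem a14_sq_lt {p : ℕ} (hp : p.Prime) (h2 : p ≠ 2) (h7 : p ≠ 7) : a14 p ^ 2 < 4 * p := by
  obtain ⟨f, -, -, hf⟩ := exists_form (N := 14) (e := 24) (k := 1) (by decide) (by decide)
    (by decide) (by decide) squarefree_14 W14 (by rw [W14_Δ]; decide) W14_semistable W14_supp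
  rw [a14_eq, ← hf p p hp (coprime_14 hp h2 h7) le_rfl]
  exact Bounds.apOfModel_sq_lt W14 hp fun h ↦ coprime_14 hp h2 h7 ((W14_supp p hp).mp h)

/-- `a(p)² < 4 p` in level `15` -/
theorem a15_sq_lt {p : ℕ} (hp : p.Prime) (h3 : p ≠ 3) (h5 : p ≠ 5) : a15 p ^ 2 < 4 * p := by
  obtain ⟨f, -, -, hf⟩ := exists_form (N := 15) (e := 24) (k := 1) (by decide) (by decide)
    (by decide) (by decide) squarefree_15 W15 (by rw [W15_Δ]; decide) W15_semistable W15_supp
  rw [a15_eq, ← hf p p hp (coprime_15 hp h3 h5) le_rfl]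
  exact Bounds.apOfModel_sq_lt W15 hp fun h ↦ coprime_15 hp h3 h5 ((W15_supp p hp).mp h)

/-! ### Values on the imaginary axis -/

theorem coe_it {t : ℝ} (ht : 0 < t) : ((ofComplex (I * t) : ℍ) : ℂ) = I * t := by
  rw [ofComplex_apply_of_im_pos (by simpa using ht)]

theorem qParam_it {t : ℝ} (ht : 0 < t) :
    Function.Periodic.qParam 1 ((ofComplex (I * t) : ℍ) : ℂ) = (Real.exp (-(2 * π * t)) : ℂ) := by
  rw [coe_it ht, Function.Periodic.qParam]
  push_cast
  congr 1
  have := I_mul_I
  linear_combination (2 * π * t : ℂ) * this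

variable {N : ℕ} [NeZero N]

theorem conj_it (f : CuspForm (Gamma0 N) 2) (hreal : ∀ n, conj (qCoeff f n) = qCoeff f n)
    {t : ℝ} (ht : 0 < t) : conj (f (ofComplex (I * t))) = f (ofComplex (I * t)) := by
  have hf := AL.coe_mem_QR f
  have h1 := UpperHalfPlane.hasSum_qExpansion one_pos hf.1 hf.2.1 hf.2.2 (ofComplex (I * t))
  have h2 := h1.map (starRingEnd ℂ) continuous_conj
  refine h2.unique ?_
  convert h1 using 1
  funext n
  simp only [Function.comp_apply, smul_eq_mul, map_mul, map_pow]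
  rw [qParam_it ht, conj_ofReal]
  congr 1
  exact hreal n

/-- the values on the imaginary axis -/
def vi (f : ℍ → ℂ) (t : ℝ) : ℝ := (f (ofComplex (I * t))).re

theorem vi_eq (f : CuspForm (Gamma0 N) 2) (hreal : ∀ n, conj (qCoeff f n) = qCoeff f n)
    {t : ℝ} (ht : 0 < t) : f (ofComplex (I * t)) = (vi f t : ℂ) := by
  rw [vi, conj_eq_iff_re.mp (conj_it f hreal ht)]

omit [NeZero N] in
theorem continuousOn_it (f : CuspForm (Gamma0 N) 2) :
    ContinuousOn (fun t : ℝ ↦ f (ofComplex (I * t))) (Ioi 0) := by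
  have h1 := (UpperHalfPlane.mdifferentiable_iff.mp (CuspFormClass.holo f)).continuousOn
  have h2 : ContinuousOn (fun t : ℝ ↦ I * (t : ℂ)) (Ioi 0) := by fun_prop
  exact h1.comp h2 fun t ht ↦ by simpa using ht

omit [NeZero N] in
theorem continuousOn_vi (f : CuspForm (Gamma0 N) 2) : ContinuousOn (vi f) (Ioi 0) :=
  continuous_re.comp_continuousOn (continuousOn_it f)

/-- the behaviour at infinity -/
theorem tendsto_vi (f : CuspForm (Gamma0 N) 2) (hreal : ∀ n, conj (qCoeff f n) = qCoeff f n)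
    (h1 : qCoeff f 1 = 1) :
    Tendsto (fun t : ℝ ↦ vi f t / Real.exp (-(2 * π * t))) atTop (𝓝 1) := by
  have hf := AL.coe_mem_QR f
  set F := cuspFunction 1 f with hF
  have han : AnalyticAt ℂ F 0 := QR.analyticAt one_pos hf
  have h0 : F 0 = 0 := by
    have := coeff_zero_cusp f
    rw [qExpansion_coeff] at this
    simpa using this
  have hd : deriv F 0 = 1 := by
    have := h1
    rw [qCoeff, qExpansion_coeff, iteratedDeriv_one] at this
    simpa using this
  have h2 : HasDerivAt F 1 0 := by rw [← hd]; exact han.differentiableAt.hasDerivAt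
  rw [hasDerivAt_iff_tendsto_slope_zero] at h2
  have h3 : Tendsto (fun t : ℝ ↦ ((Real.exp (-(2 * π * t)) : ℝ) : ℂ)) atTop (𝓝[≠] 0) := by
    rw [tendsto_nhdsWithin_iff]
    refine ⟨?_, Eventually.of_forall fun t ↦ ?_⟩
    · have : Tendsto (fun t : ℝ ↦ Real.exp (-(2 * π * t))) atTop (𝓝 0) := by
        refine Real.tendsto_exp_neg_atTop_nhds_zero.comp ?_
        exact tendsto_id.const_mul_atTop (by positivity)
      have h4 := (continuous_ofReal.tendsto 0).comp this
      rw [ofReal_zero] at h4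
      exact h4
    · simp only [mem_compl_iff, mem_singleton_iff]
      exact_mod_cast (Real.exp_pos _).ne'
  have h4 := h2.comp h3
  have h5 := (continuous_re.tendsto 1).comp h4
  rw [one_re] at h5
  refine h5.congr' ?_
  filter_upwards [eventually_gt_atTop 0] with t ht
  simp only [Function.comp_apply]
  rw [zero_add, h0, sub_zero, ← qParam_it ht, hF, eq_cuspFunction _ one_ne_zero hf.1, qParam_it ht,
    vi_eq f hreal ht, smul_eq_mul, ← ofReal_inv, ← ofReal_mul, ofReal_re, div_eq_inv_mul]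

theorem vi_pos (f : CuspForm (Gamma0 N) 2) (hreal : ∀ n, conj (qCoeff f n) = qCoeff f n)
    (h1 : qCoeff f 1 = 1) (hne : ∀ z, f z ≠ 0) {t : ℝ} (ht : 0 < t) : 0 < vi f t := by
  have hv : ∀ s : ℝ, 0 < s → vi f s ≠ 0 := by
    intro s hs h
    have := vi_eq f hreal hs
    rw [h, ofReal_zero] at this
    exact hne _ this
  have h2 := (tendsto_vi f hreal h1).eventually (lt_mem_nhds (show (0 : ℝ) < 1 by norm_num))
  obtain ⟨s, hs, hs0⟩ := (h2.and (eventually_gt_atTop 0)).exists
  have hs1 : 0 < vi f s := by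
    have := (div_pos_iff_of_pos_right (Real.exp_pos (-(2 * π * s)))).mp hs
    exact this
  by_contra h
  rw [not_lt] at h
  have h3 : (0 : ℝ) ∈ vi f '' (Ioi 0) := by
    refine isPreconnected_Ioi.intermediate_value (mem_Ioi.mpr ht) (mem_Ioi.mpr hs0)
      (continuousOn_vi f) ⟨h, hs1.le⟩
  obtain ⟨u, hu, hu0⟩ := h3
  exact hv u hu hu0

/-- **Positivity of the central value.** -/
theorem LF_one_pos (f : CuspForm (Gamma0 N) 2) (hreal : ∀ n, conj (qCoeff f n) = qCoeff f n)
    (h1 : qCoeff f 1 = 1) (hne : ∀ z, f z ≠ 0) : ∃ x : ℝ, 0 < x ∧ LFun.LF f 1 = x := by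
  have hk : (0 : ℤ) < 2 := by norm_num
  have hm := ((CuspForm.isStrongFEPair hk f).hasMellin 1).1
  have hint : IntegrableOn (fun t : ℝ ↦ f (ofComplex (I * t))) (Ioi 0) := by
    have h1 : IntegrableOn (fun t : ℝ ↦ (t : ℂ) ^ ((1 : ℂ) - 1) •
        (ModularForm.weakFEPair hk f).f t) (Ioi 0) := hm
    simpa using h1
  have h2 : ModularForm.Λ hk f 1 = ∫ t in Ioi (0 : ℝ), f (ofComplex (I * t)) := by
    rw [CuspForm.Λ_eq_mellin, mellin]
    simp
  have hvi : IntegrableOn (vi f) (Ioi 0) := hint.re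
  have h3 : ∫ t in Ioi (0 : ℝ), f (ofComplex (I * t)) = ((∫ t in Ioi (0 : ℝ), vi f t : ℝ) : ℂ) := by
    rw [← integral_complex_ofReal]
    exact setIntegral_congr_fun measurableSet_Ioi fun t ht ↦ vi_eq f hreal ht
  have h4 : 0 < ∫ t in Ioi (0 : ℝ), vi f t := by
    rw [setIntegral_pos_iff_support_of_nonneg_ae
      ((ae_restrict_mem measurableSet_Ioi).mono fun t ht ↦ (vi_pos f hreal h1 hne ht).le) hvi]
    have h5 : Ioi (0 : ℝ) ⊆ Function.support (vi f) ∩ Ioi 0 := fun t ht ↦
      ⟨(vi_pos f hreal h1 hne ht).ne', ht⟩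
    exact lt_of_lt_of_le (by simp) (measure_mono h5)
  refine ⟨2 * π * ∫ t in Ioi (0 : ℝ), vi f t, by positivity, ?_⟩
  rw [LFun.LF, ModularForm.L]
  have h5 : (2 / Gammaℂ 1 : ℂ) = 2 * π := by
    rw [Gammaℂ]
    simp only [Complex.Gamma_one, mul_one, Complex.cpow_neg_one]
    have : (π : ℂ) ≠ 0 := by exact_mod_cast Real.pi_ne_zero
    field_simp
  rw [h5, h2, h3]
  push_cast
  ring

section Level

variable {e k : ℕ} (h2 : e * 2 = 12 * N.divisors.card)
    (h3 : ∀ g ∈ N.divisors, ∑ d ∈ N.divisors, Nat.gcd d g ^ 2 * (N / d) ≤ e * g)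
    (hsum : ∑ d ∈ N.divisors, d = e) (hek : e * k = 24)

include h2 h3 hek

/-- the form has no zeros in the upper half plane -/
theorem form_ne_zero (f : CuspForm (Gamma0 N) 2) (h1 : qCoeff f 1 = 1) (z : ℍ) : f z ≠ 0 := by
  have he : e ≠ 0 := by rintro rfl; simp at hek
  obtain ⟨c, hc⟩ := exists_const h2 h3 f
  have hc0 : c ≠ 0 := by
    rintro rfl
    have h4 : f = 0 := by
      ext w
      have := hc w
      rw [zero_mul] at this
      exact pow_eq_zero_iff he |>.mp this
    rw [h4] at h1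
    have h5 : qCoeff (0 : CuspForm (Gamma0 N) 2) 1 = 0 := AL.qCoeff_zero' 1
    rw [h5] at h1
    exact zero_ne_one h1
  intro h
  have h4 := hc z
  rw [h, zero_pow he] at h4
  exact mul_ne_zero hc0 (PN_ne_zero N z) h4.symm

include hsum

theorem central_value_pos (f : CuspForm (Gamma0 N) 2) (h1 : qCoeff f 1 = 1) :
    ∃ x : ℝ, 0 < x ∧ LFun.LF f 1 = x := by
  refine LF_one_pos f (fun n ↦ ?_) h1 (form_ne_zero h2 h3 hek f h1)
  rw [qCoeff, qCoeff_eq h2 h3 hsum hek f h1 (le_refl n)]
  exact map_intCast _ _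

theorem analyticRank_eq_zero (f : CuspForm (Gamma0 N) 2) (h1 : qCoeff f 1 = 1) :
    Parity.analyticRank f = 0 := by
  obtain ⟨x, hx, hx1⟩ := central_value_pos h2 h3 hsum hek f h1
  rw [Parity.analyticRank, analyticOrderNatAt,
    ((LFun.differentiable_LF f).analyticAt 1).analyticOrderAt_eq_zero.mpr]
  · rfl
  · rw [hx1]; exact_mod_cast hx.ne'

/-- **The central value of the L-function of the curves of conductor `11`, `14`, `15`.** -/
theorem curve_central_value_pos (hN : Squarefree N)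
    (W : WeierstrassCurve ℤ) (hΔ : W.Δ ≠ 0) (hW : W.IsSemistableModel)
    (hs : ∀ q : ℕ, q.Prime → ((q : ℤ) ∣ W.Δ ↔ q ∣ N)) :
    ∃ f : CuspForm (Gamma0 N) 2, f.IsNormalizedEigenform ∧
      (∀ p : ℕ, p.Prime → ¬ p ∣ N → qCoeff f p = (W.apOfModel p : ℂ)) ∧
      Parity.analyticRank f = 0 ∧ ∃ x : ℝ, 0 < x ∧ LFun.LF f 1 = x := by
  obtain ⟨f, hf, hf1, hf2⟩ := exists_form h2 h3 hsum hek hN W hΔ hW hs
  refine ⟨f, hf, fun p hp hpN ↦ ?_, analyticRank_eq_zero h2 h3 hsum hek f hf.qCoeff_one,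
    central_value_pos h2 h3 hsum hek f hf.qCoeff_one⟩
  rw [hf1 p p le_rfl, hf2 p p hp hpN le_rfl]

end Level

/-- `L(f, 1) > 0` in level `11` -/
theorem central_value_11 (f : CuspForm (Gamma0 11) 2) (h1 : qCoeff f 1 = 1) :
    ∃ x : ℝ, 0 < x ∧ LFun.LF f 1 = x :=
  central_value_pos (e := 12) (k := 2) (by decide) (by decide) (by decide) (by decide) f h1

/-- `L(f, 1) > 0` in level `14` -/
theorem central_value_14 (f : CuspForm (Gamma0 14) 2) (h1 : qCoeff f 1 = 1) :
    ∃ x : ℝ, 0 < x ∧ LFun.LF f 1 = x :=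
  central_value_pos (e := 24) (k := 1) (by decide) (by decide) (by decide) (by decide) f h1

/-- `L(f, 1) > 0` in level `15` -/
theorem central_value_15 (f : CuspForm (Gamma0 15) 2) (h1 : qCoeff f 1 = 1) :
    ∃ x : ℝ, 0 < x ∧ LFun.LF f 1 = x :=
  central_value_pos (e := 24) (k := 1) (by decide) (by decide) (by decide) (by decide) f h1

theorem analyticRank_11 (f : CuspForm (Gamma0 11) 2) (h1 : qCoeff f 1 = 1) :
    Parity.analyticRank f = 0 :=
  analyticRank_eq_zero (e := 12) (k := 2) (by decide) (by decide) (by decide) (by decide) f h1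

theorem analyticRank_14 (f : CuspForm (Gamma0 14) 2) (h1 : qCoeff f 1 = 1) :
    Parity.analyticRank f = 0 :=
  analyticRank_eq_zero (e := 24) (k := 1) (by decide) (by decide) (by decide) (by decide) f h1

theorem analyticRank_15 (f : CuspForm (Gamma0 15) 2) (h1 : qCoeff f 1 = 1) :
    Parity.analyticRank f = 0 :=
  analyticRank_eq_zero (e := 24) (k := 1) (by decide) (by decide) (by decide) (by decide) f h1

end

end Fermat.Agent.Cor.Eichler
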