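import Fermat.Agent.Cor.EigenTable
import Fermat.Agent.AL.Newform

/-!
# Newforms of weight two and level 34 and 38

* `newform_thirtyfour`: a newform of level `34` has `a₃ = -2`, `a₅ = 0`;
* `newform_thirtyeight`: a newform of level `38` has `(a₃, a₅) = (1, 0)` or `(-1, -4)`.

This file is not used by any of the statement files.
-/

set_option autoImplicit false

namespace Fermat.Agent.Cor.EigenTable

open ModularCurve ModularFormClass CongruenceSubgroup WeierstrassCurve
open Fermat.Agent.Main Fermat.Agent.Cor.GenusOne Fermat.Agent.Cor.SmallConductor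

section Lin

variable {N : ℕ} [NeZero N]

/-- **The eigenvalues of the eigenforms in terms of a basis of eigenforms.** -/
theorem eigen_combination {r : ℕ} (hg : genusFormula N = r)
    {F : Fin r → CuspForm (Gamma0 N) 2}
    (hF : ∀ c : Fin r → ℂ, (∀ n, ∑ i, c i * qCoeff (F i) n = 0) → ∀ i, c i = 0)
    {ℓ : ℕ} (hℓ : ℓ.Prime) (hℓN : ¬ ℓ ∣ N) (x : Fin r → ℂ)
    (hT : ∀ i, CuspForm.heckeTLin 2 hℓ hℓN (F i) = x i • F i)
    {f : CuspForm (Gamma0 N) 2} (hf : f.IsNormalizedEigenform) :
    ∃ c : Fin r → ℂ, (∀ n, qCoeff f n = ∑ i, c i * qCoeff (F i) n) ∧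
      ∀ i, c i ≠ 0 → qCoeff f ℓ = x i := by
  obtain ⟨c, hc⟩ := exists_combination hg hF f
  refine ⟨c, hc, fun i hi => ?_⟩
  have hfs : f = ∑ i, c i • F i := H23.eq_of_qCoeff_eq fun n => by rw [hc, qCoeff_sum]
  have h1 : CuspForm.heckeTLin 2 hℓ hℓN f = ∑ i, (c i * x i) • F i := by
    conv_lhs => rw [hfs]
    rw [map_sum]
    refine Finset.sum_congr rfl fun i _ => ?_
    rw [map_smul, hT, smul_smul]
  rw [H23.heckeTLin_eigen hf hℓ hℓN] at h1
  have h2 := hF (fun i => c i * (qCoeff f ℓ - x i)) (fun n => by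
    have h3 := congrArg (coeffL N n) h1
    rw [map_smul, coeffL_apply, coeffL_apply, qCoeff_sum, smul_eq_mul, hc n] at h3
    rw [Finset.mul_sum, ← sub_eq_zero, ← Finset.sum_sub_distrib] at h3
    rw [← h3]
    refine Finset.sum_congr rfl fun i _ => ?_
    ring) i
  rcases mul_eq_zero.mp h2 with h3 | h3
  · exact absurd h3 hi
  · exact sub_eq_zero.mp h3

end Lin

/-- the two oldforms of level `2M` attached to an eigenform of odd level `M` -/
theorem exists_old {M : ℕ} [NeZero M] {N : ℕ} [NeZero N] (hN : M * 2 = N) {ℓ : ℕ} (hℓ : ℓ.Prime)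
    (hℓN : ¬ ℓ ∣ N) {h : CuspForm (Gamma0 M) 2} (hh : h.IsNormalizedEigenform) {a : ℂ}
    (ha : qCoeff h ℓ = a) : ∃ h₁ h₂ : CuspForm (Gamma0 N) 2, (∀ n, qCoeff h₁ n = qCoeff h n) ∧
      (∀ n, qCoeff h₂ n = if 2 ∣ n then qCoeff h (n / 2) else 0) ∧
      CuspForm.heckeTLin 2 hℓ hℓN h₁ = a • h₁ ∧ CuspForm.heckeTLin 2 hℓ hℓN h₂ = a • h₂ := by
  have hℓM : ¬ ℓ ∣ M := fun h => hℓN (h.trans ⟨2, hN.symm⟩)
  have hT := H23.heckeTLin_eigen hh hℓ hℓM
  refine ⟨AL.degen (M := M) (N := N) (d := 1) one_pos ⟨2, by rw [mul_one, hN]⟩ 2 h,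
    AL.degen (M := M) (N := N) (d := 2) two_pos (by rw [hN]) 2 h, fun n => ?_,
    fun n => AL.qCoeff_degen _ _ _ _, ?_, ?_⟩
  · rw [AL.qCoeff_degen, if_pos (one_dvd n), Nat.div_one]
  · rw [← AL.degen_heckeTLin _ _ _ hℓ hℓM hℓN, hT, map_smul, ha]
  · rw [← AL.degen_heckeTLin _ _ _ hℓ hℓM hℓN, hT, map_smul, ha]

/-- **Level `34`**: a newform of level `34` has `a₃ = -2` and `a₅ = 0`. -/
theorem newform_thirtyfour {f : CuspForm (Gamma0 34) 2} (hf : f.IsNewform) :
    qCoeff f 3 = -2 ∧ qCoeff f 5 = 0 := by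
  obtain ⟨h, hh, kh⟩ := exists_form E17_Δ (by norm_num) E17_semistable conductorLevel_E17
  obtain ⟨g, hg, kg⟩ := exists_form E34_Δ (by norm_num) E34_semistable conductorLevel_E34
  have b3 := kg 3 _ (by norm_num) (by norm_num) E34_a3
  have b5 := kg 5 _ (by norm_num) (by norm_num) E34_a5
  push_cast at b3 b5
  obtain ⟨h₁, h₂, e1, e2, t1, t2⟩ := exists_old (M := 17) (N := 34) (ℓ := 3) (by norm_num)
    (by norm_num) (by norm_num) hh (a3_seventeen hh)
  have tg := H23.heckeTLin_eigen hg (ℓ := 3) (by norm_num) (by norm_num)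
  rw [b3] at tg
  obtain ⟨c, hc, hx⟩ := eigen_combination (r := 3) (by exact_mod_cast genus_thirtyfour)
    (F := ![h₁, h₂, g]) (by
      intro c hc
      simp only [Fin.sum_univ_three, Matrix.cons_val_zero, Matrix.cons_val_one,
        Matrix.cons_val_two, Matrix.head_cons, Matrix.tail_cons] at hc
      have k1 := hc 1
      rw [e1, e2, if_neg (by norm_num), hh.qCoeff_one, hg.qCoeff_one] at k1
      have k3 := hc 3
      rw [e1, e2, if_neg (by norm_num), a3_seventeen hh, b3] at k3
      have l2 : c 2 = 0 := by linear_combination -k3 / 2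
      have l0 : c 0 = 0 := by linear_combination k1 - l2
      have l1 : c 1 = 0 := by
        have k2 := hc 2
        rw [e1, e2, if_pos dvd_rfl, Nat.div_self two_pos, hh.qCoeff_one, l2, l0] at k2
        linear_combination k2
      intro i
      fin_cases i
      · exact l0
      · exact l1
      · exact l2) (ℓ := 3) (by norm_num) (by norm_num) ![0, 0, -2] (by
      intro i
      fin_cases i
      · exact t1
      · exact t2
      · exact tg) hf.1
  simp only [Fin.sum_univ_three, Matrix.cons_val_zero, Matrix.cons_val_one,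
    Matrix.cons_val_two, Matrix.head_cons, Matrix.tail_cons] at hc
  have k1 := hc 1
  rw [e1, e2, if_neg (by norm_num), hh.qCoeff_one, hg.qCoeff_one, hf.1.qCoeff_one] at k1
  have l2 : c 2 ≠ 0 := by
    intro h0
    refine hf.2 17 (by norm_num) (by norm_num) ⟨h, hh, fun ℓ hℓ hℓN => ?_⟩
    rw [hc, e1, e2, if_neg, h0]
    · rw [h0] at k1
      linear_combination qCoeff h ℓ * k1
    · intro h2
      exact hℓN (((Nat.prime_dvd_prime_iff_eq Nat.prime_two hℓ).mp h2) ▸ by norm_num)
  have l3 : qCoeff f 3 = -2 := hx 2 l2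
  have l0 : c 0 = 0 := by
    by_contra h0
    have := hx 0 h0
    rw [l3] at this
    simp at this
  refine ⟨l3, ?_⟩
  rw [hc, e1, e2, if_neg (by norm_num), b5, l0]
  ring

/-- **Level `38`**: a newform of level `38` has `(a₃, a₅) = (1, 0)` or `(-1, -4)`. -/
theorem newform_thirtyeight {f : CuspForm (Gamma0 38) 2} (hf : f.IsNewform) :
    (qCoeff f 3 = 1 ∧ qCoeff f 5 = 0) ∨ (qCoeff f 3 = -1 ∧ qCoeff f 5 = -4) := by
  obtain ⟨h, hh, kh⟩ := exists_form E19_Δ (by norm_num) E19_semistable conductorLevel_E19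
  obtain ⟨g, hg, kg⟩ := exists_form E38a_Δ (by norm_num) E38a_semistable conductorLevel_E38a
  obtain ⟨g', hg', kg'⟩ := exists_form E38b_Δ (by norm_num) E38b_semistable conductorLevel_E38b
  have b3 := kg 3 _ (by norm_num) (by norm_num) E38a_a3
  have b5 := kg 5 _ (by norm_num) (by norm_num) E38a_a5
  have d3 := kg' 3 _ (by norm_num) (by norm_num) E38b_a3
  have d5 := kg' 5 _ (by norm_num) (by norm_num) E38b_a5
  push_cast at b3 b5 d3 d5
  obtain ⟨h₁, h₂, e1, e2, t1, t2⟩ := exists_old (M := 19) (N := 38) (ℓ := 3) (by norm_num)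
    (by norm_num) (by norm_num) hh (a3_nineteen hh)
  have tg := H23.heckeTLin_eigen hg (ℓ := 3) (by norm_num) (by norm_num)
  rw [b3] at tg
  have tg' := H23.heckeTLin_eigen hg' (ℓ := 3) (by norm_num) (by norm_num)
  rw [d3] at tg'
  obtain ⟨c, hc, hx⟩ := eigen_combination (r := 4) (by exact_mod_cast genus_thirtyeight)
    (F := ![h₁, h₂, g, g']) (by
      intro c hc
      simp only [Fin.sum_univ_four, Matrix.cons_val_zero, Matrix.cons_val_one,
        Matrix.cons_val] at hc
      have k1 := hc 1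
      rw [e1, e2, if_neg (by norm_num), hh.qCoeff_one, hg.qCoeff_one, hg'.qCoeff_one] at k1
      have k3 := hc 3
      rw [e1, e2, if_neg (by norm_num), a3_nineteen hh, b3, d3] at k3
      have k5 := hc 5
      rw [e1, e2, if_neg (by norm_num), a5_nineteen hh, b5, d5] at k5
      have l0 : c 0 = 0 := by linear_combination (2 * k1 - 2 * k3 + k5) / 9
      have l2 : c 2 = 0 := by linear_combination (11 * k1 + 7 * k3 + k5) / 18
      have l3 : c 3 = 0 := by linear_combination (k1 - k3 - k5) / 6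
      have l1 : c 1 = 0 := by
        have k2 := hc 2
        rw [e1, e2, if_pos dvd_rfl, Nat.div_self two_pos, hh.qCoeff_one, l2, l0, l3] at k2
        linear_combination k2
      intro i
      fin_cases i
      · exact l0
      · exact l1
      · exact l2
      · exact l3) (ℓ := 3) (by norm_num) (by norm_num) ![-2, -2, 1, -1] (by
      intro i
      fin_cases i
      · exact t1
      · exact t2
      · exact tg
      · exact tg') hf.1
  simp only [Fin.sum_univ_four, Matrix.cons_val_zero, Matrix.cons_val_one,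
    Matrix.cons_val] at hc
  have k1 := hc 1
  rw [e1, e2, if_neg (by norm_num), hh.qCoeff_one, hg.qCoeff_one, hg'.qCoeff_one,
    hf.1.qCoeff_one] at k1
  have k3 := hc 3
  rw [e1, e2, if_neg (by norm_num), a3_nineteen hh, b3, d3] at k3
  have k5 := hc 5
  rw [e1, e2, if_neg (by norm_num), a5_nineteen hh, b5, d5] at k5
  have x0 : c 0 ≠ 0 → qCoeff f 3 = -2 := fun h => hx 0 h
  have x2 : c 2 ≠ 0 → qCoeff f 3 = 1 := fun h => hx 2 h
  have x3 : c 3 ≠ 0 → qCoeff f 3 = -1 := fun h => hx 3 h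
  by_cases l2 : c 2 = 0
  · by_cases l3 : c 3 = 0
    · exfalso
      refine hf.2 19 (by norm_num) (by norm_num) ⟨h, hh, fun ℓ hℓ hℓN => ?_⟩
      rw [hc, e1, e2, if_neg, l2, l3]
      · rw [l2, l3] at k1
        linear_combination qCoeff h ℓ * k1
      · intro h2
        exact hℓN (((Nat.prime_dvd_prime_iff_eq Nat.prime_two hℓ).mp h2) ▸ by norm_num)
    · right
      have y3 := x3 l3
      have l0 : c 0 = 0 := by
        by_contra h0
        rw [x0 h0] at y3
        norm_num at y3
      refine ⟨y3, ?_⟩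
      rw [k5, l0]
      rw [l0, l2] at k1
      linear_combination 4 * k1
  · left
    have y3 := x2 l2
    have l0 : c 0 = 0 := by
      by_contra h0
      rw [x0 h0] at y3
      norm_num at y3
    have l3 : c 3 = 0 := by
      by_contra h0
      rw [x3 h0] at y3
      norm_num at y3
    refine ⟨y3, ?_⟩
    rw [k5, l0, l3]
    ring

end Fermat.Agent.Cor.EigenTable
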