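import Mathlib
import Fermat.Agent.Cor.Mazur

set_option autoImplicit false

/-!
# Mazur's theorem for semistable elliptic curves: isogenies and points

This file is not used by any of the statement files.
-/

namespace Fermat.Agent.Cor.Mazur

open Polynomial WeierstrassCurve WeierstrassCurve.Affine WeierstrassCurve.Affine.Point
open Fermat.Agent.H08 Fermat.Agent.H05 Fermat.Agent.H09 Fermat.Agent.H12
open Fermat.Agent.Ell (WQ Pts)
open Fermat.Agent.EGal (VV)
open scoped Pointwise

local notation "Qb" => AlgebraicClosure ℚ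
local notation "GQ" => AlgebraicClosure ℚ ≃ₐ[ℚ] AlgebraicClosure ℚ

variable {W : WeierstrassCurve ℤ} {p : ℕ}

theorem card_torsion_WQ (hΔ : W.Δ ≠ 0) {n : ℕ} (hn : n ≠ 0) :
    Nat.card {P : Pts (WQ W) // n • P = 0} = n ^ 2 := by
  have hell := Fermat.Agent.Ell.isElliptic_WQ hΔ
  have h := Fermat.Agent.Frob.card_torsion (K := Qb) (W := (WQ W : WeierstrassCurve.Affine ℚ)) hn
  exact h

/-- A Galois stable finite subgroup whose order is divisible by `p` contains `W[p]`. -/
theorem torsion_le_of_stable (hΔ : W.Δ ≠ 0) (hss : W.IsSemistableModel)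
    (hp : p.Prime) (hp11 : 11 ≤ p) (hp13 : p ≠ 13) (C : AddSubgroup (Pts (WQ W)))
    (hC : ∃ x ∈ C, x ≠ 0 ∧ p • x = 0) (hst : ∀ σ : GQ, ∀ x ∈ C, σ • x ∈ C) :
    ∀ x : Pts (WQ W), p • x = 0 → x ∈ C := by
  have hfact : Fact p.Prime := ⟨hp⟩
  obtain ⟨-, hirr⟩ := irreducible hΔ hss hp hp11 hp13
  let N : Submodule (ZMod p) (VV (WQ W) p) :=
    AddSubgroup.toZModSubmodule p (C.comap (Submodule.subtype _).toAddMonoidHom)
  have hmem : ∀ x : VV (WQ W) p, x ∈ N ↔ (x : Pts (WQ W)) ∈ C := fun x => Iff.rfl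
  have hNst : IsGaloisStable ℚ N := fun σ x hx => hst σ x hx
  obtain ⟨x₀, hx₀C, hx₀, hpx₀⟩ := hC
  rcases hirr N hNst with h | h
  · exfalso
    apply hx₀
    have h1 : (⟨x₀, mem_torsion_iff.mpr hpx₀⟩ : VV (WQ W) p) ∈ N := hx₀C
    rw [h, Submodule.mem_bot] at h1
    exact congrArg Subtype.val h1
  · intro x hx
    have h1 : (⟨x, mem_torsion_iff.mpr hx⟩ : VV (WQ W) p) ∈ N := by rw [h]; trivial
    exact h1

/-- **No rational isogeny of degree `p`**: a semistable elliptic curve over `ℚ` has no Galois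
stable subgroup of order `p`, `p ≥ 11` prime, `p ≠ 13`. -/
theorem no_stable_subgroup (hΔ : W.Δ ≠ 0) (hss : W.IsSemistableModel)
    (hp : p.Prime) (hp11 : 11 ≤ p) (hp13 : p ≠ 13) (C : AddSubgroup (Pts (WQ W)))
    (hC : Nat.card C = p) : ∃ σ : GQ, ∃ x ∈ C, σ • x ∉ C := by
  by_contra hcon
  push Not at hcon
  have hpC : ∀ x ∈ C, p • x = 0 := fun x hx => by
    have h2 : Nat.card C • (⟨x, hx⟩ : C) = 0 := card_nsmul_eq_zero'
    rw [hC] at h2
    exact congrArg Subtype.val h2
  have hfin : Finite C := Nat.finite_of_card_ne_zero (by rw [hC]; exact hp.ne_zero)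
  have hne : ∃ x ∈ C, x ≠ 0 ∧ p • x = 0 := by
    have : Nontrivial C := Finite.one_lt_card_iff_nontrivial.mp (by rw [hC]; exact hp.one_lt)
    obtain ⟨⟨x, hx⟩, hx0⟩ := exists_ne (0 : C)
    exact ⟨x, hx, fun h => hx0 (Subtype.ext h), hpC x hx⟩
  have h := torsion_le_of_stable hΔ hss hp hp11 hp13 C hne hcon
  have hcard := card_torsion_WQ hΔ hp.ne_zero
  have hinj : Nat.card {P : Pts (WQ W) // p • P = 0} ≤ Nat.card C :=
    Nat.card_le_card_of_injective (fun P => (⟨P.1, h P.1 P.2⟩ : C))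
      (fun P Q hPQ => Subtype.ext (congrArg (fun z : C => (z : Pts (WQ W))) hPQ))
  rw [hcard, hC] at hinj
  nlinarith [hp.one_lt]

/-- The Galois group acts without fixed points on `W[p] \ {0}`. -/
theorem no_fixed_point (hΔ : W.Δ ≠ 0) (hss : W.IsSemistableModel)
    (hp : p.Prime) (hp11 : 11 ≤ p) (hp13 : p ≠ 13) {P : Pts (WQ W)} (hP0 : P ≠ 0)
    (hP : p • P = 0) : ∃ σ : GQ, σ • P ≠ P := by
  by_contra hcon
  push Not at hcon
  have hfact : Fact p.Prime := ⟨hp⟩
  obtain ⟨σ, x, hx, hσ⟩ := no_stable_subgroup hΔ hss hp hp11 hp13 (AddSubgroup.zmultiples P)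
    (by rw [Nat.card_zmultiples, addOrderOf_eq_prime hP hP0])
  obtain ⟨n, rfl⟩ := AddSubgroup.mem_zmultiples_iff.mp hx
  apply hσ
  have e : σ • (n • P) = n • (σ • P) :=
    (DistribSMul.toAddMonoidHom (Pts (WQ W)) σ).map_zsmul n P
  rw [e, hcon σ]
  exact hx

/-- transport of points along an equality of curves -/
noncomputable def castPts {F : Type*} [Field F] [DecidableEq F] {V V' : WeierstrassCurve.Affine F}
    (h : V = V') : V.Point ≃+ V'.Point := by
  subst h; exact AddEquiv.refl _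

theorem castPts_some {F : Type*} [Field F] [DecidableEq F] {V V' : WeierstrassCurve.Affine F}
    (h : V = V') {x y : F} (hxy : V.Nonsingular x y) :
    castPts h (Point.some x y hxy) = Point.some x y (h ▸ hxy) := by
  subst h; rfl

/-- rational points as Galois invariant points -/
noncomputable def toQb (V : WeierstrassCurve.Affine ℚ) : V.Point →+ (V⁄Qb).Point :=
  (Point.map (W' := V) (Algebra.ofId ℚ Qb)).comp
    (castPts (show V = (V⁄ℚ) from (V.map_id).symm)).toAddMonoidHom

theorem toQb_injective (V : WeierstrassCurve.Affine ℚ) : Function.Injective (toQb V) :=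
  (Point.map_injective (W' := V) (Algebra.ofId ℚ Qb)).comp
    (castPts (show V = (V⁄ℚ) from (V.map_id).symm)).injective

theorem toQb_some (V : WeierstrassCurve.Affine ℚ) {x y : ℚ} (h : V.Nonsingular x y) :
    ∃ h', toQb V (Point.some x y h) = Point.some (x : Qb) (y : Qb) h' := by
  have e : toQb V (Point.some x y h) = Point.map (W' := V) (Algebra.ofId ℚ Qb)
      (castPts (show V = (V⁄ℚ) from (V.map_id).symm) (Point.some x y h)) := rfl
  rw [castPts_some] at e
  have h1 : ((V⁄ℚ) : WeierstrassCurve.Affine ℚ).Nonsingular x y :=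
    (show V = (V⁄ℚ) from (V.map_id).symm) ▸ h
  have h2 : (V⁄Qb).Nonsingular (algebraMap ℚ Qb x) (algebraMap ℚ Qb y) :=
    (V.baseChange_nonsingular (f := Algebra.ofId ℚ Qb) (algebraMap ℚ Qb).injective x y).mpr h1
  exact ⟨h2, e⟩

theorem smul_toQb (V : WeierstrassCurve.Affine ℚ) (σ : GQ) (P : V.Point) :
    σ • toQb V P = toQb V P := by
  rcases P with _ | ⟨x, y, h⟩
  · change σ • toQb V 0 = toQb V 0
    rw [_root_.map_zero]
    rfl
  · obtain ⟨h', e⟩ := toQb_some V h
    rw [e, algEquiv_smul_def]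
    have e2 : Point.map (W' := V) σ.toAlgHom (Point.some (x : Qb) (y : Qb) h') =
      Point.some (σ (x : Qb)) (σ (y : Qb)) (by
        rw [map_ratCast, map_ratCast]; exact h') := rfl
    rw [e2]
    congr 1 <;> exact map_ratCast σ _

/-- **No rational point of order `p`** on a semistable elliptic curve over `ℚ`. -/
theorem no_torsion (hΔ : W.Δ ≠ 0) (hss : W.IsSemistableModel)
    (hp : p.Prime) (hp11 : 11 ≤ p) (hp13 : p ≠ 13)
    {P : (W.map (Int.castRingHom ℚ)).toAffine.Point} (hP : p • P = 0) : P = 0 := by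
  by_contra hP0
  obtain ⟨σ, hσ⟩ := no_fixed_point hΔ hss hp hp11 hp13 (P := toQb _ P)
    (fun h => hP0 (toQb_injective _ (h.trans (_root_.map_zero _).symm)))
    (by rw [← map_nsmul, hP, _root_.map_zero])
  exact hσ (smul_toQb _ σ P)

end Fermat.Agent.Cor.Mazur
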