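import Mathlib
import Fermat.Agent.Cor.MazurCor

set_option autoImplicit false

/-!
# Cuspidal reduction and Tate's normal form

* `exists_cusp`: if `ℓ` divides `Δ` and `c₄`, a translate of the equation reduces to `y² = x³`
  (also for `ℓ = 2, 3`).
* `analysis`: the valuations of `x(3P)` and `x(4P)` for the point `P = (0, 0)` of
  `y² + axy + cy = x³ + bx²`.

This file is not used by any of the statement files.
-/

namespace Fermat.Agent.Cor.MazurTorsion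

open WeierstrassCurve

/-- the translate of `V` by `(r, s, t)` is `y² = x³` -/
structure Cusp {K : Type*} [CommRing K] (V : WeierstrassCurve K) (r s t : K) : Prop where
  a₁ : V.a₁ + 2 * s = 0
  a₂ : V.a₂ - s * V.a₁ + 3 * r - s ^ 2 = 0
  a₃ : V.a₃ + r * V.a₁ + 2 * t = 0
  a₄ : V.a₄ - s * V.a₃ + 2 * r * V.a₂ - (t + r * s) * V.a₁ + 3 * r ^ 2 - 2 * s * t = 0
  a₆ : V.a₆ + r * V.a₄ + r ^ 2 * V.a₂ + r ^ 3 - t * V.a₃ - t ^ 2 - r * t * V.a₁ = 0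

theorem exists_cusp_of_ne {K : Type*} [Field K] (h2 : (2 : K) ≠ 0) (h3 : (3 : K) ≠ 0)
    (V : WeierstrassCurve K) (hΔ : V.Δ = 0) (hc : V.c₄ = 0) : ∃ r s t, Cusp V r s t := by
  have hc6 : V.c₆ = 0 := by
    have h := V.c_relation
    rw [hΔ, hc] at h
    have : V.c₆ ^ 2 = 0 := by linear_combination h
    exact pow_eq_zero_iff two_ne_zero |>.mp this
  set s : K := -V.a₁ / 2 with hs
  set r : K := -V.b₂ / 12 with hr
  set t : K := -(V.a₃ + r * V.a₁) / 2 with ht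
  have h12 : (12 : K) ≠ 0 := by
    have : (12 : K) = 2 * 2 * 3 := by norm_num
    rw [this]; exact mul_ne_zero (mul_ne_zero h2 h2) h3
  have es : 2 * s = -V.a₁ := by rw [hs]; field_simp
  have er : 12 * r = -V.b₂ := by rw [hr]; field_simp
  have et : 2 * t = -(V.a₃ + r * V.a₁) := by rw [ht]; field_simp
  have h4 : (4 : K) ≠ 0 := by
    have : (4 : K) = 2 * 2 := by norm_num
    rw [this]; exact mul_ne_zero h2 h2
  have h48 : (48 : K) ≠ 0 := by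
    have : (48 : K) = 4 * 12 := by norm_num
    rw [this]; exact mul_ne_zero h4 h12
  have h864 : (864 : K) ≠ 0 := by
    have : (864 : K) = 2 * 12 * 12 * 3 := by norm_num
    rw [this]; exact mul_ne_zero (mul_ne_zero (mul_ne_zero h2 h12) h12) h3
  refine ⟨r, s, t, ⟨?_, ?_, ?_, ?_, ?_⟩⟩
  · linear_combination es
  · apply mul_left_cancel₀ h4
    simp only [WeierstrassCurve.b₂] at er
    linear_combination er - (2 * s + V.a₁) * es
  · linear_combination et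
  · apply mul_left_cancel₀ h48
    rw [mul_zero, hs, ht, hr]
    simp only [WeierstrassCurve.c₄, WeierstrassCurve.b₂, WeierstrassCurve.b₄] at hc ⊢
    field_simp
    linear_combination -288 * hc
  · apply mul_left_cancel₀ h864
    rw [mul_zero, ht, hr]
    simp only [WeierstrassCurve.c₆, WeierstrassCurve.c₄, WeierstrassCurve.b₂, WeierstrassCurve.b₄, WeierstrassCurve.b₆] at hc6 hc ⊢
    field_simp
    linear_combination -6912 * hc6

theorem cusp_three : ∀ a₁ a₂ a₃ a₄ a₆ : ZMod 3,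
    (⟨a₁, a₂, a₃, a₄, a₆⟩ : WeierstrassCurve (ZMod 3)).Δ = 0 →
      (⟨a₁, a₂, a₃, a₄, a₆⟩ : WeierstrassCurve (ZMod 3)).c₄ = 0 →
      (fun r => (fun s t =>
      a₁ + 2 * s = 0 ∧ a₂ - s * a₁ + 3 * r - s ^ 2 = 0 ∧ a₃ + r * a₁ + 2 * t = 0 ∧
      a₄ - s * a₃ + 2 * r * a₂ - (t + r * s) * a₁ + 3 * r ^ 2 - 2 * s * t = 0 ∧
      a₆ + r * a₄ + r ^ 2 * a₂ + r ^ 3 - t * a₃ - t ^ 2 - r * t * a₁ = 0)
        a₁ (a₃ + r * a₁)) (-(a₃ ^ 2 + 4 * a₆)) := by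
  decide +kernel

theorem exists_cusp_three (V : WeierstrassCurve (ZMod 3)) (hΔ : V.Δ = 0) (hc : V.c₄ = 0) :
    ∃ r s t, Cusp V r s t := by
  obtain ⟨a₁, a₂, a₃, a₄, a₆⟩ := V
  obtain ⟨h1, h2, h3, h4, h5⟩ := cusp_three _ _ _ _ _ hΔ hc
  exact ⟨_, _, _, ⟨h1, h2, h3, h4, h5⟩⟩

theorem cusp_two : ∀ a₁ a₂ a₃ a₄ a₆ : ZMod 2,
    (⟨a₁, a₂, a₃, a₄, a₆⟩ : WeierstrassCurve (ZMod 2)).Δ = 0 →
      (⟨a₁, a₂, a₃, a₄, a₆⟩ : WeierstrassCurve (ZMod 2)).c₄ = 0 →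
      (fun r s t =>
      a₁ + 2 * s = 0 ∧ a₂ - s * a₁ + 3 * r - s ^ 2 = 0 ∧ a₃ + r * a₁ + 2 * t = 0 ∧
      a₄ - s * a₃ + 2 * r * a₂ - (t + r * s) * a₁ + 3 * r ^ 2 - 2 * s * t = 0 ∧
      a₆ + r * a₄ + r ^ 2 * a₂ + r ^ 3 - t * a₃ - t ^ 2 - r * t * a₁ = 0)
        a₄ (a₂ + a₄) (a₆ + a₄ ^ 2 + a₄ ^ 2 * a₂ + a₄ ^ 3) := by
  decide +kernel

theorem exists_cusp_two (V : WeierstrassCurve (ZMod 2)) (hΔ : V.Δ = 0) (hc : V.c₄ = 0) :
    ∃ r s t, Cusp V r s t := by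
  obtain ⟨a₁, a₂, a₃, a₄, a₆⟩ := V
  obtain ⟨h1, h2, h3, h4, h5⟩ := cusp_two _ _ _ _ _ hΔ hc
  exact ⟨_, _, _, ⟨h1, h2, h3, h4, h5⟩⟩

/-- **The cusp**: if `ℓ` divides `Δ` and `c₄` a translate of `W` reduces to `y² = x³`. -/
theorem exists_cusp {W : WeierstrassCurve ℤ} {ℓ : ℕ} (hℓ : ℓ.Prime) (hΔ : (ℓ : ℤ) ∣ W.Δ)
    (hc : (ℓ : ℤ) ∣ W.c₄) : ∃ r s t : ℤ,
      (ℓ : ℤ) ∣ W.a₁ + 2 * s ∧ (ℓ : ℤ) ∣ W.a₂ - s * W.a₁ + 3 * r - s ^ 2 ∧
      (ℓ : ℤ) ∣ W.a₃ + r * W.a₁ + 2 * t ∧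
      (ℓ : ℤ) ∣ W.a₄ - s * W.a₃ + 2 * r * W.a₂ - (t + r * s) * W.a₁ + 3 * r ^ 2 - 2 * s * t ∧
      (ℓ : ℤ) ∣ W.a₆ + r * W.a₄ + r ^ 2 * W.a₂ + r ^ 3 - t * W.a₃ - t ^ 2 - r * t * W.a₁ := by
  have hfact : Fact ℓ.Prime := ⟨hℓ⟩
  have hΔ' : (W.map (Int.castRingHom (ZMod ℓ))).Δ = 0 := by
    rw [map_Δ]; exact (ZMod.intCast_zmod_eq_zero_iff_dvd _ _).mpr hΔ
  have hc' : (W.map (Int.castRingHom (ZMod ℓ))).c₄ = 0 := by
    rw [map_c₄]; exact (ZMod.intCast_zmod_eq_zero_iff_dvd _ _).mpr hc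
  have key : ∃ r s t : ZMod ℓ, Cusp (W.map (Int.castRingHom (ZMod ℓ))) r s t := by
    by_cases h2 : ℓ = 2
    · subst h2; exact exists_cusp_two _ hΔ' hc'
    by_cases h3 : ℓ = 3
    · subst h3; exact exists_cusp_three _ hΔ' hc'
    have hne : ∀ q : ℕ, q.Prime → ℓ ≠ q → (q : ZMod ℓ) ≠ 0 := by
      intro q hq hne h0
      rw [ZMod.natCast_eq_zero_iff] at h0
      exact hne ((Nat.prime_dvd_prime_iff_eq hℓ hq).mp h0)
    exact exists_cusp_of_ne (by exact_mod_cast hne 2 Nat.prime_two h2)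
      (by exact_mod_cast hne 3 Nat.prime_three h3) _ hΔ' hc'
  obtain ⟨r, s, t, h⟩ := key
  obtain ⟨r, rfl⟩ := ZMod.intCast_surjective r
  obtain ⟨s, rfl⟩ := ZMod.intCast_surjective s
  obtain ⟨t, rfl⟩ := ZMod.intCast_surjective t
  refine ⟨r, s, t, ?_, ?_, ?_, ?_, ?_⟩
  · rw [← ZMod.intCast_zmod_eq_zero_iff_dvd]
    have := h.a₁
    simpa using this
  · rw [← ZMod.intCast_zmod_eq_zero_iff_dvd]
    have := h.a₂
    simpa using this
  · rw [← ZMod.intCast_zmod_eq_zero_iff_dvd]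
    have := h.a₃
    simpa using this
  · rw [← ZMod.intCast_zmod_eq_zero_iff_dvd]
    have := h.a₄
    simpa using this
  · rw [← ZMod.intCast_zmod_eq_zero_iff_dvd]
    have := h.a₆
    simpa using this

open Fermat.Agent.H08 Fermat.Agent.H05 Fermat.Agent.H09

local notation "Qb" => AlgebraicClosure ℚ

section Valuation

variable {A : ValuationSubring Qb} {ℓ : ℕ}

theorem val_int_le_one (A : ValuationSubring Qb) (z : ℤ) : A.valuation (z : Qb) ≤ 1 :=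
  (A.valuation_le_one_iff _).mpr (intCast_mem A z)

theorem val_le_pow {z : ℤ} {k : ℕ} (h : (ℓ : ℤ) ^ k ∣ z) :
    A.valuation (z : Qb) ≤ A.valuation (ℓ : Qb) ^ k := by
  obtain ⟨w, rfl⟩ := h
  rw [Int.cast_mul, Int.cast_pow, Int.cast_natCast, map_mul, map_pow]
  exact mul_le_of_le_one_right' (val_int_le_one A w)

theorem pow_le_val (hℓ : ℓ.Prime) (hA : A.LiesOverPrime ℓ) {z : ℤ} {k : ℕ}
    (h : ¬ (ℓ : ℤ) ^ (k + 1) ∣ z) :
    A.valuation (ℓ : Qb) ^ k ≤ A.valuation (z : Qb) := by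
  induction k generalizing z with
  | zero =>
    rw [pow_zero]
    rw [zero_add, pow_one] at h
    rw [Fermat.Agent.H09.val_intCast_eq_one hℓ hA h]
  | succ k ih =>
    by_cases hd : (ℓ : ℤ) ∣ z
    · obtain ⟨w, rfl⟩ := hd
      have h' : ¬ (ℓ : ℤ) ^ (k + 1) ∣ w := by
        intro hw
        apply h
        rw [pow_succ']
        exact mul_dvd_mul_left _ hw
      rw [Int.cast_mul, Int.cast_natCast, map_mul, pow_succ']
      exact mul_le_mul_right (ih h') _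
    · rw [Fermat.Agent.H09.val_intCast_eq_one hℓ hA hd]
      apply pow_le_one'
      have := val_int_le_one A (ℓ : ℤ)
      rwa [Int.cast_natCast] at this

/-- the arithmetic of `2P`, `3P`, `4P` -/
theorem analysis (hℓ : ℓ.Prime) (hA : A.LiesOverPrime ℓ) {a b c : ℤ}
    (hprim : ¬ ((ℓ : ℤ) ∣ a ∧ (ℓ : ℤ) ^ 2 ∣ b ∧ (ℓ : ℤ) ^ 3 ∣ c)) (ha : (ℓ : ℤ) ∣ a)
    (hb : (ℓ : ℤ) ∣ b) (hb0 : b ≠ 0) (hd0 : c - a * b ≠ 0)
    (h3 : A.valuation ((c : Qb) * (c - a * b) / b ^ 2) < 1)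
    (h4 : A.valuation ((b : Qb) * (b ^ 3 + c * (c - a * b)) / (c - a * b) ^ 2) < 1) : False := by
  set q := A.valuation (ℓ : Qb) with hq
  have hbQ : (b : Qb) ≠ 0 := Int.cast_ne_zero.mpr hb0
  have hdQ : (c : Qb) - a * b ≠ 0 := by
    have : ((c - a * b : ℤ) : Qb) ≠ 0 := Int.cast_ne_zero.mpr hd0
    push_cast at this; exact this
  have h3' : A.valuation ((c * (c - a * b) : ℤ) : Qb) < A.valuation ((b ^ 2 : ℤ) : Qb) := by
    rw [map_div₀, div_lt_one₀ (zero_lt_iff.mpr ((Valuation.ne_zero_iff _).mpr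
      (pow_ne_zero 2 hbQ)))] at h3
    push_cast
    exact h3
  have h4' : A.valuation ((b * (b ^ 3 + c * (c - a * b)) : ℤ) : Qb) <
      A.valuation (((c - a * b) ^ 2 : ℤ) : Qb) := by
    rw [map_div₀, div_lt_one₀ (zero_lt_iff.mpr ((Valuation.ne_zero_iff _).mpr
      (pow_ne_zero 2 hdQ)))] at h4
    push_cast
    exact h4
  have hp : Prime (ℓ : ℤ) := Nat.prime_iff_prime_int.mp hℓ
  have hab : (ℓ : ℤ) ^ 2 ∣ a * b := by rw [pow_two]; exact mul_dvd_mul ha hb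
  by_cases hb2 : (ℓ : ℤ) ^ 2 ∣ b
  · have hc3 : ¬ (ℓ : ℤ) ^ 3 ∣ c := fun h => hprim ⟨ha, hb2, h⟩
    have hab3 : (ℓ : ℤ) ^ 3 ∣ a * b := by
      rw [pow_succ']; exact mul_dvd_mul ha hb2
    have hd3 : ¬ (ℓ : ℤ) ^ 3 ∣ c - a * b := fun h => hc3 ((dvd_sub_left hab3).mp h)
    have e1 := pow_le_val (k := 2) hℓ hA hc3
    have e2 := pow_le_val (k := 2) hℓ hA hd3
    have e3 := val_le_pow (A := A) hb2
    have e4 : A.valuation ((b ^ 2 : ℤ) : Qb) ≤ A.valuation ((c * (c - a * b) : ℤ) : Qb) := by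
      rw [Int.cast_pow, map_pow, Int.cast_mul, map_mul]
      calc A.valuation (b : Qb) ^ 2 ≤ (q ^ 2) ^ 2 := pow_le_pow_left' e3 2
        _ = q ^ 2 * q ^ 2 := pow_two _
        _ ≤ _ := mul_le_mul' e1 e2
    exact absurd h3' (not_lt.mpr e4)
  · by_cases hc2 : (ℓ : ℤ) ^ 2 ∣ c
    · have hd2 : (ℓ : ℤ) ^ 2 ∣ c - a * b := dvd_sub hc2 hab
      have e1 := pow_le_val (k := 1) hℓ hA hb2
      have e2 : ¬ (ℓ : ℤ) ^ 4 ∣ b ^ 3 + c * (c - a * b) := by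
        intro h
        have h5 : (ℓ : ℤ) ^ 4 ∣ c * (c - a * b) := by
          rw [show (ℓ : ℤ) ^ 4 = ℓ ^ 2 * ℓ ^ 2 by ring]; exact mul_dvd_mul hc2 hd2
        have h6 : (ℓ : ℤ) ^ 4 ∣ b ^ 3 := (dvd_add_left h5).mp h
        obtain ⟨w, rfl⟩ := hb
        apply hb2
        have h7 : (ℓ : ℤ) ∣ w ^ 3 := by
          rw [mul_pow, pow_succ] at h6
          exact (mul_dvd_mul_iff_left (pow_ne_zero 3 hp.ne_zero)).mp h6
        rw [pow_two]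
        exact mul_dvd_mul_left _ (hp.dvd_of_dvd_pow h7)
      have e3 := pow_le_val (k := 3) hℓ hA e2
      have e4 := val_le_pow (A := A) hd2
      have e5 : A.valuation (((c - a * b) ^ 2 : ℤ) : Qb) ≤
          A.valuation ((b * (b ^ 3 + c * (c - a * b)) : ℤ) : Qb) := by
        rw [Int.cast_pow, map_pow, Int.cast_mul, map_mul]
        calc A.valuation ((c - a * b : ℤ) : Qb) ^ 2 ≤ (q ^ 2) ^ 2 := pow_le_pow_left' e4 2
          _ = q ^ 1 * q ^ 3 := by rw [← pow_mul, ← pow_add]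
          _ ≤ _ := mul_le_mul' e1 e3
      exact absurd h4' (not_lt.mpr e5)
    · have hd2 : ¬ (ℓ : ℤ) ^ 2 ∣ c - a * b := fun h => hc2 ((dvd_sub_left hab).mp h)
      have e1 := pow_le_val (k := 1) hℓ hA hc2
      have e2 := pow_le_val (k := 1) hℓ hA hd2
      have e3 := val_le_pow (A := A) (k := 1) (by rwa [pow_one] : (ℓ : ℤ) ^ 1 ∣ b)
      have e4 : A.valuation ((b ^ 2 : ℤ) : Qb) ≤ A.valuation ((c * (c - a * b) : ℤ) : Qb) := by
        rw [Int.cast_pow, map_pow, Int.cast_mul, map_mul]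
        calc A.valuation (b : Qb) ^ 2 ≤ (q ^ 1) ^ 2 := pow_le_pow_left' e3 2
          _ = q ^ 1 * q ^ 1 := pow_two _
          _ ≤ _ := mul_le_mul' e1 e2
      exact absurd h3' (not_lt.mpr e4)

end Valuation

end Fermat.Agent.Cor.MazurTorsion
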