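import Mathlib
import Fermat.Agent.Frob.VarChange

/-!
# The Tate normal form of a rational point

* `exists_tate`: an elliptic curve `E` over `ℚ` with a rational point `P` of prime order `p ≥ 5`
  has a model `W : y² + axy + cy = x³ + bx²` with `a, b, c ∈ ℤ`, `P = (0, 0)`, and there is no prime
  `ℓ` with `ℓ ∣ a`, `ℓ² ∣ b`, `ℓ³ ∣ c`.

This file is not used by any of the statement files.
-/

set_option autoImplicit false

namespace Fermat.Agent.Cor.TateForm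

open WeierstrassCurve WeierstrassCurve.Affine WeierstrassCurve.Affine.Point
open Fermat.Agent.H08 Fermat.Agent.Frob

/-- translation of a point `P` with `2 P ≠ 0` to `(0, 0)` with horizontal tangent -/
theorem exists_change {F : Type*} [Field F] [DecidableEq F] {E : WeierstrassCurve F}
    {P : E.toAffine.Point} (h2 : (2 : ℕ) • P ≠ 0) :
    ∃ (C : VariableChange F) (x y : F) (hxy : E.toAffine.Nonsingular x y),
      P = Point.some x y hxy ∧ C.u = 1 ∧ C.r = x ∧ C.t = y ∧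
      (C • E).a₃ ≠ 0 ∧ (C • E).a₄ = 0 ∧ (C • E).a₆ = 0 := by
  have hP0 : P ≠ 0 := by
    rintro rfl
    exact h2 (smul_zero 2)
  obtain ⟨x, y, hxy, rfl⟩ := exists_eq_some hP0
  have hD : E.a₃ + x * E.a₁ + 2 * y ≠ 0 := by
    intro h0
    apply h2
    rw [two_nsmul]
    apply add_self_of_Y_eq
    rw [negY]
    linear_combination h0
  have heq := (equation_iff' (W := E.toAffine) x y).mp hxy.1
  refine ⟨⟨1, x, (E.a₄ + 2 * x * E.a₂ - y * E.a₁ + 3 * x ^ 2) / (E.a₃ + x * E.a₁ + 2 * y), y⟩,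
    x, y, hxy, rfl, rfl, rfl, rfl, ?_, ?_, ?_⟩
  · rw [variableChange_a₃]
    simpa using hD
  · rw [variableChange_a₄]
    simp only [inv_one, Units.val_one, one_pow, one_mul]
    field_simp
    ring
  · rw [variableChange_a₆]
    simp only [inv_one, Units.val_one, one_pow, one_mul]
    linear_combination -heq

/-- a primitive integral multiple of weights `1, 2, 3` -/
theorem exists_primitive (A B : ℚ) {C : ℚ} (hC : C ≠ 0) : ∃ (a b c : ℤ) (d : ℚ), d ≠ 0 ∧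
    (a : ℚ) = d * A ∧ (b : ℚ) = d ^ 2 * B ∧ (c : ℚ) = d ^ 3 * C ∧
    ∀ ℓ : ℕ, ℓ.Prime → ¬ ((ℓ : ℤ) ∣ a ∧ (ℓ : ℤ) ^ 2 ∣ b ∧ (ℓ : ℤ) ^ 3 ∣ c) := by
  classical
  have hex : ∃ n : ℕ, ∃ (a b c : ℤ) (d : ℚ), d ≠ 0 ∧
      (a : ℚ) = d * A ∧ (b : ℚ) = d ^ 2 * B ∧ (c : ℚ) = d ^ 3 * C ∧ c.natAbs = n := by
    have hA : (A.den : ℚ) ≠ 0 := by exact_mod_cast A.den_ne_zero
    have hB : (B.den : ℚ) ≠ 0 := by exact_mod_cast B.den_ne_zero
    have hC' : (C.den : ℚ) ≠ 0 := by exact_mod_cast C.den_ne_zero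
    have eA : (A.num : ℚ) = A.den * A := by rw [mul_comm]; exact (Rat.mul_den_eq_num A).symm
    have eB : (B.num : ℚ) = B.den * B := by rw [mul_comm]; exact (Rat.mul_den_eq_num B).symm
    have eC : (C.num : ℚ) = C.den * C := by rw [mul_comm]; exact (Rat.mul_den_eq_num C).symm
    refine ⟨_, B.den * C.den * A.num, A.den ^ 2 * B.den * C.den ^ 2 * B.num,
      A.den ^ 3 * B.den ^ 3 * C.den ^ 2 * C.num, A.den * B.den * C.den,
      mul_ne_zero (mul_ne_zero hA hB) hC', ?_, ?_, ?_, rfl⟩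
    · push_cast
      rw [eA]; ring
    · push_cast
      rw [eB]; ring
    · push_cast
      rw [eC]; ring
  obtain ⟨a, b, c, d, hd, ha, hb, hc, hn⟩ := Nat.find_spec hex
  refine ⟨a, b, c, d, hd, ha, hb, hc, ?_⟩
  rintro ℓ hℓ ⟨⟨a', rfl⟩, ⟨b', rfl⟩, ⟨c', rfl⟩⟩
  have hℓ0 : (ℓ : ℚ) ≠ 0 := by exact_mod_cast hℓ.ne_zero
  have hℓ0' : (ℓ : ℤ) ≠ 0 := by exact_mod_cast hℓ.ne_zero
  have hc0 : c' ≠ 0 := by
    rintro rfl
    rw [mul_zero, Int.cast_zero] at hc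
    exact mul_ne_zero (pow_ne_zero 3 hd) hC hc.symm
  push_cast at ha hb hc
  refine Nat.find_min hex (m := c'.natAbs) ?_ ⟨a', b', c', d / ℓ, div_ne_zero hd hℓ0, ?_, ?_, ?_,
    rfl⟩
  · rw [← hn, Int.natAbs_mul, Int.natAbs_pow, Int.natAbs_natCast]
    have h1 : 0 < c'.natAbs := Int.natAbs_pos.mpr hc0
    have h2 : 2 ≤ ℓ := hℓ.two_le
    have h3 : 2 ^ 3 ≤ ℓ ^ 3 := Nat.pow_le_pow_left h2 3
    nlinarith
  · apply mul_left_cancel₀ hℓ0
    rw [ha]; field_simp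
  · apply mul_left_cancel₀ (pow_ne_zero 2 hℓ0)
    rw [hb]; field_simp
  · apply mul_left_cancel₀ (pow_ne_zero 3 hℓ0)
    rw [hc]; field_simp

/-- **The Tate normal form over `ℤ`.** -/
theorem exists_tate {E : WeierstrassCurve ℚ} (hΔ : E.Δ ≠ 0) {p : ℕ} (hp : p.Prime) (hp5 : 5 ≤ p)
    {P : E.toAffine.Point} (hP0 : P ≠ 0) (hP : p • P = 0) :
    ∃ a b c : ℤ, (⟨a, b, c, 0, 0⟩ : WeierstrassCurve ℤ).Δ ≠ 0 ∧
      (∀ ℓ : ℕ, ℓ.Prime → ¬ ((ℓ : ℤ) ∣ a ∧ (ℓ : ℤ) ^ 2 ∣ b ∧ (ℓ : ℤ) ^ 3 ∣ c)) ∧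
      ∃ h : ((⟨a, b, c, 0, 0⟩ : WeierstrassCurve ℤ).map (Int.castRingHom ℚ)).toAffine.Nonsingular
        0 0, p • (Point.some 0 0 h :
          ((⟨a, b, c, 0, 0⟩ : WeierstrassCurve ℤ).map (Int.castRingHom ℚ)).toAffine.Point) = 0 := by
  have h2 : (2 : ℕ) • P ≠ 0 := by
    intro h
    have h3 : addOrderOf P ∣ p := addOrderOf_dvd_of_nsmul_eq_zero hP
    have h4 : addOrderOf P ∣ 2 := addOrderOf_dvd_of_nsmul_eq_zero h
    rcases (Nat.dvd_prime hp).mp h3 with h5 | h5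
    · exact hP0 (AddMonoid.addOrderOf_eq_one_iff.mp h5)
    · have := Nat.le_of_dvd (by norm_num) (h5 ▸ h4)
      omega
  obtain ⟨C₁, x, y, hxy, rfl, hu, hr, ht, h₃, h₄, h₆⟩ := exists_change h2
  obtain ⟨a, b, c, d, hd, ha, hb, hc, hprim⟩ :=
    exists_primitive (C₁ • E).a₁ (C₁ • E).a₂ h₃
  let C₂ : VariableChange ℚ := ⟨(Units.mk0 d hd)⁻¹, 0, 0, 0⟩
  have hC₂ : ((⟨a, b, c, 0, 0⟩ : WeierstrassCurve ℤ).map (Int.castRingHom ℚ)) =
      C₂ • (C₁ • E) := by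
    ext
    · rw [variableChange_a₁]
      simp [C₂, ha]
    · rw [variableChange_a₂]
      simp [C₂, hb]
    · rw [variableChange_a₃]
      simp [C₂, hc]
    · rw [variableChange_a₄, h₄]
      simp [C₂]
    · rw [variableChange_a₆, h₆, h₄]
      simp [C₂]
  refine ⟨a, b, c, ?_, hprim, ?_⟩
  · intro h0
    have h1 := congrArg WeierstrassCurve.Δ hC₂
    rw [map_Δ, h0, _root_.map_zero, variableChange_Δ, variableChange_Δ] at h1
    have h3 := mul_ne_zero (pow_ne_zero 12 (C₂.u⁻¹).ne_zero)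
      (mul_ne_zero (pow_ne_zero 12 (C₁.u⁻¹).ne_zero) hΔ)
    exact h3 h1.symm
  · have e1 : vx C₁ 0 = x := by rw [vx, hr]; ring
    have e2 : vy C₁ 0 0 = y := by rw [vy, ht]; ring
    have n1 : (C₁ • E).toAffine.Nonsingular 0 0 := by
      rw [← vc_nonsingular (C := C₁) (W := E.toAffine) (W' := (C₁ • E).toAffine) rfl 0 0, e1, e2]
      exact hxy
    have f1 : vx C₂ 0 = 0 := by rw [vx]; simp [C₂]
    have f2 : vy C₂ 0 0 = 0 := by rw [vy]; simp [C₂]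
    have n2 : ((⟨a, b, c, 0, 0⟩ : WeierstrassCurve ℤ).map
        (Int.castRingHom ℚ)).toAffine.Nonsingular 0 0 := by
      rw [← vc_nonsingular (C := C₂) (W := (C₁ • E).toAffine)
        (W' := ((⟨a, b, c, 0, 0⟩ : WeierstrassCurve ℤ).map (Int.castRingHom ℚ)).toAffine) hC₂ 0 0,
        f1, f2]
      exact n1
    refine ⟨n2, ?_⟩
    have g1 : vcFun (C := C₁) (W := E.toAffine) (W' := (C₁ • E).toAffine) rfl
        (Point.some 0 0 n1) = Point.some x y hxy := by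
      rw [vcFun_some]
      simp only [some.injEq]
      exact ⟨e1, e2⟩
    have g2 : vcFun (C := C₂) (W := (C₁ • E).toAffine)
        (W' := ((⟨a, b, c, 0, 0⟩ : WeierstrassCurve ℤ).map (Int.castRingHom ℚ)).toAffine) hC₂
        (Point.some 0 0 n2) = Point.some 0 0 n1 := by
      rw [vcFun_some]
      simp only [some.injEq]
      exact ⟨f1, f2⟩
    have k1 : p • (Point.some 0 0 n1 : (C₁ • E).toAffine.Point) = 0 := by
      apply (vcEquiv (C := C₁) (W := E.toAffine) (W' := (C₁ • E).toAffine) rfl).injective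
      rw [map_nsmul, vcEquiv_apply, g1, hP, _root_.map_zero]
    apply (vcEquiv (C := C₂) (W := (C₁ • E).toAffine)
      (W' := ((⟨a, b, c, 0, 0⟩ : WeierstrassCurve ℤ).map (Int.castRingHom ℚ)).toAffine)
      hC₂).injective
    rw [map_nsmul, vcEquiv_apply, g2, k1, _root_.map_zero]

end Fermat.Agent.Cor.TateForm
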