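import Mathlib
import Fermat.Agent.H08.Kummer

/-!
# The first multiples of the point `(0, 0)` on a curve in Tate form

`V : y² + a₁xy + a₃y = x³ + a₂x²`, `P = (0, 0)` of prime order `p ≥ 5`.
-/

set_option autoImplicit false

namespace Fermat.Agent.Cor.TateMult

open WeierstrassCurve WeierstrassCurve.Affine WeierstrassCurve.Affine.Point
open Fermat.Agent.H08

variable {F : Type*} [Field F] [DecidableEq F] {V : WeierstrassCurve.Affine F}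

/-- small multiples of a point of prime order `p ≥ 5` are nonzero -/
theorem nsmul_ne_zero_of_lt {p : ℕ} (hp : p.Prime) {P : V.Point} (hP0 : P ≠ 0) (hP : p • P = 0)
    {m : ℕ} (hm0 : m ≠ 0) (hm : m < p) : m • P ≠ 0 := by
  intro h
  have h1 : addOrderOf P ∣ p := addOrderOf_dvd_of_nsmul_eq_zero hP
  have h2 : addOrderOf P ∣ m := addOrderOf_dvd_of_nsmul_eq_zero h
  rcases (Nat.dvd_prime hp).mp h1 with h3 | h3
  · exact hP0 (AddMonoid.addOrderOf_eq_one_iff.mp h3)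
  · have := Nat.le_of_dvd (Nat.pos_of_ne_zero hm0) (h3 ▸ h2)
    omega

/-- `x(mP) ≠ x(P)` for `2 ≤ m ≤ 3` -/
theorem px_ne {p : ℕ} (hp : p.Prime) (hp5 : 5 ≤ p) {P : V.Point} (hP0 : P ≠ 0) (hP : p • P = 0)
    {m : ℕ} (hm2 : 2 ≤ m) (hm : m ≤ 3) : px (m • P) ≠ px P := by
  intro h
  have hm0 := nsmul_ne_zero_of_lt hp hP0 hP (m := m) (by omega) (by omega)
  rcases (px_eq_iff hm0 hP0).mp h with h1 | h1
  · refine nsmul_ne_zero_of_lt hp hP0 hP (m := m - 1) (by omega) (by omega) ?_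
    have e : m • P = (m - 1) • P + P := by rw [← succ_nsmul]; congr 1; omega
    rw [e] at h1
    exact add_eq_right.mp h1
  · refine nsmul_ne_zero_of_lt hp hP0 hP (m := m + 1) (by omega) (by omega) ?_
    rw [succ_nsmul, h1, neg_add_cancel]

theorem a₃_ne_zero (_h4 : V.a₄ = 0) (_h6 : V.a₆ = 0) {h : V.Nonsingular 0 0} {p : ℕ}
    (hp : p.Prime) (hp5 : 5 ≤ p) (hP : p • (Point.some 0 0 h : V.Point) = 0) : V.a₃ ≠ 0 := by
  intro h3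
  have h2 := nsmul_ne_zero_of_lt hp (some_ne_zero h) hP (m := 2) (by norm_num) (by omega)
  apply h2
  rw [two_nsmul]
  apply add_self_of_Y_eq
  rw [negY, h3]; ring

/-- `2P = (-a₂, a₁a₂ - a₃)` -/
theorem two_smul_eq (h4 : V.a₄ = 0) (h6 : V.a₆ = 0) {h : V.Nonsingular 0 0} {p : ℕ}
    (hp : p.Prime) (hp5 : 5 ≤ p) (hP : p • (Point.some 0 0 h : V.Point) = 0) :
    ∃ h2 : V.Nonsingular (-V.a₂) (V.a₁ * V.a₂ - V.a₃),
      2 • (Point.some 0 0 h : V.Point) = Point.some (-V.a₂) (V.a₁ * V.a₂ - V.a₃) h2 := by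
  have h3 := a₃_ne_zero h4 h6 hp hp5 hP
  have hy : (0 : F) ≠ V.negY 0 0 := by
    rw [negY]
    intro h0
    apply h3
    linear_combination h0
  have hs : V.slope 0 0 0 0 = 0 := by
    rw [slope_of_Y_ne rfl hy, h4]
    simp
  have e := add_self_of_Y_ne (h₁ := h) hy
  rw [← two_nsmul] at e
  have hx : V.addX 0 0 (V.slope 0 0 0 0) = -V.a₂ := by rw [hs, addX]; ring
  have hyy : V.addY 0 0 0 (V.slope 0 0 0 0) = V.a₁ * V.a₂ - V.a₃ := by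
    rw [hs, addY, negAddY, addX, negY]; ring
  have hns := nonsingular_add h h fun hxy => hy hxy.2
  have hns' : V.Nonsingular (-V.a₂) (V.a₁ * V.a₂ - V.a₃) := by
    rw [← hx, ← hyy]; exact hns
  refine ⟨hns', ?_⟩
  rw [e]
  simp only [some.injEq]
  exact ⟨hx, hyy⟩

theorem px_two (h4 : V.a₄ = 0) (h6 : V.a₆ = 0) {h : V.Nonsingular 0 0} {p : ℕ}
    (hp : p.Prime) (hp5 : 5 ≤ p) (hP : p • (Point.some 0 0 h : V.Point) = 0) :
    px (2 • (Point.some 0 0 h : V.Point)) = -V.a₂ := by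
  obtain ⟨h2, e⟩ := two_smul_eq h4 h6 hp hp5 hP
  rw [e, px_some]

theorem a₂_ne_zero (h4 : V.a₄ = 0) (h6 : V.a₆ = 0) {h : V.Nonsingular 0 0} {p : ℕ}
    (hp : p.Prime) (hp5 : 5 ≤ p) (hP : p • (Point.some 0 0 h : V.Point) = 0) : V.a₂ ≠ 0 := by
  intro h0
  refine px_ne hp hp5 (some_ne_zero h) hP (m := 2) le_rfl (by norm_num) ?_
  rw [px_two h4 h6 hp hp5 hP, h0, px_some]
  exact _root_.neg_zero

/-- `3P` -/
theorem three_smul_eq (h4 : V.a₄ = 0) (h6 : V.a₆ = 0) {h : V.Nonsingular 0 0} {p : ℕ}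
    (hp : p.Prime) (hp5 : 5 ≤ p) (hP : p • (Point.some 0 0 h : V.Point) = 0) :
    ∃ h3 : V.Nonsingular (V.a₃ * (V.a₃ - V.a₁ * V.a₂) / V.a₂ ^ 2)
        (-V.a₃ * (V.a₃ * (V.a₃ - V.a₁ * V.a₂) + V.a₂ ^ 3) / V.a₂ ^ 3),
      3 • (Point.some 0 0 h : V.Point) = Point.some _ _ h3 := by
  have hb := a₂_ne_zero h4 h6 hp hp5 hP
  obtain ⟨h2, e2⟩ := two_smul_eq h4 h6 hp hp5 hP
  have hne : -V.a₂ ≠ 0 := neg_ne_zero.mpr hb
  have hs : V.slope (-V.a₂) 0 (V.a₁ * V.a₂ - V.a₃) 0 = (V.a₃ - V.a₁ * V.a₂) / V.a₂ := by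
    rw [slope_of_X_ne hne]
    field_simp
    ring
  have e := add_of_X_ne (h₁ := h2) (h₂ := h) hne
  rw [← e2, ← succ_nsmul] at e
  have hx : V.addX (-V.a₂) 0 (V.slope (-V.a₂) 0 (V.a₁ * V.a₂ - V.a₃) 0) =
      V.a₃ * (V.a₃ - V.a₁ * V.a₂) / V.a₂ ^ 2 := by
    rw [hs, addX]
    field_simp
    ring
  have hy : V.addY (-V.a₂) 0 (V.a₁ * V.a₂ - V.a₃) (V.slope (-V.a₂) 0 (V.a₁ * V.a₂ - V.a₃) 0) =
      -V.a₃ * (V.a₃ * (V.a₃ - V.a₁ * V.a₂) + V.a₂ ^ 3) / V.a₂ ^ 3 := by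
    rw [hs, addY, negAddY, addX, negY]
    field_simp
    ring
  have hns := nonsingular_add h2 h fun hxy => hne hxy.1
  have hns' : V.Nonsingular (V.a₃ * (V.a₃ - V.a₁ * V.a₂) / V.a₂ ^ 2)
        (-V.a₃ * (V.a₃ * (V.a₃ - V.a₁ * V.a₂) + V.a₂ ^ 3) / V.a₂ ^ 3) := by
    rw [← hx, ← hy]; exact hns
  refine ⟨hns', ?_⟩
  have e' : 3 • (Point.some 0 0 h : V.Point) = _ := e
  rw [e']
  simp only [some.injEq]
  exact ⟨hx, hy⟩

theorem px_three (h4 : V.a₄ = 0) (h6 : V.a₆ = 0) {h : V.Nonsingular 0 0} {p : ℕ}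
    (hp : p.Prime) (hp5 : 5 ≤ p) (hP : p • (Point.some 0 0 h : V.Point) = 0) :
    px (3 • (Point.some 0 0 h : V.Point)) = V.a₃ * (V.a₃ - V.a₁ * V.a₂) / V.a₂ ^ 2 := by
  obtain ⟨h3, e⟩ := three_smul_eq h4 h6 hp hp5 hP
  rw [e, px_some]

theorem sub_ne_zero' (h4 : V.a₄ = 0) (h6 : V.a₆ = 0) {h : V.Nonsingular 0 0} {p : ℕ}
    (hp : p.Prime) (hp5 : 5 ≤ p) (hP : p • (Point.some 0 0 h : V.Point) = 0) :
    V.a₃ - V.a₁ * V.a₂ ≠ 0 := by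
  intro h0
  refine px_ne hp hp5 (some_ne_zero h) hP (m := 3) (by norm_num) le_rfl ?_
  rw [px_three h4 h6 hp hp5 hP, h0, px_some, mul_zero, zero_div]

theorem px_four (h4 : V.a₄ = 0) (h6 : V.a₆ = 0) {h : V.Nonsingular 0 0} {p : ℕ}
    (hp : p.Prime) (hp5 : 5 ≤ p) (hP : p • (Point.some 0 0 h : V.Point) = 0) :
    px (4 • (Point.some 0 0 h : V.Point)) =
      V.a₂ * (V.a₂ ^ 3 + V.a₃ * (V.a₃ - V.a₁ * V.a₂)) / (V.a₃ - V.a₁ * V.a₂) ^ 2 := by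
  have hb := a₂_ne_zero h4 h6 hp hp5 hP
  have hc := a₃_ne_zero h4 h6 hp hp5 hP
  have hd := sub_ne_zero' h4 h6 hp hp5 hP
  obtain ⟨h3, e3⟩ := three_smul_eq h4 h6 hp hp5 hP
  set b := V.a₂ with hbd
  set c := V.a₃ with hcd
  set a := V.a₁ with had
  have hx3 : c * (c - a * b) / b ^ 2 ≠ 0 :=
    div_ne_zero (mul_ne_zero hc hd) (pow_ne_zero 2 hb)
  have hs : V.slope (c * (c - a * b) / b ^ 2) 0 (-c * (c * (c - a * b) + b ^ 3) / b ^ 3) 0 =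
      -(c * (c - a * b) + b ^ 3) / (b * (c - a * b)) := by
    rw [slope_of_X_ne hx3, sub_zero, sub_zero]
    field_simp
  have e := add_of_X_ne (h₁ := h3) (h₂ := h) hx3
  rw [← e3, ← succ_nsmul] at e
  have e' : 4 • (Point.some 0 0 h : V.Point) = _ := e
  rw [e', px_some, hs, addX, ← hbd, ← had]
  field_simp
  ring

/-- **Multiples of `(0, 0)` on a curve in Tate form.** -/
theorem tate_mult (h4 : V.a₄ = 0) (h6 : V.a₆ = 0) {h : V.Nonsingular 0 0} {p : ℕ}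
    (hp : p.Prime) (hp5 : 5 ≤ p) (hP : p • (Point.some 0 0 h : V.Point) = 0) :
    V.a₂ ≠ 0 ∧ V.a₃ ≠ 0 ∧ V.a₃ - V.a₁ * V.a₂ ≠ 0 ∧
      px (2 • (Point.some 0 0 h : V.Point)) = -V.a₂ ∧
      px (3 • (Point.some 0 0 h : V.Point)) = V.a₃ * (V.a₃ - V.a₁ * V.a₂) / V.a₂ ^ 2 ∧
      px (4 • (Point.some 0 0 h : V.Point)) =
        V.a₂ * (V.a₂ ^ 3 + V.a₃ * (V.a₃ - V.a₁ * V.a₂)) / (V.a₃ - V.a₁ * V.a₂) ^ 2 :=
  ⟨a₂_ne_zero h4 h6 hp hp5 hP, a₃_ne_zero h4 h6 hp hp5 hP, sub_ne_zero' h4 h6 hp hp5 hP,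
    px_two h4 h6 hp hp5 hP, px_three h4 h6 hp hp5 hP, px_four h4 h6 hp hp5 hP⟩

end Fermat.Agent.Cor.TateMult
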