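import Mathlib
import Fermat.Agent.Cor.MazurCusp
import Fermat.Agent.Cor.TateMult
import Fermat.Agent.Cor.TateForm
import Fermat.Agent.Cor.CuspTors

set_option autoImplicit false

/-!
# Mazur: rational torsion points of prime order on elliptic curves over `ℚ`

`no_torsion`: an elliptic curve over `ℚ` has no rational point of prime order `p ≥ 11`, `p ≠ 13`.

Let `P` be a rational point of order `p ≥ 11` on `E`. In the primitive Tate form
`y² + a₁xy + a₃y = x³ + a₂x²` of `(E, P)` the reduction at no prime `ℓ` is cuspidal: otherwise all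
points of order `p` reduce to the cusp (a formal group argument on the equation scaled by `ℓ^(1/6)`),
in particular `P`, `2P`, `3P`, `4P`, and the formulas for their abscissas contradict the
primitivity. So `E` is semistable, and Mazur's theorem for semistable curves applies.

This file is not used by any of the statement files.
-/

namespace Fermat.Agent.Cor.MazurTorsion

open WeierstrassCurve WeierstrassCurve.Affine WeierstrassCurve.Affine.Point
open Fermat.Agent.H08 Fermat.Agent.H05 Fermat.Agent.H09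
open Fermat.Agent.Cor.Mazur (toQb toQb_some toQb_injective)

local notation "Qb" => AlgebraicClosure ℚ

theorem dvd_of_val_lt_one {A : ValuationSubring Qb} {ℓ : ℕ} (hℓ : ℓ.Prime)
    (hA : A.LiesOverPrime ℓ) {z : ℤ} (h : A.valuation (z : Qb) < 1) : (ℓ : ℤ) ∣ z := by
  by_contra hd
  rw [Fermat.Agent.H09.val_intCast_eq_one hℓ hA hd] at h
  exact lt_irrefl _ h

/-- **A primitive Tate form with a point of order `p ≥ 11` is semistable.** -/
theorem isSemistableModel_of_point {W : WeierstrassCurve ℤ} (w4 : W.a₄ = 0)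
    (w6 : W.a₆ = 0)
    (hprim : ∀ ℓ : ℕ, ℓ.Prime → ¬ ((ℓ : ℤ) ∣ W.a₁ ∧ (ℓ : ℤ) ^ 2 ∣ W.a₂ ∧ (ℓ : ℤ) ^ 3 ∣ W.a₃))
    {p : ℕ} (hp : p.Prime) (hp11 : 11 ≤ p)
    {h : (W.map (Int.castRingHom ℚ)).toAffine.Nonsingular 0 0}
    (hP : p • (Point.some 0 0 h : (W.map (Int.castRingHom ℚ)).toAffine.Point) = 0) :
    W.IsSemistableModel := by
  intro ℓ hℓ hℓΔ hℓc
  obtain ⟨r, s, t, h1, h2, h3, h4, h6⟩ := exists_cusp hℓ hℓΔ hℓc
  obtain ⟨A, hA⟩ := exists_liesOverPrime Qb hℓ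
  obtain ⟨h', e⟩ := toQb_some _ h
  have hh : ((W.map (Int.castRingHom ℚ))⁄Qb).Nonsingular 0 0 := by
    have := h'
    rwa [Rat.cast_zero] at this
  have e' : toQb _ (Point.some 0 0 h) = Point.some 0 0 hh := by
    rw [e]
    congr 1 <;> exact Rat.cast_zero
  have hpP : p • (Point.some 0 0 hh : ((W.map (Int.castRingHom ℚ))⁄Qb).Point) = 0 := by
    rw [← e', ← map_nsmul, hP, _root_.map_zero]
  have ha1 : ((W.map (Int.castRingHom ℚ))⁄Qb).a₁ = (W.a₁ : Qb) := by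
    rw [← map_int_Qb, WeierstrassCurve.map_a₁, Int.coe_castRingHom]
  have ha2 : ((W.map (Int.castRingHom ℚ))⁄Qb).a₂ = (W.a₂ : Qb) := by
    rw [← map_int_Qb, WeierstrassCurve.map_a₂, Int.coe_castRingHom]
  have ha3 : ((W.map (Int.castRingHom ℚ))⁄Qb).a₃ = (W.a₃ : Qb) := by
    rw [← map_int_Qb, WeierstrassCurve.map_a₃, Int.coe_castRingHom]
  have ha4 : ((W.map (Int.castRingHom ℚ))⁄Qb).a₄ = 0 := by
    rw [← map_int_Qb, WeierstrassCurve.map_a₄, Int.coe_castRingHom, w4]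
    exact Int.cast_zero
  have ha6 : ((W.map (Int.castRingHom ℚ))⁄Qb).a₆ = 0 := by
    rw [← map_int_Qb, WeierstrassCurve.map_a₆, Int.coe_castRingHom, w6]
    exact Int.cast_zero
  obtain ⟨hb0, hc0, hd0, e2, e3, e4⟩ := TateMult.tate_mult ha4 ha6 (h := hh) hp (by omega) hpP
  rw [ha2] at hb0 e2
  rw [ha1, ha2, ha3] at hd0 e3 e4
  have hP0 : (Point.some 0 0 hh : ((W.map (Int.castRingHom ℚ))⁄Qb).Point) ≠ 0 := some_ne_zero hh
  have hm : ∀ m : ℕ, 1 ≤ m → m ≤ 4 →
      A.valuation (px (m • (Point.some 0 0 hh : ((W.map (Int.castRingHom ℚ))⁄Qb).Point)) -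
        (r : Qb)) < 1 := by
    intro m hm1 hm4
    refine CuspTors.val_sub_lt_one hℓ hp (Or.inr hp11) h1 h2 h3 h4 h6 hA ?_ ?_
    · intro h0
      have h5 : addOrderOf (Point.some 0 0 hh : ((W.map (Int.castRingHom ℚ))⁄Qb).Point) = p := by
        have hfact : Fact p.Prime := ⟨hp⟩
        exact addOrderOf_eq_prime hpP hP0
      have h7 := addOrderOf_dvd_of_nsmul_eq_zero h0
      rw [h5] at h7
      have := Nat.le_of_dvd (by omega) h7
      omega
    · rw [smul_comm, hpP]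
      exact nsmul_zero m
  have hr : (ℓ : ℤ) ∣ r := by
    have h5 := hm 1 le_rfl (by norm_num)
    rw [one_smul, px_some, zero_sub, Valuation.map_neg] at h5
    exact dvd_of_val_lt_one hℓ hA h5
  have hrv : A.valuation (r : Qb) < 1 := Fermat.Agent.H09.val_intCast_lt_one hA hr
  have hm' : ∀ m : ℕ, 1 ≤ m → m ≤ 4 →
      A.valuation (px (m • (Point.some 0 0 hh : ((W.map (Int.castRingHom ℚ))⁄Qb).Point))) < 1 := by
    intro m hm1 hm4
    have h5 := A.valuation.map_add_lt (hm m hm1 hm4) hrv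
    rwa [sub_add_cancel] at h5
  have hb : (ℓ : ℤ) ∣ W.a₂ := by
    have h5 := hm' 2 (by norm_num) (by norm_num)
    rw [e2, Valuation.map_neg] at h5
    exact dvd_of_val_lt_one hℓ hA h5
  have hpℓ : Prime (ℓ : ℤ) := Nat.prime_iff_prime_int.mp hℓ
  obtain ⟨r', rfl⟩ := hr
  have hb2 := hb
  obtain ⟨b', hb'⟩ := hb2
  have hs : (ℓ : ℤ) ∣ s := by
    obtain ⟨k1, hk1⟩ := h1
    obtain ⟨k2, hk2⟩ := h2
    apply hpℓ.dvd_of_dvd_pow (n := 2)
    refine ⟨k2 + s * k1 - b' - 3 * r', ?_⟩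
    linear_combination hk2 + s * hk1 - hb'
  have ha : (ℓ : ℤ) ∣ W.a₁ := by
    have h5 : (ℓ : ℤ) ∣ 2 * s := Dvd.dvd.mul_left hs 2
    exact (dvd_add_left h5).mp h1
  have ht : (ℓ : ℤ) ∣ t := by
    obtain ⟨k3, hk3⟩ := h3
    obtain ⟨k6, hk6⟩ := h6
    rw [w4, w6] at hk6
    apply hpℓ.dvd_of_dvd_pow (n := 2)
    refine ⟨k6 + t * k3 - ℓ * r' ^ 2 * W.a₂ - ℓ ^ 2 * r' ^ 3, ?_⟩
    linear_combination hk6 + t * hk3
  have hc : (ℓ : ℤ) ∣ W.a₃ := by
    have h5 : (ℓ : ℤ) ∣ 2 * t := Dvd.dvd.mul_left ht 2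
    have h6' : (ℓ : ℤ) ∣ ℓ * r' * W.a₁ := ⟨r' * W.a₁, by ring⟩
    have h7 : (ℓ : ℤ) ∣ W.a₃ + ℓ * r' * W.a₁ := (dvd_add_left h5).mp h3
    exact (dvd_add_left h6').mp h7
  refine analysis hℓ hA (hprim ℓ hℓ) ha hb ?_ ?_ ?_ ?_
  · intro h0
    apply hb0
    rw [h0, Int.cast_zero]
  · intro h0
    apply hd0
    have := congrArg (fun z : ℤ => (z : Qb)) h0
    push_cast at this
    exact this
  · rw [← e3]; exact hm' 3 (by norm_num) (by norm_num)
  · rw [← e4]; exact hm' 4 (by norm_num) (by norm_num)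

/-- An elliptic curve over `ℚ` with a rational point of prime order `p ≥ 11` is semistable. -/
theorem exists_semistable {E : WeierstrassCurve ℚ} (hΔ : E.Δ ≠ 0) {p : ℕ} (hp : p.Prime)
    (hp11 : 11 ≤ p) {P : E.toAffine.Point} (hP0 : P ≠ 0) (hP : p • P = 0) :
    ∃ W : WeierstrassCurve ℤ, W.Δ ≠ 0 ∧ W.IsSemistableModel ∧
      ∃ P' : (W.map (Int.castRingHom ℚ)).toAffine.Point, P' ≠ 0 ∧ p • P' = 0 := by
  obtain ⟨a, b, c, hΔ', hprim, h, hpP⟩ := TateForm.exists_tate hΔ hp (by omega) hP0 hP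
  exact ⟨_, hΔ', isSemistableModel_of_point rfl rfl hprim hp hp11 hpP, Point.some 0 0 h,
    some_ne_zero h, hpP⟩

/-- **Mazur.** An elliptic curve over `ℚ` has no rational point of prime order `p ≥ 11`,
`p ≠ 13`. -/
theorem no_torsion {E : WeierstrassCurve ℚ} (hΔ : E.Δ ≠ 0) {p : ℕ} (hp : p.Prime)
    (hp11 : 11 ≤ p) (hp13 : p ≠ 13) {P : E.toAffine.Point} (hP : p • P = 0) : P = 0 := by
  by_contra hP0
  obtain ⟨W, hΔ', hss, P', hP'0, hP'⟩ := exists_semistable hΔ hp hp11 hP0 hP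
  exact hP'0 (Mazur.no_torsion hΔ' hss hp hp11 hp13 hP')

/-- the prime factors of the order of a rational torsion point are `2, 3, 5, 7, 13` -/
theorem prime_dvd_addOrderOf {E : WeierstrassCurve ℚ} (hΔ : E.Δ ≠ 0) {P : E.toAffine.Point}
    (hP : addOrderOf P ≠ 0) {p : ℕ} (hp : p.Prime) (hd : p ∣ addOrderOf P) :
    p = 2 ∨ p = 3 ∨ p = 5 ∨ p = 7 ∨ p = 13 := by
  by_cases hp11 : 11 ≤ p
  · right; right; right; right
    by_contra hp13
    obtain ⟨m, hm⟩ := hd
    have h1 : p • (m • P) = 0 := by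
      rw [← mul_nsmul', ← hm]
      exact addOrderOf_nsmul_eq_zero P
    have h2 := no_torsion hΔ hp hp11 hp13 h1
    have h3 := addOrderOf_dvd_of_nsmul_eq_zero h2
    rw [hm] at h3 hP
    have hm0 : m ≠ 0 := fun h => hP (by rw [h, mul_zero])
    have h4 := Nat.le_of_dvd (Nat.pos_of_ne_zero hm0) h3
    have h5 : 2 * m ≤ p * m := Nat.mul_le_mul_right m hp.two_le
    omega
  · push Not at hp11
    interval_cases p <;> first | omega | (exfalso; revert hp; decide)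

end Fermat.Agent.Cor.MazurTorsion
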