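import Mathlib
import Fermat.Agent.Cor.MazurTorsion

set_option autoImplicit false

/-!
# The rational points of `X₁(11)`

`rational_points`, `rational_points_iff`: the only rational solutions of `y² + y = x³ - x²` are
`(0, 0)`, `(0, -1)`, `(1, 0)`, `(1, -1)`; `card_points`: `X₁(11)(ℚ)` has exactly five points.

Let `(x, y)` be another solution, `r = 1 + y`, `s = (x + y) / x`, `b = rs(r - 1)`, `c = s(r - 1)`.
Then `(0, 0)` is a point of order `11` on `Y² + (1 - c)XY - bY = X³ - bX²`.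

This file is not used by any of the statement files.
-/

namespace Fermat.Agent.Cor.Eleven

open WeierstrassCurve WeierstrassCurve.Affine WeierstrassCurve.Affine.Point
open Fermat.Agent.H08

section Add

variable {F : Type*} [Field F] [DecidableEq F] {V : WeierstrassCurve.Affine F}

/-- adding the point `(0, 0)` -/
theorem add_step {x₁ y₁ m x₃ y₃ : F} (h₁ : V.Nonsingular x₁ y₁) (h : V.Nonsingular 0 0)
    (hx : x₁ ≠ 0) (hm : m * x₁ = y₁) (hx3 : x₃ = m ^ 2 + V.a₁ * m - V.a₂ - x₁)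
    (hy3 : y₃ = -(m * x₃) - V.a₁ * x₃ - V.a₃) :
    ∃ h₃ : V.Nonsingular x₃ y₃, (Point.some x₁ y₁ h₁ : V.Point) + Point.some 0 0 h =
      Point.some x₃ y₃ h₃ := by
  have hs : V.slope x₁ 0 y₁ 0 = m := by
    rw [slope_of_X_ne hx, sub_zero, sub_zero, div_eq_iff hx, hm]
  have e := add_of_X_ne (h₁ := h₁) (h₂ := h) hx
  have ex : V.addX x₁ 0 (V.slope x₁ 0 y₁ 0) = x₃ := by rw [hs, addX, hx3]; ring
  have ey : V.addY x₁ 0 y₁ (V.slope x₁ 0 y₁ 0) = y₃ := by
    rw [hs, addY, negAddY, addX, negY, hy3, hx3, ← hm]; ring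
  have hns := nonsingular_add h₁ h fun hxy => hx hxy.1
  have hns' : V.Nonsingular x₃ y₃ := by rw [← ex, ← ey]; exact hns
  refine ⟨hns', ?_⟩
  rw [e]
  simp only [some.injEq]
  exact ⟨ex, ey⟩

/-- doubling the point `(0, 0)` -/
theorem double_zero (h4 : V.a₄ = 0) (h3 : V.a₃ ≠ 0) (h : V.Nonsingular 0 0) :
    ∃ h2 : V.Nonsingular (-V.a₂) (V.a₁ * V.a₂ - V.a₃),
      2 • (Point.some 0 0 h : V.Point) = Point.some (-V.a₂) (V.a₁ * V.a₂ - V.a₃) h2 := by
  have hy : (0 : F) ≠ V.negY 0 0 := by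
    rw [negY]
    intro h0
    apply h3
    linear_combination h0
  have hs : V.slope 0 0 0 0 = 0 := by
    rw [slope_of_Y_ne rfl hy, h4]
    simp
  have e := add_self_of_Y_ne (h₁ := h) hy
  rw [← two_nsmul] at e
  have hx : V.addX 0 0 (V.slope 0 0 0 0) = -V.a₂ := by rw [hs, addX]; ring
  have hyy : V.addY 0 0 0 (V.slope 0 0 0 0) = V.a₁ * V.a₂ - V.a₃ := by
    rw [hs, addY, negAddY, addX, negY]; ring
  have hns := nonsingular_add h h fun hxy => hy hxy.2
  have hns' : V.Nonsingular (-V.a₂) (V.a₁ * V.a₂ - V.a₃) := by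
    rw [← hx, ← hyy]; exact hns
  refine ⟨hns', ?_⟩
  rw [e]
  simp only [some.injEq]
  exact ⟨hx, hyy⟩

/-- **`X₁(11)`**: if `r² - rs³ + 3rs² - 4rs + s = 0`, the point `(0, 0)` on the curve in Tate form
with parameters `b = rs(r - 1)`, `c = s(r - 1)` satisfies `11 P = 0`. -/
theorem eleven_nsmul {r s : F} (hr : r ≠ 0) (hr1 : r - 1 ≠ 0) (hs : s ≠ 0) (hs1 : s - 1 ≠ 0)
    (h11 : r ^ 2 - r * s ^ 3 + 3 * r * s ^ 2 - 4 * r * s + s = 0)
    (e1 : V.a₁ = 1 - s * (r - 1)) (e2 : V.a₂ = -(r * s * (r - 1)))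
    (e3 : V.a₃ = -(r * s * (r - 1))) (e4 : V.a₄ = 0) (h : V.Nonsingular 0 0) :
    11 • (Point.some 0 0 h : V.Point) = 0 := by
  have hc : s * (r - 1) ≠ 0 := mul_ne_zero hs hr1
  have hb : r * s * (r - 1) ≠ 0 := mul_ne_zero (mul_ne_zero hr hs) hr1
  have h3 : V.a₃ ≠ 0 := by rw [e3]; exact neg_ne_zero.mpr hb
  set P : V.Point := Point.some 0 0 h with hP
  obtain ⟨n2, q2⟩ := double_zero e4 h3 h
  obtain ⟨n3, q3⟩ := add_step (V := V) (m := s * (r - 1)) (x₃ := s * (r - 1))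
    (y₃ := r * s * (r - 1) - s * (r - 1)) n2 h
    (by rw [e2, neg_neg]; exact hb) (by rw [e1, e2, e3]; ring) (by rw [e1, e2]; ring)
    (by rw [e1, e3]; ring)
  obtain ⟨n4, q4⟩ := add_step (V := V) (m := r - 1) (x₃ := r * (r - 1))
    (y₃ := r ^ 2 * (s - 1) * (r - 1)) n3 h hc (by ring) (by rw [e1, e2]; ring)
    (by rw [e1, e3]; ring)
  obtain ⟨n5, q5⟩ := add_step (V := V) (m := r * (s - 1)) (x₃ := r * s * (s - 1))
    (y₃ := r * s ^ 2 * (r - s)) n4 h (mul_ne_zero hr hr1) (by ring) (by rw [e1, e2]; ring)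
    (by rw [e1, e3]; ring)
  have hx5 : r * s * (s - 1) ≠ 0 := mul_ne_zero (mul_ne_zero hr hs) hs1
  have hm : s * (r - s) / (s - 1) * (s - 1) = s * (r - s) := div_mul_cancel₀ _ hs1
  obtain ⟨n6, q6⟩ := add_step (V := V) (m := s * (r - s) / (s - 1)) (x₃ := r * s * (s - 1))
    (y₃ := V.negY (r * s * (s - 1)) (r * s ^ 2 * (r - s))) n5 h hx5
    (by linear_combination r * s * hm)
    (by
      rw [e1, e2]
      field_simp
      linear_combination -h11)
    (by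
      rw [negY]
      linear_combination r * s * hm)
  have s3 : 3 • P = Point.some _ _ n3 := by rw [succ_nsmul, q2, q3]
  have s4 : 4 • P = Point.some _ _ n4 := by rw [succ_nsmul, s3, q4]
  have s5 : 5 • P = Point.some _ _ n5 := by rw [succ_nsmul, s4, q5]
  have s6 : 6 • P = Point.some _ _ n6 := by rw [succ_nsmul, s5, q6]
  have e : 11 • P = 6 • P + 5 • P := by rw [← add_nsmul]
  rw [e, s5, s6]
  exact add_of_Y_eq rfl rfl

end Add

/-- the five irrational cusps -/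
theorem cusp_ne (x : ℚ) : x ^ 5 - 18 * x ^ 4 + 35 * x ^ 3 - 16 * x ^ 2 - 2 * x + 1 ≠ 0 := by
  intro h
  have hd : (x.den : ℚ) ≠ 0 := Nat.cast_ne_zero.mpr x.den_ne_zero
  have hx : x * (x.den : ℚ) = x.num := Rat.mul_den_eq_num x
  have h1 : (x.num : ℚ) ^ 5 - 18 * x.num ^ 4 * x.den + 35 * x.num ^ 3 * x.den ^ 2 -
      16 * x.num ^ 2 * x.den ^ 3 - 2 * x.num * x.den ^ 4 + x.den ^ 5 = 0 := by
    rw [← hx]
    linear_combination (x.den : ℚ) ^ 5 * h
  have h2 : x.num ^ 5 - 18 * x.num ^ 4 * x.den + 35 * x.num ^ 3 * x.den ^ 2 -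
      16 * x.num ^ 2 * x.den ^ 3 - 2 * x.num * x.den ^ 4 + (x.den : ℤ) ^ 5 = 0 := by
    exact_mod_cast h1
  have hcop : ¬ (Even x.num ∧ Even (x.den : ℤ)) := by
    rintro ⟨h3, h4⟩
    have h5 : 2 ∣ x.num.natAbs := Int.natCast_dvd.mp (even_iff_two_dvd.mp h3)
    have h6 : 2 ∣ x.den := by
      have := even_iff_two_dvd.mp h4
      exact_mod_cast this
    have h7 := Nat.dvd_gcd h5 h6
    rw [x.reduced] at h7
    omega
  have h3 : Even (x.num ^ 5 - 18 * x.num ^ 4 * x.den + 35 * x.num ^ 3 * x.den ^ 2 -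
      16 * x.num ^ 2 * x.den ^ 3 - 2 * x.num * x.den ^ 4 + (x.den : ℤ) ^ 5) := by
    rw [h2]; exact Even.zero
  have e18 : Even (18 : ℤ) := by decide
  have e35 : ¬ Even (35 : ℤ) := by decide
  have e16 : Even (16 : ℤ) := by decide
  have e2 : Even (2 : ℤ) := by decide
  simp only [Int.even_add, Int.even_sub, Int.even_mul, Int.even_pow, e18, e35, e16, e2] at h3
  tauto

/-- the discriminant does not vanish -/
theorem disc_ne {x y : ℚ} (h : y ^ 2 + y = x ^ 3 - x ^ 2) (hx : x ≠ 0) (hx1 : x - 1 ≠ 0) :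
    16 * (x * (x - 1) * (x + y)) ^ 2 * x ^ 4 + (x * (x - 1) * (x + y)) *
      (x ^ 4 - 20 * (y * (x + y)) * x ^ 3 - 8 * (y * (x + y)) ^ 2 * x ^ 2) -
      (y * (x + y)) * (x - y * (x + y)) ^ 3 ≠ 0 := by
  intro h0
  have h1 : (-x ^ 2 + 8 * x ^ 3 - 20 * x ^ 4 + 11 * x ^ 5 + 40 * x ^ 6 - 95 * x ^ 7 + 98 * x ^ 8 - 58 * x
      ^ 9 + 22 * x ^ 10 - 6 * x ^ 11 + x ^ 12) +
      (-1 + 7 * x - 12 * x ^ 2 - 10 * x ^ 3 + 59 * x ^ 4 - 77 * x ^ 5 + 31 * x ^ 6 + 26 * x ^ 7 -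
      39 * x ^ 8 + 20 * x ^ 9 - 4 * x ^ 10) * y = 0 := by
    linear_combination h0 - (1 - y + y ^ 2 - y ^ 3 + y ^ 4 - y ^ 5 + y ^ 6 - 7 * x + 7 * x * y - 7 * x * y ^ 2 + 7 * x *
      y ^ 3 - 7 * x * y ^ 4 + 4 * x * y ^ 5 + 13 * x ^ 2 - 14 * x ^ 2 * y + 15 * x ^ 2 * y ^
      2 - 13 * x ^ 2 * y ^ 3 + 5 * x ^ 2 * y ^ 4 + 2 * x ^ 3 + 5 * x ^ 3 * y - 7 * x ^ 3 * y
      ^ 2 + 6 * x ^ 3 * y ^ 3 + x ^ 3 * y ^ 4 - 39 * x ^ 4 + 20 * x ^ 4 * y + 17 * x ^ 4 * y
      ^ 2 - 4 * x ^ 4 * y ^ 3 + 57 * x ^ 5 + 5 * x ^ 5 * y - 20 * x ^ 5 * y ^ 2 - 25 * x ^ 6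
      - 15 * x ^ 6 * y + x ^ 6 * y ^ 2 + x ^ 7 - 4 * x ^ 7 * y - 5 * x ^ 8 + x ^ 9) * h
  have h2 : x ^ 9 * (x - 1) ^ 10 *
      (x ^ 5 - 18 * x ^ 4 + 35 * x ^ 3 - 16 * x ^ 2 - 2 * x + 1) = 0 := by
    linear_combination ((-x ^ 2 + 8 * x ^ 3 - 20 * x ^ 4 + 11 * x ^ 5 + 40 * x ^ 6 - 95 * x ^ 7 + 98 * x ^ 8 - 58 * x
      ^ 9 + 22 * x ^ 10 - 6 * x ^ 11 + x ^ 12) -
      (-1 + 7 * x - 12 * x ^ 2 - 10 * x ^ 3 + 59 * x ^ 4 - 77 * x ^ 5 + 31 * x ^ 6 + 26 * x ^ 7 -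
      39 * x ^ 8 + 20 * x ^ 9 - 4 * x ^ 10) * (1 + y)) * h1 +
      (-1 + 7 * x - 12 * x ^ 2 - 10 * x ^ 3 + 59 * x ^ 4 - 77 * x ^ 5 + 31 * x ^ 6 + 26 * x ^ 7 -
      39 * x ^ 8 + 20 * x ^ 9 - 4 * x ^ 10) ^ 2 * h
  exact mul_ne_zero (mul_ne_zero (pow_ne_zero 9 hx) (pow_ne_zero 10 hx1)) (cusp_ne x) h2

/-- **The rational points of `X₁(11)`.** -/
theorem rational_points {x y : ℚ} (h : y ^ 2 + y = x ^ 3 - x ^ 2) : x = 0 ∨ x = 1 := by
  by_contra hcon
  push Not at hcon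
  obtain ⟨hx, hx1'⟩ := hcon
  have hx1 : x - 1 ≠ 0 := sub_ne_zero.mpr hx1'
  have hy : y * (y + 1) ≠ 0 := by
    have : y * (y + 1) = x ^ 2 * (x - 1) := by linear_combination h
    rw [this]
    exact mul_ne_zero (pow_ne_zero 2 hx) hx1
  have hy0 : y ≠ 0 := fun h0 => hy (by rw [h0, zero_mul])
  have hy1 : y + 1 ≠ 0 := fun h0 => hy (by rw [h0, mul_zero])
  have hxy : x + y ≠ 0 := by
    intro h0
    have h1 : x * (x - 1) ^ 2 = 0 := by
      have : y = -x := by linear_combination h0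
      rw [this] at h
      linear_combination -h
    exact mul_ne_zero hx (pow_ne_zero 2 hx1) h1
  set s : ℚ := (x + y) / x with hs
  have hsx : s * x = x + y := div_mul_cancel₀ _ hx
  have hs0 : s ≠ 0 := div_ne_zero hxy hx
  have hs1 : s - 1 ≠ 0 := by
    intro h0
    have : (s - 1) * x = y := by linear_combination hsx
    rw [h0, zero_mul] at this
    exact hy0 this.symm
  have h11 : (1 + y) ^ 2 - (1 + y) * s ^ 3 + 3 * (1 + y) * s ^ 2 - 4 * (1 + y) * s + s = 0 := by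
    rw [hs]
    field_simp
    linear_combination -y ^ 2 * h
  let E : WeierstrassCurve ℚ := ⟨1 - s * (1 + y - 1), -((1 + y) * s * (1 + y - 1)),
    -((1 + y) * s * (1 + y - 1)), 0, 0⟩
  have hb : (1 + y) * s * (1 + y - 1) ≠ 0 := by
    refine mul_ne_zero (mul_ne_zero ?_ hs0) ?_
    · rw [add_comm]; exact hy1
    · rw [add_sub_cancel_left]; exact hy0
  have hns : E.toAffine.Nonsingular 0 0 := by
    rw [nonsingular_zero]
    exact ⟨rfl, Or.inl (neg_ne_zero.mpr hb)⟩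
  have hΔ : E.Δ ≠ 0 := by
    intro h0
    simp only [E, WeierstrassCurve.Δ, WeierstrassCurve.b₂, WeierstrassCurve.b₄,
      WeierstrassCurve.b₆, WeierstrassCurve.b₈] at h0
    apply disc_ne h hx hx1
    have h1 : ((1 + y) * s * (1 + y - 1)) ^ 3 * (16 * ((1 + y) * s * y) ^ 2 + ((1 + y) * s * y) *
        (1 - 20 * (s * y) - 8 * (s * y) ^ 2) - (s * y) * (1 - s * y) ^ 3) = 0 := by
      linear_combination h0
    have h2 := (mul_eq_zero.mp h1).resolve_left (pow_ne_zero 3 hb)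
    have e1 : (1 + y) * s * y = x * (x - 1) * (x + y) := by
      rw [hs]
      field_simp
      linear_combination h
    have e2 : s * y * x = y * (x + y) := by linear_combination y * hsx
    rw [e1] at h2
    rw [← e2]
    linear_combination x ^ 4 * h2
  have hP := eleven_nsmul (V := E.toAffine) (r := 1 + y) (s := s) (by rw [add_comm]; exact hy1)
    (by rw [add_sub_cancel_left]; exact hy0) hs0 hs1 h11 rfl rfl rfl rfl hns
  exact some_ne_zero hns (MazurTorsion.no_torsion hΔ (by norm_num) (by norm_num) (by norm_num) hP)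

/-- **The rational solutions of `y² + y = x³ - x²`.** -/
theorem rational_points_iff {x y : ℚ} : y ^ 2 + y = x ^ 3 - x ^ 2 ↔
    (x = 0 ∧ y = 0) ∨ (x = 0 ∧ y = -1) ∨ (x = 1 ∧ y = 0) ∨ (x = 1 ∧ y = -1) := by
  constructor
  · intro h
    have hx := rational_points h
    have hy : y = 0 ∨ y = -1 := by
      have h1 : y * (y + 1) = 0 := by
        rcases hx with rfl | rfl <;> linear_combination h
      rcases mul_eq_zero.mp h1 with h2 | h2
      · exact Or.inl h2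
      · exact Or.inr (by linear_combination h2)
    tauto
  · rintro (⟨rfl, rfl⟩ | ⟨rfl, rfl⟩ | ⟨rfl, rfl⟩ | ⟨rfl, rfl⟩) <;> norm_num

/-- the elliptic curve `X₁(11)` -/
def X11 : WeierstrassCurve ℚ := ⟨0, -1, 1, 0, 0⟩

theorem nonsingular_iff {x y : ℚ} : X11.toAffine.Nonsingular x y ↔
    (x = 0 ∨ x = 1) ∧ (y = 0 ∨ y = -1) := by
  have hΔ : X11.Δ ≠ 0 := by
    simp only [X11, WeierstrassCurve.Δ, WeierstrassCurve.b₂, WeierstrassCurve.b₄,
      WeierstrassCurve.b₆, WeierstrassCurve.b₈]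
    norm_num
  have e : X11.toAffine.Nonsingular x y ↔ X11.toAffine.Equation x y :=
    ⟨fun h => h.1, fun h => equation_iff_nonsingular_of_Δ_ne_zero hΔ |>.mp h⟩
  rw [e, equation_iff]
  have e2 : y ^ 2 + X11.toAffine.a₁ * x * y + X11.toAffine.a₃ * y =
      x ^ 3 + X11.toAffine.a₂ * x ^ 2 + X11.toAffine.a₄ * x + X11.toAffine.a₆ ↔
      y ^ 2 + y = x ^ 3 - x ^ 2 := by
    simp only [X11]
    constructor <;> intro h <;> linear_combination h
  rw [e2, rational_points_iff]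
  tauto

/-- **`X₁(11)(ℚ)` has exactly five points** (the rational cusps). -/
theorem card_points : Nat.card X11.toAffine.Point = 5 := by
  classical
  let g : Bool → ℚ := fun i => if i then 1 else 0
  let k : Bool → ℚ := fun j => if j then -1 else 0
  have hns : ∀ i j : Bool, X11.toAffine.Nonsingular (g i) (k j) := by
    intro i j
    rw [nonsingular_iff]
    cases i <;> cases j <;> simp [g, k]
  let f : Option (Bool × Bool) → X11.toAffine.Point := fun o =>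
    match o with
    | none => 0
    | Option.some ij => Point.some (g ij.1) (k ij.2) (hns ij.1 ij.2)
  have hf : Function.Bijective f := by
    constructor
    · rintro (_ | ⟨i, j⟩) (_ | ⟨i', j'⟩) h
      · rfl
      · exact absurd h.symm (some_ne_zero _)
      · exact absurd h (some_ne_zero _)
      · have h' : Point.some (g i) (k j) (hns i j) = Point.some (g i') (k j') (hns i' j') := h
        simp only [some.injEq] at h'
        obtain ⟨h1, h2⟩ := h'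
        have e1 : i = i' := by
          cases i <;> cases i' <;> simp [g] at h1 <;> rfl
        have e2 : j = j' := by
          cases j <;> cases j' <;> simp [k] at h2 <;> rfl
        rw [e1, e2]
    · rintro (_ | ⟨x, y, h⟩)
      · exact ⟨none, rfl⟩
      · obtain ⟨hx, hy⟩ := nonsingular_iff.mp h
        obtain ⟨i, rfl⟩ : ∃ i, g i = x := by
          rcases hx with rfl | rfl
          · exact ⟨false, rfl⟩
          · exact ⟨true, rfl⟩
        obtain ⟨j, rfl⟩ : ∃ j, k j = y := by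
          rcases hy with rfl | rfl
          · exact ⟨false, rfl⟩
          · exact ⟨true, rfl⟩
        exact ⟨Option.some (i, j), rfl⟩
  rw [← Nat.card_congr (Equiv.ofBijective f hf)]
  simp

end Fermat.Agent.Cor.Eleven
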