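import Fermat.Agent.Cor.JBijective
import Fermat.Agent.H24.Liouville
import Fermat.Agent.IntStr.AutC

/-!
# Transport of isogenies of complex tori by field automorphisms

This file is not used by any of the statement files.

* `P_surjective`, `Phi_surjective`: the Weierstrass function takes every value, and the
  uniformisation `ℂ → E(ℂ)` is surjective;
* `Tr.of_le`: let `L ⊆ M` be lattices in `ℂ`, `σ` an endomorphism of the field `ℂ` and `L'` the
  lattice with invariants `σ(g₂(L))`, `σ(g₃(L))`.  Then there is a lattice `M' ⊇ L'` with invariants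
  `σ(g₂(M))`, `σ(g₃(M))`.  (For a step of prime index this is Vélu's formula for the invariants of
  a superlattice and the uniformisation.)
* `conj_aux`: if `a τ² + b τ + c = 0` and `j(τ') = σ(j(τ))`, then `τ'` satisfies an integral quadratic
  equation of the same discriminant.
-/

set_option autoImplicit false

noncomputable section

namespace Fermat.Agent.Cor.CM

open UpperHalfPlane hiding I
open MatrixGroups ModularForm Filter Topology
open Fermat.Agent.H14 (pp)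
open Fermat.Agent.H24
open WeierstrassCurve WeierstrassCurve.Affine WeierstrassCurve.Affine.Point

/-- The Weierstrass function takes every value. -/
theorem P_surjective (L : PeriodPair) (x : ℂ) : ∃ z, z ∉ L.lattice ∧ L.weierstrassP z = x := by
  by_contra! hcon
  let f : ℂ → ℂ := fun z => (L.weierstrassP z - x)⁻¹
  have hf : Meromorphic f := by
    intro z
    exact ((L.meromorphic_weierstrassP z).sub (MeromorphicAt.const x z)).inv
  have hper : ∀ l ∈ L.lattice, ∀ z, f (z + l) = f z := by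
    intro l hl z
    simp only [f]
    rw [L.weierstrassP_add_coe z ⟨l, hl⟩]
  have h0 : Tendsto f (𝓝[≠] 0) (𝓝 0) := by
    have h1 := tendsto_P_atTop L
    have h2 : Tendsto (fun z => L.weierstrassP z) (𝓝[≠] 0) (Bornology.cobounded ℂ) :=
      tendsto_norm_atTop_iff_cobounded.mp h1
    have h3 : Tendsto (fun z => L.weierstrassP z - x) (𝓝[≠] 0) (Bornology.cobounded ℂ) := by
      have := tendsto_add_const_cobounded (-x)
      have h4 := this.comp h2
      refine h4.congr fun z => ?_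
      simp [sub_eq_add_neg]
    exact (tendsto_inv₀_cobounded).comp h3
  have hcont : ∀ z, z ∉ L.lattice → ContinuousAt f z := by
    intro z hz
    exact ((L.analyticOnNhd_weierstrassP z hz).continuousAt.sub continuousAt_const).inv₀
      (sub_ne_zero.mpr (hcon z hz))
  have hlim : ∀ z, ∃ c, Tendsto f (𝓝[≠] z) (𝓝 c) := by
    intro z
    by_cases hz : z ∈ L.lattice
    · refine ⟨0, ?_⟩
      have h1 : Tendsto (fun u => u - z) (𝓝[≠] z) (𝓝[≠] 0) := by
        rw [tendsto_nhdsWithin_iff]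
        refine ⟨?_, ?_⟩
        · have : ContinuousAt (fun u : ℂ => u - z) z := by fun_prop
          have := this.tendsto.mono_left (nhdsWithin_le_nhds (s := {z}ᶜ))
          simpa using this
        · filter_upwards [self_mem_nhdsWithin] with u hu
          exact sub_ne_zero.mpr hu
      refine (h0.comp h1).congr fun u => ?_
      have := hper z hz (u - z)
      rw [sub_add_cancel] at this
      exact this.symm
    · exact ⟨f z, (hcont z hz).tendsto.mono_left nhdsWithin_le_nhds⟩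
  have hz1 := L.ω₁_div_two_notMem_lattice
  have h1 := liouville_lim L hf hper hlim h0 (L.ω₁ / 2)
  have h2 := (hcont _ hz1).tendsto.mono_left (nhdsWithin_le_nhds (s := {L.ω₁ / 2}ᶜ))
  have h3 := tendsto_nhds_unique h1 h2
  exact inv_ne_zero (sub_ne_zero.mpr (hcon _ hz1)) h3.symm

variable {L : PeriodPair} {V : WeierstrassCurve ℂ}

/-- The uniformisation is surjective. -/
theorem Phi_surjective (h4 : V.c₄ = 12 * L.g₂) (h6 : V.c₆ = 216 * L.g₃) (hΔ : V.Δ ≠ 0) :
    Function.Surjective (Phi h4 h6 hΔ) := by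
  rintro (_ | ⟨x, y, hxy⟩)
  · exact ⟨0, map_zero _⟩
  · obtain ⟨z, hz, hz2⟩ := P_surjective L (x + V.b₂ / 12)
    have e1 := Phi_of_notMem h4 h6 hΔ hz
    have e2 := (equation_iff ..).mp (equation_P h4 h6 hz)
    have e3 := (equation_iff ..).mp hxy.1
    have hx : L.weierstrassP z - V.b₂ / 12 = x := by rw [hz2]; ring
    rw [hx] at e2
    set y' := (L.derivWeierstrassP z - V.a₁ * x - V.a₃) / 2 with hy'
    have hprod : (y - y') * (y - V.toAffine.negY x y') = 0 := by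
      rw [negY]
      linear_combination e3 - e2
    rcases mul_eq_zero.mp hprod with h | h
    · refine ⟨z, ?_⟩
      rw [e1]
      have hy : y = y' := sub_eq_zero.mp h
      subst hx
      subst hy
      rfl
    · refine ⟨-z, ?_⟩
      rw [map_neg, e1, neg_some]
      have hy : y = V.toAffine.negY x y' := sub_eq_zero.mp h
      subst hx
      subst hy
      rfl

/-- the action of a field homomorphism on points -/
def mapPt (V : WeierstrassCurve ℂ) (σ : ℂ →+* ℂ) :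
    V.toAffine.Point →+ (V.map σ).toAffine.Point where
  toFun P := match P with
    | 0 => 0
    | Point.some _ _ h => Point.some _ _ <| (V.toAffine.map_nonsingular σ.injective ..).mpr h
  map_zero' := rfl
  map_add' := by
    rintro (_ | ⟨x₁, y₁, h₁⟩) (_ | ⟨x₂, y₂, h₂⟩)
    any_goals rfl
    by_cases hxy : x₁ = x₂ ∧ y₁ = V.toAffine.negY x₂ y₂
    · rw [add_of_Y_eq hxy.left hxy.right,
        add_of_Y_eq (congr_arg _ hxy.left) <| by rw [hxy.right, map_negY]]
    · simpa only [add_some hxy, ← map_addX, ← map_addY, ← map_slope] using!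
        (add_some fun h ↦ hxy ⟨σ.injective h.1, σ.injective (V.toAffine.map_negY σ .. ▸ h).2⟩).symm

theorem mapPt_some (V : WeierstrassCurve ℂ) (σ : ℂ →+* ℂ) {x y : ℂ} (h : V.toAffine.Nonsingular x y) :
    mapPt V σ (Point.some x y h) =
      Point.some (σ x) (σ y) ((V.toAffine.map_nonsingular σ.injective ..).mpr h) := rfl

theorem mapPt_eq_zero (V : WeierstrassCurve ℂ) (σ : ℂ →+* ℂ) {P : V.toAffine.Point}
    (h : mapPt V σ P = 0) : P = 0 := by
  cases P with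
  | zero => rfl
  | some x y hxy => exact absurd h (some_ne_zero _)

/-- uniformisation of a complex elliptic curve with a point of prime order (`2` included) -/
theorem uniformise' (hΔ : V.Δ ≠ 0) {N : ℕ} (hN : N.Prime)
    (P : V.toAffine.Point) (hP : N • P = 0) (hP0 : P ≠ 0) :
    ∃ (τ : ℍ) (l : ℂ) (hl : l ≠ 0) (h4 : V.c₄ = 12 * (pp τ l hl).g₂)
      (h6 : V.c₆ = 216 * (pp τ l hl).g₃), P = Phi h4 h6 hΔ (l / N) := by
  have hrel := V.c_relation
  obtain ⟨τ, l, hl, h4, h6⟩ := exists_pp (c := V.c₄) (d := V.c₆) (by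
    rw [← hrel]; exact mul_ne_zero (by norm_num) hΔ)
  have hN0 : (N : ℂ) ≠ 0 := by exact_mod_cast hN.ne_zero
  obtain ⟨a, b, hab⟩ : ∃ a b : ℤ, P = Phi h4 h6 hΔ ((a * (l * (τ : ℂ)) + b * l) / N) := by
    obtain ⟨z, rfl⟩ := Phi_surjective h4 h6 hΔ P
    rw [← map_nsmul, nsmul_eq_mul, Phi_eq_zero_iff, PeriodPair.mem_lattice] at hP
    obtain ⟨a, b, hab⟩ := hP
    change a * (l * (τ : ℂ)) + b * l = N * z at hab
    refine ⟨a, b, ?_⟩
    rw [hab, mul_div_cancel_left₀ _ hN0]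
  have hnd : ¬ ((N : ℤ) ∣ a ∧ (N : ℤ) ∣ b) := by
    rintro ⟨⟨a, rfl⟩, ⟨b, rfl⟩⟩
    apply hP0
    rw [hab, Phi_eq_zero_iff, PeriodPair.mem_lattice]
    refine ⟨a, b, ?_⟩
    show a * (l * (τ : ℂ)) + b * l = _
    push_cast
    field_simp
  obtain ⟨a', b', ⟨u, hu⟩, ⟨v, hv⟩, hco⟩ := exists_coprime_lift hN a b hnd
  obtain ⟨γ, -, hγ⟩ := ModularGroup.bottom_row_surj (R := ℤ)
    (show (![a', b'] : Fin 2 → ℤ) ∈ {cd : Fin 2 → ℤ | IsCoprime (cd 0) (cd 1)} from hco)
  have hγ0 : γ 1 0 = a' := congrFun hγ 0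
  have hγ1 : γ 1 1 = b' := congrFun hγ 1
  have hd : (denom γ τ : ℂ) = (γ 1 0 : ℂ) * τ + (γ 1 1 : ℂ) := ModularGroup.denom_apply γ τ
  have hlat := lattice_pp_smul γ τ l hl
  refine ⟨γ • τ, l * denom γ τ, mul_ne_zero hl (denom_ne_zero _ τ), ?_, ?_, ?_⟩
  · rw [h4, g₂_congr hlat]
  · rw [h6, g₃_congr hlat]
  · rw [Phi_congr hlat _ _ h4 h6, hab, Phi_eq_iff, PeriodPair.mem_lattice]
    refine ⟨u, v, ?_⟩
    show u * (l * (τ : ℂ)) + v * l = (a * (l * (τ : ℂ)) + b * l) / N - l * denom γ τ / N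
    rw [hd, hγ0, hγ1]
    have hu' : (a : ℂ) - a' = N * u := by exact_mod_cast hu
    have hv' : (b : ℂ) - b' = N * v := by exact_mod_cast hv
    field_simp
    linear_combination (-(τ : ℂ)) * hu' - hv'

/-- the curve `y² = x³ - g₂/4 x - g₃/4` -/
def crv (g2 g3 : ℂ) : WeierstrassCurve ℂ := ⟨0, 0, 0, -g2 / 4, -g3 / 4⟩

theorem crv_c₄ (g2 g3 : ℂ) : (crv g2 g3).c₄ = 12 * g2 := by
  simp [crv, WeierstrassCurve.c₄, WeierstrassCurve.b₂, WeierstrassCurve.b₄]; ring

theorem crv_c₆ (g2 g3 : ℂ) : (crv g2 g3).c₆ = 216 * g3 := by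
  simp [crv, WeierstrassCurve.c₆, WeierstrassCurve.b₂, WeierstrassCurve.b₄, WeierstrassCurve.b₆]; ring

theorem crv_b₂ (g2 g3 : ℂ) : (crv g2 g3).b₂ = 0 := by
  simp [crv, WeierstrassCurve.b₂]

theorem crv_map (g2 g3 : ℂ) (σ : ℂ →+* ℂ) : (crv g2 g3).map σ = crv (σ g2) (σ g3) := by
  simp [crv, WeierstrassCurve.map, map_ofNat]

theorem crv_Δ {g2 g3 : ℂ} (h : (12 * g2) ^ 3 - (216 * g3) ^ 2 ≠ 0) : (crv g2 g3).Δ ≠ 0 := by
  intro h0
  apply h
  have := (crv g2 g3).c_relation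
  rw [h0, crv_c₄, crv_c₆] at this
  linear_combination -this

theorem disc_pp (τ : ℍ) (l : ℂ) (hl : l ≠ 0) :
    (12 * (pp τ l hl).g₂) ^ 3 - (216 * (pp τ l hl).g₃) ^ 2 ≠ 0 := by
  rw [delta_pp]
  have hpi : (Real.pi : ℂ) ≠ 0 := by exact_mod_cast Real.pi_ne_zero
  exact mul_ne_zero (by norm_num) (mul_ne_zero (pow_ne_zero _ (div_ne_zero
    (mul_ne_zero two_ne_zero hpi) hl)) (discriminant_ne_zero τ))

/-- `M ⊇ L` can be transported by every field homomorphism. -/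
def Tr (L M : PeriodPair) : Prop := ∀ (σ : ℂ →+* ℂ) (L' : PeriodPair), L'.g₂ = σ L.g₂ →
  L'.g₃ = σ L.g₃ → ∃ M' : PeriodPair, L'.lattice ≤ M'.lattice ∧ M'.g₂ = σ M.g₂ ∧ M'.g₃ = σ M.g₃

theorem Tr.of_eq {L M : PeriodPair} (h : L.lattice = M.lattice) : Tr L M :=
  fun σ L' h2 h3 => ⟨L', le_rfl, by rw [h2, g₂_congr h], by rw [h3, g₃_congr h]⟩

theorem Tr.trans {L M K : PeriodPair} (h1 : Tr L M) (h2 : Tr M K) : Tr L K :=
  fun σ L' e2 e3 => by
  obtain ⟨M', hM, f2, f3⟩ := h1 σ L' e2 e3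
  obtain ⟨K', hK, k2, k3⟩ := h2 σ M' f2 f3
  exact ⟨K', hM.trans hK, k2, k3⟩

/-- **transport of an isogeny of prime degree** -/
theorem Tr.of_prime {N : ℕ} (hN : N.Prime) {τ τ₁ : ℍ} {l l₁ : ℂ} {hl : l ≠ 0} {hl₁ : l₁ ≠ 0}
    (hτ : (τ₁ : ℂ) = N * τ) (hll : l = N * l₁) : Tr (pp τ l hl) (pp τ₁ l₁ hl₁) := by
  intro σ L' h2 h3
  have : NeZero N := ⟨hN.ne_zero⟩
  have hN0 : (N : ℂ) ≠ 0 := by exact_mod_cast hN.ne_zero
  set L := pp τ l hl with hL
  set M := pp τ₁ l₁ hl₁ with hM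
  have hsup : IsSuper L M N := ⟨by show l₁ * (τ₁ : ℂ) = l * τ; rw [hτ, hll]; ring, hll.symm⟩
  let V := crv L.g₂ L.g₃
  have hΔ : V.Δ ≠ 0 := crv_Δ (disc_pp τ l hl)
  have h4 : V.c₄ = 12 * L.g₂ := crv_c₄ _ _
  have h6 : V.c₆ = 216 * L.g₃ := crv_c₆ _ _
  have hΔ' : (V.map σ).Δ ≠ 0 := by
    rw [WeierstrassCurve.map_Δ]
    exact (map_ne_zero σ).mpr hΔ
  have hb : V.b₂ = 0 := crv_b₂ _ _
  have hb' : (V.map σ).b₂ = 0 := by rw [WeierstrassCurve.map_b₂, hb, _root_.map_zero]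
  have hMi : ∀ i : ℕ, (i : ℂ) * M.ω₂ = i * (l / N) := by
    intro i
    show (i : ℂ) * l₁ = _
    rw [hll, mul_div_cancel_left₀ _ hN0]
  have hnot : ∀ i : ℕ, i ≠ 0 → i < N → (i : ℂ) * (l / N) ∉ L.lattice := by
    intro i h0 hi
    rw [← hMi]
    exact notMem_of_super hsup h0 hi
  let P := Phi h4 h6 hΔ (l / N)
  have hNP : N • P = 0 := by
    show N • Phi h4 h6 hΔ (l / N) = 0
    rw [← map_nsmul, nsmul_eq_mul, mul_div_cancel₀ _ hN0, Phi_eq_zero_iff]
    exact L.ω₂_mem_lattice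
  have hP0 : P ≠ 0 := by
    intro h0
    have h1 := (Phi_eq_zero_iff h4 h6 hΔ).mp h0
    have h5 := hnot 1 one_ne_zero hN.one_lt
    rw [Nat.cast_one, one_mul] at h5
    exact h5 h1
  obtain ⟨τ', l', hl', h4', h6', hP'⟩ := uniformise' hΔ' hN (mapPt V σ P)
    (by rw [← map_nsmul, hNP, _root_.map_zero]) (fun h0 => hP0 (mapPt_eq_zero V σ h0))
  set L'' := pp τ' l' hl' with hL''
  have e2 : L''.g₂ = σ L.g₂ := by
    have := h4'
    rw [WeierstrassCurve.map_c₄, h4, map_mul] at this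
    simp only [map_ofNat] at this
    linear_combination -this / 12
  have e3 : L''.g₃ = σ L.g₃ := by
    have := h6'
    rw [WeierstrassCurve.map_c₆, h6, map_mul] at this
    simp only [map_ofNat] at this
    linear_combination -this / 216
  have hlat : L'.lattice = L''.lattice := H14.lattice_eq (by rw [h2, e2]) (by rw [h3, e3])
  have hNl' : l' / N ≠ 0 := div_ne_zero hl' hN0
  let τ₁' : ℍ := Igusa.scl N τ'
  let M' := pp τ₁' (l' / N) hNl'
  have hsup' : IsSuper L'' M' N := by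
    refine ⟨?_, ?_⟩
    · show l' / N * ((Igusa.scl N τ' : ℍ) : ℂ) = l' * τ'
      rw [Igusa.coe_scl]; field_simp
    · show (N : ℂ) * (l' / N) = l'
      field_simp
  have hMi' : ∀ i : ℕ, (i : ℂ) * M'.ω₂ = i * (l' / N) := fun i => rfl
  have hx : ∀ i ∈ Finset.Ico 1 N, L''.weierstrassP (i * M'.ω₂) = σ (L.weierstrassP (i * M.ω₂)) := by
    intro i hi
    rw [Finset.mem_Ico] at hi
    have hn1 := hnot i (by omega) hi.2
    have hn2 : (i : ℂ) * (l' / N) ∉ L''.lattice := by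
      rw [← hMi']
      exact notMem_of_super hsup' (by omega) hi.2
    have a1 : mapPt V σ (i • P) = i • mapPt V σ P := map_nsmul _ _ _
    have a2 : i • P = Phi h4 h6 hΔ (i * (l / N)) := by
      show i • Phi h4 h6 hΔ (l / N) = _
      rw [← map_nsmul, nsmul_eq_mul]
    rw [a2, hP', ← map_nsmul, nsmul_eq_mul, Phi_of_notMem h4 h6 hΔ hn1, mapPt_some,
      Phi_of_notMem h4' h6' hΔ' hn2, Point.some.injEq, hb, hb'] at a1
    have a3 := a1.1
    rw [hMi, hMi']
    rw [zero_div, sub_zero, sub_zero] at a3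
    exact a3.symm
  refine ⟨M', ?_, ?_, ?_⟩
  · rw [hlat]
    refine pp_le_iff.mpr ⟨1, 0, 0, N, ?_, ?_⟩
    · rw [show ((τ₁' : ℍ) : ℂ) = N * τ' from Igusa.coe_scl N τ']
      push_cast
      field_simp
      ring
    · push_cast
      field_simp
      ring
  · rw [g₂_super hsup', g₂_super hsup, map_add, map_sum, e2]
    congr 1
    refine Finset.sum_congr rfl fun i hi => ?_
    rw [hx i hi]
    simp only [map_mul, map_sub, map_pow, map_div₀, map_ofNat]
  · rw [g₃_super hsup', g₃_super hsup, map_add, map_sum, e2, e3]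
    congr 1
    refine Finset.sum_congr rfl fun i hi => ?_
    rw [hx i hi]
    simp only [map_mul, map_sub, map_pow, map_ofNat]

open Fermat.Agent.Igusa (scl coe_scl)

/-- transport for `⟨τ, 1⟩ ⊆ ⟨τ, 1/N⟩` -/
theorem Tr.of_scale (N : ℕ) : ∀ {τ τ₁ : ℍ} {l l₁ : ℂ} {hl : l ≠ 0} {hl₁ : l₁ ≠ 0},
    (τ₁ : ℂ) = N * τ → l = N * l₁ → Tr (pp τ l hl) (pp τ₁ l₁ hl₁) := by
  induction N using induction_on_primes with
  | zero =>
    intro τ τ₁ l l₁ hl hl₁ h1 h2
    exfalso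
    apply hl
    rw [h2]; simp
  | one =>
    intro τ τ₁ l l₁ hl hl₁ h1 h2
    have h3 : τ₁ = τ := UpperHalfPlane.ext (by simpa using h1)
    have h4 : l = l₁ := by simpa using h2
    subst h3
    subst h4
    exact Tr.of_eq rfl
  | prime_mul p a hp ih =>
    intro τ τ₁ l l₁ hl hl₁ h1 h2
    have ha : a ≠ 0 := by
      rintro rfl
      apply hl
      rw [h2]; simp
    have : NeZero a := ⟨ha⟩
    have hp0 : (p : ℂ) ≠ 0 := by exact_mod_cast hp.ne_zero
    have h3 : (p : ℂ) * l₁ ≠ 0 := mul_ne_zero hp0 hl₁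
    have s1 : Tr (pp τ l hl) (pp (scl a τ) (p * l₁) h3) :=
      ih (coe_scl a τ) (by rw [h2]; push_cast; ring)
    have s2 : Tr (pp (scl a τ) (p * l₁) h3) (pp τ₁ l₁ hl₁) :=
      Tr.of_prime hp (by rw [h1, coe_scl]; push_cast; ring) rfl
    exact s1.trans s2

/-- the same lattice in the basis `(-1/τ, 1)` -/
theorem lattice_S (τ : ℍ) (l : ℂ) (hl : l ≠ 0) :
    (pp (ModularGroup.S • τ) (l * τ) (mul_ne_zero hl τ.ne_zero)).lattice = (pp τ l hl).lattice := by
  have h0 : (τ : ℂ) ≠ 0 := τ.ne_zero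
  have hS : ((ModularGroup.S • τ : ℍ) : ℂ) * τ = -1 := by
    rw [UpperHalfPlane.modular_S_smul]
    show (-(τ : ℂ))⁻¹ * τ = -1
    field_simp
  apply le_antisymm
  · refine pp_le_iff.mpr ⟨0, -1, 1, 0, ?_, ?_⟩
    · push_cast
      linear_combination l * hS
    · push_cast; ring
  · refine pp_le_iff.mpr ⟨0, 1, -1, 0, ?_, ?_⟩
    · push_cast; ring
    · push_cast
      linear_combination l * hS

/-- transport for `⟨Nτ, 1⟩ ⊆ ⟨τ, 1⟩` -/
theorem Tr.of_scale' (N : ℕ) {τ τ₁ : ℍ} {l : ℂ} {hl : l ≠ 0}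
    (h : (τ : ℂ) = N * τ₁) : Tr (pp τ l hl) (pp τ₁ l hl) := by
  have h0 : (τ : ℂ) ≠ 0 := τ.ne_zero
  have h1 : (τ₁ : ℂ) ≠ 0 := τ₁.ne_zero
  have hS : ((ModularGroup.S • τ : ℍ) : ℂ) * τ = -1 := by
    rw [UpperHalfPlane.modular_S_smul]
    show (-(τ : ℂ))⁻¹ * τ = -1
    field_simp
  have hS1 : ((ModularGroup.S • τ₁ : ℍ) : ℂ) * τ₁ = -1 := by
    rw [UpperHalfPlane.modular_S_smul]
    show (-(τ₁ : ℂ))⁻¹ * τ₁ = -1
    field_simp
  refine (Tr.of_eq (lattice_S τ l hl).symm).trans (Tr.trans ?_ (Tr.of_eq (lattice_S τ₁ l hl)))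
  refine Tr.of_scale N ?_ ?_
  · apply mul_right_cancel₀ h1
    linear_combination hS1 - hS + ((ModularGroup.S • τ : ℍ) : ℂ) * h
  · rw [h]; ring

/-- **transport of an arbitrary isogeny** -/
theorem Tr.of_le {τ τ' : ℍ} {l l' : ℂ} {hl : l ≠ 0} {hl' : l' ≠ 0}
    (h : (pp τ l hl).lattice ≤ (pp τ' l' hl').lattice) : Tr (pp τ l hl) (pp τ' l' hl') := by
  obtain ⟨p, q, s, t, h1, h2⟩ := pp_le_iff.mp h
  have hst : (s : ℂ) * τ' + t ≠ 0 := by
    intro h0
    rw [h0, mul_zero] at h2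
    exact hl h2
  have h5 : (τ : ℂ) * (s * τ' + t) = p * τ' + q := by
    apply mul_left_cancel₀ hl'
    rw [← h1, h2]; ring
  have hdet := im_pos_det h5 hst
  have hg : 0 < Int.gcd p s := by
    rw [Int.gcd_pos_iff]
    by_contra! h0
    rw [h0.1, h0.2] at hdet
    simp at hdet
  set g := Int.gcd p s with hgd
  obtain ⟨p', hp⟩ : (g : ℤ) ∣ p := Int.gcd_dvd_left ..
  obtain ⟨s', hs⟩ : (g : ℤ) ∣ s := Int.gcd_dvd_right ..
  have hbez : (g : ℤ) = p * Int.gcdA p s + s * Int.gcdB p s := Int.gcd_eq_gcd_ab p s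
  set x := Int.gcdA p s
  set y := Int.gcdB p s
  have hg0 : (g : ℤ) ≠ 0 := by exact_mod_cast hg.ne'
  have hgC : (g : ℂ) ≠ 0 := by exact_mod_cast hg.ne'
  have hdet1 : x * p' - y * (-s') = 1 := by
    apply mul_left_cancel₀ hg0
    linear_combination (-1 : ℤ) * hbez - x * hp - y * hs
  have hd : 0 < p' * t - s' * q := by
    have h1 : (g : ℤ) * (p' * t - s' * q) = p * t - q * s := by rw [hp, hs]; ring
    rw [← h1] at hdet
    exact (mul_pos_iff_of_pos_left (by exact_mod_cast hg)).mp hdet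
  let γ : SL(2, ℤ) := ⟨!![x, y; -s', p'], by rw [Matrix.det_fin_two_of]; exact hdet1⟩
  obtain ⟨d, hdd⟩ : ∃ d : ℕ, (d : ℤ) = p' * t - s' * q := ⟨(p' * t - s' * q).toNat, by
    rw [Int.toNat_of_nonneg hd.le]⟩
  have hd0 : d ≠ 0 := by rintro rfl; simp at hdd; omega
  have hdC0 : (d : ℂ) ≠ 0 := by exact_mod_cast hd0
  have hco : ((γ • τ : ℍ) : ℂ) = ((x : ℂ) * τ + y) / (((-s' : ℤ) : ℂ) * τ + (p' : ℤ)) := by
    rw [UpperHalfPlane.coe_specialLinearGroup_apply]
    simp [γ]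
  have hden : (denom γ τ : ℂ) = ((-s' : ℤ) : ℂ) * τ + (p' : ℤ) := by
    rw [ModularGroup.denom_apply]
    simp [γ]
  have hdC : (d : ℂ) = p' * t - s' * q := by exact_mod_cast congrArg (Int.cast : ℤ → ℂ) hdd
  have hpC : (p : ℂ) = g * p' := by exact_mod_cast congrArg (Int.cast : ℤ → ℂ) hp
  have hsC : (s : ℂ) = g * s' := by exact_mod_cast congrArg (Int.cast : ℤ → ℂ) hs
  have hbC : (g : ℂ) = p * x + s * y := by exact_mod_cast congrArg (Int.cast : ℤ → ℂ) hbez
  have hED : (((-s' : ℤ) : ℂ) * τ + (p' : ℤ)) * (s * τ' + t) = d := by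
    push_cast
    rw [hdC]
    linear_combination (-(s' : ℂ)) * h5 - (s' * τ' : ℂ) * hpC + (p' * τ' : ℂ) * hsC
  have hE : ((-s' : ℤ) : ℂ) * τ + (p' : ℤ) ≠ 0 := by
    intro h0
    rw [h0, zero_mul] at hED
    exact hd0 (by exact_mod_cast hED.symm)
  have key : ((γ • τ : ℍ) : ℂ) * d = (g : ℕ) * (τ' : ℂ) + (x * q + y * t : ℤ) := by
    rw [hco, ← hED, ← mul_assoc, div_mul_cancel₀ _ hE]
    push_cast
    linear_combination (x : ℂ) * h5 - (τ' : ℂ) * hbC
  have : NeZero g := ⟨hg.ne'⟩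
  have : NeZero d := ⟨hd0⟩
  -- `L = ⟨l₂ τ₂, l₂⟩` with `l₂ = l' d`, `τ₂ = γ τ`
  have e1 : l * denom γ τ = d * l' := by
    rw [hden, h2, ← hED]; ring
  -- intermediate lattices
  have s1 : Tr (pp τ l hl) (pp (scl d (γ • τ)) l' hl') := by
    refine (Tr.of_eq (lattice_pp_smul γ τ l hl).symm).trans (Tr.of_scale d (coe_scl d _) e1)
  have s2 : (pp (scl d (γ • τ)) l' hl').lattice = (pp (scl g τ') l' hl').lattice := by
    have e2 : ((scl d (γ • τ) : ℍ) : ℂ) = ((scl g τ' : ℍ) : ℂ) + (x * q + y * t : ℤ) := by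
      rw [coe_scl, coe_scl, mul_comm, key]
    apply le_antisymm
    · refine pp_le_iff.mpr ⟨1, x * q + y * t, 0, 1, ?_, ?_⟩
      · rw [e2]; push_cast; ring
      · push_cast; ring
    · refine pp_le_iff.mpr ⟨1, -(x * q + y * t), 0, 1, ?_, ?_⟩
      · rw [e2]; push_cast; ring
      · push_cast; ring
  exact (s1.trans (Tr.of_eq s2)).trans (Tr.of_scale' g (coe_scl g τ'))

/-- the discriminant of a quadratic equation of a point of the upper half plane -/
theorem disc_neg {τ : ℍ} {a b c : ℤ} (ha : a ≠ 0) (h : (a : ℂ) * (τ : ℂ) ^ 2 + b * τ + c = 0) :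
    b ^ 2 - 4 * a * c < 0 := by
  have h1 := congrArg Complex.re h
  have h2 := congrArg Complex.im h
  simp only [Complex.add_re, Complex.mul_re, Complex.intCast_re, Complex.intCast_im, zero_mul,
    sub_zero, pow_two, Complex.add_im, Complex.mul_im, add_zero, Complex.zero_re,
    Complex.zero_im] at h1 h2
  change a * (τ.re * τ.re - τ.im * τ.im) + b * τ.re + c = 0 at h1
  change a * (τ.re * τ.im + τ.im * τ.re) + b * τ.im = 0 at h2
  have him := τ.im_pos
  have h3 : 2 * a * τ.re + b = 0 := by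
    have : τ.im * (2 * a * τ.re + b) = 0 := by linear_combination h2
    exact (mul_eq_zero.mp this).resolve_left him.ne'
  have h4 : ((b ^ 2 - 4 * a * c : ℤ) : ℝ) = -(2 * a * τ.im) ^ 2 := by
    push_cast
    have hb : (b : ℝ) = -(2 * a * τ.re) := by linarith
    rw [hb] at h1 ⊢
    linear_combination -4 * a * h1
  have haR : (a : ℝ) ≠ 0 := by exact_mod_cast ha
  have h5 : ((b ^ 2 - 4 * a * c : ℤ) : ℝ) < 0 := by
    rw [h4]
    have : 0 < (2 * a * τ.im) ^ 2 := by positivity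
    linarith
  exact_mod_cast h5

/-- a lattice in a given homothety class with given invariants -/
theorem exists_pp_of_j {τ : ℍ} {c d : ℂ} (h : c ^ 3 - d ^ 2 ≠ 0)
    (hj : j τ * (c ^ 3 - d ^ 2) = 1728 * c ^ 3) : ∃ (l : ℂ) (hl : l ≠ 0),
    12 * (pp τ l hl).g₂ = c ∧ 216 * (pp τ l hl).g₃ = d := by
  have hD : discriminant τ ≠ 0 := discriminant_ne_zero τ
  have hE := H18.E4_cube_eq τ
  have hj2 : j τ * discriminant τ = E₄ τ ^ 3 := div_mul_cancel₀ _ hD
  obtain ⟨t, ht0, ht4, ht6⟩ := exists_scale (a := E₄ τ) (b := E₆ τ) (c := c) (d := d)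
    (by rw [hE]; intro h0; apply hD; linear_combination h0 / 1728) h
    (by linear_combination -(c ^ 3) * hE - (c ^ 3 - d ^ 2) * hj2 + discriminant τ * hj)
  obtain ⟨s, hs⟩ := IsAlgClosed.exists_pow_nat_eq t (n := 2) (by norm_num)
  have hs0 : s ≠ 0 := by
    rintro rfl
    apply ht0; rw [← hs]; ring
  have hpi : (Real.pi : ℂ) ≠ 0 := by exact_mod_cast Real.pi_ne_zero
  refine ⟨2 * Real.pi / s, div_ne_zero (mul_ne_zero two_ne_zero hpi) hs0, ?_, ?_⟩
  · rw [c4_pp]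
    have : 2 * (Real.pi : ℂ) / (2 * Real.pi / s) = s := by field_simp
    rw [this, ← ht4, ← hs]; ring
  · rw [c6_pp]
    have : 2 * (Real.pi : ℂ) / (2 * Real.pi / s) = s := by field_simp
    rw [this, ← ht6, ← hs]; ring

theorem j_mul_disc (τ : ℍ) (l : ℂ) (hl : l ≠ 0) :
    j τ * ((12 * (pp τ l hl).g₂) ^ 3 - (216 * (pp τ l hl).g₃) ^ 2) =
      1728 * (12 * (pp τ l hl).g₂) ^ 3 := by
  have hD : discriminant τ ≠ 0 := discriminant_ne_zero τ
  have hj2 : j τ * discriminant τ = E₄ τ ^ 3 := div_mul_cancel₀ _ hD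
  rw [delta_pp, c4_pp]
  linear_combination 1728 * (2 * Real.pi / l) ^ 12 * hj2

theorem g₂_div (τ : ℍ) {l β : ℂ} (hl : l ≠ 0) (hβ : β ≠ 0) (h : l / β ≠ 0) :
    (pp τ (l / β) h).g₂ = β ^ 4 * (pp τ l hl).g₂ := by
  have e1 := c4_pp τ (l / β) h
  have e2 := c4_pp τ l hl
  have e3 : 2 * (Real.pi : ℂ) / (l / β) = β * (2 * Real.pi / l) := by field_simp
  rw [e3, mul_pow, mul_assoc, ← e2] at e1
  linear_combination e1 / 12

theorem g₃_div (τ : ℍ) {l β : ℂ} (hl : l ≠ 0) (hβ : β ≠ 0) (h : l / β ≠ 0) :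
    (pp τ (l / β) h).g₃ = β ^ 6 * (pp τ l hl).g₃ := by
  have e1 := c6_pp τ (l / β) h
  have e2 := c6_pp τ l hl
  have e3 : 2 * (Real.pi : ℂ) / (l / β) = β * (2 * Real.pi / l) := by field_simp
  rw [e3, mul_pow, mul_assoc, ← e2] at e1
  linear_combination e1 / 216

/-- **Conjugation preserves complex multiplication**: if `a τ² + b τ + c = 0` and `j(τ') = σ(j(τ))`,
then `τ'` satisfies an integral equation of the same discriminant. -/
theorem conj_aux (σ : ℂ →+* ℂ) {τ τ' : ℍ} (hj : j τ' = σ (j τ)) {a b c : ℤ} (ha : a ≠ 0)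
    (h : (a : ℂ) * (τ : ℂ) ^ 2 + b * τ + c = 0) :
    ∃ s u v : ℤ, s ≠ 0 ∧ (s : ℂ) * (τ' : ℂ) ^ 2 + u * τ' + v = 0 ∧
      u ^ 2 - 4 * s * v = b ^ 2 - 4 * a * c := by
  have haC : (a : ℂ) ≠ 0 := by exact_mod_cast ha
  have hα : (a : ℂ) * τ ≠ 0 := mul_ne_zero haC τ.ne_zero
  have h1 : (1 : ℂ) ≠ 0 := one_ne_zero
  have h1α : (1 : ℂ) / (a * τ) ≠ 0 := div_ne_zero h1 hα
  have hτ0 : (τ : ℂ) ≠ 0 := τ.ne_zero
  -- the superlattice
  have hle : (pp τ 1 h1).lattice ≤ (pp τ (1 / (a * τ)) h1α).lattice := by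
    refine pp_le_iff.mpr ⟨-b, -c, a, 0, ?_, ?_⟩
    · push_cast
      field_simp
      linear_combination h
    · push_cast
      field_simp
      ring
  have hTr := Tr.of_le hle
  -- the conjugate lattice
  set L := pp τ 1 h1 with hL
  have hdisc := disc_pp τ 1 h1
  rw [← hL] at hdisc
  have hjL := j_mul_disc τ 1 h1
  rw [← hL] at hjL
  obtain ⟨l', hl', e2, e3⟩ := exists_pp_of_j (τ := τ') (c := 12 * σ L.g₂) (d := 216 * σ L.g₃)
    (by
      have := (map_ne_zero σ).mpr hdisc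
      simpa only [map_sub, map_pow, map_mul, map_ofNat] using this)
    (by
      have := congrArg σ hjL
      simp only [map_sub, map_pow, map_mul, map_ofNat] at this
      rw [hj]
      exact this)
  have e2' : (pp τ' l' hl').g₂ = σ L.g₂ := mul_left_cancel₀ (by norm_num) e2
  have e3' : (pp τ' l' hl').g₃ = σ L.g₃ := mul_left_cancel₀ (by norm_num) e3
  obtain ⟨M', hM, f2, f3⟩ := hTr σ _ e2' e3'
  rw [g₂_div τ h1 hα h1α, map_mul, map_pow, ← hL, ← e2'] at f2
  rw [g₃_div τ h1 hα h1α, map_mul, map_pow, ← hL, ← e3'] at f3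
  set β := σ (a * τ) with hβ
  have hβ0 : β ≠ 0 := (map_ne_zero σ).mpr hα
  have hlβ : l' / β ≠ 0 := div_ne_zero hl' hβ0
  rw [← g₂_div τ' hl' hβ0 hlβ] at f2
  rw [← g₃_div τ' hl' hβ0 hlβ] at f3
  rw [H14.lattice_eq f2 f3] at hM
  obtain ⟨p, q, s, t, k1, k2⟩ := pp_le_iff.mp hM
  have k3 : β = s * τ' + t := by
    field_simp at k2
    linear_combination k2
  have k4 : β * τ' = p * τ' + q := by
    field_simp at k1
    linear_combination k1
  have k5 : β ^ 2 + b * β + a * c = 0 := by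
    have : ((a : ℂ) * τ) ^ 2 + b * (a * τ) + a * c = 0 := by linear_combination a * h
    have := congrArg σ this
    rw [hβ]
    simpa only [map_add, map_mul, map_pow, map_intCast, _root_.map_zero] using this
  have hdneg : b ^ 2 - 4 * a * c < 0 := disc_neg ha h
  have k6 : (((p + t + b) * s : ℤ) : ℂ) * τ' + (((p + t + b) * t - (p * t - q * s) + a * c : ℤ) : ℂ) = 0 := by
    push_cast
    rw [k3] at k4 k5
    linear_combination k5 - s * k4
  obtain ⟨m1, m2⟩ := eq_zero_of_lin k6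
  have hs : s ≠ 0 := by
    rintro rfl
    have : β = t := by rw [k3]; push_cast; ring
    rw [this] at k5
    have k7 : t ^ 2 + b * t + a * c = 0 := by exact_mod_cast k5
    nlinarith [sq_nonneg (2 * t + b)]
  have m3 : p + t + b = 0 := (mul_eq_zero.mp m1).resolve_right hs
  rw [m3] at m2
  refine ⟨s, t - p, -q, hs, ?_, ?_⟩
  · push_cast
    rw [k3] at k4
    linear_combination k4
  · have m4 : b = -(p + t) := by linarith
    have m5 : a * c = p * t - q * s := by linarith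
    have : b ^ 2 - 4 * a * c = b ^ 2 - 4 * (a * c) := by ring
    rw [this, m5, m4]
    ring

end Fermat.Agent.Cor.CM
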