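import Fermat.Agent.Cor.Picard
import Fermat.Agent.Cor.Transport

/-!
# Entire points of elliptic curves

This file is not used by any of the statement files.

* `entire_point_const`: let `L` be a lattice; entire functions `f`, `g` with
  `g² = 4 f³ - g₂(L) f - g₃(L)` are constant.
* `entire_point_const'`: entire functions `f`, `g` with `g² = f³ + A f + B`, `4 A³ + 27 B² ≠ 0`, are
  constant.
* `mordell_entire`, `cube_add_sq`, `pow_add_pow_entire`: entire functions `f`, `g` with
  `g² = f³ + k`, `k ≠ 0`, or with `f^m + g^n = 1`, `3 ∣ m`, `2 ∣ n`, are constant.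

The proof: the differential `df / g` is a holomorphic differential on `ℂ`; let `F` be its primitive
with the right initial value.  Then `f = ℘(F)`, `g = ℘'(F)` by the uniqueness of the solution of a
differential equation, and `F` omits the lattice, so `F` is constant by Picard's little theorem.
-/

set_option autoImplicit false

noncomputable section

namespace Fermat.Agent.Cor.Picard

open Filter Topology
open Fermat.Agent.H24

/-- an entire function with a constant power is constant -/
theorem const_of_pow_const {f : ℂ → ℂ} (hf : Differentiable ℂ f) {a : ℕ} (ha : a ≠ 0)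
    (h : ∀ x y, f x ^ a = f y ^ a) (z w : ℂ) : f z = f w := by
  by_cases h0 : f 0 = 0
  · have h1 : ∀ x, f x = 0 := fun x => by
      have := h x 0
      rw [h0, zero_pow ha] at this
      exact pow_eq_zero_iff ha |>.mp this
    rw [h1, h1]
  · -- `f` omits `0` and `2 c`, where `c = f 0`: its absolute value is constant
    have hn : ∀ x, ‖f x‖ = ‖f 0‖ := fun x => by
      have := congrArg norm (h x 0)
      rw [norm_pow, norm_pow] at this
      exact (pow_left_inj₀ (norm_nonneg _) (norm_nonneg _) ha).mp this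
    refine picard_little hf (a := 0) (b := 2 * f 0) (mul_ne_zero two_ne_zero h0).symm (fun x hx => ?_)
      (fun x hx => ?_) z w
    · have := hn x
      rw [hx, norm_zero] at this
      exact h0 (norm_eq_zero.mp this.symm)
    · have := hn x
      rw [hx, norm_mul] at this
      have h2 : ‖f 0‖ ≠ 0 := norm_ne_zero_iff.mpr h0
      have h3 : ‖(2 : ℂ)‖ = 2 := by simp
      rw [h3] at this
      apply h2
      linarith

/-- local uniqueness for a system of two differential equations -/
theorem sys_unique {z₀ : ℂ} {k m d e : ℂ → ℂ} (hk : AnalyticAt ℂ k z₀) (hm : AnalyticAt ℂ m z₀)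
    (hd : AnalyticAt ℂ d z₀) (he : AnalyticAt ℂ e z₀) (hd' : ∀ᶠ z in 𝓝 z₀, deriv d z = k z * e z)
    (he' : ∀ᶠ z in 𝓝 z₀, deriv e z = m z * d z) (hd0 : d z₀ = 0) (he0 : e z₀ = 0) :
    (∀ᶠ z in 𝓝 z₀, d z = 0) ∧ ∀ᶠ z in 𝓝 z₀, e z = 0 := by
  have h1 := hd.analyticOrderAt_deriv_add_one
  have h2 := he.analyticOrderAt_deriv_add_one
  rw [hd0] at h1
  rw [he0] at h2
  simp only [sub_zero] at h1 h2
  have h3 : analyticOrderAt (deriv d) z₀ = analyticOrderAt k z₀ + analyticOrderAt e z₀ := by
    rw [analyticOrderAt_congr (show deriv d =ᶠ[𝓝 z₀] k * e from hd'), analyticOrderAt_mul hk he]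
  have h4 : analyticOrderAt (deriv e) z₀ = analyticOrderAt m z₀ + analyticOrderAt d z₀ := by
    rw [analyticOrderAt_congr (show deriv e =ᶠ[𝓝 z₀] m * d from he'), analyticOrderAt_mul hm hd]
  rw [h3] at h1
  rw [h4] at h2
  have h5 : analyticOrderAt d z₀ = ⊤ := by
    by_contra hne
    have hde : analyticOrderAt e z₀ + 1 ≤ analyticOrderAt d z₀ := by
      rw [← h1, add_assoc]; exact le_add_self
    have hed : analyticOrderAt d z₀ + 1 ≤ analyticOrderAt e z₀ := by
      rw [← h2, add_assoc]; exact le_add_self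
    have h6 : analyticOrderAt d z₀ + 1 ≤ analyticOrderAt d z₀ :=
      (hed.trans le_self_add).trans hde
    exact absurd h6 (not_le.mpr (ENat.lt_add_one_iff hne |>.mpr le_rfl))
  have h6 : analyticOrderAt e z₀ = ⊤ := by
    rw [← h2, h5]
    simp
  exact ⟨analyticOrderAt_eq_top.mp h5, analyticOrderAt_eq_top.mp h6⟩

/-- the logarithm: `f' / g` is entire -/
theorem exists_form {f g : ℂ → ℂ} (hf : Differentiable ℂ f) (hg : Differentiable ℂ g) {a b : ℂ}
    (hd : a ^ 3 - 27 * b ^ 2 ≠ 0) (h : ∀ z, g z ^ 2 = 4 * f z ^ 3 - a * f z - b) :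
    ∃ k : ℂ → ℂ, Differentiable ℂ k ∧ (∀ z, deriv f z = k z * g z) ∧
      ∀ z, deriv g z = k z * (6 * f z ^ 2 - a / 2) := by
  have hrel : ∀ z, 2 * g z * deriv g z = (12 * f z ^ 2 - a) * deriv f z := by
    intro z
    have h1 : HasDerivAt (fun z => g z ^ 2) (2 * g z * deriv g z) z := by
      have := (hg z).hasDerivAt.pow 2
      refine this.congr_deriv ?_
      push_cast
      ring
    have h2 : HasDerivAt (fun z => 4 * f z ^ 3 - a * f z - b)
        ((12 * f z ^ 2 - a) * deriv f z) z := by
      have h3 := (hf z).hasDerivAt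
      have := (((h3.pow 3).const_mul 4).sub (h3.const_mul a)).sub_const b
      refine this.congr_deriv ?_
      push_cast
      ring
    have h3 : (fun z => g z ^ 2) = fun z => 4 * f z ^ 3 - a * f z - b := funext h
    rw [h3] at h1
    exact h1.unique h2
  have hns : ∀ z, g z = 0 → 12 * f z ^ 2 - a ≠ 0 := by
    intro z hz h0
    apply hd
    have h1 := h z
    rw [hz] at h1
    have e1 : a = 12 * f z ^ 2 := by linear_combination -h0
    have e2 : b = -8 * f z ^ 3 := by linear_combination h1 - f z * e1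
    rw [e1, e2]; ring
  classical
  let k : ℂ → ℂ := fun z => if g z = 0 then 2 * deriv g z / (12 * f z ^ 2 - a) else deriv f z / g z
  have hdf : Differentiable ℂ (deriv f) := hf.deriv
  have hdg : Differentiable ℂ (deriv g) := hg.deriv
  have hk2 : ∀ z, 12 * f z ^ 2 - a ≠ 0 → k z = 2 * deriv g z / (12 * f z ^ 2 - a) := by
    intro z hz
    simp only [k]
    split_ifs with h0
    · rfl
    · rw [div_eq_div_iff h0 hz]
      linear_combination -hrel z
  refine ⟨k, fun z => ?_, fun z => ?_, fun z => ?_⟩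
  · by_cases h0 : g z = 0
    · have h1 : ∀ᶠ w in 𝓝 z, 12 * f w ^ 2 - a ≠ 0 := by
        have hc : ContinuousAt (fun w => 12 * f w ^ 2 - a) z :=
          (((hf.continuous.pow 2).const_mul 12).sub continuous_const).continuousAt
        exact hc.eventually_ne (hns z h0)
      have h2 : DifferentiableAt ℂ (fun w => 2 * deriv g w / (12 * f w ^ 2 - a)) z :=
        ((hdg z).const_mul 2).div ((((hf z).pow 2).const_mul 12).sub_const a) (hns z h0)
      exact h2.congr_of_eventuallyEq (h1.mono fun w hw => hk2 w hw)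
    · have h1 : ∀ᶠ w in 𝓝 z, g w ≠ 0 := hg.continuous.continuousAt.eventually_ne h0
      have h2 : DifferentiableAt ℂ (fun w => deriv f w / g w) z := (hdf z).div (hg z) h0
      exact h2.congr_of_eventuallyEq (h1.mono fun w hw => if_neg hw)
  · by_cases h0 : g z = 0
    · have h1 := hrel z
      rw [h0] at h1
      have h2 : (12 * f z ^ 2 - a) * deriv f z = 0 := by rw [← h1]; ring
      rw [h0, mul_zero]
      exact (mul_eq_zero.mp h2).resolve_left (hns z h0)
    · simp only [k, if_neg h0]
      field_simp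
  · by_cases h0 : 12 * f z ^ 2 - a = 0
    · have h1 : g z ≠ 0 := fun h2 => hns z h2 h0
      have h2 := hrel z
      rw [h0, zero_mul] at h2
      have h3 : deriv g z = 0 := by
        rcases mul_eq_zero.mp h2 with h | h
        · exact absurd h (mul_ne_zero two_ne_zero h1)
        · exact h
      rw [h3]
      have : 6 * f z ^ 2 - a / 2 = 0 := by linear_combination h0 / 2
      rw [this, mul_zero]
    · rw [hk2 z h0]
      field_simp
      ring

/-- **Entire points of elliptic curves are constant** -/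
theorem entire_point_const (L : PeriodPair) (hΔ : L.g₂ ^ 3 - 27 * L.g₃ ^ 2 ≠ 0) {f g : ℂ → ℂ}
    (hf : Differentiable ℂ f) (hg : Differentiable ℂ g)
    (h : ∀ z, g z ^ 2 = 4 * f z ^ 3 - L.g₂ * f z - L.g₃) (z w : ℂ) : f z = f w ∧ g z = g w := by
  obtain ⟨k, hk, hfk, hgk⟩ := exists_form hf hg hΔ h
  -- a starting point
  obtain ⟨z₀, hz₀, hP0, hQ0⟩ : ∃ z₀, z₀ ∉ L.lattice ∧ L.weierstrassP z₀ = f 0 ∧
      L.derivWeierstrassP z₀ = g 0 := by
    obtain ⟨z₀, hz₀, h1⟩ := CM.P_surjective L (f 0)
    have h2 := L.derivWeierstrassP_sq z₀ hz₀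
    rw [h1, ← h 0] at h2
    rcases sq_eq_sq_iff_eq_or_eq_neg.mp h2 with h3 | h3
    · exact ⟨z₀, hz₀, h1, h3⟩
    · refine ⟨-z₀, fun h4 => hz₀ (by simpa using L.lattice.neg_mem h4), ?_, ?_⟩
      · rw [L.weierstrassP_neg, h1]
      · rw [L.derivWeierstrassP_neg, h3, neg_neg]
  obtain ⟨F, hF0, hF⟩ := hk.isExactOn_univ.with_val_at 0 z₀
  have hFd : Differentiable ℂ F := fun z => (hF z trivial).differentiableAt
  let S : Set ℂ := {z | F z ∉ L.lattice ∧ L.weierstrassP (F z) = f z ∧
    L.derivWeierstrassP (F z) = g z}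
  have hclosedL : IsClosed (L.lattice : Set ℂ) := L.isClosed_lattice
  have hSo : IsOpen S := by
    rw [isOpen_iff_mem_nhds]
    rintro x ⟨hx1, hx2, hx3⟩
    have hnear : ∀ᶠ y in 𝓝 x, F y ∉ L.lattice :=
      hFd.continuous.continuousAt.eventually (hclosedL.isOpen_compl.mem_nhds hx1)
    have hPF : AnalyticAt ℂ (fun y => L.weierstrassP (F y)) x :=
      (L.analyticOnNhd_weierstrassP (F x) hx1).comp (hFd.analyticAt x)
    have hQF : AnalyticAt ℂ (fun y => L.derivWeierstrassP (F y)) x :=
      (L.analyticOnNhd_derivWeierstrassP (F x) hx1).comp (hFd.analyticAt x)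
    obtain ⟨h1, h2⟩ := sys_unique (z₀ := x) (k := k)
      (m := fun y => 6 * k y * (L.weierstrassP (F y) + f y))
      (d := fun y => L.weierstrassP (F y) - f y) (e := fun y => L.derivWeierstrassP (F y) - g y)
      (hk.analyticAt x) ((analyticAt_const.mul (hk.analyticAt x)).mul (hPF.add (hf.analyticAt x)))
      (hPF.sub (hf.analyticAt x)) (hQF.sub (hg.analyticAt x))
      (by
        filter_upwards [hnear] with y hy
        have h1 := ((hasDerivAt_P L hy).comp y (hF y trivial)).sub (hf y).hasDerivAt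
        refine h1.deriv.trans ?_
        rw [hfk y]; ring)
      (by
        filter_upwards [hnear] with y hy
        have h1 := ((hasDerivAt_dP L hy).comp y (hF y trivial)).sub (hg y).hasDerivAt
        refine h1.deriv.trans ?_
        rw [hgk y]; ring)
      (sub_eq_zero.mpr hx2) (sub_eq_zero.mpr hx3)
    filter_upwards [hnear, h1, h2] with y hy1 hy2 hy3
    exact ⟨hy1, sub_eq_zero.mp hy2, sub_eq_zero.mp hy3⟩
  have hSc : IsClosed S := by
    rw [← isOpen_compl_iff, isOpen_iff_mem_nhds]
    intro x hx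
    by_cases hxL : F x ∈ L.lattice
    · -- the values of `℘` are large near the lattice
      have h1 : ∀ᶠ u in 𝓝 (F x), u ∉ L.lattice → ‖f x‖ + 1 < ‖L.weierstrassP u‖ := by
        have h2 := (tendsto_P_atTop L).eventually (eventually_gt_atTop (‖f x‖ + 1))
        rw [eventually_nhdsWithin_iff] at h2
        have h3 : Tendsto (fun u => u - F x) (𝓝 (F x)) (𝓝 0) := by
          have : ContinuousAt (fun u : ℂ => u - F x) (F x) := by fun_prop
          simpa using this.tendsto
        filter_upwards [h3.eventually h2] with u hu huL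
        have h4 := hu (by
          rintro h5
          have h6 : u = F x := sub_eq_zero.mp h5
          exact huL (h6 ▸ hxL))
        rwa [show u - F x = u - (⟨F x, hxL⟩ : L.lattice) from rfl, L.weierstrassP_sub_coe] at h4
      have h2 : ∀ᶠ y in 𝓝 x, ‖f y‖ < ‖f x‖ + 1 :=
        (hf.continuous.norm.continuousAt (x := x)).eventually (gt_mem_nhds (by linarith))
      filter_upwards [hFd.continuous.continuousAt.eventually h1, h2] with y hy1 hy2
      rintro ⟨h3, h4, -⟩
      have := hy1 h3
      rw [h4] at this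
      linarith
    · have hnear : ∀ᶠ y in 𝓝 x, F y ∉ L.lattice :=
        hFd.continuous.continuousAt.eventually (hclosedL.isOpen_compl.mem_nhds hxL)
      have hPF : ContinuousAt (fun y => L.weierstrassP (F y)) x :=
        ((L.analyticOnNhd_weierstrassP (F x) hxL).comp (hFd.analyticAt x)).continuousAt
      have hQF : ContinuousAt (fun y => L.derivWeierstrassP (F y)) x :=
        ((L.analyticOnNhd_derivWeierstrassP (F x) hxL).comp (hFd.analyticAt x)).continuousAt
      by_cases h1 : L.weierstrassP (F x) = f x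
      · have h2 : L.derivWeierstrassP (F x) ≠ g x := fun h2 => hx ⟨hxL, h1, h2⟩
        have h3 := (hQF.sub hg.continuous.continuousAt).eventually_ne (sub_ne_zero.mpr h2)
        filter_upwards [h3] with y hy
        rintro ⟨-, -, h4⟩
        exact hy (sub_eq_zero.mpr h4)
      · have h3 := (hPF.sub hf.continuous.continuousAt).eventually_ne (sub_ne_zero.mpr h1)
        filter_upwards [h3] with y hy
        rintro ⟨-, h4, -⟩
        exact hy (sub_eq_zero.mpr h4)
  have h0S : (0 : ℂ) ∈ S := by
    refine ⟨?_, ?_, ?_⟩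
    · rw [hF0]; exact hz₀
    · rw [hF0]; exact hP0
    · rw [hF0]; exact hQ0
  have hS : S = Set.univ := IsClopen.eq_univ ⟨hSc, hSo⟩ ⟨0, h0S⟩
  have hFc : ∀ x, F x ∉ L.lattice := fun x => by
    have : x ∈ S := by rw [hS]; trivial
    exact this.1
  have hω : (0 : ℂ) ≠ L.ω₁ := by
    intro h0
    apply L.ω₁_div_two_notMem_lattice
    rw [← h0, zero_div]
    exact L.lattice.zero_mem
  have hconst : F z = F w := picard_little hFd (a := 0) (b := L.ω₁) hω
    (fun x hx => hFc x (by rw [hx]; exact L.lattice.zero_mem))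
    (fun x hx => hFc x (by rw [hx]; exact L.ω₁_mem_lattice)) z w
  have hz : z ∈ S := by rw [hS]; trivial
  have hw : w ∈ S := by rw [hS]; trivial
  exact ⟨by rw [← hz.2.1, ← hw.2.1, hconst], by rw [← hz.2.2, ← hw.2.2, hconst]⟩

/-- **Entire points of elliptic curves**: entire functions `f`, `g` with `g² = f³ + A f + B`,
`4 A³ + 27 B² ≠ 0`, are constant. -/
theorem entire_point_const' {A B : ℂ} (hD : 4 * A ^ 3 + 27 * B ^ 2 ≠ 0) {f g : ℂ → ℂ}
    (hf : Differentiable ℂ f) (hg : Differentiable ℂ g)
    (h : ∀ z, g z ^ 2 = f z ^ 3 + A * f z + B) (z w : ℂ) : f z = f w ∧ g z = g w := by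
  have hcd : (-48 * A) ^ 3 - (-864 * B) ^ 2 ≠ 0 := by
    intro h0
    apply hD
    linear_combination -h0 / 27648
  obtain ⟨τ, hτ⟩ := CM.j_surjective (1728 * (-48 * A) ^ 3 / ((-48 * A) ^ 3 - (-864 * B) ^ 2))
  obtain ⟨l, hl, h4, h6⟩ := CM.exists_pp_of_j (τ := τ) hcd (by
    rw [hτ]; exact div_mul_cancel₀ _ hcd)
  have e2 : (H14.pp τ l hl).g₂ = -4 * A := by linear_combination h4 / 12
  have e3 : (H14.pp τ l hl).g₃ = -4 * B := by linear_combination h6 / 216
  have key := entire_point_const (H14.pp τ l hl) (f := f) (g := fun z => 2 * g z)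
    (by
      rw [e2, e3]
      intro h0
      apply hD
      linear_combination -h0 / 16) hf (hg.const_mul 2)
    (by
      intro x
      rw [e2, e3]
      linear_combination 4 * h x) z w
  exact ⟨key.1, mul_left_cancel₀ two_ne_zero key.2⟩

/-- **Mordell's equation in entire functions**: `g² = f³ + k` with `k ≠ 0` has only constant
solutions. -/
theorem mordell_entire {k : ℂ} (hk : k ≠ 0) {f g : ℂ → ℂ} (hf : Differentiable ℂ f)
    (hg : Differentiable ℂ g) (h : ∀ z, g z ^ 2 = f z ^ 3 + k) (z w : ℂ) :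
    f z = f w ∧ g z = g w :=
  entire_point_const' (A := 0) (B := k)
    (by
      have := pow_ne_zero 2 hk
      simpa using this) hf hg (fun x => by rw [h x]; ring) z w

/-- `f³ + g² = 1` has only constant entire solutions. -/
theorem cube_add_sq {f g : ℂ → ℂ} (hf : Differentiable ℂ f) (hg : Differentiable ℂ g)
    (h : ∀ z, f z ^ 3 + g z ^ 2 = 1) (z w : ℂ) : f z = f w ∧ g z = g w := by
  have key := mordell_entire (k := 1) one_ne_zero hf.neg hg (fun x => by
    show g x ^ 2 = (-f x) ^ 3 + 1
    linear_combination h x) z w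
  exact ⟨neg_injective key.1, key.2⟩

/-- `f^m + g^n = 1` has only constant entire solutions if `3 ∣ m` and `2 ∣ n`, `m, n > 0`. -/
theorem pow_add_pow_entire {m n : ℕ} (hm : 3 ∣ m) (hn : 2 ∣ n) (hm0 : m ≠ 0) (hn0 : n ≠ 0)
    {f g : ℂ → ℂ} (hf : Differentiable ℂ f) (hg : Differentiable ℂ g)
    (h : ∀ z, f z ^ m + g z ^ n = 1) (z w : ℂ) : f z = f w ∧ g z = g w := by
  obtain ⟨a, rfl⟩ := hm
  obtain ⟨b, rfl⟩ := hn
  have ha : a ≠ 0 := by rintro rfl; exact hm0 rfl
  have hb : b ≠ 0 := by rintro rfl; exact hn0 rfl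
  have key := cube_add_sq (hf.pow a) (hg.pow b) (fun x => by
    show (f x ^ a) ^ 3 + (g x ^ b) ^ 2 = 1
    rw [← pow_mul, ← pow_mul, mul_comm a, mul_comm b]
    exact h x)
  exact ⟨const_of_pow_const hf ha (fun x y => (key x y).1) z w,
    const_of_pow_const hg hb (fun x y => (key x y).2) z w⟩

end Fermat.Agent.Cor.Picard
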