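import Fermat.Agent.Cor.Picard

/-!
# Fermat's Last Theorem for entire functions

This file is not used by any of the statement files.

* `fermat_entire`: if `n ≥ 3` and `f`, `g` are entire functions with `fⁿ + gⁿ = 1`, then `f` and `g`
  are constant.  (For `n = 2` there are the solutions `cos`, `sin`.)
* `fermat_entire_homogeneous`: if `n ≥ 3` and `f`, `g`, `h` are entire functions with `fⁿ + gⁿ = hⁿ` and `h`
  has no zeros, then `f / h` and `g / h` are constant.

The proof: if `ζ₁, ζ₂, ζ₃` are three distinct `n`-th roots of `-1`, then the entire function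
`(f - ζ₁ g) / (f - ζ₂ g)` omits the values `0` and `(ζ₃ - ζ₁) / (ζ₃ - ζ₂)`; so it is constant by
Picard's little theorem.
-/

set_option autoImplicit false

noncomputable section

namespace Fermat.Agent.Cor.Picard

/-- three distinct roots of `-1` -/
theorem exists_three_roots {n : ℕ} (hn : 3 ≤ n) : ∃ a b c : ℂ, a ^ n = -1 ∧ b ^ n = -1 ∧
    c ^ n = -1 ∧ a ≠ b ∧ a ≠ c ∧ b ≠ c := by
  obtain ⟨η, hη⟩ := IsAlgClosed.exists_pow_nat_eq (-1 : ℂ) (n := n) (by omega)
  have hη0 : η ≠ 0 := by
    rintro rfl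
    rw [zero_pow (by omega)] at hη
    norm_num at hη
  have hω := Complex.isPrimitiveRoot_exp n (by omega)
  set ω := Complex.exp (2 * Real.pi * Complex.I / n)
  have h1 : ω ≠ 1 := hω.ne_one (by omega)
  have h2 : ω ^ 2 ≠ 1 := hω.pow_ne_one_of_pos_of_lt (by norm_num) (by omega)
  have hω0 : ω ≠ 0 := hω.ne_zero (by omega)
  refine ⟨η, η * ω, η * ω ^ 2, hη, ?_, ?_, ?_, ?_, ?_⟩
  · rw [mul_pow, hη, hω.pow_eq_one, mul_one]
  · rw [mul_pow, hη, ← pow_mul, mul_comm 2 n, pow_mul, hω.pow_eq_one, one_pow, mul_one]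
  · intro h
    exact h1 (mul_left_cancel₀ hη0 (by rw [mul_one]; exact h.symm))
  · intro h
    exact h2 (mul_left_cancel₀ hη0 (by rw [mul_one]; exact h.symm))
  · intro h
    have h3 := mul_left_cancel₀ hη0 h
    rw [pow_two] at h3
    exact h1 (mul_left_cancel₀ hω0 (by rw [mul_one]; exact h3.symm))

/-- **Fermat's Last Theorem for entire functions.** -/
theorem fermat_entire {n : ℕ} (hn : 3 ≤ n) {f g : ℂ → ℂ} (hf : Differentiable ℂ f)
    (hg : Differentiable ℂ g) (h : ∀ z, f z ^ n + g z ^ n = 1) :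
    (∀ z w, f z = f w) ∧ ∀ z w, g z = g w := by
  obtain ⟨a, b, c, ha, hb, hc, hab, hac, hbc⟩ := exists_three_roots hn
  have hne : ∀ ζ : ℂ, ζ ^ n = -1 → ∀ z, f z - ζ * g z ≠ 0 := by
    intro ζ hζ z h0
    have h1 := h z
    rw [sub_eq_zero.mp h0, mul_pow, hζ] at h1
    have : (0 : ℂ) = 1 := by linear_combination h1
    exact zero_ne_one this
  have hcb : c - b ≠ 0 := sub_ne_zero.mpr hbc.symm
  have hca : c - a ≠ 0 := sub_ne_zero.mpr hac.symm
  have hba : b - a ≠ 0 := sub_ne_zero.mpr hab.symm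
  set φ : ℂ → ℂ := fun z => (f z - a * g z) / (f z - b * g z) with hφ
  have hφd : Differentiable ℂ φ :=
    (hf.sub (hg.const_mul a)).div (hf.sub (hg.const_mul b)) (hne b hb)
  have hconst := picard_little hφd (a := 0) (b := (c - a) / (c - b))
    (div_ne_zero hca hcb).symm (fun z => div_ne_zero (hne a ha z) (hne b hb z)) (fun z hz => by
      simp only [hφ] at hz
      rw [div_eq_div_iff (hne b hb z) hcb] at hz
      apply hne c hc z
      apply mul_left_cancel₀ (sub_ne_zero.mpr hab)
      linear_combination hz)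
  set k := φ 0 with hk
  have hrel : ∀ z, f z - a * g z = k * (f z - b * g z) := by
    intro z
    have h1 : φ z = k := hconst z 0
    rw [← h1]
    simp only [hφ]
    rw [div_mul_cancel₀ _ (hne b hb z)]
  set α := (k - 1) / (b - a) with hα
  have hgα : ∀ z, g z = α * (f z - b * g z) := by
    intro z
    rw [hα, div_mul_eq_mul_div, eq_div_iff hba]
    linear_combination hrel z
  have hfβ : ∀ z, f z = (1 + b * α) * (f z - b * g z) := by
    intro z
    linear_combination b * hgα z
  -- the function `u = f - b g` has constant `n`-th power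
  have hud : Differentiable ℂ fun z => f z - b * g z := hf.sub (hg.const_mul b)
  have hpow : ∀ z, ((1 + b * α) ^ n + α ^ n) * (f z - b * g z) ^ n = 1 := by
    intro z
    have e1 : f z ^ n = (1 + b * α) ^ n * (f z - b * g z) ^ n := by
      rw [← mul_pow]
      exact congrArg (· ^ n) (hfβ z)
    have e2 : g z ^ n = α ^ n * (f z - b * g z) ^ n := by
      rw [← mul_pow]
      exact congrArg (· ^ n) (hgα z)
    linear_combination h z - e1 - e2
  have hnorm : ∀ z, ‖f z - b * g z‖ = ‖f 0 - b * g 0‖ := by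
    intro z
    have h0 : ((1 + b * α) ^ n + α ^ n) ≠ 0 := left_ne_zero_of_mul_eq_one (hpow 0)
    have h1 : (f z - b * g z) ^ n = (f 0 - b * g 0) ^ n :=
      mul_left_cancel₀ h0 ((hpow z).trans (hpow 0).symm)
    have h2 := congrArg norm h1
    rw [norm_pow, norm_pow] at h2
    exact (pow_left_inj₀ (norm_nonneg _) (norm_nonneg _) (by omega)).mp h2
  have hbdd : Bornology.IsBounded (Set.range fun z => f z - b * g z) := by
    rw [isBounded_iff_forall_norm_le]
    refine ⟨‖f 0 - b * g 0‖, ?_⟩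
    rintro _ ⟨z, rfl⟩
    exact (hnorm z).le
  have hu : ∀ z w, f z - b * g z = f w - b * g w := hud.apply_eq_apply_of_bounded hbdd
  refine ⟨fun z w => ?_, fun z w => ?_⟩
  · rw [hfβ z, hfβ w, hu z w]
  · rw [hgα z, hgα w, hu z w]

/-- the homogeneous form -/
theorem fermat_entire_homogeneous {n : ℕ} (hn : 3 ≤ n) {f g h : ℂ → ℂ} (hf : Differentiable ℂ f)
    (hg : Differentiable ℂ g) (hh : Differentiable ℂ h) (h0 : ∀ z, h z ≠ 0)
    (H : ∀ z, f z ^ n + g z ^ n = h z ^ n) :
    (∀ z w, f z / h z = f w / h w) ∧ ∀ z w, g z / h z = g w / h w :=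
  fermat_entire hn (hf.div hh h0) (hg.div hh h0) fun z => by
    show (f z / h z) ^ n + (g z / h z) ^ n = 1
    rw [div_pow, div_pow, ← add_div, H z, div_self (pow_ne_zero n (h0 z))]

end Fermat.Agent.Cor.Picard
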