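import Fermat.Agent.Cor.EllEntire
import Fermat.Agent.Cor.FermatEntire

/-!
# The equations `f⁴ + g² = 1` and `f^m + g^n = 1` in entire functions

This file is not used by any of the statement files.

* `quartic_add_sq`: entire functions `f`, `g` with `f⁴ + g² = 1` are constant.
* `pow_add_pow_entire'`: entire functions `f`, `g` with `f^m + g^n = 1`, `m, n > 0`, are constant if
  `gcd(m, n) ≥ 3`, or `4 ∣ m` and `2 ∣ n`, or `3 ∣ m` and `2 ∣ n`.
-/

set_option autoImplicit false

noncomputable section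

namespace Fermat.Agent.Cor.Picard

/-- `f⁴ + g² = 1` has only constant entire solutions. -/
theorem quartic_add_sq {f g : ℂ → ℂ} (hf : Differentiable ℂ f) (hg : Differentiable ℂ g)
    (h : ∀ z, f z ^ 4 + g z ^ 2 = 1) (z w : ℂ) : f z = f w ∧ g z = g w := by
  obtain ⟨c, hc⟩ := IsAlgClosed.exists_pow_nat_eq (2 * Complex.I) (n := 2) (by norm_num)
  have hc0 : c ≠ 0 := by
    rintro rfl
    rw [zero_pow (by norm_num)] at hc
    exact (mul_ne_zero two_ne_zero Complex.I_ne_zero) hc.symm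
  have hI := Complex.I_sq
  have hmul : ∀ x, (g x + Complex.I * f x ^ 2) * (g x - Complex.I * f x ^ 2) = 1 := fun x => by
    linear_combination h x - f x ^ 4 * hI
  have hu : Differentiable ℂ fun x => g x + Complex.I * f x ^ 2 := hg.add ((hf.pow 2).const_mul _)
  have hy : Differentiable ℂ fun x => c * f x * (g x + Complex.I * f x ^ 2) :=
    (hf.const_mul c).mul hu
  have key := fun a b => entire_point_const' (A := -1) (B := 0) (by norm_num) hu hy (fun x => by
    show (c * f x * (g x + Complex.I * f x ^ 2)) ^ 2 =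
      (g x + Complex.I * f x ^ 2) ^ 3 + -1 * (g x + Complex.I * f x ^ 2) + 0
    linear_combination (f x) ^ 2 * (g x + Complex.I * f x ^ 2) ^ 2 * hc -
      (g x + Complex.I * f x ^ 2) * hmul x) a b
  obtain ⟨h1, h2⟩ := key z w
  have h3 : g z + Complex.I * f z ^ 2 ≠ 0 := fun h0 => by
    have := hmul z
    rw [h0, zero_mul] at this
    exact zero_ne_one this
  have h4 : f z = f w := by
    change g z + Complex.I * f z ^ 2 = g w + Complex.I * f w ^ 2 at h1
    change c * f z * (g z + Complex.I * f z ^ 2) = c * f w * (g w + Complex.I * f w ^ 2) at h2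
    rw [← h1] at h2
    exact mul_left_cancel₀ hc0 (mul_right_cancel₀ h3 h2)
  refine ⟨h4, ?_⟩
  change g z + Complex.I * f z ^ 2 = g w + Complex.I * f w ^ 2 at h1
  rw [h4] at h1
  exact add_right_cancel h1

/-- `f^m + g^n = 1` has only constant entire solutions if `gcd(m, n) ≥ 3`, or `4 ∣ m`, `2 ∣ n`, or
`3 ∣ m`, `2 ∣ n`. -/
theorem pow_add_pow_entire' {m n : ℕ} (hm0 : m ≠ 0) (hn0 : n ≠ 0)
    (hmn : 3 ≤ Nat.gcd m n ∨ (4 ∣ m ∧ 2 ∣ n) ∨ (3 ∣ m ∧ 2 ∣ n)) {f g : ℂ → ℂ}
    (hf : Differentiable ℂ f) (hg : Differentiable ℂ g) (h : ∀ z, f z ^ m + g z ^ n = 1)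
    (z w : ℂ) : f z = f w ∧ g z = g w := by
  rcases hmn with h1 | ⟨⟨a, rfl⟩, ⟨b, rfl⟩⟩ | ⟨h1, h2⟩
  · obtain ⟨a, ha⟩ := Nat.gcd_dvd_left m n
    obtain ⟨b, hb⟩ := Nat.gcd_dvd_right m n
    have ha0 : a ≠ 0 := by rintro rfl; exact hm0 (by rw [ha, mul_zero])
    have hb0 : b ≠ 0 := by rintro rfl; exact hn0 (by rw [hb, mul_zero])
    have key := fermat_entire h1 (hf.pow a) (hg.pow b) (fun x => by
      show (f x ^ a) ^ _ + (g x ^ b) ^ _ = 1
      rw [← pow_mul, ← pow_mul, mul_comm a, mul_comm b, ← ha, ← hb]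
      exact h x)
    exact ⟨const_of_pow_const hf ha0 (fun x y => key.1 x y) z w,
      const_of_pow_const hg hb0 (fun x y => key.2 x y) z w⟩
  · have ha0 : a ≠ 0 := by rintro rfl; exact hm0 rfl
    have hb0 : b ≠ 0 := by rintro rfl; exact hn0 rfl
    have key := fun x y => quartic_add_sq (hf.pow a) (hg.pow b) (fun x => by
      show (f x ^ a) ^ 4 + (g x ^ b) ^ 2 = 1
      rw [← pow_mul, ← pow_mul, mul_comm a, mul_comm b]
      exact h x) x y
    exact ⟨const_of_pow_const hf ha0 (fun x y => (key x y).1) z w,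
      const_of_pow_const hg hb0 (fun x y => (key x y).2) z w⟩
  · exact pow_add_pow_entire h1 h2 hm0 hn0 hf hg h z w

end Fermat.Agent.Cor.Picard
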