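import Mathlib

/-!
# A Weierstrass curve of discriminant zero has a singular point

`exists_singular`: over an algebraically closed field (of any characteristic), a Weierstrass curve with `Δ = 0` has
a singular affine point; `isElliptic_of_nonsingular`: a Weierstrass curve all of whose points are nonsingular is
elliptic. This is the converse of Mathlib's `WeierstrassCurve.Affine.equation_iff_nonsingular`.

This file is not used by any of the statement files.
-/

set_option autoImplicit false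

noncomputable section

namespace Fermat.Agent.Cor.RR.Cubic'

open Polynomial WeierstrassCurve

variable {K : Type*} [Field K]

/-- the discriminant of a curve in terms of the value of the equation at a point where both partial derivatives
vanish -/
theorem disc_eq (V : WeierstrassCurve K) {x y : K} (h3 : 2 * y + V.a₁ * x + V.a₃ = 0)
    (h4 : 3 * x ^ 2 + 2 * V.a₂ * x + V.a₄ = V.a₁ * y) :
    V.Δ = -(x ^ 3 + V.a₂ * x ^ 2 + V.a₄ * x + V.a₆ - y ^ 2 - V.a₁ * x * y - V.a₃ * y) *
      ((V.a₁ ^ 2 + 4 * (V.a₂ + 3 * x)) ^ 3 + 432 *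
      (x ^ 3 + V.a₂ * x ^ 2 + V.a₄ * x + V.a₆ - y ^ 2 - V.a₁ * x * y - V.a₃ * y)) := by
  have e3 : V.a₃ = -2 * y - V.a₁ * x := by linear_combination h3
  have e4 : V.a₄ = V.a₁ * y - 3 * x ^ 2 - 2 * V.a₂ * x := by linear_combination h4
  simp only [WeierstrassCurve.Δ, WeierstrassCurve.b₂, WeierstrassCurve.b₄, WeierstrassCurve.b₆,
    WeierstrassCurve.b₈]
  rw [e3, e4]
  ring

variable [IsAlgClosed K]

/-- **A Weierstrass curve with `Δ = 0` has a singular point.** -/
theorem exists_singular (V : WeierstrassCurve K) (hΔ : V.Δ = 0) :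
    ∃ x y : K, V.toAffine.Equation x y ∧ ¬ V.toAffine.Nonsingular x y := by
  suffices h : ∃ x y : K, V.toAffine.Equation x y ∧ 2 * y + V.a₁ * x + V.a₃ = 0 ∧
      3 * x ^ 2 + 2 * V.a₂ * x + V.a₄ = V.a₁ * y by
    obtain ⟨x, y, h1, h2, h3⟩ := h
    refine ⟨x, y, h1, fun h => ?_⟩
    rw [WeierstrassCurve.Affine.nonsingular_iff] at h
    rcases h.2 with h4 | h4
    · exact h4 h3.symm
    · exact h4 (by linear_combination h2)
  by_cases h2 : (2 : K) = 0
  · by_cases h1 : V.a₁ = 0
    · -- characteristic two, `a₁ = 0`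
      have h3 : V.a₃ = 0 := by
        have h4 : V.a₃ ^ 4 = 0 := by
          simp only [WeierstrassCurve.Δ, WeierstrassCurve.b₂, WeierstrassCurve.b₄,
            WeierstrassCurve.b₆, WeierstrassCurve.b₈] at hΔ
          rw [h1] at hΔ
          linear_combination -hΔ + (-8 * V.a₂ ^ 2 * (4 * V.a₂ * V.a₆ + V.a₂ * V.a₃ ^ 2 - V.a₄ ^ 2)
            - 32 * V.a₄ ^ 3 - 13 * V.a₃ ^ 4 - 108 * V.a₃ ^ 2 * V.a₆ - 216 * V.a₆ ^ 2
            + 36 * V.a₂ * V.a₄ * (V.a₃ ^ 2 + 4 * V.a₆)) * h2
        exact pow_eq_zero_iff (by norm_num) |>.mp h4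
      obtain ⟨x, hx⟩ := IsAlgClosed.exists_pow_nat_eq (-V.a₄) (n := 2) (by norm_num)
      obtain ⟨y, hy⟩ := IsAlgClosed.exists_pow_nat_eq
        (x ^ 3 + V.a₂ * x ^ 2 + V.a₄ * x + V.a₆) (n := 2) (by norm_num)
      refine ⟨x, y, ?_, ?_, ?_⟩
      · rw [WeierstrassCurve.Affine.equation_iff]
        change y ^ 2 + V.a₁ * x * y + V.a₃ * y = x ^ 3 + V.a₂ * x ^ 2 + V.a₄ * x + V.a₆
        rw [h1, h3]
        linear_combination hy
      · rw [h1, h3]
        linear_combination y * h2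
      · rw [h1]
        linear_combination 3 * hx + (-V.a₄ + V.a₂ * x) * h2
    · -- characteristic two, `a₁ ≠ 0`
      set x := -V.a₃ / V.a₁ with hx
      set y := (3 * x ^ 2 + 2 * V.a₂ * x + V.a₄) / V.a₁ with hy
      have hx' : V.a₁ * x = -V.a₃ := by rw [hx]; field_simp
      have hy' : V.a₁ * y = 3 * x ^ 2 + 2 * V.a₂ * x + V.a₄ := by rw [hy]; field_simp
      have h3 : 2 * y + V.a₁ * x + V.a₃ = 0 := by linear_combination y * h2 + hx'
      have h4 : 3 * x ^ 2 + 2 * V.a₂ * x + V.a₄ = V.a₁ * y := hy'.symm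
      refine ⟨x, y, ?_, h3, h4⟩
      have h5 := disc_eq V h3 h4
      rw [hΔ] at h5
      set e := x ^ 3 + V.a₂ * x ^ 2 + V.a₄ * x + V.a₆ - y ^ 2 - V.a₁ * x * y - V.a₃ * y with he
      have h6 : (V.a₁ ^ 2 + 4 * (V.a₂ + 3 * x)) ^ 3 + 432 * e = V.a₁ ^ 6 := by
        linear_combination (216 * e + 6 * V.a₁ ^ 4 * (V.a₂ + 3 * x) +
          24 * V.a₁ ^ 2 * (V.a₂ + 3 * x) ^ 2 + 32 * (V.a₂ + 3 * x) ^ 3) * h2
      rw [h6] at h5
      have h7 : e = 0 := by
        have h8 : e * V.a₁ ^ 6 = 0 := by linear_combination h5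
        rcases mul_eq_zero.mp h8 with h9 | h9
        · exact h9
        · exact absurd (pow_eq_zero_iff (by norm_num) |>.mp h9) h1
      rw [WeierstrassCurve.Affine.equation_iff]
      change y ^ 2 + V.a₁ * x * y + V.a₃ * y = x ^ 3 + V.a₂ * x ^ 2 + V.a₄ * x + V.a₆
      linear_combination -h7
  · -- characteristic different from two
    have h4 : (4 : K) ≠ 0 := by
      rw [show (4 : K) = 2 * 2 by norm_num]
      exact mul_ne_zero h2 h2
    have hd : V.twoTorsionPolynomial.discr = 0 := by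
      rw [WeierstrassCurve.twoTorsionPolynomial_discr, hΔ, mul_zero]
    have hP0 : V.twoTorsionPolynomial.toPoly ≠ 0 := Cubic.ne_zero_of_a_ne_zero h4
    have hnd : ¬ V.twoTorsionPolynomial.toPoly.roots.Nodup := by
      intro h
      have h5 := (Cubic.discr_ne_zero_iff_roots_nodup (P := V.twoTorsionPolynomial)
        (φ := RingHom.id K) h4 (IsAlgClosed.splits _)).mpr (by
          rw [Cubic.map_roots, Polynomial.map_id]
          exact h)
      exact h5 hd
    obtain ⟨x, hx⟩ : ∃ x, 1 < V.twoTorsionPolynomial.toPoly.rootMultiplicity x := by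
      classical
      by_contra! hcon
      apply hnd
      rw [Multiset.nodup_iff_count_le_one]
      intro a
      rw [count_roots]
      exact hcon a
    rw [one_lt_rootMultiplicity_iff_isRoot hP0] at hx
    obtain ⟨hr, hr'⟩ := hx
    have e1 : 4 * x ^ 3 + V.b₂ * x ^ 2 + 2 * V.b₄ * x + V.b₆ = 0 := by
      simpa [Cubic.toPoly, WeierstrassCurve.twoTorsionPolynomial, IsRoot] using hr
    have e2' : 4 * ((2 + 1) * x ^ 2) + V.b₂ * ((1 + 1) * x) + 2 * V.b₄ = 0 := by
      simpa [Cubic.toPoly, WeierstrassCurve.twoTorsionPolynomial, IsRoot, derivative_X_pow]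
        using hr'
    have e2 : 4 * (3 * x ^ 2) + V.b₂ * (2 * x) + 2 * V.b₄ = 0 := by linear_combination e2'
    set y := -(V.a₁ * x + V.a₃) / 2 with hy
    have hy' : 2 * y = -(V.a₁ * x + V.a₃) := by rw [hy]; field_simp
    simp only [WeierstrassCurve.b₂, WeierstrassCurve.b₄, WeierstrassCurve.b₆] at e1 e2
    refine ⟨x, y, ?_, ?_, ?_⟩
    · rw [WeierstrassCurve.Affine.equation_iff]
      change y ^ 2 + V.a₁ * x * y + V.a₃ * y = x ^ 3 + V.a₂ * x ^ 2 + V.a₄ * x + V.a₆
      apply mul_left_cancel₀ h4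
      linear_combination -e1 + (2 * y + (V.a₁ * x + V.a₃)) * hy'
    · linear_combination hy'
    · apply mul_left_cancel₀ h4
      linear_combination e2 - 2 * V.a₁ * hy'

/-- a smooth Weierstrass cubic is elliptic -/
theorem isElliptic_of_nonsingular (V : WeierstrassCurve K)
    (h : ∀ x y : K, V.toAffine.Equation x y → V.toAffine.Nonsingular x y) : V.IsElliptic := by
  refine ⟨isUnit_iff_ne_zero.mpr fun hΔ => ?_⟩
  obtain ⟨x, y, h1, h2⟩ := exists_singular V hΔ
  exact h2 (h x y h1)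

end Fermat.Agent.Cor.RR.Cubic'
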