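import Mathlib
import Fermat.Agent.Cor.WeierstrassModel
import Fermat.Agent.Cor.SmoothCubic

/-!
# Function fields of genus one are the function fields of elliptic curves

`exists_elliptic`: let `F/K` be a function field of genus one, `K` algebraically closed (of any characteristic). There
is an elliptic curve `V` over `K` (Mathlib's `WeierstrassCurve` with `IsElliptic`) with `F` isomorphic over `K` to the
function field of `V` (Mathlib's `WeierstrassCurve.Affine.FunctionField`).

This file is not used by any of the statement files.
-/

set_option autoImplicit false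
set_option linter.unusedSectionVars false
set_option linter.style.haveILetI false

noncomputable section

namespace Fermat.Agent.Cor.RR

open AlgebraicCurve IsDedekindDomain
open Fermat.Agent Fermat.Agent.FF Fermat.Agent.H18
open scoped IntermediateField Polynomial

variable {K F : Type*} [Field K] [Field F] [Algebra K F] [IsAlgClosed K] [FunField K F]

theorem nonempty_algEquiv (hg : genusFF K F = 1) {V : WeierstrassCurve K} {x y : F}
    (hx : Transcendental K x) (hV : (V.map (algebraMap K F)).toAffine.Equation x y)
    (htop : IntermediateField.adjoin K {x, y} = ⊤) :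
    Nonempty (V.toAffine.FunctionField ≃ₐ[K] F) := by
  have heval : Polynomial.eval₂ ((Polynomial.aeval x : K[X] →ₐ[K] F) : K[X] →+* F) y
      V.toAffine.polynomial = 0 := by
    have h1 := Polynomial.eval₂_eval₂RingHom_apply (algebraMap K F) x y V.toAffine.polynomial
    rw [← WeierstrassCurve.Affine.map_polynomial] at h1
    exact h1.trans hV
  let φ : V.toAffine.CoordinateRing →ₐ[K] F :=
    AdjoinRoot.liftAlgHom V.toAffine.polynomial (Polynomial.aeval x) y heval
  have hφp : ∀ p : K[X], φ (algebraMap K[X] V.toAffine.CoordinateRing p) = Polynomial.aeval x p :=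
    fun p => AdjoinRoot.lift_of heval
  have hφy : φ (WeierstrassCurve.Affine.CoordinateRing.mk V.toAffine Polynomial.X) = y :=
    AdjoinRoot.lift_root heval
  have haev : ∀ p : K[X], Polynomial.aeval x p = 0 → p = 0 := fun p hp => by
    by_contra h
    exact hx ⟨p, h, hp⟩
  have hxm : ∀ p : K[X], Polynomial.aeval x p ∈ K⟮x⟯ := fun p => by
    have h1 : Polynomial.aeval x p = algebraMap K⟮x⟯ F
        (Polynomial.aeval (IntermediateField.AdjoinSimple.gen K x) p) := by
      rw [← Polynomial.aeval_algebraMap_apply, IntermediateField.AdjoinSimple.algebraMap_gen]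
    rw [h1]
    exact (Polynomial.aeval (IntermediateField.AdjoinSimple.gen K x) p).2
  have hinj : Function.Injective φ := by
    rw [injective_iff_map_eq_zero]
    intro u hu
    obtain ⟨p, q, rfl⟩ := WeierstrassCurve.Affine.CoordinateRing.exists_smul_basis_eq u
    rw [map_add, Algebra.smul_def, Algebra.smul_def, mul_one, map_mul, hφp, hφp, hφy] at hu
    have hq : Polynomial.aeval x q = 0 := by
      by_contra hq
      have hy : y ∈ K⟮x⟯ := by
        have h1 : y = -Polynomial.aeval x p / Polynomial.aeval x q := by
          rw [eq_div_iff hq]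
          linear_combination hu
        rw [h1]
        exact div_mem (neg_mem (hxm p)) (hxm q)
      have h2 : K⟮x⟯ = ⊤ := by
        rw [eq_top_iff, ← htop, IntermediateField.adjoin_le_iff]
        rintro z (rfl | rfl)
        · exact IntermediateField.mem_adjoin_simple_self K _
        · exact hy
      have h3 := genus_eq_zero_iff.mpr ⟨x, hx, h2⟩
      omega
    rw [hq, zero_mul, add_zero] at hu
    rw [haev q hq, haev p hu, zero_smul, zero_smul, add_zero]
  let ψ : V.toAffine.FunctionField →ₐ[K] F := IsFractionRing.liftAlgHom (g := φ) hinj
  have hψ : ∀ u : V.toAffine.CoordinateRing,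
      ψ (algebraMap V.toAffine.CoordinateRing V.toAffine.FunctionField u) = φ u := fun u =>
    IsFractionRing.lift_algebraMap (g := φ.toRingHom) hinj u
  have hrange : ψ.fieldRange = ⊤ := by
    rw [eq_top_iff, ← htop, IntermediateField.adjoin_le_iff]
    rintro z (rfl | rfl)
    · refine ⟨algebraMap V.toAffine.CoordinateRing V.toAffine.FunctionField
        (algebraMap K[X] V.toAffine.CoordinateRing Polynomial.X), ?_⟩
      change ψ _ = _
      rw [hψ, hφp, Polynomial.aeval_X]
    · refine ⟨algebraMap V.toAffine.CoordinateRing V.toAffine.FunctionField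
        (WeierstrassCurve.Affine.CoordinateRing.mk V.toAffine Polynomial.X), ?_⟩
      change ψ _ = _
      rw [hψ, hφy]
  refine ⟨AlgEquiv.ofBijective ψ ⟨ψ.toRingHom.injective, fun z => ?_⟩⟩
  have hz : z ∈ ψ.fieldRange := by
    rw [hrange]
    exact IntermediateField.mem_top
  exact hz

/-- **Function fields of genus one are the function fields of elliptic curves.** -/
theorem exists_elliptic (hg : genusFF K F = 1) : ∃ V : WeierstrassCurve K, V.IsElliptic ∧
    Nonempty (V.toAffine.FunctionField ≃ₐ[K] F) := by
  obtain ⟨P⟩ := nonempty_place (K := K) (F := F)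
  obtain ⟨V, x, y, hV, hns, htop, hxP, -, -⟩ := exists_weierstrass hg P
  have hx : Transcendental K x := transcendental_of_ord (P := P) (by rw [hxP]; norm_num)
  exact ⟨V, Cubic'.isElliptic_of_nonsingular V hns, nonempty_algEquiv hg hx hV htop⟩

end Fermat.Agent.Cor.RR
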