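import Fermat.Agent.Cor.CMAbelian

/-!
# Endomorphisms of complex tori

This file is not used by any of the statement files.

Let `L = l ⟨1, τ⟩` be a lattice in `ℂ`.

* `endo_of_isCM`: if `τ` is a root of the primitive form `(a, b, c)`, then the numbers `α` with
  `α L ⊆ L` are the elements of the order `⟨1, a τ⟩` of discriminant `b² - 4 a c`;
* `endo_of_not_quadratic`: if `τ` is not quadratic over `ℚ`, they are the rational integers.
-/

set_option autoImplicit false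

noncomputable section

namespace Fermat.Agent.Cor.CM

open UpperHalfPlane hiding I
open Fermat.Agent.H14 (pp)

/-- multiplication by `α` in the basis `1, τ` -/
theorem endo_iff {τ : ℍ} {l α : ℂ} {hl : l ≠ 0} :
    pr α * (pp τ l hl).lattice ≤ (pp τ l hl).lattice ↔ ∃ p q s t : ℤ, α * τ = p * τ + q ∧
      α = s * τ + t := by
  rw [pp_lattice]
  constructor
  · intro h
    have h1 : ∀ x ∈ M1 (τ : ℂ), α * x ∈ M1 (τ : ℂ) := by
      intro x hx
      have h2 := h (mem_pr_mul.mpr ⟨l * x, mem_pr_mul.mpr ⟨x, hx, rfl⟩, rfl⟩)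
      obtain ⟨y, hy, h3⟩ := mem_pr_mul.mp h2
      have h4 : y = α * x := by
        apply mul_left_cancel₀ hl
        rw [h3]; ring
      rwa [← h4]
    obtain ⟨q, p, h5⟩ := mem_M1.mp (h1 τ (mem_M1.mpr ⟨0, 1, by push_cast; ring⟩))
    obtain ⟨t, s, h6⟩ := mem_M1.mp (h1 1 (mem_M1.mpr ⟨1, 0, by push_cast; ring⟩))
    exact ⟨p, q, s, t, by rw [← h5]; ring, by rw [mul_one] at h6; rw [← h6]; ring⟩
  · rintro ⟨p, q, s, t, h1, h2⟩ x hx
    obtain ⟨y, hy, rfl⟩ := mem_pr_mul.mp hx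
    obtain ⟨z, hz, rfl⟩ := mem_pr_mul.mp hy
    obtain ⟨m, n, rfl⟩ := mem_M1.mp hz
    refine mem_pr_mul.mpr ⟨α * (m + n * τ), mem_M1.mpr ⟨m * t + n * q, m * s + n * p, ?_⟩, by ring⟩
    push_cast
    linear_combination (-(n : ℂ)) * h1 - (m : ℂ) * h2

/-- **The endomorphism ring of a torus with complex multiplication.** -/
theorem endo_of_isCM {τ : ℍ} {l α : ℂ} {hl : l ≠ 0} {a b c : ℤ} (ha : a ≠ 0)
    (hg : Int.gcd (Int.gcd a b) c = 1) (h : (a : ℂ) * (τ : ℂ) ^ 2 + b * τ + c = 0) :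
    pr α * (pp τ l hl).lattice ≤ (pp τ l hl).lattice ↔ α ∈ M1 (a * τ) := by
  rw [endo_iff]
  constructor
  · rintro ⟨p, q, s, t, h1, h2⟩
    have h3 : (s : ℂ) * (τ : ℂ) ^ 2 + ((t - p : ℤ) : ℂ) * τ + ((-q : ℤ) : ℂ) = 0 := by
      push_cast
      rw [h2] at h1
      linear_combination h1
    obtain ⟨k, h4, -, -⟩ := exists_mul_of_primitive ha hg h h3
    refine mem_M1.mpr ⟨t, k, ?_⟩
    have h5 : (s : ℂ) = k * a := by exact_mod_cast congrArg (Int.cast : ℤ → ℂ) h4
    rw [h2, h5]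
    ring
  · intro hα
    obtain ⟨m, n, rfl⟩ := mem_M1.mp hα
    refine ⟨m - n * b, -n * c, n * a, m, ?_, ?_⟩
    · push_cast
      linear_combination (n : ℂ) * h
    · push_cast
      ring

/-- **The endomorphism ring of a torus without complex multiplication.** -/
theorem endo_of_not_quadratic {τ : ℍ} {l α : ℂ} {hl : l ≠ 0}
    (h : ∀ a b c : ℤ, a ≠ 0 → (a : ℂ) * (τ : ℂ) ^ 2 + b * τ + c ≠ 0) :
    pr α * (pp τ l hl).lattice ≤ (pp τ l hl).lattice ↔ ∃ m : ℤ, α = m := by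
  rw [endo_iff]
  constructor
  · rintro ⟨p, q, s, t, h1, h2⟩
    by_cases hs : s = 0
    · refine ⟨t, ?_⟩
      rw [h2, hs]
      push_cast
      ring
    · exfalso
      apply h s (t - p) (-q) hs
      push_cast
      rw [h2] at h1
      linear_combination h1
  · rintro ⟨m, rfl⟩
    exact ⟨m, 0, 0, m, by push_cast; ring, by push_cast; ring⟩

/-- A lattice has a multiplier which is not a rational integer if and only if `τ` is quadratic;
in this case the modular invariant is an algebraic integer and `K(j(τ))/K` is abelian for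
`K = ℚ(τ)`. -/
theorem cm_main {τ : ℍ} {l α : ℂ} {hl : l ≠ 0}
    (h : pr α * (pp τ l hl).lattice ≤ (pp τ l hl).lattice) (hα : ∀ m : ℤ, α ≠ m) :
    IsIntegral ℤ (j τ) ∧ IsAbelianGalois (IntermediateField.adjoin ℚ {(τ : ℂ)})
      (IntermediateField.adjoin (IntermediateField.adjoin ℚ {(τ : ℂ)}) {j τ}) := by
  by_contra hcon
  have hnq : ∀ a b c : ℤ, a ≠ 0 → (a : ℂ) * (τ : ℂ) ^ 2 + b * τ + c ≠ 0 := fun a b c ha h0 =>
    hcon ⟨isIntegral_j_of_quadratic τ a b c ha h0, isAbelianGalois_of_quadratic ha h0⟩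
  obtain ⟨m, hm⟩ := (endo_of_not_quadratic hnq).mp h
  exact hα m hm

end Fermat.Agent.Cor.CM
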