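import Mathlib.Analysis.Complex.BorelCaratheodory
import Mathlib.Analysis.Complex.HasPrimitives
import Mathlib.Analysis.Complex.Liouville
import Mathlib.Analysis.Complex.CauchyIntegral
import Mathlib.Topology.Algebra.Polynomial
import Mathlib.Analysis.Analytic.Order
import Mathlib.Analysis.SpecialFunctions.Pow.Real
import Mathlib.Tactic

/-!
# Entire functions with finitely many zeros and of order less than two

Let `F` be an entire function with finitely many zeros, not identically zero, such that
`|F(z)| ≤ exp(A (1 + |z|) ^ (3 / 2))` for all `z`. Then `F(z) = P(z) exp(a + b z)` for a monic polynomial `P`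
(a special case of the factorization theorem of Hadamard).

Proof: division by the zeros; a zero-free entire function has a logarithm; the Borel–Carathéodory inequality and
the Cauchy estimates for the second derivative of this logarithm.

This file is not used by any of the statement files.
-/

set_option autoImplicit false

noncomputable section

namespace Fermat.Agent.Cor.EntireOrder

open Complex Filter Set Polynomial Metric
open scoped Real Topology

/-- division by the zero at `ρ` -/
theorem exists_quot {F : ℂ → ℂ} (hF : Differentiable ℂ F) {ρ : ℂ} (h : ∃ z, F z ≠ 0) :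
    ∃ (r : ℕ) (g : ℂ → ℂ), Differentiable ℂ g ∧ g ρ ≠ 0 ∧ ∀ s, F s = (s - ρ) ^ r * g s := by
  have htop : analyticOrderAt F ρ ≠ ⊤ := by
    intro h1
    obtain ⟨z, hz⟩ := h
    refine hz ?_
    have h2 := analyticOrderAt_eq_top.mp h1
    have h3 : AnalyticOnNhd ℂ F univ := fun z _ => hF.analyticAt z
    have h4 : AnalyticOnNhd ℂ (fun _ : ℂ => (0 : ℂ)) univ := fun z _ => analyticAt_const
    exact congrFun (h3.eq_of_eventuallyEq h4 (z₀ := ρ) h2) z
  obtain ⟨r, hr⟩ := ENat.ne_top_iff_exists.mp htop
  obtain ⟨g0, hg0, hne, hg⟩ := (hF.analyticAt ρ).analyticOrderAt_eq_natCast.mp hr.symm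
  classical
  refine ⟨r, fun s => if s = ρ then g0 ρ else F s / (s - ρ) ^ r, fun s => ?_, ?_, fun s => ?_⟩
  · by_cases hs : s = ρ
    · rw [hs]
      refine hg0.differentiableAt.congr_of_eventuallyEq ?_
      filter_upwards [hg] with z hz
      by_cases h : z = ρ
      · rw [if_pos h, h]
      · rw [if_neg h, hz, smul_eq_mul, mul_div_cancel_left₀ _ (pow_ne_zero _ (sub_ne_zero.mpr h))]
    · have h1 : DifferentiableAt ℂ (fun s => F s / (s - ρ) ^ r) s :=
        (hF s).div (by fun_prop) (pow_ne_zero _ (sub_ne_zero.mpr hs))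
      refine h1.congr_of_eventuallyEq ?_
      filter_upwards [isOpen_ne.mem_nhds hs] with z hz
      exact if_neg hz
  · beta_reduce
    rw [if_pos rfl]
    exact hne
  · by_cases hs : s = ρ
    · rw [hs]
      beta_reduce
      rw [if_pos rfl]
      have := hg.self_of_nhds
      rwa [smul_eq_mul] at this
    · beta_reduce
      rw [if_neg hs, mul_div_cancel₀]
      exact pow_ne_zero _ (sub_ne_zero.mpr hs)

theorem exists_factor (S : Finset ℂ) : ∀ F : ℂ → ℂ, Differentiable ℂ F → (∃ z, F z ≠ 0) →
    (∀ z, F z = 0 → z ∈ S) → ∃ (P : ℂ[X]) (G : ℂ → ℂ), P.Monic ∧ Differentiable ℂ G ∧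
      (∀ z, G z ≠ 0) ∧ ∀ z, F z = P.eval z * G z := by
  classical
  induction S using Finset.induction_on with
  | empty =>
    intro F hF _ h0
    refine ⟨1, F, monic_one, hF, fun z hz => ?_, fun z => by simp⟩
    simpa using h0 z hz
  | insert ρ S hρ ih =>
    intro F hF hne h0
    obtain ⟨r, g, hg, hgρ, hFg⟩ := exists_quot hF (ρ := ρ) hne
    obtain ⟨P, G, hP, hG, hG0, hgG⟩ := ih g hg ⟨ρ, hgρ⟩ fun z hz => by
      have h1 : F z = 0 := by rw [hFg, hz, mul_zero]
      rcases Finset.mem_insert.mp (h0 z h1) with h2 | h2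
      · rw [h2] at hz
        exact absurd hz hgρ
      · exact h2
    refine ⟨(X - C ρ) ^ r * P, G, ((monic_X_sub_C ρ).pow r).mul hP, hG, hG0, fun z => ?_⟩
    rw [hFg, hgG, eval_mul, eval_pow, eval_sub, eval_X, eval_C]
    ring

theorem exists_one_le {P : ℂ[X]} (hP : P.Monic) : ∃ R : ℝ, ∀ z : ℂ, R ≤ ‖z‖ → 1 ≤ ‖P.eval z‖ := by
  rcases Nat.eq_zero_or_pos P.natDegree with h | h
  · rw [hP.natDegree_eq_zero.mp h]
    exact ⟨0, fun z _ => by simp⟩
  · have h1 := P.tendsto_norm_atTop (natDegree_pos_iff_degree_pos.mp h) (z := id)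
      (tendsto_norm_cobounded_atTop (E := ℂ))
    have h2 := h1.eventually_ge_atTop 1
    obtain ⟨R, -, hR⟩ := (hasBasis_cobounded_norm (E := ℂ)).eventually_iff.mp h2
    exact ⟨R, fun z hz => hR hz⟩

/-- a zero-free entire function has a logarithm -/
theorem exists_log {G : ℂ → ℂ} (hG : Differentiable ℂ G) (h0 : ∀ z, G z ≠ 0) :
    ∃ g : ℂ → ℂ, Differentiable ℂ g ∧ ∀ z, G z = Complex.exp (g z) := by
  have hd : Differentiable ℂ (deriv G) := fun z =>
    ((hG.analyticAt z).deriv).differentiableAt
  have hq : Differentiable ℂ (fun z => deriv G z / G z) := hd.div hG h0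
  obtain ⟨g, hg⟩ := hq.isExactOn_univ
  have hg' : ∀ z, HasDerivAt g (deriv G z / G z) z := fun z => hg z (mem_univ z)
  have hgd : Differentiable ℂ g := fun z => (hg' z).differentiableAt
  have h1 : ∀ z, HasDerivAt (fun z => G z * Complex.exp (-g z)) 0 z := fun z => by
    have h2 : HasDerivAt (fun z => G z * Complex.exp (-g z)) (deriv G z * Complex.exp (-g z) +
        G z * (Complex.exp (-g z) * -(deriv G z / G z))) z :=
      ((hG z).hasDerivAt).mul ((hg' z).neg.cexp)
    have e : deriv G z * Complex.exp (-g z) +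
        G z * (Complex.exp (-g z) * -(deriv G z / G z)) = 0 := by
      have := h0 z
      field_simp
      ring
    rwa [e] at h2
  have h3 : ∀ z, G z * Complex.exp (-g z) = G 0 * Complex.exp (-g 0) := fun z =>
    is_const_of_deriv_eq_zero (fun z => (h1 z).differentiableAt) (fun z => (h1 z).deriv) z 0
  have hc : G 0 * Complex.exp (-g 0) ≠ 0 := mul_ne_zero (h0 0) (Complex.exp_ne_zero _)
  refine ⟨fun z => g z + Complex.log (G 0 * Complex.exp (-g 0)), hgd.add_const _, fun z => ?_⟩
  rw [Complex.exp_add, Complex.exp_log hc, ← h3 z, Complex.exp_neg]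
  have := Complex.exp_ne_zero (g z)
  field_simp

/-- an entire function whose real part is `O(|z| ^ (3 / 2))` is affine -/
theorem affine_of_re_le {g : ℂ → ℂ} (hg : Differentiable ℂ g) {A : ℝ} (hA : 0 < A)
    (h : ∀ z, (g z).re ≤ A * (1 + ‖z‖) ^ (3 / 2 : ℝ)) : ∃ a b : ℂ, ∀ z, g z = a + b * z := by
  have h2 : ∀ c, deriv (deriv g) c = 0 := by
    intro c
    have hbound : ∀ R : ℝ, 1 + ‖c‖ ≤ R → ‖deriv (deriv g) c‖ ≤
        (32 * A + 6 * ‖g 0‖) * R ^ (-(1 / 2) : ℝ) := by
      intro R hR
      have hR1 : 1 ≤ R := by linarith [norm_nonneg c]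
      have hR0 : 0 < R := by linarith
      have hM : (0 : ℝ) < A * (4 * R) ^ (3 / 2 : ℝ) := by positivity
      have hball : ∀ z ∈ sphere c R, ‖g z‖ ≤ 2 * (A * (4 * R) ^ (3 / 2 : ℝ)) + 3 * ‖g 0‖ := by
        intro z hz
        have hz1 : ‖z‖ ≤ ‖c‖ + R := by
          have h3 : ‖z - c‖ = R := by rwa [mem_sphere_iff_norm] at hz
          have h4 := norm_le_norm_add_norm_sub' z c
          rw [h3] at h4
          exact h4
        set T := ‖c‖ + R with hT
        have hT0 : 0 < T := by positivity
        have hmaps : Set.MapsTo g (ball 0 (2 * T)) {z | z.re ≤ A * (4 * R) ^ (3 / 2 : ℝ)} := by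
          intro w hw
          have hw1 : ‖w‖ < 2 * T := by simpa using hw
          refine (h w).trans ?_
          refine mul_le_mul_of_nonneg_left ?_ hA.le
          refine Real.rpow_le_rpow (by positivity) ?_ (by norm_num)
          linarith
        have hb := borelCaratheodory hM hg.differentiableOn hmaps (by positivity)
          (z := z) (by
            rw [mem_ball_zero_iff]
            linarith)
        have hden : T ≤ 2 * T - ‖z‖ := by linarith
        have e1 : 2 * (A * (4 * R) ^ (3 / 2 : ℝ)) * ‖z‖ / (2 * T - ‖z‖) ≤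
            2 * (A * (4 * R) ^ (3 / 2 : ℝ)) := by
          rw [div_le_iff₀ (by linarith)]
          exact mul_le_mul_of_nonneg_left (by linarith) (by positivity)
        have e2 : ‖g 0‖ * (2 * T + ‖z‖) / (2 * T - ‖z‖) ≤ 3 * ‖g 0‖ := by
          rw [div_le_iff₀ (by linarith)]
          have := norm_nonneg (g 0)
          nlinarith
        linarith
      have h5 := norm_iteratedDeriv_le_of_forall_mem_sphere_norm_le 2 hR0
        hg.diffContOnCl hball
      rw [iteratedDeriv_succ, iteratedDeriv_one] at h5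
      refine h5.trans ?_
      have e3 : (4 * R) ^ (3 / 2 : ℝ) = 8 * R ^ (3 / 2 : ℝ) := by
        rw [Real.mul_rpow (by norm_num) hR0.le]
        congr 1
        rw [show (4 : ℝ) = 2 ^ (2 : ℝ) by norm_num, ← Real.rpow_mul (by norm_num)]
        norm_num
      have e4 : R ^ (3 / 2 : ℝ) = R ^ 2 * R ^ (-(1 / 2) : ℝ) := by
        rw [← Real.rpow_natCast, ← Real.rpow_add hR0]
        norm_num
      have e5 : 1 ≤ R ^ 2 * R ^ (-(1 / 2) : ℝ) := by
        rw [← e4]
        exact Real.one_le_rpow hR1 (by norm_num)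
      rw [div_le_iff₀ (by positivity), e3, e4]
      have e6 : ((2 : ℕ).factorial : ℝ) = 2 := by norm_num [Nat.factorial]
      rw [e6]
      have := norm_nonneg (g 0)
      nlinarith
    have hlim : Tendsto (fun R : ℝ => (32 * A + 6 * ‖g 0‖) * R ^ (-(1 / 2) : ℝ)) atTop (𝓝 0) := by
      have := (tendsto_rpow_neg_atTop (y := 1 / 2) (by norm_num)).const_mul (32 * A + 6 * ‖g 0‖)
      simpa using this
    have h6 : ‖deriv (deriv g) c‖ ≤ 0 :=
      ge_of_tendsto hlim ((eventually_ge_atTop (1 + ‖c‖)).mono hbound)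
    exact norm_le_zero_iff.mp h6
  have hd : Differentiable ℂ (deriv g) := fun z => ((hg.analyticAt z).deriv).differentiableAt
  have h3 : ∀ z, deriv g z = deriv g 0 := fun z => is_const_of_deriv_eq_zero hd h2 z 0
  have h4 : ∀ z, HasDerivAt (fun z => g z - deriv g 0 * z) 0 z := fun z => by
    have h5 : HasDerivAt (fun z => g z - deriv g 0 * z) (deriv g z - deriv g 0 * 1) z :=
      (hg z).hasDerivAt.sub ((hasDerivAt_id z).const_mul (deriv g 0))
    rwa [h3 z, mul_one, sub_self] at h5
  refine ⟨g 0, deriv g 0, fun z => ?_⟩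
  have h6 := is_const_of_deriv_eq_zero (fun z => (h4 z).differentiableAt)
    (fun z => (h4 z).deriv) z 0
  simp only [mul_zero, sub_zero] at h6
  linear_combination h6

/-- **Entire functions with finitely many zeros and of order less than two** -/
theorem exists_eq_poly_mul_exp {F : ℂ → ℂ} (hF : Differentiable ℂ F) (hne : ∃ z, F z ≠ 0)
    (hfin : {z | F z = 0}.Finite) {A : ℝ}
    (hA : ∀ z, ‖F z‖ ≤ Real.exp (A * (1 + ‖z‖) ^ (3 / 2 : ℝ))) :
    ∃ (P : ℂ[X]) (a b : ℂ), P.Monic ∧ ∀ z, F z = P.eval z * Complex.exp (a + b * z) := by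
  obtain ⟨P, G, hP, hG, hG0, hFG⟩ := exists_factor hfin.toFinset F hF hne fun z hz => by
    simpa using hz
  obtain ⟨g, hg, hGg⟩ := exists_log hG hG0
  obtain ⟨R, hR⟩ := exists_one_le hP
  obtain ⟨M, hM⟩ := (isCompact_closedBall (0 : ℂ) R).exists_bound_of_continuousOn
    (f := g) hg.continuous.continuousOn
  obtain ⟨a, b, hab⟩ := affine_of_re_le hg (A := |A| + |M| + 1) (by positivity) fun z => by
    have h1 : (1 : ℝ) ≤ (1 + ‖z‖) ^ (3 / 2 : ℝ) :=
      Real.one_le_rpow (by linarith [norm_nonneg z]) (by norm_num)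
    rcases le_total R ‖z‖ with h2 | h2
    · have h3 := hA z
      rw [hFG, hGg, norm_mul, Complex.norm_exp] at h3
      have h4 : Real.exp (g z).re ≤ Real.exp (A * (1 + ‖z‖) ^ (3 / 2 : ℝ)) :=
        le_trans (le_mul_of_one_le_left (Real.exp_pos _).le (hR z h2)) h3
      have h5 := Real.exp_le_exp.mp h4
      have h6 := le_abs_self A
      have h7 := abs_nonneg M
      nlinarith
    · have h3 := hM z (by simpa using h2)
      have h4 := (Complex.re_le_norm (g z)).trans h3
      have h5 := le_abs_self M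
      have h6 := abs_nonneg A
      have h7 := abs_nonneg M
      nlinarith
  exact ⟨P, a, b, hP, fun z => by rw [hFG, hGg, hab]⟩

end Fermat.Agent.Cor.EntireOrder
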