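import Fermat.Agent.Cor.Seven14

/-!
# No elliptic curve over `ℚ` has a rational point of order `16`

`X₁(16)` is the curve `w² = (x² - 1) (x² + 1) (x² + 2 x - 1)` of genus two. Its rational points are determined by
elementary descent (Fermat's equations `x⁴ - y⁴ = z²` and `x⁴ + y⁴ = z²`).

This file is not used by any of the statement files.
-/

set_option autoImplicit false

namespace Fermat.Agent.Cor.Ord16

open Fermat.Agent.H23.K1 Fermat.Agent.Cor.Seven

theorem sq_nonneg_of_mul {a b k : ℤ} (hab : IsCoprime a b) (ha : 0 < a) (hb : 0 < b)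
    (h : a * b = k ^ 2) : ∃ r s : ℤ, a = r ^ 2 ∧ b = s ^ 2 :=
  sq_sq_of_mul hab ha hb h

/-- `x⁴ - y⁴ = z²` has only trivial solutions. -/
theorem fermat_sub (n : ℕ) : ∀ {x y z : ℤ}, x.natAbs = n → IsCoprime x y →
    x ^ 4 - y ^ 4 = z ^ 2 → y = 0 ∨ z = 0 := by
  induction n using Nat.strong_induction_on with
  | _ n ih =>
    intro x y z hn hxy h
    by_contra hcon
    push Not at hcon
    obtain ⟨hy, hz⟩ := hcon
    have hx : x ≠ 0 := by
      rintro rfl
      have h1 : 0 < y ^ 4 := by positivity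
      nlinarith [sq_nonneg z]
    have hx2 : 0 < x ^ 2 := by positivity
    have hcz : IsCoprime (y ^ 2) z := by
      apply cop (pow_ne_zero 2 hy)
      intro p hp h1 h2
      have h3 : p ∣ y := hp.dvd_of_dvd_pow h1
      have h4 : p ∣ x ^ 4 := by
        have e : x ^ 4 = z ^ 2 + y ^ 4 := by linarith
        rw [e]
        exact dvd_add (dvd_pow h2 two_ne_zero) (dvd_pow h3 (by norm_num))
      exact cop_false hxy hp (hp.dvd_of_dvd_pow h4) h3
    rcases Int.even_or_odd y with hye | hyo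
    · -- `y` even, `z` odd
      have hzo : Odd z := by
        rw [← Int.not_even_iff_odd]
        intro hze
        exact cop_false hcz Int.prime_two (dvd_pow hye.two_dvd two_ne_zero) hze.two_dvd
      have hpt : PythagoreanTriple z (y ^ 2) (x ^ 2) := by
        change z * z + y ^ 2 * y ^ 2 = x ^ 2 * x ^ 2
        linear_combination -h
      obtain ⟨m, k, e1, e2, e3, e4, e5, e6⟩ := hpt.coprime_classification'
        (Int.isCoprime_iff_gcd_eq_one.1 hcz.symm) (Int.odd_iff.1 hzo) hx2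
      have hmk : IsCoprime m k := Int.isCoprime_iff_gcd_eq_one.2 e4
      have hmk0 : 0 < m * k := by
        have h1 : 0 < y ^ 2 := by positivity
        have h2 : 2 * (m * k) = y ^ 2 := by rw [e2]; ring
        omega
      have hm0 : 0 < m := by
        rcases e6.lt_or_eq with h1 | h1
        · exact h1
        · rw [← h1, zero_mul] at hmk0
          omega
      have hk0 : 0 < k := (pos_iff_pos_of_mul_pos hmk0).1 hm0
      obtain ⟨y', hy'⟩ := hye.two_dvd
      -- `x² = g⁴ + 4 f⁴`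
      obtain ⟨g, f, hgo, hgf, hf0, hxgf⟩ : ∃ g f : ℤ, Odd g ∧ IsCoprime g f ∧ f ≠ 0 ∧
          x ^ 2 = g ^ 4 + 4 * f ^ 4 := by
        have key : ∀ m k : ℤ, IsCoprime m k → 0 < m → 0 < k → Odd m → 2 * m * k = y ^ 2 →
            x ^ 2 = m ^ 2 + k ^ 2 → ∃ g f : ℤ, Odd g ∧ IsCoprime g f ∧ f ≠ 0 ∧
              x ^ 2 = g ^ 4 + 4 * f ^ 4 := by
          intro m k hmk hm0 hk0 hmo e2 e3
          have h2k : (2 : ℤ) ∣ k := by
            have h1 : (2 : ℤ) ∣ m * k := by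
              refine ⟨y' ^ 2, ?_⟩
              have : 2 * (m * k) = 2 * (2 * y' ^ 2) := by
                rw [hy'] at e2
                linear_combination e2
              linarith
            rcases Int.prime_two.dvd_or_dvd h1 with h2 | h2
            · rw [← Int.not_even_iff_odd] at hmo
              exact absurd (even_iff_two_dvd.2 h2) hmo
            · exact h2
          obtain ⟨k', rfl⟩ := h2k
          have hk' : 0 < k' := by omega
          have h1 : m * k' = y' ^ 2 := by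
            have : 4 * (m * k') = 4 * y' ^ 2 := by
              rw [hy'] at e2
              linear_combination e2
            linarith
          have hmk' : IsCoprime m k' := hmk.of_isCoprime_of_dvd_right (dvd_mul_left _ _)
          obtain ⟨g, f, hg, hf⟩ := sq_sq_of_mul hmk' hm0 hk' h1
          refine ⟨g, f, ?_, ?_, ?_, ?_⟩
          · rw [hg] at hmo
            exact (Int.odd_pow' two_ne_zero).1 hmo
          · rw [hg, hf] at hmk'
            exact (IsCoprime.pow_iff (by norm_num) (by norm_num)).1 hmk'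
          · rintro rfl
            rw [hf] at hk'
            norm_num at hk'
          · rw [e3, hg, hf]
            ring
        rcases e5 with ⟨h1, h2⟩ | ⟨h1, h2⟩
        · exact key k m hmk.symm hk0 hm0 (Int.odd_iff.2 h2) (by rw [e2]; ring)
            (by rw [e3]; ring)
        · exact key m k hmk hm0 hk0 (Int.odd_iff.2 h1) e2.symm e3
      have hg0 : g ≠ 0 := by
        rintro rfl
        exact absurd hgo (by decide)
      have hcop2 : IsCoprime (g ^ 2) (2 * f ^ 2) := by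
        refine IsCoprime.mul_right ?_ hgf.pow
        rw [isCoprime_comm]
        refine IsCoprime.pow_right ?_
        rw [Int.prime_two.coprime_iff_not_dvd]
        intro h1
        rw [← Int.not_even_iff_odd] at hgo
        exact hgo (even_iff_two_dvd.2 h1)
      have hpt2 : PythagoreanTriple (g ^ 2) (2 * f ^ 2) |x| := by
        change g ^ 2 * g ^ 2 + (2 * f ^ 2) * (2 * f ^ 2) = |x| * |x|
        rw [abs_mul_abs_self]
        linear_combination -hxgf
      obtain ⟨a, b, d1, d2, d3, d4, -, d6⟩ := hpt2.coprime_classification'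
        (Int.isCoprime_iff_gcd_eq_one.1 hcop2) (Int.odd_iff.1 hgo.pow) (abs_pos.2 hx)
      have hab : IsCoprime a b := Int.isCoprime_iff_gcd_eq_one.2 d4
      have hab2 : a * b = f ^ 2 := by linarith
      have hab0 : 0 < a * b := by
        rw [hab2]
        positivity
      have ha0 : 0 < a := by
        rcases d6.lt_or_eq with h1 | h1
        · exact h1
        · rw [← h1, zero_mul] at hab0
          omega
      have hb0 : 0 < b := (pos_iff_pos_of_mul_pos hab0).1 ha0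
      obtain ⟨c, d, hc, hd⟩ := sq_sq_of_mul hab ha0 hb0 hab2
      have hcd : IsCoprime c d := by
        rw [hc, hd] at hab
        exact (IsCoprime.pow_iff (by norm_num) (by norm_num)).1 hab
      have hd0 : d ≠ 0 := by
        rintro rfl
        rw [hd] at hb0
        norm_num at hb0
      have hlt : c.natAbs < n := by
        rw [← hn]
        have h1 : c ^ 2 < |x| := by
          rw [← hc, d3]
          nlinarith
        have h2 : |c| ≤ c ^ 2 := by
          rw [← sq_abs]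
          have h3 : c ≠ 0 := by
            rintro rfl
            rw [hc] at ha0
            norm_num at ha0
          have h4 : 1 ≤ |c| := Int.one_le_abs h3
          nlinarith
        have h3 : |c| < |x| := lt_of_le_of_lt h2 h1
        rw [Int.abs_eq_natAbs, Int.abs_eq_natAbs] at h3
        exact_mod_cast h3
      rcases ih _ hlt rfl hcd (z := g) (by rw [d1, hc, hd]; ring) with h1 | h1
      · exact hd0 h1
      · exact hg0 h1
    · -- `y` odd
      have hpt : PythagoreanTriple (y ^ 2) z (x ^ 2) := by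
        change y ^ 2 * y ^ 2 + z * z = x ^ 2 * x ^ 2
        linear_combination -h
      obtain ⟨m, k, e1, e2, e3, e4, -, -⟩ := hpt.coprime_classification'
        (Int.isCoprime_iff_gcd_eq_one.1 hcz) (Int.odd_iff.1 hyo.pow) hx2
      have hk0 : k ≠ 0 := by
        rintro rfl
        apply hz
        rw [e2, mul_zero]
      have hlt : m.natAbs < n := by
        rw [← hn]
        apply Int.natAbs_lt_iff_sq_lt.2
        have : 0 < k ^ 2 := by positivity
        omega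
      rcases ih _ hlt rfl (Int.isCoprime_iff_gcd_eq_one.2 e4) (z := x * y)
        (by rw [mul_pow, e1, e3]; ring) with h1 | h1
      · exact hk0 h1
      · exact mul_ne_zero hx hy h1

/-- `x⁴ - 4 y⁴ = z²` with `x` odd has only trivial solutions. -/
theorem fermat_sub_four {x y z : ℤ} (hxy : IsCoprime x y) (hx : Odd x)
    (h : x ^ 4 - 4 * y ^ 4 = z ^ 2) : y = 0 := by
  by_contra hy
  have hx0 : x ≠ 0 := by
    rintro rfl
    exact absurd hx (by decide)
  have hx2 : 0 < x ^ 2 := by positivity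
  have hzo : Odd z := by
    have h1 : Odd (z ^ 2) := by
      rw [← h]
      have h2 : x ^ 4 - 4 * y ^ 4 = x ^ 4 - 2 * (2 * y ^ 4) := by ring
      rw [h2]
      exact hx.pow.sub_even (even_two_mul _)
    exact (Int.odd_pow' two_ne_zero).1 h1
  have hcz : IsCoprime z (2 * y ^ 2) := by
    apply cop (by rintro rfl; exact absurd hzo (by decide))
    intro p hp h1 h2
    have hp2 := odd_prime_of_dvd hp hzo h1
    have h3 : p ∣ y := hp.dvd_of_dvd_pow ((hp.dvd_or_dvd h2).resolve_left hp2)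
    have h4 : p ∣ x ^ 4 := by
      have e : x ^ 4 = z ^ 2 + 4 * y ^ 4 := by linarith
      rw [e]
      exact dvd_add (dvd_pow h1 two_ne_zero) (dvd_mul_of_dvd_right (dvd_pow h3 (by norm_num)) _)
    exact cop_false hxy hp (hp.dvd_of_dvd_pow h4) h3
  have hpt : PythagoreanTriple z (2 * y ^ 2) (x ^ 2) := by
    change z * z + (2 * y ^ 2) * (2 * y ^ 2) = x ^ 2 * x ^ 2
    linear_combination -h
  obtain ⟨m, k, e1, e2, e3, e4, -, e6⟩ := hpt.coprime_classification'
    (Int.isCoprime_iff_gcd_eq_one.1 hcz) (Int.odd_iff.1 hzo) hx2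
  have hmk : m * k = y ^ 2 := by linarith
  have hmk0 : 0 < m * k := by
    rw [hmk]
    positivity
  have hm0 : 0 < m := by
    rcases e6.lt_or_eq with h1 | h1
    · exact h1
    · rw [← h1, zero_mul] at hmk0
      omega
  have hk0 : 0 < k := (pos_iff_pos_of_mul_pos hmk0).1 hm0
  obtain ⟨f, g, hf, hg⟩ := sq_sq_of_mul (Int.isCoprime_iff_gcd_eq_one.2 e4) hm0 hk0 hmk
  have hf0 : f ≠ 0 := by
    rintro rfl
    rw [hf] at hm0
    norm_num at hm0
  have hg0 : g ≠ 0 := by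
    rintro rfl
    rw [hg] at hk0
    norm_num at hk0
  apply not_fermat_42 hf0 hg0 (c := x)
  rw [e3, hf, hg]
  ring

/-- The integral form. -/
theorem int_form {n d W : ℤ} (hnd : IsCoprime n d) (hd : d ≠ 0) (hn : n ≠ 0)
    (hne : n ^ 2 - d ^ 2 ≠ 0)
    (h : (n ^ 2 - d ^ 2) * (n ^ 2 + d ^ 2) * (n ^ 2 + 2 * n * d - d ^ 2) = W ^ 2) : False := by
  have hu : 0 < n ^ 2 + d ^ 2 := by positivity
  have hc : n ^ 2 + 2 * n * d - d ^ 2 ≠ 0 := by
    intro h0
    have h1 : (n + d) ^ 2 = 2 * d ^ 2 := by linear_combination h0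
    have h2 : (2 : ℤ) ∣ n + d := Int.prime_two.dvd_of_dvd_pow (n := 2) ⟨d ^ 2, h1⟩
    obtain ⟨e, he⟩ := h2
    have h3 : (2 : ℤ) ∣ d := by
      apply Int.prime_two.dvd_of_dvd_pow (n := 2)
      refine ⟨e ^ 2, ?_⟩
      rw [he] at h1
      linarith
    have h4 : (2 : ℤ) ∣ n := by
      have := dvd_sub (Dvd.intro _ he.symm) h3
      rwa [add_sub_cancel_right] at this
    exact cop_false hnd Int.prime_two h4 h3
  have h12 : ∀ p : ℤ, Prime p → p ∣ n ^ 2 + d ^ 2 → p ∣ n ^ 2 - d ^ 2 → p ∣ 2 := by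
    intro p hp h1 h2
    by_contra h3
    have h4 : p ∣ 2 * n ^ 2 := by
      have := dvd_add h1 h2
      rwa [show n ^ 2 + d ^ 2 + (n ^ 2 - d ^ 2) = 2 * n ^ 2 by ring] at this
    have h5 : p ∣ 2 * d ^ 2 := by
      have := dvd_sub h1 h2
      rwa [show n ^ 2 + d ^ 2 - (n ^ 2 - d ^ 2) = 2 * d ^ 2 by ring] at this
    exact cop_false hnd hp (hp.dvd_of_dvd_pow ((hp.dvd_or_dvd h4).resolve_left h3))
      (hp.dvd_of_dvd_pow ((hp.dvd_or_dvd h5).resolve_left h3))
  have h13 : ∀ p : ℤ, Prime p → p ∣ n ^ 2 + d ^ 2 → p ∣ n ^ 2 + 2 * n * d - d ^ 2 → p ∣ 2 := by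
    intro p hp h1 h2
    by_contra h3
    have h4 : p ∣ 2 * (d * (d - n)) := by
      have := dvd_sub h1 h2
      rwa [show n ^ 2 + d ^ 2 - (n ^ 2 + 2 * n * d - d ^ 2) = 2 * (d * (d - n)) by ring] at this
    rcases hp.dvd_or_dvd ((hp.dvd_or_dvd h4).resolve_left h3) with h5 | h5
    · have h6 : p ∣ n ^ 2 := by
        have := dvd_sub h1 (dvd_pow h5 two_ne_zero)
        rwa [add_sub_cancel_right] at this
      exact cop_false hnd hp (hp.dvd_of_dvd_pow h6) h5
    · apply h3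
      apply h12 p hp h1
      have := dvd_mul_of_dvd_left h5 (-(n + d))
      rwa [show (d - n) * -(n + d) = n ^ 2 - d ^ 2 by ring] at this
  have h23 : ∀ p : ℤ, Prime p → p ∣ n ^ 2 - d ^ 2 → p ∣ n ^ 2 + 2 * n * d - d ^ 2 → p ∣ 2 := by
    intro p hp h1 h2
    by_contra h3
    have h4 : p ∣ 2 * (n * d) := by
      have := dvd_sub h2 h1
      rwa [show n ^ 2 + 2 * n * d - d ^ 2 - (n ^ 2 - d ^ 2) = 2 * (n * d) by ring] at this
    rcases hp.dvd_or_dvd ((hp.dvd_or_dvd h4).resolve_left h3) with h5 | h5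
    · have h6 : p ∣ d ^ 2 := by
        have := dvd_sub (dvd_pow h5 two_ne_zero) h1
        rwa [show n ^ 2 - (n ^ 2 - d ^ 2) = d ^ 2 by ring] at this
      exact cop_false hnd hp h5 (hp.dvd_of_dvd_pow h6)
    · have h6 : p ∣ n ^ 2 := by
        have := dvd_add h1 (dvd_pow h5 two_ne_zero)
        rwa [sub_add_cancel] at this
      exact cop_false hnd hp (hp.dvd_of_dvd_pow h6) h5
  have hlift : ∀ {a b c : ℤ}, a ≠ 0 → b ≠ 0 → c ≠ 0 → a * b * c = W ^ 2 →
      (∀ p : ℤ, Prime p → p ∣ a → p ∣ b → p ∣ 2) → (∀ p : ℤ, Prime p → p ∣ a → p ∣ c → p ∣ 2) →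
      ∃ r : ℕ, a.natAbs = r ^ 2 ∨ a.natAbs = 2 * r ^ 2 := by
    intro a b c ha hb hc' habc h1 h2
    refine sq_or_two (b := (b * c).natAbs) (k := W.natAbs) (Int.natAbs_ne_zero.2 ha)
      (Int.natAbs_ne_zero.2 (mul_ne_zero hb hc')) ?_ ?_
    · rw [← Int.natAbs_mul, ← mul_assoc, habc, Int.natAbs_pow]
    · intro l hl h3 h4
      have hlp : Prime (l : ℤ) := Nat.prime_iff_prime_int.1 hl
      have h5 : (l : ℤ) ∣ a := Int.natCast_dvd.2 h3
      have h6 : (l : ℤ) ∣ b * c := Int.natCast_dvd.2 h4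
      have h7 : (l : ℤ) ∣ 2 := by
        rcases hlp.dvd_or_dvd h6 with h7 | h7
        · exact h1 _ hlp h5 h7
        · exact h2 _ hlp h5 h7
      have h8 : l ∣ 2 := by exact_mod_cast h7
      exact (Nat.prime_dvd_prime_iff_eq hl Nat.prime_two).1 h8
  obtain ⟨A, hA⟩ := hlift (a := n ^ 2 + d ^ 2) hu.ne' hne hc (by rw [← h]; ring) h12 h13
  obtain ⟨B, hB⟩ := hlift (a := n ^ 2 - d ^ 2) hne hu.ne' hc h
    (fun p hp h1 h2 => h12 p hp h2 h1) h23
  have hA' : n ^ 2 + d ^ 2 = (A : ℤ) ^ 2 ∨ n ^ 2 + d ^ 2 = 2 * (A : ℤ) ^ 2 := by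
    have e : ((n ^ 2 + d ^ 2).natAbs : ℤ) = n ^ 2 + d ^ 2 := Int.natAbs_of_nonneg hu.le
    rcases hA with hA | hA
    · left
      rw [← e, hA]
      push_cast
      ring
    · right
      rw [← e, hA]
      push_cast
      ring
  obtain ⟨ε, hε, hB'⟩ : ∃ ε : ℤ, (ε = 1 ∨ ε = -1) ∧
      (n ^ 2 - d ^ 2 = ε * (B : ℤ) ^ 2 ∨ n ^ 2 - d ^ 2 = ε * (2 * (B : ℤ) ^ 2)) := by
    rcases Int.natAbs_eq (n ^ 2 - d ^ 2) with e | e
    · refine ⟨1, Or.inl rfl, ?_⟩
      rcases hB with hB | hB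
      · left
        rw [e, hB]
        push_cast
        ring
      · right
        rw [e, hB]
        push_cast
        ring
    · refine ⟨-1, Or.inr rfl, ?_⟩
      rcases hB with hB | hB
      · left
        rw [e, hB]
        push_cast
        ring
      · right
        rw [e, hB]
        push_cast
        ring
  generalize (A : ℤ) = A' at hA'
  generalize (B : ℤ) = B' at hB'
  have hodd : (2 : ℤ) ∣ n ^ 2 + d ^ 2 → Odd n ∧ Odd d := by
    intro h2
    rcases Int.even_or_odd n with h3 | h3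
    · exfalso
      have h4 : (2 : ℤ) ∣ d ^ 2 := by
        have := dvd_sub h2 (dvd_pow h3.two_dvd two_ne_zero)
        rwa [add_sub_cancel_left] at this
      exact cop_false hnd Int.prime_two h3.two_dvd (Int.prime_two.dvd_of_dvd_pow h4)
    · refine ⟨h3, ?_⟩
      rw [← Int.not_even_iff_odd]
      intro h5
      have h4 : (2 : ℤ) ∣ n ^ 2 := by
        have := dvd_sub h2 (dvd_pow h5.two_dvd two_ne_zero)
        rwa [add_sub_cancel_right] at this
      exact cop_false hnd Int.prime_two (Int.prime_two.dvd_of_dvd_pow h4) h5.two_dvd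
  rcases hA' with hA | hA <;> rcases hB' with hB | hB
  · -- `n⁴ - d⁴ = ± (A B)²`
    have hB0 : B' ≠ 0 := by
      rintro rfl
      apply hne
      rw [hB]
      ring
    have hA0 : A' ≠ 0 := by
      rintro rfl
      rw [hA] at hu
      norm_num at hu
    have h1 : n ^ 4 - d ^ 4 = ε * (A' * B') ^ 2 := by
      have : n ^ 4 - d ^ 4 = (n ^ 2 + d ^ 2) * (n ^ 2 - d ^ 2) := by ring
      rw [this, hA, hB]
      ring
    rcases hε with rfl | rfl
    · rcases fermat_sub _ rfl hnd (z := A' * B') (by rw [h1]; ring) with h2 | h2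
      · exact hd h2
      · exact mul_ne_zero hA0 hB0 h2
    · rcases fermat_sub _ rfl hnd.symm (z := A' * B') (by linear_combination -h1) with h2 | h2
      · exact hn h2
      · exact mul_ne_zero hA0 hB0 h2
  · -- parity
    have h1 : (2 : ℤ) ∣ n ^ 2 + d ^ 2 := by
      refine ⟨d ^ 2 + ε * B' ^ 2, ?_⟩
      linear_combination hB
    obtain ⟨⟨a, ha⟩, ⟨b, hb⟩⟩ := hodd h1
    have key : ∀ a b A : ZMod 4, (2 * a + 1) ^ 2 + (2 * b + 1) ^ 2 ≠ A ^ 2 := by decide
    apply key (a : ZMod 4) (b : ZMod 4) (A' : ZMod 4)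
    have h5 := congrArg (Int.cast : ℤ → ZMod 4) hA
    rw [ha, hb] at h5
    push_cast at h5
    exact h5
  · -- `A⁴ - 4 B₁⁴ = (n d)²`
    have h1 : (2 : ℤ) ∣ n ^ 2 + d ^ 2 := ⟨A' ^ 2, hA⟩
    obtain ⟨hno, hdo⟩ := hodd h1
    obtain ⟨B₁, rfl⟩ : (2 : ℤ) ∣ B' := by
      have h2 : Even (ε * B' ^ 2) := by
        rw [← hB]
        exact hno.pow.sub_odd hdo.pow
      have h3 : (2 : ℤ) ∣ ε * B' ^ 2 := h2.two_dvd
      rcases hε with rfl | rfl
      · rw [one_mul] at h3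
        exact Int.prime_two.dvd_of_dvd_pow h3
      · rw [neg_one_mul, dvd_neg] at h3
        exact Int.prime_two.dvd_of_dvd_pow h3
    have e1 : n ^ 2 = A' ^ 2 + 2 * ε * B₁ ^ 2 := by
      have : 2 * n ^ 2 = 2 * (A' ^ 2 + 2 * ε * B₁ ^ 2) := by linear_combination hA + hB
      linarith
    have e2 : d ^ 2 = A' ^ 2 - 2 * ε * B₁ ^ 2 := by
      have : 2 * d ^ 2 = 2 * (A' ^ 2 - 2 * ε * B₁ ^ 2) := by linear_combination hA - hB
      linarith
    have hε2 : ε ^ 2 = 1 := by rcases hε with rfl | rfl <;> norm_num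
    have hAo : Odd A' := by
      have h2 : Odd (A' ^ 2) := by
        have h3 : A' ^ 2 = n ^ 2 - 2 * (ε * B₁ ^ 2) := by linear_combination -e1
        rw [h3]
        exact hno.pow.sub_even (even_two_mul _)
      exact (Int.odd_pow' two_ne_zero).1 h2
    have hAB : IsCoprime A' B₁ := by
      apply cop (by rintro rfl; exact absurd hAo (by decide))
      intro p hp h2 h3
      have h4 : p ∣ n ^ 2 := by
        rw [e1]
        exact dvd_add (dvd_pow h2 two_ne_zero) (dvd_mul_of_dvd_right (dvd_pow h3 two_ne_zero) _)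
      have h5 : p ∣ d ^ 2 := by
        rw [e2]
        exact dvd_sub (dvd_pow h2 two_ne_zero) (dvd_mul_of_dvd_right (dvd_pow h3 two_ne_zero) _)
      exact cop_false hnd hp (hp.dvd_of_dvd_pow h4) (hp.dvd_of_dvd_pow h5)
    have h2 := fermat_sub_four hAB hAo (z := n * d) (by
      rw [mul_pow, e1, e2]
      linear_combination (4 * B₁ ^ 4) * hε2)
    apply hne
    rw [hB, h2]
    ring
  · -- `A⁴ - B⁴ = (n d)²`
    have h1 : (2 : ℤ) ∣ n ^ 2 + d ^ 2 := ⟨A' ^ 2, hA⟩
    have e1 : n ^ 2 = A' ^ 2 + ε * B' ^ 2 := by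
      have : 2 * n ^ 2 = 2 * (A' ^ 2 + ε * B' ^ 2) := by linear_combination hA + hB
      linarith
    have e2 : d ^ 2 = A' ^ 2 - ε * B' ^ 2 := by
      have : 2 * d ^ 2 = 2 * (A' ^ 2 - ε * B' ^ 2) := by linear_combination hA - hB
      linarith
    have hε2 : ε ^ 2 = 1 := by rcases hε with rfl | rfl <;> norm_num
    have hA0 : A' ≠ 0 := by
      rintro rfl
      rw [hA] at hu
      norm_num at hu
    have hAB : IsCoprime A' B' := by
      apply cop hA0
      intro p hp h2 h3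
      have h4 : p ∣ n ^ 2 := by
        rw [e1]
        exact dvd_add (dvd_pow h2 two_ne_zero) (dvd_mul_of_dvd_right (dvd_pow h3 two_ne_zero) _)
      have h5 : p ∣ d ^ 2 := by
        rw [e2]
        exact dvd_sub (dvd_pow h2 two_ne_zero) (dvd_mul_of_dvd_right (dvd_pow h3 two_ne_zero) _)
      exact cop_false hnd hp (hp.dvd_of_dvd_pow h4) (hp.dvd_of_dvd_pow h5)
    rcases fermat_sub _ rfl hAB (z := n * d) (by
      rw [mul_pow, e1, e2]
      linear_combination (B' ^ 4) * hε2) with h2 | h2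
    · apply hne
      rw [hB, h2]
      ring
    · exact mul_ne_zero hn hd h2

/-- The rational points of `X₁(16)`. -/
theorem rat_form {r w : ℚ} (h : (r ^ 2 - 1) * (r ^ 2 + 1) * (r ^ 2 + 2 * r - 1) = w ^ 2) :
    r = 0 ∨ r ^ 2 = 1 := by
  by_contra hcon
  push Not at hcon
  obtain ⟨hr0, hr1⟩ := hcon
  have hD : (r.den : ℤ) ≠ 0 := by exact_mod_cast r.den_pos.ne'
  have hD0 : (r.den : ℚ) ≠ 0 := by exact_mod_cast r.den_pos.ne'
  have hh : r * r.den = r.num := Rat.mul_den_eq_num r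
  have hsq : IsSquare ((((r.num ^ 2 - (r.den : ℤ) ^ 2) * (r.num ^ 2 + (r.den : ℤ) ^ 2) *
      (r.num ^ 2 + 2 * r.num * (r.den : ℤ) - (r.den : ℤ) ^ 2) : ℤ)) : ℚ) := by
    refine ⟨w * (r.den : ℚ) ^ 3, ?_⟩
    push_cast
    rw [← hh]
    linear_combination (r.den : ℚ) ^ 6 * h
  rw [Rat.isSquare_intCast_iff] at hsq
  obtain ⟨k, hk⟩ := hsq
  have hcop : IsCoprime r.num (r.den : ℤ) := by
    rw [Int.isCoprime_iff_gcd_eq_one]
    exact r.reduced
  refine int_form hcop hD (fun h1 => hr0 (Rat.num_eq_zero.1 h1)) ?_ (W := k) (by rw [hk, sq])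
  intro h1
  apply hr1
  have h2 : ((r.num : ℤ) : ℚ) ^ 2 - (r.den : ℚ) ^ 2 = 0 := by exact_mod_cast h1
  rw [← hh] at h2
  have h3 : (r ^ 2 - 1) * (r.den : ℚ) ^ 2 = 0 := by linear_combination h2
  rcases mul_eq_zero.1 h3 with h4 | h4
  · linarith
  · exact absurd h4 (pow_ne_zero 2 hD0)

theorem alg_sign {r S : ℚ} (hS : S ≠ 0) (hr1 : r ^ 2 ≠ 1)
    (h : r * (S ^ 2 + 1) = (2 * r ^ 3 + r ^ 4 - 1) * S) : r = 0 := by
  have hr : r + 1 ≠ 0 := by
    intro h1
    apply hr1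
    have : r = -1 := by linarith
    rw [this]
    norm_num
  have h1 := rat_form (r := r) (w := r * (S ^ 2 - 1) / (S * (r + 1))) (by
    rw [div_pow, eq_div_iff (pow_ne_zero 2 (mul_ne_zero hS hr))]
    have e : (r * (S ^ 2 - 1)) ^ 2 = (r * (S ^ 2 + 1)) ^ 2 - 4 * r ^ 2 * S ^ 2 := by ring
    rw [e, h]
    ring)
  exact h1.resolve_right hr1

/-- The algebra of a tower of three halvings. -/
theorem alg {α X4 X2 X1 Y2 Y1 : ℚ} (h2 : Y2 ^ 2 = 4 * X2 * (X2 ^ 2 + α * X2 + X4 ^ 2))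
    (h1 : Y1 ^ 2 = 4 * X1 * (X1 ^ 2 + α * X1 + X4 ^ 2)) (d4 : X4 * Y2 ^ 2 = (X2 ^ 2 - X4 ^ 2) ^ 2)
    (d2 : X2 * Y1 ^ 2 = (X1 ^ 2 - X4 ^ 2) ^ 2) (hY2 : Y2 ≠ 0) (hY1 : Y1 ≠ 0) (hX4 : X4 ≠ 0)
    (hX2 : X2 ≠ 0) (hX1 : X1 ≠ 0) (h24 : X2 ≠ X4) : False := by
  obtain ⟨u, hu⟩ : ∃ u, u = (X2 ^ 2 - X4 ^ 2) / Y2 := ⟨_, rfl⟩
  obtain ⟨r, hr⟩ : ∃ r, r = (X1 ^ 2 - X4 ^ 2) / Y1 := ⟨_, rfl⟩
  have hu2 : X4 = u ^ 2 := by
    rw [hu, div_pow, ← d4]
    field_simp
  have hr2 : X2 = r ^ 2 := by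
    rw [hr, div_pow, ← d2]
    field_simp
  subst hu2 hr2
  have hu0 : u ≠ 0 := by
    rintro rfl
    exact hX4 (by norm_num)
  have hr0 : r ≠ 0 := by
    rintro rfl
    exact hX2 (by norm_num)
  have E1 : ((r ^ 2) ^ 2 - (u ^ 2) ^ 2) ^ 2 =
      u ^ 2 * (4 * r ^ 2 * ((r ^ 2) ^ 2 + α * r ^ 2 + (u ^ 2) ^ 2)) := by
    rw [← h2, ← d4]
  have E2 : (X1 ^ 2 - (u ^ 2) ^ 2) ^ 2 =
      r ^ 2 * (4 * X1 * (X1 ^ 2 + α * X1 + (u ^ 2) ^ 2)) := by
    rw [← h1, ← d2]
  have hur : r ^ 2 ≠ u ^ 2 := h24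
  obtain ⟨ρ, hρ⟩ : ∃ ρ, ρ = r / u := ⟨_, rfl⟩
  obtain ⟨S, hS⟩ : ∃ S, S = X1 / u ^ 2 := ⟨_, rfl⟩
  have hr' : r = ρ * u := by rw [hρ]; field_simp
  have hX1' : X1 = S * u ^ 2 := by rw [hS]; field_simp
  have hρ0 : ρ ≠ 0 := by
    rintro rfl
    exact hr0 (by rw [hr', zero_mul])
  have hS0 : S ≠ 0 := by
    rintro rfl
    exact hX1 (by rw [hX1', zero_mul])
  have hρ1 : ρ ^ 2 ≠ 1 := by
    intro h
    apply hur
    rw [hr', mul_pow, h, one_mul]
  have E3 : (ρ * (S ^ 2 + 1) - 2 * ρ ^ 3 * S) ^ 2 = ((ρ ^ 4 - 1) * S) ^ 2 := by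
    rw [hr', hX1'] at E2
    rw [hr'] at E1
    have h3 : u ^ 10 ≠ 0 := pow_ne_zero 10 hu0
    apply mul_left_cancel₀ h3
    linear_combination (u ^ 2 * ρ ^ 2) * E2 - (u ^ 2 * S ^ 2) * E1
  rcases sq_eq_sq_iff_eq_or_eq_neg.1 E3 with h3 | h3
  · exact hρ0 (alg_sign hS0 hρ1 (by linear_combination h3))
  · have h4 := alg_sign (r := -ρ) hS0 (by rwa [neg_sq]) (by linear_combination -h3)
    exact hρ0 (neg_eq_zero.1 h4)

open WeierstrassCurve WeierstrassCurve.Affine WeierstrassCurve.Affine.Point Fermat.Agent.H51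

variable {E : WeierstrassCurve.Affine ℚ}

/-- The duplication formula, relative to a point of order two. -/
theorem dup {S : E.Point} (hS : S ≠ 0) (h2 : (2 : ℕ) • S ≠ 0) {t : ℚ}
    (ht : 4 * t ^ 3 + E.b₂ * t ^ 2 + 2 * E.b₄ * t + E.b₆ = 0) :
    (xc ((2 : ℕ) • S) - t) * psi2Sq E (xc S) =
      ((xc S - t) ^ 2 - (3 * t ^ 2 + E.b₂ / 2 * t + E.b₄ / 2)) ^ 2 := by
  have h := xc_two_smul hS h2
  have h8 : 4 * E.b₈ = E.b₂ * E.b₆ - E.b₄ ^ 2 := E.b_relation
  have e : (xc ((2 : ℕ) • S) - t) * psi2Sq E (xc S) =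
      xc ((2 : ℕ) • S) * psi2Sq E (xc S) - t * psi2Sq E (xc S) := by ring
  rw [e, h]
  unfold psi2Sq
  linear_combination (-(2 * xc S) - t - E.b₂ / 4) * ht - (1 / 4) * h8

theorem psi_eq {x t : ℚ} (ht : 4 * t ^ 3 + E.b₂ * t ^ 2 + 2 * E.b₄ * t + E.b₆ = 0) :
    psi2Sq E x = 4 * (x - t) * ((x - t) ^ 2 + (3 * t + E.b₂ / 4) * (x - t) +
      (3 * t ^ 2 + E.b₂ / 2 * t + E.b₄ / 2)) := by
  unfold psi2Sq
  linear_combination ht

theorem psi_sq {P : E.Point} (hP : P ≠ 0) : ∃ y : ℚ, psi2Sq E (xc P) = y ^ 2 := by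
  rcases P with _ | ⟨x, y, h⟩
  · exact absurd rfl hP
  · exact ⟨2 * y + E.a₁ * x + E.a₃, (equation_sq h.1).symm⟩

/-- **No elliptic curve over `ℚ` has a rational point of order `16`.** -/
theorem addOrderOf_ne_sixteen (Q : E.Point) : addOrderOf Q ≠ 16 := by
  intro hQ
  have h16 : (16 : ℕ) • Q = 0 := by rw [← hQ]; exact addOrderOf_nsmul_eq_zero Q
  have hne : ∀ m : ℕ, ¬ 16 ∣ m → m • Q ≠ 0 := by
    intro m hm h0
    rw [← hQ] at hm
    exact hm (addOrderOf_dvd_iff_nsmul_eq_zero.2 h0)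
  have hdist : ∀ m n : ℕ, ¬ 16 ∣ m → ¬ 16 ∣ n → ¬ 16 ∣ m + n → m % 16 ≠ n % 16 →
      xc (m • Q) ≠ xc (n • Q) := by
    intro m n hm hn h1 h2 h3
    rcases (xc_eq_iff (hne m hm) (hne n hn)).1 h3 with h4 | h4
    · apply h2
      have := (nsmul_eq_nsmul_iff_modEq (x := Q) (m := n) (n := m)).1 h4
      rw [hQ] at this
      exact this
    · rw [eq_neg_iff_add_eq_zero, ← add_nsmul] at h4
      exact hne (m + n) h1 h4
  have e8 : (2 : ℕ) • ((4 : ℕ) • Q) = (8 : ℕ) • Q := by rw [← mul_nsmul]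
  have e4 : (2 : ℕ) • ((2 : ℕ) • Q) = (4 : ℕ) • Q := by rw [← mul_nsmul]
  have ht : 4 * xc ((8 : ℕ) • Q) ^ 3 + E.b₂ * xc ((8 : ℕ) • Q) ^ 2 +
      2 * E.b₄ * xc ((8 : ℕ) • Q) + E.b₆ = 0 :=
    root_of_order_two (hne 8 (by norm_num)) (by rw [← mul_nsmul]; exact h16)
  have d8 := dup (S := (4 : ℕ) • Q) (hne 4 (by norm_num)) (by rw [e8]; exact hne 8 (by norm_num)) ht
  have d4 := dup (S := (2 : ℕ) • Q) (hne 2 (by norm_num)) (by rw [e4]; exact hne 4 (by norm_num)) ht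
  have d2 := dup (S := Q) (by simpa using hne 1 (by norm_num)) (hne 2 (by norm_num)) ht
  rw [e8, sub_self, zero_mul] at d8
  rw [e4] at d4
  obtain ⟨y2, hy2⟩ := psi_sq (hne 2 (by norm_num))
  have hQ0 : Q ≠ 0 := by simpa using hne 1 (by norm_num)
  obtain ⟨y1, hy1⟩ := psi_sq hQ0
  have hy2' : y2 ≠ 0 := by
    rintro rfl
    apply hne 4 (by norm_num)
    rw [← e4]
    exact (two_smul_eq_zero_iff (hne 2 (by norm_num))).2 (by rw [hy2]; norm_num)
  have hy1' : y1 ≠ 0 := by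
    rintro rfl
    exact hne 2 (by norm_num) ((two_smul_eq_zero_iff hQ0).2 (by rw [hy1]; norm_num))
  have p2 := psi_eq (x := xc ((2 : ℕ) • Q)) ht
  have p1 := psi_eq (x := xc Q) ht
  have n48 := hdist 4 8 (by norm_num) (by norm_num) (by norm_num) (by norm_num)
  have n28 := hdist 2 8 (by norm_num) (by norm_num) (by norm_num) (by norm_num)
  have n18 := hdist 1 8 (by norm_num) (by norm_num) (by norm_num) (by norm_num)
  have n24 := hdist 2 4 (by norm_num) (by norm_num) (by norm_num) (by norm_num)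
  rw [one_nsmul] at n18
  rw [hy2] at d4 p2
  rw [hy1] at d2 p1
  generalize xc ((8 : ℕ) • Q) = t at *
  generalize xc ((4 : ℕ) • Q) = x4 at *
  generalize xc ((2 : ℕ) • Q) = x2 at *
  generalize xc Q = x1 at *
  have hκ : 3 * t ^ 2 + E.b₂ / 2 * t + E.b₄ / 2 = (x4 - t) ^ 2 := by
    have := pow_eq_zero_iff (n := 2) (by norm_num) |>.1 d8.symm
    linarith
  rw [hκ] at d4 d2 p2 p1
  exact alg p2 p1 d4 d2 hy2' hy1' (sub_ne_zero.2 n48) (sub_ne_zero.2 n28) (sub_ne_zero.2 n18)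
    (fun h => n24 (by linarith))

end Fermat.Agent.Cor.Ord16
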