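import Mathlib
import Fermat.Agent.Cor.Ord16

/-!
# The equation `x ^ 4 + 2 ^ k y ^ 4 = z ^ 4`

* `sub_two`: `z ^ 4 - x ^ 4 = 2 v ^ 2` with `z`, `x` coprime only for `v = 0` (Euler);
* `fourth_two_pow`: for every `k ≥ 0` the equation `x ^ 4 + 2 ^ k y ^ 4 = z ^ 4` has no integral
  solution with `x y ≠ 0`.

This file is not used by any of the statement files.
-/

set_option autoImplicit false

namespace Fermat.Agent.Cor.FourthPow

/-- `z ^ 4 - x ^ 4 = 2 v ^ 2` -/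
theorem sub_two {z x v : ℤ} (hzx : IsCoprime z x) (h : z ^ 4 - x ^ 4 = 2 * v ^ 2) : v = 0 := by
  have hpar : Odd z ∧ Odd x := by
    have hev : Even (z ^ 4 - x ^ 4) := by rw [h]; exact even_two_mul _
    rw [Int.even_sub, Int.even_pow, Int.even_pow] at hev
    by_cases hz : Even z
    · exfalso
      have hx : Even x := (hev.mp ⟨hz, by norm_num⟩).1
      have := hzx.isUnit_of_dvd' hz.two_dvd hx.two_dvd
      exact absurd (Int.isUnit_iff.mp this) (by norm_num)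
    · refine ⟨Int.not_even_iff_odd.mp hz, ?_⟩
      by_contra hx
      rw [Int.not_odd_iff_even] at hx
      exact hz (hev.mpr ⟨hx, by norm_num⟩).1
  obtain ⟨⟨i, hi⟩, j, hj⟩ := hpar
  obtain ⟨A, hA⟩ : ∃ A, A = 2 * (i ^ 2 + i + j ^ 2 + j) + 1 := ⟨_, rfl⟩
  obtain ⟨D, hD⟩ : ∃ D, D = 2 * (i ^ 2 + i - j ^ 2 - j) := ⟨_, rfl⟩
  have hz2 : z ^ 2 = A + D := by rw [hi, hA, hD]; ring
  have hx2 : x ^ 2 = A - D := by rw [hj, hA, hD]; ring
  have hAD : A * (2 * D) = v ^ 2 := by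
    have e : z ^ 4 - x ^ 4 = (z ^ 2) ^ 2 - (x ^ 2) ^ 2 := by ring
    rw [e, hz2, hx2] at h
    apply mul_left_cancel₀ (two_ne_zero (α := ℤ))
    linear_combination h
  have hcop : IsCoprime A (2 * D) := by
    refine isCoprime_of_prime_dvd (fun h0 => by omega) fun q hq h4 h5 => ?_
    rcases hq.dvd_or_dvd h5 with h6 | h6
    · have h7 : Associated q 2 := hq.irreducible.associated_of_dvd Int.prime_two.irreducible h6
      have h8 : (2 : ℤ) ∣ A := h7.symm.dvd.trans h4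
      omega
    · have h7 : q ∣ z := hq.dvd_of_dvd_pow (n := 2) (by rw [hz2]; exact dvd_add h4 h6)
      have h8 : q ∣ x := hq.dvd_of_dvd_pow (n := 2) (by rw [hx2]; exact dvd_sub h4 h6)
      exact hq.not_isUnit (hzx.isUnit_of_dvd' h7 h8)
  have hApos : 0 < A := by
    have h1 := sq_nonneg z
    have h2 := sq_nonneg x
    omega
  obtain ⟨a, ha | ha⟩ := Int.sq_of_isCoprime hcop hAD
  swap
  · exfalso
    have := sq_nonneg a
    omega
  obtain ⟨e, he | he⟩ := Int.sq_of_isCoprime hcop.symm (by rw [mul_comm]; exact hAD)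
  swap
  · -- `2 D = - e ^ 2`, the product is nonpositive
    have h1 : v ^ 2 ≤ 0 := by
      rw [← hAD, he]
      nlinarith [mul_nonneg hApos.le (sq_nonneg e)]
    exact pow_eq_zero_iff two_ne_zero |>.mp (le_antisymm h1 (sq_nonneg v))
  -- `e = 2 c`
  have hee : Even e := by
    have : Even (e ^ 2) := by rw [← he]; exact even_two_mul D
    rw [Int.even_pow] at this
    exact this.1
  obtain ⟨c, hc⟩ := hee.two_dvd
  have hDc : D = 2 * c ^ 2 := by
    rw [hc] at he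
    linarith [he, show (2 * c) ^ 2 = 4 * c ^ 2 by ring]
  have hac : IsCoprime a c := by
    rw [ha, hDc] at hcop
    have h1 := (IsCoprime.pow_left_iff (by norm_num)).mp hcop
    have e2 : 2 * (2 * c ^ 2) = c * (4 * c) := by ring
    rw [e2] at h1
    exact h1.of_mul_right_left
  have hao : Odd a := by
    have h1 : Odd (a ^ 2) := by rw [← ha, hA]; exact odd_two_mul_add_one _
    rcases Int.even_or_odd a with h2 | h2
    · exact absurd h1 (Int.not_odd_iff_even.mpr (h2.pow_of_ne_zero two_ne_zero))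
    · exact h2
  have hfour : a ^ 4 - 4 * c ^ 4 = (x * z) ^ 2 := by
    have e3 : (x * z) ^ 2 = x ^ 2 * z ^ 2 := by ring
    rw [e3, hz2, hx2, hDc, ha]
    ring
  have hc0 := Ord16.fermat_sub_four hac hao hfour
  rw [hDc, hc0] at hAD
  have h1 : v ^ 2 = 0 := by rw [← hAD]; ring
  exact pow_eq_zero_iff two_ne_zero |>.mp h1

/-- **`x ^ 4 + 2 ^ k y ^ 4 = z ^ 4`** has no integral solution with `x y ≠ 0`. -/
theorem fourth_two_pow (k : ℕ) {x y z : ℤ} (hx : x ≠ 0) (hy : y ≠ 0) :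
    x ^ 4 + 2 ^ k * y ^ 4 ≠ z ^ 4 := by
  intro h
  have hg : 0 < Int.gcd z x := Int.gcd_pos_of_ne_zero_right z hx
  obtain ⟨z', x', hcop, hz, hx'⟩ := Int.exists_gcd_one hg
  generalize hgg : Int.gcd z x = g at *
  have hcop' : IsCoprime z' x' := Int.isCoprime_iff_gcd_eq_one.mpr hcop
  have hg0 : (g : ℤ) ≠ 0 := by exact_mod_cast hg.ne'
  have hg2 : (g : ℤ) ^ 2 ≠ 0 := pow_ne_zero 2 hg0
  have hx'0 : x' ≠ 0 := by rintro rfl; rw [zero_mul] at hx'; exact hx hx'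
  have hmain : ((g : ℤ) ^ 2) ^ 2 * (z' ^ 4 - x' ^ 4) = 2 ^ k * y ^ 4 := by
    rw [hz, hx'] at h
    linear_combination -h
  have hN0 : z' ^ 4 - x' ^ 4 ≠ 0 := by
    intro h0
    rw [h0, mul_zero] at hmain
    exact mul_ne_zero (pow_ne_zero k two_ne_zero) (pow_ne_zero 4 hy) hmain.symm
  rcases Nat.even_or_odd k with hk | hk
  · obtain ⟨m, rfl⟩ := hk
    have h1 : ((g : ℤ) ^ 2) ^ 2 * (z' ^ 4 - x' ^ 4) = (2 ^ m * y ^ 2) ^ 2 := by
      rw [hmain, pow_add]; ring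
    have h2 : (g : ℤ) ^ 2 ∣ 2 ^ m * y ^ 2 :=
      (Int.pow_dvd_pow_iff two_ne_zero).mp ⟨_, h1.symm⟩
    obtain ⟨u, hu⟩ := h2
    have h3 : z' ^ 4 - x' ^ 4 = u ^ 2 := by
      apply mul_left_cancel₀ (pow_ne_zero 2 hg2)
      rw [h1, hu]; ring
    rcases Ord16.fermat_sub _ rfl hcop' h3 with h4 | h4
    · exact hx'0 h4
    · rw [h4] at h3
      exact hN0 (by rw [h3]; norm_num)
  · obtain ⟨m, rfl⟩ := hk
    have h1 : ((g : ℤ) ^ 2) ^ 2 * (2 * (z' ^ 4 - x' ^ 4)) = (2 * (2 ^ m * y ^ 2)) ^ 2 := by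
      have e : ((g : ℤ) ^ 2) ^ 2 * (2 * (z' ^ 4 - x' ^ 4)) =
        2 * (((g : ℤ) ^ 2) ^ 2 * (z' ^ 4 - x' ^ 4)) := by ring
      rw [e, hmain]; ring
    have h2 : (g : ℤ) ^ 2 ∣ 2 * (2 ^ m * y ^ 2) :=
      (Int.pow_dvd_pow_iff two_ne_zero).mp ⟨_, h1.symm⟩
    obtain ⟨u, hu⟩ := h2
    have h3 : 2 * (z' ^ 4 - x' ^ 4) = u ^ 2 := by
      apply mul_left_cancel₀ (pow_ne_zero 2 hg2)
      rw [h1, hu]; ring
    have hue : Even u := by
      have : Even (u ^ 2) := by rw [← h3]; exact even_two_mul _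
      rw [Int.even_pow] at this
      exact this.1
    obtain ⟨w, hw⟩ := hue.two_dvd
    have h4 : z' ^ 4 - x' ^ 4 = 2 * w ^ 2 := by
      apply mul_left_cancel₀ (two_ne_zero (α := ℤ))
      rw [h3, hw]; ring
    have h5 := sub_two hcop' h4
    rw [h5] at h4
    exact hN0 (by rw [h4]; norm_num)

end Fermat.Agent.Cor.FourthPow
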