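import Fermat.Agent.Cor.H18Ser

/-!
# Serre's equation for `L = 19`

`S₂(Γ₀(38))` has dimension `4`; it is spanned by the two old forms coming from the form of level `19` (`a₃ = -2`) and
by the forms of the elliptic curves 38a (`a₃ = 1`) and 38b (`a₃ = -1`). So `a₃ = -2, 1, -1` for every normalised
eigenform of level `38`, whereas a Frey curve of level `38` modulo `p` has `a₃ ≡ 0` or `± 4`. Hence, by modularity,
level lowering and irreducibility, the equations `x ^ p + y ^ p = 19 ^ α z ^ p` have no solutions in nonzero integers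
for the primes `p ≥ 11`, `p ≠ 13`.

This file is not used by any of the statement files.
-/

set_option autoImplicit false

namespace Fermat.Agent.Cor.H22L19

open ModularCurve ModularFormClass CongruenceSubgroup WeierstrassCurve
open Fermat.Agent.Cor.GenusOne Fermat.Agent.Cor.SmallConductor Fermat.Agent.Cor.EigenTable

/-! ### Level 38 -/

/-- the coefficients `a₉` and `a₂₇` in terms of `a₃` -/
theorem coeff_nine {N : ℕ} [NeZero N] (h3 : ¬ 3 ∣ N) {f : CuspForm (Gamma0 N) 2}
    (hf : f.IsNormalizedEigenform) :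
    qCoeff f 9 = qCoeff f 3 ^ 2 - 3 ∧ qCoeff f 27 = qCoeff f 3 ^ 3 - 6 * qCoeff f 3 := by
  have r9 := hf.qCoeff_prime_pow_of_not_dvd 3 0 (by norm_num) h3
  have r27 := hf.qCoeff_prime_pow_of_not_dvd 3 1 (by norm_num) h3
  simp only [zero_add, pow_one, pow_zero, hf.qCoeff_one, Nat.cast_ofNat, mul_one] at r9 r27
  norm_num at r9 r27
  have e9 : qCoeff f 9 = qCoeff f 3 ^ 2 - 3 := by rw [r9]; ring
  refine ⟨e9, ?_⟩
  rw [r27, e9]
  ring

/-- **Level `38`**: `a₃ = -2`, `1` or `-1` for every normalised eigenform. -/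
theorem a3_thirtyeight {f : CuspForm (Gamma0 38) 2} (hf : f.IsNormalizedEigenform) :
    qCoeff f 3 = -2 ∨ qCoeff f 3 = 1 ∨ qCoeff f 3 = -1 := by
  obtain ⟨h, hh, k⟩ := exists_form E19_Δ (by norm_num) E19_semistable conductorLevel_E19
  obtain ⟨g₁, hg₁, k₁⟩ := exists_form E38a_Δ (by norm_num) E38a_semistable conductorLevel_E38a
  obtain ⟨g₂, hg₂, k₂⟩ := exists_form E38b_Δ (by norm_num) E38b_semistable conductorLevel_E38b
  have h3 := k 3 _ (by norm_num) (by norm_num) E19_a3
  have a3 := k₁ 3 _ (by norm_num) (by norm_num) E38a_a3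
  have b3 := k₂ 3 _ (by norm_num) (by norm_num) E38b_a3
  push_cast at h3 a3 b3
  obtain ⟨h9, h27⟩ := coeff_nine (by norm_num) hh
  obtain ⟨a9, a27⟩ := coeff_nine (by norm_num) hg₁
  obtain ⟨b9, b27⟩ := coeff_nine (by norm_num) hg₂
  obtain ⟨f9, f27⟩ := coeff_nine (by norm_num) hf
  rw [h3] at h9 h27
  rw [a3] at a9 a27
  rw [b3] at b9 b27
  obtain ⟨h₁, e1⟩ : ∃ g : CuspForm (Gamma0 38) 2, ∀ n, qCoeff g n = qCoeff h n :=
    ⟨AL.degen (M := 19) (N := 38) (d := 1) one_pos (by norm_num) 2 h, fun n => by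
      rw [AL.qCoeff_degen, if_pos (one_dvd n), Nat.div_one]⟩
  obtain ⟨h₂, e2⟩ : ∃ g : CuspForm (Gamma0 38) 2,
      ∀ n, qCoeff g n = if 2 ∣ n then qCoeff h (n / 2) else 0 :=
    ⟨AL.degen (M := 19) (N := 38) (d := 2) two_pos (by norm_num) 2 h, AL.qCoeff_degen _ _ _⟩
  obtain ⟨c, hc⟩ := exists_combination (r := 4) (by exact_mod_cast genus_thirtyeight)
    (F := ![h₁, h₂, g₁, g₂]) (by
      intro c hc
      simp only [Fin.sum_univ_four, Matrix.cons_val_zero, Matrix.cons_val_one, Matrix.cons_val] at hc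
      have k1 := hc 1
      rw [e1, e2, if_neg (by norm_num), hh.qCoeff_one, hg₁.qCoeff_one, hg₂.qCoeff_one] at k1
      have k3 := hc 3
      rw [e1, e2, if_neg (by norm_num), h3, a3, b3] at k3
      have k9 := hc 9
      rw [e1, e2, if_neg (by norm_num), h9, a9, b9] at k9
      have c0 : c 0 = 0 := by linear_combination (2 * k1 + k9) / 3
      have c2 : c 2 = 0 := by
        rw [c0] at k1 k3
        linear_combination (k1 + k3) / 2
      have c3 : c 3 = 0 := by
        rw [c0, c2] at k1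
        linear_combination k1
      have k2 := hc 2
      rw [e1, e2, if_pos dvd_rfl, Nat.div_self two_pos, hh.qCoeff_one, c0, c2, c3] at k2
      have c1 : c 1 = 0 := by linear_combination k2
      intro i
      fin_cases i
      · exact c0
      · exact c1
      · exact c2
      · exact c3) f
  simp only [Fin.sum_univ_four, Matrix.cons_val_zero, Matrix.cons_val_one, Matrix.cons_val] at hc
  have k1 := hc 1
  rw [e1, e2, if_neg (by norm_num), hh.qCoeff_one, hg₁.qCoeff_one, hg₂.qCoeff_one,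
    hf.qCoeff_one] at k1
  have k3 := hc 3
  rw [e1, e2, if_neg (by norm_num), h3, a3, b3] at k3
  have k9 := hc 9
  rw [e1, e2, if_neg (by norm_num), h9, a9, b9, f9] at k9
  have k27 := hc 27
  rw [e1, e2, if_neg (by norm_num), h27, a27, b27, f27] at k27
  -- `(a₃ + 2) (a₃ - 1) (a₃ + 1) = 0`
  have key : (qCoeff f 3 + 2) * ((qCoeff f 3 - 1) * (qCoeff f 3 + 1)) = 0 := by
    linear_combination k27 + 2 * k9 + 5 * k3 + 4 * k1
  rcases mul_eq_zero.mp key with h0 | h0
  · left
    linear_combination h0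
  · rcases mul_eq_zero.mp h0 with h0 | h0
    · right; left
      linear_combination h0
    · right; right
      linear_combination h0

/-! ### Serre's equation -/

open Fermat.Agent.Cor.H11 Fermat.Agent.Cor.H18

/-- no Frey curve has level `38` modulo `p` -/
theorem noSol_nineteen_of {p : ℕ} (hp : p.Prime) (hp7 : 7 ≤ p) (hirr : IrrAB p) : NoSol p 19 := by
  refine noSol_of_three hp (by omega) (by norm_num) (by norm_num) hirr fun f hf => ?_
  have key : ∀ m : ℤ, m ≠ 0 → m.natAbs < 7 → ¬ (p : ℤ) ∣ m := fun m h1 h2 =>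
    not_dvd_of_abs h1 (h2.trans_le hp7)
  rcases a3_thirtyeight (f := f) hf with h | h | h
  · exact ⟨-2, by rw [h]; norm_num, key _ (by norm_num) (by norm_num),
      key _ (by norm_num) (by norm_num), key _ (by norm_num) (by norm_num)⟩
  · exact ⟨1, by rw [h]; norm_num, key _ (by norm_num) (by norm_num),
      key _ (by norm_num) (by norm_num), key _ (by norm_num) (by norm_num)⟩
  · exact ⟨-1, by rw [h]; norm_num, key _ (by norm_num) (by norm_num),
      key _ (by norm_num) (by norm_num), key _ (by norm_num) (by norm_num)⟩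

theorem noSol_nineteen {p : ℕ} (hp : p.Prime) (h : 11 ≤ p) (h13 : p ≠ 13) : NoSol p 19 :=
  noSol_nineteen_of hp (by omega) (irrAB_of hp (Or.inr ⟨h, h13⟩))

/-- **Serre's theorem for `L = 19`**, symmetric form: let `p ≥ 11` be a prime, `p ≠ 13` (the case `p = L = 19` is
included). Then `19 ^ α x ^ p + 19 ^ β y ^ p + 19 ^ γ z ^ p = 0` has no solutions in nonzero integers. -/
theorem serre_nineteen_symmetric {p : ℕ} (hp : p.Prime) (h : 11 ≤ p) (h13 : p ≠ 13) (α β γ : ℕ)
    {x y z : ℤ} (hx : x ≠ 0) (hy : y ≠ 0) (hz : z ≠ 0) :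
    (19 : ℤ) ^ α * x ^ p + 19 ^ β * y ^ p + 19 ^ γ * z ^ p ≠ 0 := by
  have := serre_sym (by omega) (by norm_num) (by norm_num) (noSol_nineteen hp h h13) α β γ hx hy hz
  exact_mod_cast this

/-- **Serre's theorem for `L = 19`.** Let `p ≥ 11` be a prime, `p ≠ 13`. Then `x ^ p + y ^ p = 19 ^ α z ^ p` has no
solutions in nonzero integers. -/
theorem serre_nineteen {p : ℕ} (hp : p.Prime) (h : 11 ≤ p) (h13 : p ≠ 13) (α : ℕ)
    {x y z : ℤ} (hx : x ≠ 0) (hy : y ≠ 0) (hz : z ≠ 0) :
    x ^ p + y ^ p ≠ 19 ^ α * z ^ p := by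
  have := serre_eq hp (by omega) (by norm_num) (by norm_num) (noSol_nineteen hp h h13) α hx hy hz
  exact_mod_cast this

end Fermat.Agent.Cor.H22L19
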