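import Fermat.Agent.Cor.H18New
import Fermat.Agent.Cor.H22Nineteen

/-!
# Serre's list

Serre (Sur les représentations modulaires de degré `2` de `Gal(ℚ̄/ℚ)`, Duke Math. J. 54 (1987), § 4.3) deduced from his
conjectures that the equation `x ^ p + y ^ p = L ^ α z ^ p` has no solutions in nonzero integers for a prime `p ≥ 11` and
a prime `L ≠ p` in the list `3, 5, 7, 11, 13, 17, 19, 23, 29, 53, 59`. We prove this for all primes `p ≥ 11`, `p ≠ 13`
(the case `p = L` is included) (`serre_list`).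

The numbers of newforms of levels `34, 46, 58, 106, 118` are `1, 1, 2, 4, 4`, and they come from elliptic curves.

This file is not used by any of the statement files.
-/

set_option autoImplicit false

namespace Fermat.Agent.Cor.H18

open WeierstrassCurve ModularCurve Fermat.Agent.Cor.H11 Fermat.Agent.Cor.GenusOne
open Fermat.Agent.Cor.NewformCount Fermat.Agent.Cor.EigenTable CongruenceSubgroup
open ModularFormClass (qCoeff)

/-! ### the curves -/

/-- conductor `46` -/
def E46 : WeierstrassCurve ℤ := ⟨1, -1, 0, -10, -12⟩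
/-- conductor `58` -/
def E58a : WeierstrassCurve ℤ := ⟨1, -1, 0, -1, 1⟩
/-- conductor `58` -/
def E58b : WeierstrassCurve ℤ := ⟨1, 1, 1, 5, 9⟩
/-- conductor `106` -/
def E106a : WeierstrassCurve ℤ := ⟨1, 0, 0, 1, 1⟩
/-- conductor `106` -/
def E106b : WeierstrassCurve ℤ := ⟨1, 1, 0, -7, 5⟩
/-- conductor `106` -/
def E106c : WeierstrassCurve ℤ := ⟨1, 0, 0, -283, -2351⟩
/-- conductor `106` -/
def E106d : WeierstrassCurve ℤ := ⟨1, 1, 0, -27, -67⟩
/-- conductor `118` -/
def E118a : WeierstrassCurve ℤ := ⟨1, 1, 0, 1, 1⟩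
/-- conductor `118` -/
def E118b : WeierstrassCurve ℤ := ⟨1, 1, 1, -25, 39⟩
/-- conductor `118` -/
def E118c : WeierstrassCurve ℤ := ⟨1, 1, 0, 56, -192⟩
/-- conductor `118` -/
def E118d : WeierstrassCurve ℤ := ⟨1, 1, 1, -4, -5⟩

theorem E46_Δ : E46.Δ = -23552 := by norm_num [E46, WeierstrassCurve.Δ, b₂, b₄, b₆, b₈]
theorem E58a_Δ : E58a.Δ = -116 := by norm_num [E58a, WeierstrassCurve.Δ, b₂, b₄, b₆, b₈]
theorem E58b_Δ : E58b.Δ = -29696 := by norm_num [E58b, WeierstrassCurve.Δ, b₂, b₄, b₆, b₈]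
theorem E106a_Δ : E106a.Δ = -424 := by norm_num [E106a, WeierstrassCurve.Δ, b₂, b₄, b₆, b₈]
theorem E106b_Δ : E106b.Δ = -848 := by norm_num [E106b, WeierstrassCurve.Δ, b₂, b₄, b₆, b₈]
theorem E106c_Δ : E106c.Δ = -889192448 := by
  norm_num [E106c, WeierstrassCurve.Δ, b₂, b₄, b₆, b₈]
theorem E106d_Δ : E106d.Δ = -1696 := by norm_num [E106d, WeierstrassCurve.Δ, b₂, b₄, b₆, b₈]
theorem E118a_Δ : E118a.Δ = -236 := by norm_num [E118a, WeierstrassCurve.Δ, b₂, b₄, b₆, b₈]
theorem E118b_Δ : E118b.Δ = -60416 := by norm_num [E118b, WeierstrassCurve.Δ, b₂, b₄, b₆, b₈]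
theorem E118c_Δ : E118c.Δ = -30932992 := by
  norm_num [E118c, WeierstrassCurve.Δ, b₂, b₄, b₆, b₈]
theorem E118d_Δ : E118d.Δ = -118 := by norm_num [E118d, WeierstrassCurve.Δ, b₂, b₄, b₆, b₈]

theorem E46_c₄ : E46.c₄ = 489 := by norm_num [E46, WeierstrassCurve.c₄, b₂, b₄]
theorem E58a_c₄ : E58a.c₄ = 57 := by norm_num [E58a, WeierstrassCurve.c₄, b₂, b₄]
theorem E58b_c₄ : E58b.c₄ = -239 := by norm_num [E58b, WeierstrassCurve.c₄, b₂, b₄]
theorem E106a_c₄ : E106a.c₄ = -47 := by norm_num [E106a, WeierstrassCurve.c₄, b₂, b₄]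
theorem E106b_c₄ : E106b.c₄ = 361 := by norm_num [E106b, WeierstrassCurve.c₄, b₂, b₄]
theorem E106c_c₄ : E106c.c₄ = 13585 := by norm_num [E106c, WeierstrassCurve.c₄, b₂, b₄]
theorem E106d_c₄ : E106d.c₄ = 1321 := by norm_num [E106d, WeierstrassCurve.c₄, b₂, b₄]
theorem E118a_c₄ : E118a.c₄ = -23 := by norm_num [E118a, WeierstrassCurve.c₄, b₂, b₄]
theorem E118b_c₄ : E118b.c₄ = 1201 := by norm_num [E118b, WeierstrassCurve.c₄, b₂, b₄]
theorem E118c_c₄ : E118c.c₄ = -2663 := by norm_num [E118c, WeierstrassCurve.c₄, b₂, b₄]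
theorem E118d_c₄ : E118d.c₄ = 193 := by norm_num [E118d, WeierstrassCurve.c₄, b₂, b₄]

/-- a curve with the given discriminant, `c₄` and conductor -/
theorem data_of {W : WeierstrassCurve ℤ} {D c : ℤ} (hD : W.Δ = D) (hc : W.c₄ = c) (N : ℕ)
    (hD0 : D ≠ 0) (hg : Int.gcd D c = 1) (hN : ∏ q ∈ D.natAbs.primeFactors, q = N) :
    W.Δ ≠ 0 ∧ W.IsSemistableModel ∧ W.conductorLevel = N := by
  have h0 : W.Δ ≠ 0 := by rw [hD]; exact hD0
  refine ⟨h0, isSemistableModel_of_gcd (by rw [hD, hc]; exact hg), ?_⟩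
  rw [conductorLevel_eq _ h0, hD]
  exact hN

theorem E46_data : E46.Δ ≠ 0 ∧ E46.IsSemistableModel ∧ E46.conductorLevel = 46 :=
  data_of E46_Δ E46_c₄ 46 (by norm_num) (by decide +kernel) (by decide +kernel)
theorem E58a_data : E58a.Δ ≠ 0 ∧ E58a.IsSemistableModel ∧ E58a.conductorLevel = 58 :=
  data_of E58a_Δ E58a_c₄ 58 (by norm_num) (by decide +kernel) (by decide +kernel)
theorem E58b_data : E58b.Δ ≠ 0 ∧ E58b.IsSemistableModel ∧ E58b.conductorLevel = 58 :=
  data_of E58b_Δ E58b_c₄ 58 (by norm_num) (by decide +kernel) (by decide +kernel)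
theorem E106a_data : E106a.Δ ≠ 0 ∧ E106a.IsSemistableModel ∧ E106a.conductorLevel = 106 :=
  data_of E106a_Δ E106a_c₄ 106 (by norm_num) (by decide +kernel) (by decide +kernel)
theorem E106b_data : E106b.Δ ≠ 0 ∧ E106b.IsSemistableModel ∧ E106b.conductorLevel = 106 :=
  data_of E106b_Δ E106b_c₄ 106 (by norm_num) (by decide +kernel) (by decide +kernel)
theorem E106c_data : E106c.Δ ≠ 0 ∧ E106c.IsSemistableModel ∧ E106c.conductorLevel = 106 :=
  data_of E106c_Δ E106c_c₄ 106 (by norm_num) (by decide +kernel) (by decide +kernel)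
theorem E106d_data : E106d.Δ ≠ 0 ∧ E106d.IsSemistableModel ∧ E106d.conductorLevel = 106 :=
  data_of E106d_Δ E106d_c₄ 106 (by norm_num) (by decide +kernel) (by decide +kernel)
theorem E118a_data : E118a.Δ ≠ 0 ∧ E118a.IsSemistableModel ∧ E118a.conductorLevel = 118 :=
  data_of E118a_Δ E118a_c₄ 118 (by norm_num) (by decide +kernel) (by decide +kernel)
theorem E118b_data : E118b.Δ ≠ 0 ∧ E118b.IsSemistableModel ∧ E118b.conductorLevel = 118 :=
  data_of E118b_Δ E118b_c₄ 118 (by norm_num) (by decide +kernel) (by decide +kernel)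
theorem E118c_data : E118c.Δ ≠ 0 ∧ E118c.IsSemistableModel ∧ E118c.conductorLevel = 118 :=
  data_of E118c_Δ E118c_c₄ 118 (by norm_num) (by decide +kernel) (by decide +kernel)
theorem E118d_data : E118d.Δ ≠ 0 ∧ E118d.IsSemistableModel ∧ E118d.conductorLevel = 118 :=
  data_of E118d_Δ E118d_c₄ 118 (by norm_num) (by decide +kernel) (by decide +kernel)

theorem E46_a5 : E46.apOfModel 5 = 4 :=
  apOfModel_of_cnt (by norm_num) E46_Δ (by norm_num) (by decide)
theorem E58a_a3 : E58a.apOfModel 3 = -3 :=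
  apOfModel_of_cnt (by norm_num) E58a_Δ (by norm_num) (by decide)
theorem E58b_a3 : E58b.apOfModel 3 = -1 :=
  apOfModel_of_cnt (by norm_num) E58b_Δ (by norm_num) (by decide)
theorem E106a_a3 : E106a.apOfModel 3 = -2 :=
  apOfModel_of_cnt (by norm_num) E106a_Δ (by norm_num) (by decide)
theorem E106b_a3 : E106b.apOfModel 3 = -1 :=
  apOfModel_of_cnt (by norm_num) E106b_Δ (by norm_num) (by decide)
theorem E106c_a3 : E106c.apOfModel 3 = 1 :=
  apOfModel_of_cnt (by norm_num) E106c_Δ (by norm_num) (by decide)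
theorem E106d_a3 : E106d.apOfModel 3 = 2 :=
  apOfModel_of_cnt (by norm_num) E106d_Δ (by norm_num) (by decide)
theorem E118a_a3 : E118a.apOfModel 3 = -1 :=
  apOfModel_of_cnt (by norm_num) E118a_Δ (by norm_num) (by decide)
theorem E118b_a3 : E118b.apOfModel 3 = -1 :=
  apOfModel_of_cnt (by norm_num) E118b_Δ (by norm_num) (by decide)
theorem E118c_a3 : E118c.apOfModel 3 = 2 :=
  apOfModel_of_cnt (by norm_num) E118c_Δ (by norm_num) (by decide)
theorem E118d_a3 : E118d.apOfModel 3 = 2 :=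
  apOfModel_of_cnt (by norm_num) E118d_Δ (by norm_num) (by decide)
theorem E118a_a5 : E118a.apOfModel 5 = -3 :=
  apOfModel_of_cnt (by norm_num) E118a_Δ (by norm_num) (by decide)
theorem E118b_a5 : E118b.apOfModel 5 = 1 :=
  apOfModel_of_cnt (by norm_num) E118b_Δ (by norm_num) (by decide)
theorem E118c_a5 : E118c.apOfModel 5 = 2 :=
  apOfModel_of_cnt (by norm_num) E118c_Δ (by norm_num) (by decide)
theorem E118d_a5 : E118d.apOfModel 5 = -2 :=
  apOfModel_of_cnt (by norm_num) E118d_Δ (by norm_num) (by decide)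

/-! ### the numbers of newforms -/

theorem newformCount_34 : newformCount 34 = 1 := newformCount_eq_of (by decide +kernel)
theorem newformCount_46 : newformCount 46 = 1 := newformCount_eq_of (by decide +kernel)
theorem newformCount_58 : newformCount 58 = 2 := newformCount_eq_of (by decide +kernel)
theorem newformCount_106 : newformCount 106 = 4 := newformCount_eq_of (by decide +kernel)
theorem newformCount_118 : newformCount 118 = 4 := newformCount_eq_of (by decide +kernel)

/-- the newform of level `34` -/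
theorem newform_34 {g : CuspForm (Gamma0 34) 2} (hg : g.IsNewform) : qCoeff g 3 = (-2 : ℤ) := by
  obtain ⟨i, hi⟩ := newform_eq_curve newformCount_34 ![E34]
    (by intro i; fin_cases i; change E34.Δ ≠ 0; rw [E34_Δ]; norm_num)
    (by intro i; fin_cases i; exact E34_semistable)
    (by intro i; fin_cases i; exact conductorLevel_E34)
    (by intro i j hij; exact absurd (Subsingleton.elim i j) hij) hg
  have h := hi 3 (by norm_num) (by norm_num)
  fin_cases i
  exact h.trans (congrArg (fun z : ℤ => (z : ℂ)) E34_a3)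

/-- the newform of level `46` -/
theorem newform_46 {g : CuspForm (Gamma0 46) 2} (hg : g.IsNewform) : qCoeff g 5 = (4 : ℤ) := by
  obtain ⟨i, hi⟩ := newform_eq_curve newformCount_46 ![E46]
    (by intro i; fin_cases i; exact E46_data.1)
    (by intro i; fin_cases i; exact E46_data.2.1)
    (by intro i; fin_cases i; exact E46_data.2.2)
    (by intro i j hij; exact absurd (Subsingleton.elim i j) hij) hg
  have h := hi 5 (by norm_num) (by norm_num)
  fin_cases i
  exact h.trans (congrArg (fun z : ℤ => (z : ℂ)) E46_a5)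

/-- the curves `E i` have different traces at `3` -/
theorem ne_of_a3 {N k : ℕ} (h3 : ¬ 3 ∣ N) (E : Fin k → WeierstrassCurve ℤ) (a : Fin k → ℤ)
    (ha : ∀ i, (E i).apOfModel 3 = a i) (hinj : Function.Injective a) (i j : Fin k) (hij : i ≠ j) :
    ∃ ℓ : ℕ, ℓ.Prime ∧ ¬ ℓ ∣ N ∧ (E i).apOfModel ℓ ≠ (E j).apOfModel ℓ :=
  ⟨3, Nat.prime_three, h3, by rw [ha i, ha j]; exact fun h => hij (hinj h)⟩

/-- the newforms of level `58` -/
theorem newform_58 {g : CuspForm (Gamma0 58) 2} (hg : g.IsNewform) :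
    qCoeff g 3 = (-3 : ℤ) ∨ qCoeff g 3 = (-1 : ℤ) := by
  have ha : ∀ i, ((![E58a, E58b] : Fin 2 → WeierstrassCurve ℤ) i).apOfModel 3 =
      (![-3, -1] : Fin 2 → ℤ) i := by
    intro i
    fin_cases i
    · exact E58a_a3
    · exact E58b_a3
  obtain ⟨i, hi⟩ := newform_eq_curve newformCount_58 ![E58a, E58b]
    (by intro i; fin_cases i; exacts [E58a_data.1, E58b_data.1])
    (by intro i; fin_cases i; exacts [E58a_data.2.1, E58b_data.2.1])
    (by intro i; fin_cases i; exacts [E58a_data.2.2, E58b_data.2.2])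
    (ne_of_a3 (by norm_num) _ _ ha (by decide)) hg
  have h := hi 3 (by norm_num) (by norm_num)
  rw [ha i] at h
  fin_cases i
  · exact Or.inl h
  · exact Or.inr h

/-- the newforms of level `106` -/
theorem newform_106 {g : CuspForm (Gamma0 106) 2} (hg : g.IsNewform) :
    qCoeff g 3 = (-2 : ℤ) ∨ qCoeff g 3 = (-1 : ℤ) ∨ qCoeff g 3 = (1 : ℤ) ∨ qCoeff g 3 = (2 : ℤ) := by
  have ha : ∀ i, ((![E106a, E106b, E106c, E106d] : Fin 4 → WeierstrassCurve ℤ) i).apOfModel 3 =
      (![-2, -1, 1, 2] : Fin 4 → ℤ) i := by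
    intro i
    fin_cases i
    · exact E106a_a3
    · exact E106b_a3
    · exact E106c_a3
    · exact E106d_a3
  obtain ⟨i, hi⟩ := newform_eq_curve newformCount_106 ![E106a, E106b, E106c, E106d]
    (by intro i; fin_cases i; exacts [E106a_data.1, E106b_data.1, E106c_data.1, E106d_data.1])
    (by intro i; fin_cases i
        exacts [E106a_data.2.1, E106b_data.2.1, E106c_data.2.1, E106d_data.2.1])
    (by intro i; fin_cases i
        exacts [E106a_data.2.2, E106b_data.2.2, E106c_data.2.2, E106d_data.2.2])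
    (ne_of_a3 (by norm_num) _ _ ha (by decide)) hg
  have h := hi 3 (by norm_num) (by norm_num)
  rw [ha i] at h
  fin_cases i
  · exact Or.inl h
  · exact Or.inr (Or.inl h)
  · exact Or.inr (Or.inr (Or.inl h))
  · exact Or.inr (Or.inr (Or.inr h))

/-- the newforms of level `118` -/
theorem newform_118 {g : CuspForm (Gamma0 118) 2} (hg : g.IsNewform) :
    qCoeff g 3 = (-1 : ℤ) ∨ qCoeff g 3 = (2 : ℤ) := by
  have ha : ∀ i, ((![E118a, E118b, E118c, E118d] : Fin 4 → WeierstrassCurve ℤ) i).apOfModel 3 =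
      (![-1, -1, 2, 2] : Fin 4 → ℤ) i := by
    intro i
    fin_cases i
    · exact E118a_a3
    · exact E118b_a3
    · exact E118c_a3
    · exact E118d_a3
  have hb : ∀ i, ((![E118a, E118b, E118c, E118d] : Fin 4 → WeierstrassCurve ℤ) i).apOfModel 5 =
      (![-3, 1, 2, -2] : Fin 4 → ℤ) i := by
    intro i
    fin_cases i
    · exact E118a_a5
    · exact E118b_a5
    · exact E118c_a5
    · exact E118d_a5
  have hinj : Function.Injective (![-3, 1, 2, -2] : Fin 4 → ℤ) := by decide
  obtain ⟨i, hi⟩ := newform_eq_curve newformCount_118 ![E118a, E118b, E118c, E118d]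
    (by intro i; fin_cases i; exacts [E118a_data.1, E118b_data.1, E118c_data.1, E118d_data.1])
    (by intro i; fin_cases i
        exacts [E118a_data.2.1, E118b_data.2.1, E118c_data.2.1, E118d_data.2.1])
    (by intro i; fin_cases i
        exacts [E118a_data.2.2, E118b_data.2.2, E118c_data.2.2, E118d_data.2.2])
    (fun i j hij => ⟨5, Nat.prime_five, by norm_num, by
      rw [hb i, hb j]; exact fun h => hij (hinj h)⟩) hg
  have h := hi 3 (by norm_num) (by norm_num)
  rw [ha i] at h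
  fin_cases i
  · exact Or.inl h
  · exact Or.inl h
  · exact Or.inr h
  · exact Or.inr h

/-! ### the equations -/

/-- small integers, given by their absolute values -/
theorem excl_three {p : ℕ} {c : ℤ} (h0 : c ≠ 0) (h4 : c - 4 ≠ 0) (h4' : c + 4 ≠ 0)
    (hc : c.natAbs < p) (hc4 : (c - 4).natAbs < p) (hc4' : (c + 4).natAbs < p) : Excl p 3 c :=
  Or.inl ⟨rfl, not_dvd_of_abs h0 hc, not_dvd_of_abs h4 hc4, not_dvd_of_abs h4' hc4'⟩

theorem noSol_seventeen {p : ℕ} (hp : p.Prime) (hp7 : 7 ≤ p) (H : IrrAB p) : NoSol p 17 :=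
  noSol_of_newforms hp hp7 (by norm_num) (by norm_num) H fun f hf =>
    ⟨3, -2, by norm_num, newform_34 hf, excl_three (by norm_num) (by norm_num) (by norm_num)
      (by norm_num; omega) (by norm_num; omega) (by norm_num; omega)⟩

theorem noSol_twentythree {p : ℕ} (hp : p.Prime) (hp7 : 7 ≤ p) (H : IrrAB p) : NoSol p 23 := by
  refine noSol_of_newforms hp hp7 (by norm_num) (by norm_num) H fun f hf =>
    ⟨5, 4, by norm_num, newform_46 hf, Or.inr ⟨rfl, ?_, ?_, ?_, ?_⟩⟩
  · exact not_dvd_of_abs (by norm_num) (by norm_num; omega)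
  · exact not_dvd_of_abs (by norm_num) (by norm_num; omega)
  · exact not_dvd_of_abs (by norm_num) (by norm_num; omega)
  · intro h
    have h1 : p ∣ 2 * 5 := by
      have := Int.natCast_dvd.mp h
      norm_num at this ⊢
      exact this
    rcases (Nat.Prime.dvd_mul hp).mp h1 with h2 | h2 <;>
      have := Nat.le_of_dvd (by norm_num) h2 <;> omega

theorem noSol_twentynine {p : ℕ} (hp : p.Prime) (hp11 : 11 ≤ p) (H : IrrAB p) : NoSol p 29 := by
  refine noSol_of_newforms hp (by omega) (by norm_num) (by norm_num) H fun f hf => ?_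
  rcases newform_58 hf with h | h
  · exact ⟨3, -3, by norm_num, h, excl_three (by norm_num) (by norm_num) (by norm_num)
      (by norm_num; omega) (by norm_num; omega) (by norm_num; omega)⟩
  · exact ⟨3, -1, by norm_num, h, excl_three (by norm_num) (by norm_num) (by norm_num)
      (by norm_num; omega) (by norm_num; omega) (by norm_num; omega)⟩

theorem noSol_fiftythree {p : ℕ} (hp : p.Prime) (hp7 : 7 ≤ p) (H : IrrAB p) : NoSol p 53 := by
  refine noSol_of_newforms hp hp7 (by norm_num) (by norm_num) H fun f hf => ?_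
  rcases newform_106 hf with h | h | h | h
  · exact ⟨3, -2, by norm_num, h, excl_three (by norm_num) (by norm_num) (by norm_num)
      (by norm_num; omega) (by norm_num; omega) (by norm_num; omega)⟩
  · exact ⟨3, -1, by norm_num, h, excl_three (by norm_num) (by norm_num) (by norm_num)
      (by norm_num; omega) (by norm_num; omega) (by norm_num; omega)⟩
  · exact ⟨3, 1, by norm_num, h, excl_three (by norm_num) (by norm_num) (by norm_num)
      (by norm_num; omega) (by norm_num; omega) (by norm_num; omega)⟩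
  · exact ⟨3, 2, by norm_num, h, excl_three (by norm_num) (by norm_num) (by norm_num)
      (by norm_num; omega) (by norm_num; omega) (by norm_num; omega)⟩

theorem noSol_fiftynine {p : ℕ} (hp : p.Prime) (hp7 : 7 ≤ p) (H : IrrAB p) : NoSol p 59 := by
  refine noSol_of_newforms hp hp7 (by norm_num) (by norm_num) H fun f hf => ?_
  rcases newform_118 hf with h | h
  · exact ⟨3, -1, by norm_num, h, excl_three (by norm_num) (by norm_num) (by norm_num)
      (by norm_num; omega) (by norm_num; omega) (by norm_num; omega)⟩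
  · exact ⟨3, 2, by norm_num, h, excl_three (by norm_num) (by norm_num) (by norm_num)
      (by norm_num; omega) (by norm_num; omega) (by norm_num; omega)⟩

/-- **Serre's list**, symmetric form. Let `p ≥ 11` be a prime, `p ≠ 13`, and
`L ∈ {3, 5, 7, 11, 13, 17, 19, 23, 29, 53, 59}`. Then `L ^ α x ^ p + L ^ β y ^ p + L ^ γ z ^ p = 0` has no solutions in
nonzero integers. -/
theorem serre_list_symmetric {p L : ℕ} (hp : p.Prime) (h : 11 ≤ p) (h13 : p ≠ 13)
    (hL : L ∈ ({3, 5, 7, 11, 13, 17, 19, 23, 29, 53, 59} : Finset ℕ)) (α β γ : ℕ) {x y z : ℤ}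
    (hx : x ≠ 0) (hy : y ≠ 0) (hz : z ≠ 0) :
    (L : ℤ) ^ α * x ^ p + (L : ℤ) ^ β * y ^ p + (L : ℤ) ^ γ * z ^ p ≠ 0 := by
  have H := irrAB_of hp (Or.inr ⟨h, h13⟩)
  have hp5 : 5 ≤ p := by omega
  have hp7 : 7 ≤ p := by omega
  by_cases hL13 : L ∈ ({3, 5, 7, 11, 13} : Finset ℕ)
  · exact serre_symmetric hp h h13 hL13 α β γ hx hy hz
  simp only [Finset.mem_insert, Finset.mem_singleton] at hL hL13
  have hL' : L = 17 ∨ L = 19 ∨ L = 23 ∨ L = 29 ∨ L = 53 ∨ L = 59 := by omega
  rcases hL' with rfl | rfl | rfl | rfl | rfl | rfl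
  · exact serre_sym hp5 (by norm_num) (by norm_num) (noSol_seventeen hp hp7 H) α β γ hx hy hz
  · exact serre_sym hp5 (by norm_num) (by norm_num) (H22L19.noSol_nineteen hp h h13) α β γ hx hy hz
  · exact serre_sym hp5 (by norm_num) (by norm_num) (noSol_twentythree hp hp7 H) α β γ hx hy hz
  · exact serre_sym hp5 (by norm_num) (by norm_num) (noSol_twentynine hp h H) α β γ hx hy hz
  · exact serre_sym hp5 (by norm_num) (by norm_num) (noSol_fiftythree hp hp7 H) α β γ hx hy hz
  · exact serre_sym hp5 (by norm_num) (by norm_num) (noSol_fiftynine hp hp7 H) α β γ hx hy hz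

/-- **Serre's list.** Let `p ≥ 11` be a prime, `p ≠ 13`, and `L ∈ {3, 5, 7, 11, 13, 17, 19, 23, 29, 53, 59}`. Then
`x ^ p + y ^ p = L ^ α z ^ p` has no solutions in nonzero integers. -/
theorem serre_list {p L : ℕ} (hp : p.Prime) (h : 11 ≤ p) (h13 : p ≠ 13)
    (hL : L ∈ ({3, 5, 7, 11, 13, 17, 19, 23, 29, 53, 59} : Finset ℕ)) (α : ℕ) {x y z : ℤ}
    (hx : x ≠ 0) (hy : y ≠ 0) (hz : z ≠ 0) : x ^ p + y ^ p ≠ (L : ℤ) ^ α * z ^ p := by
  intro he
  have hodd : Odd p := hp.odd_of_ne_two (by omega)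
  refine serre_list_symmetric hp h h13 hL 0 0 α hx hy (neg_ne_zero.mpr hz) ?_
  rw [hodd.neg_pow]
  linear_combination he

end Fermat.Agent.Cor.H18
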