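import Fermat.Agent.Cor.H07Kum
import Fermat.Agent.H16.Ram2

/-!
# Ramification at multiplicative primes: the converse

Let `q ≠ p` be a prime of multiplicative reduction of `W` with `p ∤ v_q(Δ)`, `p` odd.  Then `W[p]`
is ramified at `q`.
-/

set_option autoImplicit false
set_option linter.unusedSectionVars false
set_option linter.style.haveILetI false

noncomputable section

namespace Fermat.Agent.Cor.H07

open WeierstrassCurve WeierstrassCurve.Affine WeierstrassCurve.Affine.Point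
open Fermat.Agent.H08 Fermat.Agent.H09

section

universe u

variable {F : Type u} [Field F] [DecidableEq F] {Γ₀ : Type*} [LinearOrderedCommGroupWithZero Γ₀]
  {v : Valuation F Γ₀} {W : WeierstrassCurve.Affine F} {r t α β : F}

/-- the `x`-coordinate on a curve with `a₃ = a₄ = 0` -/
theorem nodeSystem (h3 : W.a₃ = 0) (h4 : W.a₄ = 0) :
    NodeSystem (px : W.Point → F) W.b₂ W.a₆ := by
  have e4 : W.b₄ = 0 := by rw [WeierstrassCurve.b₄, h3, h4]; ring
  have e6 : W.b₆ = 4 * W.a₆ := by rw [WeierstrassCurve.b₆, h3]; ring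
  have e8 : W.b₈ = W.b₂ * W.a₆ := by
    rw [WeierstrassCurve.b₈, WeierstrassCurve.b₂, h3, h4]; ring
  refine ⟨fun P Q hP hQ => px_eq_iff hP hQ, fun P Q hP hQ hPQ => ?_, fun P Q hP hQ hPQ => ?_,
    fun P hP h2P => ?_⟩
  · rw [px_add_sub_sum hP hQ hPQ, e4, e6]; ring
  · rw [px_add_sub_prod hP hQ hPQ, e4, e6, e8]; ring
  · have h := px_double hP h2P
    rw [e4, e6, e8] at h
    linear_combination h

theorem val_b₂_shift (h : NodeData v W r t α β) : v (shiftCurve W r t).b₂ = 1 := by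
  have e : (shiftCurve W r t).b₂ = (β - α) ^ 2 := by
    rw [WeierstrassCurve.b₂]
    linear_combination ((shiftCurve W r t).a₁ - α - β) * h.slopes.sum + 4 * h.slopes.prod
  rw [e, map_pow, h.slopes.diff, one_pow]

/-- the standing hypotheses for the `x`-coordinate on the shifted curve -/
theorem nhyp_of_nodeData (h : NodeData v W r t α β) {p : ℕ} (hp : p.Prime) (hp5 : 5 ≤ p)
    (hvp : v (p : F) = 1) :
    NHyp (px : (shiftCurve W r t).Point → F) (shiftCurve W r t).b₂ (shiftCurve W r t).a₆ v p where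
  K := nodeSystem h.slopes.a₃ h.slopes.a₄
  hp := hp
  hp5 := hp5
  vb := val_b₂_shift h
  vc := h.a₆
  c0 := h.slopes.a₆
  int _ _ hpP := val_px_le_one_of_torsion h.int_shift hpP hvp

theorem nsmul_shiftPt {P : W.Point} {p : ℕ} (hpP : p • P = 0) : p • shiftPt W r t P = 0 := by
  have h4 : shiftHom W r t (p • P) = p • shiftHom W r t P := map_nsmul _ _ _
  rw [hpP, _root_.map_zero] at h4
  exact h4.symm

/-- a `p`-torsion point is never on the antipodal component -/
theorem val_a₆_lt (h : NodeData v W r t α β) {p : ℕ} (hp : p.Prime) (hp5 : 5 ≤ p)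
    (hvp : v (p : F) = 1) {P : W.Point} (hP : P ≠ 0) (hpP : p • P = 0) :
    v (shiftCurve W r t).a₆ < v (px P - r) ^ 2 := by
  have hs : shiftPt W r t P ≠ 0 := fun h' => hP (shiftPt_eq_zero.mp h')
  have h1 := (nhyp_of_nodeData h hp hp5 hvp).val_c_lt hs (nsmul_shiftPt hpP)
  rwa [px_shiftPt hP] at h1

/-- the valuation of the `x`-coordinate of a `p`-torsion point reducing to the node -/
theorem val_node (h : NodeData v W r t α β) {p : ℕ} (hp : p.Prime) (hp5 : 5 ≤ p)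
    (hvp : v (p : F) = 1) {w : F → ℝ} (hw : IsLogVal v w) {P : W.Point} (hP : P ≠ 0)
    (hpP : p • P = 0) (hlt : v (px P - r) < 1) :
    ∃ k : ℤ, p * w (px P - r) = k * w (shiftCurve W r t).a₆ := by
  have hs : shiftPt W r t P ≠ 0 := fun h' => hP (shiftPt_eq_zero.mp h')
  have h1 := (nhyp_of_nodeData h hp hp5 hvp).val_singular hw hs (nsmul_shiftPt hpP)
    (by rwa [px_shiftPt hP])
  rwa [px_shiftPt hP] at h1

end

open Fermat.Agent.CC (Qb GQ)
open Fermat.Agent.H16.Ram Fermat.Agent.Ell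
open WithZero

/-- `W[p]` is ramified at a multiplicative prime `q ≠ p` with `p ∤ v_q(Δ)`, `p ≥ 5`. -/
theorem not_unrAt_of_five_le {W : WeierstrassCurve ℤ} (hΔ : W.Δ ≠ 0) {p : ℕ} (hp : p.Prime)
    (hp5 : 5 ≤ p) {q : ℕ} (hq : q.Prime) (hqp : q ≠ p) (hqΔ : (q : ℤ) ∣ W.Δ)
    (hc : ¬ (q : ℤ) ∣ W.c₄) (hv : ¬ p ∣ padicValInt q W.Δ) : ¬ H12.LL.UnrAt W p q := by
  classical
  intro hun
  haveI := H51.isGalois_Qbar
  obtain ⟨A, hA⟩ := H05.exists_liesOverPrime Qb hq
  obtain ⟨r, t, α, β, h, P, hP, hpP, hlt⟩ := exists_data hΔ hq hqΔ hc hA hp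
  set E : WeierstrassCurve Qb := ((WQ W)⁄Qb) with hE
  have hvp : A.valuation (p : Qb) = 1 := H08.val_natCast_eq_one hq hA fun hd =>
    hqp ((Nat.prime_dvd_prime_iff_eq hq hp).mp hd)
  obtain ⟨w, hw⟩ := exists_isLogVal hq hA
  have va6 : A.valuation (shiftCurve E r t).a₆ = A.valuation (q : Qb) ^ padicValInt q W.Δ := by
    rw [N4.val_a₆_eq_val_Δ h, hE, ← map_WQ, map_Δ]
    exact N4.val_intCast_eq_padicValInt hq hA hΔ
  obtain ⟨k, hk⟩ := val_node h hp hp5 hvp hw hP hpP hlt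
  have hlt2 := val_a₆_lt h hp hp5 hvp hP hpP
  -- `x` is fixed by inertia
  set x : Qb := px P - r with hx
  have hfix : ∀ σ ∈ A.inertiaSubgroupIn ℚ, σ x = x := by
    intro σ hσ
    have h4 := hun A hA σ hσ P hpP
    have h5 : σ (px P) = px P := by rw [← H09.px_smul, h4]
    obtain ⟨h6, -⟩ := node_fixed hσ h
    rw [hx, map_sub, h5, h6]
  have hx0 : x ≠ 0 := by
    intro h0
    rw [h0, _root_.map_zero, zero_pow two_ne_zero] at hlt2
    exact absurd hlt2 (by simp)
  obtain ⟨n, hn⟩ := H12.exists_valuation_eq_zpow hq hA x hx0 hfix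
  have hq0 : (q : Qb) ≠ 0 := by exact_mod_cast hq.ne_zero
  have hwq : 0 < w (q : Qb) := (hw.pos_iff hq0).mp (val_q_lt hA)
  have hwx : w x = n * w (q : Qb) := by
    rw [← hw.zpow hq0]
    exact (hw.eq_iff hx0 (zpow_ne_zero n hq0)).mp (by rw [hn, map_zpow₀])
  have hwc : w (shiftCurve E r t).a₆ = (padicValInt q W.Δ : ℝ) * w (q : Qb) := by
    rw [← hw.pow hq0]
    exact (hw.eq_iff h.slopes.a₆ (pow_ne_zero _ hq0)).mp (by rw [va6, map_pow])
  rw [hwx, hwc] at hk
  have hk2 : (p : ℤ) * n = k * (padicValInt q W.Δ : ℤ) := by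
    have e : ((p : ℝ) * n) * w (q : Qb) = (k * (padicValInt q W.Δ : ℝ)) * w (q : Qb) := by
      rw [mul_assoc, hk, mul_assoc]
    have e2 := mul_right_cancel₀ hwq.ne' e
    exact_mod_cast e2
  -- `0 < n` and `2 n < v_q(Δ)`
  have hn0 : 0 < n := by
    have h1 := (hw.pos_iff hx0).mp hlt
    rw [hwx] at h1
    have h2 : (0 : ℝ) < n := by
      by_contra hc'
      push Not at hc'
      nlinarith
    exact_mod_cast h2
  have hn2 : 2 * n < (padicValInt q W.Δ : ℤ) := by
    rw [← map_pow] at hlt2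
    have h1 := (hw.lt_iff _ _ h.slopes.a₆ (pow_ne_zero 2 hx0)).mp hlt2
    rw [hw.pow hx0, hwx, hwc] at h1
    have h2 : (2 : ℝ) * n < (padicValInt q W.Δ : ℝ) := by
      push_cast at h1
      by_contra hc'
      push Not at hc'
      nlinarith
    exact_mod_cast h2
  -- `p` divides `k`
  have hpk : (p : ℤ) ∣ k := by
    have hpp : Prime (p : ℤ) := Nat.prime_iff_prime_int.mp hp
    have h1 : (p : ℤ) ∣ k * (padicValInt q W.Δ : ℤ) := ⟨n, hk2.symm⟩
    rcases hpp.dvd_or_dvd h1 with h2 | h2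
    · exact h2
    · exact absurd (by exact_mod_cast h2) hv
  obtain ⟨j, rfl⟩ := hpk
  have hpz : (p : ℤ) ≠ 0 := by exact_mod_cast hp.ne_zero
  have hnj : n = j * (padicValInt q W.Δ : ℤ) := by
    have : (p : ℤ) * n = p * (j * (padicValInt q W.Δ : ℤ)) := by rw [hk2]; ring
    exact mul_left_cancel₀ hpz this
  have hN0 : 0 ≤ (padicValInt q W.Δ : ℤ) := Int.natCast_nonneg _
  rcases le_or_gt j 0 with hj | hj
  · nlinarith
  · nlinarith

/-- **`W[p]` is ramified at every multiplicative prime `q ≠ p` with `p ∤ v_q(Δ)`**, `p` odd. -/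
theorem not_unrAt {W : WeierstrassCurve ℤ} (hΔ : W.Δ ≠ 0) {p : ℕ} (hp : p.Prime)
    (hp2 : p ≠ 2) {q : ℕ} (hq : q.Prime) (hqp : q ≠ p) (hqΔ : (q : ℤ) ∣ W.Δ)
    (hc : ¬ (q : ℤ) ∣ W.c₄) (hv : ¬ p ∣ padicValInt q W.Δ) : ¬ H12.LL.UnrAt W p q := by
  by_cases h3 : p = 3
  · subst h3
    exact not_unrAt_three hΔ hq hqp hqΔ hc hv
  · have h5 : 5 ≤ p := by
      have h2 := hp.two_le
      have h4 : p ≠ 4 := by rintro rfl; exact absurd hp (by decide)
      omega
    exact not_unrAt_of_five_le hΔ hp h5 hq hqp hqΔ hc hv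

end Fermat.Agent.Cor.H07
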