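import Fermat.Agent.H24S.LowerSq
import Fermat.Agent.H23.S39.Fin3

/-!
# Ribet's theorem for semistable curves: the level is the product of the ramified primes

Let `W` be a semistable integral Weierstrass model and `p` an odd prime such that `W[p]` is
irreducible.  Then `W[p]` arises from a cusp form of weight two and level `N`, for every `N ≠ 0`
divisible by the primes `q ≠ p` at which `W[p]` is ramified and, if `p ∣ Δ` and `p ∤ v_p(Δ)`, by
`p`.
-/

set_option autoImplicit false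

noncomputable section

namespace Fermat.Agent.Cor.H07

open Fermat.Agent.H12.LL Fermat.Agent.H18O
open WeierstrassCurve

variable {W : WeierstrassCurve ℤ} {p : ℕ} [hp : Fact p.Prime]

omit hp in
/-- `p` divides the valuation at `p` of the discriminant -/
theorem isPeuRamifieeAt_of_dvd (h : p ∣ padicValInt p W.Δ) :
    (W.map (Int.castRingHom ℚ)).IsPeuRamifieeAt p p := by
  unfold IsPeuRamifieeAt
  have h1 : (W.map (Int.castRingHom ℚ)).Δ = ((W.Δ : ℤ) : ℚ) := by
    rw [WeierstrassCurve.map_Δ]; rfl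
  rw [h1, padicValRat.of_int]
  exact_mod_cast h

/-- **Ribet's theorem for semistable curves**, first form. -/
theorem exists_level (hΔ : W.Δ ≠ 0) (hss : W.IsSemistableModel)
    (hirr : W.ModRepIsIrreducible p) (hp2 : p ≠ 2) :
    ∃ N : ℕ, Squarefree N ∧ W.IsResiduallyModularOfLevel p N ∧
      (∀ q : ℕ, q.Prime → q ∣ N → (q : ℤ) ∣ W.Δ) ∧
      (∀ q : ℕ, q.Prime → q ≠ p → (q ∣ N ↔ ¬ UnrAt W p q)) ∧
      (p ∣ N → ¬ p ∣ padicValInt p W.Δ) ∧
      (p ∣ N → ¬ W.IsResiduallyModularOfLevel p (N / p)) := by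
  obtain ⟨N, hN⟩ := H24S.exists_min hΔ hss hirr hp2
  refine ⟨N, hN.sq, hN.rm, hN.dvd_disc, fun q hq hqp => ⟨hN.ram q hq hqp, hN.dvd q hq hqp⟩, ?_,
    hN.pnew⟩
  intro hpN hdiv
  refine hN.pnew hpN ?_
  refine H23.S39.s39 hp2 hΔ (hss p hp.out) hirr (isPeuRamifieeAt_of_dvd hdiv)
    (Nat.pos_of_ne_zero hN.sq.ne_zero) hpN (fun h => ?_) hN.rm
  rw [sq] at h
  exact hp.out.one_lt.ne' (Nat.isUnit_iff.mp (hN.sq p h))

/-- **Ribet's theorem for semistable curves**, second form: the level may be any non-zero multiple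
of the product of the primes `q ≠ p` at which `W[p]` is ramified, and of `p` if `p ∣ Δ` and
`p ∤ v_p(Δ)`. -/
theorem level_of_ramified (hΔ : W.Δ ≠ 0) (hss : W.IsSemistableModel)
    (hirr : W.ModRepIsIrreducible p) (hp2 : p ≠ 2) {N : ℕ} (hN0 : N ≠ 0)
    (hram : ∀ q : ℕ, q.Prime → q ≠ p → (q : ℤ) ∣ W.Δ → ¬ UnrAt W p q → q ∣ N)
    (hpN : (p : ℤ) ∣ W.Δ → ¬ p ∣ padicValInt p W.Δ → p ∣ N) :
    W.IsResiduallyModularOfLevel p N := by
  obtain ⟨M, hsq, hrm, hdisc, hM, hMp, -⟩ := exists_level hΔ hss hirr hp2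
  refine H18R.isResiduallyModular_mono hΔ hirr hrm ?_ hN0
  rw [← Nat.prod_primeFactors_of_squarefree hsq]
  refine Finset.prod_primes_dvd _ (fun ℓ hℓ => (Nat.prime_of_mem_primeFactors hℓ).prime)
    fun ℓ hℓ => ?_
  have hℓp := Nat.prime_of_mem_primeFactors hℓ
  have hℓM := Nat.dvd_of_mem_primeFactors hℓ
  by_cases h : ℓ = p
  · subst h
    exact hpN (hdisc _ hℓp hℓM) (hMp hℓM)
  · exact hram ℓ hℓp h (hdisc ℓ hℓp hℓM) ((hM ℓ hℓp h).mp hℓM)

/-- minimality away from `p`: the ramified primes divide every level -/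
theorem dvd_level (hΔ : W.Δ ≠ 0) (hirr : W.ModRepIsIrreducible p) (hp2 : p ≠ 2) {N : ℕ}
    (hN : N ≠ 0) (hmod : W.IsResiduallyModularOfLevel p N) {q : ℕ} (hq : q.Prime) (hqp : q ≠ p)
    (hram : ¬ UnrAt W p q) : q ∣ N := by
  by_contra h
  exact hram (H11N.unrAt_of_residual hΔ hirr hp2 hN hmod hq h hqp)

end Fermat.Agent.Cor.H07
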