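import Mathlib
import Fermat.Agent.H08.InertiaTrivial
import Fermat.Agent.H12.LL.RDW2

/-!
# Unramified primes of a curve with full rational 2-torsion

`W` is a curve over `ℤ` with `b₂ = B - A`, `8 b₄ = - A B`, `b₆ = 0`, i.e.
`y² + a₁ x y + a₃ y = ...` is (over `ℤ[1/2]`) the curve `Y² = X (X - A) (X + B)`,
with `A`, `B` coprime.  If `q ≠ 2, p` and `p` divides the exponent of `q` in `A B (A + B)`
then the `p`-torsion is unramified at `q` (`unrAt_of_b`).  For the general Frey curve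
`⟨1, (B - A - 1) / 4, 0, - (A * B) / 16, 0⟩` see `unrAt_FW`.
-/

set_option autoImplicit false
set_option linter.unusedSectionVars false

namespace Fermat.Agent.Cor.H24

open WeierstrassCurve WeierstrassCurve.Affine WeierstrassCurve.Affine.Point
open Fermat.Agent.H08 Fermat.Agent.Ell Fermat.Agent.H12.LL

/-- the local notation for `AlgebraicClosure ℚ` -/
local notation "Qc" => AlgebraicClosure ℚ

section base

variable {W : WeierstrassCurve ℤ} {A B : ℤ}

lemma b2_cast (h2 : W.b₂ = B - A) : ((WQ W)⁄Qc).b₂ = (B : Qc) - A := by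
  rw [← map_WQ, WeierstrassCurve.map_b₂, h2]; simp

lemma b4_cast (h4 : 8 * W.b₄ = -(A * B)) : 8 * ((WQ W)⁄Qc).b₄ = -((A : Qc) * B) := by
  rw [← map_WQ, WeierstrassCurve.map_b₄]
  have := congrArg (Int.castRingHom Qc) h4
  simpa using this

lemma b6_cast (h6 : W.b₆ = 0) : ((WQ W)⁄Qc).b₆ = 0 := by
  rw [← map_WQ, WeierstrassCurve.map_b₆, h6]; simp

lemma disc_eq (h2 : W.b₂ = B - A) (h4 : 8 * W.b₄ = -(A * B)) (h6 : W.b₆ = 0) :
    256 * W.Δ = (A * B * (A + B)) ^ 2 := by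
  have h8 : 4 * W.b₈ = - W.b₄ ^ 2 := by rw [W.b_relation, h6]; ring
  have e : 256 * W.Δ = W.b₂ ^ 2 * (8 * W.b₄) ^ 2 - 4 * (8 * W.b₄) ^ 3 := by
    rw [WeierstrassCurve.Δ, h6]
    linear_combination (-64 * W.b₂ ^ 2) * h8
  rw [e, h2, h4]; ring

end base

section

variable {W : WeierstrassCurve ℤ} {A B : ℤ} {p q : ℕ} {V : ValuationSubring Qc}

lemma val_two (hq : q.Prime) (hq2 : q ≠ 2) (hV : V.LiesOverPrime q) :
    V.valuation (2 : Qc) = 1 := by
  have := val_natCast_eq_one (L := Qc) hq hV (n := 2)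
    (fun h => hq2 ((Nat.prime_dvd_prime_iff_eq hq Nat.prime_two).mp h))
  exact_mod_cast this

/-- The multiplicative case, for a general root `n` of `e³ + b₂ e² + 8 b₄ e + 16 b₆`. -/
theorem multiplicative_case (h2 : W.b₂ = B - A) (h4 : 8 * W.b₄ = -(A * B)) (h6 : W.b₆ = 0)
    (hp : p.Prime) (hp5 : 5 ≤ p) (hq : q.Prime) (hq2 : q ≠ 2) (hqp : q ≠ p)
    (hV : V.LiesOverPrime q) {σ : Qc ≃ₐ[ℚ] Qc} (hσ : σ ∈ V.inertiaSubgroupIn ℚ)
    {n β u : ℤ} {m : ℕ} (hn : n ^ 3 + (B - A) * n ^ 2 - A * B * n = 0)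
    (ha : ¬ (q : ℤ) ∣ 3 * n + (B - A))
    (hβ : 3 * n ^ 2 + 2 * (B - A) * n - A * B = β) (hm : m ≠ 0)
    (hβu : β = (q : ℤ) ^ (m * p) * u) (hu : ¬ (q : ℤ) ∣ u)
    {Q : ((WQ W)⁄Qc).Point} (hQ : Q ≠ 0) (hpQ : p • Q = 0) : σ • Q = Q := by
  have hW : IsIntegralFor V.valuation ((WQ W)⁄Qc) :=
    Fermat.Agent.H09.isIntegralFor_of_int (map_WQ W)
  have hb2 := b2_cast (W := W) h2
  have hb4 := b4_cast (W := W) h4
  have hb6 := b6_cast (W := W) h6
  have hroot : (n : Qc) ^ 3 + ((WQ W)⁄Qc).b₂ * (n : Qc) ^ 2 + 8 * ((WQ W)⁄Qc).b₄ * (n : Qc)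
      + 16 * ((WQ W)⁄Qc).b₆ = 0 := by
    rw [hb2, hb4, hb6]
    have := congrArg (Int.cast : ℤ → Qc) hn
    push_cast at this
    linear_combination this
  have hbβ : 3 * (n : Qc) ^ 2 + 2 * ((WQ W)⁄Qc).b₂ * (n : Qc) + 8 * ((WQ W)⁄Qc).b₄ = (β : Qc) := by
    rw [hb2, hb4, ← hβ]; push_cast; ring
  obtain ⟨w, hw⟩ := exists_isLogVal (L := Qc) hq hV
  have hvp : V.valuation ((p : ℕ) : Qc) = 1 :=
    val_natCast_eq_one hq hV (fun h => hqp ((Nat.prime_dvd_prime_iff_eq hq hp).mp h))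
  have hve : V.valuation (n : Qc) ≤ 1 := val_intCast_le_one V n
  have hqL : ((q : ℕ) : Qc) ≠ 0 := by exact_mod_cast hq.ne_zero
  have hvβ : V.valuation (3 * (n : Qc) ^ 2 + 2 * ((WQ W)⁄Qc).b₂ * (n : Qc) + 8 * ((WQ W)⁄Qc).b₄)
      = V.valuation ((((q : ℤ) ^ m : ℤ) : Qc) ^ p) := by
    rw [hbβ, hβu]
    push_cast
    rw [map_mul, val_intCast_eq_one hq hV hu, mul_one, pow_mul]
  have hqdvd : (q : ℤ) ∣ (q : ℤ) ^ m := dvd_pow_self _ hm
  have hαlt : V.valuation ((((q : ℤ) ^ m : ℤ)) : Qc) < 1 := val_intCast_lt_one hV hqdvd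
  have hvb : V.valuation (3 * (n : Qc) ^ 2 + 2 * ((WQ W)⁄Qc).b₂ * (n : Qc)
      + 8 * ((WQ W)⁄Qc).b₄) < 1 := by
    rw [hvβ]; exact v_pow_lt_one hαlt hp.ne_zero
  have hαL : (((q : ℤ) ^ m : ℤ) : Qc) ≠ 0 := by
    push_cast; exact pow_ne_zero _ hqL
  have hva : V.valuation (3 * (n : Qc) + ((WQ W)⁄Qc).b₂) = 1 := by
    have := val_intCast_eq_one (L := Qc) hq hV ha
    rw [hb2]
    push_cast at this
    exact this
  have hint : ∀ R : ((WQ W)⁄Qc).Point, p • R = 0 → V.valuation (4 * px R - (n : Qc)) ≤ 1 := by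
    intro R hR
    exact v_sub_le_one (v_mul_le_one (v_ofNat_le_one _ 4) (val_px_le_one_of_torsion hW hR hvp)) hve
  have H : KHyp (fun R : ((WQ W)⁄Qc).Point => 4 * px R - (n : Qc))
      (3 * (n : Qc) + ((WQ W)⁄Qc).b₂)
      (3 * (n : Qc) ^ 2 + 2 * ((WQ W)⁄Qc).b₂ * (n : Qc) + 8 * ((WQ W)⁄Qc).b₄) V.valuation p :=
    { K := kummerSystem_of_root two_ne_zero hroot
      hp := hp
      hp5 := hp5
      v2 := val_two hq hq2 hV
      va := hva
      vb := hvb
      b0 := by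
        rw [← Valuation.ne_zero_iff V.valuation, hvβ, Valuation.ne_zero_iff]
        exact pow_ne_zero _ hαL
      int := fun R _ hR => hint R hR }
  rcases lt_or_eq_of_le (hint Q hpQ) with h1 | h1
  · exact inertia_trivial_of_singular hσ hw hroot H (map_intCast σ n)
      (map_intCast σ _) hvβ hQ hpQ h1
  · apply inertia_trivial_of_nonsingularRed hW hσ hpQ hvp
    by_contra hns
    have h2 := val_lt_of_not_nonsingularRed hW hQ (val_px_le_one_of_torsion hW hpQ hvp) hns hve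
      hroot
    have h3 : V.valuation ((4 * px Q - (n : Qc)) ^ 2) = 1 := by rw [map_pow, h1, one_pow]
    rw [Valuation.map_sub_eq_of_lt_left _ (by rwa [h3]), h3] at h2
    exact lt_irrefl _ h2

end

/-- the exponent of `q` in `x` is `m p` with `m ≠ 0` -/
lemma exists_factor {x : ℤ} (hx : x ≠ 0) {p q : ℕ} (hq : q.Prime) (hqx : (q : ℤ) ∣ x)
    (hv : p ∣ padicValInt q x) :
    ∃ (m : ℕ) (u : ℤ), m ≠ 0 ∧ x = (q : ℤ) ^ (m * p) * u ∧ ¬ (q : ℤ) ∣ u := by
  have : Fact q.Prime := ⟨hq⟩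
  obtain ⟨m, hm⟩ := hv
  have hqm : ¬ IsUnit (q : ℤ) := (Nat.prime_iff_prime_int.mp hq).not_isUnit
  have hd : (q : ℤ) ^ (padicValInt q x) ∣ x := padicValInt_dvd x
  obtain ⟨u, hu⟩ := hd
  refine ⟨m, u, ?_, ?_, ?_⟩
  · rintro rfl
    rw [mul_zero] at hm
    have h1 : 1 ≤ padicValInt q x := by
      have := (padicValInt_dvd_iff (p := q) 1 x).mp (by simpa using hqx)
      rcases this with h | h
      · exact absurd h hx
      · exact h
    omega
  · rw [mul_comm m p, ← hm]; exact hu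
  · rintro ⟨w, rfl⟩
    have h1 : (q : ℤ) ^ (padicValInt q x + 1) ∣ x := ⟨w, by rw [pow_succ]; linear_combination hu⟩
    rcases (padicValInt_dvd_iff (p := q) _ x).mp h1 with h | h
    · exact hx h
    · omega

/-- **Unramified primes** of a curve with full rational 2-torsion. -/
theorem unrAt_of_b {W : WeierstrassCurve ℤ} {A B : ℤ} (h2 : W.b₂ = B - A)
    (h4 : 8 * W.b₄ = -(A * B)) (h6 : W.b₆ = 0) (hcop : IsCoprime A B)
    (h0 : A * B * (A + B) ≠ 0) {p q : ℕ} (hp : p.Prime) (hp5 : 5 ≤ p) (hq : q.Prime)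
    (hq2 : q ≠ 2) (hqp : q ≠ p) (hv : p ∣ padicValInt q (A * B * (A + B))) : UnrAt W p q := by
  have hqq : Prime (q : ℤ) := Nat.prime_iff_prime_int.mp hq
  have hΔ := disc_eq h2 h4 h6
  by_cases hqd : (q : ℤ) ∣ A * B * (A + B)
  swap
  · apply unrAt_of_good hq
    · intro h
      apply hqd
      have h1 : (q : ℤ) ∣ (A * B * (A + B)) ^ 2 := by rw [← hΔ]; exact Dvd.dvd.mul_left h _
      exact hqq.dvd_of_dvd_pow h1
    · intro h
      exact hqp ((Nat.prime_dvd_prime_iff_eq hq hp).mp h)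
  have hcAC : IsCoprime A (A + B) := by
    have := hcop.add_mul_left_right 1
    rwa [mul_one, add_comm] at this
  have hcBC : IsCoprime B (A + B) := by
    have := hcop.symm.add_mul_left_right 1
    rwa [mul_one] at this
  have hnot : ∀ {x y : ℤ}, IsCoprime x y → (q : ℤ) ∣ x → ¬ (q : ℤ) ∣ y := fun h hx hy =>
    hqq.not_isUnit (h.isUnit_of_dvd' hx hy)
  obtain ⟨m, u, hm, hmu, hu⟩ := exists_factor h0 hq hqd hv
  intro V hV σ hσ Q hpQ
  by_cases hQ : Q = 0
  · rw [hQ]; exact smul_zero (A := Pts (WQ W)) σ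
  by_cases hC : (q : ℤ) ∣ A + B
  · -- the root `A`
    have hA : ¬ (q : ℤ) ∣ A := fun h => hnot hcAC h hC
    have hB : ¬ (q : ℤ) ∣ B := fun h => hnot hcBC h hC
    -- `β = A (A + B)`
    have hqp' : IsCoprime B ((q : ℤ) ^ (m * p)) := by
      apply IsCoprime.pow_right
      exact ((hqq.coprime_iff_not_dvd).mpr hB).symm
    have hBu : B ∣ u := by
      have h1 : B ∣ (q : ℤ) ^ (m * p) * u := ⟨A * (A + B), by rw [← hmu]; ring⟩
      exact hqp'.dvd_of_dvd_mul_left h1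
    obtain ⟨u', rfl⟩ := hBu
    have hB0 : B ≠ 0 := by rintro rfl; simp at h0
    refine multiplicative_case (n := A) (β := A * (A + B)) (u := u') (m := m) h2 h4 h6 hp hp5 hq hq2
      hqp hV hσ (by ring) ?_ (by ring) hm ?_ ?_ hQ hpQ
    · intro h
      apply hA
      have h1 : (q : ℤ) ∣ (3 * A + (B - A)) - (A + B) := dvd_sub h hC
      have e : (3 * A + (B - A)) - (A + B) = A := by ring
      rwa [e] at h1
    · apply mul_left_cancel₀ hB0
      linear_combination hmu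
    · exact fun h => hu (Dvd.dvd.mul_left h _)
  · have hAB : (q : ℤ) ∣ A * B := (hqq.dvd_or_dvd hqd).resolve_right hC
    have hqp' : IsCoprime (A + B) ((q : ℤ) ^ (m * p)) := by
      apply IsCoprime.pow_right
      exact ((hqq.coprime_iff_not_dvd).mpr hC).symm
    have hCu : (A + B) ∣ u := by
      have h1 : (A + B) ∣ (q : ℤ) ^ (m * p) * u := ⟨A * B, by rw [← hmu]; ring⟩
      exact hqp'.dvd_of_dvd_mul_left h1
    obtain ⟨u', rfl⟩ := hCu
    have hC0 : A + B ≠ 0 := by intro h; rw [h] at h0; simp at h0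
    refine multiplicative_case (n := 0) (β := -(A * B)) (u := -u') (m := m) h2 h4 h6 hp hp5 hq hq2
      hqp hV hσ (by ring) ?_ (by ring) hm ?_ ?_ hQ hpQ
    · rw [mul_zero, zero_add]
      rcases hqq.dvd_or_dvd hAB with h | h
      · intro h'
        exact hnot hcop h (by simpa using dvd_add h' h)
      · intro h'
        refine hnot hcop.symm h ?_
        have := dvd_sub h h'
        simpa using this
    · apply mul_left_cancel₀ hC0
      linear_combination -hmu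
    · intro h
      apply hu
      exact Dvd.dvd.mul_left (by simpa using h) _

/-- **Unramified primes of the general Frey curve.** -/
theorem unrAt_FW {A B : ℤ} (hA : A % 4 = 3) (hB : (16 : ℤ) ∣ B) (hcop : IsCoprime A B)
    (h0 : A * B * (A + B) ≠ 0) {p q : ℕ} (hp : p.Prime) (hp5 : 5 ≤ p) (hq : q.Prime)
    (hq2 : q ≠ 2) (hqp : q ≠ p) (hv : p ∣ padicValInt q (A * B * (A + B))) :
    UnrAt (⟨1, (B - A - 1) / 4, 0, -(A * B) / 16, 0⟩ : WeierstrassCurve ℤ) p q := by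
  have h1 : 4 * ((B - A - 1) / 4) = B - A - 1 := by
    obtain ⟨b, rfl⟩ := hB
    apply Int.mul_ediv_cancel'
    omega
  have h2 : 16 * (-(A * B) / 16) = -(A * B) := by
    obtain ⟨b, rfl⟩ := hB
    apply Int.mul_ediv_cancel'
    exact ⟨-(A * b), by ring⟩
  refine unrAt_of_b ?_ ?_ ?_ hcop h0 hp hp5 hq hq2 hqp hv
  · rw [WeierstrassCurve.b₂]; linear_combination h1
  · rw [WeierstrassCurve.b₄]; linear_combination h2
  · rw [WeierstrassCurve.b₆]; ring

end Fermat.Agent.Cor.H24
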