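import Fermat.Agent.Cor.H11Serre
import Fermat.Agent.Cor.H07Ram
import Fermat.Agent.Cor.H24Unr
import Fermat.Agent.MainConductor
import Fermat.Agent.H23.K1.Main

/-!
# Serre's generalised Fermat equations: modularity and level lowering

Let `A`, `B` be coprime integers with `A ≡ 3 mod 4`, `32 ∣ B`, `A B (A + B) ≠ 0`, and `W` the Frey curve
`y² + x y = x³ + ((B - A - 1) / 4) x² - (A B / 16) x`. If `W[p]` is irreducible and `A B (A + B)` is a `p`-th power
away from `2` and `L`, then `W[p]` is modular of level `2 L`. For `L = 3, 5` there are no cusp forms of weight `2`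
and level `2 L`.

This file is not used by any of the statement files.
-/

set_option autoImplicit false

namespace Fermat.Agent.Cor.H11

open WeierstrassCurve Fermat.Agent.H12.LL ModularCurve

/-- The general Frey curve. -/
def FreyAB (A B : ℤ) : WeierstrassCurve ℤ := ⟨1, (B - A - 1) / 4, 0, -(A * B) / 16, 0⟩

section

variable {A B : ℤ}

lemma four_a₂ (hA : A % 4 = 3) (hB : (16 : ℤ) ∣ B) : 4 * (FreyAB A B).a₂ = B - A - 1 := by
  change 4 * ((B - A - 1) / 4) = B - A - 1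
  obtain ⟨b, rfl⟩ := hB
  apply Int.mul_ediv_cancel'
  omega

lemma sixteen_a₄ (hB : (16 : ℤ) ∣ B) : 16 * (FreyAB A B).a₄ = -(A * B) := by
  change 16 * (-(A * B) / 16) = -(A * B)
  obtain ⟨b, rfl⟩ := hB
  exact Int.mul_ediv_cancel' ⟨-(A * b), by ring⟩

lemma frey_b₂ (hA : A % 4 = 3) (hB : (16 : ℤ) ∣ B) : (FreyAB A B).b₂ = B - A := by
  have h1 : (FreyAB A B).a₁ = 1 := rfl
  rw [WeierstrassCurve.b₂, h1]
  linear_combination four_a₂ hA hB

lemma frey_b₄ (hB : (16 : ℤ) ∣ B) : 8 * (FreyAB A B).b₄ = -(A * B) := by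
  have h3 : (FreyAB A B).a₃ = 0 := rfl
  rw [WeierstrassCurve.b₄, h3]
  linear_combination sixteen_a₄ (A := A) hB

lemma frey_b₆ : (FreyAB A B).b₆ = 0 := by
  have h3 : (FreyAB A B).a₃ = 0 := rfl
  have h6 : (FreyAB A B).a₆ = 0 := rfl
  rw [WeierstrassCurve.b₆, h3, h6]
  ring

lemma frey_disc (hA : A % 4 = 3) (hB : (16 : ℤ) ∣ B) :
    256 * (FreyAB A B).Δ = (A * B * (A + B)) ^ 2 :=
  H24.disc_eq (frey_b₂ hA hB) (frey_b₄ hB) frey_b₆

lemma frey_c₄ (hA : A % 4 = 3) (hB : (16 : ℤ) ∣ B) :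
    (FreyAB A B).c₄ = A ^ 2 + A * B + B ^ 2 := by
  rw [WeierstrassCurve.c₄, frey_b₂ hA hB]
  linear_combination (-3) * frey_b₄ (A := A) hB

lemma frey_disc_ne (hA : A % 4 = 3) (hB : (16 : ℤ) ∣ B) (h0 : A * B * (A + B) ≠ 0) :
    (FreyAB A B).Δ ≠ 0 := by
  intro h
  have := frey_disc hA hB
  rw [h, mul_zero] at this
  exact pow_ne_zero 2 h0 this.symm

lemma frey_semistable (hA : A % 4 = 3) (hB : (16 : ℤ) ∣ B) (hcop : IsCoprime A B) :
    (FreyAB A B).IsSemistableModel := by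
  intro q hq hqΔ hqc
  have hqq : Prime (q : ℤ) := Nat.prime_iff_prime_int.mp hq
  rw [frey_c₄ hA hB] at hqc
  have h1 : (q : ℤ) ∣ A * B * (A + B) := by
    apply hqq.dvd_of_dvd_pow (n := 2)
    rw [← frey_disc hA hB]
    exact Dvd.dvd.mul_left hqΔ _
  have key : (q : ℤ) ∣ A → (q : ℤ) ∣ B → False := fun h h' => hqq.not_isUnit (hcop.isUnit_of_dvd' h h')
  rcases hqq.dvd_or_dvd h1 with h2 | h2
  · rcases hqq.dvd_or_dvd h2 with h3 | h3
    · refine key h3 (hqq.dvd_of_dvd_pow (n := 2) ?_)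
      have : B ^ 2 = A ^ 2 + A * B + B ^ 2 - A * (A + B) := by ring
      rw [this]
      exact dvd_sub hqc (Dvd.dvd.mul_right h3 _)
    · refine key (hqq.dvd_of_dvd_pow (n := 2) ?_) h3
      have : A ^ 2 = A ^ 2 + A * B + B ^ 2 - B * (A + B) := by ring
      rw [this]
      exact dvd_sub hqc (Dvd.dvd.mul_right h3 _)
  · have h3 : (q : ℤ) ∣ A := by
      apply hqq.dvd_of_dvd_pow (n := 2)
      have : A ^ 2 = A ^ 2 + A * B + B ^ 2 - B * (A + B) := by ring
      rw [this]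
      exact dvd_sub hqc (Dvd.dvd.mul_left h2 _)
    refine key h3 ?_
    have : B = (A + B) - A := by ring
    rw [this]
    exact dvd_sub h2 h3

/-- `W[5]` is irreducible: the discriminant is a square -/
theorem irr_five (hA : A % 4 = 3) (hB : (16 : ℤ) ∣ B) (h0 : A * B * (A + B) ≠ 0) :
    (FreyAB A B).ModRepIsIrreducible 5 := by
  refine H23.K1.modRepIsIrreducible_five _ (δ := ((A * B * (A + B) : ℤ) : ℚ) / 16) ?_
    (frey_disc_ne hA hB h0)
  have h := congrArg (Int.cast : ℤ → ℚ) (frey_disc hA hB)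
  push_cast at h ⊢
  rw [div_pow, ← h]
  ring

/-- **Level lowering for the Frey curve.** -/
theorem rm_two_mul {p L : ℕ} [hp : Fact p.Prime] (hp5 : 5 ≤ p) (hL : L.Prime)
    (hcop : IsCoprime A B) (hA : A % 4 = 3) (hB : (32 : ℤ) ∣ B) (h0 : A * B * (A + B) ≠ 0)
    (hv : ∀ ℓ : ℕ, ℓ.Prime → ℓ ≠ 2 → ℓ ≠ L → p ∣ padicValInt ℓ (A * B * (A + B)))
    (hirr : (FreyAB A B).ModRepIsIrreducible p) :
    (FreyAB A B).IsResiduallyModularOfLevel p (2 * L) := by
  have hB' : (16 : ℤ) ∣ B := (by norm_num : (16 : ℤ) ∣ 32).trans hB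
  have hΔ := frey_disc_ne hA hB' h0
  refine H07.level_of_ramified hΔ (frey_semistable hA hB' hcop) hirr (by omega)
    (mul_ne_zero two_ne_zero hL.ne_zero) ?_ ?_
  · intro q hq hqp _ hram
    by_contra hcon
    have hq2 : q ≠ 2 := by rintro rfl; exact hcon (dvd_mul_right _ _)
    have hqL : q ≠ L := by rintro rfl; exact hcon (dvd_mul_left _ _)
    exact hram (H24.unrAt_of_b (frey_b₂ hA hB') (frey_b₄ hB') frey_b₆ hcop h0 hp.out hp5 hq hq2 hqp
      (hv q hq hq2 hqL))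
  · intro _ hram
    by_contra hcon
    have hp2 : p ≠ 2 := by omega
    have hpL : p ≠ L := by rintro rfl; exact hcon (dvd_mul_left _ _)
    have h1 := hv p hp.out hp2 hpL
    apply hram
    have h2 : padicValInt p (256 * (FreyAB A B).Δ) = padicValInt p (FreyAB A B).Δ := by
      rw [padicValInt.mul (by norm_num) hΔ, padicValInt.eq_zero_of_not_dvd, zero_add]
      intro h
      have h3 : p ∣ 2 ^ 8 := by exact_mod_cast h
      exact hp2 ((Nat.prime_dvd_prime_iff_eq hp.out Nat.prime_two).mp (hp.out.dvd_of_dvd_pow h3))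
    rw [← h2, frey_disc hA hB', padicValInt_pow']
    exact Dvd.dvd.mul_left h1 _

/-- there are no eigenforms of level `2 L` if `X₀(2 L)` has genus `0` -/
theorem not_rm {W : WeierstrassCurve ℤ} {p N : ℕ} [NeZero N] (h : genusFormula N = 0) :
    ¬ W.IsResiduallyModularOfLevel p N := by
  rintro ⟨f, -, hf, -⟩
  exact Fermat.Agent.Main.not_isNormalizedEigenform h f hf

end

/-- irreducibility of `W[p]` for the Frey curves, with the condition on `v₂(B)` -/
def IrrAB (p : ℕ) : Prop :=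
  ∀ A B : ℤ, IsCoprime A B → A % 4 = 3 → 32 ∣ B → A * B * (A + B) ≠ 0 →
    ¬ (p : ℤ) ∣ (padicValInt 2 B : ℤ) - 4 → (FreyAB A B).ModRepIsIrreducible p

theorem irrAB_five : IrrAB 5 := fun _ _ _ hA hB h0 _ =>
  irr_five hA ((by norm_num : (16 : ℤ) ∣ 32).trans hB) h0

theorem noSol_of_irr {p L : ℕ} (hp : p.Prime) (hp5 : 5 ≤ p) (hL : L.Prime)
    (hg : haveI : NeZero (2 * L) := ⟨mul_ne_zero two_ne_zero hL.ne_zero⟩; genusFormula (2 * L) = 0)
    (H : IrrAB p) : NoSol p L := by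
  intro A B hcop hA hB _ h0 h2 hv
  have : Fact p.Prime := ⟨hp⟩
  have : NeZero (2 * L) := ⟨mul_ne_zero two_ne_zero hL.ne_zero⟩
  exact not_rm hg (rm_two_mul hp5 hL hcop hA hB h0 hv (H A B hcop hA hB h0 h2))

/-- **Serre's equations, `L = 3`.** -/
theorem serre_three_of {p : ℕ} (hp : p.Prime) (hp5 : 5 ≤ p) (H : IrrAB p) (α β γ : ℕ) {x y z : ℤ}
    (hx : x ≠ 0) (hy : y ≠ 0) (hz : z ≠ 0) :
    (3 : ℤ) ^ α * x ^ p + 3 ^ β * y ^ p + 3 ^ γ * z ^ p ≠ 0 := by
  have := serre_sym hp5 Nat.prime_three (by norm_num)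
    (noSol_of_irr hp hp5 Nat.prime_three Fermat.Agent.Main.genus_six H) α β γ hx hy hz
  exact_mod_cast this

/-- **Serre's equations, `L = 5`.** -/
theorem serre_five_of {p : ℕ} (hp : p.Prime) (hp5 : 5 ≤ p) (H : IrrAB p) (α β γ : ℕ) {x y z : ℤ}
    (hx : x ≠ 0) (hy : y ≠ 0) (hz : z ≠ 0) :
    (5 : ℤ) ^ α * x ^ p + 5 ^ β * y ^ p + 5 ^ γ * z ^ p ≠ 0 := by
  have := serre_sym hp5 Nat.prime_five (by norm_num)
    (noSol_of_irr hp hp5 Nat.prime_five Fermat.Agent.Main.genus_ten H) α β γ hx hy hz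
  exact_mod_cast this

/-- `x⁵ + y⁵ = 3 ^ α z⁵` and `x⁵ + y⁵ = 5 ^ α z⁵` have no solutions in nonzero integers. -/
theorem serre_exponent_five (α : ℕ) {x y z : ℤ} (hx : x ≠ 0) (hy : y ≠ 0) (hz : z ≠ 0) :
    x ^ 5 + y ^ 5 ≠ 3 ^ α * z ^ 5 ∧ x ^ 5 + y ^ 5 ≠ 5 ^ α * z ^ 5 := by
  constructor
  · intro h
    refine serre_three_of Nat.prime_five le_rfl irrAB_five 0 0 α hx hy (neg_ne_zero.mpr hz) ?_
    rw [(by decide : Odd 5).neg_pow]
    linear_combination h
  · intro h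
    refine serre_five_of Nat.prime_five le_rfl irrAB_five 0 0 α hx hy (neg_ne_zero.mpr hz) ?_
    rw [(by decide : Odd 5).neg_pow]
    linear_combination h

end Fermat.Agent.Cor.H11
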