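import Fermat.Agent.Cor.H18Tr
import Fermat.Agent.Cor.H11SerreFin
import Fermat.Agent.Cor.H09Irr
import Fermat.Agent.Cor.EigenTable

/-!
# Serre's equations when there are eigenforms of level `2 L`

Let `L ≠ 3` be an odd prime such that every normalised eigenform of level `2 L` has an integral third coefficient
`c`. If `p ∤ c, c - 4, c + 4` for all these `c`, then `W[p]`, `W` a Frey curve, cannot be modular of level `2 L`: the
trace of Frobenius at `3` of `W[p]` is `0` (good reduction) or `± 4` (multiplicative reduction).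

This file is not used by any of the statement files.
-/

set_option autoImplicit false

namespace Fermat.Agent.Cor.H18

open WeierstrassCurve Fermat.Agent.H12.LL ModularCurve Fermat.Agent.Cor.H11
open ModularFormClass (qCoeff)

/-! ### counting points -/

section Count

variable {q : ℕ} [Fact q.Prime]

/-- the number of points of a nonsingular Weierstrass curve over `𝔽_q` -/
theorem card_eq (E : WeierstrassCurve (ZMod q)) (hΔ : E.Δ ≠ 0) :
    E.card = (Finset.univ.filter fun P : ZMod q × ZMod q => P.2 ^ 2 + E.a₁ * P.1 * P.2 + E.a₃ * P.2 =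
      P.1 ^ 3 + E.a₂ * P.1 ^ 2 + E.a₄ * P.1 + E.a₆).card + 1 := by
  classical
  let S := Finset.univ.filter fun P : ZMod q × ZMod q => P.2 ^ 2 + E.a₁ * P.1 * P.2 + E.a₃ * P.2 =
      P.1 ^ 3 + E.a₂ * P.1 ^ 2 + E.a₄ * P.1 + E.a₆
  let e : E.toAffine.Point ≃ Option S :=
    { toFun := fun P => match P with
        | .zero => none
        | .some x y h => some ⟨(x, y), by
            simp only [S, Finset.mem_filter, Finset.mem_univ, true_and]
            exact (Affine.equation_iff x y).mp h.1⟩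
      invFun := fun P => match P with
        | none => .zero
        | some Q => .some Q.1.1 Q.1.2 ((Affine.equation_iff_nonsingular_of_Δ_ne_zero hΔ).mp
            ((Affine.equation_iff _ _).mpr (Finset.mem_filter.mp Q.2).2))
      left_inv := by rintro (_ | ⟨x, y, h⟩) <;> rfl
      right_inv := by rintro (_ | ⟨⟨x, y⟩, h⟩) <;> rfl }
  change Nat.card E.toAffine.Point = _
  rw [Nat.card_congr e, Finite.card_option, Nat.card_eq_fintype_card, Fintype.card_coe]

end Count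

/-- the trace of Frobenius at `3` of a Frey curve with good reduction at `3` is `0` -/
theorem ap_three {W : WeierstrassCurve ℤ} (h1 : W.a₁ = 1) (h3 : W.a₃ = 0) (h6 : W.a₆ = 0)
    (h2 : W.a₂ % 3 = 2) (h4 : W.a₄ % 3 = 2) : W.apOfModel 3 = 0 := by
  have e : W.reductionMod 3 = (⟨1, 2, 0, 2, 0⟩ : WeierstrassCurve (ZMod 3)) := by
    have e2 : ((W.a₂ : ℤ) : ZMod 3) = 2 := by
      rw [← ZMod.intCast_mod W.a₂ 3]
      push_cast
      rw [h2]; rfl
    have e4 : ((W.a₄ : ℤ) : ZMod 3) = 2 := by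
      rw [← ZMod.intCast_mod W.a₄ 3]
      push_cast
      rw [h4]; rfl
    ext
    · change ((W.a₁ : ℤ) : ZMod 3) = 1
      rw [h1]; rfl
    · exact e2
    · change ((W.a₃ : ℤ) : ZMod 3) = 0
      rw [h3]; rfl
    · exact e4
    · change ((W.a₆ : ℤ) : ZMod 3) = 0
      rw [h6]; rfl
  unfold apOfModel traceOfFrobenius
  rw [e, card_eq _ (by decide)]
  have h7 : (Finset.univ.filter fun P : ZMod 3 × ZMod 3 => P.2 ^ 2 +
      (⟨1, 2, 0, 2, 0⟩ : WeierstrassCurve (ZMod 3)).a₁ * P.1 * P.2 +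
      (⟨1, 2, 0, 2, 0⟩ : WeierstrassCurve (ZMod 3)).a₃ * P.2 =
      P.1 ^ 3 + (⟨1, 2, 0, 2, 0⟩ : WeierstrassCurve (ZMod 3)).a₂ * P.1 ^ 2 +
      (⟨1, 2, 0, 2, 0⟩ : WeierstrassCurve (ZMod 3)).a₄ * P.1 +
      (⟨1, 2, 0, 2, 0⟩ : WeierstrassCurve (ZMod 3)).a₆).card = 3 := by
    decide
  rw [h7]
  simp

/-- the third coefficient of an eigenform congruent to a Frey curve with good reduction at `3` -/
theorem freyAB_ap_three {A B : ℤ} (hA : A % 4 = 3) (hB : (16 : ℤ) ∣ B)
    (h3 : ¬ (3 : ℤ) ∣ A * B * (A + B)) : (FreyAB A B).apOfModel 3 = 0 := by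
  have hnA : ¬ (3 : ℤ) ∣ A := fun h => h3 (Dvd.dvd.mul_right (Dvd.dvd.mul_right h _) _)
  have hnB : ¬ (3 : ℤ) ∣ B := fun h => h3 (Dvd.dvd.mul_right (Dvd.dvd.mul_left h _) _)
  have hnC : ¬ (3 : ℤ) ∣ A + B := fun h => h3 (Dvd.dvd.mul_left h _)
  have h1 : (A % 3 = 1 ∧ B % 3 = 1) ∨ (A % 3 = 2 ∧ B % 3 = 2) := by omega
  have hAB : (A * B) % 3 = 1 := by
    rw [Int.mul_emod]
    rcases h1 with ⟨h1, h2⟩ | ⟨h1, h2⟩ <;> rw [h1, h2] <;> norm_num
  have h4 := four_a₂ hA hB
  have h16 := sixteen_a₄ (A := A) hB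
  refine ap_three rfl rfl rfl ?_ ?_
  · clear h3 hAB h16
    omega
  · clear h3 h4 h1 hnA hnB hnC
    omega

/-- irreducibility of the `p`-torsion of the Frey curves (helper9, helper11) -/
theorem irrAB_of {p : ℕ} (hp : p.Prime) (h : p = 5 ∨ (11 ≤ p ∧ p ≠ 13)) : IrrAB p := by
  rcases h with rfl | ⟨h, h13⟩
  · exact irrAB_five
  · intro A B hcop hA hB h0 h2
    have hB' : (16 : ℤ) ∣ B := (by norm_num : (16 : ℤ) ∣ 32).trans hB
    have : Fact p.Prime := ⟨hp⟩
    exact Fermat.Agent.Cor.H09.irr' (W := FreyAB A B) rfl rfl rfl (four_a₂ hA hB')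
      (sixteen_a₄ hB') hB' hcop h0 h h13 h2

/-- **No solutions from the third coefficients of the eigenforms of level `2 L`.** -/
theorem noSol_of_three {p L : ℕ} (hp : p.Prime) (hp5 : 5 ≤ p) (hL : L.Prime) (hL3 : L ≠ 3)
    (H : IrrAB p)
    (hS : ∀ f : CuspForm (CongruenceSubgroup.Gamma0 (2 * L)) 2, f.IsNormalizedEigenform →
      ∃ c : ℤ, qCoeff f 3 = (c : ℂ) ∧ ¬ (p : ℤ) ∣ c ∧ ¬ (p : ℤ) ∣ c - 4 ∧ ¬ (p : ℤ) ∣ c + 4) :
    NoSol p L := by
  intro A B hcop hA hB _ h0 h2 hv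
  have : Fact p.Prime := ⟨hp⟩
  have : NeZero (2 * L) := ⟨mul_ne_zero two_ne_zero hL.ne_zero⟩
  have hB' : (16 : ℤ) ∣ B := (by norm_num : (16 : ℤ) ∣ 32).trans hB
  have hirr := H A B hcop hA hB h0 h2
  have hΔ := frey_disc_ne hA hB' h0
  have hss := frey_semistable hA hB' hcop
  have hp2 : p ≠ 2 := by omega
  obtain ⟨f, 𝔪, hf, h𝔪, hp𝔪, hres⟩ := rm_two_mul hp5 hL hcop hA hB h0 hv hirr
  obtain ⟨c, hc, h1, h2', h3⟩ := hS f hf
  have hN3 : ¬ 3 ∣ 2 * L := by
    intro h
    rcases (Nat.Prime.dvd_mul Nat.prime_three).mp h with h | h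
    · omega
    · exact hL3 ((Nat.prime_dvd_prime_iff_eq Nat.prime_three hL).mp h).symm
  have h3p : 3 ≠ p := by omega
  by_cases hgood : (FreyAB A B).IsGoodPrimeFor 3
  · have h4 := dvd_of_good h𝔪 hp𝔪 hres Nat.prime_three hN3 h3p hc hgood
    rw [freyAB_ap_three hA hB', sub_zero] at h4
    · exact h1 h4
    · intro h5
      apply hgood
      have h6 : (3 : ℤ) ∣ 256 * (FreyAB A B).Δ := by
        rw [frey_disc hA hB']
        exact dvd_pow h5 two_ne_zero
      have h7 : (3 : ℤ) ∣ (FreyAB A B).Δ := by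
        rcases (Int.prime_three).dvd_or_dvd h6 with h | h
        · omega
        · exact h
      exact_mod_cast h7
  · have h3Δ : ((3 : ℕ) : ℤ) ∣ (FreyAB A B).Δ := by
      by_contra h
      exact hgood h
    have hb : ∃ b : integralClosure ℤ ℂ, (b : ℂ) = qCoeff f 3 ∧
        b - (c : integralClosure ℤ ℂ) ∈ 𝔪 :=
      ⟨(c : integralClosure ℤ ℂ), by rw [hc]; simp, by rw [sub_self]; exact zero_mem _⟩
    rcases dvd_of_mult hΔ hirr hp2 hf h𝔪 hp𝔪 hres Nat.prime_three hN3 h3p hb h3Δ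
      (hss 3 Nat.prime_three h3Δ) with h | h
    · apply h2'
      have e : c - ((3 : ℕ) + 1 : ℤ) = c - 4 := by push_cast; ring
      rwa [e] at h
    · apply h3
      have e : c + ((3 : ℕ) + 1 : ℤ) = c + 4 := by push_cast; ring
      rwa [e] at h

/-- a prime `p ≥ 5` does not divide `2`, `-6` -/
theorem not_dvd_of_abs {p : ℕ} {c : ℤ} (hc : c ≠ 0) (h : c.natAbs < p) : ¬ (p : ℤ) ∣ c := by
  intro hd
  have := Nat.le_of_dvd (Int.natAbs_pos.mpr hc) (Int.natCast_dvd.mp hd)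
  omega

/-- `L = 7`, from the third coefficient of the eigenforms of level `14` -/
theorem noSol_seven_of {p : ℕ} (hp : p.Prime) (hp5 : 5 ≤ p) (H : IrrAB p)
    (hS : ∀ f : CuspForm (CongruenceSubgroup.Gamma0 14) 2, f.IsNormalizedEigenform →
      qCoeff f 3 = -2) : NoSol p 7 := by
  refine noSol_of_three hp hp5 (by norm_num) (by norm_num) H fun f hf => ⟨-2, ?_, ?_, ?_, ?_⟩
  · rw [hS f hf]; norm_num
  · exact not_dvd_of_abs (by norm_num) (by norm_num; omega)
  · intro h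
    have h1 : p ∣ 2 * 3 := by
      have := Int.natCast_dvd.mp h
      norm_num at this ⊢
      exact this
    rcases (Nat.Prime.dvd_mul hp).mp h1 with h2 | h2 <;>
      have := Nat.le_of_dvd (by norm_num) h2 <;> omega
  · exact not_dvd_of_abs (by norm_num) (by norm_num; omega)

/-- `L = 13`, from the third coefficients of the eigenforms of level `26` -/
theorem noSol_thirteen_of {p : ℕ} (hp : p.Prime) (hp11 : 11 ≤ p) (H : IrrAB p)
    (hS : ∀ f : CuspForm (CongruenceSubgroup.Gamma0 26) 2, f.IsNormalizedEigenform →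
      qCoeff f 3 = 1 ∨ qCoeff f 3 = -3) : NoSol p 13 := by
  refine noSol_of_three hp (by omega) (by norm_num) (by norm_num) H fun f hf => ?_
  rcases hS f hf with h | h
  · exact ⟨1, by rw [h]; norm_num, not_dvd_of_abs (by norm_num) (by norm_num; omega),
      not_dvd_of_abs (by norm_num) (by norm_num; omega),
      not_dvd_of_abs (by norm_num) (by norm_num; omega)⟩
  · exact ⟨-3, by rw [h]; norm_num, not_dvd_of_abs (by norm_num) (by norm_num; omega),
      not_dvd_of_abs (by norm_num) (by norm_num; omega),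
      not_dvd_of_abs (by norm_num) (by norm_num; omega)⟩

/-- `L = 11`, from the third coefficient of the eigenforms of level `22` -/
theorem noSol_eleven_of {p : ℕ} (hp : p.Prime) (hp11 : 11 ≤ p) (H : IrrAB p)
    (hS : ∀ f : CuspForm (CongruenceSubgroup.Gamma0 22) 2, f.IsNormalizedEigenform →
      qCoeff f 3 = -1) : NoSol p 11 := by
  refine noSol_of_three hp (by omega) (by norm_num) (by norm_num) H fun f hf => ⟨-1, ?_, ?_, ?_, ?_⟩
  · rw [hS f hf]; norm_num
  · exact not_dvd_of_abs (by norm_num) (by norm_num; omega)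
  · exact not_dvd_of_abs (by norm_num) (by norm_num; omega)
  · exact not_dvd_of_abs (by norm_num) (by norm_num; omega)

/-! ### the final statements -/

theorem noSol_seven {p : ℕ} (hp : p.Prime) (h : p = 5 ∨ (11 ≤ p ∧ p ≠ 13)) : NoSol p 7 :=
  noSol_seven_of hp (by omega) (irrAB_of hp h) fun _ hf => EigenTable.a3_fourteen hf

theorem noSol_eleven {p : ℕ} (hp : p.Prime) (h : 11 ≤ p) (h13 : p ≠ 13) : NoSol p 11 :=
  noSol_eleven_of hp h (irrAB_of hp (Or.inr ⟨h, h13⟩)) fun _ hf => EigenTable.a3_twentytwo hf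

theorem noSol_thirteen {p : ℕ} (hp : p.Prime) (h : 11 ≤ p) (h13 : p ≠ 13) : NoSol p 13 :=
  noSol_thirteen_of hp h (irrAB_of hp (Or.inr ⟨h, h13⟩)) fun _ hf =>
    (EigenTable.coeff_twentysix hf).imp (fun h => h.1) fun h => h.1

/-- **Serre's theorem for `L = 3, 5, 7, 11, 13`**, symmetric form: `p ≥ 11` a prime, `p ≠ 13` (the case `p = L = 11`
is included). -/
theorem serre_symmetric {p L : ℕ} (hp : p.Prime) (h : 11 ≤ p) (h13 : p ≠ 13)
    (hL : L ∈ ({3, 5, 7, 11, 13} : Finset ℕ)) (α β γ : ℕ) {x y z : ℤ} (hx : x ≠ 0) (hy : y ≠ 0)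
    (hz : z ≠ 0) : (L : ℤ) ^ α * x ^ p + (L : ℤ) ^ β * y ^ p + (L : ℤ) ^ γ * z ^ p ≠ 0 := by
  have hirr := irrAB_of hp (Or.inr ⟨h, h13⟩)
  have hp5 : 5 ≤ p := by omega
  simp only [Finset.mem_insert, Finset.mem_singleton] at hL
  rcases hL with rfl | rfl | rfl | rfl | rfl
  · exact serre_three_of hp hp5 hirr α β γ hx hy hz
  · exact serre_five_of hp hp5 hirr α β γ hx hy hz
  · exact serre_sym hp5 (by norm_num) (by norm_num) (noSol_seven hp (Or.inr ⟨h, h13⟩)) α β γ hx hy hz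
  · exact serre_sym hp5 (by norm_num) (by norm_num) (noSol_eleven hp h h13) α β γ hx hy hz
  · exact serre_sym hp5 (by norm_num) (by norm_num) (noSol_thirteen hp h h13) α β γ hx hy hz

/-- **Serre's theorem for `L = 3, 5, 7, 11, 13`.** Let `p ≥ 11` be a prime, `p ≠ 13`. Then
`x ^ p + y ^ p = L ^ α z ^ p` has no solutions in nonzero integers. -/
theorem serre_equation {p L : ℕ} (hp : p.Prime) (h : 11 ≤ p) (h13 : p ≠ 13)
    (hL : L ∈ ({3, 5, 7, 11, 13} : Finset ℕ)) (α : ℕ) {x y z : ℤ} (hx : x ≠ 0) (hy : y ≠ 0)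
    (hz : z ≠ 0) : x ^ p + y ^ p ≠ (L : ℤ) ^ α * z ^ p := by
  intro he
  have hodd : Odd p := hp.odd_of_ne_two (by omega)
  refine serre_symmetric hp h h13 hL 0 0 α hx hy (neg_ne_zero.mpr hz) ?_
  rw [hodd.neg_pow]
  linear_combination he

/-- `x⁵ + y⁵ = 7 ^ α z⁵` has no solutions in nonzero integers. -/
theorem serre_five_seven (α : ℕ) {x y z : ℤ} (hx : x ≠ 0) (hy : y ≠ 0) (hz : z ≠ 0) :
    x ^ 5 + y ^ 5 ≠ 7 ^ α * z ^ 5 := by
  intro he
  refine serre_sym (p := 5) (L := 7) le_rfl (by norm_num) (by norm_num)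
    (noSol_seven Nat.prime_five (Or.inl rfl)) 0 0 α hx hy (neg_ne_zero.mpr hz) ?_
  rw [(by decide : Odd 5).neg_pow]
  push_cast
  linear_combination he

end Fermat.Agent.Cor.H18
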