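import Mathlib

/-!
# Serre's generalised Fermat equations: the arithmetic

`NoSol p L` is the output of modularity, level lowering and irreducibility for the Frey curves
`y² = x (x - A) (x + B)`: there are no coprime integers `A`, `B` with `A ≡ 3 mod 4`, `32 ∣ B` (and `p ∤ v₂(B) - 4`)
such that `A B (A + B) ≠ 0` is a `p`-th power away from `2` and `L`. Here the equations
`x ^ p + y ^ p = L ^ α * z ^ p` are deduced from it.

This file is not used by any of the statement files.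
-/

set_option autoImplicit false

namespace Fermat.Agent.Cor.H11

/-- The output of modularity and level lowering: no Frey curve has level `2 L` (or `2`). -/
def NoSol (p L : ℕ) : Prop :=
  ∀ A B : ℤ, IsCoprime A B → A % 4 = 3 → 32 ∣ B → B ≠ 0 → A * B * (A + B) ≠ 0 →
    ¬ (p : ℤ) ∣ (padicValInt 2 B : ℤ) - 4 →
    (∀ ℓ : ℕ, ℓ.Prime → ℓ ≠ 2 → ℓ ≠ L → p ∣ padicValInt ℓ (A * B * (A + B))) → False

lemma padicValInt_neg' (ℓ : ℕ) (x : ℤ) : padicValInt ℓ (-x) = padicValInt ℓ x := by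
  simp [padicValInt]

/-- the coprime case, `Y` even -/
theorem false_of_coprime {p L : ℕ} (hp5 : 5 ≤ p) (hL2 : L ≠ 2) (H : NoSol p L)
    {X Y Z : ℤ} (hX : X ≠ 0) (hY : Y ≠ 0) (hZ : Z ≠ 0) (hsum : X + Y + Z = 0)
    (hXY : IsCoprime X Y) (h2 : 2 ∣ Y)
    (hv : ∀ ℓ : ℕ, ℓ.Prime → ℓ ≠ L →
      p ∣ padicValInt ℓ X ∧ p ∣ padicValInt ℓ Y ∧ p ∣ padicValInt ℓ Z) : False := by
  have hval : 5 ≤ padicValInt 2 Y := by
    have h1 : p ∣ padicValInt 2 Y := (hv 2 Nat.prime_two (Ne.symm hL2)).2.1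
    have h3 : padicValInt 2 Y ≠ 0 := by
      rw [Ne, padicValInt.eq_zero_iff]
      push Not
      exact ⟨by norm_num, hY, by exact_mod_cast h2⟩
    exact hp5.trans (Nat.le_of_dvd (Nat.pos_of_ne_zero h3) h1)
  have h32 : (32 : ℤ) ∣ Y := by
    have := (padicValInt_dvd_iff (p := 2) 5 Y).mpr (Or.inr hval)
    exact_mod_cast this
  have hp4 : ¬ (p : ℤ) ∣ (padicValInt 2 Y : ℤ) - 4 := by
    intro h
    have h1 : (p : ℤ) ∣ (padicValInt 2 Y : ℤ) := by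
      exact_mod_cast (hv 2 Nat.prime_two (Ne.symm hL2)).2.1
    have h3 : (p : ℤ) ∣ 4 := by
      have := dvd_sub h1 h
      simpa using this
    have h4 : p ∣ 4 := by exact_mod_cast h3
    have := Nat.le_of_dvd (by norm_num) h4
    omega
  have hXodd : X % 2 = 1 := by
    by_contra hcon
    have h3 : (2 : ℤ) ∣ X := by omega
    have := hXY.isUnit_of_dvd' h3 h2
    exact absurd (Int.isUnit_iff.mp this) (by norm_num)
  have key : ∀ A C : ℤ, A ≠ 0 → C ≠ 0 → A + Y + C = 0 → IsCoprime A Y → A % 4 = 3 →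
      (∀ ℓ : ℕ, ℓ.Prime → ℓ ≠ L → p ∣ padicValInt ℓ A ∧ p ∣ padicValInt ℓ C) → False := by
    intro A C hA hC hs hcop hA4 hvv
    have hAY : A + Y = -C := by linarith
    refine H A Y hcop hA4 h32 hY ?_ hp4 ?_
    · rw [hAY]
      exact mul_ne_zero (mul_ne_zero hA hY) (neg_ne_zero.mpr hC)
    · intro ℓ hℓ hℓ2 hℓL
      have : Fact ℓ.Prime := ⟨hℓ⟩
      rw [hAY, padicValInt.mul (mul_ne_zero hA hY) (neg_ne_zero.mpr hC), padicValInt.mul hA hY,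
        padicValInt_neg']
      obtain ⟨h3, h4⟩ := hvv ℓ hℓ hℓL
      exact dvd_add (dvd_add h3 (hv ℓ hℓ hℓL).2.1) h4
  rcases (show X % 4 = 3 ∨ X % 4 = 1 by omega) with h4 | h4
  · exact key X Z hX hZ hsum hXY h4 fun ℓ hℓ hℓL => ⟨(hv ℓ hℓ hℓL).1, (hv ℓ hℓ hℓL).2.2⟩
  · refine key Z X hZ hX (by linarith) ?_ (by omega) fun ℓ hℓ hℓL =>
      ⟨(hv ℓ hℓ hℓL).2.2, (hv ℓ hℓ hℓL).1⟩
    have h5 : Z = -X + Y * (-1) := by linarith
    rw [h5]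
    exact (hXY.neg_left).add_mul_left_left (-1)

/-- **The general form.** Three nonzero integers with sum `0` are not all `p`-th powers up to powers of `L` and
up to sign. -/
theorem false_of_sum {p L : ℕ} (hp5 : 5 ≤ p) (hL2 : L ≠ 2) (H : NoSol p L)
    {X Y Z : ℤ} (hX : X ≠ 0) (hY : Y ≠ 0) (hZ : Z ≠ 0) (hsum : X + Y + Z = 0)
    (hv : ∀ ℓ : ℕ, ℓ.Prime → ℓ ≠ L →
      p ∣ padicValInt ℓ X ∧ p ∣ padicValInt ℓ Y ∧ p ∣ padicValInt ℓ Z) : False := by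
  -- division by the gcd
  obtain ⟨g, x, y, hg0, hxy, hx, hy⟩ : ∃ g x y : ℤ, g ≠ 0 ∧ IsCoprime x y ∧ X = g * x ∧ Y = g * y := by
    refine ⟨(Int.gcd X Y : ℤ), X / (Int.gcd X Y : ℤ), Y / (Int.gcd X Y : ℤ), ?_, ?_, ?_, ?_⟩
    · have := Int.gcd_ne_zero_left (b := Y) hX
      exact_mod_cast this
    · rw [Int.isCoprime_iff_gcd_eq_one]
      exact Int.gcd_div_gcd_div_gcd (Int.gcd_pos_of_ne_zero_left Y hX)
    · exact (Int.mul_ediv_cancel' (Int.gcd_dvd_left ..)).symm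
    · exact (Int.mul_ediv_cancel' (Int.gcd_dvd_right ..)).symm
  have hx0 : x ≠ 0 := by rintro rfl; exact hX (by rw [hx, mul_zero])
  have hy0 : y ≠ 0 := by rintro rfl; exact hY (by rw [hy, mul_zero])
  have hz : Z = g * (-(x + y)) := by rw [hx, hy] at hsum; linarith
  have hz0 : -(x + y) ≠ 0 := by intro h; exact hZ (by rw [hz, h, mul_zero])
  have hg : ∀ ℓ : ℕ, ℓ.Prime → ℓ ≠ L → p ∣ padicValInt ℓ g := by
    intro ℓ hℓ hℓL
    have : Fact ℓ.Prime := ⟨hℓ⟩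
    obtain ⟨h1, h2, -⟩ := hv ℓ hℓ hℓL
    rw [hx, padicValInt.mul hg0 hx0] at h1
    rw [hy, padicValInt.mul hg0 hy0] at h2
    by_cases h3 : (ℓ : ℤ) ∣ x
    · have h4 : ¬ (ℓ : ℤ) ∣ y := by
        intro h5
        have := hxy.isUnit_of_dvd' h3 h5
        exact (Nat.prime_iff_prime_int.mp hℓ).not_isUnit this
      rwa [padicValInt.eq_zero_of_not_dvd h4, add_zero] at h2
    · rwa [padicValInt.eq_zero_of_not_dvd h3, add_zero] at h1
  have hv' : ∀ ℓ : ℕ, ℓ.Prime → ℓ ≠ L →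
      p ∣ padicValInt ℓ x ∧ p ∣ padicValInt ℓ y ∧ p ∣ padicValInt ℓ (-(x + y)) := by
    intro ℓ hℓ hℓL
    have : Fact ℓ.Prime := ⟨hℓ⟩
    obtain ⟨h1, h2, h3⟩ := hv ℓ hℓ hℓL
    rw [hx, padicValInt.mul hg0 hx0] at h1
    rw [hy, padicValInt.mul hg0 hy0] at h2
    rw [hz, padicValInt.mul hg0 hz0] at h3
    have h4 := hg ℓ hℓ hℓL
    exact ⟨(Nat.dvd_add_right h4).mp h1, (Nat.dvd_add_right h4).mp h2, (Nat.dvd_add_right h4).mp h3⟩
  have hs' : x + y + -(x + y) = 0 := by ring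
  have hxz : IsCoprime x (-(x + y)) := by
    rw [IsCoprime.neg_right_iff]
    have := hxy.mul_add_left_right 1
    rwa [mul_one] at this
  have hyz : IsCoprime y (-(x + y)) := by
    rw [IsCoprime.neg_right_iff]
    have := hxy.symm.add_mul_left_right 1
    rwa [mul_one] at this
  by_cases h2y : (2 : ℤ) ∣ y
  · exact false_of_coprime hp5 hL2 H hx0 hy0 hz0 hs' hxy h2y hv'
  by_cases h2x : (2 : ℤ) ∣ x
  · exact false_of_coprime hp5 hL2 H hy0 hx0 hz0 (by ring) hxy.symm h2x fun ℓ hℓ hℓL =>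
      ⟨(hv' ℓ hℓ hℓL).2.1, (hv' ℓ hℓ hℓL).1, (hv' ℓ hℓ hℓL).2.2⟩
  · exact false_of_coprime hp5 hL2 H hx0 hz0 hy0 (by ring) hxz (by omega) fun ℓ hℓ hℓL =>
      ⟨(hv' ℓ hℓ hℓL).1, (hv' ℓ hℓ hℓL).2.2, (hv' ℓ hℓ hℓL).2.1⟩

lemma padicValInt_pow' (ℓ : ℕ) [Fact ℓ.Prime] (n : ℕ) (z : ℤ) :
    padicValInt ℓ (z ^ n) = n * padicValInt ℓ z := by
  rw [padicValInt, Int.natAbs_pow, padicValNat.pow, padicValInt]

lemma dvd_padicValInt_pow {p L ℓ : ℕ} (hℓ : ℓ.Prime) (hL : L.Prime) (hℓL : ℓ ≠ L) (α : ℕ) {z : ℤ}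
    (hz : z ≠ 0) : p ∣ padicValInt ℓ ((L : ℤ) ^ α * z ^ p) := by
  have : Fact ℓ.Prime := ⟨hℓ⟩
  have hL0 : (L : ℤ) ≠ 0 := by exact_mod_cast hL.ne_zero
  have h1 : padicValInt ℓ (L : ℤ) = 0 := by
    apply padicValInt.eq_zero_of_not_dvd
    intro h
    exact hℓL ((Nat.prime_dvd_prime_iff_eq hℓ hL).mp (by exact_mod_cast h))
  rw [padicValInt.mul (pow_ne_zero _ hL0) (pow_ne_zero _ hz), padicValInt_pow', padicValInt_pow',
    h1, mul_zero, zero_add]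
  exact dvd_mul_right _ _

/-- **Serre's equations** `L ^ α x ^ p + L ^ β y ^ p + L ^ γ z ^ p = 0`. -/
theorem serre_sym {p L : ℕ} (hp5 : 5 ≤ p) (hL : L.Prime) (hL2 : L ≠ 2) (H : NoSol p L)
    (α β γ : ℕ) {x y z : ℤ} (hx : x ≠ 0) (hy : y ≠ 0) (hz : z ≠ 0) :
    (L : ℤ) ^ α * x ^ p + (L : ℤ) ^ β * y ^ p + (L : ℤ) ^ γ * z ^ p ≠ 0 := by
  intro h
  have hL0 : (L : ℤ) ≠ 0 := by exact_mod_cast hL.ne_zero
  exact false_of_sum hp5 hL2 H (mul_ne_zero (pow_ne_zero _ hL0) (pow_ne_zero _ hx))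
    (mul_ne_zero (pow_ne_zero _ hL0) (pow_ne_zero _ hy))
    (mul_ne_zero (pow_ne_zero _ hL0) (pow_ne_zero _ hz)) h fun ℓ hℓ hℓL =>
      ⟨dvd_padicValInt_pow hℓ hL hℓL _ hx, dvd_padicValInt_pow hℓ hL hℓL _ hy,
        dvd_padicValInt_pow hℓ hL hℓL _ hz⟩

/-- **Serre's equations** `x ^ p + y ^ p = L ^ α z ^ p`. -/
theorem serre_eq {p L : ℕ} (hp : p.Prime) (hp5 : 5 ≤ p) (hL : L.Prime) (hL2 : L ≠ 2)
    (H : NoSol p L) (α : ℕ) {x y z : ℤ} (hx : x ≠ 0) (hy : y ≠ 0) (hz : z ≠ 0) :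
    x ^ p + y ^ p ≠ (L : ℤ) ^ α * z ^ p := by
  intro h
  have hodd : Odd p := hp.odd_of_ne_two (by omega)
  refine serre_sym hp5 hL hL2 H 0 0 α hx hy (neg_ne_zero.mpr hz) ?_
  rw [hodd.neg_pow]
  linear_combination h

end Fermat.Agent.Cor.H11
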