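import Mathlib
import Fermat.Agent.Cor.H11Serre

/-!
# Generalised Fermat equations with a power of `2`: the arithmetic

`NoFrey p L G` is the output of modularity, level lowering and irreducibility for the Frey curves
`y² = x (x - A) (x + B)`: there are no coprime integers `A`, `B` with `A ≡ 3 mod 4` such that
`A B (A + B) ≠ 0` is a `p`-th power away from `2` and `L` and such that `v₂(B)` has the
property `G` (for instance `v₂(B) ≥ 5` and `v₂(B) ≢ 4 mod p`).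

From it we deduce that `L ^ α x ^ p + L ^ β y ^ p + 2 ^ k L ^ γ z ^ p ≠ 0` for nonzero
integers `x`, `y`, `z`, if `5 ≤ k mod p`.

This file is not used by any of the statement files.
-/

set_option autoImplicit false

namespace Fermat.Agent.Cor.H24

open Fermat.Agent.Cor.H11 (NoSol)

/-- The output of modularity and level lowering for Frey curves, with a condition on `v₂(B)`. -/
def NoFrey (p L : ℕ) (G : ℕ → Prop) : Prop :=
  ∀ A B : ℤ, IsCoprime A B → A % 4 = 3 → A * B * (A + B) ≠ 0 → G (padicValInt 2 B) →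
    (∀ ℓ : ℕ, ℓ.Prime → ℓ ≠ 2 → ℓ ≠ L → p ∣ padicValInt ℓ (A * B * (A + B))) → False

theorem noFrey_of_noSol {p L : ℕ} (H : NoSol p L) :
    NoFrey p L (fun v => 5 ≤ v ∧ ¬ (p : ℤ) ∣ (v : ℤ) - 4) := by
  intro A B hcop hA h0 hG hv
  have hB0 : B ≠ 0 := by rintro rfl; simp at h0
  have h32 : (32 : ℤ) ∣ B := by
    have := (padicValInt_dvd_iff (p := 2) 5 B).mpr (Or.inr hG.1)
    exact_mod_cast this
  exact H A B hcop hA h32 hB0 h0 hG.2 hv

theorem NoFrey.mono {p L : ℕ} {G G' : ℕ → Prop} (H : NoFrey p L G) (h : ∀ v, G' v → G v) :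
    NoFrey p L G' := fun A B hcop hA h0 hG hv => H A B hcop hA h0 (h _ hG) hv

theorem NoFrey.one {p L : ℕ} {G : ℕ → Prop} (H : NoFrey p L G) : NoFrey p 1 G :=
  fun A B hcop hA h0 hG hv => H A B hcop hA h0 hG fun ℓ hℓ hℓ2 _ => hv ℓ hℓ hℓ2 hℓ.one_lt.ne'

lemma padicValInt_neg'' (ℓ : ℕ) (x : ℤ) : padicValInt ℓ (-x) = padicValInt ℓ x := by
  simp [padicValInt]

/-- the coprime case -/
theorem NoFrey.false_of_coprime {p L : ℕ} {G : ℕ → Prop} (H : NoFrey p L G)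
    {X Y Z : ℤ} (hX : X ≠ 0) (hY : Y ≠ 0) (hZ : Z ≠ 0) (hsum : X + Y + Z = 0)
    (hXY : IsCoprime X Y) (h4 : (4 : ℤ) ∣ Z) (hG : G (padicValInt 2 Z))
    (hv : ∀ ℓ : ℕ, ℓ.Prime → ℓ ≠ 2 → ℓ ≠ L →
      p ∣ padicValInt ℓ X ∧ p ∣ padicValInt ℓ Y ∧ p ∣ padicValInt ℓ Z) : False := by
  have hXZ : IsCoprime X Z := by
    have e : Z = -(Y + X * 1) := by linarith
    rw [e, IsCoprime.neg_right_iff]
    exact hXY.add_mul_left_right 1
  have hYZ : IsCoprime Y Z := by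
    have e : Z = -(X + Y * 1) := by linarith
    rw [e, IsCoprime.neg_right_iff]
    exact hXY.symm.add_mul_left_right 1
  have hXodd : X % 2 = 1 := by
    by_contra hcon
    have h3 : (2 : ℤ) ∣ X := by omega
    have := hXZ.isUnit_of_dvd' h3 (Dvd.dvd.trans (by norm_num) h4)
    exact absurd (Int.isUnit_iff.mp this) (by norm_num)
  have key : ∀ A C : ℤ, A ≠ 0 → C ≠ 0 → A + Z + C = 0 → IsCoprime A Z → A % 4 = 3 →
      (∀ ℓ : ℕ, ℓ.Prime → ℓ ≠ 2 → ℓ ≠ L → p ∣ padicValInt ℓ A ∧ p ∣ padicValInt ℓ C) →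
      False := by
    intro A C hA hC hs hcop hA4 hvv
    have hAZ : A + Z = -C := by linarith
    refine H A Z hcop hA4 ?_ hG ?_
    · rw [hAZ]
      exact mul_ne_zero (mul_ne_zero hA hZ) (neg_ne_zero.mpr hC)
    · intro ℓ hℓ hℓ2 hℓL
      have : Fact ℓ.Prime := ⟨hℓ⟩
      rw [hAZ, padicValInt.mul (mul_ne_zero hA hZ) (neg_ne_zero.mpr hC), padicValInt.mul hA hZ,
        padicValInt_neg'']
      obtain ⟨h5, h6⟩ := hvv ℓ hℓ hℓ2 hℓL
      exact dvd_add (dvd_add h5 (hv ℓ hℓ hℓ2 hℓL).2.2) h6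
  rcases (show X % 4 = 3 ∨ X % 4 = 1 by omega) with h | h
  · exact key X Y hX hY (by linarith) hXZ h fun ℓ hℓ hℓ2 hℓL =>
      ⟨(hv ℓ hℓ hℓ2 hℓL).1, (hv ℓ hℓ hℓ2 hℓL).2.1⟩
  · exact key Y X hY hX (by linarith) hYZ (by omega) fun ℓ hℓ hℓ2 hℓL =>
      ⟨(hv ℓ hℓ hℓ2 hℓL).2.1, (hv ℓ hℓ hℓ2 hℓL).1⟩

/-- **The general form.** Three nonzero integers with sum `0` are not all `p`-th powers up to
sign and up to powers of `2` and `L`, if `v₂(X) = v₂(Y) = a`, `v₂(Z) = a + v` with `G v`. -/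
theorem NoFrey.false_of_sum {p L : ℕ} {G : ℕ → Prop} (H : NoFrey p L G)
    {X Y Z : ℤ} (hX : X ≠ 0) (hY : Y ≠ 0) (hZ : Z ≠ 0) (hsum : X + Y + Z = 0)
    {v : ℕ} (hv2 : 2 ≤ v) (hXY : padicValInt 2 X = padicValInt 2 Y)
    (hXZ : padicValInt 2 Z = padicValInt 2 X + v) (hG : G v)
    (hv : ∀ ℓ : ℕ, ℓ.Prime → ℓ ≠ 2 → ℓ ≠ L →
      p ∣ padicValInt ℓ X ∧ p ∣ padicValInt ℓ Y ∧ p ∣ padicValInt ℓ Z) : False := by
  -- division by the gcd
  obtain ⟨g, x, y, hg0, hxy, hx, hy⟩ :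
      ∃ g x y : ℤ, g ≠ 0 ∧ IsCoprime x y ∧ X = g * x ∧ Y = g * y := by
    refine ⟨(Int.gcd X Y : ℤ), X / (Int.gcd X Y : ℤ), Y / (Int.gcd X Y : ℤ), ?_, ?_, ?_, ?_⟩
    · have := Int.gcd_ne_zero_left (b := Y) hX
      exact_mod_cast this
    · rw [Int.isCoprime_iff_gcd_eq_one]
      exact Int.gcd_div_gcd_div_gcd (Int.gcd_pos_of_ne_zero_left Y hX)
    · exact (Int.mul_ediv_cancel' (Int.gcd_dvd_left ..)).symm
    · exact (Int.mul_ediv_cancel' (Int.gcd_dvd_right ..)).symm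
  have hx0 : x ≠ 0 := by rintro rfl; exact hX (by rw [hx, mul_zero])
  have hy0 : y ≠ 0 := by rintro rfl; exact hY (by rw [hy, mul_zero])
  have hz : Z = g * (-(x + y)) := by rw [hx, hy] at hsum; linarith
  have hz0 : -(x + y) ≠ 0 := by intro h; exact hZ (by rw [hz, h, mul_zero])
  have hg : ∀ ℓ : ℕ, ℓ.Prime → ℓ ≠ 2 → ℓ ≠ L → p ∣ padicValInt ℓ g := by
    intro ℓ hℓ hℓ2 hℓL
    have : Fact ℓ.Prime := ⟨hℓ⟩
    obtain ⟨h1, h2, -⟩ := hv ℓ hℓ hℓ2 hℓL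
    rw [hx, padicValInt.mul hg0 hx0] at h1
    rw [hy, padicValInt.mul hg0 hy0] at h2
    by_cases h3 : (ℓ : ℤ) ∣ x
    · have h4 : ¬ (ℓ : ℤ) ∣ y := by
        intro h5
        have := hxy.isUnit_of_dvd' h3 h5
        exact (Nat.prime_iff_prime_int.mp hℓ).not_isUnit this
      rwa [padicValInt.eq_zero_of_not_dvd h4, add_zero] at h2
    · rwa [padicValInt.eq_zero_of_not_dvd h3, add_zero] at h1
  have hv' : ∀ ℓ : ℕ, ℓ.Prime → ℓ ≠ 2 → ℓ ≠ L →
      p ∣ padicValInt ℓ x ∧ p ∣ padicValInt ℓ y ∧ p ∣ padicValInt ℓ (-(x + y)) := by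
    intro ℓ hℓ hℓ2 hℓL
    have : Fact ℓ.Prime := ⟨hℓ⟩
    obtain ⟨h1, h2, h3⟩ := hv ℓ hℓ hℓ2 hℓL
    rw [hx, padicValInt.mul hg0 hx0] at h1
    rw [hy, padicValInt.mul hg0 hy0] at h2
    rw [hz, padicValInt.mul hg0 hz0] at h3
    have h4 := hg ℓ hℓ hℓ2 hℓL
    exact ⟨(Nat.dvd_add_right h4).mp h1, (Nat.dvd_add_right h4).mp h2,
      (Nat.dvd_add_right h4).mp h3⟩
  have hs' : x + y + -(x + y) = 0 := by ring
  -- the valuations at 2
  rw [hx, hy, padicValInt.mul hg0 hx0, padicValInt.mul hg0 hy0] at hXY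
  rw [hz, hx, padicValInt.mul hg0 hx0, padicValInt.mul hg0 hz0] at hXZ
  have hx2 : padicValInt 2 x = 0 := by
    by_contra hcon
    have h1 : ∀ t : ℤ, padicValInt 2 t ≠ 0 → (2 : ℤ) ∣ t := by
      intro t ht
      by_contra h
      exact ht (padicValInt.eq_zero_of_not_dvd h)
    have := hxy.isUnit_of_dvd' (h1 x hcon) (h1 y (by omega))
    exact absurd (Int.isUnit_iff.mp this) (by norm_num)
  have hvz : padicValInt 2 (-(x + y)) = v := by omega
  have h4 : (4 : ℤ) ∣ -(x + y) := by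
    have := (padicValInt_dvd_iff (p := 2) 2 (-(x + y))).mpr (Or.inr (by omega))
    exact_mod_cast this
  exact H.false_of_coprime hx0 hy0 hz0 hs' hxy h4 (by rw [hvz]; exact hG) hv'

/-- the 2-adic valuations of three integers with sum `0` -/
lemma val_two_of_sum {X Y Z : ℤ} (hX : X ≠ 0) (hY : Y ≠ 0) (hZ : Z ≠ 0) (hsum : X + Y + Z = 0)
    (hXZ : padicValInt 2 X ≠ padicValInt 2 Z) (hYZ : padicValInt 2 Y ≠ padicValInt 2 Z) :
    padicValInt 2 X = padicValInt 2 Y ∧ padicValInt 2 X < padicValInt 2 Z := by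
  have key : ∀ {a b c : ℤ}, a ≠ 0 → b ≠ 0 → c ≠ 0 → a + b + c = 0 →
      padicValInt 2 a < padicValInt 2 b → padicValInt 2 c = padicValInt 2 a := by
    intro a b c ha hb hc hs hab
    have ha' : (a : ℚ) ≠ 0 := by exact_mod_cast ha
    have hb' : (b : ℚ) ≠ 0 := by exact_mod_cast hb
    have hab' : ((a : ℚ) + b) ≠ 0 := by
      have : (a : ℚ) + b = -c := by
        have := congrArg (Int.cast : ℤ → ℚ) hs
        push_cast at this; linarith
      rw [this, neg_ne_zero]; exact_mod_cast hc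
    have h := padicValRat.add_eq_of_lt (p := 2) hab' ha' hb' (by
      rw [padicValRat.of_int, padicValRat.of_int]; exact_mod_cast hab)
    have e : (a : ℚ) + b = ((-c : ℤ) : ℚ) := by
      have := congrArg (Int.cast : ℤ → ℚ) hs
      push_cast at this ⊢; linarith
    rw [e, padicValRat.of_int, padicValRat.of_int, padicValInt_neg''] at h
    exact_mod_cast h
  have h1 : padicValInt 2 X = padicValInt 2 Y := by
    rcases lt_trichotomy (padicValInt 2 X) (padicValInt 2 Y) with h | h | h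
    · exact absurd (key hX hY hZ hsum h).symm hXZ
    · exact h
    · exact absurd (key hY hX hZ (by linarith) h).symm hYZ
  refine ⟨h1, ?_⟩
  rcases lt_trichotomy (padicValInt 2 X) (padicValInt 2 Z) with h | h | h
  · exact h
  · exact absurd h hXZ
  · have := key hZ hX hY (by linarith) h
    omega

lemma padicValInt_pow'' (ℓ : ℕ) [Fact ℓ.Prime] (n : ℕ) (z : ℤ) :
    padicValInt ℓ (z ^ n) = n * padicValInt ℓ z := by
  rw [padicValInt, Int.natAbs_pow, padicValNat.pow, padicValInt]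

/-- the valuation of `c * z ^ p` at a prime not dividing `c` -/
lemma val_mul_pow {c z : ℤ} (hz : z ≠ 0) {ℓ : ℕ} (hℓ : ℓ.Prime) (hc : ¬ (ℓ : ℤ) ∣ c) (p : ℕ) :
    padicValInt ℓ (c * z ^ p) = p * padicValInt ℓ z := by
  have : Fact ℓ.Prime := ⟨hℓ⟩
  have hc0 : c ≠ 0 := by rintro rfl; exact hc (dvd_zero _)
  rw [padicValInt.mul hc0 (pow_ne_zero _ hz), padicValInt_pow'',
    padicValInt.eq_zero_of_not_dvd hc, zero_add]

lemma not_dvd_pow {ℓ L : ℕ} (hℓ : ℓ.Prime) (hL : L.Prime) (h : ℓ ≠ L) (α : ℕ) :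
    ¬ (ℓ : ℤ) ∣ (L : ℤ) ^ α := by
  intro h1
  have h2 := (Nat.prime_iff_prime_int.mp hℓ).dvd_of_dvd_pow h1
  exact h ((Nat.prime_dvd_prime_iff_eq hℓ hL).mp (by exact_mod_cast h2))

/-- **Generalised Fermat equations with a power of two**: the symmetric form. -/
theorem NoFrey.eq_sym {p L : ℕ} {G : ℕ → Prop} (H : NoFrey p L G) (hL : L.Prime) (hL2 : L ≠ 2)
    {k : ℕ} (hk : 2 ≤ k % p) (hG : ∀ v : ℕ, v % p = k % p → G v) (α β γ : ℕ) {x y z : ℤ}
    (hx : x ≠ 0) (hy : y ≠ 0) (hz : z ≠ 0) :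
    (L : ℤ) ^ α * x ^ p + (L : ℤ) ^ β * y ^ p + 2 ^ k * (L : ℤ) ^ γ * z ^ p ≠ 0 := by
  intro hsum
  have hL0 : (L : ℤ) ≠ 0 := by exact_mod_cast hL.ne_zero
  have h2L : ∀ δ : ℕ, ¬ ((2 : ℕ) : ℤ) ∣ (L : ℤ) ^ δ := fun δ =>
    not_dvd_pow Nat.prime_two hL (Ne.symm hL2) δ
  have hX0 : (L : ℤ) ^ α * x ^ p ≠ 0 := mul_ne_zero (pow_ne_zero _ hL0) (pow_ne_zero _ hx)
  have hY0 : (L : ℤ) ^ β * y ^ p ≠ 0 := mul_ne_zero (pow_ne_zero _ hL0) (pow_ne_zero _ hy)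
  have hk0 : (2 : ℤ) ^ k ≠ 0 := pow_ne_zero _ two_ne_zero
  have hZ0' : (L : ℤ) ^ γ * z ^ p ≠ 0 := mul_ne_zero (pow_ne_zero _ hL0) (pow_ne_zero _ hz)
  have hZ0 : 2 ^ k * (L : ℤ) ^ γ * z ^ p ≠ 0 := by rw [mul_assoc]; exact mul_ne_zero hk0 hZ0'
  have vX : padicValInt 2 ((L : ℤ) ^ α * x ^ p) = p * padicValInt 2 x :=
    val_mul_pow hx Nat.prime_two (h2L α) p
  have vY : padicValInt 2 ((L : ℤ) ^ β * y ^ p) = p * padicValInt 2 y :=
    val_mul_pow hy Nat.prime_two (h2L β) p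
  have vZ : padicValInt 2 (2 ^ k * (L : ℤ) ^ γ * z ^ p) = k + p * padicValInt 2 z := by
    rw [mul_assoc, padicValInt.mul hk0 hZ0', val_mul_pow hz Nat.prime_two (h2L γ) p,
      padicValInt_pow'']
    have : padicValInt 2 (2 : ℤ) = 1 := padicValInt_self (p := 2)
    rw [this, mul_one]
  have hmod : ∀ a b : ℕ, p * a ≠ k + p * b := by
    intro a b h
    have h1 : (k + p * b) % p = k % p := Nat.add_mul_mod_self_left _ _ _
    rw [← h, Nat.mul_mod_right] at h1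
    omega
  obtain ⟨h1, h2⟩ := val_two_of_sum hX0 hY0 hZ0 hsum (by rw [vX, vZ]; exact hmod _ _)
    (by rw [vY, vZ]; exact hmod _ _)
  obtain ⟨v, hv⟩ := Nat.exists_eq_add_of_le h2.le
  have hvk : v % p = k % p := by
    rw [vX, vZ] at hv
    have h3 : (k + p * padicValInt 2 z) % p = (p * padicValInt 2 x + v) % p := by rw [hv]
    rw [Nat.add_mul_mod_self_left, Nat.mul_add_mod] at h3
    exact h3.symm
  have hv2 : 2 ≤ v := by
    have := Nat.mod_le v p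
    omega
  refine H.false_of_sum hX0 hY0 hZ0 hsum hv2 h1 hv (hG v hvk) ?_
  intro ℓ hℓ hℓ2 hℓL
  have hd : ∀ δ : ℕ, ¬ (ℓ : ℤ) ∣ (L : ℤ) ^ δ := fun δ => not_dvd_pow hℓ hL hℓL δ
  refine ⟨?_, ?_, ?_⟩
  · rw [val_mul_pow hx hℓ (hd α)]; exact dvd_mul_right _ _
  · rw [val_mul_pow hy hℓ (hd β)]; exact dvd_mul_right _ _
  · rw [val_mul_pow hz hℓ]
    · exact dvd_mul_right _ _
    · intro h
      rcases (Nat.prime_iff_prime_int.mp hℓ).dvd_or_dvd h with h | h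
      · exact not_dvd_pow hℓ Nat.prime_two hℓ2 k (by exact_mod_cast h)
      · exact hd γ h

/-- Generalised Fermat equations with a power of two, from `NoSol`: the symmetric form. -/
theorem eq_sym_of_noSol {p L : ℕ} (hL : L.Prime) (hL2 : L ≠ 2) (H : NoSol p L) {k : ℕ}
    (hk : 5 ≤ k % p) (α β γ : ℕ) {x y z : ℤ} (hx : x ≠ 0) (hy : y ≠ 0) (hz : z ≠ 0) :
    (L : ℤ) ^ α * x ^ p + (L : ℤ) ^ β * y ^ p + 2 ^ k * (L : ℤ) ^ γ * z ^ p ≠ 0 := by
  refine (noFrey_of_noSol H).eq_sym hL hL2 (by omega) ?_ α β γ hx hy hz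
  intro v hv
  have h1 := Nat.mod_le v p
  refine ⟨by omega, ?_⟩
  rintro ⟨c, hc⟩
  have hp : 0 < p := by
    rcases Nat.eq_zero_or_pos p with h | h
    · subst h
      simp only [Nat.mod_zero] at hv hk
      simp at hc
      omega
    · exact h
  have hkp : k % p < p := Nat.mod_lt _ hp
  have h3 : (v : ℤ) % p = ((v % p : ℕ) : ℤ) := (Int.natCast_mod v p).symm
  have h4 : (v : ℤ) = 4 + p * c := by linarith
  have h5 : (v : ℤ) % p = 4 := by
    rw [h4, Int.add_mul_emod_self_left]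
    exact Int.emod_eq_of_lt (by norm_num) (by omega)
  rw [h5, hv] at h3
  omega

end Fermat.Agent.Cor.H24
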