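import Mathlib
import Fermat.Agent.Cor.H24Eq
import Fermat.Agent.Cor.H11SerreFin
import Fermat.Agent.Cor.H09Irr

/-!
# Generalised Fermat equations with a power of two

Let `p = 11` or `p ≥ 17` be a prime, `L ∈ {3, 5}` and `k ≥ 0` with `5 ≤ k mod p`. Then

`L ^ α x ^ p + L ^ β y ^ p + 2 ^ k L ^ γ z ^ p = 0`

has no solution in nonzero integers (`two_pow_sym`). In particular `x ^ p + 2 ^ k y ^ p = z ^ p`
has no solution in nonzero integers for `5 ≤ k < p` (`ribet_eq`); compare Ribet,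
"On the equation `a ^ p + 2 ^ α b ^ p + c ^ p = 0`". For `p = 5` the same holds for
`k ≡ 4 mod 5` (`two_pow_sym_five`): `x ^ 5 + y ^ 5 = 16 z ^ 5` has no solution in nonzero
integers.

The theorem `false_of_sum` is the general form for three integers `X + Y + Z = 0`.

This file is not used by any of the statement files.
-/

set_option autoImplicit false

namespace Fermat.Agent.Cor.H24

open WeierstrassCurve Fermat.Agent.H12.LL ModularCurve Fermat.Agent.Cor.H11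

section

variable {A B : ℤ}

/-- **Level lowering for the Frey curve**, `16 ∣ B`. -/
theorem rm_two_mul' {p L : ℕ} [hp : Fact p.Prime] (hp5 : 5 ≤ p) (hL : L.Prime)
    (hcop : IsCoprime A B) (hA : A % 4 = 3) (hB : (16 : ℤ) ∣ B) (h0 : A * B * (A + B) ≠ 0)
    (hv : ∀ ℓ : ℕ, ℓ.Prime → ℓ ≠ 2 → ℓ ≠ L → p ∣ padicValInt ℓ (A * B * (A + B)))
    (hirr : (FreyAB A B).ModRepIsIrreducible p) :
    (FreyAB A B).IsResiduallyModularOfLevel p (2 * L) := by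
  have hΔ := frey_disc_ne hA hB h0
  refine H07.level_of_ramified hΔ (frey_semistable hA hB hcop) hirr (by omega)
    (mul_ne_zero two_ne_zero hL.ne_zero) ?_ ?_
  · intro q hq hqp _ hram
    by_contra hcon
    have hq2 : q ≠ 2 := by rintro rfl; exact hcon (dvd_mul_right _ _)
    have hqL : q ≠ L := by rintro rfl; exact hcon (dvd_mul_left _ _)
    exact hram (H24.unrAt_of_b (frey_b₂ hA hB) (frey_b₄ hB) frey_b₆ hcop h0 hp.out hp5 hq hq2 hqp
      (hv q hq hq2 hqL))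
  · intro _ hram
    by_contra hcon
    have hp2 : p ≠ 2 := by omega
    have hpL : p ≠ L := by rintro rfl; exact hcon (dvd_mul_left _ _)
    have h1 := hv p hp.out hp2 hpL
    apply hram
    have h2 : padicValInt p (256 * (FreyAB A B).Δ) = padicValInt p (FreyAB A B).Δ := by
      rw [padicValInt.mul (by norm_num) hΔ, padicValInt.eq_zero_of_not_dvd, zero_add]
      intro h
      have h3 : p ∣ 2 ^ 8 := by exact_mod_cast h
      exact hp2 ((Nat.prime_dvd_prime_iff_eq hp.out Nat.prime_two).mp (hp.out.dvd_of_dvd_pow h3))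
    rw [← h2, frey_disc hA hB, padicValInt_pow'']
    exact Dvd.dvd.mul_left h1 _

end

lemma sixteen_dvd {B : ℤ} (h : 4 ≤ padicValInt 2 B) : (16 : ℤ) ∣ B := by
  have := (padicValInt_dvd_iff (p := 2) 4 B).mpr (Or.inr h)
  exact_mod_cast this

/-- the genus of `X₀(2 L)` is `0` for `L = 3, 5` -/
lemma genus_two_mul {L : ℕ} [NeZero (2 * L)] (hL : L = 3 ∨ L = 5) : genusFormula (2 * L) = 0 := by
  rcases hL with rfl | rfl
  · exact Fermat.Agent.Main.genus_six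
  · exact Fermat.Agent.Main.genus_ten

/-- from irreducibility to `NoFrey` -/
theorem noFrey_of_irr {p L : ℕ} (hp : p.Prime) (hp5 : 5 ≤ p) (hL : L = 3 ∨ L = 5) {G : ℕ → Prop}
    (hG : ∀ v, G v → 4 ≤ v)
    (hirr : ∀ A B : ℤ, IsCoprime A B → A % 4 = 3 → 16 ∣ B → A * B * (A + B) ≠ 0 →
      G (padicValInt 2 B) → (FreyAB A B).ModRepIsIrreducible p) : NoFrey p L G := by
  have hLp : L.Prime := by rcases hL with rfl | rfl <;> norm_num
  intro A B hcop hA h0 hGB hv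
  have : Fact p.Prime := ⟨hp⟩
  have hne : NeZero (2 * L) := ⟨mul_ne_zero two_ne_zero hLp.ne_zero⟩
  have hB := sixteen_dvd (hG _ hGB)
  exact not_rm (genus_two_mul hL) (rm_two_mul' hp5 hLp hcop hA hB h0 hv
    (hirr A B hcop hA hB h0 hGB))

theorem noFrey_five {L : ℕ} (hL : L = 3 ∨ L = 5) : NoFrey 5 L (fun v => 4 ≤ v) :=
  noFrey_of_irr Nat.prime_five le_rfl hL (fun _ h => h) fun _ _ _ hA hB h0 _ => irr_five hA hB h0

theorem noFrey_main {p L : ℕ} (hp : p.Prime) (hp11 : 11 ≤ p) (hp13 : p ≠ 13)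
    (hL : L = 3 ∨ L = 5) : NoFrey p L (fun v => 4 ≤ v ∧ ¬ (p : ℤ) ∣ (v : ℤ) - 4) := by
  refine noFrey_of_irr hp (by omega) hL (fun _ h => h.1) fun A B hcop hA hB h0 hG => ?_
  have : Fact p.Prime := ⟨hp⟩
  exact Cor.H09.irr hA hB hcop h0 hp11 hp13 hG.2

/-- **The general form.** Let `p = 11` or `p ≥ 17` be a prime and `L ∈ {3, 5}`. Three nonzero
integers `X + Y + Z = 0` with `v₂(X) = v₂(Y)`, `v₂(Z) = v₂(X) + v`, `v ≥ 5`, `v ≢ 4 mod p`
are not all `p`-th powers up to sign and powers of `2` and `L`. -/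
theorem false_of_sum {p L : ℕ} (hp : p.Prime) (hp11 : 11 ≤ p) (hp13 : p ≠ 13) (hL : L = 3 ∨ L = 5)
    {X Y Z : ℤ} (hX : X ≠ 0) (hY : Y ≠ 0) (hZ : Z ≠ 0) (hsum : X + Y + Z = 0)
    {v : ℕ} (hXY : padicValInt 2 X = padicValInt 2 Y)
    (hXZ : padicValInt 2 Z = padicValInt 2 X + v) (hv5 : 5 ≤ v) (hvp : ¬ (p : ℤ) ∣ (v : ℤ) - 4)
    (hv : ∀ ℓ : ℕ, ℓ.Prime → ℓ ≠ 2 → ℓ ≠ L →
      p ∣ padicValInt ℓ X ∧ p ∣ padicValInt ℓ Y ∧ p ∣ padicValInt ℓ Z) : False :=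
  (noFrey_main hp hp11 hp13 hL).false_of_sum hX hY hZ hsum (by omega) hXY hXZ
    ⟨by omega, hvp⟩ hv

/-- `v ≡ k mod p` with `5 ≤ k mod p` is at least `5` and not `4 mod p` -/
lemma not_four {p k v : ℕ} (hp : 0 < p) (hk : 5 ≤ k % p) (hv : v % p = k % p) :
    5 ≤ v ∧ ¬ (p : ℤ) ∣ (v : ℤ) - 4 := by
  have h1 := Nat.mod_le v p
  refine ⟨by omega, ?_⟩
  rintro ⟨c, hc⟩
  have hkp : k % p < p := Nat.mod_lt _ hp
  have h3 : (v : ℤ) % p = ((v % p : ℕ) : ℤ) := (Int.natCast_mod v p).symm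
  have h4 : (v : ℤ) = 4 + p * c := by linarith
  have h5 : (v : ℤ) % p = 4 := by
    rw [h4, Int.add_mul_emod_self_left]
    exact Int.emod_eq_of_lt (by norm_num) (by omega)
  rw [h5, hv] at h3
  omega

/-- **Generalised Fermat equations with a power of two.** -/
theorem two_pow_sym {p L : ℕ} (hp : p.Prime) (hp11 : 11 ≤ p) (hp13 : p ≠ 13)
    (hL : L = 3 ∨ L = 5) {k : ℕ} (hk : 5 ≤ k % p) (α β γ : ℕ) {x y z : ℤ}
    (hx : x ≠ 0) (hy : y ≠ 0) (hz : z ≠ 0) :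
    (L : ℤ) ^ α * x ^ p + (L : ℤ) ^ β * y ^ p + 2 ^ k * (L : ℤ) ^ γ * z ^ p ≠ 0 := by
  have hLp : L.Prime := by rcases hL with rfl | rfl <;> norm_num
  refine (noFrey_main hp hp11 hp13 hL).eq_sym hLp (by omega) (by omega) ?_ α β γ hx hy hz
  intro v hv
  have := not_four (by omega) hk hv
  exact ⟨by omega, this.2⟩

/-- The same for `p = 5` and `k ≡ 4 mod 5`. -/
theorem two_pow_sym_five {L : ℕ} (hL : L = 3 ∨ L = 5) {k : ℕ} (hk : k % 5 = 4) (α β γ : ℕ)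
    {x y z : ℤ} (hx : x ≠ 0) (hy : y ≠ 0) (hz : z ≠ 0) :
    (L : ℤ) ^ α * x ^ 5 + (L : ℤ) ^ β * y ^ 5 + 2 ^ k * (L : ℤ) ^ γ * z ^ 5 ≠ 0 := by
  have hLp : L.Prime := by rcases hL with rfl | rfl <;> norm_num
  refine (noFrey_five hL).eq_sym hLp (by omega) (by omega) ?_ α β γ hx hy hz
  intro v hv
  omega

section equations

variable {p : ℕ} {x y z : ℤ}

/-- **`x ^ p + 2 ^ k y ^ p = z ^ p`** has no solution in nonzero integers if `p = 11` or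
`p ≥ 17` is a prime and `5 ≤ k mod p`. -/
theorem ribet_eq (hp : p.Prime) (hp11 : 11 ≤ p) (hp13 : p ≠ 13) {k : ℕ} (hk : 5 ≤ k % p)
    (hx : x ≠ 0) (hy : y ≠ 0) (hz : z ≠ 0) : x ^ p + 2 ^ k * y ^ p ≠ z ^ p := by
  intro h
  have hodd : Odd p := hp.odd_of_ne_two (by omega)
  refine two_pow_sym hp hp11 hp13 (Or.inl rfl) hk 0 0 0 hx (neg_ne_zero.mpr hz) hy ?_
  rw [hodd.neg_pow]
  linear_combination h

/-- **`x ^ p + y ^ p = 2 ^ k z ^ p`** has no solution in nonzero integers if `p = 11` or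
`p ≥ 17` is a prime and `5 ≤ k mod p`. -/
theorem ribet_eq' (hp : p.Prime) (hp11 : 11 ≤ p) (hp13 : p ≠ 13) {k : ℕ} (hk : 5 ≤ k % p)
    (hx : x ≠ 0) (hy : y ≠ 0) (hz : z ≠ 0) : x ^ p + y ^ p ≠ 2 ^ k * z ^ p := by
  intro h
  have hodd : Odd p := hp.odd_of_ne_two (by omega)
  refine two_pow_sym hp hp11 hp13 (Or.inl rfl) hk 0 0 0 hx hy (neg_ne_zero.mpr hz) ?_
  rw [hodd.neg_pow]
  linear_combination h

/-- `x ^ p + L ^ α y ^ p = 2 ^ k z ^ p`, `L = 3, 5` -/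
theorem mixed_eq (hp : p.Prime) (hp11 : 11 ≤ p) (hp13 : p ≠ 13) {L : ℕ} (hL : L = 3 ∨ L = 5)
    {k : ℕ} (hk : 5 ≤ k % p) (α : ℕ) (hx : x ≠ 0) (hy : y ≠ 0) (hz : z ≠ 0) :
    x ^ p + (L : ℤ) ^ α * y ^ p ≠ 2 ^ k * z ^ p := by
  intro h
  have hodd : Odd p := hp.odd_of_ne_two (by omega)
  refine two_pow_sym hp hp11 hp13 hL hk 0 α 0 hx hy (neg_ne_zero.mpr hz) ?_
  rw [hodd.neg_pow]
  linear_combination h

/-- `x ^ p + y ^ p = 2 ^ k L ^ α z ^ p`, `L = 3, 5` -/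
theorem mixed_eq' (hp : p.Prime) (hp11 : 11 ≤ p) (hp13 : p ≠ 13) {L : ℕ} (hL : L = 3 ∨ L = 5)
    {k : ℕ} (hk : 5 ≤ k % p) (α : ℕ) (hx : x ≠ 0) (hy : y ≠ 0) (hz : z ≠ 0) :
    x ^ p + y ^ p ≠ 2 ^ k * (L : ℤ) ^ α * z ^ p := by
  intro h
  have hodd : Odd p := hp.odd_of_ne_two (by omega)
  refine two_pow_sym hp hp11 hp13 hL hk 0 0 α hx hy (neg_ne_zero.mpr hz) ?_
  rw [hodd.neg_pow]
  linear_combination h

/-- `x ^ 5 + y ^ 5 = 16 z ^ 5` has no solution in nonzero integers -/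
theorem five_eq (hx : x ≠ 0) (hy : y ≠ 0) (hz : z ≠ 0) : x ^ 5 + y ^ 5 ≠ 16 * z ^ 5 := by
  intro h
  refine two_pow_sym_five (k := 4) (Or.inl rfl) (by norm_num) 0 0 0 hx hy (neg_ne_zero.mpr hz) ?_
  rw [(by decide : Odd 5).neg_pow]
  linear_combination h

end equations

end Fermat.Agent.Cor.H24
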