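import Mathlib
import Fermat.Agent.Cor.H24Fin
import Fermat.Agent.Cor.FullTwo

/-!
# Generalised Fermat equations with a power of two: the final form

Let `p = 5`, `p = 11` or `p ≥ 17` be a prime, `L ∈ {3, 5}` and `k ≥ 0` with `4 ≤ k mod p`. Then

`L ^ α x ^ p + L ^ β y ^ p + 2 ^ k L ^ γ z ^ p = 0`

has no solution in nonzero integers (`two_pow_equation`); in particular
`x ^ p + 2 ^ k y ^ p = z ^ p` and `x ^ p + y ^ p = 2 ^ k z ^ p` have no solutions in nonzero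
integers for `4 ≤ k < p`. More generally (`no_frey`): there are no coprime integers `A`, `B`
with `A ≡ 3 mod 4`, `16 ∣ B`, such that `A B (A + B) ≠ 0` is a `p`-th power away from `2` and `L`.

The new ingredient, compared with `H24Fin`, is the irreducibility of `E[p]` without condition
on `v₂(B)` (`Fermat.Agent.Cor.FullTwo.irreducible`).

This file is not used by any of the statement files.
-/

set_option autoImplicit false

namespace Fermat.Agent.Cor.H24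

open WeierstrassCurve Fermat.Agent.H12.LL ModularCurve Fermat.Agent.Cor.H11

/-- **No Frey curves of level `2 L`.** -/
theorem noFrey_all {p L : ℕ} (hp : p.Prime) (h : p = 5 ∨ p = 11 ∨ 17 ≤ p)
    (hL : L = 3 ∨ L = 5) : NoFrey p L (fun v => 4 ≤ v) := by
  have hp5 : 5 ≤ p := by omega
  refine noFrey_of_irr hp hp5 hL (fun _ h => h) fun A B hcop hA hB h0 _ => ?_
  rcases h with h | h
  · subst h
    exact irr_five hA hB h0
  · exact FullTwo.irreducible (frey_semistable hA hB hcop) (frey_disc_ne hA hB h0) rfl rfl rfl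
      (four_a₂ hA hB) (sixteen_a₄ hB) hB hp (by omega) (by omega)

/-- The same, unfolded: there are no coprime integers `A`, `B` with `A ≡ 3 mod 4`, `16 ∣ B`,
such that `A B (A + B) ≠ 0` is a `p`-th power away from `2` and `L`. -/
theorem no_frey {p L : ℕ} (hp : p.Prime) (h : p = 5 ∨ p = 11 ∨ 17 ≤ p) (hL : L = 3 ∨ L = 5)
    {A B : ℤ} (hcop : IsCoprime A B) (hA : A % 4 = 3) (hB : (16 : ℤ) ∣ B)
    (h0 : A * B * (A + B) ≠ 0)
    (hv : ∀ ℓ : ℕ, ℓ.Prime → ℓ ≠ 2 → ℓ ≠ L → p ∣ padicValInt ℓ (A * B * (A + B))) : False := by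
  refine noFrey_all hp h hL A B hcop hA h0 ?_ hv
  have hB0 : B ≠ 0 := by rintro rfl; simp at h0
  have := (padicValInt_dvd_iff (p := 2) 4 B).mp (by exact_mod_cast hB)
  exact this.resolve_left hB0

/-- **The general form.** Three nonzero integers `X + Y + Z = 0` with `v₂(X) = v₂(Y)`,
`v₂(Z) ≥ v₂(X) + 4` are not all `p`-th powers up to sign and powers of `2` and `L`. -/
theorem false_of_sum' {p L : ℕ} (hp : p.Prime) (h : p = 5 ∨ p = 11 ∨ 17 ≤ p)
    (hL : L = 3 ∨ L = 5) {X Y Z : ℤ} (hX : X ≠ 0) (hY : Y ≠ 0) (hZ : Z ≠ 0)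
    (hsum : X + Y + Z = 0) (hXY : padicValInt 2 X = padicValInt 2 Y)
    (hXZ : padicValInt 2 X + 4 ≤ padicValInt 2 Z)
    (hv : ∀ ℓ : ℕ, ℓ.Prime → ℓ ≠ 2 → ℓ ≠ L →
      p ∣ padicValInt ℓ X ∧ p ∣ padicValInt ℓ Y ∧ p ∣ padicValInt ℓ Z) : False := by
  obtain ⟨v, hv'⟩ := Nat.exists_eq_add_of_le hXZ
  exact (noFrey_all hp h hL).false_of_sum hX hY hZ hsum (v := 4 + v) (by omega) hXY (by omega)
    (by omega) hv

/-- **Generalised Fermat equations with a power of two.** -/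
theorem two_pow_equation {p L : ℕ} (hp : p.Prime) (h : p = 5 ∨ p = 11 ∨ 17 ≤ p)
    (hL : L = 3 ∨ L = 5) {k : ℕ} (hk : 4 ≤ k % p) (α β γ : ℕ) {x y z : ℤ}
    (hx : x ≠ 0) (hy : y ≠ 0) (hz : z ≠ 0) :
    (L : ℤ) ^ α * x ^ p + (L : ℤ) ^ β * y ^ p + 2 ^ k * (L : ℤ) ^ γ * z ^ p ≠ 0 := by
  have hLp : L.Prime := by rcases hL with rfl | rfl <;> norm_num
  refine (noFrey_all hp h hL).eq_sym hLp (by omega) (by omega) ?_ α β γ hx hy hz
  intro v hv
  have := Nat.mod_le v p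
  omega

section equations

variable {p : ℕ} {x y z : ℤ}

/-- **`x ^ p + 2 ^ k y ^ p = z ^ p`** has no solution in nonzero integers if `p = 5`, `p = 11` or
`p ≥ 17` is a prime and `4 ≤ k mod p`. -/
theorem ribet_equation (hp : p.Prime) (h : p = 5 ∨ p = 11 ∨ 17 ≤ p) {k : ℕ} (hk : 4 ≤ k % p)
    (hx : x ≠ 0) (hy : y ≠ 0) (hz : z ≠ 0) : x ^ p + 2 ^ k * y ^ p ≠ z ^ p := by
  intro he
  have hodd : Odd p := hp.odd_of_ne_two (by omega)
  refine two_pow_equation hp h (Or.inl rfl) hk 0 0 0 hx (neg_ne_zero.mpr hz) hy ?_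
  rw [hodd.neg_pow]
  linear_combination he

/-- **`x ^ p + y ^ p = 2 ^ k z ^ p`** has no solution in nonzero integers if `p = 5`, `p = 11` or
`p ≥ 17` is a prime and `4 ≤ k mod p`. -/
theorem ribet_equation' (hp : p.Prime) (h : p = 5 ∨ p = 11 ∨ 17 ≤ p) {k : ℕ} (hk : 4 ≤ k % p)
    (hx : x ≠ 0) (hy : y ≠ 0) (hz : z ≠ 0) : x ^ p + y ^ p ≠ 2 ^ k * z ^ p := by
  intro he
  have hodd : Odd p := hp.odd_of_ne_two (by omega)
  refine two_pow_equation hp h (Or.inl rfl) hk 0 0 0 hx hy (neg_ne_zero.mpr hz) ?_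
  rw [hodd.neg_pow]
  linear_combination he

/-- `x ^ p + L ^ α y ^ p = 2 ^ k z ^ p`, `L = 3, 5`, has no solution in nonzero integers. -/
theorem mixed_equation (hp : p.Prime) (h : p = 5 ∨ p = 11 ∨ 17 ≤ p) {L : ℕ}
    (hL : L = 3 ∨ L = 5) {k : ℕ} (hk : 4 ≤ k % p) (α : ℕ) (hx : x ≠ 0) (hy : y ≠ 0)
    (hz : z ≠ 0) : x ^ p + (L : ℤ) ^ α * y ^ p ≠ 2 ^ k * z ^ p := by
  intro he
  have hodd : Odd p := hp.odd_of_ne_two (by omega)
  refine two_pow_equation hp h hL hk 0 α 0 hx hy (neg_ne_zero.mpr hz) ?_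
  rw [hodd.neg_pow]
  linear_combination he

/-- `x ^ p + y ^ p = 2 ^ k L ^ α z ^ p`, `L = 3, 5`, has no solution in nonzero integers. -/
theorem mixed_equation' (hp : p.Prime) (h : p = 5 ∨ p = 11 ∨ 17 ≤ p) {L : ℕ}
    (hL : L = 3 ∨ L = 5) {k : ℕ} (hk : 4 ≤ k % p) (α : ℕ) (hx : x ≠ 0) (hy : y ≠ 0)
    (hz : z ≠ 0) : x ^ p + y ^ p ≠ 2 ^ k * (L : ℤ) ^ α * z ^ p := by
  intro he
  have hodd : Odd p := hp.odd_of_ne_two (by omega)
  refine two_pow_equation hp h hL hk 0 0 α hx hy (neg_ne_zero.mpr hz) ?_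
  rw [hodd.neg_pow]
  linear_combination he

/-- `x ^ p + 2 ^ k y ^ p = L ^ α z ^ p`, `L = 3, 5`, has no solution in nonzero integers. -/
theorem mixed_equation'' (hp : p.Prime) (h : p = 5 ∨ p = 11 ∨ 17 ≤ p) {L : ℕ}
    (hL : L = 3 ∨ L = 5) {k : ℕ} (hk : 4 ≤ k % p) (α : ℕ) (hx : x ≠ 0) (hy : y ≠ 0)
    (hz : z ≠ 0) : x ^ p + 2 ^ k * y ^ p ≠ (L : ℤ) ^ α * z ^ p := by
  intro he
  have hodd : Odd p := hp.odd_of_ne_two (by omega)
  refine two_pow_equation hp h hL hk 0 α 0 hx (neg_ne_zero.mpr hz) hy ?_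
  rw [hodd.neg_pow]
  linear_combination he

/-- **Every large exponent**: `x ^ p + 16 y ^ p = z ^ p` has no solution in nonzero integers. -/
theorem sixteen_equation (hp : p.Prime) (h : p = 5 ∨ p = 11 ∨ 17 ≤ p)
    (hx : x ≠ 0) (hy : y ≠ 0) (hz : z ≠ 0) : x ^ p + 16 * y ^ p ≠ z ^ p := by
  have hk : 4 % p = 4 := Nat.mod_eq_of_lt (by omega)
  have := ribet_equation hp h (k := 4) (by omega) hx hy hz
  norm_num at this
  exact this

end equations

end Fermat.Agent.Cor.H24
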