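import Mathlib
import Fermat.Agent.Cor.H24Four
import Fermat.Agent.Cor.H18Ser

/-!
# Generalised Fermat equations with a power of two, `L = 7, 11, 13`

The analogue of `Fermat.Agent.Cor.H18.noSol_of_three` for the Frey curves with `16 ∣ B` and no
condition on `v₂(B)`, and the equations

`L ^ α x ^ p + L ^ β y ^ p + 2 ^ k L ^ γ z ^ p = 0`, `4 ≤ k mod p`,

for `L ∈ {3, 5, 7, 11, 13}` and all primes `p ≥ 11`, `p ≠ 13`.

This file is not used by any of the statement files.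
-/

set_option autoImplicit false

namespace Fermat.Agent.Cor.H24

open WeierstrassCurve Fermat.Agent.H12.LL ModularCurve Fermat.Agent.Cor.H11 Fermat.Agent.Cor.H18
open ModularFormClass (qCoeff)

/-- irreducibility of `W[p]` for all Frey curves, `16 ∣ B` -/
theorem irr_all {p : ℕ} (hp : p.Prime) (h : p = 5 ∨ p = 11 ∨ 17 ≤ p) {A B : ℤ}
    (hcop : IsCoprime A B) (hA : A % 4 = 3) (hB : (16 : ℤ) ∣ B) (h0 : A * B * (A + B) ≠ 0) :
    (FreyAB A B).ModRepIsIrreducible p := by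
  rcases h with h | h
  · subst h
    exact irr_five hA hB h0
  · exact FullTwo.irreducible (frey_semistable hA hB hcop) (frey_disc_ne hA hB h0) rfl rfl rfl
      (four_a₂ hA hB) (sixteen_a₄ hB) hB hp (by omega) (by omega)

/-- **The trace of Frobenius at `3` of an eigenform congruent to a Frey curve** is
`0` or `± 4 mod p`. -/
theorem dvd_a_three {p N : ℕ} [NeZero N] [hp : Fact p.Prime] (hp5 : 5 ≤ p) (hN3 : ¬ 3 ∣ N)
    {A B : ℤ} (hcop : IsCoprime A B) (hA : A % 4 = 3) (hB : (16 : ℤ) ∣ B)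
    (h0 : A * B * (A + B) ≠ 0) (hirr : (FreyAB A B).ModRepIsIrreducible p)
    {f : CuspForm (CongruenceSubgroup.Gamma0 N) 2} (hf : f.IsNormalizedEigenform)
    {𝔪 : Ideal (integralClosure ℤ ℂ)} (h𝔪 : 𝔪.IsMaximal) (hp𝔪 : (p : integralClosure ℤ ℂ) ∈ 𝔪)
    (hres : ∀ ℓ : ℕ, ℓ.Prime → (FreyAB A B).IsGoodPrimeFor ℓ → ¬ ℓ ∣ N → ℓ ≠ p →
      ∃ a : integralClosure ℤ ℂ, (a : ℂ) = qCoeff f ℓ ∧
        a - (((FreyAB A B).apOfModel ℓ : ℤ) : integralClosure ℤ ℂ) ∈ 𝔪)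
    {c : ℤ} (hc : qCoeff f 3 = (c : ℂ)) :
    (p : ℤ) ∣ c ∨ (p : ℤ) ∣ c - 4 ∨ (p : ℤ) ∣ c + 4 := by
  have hΔ := frey_disc_ne hA hB h0
  have hss := frey_semistable hA hB hcop
  have hp2 : p ≠ 2 := by omega
  have h3p : 3 ≠ p := by omega
  by_cases hgood : (FreyAB A B).IsGoodPrimeFor 3
  · left
    have h4 := dvd_of_good h𝔪 hp𝔪 hres Nat.prime_three hN3 h3p hc hgood
    rw [freyAB_ap_three hA hB, sub_zero] at h4
    · exact h4
    · intro h5
      apply hgood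
      have h6 : (3 : ℤ) ∣ 256 * (FreyAB A B).Δ := by
        rw [frey_disc hA hB]
        exact dvd_pow h5 two_ne_zero
      have h7 : (3 : ℤ) ∣ (FreyAB A B).Δ := by
        rcases (Int.prime_three).dvd_or_dvd h6 with h | h
        · omega
        · exact h
      exact_mod_cast h7
  · right
    have h3Δ : ((3 : ℕ) : ℤ) ∣ (FreyAB A B).Δ := by
      by_contra h
      exact hgood h
    have hb : ∃ b : integralClosure ℤ ℂ, (b : ℂ) = qCoeff f 3 ∧
        b - (c : integralClosure ℤ ℂ) ∈ 𝔪 :=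
      ⟨(c : integralClosure ℤ ℂ), by rw [hc]; simp, by rw [sub_self]; exact zero_mem _⟩
    rcases dvd_of_mult hΔ hirr hp2 hf h𝔪 hp𝔪 hres Nat.prime_three hN3 h3p hb h3Δ
      (hss 3 Nat.prime_three h3Δ) with h | h
    · left
      have e : c - ((3 : ℕ) + 1 : ℤ) = c - 4 := by push_cast; ring
      rwa [e] at h
    · right
      have e : c + ((3 : ℕ) + 1 : ℤ) = c + 4 := by push_cast; ring
      rwa [e] at h

/-- **No Frey curves from the third coefficients of the eigenforms of level `2 L`.** -/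
theorem noFrey_of_three {p L : ℕ} (hp : p.Prime) (h : p = 5 ∨ p = 11 ∨ 17 ≤ p) (hL : L.Prime)
    (hL3 : L ≠ 3)
    (hS : ∀ f : CuspForm (CongruenceSubgroup.Gamma0 (2 * L)) 2, f.IsNormalizedEigenform →
      ∃ c : ℤ, qCoeff f 3 = (c : ℂ) ∧ ¬ (p : ℤ) ∣ c ∧ ¬ (p : ℤ) ∣ c - 4 ∧ ¬ (p : ℤ) ∣ c + 4) :
    NoFrey p L (fun v => 4 ≤ v) := by
  intro A B hcop hA h0 hG hv
  have : Fact p.Prime := ⟨hp⟩
  have : NeZero (2 * L) := ⟨mul_ne_zero two_ne_zero hL.ne_zero⟩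
  have hB := sixteen_dvd hG
  have hirr := irr_all hp h hcop hA hB h0
  have hN3 : ¬ 3 ∣ 2 * L := by
    intro h
    rcases (Nat.Prime.dvd_mul Nat.prime_three).mp h with h | h
    · omega
    · exact hL3 ((Nat.prime_dvd_prime_iff_eq Nat.prime_three hL).mp h).symm
  obtain ⟨f, 𝔪, hf, h𝔪, hp𝔪, hres⟩ := rm_two_mul' (by omega) hL hcop hA hB h0 hv hirr
  obtain ⟨c, hc, h1, h2, h3⟩ := hS f hf
  rcases dvd_a_three (by omega) hN3 hcop hA hB h0 hirr hf h𝔪 hp𝔪 hres hc with h | h | h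
  · exact h1 h
  · exact h2 h
  · exact h3 h

/-- the condition on the third coefficient, in a convenient form -/
lemma three_ok {p : ℕ} (hp : p.Prime) (hp11 : 11 ≤ p) {c : ℤ} (hc0 : c ≠ 0) (hc : c.natAbs < 4) :
    ¬ (p : ℤ) ∣ c ∧ ¬ (p : ℤ) ∣ c - 4 ∧ ¬ (p : ℤ) ∣ c + 4 :=
  ⟨not_dvd_of_abs hc0 (by omega), not_dvd_of_abs (by omega) (by omega),
    not_dvd_of_abs (by omega) (by omega)⟩

theorem noFrey_of_three' {p L : ℕ} (hp : p.Prime) (h : p = 11 ∨ 17 ≤ p) (hL : L.Prime)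
    (hL3 : L ≠ 3)
    (hS : ∀ f : CuspForm (CongruenceSubgroup.Gamma0 (2 * L)) 2, f.IsNormalizedEigenform →
      ∃ c : ℤ, qCoeff f 3 = (c : ℂ) ∧ c ≠ 0 ∧ c.natAbs < 4) :
    NoFrey p L (fun v => 4 ≤ v) := by
  refine noFrey_of_three hp (Or.inr h) hL hL3 fun f hf => ?_
  obtain ⟨c, hc, hc0, hc4⟩ := hS f hf
  exact ⟨c, hc, three_ok hp (by omega) hc0 hc4⟩

/-- `L = 7` -/
theorem noFrey_seven {p : ℕ} (hp : p.Prime) (h : p = 11 ∨ 17 ≤ p) :
    NoFrey p 7 (fun v => 4 ≤ v) :=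
  noFrey_of_three' hp h (by norm_num) (by norm_num) fun f hf =>
    ⟨-2, by rw [EigenTable.a3_fourteen (f := f) hf]; norm_num, by norm_num, by norm_num⟩

/-- `L = 11` -/
theorem noFrey_eleven {p : ℕ} (hp : p.Prime) (h : p = 11 ∨ 17 ≤ p) :
    NoFrey p 11 (fun v => 4 ≤ v) :=
  noFrey_of_three' hp h (by norm_num) (by norm_num) fun f hf =>
    ⟨-1, by rw [EigenTable.a3_twentytwo (f := f) hf]; norm_num, by norm_num, by norm_num⟩

/-- `L = 13` -/
theorem noFrey_thirteen {p : ℕ} (hp : p.Prime) (h : p = 11 ∨ 17 ≤ p) :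
    NoFrey p 13 (fun v => 4 ≤ v) :=
  noFrey_of_three' hp h (by norm_num) (by norm_num) fun f hf => by
    rcases EigenTable.coeff_twentysix (f := f) hf with h | h
    · exact ⟨1, by rw [h.1]; norm_num, by norm_num, by norm_num⟩
    · exact ⟨-3, by rw [h.1]; norm_num, by norm_num, by norm_num⟩

/-- **No Frey curves of level `2 L`**, `L ∈ {3, 5, 7, 11, 13}`. -/
theorem noFrey_thirteen_le {p L : ℕ} (hp : p.Prime) (h : p = 11 ∨ 17 ≤ p)
    (hL : L ∈ ({3, 5, 7, 11, 13} : Finset ℕ)) : NoFrey p L (fun v => 4 ≤ v) := by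
  simp only [Finset.mem_insert, Finset.mem_singleton] at hL
  rcases hL with rfl | rfl | rfl | rfl | rfl
  · exact noFrey_all hp (Or.inr h) (Or.inl rfl)
  · exact noFrey_all hp (Or.inr h) (Or.inr rfl)
  · exact noFrey_seven hp h
  · exact noFrey_eleven hp h
  · exact noFrey_thirteen hp h

lemma prime_of_mem {L : ℕ} (hL : L ∈ ({3, 5, 7, 11, 13} : Finset ℕ)) : L.Prime ∧ L ≠ 2 := by
  simp only [Finset.mem_insert, Finset.mem_singleton] at hL
  rcases hL with rfl | rfl | rfl | rfl | rfl <;> norm_num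

/-- **Generalised Fermat equations with a power of two**, `L ∈ {3, 5, 7, 11, 13}`, `p = 11` or
`p ≥ 17` prime, `4 ≤ k mod p`. -/
theorem two_pow_equation_of_mem {p L : ℕ} (hp : p.Prime) (h : p = 11 ∨ 17 ≤ p)
    (hL : L ∈ ({3, 5, 7, 11, 13} : Finset ℕ)) {k : ℕ} (hk : 4 ≤ k % p) (α β γ : ℕ) {x y z : ℤ}
    (hx : x ≠ 0) (hy : y ≠ 0) (hz : z ≠ 0) :
    (L : ℤ) ^ α * x ^ p + (L : ℤ) ^ β * y ^ p + 2 ^ k * (L : ℤ) ^ γ * z ^ p ≠ 0 := by
  obtain ⟨hLp, hL2⟩ := prime_of_mem hL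
  refine (noFrey_thirteen_le hp h hL).eq_sym hLp hL2 (by omega) ?_ α β γ hx hy hz
  intro v hv
  have := Nat.mod_le v p
  omega

/-- `L = 7`, `p = 5`: also `x ^ 5 + 7 ^ α y ^ 5 = 16 z ^ 5` etc. -/
theorem noFrey_seven_five : NoFrey 5 7 (fun v => 4 ≤ v) := by
  refine noFrey_of_three Nat.prime_five (Or.inl rfl) (by norm_num) (by norm_num) fun f hf =>
    ⟨-2, by rw [EigenTable.a3_fourteen (f := f) hf]; norm_num, ?_, ?_, ?_⟩ <;> norm_num

section equations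

variable {p L : ℕ} {x y z : ℤ}

/-- `x ^ p + L ^ α y ^ p = 2 ^ k z ^ p` has no solution in nonzero integers. -/
theorem equation_one (hp : p.Prime) (h : p = 11 ∨ 17 ≤ p) (hL : L ∈ ({3, 5, 7, 11, 13} : Finset ℕ))
    {k : ℕ} (hk : 4 ≤ k % p) (α : ℕ) (hx : x ≠ 0) (hy : y ≠ 0) (hz : z ≠ 0) :
    x ^ p + (L : ℤ) ^ α * y ^ p ≠ 2 ^ k * z ^ p := by
  intro he
  have hodd : Odd p := hp.odd_of_ne_two (by omega)
  refine two_pow_equation_of_mem hp h hL hk 0 α 0 hx hy (neg_ne_zero.mpr hz) ?_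
  rw [hodd.neg_pow]
  linear_combination he

/-- `x ^ p + y ^ p = 2 ^ k L ^ α z ^ p` has no solution in nonzero integers. -/
theorem equation_two (hp : p.Prime) (h : p = 11 ∨ 17 ≤ p) (hL : L ∈ ({3, 5, 7, 11, 13} : Finset ℕ))
    {k : ℕ} (hk : 4 ≤ k % p) (α : ℕ) (hx : x ≠ 0) (hy : y ≠ 0) (hz : z ≠ 0) :
    x ^ p + y ^ p ≠ 2 ^ k * (L : ℤ) ^ α * z ^ p := by
  intro he
  have hodd : Odd p := hp.odd_of_ne_two (by omega)
  refine two_pow_equation_of_mem hp h hL hk 0 0 α hx hy (neg_ne_zero.mpr hz) ?_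
  rw [hodd.neg_pow]
  linear_combination he

/-- `x ^ p + 2 ^ k y ^ p = L ^ α z ^ p` has no solution in nonzero integers. -/
theorem equation_three (hp : p.Prime) (h : p = 11 ∨ 17 ≤ p)
    (hL : L ∈ ({3, 5, 7, 11, 13} : Finset ℕ))
    {k : ℕ} (hk : 4 ≤ k % p) (α : ℕ) (hx : x ≠ 0) (hy : y ≠ 0) (hz : z ≠ 0) :
    x ^ p + 2 ^ k * y ^ p ≠ (L : ℤ) ^ α * z ^ p := by
  intro he
  have hodd : Odd p := hp.odd_of_ne_two (by omega)
  refine two_pow_equation_of_mem hp h hL hk 0 α 0 hx (neg_ne_zero.mpr hz) hy ?_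
  rw [hodd.neg_pow]
  linear_combination he

end equations

end Fermat.Agent.Cor.H24
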