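import Mathlib
import Fermat.Agent.Cor.H24Lev
import Fermat.Agent.Cor.H07Conv

/-!
# Serre's equation for `L = 17`

Let `p = 11` or `p ≥ 17` be a prime. Then `x ^ p + y ^ p = 17 ^ α z ^ p` has no solution in nonzero
integers (`serre_seventeen`), and the same holds for
`17 ^ α x ^ p + 17 ^ β y ^ p + 2 ^ k 17 ^ γ z ^ p = 0` if `5 ≤ k mod p` (for `k = 4` there is the
solution `1 + 16 = 17`).

The normalised eigenforms `f` of level `34` have `a₃ = -2` (the newform), or have the same odd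
coefficients as the newform `h` of level `17` (`coeff_thirtyfour`). The first case is excluded
since the trace of Frobenius at `3` is `0` or `± 4`, the second since `W[p]` is ramified at `2`
and so cannot be modular of level `17`.

This file is not used by any of the statement files.
-/

set_option autoImplicit false

namespace Fermat.Agent.Cor.H24

open WeierstrassCurve Fermat.Agent.H12.LL ModularCurve Fermat.Agent.Cor.H11 Fermat.Agent.Cor.H18
open ModularFormClass (qCoeff)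
open CongruenceSubgroup
open Fermat.Agent.Cor.EigenTable Fermat.Agent.Cor.GenusOne Fermat.Agent.Cor.SmallConductor

/-- **Level `34`**: a normalised eigenform has `a₃ = -2`, or its odd coefficients are those of the
eigenform of level `17`. -/
theorem coeff_thirtyfour {f : CuspForm (Gamma0 34) 2} (hf : f.IsNormalizedEigenform)
    {h : CuspForm (Gamma0 17) 2} (hh : h.IsNormalizedEigenform) :
    qCoeff f 3 = -2 ∨ ∀ n : ℕ, ¬ 2 ∣ n → qCoeff f n = qCoeff h n := by
  obtain ⟨g, hg, kg⟩ := exists_form E34_Δ (by norm_num) E34_semistable conductorLevel_E34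
  have g3 := kg 3 _ (by norm_num) (by norm_num) E34_a3
  push_cast at g3
  have h3' : qCoeff h 3 = 0 := a3_seventeen hh
  obtain ⟨h₁, e1⟩ : ∃ g : CuspForm (Gamma0 34) 2, ∀ n, qCoeff g n = qCoeff h n :=
    ⟨AL.degen (M := 17) (N := 34) (d := 1) one_pos (by norm_num) 2 h, fun n => by
      rw [AL.qCoeff_degen, if_pos (one_dvd n), Nat.div_one]⟩
  obtain ⟨h₂, e2⟩ : ∃ g : CuspForm (Gamma0 34) 2,
      ∀ n, qCoeff g n = if 2 ∣ n then qCoeff h (n / 2) else 0 :=
    ⟨AL.degen (M := 17) (N := 34) (d := 2) two_pos (by norm_num) 2 h, AL.qCoeff_degen _ _ _⟩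
  obtain ⟨c, hc⟩ := exists_combination (r := 3) (by exact_mod_cast genus_thirtyfour)
    (F := ![h₁, h₂, g]) (by
      intro c hc
      simp only [Fin.sum_univ_three, Matrix.cons_val_zero, Matrix.cons_val_one,
        Matrix.cons_val] at hc
      have k1 := hc 1
      rw [e1, e2, if_neg (by norm_num), hh.qCoeff_one, hg.qCoeff_one] at k1
      have k3 := hc 3
      rw [e1, e2, if_neg (by norm_num), h3', g3] at k3
      have k2 := hc 2
      rw [e1, e2, if_pos dvd_rfl, Nat.div_self two_pos, hh.qCoeff_one] at k2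
      have c2 : c 2 = 0 := by linear_combination -k3 / 2
      have c0 : c 0 = 0 := by linear_combination k1 - c2
      have c1 : c 1 = 0 := by
        rw [c0, c2] at k2
        linear_combination k2
      intro i
      fin_cases i
      · exact c0
      · exact c1
      · exact c2) f
  simp only [Fin.sum_univ_three, Matrix.cons_val_zero, Matrix.cons_val_one,
    Matrix.cons_val] at hc
  have k1 := hc 1
  rw [e1, e2, if_neg (by norm_num), hf.qCoeff_one, hh.qCoeff_one, hg.qCoeff_one] at k1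
  -- the relation `a₉ = a₃² - 3`
  have r9 := hf.qCoeff_prime_pow_of_not_dvd 3 0 (by norm_num) (by norm_num)
  have r9h := hh.qCoeff_prime_pow_of_not_dvd 3 0 (by norm_num) (by norm_num)
  have r9g := hg.qCoeff_prime_pow_of_not_dvd 3 0 (by norm_num) (by norm_num)
  simp only [zero_add, pow_one, pow_zero, hf.qCoeff_one, hh.qCoeff_one, hg.qCoeff_one,
    Nat.cast_ofNat, mul_one] at r9 r9h r9g
  have k3 := hc 3
  rw [e1, e2, if_neg (by norm_num), h3', g3] at k3
  have k9 := hc (3 ^ 2)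
  rw [e1, e2, if_neg (by norm_num), r9, r9h, r9g, k3, h3', g3] at k9
  have hprod : c 2 * (c 2 - 1) = 0 := by
    have e0 : c 0 = 1 - c 2 := by linear_combination -k1
    rw [e0] at k9
    linear_combination k9 / 4
  rcases mul_eq_zero.mp hprod with h0 | h0
  · right
    intro n hn
    rw [hc n, e1, e2, if_neg hn, h0]
    have e0 : c 0 = 1 := by linear_combination -k1 - h0
    rw [e0]; ring
  · left
    rw [k3]
    linear_combination -2 * h0

/-- the exponent of `2` in the discriminant of the Frey curve -/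
theorem val_two_disc {A B : ℤ} (hcop : IsCoprime A B) (hA : A % 4 = 3) (hB : (32 : ℤ) ∣ B)
    (h0 : A * B * (A + B) ≠ 0) :
    padicValInt 2 (FreyAB A B).Δ + 8 = 2 * padicValInt 2 B := by
  have hB' : (16 : ℤ) ∣ B := (by norm_num : (16 : ℤ) ∣ 32).trans hB
  have hΔ := frey_disc_ne hA hB' h0
  have h := congrArg (padicValInt 2) (frey_disc hA hB')
  have hA0 : A ≠ 0 := by rintro rfl; simp at h0
  have hB0 : B ≠ 0 := by rintro rfl; simp at h0
  have hC0 : A + B ≠ 0 := by intro h; rw [h] at h0; simp at h0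
  have e256 : (256 : ℤ) = 2 ^ 8 := by norm_num
  have h2 : padicValInt 2 (2 : ℤ) = 1 := padicValInt_self (p := 2)
  rw [padicValInt.mul (by norm_num) hΔ, e256, padicValInt_pow'', h2, padicValInt_pow'',
    padicValInt.mul (mul_ne_zero hA0 hB0) hC0, padicValInt.mul hA0 hB0,
    padicValInt.eq_zero_of_not_dvd (z := A) (by push_cast; omega),
    padicValInt.eq_zero_of_not_dvd (z := A + B) (by push_cast; omega)] at h
  omega

/-- `W[p]` is ramified at `2` if `v₂(B) ≥ 5`, `v₂(B) ≢ 4 mod p` -/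
theorem not_unrAt_two {p : ℕ} (hp : p.Prime) (hp2 : p ≠ 2) {A B : ℤ}
    (hcop : IsCoprime A B) (hA : A % 4 = 3) (hB : (32 : ℤ) ∣ B)
    (h0 : A * B * (A + B) ≠ 0) (hv : ¬ (p : ℤ) ∣ (padicValInt 2 B : ℤ) - 4) :
    ¬ UnrAt (FreyAB A B) p 2 ∧ (2 : ℤ) ∣ (FreyAB A B).Δ := by
  have hB' : (16 : ℤ) ∣ B := (by norm_num : (16 : ℤ) ∣ 32).trans hB
  have hΔ := frey_disc_ne hA hB' h0
  have hss := frey_semistable hA hB' hcop
  have hB0 : B ≠ 0 := by rintro rfl; simp at h0
  have hval := val_two_disc hcop hA hB h0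
  have h5 : 5 ≤ padicValInt 2 B := by
    have := (padicValInt_dvd_iff (p := 2) 5 B).mp (by exact_mod_cast hB)
    exact this.resolve_left hB0
  have h2Δ : (2 : ℤ) ∣ (FreyAB A B).Δ := by
    have := (padicValInt_dvd_iff (p := 2) 1 (FreyAB A B).Δ).mpr (Or.inr (by omega))
    exact_mod_cast this
  refine ⟨H07.not_unrAt hΔ hp hp2 Nat.prime_two (Ne.symm hp2) (by exact_mod_cast h2Δ)
    (hss 2 Nat.prime_two (by exact_mod_cast h2Δ)) ?_, h2Δ⟩
  intro hd
  apply hv
  have e : padicValInt 2 (FreyAB A B).Δ = 2 * (padicValInt 2 B - 4) := by omega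
  rw [e] at hd
  have hd' : p ∣ padicValInt 2 B - 4 := by
    rcases hp.dvd_mul.mp hd with h | h
    · exact absurd ((Nat.prime_dvd_prime_iff_eq hp Nat.prime_two).mp h) hp2
    · exact h
  have h6 : ((padicValInt 2 B - 4 : ℕ) : ℤ) = (padicValInt 2 B : ℤ) - 4 := by
    rw [Nat.cast_sub (by omega)]; rfl
  rw [← h6]
  exact_mod_cast hd'

/-- **No Frey curves of level `34`.** -/
theorem noFrey_seventeen {p : ℕ} (hp : p.Prime) (h : p = 11 ∨ 17 ≤ p) :
    NoFrey p 17 (fun v => 5 ≤ v ∧ ¬ (p : ℤ) ∣ (v : ℤ) - 4) := by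
  intro A B hcop hA h0 hG hv
  have : Fact p.Prime := ⟨hp⟩
  have hp2 : p ≠ 2 := by omega
  have hB0 : B ≠ 0 := by rintro rfl; simp at h0
  have h32 : (32 : ℤ) ∣ B := by
    have := (padicValInt_dvd_iff (p := 2) 5 B).mpr (Or.inr hG.1)
    exact_mod_cast this
  have hB : (16 : ℤ) ∣ B := (by norm_num : (16 : ℤ) ∣ 32).trans h32
  have hirr := irr_all hp (Or.inr h) hcop hA hB h0
  have hΔ := frey_disc_ne hA hB h0
  obtain ⟨hram, h2Δ⟩ := not_unrAt_two hp hp2 hcop hA h32 h0 hG.2
  obtain ⟨f, 𝔪, hf, h𝔪, hp𝔪, hres⟩ :=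
    rm_two_mul' (by omega) (by norm_num : (17 : ℕ).Prime) hcop hA hB h0 hv hirr
  obtain ⟨h17, hh, -⟩ := exists_form E17_Δ (by norm_num) E17_semistable conductorLevel_E17
  rcases coeff_thirtyfour (f := f) hf hh with h3 | hodd
  · have hok := three_ok hp (by omega) (c := -2) (by norm_num) (by norm_num)
    rcases dvd_a_three (c := -2) (by omega) (by norm_num) hcop hA hB h0 hirr hf h𝔪 hp𝔪 hres
      (by rw [h3]; norm_num) with h | h | h
    · exact hok.1 h
    · exact hok.2.1 h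
    · exact hok.2.2 h
  · -- modular of level 17
    have hmod : (FreyAB A B).IsResiduallyModularOfLevel p 17 := by
      refine ⟨h17, 𝔪, hh, h𝔪, hp𝔪, fun ℓ hℓ hgood hℓ17 hℓp => ?_⟩
      have hℓ2 : ¬ 2 ∣ ℓ := by
        intro h
        have : ℓ = 2 := ((Nat.prime_dvd_prime_iff_eq Nat.prime_two hℓ).mp h).symm
        subst this
        exact hgood (by exact_mod_cast h2Δ)
      have hℓ34 : ¬ ℓ ∣ 2 * 17 := by
        intro h
        rcases (Nat.Prime.dvd_mul hℓ).mp h with h | h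
        · exact hℓ2 (by rw [(Nat.prime_dvd_prime_iff_eq hℓ Nat.prime_two).mp h])
        · exact hℓ17 h
      obtain ⟨a, ha, ha'⟩ := hres ℓ hℓ hgood hℓ34 hℓp
      exact ⟨a, by rw [ha, hodd ℓ hℓ2], ha'⟩
    have h2 : 2 ∣ 17 := H07.dvd_level hΔ hirr hp2 (by norm_num) hmod Nat.prime_two
      (Ne.symm hp2) hram
    omega

/-- `NoSol p 17` (helper11's form) -/
theorem noSol_seventeen {p : ℕ} (hp : p.Prime) (h : p = 11 ∨ 17 ≤ p) : NoSol p 17 := by
  intro A B hcop hA hB hB0 h0 h2 hv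
  refine noFrey_seventeen hp h A B hcop hA h0 ⟨?_, h2⟩ hv
  have := (padicValInt_dvd_iff (p := 2) 5 B).mp (by exact_mod_cast hB)
  exact this.resolve_left hB0

/-- **Serre's theorem for `L = 17`**, symmetric form. -/
theorem serre_seventeen_sym {p : ℕ} (hp : p.Prime) (h : p = 11 ∨ 17 ≤ p) (α β γ : ℕ) {x y z : ℤ}
    (hx : x ≠ 0) (hy : y ≠ 0) (hz : z ≠ 0) :
    (17 : ℤ) ^ α * x ^ p + 17 ^ β * y ^ p + 17 ^ γ * z ^ p ≠ 0 := by
  have := serre_sym (by omega : 5 ≤ p) (by norm_num : (17 : ℕ).Prime) (by norm_num)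
    (noSol_seventeen hp h) α β γ hx hy hz
  exact_mod_cast this

/-- **Serre's theorem for `L = 17`**: `x ^ p + y ^ p = 17 ^ α z ^ p` has no solution in nonzero
integers (`p = 11` or `p ≥ 17` a prime). -/
theorem serre_seventeen {p : ℕ} (hp : p.Prime) (h : p = 11 ∨ 17 ≤ p) (α : ℕ) {x y z : ℤ}
    (hx : x ≠ 0) (hy : y ≠ 0) (hz : z ≠ 0) : x ^ p + y ^ p ≠ 17 ^ α * z ^ p := by
  intro he
  have hodd : Odd p := hp.odd_of_ne_two (by omega)
  refine serre_seventeen_sym hp h 0 0 α hx hy (neg_ne_zero.mpr hz) ?_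
  rw [hodd.neg_pow]
  linear_combination he

/-- **With a power of two**: `5 ≤ k mod p`. -/
theorem two_pow_seventeen {p : ℕ} (hp : p.Prime) (h : p = 11 ∨ 17 ≤ p) {k : ℕ} (hk : 5 ≤ k % p)
    (α β γ : ℕ) {x y z : ℤ} (hx : x ≠ 0) (hy : y ≠ 0) (hz : z ≠ 0) :
    (17 : ℤ) ^ α * x ^ p + 17 ^ β * y ^ p + 2 ^ k * 17 ^ γ * z ^ p ≠ 0 := by
  have := (noFrey_seventeen hp h).eq_sym (by norm_num : (17 : ℕ).Prime) (by norm_num)
    (k := k) (by omega) (fun v hv => not_four (by omega) hk hv) α β γ hx hy hz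
  exact_mod_cast this

end Fermat.Agent.Cor.H24
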