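import Mathlib
import Fermat.Agent.Cor.H24Seventeen
import Fermat.Agent.Cor.H18List
import Fermat.Agent.Cor.H22Nineteen

/-!
# Generalised Fermat equations with a power of two: Serre's whole list

Let `L ∈ {3, 5, 7, 11, 13, 17, 19, 23, 29, 53, 59}` (Serre's list) and let `p = 11` or `p ≥ 17` be
a prime. Then

`L ^ α x ^ p + L ^ β y ^ p + 2 ^ k L ^ γ z ^ p = 0`

has no solution in nonzero integers if `5 ≤ k mod p` (`list_two_pow`), and also if `4 ≤ k mod p`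
for `L ∈ {3, 5, 7, 11, 13, 19}` (`list_two_pow_four`; for `L = 17` there is `1 + 16 = 17`).

See `Fermat.Agent.Cor.H24Sq` for applications to `x ^ 2 - z ^ (2 p) = 2 ^ m L ^ α w ^ p`.

This file is not used by any of the statement files.
-/

set_option autoImplicit false

namespace Fermat.Agent.Cor.H24

open WeierstrassCurve Fermat.Agent.H12.LL ModularCurve Fermat.Agent.Cor.H11 Fermat.Agent.Cor.H18
open ModularFormClass (qCoeff)

/-- `NoSol p L` for Serre's list -/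
theorem noSol_list {p L : ℕ} (hp : p.Prime) (h : p = 11 ∨ 17 ≤ p)
    (hL : L ∈ ({3, 5, 7, 11, 13, 17, 19, 23, 29, 53, 59} : Finset ℕ)) : NoSol p L := by
  have H : IrrAB p := irrAB_of hp (Or.inr ⟨by omega, by omega⟩)
  have hp5 : 5 ≤ p := by omega
  have hp7 : 7 ≤ p := by omega
  have hp11 : 11 ≤ p := by omega
  simp only [Finset.mem_insert, Finset.mem_singleton] at hL
  rcases hL with rfl | rfl | rfl | rfl | rfl | rfl | rfl | rfl | rfl | rfl | rfl
  · exact noSol_of_irr hp hp5 Nat.prime_three Fermat.Agent.Main.genus_six H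
  · exact noSol_of_irr hp hp5 Nat.prime_five Fermat.Agent.Main.genus_ten H
  · exact noSol_seven hp (Or.inr ⟨hp11, by omega⟩)
  · exact noSol_eleven hp hp11 (by omega)
  · exact noSol_thirteen hp hp11 (by omega)
  · exact H18.noSol_seventeen hp hp7 H
  · exact H22L19.noSol_nineteen_of hp hp7 H
  · exact noSol_twentythree hp hp7 H
  · exact noSol_twentynine hp hp11 H
  · exact noSol_fiftythree hp hp7 H
  · exact noSol_fiftynine hp hp7 H

lemma prime_of_list {L : ℕ} (hL : L ∈ ({3, 5, 7, 11, 13, 17, 19, 23, 29, 53, 59} : Finset ℕ)) :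
    L.Prime ∧ L ≠ 2 := by
  simp only [Finset.mem_insert, Finset.mem_singleton] at hL
  rcases hL with rfl | rfl | rfl | rfl | rfl | rfl | rfl | rfl | rfl | rfl | rfl <;> norm_num

/-- **Serre's list with a power of two**, `5 ≤ k mod p`. -/
theorem list_two_pow {p L : ℕ} (hp : p.Prime) (h : p = 11 ∨ 17 ≤ p)
    (hL : L ∈ ({3, 5, 7, 11, 13, 17, 19, 23, 29, 53, 59} : Finset ℕ)) {k : ℕ} (hk : 5 ≤ k % p)
    (α β γ : ℕ) {x y z : ℤ} (hx : x ≠ 0) (hy : y ≠ 0) (hz : z ≠ 0) :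
    (L : ℤ) ^ α * x ^ p + (L : ℤ) ^ β * y ^ p + 2 ^ k * (L : ℤ) ^ γ * z ^ p ≠ 0 :=
  eq_sym_of_noSol (prime_of_list hL).1 (prime_of_list hL).2 (noSol_list hp h hL) hk α β γ hx hy hz

/-- the general form for Serre's list -/
theorem false_of_sum_list {p L : ℕ} (hp : p.Prime) (h : p = 11 ∨ 17 ≤ p)
    (hL : L ∈ ({3, 5, 7, 11, 13, 17, 19, 23, 29, 53, 59} : Finset ℕ)) {X Y Z : ℤ} (hX : X ≠ 0)
    (hY : Y ≠ 0) (hZ : Z ≠ 0) (hsum : X + Y + Z = 0) {v : ℕ}
    (hXY : padicValInt 2 X = padicValInt 2 Y) (hXZ : padicValInt 2 Z = padicValInt 2 X + v)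
    (hv5 : 5 ≤ v) (hvp : ¬ (p : ℤ) ∣ (v : ℤ) - 4)
    (hv : ∀ ℓ : ℕ, ℓ.Prime → ℓ ≠ 2 → ℓ ≠ L →
      p ∣ padicValInt ℓ X ∧ p ∣ padicValInt ℓ Y ∧ p ∣ padicValInt ℓ Z) : False :=
  (noFrey_of_noSol (noSol_list hp h hL)).false_of_sum hX hY hZ hsum (by omega) hXY hXZ
    ⟨hv5, hvp⟩ hv

/-- `L = 19`, `16 ∣ B` -/
theorem noFrey_nineteen {p : ℕ} (hp : p.Prime) (h : p = 11 ∨ 17 ≤ p) :
    NoFrey p 19 (fun v => 4 ≤ v) :=
  noFrey_of_three' hp h (by norm_num) (by norm_num) fun f hf => by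
    rcases H22L19.a3_thirtyeight (f := f) hf with h | h | h
    · exact ⟨-2, by rw [h]; norm_num, by norm_num, by norm_num⟩
    · exact ⟨1, by rw [h]; norm_num, by norm_num, by norm_num⟩
    · exact ⟨-1, by rw [h]; norm_num, by norm_num, by norm_num⟩

/-- **No Frey curves of level `2 L`**, `L ∈ {3, 5, 7, 11, 13, 19}`. -/
theorem noFrey_list {p L : ℕ} (hp : p.Prime) (h : p = 11 ∨ 17 ≤ p)
    (hL : L ∈ ({3, 5, 7, 11, 13, 19} : Finset ℕ)) : NoFrey p L (fun v => 4 ≤ v) := by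
  by_cases h19 : L = 19
  · subst h19
    exact noFrey_nineteen hp h
  · refine noFrey_thirteen_le hp h ?_
    simp only [Finset.mem_insert, Finset.mem_singleton] at hL ⊢
    omega

/-- **Serre's equations with a power of two**, `4 ≤ k mod p`, `L ∈ {3, 5, 7, 11, 13, 19}`. -/
theorem list_two_pow_four {p L : ℕ} (hp : p.Prime) (h : p = 11 ∨ 17 ≤ p)
    (hL : L ∈ ({3, 5, 7, 11, 13, 19} : Finset ℕ)) {k : ℕ} (hk : 4 ≤ k % p)
    (α β γ : ℕ) {x y z : ℤ} (hx : x ≠ 0) (hy : y ≠ 0) (hz : z ≠ 0) :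
    (L : ℤ) ^ α * x ^ p + (L : ℤ) ^ β * y ^ p + 2 ^ k * (L : ℤ) ^ γ * z ^ p ≠ 0 := by
  have hLp : L.Prime ∧ L ≠ 2 := by
    simp only [Finset.mem_insert, Finset.mem_singleton] at hL
    rcases hL with rfl | rfl | rfl | rfl | rfl | rfl <;> norm_num
  refine (noFrey_list hp h hL).eq_sym hLp.1 hLp.2 (by omega) ?_ α β γ hx hy hz
  intro v hv
  have := Nat.mod_le v p
  omega

end Fermat.Agent.Cor.H24
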