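import Mathlib
import Fermat.Agent.Cor.H24List

/-!
# Applications to `x ^ 2 - z ^ (2 p) = D`

Let `p = 11` or `p ≥ 17` be a prime.

* `sq_sub_pow`: if `x`, `z` are odd and coprime, `L ∈ {3, 5, 7, 11, 13, 19}` and `m ≥ 6` then
  `x ^ 2 - z ^ (2 p) ≠ 2 ^ m L ^ α w ^ p` for all `w ≠ 0`;
* `sq_eq_add`: there are no coprime `x`, `z` and `y ≠ 0` even with `x ^ 2 = y ^ p + z ^ (2 p)`;
* `sq_sub_one`: `x ^ 2 - 1 = y ^ p` only for `y = 0`, `y = -1` (Lebesgue, Nagell, Chao Ko for all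
  `p`).

This file is not used by any of the statement files.
-/

set_option autoImplicit false

namespace Fermat.Agent.Cor.H24

lemma val_neg_int (ℓ : ℕ) (x : ℤ) : padicValInt ℓ (-x) = padicValInt ℓ x := padicValInt_neg'' ℓ x

/-- the first case: `v₂(x + s) = 1` -/
lemma NoFrey.sq_sub_aux {p L : ℕ} {G : ℕ → Prop} (H : NoFrey p L G) {x s D : ℤ}
    (hxs : IsCoprime x s) (hs0 : s ≠ 0)
    (hsp : ∀ ℓ : ℕ, ℓ.Prime → p ∣ padicValInt ℓ s) (hs2 : padicValInt 2 s = 0)
    (hD0 : D ≠ 0) (hD : (x + s) * (x - s) = D) (h4 : 4 ≤ padicValInt 2 D)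
    (hG : G (padicValInt 2 D - 2))
    (hv : ∀ ℓ : ℕ, ℓ.Prime → ℓ ≠ 2 → ℓ ≠ L → p ∣ padicValInt ℓ D)
    (h1 : padicValInt 2 (x + s) = 1) : False := by
  have ha0 : x + s ≠ 0 := by intro h; rw [h, zero_mul] at hD; exact hD0 hD.symm
  have hb0 : x - s ≠ 0 := by intro h; rw [h, mul_zero] at hD; exact hD0 hD.symm
  have h2s : (-2 : ℤ) * s ≠ 0 := mul_ne_zero (by norm_num) hs0
  have hsum : (x + s) + (-2 * s) + (-(x - s)) = 0 := by ring
  have hvD : ∀ ℓ : ℕ, ℓ.Prime → padicValInt ℓ D =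
      padicValInt ℓ (x + s) + padicValInt ℓ (x - s) := by
    intro ℓ hℓ
    have : Fact ℓ.Prime := ⟨hℓ⟩
    rw [← hD, padicValInt.mul ha0 hb0]
  have v2 : padicValInt 2 (-2 * s) = 1 := by
    have e : (-2 : ℤ) * s = -(2 * s) := by ring
    have h2 : padicValInt 2 (2 : ℤ) = 1 := padicValInt_self (p := 2)
    rw [e, val_neg_int, padicValInt.mul two_ne_zero hs0, hs2, h2]
  have hD2 := hvD 2 Nat.prime_two
  refine H.false_of_sum ha0 h2s (neg_ne_zero.mpr hb0) hsum (v := padicValInt 2 D - 2)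
    (by omega) (by rw [h1, v2]) (by rw [val_neg_int, h1]; omega) hG ?_
  intro ℓ hℓ hℓ2 hℓL
  have : Fact ℓ.Prime := ⟨hℓ⟩
  have hℓ' : Prime (ℓ : ℤ) := Nat.prime_iff_prime_int.mp hℓ
  have hℓ2' : ¬ (ℓ : ℤ) ∣ 2 := by
    intro h
    exact hℓ2 ((Nat.prime_dvd_prime_iff_eq hℓ Nat.prime_two).mp (by exact_mod_cast h))
  have hsum2 := hvD ℓ hℓ
  have hdiv := hv ℓ hℓ hℓ2 hℓL
  have hor : padicValInt ℓ (x + s) = 0 ∨ padicValInt ℓ (x - s) = 0 := by
    by_contra! hcon
    have hd : ∀ t : ℤ, padicValInt ℓ t ≠ 0 → (ℓ : ℤ) ∣ t := by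
      intro t ht
      by_contra h
      exact ht (padicValInt.eq_zero_of_not_dvd h)
    have ha := hd _ hcon.1
    have hb := hd _ hcon.2
    have h2x : (ℓ : ℤ) ∣ 2 * x := by
      have := dvd_add ha hb
      have e : x + s + (x - s) = 2 * x := by ring
      rwa [e] at this
    have h2s' : (ℓ : ℤ) ∣ 2 * s := by
      have := dvd_sub ha hb
      have e : x + s - (x - s) = 2 * s := by ring
      rwa [e] at this
    have hx := (hℓ'.dvd_or_dvd h2x).resolve_left hℓ2'
    have hs := (hℓ'.dvd_or_dvd h2s').resolve_left hℓ2'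
    exact hℓ'.not_isUnit (hxs.isUnit_of_dvd' hx hs)
  refine ⟨?_, ?_, ?_⟩
  · rcases hor with h | h
    · rw [h]; exact dvd_zero _
    · rwa [hsum2, h, add_zero] at hdiv
  · have e : (-2 : ℤ) * s = -(2 * s) := by ring
    rw [e, val_neg_int, padicValInt.mul two_ne_zero hs0, padicValInt.eq_zero_of_not_dvd hℓ2',
      zero_add]
    exact hsp ℓ hℓ
  · rw [val_neg_int]
    rcases hor with h | h
    · rwa [hsum2, h, zero_add] at hdiv
    · rw [h]; exact dvd_zero _

/-- **`x ^ 2 - z ^ (2 p) = D`**, `x`, `z` odd and coprime, `D` a `p`-th power away from `2`, `L`. -/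
theorem NoFrey.sq_sub {p L : ℕ} {G : ℕ → Prop} (H : NoFrey p L G) {x z D : ℤ}
    (hxz : IsCoprime x z) (hx : Odd x) (hz : Odd z)
    (hD0 : D ≠ 0) (hD : x ^ 2 - z ^ (2 * p) = D) (h4 : 4 ≤ padicValInt 2 D)
    (hG : G (padicValInt 2 D - 2))
    (hv : ∀ ℓ : ℕ, ℓ.Prime → ℓ ≠ 2 → ℓ ≠ L → p ∣ padicValInt ℓ D) : False := by
  have hz0 : z ≠ 0 := by rintro rfl; simp at hz
  have hs0 : z ^ p ≠ 0 := pow_ne_zero _ hz0
  have hsodd : Odd (z ^ p) := hz.pow
  have hs2 : padicValInt 2 (z ^ p) = 0 := by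
    apply padicValInt.eq_zero_of_not_dvd
    intro h
    have h' : (2 : ℤ) ∣ z ^ p := by exact_mod_cast h
    exact (Int.not_even_iff_odd.mpr hsodd) (even_iff_two_dvd.mpr h')
  have hsp : ∀ ℓ : ℕ, ℓ.Prime → p ∣ padicValInt ℓ (z ^ p) := by
    intro ℓ hℓ
    have : Fact ℓ.Prime := ⟨hℓ⟩
    rw [padicValInt_pow'']
    exact dvd_mul_right _ _
  have hxs : IsCoprime x (z ^ p) := hxz.pow_right
  have hD' : (x + z ^ p) * (x - z ^ p) = D := by rw [← hD, mul_comm 2 p, pow_mul]; ring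
  have ha0 : x + z ^ p ≠ 0 := by intro h; rw [h, zero_mul] at hD'; exact hD0 hD'.symm
  have hb0 : x - z ^ p ≠ 0 := by intro h; rw [h, mul_zero] at hD'; exact hD0 hD'.symm
  -- one of `x ± z ^ p` is `2 mod 4`
  obtain ⟨a, ha⟩ := hx
  obtain ⟨b, hb⟩ := hsodd
  have hval : ∀ t : ℤ, t % 4 = 2 → padicValInt 2 t = 1 := by
    intro t ht
    have ht0 : t ≠ 0 := by omega
    have h1 : 1 ≤ padicValInt 2 t := by
      have := (padicValInt_dvd_iff (p := 2) 1 t).mp (by push_cast; omega)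
      exact this.resolve_left ht0
    have h2 : ¬ 2 ≤ padicValInt 2 t := by
      intro h
      have := (padicValInt_dvd_iff (p := 2) 2 t).mpr (Or.inr h)
      have h4 : (4 : ℤ) ∣ t := by exact_mod_cast this
      omega
    omega
  rcases (show (x + z ^ p) % 4 = 2 ∨ (-x + z ^ p) % 4 = 2 by omega) with h | h
  · exact H.sq_sub_aux hxs hs0 hsp hs2 hD0 hD' h4 hG hv (hval _ h)
  · exact H.sq_sub_aux (x := -x) hxs.neg_left hs0 hsp hs2 hD0 (by rw [← hD']; ring) h4 hG hv
      (hval _ h)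

/-- **`x ^ 2 - z ^ (2 p) ≠ 2 ^ m L ^ α w ^ p`** for odd coprime `x`, `z`, and `m ≥ 6`, `w ≠ 0`,
`L ∈ {3, 5, 7, 11, 13, 19}`. -/
theorem sq_sub_pow {p L : ℕ} (hp : p.Prime) (h : p = 11 ∨ 17 ≤ p)
    (hL : L ∈ ({3, 5, 7, 11, 13, 19} : Finset ℕ)) {m : ℕ} (hm : 6 ≤ m) (α : ℕ) {x z w : ℤ}
    (hxz : IsCoprime x z) (hx : Odd x) (hz : Odd z) (hw : w ≠ 0) :
    x ^ 2 - z ^ (2 * p) ≠ 2 ^ m * (L : ℤ) ^ α * w ^ p := by
  intro he
  have hLp : L.Prime ∧ L ≠ 2 := by
    simp only [Finset.mem_insert, Finset.mem_singleton] at hL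
    rcases hL with rfl | rfl | rfl | rfl | rfl | rfl <;> norm_num
  have hL0 : (L : ℤ) ≠ 0 := by exact_mod_cast hLp.1.ne_zero
  have h20 : (2 : ℤ) ^ m ≠ 0 := pow_ne_zero _ two_ne_zero
  have hD' : (L : ℤ) ^ α * w ^ p ≠ 0 := mul_ne_zero (pow_ne_zero _ hL0) (pow_ne_zero _ hw)
  have hD0 : 2 ^ m * (L : ℤ) ^ α * w ^ p ≠ 0 := by rw [mul_assoc]; exact mul_ne_zero h20 hD'
  have hv2 : m ≤ padicValInt 2 (2 ^ m * (L : ℤ) ^ α * w ^ p) := by
    have h2 : padicValInt 2 (2 : ℤ) = 1 := padicValInt_self (p := 2)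
    rw [mul_assoc, padicValInt.mul h20 hD', padicValInt_pow'', h2]
    omega
  refine (noFrey_list hp h hL).sq_sub hxz hx hz hD0 he (by omega) (by omega) ?_
  intro ℓ hℓ hℓ2 hℓL
  rw [val_mul_pow hw hℓ]
  · exact dvd_mul_right _ _
  · intro h
    rcases (Nat.prime_iff_prime_int.mp hℓ).dvd_or_dvd h with h | h
    · exact not_dvd_pow hℓ Nat.prime_two hℓ2 m (by exact_mod_cast h)
    · exact not_dvd_pow hℓ hLp.1 hℓL α h

/-- **`x ^ 2 = y ^ p + z ^ (2 p)`** has no solution with `x`, `z` coprime, `y ≠ 0` even. -/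
theorem sq_eq_add {p : ℕ} (hp : p.Prime) (h : p = 11 ∨ 17 ≤ p) {x y z : ℤ}
    (hxz : IsCoprime x z) (hy : Even y) (hy0 : y ≠ 0) : x ^ 2 ≠ y ^ p + z ^ (2 * p) := by
  intro he
  have hyp : Even (y ^ p) := hy.pow_of_ne_zero (by omega)
  have hodd : Odd x ∧ Odd z := by
    by_cases hxe : Even x
    · exfalso
      have h1 : Even (x ^ 2) := hxe.pow_of_ne_zero two_ne_zero
      have h2 : Even (z ^ (2 * p)) := by
        rw [he] at h1
        exact (Int.even_add.mp h1).mp hyp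
      have h3 : Even z := by
        rw [Int.even_pow] at h2
        exact h2.1
      have := hxz.isUnit_of_dvd' (even_iff_two_dvd.mp hxe) (even_iff_two_dvd.mp h3)
      exact absurd (Int.isUnit_iff.mp this) (by norm_num)
    · refine ⟨Int.not_even_iff_odd.mp hxe, ?_⟩
      by_contra hz
      rw [Int.not_odd_iff_even] at hz
      apply hxe
      have h2 : Even (z ^ (2 * p)) := hz.pow_of_ne_zero (by omega)
      have h3 : Even (x ^ 2) := by rw [he]; exact hyp.add h2
      rw [Int.even_pow] at h3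
      exact h3.1
  obtain ⟨y', rfl⟩ := hy.two_dvd
  have hy' : y' ≠ 0 := by rintro rfl; simp at hy0
  have h3 : (3 : ℕ) ∈ ({3, 5, 7, 11, 13, 19} : Finset ℕ) := by simp
  refine sq_sub_pow hp h h3 (m := p) (by omega) 0 hxz hodd.1 hodd.2 hy' ?_
  rw [he, mul_pow]
  ring

/-- **`x ^ 2 - 1 = y ^ p`** has only the solutions with `y = 0` or `y = -1`. -/
theorem sq_sub_one {p : ℕ} (hp : p.Prime) (h : p = 11 ∨ 17 ≤ p) {x y : ℤ}
    (he : x ^ 2 - 1 = y ^ p) : y = 0 ∨ y = -1 := by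
  by_cases hy0 : y = 0
  · exact Or.inl hy0
  right
  have hodd : Odd p := hp.odd_of_ne_two (by omega)
  have hp0 : p ≠ 0 := hp.ne_zero
  by_cases hy : Even y
  · exact absurd (by rw [one_pow]; linarith : x ^ 2 = y ^ p + 1 ^ (2 * p))
      (sq_eq_add hp h isCoprime_one_right hy hy0)
  · -- `x` is even, `x - 1 = a ^ p`, `x + 1 = b ^ p`
    have hyodd : Odd (y ^ p) := (Int.not_even_iff_odd.mp hy).pow
    have hx : Even x := by
      by_contra hx
      rw [Int.not_even_iff_odd] at hx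
      have h1 : Odd (x ^ 2) := hx.pow
      rw [← he] at hyodd
      have := h1.sub_odd (by decide : Odd (1 : ℤ))
      exact (Int.not_even_iff_odd.mpr hyodd) this
    obtain ⟨t, ht⟩ := hx
    have hcop : IsCoprime (x - 1) (x + 1) := by
      refine ⟨t, 1 - t, ?_⟩
      rw [ht]; ring
    have hprod : (x - 1) * (x + 1) = y ^ p := by rw [← he]; ring
    obtain ⟨a, ha⟩ := Int.eq_pow_of_mul_eq_pow_odd_left hcop hodd hprod
    obtain ⟨b, hb⟩ := Int.eq_pow_of_mul_eq_pow_odd_right hcop hodd hprod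
    have hab : b ^ p - a ^ p = 2 := by rw [← ha, ← hb]; ring
    -- `a < b`
    have hlt : a < b := by
      have : a ^ p < b ^ p := by linarith
      exact (hodd.strictMono_pow).lt_iff_lt.mp this
    have ha1 : a ≠ 0 := by
      rintro rfl
      rw [zero_pow hp0] at ha
      omega
    have hb1 : b ≠ 0 := by
      rintro rfl
      rw [zero_pow hp0] at hb
      omega
    have hbig : ∀ c : ℤ, 1 ≤ c → c ^ p + 2 < (c + 1) ^ p := by
      intro c hc
      have hp2 : 2 ≤ p := hp.two_le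
      have h1 : (c + 1) ^ p ≥ c ^ p + p * c ^ (p - 1) := by
        have := Finset.single_le_sum (f := fun k => c ^ k * 1 ^ (p - k) * (p.choose k : ℤ))
          (s := (Finset.range (p + 1)) \ {p}) (fun k _ => by positivity)
          (a := p - 1) (by
            simp only [Finset.mem_sdiff, Finset.mem_range, Finset.mem_singleton]
            omega)
        have h2 : (c + 1) ^ p = ∑ k ∈ Finset.range (p + 1),
          c ^ k * 1 ^ (p - k) * (p.choose k : ℤ) := add_pow c 1 p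
        have h3 : (p.choose (p - 1) : ℤ) = p := by
          have h5 : p.choose (p - 1) = p := by
            rw [Nat.choose_symm (by omega : 1 ≤ p) |>.symm.symm, Nat.choose_one_right]
          exact_mod_cast h5
        have h4 := Finset.sum_sdiff_eq_sub (f := fun k => c ^ k * 1 ^ (p - k) *
          (p.choose k : ℤ)) (s₁ := {p}) (s₂ := Finset.range (p + 1)) (by simp)
        rw [h4, ← h2] at this
        simp only [one_pow, mul_one, Finset.sum_singleton, Nat.choose_self, Nat.cast_one,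
          h3] at this
        linarith
      have h2 : (1 : ℤ) ≤ c ^ (p - 1) := one_le_pow₀ hc
      have h3 : (11 : ℤ) ≤ p := by
        have : 11 ≤ p := by omega
        exact_mod_cast this
      nlinarith
    rcases lt_or_gt_of_ne ha1 with ha' | ha'
    · rcases lt_or_gt_of_ne hb1 with hb' | hb'
      · -- both negative
        exfalso
        have h1 := hbig (-b) (by omega)
        have h2 : (-b + 1) ^ p ≤ (-a) ^ p := by
          apply pow_le_pow_left₀ (by omega)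
          omega
        rw [hodd.neg_pow] at h1 h2
        omega
      · -- `a < 0 < b`
        have h1 : 1 ≤ b ^ p := one_le_pow₀ (by omega)
        have h2 : 1 ≤ (-a) ^ p := one_le_pow₀ (by omega)
        rw [hodd.neg_pow] at h2
        have h3 : b ^ p = 1 := by omega
        have h4 : a ^ p = -1 := by omega
        have h5 : y ^ p = (-1) ^ p := by
          rw [hodd.neg_one_pow, ← hprod, ha, hb, h3, h4]; norm_num
        exact (hodd.strictMono_pow).injective h5
    · exfalso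
      have h1 := hbig a (by omega)
      have h2 : (a + 1) ^ p ≤ b ^ p := by
        apply pow_le_pow_left₀ (by omega)
        omega
      omega

end Fermat.Agent.Cor.H24
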