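import Mathlib

/-!
# The rational points of `y² = (x² + 7)(x² + x + 2)(x² - x + 2)`

This curve of genus two is a model of the modular curve `X₀(28)`; its rational points are the two points at infinity
and the four points with `x = ± 1`, i.e. the six cusps. The proof is a descent (by two isogenies of degree two) on the
elliptic curve `y² = z (z² - 11 z + 32)` of conductor `14`, `z = x² + 7`.

This file is not used by any of the statement files.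
-/

set_option autoImplicit false

namespace Fermat.Agent.Cor.H11.Seven

theorem eq_pow_four {a b c : ℕ} (hab : Nat.Coprime a b) (h : a * b = c ^ 4) : ∃ f, a = f ^ 4 :=
  exists_eq_pow_of_mul_eq_pow (Nat.isUnit_iff.mpr hab) h

theorem eq_sq {a b c : ℕ} (hab : Nat.Coprime a b) (h : a * b = c ^ 2) : ∃ f, a = f ^ 2 :=
  exists_eq_pow_of_mul_eq_pow (Nat.isUnit_iff.mpr hab) h

theorem split_aux {ℓ k a b v : ℕ} (hℓ : ℓ.Prime) (hab : Nat.Coprime a b) (hb : ¬ ℓ ∣ b)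
    (h : a * b = ℓ ^ k * v ^ 4) : ∃ f g : ℕ, a = ℓ ^ k * f ^ 4 ∧ b = g ^ 4 ∧ v = f * g := by
  have hc : Nat.Coprime (ℓ ^ k) b := Nat.Coprime.pow_left k ((Nat.Prime.coprime_iff_not_dvd hℓ).mpr hb)
  obtain ⟨a', rfl⟩ : ℓ ^ k ∣ a := hc.dvd_of_dvd_mul_right (h ▸ dvd_mul_right _ _)
  have hpos : 0 < ℓ ^ k := pow_pos hℓ.pos k
  have h' : a' * b = v ^ 4 := by
    apply Nat.eq_of_mul_eq_mul_left hpos
    rw [← h, mul_assoc]
  have hab' : Nat.Coprime a' b := Nat.Coprime.coprime_mul_left hab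
  obtain ⟨f, hf⟩ := eq_pow_four hab' h'
  obtain ⟨g, hg⟩ := eq_pow_four hab'.symm (by rw [mul_comm]; exact h')
  refine ⟨f, g, by rw [hf], hg, ?_⟩
  rw [hf, hg, ← mul_pow] at h'
  exact (Nat.pow_left_injective (by norm_num : (4 : ℕ) ≠ 0) h').symm

/-- coprime factors of `ℓ ^ k v ^ 4` -/
theorem split_four {ℓ k a b v : ℕ} (hℓ : ℓ.Prime) (hab : Nat.Coprime a b)
    (h : a * b = ℓ ^ k * v ^ 4) :
    (∃ f g : ℕ, a = ℓ ^ k * f ^ 4 ∧ b = g ^ 4 ∧ v = f * g) ∨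
      (∃ f g : ℕ, b = ℓ ^ k * f ^ 4 ∧ a = g ^ 4 ∧ v = f * g) := by
  by_cases hb : ℓ ∣ b
  · have ha : ¬ ℓ ∣ a := fun ha => Nat.not_coprime_of_dvd_of_dvd hℓ.one_lt ha hb hab
    exact Or.inr (split_aux hℓ hab.symm ha (by rw [mul_comm]; exact h))
  · exact Or.inl (split_aux hℓ hab hb h)

/-- the same for integers -/
theorem split_int {ℓ k v : ℕ} {a b : ℤ} (hℓ : ℓ.Prime) (ha : 0 < a) (hb : 0 < b)
    (hab : ∀ q : ℕ, q.Prime → (q : ℤ) ∣ a → (q : ℤ) ∣ b → False)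
    (h : a * b = (ℓ : ℤ) ^ k * (v : ℤ) ^ 4) :
    (∃ f g : ℕ, a = (ℓ : ℤ) ^ k * (f : ℤ) ^ 4 ∧ b = (g : ℤ) ^ 4 ∧ v = f * g) ∨
      (∃ f g : ℕ, b = (ℓ : ℤ) ^ k * (f : ℤ) ^ 4 ∧ a = (g : ℤ) ^ 4 ∧ v = f * g) := by
  lift a to ℕ using ha.le
  lift b to ℕ using hb.le
  have hab' : Nat.Coprime a b := by
    apply Nat.Coprime.symm
    apply Nat.Coprime.symm
    by_contra hcon
    obtain ⟨q, hq, h1, h2⟩ := Nat.Prime.not_coprime_iff_dvd.mp hcon
    exact hab q hq (by exact_mod_cast h1) (by exact_mod_cast h2)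
  have h' : a * b = ℓ ^ k * v ^ 4 := by exact_mod_cast h
  rcases split_four hℓ hab' h' with ⟨f, g, h1, h2, h3⟩ | ⟨f, g, h1, h2, h3⟩
  · exact Or.inl ⟨f, g, by exact_mod_cast h1, by exact_mod_cast h2, h3⟩
  · exact Or.inr ⟨f, g, by exact_mod_cast h1, by exact_mod_cast h2, h3⟩

theorem pos_of_mul_add {a b : ℤ} (h1 : 0 < a * b) (h2 : 0 < a + b) : 0 < a ∧ 0 < b := by
  rcases pos_and_pos_or_neg_and_neg_of_mul_pos h1 with h | ⟨h3, h4⟩
  · exact h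
  · omega

theorem dvd_of_seven {q : ℕ} (hq : q.Prime) {P Q : ℤ} {e : ℕ} (hP : (q : ℤ) ∣ P)
    (hQ : (q : ℤ) ∣ Q) (h : P * Q = ((7 : ℕ) : ℤ) ^ 1 * (e : ℤ) ^ 4) : q ∣ e := by
  have hq' := Nat.prime_iff_prime_int.mp hq
  have h1 : (q : ℤ) * (q : ℤ) ∣ 7 * (e : ℤ) ^ 4 := by
    have := mul_dvd_mul hP hQ
    rwa [h, pow_one] at this
  have h2 : (q : ℤ) ∣ 7 * (e : ℤ) ^ 4 := (dvd_mul_right _ _).trans h1
  have h3 : (q : ℤ) ∣ (e : ℤ) ^ 4 := by
    rcases hq'.dvd_or_dvd h2 with h3 | h3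
    · have h4 : q ∣ 7 := by exact_mod_cast h3
      have h5 : q = 7 := (Nat.prime_dvd_prime_iff_eq hq (by norm_num)).mp h4
      subst h5
      exact (mul_dvd_mul_iff_left (by norm_num : (7 : ℤ) ≠ 0)).mp (by exact_mod_cast h1)
    · exact h3
  exact_mod_cast hq'.dvd_of_dvd_pow h3

theorem dvd_of_two {q k : ℕ} (hq : q.Prime) {P Q : ℤ} {v : ℕ} (hP : (q : ℤ) ∣ P)
    (h : P * Q = ((2 : ℕ) : ℤ) ^ k * (v : ℤ) ^ 4) (h2 : q ≠ 2) : q ∣ v := by
  have hq' := Nat.prime_iff_prime_int.mp hq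
  have h1 : (q : ℤ) ∣ ((2 : ℕ) : ℤ) ^ k * (v : ℤ) ^ 4 := h ▸ hP.mul_right Q
  rcases hq'.dvd_or_dvd h1 with h3 | h3
  · have h4 : q ∣ 2 := by exact_mod_cast hq'.dvd_of_dvd_pow h3
    exact absurd ((Nat.prime_dvd_prime_iff_eq hq (by norm_num)).mp h4) h2
  · exact_mod_cast hq'.dvd_of_dvd_pow h3

theorem odd_sq {x : ℤ} (hx : Odd x) : ∃ i : ℤ, x ^ 2 = 8 * i + 1 := by
  obtain ⟨k, rfl⟩ := hx
  obtain ⟨i, hi⟩ := Int.even_mul_succ_self k
  exact ⟨i, by linear_combination 4 * hi⟩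

theorem nat_sq_eq_one {u : ℕ} (h : u ^ 2 = 1) : u = 1 := by
  have h1 : u ^ 2 = 1 ^ 2 := by rw [h, one_pow]
  exact Nat.pow_left_injective (by norm_num : (2 : ℕ) ≠ 0) h1

set_option maxHeartbeats 800000 in
/-- one step of the first descent -/
theorem step_A {e m : ℕ} {N : ℤ} (hm : Odd m) (he : Odd e) (hme : Nat.Coprime m e)
    (hN : 4 * (m : ℤ) ^ 4 - 11 * (m : ℤ) ^ 2 * (e : ℤ) ^ 2 + 8 * (e : ℤ) ^ 4 = N ^ 2) :
    ∃ f g u : ℕ, Odd f ∧ Odd g ∧ Odd u ∧ Nat.Coprime g f ∧ e = f * g * u ∧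
      ((m : ℤ) = 2 * (f : ℤ) ^ 4 - (g : ℤ) ^ 4 ∨ (m : ℤ) = (g : ℤ) ^ 4 - 2 * (f : ℤ) ^ 4) ∧
      4 * (g : ℤ) ^ 4 - 11 * (g : ℤ) ^ 2 * (f : ℤ) ^ 2 + 8 * (f : ℤ) ^ 4 = (u : ℤ) ^ 2 := by
  wlog hN0 : 0 ≤ N generalizing N
  · exact this (N := -N) (by rw [hN]; ring) (by omega)
  have hepos : 0 < e := he.pos
  have hmpos : 0 < m := hm.pos
  have hNpos : 0 < N := by
    rcases hN0.lt_or_eq with h | h
    · exact h
    · exfalso
      obtain ⟨m', hm'⟩ := hm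
      obtain ⟨e', he'⟩ := he
      rw [← h, hm', he'] at hN
      push_cast at hN
      ring_nf at hN
      omega
  have he0 : (0 : ℤ) < (e : ℤ) := by exact_mod_cast hepos
  have hm0 : (0 : ℤ) < (m : ℤ) := by exact_mod_cast hmpos
  have heZ : Odd (e : ℤ) := by exact_mod_cast he
  have hmZ : Odd (m : ℤ) := by exact_mod_cast hm
  obtain ⟨P, hPdef⟩ : ∃ P, P = 4 * N - 8 * (m : ℤ) ^ 2 + 11 * (e : ℤ) ^ 2 := ⟨_, rfl⟩
  obtain ⟨Q, hQdef⟩ : ∃ Q, Q = 4 * N + 8 * (m : ℤ) ^ 2 - 11 * (e : ℤ) ^ 2 := ⟨_, rfl⟩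
  have hPQ : P * Q = ((7 : ℕ) : ℤ) ^ 1 * (e : ℤ) ^ 4 := by
    rw [hPdef, hQdef]
    push_cast
    linear_combination -16 * hN
  obtain ⟨hP, hQ⟩ := pos_of_mul_add (a := P) (b := Q) (by rw [hPQ]; positivity)
    (by rw [hPdef, hQdef]; linarith)
  have hPodd : Odd P := by
    have h11 : Odd (11 * (e : ℤ) ^ 2) := (by decide : Odd (11 : ℤ)).mul heZ.pow
    have h8 : Even (4 * N - 8 * (m : ℤ) ^ 2) := ⟨2 * N - 4 * (m : ℤ) ^ 2, by ring⟩
    rw [hPdef]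
    exact h8.add_odd h11
  have hcop : ∀ q : ℕ, q.Prime → (q : ℤ) ∣ P → (q : ℤ) ∣ Q → False := by
    intro q hq h1 h2
    have hqe := dvd_of_seven hq h1 h2 hPQ
    have hq2 : q ≠ 2 := by
      rintro rfl
      rcases hPodd with ⟨k, hk⟩
      have : (2 : ℤ) ∣ P := by exact_mod_cast h1
      omega
    have hqe' : (q : ℤ) ∣ (e : ℤ) := by exact_mod_cast hqe
    have h3 : (q : ℤ) ∣ 16 * (m : ℤ) ^ 2 := by
      have h4 : (16 * (m : ℤ) ^ 2 : ℤ) = Q - P + (e : ℤ) * (22 * e) := by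
        rw [hPdef, hQdef]; ring
      rw [h4]
      exact dvd_add (dvd_sub h2 h1) (hqe'.mul_right _)
    have hq' := Nat.prime_iff_prime_int.mp hq
    rcases hq'.dvd_or_dvd h3 with h4 | h4
    · have h5 : q ∣ 2 ^ 4 := by
        have : q ∣ 16 := by exact_mod_cast h4
        exact this
      exact hq2 ((Nat.prime_dvd_prime_iff_eq hq (by norm_num)).mp (hq.dvd_of_dvd_pow h5))
    · have h5 : q ∣ m := by exact_mod_cast hq'.dvd_of_dvd_pow h4
      exact Nat.not_coprime_of_dvd_of_dvd hq.one_lt h5 hqe hme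
  rcases split_int (by norm_num : (7 : ℕ).Prime) hP hQ hcop hPQ with ⟨v, u, h1, h2, h3⟩ | ⟨v, u, h1, h2, h3⟩
  · -- `P = 7 v⁴`, `Q = u⁴`
    have hev : Odd v := Nat.Odd.of_mul_left (h3 ▸ he)
    have heu : Odd u := Nat.Odd.of_mul_right (h3 ▸ he)
    have h3' : (e : ℤ) = v * u := by exact_mod_cast h3
    have hm16 : 16 * (m : ℤ) ^ 2 = (u : ℤ) ^ 4 + 22 * (u : ℤ) ^ 2 * (v : ℤ) ^ 2 - 7 * (v : ℤ) ^ 4 := by
      have h4 : 16 * (m : ℤ) ^ 2 - 22 * (e : ℤ) ^ 2 = Q - P := by rw [hPdef, hQdef]; ring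
      rw [h1, h2, h3'] at h4
      push_cast at h4
      linear_combination h4
    obtain ⟨i, hi⟩ := odd_sq (x := (u : ℤ)) (by exact_mod_cast heu)
    obtain ⟨j, hj⟩ := odd_sq (x := (v : ℤ)) (by exact_mod_cast hev)
    obtain ⟨m', hm'⟩ := hmZ
    obtain ⟨w, hw⟩ : ∃ w : ℤ, w = 2 * i + 22 * j + 3 := ⟨_, rfl⟩
    have hw4 : (u : ℤ) ^ 2 + 11 * (v : ℤ) ^ 2 = 4 * w := by rw [hi, hj, hw]; ring
    obtain ⟨a, ha⟩ : ∃ a : ℤ, w - m = 2 * a := ⟨i + 11 * j + 1 - m', by rw [hw, hm']; ring⟩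
    obtain ⟨b, hb⟩ : ∃ b : ℤ, w + m = 2 * b := ⟨i + 11 * j + 2 + m', by rw [hw, hm']; ring⟩
    have hab : a * b = ((2 : ℕ) : ℤ) ^ 1 * (v : ℤ) ^ 4 := by
      have h5 : 64 * (a * b) = 128 * (v : ℤ) ^ 4 := by
        have h6 : 64 * (a * b) = 16 * ((w - m) * (w + m)) := by rw [ha, hb]; ring
        rw [h6]
        linear_combination (-(4 * w + ((u : ℤ) ^ 2 + 11 * (v : ℤ) ^ 2))) * hw4 - hm16
      push_cast
      linarith
    have hvpos : (0 : ℤ) < v := by exact_mod_cast hev.pos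
    have hwpos : 0 < w := by nlinarith [sq_nonneg (u : ℤ), pow_pos hvpos 2]
    obtain ⟨hapos, hbpos⟩ := pos_of_mul_add (a := a) (b := b) (by rw [hab]; positivity) (by linarith)
    have hcop2 : ∀ q : ℕ, q.Prime → (q : ℤ) ∣ a → (q : ℤ) ∣ b → False := by
      intro q hq h5 h6
      have hq2 : q ≠ 2 := by
        rintro rfl
        have h7 : (2 : ℤ) ∣ a := by exact_mod_cast h5
        have h8 : (2 : ℤ) ∣ b := by exact_mod_cast h6
        omega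
      have h7 : q ∣ v := dvd_of_two hq h5 hab hq2
      have h8 : (q : ℤ) ∣ m := by
        have h9 : (m : ℤ) = b - a := by linarith
        rw [h9]
        exact dvd_sub h6 h5
      exact Nat.not_coprime_of_dvd_of_dvd hq.one_lt (by exact_mod_cast h8)
        (h3 ▸ h7.mul_right u) hme
    have key : ∃ f g : ℕ, w = 2 * (f : ℤ) ^ 4 + (g : ℤ) ^ 4 ∧ v = f * g ∧
        ((m : ℤ) = 2 * (f : ℤ) ^ 4 - (g : ℤ) ^ 4 ∨ (m : ℤ) = (g : ℤ) ^ 4 - 2 * (f : ℤ) ^ 4) ∧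
        (∀ q : ℕ, q.Prime → (q : ℤ) ∣ 2 * (f : ℤ) ^ 4 → (q : ℤ) ∣ (g : ℤ) ^ 4 → False) := by
      rcases split_int (by norm_num : (2 : ℕ).Prime) hapos hbpos hcop2 hab with
        ⟨f, g, h5, h6, h7⟩ | ⟨f, g, h5, h6, h7⟩
      · push_cast at h5
        refine ⟨f, g, by linarith, h7, Or.inr (by linarith), fun q hq h8 h9 => ?_⟩
        exact hcop2 q hq (h5 ▸ h8) (h6 ▸ h9)
      · push_cast at h5
        refine ⟨f, g, by linarith, h7, Or.inl (by linarith), fun q hq h8 h9 => ?_⟩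
        exact hcop2 q hq (h6 ▸ h9) (h5 ▸ h8)
    obtain ⟨f, g, hwfg, hvfg, hmfg, hcfg⟩ := key
    have hvfg' : (v : ℤ) = f * g := by exact_mod_cast hvfg
    have hf : Odd f := Nat.Odd.of_mul_left (hvfg ▸ hev)
    have hg : Odd g := Nat.Odd.of_mul_right (hvfg ▸ hev)
    have hgf : Nat.Coprime g f := by
      by_contra hcon
      obtain ⟨q, hq, h5, h6⟩ := Nat.Prime.not_coprime_iff_dvd.mp hcon
      have h5' : (q : ℤ) ∣ (g : ℤ) := by exact_mod_cast h5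
      have h6' : (q : ℤ) ∣ (f : ℤ) := by exact_mod_cast h6
      exact hcfg q hq ((dvd_pow h6' (by norm_num)).mul_left _) (dvd_pow h5' (by norm_num))
    have hnew : 4 * (g : ℤ) ^ 4 - 11 * (g : ℤ) ^ 2 * (f : ℤ) ^ 2 + 8 * (f : ℤ) ^ 4 = (u : ℤ) ^ 2 := by
      rw [hwfg, hvfg'] at hw4
      linear_combination -hw4
    exact ⟨f, g, u, hf, hg, heu, hgf, by rw [h3, hvfg], hmfg, hnew⟩
  · -- `Q = 7 v⁴`, `P = u⁴`
    exfalso
    have hev : Odd v := Nat.Odd.of_mul_left (h3 ▸ he)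
    have heu : Odd u := Nat.Odd.of_mul_right (h3 ▸ he)
    have h3' : (e : ℤ) = v * u := by exact_mod_cast h3
    have hm16 : 16 * (m : ℤ) ^ 2 = 7 * (v : ℤ) ^ 4 + 22 * (u : ℤ) ^ 2 * (v : ℤ) ^ 2 - (u : ℤ) ^ 4 := by
      have h4 : 16 * (m : ℤ) ^ 2 - 22 * (e : ℤ) ^ 2 = Q - P := by rw [hPdef, hQdef]; ring
      rw [h1, h2, h3'] at h4
      push_cast at h4
      linear_combination h4
    obtain ⟨i, hi⟩ := odd_sq (x := (u : ℤ)) (by exact_mod_cast heu)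
    obtain ⟨j, hj⟩ := odd_sq (x := (v : ℤ)) (by exact_mod_cast hev)
    have h4 : 16 * (m : ℤ) ^ 2 = 7 * (8 * j + 1) ^ 2 + 22 * (8 * i + 1) * (8 * j + 1) - (8 * i + 1) ^ 2 := by
      rw [← hi, ← hj]
      linear_combination hm16
    ring_nf at h4
    omega

/-- the first descent -/
theorem descent_A : ∀ (e m : ℕ) (N : ℤ), Odd m → Odd e → Nat.Coprime m e →
    4 * (m : ℤ) ^ 4 - 11 * (m : ℤ) ^ 2 * (e : ℤ) ^ 2 + 8 * (e : ℤ) ^ 4 = N ^ 2 → e = 1 ∧ m = 1 := by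
  intro e
  induction e using Nat.strong_induction_on with
  | _ e ih =>
  intro m N hm he hme hN
  obtain ⟨f, g, u, hf, hg, heu, hgf, he_eq, hmfg, hnew⟩ := step_A hm he hme hN
  by_cases hfe : f < e
  · obtain ⟨rfl, rfl⟩ := ih f hfe g u hg hf hgf hnew
    have hu1 : u = 1 := by
      have h5 : (u : ℤ) ^ 2 = 1 := by rw [← hnew]; norm_num
      exact nat_sq_eq_one (by exact_mod_cast h5)
    rw [hu1] at he_eq
    omega
  · have hf0 : 0 < f := hf.pos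
    have h5 : f * (g * u) ≤ f * 1 := by
      rw [mul_one, ← mul_assoc, ← he_eq]
      exact not_lt.mp hfe
    have h6 : g * u ≤ 1 := Nat.le_of_mul_le_mul_left h5 hf0
    have hg1 : g = 1 := le_antisymm (le_trans (Nat.le_mul_of_pos_right g heu.pos) h6) hg.pos
    have hu1 : u = 1 := le_antisymm (le_trans (Nat.le_mul_of_pos_left u hg.pos) h6) heu.pos
    subst hg1 hu1
    have h7 : (8 * (f : ℤ) ^ 2 - 3) * ((f : ℤ) ^ 2 - 1) = 0 := by
      push_cast at hnew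
      linear_combination hnew
    have h8 : (f : ℤ) ^ 2 = 1 := by
      rcases mul_eq_zero.mp h7 with h8 | h8
      · omega
      · linarith
    have h9 : f = 1 := nat_sq_eq_one (by exact_mod_cast h8)
    subst h9
    refine ⟨by rw [he_eq], ?_⟩
    rcases hmfg with h10 | h10 <;> norm_num at h10 <;> omega

set_option maxHeartbeats 800000 in
/-- one step of the second descent -/
theorem step_B {e m : ℕ} {N : ℤ} (hm : Odd m) (hepos : 0 < e) (hme : Nat.Coprime m e)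
    (hN : (m : ℤ) ^ 4 - 11 * (m : ℤ) ^ 2 * (e : ℤ) ^ 2 + 32 * (e : ℤ) ^ 4 = N ^ 2) :
    ∃ f g : ℕ, ∃ u : ℤ, 0 < f ∧ f < e ∧ Odd g ∧ Nat.Coprime g f ∧
      (g : ℤ) ^ 4 - 11 * (g : ℤ) ^ 2 * (f : ℤ) ^ 2 + 32 * (f : ℤ) ^ 4 = u ^ 2 := by
  wlog hN0 : 0 ≤ N generalizing N
  · exact this (N := -N) (by rw [hN]; ring) (by omega)
  have hmpos : 0 < m := hm.pos
  have hmZ : Odd (m : ℤ) := by exact_mod_cast hm
  obtain ⟨m2, hm2⟩ := odd_sq hmZ
  -- `e` is even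
  have heven : Even e := by
    by_contra hcon
    have he : Odd e := Nat.not_even_iff_odd.mp hcon
    obtain ⟨e2, he2⟩ := odd_sq (x := (e : ℤ)) (by exact_mod_cast he)
    have h1 : (8 * m2 + 1) ^ 2 - 11 * (8 * m2 + 1) * (8 * e2 + 1) + 32 * (8 * e2 + 1) ^ 2 = N ^ 2 := by
      rw [← hm2, ← he2, ← hN]; ring
    rcases Int.even_or_odd' N with ⟨n, hn | hn⟩ <;> rw [hn] at h1 <;> ring_nf at h1 <;> omega
  obtain ⟨ε, hε⟩ := heven
  have hε' : e = 2 * ε := by omega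
  subst hε'
  have hεpos : 0 < ε := by omega
  have hεZ : (0 : ℤ) < (ε : ℤ) := by exact_mod_cast hεpos
  push_cast at hN
  have hNodd : Odd N := by
    rcases Int.even_or_odd' N with ⟨n, hn | hn⟩
    · exfalso
      have h1 : (8 * m2 + 1) ^ 2 - 44 * (8 * m2 + 1) * (ε : ℤ) ^ 2 + 512 * (ε : ℤ) ^ 4 = N ^ 2 := by
        rw [← hm2, ← hN]; ring
      rw [hn] at h1
      ring_nf at h1
      omega
    · exact ⟨n, hn⟩
  obtain ⟨n', hn'⟩ := hNodd
  obtain ⟨P, hPdef⟩ : ∃ P, 2 * P = N - (m : ℤ) ^ 2 + 22 * (ε : ℤ) ^ 2 :=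
    ⟨n' - 4 * m2 + 11 * (ε : ℤ) ^ 2, by rw [hn', hm2]; ring⟩
  obtain ⟨Q, hQdef⟩ : ∃ Q, 2 * Q = N + (m : ℤ) ^ 2 - 22 * (ε : ℤ) ^ 2 :=
    ⟨n' + 4 * m2 + 1 - 11 * (ε : ℤ) ^ 2, by rw [hn', hm2]; ring⟩
  have hPQ : P * Q = ((7 : ℕ) : ℤ) ^ 1 * (ε : ℤ) ^ 4 := by
    have h1 : 4 * (P * Q) = 28 * (ε : ℤ) ^ 4 := by
      have h2 : 4 * (P * Q) = (2 * P) * (2 * Q) := by ring
      rw [h2, hPdef, hQdef]
      linear_combination -hN
    push_cast
    linarith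
  obtain ⟨hP, hQ⟩ := pos_of_mul_add (a := P) (b := Q) (by rw [hPQ]; positivity) (by
    have h1 : P + Q = N := by linarith
    rw [h1, hn']
    omega)
  have hmε : Nat.Coprime m ε := Nat.Coprime.coprime_mul_left_right hme
  have hcop : ∀ q : ℕ, q.Prime → (q : ℤ) ∣ P → (q : ℤ) ∣ Q → False := by
    intro q hq h1 h2
    have hqe := dvd_of_seven hq h1 h2 hPQ
    have hqe' : (q : ℤ) ∣ (ε : ℤ) := by exact_mod_cast hqe
    have h3 : (q : ℤ) ∣ (m : ℤ) ^ 2 := by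
      have h4 : ((m : ℤ) ^ 2 : ℤ) = Q - P + (ε : ℤ) * (22 * ε) := by linarith
      rw [h4]
      exact dvd_add (dvd_sub h2 h1) (hqe'.mul_right _)
    have h5 : q ∣ m := by exact_mod_cast (Nat.prime_iff_prime_int.mp hq).dvd_of_dvd_pow h3
    exact Nat.not_coprime_of_dvd_of_dvd hq.one_lt h5 hqe hmε
  rcases split_int (by norm_num : (7 : ℕ).Prime) hP hQ hcop hPQ with ⟨v, u, h1, h2, h3⟩ | ⟨v, u, h1, h2, h3⟩
  · -- `P = 7 v⁴`, `Q = u⁴`
    have h3' : (ε : ℤ) = v * u := by exact_mod_cast h3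
    have hvpos : 0 < v := Nat.pos_of_ne_zero (by rintro rfl; omega)
    have hupos : 0 < u := Nat.pos_of_ne_zero (by rintro rfl; omega)
    have hvZ : (0 : ℤ) < (v : ℤ) := by exact_mod_cast hvpos
    have hmm : (m : ℤ) ^ 2 = (u : ℤ) ^ 4 + 22 * (u : ℤ) ^ 2 * (v : ℤ) ^ 2 - 7 * (v : ℤ) ^ 4 := by
      have h4 : (m : ℤ) ^ 2 - 22 * (ε : ℤ) ^ 2 = Q - P := by linarith
      rw [h1, h2, h3'] at h4
      push_cast at h4
      linear_combination h4
    obtain ⟨w, hw⟩ : ∃ w : ℤ, w = (u : ℤ) ^ 2 + 11 * (v : ℤ) ^ 2 := ⟨_, rfl⟩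
    have hwpos : 0 < w := by rw [hw]; positivity
    have hwm : (w - m) * (w + m) = 128 * (v : ℤ) ^ 4 := by
      rw [hw]
      linear_combination -hmm
    have hwodd : Odd w := by
      rcases Int.even_or_odd' w with ⟨n, hn | hn⟩
      · exfalso
        have h5 : (w ^ 2 : ℤ) = 128 * (v : ℤ) ^ 4 + (8 * m2 + 1) := by
          rw [← hm2]; linear_combination hwm
        rw [hn] at h5
        ring_nf at h5
        omega
      · exact ⟨n, hn⟩
    obtain ⟨w', hw'⟩ := hwodd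
    obtain ⟨m', hm'⟩ := hmZ
    obtain ⟨a, ha⟩ : ∃ a : ℤ, w - m = 2 * a := ⟨w' - m', by rw [hw', hm']; ring⟩
    obtain ⟨b, hb⟩ : ∃ b : ℤ, w + m = 2 * b := ⟨w' + m' + 1, by rw [hw', hm']; ring⟩
    have hab : a * b = ((2 : ℕ) : ℤ) ^ 5 * (v : ℤ) ^ 4 := by
      have h5 : 4 * (a * b) = 128 * (v : ℤ) ^ 4 := by
        have h6 : 4 * (a * b) = (w - m) * (w + m) := by rw [ha, hb]; ring
        rw [h6, hwm]
      push_cast
      linarith
    obtain ⟨hapos, hbpos⟩ := pos_of_mul_add (a := a) (b := b) (by rw [hab]; positivity) (by linarith)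
    have hcop2 : ∀ q : ℕ, q.Prime → (q : ℤ) ∣ a → (q : ℤ) ∣ b → False := by
      intro q hq h5 h6
      have hq2 : q ≠ 2 := by
        rintro rfl
        have h7 : (2 : ℤ) ∣ a := by exact_mod_cast h5
        have h8 : (2 : ℤ) ∣ b := by exact_mod_cast h6
        omega
      have h7 : q ∣ v := dvd_of_two hq h5 hab hq2
      have h8 : (q : ℤ) ∣ m := by
        have h9 : (m : ℤ) = b - a := by linarith
        rw [h9]
        exact dvd_sub h6 h5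
      exact Nat.not_coprime_of_dvd_of_dvd hq.one_lt (by exact_mod_cast h8)
        (h3 ▸ h7.mul_right u) hmε
    have key : ∃ f g : ℕ, w = 32 * (f : ℤ) ^ 4 + (g : ℤ) ^ 4 ∧ v = f * g ∧
        (∀ q : ℕ, q.Prime → (q : ℤ) ∣ 32 * (f : ℤ) ^ 4 → (q : ℤ) ∣ (g : ℤ) ^ 4 → False) := by
      rcases split_int (by norm_num : (2 : ℕ).Prime) hapos hbpos hcop2 hab with
        ⟨f, g, h5, h6, h7⟩ | ⟨f, g, h5, h6, h7⟩
      · norm_num at h5
        refine ⟨f, g, by linarith, h7, fun q hq h8 h9 => ?_⟩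
        exact hcop2 q hq (h5 ▸ h8) (h6 ▸ h9)
      · norm_num at h5
        refine ⟨f, g, by linarith, h7, fun q hq h8 h9 => ?_⟩
        exact hcop2 q hq (h6 ▸ h9) (h5 ▸ h8)
    obtain ⟨f, g, hwfg, hvfg, hcfg⟩ := key
    have hvfg' : (v : ℤ) = f * g := by exact_mod_cast hvfg
    have hf0 : 0 < f := Nat.pos_of_ne_zero (by rintro rfl; omega)
    have hg0 : 0 < g := Nat.pos_of_ne_zero (by rintro rfl; omega)
    refine ⟨f, g, u, hf0, ?_, ?_, ?_, ?_⟩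
    · have h5 : f ≤ v := by rw [hvfg]; exact Nat.le_mul_of_pos_right f hg0
      have h6 : v ≤ ε := by rw [h3]; exact Nat.le_mul_of_pos_right v hupos
      omega
    · by_contra hcon
      have hge : Even g := Nat.not_odd_iff_even.mp hcon
      obtain ⟨g', hg'⟩ := hge
      rw [hg', hw'] at hwfg
      push_cast at hwfg
      ring_nf at hwfg
      omega
    · by_contra hcon
      obtain ⟨q, hq, h5, h6⟩ := Nat.Prime.not_coprime_iff_dvd.mp hcon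
      have h5' : (q : ℤ) ∣ (g : ℤ) := by exact_mod_cast h5
      have h6' : (q : ℤ) ∣ (f : ℤ) := by exact_mod_cast h6
      exact hcfg q hq ((dvd_pow h6' (by norm_num)).mul_left _) (dvd_pow h5' (by norm_num))
    · rw [hwfg, hvfg'] at hw
      linear_combination hw
  · -- `Q = 7 v⁴`, `P = u⁴`
    exfalso
    have h3' : (ε : ℤ) = v * u := by exact_mod_cast h3
    have hmm : (m : ℤ) ^ 2 = 7 * (v : ℤ) ^ 4 + 22 * (u : ℤ) ^ 2 * (v : ℤ) ^ 2 - (u : ℤ) ^ 4 := by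
      have h4 : (m : ℤ) ^ 2 - 22 * (ε : ℤ) ^ 2 = Q - P := by linarith
      rw [h1, h2, h3'] at h4
      push_cast at h4
      linear_combination h4
    rw [hm2] at hmm
    rcases Nat.even_or_odd' u with ⟨u', hu | hu⟩ <;> rcases Nat.even_or_odd' v with ⟨v', hv | hv⟩ <;>
      rw [hu, hv] at hmm <;> push_cast at hmm <;> ring_nf at hmm <;> omega

/-- the second descent -/
theorem descent_B : ∀ (e m : ℕ) (N : ℤ), Odd m → 0 < e → Nat.Coprime m e →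
    (m : ℤ) ^ 4 - 11 * (m : ℤ) ^ 2 * (e : ℤ) ^ 2 + 32 * (e : ℤ) ^ 4 = N ^ 2 → False := by
  intro e
  induction e using Nat.strong_induction_on with
  | _ e ih =>
  intro m N hm he hme hN
  obtain ⟨f, g, u, hf, hfe, hg, hgf, hnew⟩ := step_B hm he hme hN
  exact ih f hfe g u hg hf hgf hnew

theorem sq_int {c d W : ℤ} (hc : 0 < c) (hd : 0 < d)
    (hcop : ∀ q : ℕ, q.Prime → (q : ℤ) ∣ c → (q : ℤ) ∣ d → False) (h : c * d = W ^ 2) :
    ∃ r s : ℕ, c = (r : ℤ) ^ 2 ∧ d = (s : ℤ) ^ 2 := by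
  lift c to ℕ using hc.le
  lift d to ℕ using hd.le
  have hab' : Nat.Coprime c d := by
    by_contra hcon
    obtain ⟨q, hq, h1, h2⟩ := Nat.Prime.not_coprime_iff_dvd.mp hcon
    exact hcop q hq (by exact_mod_cast h1) (by exact_mod_cast h2)
  have h' : c * d = W.natAbs ^ 2 := by
    have h1 : ((W.natAbs : ℕ) : ℤ) ^ 2 = W ^ 2 := by simp
    have h2 : ((c * d : ℕ) : ℤ) = ((W.natAbs ^ 2 : ℕ) : ℤ) := by
      push_cast
      rw [h]
      simp
    exact_mod_cast h2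
  obtain ⟨r, hr⟩ := eq_sq hab' h'
  obtain ⟨t, ht⟩ := eq_sq hab'.symm (by rw [mul_comm]; exact h')
  exact ⟨r, t, by exact_mod_cast hr, by exact_mod_cast ht⟩

theorem sq_of_mul_sq {k x W : ℤ} (hk : k ≠ 0) (h : k ^ 2 * x = W ^ 2) : ∃ V : ℤ, x = V ^ 2 := by
  obtain ⟨V, rfl⟩ : k ∣ W := (Int.pow_dvd_pow_iff (by norm_num : (2 : ℕ) ≠ 0)).mp ⟨x, h.symm⟩
  refine ⟨V, ?_⟩
  have h2 : k ^ 2 * x = k ^ 2 * V ^ 2 := by rw [h]; ring
  exact mul_left_cancel₀ (pow_ne_zero 2 hk) h2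

set_option maxHeartbeats 800000 in
/-- the integral version -/
theorem int_points {m n : ℕ} (hn : 0 < n) (hmn : Nat.Coprime m n) {W : ℤ}
    (h : ((m : ℤ) ^ 2 + 7 * (n : ℤ) ^ 2) * ((m : ℤ) ^ 4 + 3 * (m : ℤ) ^ 2 * (n : ℤ) ^ 2 +
      4 * (n : ℤ) ^ 4) = W ^ 2) : m = 1 ∧ n = 1 := by
  have hnZ : (0 : ℤ) < (n : ℤ) := by exact_mod_cast hn
  -- a common prime factor of `m² + 7 n²` and `n` does not exist
  have hq0 : ∀ q : ℕ, q.Prime → (q : ℤ) ∣ (m : ℤ) ^ 2 + 7 * (n : ℤ) ^ 2 → (q : ℤ) ∣ (n : ℤ) → False := by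
    intro q hq h1 h2
    have h3 : (q : ℤ) ∣ (m : ℤ) ^ 2 := by
      have h4 : ((m : ℤ) ^ 2 : ℤ) = ((m : ℤ) ^ 2 + 7 * (n : ℤ) ^ 2) - (n : ℤ) * (7 * n) := by ring
      rw [h4]
      exact dvd_sub h1 (h2.mul_right _)
    have h5 : q ∣ m := by exact_mod_cast (Nat.prime_iff_prime_int.mp hq).dvd_of_dvd_pow h3
    exact Nat.not_coprime_of_dvd_of_dvd hq.one_lt h5 (by exact_mod_cast h2) hmn
  have hq2 : ∀ q k : ℕ, q.Prime → q ≠ 2 → (q : ℤ) ∣ 2 ^ k * (n : ℤ) ^ 4 → (q : ℤ) ∣ (n : ℤ) := by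
    intro q k hq hq2 h1
    have hq' := Nat.prime_iff_prime_int.mp hq
    rcases hq'.dvd_or_dvd h1 with h3 | h3
    · have h4 : q ∣ 2 := by exact_mod_cast hq'.dvd_of_dvd_pow h3
      exact absurd ((Nat.prime_dvd_prime_iff_eq hq (by norm_num)).mp h4) hq2
    · exact hq'.dvd_of_dvd_pow h3
  have hF2 : (m : ℤ) ^ 4 + 3 * (m : ℤ) ^ 2 * (n : ℤ) ^ 2 + 4 * (n : ℤ) ^ 4 =
      ((m : ℤ) ^ 2 + 7 * (n : ℤ) ^ 2) * ((m : ℤ) ^ 2 - 4 * (n : ℤ) ^ 2) + 2 ^ 5 * (n : ℤ) ^ 4 := by ring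
  have hF1pos : (0 : ℤ) < (m : ℤ) ^ 2 + 7 * (n : ℤ) ^ 2 := by positivity
  have hF2pos : (0 : ℤ) < (m : ℤ) ^ 4 + 3 * (m : ℤ) ^ 2 * (n : ℤ) ^ 2 + 4 * (n : ℤ) ^ 4 := by positivity
  rcases Nat.even_or_odd m with hm | hm
  · -- `m` even, `n` odd
    exfalso
    have hnodd : Odd n := by
      rw [← Nat.not_even_iff_odd]
      intro hne
      exact Nat.not_coprime_of_dvd_of_dvd (by norm_num) hm.two_dvd hne.two_dvd hmn
    obtain ⟨m', hm'⟩ := hm
    obtain ⟨i, hi⟩ := odd_sq (x := (n : ℤ)) (by exact_mod_cast hnodd)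
    obtain ⟨r, s, hr, -⟩ := sq_int hF1pos hF2pos (fun q hq h1 h2 => by
      have hq2' : q ≠ 2 := by
        rintro rfl
        have h3 : (2 : ℤ) ∣ (m : ℤ) ^ 2 + 7 * (n : ℤ) ^ 2 := by exact_mod_cast h1
        rw [hi, hm'] at h3
        push_cast at h3
        ring_nf at h3
        omega
      refine hq0 q hq h1 (hq2 q 5 hq hq2' ?_)
      have h4 : (2 ^ 5 * (n : ℤ) ^ 4 : ℤ) = ((m : ℤ) ^ 4 + 3 * (m : ℤ) ^ 2 * (n : ℤ) ^ 2 + 4 * (n : ℤ) ^ 4) -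
        ((m : ℤ) ^ 2 + 7 * (n : ℤ) ^ 2) * ((m : ℤ) ^ 2 - 4 * (n : ℤ) ^ 2) := by rw [hF2]; ring
      rw [h4]
      exact dvd_sub h2 (h1.mul_right _)) h
    rw [hi, hm'] at hr
    push_cast at hr
    rcases Int.even_or_odd' (r : ℤ) with ⟨k, hk | hk⟩ <;> rw [hk] at hr <;> ring_nf at hr <;> omega
  · obtain ⟨j, hj⟩ := odd_sq (x := (m : ℤ)) (by exact_mod_cast hm)
    rcases Nat.even_or_odd n with hne | hno
    · -- `m` odd, `n` even
      exfalso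
      obtain ⟨n', hn'⟩ := hne
      obtain ⟨r, s, hr, hs⟩ := sq_int hF1pos hF2pos (fun q hq h1 h2 => by
        have hq2' : q ≠ 2 := by
          rintro rfl
          have h3 : (2 : ℤ) ∣ (m : ℤ) ^ 2 + 7 * (n : ℤ) ^ 2 := by exact_mod_cast h1
          rw [hj, hn'] at h3
          push_cast at h3
          ring_nf at h3
          omega
        refine hq0 q hq h1 (hq2 q 5 hq hq2' ?_)
        have h4 : (2 ^ 5 * (n : ℤ) ^ 4 : ℤ) = ((m : ℤ) ^ 4 + 3 * (m : ℤ) ^ 2 * (n : ℤ) ^ 2 + 4 * (n : ℤ) ^ 4) -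
          ((m : ℤ) ^ 2 + 7 * (n : ℤ) ^ 2) * ((m : ℤ) ^ 2 - 4 * (n : ℤ) ^ 2) := by rw [hF2]; ring
        rw [h4]
        exact dvd_sub h2 (h1.mul_right _)) h
      have hrodd : Odd r := by
        rw [← Nat.not_even_iff_odd]
        rintro ⟨r', hr'⟩
        rw [hj, hn', hr'] at hr
        push_cast at hr
        ring_nf at hr
        omega
      have hrn : Nat.Coprime r n := by
        by_contra hcon
        obtain ⟨q, hq, h1, h2⟩ := Nat.Prime.not_coprime_iff_dvd.mp hcon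
        have h1' : (q : ℤ) ∣ (r : ℤ) := by exact_mod_cast h1
        exact hq0 q hq (by rw [hr]; exact dvd_pow h1' (by norm_num)) (by exact_mod_cast h2)
      refine descent_B n r s hrodd hn hrn ?_
      rw [← hs]
      linear_combination (-((r : ℤ) ^ 2 + (m : ℤ) ^ 2 + 7 * (n : ℤ) ^ 2) + 11 * (n : ℤ) ^ 2) * hr
    · -- both odd
      obtain ⟨i, hi⟩ := odd_sq (x := (n : ℤ)) (by exact_mod_cast hno)
      obtain ⟨c, hc⟩ : ∃ c : ℤ, (m : ℤ) ^ 2 + 7 * (n : ℤ) ^ 2 = 8 * c := ⟨j + 7 * i + 1, by rw [hi, hj]; ring⟩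
      have hcpos : 0 < c := by omega
      have hd : (m : ℤ) ^ 4 + 3 * (m : ℤ) ^ 2 * (n : ℤ) ^ 2 + 4 * (n : ℤ) ^ 4 =
          8 * (c * ((m : ℤ) ^ 2 - 4 * (n : ℤ) ^ 2) + 4 * (n : ℤ) ^ 4) := by
        rw [hF2, hc]; ring
      rw [hc, hd] at h
      rw [hd] at hF2pos
      have hcop : ∀ r : ℕ, (∃ t : ℤ, (m : ℤ) ^ 2 + 7 * (n : ℤ) ^ 2 = t * (r : ℤ) ^ 2) → Nat.Coprime n r := by
        rintro r ⟨t, ht⟩
        by_contra hcon
        obtain ⟨q, hq, h1, h2⟩ := Nat.Prime.not_coprime_iff_dvd.mp hcon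
        have h2' : (q : ℤ) ∣ (r : ℤ) := by exact_mod_cast h2
        exact hq0 q hq (by rw [ht]; exact (dvd_pow h2' (by norm_num)).mul_left _) (by exact_mod_cast h1)
      rcases Int.even_or_odd' c with ⟨c1, hc1 | hc1⟩
      · rcases Int.even_or_odd' c1 with ⟨c2, hc2 | hc2⟩
        · -- `c = 4 c2`
          exfalso
          rw [hc2] at hc1
          rw [hc1] at h hc hF2pos
          obtain ⟨V, hV⟩ := sq_of_mul_sq (k := 32)
            (x := c2 * (c2 * ((m : ℤ) ^ 2 - 4 * (n : ℤ) ^ 2) + (n : ℤ) ^ 4)) (W := W) (by norm_num)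
            (by rw [← h]; ring)
          obtain ⟨r, s, hr, hs⟩ := sq_int (c := c2) (d := c2 * ((m : ℤ) ^ 2 - 4 * (n : ℤ) ^ 2) + (n : ℤ) ^ 4)
            (W := V) (by omega) (by linarith) (fun q hq h1 h2 => by
              have h3 : (q : ℤ) ∣ (n : ℤ) ^ 4 := by
                have h4 : ((n : ℤ) ^ 4 : ℤ) = (c2 * ((m : ℤ) ^ 2 - 4 * (n : ℤ) ^ 2) + (n : ℤ) ^ 4) -
                  c2 * ((m : ℤ) ^ 2 - 4 * (n : ℤ) ^ 2) := by ring
                rw [h4]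
                exact dvd_sub h2 (h1.mul_right _)
              refine hq0 q hq ?_ ((Nat.prime_iff_prime_int.mp hq).dvd_of_dvd_pow h3)
              rw [hc]
              exact ((h1.mul_left 2).mul_left 2).mul_left 8) hV
          have hr0 : 0 < r := Nat.pos_of_ne_zero (by rintro rfl; simp at hr; omega)
          refine descent_B r n s hno hr0 (hcop r ⟨32, by rw [hc, hr]; ring⟩) ?_
          rw [← hs, hr]
          have hm2 : (m : ℤ) ^ 2 = 32 * (r : ℤ) ^ 2 - 7 * (n : ℤ) ^ 2 := by rw [hr] at hc; linarith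
          rw [hm2]
          ring
        · -- `c = 2 c1`, `c1` odd
          exfalso
          have hc1o : Odd c1 := ⟨c2, hc2⟩
          rw [hc1] at h hc hF2pos
          obtain ⟨V, hV⟩ := sq_of_mul_sq (k := 16)
            (x := c1 * (c1 * ((m : ℤ) ^ 2 - 4 * (n : ℤ) ^ 2) + 2 * (n : ℤ) ^ 4)) (W := W) (by norm_num)
            (by rw [← h]; ring)
          obtain ⟨r, s, hr, hs⟩ := sq_int (c := c1) (d := c1 * ((m : ℤ) ^ 2 - 4 * (n : ℤ) ^ 2) + 2 * (n : ℤ) ^ 4)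
            (W := V) (by omega) (by linarith) (fun q hq h1 h2 => by
              have hqne : q ≠ 2 := by
                rintro rfl
                have h3 : (2 : ℤ) ∣ c1 := by exact_mod_cast h1
                omega
              refine hq0 q hq ?_ (hq2 q 1 hq hqne ?_)
              · rw [hc]
                exact (h1.mul_left 2).mul_left 8
              · have h4 : (2 ^ 1 * (n : ℤ) ^ 4 : ℤ) = (c1 * ((m : ℤ) ^ 2 - 4 * (n : ℤ) ^ 2) + 2 * (n : ℤ) ^ 4) -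
                  c1 * ((m : ℤ) ^ 2 - 4 * (n : ℤ) ^ 2) := by ring
                rw [h4]
                exact dvd_sub h2 (h1.mul_right _)) hV
          have hrodd : Odd (r : ℤ) := by
            rcases Int.even_or_odd (r : ℤ) with h1 | h1
            · exfalso
              obtain ⟨r', hr'⟩ := h1
              rw [hr'] at hr
              ring_nf at hr
              omega
            · exact h1
          obtain ⟨k, hk⟩ := odd_sq hrodd
          have hm2 : (m : ℤ) ^ 2 = 16 * (8 * k + 1) - 7 * (8 * i + 1) := by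
            rw [hr, hk, hi] at hc; linarith
          have h5 : (8 * k + 1) * ((16 * (8 * k + 1) - 7 * (8 * i + 1)) - 4 * (8 * i + 1)) +
              2 * (8 * i + 1) ^ 2 = (s : ℤ) ^ 2 := by
            rw [← hs, hr, hm2, ← hk, ← hi]
            ring
          rcases Int.even_or_odd' (s : ℤ) with ⟨t, ht | ht⟩ <;> rw [ht] at h5 <;> ring_nf at h5 <;> omega
      · -- `c` odd
        obtain ⟨V, hV⟩ := sq_of_mul_sq (k := 8)
          (x := c * (c * ((m : ℤ) ^ 2 - 4 * (n : ℤ) ^ 2) + 4 * (n : ℤ) ^ 4)) (W := W) (by norm_num)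
          (by rw [← h]; ring)
        obtain ⟨r, s, hr, hs⟩ := sq_int (c := c) (d := c * ((m : ℤ) ^ 2 - 4 * (n : ℤ) ^ 2) + 4 * (n : ℤ) ^ 4)
          (W := V) (by omega) (by linarith) (fun q hq h1 h2 => by
            have hqne : q ≠ 2 := by
              rintro rfl
              have h3 : (2 : ℤ) ∣ c := by exact_mod_cast h1
              omega
            refine hq0 q hq ?_ (hq2 q 2 hq hqne ?_)
            · rw [hc]
              exact h1.mul_left 8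
            · have h4 : (2 ^ 2 * (n : ℤ) ^ 4 : ℤ) = (c * ((m : ℤ) ^ 2 - 4 * (n : ℤ) ^ 2) + 4 * (n : ℤ) ^ 4) -
                c * ((m : ℤ) ^ 2 - 4 * (n : ℤ) ^ 2) := by ring
              rw [h4]
              exact dvd_sub h2 (h1.mul_right _)) hV
        have hrodd : Odd r := by
          rw [← Nat.not_even_iff_odd]
          rintro ⟨r', hr'⟩
          rw [hr'] at hr
          push_cast at hr
          ring_nf at hr
          omega
        have hm2 : (m : ℤ) ^ 2 = 8 * (r : ℤ) ^ 2 - 7 * (n : ℤ) ^ 2 := by rw [hr] at hc; linarith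
        obtain ⟨h1, h2⟩ := descent_A r n s hno hrodd (hcop r ⟨8, by rw [hc, hr]⟩) (by
          rw [← hs, hr, hm2]
          ring)
        subst h1 h2
        refine ⟨?_, rfl⟩
        have h3 : (m : ℤ) ^ 2 = 1 := by rw [hm2]; norm_num
        exact nat_sq_eq_one (by exact_mod_cast h3)

/-- **The rational points of `X₀(28)`.** -/
theorem rat_points {x w : ℚ} (h : (x ^ 2 + 7) * (x ^ 2 + x + 2) * (x ^ 2 - x + 2) = w ^ 2) :
    x = 1 ∨ x = -1 := by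
  obtain ⟨m, hm⟩ : ∃ m : ℤ, m = x.num := ⟨_, rfl⟩
  obtain ⟨n, hn⟩ : ∃ n : ℕ, n = x.den := ⟨_, rfl⟩
  have hn0 : 0 < n := by rw [hn]; exact x.den_pos
  have hnQ : (n : ℚ) ≠ 0 := by exact_mod_cast hn0.ne'
  have hcop : Nat.Coprime m.natAbs n := by rw [hm, hn]; exact x.reduced
  have hx : x = (m : ℚ) / (n : ℚ) := by rw [hm, hn]; exact (Rat.num_div_den x).symm
  have hmabs : ((m.natAbs : ℕ) : ℤ) ^ 2 = m ^ 2 := by simp
  have hsq : IsSquare (((((m.natAbs : ℕ) : ℤ) ^ 2 + 7 * (n : ℤ) ^ 2) * (((m.natAbs : ℕ) : ℤ) ^ 4 +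
      3 * ((m.natAbs : ℕ) : ℤ) ^ 2 * (n : ℤ) ^ 2 + 4 * (n : ℤ) ^ 4) : ℤ) : ℚ) := by
    refine ⟨w * (n : ℚ) ^ 3, ?_⟩
    have h4 : ((m.natAbs : ℕ) : ℤ) ^ 4 = (m ^ 2) ^ 2 := by rw [← hmabs]; ring
    rw [h4, hmabs]
    have h5 : w * (n : ℚ) ^ 3 * (w * (n : ℚ) ^ 3) = w ^ 2 * (n : ℚ) ^ 6 := by ring
    rw [h5, ← h, hx]
    push_cast
    field_simp
    ring
  rw [Rat.isSquare_intCast_iff] at hsq
  obtain ⟨W, hW⟩ := hsq
  obtain ⟨h1, h2⟩ := int_points hn0 hcop (W := W) (by rw [hW]; ring)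
  rw [h2] at hx
  rcases Int.natAbs_eq m with h3 | h3
  · left
    rw [hx, h3, h1]
    norm_num
  · right
    rw [hx, h3, h1]
    norm_num

/-- **No full level two structure with a rational line of order seven**: the modular curve
`σ₁ σ₂ σ₃ = -1`, `S² + S - 3 = 4 (σ₁ σ₂ + σ₂ σ₃ + σ₃ σ₁)`, `S = σ₁ + σ₂ + σ₃`, has no rational points with
distinct coordinates. -/
theorem no_sigma {a b c : ℚ} (h1 : a * b * c = -1)
    (h2 : (a + b + c) ^ 2 + (a + b + c) - 3 = 4 * (a * b + b * c + c * a)) (hab : a ≠ b) (hbc : b ≠ c)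
    (hca : c ≠ a) : False := by
  have hab' : a - b ≠ 0 := sub_ne_zero.mpr hab
  have key : (((a + b - 2 * c) / (a - b)) ^ 2 + 7) * (((a + b - 2 * c) / (a - b)) ^ 2 +
      ((a + b - 2 * c) / (a - b)) + 2) * (((a + b - 2 * c) / (a - b)) ^ 2 -
      ((a + b - 2 * c) / (a - b)) + 2) =
      (4 * ((a + b + c) ^ 2 - 3 * (a * b + b * c + c * a)) * ((a + b + c) - 2) / (a - b) ^ 3) ^ 2 := by
    have hprod : (((a + b - 2 * c)) ^ 2 + 7 * (a - b) ^ 2) * (((a + b - 2 * c)) ^ 2 +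
        ((a + b - 2 * c)) * (a - b) + 2 * (a - b) ^ 2) * (((a + b - 2 * c)) ^ 2 -
        ((a + b - 2 * c)) * (a - b) + 2 * (a - b) ^ 2) =
        16 * (4 * ((a + b + c) ^ 2 - 3 * (a * b + b * c + c * a)) ^ 3 +
          ((a + b + c) ^ 2 * (a * b + b * c + c * a) ^ 2 - 4 * (a * b + b * c + c * a) ^ 3 -
            4 * (a + b + c) ^ 3 * (a * b * c) + 18 * (a + b + c) * (a * b + b * c + c * a) * (a * b * c) -
            27 * (a * b * c) ^ 2)) := by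
      ring
    have he2 : a * b + b * c + c * a = ((a + b + c) ^ 2 + (a + b + c) - 3) / 4 := by
      rw [h2]; ring
    rw [h1, he2] at hprod
    rw [he2]
    generalize (a + b + c) = S at hprod ⊢
    have e1 : ((((a + b - 2 * c) / (a - b)) ^ 2 + 7) * (((a + b - 2 * c) / (a - b)) ^ 2 +
      ((a + b - 2 * c) / (a - b)) + 2) * (((a + b - 2 * c) / (a - b)) ^ 2 -
      ((a + b - 2 * c) / (a - b)) + 2)) = ((((a + b - 2 * c)) ^ 2 + 7 * (a - b) ^ 2) * (((a + b - 2 * c)) ^ 2 +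
        ((a + b - 2 * c)) * (a - b) + 2 * (a - b) ^ 2) * (((a + b - 2 * c)) ^ 2 -
        ((a + b - 2 * c)) * (a - b) + 2 * (a - b) ^ 2)) / (a - b) ^ 6 := by
      field_simp
    rw [e1, hprod]
    generalize a - b = d
    ring
  rcases rat_points key with h3 | h3
  · rw [div_eq_one_iff_eq hab'] at h3
    exact hbc (by linarith)
  · rw [div_eq_iff hab'] at h3
    exact hca (by linarith)

end Fermat.Agent.Cor.H11.Seven
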