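import Fermat.Agent.S51
import Fermat.Agent.H09.Dichotomy
import Fermat.Agent.Cor.H11SevenDesc

/-!
# The mod `7` representation of an elliptic curve with full rational `2`-torsion is irreducible

Let `E` be an elliptic curve over `ℚ` all of whose points of order two are rational. Then `E[7]` is irreducible, i.e.
`E` has no rational isogeny of degree `7`. Let `C` be a rational subgroup of order `7`, `P` a generator. The points
`P`, `2 P`, `4 P` are collinear (`7 P = 0`), and the line through them is defined over `ℚ` up to sign. This gives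
three rational numbers `σ₁, σ₂, σ₃` attached to the points of order two with `σ₁ σ₂ σ₃ = -1` and
`S² + S - 3 = 4 (σ₁ σ₂ + σ₂ σ₃ + σ₃ σ₁)`, hence a noncuspidal rational point of
`X₀(28) : y² = (x² + 7)(x² + x + 2)(x² - x + 2)`.

This file is not used by any of the statement files.
-/

set_option autoImplicit false

namespace Fermat.Agent.Cor.H11.Seven

open WeierstrassCurve WeierstrassCurve.Affine WeierstrassCurve.Affine.Point
open Fermat.Agent.H51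

section point

variable {K : Type*} [Field K] [DecidableEq K] {V : WeierstrassCurve.Affine K}

/-- The ordinate `2 y + a₁ x + a₃` of a point (junk value `0` at infinity). -/
def Yc : V.Point → K
  | .zero => 0
  | .some x y _ => 2 * y + V.a₁ * x + V.a₃

omit [DecidableEq K] in
lemma Yc_some {x y : K} (h : V.Nonsingular x y) :
    Yc (Point.some x y h) = 2 * y + V.a₁ * x + V.a₃ := rfl

omit [DecidableEq K] in
lemma Yc_neg (P : V.Point) : Yc (-P) = -Yc P := by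
  rcases P with _ | ⟨x, y, h⟩
  · exact neg_zero.symm
  · rw [Point.neg_some, Yc_some, Yc_some, Affine.negY]
    ring

lemma Yc_sq {P : V.Point} (hP : P ≠ 0) : (Yc P) ^ 2 = psi2Sq V (xc P) := by
  rcases P with _ | ⟨x, y, h⟩
  · exact absurd rfl hP
  · exact equation_sq h.1

/-- Three points with sum zero are collinear. -/
lemma exists_line {P Q : V.Point} (hP : P ≠ 0) (hQ : Q ≠ 0) (hx : xc P ≠ xc Q) :
    ∃ k : K, Yc Q = k * (xc Q - xc P) + Yc P ∧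
      Yc (-(P + Q)) = k * (xc (-(P + Q)) - xc P) + Yc P := by
  rcases P with _ | ⟨x₁, y₁, h₁⟩
  · exact absurd rfl hP
  rcases Q with _ | ⟨x₂, y₂, h₂⟩
  · exact absurd rfl hQ
  simp only [xc_some] at hx ⊢
  have hd : x₁ - x₂ ≠ 0 := sub_ne_zero.mpr hx
  have l1 : (y₁ - y₂) / (x₁ - x₂) * (x₁ - x₂) = y₁ - y₂ := by field_simp
  refine ⟨2 * ((y₁ - y₂) / (x₁ - x₂)) + V.a₁, ?_, ?_⟩
  · rw [Yc_some, Yc_some]
    linear_combination 2 * l1
  · rw [Point.add_of_X_ne hx, Point.neg_some, xc_some, Yc_some, Yc_some, Affine.addY,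
      Affine.negAddY, Affine.negY, Affine.negY, Affine.slope_of_X_ne hx]
    ring

/-- multiples of a point of order seven -/
lemma smul_ne_zero {P : V.Point} (hP : P ≠ 0) (h7 : (7 : ℕ) • P = 0) {n : ℕ} (hn : ¬ 7 ∣ n) :
    n • P ≠ 0 := by
  have : Fact (Nat.Prime 7) := ⟨by norm_num⟩
  have ho : addOrderOf P = 7 := addOrderOf_eq_prime h7 hP
  intro h
  exact hn (ho ▸ addOrderOf_dvd_iff_nsmul_eq_zero.mpr h)

lemma xc_ne {P : V.Point} (hP : P ≠ 0) (h7 : (7 : ℕ) • P = 0) : xc P ≠ xc ((2 : ℕ) • P) := by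
  intro h
  rcases (xc_eq_iff hP (smul_ne_zero hP h7 (by norm_num))).mp h with h1 | h1
  · apply hP
    have h2 : P + P = P := by rw [← two_nsmul]; exact h1.symm
    simpa using h2
  · have h2 : (3 : ℕ) • P = 0 := by
      rw [succ_nsmul]
      nth_rewrite 2 [h1]
      exact add_neg_cancel _
    exact smul_ne_zero hP h7 (by norm_num) h2

lemma seven_aux {P : V.Point} (h7 : (7 : ℕ) • P = 0) (m n : ℕ) (h : m + n = 7) :
    m • P = -(n • P) := by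
  rw [eq_neg_iff_add_eq_zero, ← add_nsmul, h]
  exact h7

lemma seven_add {P : V.Point} (h7 : (7 : ℕ) • P = 0) (n : ℕ) : (7 + n) • P = n • P := by
  rw [add_nsmul, h7, zero_add]

/-- The line through `P`, `2 P`, `4 P`. -/
lemma exists_line_seven {P : V.Point} (hP : P ≠ 0) (h7 : (7 : ℕ) • P = 0) :
    ∃ k M : K, Yc P = k * xc P + M ∧ Yc ((2 : ℕ) • P) = k * xc ((2 : ℕ) • P) + M ∧
      Yc ((4 : ℕ) • P) = k * xc ((4 : ℕ) • P) + M := by
  obtain ⟨k, h1, h2⟩ := exists_line hP (smul_ne_zero hP h7 (by norm_num)) (xc_ne hP h7)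
  have h3 : -(P + (2 : ℕ) • P) = (4 : ℕ) • P := by
    have h4 : P + (2 : ℕ) • P = (3 : ℕ) • P := (succ_nsmul' P 2).symm
    rw [h4]
    exact (seven_aux h7 4 3 (by norm_num)).symm
  rw [h3] at h2
  exact ⟨k, Yc P - k * xc P, by ring, by rw [h1]; ring, by rw [h2]; ring⟩

end point

section algebra

variable {K : Type*} [Field K] [CharZero K]

/-- Vieta's formulas for the line -/
lemma vieta {x1 x2 x3 k M b2 b4 b6 : K} (h12 : x1 ≠ x2) (h23 : x2 ≠ x3) (h31 : x3 ≠ x1)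
    (h1 : (k * x1 + M) ^ 2 = 4 * x1 ^ 3 + b2 * x1 ^ 2 + 2 * b4 * x1 + b6)
    (h2 : (k * x2 + M) ^ 2 = 4 * x2 ^ 3 + b2 * x2 ^ 2 + 2 * b4 * x2 + b6)
    (h3 : (k * x3 + M) ^ 2 = 4 * x3 ^ 3 + b2 * x3 ^ 2 + 2 * b4 * x3 + b6) :
    b2 = k ^ 2 - 4 * (x1 + x2 + x3) ∧ b4 = k * M + 2 * (x1 * x2 + x2 * x3 + x3 * x1) ∧
      b6 = M ^ 2 - 4 * (x1 * x2 * x3) := by
  have e1 : 4 * (x1 ^ 2 + x1 * x2 + x2 ^ 2) + (b2 - k ^ 2) * (x1 + x2) + (2 * b4 - 2 * k * M) = 0 := by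
    apply mul_left_cancel₀ (sub_ne_zero.mpr h12)
    linear_combination h2 - h1
  have e2 : 4 * (x3 ^ 2 + x3 * x2 + x2 ^ 2) + (b2 - k ^ 2) * (x3 + x2) + (2 * b4 - 2 * k * M) = 0 := by
    apply mul_left_cancel₀ (sub_ne_zero.mpr h23.symm)
    linear_combination h2 - h3
  have e3 : 4 * (x1 + x2 + x3) + (b2 - k ^ 2) = 0 := by
    apply mul_left_cancel₀ (sub_ne_zero.mpr h31)
    linear_combination e2 - e1
  have e4 : b2 = k ^ 2 - 4 * (x1 + x2 + x3) := by linear_combination e3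
  have e5 : b4 = k * M + 2 * (x1 * x2 + x2 * x3 + x3 * x1) := by
    rw [e4] at e1
    linear_combination (1 / 2) * e1
  refine ⟨e4, e5, ?_⟩
  rw [e4, e5] at h1
  linear_combination -h1

/-- The duplication formula becomes `Y₁ Y₂ = (x₁ - x₂)² (x₁ - x₃)`. -/
lemma dup {x1 x2 x3 k M b2 b4 b6 b8 : K} (h31 : x3 ≠ x1)
    (hb2 : b2 = k ^ 2 - 4 * (x1 + x2 + x3)) (hb4 : b4 = k * M + 2 * (x1 * x2 + x2 * x3 + x3 * x1))
    (hb6 : b6 = M ^ 2 - 4 * (x1 * x2 * x3)) (hb8 : 4 * b8 = b2 * b6 - b4 ^ 2)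
    (h : x2 * (4 * x1 ^ 3 + b2 * x1 ^ 2 + 2 * b4 * x1 + b6) = x1 ^ 4 - b4 * x1 ^ 2 - 2 * b6 * x1 - b8) :
    (k * x1 + M) * (k * x2 + M) = (x1 - x2) ^ 2 * (x1 - x3) := by
  have hb8' : b8 = (b2 * b6 - b4 ^ 2) / 4 := by rw [← hb8]; ring
  rw [hb8', hb2, hb4, hb6] at h
  apply mul_left_cancel₀ (sub_ne_zero.mpr h31)
  linear_combination -h

omit [CharZero K] in
/-- The relations between `K`, `M` and the three abscissae. -/
lemma relations {x1 x2 x3 k M : K} (h12 : x1 ≠ x2) (h23 : x2 ≠ x3) (h31 : x3 ≠ x1)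
    (hr1 : (k * x1 + M) * (k * x2 + M) = (x1 - x2) ^ 2 * (x1 - x3))
    (hr2 : (k * x2 + M) * (k * x3 + M) = (x2 - x3) ^ 2 * (x2 - x1))
    (hr3 : (k * x3 + M) * (k * x1 + M) = (x3 - x1) ^ 2 * (x3 - x2)) :
    ((x1 + x2 + x3) ^ 2 - 3 * (x1 * x2 + x2 * x3 + x3 * x1)) * (k * x1 + M) =
        k * (x1 - x2) * (x3 - x1) ^ 2 ∧
      ((x1 + x2 + x3) ^ 2 - 3 * (x1 * x2 + x2 * x3 + x3 * x1)) * (k * x2 + M) =
        k * (x2 - x3) * (x1 - x2) ^ 2 ∧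
      ((x1 + x2 + x3) ^ 2 - 3 * (x1 * x2 + x2 * x3 + x3 * x1)) * (k * x3 + M) =
        k * (x3 - x1) * (x2 - x3) ^ 2 ∧
      k ^ 2 * ((x1 - x2) * (x2 - x3) * (x3 - x1)) =
        -((x1 + x2 + x3) ^ 2 - 3 * (x1 * x2 + x2 * x3 + x3 * x1)) ^ 2 := by
  have ha : x1 - x2 ≠ 0 := sub_ne_zero.mpr h12
  have hb : x2 - x3 ≠ 0 := sub_ne_zero.mpr h23
  have hc : x3 - x1 ≠ 0 := sub_ne_zero.mpr h31
  have e1 : (x2 - x3) ^ 2 * (k * x1 + M) = (x3 - x1) * (x1 - x2) * (k * x3 + M) := by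
    apply mul_left_cancel₀ ha
    linear_combination (k * x1 + M) * hr2 - (k * x3 + M) * hr1
  have e2 : (x3 - x1) ^ 2 * (k * x2 + M) = (x1 - x2) * (x2 - x3) * (k * x1 + M) := by
    apply mul_left_cancel₀ hb
    linear_combination (k * x2 + M) * hr3 - (k * x1 + M) * hr2
  have e3 : (x1 - x2) ^ 2 * (k * x3 + M) = (x2 - x3) * (x3 - x1) * (k * x2 + M) := by
    apply mul_left_cancel₀ hc
    linear_combination (k * x3 + M) * hr1 - (k * x2 + M) * hr3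
  have f1 : ((x1 + x2 + x3) ^ 2 - 3 * (x1 * x2 + x2 * x3 + x3 * x1)) * (k * x1 + M) =
        k * (x1 - x2) * (x3 - x1) ^ 2 := by linear_combination e2
  have f2 : ((x1 + x2 + x3) ^ 2 - 3 * (x1 * x2 + x2 * x3 + x3 * x1)) * (k * x2 + M) =
        k * (x2 - x3) * (x1 - x2) ^ 2 := by linear_combination e3
  have f3 : ((x1 + x2 + x3) ^ 2 - 3 * (x1 * x2 + x2 * x3 + x3 * x1)) * (k * x3 + M) =
        k * (x3 - x1) * (x2 - x3) ^ 2 := by linear_combination e1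
  refine ⟨f1, f2, f3, ?_⟩
  apply mul_left_cancel₀ (mul_ne_zero (pow_ne_zero 2 ha) hc)
  have f4 : (((x1 + x2 + x3) ^ 2 - 3 * (x1 * x2 + x2 * x3 + x3 * x1)) * (k * x1 + M)) *
      (((x1 + x2 + x3) ^ 2 - 3 * (x1 * x2 + x2 * x3 + x3 * x1)) * (k * x2 + M)) =
      (k * (x1 - x2) * (x3 - x1) ^ 2) * (k * (x2 - x3) * (x1 - x2) ^ 2) := by rw [f1, f2]
  linear_combination ((x1 + x2 + x3) ^ 2 - 3 * (x1 * x2 + x2 * x3 + x3 * x1)) ^ 2 * hr1 - f4

/-- The two relations between `z_i = K (K e_i + M)`, where `e_1, e_2, e_3` are the abscissae of the points of order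
two. -/
lemma final_relations {x1 x2 x3 k M e1 e2 e3 : K} (h12 : x1 ≠ x2) (h23 : x2 ≠ x3) (h31 : x3 ≠ x1)
    (hr1 : (k * x1 + M) * (k * x2 + M) = (x1 - x2) ^ 2 * (x1 - x3))
    (hr2 : (k * x2 + M) * (k * x3 + M) = (x2 - x3) ^ 2 * (x2 - x1))
    (hr3 : (k * x3 + M) * (k * x1 + M) = (x3 - x1) ^ 2 * (x3 - x2))
    (hb2 : -4 * (e1 + e2 + e3) = k ^ 2 - 4 * (x1 + x2 + x3))
    (hb4 : 2 * (e1 * e2 + e2 * e3 + e3 * e1) = k * M + 2 * (x1 * x2 + x2 * x3 + x3 * x1))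
    (hb6 : -4 * (e1 * e2 * e3) = M ^ 2 - 4 * (x1 * x2 * x3)) {Q : K}
    (hQ : Q = (x1 + x2 + x3) ^ 2 - 3 * (x1 * x2 + x2 * x3 + x3 * x1)) (hk : k ≠ 0) :
    Q ≠ 0 ∧ (k ^ 2 * e1 + k * M) * (k ^ 2 * e2 + k * M) * (k ^ 2 * e3 + k * M) = -Q ^ 3 ∧
      ((k ^ 2 * e1 + k * M) * (k ^ 2 * e2 + k * M) + (k ^ 2 * e2 + k * M) * (k ^ 2 * e3 + k * M) +
        (k ^ 2 * e3 + k * M) * (k ^ 2 * e1 + k * M)) ^ 2 -
      ((k ^ 2 * e1 + k * M) * (k ^ 2 * e2 + k * M) + (k ^ 2 * e2 + k * M) * (k ^ 2 * e3 + k * M) +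
        (k ^ 2 * e3 + k * M) * (k ^ 2 * e1 + k * M)) * Q ^ 2 - 3 * Q ^ 4 +
      4 * ((k ^ 2 * e1 + k * M) + (k ^ 2 * e2 + k * M) + (k ^ 2 * e3 + k * M)) * Q ^ 3 = 0 := by
  obtain ⟨f1, f2, f3, f4⟩ := relations h12 h23 h31 hr1 hr2 hr3
  rw [← hQ] at f1 f2 f3 f4
  have ha : x1 - x2 ≠ 0 := sub_ne_zero.mpr h12
  have hb : x2 - x3 ≠ 0 := sub_ne_zero.mpr h23
  have hc : x3 - x1 ≠ 0 := sub_ne_zero.mpr h31
  have hQ0 : Q ≠ 0 := by
    rintro h0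
    rw [h0] at f4
    have : k ^ 2 * ((x1 - x2) * (x2 - x3) * (x3 - x1)) ≠ 0 :=
      mul_ne_zero (pow_ne_zero 2 hk) (mul_ne_zero (mul_ne_zero ha hb) hc)
    exact this (by rw [f4]; ring)
  have hE1 : e1 + e2 + e3 = (x1 + x2 + x3) - k ^ 2 / 4 := by linear_combination (-1 / 4) * hb2
  have hE2 : e1 * e2 + e2 * e3 + e3 * e1 = (x1 * x2 + x2 * x3 + x3 * x1) + k * M / 2 := by
    linear_combination (1 / 2) * hb4
  have hE3 : e1 * e2 * e3 = x1 * x2 * x3 - M ^ 2 / 4 := by linear_combination (-1 / 4) * hb6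
  -- elementary symmetric functions of the `z_i`
  have hZ1 : (k ^ 2 * e1 + k * M) + (k ^ 2 * e2 + k * M) + (k ^ 2 * e3 + k * M) =
      k * ((k * x1 + M) + (k * x2 + M) + (k * x3 + M)) - k ^ 4 / 4 := by
    linear_combination k ^ 2 * hE1
  have hZ2 : (k ^ 2 * e1 + k * M) * (k ^ 2 * e2 + k * M) + (k ^ 2 * e2 + k * M) * (k ^ 2 * e3 + k * M) +
        (k ^ 2 * e3 + k * M) * (k ^ 2 * e1 + k * M) =
      k ^ 2 * ((k * x1 + M) * (k * x2 + M) + (k * x2 + M) * (k * x3 + M) + (k * x3 + M) * (k * x1 + M)) := by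
    linear_combination k ^ 4 * hE2 + 2 * k ^ 3 * M * hE1
  have hZ3 : (k ^ 2 * e1 + k * M) * (k ^ 2 * e2 + k * M) * (k ^ 2 * e3 + k * M) =
      k ^ 3 * ((k * x1 + M) * (k * x2 + M) * (k * x3 + M)) := by
    linear_combination k ^ 6 * hE3 + k ^ 5 * M * hE2 + k ^ 4 * M ^ 2 * hE1
  refine ⟨hQ0, ?_, ?_⟩
  · rw [hZ3]
    apply mul_left_cancel₀ (pow_ne_zero 3 hQ0)
    have f5 : (Q * (k * x1 + M)) * (Q * (k * x2 + M)) * (Q * (k * x3 + M)) =
        (k * (x1 - x2) * (x3 - x1) ^ 2) * (k * (x2 - x3) * (x1 - x2) ^ 2) * (k * (x3 - x1) * (x2 - x3) ^ 2) := by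
      rw [f1, f2, f3]
    have f6 : (k ^ 2 * ((x1 - x2) * (x2 - x3) * (x3 - x1))) ^ 3 = (-Q ^ 2) ^ 3 := by rw [f4]
    linear_combination k ^ 3 * f5 + f6
  · -- `T₁ = Σ Y_i`, `T₂ = Σ Y_i Y_j`
    have hT1 : Q * ((k * x1 + M) + (k * x2 + M) + (k * x3 + M)) =
        k * ((x1 - x2) * (x3 - x1) ^ 2 + (x2 - x3) * (x1 - x2) ^ 2 + (x3 - x1) * (x2 - x3) ^ 2) := by
      linear_combination f1 + f2 + f3
    have hT2 : (k * x1 + M) * (k * x2 + M) + (k * x2 + M) * (k * x3 + M) + (k * x3 + M) * (k * x1 + M) =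
        -((x1 - x2) ^ 2 * (x3 - x1) + (x2 - x3) ^ 2 * (x1 - x2) + (x3 - x1) ^ 2 * (x2 - x3)) := by
      linear_combination hr1 + hr2 + hr3
    rw [hZ1, hZ2, hT2]
    have hQ3 : Q ^ 3 = ((x1 - x2) ^ 2 * (x3 - x1) + (x2 - x3) ^ 2 * (x1 - x2) + (x3 - x1) ^ 2 * (x2 - x3)) ^ 2 +
        3 * ((x1 - x2) * (x2 - x3) * (x3 - x1)) * ((x1 - x2) ^ 2 * (x3 - x1) + (x2 - x3) ^ 2 * (x1 - x2) +
          (x3 - x1) ^ 2 * (x2 - x3)) + 9 * ((x1 - x2) * (x2 - x3) * (x3 - x1)) ^ 2 := by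
      rw [hQ]; ring
    have hDD : ((x1 - x2) * (x3 - x1) ^ 2 + (x2 - x3) * (x1 - x2) ^ 2 + (x3 - x1) * (x2 - x3) ^ 2) =
        -3 * ((x1 - x2) * (x2 - x3) * (x3 - x1)) - ((x1 - x2) ^ 2 * (x3 - x1) + (x2 - x3) ^ 2 * (x1 - x2) +
          (x3 - x1) ^ 2 * (x2 - x3)) := by ring
    rw [hDD] at hT1
    generalize ((x1 - x2) ^ 2 * (x3 - x1) + (x2 - x3) ^ 2 * (x1 - x2) + (x3 - x1) ^ 2 * (x2 - x3)) = D'
      at hT1 hQ3 ⊢
    generalize (x1 - x2) * (x2 - x3) * (x3 - x1) = n at hT1 hQ3 f4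
    generalize (k * x1 + M) + (k * x2 + M) + (k * x3 + M) = T1 at hT1 ⊢
    linear_combination 4 * k * Q ^ 2 * hT1 - k ^ 4 * hQ3 +
      (-3 * k ^ 2 * D' - 3 * (Q ^ 2 + 3 * k ^ 2 * n)) * f4

end algebra

section galois

variable {E : WeierstrassCurve.Affine ℚ}

local notation "Kbar" => AlgebraicClosure ℚ

/-- Galois action on ordinates. -/
lemma Yc_galois (σ : Kbar ≃ₐ[ℚ] Kbar) (P : (E⁄Kbar).Point) : Yc (σ • P) = σ (Yc P) := by
  rcases P with _ | ⟨x, y, h⟩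
  · exact (_root_.map_zero σ).symm
  · change 2 * σ y + (E⁄Kbar).a₁ * σ x + (E⁄Kbar).a₃ = σ (2 * y + (E⁄Kbar).a₁ * x + (E⁄Kbar).a₃)
    have h1 : σ (E⁄Kbar).a₁ = (E⁄Kbar).a₁ := σ.commutes E.a₁
    have h3 : σ (E⁄Kbar).a₃ = (E⁄Kbar).a₃ := σ.commutes E.a₃
    rw [map_add, map_add, map_mul, map_mul, h1, h3, map_ofNat]

/-- The line through `P`, `2 P`, `4 P` is defined over `ℚ` up to sign. -/
lemma line_galois {P : (E⁄Kbar).Point} (hP : P ≠ 0) (h7 : (7 : ℕ) • P = 0) {k M : Kbar}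
    (h1 : Yc P = k * xc P + M) (h2 : Yc ((2 : ℕ) • P) = k * xc ((2 : ℕ) • P) + M)
    (h4 : Yc ((4 : ℕ) • P) = k * xc ((4 : ℕ) • P) + M) (σ : Kbar ≃ₐ[ℚ] Kbar) {m : ℕ} (hm : m < 7)
    (hσ : σ • P = m • P) : (σ k = k ∧ σ M = M) ∨ (σ k = -k ∧ σ M = -M) := by
  have h3 : Yc ((3 : ℕ) • P) = -(k * xc ((3 : ℕ) • P) + M) := by
    rw [seven_aux h7 3 4 (by norm_num), Yc_neg, xc_neg, h4]
  have h5 : Yc ((5 : ℕ) • P) = -(k * xc ((5 : ℕ) • P) + M) := by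
    rw [seven_aux h7 5 2 (by norm_num), Yc_neg, xc_neg, h2]
  have h6 : Yc ((6 : ℕ) • P) = -(k * xc ((6 : ℕ) • P) + M) := by
    rw [seven_aux h7 6 1 (by norm_num), Yc_neg, xc_neg, one_nsmul, h1]
  have hσ2 : σ • ((2 : ℕ) • P) = (m * 2) • P := by
    rw [S51.nsmul_galois, hσ, mul_nsmul]
  have hne : σ (xc P) ≠ σ (xc ((2 : ℕ) • P)) := fun h => xc_ne hP h7 (σ.injective h)
  -- it suffices to know the images of `P` and `2 P`
  have key : ∀ ε : Kbar, Yc (m • P) = ε * (k * xc (m • P) + M) →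
      Yc ((m * 2) • P) = ε * (k * xc ((m * 2) • P) + M) → σ k = ε * k ∧ σ M = ε * M := by
    intro ε e1 e2
    rw [← hσ, Yc_galois, S51.xc_galois, h1, map_add, map_mul] at e1
    rw [← hσ2, Yc_galois, S51.xc_galois, h2, map_add, map_mul] at e2
    have e3 : σ k = ε * k := by
      apply mul_right_cancel₀ (sub_ne_zero.mpr hne)
      linear_combination e1 - e2
    refine ⟨e3, ?_⟩
    rw [e3] at e1
    linear_combination e1
  have hm0 : m ≠ 0 := by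
    rintro rfl
    rw [zero_nsmul] at hσ
    apply hP
    have := congrArg (fun R => σ⁻¹ • R) hσ
    simpa using this
  have h1' : Yc ((1 : ℕ) • P) = 1 * (k * xc ((1 : ℕ) • P) + M) := by rw [one_nsmul, h1, one_mul]
  have h2' : Yc ((2 : ℕ) • P) = 1 * (k * xc ((2 : ℕ) • P) + M) := by rw [h2, one_mul]
  have h4' : Yc ((4 : ℕ) • P) = 1 * (k * xc ((4 : ℕ) • P) + M) := by rw [h4, one_mul]
  have h3' : Yc ((3 : ℕ) • P) = (-1) * (k * xc ((3 : ℕ) • P) + M) := by rw [h3]; ring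
  have h5' : Yc ((5 : ℕ) • P) = (-1) * (k * xc ((5 : ℕ) • P) + M) := by rw [h5]; ring
  have h6' : Yc ((6 : ℕ) • P) = (-1) * (k * xc ((6 : ℕ) • P) + M) := by rw [h6]; ring
  have hpos : (σ k = 1 * k ∧ σ M = 1 * M) → (σ k = k ∧ σ M = M) ∨ (σ k = -k ∧ σ M = -M) := by
    rintro ⟨e1, e2⟩
    exact Or.inl ⟨by rw [e1, one_mul], by rw [e2, one_mul]⟩
  have hneg : (σ k = (-1) * k ∧ σ M = (-1) * M) → (σ k = k ∧ σ M = M) ∨ (σ k = -k ∧ σ M = -M) := by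
    rintro ⟨e1, e2⟩
    exact Or.inr ⟨by rw [e1]; ring, by rw [e2]; ring⟩
  interval_cases m
  · exact absurd rfl hm0
  · exact hpos (key 1 h1' h2')
  · exact hpos (key 1 h2' h4')
  · exact hneg (key (-1) h3' h6')
  · refine hpos (key 1 h4' ?_)
    have h8 : ((4 * 2 : ℕ)) • P = (1 : ℕ) • P := seven_add h7 1
    rw [h8]; exact h1'
  · refine hneg (key (-1) h5' ?_)
    have h8 : ((5 * 2 : ℕ)) • P = (3 : ℕ) • P := seven_add h7 3
    rw [h8]; exact h3'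
  · refine hneg (key (-1) h6' ?_)
    have h8 : ((6 * 2 : ℕ)) • P = (5 : ℕ) • P := seven_add h7 5
    rw [h8]; exact h5'

/-- The rational numbers attached to a rational subgroup of order seven and the points of order two do not exist. -/
lemma no_rational_relations {κ lam q e1 e2 e3 : ℚ} (hκ : κ ≠ 0) (hq : q ≠ 0) (h12 : e1 ≠ e2)
    (h23 : e2 ≠ e3) (h31 : e3 ≠ e1)
    (hZ3 : (κ * e1 + lam) * (κ * e2 + lam) * (κ * e3 + lam) = -q ^ 3)
    (hZ : ((κ * e1 + lam) * (κ * e2 + lam) + (κ * e2 + lam) * (κ * e3 + lam) +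
        (κ * e3 + lam) * (κ * e1 + lam)) ^ 2 -
      ((κ * e1 + lam) * (κ * e2 + lam) + (κ * e2 + lam) * (κ * e3 + lam) +
        (κ * e3 + lam) * (κ * e1 + lam)) * q ^ 2 - 3 * q ^ 4 +
      4 * ((κ * e1 + lam) + (κ * e2 + lam) + (κ * e3 + lam)) * q ^ 3 = 0) : False := by
  have hz12 : κ * e1 + lam ≠ κ * e2 + lam := fun h => h12 (mul_left_cancel₀ hκ (by linarith))
  have hz23 : κ * e2 + lam ≠ κ * e3 + lam := fun h => h23 (mul_left_cancel₀ hκ (by linarith))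
  have hz31 : κ * e3 + lam ≠ κ * e1 + lam := fun h => h31 (mul_left_cancel₀ hκ (by linarith))
  generalize κ * e1 + lam = z1 at *
  generalize κ * e2 + lam = z2 at *
  generalize κ * e3 + lam = z3 at *
  have hprod : z1 * z2 * z3 ≠ 0 := by rw [hZ3]; exact neg_ne_zero.mpr (pow_ne_zero 3 hq)
  have hz3 : z3 ≠ 0 := right_ne_zero_of_mul hprod
  have hz2 : z2 ≠ 0 := right_ne_zero_of_mul (left_ne_zero_of_mul hprod)
  have hz1 : z1 ≠ 0 := left_ne_zero_of_mul (left_ne_zero_of_mul hprod)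
  have hq2 : q ^ 2 ≠ 0 := pow_ne_zero 2 hq
  refine no_sigma (a := -(z2 * z3) / q ^ 2) (b := -(z3 * z1) / q ^ 2) (c := -(z1 * z2) / q ^ 2) ?_ ?_ ?_ ?_ ?_
  · have h1 : -(z2 * z3) / q ^ 2 * (-(z3 * z1) / q ^ 2) * (-(z1 * z2) / q ^ 2) =
        -((z1 * z2 * z3) ^ 2 / q ^ 6) := by
      field_simp
    rw [h1, hZ3]
    field_simp
  · have h1 : -(z2 * z3) / q ^ 2 * (-(z3 * z1) / q ^ 2) + -(z3 * z1) / q ^ 2 * (-(z1 * z2) / q ^ 2) +
        -(z1 * z2) / q ^ 2 * (-(z2 * z3) / q ^ 2) = (z1 * z2 * z3) * (z1 + z2 + z3) / q ^ 4 := by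
      field_simp
      ring
    rw [h1, hZ3]
    field_simp
    linear_combination hZ
  · intro h
    rw [div_left_inj' hq2, neg_inj, mul_comm z3 z1] at h
    exact hz12 (mul_right_cancel₀ hz3 h).symm
  · intro h
    rw [div_left_inj' hq2, neg_inj, mul_comm z3 z1] at h
    exact hz23 (mul_left_cancel₀ hz1 h).symm
  · intro h
    rw [div_left_inj' hq2, neg_inj, mul_comm z1 z2] at h
    exact hz31 (mul_left_cancel₀ hz2 h).symm

/-- **`X₀(28)`**: an elliptic curve over `ℚ` all of whose points of order two are rational has irreducible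
`7`-torsion. -/
theorem irreducible_seven {e1 e2 e3 : ℚ} (hb2 : E.b₂ = -4 * (e1 + e2 + e3))
    (hb4 : E.b₄ = 2 * (e1 * e2 + e2 * e3 + e3 * e1)) (hb6 : E.b₆ = -4 * (e1 * e2 * e3))
    (h12 : e1 ≠ e2) (h23 : e2 ≠ e3) (h31 : e3 ≠ e1) (hΔ : (E⁄Kbar).Δ ≠ 0) :
    GaloisRepIsIrreducible (K := Kbar) ℚ E 7 := by
  by_contra hcon
  have hfact : Fact (Nat.Prime 7) := ⟨by norm_num⟩
  obtain ⟨hfin, hcard⟩ := Fermat.Agent.H09.finite_torsion (L := Kbar) (W₀ := E) (p := 7)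
    (by norm_num) (by norm_num)
  have hnt : Nontrivial (Submodule.torsionBy ℤ (E⁄Kbar).Point (7 : ℕ)) := by
    obtain ⟨P, hP, hP7⟩ := Fermat.Agent.H09.exists_torsion (W := E⁄Kbar) hΔ (n := 7) (by decide)
      (by norm_num) (by norm_num)
    refine ⟨⟨P, ?_⟩, 0, fun h => hP (congrArg Subtype.val h)⟩
    rw [Submodule.mem_torsionBy_iff]
    exact_mod_cast hP7
  unfold GaloisRepIsIrreducible at hcon
  push Not at hcon
  obtain ⟨N, hN, hbot, htop⟩ := hcon hnt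
  obtain ⟨v, hv, hv0, hall⟩ := line_of_card (p := 7) hfin (by
    refine lt_of_le_of_lt hcard (by norm_num)) N hbot htop
  obtain ⟨P, hPv⟩ : ∃ P, P = (v : (E⁄Kbar).Point) := ⟨_, rfl⟩
  have hP : P ≠ 0 := fun h => hv0 (Subtype.ext (by rw [← hPv, h]; rfl))
  have h7 : (7 : ℕ) • P = 0 := by
    have := v.2
    rw [Submodule.mem_torsionBy_iff] at this
    rw [hPv]
    exact_mod_cast this
  have hσP : ∀ σ : Kbar ≃ₐ[ℚ] Kbar, ∃ m : ℕ, m < 7 ∧ σ • P = m • P := by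
    intro σ
    obtain ⟨c, hc⟩ := hall (σ • v) (hN σ v hv)
    have hc' : σ • (v : (E⁄Kbar).Point) = ((c • v : Submodule.torsionBy ℤ (E⁄Kbar).Point (7 : ℕ)) : (E⁄Kbar).Point) :=
      congrArg Subtype.val hc
    have hcn : ((c • v : Submodule.torsionBy ℤ (E⁄Kbar).Point (7 : ℕ)) : (E⁄Kbar).Point) =
        c.val • (v : (E⁄Kbar).Point) := by
      have : c • v = c.val • v := by
        conv_lhs => rw [← ZMod.natCast_zmod_val c]
        exact Nat.cast_smul_eq_nsmul _ _ _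
      rw [this]; rfl
    exact ⟨c.val, ZMod.val_lt c, by rw [hPv, hc', hcn]⟩
  obtain ⟨k, M, l1, l2, l4⟩ := exists_line_seven hP h7
  have hgal : ∀ σ : Kbar ≃ₐ[ℚ] Kbar, (σ k = k ∧ σ M = M) ∨ (σ k = -k ∧ σ M = -M) := by
    intro σ
    obtain ⟨m, hm, hσ⟩ := hσP σ
    exact line_galois hP h7 l1 l2 l4 σ hm hσ
  obtain ⟨κ, hκ⟩ := rational_of_fixed (x := k ^ 2) (fun σ => by
    rcases hgal σ with ⟨h1, h2⟩ | ⟨h1, h2⟩
    · rw [map_pow, h1]
    · rw [map_pow, h1]; ring)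
  obtain ⟨lam, hlam⟩ := rational_of_fixed (x := k * M) (fun σ => by
    rcases hgal σ with ⟨h1, h2⟩ | ⟨h1, h2⟩
    · rw [map_mul, h1, h2]
    · rw [map_mul, h1, h2]; ring)
  -- the abscissae
  have h2P0 : (2 : ℕ) • P ≠ 0 := smul_ne_zero hP h7 (by norm_num)
  have h4P0 : (4 : ℕ) • P ≠ 0 := smul_ne_zero hP h7 (by norm_num)
  have h72 : (7 : ℕ) • ((2 : ℕ) • P) = 0 := by rw [smul_comm, h7, smul_zero]
  have h74 : (7 : ℕ) • ((4 : ℕ) • P) = 0 := by rw [smul_comm, h7, smul_zero]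
  have h24 : (2 : ℕ) • ((2 : ℕ) • P) = (4 : ℕ) • P := by rw [← mul_nsmul]
  have h48 : (2 : ℕ) • ((4 : ℕ) • P) = P := by
    rw [← mul_nsmul]
    have h8 : ((4 * 2 : ℕ)) • P = (1 : ℕ) • P := seven_add h7 1
    rw [h8, one_nsmul]
  have hx12 := xc_ne hP h7
  have hx23 := xc_ne h2P0 h72
  have hx31 := xc_ne h4P0 h74
  rw [h24] at hx23
  rw [h48] at hx31
  have d1 := xc_two_smul hP h2P0
  have d2 := xc_two_smul h2P0 (by rw [h24]; exact h4P0)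
  have d3 := xc_two_smul h4P0 (by rw [h48]; exact hP)
  rw [h24] at d2
  rw [h48] at d3
  have s1 := Yc_sq hP
  have s2 := Yc_sq h2P0
  have s3 := Yc_sq h4P0
  rw [l1] at s1
  rw [l2] at s2
  rw [l4] at s3
  unfold psi2Sq at s1 s2 s3 d1 d2 d3
  generalize xc P = x1 at *
  generalize xc ((2 : ℕ) • P) = x2 at *
  generalize xc ((4 : ℕ) • P) = x3 at *
  obtain ⟨v2, v4, v6⟩ := vieta hx12 hx23 hx31 s1 s2 s3
  have hb8 := (E⁄Kbar).b_relation
  have hr1 := dup hx31 v2 v4 v6 hb8 d1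
  have hr2 := dup (x1 := x2) (x2 := x3) (x3 := x1) (k := k) (M := M) hx12 (by rw [v2]; ring) (by rw [v4]; ring)
    (by rw [v6]; ring) hb8 d2
  have hr3 := dup (x1 := x3) (x2 := x1) (x3 := x2) (k := k) (M := M) hx23 (by rw [v2]; ring) (by rw [v4]; ring)
    (by rw [v6]; ring) hb8 d3
  have hB2 : (E⁄Kbar).b₂ = algebraMap ℚ Kbar E.b₂ := WeierstrassCurve.map_b₂ ..
  have hB4 : (E⁄Kbar).b₄ = algebraMap ℚ Kbar E.b₄ := WeierstrassCurve.map_b₄ ..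
  have hB6 : (E⁄Kbar).b₆ = algebraMap ℚ Kbar E.b₆ := WeierstrassCurve.map_b₆ ..
  rw [hB2, hb2] at v2
  rw [hB4, hb4] at v4
  rw [hB6, hb6] at v6
  simp only [map_add, map_mul, map_neg, map_ofNat] at v2 v4 v6
  have hinj := (algebraMap ℚ Kbar).injective
  obtain ⟨Q, hQ⟩ : ∃ Q, Q = (x1 + x2 + x3) ^ 2 - 3 * (x1 * x2 + x2 * x3 + x3 * x1) := ⟨_, rfl⟩
  by_cases hk : k = 0
  · obtain ⟨-, -, -, f4⟩ := relations hx12 hx23 hx31 hr1 hr2 hr3
    rw [← hQ, hk] at f4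
    have hQ0 : Q = 0 := by
      have h1 : Q ^ 2 = 0 := by linear_combination f4
      exact pow_eq_zero_iff (by norm_num) |>.mp h1
    rw [hk] at v2 v4
    have h1 : (e1 + e2 + e3) ^ 2 - 3 * (e1 * e2 + e2 * e3 + e3 * e1) = 0 := by
      apply hinj
      simp only [map_add, map_sub, map_mul, map_pow, map_ofNat, _root_.map_zero]
      have e1' : algebraMap ℚ Kbar e1 + algebraMap ℚ Kbar e2 + algebraMap ℚ Kbar e3 = x1 + x2 + x3 := by
        linear_combination (-1 / 4) * v2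
      have e2' : algebraMap ℚ Kbar e1 * algebraMap ℚ Kbar e2 + algebraMap ℚ Kbar e2 * algebraMap ℚ Kbar e3 +
          algebraMap ℚ Kbar e3 * algebraMap ℚ Kbar e1 = x1 * x2 + x2 * x3 + x3 * x1 := by
        linear_combination (1 / 2) * v4
      rw [e1', e2', ← hQ, hQ0]
    have h2 : (e1 - e2) ^ 2 + (e2 - e3) ^ 2 + (e3 - e1) ^ 2 = 0 := by linear_combination 2 * h1
    have h3 : (e1 - e2) ^ 2 = 0 := by nlinarith [sq_nonneg (e1 - e2), sq_nonneg (e2 - e3), sq_nonneg (e3 - e1)]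
    exact h12 (sub_eq_zero.mp (pow_eq_zero_iff (by norm_num) |>.mp h3))
  · obtain ⟨hQ0, g3, g⟩ := final_relations hx12 hx23 hx31 hr1 hr2 hr3 v2 v4 v6 hQ hk
    have hκ0 : κ ≠ 0 := by
      rintro rfl
      rw [_root_.map_zero] at hκ
      exact hk (pow_eq_zero_iff (by norm_num) |>.mp hκ.symm)
    obtain ⟨q, hq⟩ : ∃ q : ℚ, algebraMap ℚ Kbar q = Q := by
      refine ⟨((κ + 4 * (e1 + e2 + e3)) / 4) ^ 2 -
        3 * ((2 * (e1 * e2 + e2 * e3 + e3 * e1) - lam) / 2), ?_⟩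
      simp only [map_add, map_sub, map_mul, map_pow, map_div₀, map_ofNat]
      rw [hκ, hlam]
      have e1' : k ^ 2 + 4 * (algebraMap ℚ Kbar e1 + algebraMap ℚ Kbar e2 + algebraMap ℚ Kbar e3) =
          4 * (x1 + x2 + x3) := by linear_combination -v2
      have e2' : 2 * (algebraMap ℚ Kbar e1 * algebraMap ℚ Kbar e2 + algebraMap ℚ Kbar e2 * algebraMap ℚ Kbar e3 +
          algebraMap ℚ Kbar e3 * algebraMap ℚ Kbar e1) - k * M = 2 * (x1 * x2 + x2 * x3 + x3 * x1) := by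
        linear_combination v4
      rw [e1', e2', hQ]
      ring
    have hq0 : q ≠ 0 := by
      rintro rfl
      rw [_root_.map_zero] at hq
      exact hQ0 hq.symm
    refine no_rational_relations (κ := κ) (lam := lam) (q := q) hκ0 hq0 h12 h23 h31 ?_ ?_
    · apply hinj
      simp only [map_add, map_mul, map_pow, map_neg]
      rw [hκ, hlam, hq]
      exact g3
    · apply hinj
      simp only [map_add, map_sub, map_mul, map_pow, map_ofNat, _root_.map_zero]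
      rw [hκ, hlam, hq]
      exact g

end galois

/-- The version for curves over `ℤ`. -/
theorem modRepIsIrreducible_seven (W : WeierstrassCurve ℤ) {e1 e2 e3 : ℚ}
    (hb2 : (W.b₂ : ℚ) = -4 * (e1 + e2 + e3)) (hb4 : (W.b₄ : ℚ) = 2 * (e1 * e2 + e2 * e3 + e3 * e1))
    (hb6 : (W.b₆ : ℚ) = -4 * (e1 * e2 * e3)) (h12 : e1 ≠ e2) (h23 : e2 ≠ e3) (h31 : e3 ≠ e1)
    (hΔ : W.Δ ≠ 0) : W.ModRepIsIrreducible 7 := by
  refine irreducible_seven (E := W.map (Int.castRingHom ℚ)) ?_ ?_ ?_ h12 h23 h31 ?_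
  · rw [map_b₂]; exact hb2
  · rw [map_b₄]; exact hb4
  · rw [map_b₆]; exact hb6
  · have h1 : ((W.map (Int.castRingHom ℚ))⁄(AlgebraicClosure ℚ)).Δ =
        algebraMap ℚ (AlgebraicClosure ℚ) (W.map (Int.castRingHom ℚ)).Δ := map_Δ ..
    rw [h1, map_Δ]
    simpa using hΔ

end Fermat.Agent.Cor.H11.Seven
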