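import Fermat.Agent.Cor.SerreEleven
import Fermat.Agent.Cor.H11Seven

/-!
# Serre's equations for the exponent `7`

The Frey curves `E_{A,B}` have full rational `2`-torsion, so `E_{A,B}[7]` is irreducible (`Cor/H11Seven.lean`). This
adds the exponent `7` to the theorems of `Cor/SerreEleven.lean`: for every prime `p ≥ 5`, `p ≠ 13`, and `L = 3, 5`

* `x ^ p + y ^ p = L ^ α z ^ p` has no solutions in nonzero integers;
* `a b (a + b) = L ^ α m ^ p` has no solutions in nonzero integers `m` and coprime `a`, `b`; in particular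
  `n (n + 1) = L ^ α m ^ p` has no solutions in positive integers.

This file is not used by any of the statement files.
-/

set_option autoImplicit false

namespace Fermat.Agent.Cor.H11

/-- The mod `7` representation of the Frey curve `E_{A,B}` is irreducible (no condition on `v₂(B)`). -/
theorem irr_seven {A B : ℤ} (hA : A % 4 = 3) (hB : (16 : ℤ) ∣ B) (h0 : A * B * (A + B) ≠ 0) :
    (FreyAB A B).ModRepIsIrreducible 7 := by
  have hA0 : A ≠ 0 := left_ne_zero_of_mul (left_ne_zero_of_mul h0)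
  have hB0 : B ≠ 0 := right_ne_zero_of_mul (left_ne_zero_of_mul h0)
  have hAB : A + B ≠ 0 := right_ne_zero_of_mul h0
  have hAQ : (A : ℚ) ≠ 0 := by exact_mod_cast hA0
  have hBQ : (B : ℚ) ≠ 0 := by exact_mod_cast hB0
  have hABQ : (A : ℚ) + B ≠ 0 := by exact_mod_cast hAB
  refine Seven.modRepIsIrreducible_seven (FreyAB A B) (e1 := 0) (e2 := (A : ℚ) / 4)
    (e3 := -(B : ℚ) / 4) ?_ ?_ ?_ ?_ ?_ ?_ (frey_disc_ne hA hB h0)
  · rw [frey_b₂ hA hB]
    push_cast
    ring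
  · have h1 := congrArg (Int.cast : ℤ → ℚ) (frey_b₄ (A := A) hB)
    push_cast at h1
    linear_combination (1 / 8) * h1
  · rw [frey_b₆]
    norm_num
  · intro h
    exact hAQ (by linarith)
  · intro h
    exact hABQ (by linarith)
  · intro h
    exact hBQ (by linarith)

theorem irrAB_seven : IrrAB 7 := fun _ _ _ hA hB h0 _ =>
  irr_seven hA ((by norm_num : (16 : ℤ) ∣ 32).trans hB) h0

/-- the Frey curves have irreducible mod `p` representation for all primes `p ≥ 5`, `p ≠ 13` -/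
theorem irrAB_of_ne_thirteen {p : ℕ} (hp : p.Prime) (hp5 : 5 ≤ p) (hp13 : p ≠ 13) : IrrAB p := by
  by_cases h7 : p = 7
  · subst h7
    exact irrAB_seven
  · exact irrAB_of_ne hp hp5 h7 hp13

theorem noSol_of_ne_thirteen {p L : ℕ} (hp : p.Prime) (hp5 : 5 ≤ p) (hp13 : p ≠ 13)
    (hL : L = 3 ∨ L = 5) : NoSol p L := by
  rcases hL with rfl | rfl
  · exact noSol_of_irr hp hp5 Nat.prime_three Fermat.Agent.Main.genus_six
      (irrAB_of_ne_thirteen hp hp5 hp13)
  · exact noSol_of_irr hp hp5 Nat.prime_five Fermat.Agent.Main.genus_ten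
      (irrAB_of_ne_thirteen hp hp5 hp13)

/-- **Serre's equations**, symmetric form, for all primes `p ≥ 5`, `p ≠ 13`. -/
theorem serre_symmetric_five_le {p L : ℕ} (hp : p.Prime) (hp5 : 5 ≤ p) (hp13 : p ≠ 13)
    (hL : L = 3 ∨ L = 5) (α β γ : ℕ) {x y z : ℤ} (hx : x ≠ 0) (hy : y ≠ 0) (hz : z ≠ 0) :
    (L : ℤ) ^ α * x ^ p + (L : ℤ) ^ β * y ^ p + (L : ℤ) ^ γ * z ^ p ≠ 0 :=
  serre_sym hp5 (by rcases hL with rfl | rfl <;> norm_num) (by rcases hL with rfl | rfl <;> norm_num)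
    (noSol_of_ne_thirteen hp hp5 hp13 hL) α β γ hx hy hz

/-- **Serre's theorem** for all primes `p ≥ 5`, `p ≠ 13`, and `L = 3, 5`:
`x ^ p + y ^ p = L ^ α z ^ p` has no solutions in nonzero integers. -/
theorem serre_equation_five_le {p L : ℕ} (hp : p.Prime) (hp5 : 5 ≤ p) (hp13 : p ≠ 13)
    (hL : L = 3 ∨ L = 5) (α : ℕ) {x y z : ℤ} (hx : x ≠ 0) (hy : y ≠ 0) (hz : z ≠ 0) :
    x ^ p + y ^ p ≠ (L : ℤ) ^ α * z ^ p :=
  serre_eq hp hp5 (by rcases hL with rfl | rfl <;> norm_num)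
    (by rcases hL with rfl | rfl <;> norm_num) (noSol_of_ne_thirteen hp hp5 hp13 hL) α hx hy hz

/-- The same for all exponents `n` having a prime divisor `p ≥ 5`, `p ≠ 13`. -/
theorem serre_equation_exponent_five_le {n p L : ℕ} (hp : p.Prime) (hpn : p ∣ n) (hp5 : 5 ≤ p)
    (hp13 : p ≠ 13) (hL : L = 3 ∨ L = 5) (α : ℕ) {x y z : ℤ} (hx : x ≠ 0) (hy : y ≠ 0)
    (hz : z ≠ 0) : x ^ n + y ^ n ≠ (L : ℤ) ^ α * z ^ n := by
  obtain ⟨k, rfl⟩ := hpn
  rw [mul_comm p k, pow_mul, pow_mul, pow_mul]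
  exact serre_equation_five_le hp hp5 hp13 hL α (pow_ne_zero _ hx) (pow_ne_zero _ hy)
    (pow_ne_zero _ hz)

/-- For every prime `p ≥ 5`, `p ≠ 13`, and `L = 3, 5`, the equation `a b (a + b) = L ^ α m ^ p` has no solutions
in coprime integers `a`, `b` and nonzero integers `m`. -/
theorem mul_add_ne_five_le {p L : ℕ} (hp : p.Prime) (hp5 : 5 ≤ p) (hp13 : p ≠ 13)
    (hL : L = 3 ∨ L = 5) {a b m : ℤ} (hab : IsCoprime a b) (hm : m ≠ 0) (α : ℕ) :
    a * b * (a + b) ≠ (L : ℤ) ^ α * m ^ p :=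
  mul_add_ne_of hp5 (by rcases hL with rfl | rfl <;> norm_num)
    (by rcases hL with rfl | rfl <;> norm_num) (noSol_of_ne_thirteen hp hp5 hp13 hL) hab hm α

end Fermat.Agent.Cor.H11
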