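import Mathlib
import Fermat.Agent.S01
import Fermat.Agent.Cor.H24Sq
import Fermat.Agent.Cor.SerreSeven

/-!
# Generalised Fermat equations with a power of two: all primes `p ≥ 5`, `p ≠ 13`

With the irreducibility of `E_{A,B}[7]` (`Fermat.Agent.Cor.H11.irr_seven`) the results of `H24Four`,
`H24List`, `H24Sq` extend to `p = 7`:

* `two_pow_equation_ne_thirteen`: for every prime `p ≥ 5`, `p ≠ 13`, and `L ∈ {3, 5}` the equation
  `L ^ α x ^ p + L ^ β y ^ p + 2 ^ k L ^ γ z ^ p = 0` has no solution in nonzero integers if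
  `4 ≤ k mod p`;
* `fermat_two_pow`: together with Fermat's Last Theorem, `x ^ p + 2 ^ k y ^ p = z ^ p` and
  `x ^ p + y ^ p = 2 ^ k z ^ p` have no solution in nonzero integers if `k mod p ∉ {1, 2, 3}`;
* `seven_le_two_pow`: `p ≥ 7`, `p ≠ 13`, `L ∈ {3, 5, 7, 11, 19}`, `4 ≤ k mod p`;
  `seven_le_two_pow'`: `p ≥ 7`, `p ≠ 13`, `L ∈ {3, 5, 7, 11, 17, 19, 23, 53, 59}`,
  `5 ≤ k mod p`, and the same for `k = 0` (Serre's equations, `serre_seven_le`);
* `sq_sub_pow_seven_le`, `sq_eq_add_seven_le`, `sq_sub_one_seven_le`: `x ^ 2 - z ^ (2 p)`.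

This file is not used by any of the statement files.
-/

set_option autoImplicit false

namespace Fermat.Agent.Cor.H24

open WeierstrassCurve Fermat.Agent.H12.LL ModularCurve Fermat.Agent.Cor.H11 Fermat.Agent.Cor.H18
open ModularFormClass (qCoeff)

/-- irreducibility of `W[p]` for all Frey curves with `16 ∣ B`, `p ≥ 5`, `p ≠ 13` -/
theorem irr_ne_thirteen {p : ℕ} (hp : p.Prime) (hp5 : 5 ≤ p) (hp13 : p ≠ 13) {A B : ℤ}
    (hcop : IsCoprime A B) (hA : A % 4 = 3) (hB : (16 : ℤ) ∣ B) (h0 : A * B * (A + B) ≠ 0) :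
    (FreyAB A B).ModRepIsIrreducible p := by
  by_cases h7 : p = 7
  · subst h7
    exact irr_seven hA hB h0
  · refine irr_all hp ?_ hcop hA hB h0
    by_contra hcon
    push Not at hcon
    obtain ⟨h1, h2, h3⟩ := hcon
    have h16 : p ≤ 16 := by omega
    interval_cases p <;> first | omega | (revert hp; norm_num)

/-- **No Frey curves of level `2 L`**, `L = 3, 5`, `p ≥ 5`, `p ≠ 13`. -/
theorem noFrey_ne_thirteen {p L : ℕ} (hp : p.Prime) (hp5 : 5 ≤ p) (hp13 : p ≠ 13)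
    (hL : L = 3 ∨ L = 5) : NoFrey p L (fun v => 4 ≤ v) :=
  noFrey_of_irr hp hp5 hL (fun _ h => h) fun _ _ hcop hA hB h0 _ =>
    irr_ne_thirteen hp hp5 hp13 hcop hA hB h0

/-- unfolded -/
theorem no_frey_ne_thirteen {p L : ℕ} (hp : p.Prime) (hp5 : 5 ≤ p) (hp13 : p ≠ 13)
    (hL : L = 3 ∨ L = 5) {A B : ℤ} (hcop : IsCoprime A B) (hA : A % 4 = 3) (hB : (16 : ℤ) ∣ B)
    (h0 : A * B * (A + B) ≠ 0)
    (hv : ∀ ℓ : ℕ, ℓ.Prime → ℓ ≠ 2 → ℓ ≠ L → p ∣ padicValInt ℓ (A * B * (A + B))) : False := by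
  refine noFrey_ne_thirteen hp hp5 hp13 hL A B hcop hA h0 ?_ hv
  have hB0 : B ≠ 0 := by rintro rfl; simp at h0
  have := (padicValInt_dvd_iff (p := 2) 4 B).mp (by exact_mod_cast hB)
  exact this.resolve_left hB0

/-- **Generalised Fermat equations with a power of two**, `p ≥ 5`, `p ≠ 13`. -/
theorem two_pow_equation_ne_thirteen {p L : ℕ} (hp : p.Prime) (hp5 : 5 ≤ p) (hp13 : p ≠ 13)
    (hL : L = 3 ∨ L = 5) {k : ℕ} (hk : 4 ≤ k % p) (α β γ : ℕ) {x y z : ℤ}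
    (hx : x ≠ 0) (hy : y ≠ 0) (hz : z ≠ 0) :
    (L : ℤ) ^ α * x ^ p + (L : ℤ) ^ β * y ^ p + 2 ^ k * (L : ℤ) ^ γ * z ^ p ≠ 0 := by
  have hLp : L.Prime := by rcases hL with rfl | rfl <;> norm_num
  refine (noFrey_ne_thirteen hp hp5 hp13 hL).eq_sym hLp (by omega) (by omega) ?_ α β γ hx hy hz
  intro v hv
  have := Nat.mod_le v p
  omega

/-- Fermat's Last Theorem over `ℤ` for the exponent `p` -/
theorem flt_int {p : ℕ} (hp : 3 ≤ p) {x y z : ℤ} (hx : x ≠ 0) (hy : y ≠ 0) (hz : z ≠ 0) :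
    x ^ p + y ^ p ≠ z ^ p := by
  have h : FermatLastTheoremFor p := fun a b c ha hb hc =>
    Fermat.Agent.S01.result p hp a b c (Nat.pos_of_ne_zero ha) (Nat.pos_of_ne_zero hb)
      (Nat.pos_of_ne_zero hc)
  exact fermatLastTheoremFor_iff_int.mp h x y z hx hy hz

section fermat

variable {p : ℕ} {x y z : ℤ}

/-- **`x ^ p + 2 ^ k y ^ p + z ^ p = 0`** has no solution in nonzero integers if `p ≥ 5`, `p ≠ 13`,
is a prime and `k mod p ∉ {1, 2, 3}`. -/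
theorem fermat_two_pow_sym (hp : p.Prime) (hp5 : 5 ≤ p) (hp13 : p ≠ 13) {k : ℕ}
    (hk : k % p = 0 ∨ 4 ≤ k % p) (hx : x ≠ 0) (hy : y ≠ 0) (hz : z ≠ 0) :
    x ^ p + 2 ^ k * y ^ p + z ^ p ≠ 0 := by
  intro he
  have hodd : Odd p := hp.odd_of_ne_two (by omega)
  rcases hk with hk | hk
  · obtain ⟨m, rfl⟩ := Nat.dvd_of_mod_eq_zero hk
    refine flt_int (p := p) (by omega) hx (mul_ne_zero (pow_ne_zero m two_ne_zero) hy)
      (neg_ne_zero.mpr hz) ?_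
    rw [hodd.neg_pow, mul_pow, ← pow_mul, mul_comm m p]
    linear_combination he
  · refine two_pow_equation_ne_thirteen hp hp5 hp13 (Or.inl rfl) hk 0 0 0 hx hz hy ?_
    linear_combination he

/-- **`x ^ p + 2 ^ k y ^ p = z ^ p`**, `k mod p ∉ {1, 2, 3}`. -/
theorem fermat_two_pow (hp : p.Prime) (hp5 : 5 ≤ p) (hp13 : p ≠ 13) {k : ℕ}
    (hk : k % p = 0 ∨ 4 ≤ k % p) (hx : x ≠ 0) (hy : y ≠ 0) (hz : z ≠ 0) :
    x ^ p + 2 ^ k * y ^ p ≠ z ^ p := by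
  intro he
  have hodd : Odd p := hp.odd_of_ne_two (by omega)
  refine fermat_two_pow_sym hp hp5 hp13 hk hx hy (neg_ne_zero.mpr hz) ?_
  rw [hodd.neg_pow]
  linear_combination he

/-- **`x ^ p + y ^ p = 2 ^ k z ^ p`**, `k mod p ∉ {1, 2, 3}`. -/
theorem fermat_two_pow' (hp : p.Prime) (hp5 : 5 ≤ p) (hp13 : p ≠ 13) {k : ℕ}
    (hk : k % p = 0 ∨ 4 ≤ k % p) (hx : x ≠ 0) (hy : y ≠ 0) (hz : z ≠ 0) :
    x ^ p + y ^ p ≠ 2 ^ k * z ^ p := by
  intro he
  have hodd : Odd p := hp.odd_of_ne_two (by omega)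
  refine fermat_two_pow_sym hp hp5 hp13 hk hx (neg_ne_zero.mpr hz) hy ?_
  rw [hodd.neg_pow]
  linear_combination he

/-- The same for all exponents `n` with a prime divisor `p ≥ 5`, `p ≠ 13`: `x ^ n + 2 ^ k y ^ n = z ^ n`
has no solution in nonzero integers if `k mod p ∉ {1, 2, 3}`. -/
theorem fermat_two_pow_exponent {n : ℕ} (hp : p.Prime) (hpn : p ∣ n) (hp5 : 5 ≤ p) (hp13 : p ≠ 13)
    {k : ℕ} (hk : k % p = 0 ∨ 4 ≤ k % p) (hx : x ≠ 0) (hy : y ≠ 0) (hz : z ≠ 0) :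
    x ^ n + 2 ^ k * y ^ n ≠ z ^ n := by
  obtain ⟨m, rfl⟩ := hpn
  rw [mul_comm p m, pow_mul, pow_mul, pow_mul]
  exact fermat_two_pow hp hp5 hp13 hk (pow_ne_zero _ hx) (pow_ne_zero _ hy) (pow_ne_zero _ hz)

/-- `x ^ p + 16 y ^ p = z ^ p` has no solution in nonzero integers. -/
theorem sixteen_equation_ne_thirteen (hp : p.Prime) (hp5 : 5 ≤ p) (hp13 : p ≠ 13)
    (hx : x ≠ 0) (hy : y ≠ 0) (hz : z ≠ 0) : x ^ p + 16 * y ^ p ≠ z ^ p := by
  have hk : 4 % p = 4 := Nat.mod_eq_of_lt (by omega)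
  have := fermat_two_pow hp hp5 hp13 (k := 4) (by omega) hx hy hz
  norm_num at this
  exact this

end fermat

/-! ### the other primes `L`, `p ≥ 7` -/

/-- the criterion with the third coefficient, `p ≠ 13` -/
theorem noFrey_of_three_ne_thirteen {p L : ℕ} (hp : p.Prime) (hp5 : 5 ≤ p) (hp13 : p ≠ 13)
    (hL : L.Prime) (hL3 : L ≠ 3)
    (hS : ∀ f : CuspForm (CongruenceSubgroup.Gamma0 (2 * L)) 2, f.IsNormalizedEigenform →
      ∃ c : ℤ, qCoeff f 3 = (c : ℂ) ∧ ¬ (p : ℤ) ∣ c ∧ ¬ (p : ℤ) ∣ c - 4 ∧ ¬ (p : ℤ) ∣ c + 4) :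
    NoFrey p L (fun v => 4 ≤ v) := by
  intro A B hcop hA h0 hG hv
  have : Fact p.Prime := ⟨hp⟩
  have : NeZero (2 * L) := ⟨mul_ne_zero two_ne_zero hL.ne_zero⟩
  have hB := sixteen_dvd hG
  have hirr := irr_ne_thirteen hp hp5 hp13 hcop hA hB h0
  have hN3 : ¬ 3 ∣ 2 * L := by
    intro h
    rcases (Nat.Prime.dvd_mul Nat.prime_three).mp h with h | h
    · omega
    · exact hL3 ((Nat.prime_dvd_prime_iff_eq Nat.prime_three hL).mp h).symm
  obtain ⟨f, 𝔪, hf, h𝔪, hp𝔪, hres⟩ := rm_two_mul' (by omega) hL hcop hA hB h0 hv hirr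
  obtain ⟨c, hc, h1, h2, h3⟩ := hS f hf
  rcases dvd_a_three (by omega) hN3 hcop hA hB h0 hirr hf h𝔪 hp𝔪 hres hc with h | h | h
  · exact h1 h
  · exact h2 h
  · exact h3 h

/-- the condition on the third coefficient for `p ≥ 7`, `|c| < 3` -/
lemma three_ok_seven {p : ℕ} (hp7 : 7 ≤ p) {c : ℤ} (hc0 : c ≠ 0) (hc : c.natAbs < 3) :
    ¬ (p : ℤ) ∣ c ∧ ¬ (p : ℤ) ∣ c - 4 ∧ ¬ (p : ℤ) ∣ c + 4 :=
  ⟨not_dvd_of_abs hc0 (by omega), not_dvd_of_abs (by omega) (by omega),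
    not_dvd_of_abs (by omega) (by omega)⟩

/-- **No Frey curves of level `2 L`**, `L ∈ {3, 5, 7, 11, 19}`, `p ≥ 7`, `p ≠ 13`. -/
theorem noFrey_seven_le {p L : ℕ} (hp : p.Prime) (hp7 : 7 ≤ p) (hp13 : p ≠ 13)
    (hL : L ∈ ({3, 5, 7, 11, 19} : Finset ℕ)) : NoFrey p L (fun v => 4 ≤ v) := by
  simp only [Finset.mem_insert, Finset.mem_singleton] at hL
  have hp5 : 5 ≤ p := by omega
  rcases hL with rfl | rfl | rfl | rfl | rfl
  · exact noFrey_ne_thirteen hp hp5 hp13 (Or.inl rfl)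
  · exact noFrey_ne_thirteen hp hp5 hp13 (Or.inr rfl)
  · exact noFrey_of_three_ne_thirteen hp hp5 hp13 (by norm_num) (by norm_num) fun f hf =>
      ⟨-2, by rw [EigenTable.a3_fourteen (f := f) hf]; norm_num,
        three_ok_seven hp7 (by norm_num) (by norm_num)⟩
  · exact noFrey_of_three_ne_thirteen hp hp5 hp13 (by norm_num) (by norm_num) fun f hf =>
      ⟨-1, by rw [EigenTable.a3_twentytwo (f := f) hf]; norm_num,
        three_ok_seven hp7 (by norm_num) (by norm_num)⟩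
  · refine noFrey_of_three_ne_thirteen hp hp5 hp13 (by norm_num) (by norm_num) fun f hf => ?_
    rcases H22L19.a3_thirtyeight (f := f) hf with h | h | h
    · exact ⟨-2, by rw [h]; norm_num, three_ok_seven hp7 (by norm_num) (by norm_num)⟩
    · exact ⟨1, by rw [h]; norm_num, three_ok_seven hp7 (by norm_num) (by norm_num)⟩
    · exact ⟨-1, by rw [h]; norm_num, three_ok_seven hp7 (by norm_num) (by norm_num)⟩

/-- **Serre's equations with a power of two**, `4 ≤ k mod p`, `L ∈ {3, 5, 7, 11, 19}`, `p ≥ 7`,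
`p ≠ 13`. -/
theorem seven_le_two_pow {p L : ℕ} (hp : p.Prime) (hp7 : 7 ≤ p) (hp13 : p ≠ 13)
    (hL : L ∈ ({3, 5, 7, 11, 19} : Finset ℕ)) {k : ℕ} (hk : 4 ≤ k % p)
    (α β γ : ℕ) {x y z : ℤ} (hx : x ≠ 0) (hy : y ≠ 0) (hz : z ≠ 0) :
    (L : ℤ) ^ α * x ^ p + (L : ℤ) ^ β * y ^ p + 2 ^ k * (L : ℤ) ^ γ * z ^ p ≠ 0 := by
  have hLp : L.Prime ∧ L ≠ 2 := by
    simp only [Finset.mem_insert, Finset.mem_singleton] at hL
    rcases hL with rfl | rfl | rfl | rfl | rfl <;> norm_num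
  refine (noFrey_seven_le hp hp7 hp13 hL).eq_sym hLp.1 hLp.2 (by omega) ?_ α β γ hx hy hz
  intro v hv
  have := Nat.mod_le v p
  omega

/-- `NoSol p L` for `p ≥ 7`, `p ≠ 13` -/
theorem noSol_seven_le {p L : ℕ} (hp : p.Prime) (hp7 : 7 ≤ p) (hp13 : p ≠ 13)
    (hL : L ∈ ({3, 5, 7, 11, 17, 19, 23, 53, 59} : Finset ℕ)) : NoSol p L := by
  have hp5 : 5 ≤ p := by omega
  have H : IrrAB p := irrAB_of_ne_thirteen hp hp5 hp13
  simp only [Finset.mem_insert, Finset.mem_singleton] at hL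
  rcases hL with rfl | rfl | rfl | rfl | rfl | rfl | rfl | rfl | rfl
  · exact noSol_of_irr hp hp5 Nat.prime_three Fermat.Agent.Main.genus_six H
  · exact noSol_of_irr hp hp5 Nat.prime_five Fermat.Agent.Main.genus_ten H
  · exact noSol_seven_of hp hp5 H fun _ hf => EigenTable.a3_fourteen hf
  · exact noSol_of_three hp hp5 (by norm_num) (by norm_num) H fun f hf =>
      ⟨-1, by rw [EigenTable.a3_twentytwo (f := f) hf]; norm_num,
        three_ok_seven hp7 (by norm_num) (by norm_num)⟩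
  · exact H18.noSol_seventeen hp hp7 H
  · exact H22L19.noSol_nineteen_of hp hp7 H
  · exact noSol_twentythree hp hp7 H
  · exact noSol_fiftythree hp hp7 H
  · exact noSol_fiftynine hp hp7 H

lemma prime_of_list' {L : ℕ} (hL : L ∈ ({3, 5, 7, 11, 17, 19, 23, 53, 59} : Finset ℕ)) :
    L.Prime ∧ L ≠ 2 := by
  simp only [Finset.mem_insert, Finset.mem_singleton] at hL
  rcases hL with rfl | rfl | rfl | rfl | rfl | rfl | rfl | rfl | rfl <;> norm_num

/-- **Serre's list with a power of two**, `5 ≤ k mod p`, `p ≥ 7`, `p ≠ 13`. -/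
theorem seven_le_two_pow' {p L : ℕ} (hp : p.Prime) (hp7 : 7 ≤ p) (hp13 : p ≠ 13)
    (hL : L ∈ ({3, 5, 7, 11, 17, 19, 23, 53, 59} : Finset ℕ)) {k : ℕ} (hk : 5 ≤ k % p)
    (α β γ : ℕ) {x y z : ℤ} (hx : x ≠ 0) (hy : y ≠ 0) (hz : z ≠ 0) :
    (L : ℤ) ^ α * x ^ p + (L : ℤ) ^ β * y ^ p + 2 ^ k * (L : ℤ) ^ γ * z ^ p ≠ 0 :=
  eq_sym_of_noSol (prime_of_list' hL).1 (prime_of_list' hL).2 (noSol_seven_le hp hp7 hp13 hL) hk
    α β γ hx hy hz

/-- **Serre's equations**, symmetric form, `p ≥ 7`, `p ≠ 13`. -/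
theorem serre_seven_le_sym {p L : ℕ} (hp : p.Prime) (hp7 : 7 ≤ p) (hp13 : p ≠ 13)
    (hL : L ∈ ({3, 5, 7, 11, 17, 19, 23, 53, 59} : Finset ℕ))
    (α β γ : ℕ) {x y z : ℤ} (hx : x ≠ 0) (hy : y ≠ 0) (hz : z ≠ 0) :
    (L : ℤ) ^ α * x ^ p + (L : ℤ) ^ β * y ^ p + (L : ℤ) ^ γ * z ^ p ≠ 0 :=
  serre_sym (by omega) (prime_of_list' hL).1 (prime_of_list' hL).2 (noSol_seven_le hp hp7 hp13 hL)
    α β γ hx hy hz

/-- **Serre's equations** `x ^ p + y ^ p = L ^ α z ^ p`, `p ≥ 7`, `p ≠ 13`,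
`L ∈ {3, 5, 7, 11, 17, 19, 23, 53, 59}`. -/
theorem serre_seven_le {p L : ℕ} (hp : p.Prime) (hp7 : 7 ≤ p) (hp13 : p ≠ 13)
    (hL : L ∈ ({3, 5, 7, 11, 17, 19, 23, 53, 59} : Finset ℕ))
    (α : ℕ) {x y z : ℤ} (hx : x ≠ 0) (hy : y ≠ 0) (hz : z ≠ 0) :
    x ^ p + y ^ p ≠ (L : ℤ) ^ α * z ^ p :=
  serre_eq hp (by omega) (prime_of_list' hL).1 (prime_of_list' hL).2
    (noSol_seven_le hp hp7 hp13 hL) α hx hy hz

/-! ### squares -/

/-- **`x ^ 2 - z ^ (2 p) ≠ 2 ^ m L ^ α w ^ p`** for odd coprime `x`, `z`, and `m ≥ 6`, `w ≠ 0`,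
from `NoFrey p L`. -/
theorem NoFrey.sq_sub_pow {p L : ℕ} (hLp : L.Prime) (H : NoFrey p L (fun v => 4 ≤ v))
    {m : ℕ} (hm : 6 ≤ m) (α : ℕ) {x z w : ℤ}
    (hxz : IsCoprime x z) (hx : Odd x) (hz : Odd z) (hw : w ≠ 0) :
    x ^ 2 - z ^ (2 * p) ≠ 2 ^ m * (L : ℤ) ^ α * w ^ p := by
  intro he
  have hL0 : (L : ℤ) ≠ 0 := by exact_mod_cast hLp.ne_zero
  have h20 : (2 : ℤ) ^ m ≠ 0 := pow_ne_zero _ two_ne_zero
  have hD' : (L : ℤ) ^ α * w ^ p ≠ 0 := mul_ne_zero (pow_ne_zero _ hL0) (pow_ne_zero _ hw)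
  have hD0 : 2 ^ m * (L : ℤ) ^ α * w ^ p ≠ 0 := by rw [mul_assoc]; exact mul_ne_zero h20 hD'
  have hv2 : m ≤ padicValInt 2 (2 ^ m * (L : ℤ) ^ α * w ^ p) := by
    have h2 : padicValInt 2 (2 : ℤ) = 1 := padicValInt_self (p := 2)
    rw [mul_assoc, padicValInt.mul h20 hD', padicValInt_pow'', h2]
    omega
  refine H.sq_sub hxz hx hz hD0 he (by omega) (by omega) ?_
  intro ℓ hℓ hℓ2 hℓL
  rw [val_mul_pow hw hℓ]
  · exact dvd_mul_right _ _
  · intro h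
    rcases (Nat.prime_iff_prime_int.mp hℓ).dvd_or_dvd h with h | h
    · exact not_dvd_pow hℓ Nat.prime_two hℓ2 m (by exact_mod_cast h)
    · exact not_dvd_pow hℓ hLp hℓL α h

/-- **`x ^ 2 - z ^ (2 p) ≠ 2 ^ m L ^ α w ^ p`** for odd coprime `x`, `z`, and `m ≥ 6`, `w ≠ 0`,
`p ≥ 5`, `p ≠ 13`, `L = 3, 5`. -/
theorem sq_sub_pow_ne_thirteen {p L : ℕ} (hp : p.Prime) (hp5 : 5 ≤ p) (hp13 : p ≠ 13)
    (hL : L = 3 ∨ L = 5) {m : ℕ} (hm : 6 ≤ m) (α : ℕ) {x z w : ℤ}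
    (hxz : IsCoprime x z) (hx : Odd x) (hz : Odd z) (hw : w ≠ 0) :
    x ^ 2 - z ^ (2 * p) ≠ 2 ^ m * (L : ℤ) ^ α * w ^ p :=
  (noFrey_ne_thirteen hp hp5 hp13 hL).sq_sub_pow (by rcases hL with rfl | rfl <;> norm_num) hm α
    hxz hx hz hw

/-- **`x ^ 2 = y ^ p + z ^ (2 p)`** has no solution with `x`, `z` coprime, `y ≠ 0` even, for
`p ≥ 7`, `p ≠ 13`. -/
theorem sq_eq_add_seven_le {p : ℕ} (hp : p.Prime) (hp7 : 7 ≤ p) (hp13 : p ≠ 13) {x y z : ℤ}
    (hxz : IsCoprime x z) (hy : Even y) (hy0 : y ≠ 0) : x ^ 2 ≠ y ^ p + z ^ (2 * p) := by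
  intro he
  have hyp : Even (y ^ p) := hy.pow_of_ne_zero (by omega)
  have hodd : Odd x ∧ Odd z := by
    by_cases hxe : Even x
    · exfalso
      have h1 : Even (x ^ 2) := hxe.pow_of_ne_zero two_ne_zero
      have h2 : Even (z ^ (2 * p)) := by
        rw [he] at h1
        exact (Int.even_add.mp h1).mp hyp
      have h3 : Even z := by
        rw [Int.even_pow] at h2
        exact h2.1
      have := hxz.isUnit_of_dvd' (even_iff_two_dvd.mp hxe) (even_iff_two_dvd.mp h3)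
      exact absurd (Int.isUnit_iff.mp this) (by norm_num)
    · refine ⟨Int.not_even_iff_odd.mp hxe, ?_⟩
      by_contra hz
      rw [Int.not_odd_iff_even] at hz
      apply hxe
      have h2 : Even (z ^ (2 * p)) := hz.pow_of_ne_zero (by omega)
      have h3 : Even (x ^ 2) := by rw [he]; exact hyp.add h2
      rw [Int.even_pow] at h3
      exact h3.1
  obtain ⟨y', rfl⟩ := hy.two_dvd
  have hy' : y' ≠ 0 := by rintro rfl; simp at hy0
  refine sq_sub_pow_ne_thirteen hp (by omega) hp13 (Or.inl rfl) (m := p) (by omega) 0 hxz hodd.1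
    hodd.2 hy' ?_
  rw [he, mul_pow]
  ring

/-- two `p`-th powers with difference `2`, `p ≥ 3` odd: only `1` and `-1` -/
lemma eq_one_of_pow_sub_pow {p : ℕ} (hodd : Odd p) (hp3 : 3 ≤ p) {a b : ℤ}
    (hab : b ^ p - a ^ p = 2) : b ^ p = 1 ∧ a ^ p = -1 := by
  have hp0 : p ≠ 0 := by omega
  have hlt : a < b := by
    have : a ^ p < b ^ p := by linarith
    exact (hodd.strictMono_pow).lt_iff_lt.mp this
  have hbig : ∀ c : ℤ, 1 ≤ c → c ^ p + 2 < (c + 1) ^ p := by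
    intro c hc
    have h1 : (c + 1) ^ p ≥ c ^ p + p * c ^ (p - 1) := by
      have := Finset.single_le_sum (f := fun k => c ^ k * 1 ^ (p - k) * (p.choose k : ℤ))
        (s := (Finset.range (p + 1)) \ {p}) (fun k _ => by positivity)
        (a := p - 1) (by
          simp only [Finset.mem_sdiff, Finset.mem_range, Finset.mem_singleton]
          omega)
      have h2 : (c + 1) ^ p = ∑ k ∈ Finset.range (p + 1),
        c ^ k * 1 ^ (p - k) * (p.choose k : ℤ) := add_pow c 1 p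
      have h3 : (p.choose (p - 1) : ℤ) = p := by
        have h5 : p.choose (p - 1) = p := by
          rw [Nat.choose_symm (by omega : 1 ≤ p) |>.symm.symm, Nat.choose_one_right]
        exact_mod_cast h5
      have h4 := Finset.sum_sdiff_eq_sub (f := fun k => c ^ k * 1 ^ (p - k) *
        (p.choose k : ℤ)) (s₁ := {p}) (s₂ := Finset.range (p + 1)) (by simp)
      rw [h4, ← h2] at this
      simp only [one_pow, mul_one, Finset.sum_singleton, Nat.choose_self, Nat.cast_one,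
        h3] at this
      linarith
    have h2 : (1 : ℤ) ≤ c ^ (p - 1) := one_le_pow₀ hc
    have h3 : (3 : ℤ) ≤ p := by exact_mod_cast hp3
    nlinarith
  by_cases ha0 : a = 0
  · exfalso
    rw [ha0, zero_pow hp0, sub_zero] at hab
    have h1 : (1 : ℤ) < b := by
      by_contra hcon
      have hb : b = 1 := by omega
      rw [hb, one_pow] at hab
      omega
    have h2 : (2 : ℤ) ^ p ≤ b ^ p := pow_le_pow_left₀ (by norm_num) (by omega) p
    have h3 : (2 : ℤ) ^ 3 ≤ 2 ^ p := pow_le_pow_right₀ (by norm_num) hp3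
    norm_num at h3
    omega
  by_cases hb0 : b = 0
  · exfalso
    rw [hb0, zero_pow hp0, zero_sub] at hab
    have h1 : (1 : ℤ) < -a := by
      by_contra hcon
      have ha : a = -1 := by omega
      rw [ha, hodd.neg_one_pow] at hab
      omega
    have h2 : (2 : ℤ) ^ p ≤ (-a) ^ p := pow_le_pow_left₀ (by norm_num) (by omega) p
    have h3 : (2 : ℤ) ^ 3 ≤ 2 ^ p := pow_le_pow_right₀ (by norm_num) hp3
    rw [hodd.neg_pow] at h2
    norm_num at h3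
    omega
  rcases lt_or_gt_of_ne ha0 with ha' | ha'
  · rcases lt_or_gt_of_ne hb0 with hb' | hb'
    · exfalso
      have h1 := hbig (-b) (by omega)
      have h2 : (-b + 1) ^ p ≤ (-a) ^ p := by
        apply pow_le_pow_left₀ (by omega)
        omega
      rw [hodd.neg_pow] at h1 h2
      omega
    · have h1 : 1 ≤ b ^ p := one_le_pow₀ (by omega)
      have h2 : 1 ≤ (-a) ^ p := one_le_pow₀ (by omega)
      rw [hodd.neg_pow] at h2
      omega
  · exfalso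
    have h1 := hbig a (by omega)
    have h2 : (a + 1) ^ p ≤ b ^ p := by
      apply pow_le_pow_left₀ (by omega)
      omega
    omega

/-- the case `y` odd of `x ^ 2 - 1 = y ^ p` -/
lemma eq_neg_one_of_odd {p : ℕ} (hodd : Odd p) (hp3 : 3 ≤ p) {x y : ℤ} (hy : Odd y)
    (he : x ^ 2 - 1 = y ^ p) : y = -1 := by
  have hyodd : Odd (y ^ p) := hy.pow
  have hx : Even x := by
    by_contra hx
    rw [Int.not_even_iff_odd] at hx
    have h1 : Odd (x ^ 2) := hx.pow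
    rw [← he] at hyodd
    have := h1.sub_odd (by decide : Odd (1 : ℤ))
    exact (Int.not_even_iff_odd.mpr hyodd) this
  obtain ⟨t, ht⟩ := hx
  have hcop : IsCoprime (x - 1) (x + 1) := by
    refine ⟨t, 1 - t, ?_⟩
    rw [ht]; ring
  have hprod : (x - 1) * (x + 1) = y ^ p := by rw [← he]; ring
  obtain ⟨a, ha⟩ := Int.eq_pow_of_mul_eq_pow_odd_left hcop hodd hprod
  obtain ⟨b, hb⟩ := Int.eq_pow_of_mul_eq_pow_odd_right hcop hodd hprod
  have hab : b ^ p - a ^ p = 2 := by rw [← ha, ← hb]; ring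
  obtain ⟨h3, h4⟩ := eq_one_of_pow_sub_pow hodd hp3 hab
  have h5 : y ^ p = (-1) ^ p := by
    rw [hodd.neg_one_pow, ← hprod, ha, hb, h3, h4]; norm_num
  exact (hodd.strictMono_pow).injective h5

/-- **`x ^ 2 - 1 = y ^ p`** has only the solutions with `y = 0` or `y = -1`, for `p ≥ 7`,
`p ≠ 13`. -/
theorem sq_sub_one_seven_le {p : ℕ} (hp : p.Prime) (hp7 : 7 ≤ p) (hp13 : p ≠ 13) {x y : ℤ}
    (he : x ^ 2 - 1 = y ^ p) : y = 0 ∨ y = -1 := by
  by_cases hy0 : y = 0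
  · exact Or.inl hy0
  right
  have hodd : Odd p := hp.odd_of_ne_two (by omega)
  by_cases hy : Even y
  · exact absurd (by rw [one_pow]; linarith : x ^ 2 = y ^ p + 1 ^ (2 * p))
      (sq_eq_add_seven_le hp hp7 hp13 isCoprime_one_right hy hy0)
  · exact eq_neg_one_of_odd hodd (by omega) (Int.not_even_iff_odd.mp hy) he

end Fermat.Agent.Cor.H24
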