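import Fermat.Agent.Cor.H11SevenDesc

/-!
# The rational points of `w² = t (t² + 6 t + 13)`

This elliptic curve of conductor `52` has exactly two rational points, `(0, 0)` and the point at infinity. The proof is
a descent (by two isogenies of degree two).

This file is not used by any of the statement files.
-/

set_option autoImplicit false

namespace Fermat.Agent.Cor.H11.Thirteen

open Fermat.Agent.Cor.H11.Seven

set_option maxHeartbeats 800000 in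
/-- one step of the descent -/
theorem step {e m : ℕ} {N : ℤ} (hepos : 0 < e) (hme : Nat.Coprime m e)
    (hN : (m : ℤ) ^ 4 + 6 * (m : ℤ) ^ 2 * (e : ℤ) ^ 2 + 13 * (e : ℤ) ^ 4 = N ^ 2) :
    ∃ f g : ℕ, ∃ v : ℤ, 0 < f ∧ f < e ∧ Nat.Coprime g f ∧
      (g : ℤ) ^ 4 + 6 * (g : ℤ) ^ 2 * (f : ℤ) ^ 2 + 13 * (f : ℤ) ^ 4 = v ^ 2 := by
  wlog hN0 : 0 ≤ N generalizing N
  · exact this (N := -N) (by rw [hN]; ring) (by omega)
  -- `m` is odd and `e` is even
  have hpar : Odd m ∧ Even e := by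
    rcases Nat.even_or_odd m with hm | hm
    · exfalso
      have he : Odd e := by
        rw [← Nat.not_even_iff_odd]
        intro hee
        exact Nat.not_coprime_of_dvd_of_dvd (by norm_num) hm.two_dvd hee.two_dvd hme
      obtain ⟨m', hm'⟩ := hm
      obtain ⟨j, hj⟩ := odd_sq (x := (e : ℤ)) (by exact_mod_cast he)
      have h1 : 16 * (m' : ℤ) ^ 4 + 24 * (m' : ℤ) ^ 2 * (8 * j + 1) + 13 * (8 * j + 1) ^ 2 = N ^ 2 := by
        rw [← hj, ← hN, hm']; push_cast; ring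
      rcases Int.even_or_odd N with hn | hn
      · obtain ⟨n, hn⟩ := hn
        rw [hn] at h1
        ring_nf at h1
        omega
      · obtain ⟨n, hn⟩ := odd_sq hn
        rw [hn] at h1
        ring_nf at h1
        omega
    · refine ⟨hm, ?_⟩
      by_contra hcon
      have he : Odd e := Nat.not_even_iff_odd.mp hcon
      obtain ⟨i, hi⟩ := odd_sq (x := (m : ℤ)) (by exact_mod_cast hm)
      obtain ⟨j, hj⟩ := odd_sq (x := (e : ℤ)) (by exact_mod_cast he)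
      have h1 : (8 * i + 1) ^ 2 + 6 * (8 * i + 1) * (8 * j + 1) + 13 * (8 * j + 1) ^ 2 = N ^ 2 := by
        rw [← hj, ← hi, ← hN]; ring
      rcases Int.even_or_odd' N with ⟨n, hn | hn⟩
      · rw [hn] at h1
        rcases Int.even_or_odd n with hn2 | hn2
        · obtain ⟨n', hn'⟩ := hn2
          rw [hn'] at h1
          ring_nf at h1
          omega
        · obtain ⟨n', hn'⟩ := odd_sq hn2
          have h2 : (2 * n) ^ 2 = 4 * (8 * n' + 1) := by rw [← hn']; ring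
          rw [h2] at h1
          ring_nf at h1
          omega
      · rw [hn] at h1
        ring_nf at h1
        omega
  obtain ⟨hm, heven⟩ := hpar
  have hmpos : 0 < m := hm.pos
  have hmZ : Odd (m : ℤ) := by exact_mod_cast hm
  obtain ⟨m2, hm2⟩ := odd_sq hmZ
  obtain ⟨ε, hε⟩ := heven
  have hε' : e = 2 * ε := by omega
  subst hε'
  have hεpos : 0 < ε := by omega
  have hεZ : (0 : ℤ) < (ε : ℤ) := by exact_mod_cast hεpos
  push_cast at hN
  have hNodd : Odd N := by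
    rcases Int.even_or_odd' N with ⟨n, hn | hn⟩
    · exfalso
      have h1 : (8 * m2 + 1) ^ 2 + 24 * (8 * m2 + 1) * (ε : ℤ) ^ 2 + 208 * (ε : ℤ) ^ 4 = N ^ 2 := by
        rw [← hm2, ← hN]; ring
      rw [hn] at h1
      ring_nf at h1
      omega
    · exact ⟨n, hn⟩
  obtain ⟨n', hn'⟩ := hNodd
  obtain ⟨P, hPdef⟩ : ∃ P, 2 * P = N - (m : ℤ) ^ 2 - 12 * (ε : ℤ) ^ 2 :=
    ⟨n' - 4 * m2 - 6 * (ε : ℤ) ^ 2, by rw [hn', hm2]; ring⟩
  obtain ⟨Q, hQdef⟩ : ∃ Q, 2 * Q = N + (m : ℤ) ^ 2 + 12 * (ε : ℤ) ^ 2 :=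
    ⟨n' + 4 * m2 + 1 + 6 * (ε : ℤ) ^ 2, by rw [hn', hm2]; ring⟩
  have hPQ : P * Q = ((2 : ℕ) : ℤ) ^ 4 * (ε : ℤ) ^ 4 := by
    have h1 : 4 * (P * Q) = 64 * (ε : ℤ) ^ 4 := by
      have h2 : 4 * (P * Q) = (2 * P) * (2 * Q) := by ring
      rw [h2, hPdef, hQdef]
      linear_combination -hN
    push_cast
    linarith
  obtain ⟨hP, hQ⟩ := pos_of_mul_add (a := P) (b := Q) (by rw [hPQ]; positivity) (by
    have h1 : P + Q = N := by linarith
    rw [h1, hn']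
    omega)
  have hmε : Nat.Coprime m ε := Nat.Coprime.coprime_mul_left_right hme
  have hcop : ∀ q : ℕ, q.Prime → (q : ℤ) ∣ P → (q : ℤ) ∣ Q → False := by
    intro q hq h1 h2
    have hq2 : q ≠ 2 := by
      rintro rfl
      have h7 : (2 : ℤ) ∣ P := by exact_mod_cast h1
      have h8 : (2 : ℤ) ∣ Q := by exact_mod_cast h2
      omega
    have hqe := dvd_of_two hq h1 hPQ hq2
    have hqe' : (q : ℤ) ∣ (ε : ℤ) := by exact_mod_cast hqe
    have h3 : (q : ℤ) ∣ (m : ℤ) ^ 2 := by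
      have h4 : ((m : ℤ) ^ 2 : ℤ) = Q - P - (ε : ℤ) * (12 * ε) := by linarith
      rw [h4]
      exact dvd_sub (dvd_sub h2 h1) (hqe'.mul_right _)
    have h5 : q ∣ m := by exact_mod_cast (Nat.prime_iff_prime_int.mp hq).dvd_of_dvd_pow h3
    exact Nat.not_coprime_of_dvd_of_dvd hq.one_lt h5 hqe hmε
  rcases split_int (by norm_num : (2 : ℕ).Prime) hP hQ hcop hPQ with ⟨u, v, h1, h2, h3⟩ | ⟨u, v, h1, h2, h3⟩
  · -- `P = 16 u⁴`, `Q = v⁴`
    have h3' : (ε : ℤ) = u * v := by exact_mod_cast h3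
    have hupos : 0 < u := Nat.pos_of_ne_zero (by rintro rfl; omega)
    have hvpos : 0 < v := Nat.pos_of_ne_zero (by rintro rfl; omega)
    have huZ : (0 : ℤ) < (u : ℤ) := by exact_mod_cast hupos
    have hvZ : (0 : ℤ) < (v : ℤ) := by exact_mod_cast hvpos
    have hmm : (m : ℤ) ^ 2 = (v : ℤ) ^ 4 - 12 * (u : ℤ) ^ 2 * (v : ℤ) ^ 2 - 16 * (u : ℤ) ^ 4 := by
      have h4 : (m : ℤ) ^ 2 + 12 * (ε : ℤ) ^ 2 = Q - P := by linarith
      rw [h1, h2, h3'] at h4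
      push_cast at h4
      linear_combination h4
    obtain ⟨w, hw⟩ : ∃ w : ℤ, w = (v : ℤ) ^ 2 - 6 * (u : ℤ) ^ 2 := ⟨_, rfl⟩
    have hwpos : 0 < w := by
      have h5 : 0 < (v : ℤ) ^ 2 * ((v : ℤ) ^ 2 - 12 * (u : ℤ) ^ 2) := by
        have h6 : (v : ℤ) ^ 2 * ((v : ℤ) ^ 2 - 12 * (u : ℤ) ^ 2) = (m : ℤ) ^ 2 + 16 * (u : ℤ) ^ 4 := by
          rw [hmm]; ring
        rw [h6]
        positivity
      have h7 : 0 < (v : ℤ) ^ 2 - 12 * (u : ℤ) ^ 2 := by
        by_contra hcon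
        have h8 : (v : ℤ) ^ 2 * ((v : ℤ) ^ 2 - 12 * (u : ℤ) ^ 2) ≤ 0 :=
          mul_nonpos_of_nonneg_of_nonpos (sq_nonneg _) (not_lt.mp hcon)
        omega
      rw [hw]
      nlinarith [pow_pos huZ 2]
    have hwm : (w - m) * (w + m) = 52 * (u : ℤ) ^ 4 := by
      rw [hw]
      linear_combination -hmm
    have hwodd : Odd w := by
      rcases Int.even_or_odd' w with ⟨n, hn | hn⟩
      · exfalso
        have h5 : (w ^ 2 : ℤ) = 52 * (u : ℤ) ^ 4 + (8 * m2 + 1) := by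
          rw [← hm2]; linear_combination hwm
        rw [hn] at h5
        ring_nf at h5
        omega
      · exact ⟨n, hn⟩
    obtain ⟨w', hw'⟩ := hwodd
    obtain ⟨m', hm'⟩ := hmZ
    obtain ⟨a, ha⟩ : ∃ a : ℤ, w - m = 2 * a := ⟨w' - m', by rw [hw', hm']; ring⟩
    obtain ⟨b, hb⟩ : ∃ b : ℤ, w + m = 2 * b := ⟨w' + m' + 1, by rw [hw', hm']; ring⟩
    have hab : a * b = ((13 : ℕ) : ℤ) ^ 1 * (u : ℤ) ^ 4 := by
      have h5 : 4 * (a * b) = 52 * (u : ℤ) ^ 4 := by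
        have h6 : 4 * (a * b) = (w - m) * (w + m) := by rw [ha, hb]; ring
        rw [h6, hwm]
      push_cast
      linarith
    obtain ⟨hapos, hbpos⟩ := pos_of_mul_add (a := a) (b := b) (by rw [hab]; positivity) (by linarith)
    have hcop2 : ∀ q : ℕ, q.Prime → (q : ℤ) ∣ a → (q : ℤ) ∣ b → False := by
      intro q hq h5 h6
      have hq' := Nat.prime_iff_prime_int.mp hq
      have h7 : q ∣ u := by
        have e1 : (q : ℤ) * (q : ℤ) ∣ 13 * (u : ℤ) ^ 4 := by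
          have := mul_dvd_mul h5 h6
          rw [hab] at this
          exact_mod_cast this
        have e2 : (q : ℤ) ∣ 13 * (u : ℤ) ^ 4 := (dvd_mul_right _ _).trans e1
        have e3 : (q : ℤ) ∣ (u : ℤ) ^ 4 := by
          rcases hq'.dvd_or_dvd e2 with e3 | e3
          · have e4 : q ∣ 13 := by exact_mod_cast e3
            have e5 : q = 13 := (Nat.prime_dvd_prime_iff_eq hq (by norm_num)).mp e4
            subst e5
            exact (mul_dvd_mul_iff_left (by norm_num : (13 : ℤ) ≠ 0)).mp (by exact_mod_cast e1)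
          · exact e3
        exact_mod_cast hq'.dvd_of_dvd_pow e3
      have h8 : (q : ℤ) ∣ m := by
        have h9 : (m : ℤ) = b - a := by linarith
        rw [h9]
        exact dvd_sub h6 h5
      exact Nat.not_coprime_of_dvd_of_dvd hq.one_lt (by exact_mod_cast h8)
        (h3 ▸ h7.mul_right v) hmε
    have key : ∃ f g : ℕ, w = 13 * (f : ℤ) ^ 4 + (g : ℤ) ^ 4 ∧ u = f * g ∧
        (∀ q : ℕ, q.Prime → (q : ℤ) ∣ 13 * (f : ℤ) ^ 4 → (q : ℤ) ∣ (g : ℤ) ^ 4 → False) := by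
      rcases split_int (by norm_num : (13 : ℕ).Prime) hapos hbpos hcop2 hab with
        ⟨f, g, h5, h6, h7⟩ | ⟨f, g, h5, h6, h7⟩
      · norm_num at h5
        refine ⟨f, g, by linarith, h7, fun q hq h8 h9 => ?_⟩
        exact hcop2 q hq (h5 ▸ h8) (h6 ▸ h9)
      · norm_num at h5
        refine ⟨f, g, by linarith, h7, fun q hq h8 h9 => ?_⟩
        exact hcop2 q hq (h6 ▸ h9) (h5 ▸ h8)
    obtain ⟨f, g, hwfg, hufg, hcfg⟩ := key
    have hufg' : (u : ℤ) = f * g := by exact_mod_cast hufg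
    have hf0 : 0 < f := Nat.pos_of_ne_zero (by rintro rfl; omega)
    have hg0 : 0 < g := Nat.pos_of_ne_zero (by rintro rfl; omega)
    refine ⟨f, g, v, hf0, ?_, ?_, ?_⟩
    · have h5 : f ≤ u := by rw [hufg]; exact Nat.le_mul_of_pos_right f hg0
      have h6 : u ≤ ε := by rw [h3]; exact Nat.le_mul_of_pos_right u hvpos
      omega
    · by_contra hcon
      obtain ⟨q, hq, h5, h6⟩ := Nat.Prime.not_coprime_iff_dvd.mp hcon
      have h5' : (q : ℤ) ∣ (g : ℤ) := by exact_mod_cast h5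
      have h6' : (q : ℤ) ∣ (f : ℤ) := by exact_mod_cast h6
      exact hcfg q hq ((dvd_pow h6' (by norm_num)).mul_left _) (dvd_pow h5' (by norm_num))
    · rw [hwfg, hufg'] at hw
      linear_combination hw
  · -- `Q = 16 u⁴`, `P = v⁴`
    exfalso
    have h3' : (ε : ℤ) = u * v := by exact_mod_cast h3
    have hmm : (m : ℤ) ^ 2 = 16 * (u : ℤ) ^ 4 - 12 * (u : ℤ) ^ 2 * (v : ℤ) ^ 2 - (v : ℤ) ^ 4 := by
      have h4 : (m : ℤ) ^ 2 + 12 * (ε : ℤ) ^ 2 = Q - P := by linarith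
      rw [h1, h2, h3'] at h4
      push_cast at h4
      linear_combination h4
    rw [hm2] at hmm
    rcases Nat.even_or_odd' v with ⟨v', hv | hv⟩ <;>
      rw [hv] at hmm <;> push_cast at hmm <;> ring_nf at hmm <;> omega

theorem descent : ∀ (e m : ℕ) (N : ℤ), 0 < e → Nat.Coprime m e →
    (m : ℤ) ^ 4 + 6 * (m : ℤ) ^ 2 * (e : ℤ) ^ 2 + 13 * (e : ℤ) ^ 4 = N ^ 2 → False := by
  intro e
  induction e using Nat.strong_induction_on with
  | _ e ih =>
  intro m N he hme hN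
  obtain ⟨f, g, v, hf, hfe, hgf, hnew⟩ := step he hme hN
  exact ih f hfe g v hf hgf hnew

theorem nat_points {p q : ℕ} {W : ℤ} (hp : 0 < p) (hq : 0 < q) (hpq : Nat.Coprime p q)
    (h : (q : ℤ) * (p * ((p : ℤ) ^ 2 + 6 * p * q + 13 * (q : ℤ) ^ 2)) = W ^ 2) : False := by
  have hpZ : (0 : ℤ) < p := by exact_mod_cast hp
  have hqZ : (0 : ℤ) < q := by exact_mod_cast hq
  have hno : ∀ ℓ : ℕ, ℓ.Prime → (ℓ : ℤ) ∣ p → (ℓ : ℤ) ∣ q → False := by
    intro ℓ hℓ h1 h2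
    exact Nat.not_coprime_of_dvd_of_dvd hℓ.one_lt (by exact_mod_cast h1) (by exact_mod_cast h2) hpq
  obtain ⟨e, W1, he, hW1⟩ := sq_int (c := (q : ℤ)) (d := p * ((p : ℤ) ^ 2 + 6 * p * q + 13 * (q : ℤ) ^ 2))
    hqZ (by positivity) (fun ℓ hℓ h1 h2 => by
      have hℓ' := Nat.prime_iff_prime_int.mp hℓ
      rcases hℓ'.dvd_or_dvd h2 with h3 | h3
      · exact hno ℓ hℓ h3 h1
      · have h4 : (ℓ : ℤ) ∣ (p : ℤ) ^ 2 := by
          have h5 : (p : ℤ) ^ 2 = ((p : ℤ) ^ 2 + 6 * p * q + 13 * (q : ℤ) ^ 2) - q * (6 * p + 13 * q) := by ring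
          rw [h5]
          exact dvd_sub h3 (h1.mul_right _)
        exact hno ℓ hℓ (hℓ'.dvd_of_dvd_pow h4) h1) h
  by_cases h13 : (13 : ℕ) ∣ p
  · obtain ⟨p', rfl⟩ := h13
    have hp' : 0 < p' := by omega
    have hp'Z : (0 : ℤ) < p' := by exact_mod_cast hp'
    obtain ⟨V, hV⟩ := sq_of_mul_sq (k := 13) (x := (p' : ℤ) * ((q : ℤ) ^ 2 + 6 * q * p' + 13 * (p' : ℤ) ^ 2))
      (W := W1) (by norm_num) (by rw [← hW1]; push_cast; ring)
    have hno' : ∀ ℓ : ℕ, ℓ.Prime → (ℓ : ℤ) ∣ p' → (ℓ : ℤ) ∣ q → False := fun ℓ hℓ h1 h2 =>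
      hno ℓ hℓ (by push_cast; exact h1.mul_left 13) h2
    obtain ⟨f, t, hf, ht⟩ := sq_int (c := (p' : ℤ)) (d := (q : ℤ) ^ 2 + 6 * q * p' + 13 * (p' : ℤ) ^ 2)
      hp'Z (by positivity) (fun ℓ hℓ h1 h2 => by
        have hℓ' := Nat.prime_iff_prime_int.mp hℓ
        have h4 : (ℓ : ℤ) ∣ (q : ℤ) ^ 2 := by
          have h5 : (q : ℤ) ^ 2 = ((q : ℤ) ^ 2 + 6 * q * p' + 13 * (p' : ℤ) ^ 2) - p' * (6 * q + 13 * p') := by ring
          rw [h5]
          exact dvd_sub h2 (h1.mul_right _)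
        exact hno' ℓ hℓ h1 (hℓ'.dvd_of_dvd_pow h4)) hV
    have hf0 : 0 < f := Nat.pos_of_ne_zero (by rintro rfl; simp at hf; omega)
    refine descent f e t hf0 ?_ ?_
    · by_contra hcon
      obtain ⟨ℓ, hℓ, h1, h2⟩ := Nat.Prime.not_coprime_iff_dvd.mp hcon
      have h1' : (ℓ : ℤ) ∣ (e : ℤ) := by exact_mod_cast h1
      have h2' : (ℓ : ℤ) ∣ (f : ℤ) := by exact_mod_cast h2
      exact hno' ℓ hℓ (by rw [hf]; exact dvd_pow h2' (by norm_num)) (by rw [he]; exact dvd_pow h1' (by norm_num))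
    · rw [← ht, he, hf]; ring
  · obtain ⟨m, t, hm, ht⟩ := sq_int (c := (p : ℤ)) (d := (p : ℤ) ^ 2 + 6 * p * q + 13 * (q : ℤ) ^ 2)
      hpZ (by positivity) (fun ℓ hℓ h1 h2 => by
        have hℓ' := Nat.prime_iff_prime_int.mp hℓ
        have h4 : (ℓ : ℤ) ∣ 13 * (q : ℤ) ^ 2 := by
          have h5 : 13 * (q : ℤ) ^ 2 = ((p : ℤ) ^ 2 + 6 * p * q + 13 * (q : ℤ) ^ 2) - p * (p + 6 * q) := by ring
          rw [h5]
          exact dvd_sub h2 (h1.mul_right _)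
        rcases hℓ'.dvd_or_dvd h4 with h5 | h5
        · have h6 : ℓ ∣ 13 := by exact_mod_cast h5
          have h7 : ℓ = 13 := (Nat.prime_dvd_prime_iff_eq hℓ (by norm_num)).mp h6
          subst h7
          exact h13 (by exact_mod_cast h1)
        · exact hno ℓ hℓ h1 (hℓ'.dvd_of_dvd_pow h5)) hW1
    have he0 : 0 < e := Nat.pos_of_ne_zero (by rintro rfl; simp at he; omega)
    refine descent e m t he0 ?_ ?_
    · by_contra hcon
      obtain ⟨ℓ, hℓ, h1, h2⟩ := Nat.Prime.not_coprime_iff_dvd.mp hcon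
      have h1' : (ℓ : ℤ) ∣ (m : ℤ) := by exact_mod_cast h1
      have h2' : (ℓ : ℤ) ∣ (e : ℤ) := by exact_mod_cast h2
      exact hno ℓ hℓ (by rw [hm]; exact dvd_pow h1' (by norm_num)) (by rw [he]; exact dvd_pow h2' (by norm_num))
    · rw [← ht, he, hm]; ring

/-- **The rational points of `w² = t (t² + 6 t + 13)`.** -/
theorem rat_points {t w : ℚ} (h : t * (t ^ 2 + 6 * t + 13) = w ^ 2) : t = 0 := by
  by_contra ht
  have hpos : 0 < t ^ 2 + 6 * t + 13 := by nlinarith [sq_nonneg (t + 3)]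
  have htpos : 0 < t := by
    rcases lt_or_gt_of_ne ht with h1 | h1
    · exfalso
      have h2 : t * (t ^ 2 + 6 * t + 13) < 0 := mul_neg_of_neg_of_pos h1 hpos
      rw [h] at h2
      exact absurd h2 (not_lt.mpr (sq_nonneg w))
    · exact h1
  obtain ⟨m, hm⟩ : ∃ m : ℤ, m = t.num := ⟨_, rfl⟩
  obtain ⟨n, hn⟩ : ∃ n : ℕ, n = t.den := ⟨_, rfl⟩
  have hn0 : 0 < n := by rw [hn]; exact t.den_pos
  have hm0 : 0 < m := by rw [hm]; exact Rat.num_pos.mpr htpos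
  have hcop : Nat.Coprime m.natAbs n := by rw [hm, hn]; exact t.reduced
  have hx : t = (m : ℚ) / (n : ℚ) := by rw [hm, hn]; exact (Rat.num_div_den t).symm
  have hnQ : (n : ℚ) ≠ 0 := by exact_mod_cast hn0.ne'
  lift m to ℕ using hm0.le
  have hm0' : 0 < m := by exact_mod_cast hm0
  have hcop' : Nat.Coprime m n := by simpa using hcop
  have hsq : IsSquare (((n : ℤ) * (m * ((m : ℤ) ^ 2 + 6 * m * n + 13 * (n : ℤ) ^ 2)) : ℤ) : ℚ) := by
    refine ⟨w * (n : ℚ) ^ 2, ?_⟩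
    have h5 : w * (n : ℚ) ^ 2 * (w * (n : ℚ) ^ 2) = w ^ 2 * (n : ℚ) ^ 4 := by ring
    rw [h5, ← h, hx]
    push_cast
    field_simp
  rw [Rat.isSquare_intCast_iff] at hsq
  obtain ⟨W, hW⟩ := hsq
  exact nat_points hm0' hn0 hcop' (W := W) (by rw [hW]; ring)

end Fermat.Agent.Cor.H11.Thirteen
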