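import Fermat.Agent.Frob.VarChange

/-!
# Points of order thirteen

Let `P` be a point of order `13` of a Weierstrass curve `W`. The points `P`, `3 P`, `9 P` are collinear; let `sl P` be
the slope of the line through them, in the coordinate `Y = 2 y + a₁ x + a₃`. Put `A = (sl P)² - (sl 2P)²`,
`B = 2 (sl P) (sl 2P)` and `D = (x₁ - x₅)(x₃ - x₂)(x₄ - x₆)`, `x_i = x(i P)`. Then `Δ A = D² (2 B - 3 A)`
(`main_identity`), and `sl P = sl 2P = 0` implies `c₄ = 0`. The proof is a computation with Tate's normal form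
`y² + (1 - c) x y - b y = x³ - b x²`, `b = r s (r - 1)`, `c = s (r - 1)`.

This file is not used by any of the statement files.
-/

set_option autoImplicit false

namespace Fermat.Agent.Cor.H11.Thirteen

open WeierstrassCurve WeierstrassCurve.Affine WeierstrassCurve.Affine.Point
open Fermat.Agent.H08 Fermat.Agent.Frob

variable {F : Type*} [Field F] [DecidableEq F] {W : WeierstrassCurve.Affine F}

/-- The ordinate `2 y + a₁ x + a₃`. -/
def Yp (P : W.Point) : F := 2 * py P + W.a₁ * px P + W.a₃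

/-- The slope of the line through `P` and `3 P`. -/
def sl (P : W.Point) : F := (Yp ((3 : ℕ) • P) - Yp P) / (px ((3 : ℕ) • P) - px P)

/-- The product `(x₁ - x₅)(x₃ - x₂)(x₄ - x₆)`. -/
def Dp (P : W.Point) : F :=
  (px P - px ((5 : ℕ) • P)) * (px ((3 : ℕ) • P) - px ((2 : ℕ) • P)) *
    (px ((4 : ℕ) • P) - px ((6 : ℕ) • P))

omit [DecidableEq F] in
lemma Yp_neg {P : W.Point} (hP : P ≠ 0) : Yp (-P) = -Yp P := by
  rw [Yp, Yp, py_neg hP, px_neg]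
  ring

lemma smul_ne {P : W.Point} (hP : P ≠ 0) (h13 : (13 : ℕ) • P = 0) {n : ℕ} (hn : ¬ 13 ∣ n) :
    n • P ≠ 0 := by
  have : Fact (Nat.Prime 13) := ⟨by norm_num⟩
  have ho : addOrderOf P = 13 := addOrderOf_eq_prime h13 hP
  intro h
  exact hn (ho ▸ addOrderOf_dvd_iff_nsmul_eq_zero.mpr h)

lemma px_ne {P : W.Point} (hP : P ≠ 0) (h13 : (13 : ℕ) • P = 0) {i j d : ℕ} (hi : ¬ 13 ∣ i)
    (hj : ¬ 13 ∣ j) (hd : ¬ 13 ∣ d) (hij : j = i + d) (hs : ¬ 13 ∣ i + j) :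
    px (i • P) ≠ px (j • P) := by
  intro h
  rcases (px_eq_iff (smul_ne hP h13 hi) (smul_ne hP h13 hj)).mp h with h1 | h1
  · rw [hij, add_nsmul] at h1
    exact smul_ne hP h13 hd (by simpa using h1.symm)
  · exact smul_ne hP h13 hs (by rw [add_nsmul, h1, neg_add_cancel])

lemma smul_neg_aux {P : W.Point} (h13 : (13 : ℕ) • P = 0) (m n : ℕ) (h : m + n = 13) :
    m • P = -(n • P) := by
  rw [eq_neg_iff_add_eq_zero, ← add_nsmul, h]
  exact h13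

lemma smul_add_aux {P : W.Point} (h13 : (13 : ℕ) • P = 0) (n : ℕ) : (13 + n) • P = n • P := by
  rw [add_nsmul, h13, zero_add]

/-- The line through `P`, `3 P`, `9 P`. -/
lemma exists_slope {P : W.Point} (hP : P ≠ 0) (h13 : (13 : ℕ) • P = 0) :
    ∃ k : F, Yp ((3 : ℕ) • P) - Yp P = k * (px ((3 : ℕ) • P) - px P) ∧
      Yp ((9 : ℕ) • P) - Yp P = k * (px ((9 : ℕ) • P) - px P) := by
  have h3 := smul_ne hP h13 (n := 3) (by norm_num)
  have h4 := smul_ne hP h13 (n := 4) (by norm_num)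
  have e0 : P + (3 : ℕ) • P = (4 : ℕ) • P := (succ_nsmul' P 3).symm
  obtain ⟨ℓ, e1, -, -, e4⟩ := slope_data hP h3 (by rw [e0]; exact h4)
  rw [e0] at e4
  refine ⟨2 * ℓ + W.a₁, ?_, ?_⟩
  · rw [Yp, Yp]
    linear_combination 2 * e1
  · rw [smul_neg_aux h13 9 4 (by norm_num), Yp_neg h4, px_neg, Yp, Yp]
    linear_combination -2 * e4

lemma sl_eq_of {P : W.Point} (hP : P ≠ 0) (h13 : (13 : ℕ) • P = 0) {k : F}
    (h : Yp ((3 : ℕ) • P) - Yp P = k * (px ((3 : ℕ) • P) - px P)) : sl P = k := by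
  have hne : px ((3 : ℕ) • P) - px P ≠ 0 := by
    have := px_ne hP h13 (i := 1) (j := 3) (d := 2) (by norm_num) (by norm_num) (by norm_num)
      (by norm_num) (by norm_num)
    rw [one_nsmul] at this
    exact sub_ne_zero.mpr this.symm
  rw [sl, h, mul_div_cancel_right₀ _ hne]

lemma sl_three {P : W.Point} (hP : P ≠ 0) (h13 : (13 : ℕ) • P = 0) : sl ((3 : ℕ) • P) = sl P := by
  obtain ⟨k, h1, h2⟩ := exists_slope hP h13
  rw [sl_eq_of hP h13 h1]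
  have h3 : (3 : ℕ) • ((3 : ℕ) • P) = (9 : ℕ) • P := by rw [← mul_nsmul]
  apply sl_eq_of (smul_ne hP h13 (by norm_num)) (by rw [smul_comm, h13, smul_zero])
  rw [h3]
  linear_combination h2 - h1

lemma sl_neg {P : W.Point} (hP : P ≠ 0) (h13 : (13 : ℕ) • P = 0) : sl (-P) = -sl P := by
  obtain ⟨k, h1, -⟩ := exists_slope hP h13
  rw [sl_eq_of hP h13 h1]
  apply sl_eq_of (neg_ne_zero.mpr hP) (by rw [smul_neg, h13, _root_.neg_zero])
  rw [smul_neg, Yp_neg (smul_ne hP h13 (by norm_num)), Yp_neg hP, px_neg, px_neg]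
  linear_combination -h1

lemma sl_four {P : W.Point} (hP : P ≠ 0) (h13 : (13 : ℕ) • P = 0) : sl ((4 : ℕ) • P) = -sl P := by
  have h9 := smul_ne hP h13 (n := 9) (by norm_num)
  rw [smul_neg_aux h13 4 9 (by norm_num), sl_neg h9 (by rw [smul_comm, h13, smul_zero])]
  have h3 : (9 : ℕ) • P = (3 : ℕ) • ((3 : ℕ) • P) := by rw [← mul_nsmul]
  rw [h3, sl_three (smul_ne hP h13 (by norm_num)) (by rw [smul_comm, h13, smul_zero]), sl_three hP h13]

/-- `sl 2P` is the slope of the line through `2 P` and `5 P`. -/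
lemma sl_two {P : W.Point} (hP : P ≠ 0) (h13 : (13 : ℕ) • P = 0) :
    sl ((2 : ℕ) • P) * (px ((2 : ℕ) • P) - px ((5 : ℕ) • P)) = Yp ((2 : ℕ) • P) - Yp ((5 : ℕ) • P) := by
  have h2 := smul_ne hP h13 (n := 2) (by norm_num)
  have h5 := smul_ne hP h13 (n := 5) (by norm_num)
  have h6 := smul_ne hP h13 (n := 6) (by norm_num)
  have t2 : (13 : ℕ) • ((2 : ℕ) • P) = 0 := by rw [smul_comm, h13, smul_zero]
  have t5 : (13 : ℕ) • ((5 : ℕ) • P) = 0 := by rw [smul_comm, h13, smul_zero]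
  have t6 : (13 : ℕ) • ((6 : ℕ) • P) = 0 := by rw [smul_comm, h13, smul_zero]
  have e1 : (3 : ℕ) • ((2 : ℕ) • P) = (6 : ℕ) • P := by rw [← mul_nsmul]
  have e2 : (3 : ℕ) • ((6 : ℕ) • P) = (5 : ℕ) • P := by
    rw [← mul_nsmul]
    exact smul_add_aux h13 5
  have e3 : (3 : ℕ) • ((5 : ℕ) • P) = (2 : ℕ) • P := by
    rw [← mul_nsmul]
    exact smul_add_aux h13 2
  have h : sl ((2 : ℕ) • P) = sl ((5 : ℕ) • P) := by
    rw [← sl_three h2 t2, e1, ← sl_three h6 t6, e2]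
  obtain ⟨k, k1, -⟩ := exists_slope h5 t5
  rw [h, sl_eq_of h5 t5 k1]
  rw [e3] at k1
  exact k1.symm

/-- Doubling changes the sign of `D`. -/
lemma Dp_two {P : W.Point} (h13 : (13 : ℕ) • P = 0) : Dp ((2 : ℕ) • P) = -Dp P := by
  have e1 : (5 : ℕ) • ((2 : ℕ) • P) = -((3 : ℕ) • P) := by
    rw [← mul_nsmul]
    exact smul_neg_aux h13 10 3 (by norm_num)
  have e2 : (3 : ℕ) • ((2 : ℕ) • P) = (6 : ℕ) • P := by rw [← mul_nsmul]
  have e3 : (2 : ℕ) • ((2 : ℕ) • P) = (4 : ℕ) • P := by rw [← mul_nsmul]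
  have e4 : (4 : ℕ) • ((2 : ℕ) • P) = -((5 : ℕ) • P) := by
    rw [← mul_nsmul]
    exact smul_neg_aux h13 8 5 (by norm_num)
  have e5 : (6 : ℕ) • ((2 : ℕ) • P) = -P := by
    rw [← mul_nsmul]
    have := smul_neg_aux h13 12 1 (by norm_num)
    rw [one_nsmul] at this
    exact this
  rw [Dp, Dp, e1, e2, e3, e4, e5, px_neg, px_neg, px_neg]
  ring

/-- The equation of `X₁(13)`. -/
def F13 (r s : F) : F :=
  -r ^ 3 + r ^ 2 * s ^ 4 - 5 * r ^ 2 * s ^ 3 + 9 * r ^ 2 * s ^ 2 - 4 * r ^ 2 * s + 2 * r ^ 2 + r * s ^ 3 -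
    6 * r * s ^ 2 + 3 * r * s - r + s ^ 3

/-- **Tate's normal form of a point of order thirteen.** -/
theorem tate_data (h4 : W.a₄ = 0) (h23 : W.a₂ = W.a₃) {P : W.Point} (hP : P ≠ 0)
    (h13 : (13 : ℕ) • P = 0) (hx : px P = 0) (hy : py P = 0) :
    ∃ r s : F, F13 r s = 0 ∧ s - 1 ≠ 0 ∧ r - s ≠ 0 ∧ W.a₁ = 1 - s * (r - 1) ∧
      W.a₃ = -(r * s * (r - 1)) ∧ sl P = -(r * s - 2 * r - s + 1) ∧
      sl ((2 : ℕ) • P) * (r - s) = r ^ 2 * s + r * s ^ 2 - 5 * r * s + r + s ^ 2 + s ∧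
      Dp P * (s - 1) = r ^ 5 * s ^ 4 - 3 * r ^ 5 * s ^ 3 + r ^ 5 * s ^ 2 - 2 * r ^ 4 * s ^ 4 +
        9 * r ^ 4 * s ^ 3 - 3 * r ^ 4 * s ^ 2 - 9 * r ^ 3 * s ^ 3 + 3 * r ^ 3 * s ^ 2 + 2 * r ^ 2 * s ^ 4 +
        3 * r ^ 2 * s ^ 3 - r ^ 2 * s ^ 2 - r * s ^ 4 := by
  have n2 := smul_ne hP h13 (n := 2) (by norm_num)
  have n3 := smul_ne hP h13 (n := 3) (by norm_num)
  have n4 := smul_ne hP h13 (n := 4) (by norm_num)
  have n5 := smul_ne hP h13 (n := 5) (by norm_num)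
  have n6 := smul_ne hP h13 (n := 6) (by norm_num)
  have n7 := smul_ne hP h13 (n := 7) (by norm_num)
  have d12 := px_ne hP h13 (i := 1) (j := 2) (d := 1) (by norm_num) (by norm_num) (by norm_num)
    (by norm_num) (by norm_num)
  have d13 := px_ne hP h13 (i := 1) (j := 3) (d := 2) (by norm_num) (by norm_num) (by norm_num)
    (by norm_num) (by norm_num)
  have d14 := px_ne hP h13 (i := 1) (j := 4) (d := 3) (by norm_num) (by norm_num) (by norm_num)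
    (by norm_num) (by norm_num)
  have d15 := px_ne hP h13 (i := 1) (j := 5) (d := 4) (by norm_num) (by norm_num) (by norm_num)
    (by norm_num) (by norm_num)
  have d25 := px_ne hP h13 (i := 2) (j := 5) (d := 3) (by norm_num) (by norm_num) (by norm_num)
    (by norm_num) (by norm_num)
  rw [one_nsmul, hx] at d12 d13 d14 d15
  -- `b` and `c`
  obtain ⟨b, hb⟩ : ∃ b, b = -W.a₃ := ⟨_, rfl⟩
  obtain ⟨c, hc⟩ : ∃ c, c = 1 - W.a₁ := ⟨_, rfl⟩
  have ha3 : W.a₃ = -b := by rw [hb]; ring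
  have ha2 : W.a₂ = -b := by rw [h23, ha3]
  have ha1 : W.a₁ = 1 - c := by rw [hc]; ring
  have hb0 : b ≠ 0 := by
    intro h0
    apply n2
    rw [h0, _root_.neg_zero] at ha3
    have h1 : P = -P := by
      apply pt_ext hP (neg_ne_zero.mpr hP)
      · rw [px_neg]
      · rw [py_neg hP, hx, hy, ha3]; ring
    rw [two_nsmul]
    nth_rewrite 1 [h1]
    exact neg_add_cancel P
  -- `2 P`
  have t2 : P + P = (2 : ℕ) • P := (two_nsmul P).symm
  obtain ⟨l1, -, e2, e3, e4⟩ := slope_data hP hP (by rw [t2]; exact n2)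
  rw [t2] at e3 e4
  rw [hx, hy, h4, ha3] at e2
  have hl1 : l1 = 0 := by
    have h1 : l1 * b = 0 := by linear_combination -e2
    exact (mul_eq_zero.mp h1).resolve_right hb0
  rw [hx, hl1, ha2] at e3
  have x2 : px ((2 : ℕ) • P) = b := by rw [e3]; ring
  rw [hl1, hx, hy, x2, ha1, ha3] at e4
  have y2 : py ((2 : ℕ) • P) = b * c := by rw [e4]; ring
  -- `3 P`
  have t3 : P + (2 : ℕ) • P = (3 : ℕ) • P := (succ_nsmul' P 2).symm
  obtain ⟨l2, e1, -, e3, e4⟩ := slope_data hP n2 (by rw [t3]; exact n3)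
  rw [t3] at e3 e4
  rw [hx, hy, x2, y2] at e1
  have hl2 : l2 = c := by
    apply mul_right_cancel₀ hb0
    linear_combination -e1
  rw [hx, x2, hl2, ha1, ha2] at e3
  have x3 : px ((3 : ℕ) • P) = c := by rw [e3]; ring
  rw [hl2, hx, hy, x3, ha1, ha3] at e4
  have y3 : py ((3 : ℕ) • P) = b - c := by rw [e4]; ring
  have hc0 : c ≠ 0 := by rw [x3] at d13; exact d13.symm
  -- `4 P`
  obtain ⟨r, hr⟩ : ∃ r, b = r * c := ⟨b / c, (div_mul_cancel₀ _ hc0).symm⟩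
  have t4 : P + (3 : ℕ) • P = (4 : ℕ) • P := (succ_nsmul' P 3).symm
  obtain ⟨l3, e1, -, e3, e4⟩ := slope_data hP n3 (by rw [t4]; exact n4)
  rw [t4] at e3 e4
  rw [hx, hy, x3, y3] at e1
  have hl3 : l3 = r - 1 := by
    apply mul_right_cancel₀ hc0
    rw [hr] at e1
    linear_combination -e1
  rw [hx, x3, hl3, ha1, ha2, hr] at e3
  have x4 : px ((4 : ℕ) • P) = r * (r - 1) := by rw [e3]; ring
  rw [hl3, hx, hy, x4, ha1, ha3, hr] at e4
  have y4 : py ((4 : ℕ) • P) = r ^ 2 * (c - r + 1) := by rw [e4]; ring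
  rw [x4] at d14
  have hr0 : r ≠ 0 := left_ne_zero_of_mul d14.symm
  have hr1 : r - 1 ≠ 0 := right_ne_zero_of_mul d14.symm
  -- `5 P`
  obtain ⟨s, hs⟩ : ∃ s, c = s * (r - 1) := ⟨c / (r - 1), (div_mul_cancel₀ _ hr1).symm⟩
  have t5 : P + (4 : ℕ) • P = (5 : ℕ) • P := (succ_nsmul' P 4).symm
  obtain ⟨l4, e1, -, e3, e4⟩ := slope_data hP n4 (by rw [t5]; exact n5)
  rw [t5] at e3 e4
  rw [hx, hy, x4, y4, hs] at e1
  have hl4 : l4 = r * (s - 1) := by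
    apply mul_right_cancel₀ (mul_ne_zero hr0 hr1)
    linear_combination -e1
  rw [hx, x4, hl4, ha1, ha2, hr, hs] at e3
  have x5 : px ((5 : ℕ) • P) = r * s * (s - 1) := by rw [e3]; ring
  rw [hl4, hx, hy, x5, ha1, ha3, hr, hs] at e4
  have y5 : py ((5 : ℕ) • P) = r * s ^ 2 * (r - s) := by rw [e4]; ring
  rw [x5] at d15
  have hs1 : s - 1 ≠ 0 := right_ne_zero_of_mul d15.symm
  have hs0 : s ≠ 0 := right_ne_zero_of_mul (left_ne_zero_of_mul d15.symm)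
  -- `6 P`
  have t6 : P + (5 : ℕ) • P = (6 : ℕ) • P := (succ_nsmul' P 5).symm
  obtain ⟨l5, e1, -, e3, e4⟩ := slope_data hP n5 (by rw [t6]; exact n6)
  rw [t6] at e3 e4
  rw [hx, hy, x5, y5] at e1
  have hl5 : l5 = s * (r - s) / (s - 1) := by
    rw [eq_div_iff hs1]
    apply mul_right_cancel₀ (mul_ne_zero hr0 hs0)
    linear_combination -e1
  rw [hx, x5, hl5, ha1, ha2, hr, hs] at e3
  have x6 : px ((6 : ℕ) • P) = s * (r - 1) * (r - s) / (s - 1) ^ 2 := by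
    rw [e3]
    field_simp
    ring
  rw [hl5, hx, hy, x6, ha1, ha3, hr, hs] at e4
  -- the relation
  have t7 : (3 : ℕ) • P + (4 : ℕ) • P = (7 : ℕ) • P := (add_nsmul P 3 4).symm
  obtain ⟨l6, f1, -, -, f4⟩ := slope_data n3 n4 (by rw [t7]; exact n7)
  rw [t7, smul_neg_aux h13 7 6 (by norm_num), px_neg, py_neg n6] at f4
  have rel : (px ((3 : ℕ) • P) - px ((4 : ℕ) • P)) * (py ((6 : ℕ) • P) - py ((3 : ℕ) • P)) -
      (py ((3 : ℕ) • P) - py ((4 : ℕ) • P)) * (px ((6 : ℕ) • P) - px ((3 : ℕ) • P)) = 0 := by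
    rw [← f1]
    linear_combination (-(px ((3 : ℕ) • P) - px ((4 : ℕ) • P))) * f4
  rw [e4, x3, x4, y3, y4, x6, hr, hs] at rel
  have hF : F13 r s = 0 := by
    have hne : -(s * (r - 1) ^ 2 / (s - 1) ^ 3) ≠ 0 :=
      neg_ne_zero.mpr (div_ne_zero (mul_ne_zero hs0 (pow_ne_zero 2 hr1)) (pow_ne_zero 3 hs1))
    apply mul_left_cancel₀ hne
    rw [mul_zero, ← rel, F13]
    field_simp
    ring
  refine ⟨r, s, hF, hs1, ?_, ?_, ?_, ?_, ?_, ?_⟩
  · rw [x2, x5, hr, hs] at d25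
    intro h0
    apply d25
    linear_combination (r * s) * h0
  · rw [ha1, hs]
  · rw [ha3, hr, hs]; ring
  · -- `sl P`
    have hY1 : Yp P = -(r * s * (r - 1)) := by rw [Yp, hx, hy, ha3, hr, hs]; ring
    apply sl_eq_of hP h13
    rw [hY1, Yp, x3, y3, hx, ha1, ha3, hr, hs]
    ring
  · -- `sl 2P`
    have h2 := sl_two hP h13
    rw [Yp, Yp, x2, y2, x5, y5, ha1, ha3, hr, hs] at h2
    apply mul_left_cancel₀ (mul_ne_zero hr0 hs0)
    linear_combination h2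
  · rw [Dp, hx, x2, x3, x4, x5, x6, hr, hs]
    field_simp
    ring

omit [DecidableEq F] in
/-- The polynomial identity behind `main_identity`. -/
theorem poly_identity {r s k1 k2 D : F} (hF : F13 r s = 0) (hs : s - 1 ≠ 0) (hrs : r - s ≠ 0)
    (hk1 : k1 = -(r * s - 2 * r - s + 1))
    (hk2 : k2 * (r - s) = r ^ 2 * s + r * s ^ 2 - 5 * r * s + r + s ^ 2 + s)
    (hD : D * (s - 1) = r ^ 5 * s ^ 4 - 3 * r ^ 5 * s ^ 3 + r ^ 5 * s ^ 2 - 2 * r ^ 4 * s ^ 4 +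
        9 * r ^ 4 * s ^ 3 - 3 * r ^ 4 * s ^ 2 - 9 * r ^ 3 * s ^ 3 + 3 * r ^ 3 * s ^ 2 + 2 * r ^ 2 * s ^ 4 +
        3 * r ^ 2 * s ^ 3 - r ^ 2 * s ^ 2 - r * s ^ 4)
    (h4 : W.a₄ = 0) (h6 : W.a₆ = 0) (h23 : W.a₂ = W.a₃) (h1 : W.a₁ = 1 - s * (r - 1))
    (h3 : W.a₃ = -(r * s * (r - 1))) :
    W.Δ * (k1 ^ 2 - k2 ^ 2) = D ^ 2 * (4 * (k1 * k2) - 3 * (k1 ^ 2 - k2 ^ 2)) := by
  have h2 : W.a₂ = -(r * s * (r - 1)) := by rw [h23, h3]
  apply mul_left_cancel₀ (mul_ne_zero (pow_ne_zero 2 hs) (pow_ne_zero 2 hrs))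
  have key : W.Δ * (k1 ^ 2 * (r - s) ^ 2 - (k2 * (r - s)) ^ 2) * (s - 1) ^ 2 -
      (D * (s - 1)) ^ 2 * (4 * k1 * (k2 * (r - s)) * (r - s) -
        3 * (k1 ^ 2 * (r - s) ^ 2 - (k2 * (r - s)) ^ 2)) = 0 := by
    rw [hk2, hD, hk1, WeierstrassCurve.Δ, WeierstrassCurve.b₂, WeierstrassCurve.b₄, WeierstrassCurve.b₆,
      WeierstrassCurve.b₈, h1, h2, h3, h4, h6]
    unfold F13 at hF
    linear_combination (
      (-4 * r ^ 11 * s ^ 8) + (24 * r ^ 11 * s ^ 7) + (-32 * r ^ 11 * s ^ 6) + (28 * r ^ 11 * s ^ 5) +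
      (-12 * r ^ 11 * s ^ 4) + (32 * r ^ 10 * s ^ 8) + (-172 * r ^ 10 * s ^ 7) + (164 * r ^ 10 * s ^ 6) +
      (-140 * r ^ 10 * s ^ 5) + (68 * r ^ 10 * s ^ 4) + (-4 * r ^ 9 * s ^ 9) + (-104 * r ^ 9 * s ^ 8) +
      (572 * r ^ 9 * s ^ 7) + (-328 * r ^ 9 * s ^ 6) + (260 * r ^ 9 * s ^ 5) + (-160 * r ^ 9 * s ^ 4) +
      (28 * r ^ 8 * s ^ 9) + (164 * r ^ 8 * s ^ 8) + (-1164 * r ^ 8 * s ^ 7) + (304 * r ^ 8 * s ^ 6) +
      (-176 * r ^ 8 * s ^ 5) + (200 * r ^ 8 * s ^ 4) + (-84 * r ^ 7 * s ^ 9) + (-88 * r ^ 7 * s ^ 8) +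
      (1584 * r ^ 7 * s ^ 7) + (-100 * r ^ 7 * s ^ 6) + (-80 * r ^ 7 * s ^ 5) + (-140 * r ^ 7 * s ^ 4) +
      (140 * r ^ 6 * s ^ 9) + (-116 * r ^ 6 * s ^ 8) + (-1464 * r ^ 6 * s ^ 7) + (-28 * r ^ 6 * s ^ 6) +
      (212 * r ^ 6 * s ^ 5) + (52 * r ^ 6 * s ^ 4) + (-140 * r ^ 5 * s ^ 9) + (248 * r ^ 5 * s ^ 8) +
      (892 * r ^ 5 * s ^ 7) + (16 * r ^ 5 * s ^ 6) + (-140 * r ^ 5 * s ^ 5) + (-8 * r ^ 5 * s ^ 4) +
      (84 * r ^ 4 * s ^ 9) + (-196 * r ^ 4 * s ^ 8) + (-332 * r ^ 4 * s ^ 7) + (8 * r ^ 4 * s ^ 6) +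
      (40 * r ^ 4 * s ^ 5) + (-28 * r ^ 3 * s ^ 9) + (76 * r ^ 3 * s ^ 8) + (64 * r ^ 3 * s ^ 7) +
      (-4 * r ^ 3 * s ^ 6) + (-4 * r ^ 3 * s ^ 5) + (4 * r ^ 2 * s ^ 9) + (-12 * r ^ 2 * s ^ 8) +
      (-4 * r ^ 2 * s ^ 7)) * hF
  linear_combination key

omit [DecidableEq F] in
/-- If the slopes vanish, then so does `c₄`. -/
theorem poly_c₄ {r s : F} (hk1 : 0 = -(r * s - 2 * r - s + 1))
    (hk2 : 0 * (r - s) = r ^ 2 * s + r * s ^ 2 - 5 * r * s + r + s ^ 2 + s)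
    (h4 : W.a₄ = 0) (h23 : W.a₂ = W.a₃) (h1 : W.a₁ = 1 - s * (r - 1))
    (h3 : W.a₃ = -(r * s * (r - 1))) : W.c₄ = 0 := by
  have h2 : W.a₂ = -(r * s * (r - 1)) := by rw [h23, h3]
  have e : s * (r - 1) = 2 * r - 1 := by linear_combination hk1
  have e1 : W.a₁ = 2 - 2 * r := by rw [h1, e]; ring
  have e3 : W.a₃ = -(r * (2 * r - 1)) := by rw [h3, ← e]; ring
  have e2 : W.a₂ = -(r * (2 * r - 1)) := by rw [h2, ← e]; ring
  rw [WeierstrassCurve.c₄, WeierstrassCurve.b₂, WeierstrassCurve.b₄, e1, e2, e3, h4]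
  have hk2' : r ^ 2 * (s * (r - 1)) * (r - 1) + r * (s * (r - 1)) ^ 2 - 5 * r * (s * (r - 1)) * (r - 1) +
      r * (r - 1) ^ 2 + (s * (r - 1)) ^ 2 + (s * (r - 1)) * (r - 1) = 0 := by
    linear_combination (-(r - 1) ^ 2) * hk2
  rw [e] at hk2'
  linear_combination 8 * hk2'

section change

variable {C : VariableChange F} {W' : WeierstrassCurve.Affine F}

omit [DecidableEq F] in
lemma Yp_vc (h : W' = C • W) {P : W'.Point} (hP : P ≠ 0) :
    Yp (vcFun h P) = (C.u : F) ^ 3 * Yp P := by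
  rw [Yp, Yp, px_vcFun h hP, py_vcFun h hP, vx, vy]
  linear_combination (-(C.u : F) ^ 2 * px P) * vc_a₁ h - vc_a₃ h

lemma vcFun_smul (h : W' = C • W) (n : ℕ) (P : W'.Point) : vcFun h (n • P) = n • vcFun h P :=
  map_nsmul (vcEquiv h) n P

lemma sl_vc (h : W' = C • W) {P : W'.Point} (hP : P ≠ 0) (h13 : (13 : ℕ) • P = 0) :
    sl (vcFun h P) = (C.u : F) * sl P := by
  obtain ⟨k, h1, -⟩ := exists_slope hP h13
  rw [sl_eq_of hP h13 h1]
  have h3 := smul_ne hP h13 (n := 3) (by norm_num)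
  apply sl_eq_of (vcFun_ne_zero h hP) (by rw [← vcFun_smul, h13]; rfl)
  rw [← vcFun_smul, Yp_vc h h3, Yp_vc h hP, px_vcFun h h3, px_vcFun h hP, vx, vx]
  linear_combination (C.u : F) ^ 3 * h1

lemma Dp_vc (h : W' = C • W) {P : W'.Point} (hP : P ≠ 0) (h13 : (13 : ℕ) • P = 0) :
    Dp (vcFun h P) = (C.u : F) ^ 6 * Dp P := by
  have h2 := smul_ne hP h13 (n := 2) (by norm_num)
  have h3 := smul_ne hP h13 (n := 3) (by norm_num)
  have h4 := smul_ne hP h13 (n := 4) (by norm_num)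
  have h5 := smul_ne hP h13 (n := 5) (by norm_num)
  have h6 := smul_ne hP h13 (n := 6) (by norm_num)
  rw [Dp, Dp, ← vcFun_smul, ← vcFun_smul, ← vcFun_smul, ← vcFun_smul, ← vcFun_smul, px_vcFun h hP,
    px_vcFun h h2, px_vcFun h h3, px_vcFun h h4, px_vcFun h h5, px_vcFun h h6]
  simp only [vx]
  ring

end change

/-- Every curve with a point `P` of order thirteen can be brought into Tate's normal form. -/
theorem exists_tate {P : W.Point} (hP : P ≠ 0) (h13 : (13 : ℕ) • P = 0) :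
    ∃ (C : VariableChange F) (P' : (C • W : WeierstrassCurve F).toAffine.Point),
      P' ≠ 0 ∧ (13 : ℕ) • P' = 0 ∧ px P' = 0 ∧ py P' = 0 ∧ (C • W).a₄ = 0 ∧ (C • W).a₆ = 0 ∧
      (C • W).a₂ = (C • W).a₃ ∧ vcFun (W := W) (W' := (C • W : WeierstrassCurve F)) rfl P' = P := by
  have n2 := smul_ne hP h13 (n := 2) (by norm_num)
  have hY : Yp P ≠ 0 := by
    intro h0
    apply n2
    have h1 : P = -P := by
      apply pt_ext hP (neg_ne_zero.mpr hP)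
      · rw [px_neg]
      · rw [py_neg hP]
        rw [Yp] at h0
        linear_combination h0
    rw [two_nsmul]
    nth_rewrite 1 [h1]
    exact neg_add_cancel P
  have t2 : P + P = (2 : ℕ) • P := (two_nsmul P).symm
  obtain ⟨l, -, e2, e3, -⟩ := slope_data hP hP (by rw [t2]; exact n2)
  rw [t2] at e3
  have hl : l * Yp P = 3 * px P ^ 2 + 2 * W.a₂ * px P + W.a₄ - W.a₁ * py P := by
    rw [Yp]; linear_combination e2
  have hA : W.a₂ - l * W.a₁ + 3 * px P - l ^ 2 ≠ 0 := by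
    intro h0
    have := px_ne hP h13 (i := 1) (j := 2) (d := 1) (by norm_num) (by norm_num) (by norm_num)
      (by norm_num) (by norm_num)
    rw [one_nsmul] at this
    apply this
    rw [e3]
    linear_combination h0
  have hu : Yp P / (W.a₂ - l * W.a₁ + 3 * px P - l ^ 2) ≠ 0 := div_ne_zero hY hA
  obtain ⟨C, hC⟩ : ∃ C : VariableChange F, C = ⟨Units.mk0 _ hu, px P, l, py P⟩ := ⟨_, rfl⟩
  have hCu : (C.u : F) = Yp P / (W.a₂ - l * W.a₁ + 3 * px P - l ^ 2) := by rw [hC]; rfl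
  have hCr : C.r = px P := by rw [hC]
  have hCs : C.s = l := by rw [hC]
  have hCt : C.t = py P := by rw [hC]
  have hu0 : (C.u : F) ≠ 0 := C.u.ne_zero
  have h : (C • W : WeierstrassCurve F) = C • W := rfl
  have v2 := vc_a₂ (W := W) (W' := (C • W : WeierstrassCurve F)) rfl
  have v3 := vc_a₃ (W := W) (W' := (C • W : WeierstrassCurve F)) rfl
  have v4 := vc_a₄ (W := W) (W' := (C • W : WeierstrassCurve F)) rfl
  have v6 := vc_a₆ (W := W) (W' := (C • W : WeierstrassCurve F)) rfl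
  rw [hCr, hCs] at v2
  rw [hCr, hCt] at v3
  rw [hCr, hCs, hCt] at v4
  rw [hCr, hCt] at v6
  obtain ⟨P', hP'⟩ := vcFun_surjective (W := W) (W' := (C • W : WeierstrassCurve F)) rfl P
  have hP'0 : P' ≠ 0 := by
    rintro rfl
    exact hP hP'.symm
  have hx := px_vcFun (W := W) (W' := (C • W : WeierstrassCurve F)) rfl hP'0
  have hy := py_vcFun (W := W) (W' := (C • W : WeierstrassCurve F)) rfl hP'0
  rw [hP', vx, hCr] at hx
  have hx0 : px P' = 0 := by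
    have h1 : (C.u : F) ^ 2 * px P' = 0 := by linear_combination -hx
    exact (mul_eq_zero.mp h1).resolve_left (pow_ne_zero 2 hu0)
  rw [hP', vy, hCs, hCt, hx0] at hy
  have hy0 : py P' = 0 := by
    have h1 : (C.u : F) ^ 3 * py P' = 0 := by linear_combination -hy
    exact (mul_eq_zero.mp h1).resolve_left (pow_ne_zero 3 hu0)
  refine ⟨C, P', hP'0, ?_, hx0, hy0, ?_, ?_, ?_, hP'⟩
  · apply vcFun_injective (W := W) (W' := (C • W : WeierstrassCurve F)) rfl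
    rw [vcFun_smul, hP', h13]
    rfl
  · have h1 : (C.u : F) ^ 4 * (C • W).a₄ = 0 := by
      rw [v4]
      rw [Yp] at hl
      linear_combination -hl
    exact (mul_eq_zero.mp h1).resolve_left (pow_ne_zero 4 hu0)
  · have h1 : (C.u : F) ^ 6 * (C • W).a₆ = 0 := by
      rw [v6]
      have := eqn_of_ne_zero hP
      linear_combination -this
    exact (mul_eq_zero.mp h1).resolve_left (pow_ne_zero 6 hu0)
  · apply mul_left_cancel₀ (pow_ne_zero 3 hu0)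
    rw [v3]
    have h1 : (C.u : F) ^ 3 * (C • W).a₂ = (C.u : F) * (W.a₂ - l * W.a₁ + 3 * px P - l ^ 2) := by
      rw [← v2]; ring
    rw [h1, hCu, div_mul_cancel₀ _ hA, Yp]
    ring

/-- **The main identity** for a point of order thirteen: `Δ A = D² (2 B - 3 A)`. -/
theorem main_identity {P : W.Point} (hP : P ≠ 0) (h13 : (13 : ℕ) • P = 0) :
    W.Δ * (sl P ^ 2 - sl ((2 : ℕ) • P) ^ 2) = Dp P ^ 2 *
      (4 * (sl P * sl ((2 : ℕ) • P)) - 3 * (sl P ^ 2 - sl ((2 : ℕ) • P) ^ 2)) := by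
  obtain ⟨C, P', hP', h13', hx, hy, h4, h6, h23, rfl⟩ := exists_tate hP h13
  obtain ⟨r, s, hF, hs, hrs, h1, h3, k1, k2, hD⟩ := tate_data h4 h23 hP' h13' hx hy
  have hid := poly_identity hF hs hrs k1 k2 hD h4 h6 h23 h1 h3
  have n2 := smul_ne hP' h13' (n := 2) (by norm_num)
  have hu0 : (C.u : F) ≠ 0 := C.u.ne_zero
  rw [← vcFun_smul, sl_vc _ hP' h13', sl_vc _ n2 (by rw [smul_comm, h13', smul_zero]), Dp_vc _ hP' h13']
  rw [variableChange_Δ, Units.val_inv_eq_inv_val] at hid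
  field_simp at hid
  linear_combination (C.u : F) ^ 2 * hid

/-- If both slopes vanish, then `c₄ = 0`. -/
theorem c₄_eq_zero {P : W.Point} (hP : P ≠ 0) (h13 : (13 : ℕ) • P = 0) (h1 : sl P = 0)
    (h2 : sl ((2 : ℕ) • P) = 0) : W.c₄ = 0 := by
  obtain ⟨C, P', hP', h13', hx, hy, h4, h6, h23, rfl⟩ := exists_tate hP h13
  obtain ⟨r, s, hF, hs, hrs, e1, e3, k1, k2, hD⟩ := tate_data h4 h23 hP' h13' hx hy
  have n2 := smul_ne hP' h13' (n := 2) (by norm_num)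
  have hu0 : (C.u : F) ≠ 0 := C.u.ne_zero
  rw [sl_vc _ hP' h13'] at h1
  rw [← vcFun_smul, sl_vc _ n2 (by rw [smul_comm, h13', smul_zero])] at h2
  have h1' := (mul_eq_zero.mp h1).resolve_left hu0
  have h2' := (mul_eq_zero.mp h2).resolve_left hu0
  rw [h1'] at k1
  rw [h2'] at k2
  have h := poly_c₄ k1 k2 h4 h23 e1 e3
  rw [variableChange_c₄, Units.val_inv_eq_inv_val] at h
  exact (mul_eq_zero.mp h).resolve_left (pow_ne_zero 4 (inv_ne_zero hu0))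

end Fermat.Agent.Cor.H11.Thirteen
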