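import Fermat.Agent.S51
import Fermat.Agent.H09.Dichotomy
import Fermat.Agent.Cor.H11ThirteenDesc
import Fermat.Agent.Cor.H11ThirteenTate

/-!
# The mod `13` representation of an elliptic curve with square discriminant is irreducible

Let `E` be an elliptic curve over `ℚ` whose discriminant is a square in `ℚ` (for example a curve all of whose points
of order two are rational). Then `E[13]` is irreducible, i.e. `E` has no rational isogeny of degree `13`. Let `C` be a
rational subgroup of order `13`, `P` a generator, `k₁` and `k₂` the slopes of the lines through `P, 3 P, 9 P` and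
`2 P, 6 P, 5 P`, `A = k₁² - k₂²`, `B = 2 k₁ k₂`. The identity `Δ A = D² (2 B - 3 A)` of `Cor/H11ThirteenTate.lean`
shows that `t = 2 B / A - 3` is a rational number such that `t (t² + 6 t + 13)` is a square; so `t = 0` by
`Cor/H11ThirteenDesc.lean`, which is impossible.

This file is not used by any of the statement files.
-/

set_option autoImplicit false

namespace Fermat.Agent.Cor.H11.Thirteen

open WeierstrassCurve WeierstrassCurve.Affine WeierstrassCurve.Affine.Point
open Fermat.Agent.H08 Fermat.Agent.Frob Fermat.Agent.H51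

section invariants

variable {F : Type*} [Field F] [DecidableEq F] {W : WeierstrassCurve.Affine F}

lemma smul_mod {P : W.Point} (h13 : (13 : ℕ) • P = 0) (n : ℕ) : n • P = (n % 13) • P := by
  conv_lhs => rw [← Nat.div_add_mod n 13]
  rw [add_nsmul, mul_comm, mul_nsmul', h13, smul_zero, zero_add]

/-- A function on the points of order thirteen invariant under doubling is invariant under all multiplications. -/
lemma inv_of_doubling {α : Type*} (I : W.Point → α)
    (hI : ∀ Q : W.Point, Q ≠ 0 → (13 : ℕ) • Q = 0 → I ((2 : ℕ) • Q) = I Q) {P : W.Point}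
    (hP : P ≠ 0) (h13 : (13 : ℕ) • P = 0) {m : ℕ} (hm : m < 13) (hm0 : m ≠ 0) :
    I (m • P) = I P := by
  have hpow : ∀ i : ℕ, I ((2 ^ i : ℕ) • P) = I P := by
    intro i
    induction i with
    | zero => rw [pow_zero, one_nsmul]
    | succ i ih =>
      have h1 : (2 ^ (i + 1) : ℕ) • P = (2 : ℕ) • ((2 ^ i : ℕ) • P) := by
        rw [pow_succ, mul_nsmul]
      rw [h1, hI _ ?_ ?_, ih]
      · apply smul_ne hP h13
        intro h
        have := (Nat.Prime.dvd_of_dvd_pow (by norm_num : Nat.Prime 13) h)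
        omega
      · rw [smul_comm, h13, smul_zero]
  have key : ∀ i : ℕ, 2 ^ i % 13 = m → I (m • P) = I P := by
    intro i hi
    rw [← hi, ← smul_mod h13, hpow]
  interval_cases m
  · exact absurd rfl hm0
  · exact key 0 (by norm_num)
  · exact key 1 (by norm_num)
  · exact key 4 (by norm_num)
  · exact key 2 (by norm_num)
  · exact key 9 (by norm_num)
  · exact key 5 (by norm_num)
  · exact key 11 (by norm_num)
  · exact key 3 (by norm_num)
  · exact key 8 (by norm_num)
  · exact key 10 (by norm_num)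
  · exact key 7 (by norm_num)
  · exact key 6 (by norm_num)

/-- `sl 4P = - sl P`, in the form needed below -/
lemma sl_two_two {P : W.Point} (hP : P ≠ 0) (h13 : (13 : ℕ) • P = 0) :
    sl ((2 : ℕ) • ((2 : ℕ) • P)) = -sl P := by
  rw [← mul_nsmul]
  exact sl_four hP h13

/-- The number `A`. -/
def nA (P : W.Point) : F := sl P ^ 2 - sl ((2 : ℕ) • P) ^ 2

/-- The number `B`. -/
def nB (P : W.Point) : F := 2 * (sl P * sl ((2 : ℕ) • P))

/-- The number `k₁² + k₂²`. -/
def nS (P : W.Point) : F := sl P ^ 2 + sl ((2 : ℕ) • P) ^ 2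

lemma nA_two {P : W.Point} (hP : P ≠ 0) (h13 : (13 : ℕ) • P = 0) : nA ((2 : ℕ) • P) = -nA P := by
  rw [nA, nA, sl_two_two hP h13]; ring

lemma nB_two {P : W.Point} (hP : P ≠ 0) (h13 : (13 : ℕ) • P = 0) : nB ((2 : ℕ) • P) = -nB P := by
  rw [nB, nB, sl_two_two hP h13]; ring

lemma nS_two {P : W.Point} (hP : P ≠ 0) (h13 : (13 : ℕ) • P = 0) : nS ((2 : ℕ) • P) = nS P := by
  rw [nS, nS, sl_two_two hP h13]; ring

lemma Dp_ne_zero {P : W.Point} (hP : P ≠ 0) (h13 : (13 : ℕ) • P = 0) : Dp P ≠ 0 := by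
  have d15 := px_ne hP h13 (i := 1) (j := 5) (d := 4) (by norm_num) (by norm_num) (by norm_num)
    (by norm_num) (by norm_num)
  have d23 := px_ne hP h13 (i := 2) (j := 3) (d := 1) (by norm_num) (by norm_num) (by norm_num)
    (by norm_num) (by norm_num)
  have d46 := px_ne hP h13 (i := 4) (j := 6) (d := 2) (by norm_num) (by norm_num) (by norm_num)
    (by norm_num) (by norm_num)
  rw [one_nsmul] at d15
  exact mul_ne_zero (mul_ne_zero (sub_ne_zero.mpr d15) (sub_ne_zero.mpr d23.symm))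
    (sub_ne_zero.mpr d46)

end invariants

section galois

variable {E : WeierstrassCurve.Affine ℚ}

local notation "Kbar" => AlgebraicClosure ℚ

lemma px_galois (σ : Kbar ≃ₐ[ℚ] Kbar) (P : (E⁄Kbar).Point) : px (σ • P) = σ (px P) := by
  rcases P with _ | ⟨x, y, h⟩
  · exact (_root_.map_zero σ).symm
  · rfl

lemma py_galois (σ : Kbar ≃ₐ[ℚ] Kbar) (P : (E⁄Kbar).Point) : py (σ • P) = σ (py P) := by
  rcases P with _ | ⟨x, y, h⟩
  · exact (_root_.map_zero σ).symm
  · rfl

lemma Yp_galois (σ : Kbar ≃ₐ[ℚ] Kbar) (P : (E⁄Kbar).Point) : Yp (σ • P) = σ (Yp P) := by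
  have h1 : σ (E⁄Kbar).a₁ = (E⁄Kbar).a₁ := σ.commutes E.a₁
  have h3 : σ (E⁄Kbar).a₃ = (E⁄Kbar).a₃ := σ.commutes E.a₃
  rw [Yp, Yp, px_galois, py_galois, map_add, map_add, map_mul, map_mul, h1, h3, map_ofNat]

lemma sl_galois (σ : Kbar ≃ₐ[ℚ] Kbar) (P : (E⁄Kbar).Point) : sl (σ • P) = σ (sl P) := by
  rw [sl, sl, ← S51.nsmul_galois, Yp_galois, Yp_galois, px_galois, px_galois, map_div₀, map_sub, map_sub]

lemma Dp_galois (σ : Kbar ≃ₐ[ℚ] Kbar) (P : (E⁄Kbar).Point) : Dp (σ • P) = σ (Dp P) := by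
  rw [Dp, Dp, ← S51.nsmul_galois, ← S51.nsmul_galois, ← S51.nsmul_galois, ← S51.nsmul_galois,
    ← S51.nsmul_galois, px_galois, px_galois, px_galois, px_galois, px_galois, px_galois, map_mul, map_mul,
    map_sub, map_sub, map_sub]

lemma nA_galois (σ : Kbar ≃ₐ[ℚ] Kbar) (P : (E⁄Kbar).Point) : nA (σ • P) = σ (nA P) := by
  rw [nA, nA, ← S51.nsmul_galois, sl_galois, sl_galois, map_sub, map_pow, map_pow]

lemma nB_galois (σ : Kbar ≃ₐ[ℚ] Kbar) (P : (E⁄Kbar).Point) : nB (σ • P) = σ (nB P) := by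
  rw [nB, nB, ← S51.nsmul_galois, sl_galois, sl_galois, map_mul, map_mul, map_ofNat]

lemma nS_galois (σ : Kbar ≃ₐ[ℚ] Kbar) (P : (E⁄Kbar).Point) : nS (σ • P) = σ (nS P) := by
  rw [nS, nS, ← S51.nsmul_galois, sl_galois, sl_galois, map_add, map_pow, map_pow]

/-- The arithmetic behind the theorem. -/
lemma no_rational_relations {a ab s d δ : ℚ} (ha : a ≠ 0) (hd : d ≠ 0) (hδ : δ ≠ 0)
    (h1 : a ^ 2 + ab ^ 2 = a * s ^ 2) (h2 : δ ^ 2 * a ^ 2 = d ^ 2 * (2 * ab - 3 * a)) : False := by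
  have ht : (2 * ab / a - 3) * ((2 * ab / a - 3) ^ 2 + 6 * (2 * ab / a - 3) + 13) =
      (2 * s * δ / d) ^ 2 := by
    have e1 : (2 * ab / a - 3) ^ 2 + 6 * (2 * ab / a - 3) + 13 = 4 * s ^ 2 / a := by
      field_simp
      linear_combination 4 * h1
    have e2 : 2 * ab / a - 3 = δ ^ 2 * a / d ^ 2 := by
      field_simp
      linear_combination -h2
    rw [e1, e2]
    field_simp
    ring
  have h0 := rat_points ht
  have h3 : 2 * ab - 3 * a = 0 := by
    have h4 : (2 * ab / a - 3) * a = 0 := by rw [h0, zero_mul]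
    rw [sub_mul, div_mul_cancel₀ _ ha] at h4
    exact h4
  rw [h3, mul_zero] at h2
  exact mul_ne_zero (pow_ne_zero 2 hδ) (pow_ne_zero 2 ha) h2

/-- **`E[13]` is irreducible** for every elliptic curve `E` over `ℚ` whose discriminant is a square. -/
theorem irreducible_thirteen {δ : ℚ} (hδ : E.Δ = δ ^ 2) (hδ0 : δ ≠ 0) :
    GaloisRepIsIrreducible (K := Kbar) ℚ E 13 := by
  by_contra hcon
  have hΔ : (E⁄Kbar).Δ = algebraMap ℚ Kbar E.Δ := WeierstrassCurve.map_Δ ..
  have hΔ0 : (E⁄Kbar).Δ ≠ 0 := by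
    rw [hΔ, hδ, map_pow]
    exact pow_ne_zero 2 ((map_ne_zero _).2 hδ0)
  have hfact : Fact (Nat.Prime 13) := ⟨by norm_num⟩
  obtain ⟨hfin, hcard⟩ := Fermat.Agent.H09.finite_torsion (L := Kbar) (W₀ := E) (p := 13)
    (by norm_num) (by norm_num)
  have hnt : Nontrivial (Submodule.torsionBy ℤ (E⁄Kbar).Point (13 : ℕ)) := by
    obtain ⟨P, hP, hP13⟩ := Fermat.Agent.H09.exists_torsion (W := E⁄Kbar) hΔ0 (n := 13) (by decide)
      (by norm_num) (by norm_num)
    refine ⟨⟨P, ?_⟩, 0, fun h => hP (congrArg Subtype.val h)⟩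
    rw [Submodule.mem_torsionBy_iff]
    exact_mod_cast hP13
  unfold GaloisRepIsIrreducible at hcon
  push Not at hcon
  obtain ⟨N, hN, hbot, htop⟩ := hcon hnt
  obtain ⟨v, hv, hv0, hall⟩ := line_of_card (p := 13) hfin (by
    refine lt_of_le_of_lt hcard (by norm_num)) N hbot htop
  obtain ⟨P, hPv⟩ : ∃ P, P = (v : (E⁄Kbar).Point) := ⟨_, rfl⟩
  have hP : P ≠ 0 := fun h => hv0 (Subtype.ext (by rw [← hPv, h]; rfl))
  have h13 : (13 : ℕ) • P = 0 := by
    have := v.2
    rw [Submodule.mem_torsionBy_iff] at this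
    rw [hPv]
    exact_mod_cast this
  have hσP : ∀ σ : Kbar ≃ₐ[ℚ] Kbar, ∃ m : ℕ, m < 13 ∧ m ≠ 0 ∧ σ • P = m • P := by
    intro σ
    obtain ⟨c, hc⟩ := hall (σ • v) (hN σ v hv)
    have hc' : σ • (v : (E⁄Kbar).Point) =
        ((c • v : Submodule.torsionBy ℤ (E⁄Kbar).Point (13 : ℕ)) : (E⁄Kbar).Point) :=
      congrArg Subtype.val hc
    have hcn : ((c • v : Submodule.torsionBy ℤ (E⁄Kbar).Point (13 : ℕ)) : (E⁄Kbar).Point) =
        c.val • (v : (E⁄Kbar).Point) := by
      have : c • v = c.val • v := by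
        conv_lhs => rw [← ZMod.natCast_zmod_val c]
        exact Nat.cast_smul_eq_nsmul _ _ _
      rw [this]; rfl
    refine ⟨c.val, ZMod.val_lt c, ?_, by rw [hPv, hc', hcn]⟩
    intro h0
    rw [hcn, h0, zero_nsmul] at hc'
    apply hP
    rw [hPv]
    have := congrArg (fun R => σ⁻¹ • R) hc'
    simpa using this
  -- the rational invariants
  obtain ⟨a, ha⟩ := rational_of_fixed (x := nA P ^ 2) (fun σ => by
    obtain ⟨m, hm, hm0, hσ⟩ := hσP σ
    rw [map_pow, ← nA_galois, hσ]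
    exact inv_of_doubling (fun Q => nA Q ^ 2) (fun Q hQ h => by
      rw [nA_two hQ h]; ring) hP h13 hm hm0)
  obtain ⟨ab, hab⟩ := rational_of_fixed (x := nA P * nB P) (fun σ => by
    obtain ⟨m, hm, hm0, hσ⟩ := hσP σ
    rw [map_mul, ← nA_galois, ← nB_galois, hσ]
    exact inv_of_doubling (fun Q => nA Q * nB Q) (fun Q hQ h => by
      rw [nA_two hQ h, nB_two hQ h]; ring) hP h13 hm hm0)
  obtain ⟨s, hs⟩ := rational_of_fixed (x := nS P) (fun σ => by
    obtain ⟨m, hm, hm0, hσ⟩ := hσP σ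
    rw [← nS_galois, hσ]
    exact inv_of_doubling (fun Q => nS Q) (fun Q hQ h => nS_two hQ h) hP h13 hm hm0)
  obtain ⟨d, hd⟩ := rational_of_fixed (x := Dp P * nA P) (fun σ => by
    obtain ⟨m, hm, hm0, hσ⟩ := hσP σ
    rw [map_mul, ← nA_galois, ← Dp_galois, hσ]
    exact inv_of_doubling (fun Q => Dp Q * nA Q) (fun Q hQ h => by
      rw [nA_two hQ h, Dp_two h]; ring) hP h13 hm hm0)
  have hmain := main_identity hP h13
  have hinj := (algebraMap ℚ Kbar).injective
  have hmain' : (E⁄Kbar).Δ * nA P = Dp P ^ 2 * (2 * nB P - 3 * nA P) := by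
    rw [nA, nB, hmain]; ring
  have hD := Dp_ne_zero hP h13
  by_cases hA : nA P = 0
  · -- both slopes vanish, `c₄ = 0`, and the discriminant is negative
    rw [hA, mul_zero, mul_zero, sub_zero] at hmain'
    have hB : nB P = 0 := by
      have h1 : Dp P ^ 2 * 2 * nB P = 0 := by linear_combination -hmain'
      exact (mul_eq_zero.mp h1).resolve_left (mul_ne_zero (pow_ne_zero 2 hD) two_ne_zero)
    have hk : sl P = 0 ∧ sl ((2 : ℕ) • P) = 0 := by
      rw [nA] at hA
      rw [nB] at hB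
      rcases mul_eq_zero.mp ((mul_eq_zero.mp hB).resolve_left two_ne_zero) with h1 | h1
      · refine ⟨h1, ?_⟩
        rw [h1] at hA
        have h2 : sl ((2 : ℕ) • P) ^ 2 = 0 := by linear_combination -hA
        exact pow_eq_zero_iff (by norm_num) |>.mp h2
      · refine ⟨?_, h1⟩
        rw [h1] at hA
        have h2 : sl P ^ 2 = 0 := by linear_combination hA
        exact pow_eq_zero_iff (by norm_num) |>.mp h2
    have hc4 := c₄_eq_zero hP h13 hk.1 hk.2
    have hc4' : E.c₄ = 0 := by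
      apply hinj
      rw [_root_.map_zero, ← hc4]
      exact (WeierstrassCurve.map_c₄ ..).symm
    have hrel := E.c_relation
    rw [hc4', hδ] at hrel
    have h1 : 1728 * δ ^ 2 + E.c₆ ^ 2 = 0 := by linear_combination hrel
    have h2 : 0 < δ ^ 2 := by positivity
    nlinarith [sq_nonneg E.c₆]
  · have ha0 : a ≠ 0 := by
      rintro rfl
      rw [_root_.map_zero] at ha
      exact pow_ne_zero 2 hA ha.symm
    have hd0 : d ≠ 0 := by
      rintro rfl
      rw [_root_.map_zero] at hd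
      exact mul_ne_zero hD hA hd.symm
    refine no_rational_relations (a := a) (ab := ab) (s := s) (d := d) ha0 hd0 hδ0 ?_ ?_
    · apply hinj
      simp only [map_add, map_mul, map_pow]
      rw [ha, hab, hs, nA, nB, nS]
      ring
    · apply hinj
      simp only [map_sub, map_mul, map_pow, map_ofNat]
      have h1 : (algebraMap ℚ Kbar δ) ^ 2 = (E⁄Kbar).Δ := by rw [hΔ, hδ, map_pow]
      rw [h1, ha, hab, hd]
      linear_combination (nA P ^ 3) * hmain'

end galois

/-- The version for curves over `ℤ`. -/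
theorem modRepIsIrreducible_thirteen (W : WeierstrassCurve ℤ) {δ : ℚ} (hδ : (W.Δ : ℚ) = δ ^ 2)
    (hΔ : W.Δ ≠ 0) : W.ModRepIsIrreducible 13 := by
  refine irreducible_thirteen (E := W.map (Int.castRingHom ℚ)) (δ := δ) ?_ ?_
  · rw [map_Δ]
    exact hδ
  · rintro rfl
    apply hΔ
    have : (W.Δ : ℚ) = 0 := by rw [hδ]; ring
    exact_mod_cast this

end Fermat.Agent.Cor.H11.Thirteen
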