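import Fermat.Agent.Cor.SerreSeven
import Fermat.Agent.Cor.H11Thirteen

/-!
# Serre's equations for all prime exponents `p ≥ 5`

The discriminant of the Frey curve `E_{A,B}` is a square, so `E_{A,B}[13]` is irreducible (`Cor/H11Thirteen.lean`).
Hence `E_{A,B}[p]` is irreducible for all primes `p ≥ 5` (if `p ∤ v₂(B) - 4`), and for every prime `p ≥ 5` and
`L = 3, 5`

* `x ^ p + y ^ p = L ^ α z ^ p` has no solutions in nonzero integers (Serre 1987, § 4.3, Théorème 2);
* `a b (a + b) = L ^ α m ^ p` has no solutions in nonzero integers `m` and coprime `a`, `b`; in particular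
  `n (n + 1) = L ^ α m ^ p` has no solutions in positive integers.

This file is not used by any of the statement files.
-/

set_option autoImplicit false

namespace Fermat.Agent.Cor.H11

/-- The mod `13` representation of the Frey curve `E_{A,B}` is irreducible (no condition on `v₂(B)`). -/
theorem irr_thirteen {A B : ℤ} (hA : A % 4 = 3) (hB : (16 : ℤ) ∣ B) (h0 : A * B * (A + B) ≠ 0) :
    (FreyAB A B).ModRepIsIrreducible 13 := by
  refine Thirteen.modRepIsIrreducible_thirteen _ (δ := ((A * B * (A + B) : ℤ) : ℚ) / 16) ?_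
    (frey_disc_ne hA hB h0)
  have h := congrArg (Int.cast : ℤ → ℚ) (frey_disc hA hB)
  push_cast at h ⊢
  rw [div_pow, ← h]
  ring

/-- The Frey curves have irreducible mod `p` representation for all primes `p ≥ 5`. -/
theorem irrAB_of_five_le {p : ℕ} (hp : p.Prime) (hp5 : 5 ≤ p) : IrrAB p := by
  by_cases h13 : p = 13
  · subst h13
    exact fun _ _ _ hA hB h0 _ => irr_thirteen hA ((by norm_num : (16 : ℤ) ∣ 32).trans hB) h0
  · exact irrAB_of_ne_thirteen hp hp5 h13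

theorem noSol_of_five_le {p L : ℕ} (hp : p.Prime) (hp5 : 5 ≤ p) (hL : L = 3 ∨ L = 5) :
    NoSol p L := by
  rcases hL with rfl | rfl
  · exact noSol_of_irr hp hp5 Nat.prime_three Fermat.Agent.Main.genus_six (irrAB_of_five_le hp hp5)
  · exact noSol_of_irr hp hp5 Nat.prime_five Fermat.Agent.Main.genus_ten (irrAB_of_five_le hp hp5)

/-- **Serre's equations**, symmetric form: for every prime `p ≥ 5` and `L = 3, 5`, the equation
`L ^ α x ^ p + L ^ β y ^ p + L ^ γ z ^ p = 0` has no solutions in nonzero integers. -/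
theorem serre_symmetric_all {p L : ℕ} (hp : p.Prime) (hp5 : 5 ≤ p) (hL : L = 3 ∨ L = 5)
    (α β γ : ℕ) {x y z : ℤ} (hx : x ≠ 0) (hy : y ≠ 0) (hz : z ≠ 0) :
    (L : ℤ) ^ α * x ^ p + (L : ℤ) ^ β * y ^ p + (L : ℤ) ^ γ * z ^ p ≠ 0 :=
  serre_sym hp5 (by rcases hL with rfl | rfl <;> norm_num) (by rcases hL with rfl | rfl <;> norm_num)
    (noSol_of_five_le hp hp5 hL) α β γ hx hy hz

/-- **Serre's theorem**: for every prime `p ≥ 5` and `L = 3` or `L = 5`, the equation
`x ^ p + y ^ p = L ^ α z ^ p` has no solutions in nonzero integers. -/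
theorem serre_equation_all {p L : ℕ} (hp : p.Prime) (hp5 : 5 ≤ p) (hL : L = 3 ∨ L = 5) (α : ℕ)
    {x y z : ℤ} (hx : x ≠ 0) (hy : y ≠ 0) (hz : z ≠ 0) : x ^ p + y ^ p ≠ (L : ℤ) ^ α * z ^ p :=
  serre_eq hp hp5 (by rcases hL with rfl | rfl <;> norm_num)
    (by rcases hL with rfl | rfl <;> norm_num) (noSol_of_five_le hp hp5 hL) α hx hy hz

/-- The same for all exponents `n` with a prime divisor `p ≥ 5`. -/
theorem serre_equation_exponent_all {n p L : ℕ} (hp : p.Prime) (hpn : p ∣ n) (hp5 : 5 ≤ p)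
    (hL : L = 3 ∨ L = 5) (α : ℕ) {x y z : ℤ} (hx : x ≠ 0) (hy : y ≠ 0) (hz : z ≠ 0) :
    x ^ n + y ^ n ≠ (L : ℤ) ^ α * z ^ n := by
  obtain ⟨k, rfl⟩ := hpn
  rw [mul_comm p k, pow_mul, pow_mul, pow_mul]
  exact serre_equation_all hp hp5 hL α (pow_ne_zero _ hx) (pow_ne_zero _ hy) (pow_ne_zero _ hz)

/-- No sum of two nonzero rational `p`-th powers, `p ≥ 5` prime, is `3 ^ α` or `5 ^ α` times a nonzero rational
`p`-th power. -/
theorem serre_equation_rat_all {p L : ℕ} (hp : p.Prime) (hp5 : 5 ≤ p) (hL : L = 3 ∨ L = 5)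
    (α : ℕ) {x y z : ℚ} (hx : x ≠ 0) (hy : y ≠ 0) (hz : z ≠ 0) :
    x ^ p + y ^ p ≠ (L : ℚ) ^ α * z ^ p := by
  intro he
  have hxd : (x.den : ℚ) ≠ 0 := by exact_mod_cast x.den_ne_zero
  have hyd : (y.den : ℚ) ≠ 0 := by exact_mod_cast y.den_ne_zero
  have hzd : (z.den : ℚ) ≠ 0 := by exact_mod_cast z.den_ne_zero
  have hx0 : x.num ≠ 0 := Rat.num_ne_zero.mpr hx
  have hy0 : y.num ≠ 0 := Rat.num_ne_zero.mpr hy
  have hz0 : z.num ≠ 0 := Rat.num_ne_zero.mpr hz
  have hxd' : (x.den : ℤ) ≠ 0 := by exact_mod_cast x.den_ne_zero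
  have hyd' : (y.den : ℤ) ≠ 0 := by exact_mod_cast y.den_ne_zero
  have hzd' : (z.den : ℤ) ≠ 0 := by exact_mod_cast z.den_ne_zero
  refine serre_equation_all hp hp5 hL α (x := x.num * y.den * z.den) (y := y.num * x.den * z.den)
    (z := z.num * x.den * y.den) (mul_ne_zero (mul_ne_zero hx0 hyd') hzd')
    (mul_ne_zero (mul_ne_zero hy0 hxd') hzd') (mul_ne_zero (mul_ne_zero hz0 hxd') hyd') ?_
  have h1 : (x.num : ℚ) = x * x.den := (Rat.mul_den_eq_num x).symm
  have h2 : (y.num : ℚ) = y * y.den := (Rat.mul_den_eq_num y).symm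
  have h3 : (z.num : ℚ) = z * z.den := (Rat.mul_den_eq_num z).symm
  have key : ((x.num * y.den * z.den : ℤ) : ℚ) ^ p + ((y.num * x.den * z.den : ℤ) : ℚ) ^ p =
      (L : ℚ) ^ α * ((z.num * x.den * y.den : ℤ) : ℚ) ^ p := by
    push_cast
    rw [h1, h2, h3]
    simp only [mul_pow]
    linear_combination ((x.den : ℚ) ^ p * (y.den : ℚ) ^ p * (z.den : ℚ) ^ p) * he
  exact_mod_cast key

/-- For every prime `p ≥ 5` and `L = 3, 5`, the equation `a b (a + b) = L ^ α m ^ p` has no solutions in coprime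
integers `a`, `b` and nonzero integers `m`. -/
theorem mul_add_ne_all {p L : ℕ} (hp : p.Prime) (hp5 : 5 ≤ p) (hL : L = 3 ∨ L = 5) {a b m : ℤ}
    (hab : IsCoprime a b) (hm : m ≠ 0) (α : ℕ) : a * b * (a + b) ≠ (L : ℤ) ^ α * m ^ p :=
  mul_add_ne_of hp5 (by rcases hL with rfl | rfl <;> norm_num)
    (by rcases hL with rfl | rfl <;> norm_num) (noSol_of_five_le hp hp5 hL) hab hm α

/-- For every prime `p ≥ 5` and `L = 3, 5`, the product of two consecutive positive integers is not of the form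
`L ^ α m ^ p`. -/
theorem mul_succ_ne_all {p L : ℕ} (hp : p.Prime) (hp5 : 5 ≤ p) (hL : L = 3 ∨ L = 5) {n m : ℕ}
    (hn : 0 < n) (α : ℕ) : n * (n + 1) ≠ L ^ α * m ^ p := by
  intro h
  have hm : m ≠ 0 := by
    rintro rfl
    rw [zero_pow (by omega), mul_zero] at h
    exact absurd h (mul_ne_zero hn.ne' (Nat.succ_ne_zero n))
  refine mul_add_ne_all hp hp5 hL (a := (n : ℤ)) (b := 1) isCoprime_one_right
    (m := (m : ℤ)) (by exact_mod_cast hm) α ?_
  rw [mul_one]
  exact_mod_cast h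

end Fermat.Agent.Cor.H11
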