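import Mathlib
import Fermat.Agent.Cor.H24Seven
import Fermat.Agent.Cor.SerreAll

/-!
# Generalised Fermat equations with a power of two: all primes `p ≥ 5`

With the irreducibility of `E_{A,B}[13]` (`Fermat.Agent.Cor.H11.irr_thirteen`) the results of
`H24Seven` and `H24List` hold without exception:

* `two_pow_equation_all`: for every prime `p ≥ 5` and `L ∈ {3, 5}` the equation
  `L ^ α x ^ p + L ^ β y ^ p + 2 ^ k L ^ γ z ^ p = 0` has no solution in nonzero integers if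
  `4 ≤ k mod p`;
* `fermat_two_pow_all`: for every prime `p ≥ 5` the equations `x ^ p + 2 ^ k y ^ p = z ^ p` and
  `x ^ p + y ^ p = 2 ^ k z ^ p` have no solution in nonzero integers if `k mod p ∉ {1, 2, 3}`;
* `two_pow_seven_all`: `p ≥ 7`, `L ∈ {3, 5, 7, 11, 19}`, `4 ≤ k mod p`;
  `two_pow_seven_all'`: `p ≥ 7`, `L ∈ {3, 5, 7, 11, 17, 19, 23, 53, 59}`, `5 ≤ k mod p`;
* `two_pow_list_all`: `p ≥ 11`, `L` in Serre's list
  `{3, 5, 7, 11, 13, 17, 19, 23, 29, 53, 59}`, `5 ≤ k mod p`; `serre_list_all`: **Serre's theorem**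
  for all `p ≥ 11` and all `L` of the list (`p = L` included);
* `sq_sub_pow_all`, `sq_eq_add_all`: `x ^ 2 - z ^ (2 p)`.

This file is not used by any of the statement files.
-/

set_option autoImplicit false

namespace Fermat.Agent.Cor.H24

open WeierstrassCurve Fermat.Agent.H12.LL ModularCurve Fermat.Agent.Cor.H11 Fermat.Agent.Cor.H18
open ModularFormClass (qCoeff)

/-- irreducibility of `W[p]` for all Frey curves with `16 ∣ B` and all `p ≥ 5` -/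
theorem irr_five_le {p : ℕ} (hp : p.Prime) (hp5 : 5 ≤ p) {A B : ℤ}
    (hcop : IsCoprime A B) (hA : A % 4 = 3) (hB : (16 : ℤ) ∣ B) (h0 : A * B * (A + B) ≠ 0) :
    (FreyAB A B).ModRepIsIrreducible p := by
  by_cases h13 : p = 13
  · subst h13
    exact irr_thirteen hA hB h0
  · exact irr_ne_thirteen hp hp5 h13 hcop hA hB h0

/-- **No Frey curves of level `2 L`**, `L = 3, 5`, `p ≥ 5`. -/
theorem noFrey_five_le {p L : ℕ} (hp : p.Prime) (hp5 : 5 ≤ p)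
    (hL : L = 3 ∨ L = 5) : NoFrey p L (fun v => 4 ≤ v) :=
  noFrey_of_irr hp hp5 hL (fun _ h => h) fun _ _ hcop hA hB h0 _ =>
    irr_five_le hp hp5 hcop hA hB h0

/-- unfolded -/
theorem no_frey_all {p L : ℕ} (hp : p.Prime) (hp5 : 5 ≤ p)
    (hL : L = 3 ∨ L = 5) {A B : ℤ} (hcop : IsCoprime A B) (hA : A % 4 = 3) (hB : (16 : ℤ) ∣ B)
    (h0 : A * B * (A + B) ≠ 0)
    (hv : ∀ ℓ : ℕ, ℓ.Prime → ℓ ≠ 2 → ℓ ≠ L → p ∣ padicValInt ℓ (A * B * (A + B))) : False := by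
  refine noFrey_five_le hp hp5 hL A B hcop hA h0 ?_ hv
  have hB0 : B ≠ 0 := by rintro rfl; simp at h0
  have := (padicValInt_dvd_iff (p := 2) 4 B).mp (by exact_mod_cast hB)
  exact this.resolve_left hB0

/-- **Generalised Fermat equations with a power of two**, `p ≥ 5`. -/
theorem two_pow_equation_all {p L : ℕ} (hp : p.Prime) (hp5 : 5 ≤ p)
    (hL : L = 3 ∨ L = 5) {k : ℕ} (hk : 4 ≤ k % p) (α β γ : ℕ) {x y z : ℤ}
    (hx : x ≠ 0) (hy : y ≠ 0) (hz : z ≠ 0) :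
    (L : ℤ) ^ α * x ^ p + (L : ℤ) ^ β * y ^ p + 2 ^ k * (L : ℤ) ^ γ * z ^ p ≠ 0 := by
  have hLp : L.Prime := by rcases hL with rfl | rfl <;> norm_num
  refine (noFrey_five_le hp hp5 hL).eq_sym hLp (by omega) (by omega) ?_ α β γ hx hy hz
  intro v hv
  have := Nat.mod_le v p
  omega

section fermat

variable {p : ℕ} {x y z : ℤ}

/-- **`x ^ p + 2 ^ k y ^ p + z ^ p = 0`** has no solution in nonzero integers if `p ≥ 5`,
is a prime and `k mod p ∉ {1, 2, 3}`. -/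
theorem fermat_two_pow_sym_all (hp : p.Prime) (hp5 : 5 ≤ p) {k : ℕ}
    (hk : k % p = 0 ∨ 4 ≤ k % p) (hx : x ≠ 0) (hy : y ≠ 0) (hz : z ≠ 0) :
    x ^ p + 2 ^ k * y ^ p + z ^ p ≠ 0 := by
  intro he
  have hodd : Odd p := hp.odd_of_ne_two (by omega)
  rcases hk with hk | hk
  · obtain ⟨m, rfl⟩ := Nat.dvd_of_mod_eq_zero hk
    refine flt_int (p := p) (by omega) hx (mul_ne_zero (pow_ne_zero m two_ne_zero) hy)
      (neg_ne_zero.mpr hz) ?_
    rw [hodd.neg_pow, mul_pow, ← pow_mul, mul_comm m p]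
    linear_combination he
  · refine two_pow_equation_all hp hp5 (Or.inl rfl) hk 0 0 0 hx hz hy ?_
    linear_combination he

/-- **`x ^ p + 2 ^ k y ^ p = z ^ p`**, `k mod p ∉ {1, 2, 3}`. -/
theorem fermat_two_pow_all (hp : p.Prime) (hp5 : 5 ≤ p) {k : ℕ}
    (hk : k % p = 0 ∨ 4 ≤ k % p) (hx : x ≠ 0) (hy : y ≠ 0) (hz : z ≠ 0) :
    x ^ p + 2 ^ k * y ^ p ≠ z ^ p := by
  intro he
  have hodd : Odd p := hp.odd_of_ne_two (by omega)
  refine fermat_two_pow_sym_all hp hp5 hk hx hy (neg_ne_zero.mpr hz) ?_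
  rw [hodd.neg_pow]
  linear_combination he

/-- **`x ^ p + y ^ p = 2 ^ k z ^ p`**, `k mod p ∉ {1, 2, 3}`. -/
theorem fermat_two_pow_all' (hp : p.Prime) (hp5 : 5 ≤ p) {k : ℕ}
    (hk : k % p = 0 ∨ 4 ≤ k % p) (hx : x ≠ 0) (hy : y ≠ 0) (hz : z ≠ 0) :
    x ^ p + y ^ p ≠ 2 ^ k * z ^ p := by
  intro he
  have hodd : Odd p := hp.odd_of_ne_two (by omega)
  refine fermat_two_pow_sym_all hp hp5 hk hx (neg_ne_zero.mpr hz) hy ?_
  rw [hodd.neg_pow]
  linear_combination he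

/-- The same for all exponents `n` with a prime divisor `p ≥ 5`: `x ^ n + 2 ^ k y ^ n = z ^ n`
has no solution in nonzero integers if `k mod p ∉ {1, 2, 3}`. -/
theorem fermat_two_pow_exponent_all {n : ℕ} (hp : p.Prime) (hpn : p ∣ n) (hp5 : 5 ≤ p)
    {k : ℕ} (hk : k % p = 0 ∨ 4 ≤ k % p) (hx : x ≠ 0) (hy : y ≠ 0) (hz : z ≠ 0) :
    x ^ n + 2 ^ k * y ^ n ≠ z ^ n := by
  obtain ⟨m, rfl⟩ := hpn
  rw [mul_comm p m, pow_mul, pow_mul, pow_mul]
  exact fermat_two_pow_all hp hp5 hk (pow_ne_zero _ hx) (pow_ne_zero _ hy) (pow_ne_zero _ hz)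

/-- `x ^ p + 16 y ^ p = z ^ p` has no solution in nonzero integers. -/
theorem sixteen_equation_all (hp : p.Prime) (hp5 : 5 ≤ p)
    (hx : x ≠ 0) (hy : y ≠ 0) (hz : z ≠ 0) : x ^ p + 16 * y ^ p ≠ z ^ p := by
  have hk : 4 % p = 4 := Nat.mod_eq_of_lt (by omega)
  have := fermat_two_pow_all hp hp5 (k := 4) (by omega) hx hy hz
  norm_num at this
  exact this

end fermat

/-! ### the other primes `L`, `p ≥ 7` -/

/-- the criterion with the third coefficient -/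
theorem noFrey_of_three_all {p L : ℕ} (hp : p.Prime) (hp5 : 5 ≤ p)
    (hL : L.Prime) (hL3 : L ≠ 3)
    (hS : ∀ f : CuspForm (CongruenceSubgroup.Gamma0 (2 * L)) 2, f.IsNormalizedEigenform →
      ∃ c : ℤ, qCoeff f 3 = (c : ℂ) ∧ ¬ (p : ℤ) ∣ c ∧ ¬ (p : ℤ) ∣ c - 4 ∧ ¬ (p : ℤ) ∣ c + 4) :
    NoFrey p L (fun v => 4 ≤ v) := by
  intro A B hcop hA h0 hG hv
  have : Fact p.Prime := ⟨hp⟩
  have : NeZero (2 * L) := ⟨mul_ne_zero two_ne_zero hL.ne_zero⟩
  have hB := sixteen_dvd hG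
  have hirr := irr_five_le hp hp5 hcop hA hB h0
  have hN3 : ¬ 3 ∣ 2 * L := by
    intro h
    rcases (Nat.Prime.dvd_mul Nat.prime_three).mp h with h | h
    · omega
    · exact hL3 ((Nat.prime_dvd_prime_iff_eq Nat.prime_three hL).mp h).symm
  obtain ⟨f, 𝔪, hf, h𝔪, hp𝔪, hres⟩ := rm_two_mul' (by omega) hL hcop hA hB h0 hv hirr
  obtain ⟨c, hc, h1, h2, h3⟩ := hS f hf
  rcases dvd_a_three (by omega) hN3 hcop hA hB h0 hirr hf h𝔪 hp𝔪 hres hc with h | h | h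
  · exact h1 h
  · exact h2 h
  · exact h3 h

/-- **No Frey curves of level `2 L`**, `L ∈ {3, 5, 7, 11, 19}`, `p ≥ 7`. -/
theorem noFrey_seven_all {p L : ℕ} (hp : p.Prime) (hp7 : 7 ≤ p)
    (hL : L ∈ ({3, 5, 7, 11, 19} : Finset ℕ)) : NoFrey p L (fun v => 4 ≤ v) := by
  simp only [Finset.mem_insert, Finset.mem_singleton] at hL
  have hp5 : 5 ≤ p := by omega
  rcases hL with rfl | rfl | rfl | rfl | rfl
  · exact noFrey_five_le hp hp5 (Or.inl rfl)
  · exact noFrey_five_le hp hp5 (Or.inr rfl)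
  · exact noFrey_of_three_all hp hp5 (by norm_num) (by norm_num) fun f hf =>
      ⟨-2, by rw [EigenTable.a3_fourteen (f := f) hf]; norm_num,
        three_ok_seven hp7 (by norm_num) (by norm_num)⟩
  · exact noFrey_of_three_all hp hp5 (by norm_num) (by norm_num) fun f hf =>
      ⟨-1, by rw [EigenTable.a3_twentytwo (f := f) hf]; norm_num,
        three_ok_seven hp7 (by norm_num) (by norm_num)⟩
  · refine noFrey_of_three_all hp hp5 (by norm_num) (by norm_num) fun f hf => ?_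
    rcases H22L19.a3_thirtyeight (f := f) hf with h | h | h
    · exact ⟨-2, by rw [h]; norm_num, three_ok_seven hp7 (by norm_num) (by norm_num)⟩
    · exact ⟨1, by rw [h]; norm_num, three_ok_seven hp7 (by norm_num) (by norm_num)⟩
    · exact ⟨-1, by rw [h]; norm_num, three_ok_seven hp7 (by norm_num) (by norm_num)⟩

/-- **Serre's equations with a power of two**, `4 ≤ k mod p`, `L ∈ {3, 5, 7, 11, 19}`, `p ≥ 7`,
. -/
theorem two_pow_seven_all {p L : ℕ} (hp : p.Prime) (hp7 : 7 ≤ p)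
    (hL : L ∈ ({3, 5, 7, 11, 19} : Finset ℕ)) {k : ℕ} (hk : 4 ≤ k % p)
    (α β γ : ℕ) {x y z : ℤ} (hx : x ≠ 0) (hy : y ≠ 0) (hz : z ≠ 0) :
    (L : ℤ) ^ α * x ^ p + (L : ℤ) ^ β * y ^ p + 2 ^ k * (L : ℤ) ^ γ * z ^ p ≠ 0 := by
  have hLp : L.Prime ∧ L ≠ 2 := by
    simp only [Finset.mem_insert, Finset.mem_singleton] at hL
    rcases hL with rfl | rfl | rfl | rfl | rfl <;> norm_num
  refine (noFrey_seven_all hp hp7 hL).eq_sym hLp.1 hLp.2 (by omega) ?_ α β γ hx hy hz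
  intro v hv
  have := Nat.mod_le v p
  omega

/-- `NoSol p L` for `p ≥ 7` -/
theorem noSol_seven_all {p L : ℕ} (hp : p.Prime) (hp7 : 7 ≤ p)
    (hL : L ∈ ({3, 5, 7, 11, 17, 19, 23, 53, 59} : Finset ℕ)) : NoSol p L := by
  have hp5 : 5 ≤ p := by omega
  have H : IrrAB p := irrAB_of_five_le hp hp5
  simp only [Finset.mem_insert, Finset.mem_singleton] at hL
  rcases hL with rfl | rfl | rfl | rfl | rfl | rfl | rfl | rfl | rfl
  · exact noSol_of_irr hp hp5 Nat.prime_three Fermat.Agent.Main.genus_six H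
  · exact noSol_of_irr hp hp5 Nat.prime_five Fermat.Agent.Main.genus_ten H
  · exact noSol_seven_of hp hp5 H fun _ hf => EigenTable.a3_fourteen hf
  · exact noSol_of_three hp hp5 (by norm_num) (by norm_num) H fun f hf =>
      ⟨-1, by rw [EigenTable.a3_twentytwo (f := f) hf]; norm_num,
        three_ok_seven hp7 (by norm_num) (by norm_num)⟩
  · exact H18.noSol_seventeen hp hp7 H
  · exact H22L19.noSol_nineteen_of hp hp7 H
  · exact noSol_twentythree hp hp7 H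
  · exact noSol_fiftythree hp hp7 H
  · exact noSol_fiftynine hp hp7 H

/-- **Serre's list with a power of two**, `5 ≤ k mod p`, `p ≥ 7`. -/
theorem two_pow_seven_all' {p L : ℕ} (hp : p.Prime) (hp7 : 7 ≤ p)
    (hL : L ∈ ({3, 5, 7, 11, 17, 19, 23, 53, 59} : Finset ℕ)) {k : ℕ} (hk : 5 ≤ k % p)
    (α β γ : ℕ) {x y z : ℤ} (hx : x ≠ 0) (hy : y ≠ 0) (hz : z ≠ 0) :
    (L : ℤ) ^ α * x ^ p + (L : ℤ) ^ β * y ^ p + 2 ^ k * (L : ℤ) ^ γ * z ^ p ≠ 0 :=
  eq_sym_of_noSol (prime_of_list' hL).1 (prime_of_list' hL).2 (noSol_seven_all hp hp7 hL) hk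
    α β γ hx hy hz

/-- **Serre's equations**, symmetric form, `p ≥ 7`. -/
theorem serre_seven_all_sym {p L : ℕ} (hp : p.Prime) (hp7 : 7 ≤ p)
    (hL : L ∈ ({3, 5, 7, 11, 17, 19, 23, 53, 59} : Finset ℕ))
    (α β γ : ℕ) {x y z : ℤ} (hx : x ≠ 0) (hy : y ≠ 0) (hz : z ≠ 0) :
    (L : ℤ) ^ α * x ^ p + (L : ℤ) ^ β * y ^ p + (L : ℤ) ^ γ * z ^ p ≠ 0 :=
  serre_sym (by omega) (prime_of_list' hL).1 (prime_of_list' hL).2 (noSol_seven_all hp hp7 hL)
    α β γ hx hy hz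

/-- **Serre's equations** `x ^ p + y ^ p = L ^ α z ^ p`, `p ≥ 7`,
`L ∈ {3, 5, 7, 11, 17, 19, 23, 53, 59}`. -/
theorem serre_seven_all {p L : ℕ} (hp : p.Prime) (hp7 : 7 ≤ p)
    (hL : L ∈ ({3, 5, 7, 11, 17, 19, 23, 53, 59} : Finset ℕ))
    (α : ℕ) {x y z : ℤ} (hx : x ≠ 0) (hy : y ≠ 0) (hz : z ≠ 0) :
    x ^ p + y ^ p ≠ (L : ℤ) ^ α * z ^ p :=
  serre_eq hp (by omega) (prime_of_list' hL).1 (prime_of_list' hL).2
    (noSol_seven_all hp hp7 hL) α hx hy hz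

/-! ### squares -/

/-- **`x ^ 2 - z ^ (2 p) ≠ 2 ^ m L ^ α w ^ p`** for odd coprime `x`, `z`, and `m ≥ 6`, `w ≠ 0`,
`p ≥ 5`, `L = 3, 5`. -/
theorem sq_sub_pow_all {p L : ℕ} (hp : p.Prime) (hp5 : 5 ≤ p)
    (hL : L = 3 ∨ L = 5) {m : ℕ} (hm : 6 ≤ m) (α : ℕ) {x z w : ℤ}
    (hxz : IsCoprime x z) (hx : Odd x) (hz : Odd z) (hw : w ≠ 0) :
    x ^ 2 - z ^ (2 * p) ≠ 2 ^ m * (L : ℤ) ^ α * w ^ p :=
  (noFrey_five_le hp hp5 hL).sq_sub_pow (by rcases hL with rfl | rfl <;> norm_num) hm α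
    hxz hx hz hw

/-- **`x ^ 2 = y ^ p + z ^ (2 p)`** has no solution with `x`, `z` coprime, `y ≠ 0` even, for
`p ≥ 7`. -/
theorem sq_eq_add_all {p : ℕ} (hp : p.Prime) (hp7 : 7 ≤ p) {x y z : ℤ}
    (hxz : IsCoprime x z) (hy : Even y) (hy0 : y ≠ 0) : x ^ 2 ≠ y ^ p + z ^ (2 * p) := by
  intro he
  have hyp : Even (y ^ p) := hy.pow_of_ne_zero (by omega)
  have hodd : Odd x ∧ Odd z := by
    by_cases hxe : Even x
    · exfalso
      have h1 : Even (x ^ 2) := hxe.pow_of_ne_zero two_ne_zero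
      have h2 : Even (z ^ (2 * p)) := by
        rw [he] at h1
        exact (Int.even_add.mp h1).mp hyp
      have h3 : Even z := by
        rw [Int.even_pow] at h2
        exact h2.1
      have := hxz.isUnit_of_dvd' (even_iff_two_dvd.mp hxe) (even_iff_two_dvd.mp h3)
      exact absurd (Int.isUnit_iff.mp this) (by norm_num)
    · refine ⟨Int.not_even_iff_odd.mp hxe, ?_⟩
      by_contra hz
      rw [Int.not_odd_iff_even] at hz
      apply hxe
      have h2 : Even (z ^ (2 * p)) := hz.pow_of_ne_zero (by omega)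
      have h3 : Even (x ^ 2) := by rw [he]; exact hyp.add h2
      rw [Int.even_pow] at h3
      exact h3.1
  obtain ⟨y', rfl⟩ := hy.two_dvd
  have hy' : y' ≠ 0 := by rintro rfl; simp at hy0
  refine sq_sub_pow_all hp (by omega) (Or.inl rfl) (m := p) (by omega) 0 hxz hodd.1
    hodd.2 hy' ?_
  rw [he, mul_pow]
  ring

/-! ### Serre's list, `p ≥ 11` -/

/-- **No Frey curves of level `2 L`**, `L ∈ {3, 5, 7, 11, 13, 19}`, `p ≥ 11`. -/
theorem noFrey_list_all {p L : ℕ} (hp : p.Prime) (hp11 : 11 ≤ p)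
    (hL : L ∈ ({3, 5, 7, 11, 13, 19} : Finset ℕ)) : NoFrey p L (fun v => 4 ≤ v) := by
  by_cases h13 : L = 13
  · subst h13
    exact noFrey_of_three_all hp (by omega) (by norm_num) (by norm_num) fun f hf => by
      rcases EigenTable.coeff_twentysix (f := f) hf with h | h
      · exact ⟨1, by rw [h.1]; norm_num, three_ok hp hp11 (by norm_num) (by norm_num)⟩
      · exact ⟨-3, by rw [h.1]; norm_num, three_ok hp hp11 (by norm_num) (by norm_num)⟩
  · refine noFrey_seven_all hp (by omega) ?_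
    simp only [Finset.mem_insert, Finset.mem_singleton] at hL ⊢
    omega

/-- **Serre's equations with a power of two**, `4 ≤ k mod p`, `L ∈ {3, 5, 7, 11, 13, 19}`,
`p ≥ 11`. -/
theorem two_pow_list_four_all {p L : ℕ} (hp : p.Prime) (hp11 : 11 ≤ p)
    (hL : L ∈ ({3, 5, 7, 11, 13, 19} : Finset ℕ)) {k : ℕ} (hk : 4 ≤ k % p)
    (α β γ : ℕ) {x y z : ℤ} (hx : x ≠ 0) (hy : y ≠ 0) (hz : z ≠ 0) :
    (L : ℤ) ^ α * x ^ p + (L : ℤ) ^ β * y ^ p + 2 ^ k * (L : ℤ) ^ γ * z ^ p ≠ 0 := by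
  have hLp : L.Prime ∧ L ≠ 2 := by
    simp only [Finset.mem_insert, Finset.mem_singleton] at hL
    rcases hL with rfl | rfl | rfl | rfl | rfl | rfl <;> norm_num
  refine (noFrey_list_all hp hp11 hL).eq_sym hLp.1 hLp.2 (by omega) ?_ α β γ hx hy hz
  intro v hv
  have := Nat.mod_le v p
  omega

/-- `NoSol p L` for `p ≥ 11` and all `L` of Serre's list -/
theorem noSol_list_all {p L : ℕ} (hp : p.Prime) (hp11 : 11 ≤ p)
    (hL : L ∈ ({3, 5, 7, 11, 13, 17, 19, 23, 29, 53, 59} : Finset ℕ)) : NoSol p L := by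
  have hp5 : 5 ≤ p := by omega
  have hp7 : 7 ≤ p := by omega
  have H : IrrAB p := irrAB_of_five_le hp hp5
  simp only [Finset.mem_insert, Finset.mem_singleton] at hL
  rcases hL with rfl | rfl | rfl | rfl | rfl | rfl | rfl | rfl | rfl | rfl | rfl
  · exact noSol_of_irr hp hp5 Nat.prime_three Fermat.Agent.Main.genus_six H
  · exact noSol_of_irr hp hp5 Nat.prime_five Fermat.Agent.Main.genus_ten H
  · exact noSol_seven_of hp hp5 H fun _ hf => EigenTable.a3_fourteen hf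
  · exact noSol_eleven_of hp hp11 H fun _ hf => EigenTable.a3_twentytwo hf
  · exact noSol_thirteen_of hp hp11 H fun _ hf =>
      (EigenTable.coeff_twentysix hf).imp (fun h => h.1) fun h => h.1
  · exact H18.noSol_seventeen hp hp7 H
  · exact H22L19.noSol_nineteen_of hp hp7 H
  · exact noSol_twentythree hp hp7 H
  · exact noSol_twentynine hp hp11 H
  · exact noSol_fiftythree hp hp7 H
  · exact noSol_fiftynine hp hp7 H

/-- **Serre's list with a power of two**, `5 ≤ k mod p`, `p ≥ 11`. -/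
theorem two_pow_list_all {p L : ℕ} (hp : p.Prime) (hp11 : 11 ≤ p)
    (hL : L ∈ ({3, 5, 7, 11, 13, 17, 19, 23, 29, 53, 59} : Finset ℕ)) {k : ℕ} (hk : 5 ≤ k % p)
    (α β γ : ℕ) {x y z : ℤ} (hx : x ≠ 0) (hy : y ≠ 0) (hz : z ≠ 0) :
    (L : ℤ) ^ α * x ^ p + (L : ℤ) ^ β * y ^ p + 2 ^ k * (L : ℤ) ^ γ * z ^ p ≠ 0 :=
  eq_sym_of_noSol (prime_of_list hL).1 (prime_of_list hL).2 (noSol_list_all hp hp11 hL) hk
    α β γ hx hy hz

/-- **Serre's theorem** (Duke 1987, Théorème 2 of 4.3), symmetric form: all primes `p ≥ 11`, all `L`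
of the list. -/
theorem serre_list_all_sym {p L : ℕ} (hp : p.Prime) (hp11 : 11 ≤ p)
    (hL : L ∈ ({3, 5, 7, 11, 13, 17, 19, 23, 29, 53, 59} : Finset ℕ))
    (α β γ : ℕ) {x y z : ℤ} (hx : x ≠ 0) (hy : y ≠ 0) (hz : z ≠ 0) :
    (L : ℤ) ^ α * x ^ p + (L : ℤ) ^ β * y ^ p + (L : ℤ) ^ γ * z ^ p ≠ 0 :=
  serre_sym (by omega) (prime_of_list hL).1 (prime_of_list hL).2 (noSol_list_all hp hp11 hL)
    α β γ hx hy hz

/-- **Serre's theorem**: `x ^ p + y ^ p = L ^ α z ^ p` has no solution in nonzero integers for all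
primes `p ≥ 11` and all `L` of Serre's list. -/
theorem serre_list_all {p L : ℕ} (hp : p.Prime) (hp11 : 11 ≤ p)
    (hL : L ∈ ({3, 5, 7, 11, 13, 17, 19, 23, 29, 53, 59} : Finset ℕ))
    (α : ℕ) {x y z : ℤ} (hx : x ≠ 0) (hy : y ≠ 0) (hz : z ≠ 0) :
    x ^ p + y ^ p ≠ (L : ℤ) ^ α * z ^ p :=
  serre_eq hp (by omega) (prime_of_list hL).1 (prime_of_list hL).2
    (noSol_list_all hp hp11 hL) α hx hy hz

end Fermat.Agent.Cor.H24
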