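import Mathlib
import Fermat.Agent.Cor.H24All
import Fermat.Agent.Cor.CubesAP
import Fermat.Agent.Cor.FourthPow

/-!
# The equation `x ^ n + 2 ^ k y ^ n = z ^ n`: summary

`fermat_two_pow_nat`: no solution in positive integers if `4 ∣ n` (all `k`), or `3 ∣ n` and
`k mod 3 ≠ 2`, or `n` has a prime divisor `p ≥ 5` with `k mod p ∉ {1, 2, 3}`.

This file is not used by any of the statement files.
-/

set_option autoImplicit false

namespace Fermat.Agent.Cor.FermatTwoPow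

open Fermat.Agent.Cor

/-- exponent `3`, positive integers -/
theorem cubes {k : ℕ} (hk : k % 3 ≠ 2) {x y z : ℤ} (hx : 0 < x) (hy : 0 < y) (hz : 0 < z) :
    x ^ 3 + 2 ^ k * y ^ 3 ≠ z ^ 3 := by
  intro h
  rcases (show k % 3 = 0 ∨ k % 3 = 1 by omega) with h0 | h1
  · obtain ⟨q, hq⟩ : ∃ q, k = 3 * q := ⟨k / 3, by omega⟩
    refine H24.flt_int (p := 3) le_rfl hx.ne'
      (mul_ne_zero (pow_ne_zero q two_ne_zero) hy.ne' : (2 : ℤ) ^ q * y ≠ 0) hz.ne' ?_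
    rw [← h, hq]; ring
  · obtain ⟨q, hq⟩ : ∃ q, k = 3 * q + 1 := ⟨k / 3, by omega⟩
    have h2 : x ^ 3 + 2 * (2 ^ q * y) ^ 3 = z ^ 3 := by rw [← h, hq]; ring
    have h3 : 0 < 2 ^ q * y := by positivity
    rcases CubesAP.two_mul_cube h2 with ⟨h4, -⟩ | ⟨h4, -⟩ <;> omega

/-- **Summary.** -/
theorem fermat_two_pow_nat {n k : ℕ} (h : 4 ∣ n ∨ (3 ∣ n ∧ k % 3 ≠ 2) ∨
      ∃ p : ℕ, p.Prime ∧ 5 ≤ p ∧ p ∣ n ∧ (k % p = 0 ∨ 4 ≤ k % p))
    {x y z : ℕ} (hx : 0 < x) (hy : 0 < y) (hz : 0 < z) : x ^ n + 2 ^ k * y ^ n ≠ z ^ n := by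
  intro he
  have he' : (x : ℤ) ^ n + 2 ^ k * (y : ℤ) ^ n = (z : ℤ) ^ n := by exact_mod_cast he
  have hx' : (0 : ℤ) < x := by exact_mod_cast hx
  have hy' : (0 : ℤ) < y := by exact_mod_cast hy
  have hz' : (0 : ℤ) < z := by exact_mod_cast hz
  rcases h with ⟨m, rfl⟩ | ⟨⟨m, rfl⟩, hk⟩ | ⟨p, hp, hp5, hpn, hk⟩
  · rw [mul_comm 4 m, pow_mul, pow_mul, pow_mul] at he'
    exact FourthPow.fourth_two_pow k (pow_pos hx' m).ne' (pow_pos hy' m).ne' he'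
  · rw [mul_comm 3 m, pow_mul, pow_mul, pow_mul] at he'
    exact cubes hk (pow_pos hx' m) (pow_pos hy' m) (pow_pos hz' m) he'
  · exact H24.fermat_two_pow_exponent_all hp hpn hp5 hk hx'.ne' hy'.ne' hz'.ne' he'

/-- For `4 ∣ n`, `n > 0` there is no solution at all, whatever `k` is. -/
theorem fermat_two_pow_of_four {n : ℕ} (h : 4 ∣ n) (k : ℕ) {x y z : ℕ} (hx : 0 < x) (hy : 0 < y)
    (hz : 0 < z) : x ^ n + 2 ^ k * y ^ n ≠ z ^ n :=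
  fermat_two_pow_nat (Or.inl h) hx hy hz

end Fermat.Agent.Cor.FermatTwoPow
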