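import Fermat.Agent.Cor.FourSqRep
import Fermat.Agent.H13.E2
import Fermat.Agent.H14.Num4
import Fermat.Prelude.Thm_ModularForm_sturm_bound_Gamma0

/-!
# Jacobi's four-square theorem

`jacobi_four_squares`: for `n > 0` the number of `(a, b, c, d) ∈ ℤ⁴` with
`a² + b² + c² + d² = n` is `8 ∑_{d ∣ n, 4 ∤ d} d`.

The proof compares two elements of `M₂(Γ₀(4))` by the Sturm bound (coefficients of `1` and `q`):
`θ(2τ)⁴` and `(4 E₂(4τ) - E₂(τ)) / 3`.

This file is not used by any of the statement files.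
-/

set_option autoImplicit false

open Filter Topology Function
open UpperHalfPlane hiding I
open CongruenceSubgroup PowerSeries
open scoped Real MatrixGroups ModularForm Manifold
open Fermat.Agent.IntStr Fermat.Agent.AL
open ModularFormClass (qCoeff)

noncomputable section

namespace Fermat.Agent.Cor.FourSq

/-! ### The Eisenstein series of level two -/

/-- `2 E₂(2τ) - E₂(τ)` -/
def e : ModularForm (Gamma0 2) 2 := haveI : Fact (Nat.Prime 2) := ⟨Nat.prime_two⟩; H13.eisForm 2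

/-- The coefficients of `e`. -/
def ce (n : ℕ) : ℂ := (if n = 0 then 1 else 0) + 24 * (ArithmeticFunction.sigma 1 n : ℕ) -
  48 * (if 2 ∣ n then (ArithmeticFunction.sigma 1 (n / 2) : ℕ) else 0)

theorem coeff_e2 (n : ℕ) : coeff n (H13.e2 ℂ) = (if n = 0 then 1 else 0) -
    24 * (ArithmeticFunction.sigma 1 n : ℕ) := by
  rw [H13.e2, map_sub, H13.coeff_ofNat_mul, H13.coeff_sser, coeff_one]

theorem qCoeff_e (n : ℕ) : qCoeff e n = ce n := by
  have : Fact (Nat.Prime 2) := ⟨Nat.prime_two⟩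
  have h : qExpansion 1 e = _ := H13.qExpansion_eisForm (N := 2)
  rw [qCoeff, h, map_sub, coeff_C_mul, coeff_e2, ce]
  by_cases h2 : 2 ∣ n
  · obtain ⟨m, rfl⟩ := h2
    rw [coeff_expand_mul, coeff_e2, if_pos (dvd_mul_right _ _), Nat.mul_div_cancel_left _ two_pos]
    have : (2 * m = 0) ↔ m = 0 := by omega
    simp only [this]
    split_ifs <;> push_cast <;> ring
  · rw [coeff_expand_of_not_dvd _ _ _ h2, if_neg h2]
    have : n ≠ 0 := by rintro rfl; exact h2 (dvd_zero _)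
    rw [if_neg this]
    ring

/-- `e(dτ)` as a function of level 4 -/
theorem isMN_e (d : ℕ) (hd : 0 < d) (h : 2 * d ∣ 4) : IsMN 4 2 (fun z ↦ e (aff d 1 0 z)) :=
  isMN_aff hd h (isMN_coe e)

theorem hasSum_e {d : ℕ} (hd : 0 < d) (h : 2 * d ∣ 4) (τ : ℍ) :
    HasSum (fun n : ℕ ↦ (if d ∣ n then ce (n / d) else 0) • Periodic.qParam 1 (τ : ℂ) ^ n)
      (e (aff d 1 0 τ)) := by
  have hQ := (isMN_e d hd h).mem_QR
  have h1 := UpperHalfPlane.hasSum_qExpansion one_pos hQ.1 hQ.2.1 hQ.2.2 τ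
  convert h1 using 1
  ext n
  congr 1
  have h2 := qExp_comp_mul (isMN_coe e).mem_QR hd hQ n
  rw [qCoeff_e] at h2
  exact h2.symm

/-- `(4 E₂(4τ) - E₂(τ)) / 3 - θ(2τ)⁴` -/
def D : ModularForm (Gamma0 4) 2 := (2 / 3 : ℂ) • (isMN_e 2 two_pos (by norm_num)).form +
  (1 / 3 : ℂ) • (isMN_e 1 one_pos (by norm_num)).form - isMN_F.form

/-- The coefficients of `D`. -/
def cD (n : ℕ) : ℂ := 2 / 3 * (if 2 ∣ n then ce (n / 2) else 0) + 1 / 3 * ce n - r4 n

theorem D_apply (τ : ℍ) : D τ = 2 / 3 * e (aff 2 1 0 τ) + 1 / 3 * e (aff 1 1 0 τ) - F τ := rfl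

theorem coeff_D (n : ℕ) : (qExpansion 1 D).coeff n = cD n := by
  refine (ModularFormClass.qExpansion_coeff_unique (c := cD)
    (h := 1) one_pos (Γ := (Gamma0 4 : Subgroup (GL (Fin 2) ℝ)))
    (by simp [CongruenceSubgroup.strictPeriods_Gamma0]) (f := D) (fun τ ↦ ?_) n).symm
  have h1 := (hasSum_e two_pos (by norm_num) τ).mul_left (2 / 3 : ℂ)
  have h2 := (hasSum_e one_pos (by norm_num) τ).mul_left (1 / 3 : ℂ)
  have h3 := (h1.add h2).sub (hasSum_r4 τ)
  rw [D_apply]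
  have h4 : (fun m ↦ cD m • Periodic.qParam 1 (τ : ℂ) ^ m) = fun m ↦
      2 / 3 * (if 2 ∣ m then ce (m / 2) else 0) • Periodic.qParam 1 (τ : ℂ) ^ m +
        1 / 3 * (if 1 ∣ m then ce (m / 1) else 0) • Periodic.qParam 1 (τ : ℂ) ^ m -
      (r4 m : ℂ) • Periodic.qParam 1 (τ : ℂ) ^ m := by
    funext m
    simp only [cD, smul_eq_mul, one_dvd, if_true, Nat.div_one]
    ring
  rw [h4]
  exact h3

theorem index_four : (Gamma0 4).index = 6 := by
  have h := H14.card_X 4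
  have h2 : ModularCurve.dedekindPsi 4 = 6 := by
    rw [ModularCurve.dedekindPsi]
    decide +kernel
  rw [h2] at h
  exact h

theorem D_eq_zero : D = 0 := by
  refine ModularForm.sturm_bound_Gamma0 4 D fun n hn ↦ ?_
  rw [index_four] at hn
  have hn' : n ≤ 1 := hn
  rw [coeff_D, cD]
  interval_cases n
  · simp [r4_zero, ce]
    norm_num
  · simp [r4_one, ce]
    norm_num

theorem r4_eq_ce (n : ℕ) : (r4 n : ℂ) = 2 / 3 * (if 2 ∣ n then ce (n / 2) else 0) + 1 / 3 * ce n := by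
  have h := coeff_D n
  have h0 : (qExpansion 1 D).coeff n = 0 := by
    rw [D_eq_zero, FunLike.coe_zero, qExpansion_zero]
    rfl
  rw [h0, cD] at h
  linear_combination h

theorem r4_eq_sigma {n : ℕ} (hn : 0 < n) : (r4 n : ℂ) = 8 * (ArithmeticFunction.sigma 1 n : ℕ) -
    32 * (if 4 ∣ n then (ArithmeticFunction.sigma 1 (n / 4) : ℕ) else 0) := by
  rw [r4_eq_ce]
  by_cases h2 : 2 ∣ n
  · obtain ⟨m, rfl⟩ := h2
    have hm : m ≠ 0 := by omega
    have h4 : 4 ∣ 2 * m ↔ 2 ∣ m := by omega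
    have h5 : 2 * m / 4 = m / 2 := by omega
    rw [if_pos (dvd_mul_right _ _), Nat.mul_div_cancel_left _ two_pos, ce, ce,
      if_pos (dvd_mul_right 2 m), Nat.mul_div_cancel_left _ two_pos, if_neg hm, if_neg hn.ne', h5]
    simp only [h4]
    ring
  · have h4 : ¬ 4 ∣ n := fun h ↦ h2 ((by norm_num : 2 ∣ 4).trans h)
    rw [if_neg h2, if_neg h4, ce, if_neg h2, if_neg hn.ne']
    ring

theorem sum_filter_four {n : ℕ} (hn : 0 < n) : ∑ d ∈ n.divisors.filter (4 ∣ ·), d =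
    if 4 ∣ n then 4 * ArithmeticFunction.sigma 1 (n / 4) else 0 := by
  split_ifs with h
  · obtain ⟨l, rfl⟩ := h
    rw [Nat.mul_div_cancel_left _ (by norm_num), ArithmeticFunction.sigma_one_apply, Finset.mul_sum]
    have e1 : (4 * l).divisors.filter (4 ∣ ·) = l.divisors.image (4 * ·) := by
      ext d
      simp only [Finset.mem_filter, Nat.mem_divisors, Finset.mem_image]
      constructor
      · rintro ⟨⟨h1, h2⟩, c, rfl⟩
        exact ⟨c, ⟨Nat.dvd_of_mul_dvd_mul_left (by norm_num) h1, by omega⟩, rfl⟩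
      · rintro ⟨c, ⟨h1, h2⟩, rfl⟩
        exact ⟨⟨Nat.mul_dvd_mul_left 4 h1, by omega⟩, dvd_mul_right _ _⟩
    rw [e1, Finset.sum_image]
    intro x _ y _ hxy
    simpa using hxy
  · refine Finset.sum_eq_zero fun d hd ↦ ?_
    rw [Finset.mem_filter, Nat.mem_divisors] at hd
    exact absurd (hd.2.trans hd.1.1) h

/-- **Jacobi's four-square theorem.** The number of representations of `n > 0` as a sum of four
squares of integers is eight times the sum of the divisors of `n` which are not divisible by `4`. -/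
theorem jacobi_four_squares {n : ℕ} (hn : 0 < n) :
    Nat.card {x : ℤ × ℤ × ℤ × ℤ // x.1 ^ 2 + x.2.1 ^ 2 + x.2.2.1 ^ 2 + x.2.2.2 ^ 2 = n} =
      8 * ∑ d ∈ n.divisors.filter (¬ 4 ∣ ·), d := by
  have h1 := r4_eq_sigma hn
  have h2 := sum_filter_four hn
  have h3 := Finset.sum_filter_add_sum_filter_not n.divisors (4 ∣ ·) (fun d : ℕ ↦ d)
  rw [h2, ← ArithmeticFunction.sigma_one_apply] at h3
  change r4 n = _
  have h4 : (r4 n : ℂ) = ((8 * ∑ d ∈ n.divisors.filter (¬ 4 ∣ ·), d : ℕ) : ℂ) := by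
    rw [h1, ← h3]
    split_ifs <;> push_cast <;> ring
  exact_mod_cast h4

/-- In particular every positive integer is a sum of four squares, in at least eight ways. -/
theorem eight_le_card {n : ℕ} (hn : 0 < n) : 8 ≤
    Nat.card {x : ℤ × ℤ × ℤ × ℤ // x.1 ^ 2 + x.2.1 ^ 2 + x.2.2.1 ^ 2 + x.2.2.2 ^ 2 = n} := by
  rw [jacobi_four_squares hn]
  have h1 : 1 ∈ n.divisors.filter (¬ 4 ∣ ·) := by
    rw [Finset.mem_filter, Nat.mem_divisors]
    exact ⟨⟨one_dvd _, hn.ne'⟩, by norm_num⟩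
  have h2 := Finset.single_le_sum (f := fun d : ℕ ↦ d) (fun _ _ ↦ Nat.zero_le _) h1
  have h3 : 1 ≤ ∑ d ∈ n.divisors.filter (¬ 4 ∣ ·), d := h2
  omega

/-- For an odd prime `p` there are `8 (p + 1)` representations. -/
theorem card_prime {p : ℕ} (hp : p.Prime) (h2 : p ≠ 2) :
    Nat.card {x : ℤ × ℤ × ℤ × ℤ // x.1 ^ 2 + x.2.1 ^ 2 + x.2.2.1 ^ 2 + x.2.2.2 ^ 2 = p} =
      8 * (p + 1) := by
  rw [jacobi_four_squares hp.pos]
  have h4 : p.divisors.filter (¬ 4 ∣ ·) = p.divisors := by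
    refine Finset.filter_true_of_mem fun d hd h ↦ ?_
    have h3 : 2 ∣ p := ((by norm_num : 2 ∣ 4).trans h).trans (Nat.dvd_of_mem_divisors hd)
    exact h2 ((Nat.prime_dvd_prime_iff_eq Nat.prime_two hp).mp h3).symm
  rw [h4, hp.sum_divisors]

end Fermat.Agent.Cor.FourSq
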