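import Fermat.Agent.Cor.FourSqTheta

/-!
# The `q`-expansion of `θ(2τ)⁴`

This file is not used by any of the statement files.
-/

set_option autoImplicit false

open Complex Filter Topology Function
open UpperHalfPlane hiding I
open scoped Real MatrixGroups ModularForm Manifold
open Fermat.Agent.IntStr Fermat.Agent.AL

noncomputable section

namespace Fermat.Agent.Cor.FourSq

/-- The sum of the four squares. -/
def sq4 (x : ℤ × ℤ × ℤ × ℤ) : ℤ := x.1 ^ 2 + x.2.1 ^ 2 + x.2.2.1 ^ 2 + x.2.2.2 ^ 2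

theorem sq4_nonneg (x : ℤ × ℤ × ℤ × ℤ) : 0 ≤ sq4 x := by
  rw [sq4]; positivity

/-- The number of representations as a sum of four squares. -/
def r4 (n : ℕ) : ℕ := Nat.card {x : ℤ × ℤ × ℤ × ℤ // sq4 x = n}

theorem prod_as {ι κ : Type*} {f : ι → ℂ} {g : κ → ℂ} {a b : ℂ}
    (hf : (Summable fun i ↦ ‖f i‖) ∧ HasSum f a) (hg : (Summable fun i ↦ ‖g i‖) ∧ HasSum g b) :
    (Summable fun p : ι × κ ↦ ‖f p.1 * g p.2‖) ∧ HasSum (fun p : ι × κ ↦ f p.1 * g p.2) (a * b) :=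
  ⟨hf.1.mul_norm hg.1, hf.2.mul hg.2 (summable_mul_of_summable_norm hf.1 hg.1)⟩

theorem hasSum_F (τ : ℍ) :
    HasSum (fun x : ℤ × ℤ × ℤ × ℤ ↦ Periodic.qParam 1 (τ : ℂ) ^ (sq4 x).toNat) (F τ) := by
  have him : 0 < ((aff 2 1 0 τ : ℍ) : ℂ).im := (aff 2 1 0 τ).im_pos
  have h0 : (Summable fun n : ℤ ↦ ‖jacobiTheta₂_term n 0 (aff 2 1 0 τ)‖) ∧
      HasSum (fun n : ℤ ↦ jacobiTheta₂_term n 0 (aff 2 1 0 τ)) (jacobiTheta (aff 2 1 0 τ)) := by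
    rw [jacobiTheta_eq_jacobiTheta₂]
    exact ⟨((summable_jacobiTheta₂_term_iff _ _).mpr him).norm, hasSum_jacobiTheta₂_term _ him⟩
  have h1 := (prod_as h0 (prod_as h0 (prod_as h0 h0))).2
  have e1 : jacobiTheta (aff 2 1 0 τ) * (jacobiTheta (aff 2 1 0 τ) * (jacobiTheta (aff 2 1 0 τ) *
      jacobiTheta (aff 2 1 0 τ))) = F τ := by
    rw [F, G]; ring
  rw [e1] at h1
  convert h1 using 1
  ext x
  have e2 : (((sq4 x).toNat : ℕ) : ℂ) = x.1 ^ 2 + x.2.1 ^ 2 + x.2.2.1 ^ 2 + x.2.2.2 ^ 2 := by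
    have : (((sq4 x).toNat : ℕ) : ℤ) = x.1 ^ 2 + x.2.1 ^ 2 + x.2.2.1 ^ 2 + x.2.2.2 ^ 2 :=
      Int.toNat_of_nonneg (sq4_nonneg x)
    exact_mod_cast congrArg (Int.cast : ℤ → ℂ) this
  rw [Periodic.qParam, ← Complex.exp_nat_mul, e2]
  simp only [jacobiTheta₂_term, ← Complex.exp_add, coe_aff two_pos one_pos]
  congr 1
  push_cast
  ring

theorem hasSum_r4 (τ : ℍ) :
    HasSum (fun n : ℕ ↦ (r4 n : ℂ) • Periodic.qParam 1 (τ : ℂ) ^ n) (F τ) := by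
  have h2 := (hasSum_F τ).tsum_fiberwise (fun x ↦ (sq4 x).toNat)
  have h3 : (fun n : ℕ ↦ (r4 n : ℂ) • Periodic.qParam 1 (τ : ℂ) ^ n) = fun n ↦
      ∑' b : (fun x ↦ (sq4 x).toNat) ⁻¹' {n}, Periodic.qParam 1 (τ : ℂ) ^ (sq4 b).toNat := by
    ext n
    have e : (fun b : (fun x ↦ (sq4 x).toNat) ⁻¹' {n} ↦ Periodic.qParam 1 (τ : ℂ) ^ (sq4 b).toNat) =
        fun _ ↦ Periodic.qParam 1 (τ : ℂ) ^ n := by
      ext b
      have : (sq4 b).toNat = n := b.2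
      rw [this]
    rw [e, tsum_const, smul_eq_mul, nsmul_eq_mul]
    congr 2
    rw [r4]
    refine Nat.card_congr (Equiv.subtypeEquivRight fun x ↦ ?_)
    have := sq4_nonneg x
    constructor
    · intro h
      change (sq4 x).toNat = n
      omega
    · intro h
      have h' : (sq4 x).toNat = n := h
      omega
  rw [h3]
  exact h2

theorem r4_eq (n : ℕ) (s : Finset (ℤ × ℤ × ℤ × ℤ)) (h : ∀ x, x ∈ s ↔ sq4 x = n) :
    r4 n = s.card := Nat.subtype_card s h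

/-- A box. -/
def box (m : ℤ) : Finset (ℤ × ℤ × ℤ × ℤ) :=
  Finset.Icc (-m) m ×ˢ Finset.Icc (-m) m ×ˢ Finset.Icc (-m) m ×ˢ Finset.Icc (-m) m

theorem mem_box {n : ℕ} {m : ℤ} (hm : 0 ≤ m) (h : (n : ℤ) < (m + 1) ^ 2) {x : ℤ × ℤ × ℤ × ℤ}
    (hx : sq4 x = n) : x ∈ box m := by
  have key : ∀ y : ℤ, y ^ 2 ≤ n → -m ≤ y ∧ y ≤ m := by
    intro y hy
    have h1 : y ^ 2 < (m + 1) ^ 2 := lt_of_le_of_lt hy h
    have h2 := abs_lt_of_sq_lt_sq h1 (by omega)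
    rw [abs_lt] at h2
    omega
  rw [sq4] at hx
  simp only [box, Finset.mem_product, Finset.mem_Icc]
  refine ⟨key _ ?_, key _ ?_, key _ ?_, key _ ?_⟩ <;> nlinarith [sq_nonneg x.1, sq_nonneg x.2.1,
    sq_nonneg x.2.2.1, sq_nonneg x.2.2.2]

theorem r4_zero : r4 0 = 1 := by
  rw [r4_eq 0 ((box 0).filter fun x ↦ sq4 x = 0) fun x ↦ ?_]
  · decide
  · rw [Finset.mem_filter]
    exact ⟨fun h ↦ by simpa using h.2, fun h ↦ ⟨mem_box le_rfl (by norm_num) h, by simpa using h⟩⟩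

theorem r4_one : r4 1 = 8 := by
  rw [r4_eq 1 ((box 1).filter fun x ↦ sq4 x = 1) fun x ↦ ?_]
  · decide +kernel
  · rw [Finset.mem_filter]
    exact ⟨fun h ↦ by simpa using h.2,
      fun h ↦ ⟨mem_box one_pos.le (by norm_num) h, by simpa using h⟩⟩

end Fermat.Agent.Cor.FourSq
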