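import Mathlib
import Fermat.Agent.AL.Level

/-!
# The fourth power of the theta function is a modular form of weight 2 on `Γ₀(4)`

This file is not used by any of the statement files.
-/

set_option autoImplicit false

open Complex Filter Topology Function
open UpperHalfPlane hiding I
open CongruenceSubgroup
open scoped Real MatrixGroups ModularForm Manifold
open Fermat.Agent.IntStr Fermat.Agent.AL

noncomputable section

namespace Fermat.Agent.Cor.FourSq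

/-! ### Slash invariance of a function -/

/-- The elements of `SL₂(ℤ)` fixing a function (weight two). -/
def fixer (f : ℍ → ℂ) : Subgroup SL(2, ℤ) where
  carrier := {γ | f ∣[(2 : ℤ)] γ = f}
  mul_mem' := by
    intro a b ha hb
    change f ∣[(2 : ℤ)] (a * b) = f
    rw [SlashAction.slash_mul, show f ∣[(2 : ℤ)] a = f from ha, show f ∣[(2 : ℤ)] b = f from hb]
  one_mem' := SlashAction.slash_one _ _
  inv_mem' := by
    intro a ha
    change f ∣[(2 : ℤ)] a⁻¹ = f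
    conv_lhs => rw [← show f ∣[(2 : ℤ)] a = f from ha]
    rw [← SlashAction.slash_mul, mul_inv_cancel, SlashAction.slash_one]

theorem mem_fixer {f : ℍ → ℂ} {γ : SL(2, ℤ)} : γ ∈ fixer f ↔ f ∣[(2 : ℤ)] γ = f := Iff.rfl

theorem neg_one_mem_fixer (f : ℍ → ℂ) : (-1 : SL(2, ℤ)) ∈ fixer f := by
  change f ∣[(2 : ℤ)] (-1 : SL(2, ℤ)) = f
  ext τ
  rw [ModularForm.slash_action_eq'_iff]
  rw [ModularGroup.SL_neg_smul, one_smul]
  simp

/-- `(1 0; 4 1)` -/
def U4 : SL(2, ℤ) := ⟨!![1, 0; 4, 1], by decide⟩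

theorem coe_U4_zpow (y : ℤ) : ((U4 ^ y : SL(2, ℤ)) : Matrix (Fin 2) (Fin 2) ℤ) =
    !![1, 0; 4 * y, 1] := by
  induction y with
  | zero => rw [zpow_zero, Matrix.SpecialLinearGroup.coe_one, Matrix.one_fin_two]; simp
  | succ n h =>
    rw [zpow_add, zpow_one, Matrix.SpecialLinearGroup.coe_mul, h, U4]
    ext i j
    fin_cases i <;> fin_cases j <;> (simp [Matrix.mul_apply, Fin.sum_univ_two]; try ring)
  | pred n h =>
    have hU : ((U4⁻¹ : SL(2, ℤ)) : Matrix (Fin 2) (Fin 2) ℤ) = !![1, 0; -4, 1] := by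
      rw [Matrix.SpecialLinearGroup.SL2_inv_expl]
      ext i j
      fin_cases i <;> fin_cases j <;> rfl
    rw [zpow_sub, zpow_one, Matrix.SpecialLinearGroup.coe_mul, h, hU]
    ext i j
    fin_cases i <;> fin_cases j <;> (simp [Matrix.mul_apply, Fin.sum_univ_two]; try ring)

/-- Division with smallest remainder. -/
theorem exists_small {m : ℤ} (hm : m ≠ 0) (a : ℤ) : ∃ x : ℤ, 2 * (a + x * m).natAbs ≤ m.natAbs := by
  have h1 := Int.emod_nonneg a hm
  have h2 := Int.emod_lt_abs a hm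
  rw [Int.abs_eq_natAbs] at h2
  have h3 := Int.emod_add_mul_ediv a m
  rcases le_total (2 * (a % m)) (m.natAbs : ℤ) with h | h
  · refine ⟨-(a / m), ?_⟩
    have e : a + -(a / m) * m = a % m := by linear_combination -h3
    rw [e]
    omega
  · rcases lt_or_gt_of_ne hm with h0 | h0
    · refine ⟨-(a / m) + 1, ?_⟩
      have e : a + (-(a / m) + 1) * m = a % m + m := by linear_combination -h3
      rw [e]
      omega
    · refine ⟨-(a / m) - 1, ?_⟩
      have e : a + (-(a / m) - 1) * m = a % m - m := by linear_combination -h3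
      rw [e]
      omega

/-- `Γ₀(4)` is generated by `-1`, `T` and `(1 0; 4 1)`. -/
theorem gamma0_four_le (H : Subgroup SL(2, ℤ)) (hT : ModularGroup.T ∈ H)
    (hneg : (-1 : SL(2, ℤ)) ∈ H) (hU : U4 ∈ H) : Gamma0 4 ≤ H := by
  have hnegmem : ∀ γ : SL(2, ℤ), -γ ∈ H → γ ∈ H := fun γ h ↦ by
    have := H.mul_mem hneg h
    simpa using this
  have key : ∀ n : ℕ, ∀ (γ : SL(2, ℤ)) (c : ℤ), γ 1 0 = 4 * c → c.natAbs = n → γ ∈ H := by
    intro n
    induction n using Nat.strong_induction_on with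
    | _ n ih =>
      intro γ c hc hn
      have hdet : γ 0 0 * γ 1 1 - γ 0 1 * γ 1 0 = 1 := by
        have := γ.det_coe
        rwa [Matrix.det_fin_two] at this
      by_cases hc0 : c = 0
      · rw [hc0, mul_zero] at hc
        rw [hc, mul_zero, sub_zero] at hdet
        rcases Int.eq_one_or_neg_one_of_mul_eq_one' hdet with ⟨h00, h11⟩ | ⟨h00, h11⟩
        · have : γ = ModularGroup.T ^ (γ 0 1) := by
            ext i j
            rw [ModularGroup.coe_T_zpow]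
            fin_cases i <;> fin_cases j <;> simp [hc, h00, h11]
          rw [this]
          exact H.zpow_mem hT _
        · apply hnegmem
          have : -γ = ModularGroup.T ^ (-γ 0 1) := by
            ext i j
            rw [ModularGroup.coe_T_zpow]
            fin_cases i <;> fin_cases j <;> simp [hc, h00, h11]
          rw [this]
          exact H.zpow_mem hT _
      · -- reduce `d` modulo `c`
        have hodd : ∀ x : ℤ, (γ 1 1 + x * (4 * c)) % 2 = 1 := by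
          intro x
          have h2 : ¬ (2 : ℤ) ∣ γ 1 1 := by
            rintro ⟨e, he⟩
            rw [hc, he] at hdet
            have : (2 : ℤ) ∣ 1 := ⟨γ 0 0 * e - γ 0 1 * (2 * c), by linear_combination -hdet⟩
            omega
          have : x * (4 * c) = 2 * (x * (2 * c)) := by ring
          rw [this]
          omega
        obtain ⟨x, hx⟩ := exists_small (m := 4 * c) (by omega) (γ 1 1)
        have ho := hodd x
        set d := γ 1 1 + x * (4 * c) with hd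
        obtain ⟨y, hy⟩ := exists_small (m := 4 * d) (by omega) (4 * c)
        have h1 : γ * ModularGroup.T ^ x * U4 ^ y ∈ H := by
          refine ih _ ?_ _ (c + y * d) ?_ rfl
          · rw [← hn]
            have e : 4 * c + y * (4 * d) = 4 * (c + y * d) := by ring
            rw [e] at hy
            omega
          · have e : (γ * ModularGroup.T ^ x * U4 ^ y) 1 0 =
                γ 1 0 + (γ 1 0 * x + γ 1 1) * (4 * y) := by
              rw [Matrix.SpecialLinearGroup.coe_mul, Matrix.SpecialLinearGroup.coe_mul,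
                coe_U4_zpow, ModularGroup.coe_T_zpow]
              simp [Matrix.mul_apply, Fin.sum_univ_two]
            rw [e, hc, hd]
            ring
        have h2 : γ = (γ * ModularGroup.T ^ x * U4 ^ y) * (U4 ^ y)⁻¹ * (ModularGroup.T ^ x)⁻¹ := by
          group
        rw [h2]
        exact H.mul_mem (H.mul_mem h1 (H.inv_mem (H.zpow_mem hU _))) (H.inv_mem (H.zpow_mem hT _))
  intro γ hγ
  rw [mem_Gamma0_iff] at hγ
  obtain ⟨c, hc⟩ := hγ
  exact key _ γ c (by exact_mod_cast hc) rfl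

/-! ### The function `θ⁴` -/

/-- `θ⁴`, `θ(τ) = ∑ exp(π i n² τ)`. -/
def G (τ : ℍ) : ℂ := jacobiTheta τ ^ 4

theorem G_T_sq : G ∣[(2 : ℤ)] (ModularGroup.T ^ 2) = G := by
  ext τ
  rw [ModularForm.slash_action_eq'_iff]
  have h : (ModularGroup.T ^ 2 : SL(2, ℤ)) 1 0 = 0 ∧ (ModularGroup.T ^ 2 : SL(2, ℤ)) 1 1 = 1 := by
    decide
  rw [G, G, jacobiTheta_T_sq_smul, h.1, h.2]
  simp

theorem G_S : G ∣[(2 : ℤ)] ModularGroup.S = -G := by
  ext τ
  have h1 : G (ModularGroup.S • τ) = -(τ : ℂ) ^ 2 * G τ := by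
    rw [G, G, jacobiTheta_S_smul, mul_pow, ← Complex.cpow_nat_mul]
    have : ((4 : ℕ) : ℂ) * (1 / 2 : ℂ) = ((2 : ℕ) : ℂ) := by norm_num
    rw [this, Complex.cpow_natCast, mul_pow, neg_sq, I_sq]
    ring
  rw [ModularForm.SL_slash_apply, h1, ModularGroup.denom_S]
  have hz : (τ : ℂ) ≠ 0 := ne_zero τ
  rw [Pi.neg_apply]
  have : ((τ : ℂ)) ^ (-2 : ℤ) = ((τ : ℂ) ^ 2)⁻¹ := by
    rw [zpow_neg]; norm_cast
  rw [this]
  field_simp

/-- `θ(τ + 1)⁴` -/
def G1 : ℍ → ℂ := G ∣[(2 : ℤ)] ModularGroup.T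

/-- the third conjugate -/
def G2 : ℍ → ℂ := G1 ∣[(2 : ℤ)] ModularGroup.S

theorem neg_slash_two (f : ℍ → ℂ) (γ : SL(2, ℤ)) : (-f) ∣[(2 : ℤ)] γ = -(f ∣[(2 : ℤ)] γ) :=
  SlashAction.neg_slash _ _ _

theorem S_slash_S (f : ℍ → ℂ) : (f ∣[(2 : ℤ)] ModularGroup.S) ∣[(2 : ℤ)] ModularGroup.S = f := by
  rw [← SlashAction.slash_mul]
  have : ModularGroup.S * ModularGroup.S = -1 := by decide
  rw [this]
  exact neg_one_mem_fixer f

theorem slash_inv_eq {f g : ℍ → ℂ} {γ : SL(2, ℤ)} (h : g ∣[(2 : ℤ)] γ = f) :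
    f ∣[(2 : ℤ)] γ⁻¹ = g := by
  rw [← h, ← SlashAction.slash_mul, mul_inv_cancel, SlashAction.slash_one]

theorem slash_inj {f g : ℍ → ℂ} {γ : SL(2, ℤ)} (h : f ∣[(2 : ℤ)] γ = g ∣[(2 : ℤ)] γ) : f = g := by
  rw [← slash_inv_eq h.symm]
  rw [slash_inv_eq rfl]

theorem G1_T : G1 ∣[(2 : ℤ)] ModularGroup.T = G := by
  rw [G1, ← SlashAction.slash_mul, ← pow_two, G_T_sq]

theorem G2_S : G2 ∣[(2 : ℤ)] ModularGroup.S = G1 := S_slash_S _

theorem G2_T : G2 ∣[(2 : ℤ)] ModularGroup.T = -G2 := by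
  have h : ModularGroup.T * (ModularGroup.S * (ModularGroup.T * (ModularGroup.S *
    ModularGroup.T))) = ModularGroup.S := by decide
  have h2 : ((G2 ∣[(2 : ℤ)] ModularGroup.T) ∣[(2 : ℤ)] ModularGroup.S) ∣[(2 : ℤ)] ModularGroup.T =
      -G := by
    rw [G2, G1, ← SlashAction.slash_mul, ← SlashAction.slash_mul, ← SlashAction.slash_mul,
      ← SlashAction.slash_mul, h, G_S]
  have h3 : (G2 ∣[(2 : ℤ)] ModularGroup.T) ∣[(2 : ℤ)] ModularGroup.S = -G1 := by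
    refine slash_inj (γ := ModularGroup.T) ?_
    rw [h2, neg_slash_two, G1_T]
  refine slash_inj (γ := ModularGroup.S) ?_
  rw [h3, neg_slash_two, G2_S]

/-- The six functions `±G`, `±G1`, `±G2`. -/
def X : Set (ℍ → ℂ) := {G, -G, G1, -G1, G2, -G2}

/-- The elements preserving `X`. -/
def XH : Subgroup SL(2, ℤ) where
  carrier := {γ | ∀ f ∈ X, f ∣[(2 : ℤ)] γ ∈ X ∧ f ∣[(2 : ℤ)] γ⁻¹ ∈ X}
  one_mem' := by
    intro f hf
    rw [inv_one, SlashAction.slash_one]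
    exact ⟨hf, hf⟩
  mul_mem' := by
    intro a b ha hb f hf
    rw [mul_inv_rev, SlashAction.slash_mul, SlashAction.slash_mul]
    exact ⟨(hb _ (ha _ hf).1).1, (ha _ (hb _ hf).2).2⟩
  inv_mem' := by
    intro a ha f hf
    rw [inv_inv]
    exact (ha f hf).symm

theorem neg_mem_X {f : ℍ → ℂ} (hf : f ∈ X) : -f ∈ X := by
  simp only [X, Set.mem_insert_iff, Set.mem_singleton_iff] at hf ⊢
  rcases hf with rfl | rfl | rfl | rfl | rfl | rfl <;> simp

theorem G_mem : G ∈ X := by simp [X]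
theorem G1_mem : G1 ∈ X := by simp [X]
theorem G2_mem : G2 ∈ X := by simp [X]

theorem mem_XH {γ : SL(2, ℤ)} (h0 : G ∣[(2 : ℤ)] γ ∈ X) (h1 : G1 ∣[(2 : ℤ)] γ ∈ X)
    (h2 : G2 ∣[(2 : ℤ)] γ ∈ X) (h0' : G ∣[(2 : ℤ)] γ⁻¹ ∈ X) (h1' : G1 ∣[(2 : ℤ)] γ⁻¹ ∈ X)
    (h2' : G2 ∣[(2 : ℤ)] γ⁻¹ ∈ X) : γ ∈ XH := by
  intro f hf
  simp only [X, Set.mem_insert_iff, Set.mem_singleton_iff] at hf
  rcases hf with rfl | rfl | rfl | rfl | rfl | rfl
  · exact ⟨h0, h0'⟩
  · rw [neg_slash_two, neg_slash_two]; exact ⟨neg_mem_X h0, neg_mem_X h0'⟩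
  · exact ⟨h1, h1'⟩
  · rw [neg_slash_two, neg_slash_two]; exact ⟨neg_mem_X h1, neg_mem_X h1'⟩
  · exact ⟨h2, h2'⟩
  · rw [neg_slash_two, neg_slash_two]; exact ⟨neg_mem_X h2, neg_mem_X h2'⟩

theorem XH_eq_top : XH = ⊤ := by
  rw [eq_top_iff, ← SpecialLinearGroup.SL2Z_generators, Subgroup.closure_le]
  rintro γ (rfl | rfl)
  · refine mem_XH ?_ G2_mem ?_ ?_ ?_ ?_
    · rw [G_S]; exact neg_mem_X G_mem
    · rw [G2_S]; exact G1_mem
    · have : G ∣[(2 : ℤ)] ModularGroup.S⁻¹ = -G :=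
        slash_inv_eq (by rw [neg_slash_two, G_S, neg_neg])
      change G ∣[(2 : ℤ)] ModularGroup.S⁻¹ ∈ X
      rw [this]; exact neg_mem_X G_mem
    · have : G1 ∣[(2 : ℤ)] ModularGroup.S⁻¹ = G2 := slash_inv_eq G2_S
      change G1 ∣[(2 : ℤ)] ModularGroup.S⁻¹ ∈ X
      rw [this]; exact G2_mem
    · have : G2 ∣[(2 : ℤ)] ModularGroup.S⁻¹ = G1 := slash_inv_eq rfl
      change G2 ∣[(2 : ℤ)] ModularGroup.S⁻¹ ∈ X
      rw [this]; exact G1_mem
  · refine mem_XH G1_mem ?_ ?_ ?_ ?_ ?_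
    · rw [G1_T]; exact G_mem
    · rw [G2_T]; exact neg_mem_X G2_mem
    · have : G ∣[(2 : ℤ)] ModularGroup.T⁻¹ = G1 := slash_inv_eq G1_T
      change G ∣[(2 : ℤ)] ModularGroup.T⁻¹ ∈ X
      rw [this]; exact G1_mem
    · have : G1 ∣[(2 : ℤ)] ModularGroup.T⁻¹ = G := slash_inv_eq rfl
      change G1 ∣[(2 : ℤ)] ModularGroup.T⁻¹ ∈ X
      rw [this]; exact G_mem
    · have : G2 ∣[(2 : ℤ)] ModularGroup.T⁻¹ = -G2 :=
        slash_inv_eq (by rw [neg_slash_two, G2_T, neg_neg])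
      change G2 ∣[(2 : ℤ)] ModularGroup.T⁻¹ ∈ X
      rw [this]; exact neg_mem_X G2_mem

theorem slash_mem_X (γ : SL(2, ℤ)) : G ∣[(2 : ℤ)] γ ∈ X := by
  have h : γ ∈ XH := by rw [XH_eq_top]; trivial
  exact (h G G_mem).1

/-! ### Boundedness -/

/-- `exp(π i (n + s)² z)` -/
def tm (s : ℂ) (z : ℂ) (n : ℤ) : ℂ := cexp (π * I * (n + s) ^ 2 * z)

theorem tm_eq (s z : ℂ) (n : ℤ) : tm s z n = cexp (π * I * s ^ 2 * z) *
    jacobiTheta₂_term n (s * z) z := by
  rw [tm, jacobiTheta₂_term, ← Complex.exp_add]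
  congr 1
  ring

theorem summable_tm (s : ℂ) {z : ℂ} (hz : 0 < z.im) : Summable fun n ↦ ‖tm s z n‖ := by
  simp only [tm_eq, norm_mul]
  exact (((summable_jacobiTheta₂_term_iff (s * z) z).mpr hz).norm).mul_left _

theorem tsum_tm (s z : ℂ) : ∑' n, tm s z n = cexp (π * I * s ^ 2 * z) * jacobiTheta₂ (s * z) z := by
  simp only [tm_eq]
  rw [tsum_mul_left]
  rfl

theorem norm_tm (s : ℝ) (z : ℂ) (n : ℤ) :
    ‖tm s z n‖ = Real.exp (-(π * (n + s) ^ 2 * z.im)) := by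
  rw [tm, Complex.norm_exp]
  congr 1
  have : (π * I * (n + s) ^ 2 * z : ℂ) = ((π * (n + s) ^ 2 : ℝ) : ℂ) * (I * z) := by
    push_cast; ring
  rw [this, Complex.re_ofReal_mul]
  simp

theorem bdd_tm (s : ℝ) : IsBoundedAtImInfty fun τ : ℍ ↦ ∑' n, tm s τ n := by
  rw [UpperHalfPlane.isBoundedAtImInfty_iff]
  refine ⟨∑' n, ‖tm s I n‖, 1, fun τ hτ ↦ ?_⟩
  refine (norm_tsum_le_tsum_norm (summable_tm _ τ.im_pos)).trans ?_
  refine Summable.tsum_le_tsum (fun n ↦ ?_) (summable_tm _ τ.im_pos) (summable_tm _ (by simp))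
  rw [norm_tm, norm_tm, Real.exp_le_exp, neg_le_neg_iff]
  refine mul_le_mul_of_nonneg_left ?_ (by positivity)
  simpa using hτ

theorem bdd_pow {f : ℍ → ℂ} (hf : IsBoundedAtImInfty f) : IsBoundedAtImInfty fun τ ↦ f τ ^ 4 := by
  have h := ((hf.mul hf).mul (hf.mul hf))
  have e : (fun τ ↦ f τ ^ 4) = (f * f) * (f * f) := by
    ext τ
    simp only [Pi.mul_apply]
    ring
  rw [e]
  exact h

theorem bdd_G : IsBoundedAtImInfty G := by
  have h := bdd_pow (bdd_tm 0)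
  have e : (fun τ : ℍ ↦ (∑' n, tm ((0 : ℝ) : ℂ) τ n) ^ 4) = G := by
    ext τ
    rw [tsum_tm, G, jacobiTheta_eq_jacobiTheta₂]
    simp
  rwa [e] at h

theorem G1_apply (τ : ℍ) : G1 τ = G (ModularGroup.T • τ) := by
  rw [G1, ModularForm.SL_slash_apply]
  have : denom (ModularGroup.T : GL (Fin 2) ℝ) τ = 1 := by
    rw [ModularGroup.denom_apply]
    simp [ModularGroup.T]
  rw [this]
  simp

theorem bdd_G1 : IsBoundedAtImInfty G1 := by
  have h := bdd_G
  rw [UpperHalfPlane.isBoundedAtImInfty_iff] at h ⊢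
  obtain ⟨M, A, h⟩ := h
  refine ⟨M, A, fun τ hτ ↦ ?_⟩
  rw [G1_apply]
  refine h _ ?_
  rw [UpperHalfPlane.modular_T_smul]
  simpa using hτ

theorem jacobiTheta_one_add (w : ℂ) : jacobiTheta (1 + w) = jacobiTheta₂ (1 / 2) w := by
  rw [jacobiTheta, jacobiTheta₂]
  refine tsum_congr fun n ↦ ?_
  rw [jacobiTheta₂_term]
  obtain ⟨m, hm⟩ := Int.even_mul_succ_self (n - 1)
  have hm' : (n : ℂ) ^ 2 = n + 2 * m := by
    have : n ^ 2 = n + 2 * m := by linear_combination hm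
    exact_mod_cast this
  have e : (π * I * (n : ℂ) ^ 2 * (1 + w) : ℂ) =
      (2 * π * I * n * (1 / 2) + π * I * n ^ 2 * w) + m * (2 * π * I) := by
    linear_combination (π * I) * hm'
  rw [e, Complex.exp_add, Complex.exp_int_mul_two_pi_mul_I, mul_one]

theorem G2_apply (τ : ℍ) : G2 τ = -(∑' n, tm ((1 / 2 : ℝ) : ℂ) τ n) ^ 4 := by
  have hz : (τ : ℂ) ≠ 0 := ne_zero τ
  have h1 : G1 (ModularGroup.S • τ) = jacobiTheta₂ (1 / 2) (-1 / τ) ^ 4 := by
    rw [G1_apply, G, UpperHalfPlane.modular_T_smul, UpperHalfPlane.coe_vadd,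
      UpperHalfPlane.modular_S_smul, ← jacobiTheta_one_add]
    congr 2
    rw [UpperHalfPlane.coe_mk, neg_div, one_div, inv_neg]
    push_cast
    rfl
  rw [G2, ModularForm.SL_slash_apply, h1, ModularGroup.denom_S, tsum_tm]
  have h2 := jacobiTheta₂_functional_equation ((1 / 2 : ℂ) * τ) τ
  have h3 : ((1 / 2 : ℂ) * τ) / τ = 1 / 2 := by field_simp
  rw [h3] at h2
  push_cast
  rw [h2]
  have h4 : (1 / (-I * (τ : ℂ)) ^ (1 / 2 : ℂ)) ^ 4 = -((τ : ℂ) ^ 2)⁻¹ := by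
    rw [div_pow, one_pow, ← Complex.cpow_nat_mul]
    have : ((4 : ℕ) : ℂ) * (1 / 2 : ℂ) = ((2 : ℕ) : ℂ) := by norm_num
    rw [this, Complex.cpow_natCast, mul_pow, neg_sq, I_sq]
    field_simp
  have h5 : cexp (π * I * (1 / 2) ^ 2 * τ) * cexp (-π * I * ((1 / 2 : ℂ) * τ) ^ 2 / τ) = 1 := by
    rw [← Complex.exp_add]
    have : (π * I * (1 / 2) ^ 2 * τ + -π * I * ((1 / 2 : ℂ) * τ) ^ 2 / τ : ℂ) = 0 := by
      field_simp
      ring
    rw [this, Complex.exp_zero]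
  have h6 : ((τ : ℂ)) ^ (-2 : ℤ) = ((τ : ℂ) ^ 2)⁻¹ := by
    rw [zpow_neg]; norm_cast
  rw [h6]
  have h7 : cexp (π * I * (1 / 2) ^ 2 * τ) * (1 / (-I * (τ : ℂ)) ^ (1 / 2 : ℂ) *
      cexp (-π * I * ((1 / 2 : ℂ) * τ) ^ 2 / τ) * jacobiTheta₂ (1 / 2) (-1 / τ)) =
      (1 / (-I * (τ : ℂ)) ^ (1 / 2 : ℂ)) * jacobiTheta₂ (1 / 2) (-1 / τ) := by
    linear_combination ((1 / (-I * (τ : ℂ)) ^ (1 / 2 : ℂ)) * jacobiTheta₂ (1 / 2) (-1 / τ)) * h5
  rw [h7, mul_pow, h4]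
  ring

theorem bdd_G2 : IsBoundedAtImInfty G2 := by
  have h := bdd_pow (bdd_tm (1 / 2))
  have e : G2 = -(fun τ : ℍ ↦ (∑' n, tm ((1 / 2 : ℝ) : ℂ) τ n) ^ 4) := by
    ext τ
    rw [G2_apply]
    rfl
  rw [e]
  exact h.neg_left

theorem bdd_of_mem_X {f : ℍ → ℂ} (hf : f ∈ X) : IsBoundedAtImInfty f := by
  simp only [X, Set.mem_insert_iff, Set.mem_singleton_iff] at hf
  rcases hf with rfl | rfl | rfl | rfl | rfl | rfl
  · exact bdd_G
  · exact bdd_G.neg_left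
  · exact bdd_G1
  · exact bdd_G1.neg_left
  · exact bdd_G2
  · exact bdd_G2.neg_left

/-! ### The modular form `θ(2τ)⁴` -/

/-- `θ(2τ)⁴ = ∑ r₄(n) q^n` -/
def F (τ : ℍ) : ℂ := G (aff 2 1 0 τ)

theorem mdiff_G : MDiff G := by
  rw [UpperHalfPlane.mdifferentiable_iff]
  have : Set.EqOn (G ∘ ofComplex) (fun z : ℂ ↦ jacobiTheta z ^ 4) upperHalfPlaneSet := by
    intro z hz
    simp only [Function.comp_apply, ofComplex_apply_of_im_pos hz, G]
  refine DifferentiableOn.congr ?_ this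
  intro z hz
  exact ((differentiableAt_jacobiTheta hz).pow 4).differentiableWithinAt

theorem F_T : F ∣[(2 : ℤ)] ModularGroup.T = F := by
  have h := slash_aff (k := 2) G (a := 2) (d := 1) (a' := 2) (d' := 1) (b := 0) (b' := 0)
    (γ := ModularGroup.T) (δ := ModularGroup.T ^ 2) two_pos one_pos two_pos one_pos
    (by decide) (by decide) (by decide) (by decide)
  rw [G_T_sq] at h
  change (fun z ↦ G (aff 2 1 0 z)) ∣[(2 : ℤ)] ModularGroup.T = F
  rw [h]
  ext z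
  simp [F]

theorem F_U4 : F ∣[(2 : ℤ)] U4 = F := by
  have hG : G ∣[(2 : ℤ)] (ModularGroup.S * (ModularGroup.T ^ 2)⁻¹ * ModularGroup.S⁻¹) = G := by
    have h1 : G ∣[(2 : ℤ)] (ModularGroup.T ^ 2)⁻¹ = G := slash_inv_eq G_T_sq
    have h2 : G ∣[(2 : ℤ)] ModularGroup.S⁻¹ = -G :=
      slash_inv_eq (by rw [neg_slash_two, G_S, neg_neg])
    rw [SlashAction.slash_mul, SlashAction.slash_mul, G_S, neg_slash_two, h1, neg_slash_two, h2,
      neg_neg]
  have h := slash_aff (k := 2) G (a := 2) (d := 1) (a' := 2) (d' := 1) (b := 0) (b' := 0)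
    (γ := U4) (δ := ModularGroup.S * (ModularGroup.T ^ 2)⁻¹ * ModularGroup.S⁻¹)
    two_pos one_pos two_pos one_pos
    (by decide) (by decide) (by decide) (by decide)
  rw [hG] at h
  change (fun z ↦ G (aff 2 1 0 z)) ∣[(2 : ℤ)] U4 = F
  rw [h]
  ext z
  simp [F]

theorem isMN_F : IsMN 4 2 F where
  slash γ hγ := gamma0_four_le (fixer F) F_T (neg_one_mem_fixer F) F_U4 hγ
  holo := mdiff_comp_aff mdiff_G two_pos one_pos 0
  bdd γ := by
    obtain ⟨δ, a', d', b', ha', hd', h⟩ := slash_aff' (k := 2) (b := 0) G γ two_pos one_pos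
    change IsBoundedAtImInfty ((fun z ↦ G (aff 2 1 0 z)) ∣[(2 : ℤ)] γ)
    rw [h]
    have h1 := (bdd_of_mem_X (slash_mem_X δ)).comp_tendsto (tendsto_aff ha' hd' b')
    exact h1.const_mul_left _

/-- `f(dz)` for a modular form `f` -/
theorem isMN_aff {M N d : ℕ} [NeZero M] [NeZero N] (hd : 0 < d) (h : M * d ∣ N) {k : ℤ} {f : ℍ → ℂ}
    (hf : IsMN M k f) : IsMN N k (fun z ↦ f (aff d 1 0 z)) where
  slash γ hγ := by
    rw [mem_Gamma0_iff] at hγ
    have h' : ((M : ℤ) * d) ∣ γ 1 0 := by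
      have : ((M * d : ℕ) : ℤ) ∣ γ 1 0 := (Int.natCast_dvd_natCast.mpr h).trans hγ
      simpa using this
    obtain ⟨c, hc⟩ := h'
    have hdet := det_eq γ
    let δ : SL(2, ℤ) := ⟨!![γ 0 0, d * γ 0 1; M * c, γ 1 1], by
      rw [Matrix.det_fin_two_of]; rw [hc] at hdet; linear_combination hdet⟩
    have h1 := slash_aff (k := k) f (a := d) (d := 1) (a' := d) (d' := 1) (b := 0)
      (b' := 0) (γ := γ) (δ := δ) hd one_pos hd one_pos (by change _ = γ 0 0 * d; ring)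
      (by change _ = γ 0 0 * 0 + (d * γ 0 1) * _; push_cast; ring)
      (by change _ = (M * c) * d; rw [hc]; push_cast; ring)
      (by change _ = (M * c) * 0 + γ 1 1 * _; push_cast; ring)
    rw [h1]
    have h2 : f ∣[k] δ = f := hf.slash δ (by
      rw [mem_Gamma0_iff]; exact Dvd.intro c rfl)
    rw [h2]
    ext z
    simp
  holo := mdiff_comp_aff hf.holo hd one_pos 0
  bdd γ := by
    obtain ⟨δ, a', d', b', ha', hd', h⟩ := slash_aff' (k := k) (b := 0) f γ hd one_pos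
    rw [h]
    have h1 := (hf.bdd δ).comp_tendsto (tendsto_aff ha' hd' b')
    exact h1.const_mul_left _

end Fermat.Agent.Cor.FourSq
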