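import Fermat.Agent.Cor.ThetaEight

/-!
# Hurwitz quaternions and sums of four triangular numbers

* `card_hurwitz`: for `n > 0` there are `24 ∑_{d ∣ n, d odd} d` Hurwitz quaternions of norm `n`;
* `card_triangular` (Legendre): the number of `x ∈ ℕ⁴` with `∑ x_i (x_i + 1) / 2 = n` is
  `σ(2 n + 1)`. In particular every natural number is a sum of four (even three, Gauss) triangular
  numbers.

This file is not used by any of the statement files.
-/

set_option autoImplicit false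

open Filter Topology Function
open UpperHalfPlane hiding I
open Fermat.Agent.IntStr Fermat.Agent.AL

noncomputable section

namespace Fermat.Agent.Cor.FourSq

theorem rk_four (n : ℕ) : rk 4 n = r4 n := by
  have h1 := qExp_unique one_pos isMN_F.mem_QR (c := fun n ↦ (rk 4 n : ℂ)) (fun τ ↦ by
    have := hasSum_rk 4 τ
    exact this) n
  have h2 := qExp_unique one_pos isMN_F.mem_QR (c := fun n ↦ (r4 n : ℂ)) hasSum_r4 n
  rw [h1] at h2
  exact_mod_cast h2

theorem rk_four_eq {n : ℕ} (hn : 0 < n) : rk 4 n = 8 * ∑ d ∈ n.divisors.filter (¬ 4 ∣ ·), d := by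
  rw [rk_four]
  exact jacobi_four_squares hn

theorem sum_two_mul {m : ℕ} (hm : 0 < m) : ∑ d ∈ (2 * m).divisors.filter (¬ 4 ∣ ·), d =
    3 * ∑ d ∈ m.divisors.filter Odd, d := by
  have hinj : Function.Injective (fun c : ℕ ↦ 2 * c) := fun x y h ↦ by simpa using h
  have e : (2 * m).divisors.filter (¬ 4 ∣ ·) = m.divisors.filter Odd ∪
      (m.divisors.filter Odd).image (2 * ·) := by
    ext d
    simp only [Finset.mem_filter, Nat.mem_divisors, Finset.mem_union, Finset.mem_image]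
    constructor
    · rintro ⟨⟨h1, h2⟩, h3⟩
      rcases Nat.even_or_odd d with he | ho
      · obtain ⟨c, rfl⟩ := he.two_dvd
        right
        refine ⟨c, ⟨⟨Nat.dvd_of_mul_dvd_mul_left two_pos h1, hm.ne'⟩, ?_⟩, rfl⟩
        by_contra hc
        rw [Nat.not_odd_iff_even] at hc
        obtain ⟨b, rfl⟩ := hc.two_dvd
        exact h3 ⟨b, by ring⟩
      · left
        exact ⟨⟨Nat.Coprime.dvd_of_dvd_mul_left (Nat.coprime_two_right.mpr ho) h1, hm.ne'⟩, ho⟩
    · rintro (⟨⟨h1, h2⟩, ho⟩ | ⟨c, ⟨⟨h1, h2⟩, ho⟩, rfl⟩)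
      · refine ⟨⟨h1.mul_left 2, by omega⟩, fun h ↦ ?_⟩
        rw [Nat.odd_iff] at ho
        omega
      · refine ⟨⟨Nat.mul_dvd_mul_left 2 h1, by omega⟩, fun h ↦ ?_⟩
        rw [Nat.odd_iff] at ho
        omega
  have hd : Disjoint (m.divisors.filter Odd) ((m.divisors.filter Odd).image (2 * ·)) := by
    rw [Finset.disjoint_left]
    intro d hd1 hd2
    rw [Finset.mem_filter, Nat.odd_iff] at hd1
    rw [Finset.mem_image] at hd2
    obtain ⟨c, -, rfl⟩ := hd2
    omega
  rw [e, Finset.sum_union hd, Finset.sum_image hinj.injOn, ← Finset.mul_sum]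
  ring

theorem rk_four_two_mul {m : ℕ} (hm : 0 < m) : rk 4 (2 * m) = 24 * ∑ d ∈ m.divisors.filter Odd, d := by
  rw [rk_four_eq (by omega), sum_two_mul hm]
  ring

theorem same_parity {y : Fin 4 → ℤ} {m : ℤ} (h : ∑ i, y i ^ 2 = 4 * m) :
    (∀ i, Even (y i)) ∨ (∀ i, Odd (y i)) := by
  have key : ∀ z : ℤ, (Even z ∧ z ^ 2 % 4 = 0) ∨ (Odd z ∧ z ^ 2 % 4 = 1) := by
    intro z
    rcases Int.even_or_odd z with hz | hz
    · left
      refine ⟨hz, ?_⟩
      obtain ⟨c, rfl⟩ := hz.two_dvd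
      have : (2 * c) ^ 2 = 4 * c ^ 2 := by ring
      omega
    · right
      refine ⟨hz, ?_⟩
      obtain ⟨c, rfl⟩ := hz
      have : (2 * c + 1) ^ 2 = 4 * (c ^ 2 + c) + 1 := by ring
      omega
  rw [Fin.sum_univ_four] at h
  rcases key (y 0) with ⟨h0, h0'⟩ | ⟨h0, h0'⟩ <;> rcases key (y 1) with ⟨h1, h1'⟩ | ⟨h1, h1'⟩ <;>
    rcases key (y 2) with ⟨h2, h2'⟩ | ⟨h2, h2'⟩ <;> rcases key (y 3) with ⟨h3, h3'⟩ | ⟨h3, h3'⟩ <;>
    first
    | (exfalso; omega)
    | (left; intro i; fin_cases i <;> assumption)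
    | (right; intro i; fin_cases i <;> assumption)

/-- **The number of Hurwitz quaternions of norm `n`**: a Hurwitz quaternion is `y / 2` with
`y ∈ ℤ⁴`, all `y_i` even or all `y_i` odd. -/
theorem card_hurwitz {n : ℕ} (hn : 0 < n) : Nat.card {y : Fin 4 → ℤ //
    ((∀ i, Even (y i)) ∨ (∀ i, Odd (y i))) ∧ ∑ i, (y i / 2 : ℚ) ^ 2 = (n : ℚ)} =
      24 * ∑ d ∈ n.divisors.filter Odd, d := by
  have h1 : Nat.card {y : Fin 4 → ℤ //
      ((∀ i, Even (y i)) ∨ (∀ i, Odd (y i))) ∧ ∑ i, (y i / 2 : ℚ) ^ 2 = (n : ℚ)} =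
      rk 4 (2 * (2 * n)) := by
    rw [rk]
    refine Nat.card_congr (Equiv.subtypeEquivRight fun y ↦ ?_)
    have h8 : ∑ i, (y i / 2 : ℚ) ^ 2 = ((∑ i, y i ^ 2 : ℤ) : ℚ) / 4 := by
      push_cast
      rw [Finset.sum_div]
      exact Finset.sum_congr rfl fun i _ ↦ by ring
    rw [h8]
    constructor
    · rintro ⟨-, h⟩
      have h2 : ((∑ i, y i ^ 2 : ℤ) : ℚ) = ((2 * (2 * n) : ℕ) : ℤ) := by
        push_cast at h ⊢
        linarith
      exact_mod_cast h2
    · intro h
      refine ⟨same_parity (m := n) (by rw [h]; push_cast; ring), ?_⟩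
      rw [h]; push_cast; ring
  rw [h1, rk_four_two_mul (by omega)]
  congr 1
  refine Finset.sum_congr ?_ fun _ _ ↦ rfl
  ext d
  simp only [Finset.mem_filter, Nat.mem_divisors]
  constructor
  · rintro ⟨⟨h2, -⟩, ho⟩
    exact ⟨⟨Nat.Coprime.dvd_of_dvd_mul_left (Nat.coprime_two_right.mpr ho) h2, hn.ne'⟩, ho⟩
  · rintro ⟨⟨h2, -⟩, ho⟩
    exact ⟨⟨h2.mul_left 2, by omega⟩, ho⟩

/-! ### Triangular numbers -/

theorem finite_sq (k : ℕ) (N : ℤ) : {y : Fin k → ℤ | ∑ i, y i ^ 2 = N}.Finite := by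
  refine (Set.finite_Icc (fun _ ↦ -N) (fun _ ↦ N)).subset fun y hy ↦ ?_
  have h1 : ∀ i, y i ^ 2 ≤ N := fun i ↦ by
    rw [← hy.out]
    exact Finset.single_le_sum (f := fun i ↦ y i ^ 2) (fun _ _ ↦ sq_nonneg _) (Finset.mem_univ i)
  refine ⟨fun i ↦ ?_, fun i ↦ ?_⟩
  · have := h1 i
    change -N ≤ y i
    nlinarith [sq_nonneg (y i + 1), sq_nonneg (y i)]
  · have := h1 i
    change y i ≤ N
    nlinarith [sq_nonneg (y i - 1), sq_nonneg (y i)]

/-- The number of `k ∈ ℤ⁴` with `∑ k_i (k_i + 1) / 2 = n` is `16 σ(2 n + 1)`. -/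
theorem card_int_triangular (n : ℕ) :
    Nat.card {k : Fin 4 → ℤ // ∑ i, k i * (k i + 1) = 2 * n} =
      16 * ArithmeticFunction.sigma 1 (2 * n + 1) := by
  have hodd : Odd (2 * n + 1) := ⟨n, rfl⟩
  -- all tuples
  have h1 : rk 4 (2 * (2 * (2 * n + 1))) = 24 * ArithmeticFunction.sigma 1 (2 * n + 1) := by
    rw [rk_four_two_mul (by omega), ArithmeticFunction.sigma_one_apply]
    congr 1
    refine Finset.sum_congr ?_ fun _ _ ↦ rfl
    ext d
    simp only [Finset.mem_filter, Nat.mem_divisors]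
    constructor
    · rintro ⟨⟨h2, -⟩, ho⟩
      exact ⟨Nat.Coprime.dvd_of_dvd_mul_left (Nat.coprime_two_right.mpr ho) h2, by omega⟩
    · rintro ⟨h2, -⟩
      exact ⟨⟨h2.mul_left 2, by omega⟩, hodd.of_dvd_nat h2⟩
  have h2 : rk 4 (2 * n + 1) = 8 * ArithmeticFunction.sigma 1 (2 * n + 1) := by
    rw [rk_four_eq (by omega), ArithmeticFunction.sigma_one_apply]
    congr 1
    refine Finset.sum_congr ?_ fun _ _ ↦ rfl
    refine Finset.filter_true_of_mem fun d hd h ↦ ?_
    have h3 := hodd.of_dvd_nat (Nat.dvd_of_mem_divisors hd)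
    rw [Nat.odd_iff] at h3
    omega
  -- decomposition
  have h3 : rk 4 (2 * (2 * (2 * n + 1))) = rk 4 (2 * n + 1) +
      Nat.card {k : Fin 4 → ℤ // ∑ i, k i * (k i + 1) = 2 * n} := by
    have hf1 : Finite {x : Fin 4 → ℤ // ∑ i, x i ^ 2 = ((2 * n + 1 : ℕ) : ℤ)} :=
      (finite_sq 4 _).to_subtype
    have hsq : ∀ k : Fin 4 → ℤ, ∑ i, (2 * k i + 1) ^ 2 = 4 * ∑ i, k i * (k i + 1) + 4 := by
      intro k
      rw [Finset.mul_sum]
      have : ∀ i, (2 * k i + 1) ^ 2 = 4 * (k i * (k i + 1)) + 1 := fun i ↦ by ring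
      simp only [this, Finset.sum_add_distrib]
      simp
    have hf2 : Finite {k : Fin 4 → ℤ // ∑ i, k i * (k i + 1) = 2 * n} := by
      have h5 : Function.Injective (fun k : {k : Fin 4 → ℤ // ∑ i, k i * (k i + 1) = 2 * n} ↦
          (⟨fun i ↦ 2 * k.1 i + 1, by rw [Set.mem_ofPred_eq, hsq, k.2]⟩ :
            {y : Fin 4 → ℤ | ∑ i, y i ^ 2 = 4 * (2 * n) + 4})) := by
        intro a b hab
        have h6 := congrArg Subtype.val hab
        ext i
        have := congrFun h6 i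
        simp only at this
        omega
      have := (finite_sq 4 (4 * (2 * n) + 4)).to_subtype
      exact Finite.of_injective _ h5
    rw [rk, rk, ← Nat.card_sum]
    symm
    refine Nat.card_congr (Equiv.ofBijective (Sum.elim
      (fun x ↦ ⟨fun i ↦ 2 * x.1 i, ?_⟩) (fun k ↦ ⟨fun i ↦ 2 * k.1 i + 1, ?_⟩)) ⟨?_, ?_⟩)
    · have : ∀ i, (2 * x.1 i) ^ 2 = 4 * (x.1 i) ^ 2 := fun i ↦ by ring
      simp only [this, ← Finset.mul_sum, x.2]
      push_cast
      ring
    · rw [hsq, k.2]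
      push_cast
      ring
    · rintro (a | a) (b | b) hab
      · congr 1
        ext i
        have := congrFun (congrArg Subtype.val hab) i
        simp only [Sum.elim_inl] at this
        omega
      · exfalso
        have := congrFun (congrArg Subtype.val hab) 0
        simp only [Sum.elim_inl, Sum.elim_inr] at this
        omega
      · exfalso
        have := congrFun (congrArg Subtype.val hab) 0
        simp only [Sum.elim_inl, Sum.elim_inr] at this
        omega
      · congr 1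
        ext i
        have := congrFun (congrArg Subtype.val hab) i
        simp only [Sum.elim_inr] at this
        omega
    · rintro ⟨y, hy⟩
      rcases same_parity (m := (2 * n + 1 : ℤ)) (y := y) (by rw [hy]; push_cast; ring) with h6 | h6
      · choose x hx using fun i ↦ (h6 i).two_dvd
        refine ⟨Sum.inl ⟨x, ?_⟩, ?_⟩
        · have : ∀ i, y i ^ 2 = 4 * (x i) ^ 2 := fun i ↦ by rw [hx i]; ring
          simp only [this, ← Finset.mul_sum] at hy
          push_cast at hy ⊢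
          linarith
        · ext i
          exact (hx i).symm
      · choose x hx using h6
        refine ⟨Sum.inr ⟨x, ?_⟩, ?_⟩
        · have h7 : ∑ i, y i ^ 2 = ∑ i, (2 * x i + 1) ^ 2 :=
            Finset.sum_congr rfl fun i _ ↦ by rw [hx i]
          rw [h7, hsq] at hy
          push_cast at hy
          linarith
        · ext i
          exact (hx i).symm
  omega

/-- `x ↦ x`, `-1 - x ↦ x` -/
def intEquiv : ℤ ≃ Bool × ℕ where
  toFun z := match z with
    | Int.ofNat x => (false, x)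
    | Int.negSucc x => (true, x)
  invFun p := match p with
    | (false, x) => Int.ofNat x
    | (true, x) => Int.negSucc x
  left_inv z := by cases z <;> rfl
  right_inv p := by
    obtain ⟨b, x⟩ := p
    cases b <;> rfl

theorem intEquiv_mul (z : ℤ) : z * (z + 1) = ((intEquiv z).2 : ℤ) * ((intEquiv z).2 + 1) := by
  cases z with
  | ofNat x => rfl
  | negSucc x =>
    change Int.negSucc x * (Int.negSucc x + 1) = (x : ℤ) * (x + 1)
    rw [Int.negSucc_eq]
    ring

/-- **Legendre.** The number of representations of `n` as a sum of four triangular numbers is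
`σ(2 n + 1)`. -/
theorem card_triangular (n : ℕ) :
    Nat.card {x : Fin 4 → ℕ // ∑ i, x i * (x i + 1) / 2 = n} =
      ArithmeticFunction.sigma 1 (2 * n + 1) := by
  have h := card_int_triangular n
  have h1 : Nat.card {k : Fin 4 → ℤ // ∑ i, k i * (k i + 1) = 2 * n} =
      Nat.card ((Fin 4 → Bool) × {x : Fin 4 → ℕ // ∑ i, x i * (x i + 1) / 2 = n}) := by
    have hx : ∀ x : Fin 4 → ℕ, ∑ i, x i * (x i + 1) / 2 = n ↔
        ∑ i, (x i : ℤ) * (x i + 1) = 2 * n := by
      intro x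
      have e : ∀ i, ((x i * (x i + 1) / 2 : ℕ) : ℤ) * 2 = (x i : ℤ) * (x i + 1) := fun i ↦ by
        have h2 : x i * (x i + 1) / 2 * 2 = x i * (x i + 1) :=
          Nat.div_mul_cancel (Nat.even_mul_succ_self (x i)).two_dvd
        exact_mod_cast h2
      have e2 : ∑ i, (x i : ℤ) * (x i + 1) = ((∑ i, x i * (x i + 1) / 2 : ℕ) : ℤ) * 2 := by
        rw [Nat.cast_sum, Finset.sum_mul]
        exact Finset.sum_congr rfl fun i _ ↦ (e i).symm
      rw [e2]
      constructor
      · intro h3; rw [h3]; ring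
      · intro h3
        have h4 : ((∑ i, x i * (x i + 1) / 2 : ℕ) : ℤ) = n := by linarith
        exact_mod_cast h4
    refine Nat.card_congr ⟨fun k ↦ (fun i ↦ (intEquiv (k.1 i)).1,
      ⟨fun i ↦ (intEquiv (k.1 i)).2, ?_⟩), fun p ↦ ⟨fun i ↦ intEquiv.symm (p.1 i, p.2.1 i), ?_⟩,
      fun k ↦ ?_, fun p ↦ ?_⟩
    · rw [hx]
      exact (Finset.sum_congr rfl fun i _ ↦ (intEquiv_mul _).symm).trans k.2
    · refine Eq.trans (Finset.sum_congr rfl fun i _ ↦ ?_) ((hx _).mp p.2.2)
      rw [intEquiv_mul, Equiv.apply_symm_apply]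
    · ext i
      simp
    · refine Prod.ext ?_ ?_
      · funext i
        simp
      · apply Subtype.ext
        funext i
        simp
  rw [h1, Nat.card_prod] at h
  have h2 : Nat.card (Fin 4 → Bool) = 16 := by
    rw [Nat.card_eq_fintype_card]; decide
  rw [h2] at h
  exact Nat.eq_of_mul_eq_mul_left (by norm_num) h

/-- Every natural number is a sum of four triangular numbers. -/
theorem exists_triangular (n : ℕ) : ∃ x : Fin 4 → ℕ, ∑ i, x i * (x i + 1) / 2 = n := by
  by_contra h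
  have h1 := card_triangular n
  have h2 : IsEmpty {x : Fin 4 → ℕ // ∑ i, x i * (x i + 1) / 2 = n} :=
    ⟨fun x ↦ h ⟨x.1, x.2⟩⟩
  rw [Nat.card_of_isEmpty] at h1
  have h3 : ArithmeticFunction.sigma 1 (2 * n + 1) ≠ 0 := by
    rw [ArithmeticFunction.sigma_one_apply]
    have h4 : 1 ∈ (2 * n + 1).divisors := by simp
    have h5 := Finset.single_le_sum (f := fun d : ℕ ↦ d) (fun _ _ ↦ Nat.zero_le _) h4
    have h6 : 1 ≤ ∑ d ∈ (2 * n + 1).divisors, d := h5
    omega
  exact h3 h1.symm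

end Fermat.Agent.Cor.FourSq
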