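import Mathlib.NumberTheory.ModularForms.LFunction
import Fermat.Agent.AL.Newform
import Fermat.Agent.H22.Explicit

/-!
# The Fricke involution on `S₂(Γ₀(N))`

`wN f = f ∣[2] (0 -1; N 0)` is again in `S₂(Γ₀(N))`, `wN (wN f) = f`, it commutes with the Hecke operators `T_ℓ`,
`ℓ ∤ N`, and a newform satisfies `wN f = ε • f` with `ε = 1` or `ε = -1`.

This file is not used by any of the statement files.
-/

set_option autoImplicit false

noncomputable section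

namespace Fermat.Agent.Cor.LFun

open CongruenceSubgroup ModularForm ModularFormClass UpperHalfPlane
open Fermat.Agent.H22 Matrix.SpecialLinearGroup
open scoped MatrixGroups

variable {N : ℕ} [NeZero N]

theorem det_frickeGL : ((frickeGL N).det : ℝ) = N := by
  rw [Matrix.GeneralLinearGroup.val_det_apply, val_frickeGL, Matrix.det_fin_two_of]
  ring

open ConjAct Pointwise in
theorem conj_frickeGL :
    toConjAct (frickeGL N)⁻¹ • (Gamma0 N : Subgroup (GL (Fin 2) ℝ)) =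
      (Gamma0 N : Subgroup (GL (Fin 2) ℝ)) := by
  ext g
  rw [Subgroup.mem_pointwise_smul_iff_inv_smul_mem, ← map_inv, inv_inv, toConjAct_smul]
  constructor
  · rintro ⟨γ, hγ, h⟩
    refine ⟨(wConj N ⟨γ, hγ⟩ : SL(2, ℤ)), (wConj N ⟨γ, hγ⟩).2, ?_⟩
    have h1 := fricke_mul_mapGL (wConj N ⟨γ, hγ⟩)
    rw [wConj_wConj] at h1
    have h2 : mapGL ℝ γ = frickeGL N * g * (frickeGL N)⁻¹ := h
    rw [show mapGL ℝ ((⟨γ, hγ⟩ : Gamma0 N) : SL(2, ℤ)) = mapGL ℝ γ from rfl, h2,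
      inv_mul_cancel_right] at h1
    exact mul_left_cancel h1
  · rintro ⟨γ, hγ, rfl⟩
    refine ⟨(wConj N ⟨γ, hγ⟩ : SL(2, ℤ)), (wConj N ⟨γ, hγ⟩).2, ?_⟩
    have h1 := fricke_mul_mapGL (⟨γ, hγ⟩ : Gamma0 N)
    rw [eq_mul_inv_iff_mul_eq]
    exact h1.symm

/-- The Fricke involution on `S₂(Γ₀(N))`. -/
def wN (f : CuspForm (Gamma0 N) 2) : CuspForm (Gamma0 N) 2 where
  toFun := (f : ℍ → ℂ) ∣[(2 : ℤ)] frickeGL N
  slash_action_eq' := fun γ hγ =>
    (CuspForm.translate f (frickeGL N)).slash_action_eq' γ (by rwa [conj_frickeGL])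
  holo' := (CuspForm.translate f (frickeGL N)).holo'
  zero_at_cusps' := fun hc => (CuspForm.translate f (frickeGL N)).zero_at_cusps'
    (by rwa [conj_frickeGL])

theorem coe_wN (f : CuspForm (Gamma0 N) 2) :
    ⇑(wN f) = (f : ℍ → ℂ) ∣[(2 : ℤ)] frickeGL N := rfl

/-- The value of the Fricke involution. -/
theorem wN_apply (f : CuspForm (Gamma0 N) 2) (z : ℍ) :
    wN f z = f (frickeGL N • z) / (N * (z : ℂ) ^ 2) := by
  have hN : (N : ℂ) ≠ 0 := by exact_mod_cast NeZero.ne N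
  have hz : (z : ℂ) ≠ 0 := z.ne_zero
  have hd : UpperHalfPlane.denom (frickeGL N) z = N * z := by
    simp [UpperHalfPlane.denom, val_frickeGL]
  have hσ : UpperHalfPlane.σ (frickeGL N) = .refl ℝ ℂ := by
    rw [UpperHalfPlane.σ, if_pos]
    rw [det_frickeGL]
    exact_mod_cast Nat.pos_of_ne_zero (NeZero.ne N)
  rw [coe_wN, ModularForm.slash_apply, hσ, det_frickeGL, hd]
  simp only [ContinuousAlgEquiv.refl_apply, Nat.abs_cast, Complex.ofReal_natCast]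
  rw [show (2 : ℤ) - 1 = 1 by norm_num, zpow_one, zpow_neg, zpow_ofNat]
  field_simp

theorem coe_fricke_smul (z : ℍ) : ((frickeGL N • z : ℍ) : ℂ) = -1 / (N * z) := by
  rw [UpperHalfPlane.coe_smul_of_det_pos (by
    rw [det_frickeGL]
    exact_mod_cast Nat.pos_of_ne_zero (NeZero.ne N))]
  simp [UpperHalfPlane.num, UpperHalfPlane.denom, val_frickeGL]

theorem fricke_fricke_smul (z : ℍ) : frickeGL N • frickeGL N • z = z := by
  have hN : (N : ℂ) ≠ 0 := by exact_mod_cast NeZero.ne N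
  have hz : (z : ℂ) ≠ 0 := z.ne_zero
  ext
  rw [coe_fricke_smul, coe_fricke_smul]
  field_simp

theorem wN_wN (f : CuspForm (Gamma0 N) 2) : wN (wN f) = f := by
  have hN : (N : ℂ) ≠ 0 := by exact_mod_cast NeZero.ne N
  ext z
  have hz : (z : ℂ) ≠ 0 := z.ne_zero
  rw [wN_apply, wN_apply, fricke_fricke_smul, coe_fricke_smul]
  field_simp

theorem wN_smul (c : ℂ) (f : CuspForm (Gamma0 N) 2) : wN (c • f) = c • wN f := by
  ext z
  rw [wN_apply, smul_apply, smul_apply, wN_apply]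
  simp only [smul_eq_mul]
  ring

/-! ### The Fricke involution commutes with `T_ℓ` -/

theorem fricke_mul_diag {ℓ : ℕ} (hℓ : ℓ ≠ 0) :
    frickeGL N * heckeDiagMatrix ℓ = heckeMatrix ℓ 0 * frickeGL N := by
  apply Units.ext
  simp only [Units.val_mul, val_frickeGL, val_heckeMatrix hℓ, val_heckeDiagMatrix hℓ]
  ext i j
  fin_cases i <;> fin_cases j <;> simp [Matrix.mul_apply, Fin.sum_univ_two]
  ring

theorem fricke_mul_zero {ℓ : ℕ} (hℓ : ℓ ≠ 0) :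
    frickeGL N * heckeMatrix ℓ 0 = heckeDiagMatrix ℓ * frickeGL N := by
  apply Units.ext
  simp only [Units.val_mul, val_frickeGL, val_heckeMatrix hℓ, val_heckeDiagMatrix hℓ]
  ext i j
  fin_cases i <;> fin_cases j <;> simp [Matrix.mul_apply, Fin.sum_univ_two]

theorem fricke_mul_hecke {ℓ : ℕ} (hℓ : ℓ ≠ 0) (i j : ℕ) (h : (ℓ : ℤ) ∣ 1 + N * i * j) :
    ∃ γ : Gamma0 N, frickeGL N * heckeMatrix ℓ i =
      mapGL ℝ (γ : SL(2, ℤ)) * (heckeMatrix ℓ j * frickeGL N) := by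
  obtain ⟨m, hm⟩ := h
  let γ0 : SL(2, ℤ) := ⟨!![(ℓ : ℤ), -j; -(N * i), m], by
    rw [Matrix.det_fin_two_of]
    linear_combination -hm⟩
  have hγ0 : γ0 ∈ Gamma0 N := mem_Gamma0_iff_dvd.mpr (by
    change (N : ℤ) ∣ -(N * i)
    exact (Dvd.intro _ rfl).neg_right)
  refine ⟨⟨γ0, hγ0⟩, ?_⟩
  apply Units.ext
  simp only [Units.val_mul, val_frickeGL, val_mapGL, val_heckeMatrix hℓ]
  have e00 : γ0 0 0 = ℓ := rfl
  have e01 : γ0 0 1 = -j := rfl
  have e10 : γ0 1 0 = -(N * i) := rfl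
  have e11 : γ0 1 1 = m := rfl
  rw [e00, e01, e10, e11]
  have hm' : (1 : ℝ) + N * i * j = ℓ * m := by exact_mod_cast hm
  ext r s
  fin_cases r <;> fin_cases s
  · simp [Matrix.mul_apply, Fin.sum_univ_two]
    ring
  · simp [Matrix.mul_apply, Fin.sum_univ_two]
  · simp [Matrix.mul_apply, Fin.sum_univ_two]
    linear_combination (N : ℝ) * hm'
  · simp [Matrix.mul_apply, Fin.sum_univ_two]

/-- the index `j` with `1 + N i j ≡ 0 mod ℓ` -/
def mate (N ℓ i : ℕ) : ℕ := (-((N : ZMod ℓ) * (i : ZMod ℓ))⁻¹).val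

omit [NeZero N] in
theorem dvd_mate {ℓ : ℕ} (hℓ : ℓ.Prime) (hN : ¬ ℓ ∣ N) {i : ℕ} (hi : ¬ ℓ ∣ i) :
    (ℓ : ℤ) ∣ 1 + N * i * mate N ℓ i := by
  have := Fact.mk hℓ
  rw [← ZMod.intCast_zmod_eq_zero_iff_dvd]
  have h1 : (N : ZMod ℓ) * (i : ZMod ℓ) ≠ 0 := mul_ne_zero
    (by rwa [Ne, ZMod.natCast_eq_zero_iff]) (by rwa [Ne, ZMod.natCast_eq_zero_iff])
  push_cast
  rw [mate, ZMod.natCast_zmod_val, mul_neg, mul_inv_cancel₀ h1]
  ring

omit [NeZero N] in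
theorem mate_lt {ℓ : ℕ} (hℓ : ℓ.Prime) (i : ℕ) : mate N ℓ i < ℓ := by
  have := Fact.mk hℓ
  exact ZMod.val_lt _

omit [NeZero N] in
theorem mate_ne_zero {ℓ : ℕ} (hℓ : ℓ.Prime) (hN : ¬ ℓ ∣ N) {i : ℕ} (hi : ¬ ℓ ∣ i) :
    mate N ℓ i ≠ 0 := by
  intro h
  have h1 := dvd_mate hℓ hN hi
  rw [h] at h1
  simp only [Nat.cast_zero, mul_zero, add_zero] at h1
  exact hℓ.one_lt.ne' (by exact_mod_cast Int.eq_one_of_dvd_one (by positivity) h1)

omit [NeZero N] in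
theorem mate_mate {ℓ : ℕ} (hℓ : ℓ.Prime) (hN : ¬ ℓ ∣ N) {i : ℕ} (hi : i < ℓ) :
    mate N ℓ (mate N ℓ i) = i := by
  have := Fact.mk hℓ
  have h1 : (N : ZMod ℓ) ≠ 0 := by rwa [Ne, ZMod.natCast_eq_zero_iff]
  have h2 : -((N : ZMod ℓ) * ((mate N ℓ i : ℕ) : ZMod ℓ))⁻¹ = (i : ZMod ℓ) := by
    rw [mate, ZMod.natCast_zmod_val]
    rcases eq_or_ne (i : ZMod ℓ) 0 with h | h
    · rw [h]; simp
    · field_simp
  rw [mate, h2, ZMod.val_natCast, Nat.mod_eq_of_lt hi]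

/-- `T_ℓ` commutes with the Fricke involution. -/
theorem heckeT_fricke {ℓ : ℕ} (hℓ : ℓ.Prime) (hN : ¬ ℓ ∣ N) {k : ℤ} (f : ℍ → ℂ)
    (hf : ∀ γ : Gamma0 N, f ∣[k] mapGL ℝ (γ : SL(2, ℤ)) = f) :
    heckeT k ℓ (f ∣[k] frickeGL N) = (heckeT k ℓ f) ∣[k] frickeGL N := by
  have h0 : ℓ ≠ 0 := hℓ.ne_zero
  have e1 : ∀ i j : ℕ, (ℓ : ℤ) ∣ 1 + N * i * j →
      (f ∣[k] frickeGL N) ∣[k] heckeMatrix ℓ i = (f ∣[k] heckeMatrix ℓ j) ∣[k] frickeGL N := by
    intro i j hij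
    obtain ⟨γ, hγ⟩ := fricke_mul_hecke h0 i j hij
    rw [← SlashAction.slash_mul, hγ, SlashAction.slash_mul, hf, SlashAction.slash_mul]
  have e2 : (f ∣[k] frickeGL N) ∣[k] heckeMatrix ℓ 0 =
      (f ∣[k] heckeDiagMatrix ℓ) ∣[k] frickeGL N := by
    rw [← SlashAction.slash_mul, fricke_mul_zero h0, SlashAction.slash_mul]
  have e3 : (f ∣[k] frickeGL N) ∣[k] heckeDiagMatrix ℓ =
      (f ∣[k] heckeMatrix ℓ 0) ∣[k] frickeGL N := by
    rw [← SlashAction.slash_mul, fricke_mul_diag h0, SlashAction.slash_mul]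
  have hr : Finset.range ℓ = insert 0 ((Finset.range ℓ).erase 0) :=
    (Finset.insert_erase (Finset.mem_range.mpr hℓ.pos)).symm
  have e4 : ∑ i ∈ (Finset.range ℓ).erase 0, (f ∣[k] frickeGL N) ∣[k] heckeMatrix ℓ i =
      ∑ j ∈ (Finset.range ℓ).erase 0, (f ∣[k] heckeMatrix ℓ j) ∣[k] frickeGL N := by
    have hmem : ∀ i ∈ (Finset.range ℓ).erase 0, mate N ℓ i ∈ (Finset.range ℓ).erase 0 := by
      intro i hi
      rw [Finset.mem_erase, Finset.mem_range] at hi ⊢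
      exact ⟨mate_ne_zero hℓ hN (fun h => absurd (Nat.le_of_dvd (Nat.pos_of_ne_zero hi.1) h)
        (not_le.mpr hi.2)), mate_lt hℓ i⟩
    refine Finset.sum_nbij' (mate N ℓ) (mate N ℓ) hmem hmem ?_ ?_ ?_
    · intro i hi
      rw [Finset.mem_erase, Finset.mem_range] at hi
      exact mate_mate hℓ hN hi.2
    · intro i hi
      rw [Finset.mem_erase, Finset.mem_range] at hi
      exact mate_mate hℓ hN hi.2
    · intro i hi
      rw [Finset.mem_erase, Finset.mem_range] at hi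
      exact e1 i _ (dvd_mate hℓ hN (fun h => absurd (Nat.le_of_dvd (Nat.pos_of_ne_zero hi.1) h)
        (not_le.mpr hi.2)))
  rw [heckeT_def, heckeT_def, hr, Finset.sum_insert (Finset.notMem_erase _ _),
    Finset.sum_insert (Finset.notMem_erase _ _), e2, e3, e4, SlashAction.add_slash,
    SlashAction.add_slash, SlashAction.sum_slash]
  abel

theorem heckeTLin_wN {ℓ : ℕ} (hℓ : ℓ.Prime) (hN : ¬ ℓ ∣ N) (f : CuspForm (Gamma0 N) 2) :
    CuspForm.heckeTLin 2 hℓ hN (wN f) = wN (CuspForm.heckeTLin 2 hℓ hN f) := by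
  apply DFunLike.coe_injective
  rw [CuspForm.coe_heckeTLin_apply, coe_wN, coe_wN, CuspForm.coe_heckeTLin_apply]
  refine heckeT_fricke hℓ hN f fun γ => ?_
  exact SlashInvariantFormClass.slash_action_eq f _ ⟨γ, γ.2, rfl⟩

/-- **A newform is an eigenvector of the Fricke involution**, with eigenvalue `1` or `-1`. -/
theorem exists_wN_eq {f : CuspForm (Gamma0 N) 2} (hf : f.IsNewform) :
    ∃ ε : ℂ, (ε = 1 ∨ ε = -1) ∧ wN f = ε • f := by
  have h1 : wN f = qCoeff (wN f) 1 • f :=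
    AL.strong_multiplicity_one hf one_ne_zero (wN f) fun ℓ hℓ hℓN _ => by
      rw [heckeTLin_wN hℓ hℓN, AL.eigenform_T hf.1 hℓ hℓN, wN_smul]
  refine ⟨qCoeff (wN f) 1, ?_, h1⟩
  set c := qCoeff (wN f) 1
  have h2 : (c * c) • f = (1 : ℂ) • f := by
    rw [one_smul, mul_smul, ← h1, ← wN_smul, ← h1, wN_wN]
  have h3 : (c * c - 1) • f = 0 := by rw [sub_smul, h2, sub_self]
  rcases smul_eq_zero.mp h3 with h | h
  · rcases mul_eq_zero.mp (show (c - 1) * (c + 1) = 0 by linear_combination h) with h' | h'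
    · exact Or.inl (by linear_combination h')
    · exact Or.inr (by linear_combination h')
  · exact absurd h hf.ne_zero

end Fermat.Agent.Cor.LFun
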