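import Fermat.Agent.Cor.ChebotarevNF
import Fermat.Agent.Cor.ChebotarevGal

/-!
# Frobenius elements are dense, and equidistributed

* `dense_frobenius` : the Frobenius elements outside a finite set of primes are dense in the absolute
  Galois group of `ℚ`;
* `trace_eq_of_frobenius` : two continuous representations of `Gal(ℚ̄/ℚ)` over a Hausdorff topological
  ring whose traces agree at the Frobenius elements outside a finite set of primes have the same trace;
* `equidistribution` : for a class function `φ` on the Galois group of a finite Galois extension `L/K` of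
  number fields, the average of `φ(Frob_v)` is the average of `φ` on the Galois group.
-/

set_option autoImplicit false
set_option linter.unusedSectionVars false
set_option linter.style.haveILetI false

open scoped Classical nonZeroDivisors Topology Pointwise

namespace Fermat.Agent.Cor.Cheb

open NumberField Filter IsDedekindDomain Module IntermediateField Fermat.Agent.CFT Fermat.Agent.H03
  Fermat.Agent.ZC Fermat.Agent.H25 Fermat.Agent.DS Ideal MulAction

noncomputable section

/-- **the Frobenius elements are dense** -/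
theorem dense_frobenius (T : Finset ℕ) :
    Dense {φ : GQ | ∃ (p : ℕ) (A : ValuationSubring Qb), p.Prime ∧ p ∉ T ∧ A.LiesOverPrime p ∧
      A.IsFrobeniusAt φ p} := by
  rw [dense_iff_inter_open]
  rintro V hV ⟨σ, hσ⟩
  have h1 : (fun x : GQ => σ * x) ⁻¹' V ∈ 𝓝 (1 : GQ) := by
    refine (hV.preimage (continuous_const_mul σ)).mem_nhds ?_
    change σ * 1 ∈ V
    rwa [mul_one]
  have hg : IsGalois ℚ Qb := H51.isGalois_Qbar
  obtain ⟨E, hE1, hE2, hE3⟩ := (krullTopology_mem_nhds_one_iff_of_normal ℚ Qb _).mp h1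
  obtain ⟨p, A, φ, hp, hpT, hA, hφ, hU⟩ :=
    exists_frobenius_dense (IntermediateField.fixingSubgroup_isOpen E) σ T
  refine ⟨φ, ?_, p, A, hp, hpT, hA, hφ⟩
  have h2 := hE3 hU
  change σ * (σ⁻¹ * φ) ∈ V at h2
  rwa [mul_inv_cancel_left] at h2

/-- continuous functions are determined by their values at the Frobenius elements -/
theorem eq_of_frobenius {X : Type*} [TopologicalSpace X] [T2Space X] {f g : GQ → X}
    (hf : Continuous f) (hg : Continuous g) (T : Finset ℕ)
    (h : ∀ p : ℕ, p.Prime → p ∉ T → ∀ (A : ValuationSubring Qb) (φ : GQ), A.LiesOverPrime p →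
      A.IsFrobeniusAt φ p → f φ = g φ) : f = g :=
  Continuous.ext_on (dense_frobenius T) hf hg fun φ ⟨p, A, hp, hpT, hA, hφ⟩ => h p hp hpT A φ hA hφ

/-- **the trace of a representation is determined by the traces of Frobenius** -/
theorem trace_eq_of_frobenius {R : Type*} [CommRing R] [TopologicalSpace R] [IsTopologicalRing R]
    [T2Space R] {n : Type*} [Fintype n] (ρ₁ ρ₂ : GQ →* Matrix.GeneralLinearGroup n R)
    (h₁ : Continuous ρ₁) (h₂ : Continuous ρ₂) (T : Finset ℕ)
    (h : ∀ p : ℕ, p.Prime → p ∉ T → ∀ (A : ValuationSubring Qb) (φ : GQ), A.LiesOverPrime p →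
      A.IsFrobeniusAt φ p →
        (ρ₁ φ : Matrix n n R).trace = (ρ₂ φ : Matrix n n R).trace) (σ : GQ) :
    (ρ₁ σ : Matrix n n R).trace = (ρ₂ σ : Matrix n n R).trace :=
  congrFun (eq_of_frobenius (Continuous.matrix_trace (Units.continuous_val.comp h₁))
    (Continuous.matrix_trace (Units.continuous_val.comp h₂)) T h) σ

/-- a character with values in a Hausdorff group is determined by its values at Frobenius elements -/
theorem hom_eq_of_frobenius {M : Type*} [Group M] [TopologicalSpace M] [T2Space M]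
    (χ₁ χ₂ : GQ →* M) (h₁ : Continuous χ₁) (h₂ : Continuous χ₂) (T : Finset ℕ)
    (h : ∀ p : ℕ, p.Prime → p ∉ T → ∀ (A : ValuationSubring Qb) (φ : GQ), A.LiesOverPrime p →
      A.IsFrobeniusAt φ p → χ₁ φ = χ₂ φ) : χ₁ = χ₂ :=
  DFunLike.coe_injective (eq_of_frobenius h₁ h₂ T h)

section equi

variable {K L : Type*} [Field K] [NumberField K] [Field L] [NumberField L] [Algebra K L]
  [IsGalois K L]

theorem tendsto_psum_Fr (g : Gal(L/K)) :
    Tendsto (fun s : ℝ => psum K s (Fr g) / psum K s (fun _ => True)) (𝓝[>] 1)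
      (𝓝 (1 / (Nat.card (Subgroup.centralizer {g} : Subgroup Gal(L/K)) : ℝ))) := by
  haveI : FiniteDimensional K L := Module.Finite.of_restrictScalars_finite ℚ K L
  haveI : Finite Gal(L/K) := inferInstance
  refine tendsto_of_bounds (by exact_mod_cast Nat.card_pos) (fun ε hε => ?_)
    (fun ε hε => exists_upper_L g hε) (psum_true_bound K)
  obtain ⟨E, hE⟩ := exists_lower_L g hε
  refine ⟨E, ?_⟩
  filter_upwards [hE, eventually_Ioc] with s h1 hs
  refine h1.trans (mul_le_mul_of_nonneg_left ?_ (Nat.cast_nonneg _))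
  exact psum_mono hs.1 hs.2 fun v hv => hv.2

/-- a Frobenius element exists at every prime -/
theorem exists_Fr (v : HeightOneSpectrum (𝓞 K)) : ∃ g : Gal(L/K), Fr g v := by
  haveI : FiniteDimensional K L := Module.Finite.of_restrictScalars_finite ℚ K L
  haveI : Finite Gal(L/K) := inferInstance
  obtain ⟨⟨P, hP⟩⟩ := (inferInstance : Nonempty (primesOver v.asIdeal (𝓞 L)))
  have hP1 := hP.1
  have hP2 := hP.2
  have hP0 : P ≠ ⊥ := by
    rintro rfl
    apply v.ne_bot
    rw [hP2.over]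
    exact Ideal.comap_bot_of_injective _ (FaithfulSMul.algebraMap_injective (𝓞 K) (𝓞 L))
  haveI : Finite (𝓞 L ⧸ P) := Ideal.finiteQuotientOfFreeOfNeBot _ hP0
  obtain ⟨g, hg⟩ := IsArithFrobAt.exists_of_isInvariant (𝓞 K) Gal(L/K) P
  refine ⟨g, P, hP1, hP2, fun x => ?_⟩
  have h1 := hg x
  have h2 : Nat.card (𝓞 K ⧸ P.under (𝓞 K)) = absNorm v.asIdeal := by
    rw [← hP2.over, absNorm_apply, Submodule.cardQuot_apply]
  rw [h2] at h1
  exact h1

/-- at a good prime, the number of Frobenius elements -/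
theorem sum_inv_class [Fintype Gal(L/K)] {v : HeightOneSpectrum (𝓞 K)} (hv : Good L v)
    (φ : Gal(L/K) → ℂ) {z : ℂ} (hz : ∀ g, Fr g v → φ g = z) :
    ∑ g : Gal(L/K), (if Fr g v then φ g *
      (Nat.card (Subgroup.centralizer {g} : Subgroup Gal(L/K)) : ℂ) / Nat.card Gal(L/K) else 0) =
      z := by
  obtain ⟨g₀, hg₀⟩ := exists_Fr (L := L) v
  have hiff : ∀ g, Fr g v ↔ IsConj g₀ g := by
    intro g
    refine ⟨fun h => hg₀.isConj hv h, fun h => ?_⟩
    obtain ⟨c, hc⟩ := isConj_iff.mp h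
    rw [← hc]
    exact hg₀.conj c
  have hcard : (Nat.card Gal(L/K) : ℂ) ≠ 0 := by exact_mod_cast Nat.card_pos.ne'
  have h1 : ∀ g, Fr g v → φ g *
      (Nat.card (Subgroup.centralizer {g} : Subgroup Gal(L/K)) : ℂ) / Nat.card Gal(L/K) =
      z / (Nat.card {h : Gal(L/K) // IsConj g₀ h} : ℂ) := by
    intro g hg
    have h2 := card_class_mul g
    have h3 : Nat.card {h : Gal(L/K) // IsConj g h} = Nat.card {h : Gal(L/K) // IsConj g₀ h} := by
      have hgc := (hiff g).mp hg
      exact Nat.card_congr (Equiv.subtypeEquivRight fun h =>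
        ⟨fun h' => hgc.trans h', fun h' => hgc.symm.trans h'⟩)
    rw [h3] at h2
    have h4 : (Nat.card {h : Gal(L/K) // IsConj g₀ h} : ℂ) ≠ 0 := by
      have : Nat.card {h : Gal(L/K) // IsConj g₀ h} ≠ 0 := by
        intro h0
        rw [h0, zero_mul] at h2
        exact Nat.card_pos.ne' h2.symm
      exact_mod_cast this
    rw [hz g hg, div_eq_div_iff hcard h4, ← h2]
    push_cast
    ring
  rw [← Finset.sum_filter, Finset.sum_congr rfl fun g hg => h1 g (Finset.mem_filter.mp hg).2,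
    Finset.sum_const, nsmul_eq_mul]
  have h5 : (Finset.univ.filter fun g : Gal(L/K) => Fr g v).card =
      Nat.card {h : Gal(L/K) // IsConj g₀ h} := by
    rw [Nat.card_eq_fintype_card, Fintype.card_subtype]
    congr 1
    ext g
    simp [hiff g]
  have h4 : (Nat.card {h : Gal(L/K) // IsConj g₀ h} : ℂ) ≠ 0 := by
    haveI : Nonempty {h : Gal(L/K) // IsConj g₀ h} := ⟨⟨g₀, IsConj.refl g₀⟩⟩
    exact_mod_cast Nat.card_pos.ne'
  rw [h5, mul_div_cancel₀ _ h4]

end equi

/-- **Equidistribution of the Frobenius elements** : if `b v = φ(Frob_v)` for almost all `v`, then the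
average of `b` over the primes (in the sense of Dirichlet) is the average of `φ` over the Galois
group. -/
theorem equidistribution (K L : Type*) [Field K] [NumberField K] [Field L] [NumberField L]
    [Algebra K L] [IsGalois K L] [Fintype Gal(L/K)] (φ : Gal(L/K) → ℂ)
    (b : HeightOneSpectrum (𝓞 K) → ℂ) (Z : Set (HeightOneSpectrum (𝓞 K))) (hZ : Z.Finite)
    (hb : ∀ v ∉ Z, ∀ (g : Gal(L/K)) (P : Ideal (𝓞 L)), P.IsPrime → P.LiesOver v.asIdeal →
      (∀ x : 𝓞 L, g • x - x ^ absNorm v.asIdeal ∈ P) → b v = φ g) :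
    Tendsto (fun s : ℝ => (∑' v : HeightOneSpectrum (𝓞 K),
        b v * (((absNorm v.asIdeal : ℝ) ^ (-s) : ℝ) : ℂ)) /
      ((∑' v : HeightOneSpectrum (𝓞 K), (absNorm v.asIdeal : ℝ) ^ (-s) : ℝ) : ℂ))
      (𝓝[>] 1) (𝓝 ((∑ g, φ g) / Nat.card Gal(L/K))) := by
  have hb' : ∀ v ∉ Z, ∀ g : Gal(L/K), Fr g v → φ g = b v := by
    rintro v hv g ⟨P, hP, hPo, hx⟩
    exact (hb v hv g P hP hPo hx).symm
  set c : Gal(L/K) → ℂ := fun g => φ g *
    (Nat.card (Subgroup.centralizer {g} : Subgroup Gal(L/K)) : ℂ) / Nat.card Gal(L/K) with hc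
  set r : HeightOneSpectrum (𝓞 K) → ℂ := fun v =>
    b v - ∑ g : Gal(L/K), (if Fr g v then c g else 0) with hr
  have hfin : (Z ∪ {v | ¬ Good L v}).Finite := hZ.union finite_not_good
  set W := hfin.toFinset with hW
  have hr0 : ∀ v ∉ W, r v = 0 := by
    intro v hv
    rw [hW, Set.Finite.mem_toFinset, Set.mem_union, not_or, Set.mem_ofPred_eq, not_not] at hv
    have h1 := sum_inv_class hv.2 φ (hb' v hv.1)
    rw [hr]
    dsimp only
    rw [sub_eq_zero]
    exact h1.symm
  have hsum : ∀ s : ℝ, 1 < s → s ≤ 2 → ∑' v : HeightOneSpectrum (𝓞 K),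
      b v * (nrm K s v.asIdeal : ℂ) = ∑ v ∈ W, r v * (nrm K s v.asIdeal : ℂ) +
        ∑ g : Gal(L/K), c g * ((psum K s (Fr g) : ℝ) : ℂ) := by
    intro s hs hs2
    have h1 : ∀ g : Gal(L/K), HasSum (fun v : HeightOneSpectrum (𝓞 K) =>
        c g * (((if Fr g v then nrm K s v.asIdeal else 0 : ℝ)) : ℂ))
        (c g * ((psum K s (Fr g) : ℝ) : ℂ)) := fun g =>
      (Complex.hasSum_ofReal.mpr (summable_psum K hs hs2 (Fr g)).hasSum).mul_left _
    have h2 : HasSum (fun v : HeightOneSpectrum (𝓞 K) => r v * (nrm K s v.asIdeal : ℂ))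
        (∑ v ∈ W, r v * (nrm K s v.asIdeal : ℂ)) :=
      hasSum_sum_of_ne_finset_zero fun v hv => by rw [hr0 v hv, zero_mul]
    have h3 := h2.add (hasSum_sum fun g (_ : g ∈ (Finset.univ : Finset Gal(L/K))) => h1 g)
    rw [← h3.tsum_eq]
    refine tsum_congr fun v => ?_
    have e : ∑ g : Gal(L/K), c g * (((if Fr g v then nrm K s v.asIdeal else 0 : ℝ)) : ℂ) =
        (∑ g : Gal(L/K), (if Fr g v then c g else 0)) * (nrm K s v.asIdeal : ℂ) := by
      rw [Finset.sum_mul]
      refine Finset.sum_congr rfl fun g _ => ?_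
      split_ifs
      · rfl
      · rw [Complex.ofReal_zero, mul_zero, zero_mul]
    rw [e, ← add_mul, hr]
    dsimp only
    rw [sub_add_cancel]
  -- the denominator
  have ht : ∀ s : ℝ, psum K s (fun _ => True) =
      ∑' v : HeightOneSpectrum (𝓞 K), (absNorm v.asIdeal : ℝ) ^ (-s) := by
    intro s
    rw [psum]
    exact tsum_congr fun v => if_pos trivial
  have htop : Tendsto (fun s : ℝ => psum K s (fun _ => True)) (𝓝[>] 1) atTop := by
    obtain ⟨C, hC⟩ := psum_true_bound K
    refine tendsto_atTop_mono' _ (f₁ := fun s => ell s - C) ?_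
      (tendsto_atTop_add_const_right _ _ tendsto_ell)
    filter_upwards [hC] with s hs
    linarith [(abs_le.mp hs).1]
  have hlim1 : ∀ v : HeightOneSpectrum (𝓞 K), Tendsto (fun s : ℝ =>
      r v * (nrm K s v.asIdeal : ℂ) / ((psum K s (fun _ => True) : ℝ) : ℂ)) (𝓝[>] 1) (𝓝 0) := by
    intro v
    rw [tendsto_zero_iff_norm_tendsto_zero]
    have h1 : Tendsto (fun s : ℝ => ‖r v‖ / psum K s (fun _ => True)) (𝓝[>] 1) (𝓝 0) :=
      tendsto_const_nhds.div_atTop htop
    refine squeeze_zero' (Eventually.of_forall fun s => norm_nonneg _) ?_ h1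
    filter_upwards [htop.eventually_gt_atTop 0, eventually_Ioc] with s hs hs1
    rw [norm_div, norm_mul, Complex.norm_real, Complex.norm_real, Real.norm_of_nonneg hs.le,
      Real.norm_of_nonneg (nrm_nonneg K s _)]
    refine div_le_div_of_nonneg_right (mul_le_of_le_one_right (norm_nonneg _) ?_) hs.le
    rw [nrm, Real.rpow_neg (Nat.cast_nonneg _)]
    refine inv_le_one_of_one_le₀ (Real.one_le_rpow ?_ (by linarith [hs1.1]))
    have h1 : absNorm v.asIdeal ≠ 0 := by
      rw [Ne, absNorm_eq_zero_iff]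
      exact v.ne_bot
    exact_mod_cast Nat.one_le_iff_ne_zero.mpr h1
  have hlim2 : ∀ g : Gal(L/K), Tendsto (fun s : ℝ =>
      c g * (((psum K s (Fr g) / psum K s (fun _ => True) : ℝ)) : ℂ)) (𝓝[>] 1)
      (𝓝 (c g * ((1 / (Nat.card (Subgroup.centralizer {g} : Subgroup Gal(L/K)) : ℝ) : ℝ) : ℂ))) :=
    fun g => ((Complex.continuous_ofReal.tendsto _).comp (tendsto_psum_Fr g)).const_mul _
  have hlim := (tendsto_finsetSum W fun v _ => hlim1 v).add
    (tendsto_finsetSum Finset.univ fun g _ => hlim2 g)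
  rw [Finset.sum_const_zero, zero_add] at hlim
  have hval : ∑ g : Gal(L/K), c g *
      ((1 / (Nat.card (Subgroup.centralizer {g} : Subgroup Gal(L/K)) : ℝ) : ℝ) : ℂ) =
      (∑ g, φ g) / Nat.card Gal(L/K) := by
    rw [Finset.sum_div]
    refine Finset.sum_congr rfl fun g _ => ?_
    have h1 : (Nat.card (Subgroup.centralizer {g} : Subgroup Gal(L/K)) : ℂ) ≠ 0 := by
      exact_mod_cast Nat.card_pos.ne'
    rw [hc]
    push_cast
    field_simp
  rw [hval] at hlim
  refine hlim.congr' ?_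
  filter_upwards [eventually_Ioc] with s hs
  have h1 := hsum s hs.1 hs.2
  have h2 : ∑' v : HeightOneSpectrum (𝓞 K), b v * (((absNorm v.asIdeal : ℝ) ^ (-s) : ℝ) : ℂ) =
      ∑' v : HeightOneSpectrum (𝓞 K), b v * (nrm K s v.asIdeal : ℂ) := rfl
  rw [h2, h1, ← ht s, add_div, Finset.sum_div, Finset.sum_div]
  congr 1
  refine Finset.sum_congr rfl fun g _ => ?_
  rw [Complex.ofReal_div, mul_div_assoc]

end

end Fermat.Agent.Cor.Cheb
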