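import Mathlib
import Fermat.Agent.Cor.GroupStructure

/-!
# Frobenius acting on torsion points

Let `E` be an elliptic curve over a finite field with `q` elements and trace `a`, `K` an algebraically closed field
containing `𝔽_q`.

* `torsion_structure`: `E(K)[n] ≅ (ℤ/n)²` for `n` prime to `q`.
* `frobenius_matrix`: if `ℓ` is a prime not dividing `q`, then the matrix of the Frobenius endomorphism on
  `E(K)[ℓ] ≅ 𝔽_ℓ²` has trace `a` and determinant `q`.

This file is not used by any of the statement files.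
-/

set_option autoImplicit false

namespace Fermat.Agent.Cor.Bounds

open Polynomial WeierstrassCurve WeierstrassCurve.Affine WeierstrassCurve.Affine.Point
open Fermat.Agent.Frob Fermat.Agent.H08

universe u v

variable {F : Type u} [Field F] [Fintype F] {K : Type v} [Field K] [IsAlgClosed K] [Algebra F K]
  [DecidableEq K]

variable (K) in
/-- the `n`-torsion of `E(K)` -/
noncomputable def tors (W : WeierstrassCurve F) (n : ℕ) : AddSubgroup (W.toAffine⁄K).Point :=
  (nsmulAddMonoidHom n : (W.toAffine⁄K).Point →+ _).ker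

omit [Fintype F] [IsAlgClosed K] in
lemma mem_tors (W : WeierstrassCurve F) (n : ℕ) (P : (W.toAffine⁄K).Point) :
    P ∈ tors K W n ↔ n • P = 0 := Iff.rfl

/-- **The structure of the `n`-torsion**, `n` prime to `q`. -/
theorem torsion_structure (W : WeierstrassCurve F) (hΔ : W.Δ ≠ 0) {n : ℕ}
    (hn : n.Coprime (Fintype.card F)) : Nonempty (ZMod n × ZMod n ≃+ tors K W n) := by
  have hn0 : 0 < n := by
    rcases Nat.eq_zero_or_pos n with h | h
    · rw [h, Nat.coprime_zero_left] at hn
      have : 1 < Fintype.card F := Fintype.one_lt_card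
      omega
    · exact h
  have hcard : Nat.card (tors K W n) = n ^ 2 := card_torsion_of_coprime (K := K) W hΔ hn
  have hfin : Finite (tors K W n) := Nat.finite_of_card_ne_zero (by rw [hcard]; positivity)
  have hle : ∀ k : ℕ, 0 < k → Nat.card {P : tors K W n // k • P = 0} ≤ k ^ 2 := by
    intro k hk
    have hdeg : degForm W 0 (k : ℤ) = (k : ℤ) ^ 2 := by rw [degForm]; ring
    have hpos : 0 < degForm W 0 (k : ℤ) := by rw [hdeg]; positivity
    obtain ⟨hfin, hle⟩ := card_ker_comb_le (K := K) W hΔ hpos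
    rw [hdeg] at hle
    have hle' : Nat.card {P : (W.toAffine⁄K).Point // comb 0 (k : ℤ) P = 0} ≤ k ^ 2 := by
      exact_mod_cast hle
    let f : {P : tors K W n // k • P = 0} → {P : (W.toAffine⁄K).Point // comb 0 (k : ℤ) P = 0} :=
      fun P => ⟨P.1.1, by
        rw [comb_apply, zero_smul, zero_add, natCast_zsmul]
        exact congrArg Subtype.val P.2⟩
    have hf : Function.Injective f := by
      intro P Q h
      have h1 : (f P).1 = (f Q).1 := congrArg Subtype.val h
      exact Subtype.ext (Subtype.ext h1)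
    exact (Nat.card_le_card_of_injective f hf).trans hle'
  obtain ⟨d, m, hd, hm, hdm, ⟨e⟩⟩ := exists_addEquiv_two_cyclic (A := tors K W n) hle
  have h1 : d * m = n ^ 2 := by
    rw [← hcard, ← Nat.card_congr e.toEquiv, Nat.card_prod, Nat.card_zmod, Nat.card_zmod]
  have h2 : m ∣ n := by
    have h3 : n • (e (0, 1)) = 0 := by
      apply Subtype.ext
      exact (e (0, 1)).2
    rw [← map_nsmul, map_eq_zero_iff e e.injective, Prod.smul_mk, Prod.mk_eq_zero] at h3
    have h4 := h3.2
    rw [nsmul_one] at h4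
    exact (ZMod.natCast_eq_zero_iff n m).mp h4
  have h3 : m ≤ n := Nat.le_of_dvd hn0 h2
  have h4 : d ≤ m := Nat.le_of_dvd hm hdm
  have h5 : m = n := by
    by_contra h
    have h6 : m < n := lt_of_le_of_ne h3 h
    nlinarith
  subst h5
  have h6 : d = m := by
    rw [sq] at h1
    exact Nat.eq_of_mul_eq_mul_right hm h1
  subst h6
  exact ⟨e⟩

/-- if Frobenius acts on `E[m]` as multiplication by `c` -/
theorem dvd_of_scalar (W : WeierstrassCurve F) (hΔ : W.Δ ≠ 0) {m : ℕ} {c : ℤ}
    (hm : m.Coprime (Fintype.card F))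
    (hfull : ∀ P : (W.toAffine⁄K).Point, m • P = 0 → Fr P = c • P) :
    (m : ℤ) ∣ W.traceOfFrobenius - 2 * c ∧ (m : ℤ) ∣ Fintype.card F - c ^ 2 := by
  set q := Fintype.card F with hq
  have hq1 : 1 < q := Fintype.one_lt_card
  have hkey : ∀ s : ℕ, s.Coprime q → ((m : ℤ) ^ 2) ∣ degForm W q (s * m - q * c) := by
    intro s hs
    apply sq_dvd_degForm (K := K) W hΔ hm
    · intro P hP
      have h1 : (m : ℤ) • P = 0 := by rw [natCast_zsmul]; exact hP
      rw [comb_apply, hfull P hP, smul_smul, ← add_smul,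
        show (q : ℤ) * c + (s * m - q * c) = s * m by ring, mul_smul, h1, smul_zero]
    · rw [← Int.isCoprime_iff_gcd_eq_one.trans (by rw [Int.gcd, Int.natAbs_natCast] :
        (degForm W q (s * m - q * c)).gcd (q : ℤ) = 1 ↔
          (degForm W q (s * m - q * c)).natAbs.Coprime q)]
      have h1 : IsCoprime ((s * m : ℤ) ^ 2) (q : ℤ) := by
        apply IsCoprime.pow_left
        exact IsCoprime.mul_left (Nat.isCoprime_iff_coprime.mpr hs) (Nat.isCoprime_iff_coprime.mpr hm)
      have h2 : degForm W q (s * m - q * c) = (s * m : ℤ) ^ 2 +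
          q * (q * q + W.traceOfFrobenius * (s * m - q * c) - 2 * (s * m) * c + q * c ^ 2) := by
        rw [degForm]
        ring
      rw [h2]
      exact h1.add_mul_left_left _
  have hm0 : (m : ℤ) ≠ 0 := by
    intro h
    have h' : m = 0 := by exact_mod_cast h
    rw [h', Nat.coprime_zero_left] at hm
    omega
  set a := W.traceOfFrobenius with ha
  have hmq : IsCoprime (m : ℤ) (q : ℤ) := Nat.isCoprime_iff_coprime.mpr hm
  have h1 := hkey 1 (Nat.coprime_one_left q)
  have h2 := hkey (q + 1) (by simp)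
  have h3 : (m : ℤ) * m ∣ m * ((q : ℤ) ^ 2 * (a - 2 * c)) := by
    have h4 := dvd_sub h2 h1
    have h5 : degForm W q ((q + 1 : ℕ) * m - q * c) - degForm W q ((1 : ℕ) * m - q * c) =
        m * ((q : ℤ) ^ 2 * (a - 2 * c)) + (m : ℤ) ^ 2 * ((q + 1) ^ 2 - 1) := by
      rw [degForm, degForm, ← ha, ← hq]
      push_cast
      ring
    rw [h5] at h4
    have h6 := (dvd_add_left (dvd_mul_right ((m : ℤ) ^ 2) _)).mp h4
    rwa [sq] at h6
  have h4 : (m : ℤ) ∣ a - 2 * c :=
    (hmq.pow_right (n := 2)).dvd_of_dvd_mul_left ((mul_dvd_mul_iff_left hm0).mp h3)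
  have h5 : (m : ℤ) ^ 2 ∣ (q : ℤ) ^ 2 * (q - a * c + c ^ 2) := by
    have h6 : degForm W q ((1 : ℕ) * m - q * c) =
        (q : ℤ) ^ 2 * (q - a * c + c ^ 2) + (m * (a - 2 * c) * q + (m : ℤ) ^ 2) := by
      rw [degForm, ← ha, ← hq]
      push_cast
      ring
    rw [h6] at h1
    refine (dvd_add_left (dvd_add ?_ dvd_rfl)).mp h1
    rw [sq]
    exact Dvd.dvd.mul_right (mul_dvd_mul_left _ h4) _
  have h6 : (m : ℤ) ^ 2 ∣ q - a * c + c ^ 2 :=
    (hmq.pow (m := 2) (n := 2)).dvd_of_dvd_mul_left h5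
  refine ⟨h4, ?_⟩
  have h7 : (m : ℤ) ∣ q - a * c + c ^ 2 := (dvd_pow_self _ two_ne_zero).trans h6
  have h8 := dvd_add h7 (Dvd.dvd.mul_right h4 c)
  rwa [show (q : ℤ) - a * c + c ^ 2 + (a - 2 * c) * c = q - c ^ 2 by ring] at h8

/-- the Frobenius endomorphism of the `n`-torsion -/
noncomputable def frTors (W : WeierstrassCurve F) (n : ℕ) : tors K W n →+ tors K W n where
  toFun P := ⟨Fr P.1, by
    have h : n • P.1 = 0 := P.2
    rw [mem_tors, ← map_nsmul, h, _root_.map_zero]⟩
  map_zero' := Subtype.ext (_root_.map_zero _)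
  map_add' P Q := Subtype.ext (map_add _ _ _)

/-- **The matrix of Frobenius on the `ℓ`-torsion** has trace `a` and determinant `q`, in every basis. -/
theorem frobenius_matrix (W : WeierstrassCurve F) (hΔ : W.Δ ≠ 0) {ℓ : ℕ} [hℓ : Fact ℓ.Prime]
    (hℓq : ¬ ℓ ∣ Fintype.card F) (e : tors K W ℓ ≃+ (Fin 2 → ZMod ℓ))
    (M : Matrix (Fin 2) (Fin 2) (ZMod ℓ)) (hM : ∀ P, e (frTors W ℓ P) = M.mulVec (e P)) :
    M.trace = (W.traceOfFrobenius : ZMod ℓ) ∧ M.det = (Fintype.card F : ZMod ℓ) := by
  set a := W.traceOfFrobenius with ha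
  set q := Fintype.card F with hq
  have hcop : ℓ.Coprime q := (hℓ.out.coprime_iff_not_dvd).mpr hℓq
  have hrel : ∀ v : Fin 2 → ZMod ℓ, M.mulVec (M.mulVec v) - (a : ZMod ℓ) • M.mulVec v +
      (q : ZMod ℓ) • v = 0 := by
    intro v
    obtain ⟨P, rfl⟩ := e.surjective v
    have h1 : frTors W ℓ (frTors W ℓ P) - a • frTors W ℓ P + (q : ℤ) • P = 0 := by
      apply Subtype.ext
      exact frobenius_relation' (K := K) W hΔ P.1
    have h2 := congrArg e h1
    rw [map_add, _root_.map_sub, map_zsmul, map_zsmul, hM, hM, _root_.map_zero] at h2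
    rw [← h2]
    congr 1
    · congr 1
      rw [← Int.cast_smul_eq_zsmul (ZMod ℓ)]
    · rw [← Int.cast_smul_eq_zsmul (ZMod ℓ), Int.cast_natCast]
  have h00 := congrFun (hrel ![1, 0]) 0
  have h10 := congrFun (hrel ![1, 0]) 1
  have h01 := congrFun (hrel ![0, 1]) 0
  have h11 := congrFun (hrel ![0, 1]) 1
  simp at h00 h10 h01 h11
  rw [Matrix.trace_fin_two, Matrix.det_fin_two]
  by_cases ht : M 0 0 + M 1 1 = (a : ZMod ℓ)
  · refine ⟨ht, ?_⟩
    linear_combination M 0 0 * ht - h00
  · exfalso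
    have ht' : M 0 0 + M 1 1 - (a : ZMod ℓ) ≠ 0 := sub_ne_zero.mpr ht
    have hy : M 0 1 = 0 := by
      have h : M 0 1 * (M 0 0 + M 1 1 - a) = 0 := by linear_combination h01
      exact (mul_eq_zero.mp h).resolve_right ht'
    have hz : M 1 0 = 0 := by
      have h : M 1 0 * (M 0 0 + M 1 1 - a) = 0 := by linear_combination h10
      exact (mul_eq_zero.mp h).resolve_right ht'
    have hw : M 0 0 = M 1 1 := by
      have h : (M 0 0 - M 1 1) * (M 0 0 + M 1 1 - a) = 0 := by linear_combination h00 - h11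
      exact sub_eq_zero.mp ((mul_eq_zero.mp h).resolve_right ht')
    have hc : ((((M 0 0).val : ℕ) : ℤ) : ZMod ℓ) = M 0 0 := by
      rw [Int.cast_natCast, ZMod.natCast_zmod_val]
    obtain ⟨h1, -⟩ := dvd_of_scalar (K := K) W hΔ (m := ℓ) (c := ((M 0 0).val : ℕ)) hcop (by
      intro P hP
      let P' : tors K W ℓ := ⟨P, hP⟩
      have h2 : e (frTors W ℓ P') = e ((((M 0 0).val : ℕ) : ℤ) • P') := by
        rw [hM, map_zsmul, ← Int.cast_smul_eq_zsmul (ZMod ℓ), hc]
        funext i
        fin_cases i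
        · simp [Matrix.mulVec, dotProduct, Fin.sum_univ_two, hy]
        · simp [Matrix.mulVec, dotProduct, Fin.sum_univ_two, hz, hw]
      have h3 := congrArg Subtype.val (e.injective h2)
      exact h3)
    apply ht
    have h2 := (ZMod.intCast_zmod_eq_zero_iff_dvd _ ℓ).mpr h1
    rw [Int.cast_sub, Int.cast_mul, hc] at h2
    push_cast at h2
    linear_combination - h2 - hw

end Fermat.Agent.Cor.Bounds
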