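import Fermat.Agent.Cor.Ord27
import Fermat.Agent.Cor.CatalanEven
import Fermat.Agent.Cor.H11SevenDesc

/-!
# Full rational `2`-torsion and points of order nine

No elliptic curve over `ℚ` with full rational `2`-torsion has a rational point of order `9`. In Tate's normal form of a
point of order nine (`Cor/Ord27.lean`, parameter `s`, `c = s² (s - 1)`, `m = s (s - 1)`, `A = - s³ + 3 s² - 1`)

`4 t³ + b₂ t² + 2 b₄ t + b₆ = 4 (t - c)³ + (A (t - c) - m³)²`.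

A root `t` gives a rational number `u`, `t - c = - (m / u)²`, with `u³ + (A / m) u = 2`; two different roots give
`u₁ u₂ (u₁ + u₂) = - 2`, so `(- 2 / u₁, (u₁ + 2 u₂) / u₁)` is a rational point of `y² = x³ + 1`. The rational points of
this curve are the points with `x = - 1, 0, 2` (Euler; `rat_euler`, by the descent of `Cor/CatalanEven.lean`).

This file is not used by any of the statement files.
-/

set_option autoImplicit false

namespace Fermat.Agent.Cor.Full9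

open WeierstrassCurve WeierstrassCurve.Affine WeierstrassCurve.Affine.Point
open Fermat.Agent.H08 Fermat.Agent.Frob Fermat.Agent.Cor.H11.Seven

/-! ### Euler's theorem over `ℚ` -/

theorem pos_form {p q : ℤ} (_hp : 0 < p) (hq : 0 < q) : 0 < p ^ 2 - 3 * p * q + 3 * q ^ 2 := by
  nlinarith [sq_nonneg (2 * p - 3 * q), mul_pos hq hq]

theorem nat_points {p q : ℕ} {W : ℤ} (hp : 0 < p) (hq : 0 < q) (hpq : Nat.Coprime p q)
    (h : (q : ℤ) * (p * ((p : ℤ) ^ 2 - 3 * p * q + 3 * (q : ℤ) ^ 2)) = W ^ 2) :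
    (p = 1 ∧ q = 1) ∨ (p = 3 ∧ q = 1) := by
  have hpZ : (0 : ℤ) < p := by exact_mod_cast hp
  have hqZ : (0 : ℤ) < q := by exact_mod_cast hq
  have hno : ∀ ℓ : ℕ, ℓ.Prime → (ℓ : ℤ) ∣ p → (ℓ : ℤ) ∣ q → False := by
    intro ℓ hℓ h1 h2
    exact Nat.not_coprime_of_dvd_of_dvd hℓ.one_lt (by exact_mod_cast h1) (by exact_mod_cast h2) hpq
  obtain ⟨e, W1, he, hW1⟩ := sq_int (c := (q : ℤ)) (d := p * ((p : ℤ) ^ 2 - 3 * p * q + 3 * (q : ℤ) ^ 2))
    hqZ (mul_pos hpZ (pos_form hpZ hqZ)) (fun ℓ hℓ h1 h2 => by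
      have hℓ' := Nat.prime_iff_prime_int.mp hℓ
      rcases hℓ'.dvd_or_dvd h2 with h3 | h3
      · exact hno ℓ hℓ h3 h1
      · have h4 : (ℓ : ℤ) ∣ (p : ℤ) ^ 2 := by
          have h5 : (p : ℤ) ^ 2 = ((p : ℤ) ^ 2 - 3 * p * q + 3 * (q : ℤ) ^ 2) - q * (-3 * p + 3 * q) := by ring
          rw [h5]
          exact dvd_sub h3 (h1.mul_right _)
        exact hno ℓ hℓ (hℓ'.dvd_of_dvd_pow h4) h1) h
  by_cases h13 : (3 : ℕ) ∣ p
  · obtain ⟨p', rfl⟩ := h13
    have hp' : 0 < p' := by omega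
    have hp'Z : (0 : ℤ) < p' := by exact_mod_cast hp'
    obtain ⟨V, hV⟩ := sq_of_mul_sq (k := 3) (x := (p' : ℤ) * ((q : ℤ) ^ 2 - 3 * q * p' + 3 * (p' : ℤ) ^ 2))
      (W := W1) (by norm_num) (by rw [← hW1]; push_cast; ring)
    have hno' : ∀ ℓ : ℕ, ℓ.Prime → (ℓ : ℤ) ∣ p' → (ℓ : ℤ) ∣ q → False := fun ℓ hℓ h1 h2 =>
      hno ℓ hℓ (by push_cast; exact h1.mul_left 3) h2
    obtain ⟨f, t, hf, ht⟩ := sq_int (c := (p' : ℤ)) (d := (q : ℤ) ^ 2 - 3 * q * p' + 3 * (p' : ℤ) ^ 2)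
      hp'Z (pos_form hqZ hp'Z) (fun ℓ hℓ h1 h2 => by
        have hℓ' := Nat.prime_iff_prime_int.mp hℓ
        have h4 : (ℓ : ℤ) ∣ (q : ℤ) ^ 2 := by
          have h5 : (q : ℤ) ^ 2 = ((q : ℤ) ^ 2 - 3 * q * p' + 3 * (p' : ℤ) ^ 2) - p' * (-3 * q + 3 * p') := by ring
          rw [h5]
          exact dvd_sub h2 (h1.mul_right _)
        exact hno' ℓ hℓ h1 (hℓ'.dvd_of_dvd_pow h4)) hV
    have hf0 : 0 < f := Nat.pos_of_ne_zero (by rintro rfl; simp at hf; omega)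
    have hd := CatalanEven.descent f e t hf0 (by
      by_contra hcon
      obtain ⟨ℓ, hℓ, h1, h2⟩ := Nat.Prime.not_coprime_iff_dvd.mp hcon
      have h1' : (ℓ : ℤ) ∣ (e : ℤ) := by exact_mod_cast h1
      have h2' : (ℓ : ℤ) ∣ (f : ℤ) := by exact_mod_cast h2
      exact hno' ℓ hℓ (by rw [hf]; exact dvd_pow h2' (by norm_num)) (by rw [he]; exact dvd_pow h1' (by norm_num)))
      (by rw [← ht, he, hf]; ring)
    right
    rw [hd.1] at he
    rw [hd.2] at hf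
    norm_num at he hf
    omega
  · obtain ⟨m, t, hm, ht⟩ := sq_int (c := (p : ℤ)) (d := (p : ℤ) ^ 2 - 3 * p * q + 3 * (q : ℤ) ^ 2)
      hpZ (pos_form hpZ hqZ) (fun ℓ hℓ h1 h2 => by
        have hℓ' := Nat.prime_iff_prime_int.mp hℓ
        have h4 : (ℓ : ℤ) ∣ 3 * (q : ℤ) ^ 2 := by
          have h5 : 3 * (q : ℤ) ^ 2 = ((p : ℤ) ^ 2 - 3 * p * q + 3 * (q : ℤ) ^ 2) - p * (p - 3 * q) := by ring
          rw [h5]
          exact dvd_sub h2 (h1.mul_right _)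
        rcases hℓ'.dvd_or_dvd h4 with h5 | h5
        · have h6 : ℓ ∣ 3 := by exact_mod_cast h5
          have h7 : ℓ = 3 := (Nat.prime_dvd_prime_iff_eq hℓ (by norm_num)).mp h6
          subst h7
          exact h13 (by exact_mod_cast h1)
        · exact hno ℓ hℓ h1 (hℓ'.dvd_of_dvd_pow h5)) hW1
    have he0 : 0 < e := Nat.pos_of_ne_zero (by rintro rfl; simp at he; omega)
    have hd := CatalanEven.descent e m t he0 (by
      by_contra hcon
      obtain ⟨ℓ, hℓ, h1, h2⟩ := Nat.Prime.not_coprime_iff_dvd.mp hcon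
      have h1' : (ℓ : ℤ) ∣ (m : ℤ) := by exact_mod_cast h1
      have h2' : (ℓ : ℤ) ∣ (e : ℤ) := by exact_mod_cast h2
      exact hno ℓ hℓ (by rw [hm]; exact dvd_pow h1' (by norm_num)) (by rw [he]; exact dvd_pow h2' (by norm_num)))
      (by rw [← ht, he, hm]; ring)
    left
    rw [hd.1] at hm
    rw [hd.2] at he
    norm_num at he hm
    omega

/-- **Euler's theorem over `ℚ`**: the rational points of `w² = t (t² - 3 t + 3)`. -/
theorem rat_points {t w : ℚ} (h : t * (t ^ 2 - 3 * t + 3) = w ^ 2) : t = 0 ∨ t = 1 ∨ t = 3 := by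
  by_cases ht : t = 0
  · exact Or.inl ht
  right
  have hpos : 0 < t ^ 2 - 3 * t + 3 := by nlinarith [sq_nonneg (2 * t - 3)]
  have htpos : 0 < t := by
    rcases lt_or_gt_of_ne ht with h1 | h1
    · exfalso
      have h2 : t * (t ^ 2 - 3 * t + 3) < 0 := mul_neg_of_neg_of_pos h1 hpos
      rw [h] at h2
      exact absurd h2 (not_lt.mpr (sq_nonneg w))
    · exact h1
  obtain ⟨m, hm⟩ : ∃ m : ℤ, m = t.num := ⟨_, rfl⟩
  obtain ⟨n, hn⟩ : ∃ n : ℕ, n = t.den := ⟨_, rfl⟩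
  have hn0 : 0 < n := by rw [hn]; exact t.den_pos
  have hm0 : 0 < m := by rw [hm]; exact Rat.num_pos.mpr htpos
  have hcop : Nat.Coprime m.natAbs n := by rw [hm, hn]; exact t.reduced
  have hx : t = (m : ℚ) / (n : ℚ) := by rw [hm, hn]; exact (Rat.num_div_den t).symm
  have hnQ : (n : ℚ) ≠ 0 := by exact_mod_cast hn0.ne'
  lift m to ℕ using hm0.le
  have hm0' : 0 < m := by exact_mod_cast hm0
  have hcop' : Nat.Coprime m n := by simpa using hcop
  have hsq : IsSquare (((n : ℤ) * (m * ((m : ℤ) ^ 2 - 3 * m * n + 3 * (n : ℤ) ^ 2)) : ℤ) : ℚ) := by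
    refine ⟨w * (n : ℚ) ^ 2, ?_⟩
    have h5 : w * (n : ℚ) ^ 2 * (w * (n : ℚ) ^ 2) = w ^ 2 * (n : ℚ) ^ 4 := by ring
    rw [h5, ← h, hx]
    push_cast
    field_simp
  rw [Rat.isSquare_intCast_iff] at hsq
  obtain ⟨W, hW⟩ := hsq
  rcases nat_points hm0' hn0 hcop' (W := W) (by rw [hW]; ring) with ⟨rfl, rfl⟩ | ⟨rfl, rfl⟩
  · left; rw [hx]; norm_num
  · right; rw [hx]; norm_num

/-- **Euler**: the rational points of `y² = x³ + 1`. -/
theorem rat_euler {x y : ℚ} (h : y ^ 2 = x ^ 3 + 1) : x = -1 ∨ x = 0 ∨ x = 2 := by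
  rcases rat_points (t := x + 1) (w := y) (by rw [h]; ring) with h1 | h1 | h1
  · left; linarith
  · right; left; linarith
  · right; right; linarith

/-- `u₁ u₂ (u₁ + u₂) = - 2` in rational numbers. -/
theorem sum_zero {u v : ℚ} (h : u * v * (u + v) = -2) (huv : u ≠ v) :
    u ^ 2 + u * v + v ^ 2 = 3 := by
  have hu : u ≠ 0 := by rintro rfl; norm_num at h
  have h1 : ((u + 2 * v) / u) ^ 2 = (-2 / u) ^ 3 + 1 := by
    field_simp
    linear_combination 4 * h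
  have h2 : ∀ k : ℚ, -2 / u = k → -2 = k * u := fun k hk => by
    rw [← hk]; field_simp
  rcases rat_euler h1 with h3 | h3 | h3
  · have h4 := h2 _ h3
    have hu2 : u = 2 := by linarith
    subst hu2
    have h5 : (v + 1) ^ 2 = 0 := by linear_combination (1 / 2) * h
    have h6 : v = -1 := by
      have := pow_eq_zero_iff (two_ne_zero) |>.mp h5
      linarith
    rw [h6]; norm_num
  · have h4 := h2 _ h3
    norm_num at h4
  · have h4 := h2 _ h3
    have hu2 : u = -1 := by linarith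
    subst hu2
    have h5 : (v + 1) * (v - 2) = 0 := by linear_combination -h
    rcases mul_eq_zero.mp h5 with h6 | h6
    · exfalso
      apply huv
      linarith
    · have h7 : v = 2 := by linarith
      rw [h7]; norm_num

/-- the number `u` attached to a root -/
theorem exists_u {A m τ : ℚ} (hm : m ≠ 0) (h : 4 * τ ^ 3 + (A * τ - m ^ 3) ^ 2 = 0) :
    ∃ u : ℚ, u ≠ 0 ∧ τ * u ^ 2 = -m ^ 2 ∧ m * u ^ 3 + A * u = 2 * m := by
  have hτ : τ ≠ 0 := by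
    rintro rfl
    apply pow_ne_zero 6 hm
    linear_combination h
  obtain ⟨g, hg⟩ : ∃ g, g = (A * τ - m ^ 3) / (2 * τ) := ⟨_, rfl⟩
  have hg1 : 2 * τ * g = A * τ - m ^ 3 := by rw [hg]; field_simp
  have hg2 : g ^ 2 = -τ := by
    apply mul_left_cancel₀ (pow_ne_zero 2 hτ)
    have : (2 * τ * g) ^ 2 = (A * τ - m ^ 3) ^ 2 := by rw [hg1]
    linear_combination (1 / 4) * this + (1 / 4) * h
  have hg0 : g ≠ 0 := by
    rintro rfl
    apply hτ
    linear_combination hg2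
  have hg3 : 2 * g ^ 3 - A * g ^ 2 - m ^ 3 = 0 := by
    linear_combination (2 * g - A) * hg2 - hg1
  refine ⟨m / g, div_ne_zero hm hg0, ?_, ?_⟩
  · field_simp
    linear_combination hg2
  · field_simp
    linear_combination -hg3

/-- two different roots: `A = - 3 m` -/
theorem eq_of_two_roots {A m τ₁ τ₂ : ℚ} (hm : m ≠ 0) (h12 : τ₁ ≠ τ₂)
    (h1 : 4 * τ₁ ^ 3 + (A * τ₁ - m ^ 3) ^ 2 = 0) (h2 : 4 * τ₂ ^ 3 + (A * τ₂ - m ^ 3) ^ 2 = 0) :
    A = -3 * m := by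
  obtain ⟨u, hu0, hu1, hu2⟩ := exists_u hm h1
  obtain ⟨v, hv0, hv1, hv2⟩ := exists_u hm h2
  have huv : u ≠ v := by
    rintro rfl
    apply h12
    apply mul_right_cancel₀ (pow_ne_zero 2 hu0)
    rw [hu1, hv1]
  have hd : u - v ≠ 0 := sub_ne_zero.mpr huv
  have hA : A = -m * (u ^ 2 + u * v + v ^ 2) := by
    apply mul_left_cancel₀ hd
    linear_combination hu2 - hv2
  have h3 : u * v * (u + v) = -2 := by
    apply mul_left_cancel₀ hm
    rw [hA] at hu2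
    linear_combination -hu2
  rw [hA, sum_zero h3 huv]
  ring

/-! ### the theorem -/

variable {W : WeierstrassCurve.Affine ℚ}

theorem root_vc (C : VariableChange ℚ) {t : ℚ}
    (h : 4 * t ^ 3 + W.b₂ * t ^ 2 + 2 * W.b₄ * t + W.b₆ = 0) :
    4 * ((t - C.r) / (C.u : ℚ) ^ 2) ^ 3 + (C • W : WeierstrassCurve ℚ).b₂ * ((t - C.r) / (C.u : ℚ) ^ 2) ^ 2 +
      2 * (C • W : WeierstrassCurve ℚ).b₄ * ((t - C.r) / (C.u : ℚ) ^ 2) +
      (C • W : WeierstrassCurve ℚ).b₆ = 0 := by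
  have hu0 : (C.u : ℚ) ≠ 0 := C.u.ne_zero
  rw [variableChange_b₂, variableChange_b₄, variableChange_b₆, Units.val_inv_eq_inv_val]
  field_simp
  linear_combination h

/-- **No elliptic curve over `ℚ` with full rational `2`-torsion has a rational point of order `9`.** -/
theorem addOrderOf_ne_nine_of_full (hΔ : W.Δ ≠ 0) {t₁ t₂ : ℚ} (h12 : t₁ ≠ t₂)
    (h1 : 4 * t₁ ^ 3 + W.b₂ * t₁ ^ 2 + 2 * W.b₄ * t₁ + W.b₆ = 0)
    (h2 : 4 * t₂ ^ 3 + W.b₂ * t₂ ^ 2 + 2 * W.b₄ * t₂ + W.b₆ = 0) (Q : W.Point) :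
    addOrderOf Q ≠ 9 := by
  intro hQ
  have hne : ∀ m : ℕ, ¬ 9 ∣ m → m • Q ≠ 0 := by
    intro m hm h0
    rw [← hQ] at hm
    exact hm (addOrderOf_dvd_iff_nsmul_eq_zero.2 h0)
  obtain ⟨C, P', hx, hy, h4, h6, h23, hP'⟩ := Ord27.exists_tate (hne 2 (by norm_num))
    (hne 3 (by norm_num))
  have hsm : ∀ n : ℕ, vcFun (W := W) (W' := (C • W : WeierstrassCurve ℚ)) rfl (n • P') = n • Q := by
    intro n
    rw [← hP']
    exact map_nsmul (vcEquiv (W := W) (W' := (C • W : WeierstrassCurve ℚ)) rfl) n P'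
  have h0 : vcFun (W := W) (W' := (C • W : WeierstrassCurve ℚ)) rfl 0 = 0 := rfl
  obtain ⟨s, hs0, hs1, a1, a3, -, -⟩ := Ord27.tate_data (P := P') h4 h23 (fun n hn hz => by
      apply hne n hn
      rw [← hsm, hz, h0]) (by
      apply vcFun_injective (W := W) (W' := (C • W : WeierstrassCurve ℚ)) rfl
      rw [hsm, h0, ← hQ]
      exact addOrderOf_nsmul_eq_zero Q) hx hy
  have a2 : (C • W : WeierstrassCurve ℚ).a₂ = -((s ^ 2 - s + 1) * (s ^ 2 * (s - 1))) := by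
    rw [h23, a3]
  have hs1' : s - 1 ≠ 0 := sub_ne_zero.2 hs1
  have hu0 : (C.u : ℚ) ≠ 0 := C.u.ne_zero
  have key : ∀ t : ℚ, 4 * t ^ 3 + W.b₂ * t ^ 2 + 2 * W.b₄ * t + W.b₆ = 0 →
      4 * ((t - C.r) / (C.u : ℚ) ^ 2 - s ^ 2 * (s - 1)) ^ 3 +
        ((-s ^ 3 + 3 * s ^ 2 - 1) * ((t - C.r) / (C.u : ℚ) ^ 2 - s ^ 2 * (s - 1)) -
          (s * (s - 1)) ^ 3) ^ 2 = 0 := by
    intro t ht
    have h := root_vc C ht
    generalize (t - C.r) / (C.u : ℚ) ^ 2 = z at h ⊢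
    rw [WeierstrassCurve.b₂, WeierstrassCurve.b₄, WeierstrassCurve.b₆, h4, h6, a1, a2, a3] at h
    linear_combination h
  have hA := eq_of_two_roots (mul_ne_zero hs0 hs1') (fun h => by
    apply h12
    have h' : (t₁ - C.r) / (C.u : ℚ) ^ 2 = (t₂ - C.r) / (C.u : ℚ) ^ 2 := by linear_combination h
    rw [div_left_inj' (pow_ne_zero 2 hu0)] at h'
    linarith) (key t₁ h1) (key t₂ h2)
  have hΔ' : (C • W : WeierstrassCurve ℚ).Δ = 0 := by
    rw [WeierstrassCurve.Δ, WeierstrassCurve.b₂, WeierstrassCurve.b₄, WeierstrassCurve.b₆,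
      WeierstrassCurve.b₈, h4, h6, a1, a2, a3]
    linear_combination (-(s ^ 9 * (s - 1) ^ 9 * (s ^ 2 - s + 1) ^ 3)) * hA
  rw [variableChange_Δ, Units.val_inv_eq_inv_val] at hΔ'
  exact (mul_ne_zero (pow_ne_zero 12 (inv_ne_zero hu0)) hΔ) hΔ'

end Fermat.Agent.Cor.Full9
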