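import Fermat.Agent.Cor.MazurFull
import Fermat.Agent.Cor.Full9

/-!
# Mazur's theorem for elliptic curves with full rational `2`-torsion: the orders

The order of a rational torsion point of an elliptic curve over `ℚ` with full rational `2`-torsion is
`1, 2, 3, 4, 6` or `8` (`order_cases`). All these orders occur.

This file is not used by any of the statement files.
-/

set_option autoImplicit false

namespace Fermat.Agent.Cor.Full9

open WeierstrassCurve WeierstrassCurve.Affine WeierstrassCurve.Affine.Point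

variable {E : WeierstrassCurve.Affine ℚ} {t₁ t₂ : ℚ}

/-- **Mazur's theorem for full rational `2`-torsion** (orders): the order of a rational torsion point is
`1, 2, 3, 4, 6` or `8`. -/
theorem order_cases (hΔ : E.Δ ≠ 0) (h12 : t₁ ≠ t₂)
    (h1 : 4 * t₁ ^ 3 + E.b₂ * t₁ ^ 2 + 2 * E.b₄ * t₁ + E.b₆ = 0)
    (h2 : 4 * t₂ ^ 3 + E.b₂ * t₂ ^ 2 + 2 * E.b₄ * t₂ + E.b₆ = 0) (P : E.Point)
    (hn : addOrderOf P ≠ 0) : addOrderOf P ∈ ({1, 2, 3, 4, 6, 8} : Finset ℕ) := by
  have h := MazurFull.order_cases_full hΔ h12 h1 h2 P hn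
  have h9 := addOrderOf_ne_nine_of_full hΔ h12 h1 h2 P
  have h18 : addOrderOf P ≠ 18 := by
    intro h18
    apply addOrderOf_ne_nine_of_full hΔ h12 h1 h2 ((2 : ℕ) • P)
    rw [addOrderOf_nsmul' _ two_ne_zero, h18]
    norm_num
  simp only [Finset.mem_insert, Finset.mem_singleton] at h ⊢
  omega

/-- Every rational torsion point is killed by `24`. -/
theorem nsmul_eq_zero (hΔ : E.Δ ≠ 0) (h12 : t₁ ≠ t₂)
    (h1 : 4 * t₁ ^ 3 + E.b₂ * t₁ ^ 2 + 2 * E.b₄ * t₁ + E.b₆ = 0)
    (h2 : 4 * t₂ ^ 3 + E.b₂ * t₂ ^ 2 + 2 * E.b₄ * t₂ + E.b₆ = 0) (P : E.Point)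
    (hn : addOrderOf P ≠ 0) : (24 : ℕ) • P = 0 := by
  have h := order_cases hΔ h12 h1 h2 P hn
  rw [← addOrderOf_dvd_iff_nsmul_eq_zero]
  simp only [Finset.mem_insert, Finset.mem_singleton] at h
  rcases h with h | h | h | h | h | h <;> rw [h] <;> norm_num

end Fermat.Agent.Cor.Full9
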