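import Mathlib
import Fermat.Agent.H09.S12Red
import Fermat.Agent.H12.LL.RDW2
import Fermat.Agent.N4.Final
import Fermat.Prelude.Def_FLTPrelim_Modularity
import Fermat.Prelude.Def_FLTPrelim_ModularRep

/-!
# The general Frey curve `y² + xy = x³ + ((B - 1 - A) / 4) x² - (AB / 16) x`

`A`, `B` coprime integers, `A ≡ 3 mod 4`, `32 ∣ B`; the third number is `C = A + B`. Basic facts: discriminant,
semistability, inertia at the primes `q` with `p ∣ v_q (A B C)`.
-/

set_option autoImplicit false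

namespace Fermat.Agent.Cor.GFrey

open WeierstrassCurve WeierstrassCurve.Affine WeierstrassCurve.Affine.Point
open Fermat.Agent.H08

local notation "Qb" => AlgebraicClosure ℚ

/-- the data of a general Frey curve -/
structure FD (A B : ℤ) : Prop where
  cop : IsCoprime A B
  hA : A % 4 = 3
  hB : (32 : ℤ) ∣ B
  hB0 : B ≠ 0

/-- the general Frey curve -/
def fc (A B : ℤ) : WeierstrassCurve ℤ := ⟨1, (B - 1 - A) / 4, 0, -(A * (B / 16)), 0⟩

variable {A B : ℤ}

@[simp] theorem fc_a₁ : (fc A B).a₁ = 1 := rfl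
@[simp] theorem fc_a₃ : (fc A B).a₃ = 0 := rfl
@[simp] theorem fc_a₆ : (fc A B).a₆ = 0 := rfl

namespace FD

theorem hA0 (h : FD A B) : A ≠ 0 := by
  have := h.hA
  omega

theorem hC0 (h : FD A B) : A + B ≠ 0 := by
  have := h.hA
  obtain ⟨k, hk⟩ := h.hB
  omega

theorem abc0 (h : FD A B) : A * B * (A + B) ≠ 0 :=
  mul_ne_zero (mul_ne_zero h.hA0 h.hB0) h.hC0

theorem oddA (h : FD A B) : Odd A := by
  rw [Int.odd_iff]
  have := h.hA
  omega

theorem a₂ (h : FD A B) : 4 * (fc A B).a₂ = B - 1 - A := by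
  have := h.hA
  obtain ⟨k, hk⟩ := h.hB
  change 4 * ((B - 1 - A) / 4) = _
  omega

theorem a₄ (h : FD A B) : 16 * (fc A B).a₄ = -(A * B) := by
  obtain ⟨k, hk⟩ := h.hB
  change 16 * (-(A * (B / 16))) = _
  have h1 : B / 16 = 2 * k := by omega
  rw [h1, hk]
  ring

theorem b₂ (h : FD A B) : (fc A B).b₂ = B - A := by
  rw [WeierstrassCurve.b₂, fc_a₁]
  linear_combination h.a₂

theorem b₄ (h : FD A B) : 8 * (fc A B).b₄ = -(A * B) := by
  rw [WeierstrassCurve.b₄, fc_a₁, fc_a₃]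
  linear_combination h.a₄

theorem b₆ : (fc A B).b₆ = 0 := by
  rw [WeierstrassCurve.b₆, fc_a₃, fc_a₆]
  ring

theorem c₄ (h : FD A B) : (fc A B).c₄ = A ^ 2 + A * B + B ^ 2 := by
  rw [WeierstrassCurve.c₄, h.b₂]
  linear_combination (-3) * h.b₄

theorem Δ (h : FD A B) : 2 ^ 8 * (fc A B).Δ = (A * B * (A + B)) ^ 2 := by
  have h4 := h.a₄
  have h2 := h.a₂
  simp only [WeierstrassCurve.Δ, WeierstrassCurve.b₂, WeierstrassCurve.b₄, WeierstrassCurve.b₆,
    WeierstrassCurve.b₈, fc_a₁, fc_a₃, fc_a₆]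
  generalize (fc A B).a₂ = x at *
  generalize (fc A B).a₄ = y at *
  have key : (1 : ℤ) ^ 2 + 4 * x = B - A := by linarith
  rw [key]
  have : (2 : ℤ) ^ 8 * (-(B - A) ^ 2 * (1 ^ 2 * 0 + 4 * x * 0 - 1 * 0 * y + x * 0 ^ 2 - y ^ 2) -
      8 * (2 * y + 1 * 0) ^ 3 - 27 * (0 ^ 2 + 4 * 0) ^ 2 +
      9 * (B - A) * (2 * y + 1 * 0) * (0 ^ 2 + 4 * 0)) =
      (B - A) ^ 2 * (16 * y) ^ 2 - 4 * (16 * y) ^ 3 := by ring
  rw [this, h4]
  ring

theorem Δ_ne_zero (h : FD A B) : (fc A B).Δ ≠ 0 := by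
  intro h0
  have := h.Δ
  rw [h0, mul_zero] at this
  exact pow_ne_zero _ h.abc0 this.symm

theorem dvd_abc (h : FD A B) {q : ℕ} (hq : q.Prime) (hd : (q : ℤ) ∣ (fc A B).Δ) :
    (q : ℤ) ∣ A * B * (A + B) := by
  have h1 : (q : ℤ) ∣ (A * B * (A + B)) ^ 2 := by
    rw [← h.Δ]; exact Dvd.dvd.mul_left hd _
  exact (Nat.prime_iff_prime_int.mp hq).dvd_of_dvd_pow h1

theorem dvd_Δ_iff (h : FD A B) {q : ℕ} (hq : q.Prime) (hq2 : q ≠ 2) :
    (q : ℤ) ∣ (fc A B).Δ ↔ (q : ℤ) ∣ A * B * (A + B) := by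
  refine ⟨h.dvd_abc hq, fun hd => ?_⟩
  have hqp := Nat.prime_iff_prime_int.mp hq
  have h1 : (q : ℤ) ∣ 2 ^ 8 * (fc A B).Δ := by
    rw [h.Δ]
    exact dvd_pow hd two_ne_zero
  rcases hqp.dvd_or_dvd h1 with h2 | h2
  · exfalso
    have h3 : (q : ℤ) ∣ 2 := hqp.dvd_of_dvd_pow h2
    have h4 : q ∣ 2 := by exact_mod_cast h3
    exact hq2 ((Nat.prime_dvd_prime_iff_eq hq Nat.prime_two).mp h4)
  · exact h2

theorem two_dvd_Δ (h : FD A B) : (2 : ℤ) ∣ (fc A B).Δ := by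
  obtain ⟨k, hk⟩ := h.hB
  have h1 := h.Δ
  rw [hk] at h1
  have h2 : (2 : ℤ) ^ 8 * (fc A (32 * k)).Δ = 2 ^ 8 * (2 * (2 * (A * k * (A + 32 * k)) ^ 2)) := by
    rw [h1]; ring
  rw [hk]
  exact ⟨_, mul_left_cancel₀ (by norm_num) h2⟩

theorem not_dvd_both (h : FD A B) {q : ℕ} (hq : q.Prime) (h1 : (q : ℤ) ∣ A)
    (h2 : (q : ℤ) ∣ B) : False :=
  (Nat.prime_iff_prime_int.mp hq).not_isUnit (h.cop.isUnit_of_dvd' h1 h2)

theorem semistable (h : FD A B) : (fc A B).IsSemistableModel := by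
  intro q hq hΔ hc4
  have hqp := Nat.prime_iff_prime_int.mp hq
  have habc := h.dvd_abc hq hΔ
  rw [h.c₄] at hc4
  rcases hqp.dvd_or_dvd habc with h0 | h0
  · rcases hqp.dvd_or_dvd h0 with h1 | h1
    · refine h.not_dvd_both hq h1 (hqp.dvd_of_dvd_pow (n := 2) ?_)
      have : B ^ 2 = (A ^ 2 + A * B + B ^ 2) - A * (A + B) := by ring
      rw [this]
      exact dvd_sub hc4 (Dvd.dvd.mul_right h1 _)
    · refine h.not_dvd_both hq (hqp.dvd_of_dvd_pow (n := 2) ?_) h1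
      have : A ^ 2 = (A ^ 2 + A * B + B ^ 2) - B * (A + B) := by ring
      rw [this]
      exact dvd_sub hc4 (Dvd.dvd.mul_right h1 _)
  · have h2 : (q : ℤ) ∣ A * B := by
      have : A * B = (A + B) * (A + B) - (A ^ 2 + A * B + B ^ 2) := by ring
      rw [this]
      exact dvd_sub (Dvd.dvd.mul_right h0 _) hc4
    rcases hqp.dvd_or_dvd h2 with h3 | h3
    · exact h.not_dvd_both hq h3 ((dvd_add_right h3).mp h0)
    · exact h.not_dvd_both hq ((dvd_add_left h3).mp h0) h3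

end FD

/-! ### inertia away from `2` and `p` -/

section Inertia

theorem map_b₂' (h : FD A B) : (((fc A B).map (Int.castRingHom ℚ))⁄Qb).b₂ = ((B - A : ℤ) : Qb) := by
  rw [← H09.map_int_Qb, map_b₂, h.b₂]
  rfl

theorem map_b₄' (h : FD A B) :
    8 * (((fc A B).map (Int.castRingHom ℚ))⁄Qb).b₄ = ((-(A * B) : ℤ) : Qb) := by
  rw [← H09.map_int_Qb, map_b₄, ← h.b₄]
  push_cast
  rfl

theorem map_b₆' : (((fc A B).map (Int.castRingHom ℚ))⁄Qb).b₆ = 0 := by
  rw [← H09.map_int_Qb, map_b₆, FD.b₆]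
  exact map_zero _

theorem mult_case (h : FD A B) {p q : ℕ} (hp : p.Prime) (hp5 : 5 ≤ p) (hq : q.Prime)
    (hq2 : q ≠ 2) (hqp : q ≠ p) {V : ValuationSubring Qb} (hV : V.LiesOverPrime q)
    {σ : Qb ≃ₐ[ℚ] Qb} (hσ : σ ∈ V.inertiaSubgroupIn ℚ) {n b : ℤ}
    (hroot : n ^ 3 + (B - A) * n ^ 2 - A * B * n = 0)
    (hb : 3 * n ^ 2 + 2 * (B - A) * n - A * B = b) (hb0 : b ≠ 0)
    (hqb : (q : ℤ) ∣ b) (hpb : p ∣ padicValInt q b) (hva : ¬ (q : ℤ) ∣ 3 * n + (B - A))
    {Q : (((fc A B).map (Int.castRingHom ℚ))⁄Qb).Point} (hQ : Q ≠ 0) (hpQ : p • Q = 0) :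
    σ • Q = Q := by
  have hW : IsIntegralFor V.valuation (((fc A B).map (Int.castRingHom ℚ))⁄Qb) :=
    H09.isIntegralFor_of_int (H09.map_int_Qb (fc A B))
  obtain ⟨w, hw⟩ := exists_isLogVal (L := Qb) hq hV
  have hvp : V.valuation ((p : ℕ) : Qb) = 1 :=
    val_natCast_eq_one hq hV (fun h' => hqp ((Nat.prime_dvd_prime_iff_eq hq hp).mp h'))
  have hv2 : V.valuation (2 : Qb) = 1 := by
    have := val_natCast_eq_one (L := Qb) hq hV (n := 2)
      (fun h' => hq2 ((Nat.prime_dvd_prime_iff_eq hq Nat.prime_two).mp h'))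
    exact_mod_cast this
  set e : Qb := (n : Qb) with he
  have hve : V.valuation e ≤ 1 := val_intCast_le_one V n
  have hroot' : e ^ 3 + (((fc A B).map (Int.castRingHom ℚ))⁄Qb).b₂ * e ^ 2 +
      8 * (((fc A B).map (Int.castRingHom ℚ))⁄Qb).b₄ * e +
      16 * (((fc A B).map (Int.castRingHom ℚ))⁄Qb).b₆ = 0 := by
    rw [map_b₂' h, map_b₄' h, map_b₆', he]
    have := congrArg (fun z : ℤ => (z : Qb)) hroot
    push_cast at this ⊢
    linear_combination this
  have hbe : 3 * e ^ 2 + 2 * (((fc A B).map (Int.castRingHom ℚ))⁄Qb).b₂ * e +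
      8 * (((fc A B).map (Int.castRingHom ℚ))⁄Qb).b₄ = (b : Qb) := by
    rw [map_b₂' h, map_b₄' h, he]
    have := congrArg (fun z : ℤ => (z : Qb)) hb
    push_cast at this ⊢
    linear_combination this
  have hva' : V.valuation (3 * e + (((fc A B).map (Int.castRingHom ℚ))⁄Qb).b₂) = 1 := by
    rw [map_b₂' h, he]
    have := val_intCast_eq_one hq hV hva
    push_cast at this ⊢
    exact this
  obtain ⟨k, hk⟩ := hpb
  have hvb : V.valuation (b : Qb) = V.valuation ((((q : ℕ) : Qb) ^ k) ^ p) := by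
    rw [N4.val_intCast_eq_padicValInt hq hV hb0, hk, map_pow, map_pow, ← pow_mul, mul_comm k p]
  have hvb1 : V.valuation (b : Qb) < 1 := val_intCast_lt_one hV hqb
  have hbL : (b : Qb) ≠ 0 := by exact_mod_cast hb0
  have hint : ∀ R : (((fc A B).map (Int.castRingHom ℚ))⁄Qb).Point, p • R = 0 →
      V.valuation (4 * px R - e) ≤ 1 := by
    intro R hR
    exact v_sub_le_one (v_mul_le_one (v_ofNat_le_one _ 4) (val_px_le_one_of_torsion hW hR hvp)) hve
  have H : KHyp (fun R : (((fc A B).map (Int.castRingHom ℚ))⁄Qb).Point => 4 * px R - e)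
      (3 * e + (((fc A B).map (Int.castRingHom ℚ))⁄Qb).b₂)
      (3 * e ^ 2 + 2 * (((fc A B).map (Int.castRingHom ℚ))⁄Qb).b₂ * e +
        8 * (((fc A B).map (Int.castRingHom ℚ))⁄Qb).b₄) V.valuation p :=
    { K := kummerSystem_of_root two_ne_zero hroot'
      hp := hp
      hp5 := hp5
      v2 := hv2
      va := hva'
      vb := by rw [hbe]; exact hvb1
      b0 := by rw [hbe]; exact hbL
      int := fun R _ hR => hint R hR }
  rcases lt_or_eq_of_le (hint Q hpQ) with h1 | h1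
  · refine inertia_trivial_of_singular hσ hw hroot' H (by rw [he, map_intCast])
      (α := ((q : ℕ) : Qb) ^ k) (by rw [map_pow, map_natCast]) ?_ hQ hpQ h1
    rw [hbe]
    exact hvb
  · apply inertia_trivial_of_nonsingularRed hW hσ hpQ hvp
    by_contra hns
    have h2 := val_lt_of_not_nonsingularRed hW hQ (val_px_le_one_of_torsion hW hpQ hvp) hns hve
      hroot'
    have h3 : V.valuation ((4 * px Q - e) ^ 2) = 1 := by rw [map_pow, h1, one_pow]
    rw [hbe, Valuation.map_sub_eq_of_lt_left _ (by rwa [h3]), h3] at h2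
    exact lt_irrefl _ h2

/-- **The `p`-torsion of the general Frey curve is unramified at `q ≠ 2, p` if `p ∣ v_q (A B C)`.** -/
theorem unrAt (h : FD A B) {p q : ℕ} (hp : p.Prime) (hp5 : 5 ≤ p) (hq : q.Prime)
    (hq2 : q ≠ 2) (hqp : q ≠ p) (hdiv : p ∣ padicValInt q (A * B * (A + B))) :
    H12.LL.UnrAt (fc A B) p q := by
  have hqP := Nat.prime_iff_prime_int.mp hq
  have hfq : Fact q.Prime := ⟨hq⟩
  have hfac : padicValInt q (A * B * (A + B)) = padicValInt q (A * B) + padicValInt q (A + B) :=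
    padicValInt.mul (mul_ne_zero h.hA0 h.hB0) h.hC0
  by_cases hgood : (q : ℤ) ∣ A * B * (A + B)
  · intro V hV σ hσ Q hpQ
    by_cases hQ : Q = 0
    · rw [hQ]; exact smul_zero (A := (((fc A B).map (Int.castRingHom ℚ))⁄Qb).Point) σ
    by_cases hC : (q : ℤ) ∣ A + B
    · have hA : ¬ (q : ℤ) ∣ A := fun h1 => h.not_dvd_both hq h1 ((dvd_add_right h1).mp hC)
      have hB : ¬ (q : ℤ) ∣ B := fun h1 => h.not_dvd_both hq ((dvd_add_left h1).mp hC) h1
      have hv : padicValInt q (A * B) = 0 := padicValInt.eq_zero_of_not_dvd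
        (fun h1 => (hqP.dvd_or_dvd h1).elim hA hB)
      refine mult_case h hp hp5 hq hq2 hqp hV hσ (n := A) (b := A * (A + B)) (by ring) (by ring)
        (mul_ne_zero h.hA0 h.hC0) (Dvd.dvd.mul_left hC _) ?_ ?_ hQ hpQ
      · rw [padicValInt.mul h.hA0 h.hC0, padicValInt.eq_zero_of_not_dvd hA, zero_add]
        rwa [hfac, hv, zero_add] at hdiv
      · intro h1
        have h2 : 3 * A + (B - A) = A + (A + B) := by ring
        rw [h2] at h1
        exact hA ((dvd_add_left hC).mp h1)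
    · have hAB : (q : ℤ) ∣ A * B := (hqP.dvd_or_dvd hgood).resolve_right hC
      have hv : padicValInt q (A + B) = 0 := padicValInt.eq_zero_of_not_dvd hC
      refine mult_case h hp hp5 hq hq2 hqp hV hσ (n := 0) (b := -(A * B)) (by ring) (by ring)
        (neg_ne_zero.mpr (mul_ne_zero h.hA0 h.hB0)) ((dvd_neg).mpr hAB) ?_ ?_ hQ hpQ
      · have h3 : padicValInt q (-(A * B)) = padicValInt q (A * B) := by
          unfold padicValInt
          rw [Int.natAbs_neg]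
        rw [h3]
        rwa [hfac, hv, add_zero] at hdiv
      · intro h1
        rw [mul_zero, zero_add] at h1
        rcases hqP.dvd_or_dvd hAB with h2 | h2
        · exact h.not_dvd_both hq h2 ((dvd_sub_left h2).mp h1)
        · exact h.not_dvd_both hq ((dvd_sub_right h2).mp h1) h2
  · refine H12.LL.unrAt_of_good hq (fun h1 => hgood (h.dvd_abc hq h1)) ?_
    exact fun h' => hqp ((Nat.prime_dvd_prime_iff_eq hq hp).mp h')

end Inertia

end Fermat.Agent.Cor.GFrey
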