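import Fermat.Agent.AL.Count
import Fermat.Agent.S20

/-!
# The number of newforms of weight two

Let `ν(N)` be the number of newforms of weight `2` and level `Γ₀(N)`, `τ` the number of divisors, and
`g(N)` the genus of `X₀(N)`.

* `finrank_eq_sum`: `dim S₂(Γ₀(N)) = ∑_{M ∣ N} τ(N/M) ν(M)`;
* `genusFormula_eq_sum`: `g(N) = ∑_{M ∣ N} τ(N/M) ν(M)`;
* `newformCount_eq`: `ν(N) = ∑_{M ∣ N} β(N/M) g(M)`, `β = μ * μ`;
* `newformCount_table`: the values of `ν(N)` for `1 ≤ N ≤ 100`.

This file is not used by any of the statement files.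
-/

set_option autoImplicit false

noncomputable section

namespace Fermat.Agent.Cor.NewformCount

open CongruenceSubgroup ModularCurve
open Fermat.Agent.TC Fermat.Agent.AL
open scoped ArithmeticFunction.Moebius ArithmeticFunction.zeta
open Fermat.Agent.H24H (gpart gsp)

/-- the number of newforms of weight two and level `Γ₀(N)` -/
def newformCount (N : ℕ) : ℕ := Nat.card {g : CuspForm (Gamma0 N) 2 // g.IsNewform}

/-- there are finitely many newforms of a given level -/
theorem finite_newforms (N : ℕ) [NeZero N] : Finite {g : CuspForm (Gamma0 N) 2 // g.IsNewform} := by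
  have := finite_NF (D := N) (NeZero.ne N) (L := N) dvd_rfl Set.univ
  exact Finite.of_injective
    (fun x : {g : CuspForm (Gamma0 N) 2 // g.IsNewform} ↦ (⟨x.1, x.2, Set.mem_univ _⟩ : NF N N Set.univ))
    (fun x y h ↦ Subtype.ext (congrArg (fun z : NF N N Set.univ ↦ z.1) h))

theorem card_NF_univ (D N : ℕ) : Nat.card (NF D N Set.univ) = newformCount N := by
  refine Nat.card_congr (Equiv.subtypeEquivRight fun g ↦ ?_)
  exact ⟨fun h ↦ h.1, fun h ↦ ⟨h, Set.mem_univ _⟩⟩

/-- **The dimension formula of Atkin–Lehner theory.** -/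
theorem finrank_eq_sum (N : ℕ) [NeZero N] : Module.finrank ℂ (CuspForm (Gamma0 N) 2) =
    ∑ M ∈ N.divisors, (N / M).divisors.card * newformCount M := by
  have h1 := finrank_gpart (D := N) (NeZero.ne N) (L := N) dvd_rfl Set.univ
  have h2 : gpart (TD (N := N) (dvd_refl N)) Set.univ = ⊤ := by
    rw [eq_top_iff, ← iSup_simEig (dvd_refl N)]
    refine iSup_le fun χ ↦ le_trans ?_ (le_iSup₂ (f := fun χ (_ : χ ∈ Set.univ) ↦
      gsp (TD (N := N) (dvd_refl N)) χ) χ (Set.mem_univ χ))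
    exact iInf_mono fun i ↦ Module.End.eigenspace_le_maxGenEigenspace
  rw [h2, finrank_top] at h1
  rw [h1]
  exact Finset.sum_congr rfl fun M _ ↦ by rw [card_NF_univ]

/-- the genus of `X₀(N)` and newforms -/
theorem genusFormula_eq_sum (N : ℕ) [NeZero N] : genusFormula N =
    ∑ M ∈ N.divisors, ((N / M).divisors.card : ℚ) * newformCount M := by
  rw [← Fermat.Agent.S20.result N, finrank_eq_sum]
  push_cast
  rfl

/-! ### Inversion -/

/-- `12 g(N)` as a computable function -/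
def g12 (N : ℕ) : ℤ :=
  12 + dedekindPsi N - 3 * ((Finset.range N).filter fun x ↦ (x ^ 2 + 1) % N = 0).card
    - 4 * ((Finset.range N).filter fun x ↦ (x ^ 2 + x + 1) % N = 0).card - 6 * cuspCount N

theorem card_zmod_eq (N : ℕ) [NeZero N] (P : ℕ → Prop) [DecidablePred P] (Q : ZMod N → Prop)
    (h : ∀ n : ℕ, n < N → (Q n ↔ P n)) :
    Nat.card {x : ZMod N // Q x} = ((Finset.range N).filter P).card := by
  classical
  rw [Nat.card_eq_fintype_card, Fintype.card_subtype]
  symm
  refine Finset.card_bij (fun n _ ↦ (n : ZMod N)) ?_ ?_ ?_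
  · intro n hn
    rw [Finset.mem_filter, Finset.mem_range] at hn
    rw [Finset.mem_filter]
    exact ⟨Finset.mem_univ _, (h n hn.1).mpr hn.2⟩
  · intro a ha b hb hab
    rw [Finset.mem_filter, Finset.mem_range] at ha hb
    have := congrArg ZMod.val hab
    rwa [ZMod.val_cast_of_lt ha.1, ZMod.val_cast_of_lt hb.1] at this
  · intro x hx
    rw [Finset.mem_filter] at hx
    refine ⟨x.val, ?_, ZMod.natCast_zmod_val x⟩
    rw [Finset.mem_filter, Finset.mem_range]
    refine ⟨ZMod.val_lt x, (h _ (ZMod.val_lt x)).mp ?_⟩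
    rw [ZMod.natCast_zmod_val]
    exact hx.2

theorem nuTwo_eq (N : ℕ) [NeZero N] :
    nuTwo N = ((Finset.range N).filter fun x ↦ (x ^ 2 + 1) % N = 0).card := by
  rw [nuTwo]
  refine card_zmod_eq N _ _ fun n _ ↦ ?_
  rw [← Nat.dvd_iff_mod_eq_zero, ← ZMod.natCast_eq_zero_iff]
  push_cast
  rfl

theorem nuThree_eq (N : ℕ) [NeZero N] :
    nuThree N = ((Finset.range N).filter fun x ↦ (x ^ 2 + x + 1) % N = 0).card := by
  rw [nuThree]
  refine card_zmod_eq N _ _ fun n _ ↦ ?_
  rw [← Nat.dvd_iff_mod_eq_zero, ← ZMod.natCast_eq_zero_iff]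
  push_cast
  rfl

theorem g12_eq (N : ℕ) [NeZero N] : (g12 N : ℚ) = 12 * genusFormula N := by
  rw [g12, genusFormula, nuTwo_eq, nuThree_eq]
  push_cast
  ring

theorem g12_eq_sum (N : ℕ) [NeZero N] :
    g12 N = ∑ M ∈ N.divisors, ((N / M).divisors.card : ℤ) * (12 * newformCount M) := by
  have h := g12_eq N
  rw [genusFormula_eq_sum] at h
  have h2 : (g12 N : ℚ) = ((∑ M ∈ N.divisors, ((N / M).divisors.card : ℤ) *
      (12 * newformCount M) : ℤ) : ℚ) := by
    rw [h, Finset.mul_sum]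
    push_cast
    exact Finset.sum_congr rfl fun M _ ↦ by ring
  exact_mod_cast h2

open ArithmeticFunction in
/-- `β = μ * μ` (Dirichlet convolution) -/
def beta (n : ℕ) : ℤ := ∑ x ∈ n.divisorsAntidiagonal, μ x.1 * μ x.2

open ArithmeticFunction in
/-- **The number of newforms**: `12 ν(N) = ∑_{M ∣ N} β(N/M) 12 g(M)`. -/
theorem twelve_mul_newformCount (N : ℕ) [NeZero N] : 12 * (newformCount N : ℤ) =
    ∑ x ∈ N.divisorsAntidiagonal, beta x.1 * g12 x.2 := by
  let V : ArithmeticFunction ℤ := ⟨fun n ↦ if n = 0 then 0 else 12 * newformCount n, by simp⟩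
  let G : ArithmeticFunction ℤ := ⟨fun n ↦ if n = 0 then 0 else g12 n, by simp⟩
  have hG : G = ((ζ : ArithmeticFunction ℤ) * (ζ : ArithmeticFunction ℤ)) * V := by
    ext n
    rcases eq_or_ne n 0 with rfl | hn
    · simp
    have : NeZero n := ⟨hn⟩
    have h1 : G n = g12 n := if_neg hn
    rw [h1, g12_eq_sum, ArithmeticFunction.mul_apply,
      Nat.sum_divisorsAntidiagonal' (f := fun a b ↦
        ((ζ : ArithmeticFunction ℤ) * (ζ : ArithmeticFunction ℤ)) a * V b)]
    refine Finset.sum_congr rfl fun M hM ↦ ?_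
    have hM0 : M ≠ 0 := (Nat.pos_of_mem_divisors hM).ne'
    have h2 : V M = 12 * newformCount M := if_neg hM0
    have hd : n / M ≠ 0 := by
      have := Nat.div_pos (Nat.divisor_le hM) (Nat.pos_of_mem_divisors hM)
      exact this.ne'
    have h3 : ((ζ : ArithmeticFunction ℤ) * (ζ : ArithmeticFunction ℤ)) (n / M) =
        ((n / M).divisors.card : ℤ) := by
      rw [coe_zeta_mul_apply]
      rw [Finset.sum_congr rfl (g := fun _ ↦ (1 : ℤ)) fun i hi ↦ ?_]
      · simp
      · have hi0 : i ≠ 0 := (Nat.pos_of_mem_divisors hi).ne'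
        simp [natCoe_apply, zeta_apply, hi0]
    rw [h2, h3]
  have hV : V = (μ * μ) * G := by
    rw [hG]
    have h1 : (μ : ArithmeticFunction ℤ) * (ζ : ArithmeticFunction ℤ) = 1 := moebius_mul_coe_zeta
    calc V = (μ * (ζ : ArithmeticFunction ℤ)) * (μ * (ζ : ArithmeticFunction ℤ)) * V := by
          rw [h1, one_mul, one_mul]
      _ = _ := by ring
  have h1 : V N = 12 * newformCount N := if_neg (NeZero.ne N)
  rw [← h1, hV, ArithmeticFunction.mul_apply]
  refine Finset.sum_congr rfl fun x hx ↦ ?_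
  have hx2 : x.2 ≠ 0 := by
    have := Nat.mem_divisorsAntidiagonal.mp hx
    rintro h
    rw [h, mul_zero] at this
    exact this.2 this.1.symm
  have h2 : G x.2 = g12 x.2 := if_neg hx2
  rw [h2, ArithmeticFunction.mul_apply, beta]

/-- the number of newforms, in computable form -/
def nu12 (N : ℕ) : ℤ := ∑ x ∈ N.divisorsAntidiagonal, beta x.1 * g12 x.2

theorem newformCount_eq_of {N : ℕ} [NeZero N] {c : ℕ} (h : nu12 N = 12 * c) :
    newformCount N = c := by
  have h1 := twelve_mul_newformCount N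
  rw [← nu12, h] at h1
  have h2 : (newformCount N : ℤ) = c := by linarith
  exact_mod_cast h2

/-- the number of newforms is computable -/
theorem newformCount_eq (N : ℕ) [NeZero N] : newformCount N = (nu12 N / 12).toNat := by
  rw [nu12, ← twelve_mul_newformCount, Int.mul_ediv_cancel_left _ (by norm_num), Int.toNat_natCast]

/-- **The number of newforms of weight `2` and level `Γ₀(N)` for `N = 1, …, 100`.** -/
theorem newformCount_table : (List.range' 1 100).map newformCount =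
    [0, 0, 0, 0, 0, 0, 0, 0, 0, 0, 1, 0, 0, 1, 1, 0, 1, 0, 1, 1,
     1, 0, 2, 1, 0, 2, 1, 0, 2, 1, 2, 1, 1, 1, 3, 1, 2, 2, 3, 1,
     3, 1, 3, 1, 1, 1, 4, 1, 1, 2, 3, 1, 4, 2, 3, 2, 3, 2, 5, 0,
     4, 3, 3, 1, 5, 3, 5, 2, 3, 1, 6, 1, 5, 4, 3, 1, 5, 1, 6, 2,
     2, 3, 7, 2, 5, 4, 5, 3, 7, 3, 7, 2, 5, 3, 7, 2, 7, 3, 4, 1] := by
  have h : (List.range' 1 100).map newformCount =
      (List.range' 1 100).map fun N ↦ (nu12 N / 12).toNat := by
    refine List.map_congr_left fun N hN ↦ ?_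
    have hN0 : N ≠ 0 := by
      have := List.mem_range'_1.mp hN
      omega
    have : NeZero N := ⟨hN0⟩
    exact newformCount_eq N
  rw [h]
  decide +kernel

/-- there is a newform of level `N` if and only if `ν(N) ≠ 0` -/
theorem exists_newform_iff (N : ℕ) [NeZero N] :
    (∃ g : CuspForm (Gamma0 N) 2, g.IsNewform) ↔ newformCount N ≠ 0 := by
  have := finite_newforms N
  rw [newformCount, Nat.card_ne_zero]
  constructor
  · rintro ⟨g, hg⟩
    exact ⟨⟨⟨g, hg⟩⟩, this⟩
  · rintro ⟨⟨⟨g, hg⟩⟩, -⟩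
    exact ⟨g, hg⟩

/-- the levels `N ≤ 100` without newforms of weight `2` -/
theorem newformCount_eq_zero_iff {N : ℕ} (h1 : 1 ≤ N) (h2 : N ≤ 100) : newformCount N = 0 ↔
    N ∈ ({1, 2, 3, 4, 5, 6, 7, 8, 9, 10, 12, 13, 16, 18, 22, 25, 28, 60} : Finset ℕ) := by
  have hN0 : N ≠ 0 := by omega
  have : NeZero N := ⟨hN0⟩
  have key : ∀ N ∈ Finset.Icc 1 100, ((nu12 N / 12).toNat = 0 ↔
    N ∈ ({1, 2, 3, 4, 5, 6, 7, 8, 9, 10, 12, 13, 16, 18, 22, 25, 28, 60} : Finset ℕ)) := by
    decide +kernel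
  rw [newformCount_eq N]
  exact key N (Finset.mem_Icc.mpr ⟨h1, h2⟩)

end Fermat.Agent.Cor.NewformCount
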