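import Fermat.Agent.IntStr.Main
import Fermat.Agent.H23.W1.NumF
import Fermat.Agent.H22.IntCoeff
import Fermat.Agent.H24.Pet
import Fermat.Agent.Cor.NewformCount
import Fermat.Agent.Cor.RootNumber

/-!
# Galois conjugates of newforms; the coefficient field

Let `f` be a newform of weight two and level `Γ₀(N)`.

* `exists_conj`, `isNewform_conj`: the automorphisms of `ℂ` act on cusp forms (through the Fourier
  coefficients) and on newforms;
* `isIntegral_qCoeff`: the coefficients are algebraic integers; `qCoeff_real`: they are real;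
* `coeffField f = ℚ(a_n(f), n ≥ 1)` is a totally real number field, of degree at most the number of
  newforms of level `N`; in particular `a_n(f) ∈ ℤ` for all `n` if there is only one newform of level `N`.

This file is not used by any of the statement files.
-/

set_option autoImplicit false

noncomputable section

namespace Fermat.Agent.Cor.Galois

open CongruenceSubgroup UpperHalfPlane
open Fermat.Agent.IntStr
open ModularFormClass (qCoeff)
open scoped ComplexConjugate

section Conj

variable {N : ℕ} [NeZero N]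

/-- **The automorphisms of `ℂ` act on cusp forms.** -/
theorem exists_conj (σ : ℂ ≃+* ℂ) {k : ℤ} (f : CuspForm (Gamma0 N) k) :
    ∃ g : CuspForm (Gamma0 N) k, ∀ n, qCoeff g n = σ (qCoeff f n) := by
  obtain ⟨g, hg, hq, hc⟩ := IsMN.exists_conj σ (isMN_coe f)
  refine ⟨hg.cuspForm (hc (isCuspidal_coe f)), fun n ↦ ?_⟩
  change (qExpansion 1 g).coeff n = σ ((qExpansion 1 f).coeff n)
  rw [hq, coeff_sig]

/-- the conjugate of a cusp form -/
def conjF (σ : ℂ ≃+* ℂ) {k : ℤ} (f : CuspForm (Gamma0 N) k) : CuspForm (Gamma0 N) k :=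
  (exists_conj σ f).choose

theorem qCoeff_conjF (σ : ℂ ≃+* ℂ) {k : ℤ} (f : CuspForm (Gamma0 N) k) (n : ℕ) :
    qCoeff (conjF σ f) n = σ (qCoeff f n) := (exists_conj σ f).choose_spec n

theorem isNormalizedEigenform_conj (σ : ℂ ≃+* ℂ) {f : CuspForm (Gamma0 N) 2}
    (hf : f.IsNormalizedEigenform) : (conjF σ f).IsNormalizedEigenform where
  qCoeff_one := by rw [qCoeff_conjF, hf.qCoeff_one, map_one]
  qCoeff_mul_of_coprime m n h := by
    rw [qCoeff_conjF, qCoeff_conjF, qCoeff_conjF, hf.qCoeff_mul_of_coprime m n h, map_mul]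
  qCoeff_prime_pow_of_not_dvd p r hp h := by
    simp only [qCoeff_conjF]
    rw [hf.qCoeff_prime_pow_of_not_dvd p r hp h]
    simp
  qCoeff_prime_pow_of_dvd p r hp h := by
    simp only [qCoeff_conjF]
    rw [hf.qCoeff_prime_pow_of_dvd p r hp h, map_mul]

/-- **The conjugates of a newform are newforms.** -/
theorem isNewform_conj (σ : ℂ ≃+* ℂ) {f : CuspForm (Gamma0 N) 2} (hf : f.IsNewform) :
    (conjF σ f).IsNewform := by
  refine ⟨isNormalizedEigenform_conj σ hf.1, ?_⟩
  rintro M hM hne ⟨h, hh, hhf⟩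
  have : NeZero M := ⟨fun h0 ↦ NeZero.ne N (Nat.eq_zero_of_zero_dvd (h0 ▸ hM))⟩
  refine hf.2 M hM hne ⟨conjF σ.symm h, isNormalizedEigenform_conj σ.symm hh, fun ℓ hℓ hℓN ↦ ?_⟩
  rw [qCoeff_conjF, hhf ℓ hℓ hℓN, qCoeff_conjF, RingEquiv.symm_apply_apply]

/-- two newforms with the same coefficients are equal -/
theorem eq_of_qCoeff {f g : CuspForm (Gamma0 N) 2} (h : ∀ n, qCoeff f n = qCoeff g n) : f = g :=
  AL.cusp_ext h

end Conj

/-! ### Coefficients in a subring -/

/-- if the prime coefficients of an eigenform are in a subring then all coefficients are -/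
theorem qCoeff_mem_subring {N : ℕ} {f : CuspForm (Gamma0 N) 2} (hf : f.IsNormalizedEigenform)
    (S : Subring ℂ) (h : ∀ p, p.Prime → qCoeff f p ∈ S) (n : ℕ) : qCoeff f n ∈ S := by
  induction n using Nat.strong_induction_on with
  | _ n ih =>
    rcases eq_or_ne n 0 with rfl | hn0
    · rw [H22.cusp_qCoeff_zero]; exact S.zero_mem
    rcases eq_or_ne n 1 with rfl | hn1
    · rw [hf.qCoeff_one]; exact S.one_mem
    obtain ⟨p, hp, hpn⟩ := Nat.exists_prime_and_dvd hn1
    obtain ⟨r, m, hpm, hnr⟩ := Nat.exists_eq_pow_mul_and_not_dvd hn0 p hp.ne_one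
    have hr : r ≠ 0 := by
      rintro rfl
      rw [pow_zero, one_mul] at hnr
      exact hpm (hnr ▸ hpn)
    have hm0 : m ≠ 0 := by
      rintro rfl
      exact hn0 (by rw [hnr, mul_zero])
    have hpr : 0 < p ^ r := pow_pos hp.pos r
    rcases eq_or_ne m 1 with hm1 | hm1
    · rw [hm1, mul_one] at hnr
      obtain ⟨s, rfl⟩ := Nat.exists_eq_succ_of_ne_zero hr
      rcases eq_or_ne s 0 with rfl | hs
      · rw [Nat.succ_eq_add_one, zero_add, pow_one] at hnr
        subst hnr
        exact h n hp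
      obtain ⟨t, rfl⟩ := Nat.exists_eq_succ_of_ne_zero hs
      have e1 : qCoeff f (p ^ (t + 1)) ∈ S := ih _ (by
        rw [hnr]; exact Nat.pow_lt_pow_right hp.one_lt (by simp))
      have e2 : qCoeff f (p ^ t) ∈ S := ih _ (by
        rw [hnr]; exact Nat.pow_lt_pow_right hp.one_lt (by simp only [Nat.succ_eq_add_one]; omega))
      have e3 := h p hp
      rw [hnr]
      change qCoeff f (p ^ (t + 2)) ∈ S
      by_cases hd : p ∣ N
      · rw [hf.qCoeff_prime_pow_of_dvd p t hp hd]
        exact S.mul_mem e3 e1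
      · rw [hf.qCoeff_prime_pow_of_not_dvd p t hp hd]
        exact S.sub_mem (S.mul_mem e3 e1) (S.mul_mem (natCast_mem S p) e2)
    · have hcop : (p ^ r).Coprime m := Nat.Coprime.pow_left r
        ((Nat.Prime.coprime_iff_not_dvd hp).mpr hpm)
      have hpr1 : 1 < p ^ r := Nat.one_lt_pow hr hp.one_lt
      have hlt1 : p ^ r < n := by
        rw [hnr]
        exact lt_mul_of_one_lt_right hpr (by omega)
      have hlt2 : m < n := by
        rw [hnr]
        exact lt_mul_of_one_lt_left (Nat.pos_of_ne_zero hm0) hpr1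
      rw [hnr, hf.qCoeff_mul_of_coprime _ _ hcop]
      exact S.mul_mem (ih _ hlt1) (ih _ hlt2)

section Newform

variable {N : ℕ} [NeZero N] {f : CuspForm (Gamma0 N) 2}

/-- **The coefficients of a normalised eigenform are algebraic integers.** -/
theorem isIntegral_qCoeff (hf : f.IsNormalizedEigenform) (n : ℕ) : IsIntegral ℤ (qCoeff f n) :=
  qCoeff_mem_subring hf (integralClosure ℤ ℂ).toSubring
    (fun _ hp ↦ H22.isIntegral_qCoeff_prime hf hp) n

/-- **The coefficients of a newform are real.** -/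
theorem conj_qCoeff (hf : f.IsNewform) (n : ℕ) : conj (qCoeff f n) = qCoeff f n := by
  let S : Subring ℂ := (Complex.ofRealHom).range
  have hS : ∀ z : ℂ, z ∈ S ↔ conj z = z := fun z ↦ by
    rw [Complex.conj_eq_iff_real]
    constructor
    · rintro ⟨r, hr⟩; exact ⟨r, hr.symm⟩
    · rintro ⟨r, hr⟩; exact ⟨r, hr.symm⟩
  rw [← hS]
  refine qCoeff_mem_subring hf.1 S (fun p hp ↦ ?_) n
  by_cases hpN : p ∣ N
  · have h := RootNumber.newformBadPrimeCoeff f hf p hp hpN
    by_cases h2 : p ^ 2 ∣ N
    · rw [h.2 h2]; exact S.zero_mem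
    · have h4 := h.1 h2
      rw [pow_two] at h4
      rcases mul_self_eq_one_iff.mp h4 with h3 | h3
      · rw [h3]; exact S.one_mem
      · rw [h3]; exact S.neg_mem S.one_mem
  · rw [hS]
    exact H24.conj_eigenvalue hp hpN hf.ne_zero (AL.eigenform_T hf.1 hp hpN)

end Newform

/-! ### Extension of embeddings to automorphisms of `ℂ` -/

theorem exists_aut_extends (K : IntermediateField ℚ ℂ) [Algebra.IsAlgebraic ℚ K] (φ : K →+* ℂ) :
    ∃ σ : ℂ ≃+* ℂ, ∀ x : K, σ x = φ x := by
  let E := algebraicClosure ℚ ℂ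
  have hE : IsAlgClosure ℚ E := algebraicClosure.isAlgClosure ℚ ℂ
  have hN : Normal ℚ E := inferInstance
  have hKE : K ≤ E := fun x hx ↦ by
    have h1 : IsAlgebraic ℚ (⟨x, hx⟩ : K) := Algebra.IsAlgebraic.isAlgebraic _
    exact mem_algebraicClosure_iff.mpr ((isAlgebraic_algebraMap_iff
      (FaithfulSMul.algebraMap_injective K ℂ)).mpr h1)
  let φQ : K →ₐ[ℚ] ℂ := φ.toRatAlgHom
  have hφE : ∀ x : K, φQ x ∈ E := fun x ↦ by
    have h1 : IsAlgebraic ℚ x := Algebra.IsAlgebraic.isAlgebraic _
    exact mem_algebraicClosure_iff.mpr (h1.algHom φQ)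
  let φE : K →ₐ[ℚ] E := φQ.codRestrict E.toSubalgebra hφE
  let _ : Algebra K E := (IntermediateField.inclusion hKE).toRingHom.toAlgebra
  have : IsScalarTower ℚ K E := IsScalarTower.of_algebraMap_eq fun x ↦ rfl
  let τ0 : E →ₐ[ℚ] E := φE.liftNormal E
  have hτ0 : ∀ x : K, τ0 (algebraMap K E x) = φE x := fun x ↦ φE.liftNormal_commutes E x
  have hbij : Function.Bijective τ0 := Algebra.IsAlgebraic.algHom_bijective τ0
  let τ : E ≃+* E := RingEquiv.ofBijective τ0 hbij
  obtain ⟨B, hB⟩ := exists_isTranscendenceBasis E ℂ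
  obtain ⟨σ, hσ⟩ := exists_ringEquiv_of_transcendenceBasis (R := E) _ hB
    (MvPolynomial.mapEquiv _ τ)
  refine ⟨σ, fun x ↦ ?_⟩
  have h1 := hσ (MvPolynomial.C (algebraMap K E x))
  simp only [MvPolynomial.aeval_C, MvPolynomial.mapEquiv_apply, MvPolynomial.map_C] at h1
  have h2 : algebraMap E ℂ (algebraMap K E x) = x := rfl
  rw [h2] at h1
  rw [h1]
  change algebraMap E ℂ (τ0 (algebraMap K E x)) = φ x
  rw [hτ0]
  rfl

/-! ### The coefficient field -/

section Field

variable {N : ℕ} [NeZero N] {f : CuspForm (Gamma0 N) 2}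

/-- the coefficient field `ℚ(a_n(f), n ≥ 1)` -/
def coeffField (f : CuspForm (Gamma0 N) 2) : IntermediateField ℚ ℂ :=
  IntermediateField.adjoin ℚ (Set.range fun n ↦ qCoeff f n)

omit [NeZero N] in
theorem qCoeff_mem_coeffField (f : CuspForm (Gamma0 N) 2) (n : ℕ) : qCoeff f n ∈ coeffField f :=
  IntermediateField.subset_adjoin ℚ _ ⟨n, rfl⟩

/-- **The coefficient field of a newform is a number field.** -/
theorem finiteDimensional_coeffField (hf : f.IsNewform) : FiniteDimensional ℚ (coeffField f) := by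
  have := NewformCount.finite_newforms N
  let O : Set (ℕ → ℂ) := Set.range fun g : {g : CuspForm (Gamma0 N) 2 // g.IsNewform} ↦
    fun n ↦ qCoeff g.1 n
  have hO : O.Finite := Set.finite_range _
  obtain ⟨K, hK, h⟩ := H23.W1.exists_field_of_finite_orbit (fun n ↦ qCoeff f n) hO (fun σ ↦
    ⟨⟨conjF σ f, isNewform_conj σ hf⟩, funext fun n ↦ qCoeff_conjF σ f n⟩)
  have hle : coeffField f ≤ K := by
    rw [coeffField, IntermediateField.adjoin_le_iff]
    rintro _ ⟨n, rfl⟩
    exact h n
  exact FiniteDimensional.of_injective (IntermediateField.inclusion hle).toLinearMap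
    (IntermediateField.inclusion_injective hle)

theorem numberField_coeffField (hf : f.IsNewform) : NumberField (coeffField f) :=
  { to_charZero := inferInstance
    to_finiteDimensional := finiteDimensional_coeffField hf }

/-- ring homomorphisms on the coefficient field which agree on the coefficients are equal -/
theorem ringHom_ext_coeffField {φ ψ : coeffField f →+* ℂ}
    (h : ∀ n, φ ⟨qCoeff f n, qCoeff_mem_coeffField f n⟩ = ψ ⟨qCoeff f n, qCoeff_mem_coeffField f n⟩) :
    φ = ψ := by
  have h1 : φ.toRatAlgHom = ψ.toRatAlgHom := by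
    apply IntermediateField.adjoin_algHom_ext
    rintro _ ⟨n, rfl⟩
    exact h n
  ext x
  exact DFunLike.congr_fun h1 x

/-- every embedding of the coefficient field comes from a conjugate newform -/
theorem exists_newform_of_embedding (hf : f.IsNewform) (φ : coeffField f →+* ℂ) :
    ∃ g : CuspForm (Gamma0 N) 2, g.IsNewform ∧
      ∀ n, qCoeff g n = φ ⟨qCoeff f n, qCoeff_mem_coeffField f n⟩ := by
  have := finiteDimensional_coeffField hf
  obtain ⟨σ, hσ⟩ := exists_aut_extends (coeffField f) φ
  refine ⟨conjF σ f, isNewform_conj σ hf, fun n ↦ ?_⟩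
  rw [qCoeff_conjF]
  exact hσ ⟨qCoeff f n, qCoeff_mem_coeffField f n⟩

/-- **The coefficient field of a newform is totally real.** -/
theorem isTotallyReal_coeffField (hf : f.IsNewform) :
    NumberField.IsTotallyReal (coeffField f) := by
  refine ⟨fun v ↦ ?_⟩
  rw [NumberField.InfinitePlace.isReal_iff, NumberField.ComplexEmbedding.isReal_iff]
  apply ringHom_ext_coeffField
  intro n
  obtain ⟨g, hg, hgn⟩ := exists_newform_of_embedding hf v.embedding
  rw [NumberField.ComplexEmbedding.conjugate_coe_eq, ← hgn]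
  exact conj_qCoeff hg n

/-- the degree of the coefficient field is at most the number of newforms of level `N` -/
theorem finrank_coeffField_le (hf : f.IsNewform) :
    Module.finrank ℚ (coeffField f) ≤ NewformCount.newformCount N := by
  have := numberField_coeffField hf
  have := NewformCount.finite_newforms N
  rw [← NumberField.Embeddings.card (coeffField f) ℂ, ← Nat.card_eq_fintype_card]
  choose g hg hgn using exists_newform_of_embedding hf
  refine Nat.card_le_card_of_injective (fun φ ↦ (⟨g φ, hg φ⟩ :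
    {g : CuspForm (Gamma0 N) 2 // g.IsNewform})) fun φ ψ h ↦ ?_
  apply ringHom_ext_coeffField
  intro n
  have h1 : g φ = g ψ := congrArg Subtype.val h
  rw [← hgn, ← hgn, h1]

/-- rational coefficients are integers -/
theorem exists_int_of_aut (hf : f.IsNormalizedEigenform) {n : ℕ}
    (h : ∀ σ : ℂ ≃+* ℂ, σ (qCoeff f n) = qCoeff f n) : ∃ z : ℤ, qCoeff f n = z := by
  obtain ⟨r, hr⟩ := exists_rat_of_forall_aut _ h
  have h1 := isIntegral_qCoeff hf n
  rw [← hr] at h1
  have h2 : IsIntegral ℤ r := (isIntegral_algebraMap_iff (algebraMap ℚ ℂ).injective).mp h1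
  obtain ⟨z, hz⟩ := IsIntegrallyClosed.isIntegral_iff.mp h2
  refine ⟨z, ?_⟩
  rw [← hr, ← hz]
  simp

/-- **If there is only one newform of level `N` then its coefficients are integers.** -/
theorem exists_int_of_newformCount_eq_one (hf : f.IsNewform)
    (hN : NewformCount.newformCount N = 1) (n : ℕ) : ∃ z : ℤ, qCoeff f n = z := by
  refine exists_int_of_aut hf.1 fun σ ↦ ?_
  rw [NewformCount.newformCount, Nat.card_eq_one_iff_unique] at hN
  have h1 := hN.1.elim ⟨conjF σ f, isNewform_conj σ hf⟩ ⟨f, hf⟩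
  have h2 : conjF σ f = f := congrArg Subtype.val h1
  rw [← qCoeff_conjF, h2]

end Field

end Fermat.Agent.Cor.Galois
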