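import Mathlib
import Fermat.Agent.Cor.CMTraces

/-!
# The traces of Frobenius of `y² = x³ + A x` and `y² = x³ + B` modulo `p`

* `apOfModel_cubic_one`: for `p = 4 k + 1` not dividing `A`: `a_p(y² = x³ + A x) = (2k choose k) A ^ k` modulo `p`.
* `apOfModel_cubic_zero`: for `p = 6 k + 1` not dividing `B`: `a_p(y² = x³ + B) = (3k choose k) B ^ k` modulo `p`.

Since `|a_p| < 2 √p` by Hasse's theorem, these congruences determine `a_p` for `p > 16`.

This file is not used by any of the statement files.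
-/

set_option autoImplicit false

namespace Fermat.Agent.Cor.Bounds

open Polynomial WeierstrassCurve

variable {p : ℕ} [hp : Fact p.Prime]

lemma four_pow_eq_one (hp2 : p ≠ 2) {m : ℕ} (hm : p = 2 * m + 1) : (4 : ZMod p) ^ m = 1 := by
  have h4 := four_ne_zero' (k := ZMod p) hp2
  have h7 : (2 : ZMod p) ≠ 0 := by
    intro h
    apply h4
    rw [show (4 : ZMod p) = 2 * 2 by norm_num, h, mul_zero]
  have h8 := ZMod.pow_card_sub_one_eq_one h7
  rw [show p - 1 = 2 * m by omega, pow_mul] at h8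
  rw [show (4 : ZMod p) = 2 ^ 2 by norm_num, h8]

/-- **`y² = x³ + A x`, `p = 4 k + 1`.** -/
theorem apOfModel_cubic_one {k : ℕ} (hk : p = 4 * k + 1) {A : ℤ} (hA : ¬ (p : ℤ) ∣ A) :
    (((⟨0, 0, 0, A, 0⟩ : WeierstrassCurve ℤ).apOfModel p : ℤ) : ZMod p) =
      ((2 * k).choose k : ZMod p) * (A : ZMod p) ^ k := by
  have hp2 : p ≠ 2 := by omega
  have h4 := four_ne_zero' (k := ZMod p) hp2
  have hA' : (A : ZMod p) ≠ 0 := fun h => hA ((ZMod.intCast_zmod_eq_zero_iff_dvd _ _).mp h)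
  have hmap : (⟨0, 0, 0, A, 0⟩ : WeierstrassCurve ℤ).reductionMod p = ⟨0, 0, 0, (A : ZMod p), 0⟩ := by
    apply WeierstrassCurve.ext
    · exact _root_.map_zero _
    · exact _root_.map_zero _
    · exact _root_.map_zero _
    · exact eq_intCast _ _
    · exact _root_.map_zero _
  have hΔ : (⟨0, 0, 0, (A : ZMod p), 0⟩ : WeierstrassCurve (ZMod p)).Δ ≠ 0 := by
    have e : (⟨0, 0, 0, (A : ZMod p), 0⟩ : WeierstrassCurve (ZMod p)).Δ =
        - (4 * 4 * 4 * (A : ZMod p) ^ 3) := by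
      simp only [WeierstrassCurve.Δ, WeierstrassCurve.b₂, WeierstrassCurve.b₄, WeierstrassCurve.b₆,
        WeierstrassCurve.b₈]
      ring
    rw [e]
    exact neg_ne_zero.mpr (mul_ne_zero (mul_ne_zero (mul_ne_zero h4 h4) h4) (pow_ne_zero _ hA'))
  have hchar : ringChar (ZMod p) ≠ 2 := by
    rw [ZMod.ringChar_zmod_n]; exact hp2
  have h5 := trace_eq_coeff hchar _ hΔ
  have e1 : Fintype.card (ZMod p) / 2 = 2 * k := by rw [ZMod.card]; omega
  have e2 : Fintype.card (ZMod p) - 1 = 2 * k + 2 * k := by rw [ZMod.card]; omega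
  have hcub : cubic (⟨0, 0, 0, (A : ZMod p), 0⟩ : WeierstrassCurve (ZMod p)) =
      C 4 * (X * expand (ZMod p) 2 (X + C (A : ZMod p))) := by
    rw [map_add, expand_X, expand_C]
    simp only [cubic, WeierstrassCurve.b₂, WeierstrassCurve.b₄, WeierstrassCurve.b₆]
    have h1 : (C (0 ^ 2 + 4 * 0) : (ZMod p)[X]) = 0 := by
      rw [show (0 ^ 2 + 4 * 0 : ZMod p) = 0 by ring, C_0]
    have h2 : (C (2 * (2 * (A : ZMod p) + 0 * 0)) : (ZMod p)[X]) = C 4 * C (A : ZMod p) := by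
      rw [← C_mul]; congr 1; ring
    rw [h1, h2]
    ring
  rw [e1, e2, hcub, mul_pow, mul_pow, ← C_pow, coeff_C_mul, mul_comm (X ^ (2 * k)), coeff_mul_X_pow,
    ← map_pow, mul_comm 2 k, coeff_expand_mul (by norm_num), coeff_X_add_C_pow, mul_comm k 2,
    four_pow_eq_one hp2 (m := 2 * k) (by omega), one_mul, show 2 * k - k = k by omega] at h5
  rw [apOfModel, hmap, h5, mul_comm]

/-- **`y² = x³ + B`, `p = 6 k + 1`.** -/
theorem apOfModel_cubic_zero {k : ℕ} (hk : p = 6 * k + 1) {B : ℤ} (hB : ¬ (p : ℤ) ∣ B) :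
    (((⟨0, 0, 0, 0, B⟩ : WeierstrassCurve ℤ).apOfModel p : ℤ) : ZMod p) =
      ((3 * k).choose k : ZMod p) * (B : ZMod p) ^ k := by
  have hp2 : p ≠ 2 := by omega
  have h4 := four_ne_zero' (k := ZMod p) hp2
  have h3 : (3 : ZMod p) ≠ 0 := by
    intro h0
    have h1 : ((3 : ℕ) : ZMod p) = 0 := by exact_mod_cast h0
    rw [ZMod.natCast_eq_zero_iff] at h1
    have h2 := Nat.le_of_dvd (by norm_num) h1
    have h5 := hp.out.two_le
    omega
  have hB' : (B : ZMod p) ≠ 0 := fun h => hB ((ZMod.intCast_zmod_eq_zero_iff_dvd _ _).mp h)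
  have hmap : (⟨0, 0, 0, 0, B⟩ : WeierstrassCurve ℤ).reductionMod p = ⟨0, 0, 0, 0, (B : ZMod p)⟩ := by
    apply WeierstrassCurve.ext
    · exact _root_.map_zero _
    · exact _root_.map_zero _
    · exact _root_.map_zero _
    · exact _root_.map_zero _
    · exact eq_intCast _ _
  have hΔ : (⟨0, 0, 0, 0, (B : ZMod p)⟩ : WeierstrassCurve (ZMod p)).Δ ≠ 0 := by
    have e : (⟨0, 0, 0, 0, (B : ZMod p)⟩ : WeierstrassCurve (ZMod p)).Δ =
        - (4 * 4 * 3 ^ 3 * (B : ZMod p) ^ 2) := by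
      simp only [WeierstrassCurve.Δ, WeierstrassCurve.b₂, WeierstrassCurve.b₄, WeierstrassCurve.b₆,
        WeierstrassCurve.b₈]
      ring
    rw [e]
    exact neg_ne_zero.mpr (mul_ne_zero (mul_ne_zero (mul_ne_zero h4 h4) (pow_ne_zero _ h3))
      (pow_ne_zero _ hB'))
  have hchar : ringChar (ZMod p) ≠ 2 := by
    rw [ZMod.ringChar_zmod_n]; exact hp2
  have h5 := trace_eq_coeff hchar _ hΔ
  have e1 : Fintype.card (ZMod p) / 2 = 3 * k := by rw [ZMod.card]; omega
  have e2 : Fintype.card (ZMod p) - 1 = 2 * k * 3 := by rw [ZMod.card]; omega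
  have hcub : cubic (⟨0, 0, 0, 0, (B : ZMod p)⟩ : WeierstrassCurve (ZMod p)) =
      C 4 * expand (ZMod p) 3 (X + C (B : ZMod p)) := by
    rw [map_add, expand_X, expand_C]
    simp only [cubic, WeierstrassCurve.b₂, WeierstrassCurve.b₄, WeierstrassCurve.b₆]
    have h1 : (C (0 ^ 2 + 4 * 0) : (ZMod p)[X]) = 0 := by
      rw [show (0 ^ 2 + 4 * 0 : ZMod p) = 0 by ring, C_0]
    have h2 : (C (2 * (2 * 0 + 0 * 0)) : (ZMod p)[X]) = 0 := by
      rw [show (2 * (2 * 0 + 0 * 0) : ZMod p) = 0 by ring, C_0]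
    have h6 : (C (0 ^ 2 + 4 * (B : ZMod p)) : (ZMod p)[X]) = C 4 * C (B : ZMod p) := by
      rw [← C_mul]; congr 1; ring
    rw [h1, h2, h6]
    ring
  rw [e1, e2, hcub, mul_pow, ← C_pow, coeff_C_mul, ← map_pow, coeff_expand_mul (by norm_num),
    coeff_X_add_C_pow, four_pow_eq_one hp2 (m := 3 * k) (by omega), one_mul,
    show 3 * k - 2 * k = k by omega] at h5
  have h6 : (3 * k).choose (2 * k) = (3 * k).choose k := by
    rw [← Nat.choose_symm (show 2 * k ≤ 3 * k by omega), show 3 * k - 2 * k = k by omega]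
  rw [apOfModel, hmap, h5, h6, mul_comm]

end Fermat.Agent.Cor.Bounds
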