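import Mathlib
import Fermat.Agent.MainConductor
import Fermat.Agent.M5.CuspCases
import Fermat.Agent.H18R.Top
import Fermat.Agent.S24
import Fermat.Agent.Cor.NewformCount

/-!
# The modular curves `X₀(N)` of genus zero and one

* `genus_eq_zero_iff`: `X₀(N)` has genus `0` exactly for the fifteen values
  `N = 1, …, 10, 12, 13, 16, 18, 25`;
* `genus_eq_one_iff`: `X₀(N)` has genus `1` exactly for the twelve values
  `N = 11, 14, 15, 17, 19, 20, 21, 24, 27, 32, 36, 49`;
* `genus_functionField`: the same for the genus of the function field of `X₀(N)` over the algebraic closure of `ℚ`;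
* `cuspForm_eq_zero_iff`, `exists_eigenform_iff`: all cusp forms of weight `2` and level `Γ₀(N)` vanish exactly for the
  fifteen values, and there is a normalised eigenform of weight `2` and level `Γ₀(N)` for all other `N`.

The proof uses the theory of Atkin and Lehner (`genusFormula_eq_sum`): if `M` is a proper divisor of `N` and `X₀(M)` has
positive genus, then the genus of `X₀(N)` is bigger than that of `X₀(M)`. So only primes and `75` explicit products have to
be considered.

This file is not used by any of the statement files.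
-/

set_option autoImplicit false

noncomputable section

namespace Fermat.Agent.Cor.GenusList

open CongruenceSubgroup ModularCurve Fermat.Agent.Cor.NewformCount

/-- the fifteen levels of genus zero -/
def L0 : List ℕ := [1, 2, 3, 4, 5, 6, 7, 8, 9, 10, 12, 13, 16, 18, 25]

/-- the twelve levels of genus one -/
def L1 : List ℕ := [11, 14, 15, 17, 19, 20, 21, 24, 27, 32, 36, 49]

/-- if the genus of `X₀(N)` is positive, there is a newform of some level dividing `N` -/
theorem exists_newformCount {M : ℕ} (hM0 : M ≠ 0) (hM : 1 ≤ genusFormula M) :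
    ∃ x ∈ M.divisors, 1 ≤ newformCount x := by
  have : NeZero M := ⟨hM0⟩
  by_contra! hcon
  have h0 : ∑ x ∈ M.divisors, ((M / x).divisors.card : ℚ) * newformCount x = 0 := by
    refine Finset.sum_eq_zero fun x hx => ?_
    have : newformCount x = 0 := by have := hcon x hx; omega
    rw [this]; simp
  rw [genusFormula_eq_sum M, h0] at hM
  norm_num at hM

/-- the genus grows strictly from proper divisors of positive genus -/
theorem genus_lt {M N : ℕ} (hN : N ≠ 0) (hMN : M ∣ N) (hne : M ≠ N) (hM : 1 ≤ genusFormula M) :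
    genusFormula M + 1 ≤ genusFormula N := by
  have hM0 : M ≠ 0 := fun h => hN (Nat.eq_zero_of_zero_dvd (h ▸ hMN))
  have : NeZero M := ⟨hM0⟩
  have : NeZero N := ⟨hN⟩
  have hlt : M < N := lt_of_le_of_ne (Nat.le_of_dvd (Nat.pos_of_ne_zero hN) hMN) hne
  obtain ⟨y, hy, hy1⟩ := exists_newformCount hM0 hM
  rw [genusFormula_eq_sum M, genusFormula_eq_sum N]
  have hsub : M.divisors ⊆ N.divisors := Nat.divisors_subset_of_dvd hN hMN
  have hcard : ∀ x ∈ M.divisors, (M / x).divisors.card + 1 ≤ (N / x).divisors.card := by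
    intro x hx
    have hxM := Nat.dvd_of_mem_divisors hx
    have hx0 : 0 < x := Nat.pos_of_mem_divisors hx
    have hdvd : M / x ∣ N / x := Nat.div_dvd_div hxM hMN
    have hNx : N / x ≠ 0 := (Nat.div_pos (Nat.le_of_dvd (Nat.pos_of_ne_zero hN)
      (hxM.trans hMN)) hx0).ne'
    have hlt' : M / x < N / x := Nat.div_lt_div_of_lt_of_dvd (hxM.trans hMN) hlt
    refine Nat.succ_le_of_lt (Finset.card_lt_card ?_)
    rw [Finset.ssubset_iff_of_subset (Nat.divisors_subset_of_dvd hNx hdvd)]
    refine ⟨N / x, Nat.mem_divisors_self _ hNx, fun h => ?_⟩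
    exact absurd (Nat.divisor_le h) (not_le.mpr hlt')
  have h1 : ∑ x ∈ M.divisors, (((M / x).divisors.card : ℚ) * newformCount x + newformCount x) ≤
      ∑ x ∈ N.divisors, ((N / x).divisors.card : ℚ) * newformCount x := by
    refine le_trans (Finset.sum_le_sum fun x hx => ?_)
      (Finset.sum_le_sum_of_subset_of_nonneg hsub fun x _ _ => by positivity)
    have h2 : ((M / x).divisors.card : ℚ) + 1 ≤ (N / x).divisors.card := by
      exact_mod_cast hcard x hx
    have h3 : (0 : ℚ) ≤ newformCount x := by positivity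
    nlinarith
  have h2 : (1 : ℚ) ≤ ∑ x ∈ M.divisors, (newformCount x : ℚ) := by
    refine le_trans ?_ (Finset.single_le_sum (f := fun x => (newformCount x : ℚ))
      (fun x _ => by positivity) hy)
    exact_mod_cast hy1
  rw [Finset.sum_add_distrib] at h1
  linarith

theorem le_genus_of_g12 {N : ℕ} [NeZero N] {c : ℕ} (h : 12 * (c : ℤ) ≤ g12 N) :
    (c : ℚ) ≤ genusFormula N := by
  have h1 := g12_eq N
  have h2 : (12 : ℚ) * c ≤ (g12 N : ℚ) := by exact_mod_cast h
  rw [h1] at h2
  linarith

/-- the number of roots of a monic quadratic polynomial modulo a prime -/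
lemma card_roots_le {p : ℕ} (hp : p.Prime) (b : ZMod p) :
    Nat.card {x : ZMod p // x ^ 2 + b * x + 1 = 0} ≤ 2 := by
  classical
  have : Fact p.Prime := ⟨hp⟩
  have hP : (Polynomial.X ^ 2 + Polynomial.C b * Polynomial.X + 1 : Polynomial (ZMod p)).natDegree =
      2 := by compute_degree!
  have hne : (Polynomial.X ^ 2 + Polynomial.C b * Polynomial.X + 1 : Polynomial (ZMod p)) ≠ 0 := by
    intro h
    rw [h] at hP
    simp at hP
  have hle := Polynomial.card_roots' (Polynomial.X ^ 2 + Polynomial.C b * Polynomial.X + 1 :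
    Polynomial (ZMod p))
  rw [hP] at hle
  refine le_trans ?_ hle
  rw [Nat.card_eq_fintype_card, Fintype.card_subtype]
  refine le_trans (Finset.card_le_card ?_) (Multiset.toFinset_card_le _)
  intro x hx
  rw [Finset.mem_filter] at hx
  rw [Multiset.mem_toFinset, Polynomial.mem_roots hne]
  simpa using hx.2

/-- primes `p ≥ 37` have genus at least two -/
theorem two_le_genus_prime {p : ℕ} (hp : p.Prime) (h37 : 37 ≤ p) : 2 ≤ genusFormula p := by
  have h1 : nuTwo p ≤ 2 := by
    have := card_roots_le hp 0
    simpa [nuTwo] using this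
  have h2 : nuThree p ≤ 2 := by
    have := card_roots_le hp 1
    simpa [nuThree] using this
  have h3 : cuspCount p = 2 := by
    rw [cuspCount, hp.divisors, Finset.sum_pair hp.one_lt.ne]
    simp [Nat.div_self hp.pos]
  have h4 := Fermat.Agent.M5.dedekindPsi_prime hp
  rw [genusFormula, h3, h4]
  have h1' : (nuTwo p : ℚ) ≤ 2 := by exact_mod_cast h1
  have h2' : (nuThree p : ℚ) ≤ 2 := by exact_mod_cast h2
  have h3' : (37 : ℚ) ≤ p := by exact_mod_cast h37
  push_cast
  linarith

/-- the check for the small primes -/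
theorem check_primes : ∀ p ∈ [11, 17, 19, 23, 29, 31], 12 ≤ g12 p ∧ (p ∉ L1 → 24 ≤ g12 p) := by
  decide +kernel

/-- the check for the products `q K` with `q` a prime and `K` of genus zero -/
theorem check_products : ∀ q ∈ [2, 3, 5, 7, 13], ∀ K ∈ L0, q * K ∉ L0 →
    12 ≤ g12 (q * K) ∧ (q * K ∉ L1 → 24 ≤ g12 (q * K)) := by
  decide +kernel

/-- **The genus of `X₀(N)`**: positive outside of `L0`, at least two outside of `L0` and `L1` -/
theorem main (N : ℕ) (hN : N ≠ 0) (h0 : N ∉ L0) :
    1 ≤ genusFormula N ∧ (N ∉ L1 → 2 ≤ genusFormula N) := by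
  induction N using Nat.strong_induction_on with
  | _ N ih =>
    have : NeZero N := ⟨hN⟩
    by_cases hex : ∃ M, M ∣ N ∧ M ≠ N ∧ M ∉ L0
    · obtain ⟨M, hMN, hne, hM⟩ := hex
      have hM0 : M ≠ 0 := fun h => hN (Nat.eq_zero_of_zero_dvd (h ▸ hMN))
      have h1 := (ih M (lt_of_le_of_ne (Nat.le_of_dvd (Nat.pos_of_ne_zero hN) hMN) hne)
        hM0 hM).1
      have h2 := genus_lt hN hMN hne h1
      exact ⟨by linarith, fun _ => by linarith⟩
    · push Not at hex
      have fin : (12 ≤ g12 N ∧ (N ∉ L1 → 24 ≤ g12 N)) →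
          1 ≤ genusFormula N ∧ (N ∉ L1 → 2 ≤ genusFormula N) := by
        rintro ⟨h1, h2⟩
        refine ⟨?_, fun h => ?_⟩
        · exact_mod_cast le_genus_of_g12 (N := N) (c := 1) (by simpa using h1)
        · exact_mod_cast le_genus_of_g12 (N := N) (c := 2) (by simpa using h2 h)
      by_cases hp : N.Prime
      · by_cases h37 : 37 ≤ N
        · have := two_le_genus_prime hp h37
          exact ⟨by linarith, fun _ => this⟩
        · refine fin (check_primes N ?_)
          have hlt : N < 37 := not_le.mp h37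
          clear ih hex this fin
          interval_cases N <;> first
            | (exfalso; revert hp; norm_num; done)
            | (exfalso; exact h0 (by decide))
            | decide
      · have h1 : N ≠ 1 := fun h => h0 (by rw [h]; decide)
        have hq := Nat.minFac_prime h1
        have hqN := Nat.minFac_dvd N
        obtain ⟨K, hK⟩ := hqN
        have hK1 : K ≠ 1 := by
          rintro rfl
          exact hp (by rw [hK, mul_one]; exact hq)
        have hK0 : K ≠ 0 := by
          rintro rfl
          exact hN (by rw [hK, mul_zero])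
        have hqne : N.minFac ≠ N := by
          intro h
          rw [h] at hq
          exact hp hq
        have hKne : K ≠ N := by
          intro h
          have h2 : 1 * K < N.minFac * K :=
            Nat.mul_lt_mul_of_pos_right hq.one_lt (Nat.pos_of_ne_zero hK0)
          rw [one_mul, ← hK, h] at h2
          exact lt_irrefl _ h2
        have hqL := hex _ (Nat.minFac_dvd N) hqne
        have hKL := hex K ⟨N.minFac, by rw [mul_comm]; exact hK⟩ hKne
        have hq5 : N.minFac ∈ [2, 3, 5, 7, 13] := by
          generalize N.minFac = q at hq hqL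
          revert hq
          fin_cases hqL <;> decide
        have h3 := check_products N.minFac hq5 K hKL (by rw [← hK]; exact h0)
        rw [← hK] at h3
        exact fin h3

/-- the check for `L0` and `L1` -/
theorem check_lists : (∀ N ∈ L0, g12 N = 0) ∧ ∀ N ∈ L1, g12 N = 12 := by
  decide +kernel

theorem genus_of_mem_L0 {N : ℕ} (h : N ∈ L0) : genusFormula N = 0 := by
  have : NeZero N := ⟨by rintro rfl; revert h; decide⟩
  have h1 := g12_eq N
  rw [check_lists.1 N h] at h1
  push_cast at h1
  linarith

theorem genus_of_mem_L1 {N : ℕ} (h : N ∈ L1) : genusFormula N = 1 := by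
  have : NeZero N := ⟨by rintro rfl; revert h; decide⟩
  have h1 := g12_eq N
  rw [check_lists.2 N h] at h1
  push_cast at h1
  linarith

/-- **`X₀(N)` has genus zero exactly for `N = 1, …, 10, 12, 13, 16, 18, 25`.** -/
theorem genus_eq_zero_iff {N : ℕ} (hN : N ≠ 0) : genusFormula N = 0 ↔
    N ∈ [1, 2, 3, 4, 5, 6, 7, 8, 9, 10, 12, 13, 16, 18, 25] := by
  refine ⟨fun h => ?_, genus_of_mem_L0⟩
  by_contra h0
  have := (main N hN h0).1
  rw [h] at this
  norm_num at this

/-- **`X₀(N)` has genus one exactly for `N = 11, 14, 15, 17, 19, 20, 21, 24, 27, 32, 36, 49`.** -/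
theorem genus_eq_one_iff {N : ℕ} (hN : N ≠ 0) : genusFormula N = 1 ↔
    N ∈ [11, 14, 15, 17, 19, 20, 21, 24, 27, 32, 36, 49] := by
  refine ⟨fun h => ?_, genus_of_mem_L1⟩
  by_contra h1
  by_cases h0 : N ∈ L0
  · rw [genus_of_mem_L0 h0] at h
    norm_num at h
  · have := (main N hN h0).2 h1
    rw [h] at this
    norm_num at this

/-- **There is a non-zero cusp form of weight two and level `Γ₀(N)` exactly if `N` is not one of the fifteen values.** -/
theorem cuspForm_eq_zero_iff {N : ℕ} (hN : N ≠ 0) : (∀ f : CuspForm (Gamma0 N) 2, f = 0) ↔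
    N ∈ [1, 2, 3, 4, 5, 6, 7, 8, 9, 10, 12, 13, 16, 18, 25] := by
  have : NeZero N := ⟨hN⟩
  have : FiniteDimensional ℂ (CuspForm (Gamma0 N) 2) := Fermat.Agent.H22.finiteDimensional_cuspForm N 2
  rw [← genus_eq_zero_iff hN, ← Fermat.Agent.S20.result N, Nat.cast_eq_zero, Module.finrank_zero_iff]
  exact ⟨fun h => ⟨fun f g => by rw [h f, h g]⟩, fun h f => Subsingleton.elim _ _⟩

/-- **There is a normalised eigenform of weight two and level `Γ₀(N)` exactly if `N` is not one of the fifteen
values.** -/
theorem exists_eigenform_iff {N : ℕ} (hN : N ≠ 0) :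
    (∃ f : CuspForm (Gamma0 N) 2, f.IsNormalizedEigenform) ↔
      N ∉ [1, 2, 3, 4, 5, 6, 7, 8, 9, 10, 12, 13, 16, 18, 25] := by
  have : NeZero N := ⟨hN⟩
  constructor
  · rintro ⟨f, hf⟩ h
    exact Main.not_isNormalizedEigenform (genus_of_mem_L0 h) f hf
  · intro h
    obtain ⟨x, hx, hx1⟩ := exists_newformCount hN (main N hN h).1
    have hxN := Nat.dvd_of_mem_divisors hx
    have hx0 : NeZero x := ⟨(Nat.pos_of_mem_divisors hx).ne'⟩
    have hne : Nonempty {g : CuspForm (Gamma0 x) 2 // g.IsNewform} := by
      by_contra hcon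
      rw [not_nonempty_iff] at hcon
      rw [newformCount, Nat.card_of_isEmpty] at hx1
      omega
    obtain ⟨g, hg⟩ := hne
    obtain ⟨f, hf, -⟩ := Fermat.Agent.H18R.exists_raise hxN hg.1
    exact ⟨f, hf⟩

/-- The same for the genus of the function field of `X₀(N)` over the algebraic closure of `ℚ`. -/
theorem genus_functionField (N : ℕ) [NeZero N]
    [AlgebraicCurve.HasCanonicalDivisor (K := AlgebraicClosure ℚ)
      (F := ↥(ModularCurve.modularFunctionFieldBar N))] :
    (AlgebraicCurve.genus (AlgebraicClosure ℚ) ↥(ModularCurve.modularFunctionFieldBar N) = 0 ↔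
      N ∈ [1, 2, 3, 4, 5, 6, 7, 8, 9, 10, 12, 13, 16, 18, 25]) ∧
    (AlgebraicCurve.genus (AlgebraicClosure ℚ) ↥(ModularCurve.modularFunctionFieldBar N) = 1 ↔
      N ∈ [11, 14, 15, 17, 19, 20, 21, 24, 27, 32, 36, 49]) := by
  rw [← genus_eq_zero_iff (NeZero.ne N), ← genus_eq_one_iff (NeZero.ne N),
    ← Fermat.Agent.S24.result N]
  constructor <;> norm_cast

end Fermat.Agent.Cor.GenusList
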