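import Fermat.Agent.Cor.RootNumber
import Fermat.Agent.Cor.H14Small
import Fermat.Agent.H24.Pet
import Fermat.Agent.LM.Rat
import Fermat.Agent.S22

/-!
# The field of coefficients of a newform (after Shimura)

Let `f` be a normalised eigenform of weight two and level `Γ₀(N)` and `K = ℚ(a₁(f), a₂(f), …)` (`coeffField f`).

* `isIntegral_qCoeff`, `finiteDimensional`, `finrank_le`: the coefficients are algebraic integers, `K` is a number
  field, and `[K : ℚ]` is at most the genus of `X₀(N)`;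
* `exists_conj`: for every embedding `τ : K → ℂ` there is a normalised eigenform of level `N` with the coefficients
  `τ (a_n(f))`; if `f` is a newform this is again a newform (`exists_conj_newform`);
* `shimura`: if `f` is a newform then moreover `K` is totally real.

The conjugate eigenform exists because every complex character of the Hecke algebra occurs in the space of cusp forms
(integral structure of the Hecke algebra and the Eichler–Shimura isomorphism); the eigenvalues of the operators `T_p`,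
`p ∤ N`, are real since these operators are self-adjoint for the Petersson scalar product, and `a_p(f) ∈ {0, 1, -1}` for
a newform and `p ∣ N`.

This file is not used by any of the statement files.
-/

set_option autoImplicit false

namespace Fermat.Agent.Cor.Shimura

open ModularFormClass CongruenceSubgroup

/-- a multiplicative induction principle -/
theorem induct {P : ℕ → Prop} (h0 : P 0) (h1 : P 1)
    (hp : ∀ p : ℕ, p.Prime → P p)
    (hpow : ∀ p r : ℕ, p.Prime → P (p ^ (r + 1)) → P (p ^ r) → P (p ^ (r + 2)))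
    (hmul : ∀ m n : ℕ, m.Coprime n → P m → P n → P (m * n)) (n : ℕ) : P n := by
  induction n using Nat.recOnPosPrimePosCoprime with
  | prime_pow p n hpp _ =>
    have key : ∀ r : ℕ, P (p ^ r) ∧ P (p ^ (r + 1)) := by
      intro r
      induction r with
      | zero => exact ⟨by simpa using h1, by simpa using hp p hpp⟩
      | succ r ih => exact ⟨ih.2, hpow p r hpp ih.2 ih.1⟩
    exact (key n).1
  | zero => exact h0
  | one => exact h1
  | coprime a b _ _ hab ha hb => exact hmul a b hab ha hb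

variable {N : ℕ} [NeZero N] {f : CuspForm (Gamma0 N) 2}

omit [NeZero N] in
/-- the combined recursion for the coefficients at prime powers -/
theorem qCoeff_pow (hf : f.IsNormalizedEigenform) {p : ℕ} (r : ℕ) (hp : p.Prime) :
    qCoeff f (p ^ (r + 2)) = qCoeff f p * qCoeff f (p ^ (r + 1)) -
      ((if p ∣ N then 0 else p : ℕ) : ℂ) * qCoeff f (p ^ r) := by
  by_cases h : p ∣ N
  · rw [hf.qCoeff_prime_pow_of_dvd p r hp h, if_pos h, Nat.cast_zero, zero_mul, sub_zero]
  · rw [hf.qCoeff_prime_pow_of_not_dvd p r hp h, if_neg h]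

omit [NeZero N] in
/-- a subring which contains the `a_p` contains all `a_n` -/
theorem qCoeff_mem_of_primes (hf : f.IsNormalizedEigenform) (F : Subring ℂ)
    (h : ∀ p : ℕ, p.Prime → qCoeff f p ∈ F) (n : ℕ) : qCoeff f n ∈ F := by
  refine induct (P := fun n => qCoeff f n ∈ F) ?_ ?_ h (fun p r hp h1 h0 => ?_)
    (fun m n hmn hm hn => ?_) n
  · rw [H22.cusp_qCoeff_zero f]
    exact F.zero_mem
  · rw [hf.qCoeff_one]
    exact F.one_mem
  · rw [qCoeff_pow hf r hp]
    exact F.sub_mem (F.mul_mem (h p hp) h1) (F.mul_mem (natCast_mem F _) h0)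
  · rw [hf.qCoeff_mul_of_coprime m n hmn]
    exact F.mul_mem hm hn

omit [NeZero N] in
/-- ring homomorphisms are determined by their values at the `a_p` -/
theorem qCoeff_eq_of_primes (hf : f.IsNormalizedEigenform) {g : CuspForm (Gamma0 N) 2}
    (hg : g.IsNormalizedEigenform) {K : IntermediateField ℚ ℂ} (hK : ∀ n, qCoeff f n ∈ K)
    (σ : K →+* ℂ) (h : ∀ p : ℕ, p.Prime → qCoeff g p = σ ⟨qCoeff f p, hK p⟩) (n : ℕ) :
    qCoeff g n = σ ⟨qCoeff f n, hK n⟩ := by
  refine induct (P := fun n => qCoeff g n = σ ⟨qCoeff f n, hK n⟩) ?_ ?_ h (fun p r hp h1 h0 => ?_)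
    (fun m n hmn hm hn => ?_) n
  · have : (⟨qCoeff f 0, hK 0⟩ : K) = 0 := Subtype.ext (H22.cusp_qCoeff_zero f)
    rw [this, map_zero, H22.cusp_qCoeff_zero g]
  · have : (⟨qCoeff f 1, hK 1⟩ : K) = 1 := Subtype.ext hf.qCoeff_one
    rw [this, map_one, hg.qCoeff_one]
  · have : (⟨qCoeff f (p ^ (r + 2)), hK _⟩ : K) = ⟨qCoeff f p, hK p⟩ * ⟨qCoeff f (p ^ (r + 1)), hK _⟩ -
        ((if p ∣ N then 0 else p : ℕ) : K) * ⟨qCoeff f (p ^ r), hK _⟩ := by
      apply Subtype.ext
      change qCoeff f (p ^ (r + 2)) = _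
      rw [qCoeff_pow hf r hp]
      rfl
    rw [this, map_sub, map_mul, map_mul, map_natCast, ← h p hp, ← h1, ← h0, qCoeff_pow hg r hp]
  · have : (⟨qCoeff f (m * n), hK _⟩ : K) = ⟨qCoeff f m, hK m⟩ * ⟨qCoeff f n, hK n⟩ :=
      Subtype.ext (hf.qCoeff_mul_of_coprime m n hmn)
    rw [this, map_mul, ← hm, ← hn, hg.qCoeff_mul_of_coprime m n hmn]

/-- **Every complex character of the full Hecke algebra is given by a normalised eigenform.** -/
theorem exists_eigenform_of_char (χ : CuspForm.heckeAlgebra N 2 ∅ →+* ℂ) :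
    ∃ g : CuspForm (Gamma0 N) 2, g.IsNormalizedEigenform ∧
      ∀ ℓ : ℕ, ℓ.Prime → qCoeff g ℓ = H22.charEigenvalue χ ℓ := by
  obtain ⟨v, hv, hχ⟩ := H05.exists_form_of_char (N := N) ∅ χ
  have hT : ∀ (ℓ : ℕ) (hℓ : ℓ.Prime) (hℓN : ¬ ℓ ∣ N),
      CuspForm.heckeTLin 2 hℓ hℓN v = H22.charEigenvalue χ ℓ • v := fun ℓ hℓ hℓN => by
    rw [H22.charEigenvalue_of_not_dvd χ hℓ hℓN]
    exact hχ (CuspForm.heckeAlgebra.T hℓ hℓN (Set.notMem_empty _))
  have hU : ∀ (ℓ : ℕ) (_ : ℓ.Prime) (hℓN : ℓ ∣ N),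
      CuspForm.heckeULin 2 hℓN v = H22.charEigenvalue χ ℓ • v := fun ℓ hℓ hℓN => by
    rw [H22.charEigenvalue_of_dvd χ hℓ hℓN]
    exact hχ (CuspForm.heckeAlgebra.U hℓ hℓN (Set.notMem_empty _))
  have h1 : qCoeff v 1 ≠ 0 := H22.eigen_qCoeff_one_ne_zero hv hT hU
  refine ⟨(qCoeff v 1)⁻¹ • v, H22.isNormalizedEigenform_of_eigen ?_ (fun ℓ hℓ hℓN => ?_)
    (fun ℓ hℓ hℓN => ?_)⟩
  · rw [H22.cusp_qCoeff_smul, inv_mul_cancel₀ h1]
  · rw [map_smul, hT ℓ hℓ hℓN, smul_comm]
  · rw [map_smul, hU ℓ hℓ hℓN, smul_comm]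

/-- the values of the character of an eigenform at the generators -/
theorem eigenCharC_gen (hf : f.IsNormalizedEigenform) {ℓ : ℕ} (hℓ : ℓ.Prime) :
    H22.charEigenvalue (H23.eigenCharC hf ∅) ℓ = qCoeff f ℓ := by
  rw [H22.charEigenvalue, dif_pos hℓ]
  refine (congrArg (fun v : CuspForm (Gamma0 N) 2 => qCoeff v 1)
    (H22.heckeFormsGen_eigenform hf ⟨ℓ, hℓ⟩)).trans ?_
  change qCoeff (qCoeff f ℓ • f : CuspForm (Gamma0 N) 2) 1 = _
  rw [H22.cusp_qCoeff_smul, hf.qCoeff_one, mul_one]

/-- the values of the character of an eigenform lie in the field generated by the coefficients -/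
theorem eigenCharC_mem (hf : f.IsNormalizedEigenform) {K : IntermediateField ℚ ℂ}
    (hK : ∀ n, qCoeff f n ∈ K) (t : CuspForm.heckeAlgebra N 2 ∅) :
    H23.eigenCharC hf ∅ t ∈ K.toSubfield := by
  obtain ⟨P, rfl⟩ := H22.heckeEvalForms_surjective (N := N) t
  rw [H23.eigenCharC_apply, H22.heckeEvalForms_eigenform hf, H22.cusp_qCoeff_smul, hf.qCoeff_one,
    mul_one]
  induction P using MvPolynomial.induction_on with
  | C n =>
    rw [MvPolynomial.aeval_C, eq_intCast]
    exact intCast_mem _ n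
  | add P Q hP hQ =>
    rw [map_add]
    exact add_mem hP hQ
  | mul_X P ℓ hP =>
    rw [map_mul, MvPolynomial.aeval_X]
    exact mul_mem hP (hK _)

/-- **Conjugate eigenforms** -/
theorem exists_conj (hf : f.IsNormalizedEigenform) {K : IntermediateField ℚ ℂ}
    (hK : ∀ n, qCoeff f n ∈ K) (σ : K →+* ℂ) : ∃ g : CuspForm (Gamma0 N) 2,
      g.IsNormalizedEigenform ∧ ∀ n, qCoeff g n = σ ⟨qCoeff f n, hK n⟩ := by
  let χ : CuspForm.heckeAlgebra N 2 ∅ →+* K :=
    (H23.eigenCharC hf ∅).codRestrict K.toSubfield (fun t => eigenCharC_mem hf hK t)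
  obtain ⟨g, hg, h⟩ := exists_eigenform_of_char (σ.comp χ)
  refine ⟨g, hg, qCoeff_eq_of_primes hf hg hK σ fun p hp => ?_⟩
  rw [h p hp, H22.charEigenvalue, dif_pos hp, RingHom.comp_apply]
  congr 1
  apply Subtype.ext
  have h1 := eigenCharC_gen hf hp
  rw [H22.charEigenvalue, dif_pos hp] at h1
  exact h1

/-! ### The field of coefficients -/

/-- **The field of coefficients** `ℚ(a₁, a₂, …)` of a cusp form -/
noncomputable def coeffField (f : CuspForm (Gamma0 N) 2) : IntermediateField ℚ ℂ :=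
  IntermediateField.adjoin ℚ (Set.range (fun n => qCoeff f n))

omit [NeZero N] in
theorem qCoeff_mem (f : CuspForm (Gamma0 N) 2) (n : ℕ) : qCoeff f n ∈ coeffField f :=
  IntermediateField.subset_adjoin ℚ _ ⟨n, rfl⟩

/-- the coefficients are algebraic integers -/
theorem isIntegral_qCoeff (hf : f.IsNormalizedEigenform) (n : ℕ) : IsIntegral ℤ (qCoeff f n) := by
  refine qCoeff_mem_of_primes hf (integralClosure ℤ ℂ).toSubring (fun p hp => ?_) n
  have h := H23.isIntegral_eigenCharC hf ∅ (CuspForm.heckeFormsGen N 2 ⟨p, hp⟩)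
  have h1 := eigenCharC_gen hf hp
  rw [H22.charEigenvalue, dif_pos hp] at h1
  rw [h1] at h
  exact h

/-- **The field of coefficients of an eigenform is a number field.** -/
theorem finiteDimensional (hf : f.IsNormalizedEigenform) :
    FiniteDimensional ℚ (coeffField f) := by
  have hfin : Module.Finite ℤ (CuspForm.heckeAlgebra N 2 ∅) := S22.result N 2 ∅
  obtain ⟨S, hS⟩ := hfin.fg_top
  set χ := H23.eigenCharC hf ∅ with hχ
  let F : IntermediateField ℚ ℂ := IntermediateField.adjoin ℚ (χ '' (S : Set _))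
  have hF : FiniteDimensional ℚ F := by
    have : Finite (χ '' (S : Set (CuspForm.heckeAlgebra N 2 ∅))) := (S.finite_toSet.image χ).to_subtype
    refine IntermediateField.finiteDimensional_adjoin fun x hx => ?_
    obtain ⟨t, -, rfl⟩ := hx
    exact (H23.isIntegral_eigenCharC hf ∅ t).tower_top
  have h1 : ∀ t, χ t ∈ F := by
    intro t
    have ht : t ∈ Submodule.span ℤ (S : Set (CuspForm.heckeAlgebra N 2 ∅)) := by
      rw [hS]; trivial
    induction ht using Submodule.span_induction with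
    | mem x hx => exact IntermediateField.subset_adjoin ℚ _ ⟨x, hx, rfl⟩
    | zero => rw [map_zero]; exact F.zero_mem
    | add x y _ _ hx hy => rw [map_add]; exact F.add_mem hx hy
    | smul a x _ hx =>
      rw [zsmul_eq_mul, map_mul, map_intCast]
      exact F.mul_mem (intCast_mem F a) hx
  have h2 : coeffField f ≤ F := by
    rw [coeffField, IntermediateField.adjoin_le_iff]
    rintro _ ⟨n, rfl⟩
    refine qCoeff_mem_of_primes hf F.toSubfield.toSubring (fun p hp => ?_) n
    have h3 := eigenCharC_gen hf hp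
    rw [H22.charEigenvalue, dif_pos hp] at h3
    rw [← h3]
    exact h1 _
  exact FiniteDimensional.of_injective (IntermediateField.inclusion h2).toLinearMap
    (IntermediateField.inclusion_injective h2)

/-! ### Conjugates of newforms -/

/-- the field of algebraic numbers in `ℂ` -/
noncomputable abbrev QA : IntermediateField ℚ ℂ := algebraicClosure ℚ ℂ

theorem qCoeff_mem_QA (hf : f.IsNormalizedEigenform) (n : ℕ) : qCoeff f n ∈ QA :=
  mem_algebraicClosure_iff.mpr ((isIntegral_qCoeff hf n).tower_top (A := ℚ)).isAlgebraic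

theorem coeffField_le (hf : f.IsNormalizedEigenform) : coeffField f ≤ QA := by
  rw [coeffField, IntermediateField.adjoin_le_iff]
  rintro _ ⟨n, rfl⟩
  exact qCoeff_mem_QA hf n

/-- the conjugate of a newform is a newform -/
theorem isNewform_of_conj (hf : f.IsNewform) (σ : QA ≃ₐ[ℚ] QA) {g : CuspForm (Gamma0 N) 2}
    (hg : g.IsNormalizedEigenform)
    (h : ∀ n, qCoeff g n = (σ ⟨qCoeff f n, qCoeff_mem_QA hf.1 n⟩ : ℂ)) : g.IsNewform := by
  refine ⟨hg, fun M hM hne => ?_⟩
  rintro ⟨h', hh', hc⟩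
  have hM0 : NeZero M := ⟨fun h0 => NeZero.ne N (Nat.eq_zero_of_zero_dvd (h0 ▸ hM))⟩
  obtain ⟨h'', hh'', hc'⟩ := exists_conj hh' (K := QA) (qCoeff_mem_QA hh')
    (QA.val.toRingHom.comp (σ.symm : QA →+* QA))
  refine hf.2 M hM hne ⟨h'', hh'', fun ℓ hℓ hℓN => ?_⟩
  have h1 := hc ℓ hℓ hℓN
  rw [hc' ℓ]
  have h2 : (⟨qCoeff h' ℓ, qCoeff_mem_QA hh' ℓ⟩ : QA) =
      σ ⟨qCoeff f ℓ, qCoeff_mem_QA hf.1 ℓ⟩ := by
    apply Subtype.ext
    change qCoeff h' ℓ = _
    rw [← h ℓ, h1]
  rw [h2]
  change ((σ.symm (σ ⟨qCoeff f ℓ, qCoeff_mem_QA hf.1 ℓ⟩) : QA) : ℂ) = _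
  rw [σ.symm_apply_apply]

/-- embeddings of subfields of `QA` into `ℂ` extend to automorphisms of `QA` -/
theorem exists_extension {K : IntermediateField ℚ ℂ} (hK : K ≤ QA) (τ : K →+* ℂ) :
    ∃ σ : QA ≃ₐ[ℚ] QA, ∀ x : K, (σ ⟨x, hK x.2⟩ : ℂ) = τ x := by
  have hmem : ∀ x : K, τ x ∈ QA := by
    intro x
    have h1 : IsAlgebraic ℚ (x : ℂ) := mem_algebraicClosure_iff.mp (hK x.2)
    have h2 : IsAlgebraic ℚ x := (isAlgebraic_algebraMap_iff (algebraMap K ℂ).injective).mp h1
    exact mem_algebraicClosure_iff.mpr (h2.algHom τ.toRatAlgHom)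
  let τ' : K →ₐ[ℚ] QA := (τ.codRestrict QA.toSubfield hmem).toRatAlgHom
  let _ : Algebra K QA := (IntermediateField.inclusion hK).toAlgebra
  have : IsScalarTower ℚ K QA := IsScalarTower.of_algebraMap_eq fun x => by
    simp
  have : IsAlgClosure ℚ QA := algebraicClosure.isAlgClosure ℚ ℂ
  have : Normal ℚ QA := IsAlgClosure.normal ℚ QA
  let σ₀ : QA →ₐ[ℚ] QA := τ'.liftNormal QA
  refine ⟨AlgEquiv.ofBijective σ₀ (AlgHom.normal_bijective ℚ QA QA σ₀), fun x => ?_⟩
  have h1 := τ'.liftNormal_commutes QA x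
  exact congrArg Subtype.val h1

/-- **Conjugate newforms** -/
theorem exists_conj_newform (hf : f.IsNewform) (τ : coeffField f →+* ℂ) :
    ∃ g : CuspForm (Gamma0 N) 2, g.IsNewform ∧
      ∀ n, qCoeff g n = τ ⟨qCoeff f n, qCoeff_mem f n⟩ := by
  obtain ⟨σ, hσ⟩ := exists_extension (coeffField_le hf.1) τ
  obtain ⟨g, hg, h⟩ := exists_conj hf.1 (qCoeff_mem f) τ
  refine ⟨g, isNewform_of_conj hf σ hg fun n => ?_, h⟩
  rw [h n, ← hσ]

omit [NeZero N] in
/-- embeddings of the field of coefficients are determined by the images of the coefficients -/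
theorem embedding_ext {τ τ' : coeffField f →+* ℂ}
    (h : ∀ n, τ ⟨qCoeff f n, qCoeff_mem f n⟩ = τ' ⟨qCoeff f n, qCoeff_mem f n⟩) : τ = τ' := by
  have h1 : τ.toRatAlgHom = τ'.toRatAlgHom := by
    refine IntermediateField.algHom_ext_of_eq_adjoin (F := ℚ) (E := ℂ) (K := ℂ) (S := coeffField f)
      (s := Set.range (fun n => qCoeff f n)) (hS := rfl) ?_
    rintro _ ⟨n, rfl⟩
    exact h n
  ext x
  exact DFunLike.congr_fun h1 x

/-- **The degree of the field of coefficients is at most the genus.** -/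
theorem finrank_le (hf : f.IsNormalizedEigenform) :
    (Module.finrank ℚ (coeffField f) : ℚ) ≤ ModularCurve.genusFormula N := by
  have hfd := finiteDimensional hf
  have hnf : NumberField (coeffField f) := { to_charZero := inferInstance, to_finiteDimensional := hfd }
  have hc : ∀ τ : coeffField f →+* ℂ, ∃ g : {g : CuspForm (Gamma0 N) 2 // g.IsNormalizedEigenform},
      ∀ n, qCoeff g.1 n = τ ⟨qCoeff f n, qCoeff_mem f n⟩ := fun τ => by
    obtain ⟨g, hg, h⟩ := exists_conj hf (qCoeff_mem f) τ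
    exact ⟨⟨g, hg⟩, h⟩
  choose G hG using hc
  have hinj : Function.Injective G := fun τ τ' h => embedding_ext fun n => by
    rw [← hG, ← hG, h]
  have hfin : Fintype {g : CuspForm (Gamma0 N) 2 // g.IsNormalizedEigenform} := Fintype.ofFinite _
  have h1 := Fintype.card_le_of_injective G hinj
  rw [NumberField.Embeddings.card] at h1
  refine le_trans ?_ (H14.card_eigenforms_le N)
  rw [Nat.card_eq_fintype_card]
  exact_mod_cast h1

/-- the coefficients of a newform are real -/
theorem conj_qCoeff (hf : f.IsNewform) (n : ℕ) :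
    (starRingEnd ℂ) (qCoeff f n) = qCoeff f n := by
  refine qCoeff_mem_of_primes hf.1 (RingHom.eqLocus (starRingEnd ℂ) (RingHom.id ℂ))
    (fun p hp => ?_) n
  change (starRingEnd ℂ) (qCoeff f p) = qCoeff f p
  by_cases hpN : p ∣ N
  · have h := RootNumber.newformBadPrimeCoeff (N := N) f hf p hp hpN
    by_cases h2 : p ^ 2 ∣ N
    · rw [h.2 h2, map_zero]
    · rcases sq_eq_one_iff.mp (h.1 h2) with h3 | h3
      · rw [h3, map_one]
      · rw [h3, map_neg, map_one]
  · exact H24.conj_eigenvalue hp hpN hf.ne_zero (H23.heckeTLin_eigen hf.1 hp hpN)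

/-- all embeddings of the field of coefficients of a newform are real -/
theorem conj_embedding (hf : f.IsNewform) (τ : coeffField f →+* ℂ) :
    NumberField.ComplexEmbedding.conjugate τ = τ := by
  obtain ⟨g, hg, h⟩ := exists_conj_newform hf τ
  refine embedding_ext fun n => ?_
  rw [NumberField.ComplexEmbedding.conjugate_coe_eq, ← h, conj_qCoeff hg]

/-- **Shimura's theorem**: the field of coefficients `K = ℚ(a₁(f), a₂(f), …)` of a newform `f` of weight two and level
`Γ₀(N)` is a totally real number field, its degree is at most the genus of `X₀(N)`, the coefficients are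
algebraic integers, and for every embedding `τ : K → ℂ` there is a newform with the coefficients `τ (a_n(f))`. -/
theorem shimura (hf : f.IsNewform) :
    NumberField (coeffField f) ∧ NumberField.IsTotallyReal (coeffField f) ∧
      (Module.finrank ℚ (coeffField f) : ℚ) ≤ ModularCurve.genusFormula N ∧
      (∀ n, IsIntegral ℤ (qCoeff f n)) ∧
      ∀ τ : coeffField f →+* ℂ, ∃ g : CuspForm (Gamma0 N) 2, g.IsNewform ∧
        ∀ n, qCoeff g n = τ ⟨qCoeff f n, qCoeff_mem f n⟩ := by
  refine ⟨{ to_charZero := inferInstance, to_finiteDimensional := finiteDimensional hf.1 },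
    ⟨fun v => ?_⟩, finrank_le hf.1, isIntegral_qCoeff hf.1, exists_conj_newform hf⟩
  rw [NumberField.InfinitePlace.isReal_iff, NumberField.ComplexEmbedding.isReal_iff]
  exact conj_embedding hf _

end Fermat.Agent.Cor.Shimura
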