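import Fermat.Agent.Cor.Conductor23
import Fermat.Agent.Cor.Shimura

/-!
# The cusp forms of weight two and level 23

The space `S₂(Γ₀(23))` has dimension two. Let `P` be the characteristic polynomial of `T₂` on it. It has integral
coefficients; its roots are real (self-adjointness of `T₂`) and of absolute value `< 3` (Hecke); and `P(3)` is
divisible by the index `11` of the Eisenstein ideal (statement S16). The only such polynomial is `X² + X - 1`:

* `charpoly_two`: the characteristic polynomial of `T₂` on the lattice of integral forms is `X² + X - 1`;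
* `coeff_two_eq`: `a₂(f) = (-1 ± √5) / 2` for the normalised eigenforms `f` of level `23`;
* `coeffField_eq`, `finrank_coeffField`: the field of coefficients of `f` is `ℚ(√5)`;
* `card_eigenforms`, `isNewform`: there are exactly two normalised eigenforms of level `23`, both are newforms.

This file is not used by any of the statement files.
-/

set_option autoImplicit false

namespace Fermat.Agent.Cor.Level23

open ModularCurve ModularFormClass CongruenceSubgroup CuspForm Polynomial
open Fermat.Agent.Cor.SmallConductor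
open Fermat.Agent.Cor.EigenTable Fermat.Agent.Cor.LatticeBasis Fermat.Agent.Cor.Conductor23

variable {N : ℕ} [hN : Fact N.Prime]

/-- the complex roots of the characteristic polynomial are real and of absolute value `< ℓ + 1` -/
theorem exists_real_of_isRoot {ℓ : ℕ} (hℓ : ℓ.Prime) (hℓN : ¬ ℓ ∣ N) {a : ℂ}
    (h : (heckeTLin (N := N) 2 hℓ hℓN).charpoly.IsRoot a) :
    ∃ x : ℝ, a = x ∧ |x| < ℓ + 1 := by
  have hfd : FiniteDimensional ℂ (CuspForm (Gamma0 N) 2) :=
    Fermat.Agent.H22.finiteDimensional_cuspForm N 2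
  have h2 := (Module.End.hasEigenvalue_iff_isRoot_charpoly _ _).mpr h
  obtain ⟨g, hg⟩ := h2.exists_hasEigenvector
  have h3 := H19.norm_lt_of_heckeT hg.2 hℓ.one_lt (a := a) (fun τ => by
    have h4 := DFunLike.congr_fun hg.apply_eq_smul τ
    exact h4)
  have h5 := H24.conj_eigenvalue hℓ hℓN hg.2 hg.apply_eq_smul
  obtain ⟨x, hx⟩ := Complex.conj_eq_iff_real.mp h5
  refine ⟨x, hx, ?_⟩
  rw [hx, Complex.norm_real, Real.norm_eq_abs] at h3
  exact h3

/-- **Genus two**: the characteristic polynomial of `T_ℓ` -/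
theorem exists_charpoly (hg : genusFormula N = 2) {ℓ : ℕ} (hℓ : ℓ.Prime) (hℓN : ¬ ℓ ∣ N) :
    ∃ (u v : ℤ) (x y : ℝ), (TL hℓ hℓN).charpoly = X ^ 2 + C u * X + C v ∧
      |x| < ℓ + 1 ∧ |y| < ℓ + 1 ∧ x + y = -u ∧ x * y = v ∧
      ∀ a : ℂ, (heckeTLin (N := N) 2 hℓ hℓN).charpoly.IsRoot a ↔ a = x ∨ a = y := by
  have hd : (TL hℓ hℓN).charpoly.natDegree = 2 := by
    rw [LinearMap.charpoly_natDegree, finrank_lattice]
    exact_mod_cast (Fermat.Agent.S20.result N).trans hg
  have hm := LinearMap.charpoly_monic (TL hℓ hℓN)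
  set P := (TL hℓ hℓN).charpoly with hP
  have h2 : P.coeff 2 = 1 := by
    have := hm.coeff_natDegree
    rwa [hd] at this
  obtain ⟨u, v, hPe⟩ : ∃ u v : ℤ, P = X ^ 2 + C u * X + C v := by
    refine ⟨P.coeff 1, P.coeff 0, ?_⟩
    conv_lhs => rw [P.as_sum_range, hd]
    rw [Finset.sum_range_succ, Finset.sum_range_succ, Finset.sum_range_succ, Finset.sum_range_zero,
      h2, ← C_mul_X_pow_eq_monomial, ← C_mul_X_pow_eq_monomial, ← C_mul_X_pow_eq_monomial]
    simp only [C_1]
    ring
  have hc : ∀ a : ℂ, (heckeTLin (N := N) 2 hℓ hℓN).charpoly.IsRoot a ↔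
      a ^ 2 + u * a + v = 0 := by
    intro a
    rw [charpoly_eq N (TL_coe hℓ hℓN), ← hP, Polynomial.IsRoot.def, hPe]
    simp
  have hdeg : (heckeTLin (N := N) 2 hℓ hℓN).charpoly.degree ≠ 0 := by
    have hfd : FiniteDimensional ℂ (CuspForm (Gamma0 N) 2) :=
      Fermat.Agent.H22.finiteDimensional_cuspForm N 2
    rw [Polynomial.degree_eq_natDegree (LinearMap.charpoly_monic _).ne_zero,
      LinearMap.charpoly_natDegree, ← finrank_lattice, ← LinearMap.charpoly_natDegree (TL hℓ hℓN),
      ← hP, hd]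
    norm_num
  obtain ⟨r, hr⟩ := IsAlgClosed.exists_root _ hdeg
  have hr' := (hc r).mp hr
  have hs : (heckeTLin (N := N) 2 hℓ hℓN).charpoly.IsRoot (-u - r) := by
    rw [hc]
    linear_combination hr'
  obtain ⟨x, hx, hx'⟩ := exists_real_of_isRoot hℓ hℓN hr
  obtain ⟨y, hy, hy'⟩ := exists_real_of_isRoot hℓ hℓN hs
  have e1 : (x : ℂ) + y = -u := by rw [← hx, ← hy]; ring
  have e2 : (x : ℂ) * y = v := by rw [← hx, ← hy]; linear_combination -hr'
  refine ⟨u, v, x, y, hPe, hx', hy', by exact_mod_cast e1, by exact_mod_cast e2, fun a => ?_⟩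
  rw [hc]
  constructor
  · intro h
    have h3 : (a - x) * (a - y) = 0 := by linear_combination h - a * e1 + e2
    rcases mul_eq_zero.mp h3 with h4 | h4
    · exact Or.inl (sub_eq_zero.mp h4)
    · exact Or.inr (sub_eq_zero.mp h4)
  · rintro (rfl | rfl)
    · linear_combination (x : ℂ) * e1 - e2
    · linear_combination (y : ℂ) * e1 - e2

/-- **The characteristic polynomial of `T₂` at level `23`** is `X² + X - 1`. -/
theorem charpoly_two : (TL (N := 23) (hN := ⟨by norm_num⟩) (ℓ := 2) (by norm_num)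
    (by norm_num)).charpoly = X ^ 2 + X - 1 := by
  have : Fact (Nat.Prime 23) := ⟨by norm_num⟩
  obtain ⟨u, v, x, y, hP, hx, hy, h1, h2, -⟩ := exists_charpoly (N := 23) genus_twentythree
    (ℓ := 2) (by norm_num) (by norm_num)
  have h3 := eisenstein_dvd (N := 23) (by rw [numerator_twentythree]; norm_num) (ℓ := 2)
    (by norm_num) (by norm_num)
  rw [hP, numerator_twentythree] at h3
  simp only [eval_add, eval_mul, eval_pow, eval_X, eval_C] at h3
  norm_num at h3 hx hy
  rw [abs_lt] at hx hy
  obtain ⟨hx1, hx2⟩ := hx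
  obtain ⟨hy1, hy2⟩ := hy
  have k1 : (-6 : ℝ) < u := by linarith
  have k2 : (u : ℝ) < 6 := by linarith
  have k3 : 0 < 9 + 3 * u + (v : ℝ) := by
    have : 0 < (3 - x) * (3 - y) := mul_pos (by linarith) (by linarith)
    nlinarith
  have k4 : 0 < 9 - 3 * u + (v : ℝ) := by
    have : 0 < (3 + x) * (3 + y) := mul_pos (by linarith) (by linarith)
    nlinarith
  have k5 : 0 ≤ (u : ℝ) ^ 2 - 4 * v := by
    have : 0 ≤ (x - y) ^ 2 := sq_nonneg _
    have h4 : (u : ℝ) = -(x + y) := by linarith
    rw [h4, ← h2]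
    nlinarith
  have m1 : -6 < u := by exact_mod_cast k1
  have m2 : u < 6 := by exact_mod_cast k2
  have m3 : 0 < 9 + 3 * u + v := by exact_mod_cast k3
  have m4 : 0 < 9 - 3 * u + v := by exact_mod_cast k4
  have m5 : 0 ≤ u ^ 2 - 4 * v := by exact_mod_cast k5
  have key : u = 1 ∧ v = -1 := by
    interval_cases u <;> omega
  obtain ⟨rfl, rfl⟩ := key
  rw [hP]
  simp
  ring

/-- **The eigenvalue of `T₂`** on a normalised eigenform of level `23` -/
theorem coeff_two {f : CuspForm (Gamma0 23) 2} (hf : f.IsNormalizedEigenform) :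
    qCoeff f 2 ^ 2 + qCoeff f 2 - 1 = 0 := by
  have : Fact (Nat.Prime 23) := ⟨by norm_num⟩
  have hfd : FiniteDimensional ℂ (CuspForm (Gamma0 23) 2) :=
    Fermat.Agent.H22.finiteDimensional_cuspForm 23 2
  have h2 : (2 : ℕ).Prime := by norm_num
  have hN : ¬ 2 ∣ 23 := by norm_num
  have h1 : (heckeTLin (N := 23) 2 h2 hN).charpoly.IsRoot (qCoeff f 2) := by
    refine (Module.End.hasEigenvalue_iff_isRoot_charpoly _ _).mp ?_
    refine Module.End.hasEigenvalue_of_hasEigenvector (x := f) ⟨?_, hf.ne_zero⟩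
    rw [Module.End.mem_eigenspace_iff]
    exact H23.heckeTLin_eigen hf h2 hN
  rw [charpoly_eq 23 (TL_coe h2 hN), charpoly_two, Polynomial.IsRoot.def] at h1
  simpa using h1

/-- `a₂ = (-1 ± √5) / 2` -/
theorem coeff_two_eq {f : CuspForm (Gamma0 23) 2} (hf : f.IsNormalizedEigenform) :
    qCoeff f 2 = (-1 + (√5 : ℝ)) / 2 ∨ qCoeff f 2 = (-1 - (√5 : ℝ)) / 2 := by
  have h := coeff_two hf
  have h5 : ((√5 : ℝ) : ℂ) ^ 2 = 5 := by
    rw [← Complex.ofReal_pow, Real.sq_sqrt (by norm_num)]
    norm_num
  have h1 : (qCoeff f 2 - (-1 + (√5 : ℝ)) / 2) * (qCoeff f 2 - (-1 - (√5 : ℝ)) / 2) = 0 := by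
    linear_combination h - h5 / 4
  rcases mul_eq_zero.mp h1 with h2 | h2
  · exact Or.inl (sub_eq_zero.mp h2)
  · exact Or.inr (sub_eq_zero.mp h2)

/-- **The field of coefficients** of a normalised eigenform of level `23` is `ℚ(√5)`. -/
theorem coeffField_eq {f : CuspForm (Gamma0 23) 2} (hf : f.IsNormalizedEigenform) :
    Shimura.coeffField f = IntermediateField.adjoin ℚ {((√5 : ℝ) : ℂ)} := by
  have hfd := Shimura.finiteDimensional hf
  have h1 : Module.finrank ℚ (Shimura.coeffField f) ≤ 2 := by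
    have := Shimura.finrank_le hf
    rw [genus_twentythree] at this
    exact_mod_cast this
  have hle : IntermediateField.adjoin ℚ {((√5 : ℝ) : ℂ)} ≤ Shimura.coeffField f := by
    rw [IntermediateField.adjoin_le_iff, Set.singleton_subset_iff]
    have h2 := Shimura.qCoeff_mem f 2
    rcases coeff_two_eq hf with h3 | h3
    · have h4 : ((√5 : ℝ) : ℂ) = 2 * qCoeff f 2 + 1 := by rw [h3]; ring
      rw [h4]
      exact add_mem (mul_mem (ofNat_mem (Shimura.coeffField f) 2) h2) (one_mem _)
    · have h4 : ((√5 : ℝ) : ℂ) = -(2 * qCoeff f 2 + 1) := by rw [h3]; ring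
      rw [h4]
      exact neg_mem (add_mem (mul_mem (ofNat_mem (Shimura.coeffField f) 2) h2) (one_mem _))
  refine (IntermediateField.eq_of_le_of_finrank_le hle (h1.trans ?_)).symm
  have hfd' : FiniteDimensional ℚ (IntermediateField.adjoin ℚ {((√5 : ℝ) : ℂ)}) :=
    FiniteDimensional.of_injective (IntermediateField.inclusion hle).toLinearMap
      (IntermediateField.inclusion_injective hle)
  have hpos : 0 < Module.finrank ℚ (IntermediateField.adjoin ℚ {((√5 : ℝ) : ℂ)}) :=
    Module.finrank_pos
  by_contra hcon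
  have h2 : Module.finrank ℚ (IntermediateField.adjoin ℚ {((√5 : ℝ) : ℂ)}) = 1 := by omega
  rw [IntermediateField.finrank_eq_one_iff, IntermediateField.adjoin_simple_eq_bot_iff] at h2
  obtain ⟨q, hq⟩ := IntermediateField.mem_bot.mp h2
  have h3 : Irrational (√5 : ℝ) := by
    have := Nat.Prime.irrational_sqrt (show Nat.Prime 5 by norm_num)
    exact_mod_cast this
  apply h3
  refine ⟨q, ?_⟩
  have h4 : ((q : ℝ) : ℂ) = ((√5 : ℝ) : ℂ) := by rw [← hq]; simp
  exact_mod_cast h4

/-- the degree of the field of coefficients is two -/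
theorem finrank_coeffField {f : CuspForm (Gamma0 23) 2} (hf : f.IsNormalizedEigenform) :
    Module.finrank ℚ (Shimura.coeffField f) = 2 := by
  have hfd := Shimura.finiteDimensional hf
  have h1 : Module.finrank ℚ (Shimura.coeffField f) ≤ 2 := by
    have := Shimura.finrank_le hf
    rw [genus_twentythree] at this
    exact_mod_cast this
  have hpos : 0 < Module.finrank ℚ (Shimura.coeffField f) := Module.finrank_pos
  by_contra hcon
  have h2 : Module.finrank ℚ (Shimura.coeffField f) = 1 := by omega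
  rw [IntermediateField.finrank_eq_one_iff] at h2
  have h3 : qCoeff f 2 ∈ (⊥ : IntermediateField ℚ ℂ) := h2 ▸ Shimura.qCoeff_mem f 2
  obtain ⟨q, hq⟩ := IntermediateField.mem_bot.mp h3
  -- `a₂` is a rational algebraic integer, so an integer
  have h4 : IsIntegral ℤ q := by
    have := Shimura.isIntegral_qCoeff hf 2
    rw [← hq] at this
    exact (isIntegral_algebraMap_iff (algebraMap ℚ ℂ).injective).mp this
  obtain ⟨z, hz⟩ := IsIntegrallyClosed.isIntegral_iff.mp h4
  refine coeff_two_ne_23 hf z ?_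
  rw [← hq, ← hz]
  simp

/-- there is a normalised eigenform of level `23` -/
theorem exists_eigenform : ∃ f : CuspForm (Gamma0 23) 2, f.IsNormalizedEigenform := by
  have hr : Module.finrank ℂ (CuspForm (Gamma0 23) 2) = 2 := by
    exact_mod_cast (Fermat.Agent.S20.result 23).trans genus_twentythree
  have hnt : Nontrivial (CuspForm (Gamma0 23) 2) :=
    Module.nontrivial_of_finrank_pos (R := ℂ) (by rw [hr]; norm_num)
  have hnt' : Nontrivial (CuspForm.heckeAlgebra 23 2 ∅) := inferInstance
  obtain ⟨P, hP⟩ := Ideal.exists_maximal (CuspForm.heckeAlgebra 23 2 ∅)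
  have hP' : P.IsPrime := hP.isPrime
  obtain ⟨-, f, hf, -⟩ := H22.exists_eigenform_of_prime (N := 23) P
  exact ⟨f, hf⟩

/-- **There are exactly two normalised eigenforms of level `23`.** -/
theorem card_eigenforms :
    Nat.card {f : CuspForm (Gamma0 23) 2 // f.IsNormalizedEigenform} = 2 := by
  apply le_antisymm
  · have := H14.card_eigenforms_le 23
    rw [genus_twentythree] at this
    exact_mod_cast this
  · obtain ⟨f, hf⟩ := exists_eigenform
    have hfd := Shimura.finiteDimensional hf
    have hnf : NumberField (Shimura.coeffField f) :=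
      { to_charZero := inferInstance, to_finiteDimensional := hfd }
    have hc : ∀ τ : Shimura.coeffField f →+* ℂ,
        ∃ g : {g : CuspForm (Gamma0 23) 2 // g.IsNormalizedEigenform},
        ∀ n, qCoeff g.1 n = τ ⟨qCoeff f n, Shimura.qCoeff_mem f n⟩ := fun τ => by
      obtain ⟨g, hg, h⟩ := Shimura.exists_conj hf (Shimura.qCoeff_mem f) τ
      exact ⟨⟨g, hg⟩, h⟩
    choose G hG using hc
    have hinj : Function.Injective G := fun τ τ' h => Shimura.embedding_ext fun n => by
      rw [← hG, ← hG, h]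
    have hfin : Fintype {g : CuspForm (Gamma0 23) 2 // g.IsNormalizedEigenform} :=
      Fintype.ofFinite _
    have h1 := Fintype.card_le_of_injective G hinj
    rw [NumberField.Embeddings.card, finrank_coeffField hf] at h1
    rwa [Nat.card_eq_fintype_card]

/-- every normalised eigenform of level `23` is a newform -/
theorem isNewform {f : CuspForm (Gamma0 23) 2} (hf : f.IsNormalizedEigenform) : f.IsNewform := by
  refine ⟨hf, fun M hM hne => ?_⟩
  rintro ⟨h, hh, -⟩
  have h1 : M = 1 := ((Nat.dvd_prime (by norm_num)).mp hM).resolve_right hne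
  subst h1
  exact Fermat.Agent.Main.not_isNormalizedEigenform Fermat.Agent.Main.genus_one h hh

end Fermat.Agent.Cor.Level23
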