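import Fermat.Agent.Cor.Conductor23
import Fermat.Agent.Cor.Level23
import Fermat.Agent.Cor.NewformCount

/-!
# Tables of semistable elliptic curves over `ℚ`

`SameTraces W E` means that the semistable curves `W` and `E` have the same conductor and the same traces of Frobenius
`a_ℓ` at all primes of good reduction. For the conductors

`11, 14, 15, 17, 19, 21, 26, 30, 33, 34, 37, 38, 42, 43, 46, 57, 58, 66, 70, 78`

we determine the semistable elliptic curves of conductor `N` up to this relation: `conductor_11`, …, `conductor_78`.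
There is one class for `N = 11, 14, 15, 17, 19, 21, 30, 33, 34, 42, 43, 46, 70, 78`, there are two classes for
`N = 26, 37, 38, 58`, and three for `N = 57, 66`. By `Conductor23.exists_conductorLevel_iff` the other numbers
`N < 31` are not conductors, so there are nine classes of conductor at most `30` (`conductor_le_thirty`).

The proof compares the number of newforms of level `N` (`NewformCount`) with the number of explicit curves of
conductor `N`; the newform of a semistable curve has level exactly the conductor (`SmallConductor.exists_newform`). For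
`N = 43` there are three newforms and one curve; a second curve is excluded by the Eisenstein ideal of index `7`: the
eigenvalues of `T₂` would be integers `-2, a, b` with `|a|, |b| < 3` and `7 ∣ 5 (3 - a) (3 - b)`.

This file is not used by any of the statement files.
-/

set_option autoImplicit false

namespace Fermat.Agent.Cor.SemistableTable

open ModularCurve ModularFormClass CongruenceSubgroup WeierstrassCurve
open Fermat.Agent.Main Fermat.Agent.Cor.GenusOne Fermat.Agent.Cor.SmallConductor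
open Fermat.Agent.Cor.EigenTable Fermat.Agent.Cor.Conductor23

theorem conductorLevel_of_eq {W : WeierstrassCurve ℤ} {D : ℤ} {N : ℕ} (hD : W.Δ = D) (h0 : D ≠ 0)
    (h : ∏ q ∈ D.natAbs.primeFactors, q = N) : W.conductorLevel = N := by
  rw [conductorLevel_eq W (by rw [hD]; exact h0), hD, h]

/-- `W` and `E` have the same conductor and the same traces of Frobenius at all primes of good reduction -/
def SameTraces (W E : WeierstrassCurve ℤ) : Prop :=
  W.conductorLevel = E.conductorLevel ∧
    ∀ ℓ : ℕ, ℓ.Prime → ¬ ℓ ∣ W.conductorLevel → W.apOfModel ℓ = E.apOfModel ℓ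

/-- If there are exactly `k` newforms of level `N` and `k` explicit semistable curves of conductor `N` with different
traces, then every semistable curve of conductor `N` has the traces of one of them. -/
theorem exists_of_card {N k : ℕ} [NeZero N] (hk : NewformCount.newformCount N = k)
    (E : Fin k → WeierstrassCurve ℤ) (hE : ∀ i, (E i).Δ ≠ 0 ∧ (E i).IsSemistableModel ∧
      (E i).conductorLevel = N)
    (hd : ∀ i j, i ≠ j → ∃ ℓ : ℕ, ℓ.Prime ∧ ¬ ℓ ∣ N ∧ (E i).apOfModel ℓ ≠ (E j).apOfModel ℓ)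
    (W : WeierstrassCurve ℤ) (hΔ : W.Δ ≠ 0) (hW : W.IsSemistableModel)
    (hN : W.conductorLevel = N) : ∃ i, SameTraces W (E i) := by
  have key : ∀ W : WeierstrassCurve ℤ, W.Δ ≠ 0 → W.IsSemistableModel → W.conductorLevel = N →
      ∃ g : {g : CuspForm (Gamma0 N) 2 // g.IsNewform}, ∀ ℓ : ℕ, ℓ.Prime → ¬ ℓ ∣ N →
        qCoeff g.1 ℓ = (W.apOfModel ℓ : ℂ) := by
    intro W hΔ hW hN
    have h1 := exists_newform W hΔ hW
    rw [hN] at h1
    obtain ⟨g, hg, h2⟩ := h1
    exact ⟨⟨g, hg⟩, h2⟩
  choose G hG using fun i => key (E i) (hE i).1 (hE i).2.1 (hE i).2.2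
  have hinj : Function.Injective G := by
    intro i j hij
    by_contra hne
    obtain ⟨ℓ, hℓ, hℓN, h⟩ := hd i j hne
    apply h
    have h1 := hG i ℓ hℓ hℓN
    rw [hij, hG j ℓ hℓ hℓN] at h1
    exact_mod_cast h1.symm
  have hfin := NewformCount.finite_newforms N
  have hfin' : Fintype {g : CuspForm (Gamma0 N) 2 // g.IsNewform} := Fintype.ofFinite _
  have hcard : Fintype.card (Fin k) = Fintype.card {g : CuspForm (Gamma0 N) 2 // g.IsNewform} := by
    rw [Fintype.card_fin, ← hk, NewformCount.newformCount, Nat.card_eq_fintype_card]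
  have hsurj := ((Fintype.bijective_iff_injective_and_card G).mpr ⟨hinj, hcard⟩).2
  obtain ⟨g, hg⟩ := key W hΔ hW hN
  obtain ⟨i, rfl⟩ := hsurj g
  refine ⟨i, ?_, fun ℓ hℓ hℓN => ?_⟩
  · rw [hN, (hE i).2.2]
  · rw [hN] at hℓN
    have h1 := hg ℓ hℓ hℓN
    rw [hG i ℓ hℓ hℓN] at h1
    exact_mod_cast h1.symm

/-! ### The curves -/

/-- `y² + xy = x³ + x² - 6x - 9`, of conductor `33` -/
def E33 : WeierstrassCurve ℤ := ⟨1, 1, 0, -6, -9⟩

/-- `y² + y = x³ - x`, of conductor `37` -/
def E37a : WeierstrassCurve ℤ := ⟨0, 0, 1, -1, 0⟩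

/-- `y² + y = x³ + x² - 3x + 1`, of conductor `37` -/
def E37b : WeierstrassCurve ℤ := ⟨0, 1, 1, -3, 1⟩

/-- `y² + xy + y = x³ + x² - 4x + 5`, of conductor `42` -/
def E42 : WeierstrassCurve ℤ := ⟨1, 1, 1, -4, 5⟩

/-- `y² + y = x³ + x²`, of conductor `43` -/
def E43 : WeierstrassCurve ℤ := ⟨0, 1, 1, 0, 0⟩

/-- `y² + xy = x³ - x² - 10x - 12`, of conductor `46` -/
def E46 : WeierstrassCurve ℤ := ⟨1, -1, 0, -10, -12⟩

/-- `y² + y = x³ - x² - 2x + 2`, of conductor `57` -/
def E57a : WeierstrassCurve ℤ := ⟨0, -1, 1, -2, 2⟩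

/-- `y² + xy + y = x³ - 2x - 1`, of conductor `57` -/
def E57b : WeierstrassCurve ℤ := ⟨1, 0, 1, -2, -1⟩

/-- `y² + y = x³ + x² + 20x - 32`, of conductor `57` -/
def E57c : WeierstrassCurve ℤ := ⟨0, 1, 1, 20, -32⟩

/-- `y² + xy = x³ - x² - x + 1`, of conductor `58` -/
def E58a : WeierstrassCurve ℤ := ⟨1, -1, 0, -1, 1⟩

/-- `y² + xy + y = x³ + x² + 5x + 9`, of conductor `58` -/
def E58b : WeierstrassCurve ℤ := ⟨1, 1, 1, 5, 9⟩

/-- `y² + xy + y = x³ - 6x + 4`, of conductor `66` -/
def E66a : WeierstrassCurve ℤ := ⟨1, 0, 1, -6, 4⟩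

/-- `y² + xy + y = x³ + x² - 2x - 1`, of conductor `66` -/
def E66b : WeierstrassCurve ℤ := ⟨1, 1, 1, -2, -1⟩

/-- `y² + xy = x³ - 45x + 81`, of conductor `66` -/
def E66c : WeierstrassCurve ℤ := ⟨1, 0, 0, -45, 81⟩

/-- `y² + xy + y = x³ - x² + 2x - 3`, of conductor `70` -/
def E70 : WeierstrassCurve ℤ := ⟨1, -1, 1, 2, -3⟩

/-- `y² + xy = x³ + x² - 19x + 685`, of conductor `78` -/
def E78 : WeierstrassCurve ℤ := ⟨1, 1, 0, -19, 685⟩

theorem E33_Δ : E33.Δ = 297 := by norm_num [E33, WeierstrassCurve.Δ, b₂, b₄, b₆, b₈]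
theorem E37a_Δ : E37a.Δ = 37 := by norm_num [E37a, WeierstrassCurve.Δ, b₂, b₄, b₆, b₈]
theorem E37b_Δ : E37b.Δ = 37 := by norm_num [E37b, WeierstrassCurve.Δ, b₂, b₄, b₆, b₈]
theorem E42_Δ : E42.Δ = -16128 := by norm_num [E42, WeierstrassCurve.Δ, b₂, b₄, b₆, b₈]
theorem E43_Δ : E43.Δ = -43 := by norm_num [E43, WeierstrassCurve.Δ, b₂, b₄, b₆, b₈]
theorem E46_Δ : E46.Δ = -23552 := by norm_num [E46, WeierstrassCurve.Δ, b₂, b₄, b₆, b₈]
theorem E57a_Δ : E57a.Δ = -171 := by norm_num [E57a, WeierstrassCurve.Δ, b₂, b₄, b₆, b₈]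
theorem E57b_Δ : E57b.Δ = 57 := by norm_num [E57b, WeierstrassCurve.Δ, b₂, b₄, b₆, b₈]
theorem E57c_Δ : E57c.Δ = -1121931 := by norm_num [E57c, WeierstrassCurve.Δ, b₂, b₄, b₆, b₈]
theorem E58a_Δ : E58a.Δ = -116 := by norm_num [E58a, WeierstrassCurve.Δ, b₂, b₄, b₆, b₈]
theorem E58b_Δ : E58b.Δ = -29696 := by norm_num [E58b, WeierstrassCurve.Δ, b₂, b₄, b₆, b₈]
theorem E66a_Δ : E66a.Δ = 1188 := by norm_num [E66a, WeierstrassCurve.Δ, b₂, b₄, b₆, b₈]
theorem E66b_Δ : E66b.Δ = 528 := by norm_num [E66b, WeierstrassCurve.Δ, b₂, b₄, b₆, b₈]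
theorem E66c_Δ : E66c.Δ = 2737152 := by norm_num [E66c, WeierstrassCurve.Δ, b₂, b₄, b₆, b₈]
theorem E70_Δ : E70.Δ = -2800 := by norm_num [E70, WeierstrassCurve.Δ, b₂, b₄, b₆, b₈]
theorem E78_Δ : E78.Δ = -207028224 := by norm_num [E78, WeierstrassCurve.Δ, b₂, b₄, b₆, b₈]

theorem E33_c₄ : E33.c₄ = 313 := by norm_num [E33, WeierstrassCurve.c₄, b₂, b₄]
theorem E37a_c₄ : E37a.c₄ = 48 := by norm_num [E37a, WeierstrassCurve.c₄, b₂, b₄]
theorem E37b_c₄ : E37b.c₄ = 160 := by norm_num [E37b, WeierstrassCurve.c₄, b₂, b₄]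
theorem E42_c₄ : E42.c₄ = 193 := by norm_num [E42, WeierstrassCurve.c₄, b₂, b₄]
theorem E43_c₄ : E43.c₄ = 16 := by norm_num [E43, WeierstrassCurve.c₄, b₂, b₄]
theorem E46_c₄ : E46.c₄ = 489 := by norm_num [E46, WeierstrassCurve.c₄, b₂, b₄]
theorem E57a_c₄ : E57a.c₄ = 112 := by norm_num [E57a, WeierstrassCurve.c₄, b₂, b₄]
theorem E57b_c₄ : E57b.c₄ = 73 := by norm_num [E57b, WeierstrassCurve.c₄, b₂, b₄]
theorem E57c_c₄ : E57c.c₄ = -944 := by norm_num [E57c, WeierstrassCurve.c₄, b₂, b₄]
theorem E58a_c₄ : E58a.c₄ = 57 := by norm_num [E58a, WeierstrassCurve.c₄, b₂, b₄]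
theorem E58b_c₄ : E58b.c₄ = -239 := by norm_num [E58b, WeierstrassCurve.c₄, b₂, b₄]
theorem E66a_c₄ : E66a.c₄ = 265 := by norm_num [E66a, WeierstrassCurve.c₄, b₂, b₄]
theorem E66b_c₄ : E66b.c₄ = 97 := by norm_num [E66b, WeierstrassCurve.c₄, b₂, b₄]
theorem E66c_c₄ : E66c.c₄ = 2161 := by norm_num [E66c, WeierstrassCurve.c₄, b₂, b₄]
theorem E70_c₄ : E70.c₄ = -111 := by norm_num [E70, WeierstrassCurve.c₄, b₂, b₄]
theorem E78_c₄ : E78.c₄ = 937 := by norm_num [E78, WeierstrassCurve.c₄, b₂, b₄]

theorem E33_semistable : E33.IsSemistableModel :=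
  isSemistableModel_of_gcd (by rw [E33_Δ, E33_c₄]; decide)
theorem E37a_semistable : E37a.IsSemistableModel :=
  isSemistableModel_of_gcd (by rw [E37a_Δ, E37a_c₄]; decide)
theorem E37b_semistable : E37b.IsSemistableModel :=
  isSemistableModel_of_gcd (by rw [E37b_Δ, E37b_c₄]; decide)
theorem E42_semistable : E42.IsSemistableModel :=
  isSemistableModel_of_gcd (by rw [E42_Δ, E42_c₄]; decide)
theorem E43_semistable : E43.IsSemistableModel :=
  isSemistableModel_of_gcd (by rw [E43_Δ, E43_c₄]; decide)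
theorem E46_semistable : E46.IsSemistableModel :=
  isSemistableModel_of_gcd (by rw [E46_Δ, E46_c₄]; decide)
theorem E57a_semistable : E57a.IsSemistableModel :=
  isSemistableModel_of_gcd (by rw [E57a_Δ, E57a_c₄]; decide)
theorem E57b_semistable : E57b.IsSemistableModel :=
  isSemistableModel_of_gcd (by rw [E57b_Δ, E57b_c₄]; decide)
theorem E57c_semistable : E57c.IsSemistableModel :=
  isSemistableModel_of_gcd (by rw [E57c_Δ, E57c_c₄]; decide)
theorem E58a_semistable : E58a.IsSemistableModel :=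
  isSemistableModel_of_gcd (by rw [E58a_Δ, E58a_c₄]; decide)
theorem E58b_semistable : E58b.IsSemistableModel :=
  isSemistableModel_of_gcd (by rw [E58b_Δ, E58b_c₄]; decide)
theorem E66a_semistable : E66a.IsSemistableModel :=
  isSemistableModel_of_gcd (by rw [E66a_Δ, E66a_c₄]; decide)
theorem E66b_semistable : E66b.IsSemistableModel :=
  isSemistableModel_of_gcd (by rw [E66b_Δ, E66b_c₄]; decide)
theorem E66c_semistable : E66c.IsSemistableModel :=
  isSemistableModel_of_gcd (by rw [E66c_Δ, E66c_c₄]; decide)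
theorem E70_semistable : E70.IsSemistableModel :=
  isSemistableModel_of_gcd (by rw [E70_Δ, E70_c₄]; decide)
theorem E78_semistable : E78.IsSemistableModel :=
  isSemistableModel_of_gcd (by rw [E78_Δ, E78_c₄]; decide)

theorem conductorLevel_E33 : E33.conductorLevel = 33 :=
  conductorLevel_of_eq E33_Δ (by norm_num) (by decide +kernel)
theorem conductorLevel_E37a : E37a.conductorLevel = 37 :=
  conductorLevel_of_eq E37a_Δ (by norm_num) (by decide +kernel)
theorem conductorLevel_E37b : E37b.conductorLevel = 37 :=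
  conductorLevel_of_eq E37b_Δ (by norm_num) (by decide +kernel)
theorem conductorLevel_E42 : E42.conductorLevel = 42 :=
  conductorLevel_of_eq E42_Δ (by norm_num) (by decide +kernel)
theorem conductorLevel_E43 : E43.conductorLevel = 43 :=
  conductorLevel_of_eq E43_Δ (by norm_num) (by decide +kernel)
theorem conductorLevel_E46 : E46.conductorLevel = 46 :=
  conductorLevel_of_eq E46_Δ (by norm_num) (by decide +kernel)
theorem conductorLevel_E57a : E57a.conductorLevel = 57 :=
  conductorLevel_of_eq E57a_Δ (by norm_num) (by decide +kernel)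
theorem conductorLevel_E57b : E57b.conductorLevel = 57 :=
  conductorLevel_of_eq E57b_Δ (by norm_num) (by decide +kernel)
theorem conductorLevel_E57c : E57c.conductorLevel = 57 :=
  conductorLevel_of_eq E57c_Δ (by norm_num) (by decide +kernel)
theorem conductorLevel_E58a : E58a.conductorLevel = 58 :=
  conductorLevel_of_eq E58a_Δ (by norm_num) (by decide +kernel)
theorem conductorLevel_E58b : E58b.conductorLevel = 58 :=
  conductorLevel_of_eq E58b_Δ (by norm_num) (by decide +kernel)
theorem conductorLevel_E66a : E66a.conductorLevel = 66 :=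
  conductorLevel_of_eq E66a_Δ (by norm_num) (by decide +kernel)
theorem conductorLevel_E66b : E66b.conductorLevel = 66 :=
  conductorLevel_of_eq E66b_Δ (by norm_num) (by decide +kernel)
theorem conductorLevel_E66c : E66c.conductorLevel = 66 :=
  conductorLevel_of_eq E66c_Δ (by norm_num) (by decide +kernel)
theorem conductorLevel_E70 : E70.conductorLevel = 70 :=
  conductorLevel_of_eq E70_Δ (by norm_num) (by decide +kernel)
theorem conductorLevel_E78 : E78.conductorLevel = 78 :=
  conductorLevel_of_eq E78_Δ (by norm_num) (by decide +kernel)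

theorem E37a_a2 : E37a.apOfModel 2 = -2 :=
  apOfModel_of_cnt (by norm_num) E37a_Δ (by norm_num) (by decide)
theorem E37b_a2 : E37b.apOfModel 2 = 0 :=
  apOfModel_of_cnt (by norm_num) E37b_Δ (by norm_num) (by decide)
theorem E43_a2 : E43.apOfModel 2 = -2 :=
  apOfModel_of_cnt (by norm_num) E43_Δ (by norm_num) (by decide)
theorem E57a_a5 : E57a.apOfModel 5 = -3 :=
  apOfModel_of_cnt (by norm_num) E57a_Δ (by norm_num) (by decide)
theorem E57b_a5 : E57b.apOfModel 5 = -2 :=
  apOfModel_of_cnt (by norm_num) E57b_Δ (by norm_num) (by decide)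
theorem E57c_a5 : E57c.apOfModel 5 = 1 :=
  apOfModel_of_cnt (by norm_num) E57c_Δ (by norm_num) (by decide)
theorem E58a_a3 : E58a.apOfModel 3 = -3 :=
  apOfModel_of_cnt (by norm_num) E58a_Δ (by norm_num) (by decide)
theorem E58b_a3 : E58b.apOfModel 3 = -1 :=
  apOfModel_of_cnt (by norm_num) E58b_Δ (by norm_num) (by decide)
theorem E66a_a5 : E66a.apOfModel 5 = 0 :=
  apOfModel_of_cnt (by norm_num) E66a_Δ (by norm_num) (by decide)
theorem E66b_a5 : E66b.apOfModel 5 = 2 :=
  apOfModel_of_cnt (by norm_num) E66b_Δ (by norm_num) (by decide)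
theorem E66c_a5 : E66c.apOfModel 5 = -4 :=
  apOfModel_of_cnt (by norm_num) E66c_Δ (by norm_num) (by decide)

/-- one newform -/
theorem of_one {N : ℕ} [NeZero N] (hk : NewformCount.newformCount N = 1) {E : WeierstrassCurve ℤ}
    {D : ℤ} (hD : E.Δ = D) (h0 : D ≠ 0) (hs : E.IsSemistableModel) (hc : E.conductorLevel = N)
    {W : WeierstrassCurve ℤ} (hΔ : W.Δ ≠ 0) (hW : W.IsSemistableModel)
    (hN : W.conductorLevel = N) : SameTraces W E := by
  obtain ⟨i, h⟩ := exists_of_card hk (fun _ : Fin 1 => E)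
    (fun _ => ⟨by rw [hD]; exact h0, hs, hc⟩) (fun i j hij => absurd (Subsingleton.elim i j) hij)
    W hΔ hW hN
  exact h

/-- two newforms -/
theorem of_two {N : ℕ} [NeZero N] (hk : NewformCount.newformCount N = 2)
    {E E' : WeierstrassCurve ℤ} {D D' : ℤ} (hD : E.Δ = D) (h0 : D ≠ 0) (hs : E.IsSemistableModel)
    (hc : E.conductorLevel = N) (hD' : E'.Δ = D') (h0' : D' ≠ 0) (hs' : E'.IsSemistableModel)
    (hc' : E'.conductorLevel = N) {ℓ : ℕ} (hℓ : ℓ.Prime) (hℓN : ¬ ℓ ∣ N)
    (hne : E.apOfModel ℓ ≠ E'.apOfModel ℓ)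
    {W : WeierstrassCurve ℤ} (hΔ : W.Δ ≠ 0) (hW : W.IsSemistableModel)
    (hN : W.conductorLevel = N) : SameTraces W E ∨ SameTraces W E' := by
  obtain ⟨i, h⟩ := exists_of_card hk ![E, E'] (fun i => by
    fin_cases i
    · exact ⟨by change E.Δ ≠ 0; rw [hD]; exact h0, hs, hc⟩
    · exact ⟨by change E'.Δ ≠ 0; rw [hD']; exact h0', hs', hc'⟩) (fun i j hij => by
    refine ⟨ℓ, hℓ, hℓN, ?_⟩
    fin_cases i <;> fin_cases j
    · exact absurd rfl hij
    · exact hne
    · exact hne.symm
    · exact absurd rfl hij) W hΔ hW hN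
  fin_cases i
  · exact Or.inl h
  · exact Or.inr h

/-- three newforms -/
theorem of_three {N : ℕ} [NeZero N] (hk : NewformCount.newformCount N = 3)
    {E E' E'' : WeierstrassCurve ℤ} {D D' D'' : ℤ} (hD : E.Δ = D) (h0 : D ≠ 0)
    (hs : E.IsSemistableModel) (hc : E.conductorLevel = N) (hD' : E'.Δ = D') (h0' : D' ≠ 0)
    (hs' : E'.IsSemistableModel) (hc' : E'.conductorLevel = N) (hD'' : E''.Δ = D'')
    (h0'' : D'' ≠ 0) (hs'' : E''.IsSemistableModel) (hc'' : E''.conductorLevel = N) {ℓ : ℕ}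
    (hℓ : ℓ.Prime) (hℓN : ¬ ℓ ∣ N) (hne : E.apOfModel ℓ ≠ E'.apOfModel ℓ)
    (hne' : E.apOfModel ℓ ≠ E''.apOfModel ℓ) (hne'' : E'.apOfModel ℓ ≠ E''.apOfModel ℓ)
    {W : WeierstrassCurve ℤ} (hΔ : W.Δ ≠ 0) (hW : W.IsSemistableModel)
    (hN : W.conductorLevel = N) : SameTraces W E ∨ SameTraces W E' ∨ SameTraces W E'' := by
  obtain ⟨i, h⟩ := exists_of_card hk ![E, E', E''] (fun i => by
    fin_cases i
    · exact ⟨by change E.Δ ≠ 0; rw [hD]; exact h0, hs, hc⟩
    · exact ⟨by change E'.Δ ≠ 0; rw [hD']; exact h0', hs', hc'⟩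
    · exact ⟨by change E''.Δ ≠ 0; rw [hD'']; exact h0'', hs'', hc''⟩) (fun i j hij => by
    refine ⟨ℓ, hℓ, hℓN, ?_⟩
    fin_cases i <;> fin_cases j
    · exact absurd rfl hij
    · exact hne
    · exact hne'
    · exact hne.symm
    · exact absurd rfl hij
    · exact hne''
    · exact hne'.symm
    · exact hne''.symm
    · exact absurd rfl hij) W hΔ hW hN
  fin_cases i
  · exact Or.inl h
  · exact Or.inr (Or.inl h)
  · exact Or.inr (Or.inr h)

theorem count_of {N k : ℕ} [NeZero N] (h : NewformCount.nu12 N = 12 * k) :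
    NewformCount.newformCount N = k := NewformCount.newformCount_eq_of h

section Table

variable {W : WeierstrassCurve ℤ} (hΔ : W.Δ ≠ 0) (hW : W.IsSemistableModel)

include hΔ hW

theorem conductor_11 (h : W.conductorLevel = 11) : SameTraces W E11 :=
  of_one (count_of (by decide +kernel)) E11_Δ (by norm_num) E11_semistable conductorLevel_E11
    hΔ hW h

theorem conductor_14 (h : W.conductorLevel = 14) : SameTraces W E14 :=
  of_one (count_of (by decide +kernel)) E14_Δ (by norm_num) E14_semistable conductorLevel_E14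
    hΔ hW h

theorem conductor_15 (h : W.conductorLevel = 15) : SameTraces W E15 :=
  of_one (count_of (by decide +kernel)) E15_Δ (by norm_num) E15_semistable conductorLevel_E15
    hΔ hW h

theorem conductor_17 (h : W.conductorLevel = 17) : SameTraces W E17 :=
  of_one (count_of (by decide +kernel)) E17_Δ (by norm_num) E17_semistable conductorLevel_E17
    hΔ hW h

theorem conductor_19 (h : W.conductorLevel = 19) : SameTraces W E19 :=
  of_one (count_of (by decide +kernel)) E19_Δ (by norm_num) E19_semistable conductorLevel_E19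
    hΔ hW h

theorem conductor_21 (h : W.conductorLevel = 21) : SameTraces W E21 :=
  of_one (count_of (by decide +kernel)) E21_Δ (by norm_num) E21_semistable conductorLevel_E21
    hΔ hW h

theorem conductor_30 (h : W.conductorLevel = 30) : SameTraces W E30 :=
  of_one (count_of (by decide +kernel)) E30_Δ (by norm_num) E30_semistable conductorLevel_E30
    hΔ hW h

theorem conductor_33 (h : W.conductorLevel = 33) : SameTraces W E33 :=
  of_one (count_of (by decide +kernel)) E33_Δ (by norm_num) E33_semistable conductorLevel_E33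
    hΔ hW h

theorem conductor_34 (h : W.conductorLevel = 34) : SameTraces W E34 :=
  of_one (count_of (by decide +kernel)) E34_Δ (by norm_num) E34_semistable conductorLevel_E34
    hΔ hW h

theorem conductor_42 (h : W.conductorLevel = 42) : SameTraces W E42 :=
  of_one (count_of (by decide +kernel)) E42_Δ (by norm_num) E42_semistable conductorLevel_E42
    hΔ hW h

theorem conductor_46 (h : W.conductorLevel = 46) : SameTraces W E46 :=
  of_one (count_of (by decide +kernel)) E46_Δ (by norm_num) E46_semistable conductorLevel_E46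
    hΔ hW h

theorem conductor_70 (h : W.conductorLevel = 70) : SameTraces W E70 :=
  of_one (count_of (by decide +kernel)) E70_Δ (by norm_num) E70_semistable conductorLevel_E70
    hΔ hW h

theorem conductor_78 (h : W.conductorLevel = 78) : SameTraces W E78 :=
  of_one (count_of (by decide +kernel)) E78_Δ (by norm_num) E78_semistable conductorLevel_E78
    hΔ hW h

theorem conductor_26 (h : W.conductorLevel = 26) : SameTraces W E26a ∨ SameTraces W E26b :=
  of_two (count_of (by decide +kernel)) E26a_Δ (by norm_num) E26a_semistable conductorLevel_E26a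
    E26b_Δ (by norm_num) E26b_semistable conductorLevel_E26b (ℓ := 3) (by norm_num)
    (by norm_num) (by rw [E26a_a3, E26b_a3]; norm_num) hΔ hW h

theorem conductor_37 (h : W.conductorLevel = 37) : SameTraces W E37a ∨ SameTraces W E37b :=
  of_two (count_of (by decide +kernel)) E37a_Δ (by norm_num) E37a_semistable conductorLevel_E37a
    E37b_Δ (by norm_num) E37b_semistable conductorLevel_E37b (ℓ := 2) (by norm_num)
    (by norm_num) (by rw [E37a_a2, E37b_a2]; norm_num) hΔ hW h

theorem conductor_38 (h : W.conductorLevel = 38) : SameTraces W E38a ∨ SameTraces W E38b :=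
  of_two (count_of (by decide +kernel)) E38a_Δ (by norm_num) E38a_semistable conductorLevel_E38a
    E38b_Δ (by norm_num) E38b_semistable conductorLevel_E38b (ℓ := 3) (by norm_num)
    (by norm_num) (by rw [E38a_a3, E38b_a3]; norm_num) hΔ hW h

theorem conductor_58 (h : W.conductorLevel = 58) : SameTraces W E58a ∨ SameTraces W E58b :=
  of_two (count_of (by decide +kernel)) E58a_Δ (by norm_num) E58a_semistable conductorLevel_E58a
    E58b_Δ (by norm_num) E58b_semistable conductorLevel_E58b (ℓ := 3) (by norm_num)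
    (by norm_num) (by rw [E58a_a3, E58b_a3]; norm_num) hΔ hW h

theorem conductor_57 (h : W.conductorLevel = 57) :
    SameTraces W E57a ∨ SameTraces W E57b ∨ SameTraces W E57c :=
  of_three (count_of (by decide +kernel)) E57a_Δ (by norm_num) E57a_semistable conductorLevel_E57a
    E57b_Δ (by norm_num) E57b_semistable conductorLevel_E57b E57c_Δ (by norm_num) E57c_semistable
    conductorLevel_E57c (ℓ := 5) (by norm_num) (by norm_num) (by rw [E57a_a5, E57b_a5]; norm_num)
    (by rw [E57a_a5, E57c_a5]; norm_num) (by rw [E57b_a5, E57c_a5]; norm_num) hΔ hW h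

theorem conductor_66 (h : W.conductorLevel = 66) :
    SameTraces W E66a ∨ SameTraces W E66b ∨ SameTraces W E66c :=
  of_three (count_of (by decide +kernel)) E66a_Δ (by norm_num) E66a_semistable conductorLevel_E66a
    E66b_Δ (by norm_num) E66b_semistable conductorLevel_E66b E66c_Δ (by norm_num) E66c_semistable
    conductorLevel_E66c (ℓ := 5) (by norm_num) (by norm_num) (by rw [E66a_a5, E66b_a5]; norm_num)
    (by rw [E66a_a5, E66c_a5]; norm_num) (by rw [E66b_a5, E66c_a5]; norm_num) hΔ hW h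

end Table

/-! ### Conductor 43 -/

theorem genus_fortythree : genusFormula 43 = 3 :=
  genus_eq (a := 44) (b := 0) (c := 2) (d := 2) (by decide +kernel) (by decide +kernel)
    (by decide +kernel) (by decide +kernel) (by norm_num)

theorem numerator_fortythree : eisensteinNumerator 43 = 7 := by decide

/-- if the normalised eigenforms are a basis, the characteristic polynomial of `T_ℓ` is `∏ (X - a_ℓ(g))` -/
theorem charpoly_eq_prod {N : ℕ} [NeZero N] {ι : Type} [Fintype ι] [DecidableEq ι]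
    {g : ι → CuspForm (Gamma0 N) 2} (hg : ∀ i, (g i).IsNormalizedEigenform)
    (hinj : Function.Injective g) (hcard : (Fintype.card ι : ℚ) = genusFormula N) {ℓ : ℕ}
    (hℓ : ℓ.Prime) (hℓN : ¬ ℓ ∣ N) : (CuspForm.heckeTLin (N := N) 2 hℓ hℓN).charpoly =
      ∏ i, (Polynomial.X - Polynomial.C (qCoeff (g i) ℓ)) := by
  have hr : Module.finrank ℂ (CuspForm (Gamma0 N) 2) = Fintype.card ι := by
    have := (Fermat.Agent.S20.result N).trans hcard.symm
    exact_mod_cast this
  have hfd : FiniteDimensional ℂ (CuspForm (Gamma0 N) 2) :=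
    Fermat.Agent.H22.finiteDimensional_cuspForm N 2
  have hli : LinearIndependent ℂ g :=
    (H14.linearIndependent_eigenforms N).comp
      (fun i => (⟨g i, hg i⟩ : {f : CuspForm (Gamma0 N) 2 // f.IsNormalizedEigenform}))
      (fun i j h => hinj (congrArg Subtype.val h))
  have hsp := hli.span_eq_top_of_card_eq_finrank' hr.symm
  let b := Module.Basis.mk hli hsp.ge
  have hb : ∀ i, b i = g i := fun i => Module.Basis.mk_apply _ _ _
  rw [← LinearMap.charpoly_toMatrix _ b, ← Matrix.charpoly_diagonal]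
  congr 1
  ext i j
  rw [LinearMap.toMatrix_apply, hb, H23.heckeTLin_eigen (hg j) hℓ hℓN, map_smul, ← hb,
    Module.Basis.repr_self, Finsupp.smul_apply, Matrix.diagonal_apply, Finsupp.single_apply]
  by_cases h : i = j
  · subst h
    simp [hb]
  · rw [if_neg (fun h' => h h'.symm), if_neg h, smul_zero]

/-- **Conductor `43`** -/
theorem conductor_43 {W : WeierstrassCurve ℤ} (hΔ : W.Δ ≠ 0) (hW : W.IsSemistableModel)
    (h : W.conductorLevel = 43) : SameTraces W E43 := by
  classical
  have hp : Fact (Nat.Prime 43) := ⟨by norm_num⟩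
  have h2 : Nat.Prime 2 := by norm_num
  have h2N : ¬ 2 ∣ 43 := by norm_num
  have key : ∀ W : WeierstrassCurve ℤ, W.Δ ≠ 0 → W.IsSemistableModel → W.conductorLevel = 43 →
      ∃ g : {g : CuspForm (Gamma0 43) 2 // g.IsNewform}, ∀ ℓ : ℕ, ℓ.Prime → ¬ ℓ ∣ 43 →
        qCoeff g.1 ℓ = (W.apOfModel ℓ : ℂ) := by
    intro W hΔ hW hN
    have h1 := exists_newform W hΔ hW
    rw [hN] at h1
    obtain ⟨g, hg, h2⟩ := h1
    exact ⟨⟨g, hg⟩, h2⟩
  obtain ⟨g, hg⟩ := key W hΔ hW h
  obtain ⟨e, he⟩ := key E43 (by rw [E43_Δ]; norm_num) E43_semistable conductorLevel_E43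
  suffices hge : g = e by
    refine ⟨by rw [h, conductorLevel_E43], fun ℓ hℓ hℓN => ?_⟩
    rw [h] at hℓN
    have h1 := hg ℓ hℓ hℓN
    rw [hge, he ℓ hℓ hℓN] at h1
    exact_mod_cast h1.symm
  by_contra hne
  have hfin := NewformCount.finite_newforms 43
  have hfin' : Fintype {g : CuspForm (Gamma0 43) 2 // g.IsNewform} := Fintype.ofFinite _
  have hk : NewformCount.newformCount 43 = 3 := count_of (by decide +kernel)
  have hcard : Fintype.card {g : CuspForm (Gamma0 43) 2 // g.IsNewform} = 3 := by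
    rw [← hk, NewformCount.newformCount, Nat.card_eq_fintype_card]
  have hP := charpoly_eq_prod (N := 43) (g := fun x : {g : CuspForm (Gamma0 43) 2 // g.IsNewform} =>
    x.1) (fun x => x.2.1) Subtype.val_injective (by rw [hcard, genus_fortythree]; norm_num) h2 h2N
  -- the third newform
  obtain ⟨f, hf⟩ : ∃ f, (Finset.univ.erase g).erase e = {f} := by
    rw [← Finset.card_eq_one, Finset.card_erase_of_mem (Finset.mem_erase.mpr
      ⟨fun h' => hne h'.symm, Finset.mem_univ _⟩), Finset.card_erase_of_mem (Finset.mem_univ _),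
      Finset.card_univ, hcard]
  have hprod : ∀ F : {g : CuspForm (Gamma0 43) 2 // g.IsNewform} → ℂ,
      ∏ x, F x = F g * (F e * F f) := by
    intro F
    rw [← Finset.mul_prod_erase Finset.univ F (Finset.mem_univ g),
      ← Finset.mul_prod_erase _ F (Finset.mem_erase.mpr ⟨fun h' => hne h'.symm,
        Finset.mem_univ e⟩), hf, Finset.prod_singleton]
  have ha := hg 2 h2 h2N
  have hb := he 2 h2 h2N
  rw [E43_a2] at hb
  have hev : ((((TL (N := 43) h2 h2N).charpoly).eval 3 : ℤ) : ℂ) =
      (3 - (W.apOfModel 2 : ℂ)) * (5 * (3 - qCoeff f.1 2)) := by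
    have h1 := congrArg (Polynomial.eval (3 : ℂ)) hP
    rw [LatticeBasis.charpoly_eq 43 (TL_coe h2 h2N), Polynomial.eval_prod, hprod] at h1
    simp only [Polynomial.eval_sub, Polynomial.eval_X, Polynomial.eval_C] at h1
    rw [ha, hb] at h1
    have h3 : Polynomial.eval (3 : ℂ) (Polynomial.map (Int.castRingHom ℂ)
        (TL (N := 43) h2 h2N).charpoly) = (((TL (N := 43) h2 h2N).charpoly.eval 3 : ℤ) : ℂ) := by
      have h4 := Polynomial.eval_map (Int.castRingHom ℂ) (p := (TL (N := 43) h2 h2N).charpoly) 3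
      have h5 := Polynomial.eval₂_hom (Int.castRingHom ℂ) (p := (TL (N := 43) h2 h2N).charpoly) 3
      rw [eq_intCast, eq_intCast] at h5
      rw [h4, ← h5]
      norm_num
    rw [← h3, h1]
    push_cast
    ring
  have hdvd := eisenstein_dvd (N := 43) (by rw [numerator_fortythree]; norm_num) h2 h2N
  rw [numerator_fortythree] at hdvd
  norm_num at hdvd
  -- bounds
  have ha3 : |W.apOfModel 2| < 3 := by
    have h1 := H19.norm_qCoeff_lt g.2.1 h2 h2N
    rw [ha, Complex.norm_intCast] at h1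
    have : (|W.apOfModel 2| : ℝ) < 3 := by norm_num at h1 ⊢; exact h1
    exact_mod_cast this
  -- the third eigenvalue is an integer
  obtain ⟨z, hz⟩ : ∃ z : ℤ, qCoeff f.1 2 = z := by
    have h3a : (3 - (W.apOfModel 2 : ℚ)) ≠ 0 := by
      intro h0
      have h1 : (W.apOfModel 2 : ℚ) = 3 := by linarith
      have h1' : W.apOfModel 2 = 3 := by exact_mod_cast h1
      rw [h1'] at ha3
      norm_num at ha3
    have h1 : qCoeff f.1 2 = ((3 - (((TL (N := 43) h2 h2N).charpoly).eval 3 : ℤ) /
        ((3 - (W.apOfModel 2 : ℚ)) * 5) : ℚ) : ℂ) := by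
      have h3a' : (3 - (W.apOfModel 2 : ℂ)) ≠ 0 := by exact_mod_cast h3a
      push_cast
      rw [hev]
      field_simp
      ring
    set q : ℚ := 3 - (((TL (N := 43) h2 h2N).charpoly).eval 3 : ℤ) /
        ((3 - (W.apOfModel 2 : ℚ)) * 5) with hq
    have h4 : IsIntegral ℤ q := by
      have := Shimura.isIntegral_qCoeff f.2.1 2
      rw [h1] at this
      have h5 : ((q : ℚ) : ℂ) = algebraMap ℚ ℂ q := by simp
      rw [h5] at this
      exact (isIntegral_algebraMap_iff (algebraMap ℚ ℂ).injective).mp this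
    obtain ⟨z, hz⟩ := IsIntegrallyClosed.isIntegral_iff.mp h4
    refine ⟨z, ?_⟩
    rw [h1, ← hz]
    simp
  have hz3 : |z| < 3 := by
    have h1 := H19.norm_qCoeff_lt f.2.1 h2 h2N
    rw [hz, Complex.norm_intCast] at h1
    have : (|z| : ℝ) < 3 := by norm_num at h1 ⊢; exact h1
    exact_mod_cast this
  rw [hz] at hev
  have hev' : (TL (N := 43) h2 h2N).charpoly.eval 3 = (3 - W.apOfModel 2) * (5 * (3 - z)) := by
    exact_mod_cast hev
  rw [hev'] at hdvd
  generalize W.apOfModel 2 = a at ha3 hdvd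
  rw [abs_lt] at ha3 hz3
  obtain ⟨k1, k2⟩ := ha3
  obtain ⟨k3, k4⟩ := hz3
  interval_cases a <;> interval_cases z <;> revert hdvd <;> decide

/-! ### All conductors up to 30 -/

/-- **Semistable elliptic curves of conductor at most `30`**: there are nine systems of traces of Frobenius. -/
theorem conductor_le_thirty {W : WeierstrassCurve ℤ} (hΔ : W.Δ ≠ 0) (hW : W.IsSemistableModel)
    (h : W.conductorLevel ≤ 30) : SameTraces W E11 ∨ SameTraces W E14 ∨ SameTraces W E15 ∨
      SameTraces W E17 ∨ SameTraces W E19 ∨ SameTraces W E21 ∨ SameTraces W E26a ∨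
      SameTraces W E26b ∨ SameTraces W E30 := by
  have h1 := (exists_conductorLevel_iff (N := W.conductorLevel) (by omega)).mp
    ⟨W, hΔ, hW, rfl⟩
  simp only [Finset.mem_insert, Finset.mem_singleton] at h1
  rcases h1 with h1 | h1 | h1 | h1 | h1 | h1 | h1 | h1
  · exact Or.inl (conductor_11 hΔ hW h1)
  · exact Or.inr (Or.inl (conductor_14 hΔ hW h1))
  · exact Or.inr (Or.inr (Or.inl (conductor_15 hΔ hW h1)))
  · exact Or.inr (Or.inr (Or.inr (Or.inl (conductor_17 hΔ hW h1))))
  · exact Or.inr (Or.inr (Or.inr (Or.inr (Or.inl (conductor_19 hΔ hW h1)))))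
  · exact Or.inr (Or.inr (Or.inr (Or.inr (Or.inr (Or.inl (conductor_21 hΔ hW h1))))))
  · rcases conductor_26 hΔ hW h1 with h2 | h2
    · exact Or.inr (Or.inr (Or.inr (Or.inr (Or.inr (Or.inr (Or.inl h2))))))
    · exact Or.inr (Or.inr (Or.inr (Or.inr (Or.inr (Or.inr (Or.inr (Or.inl h2)))))))
  · exact Or.inr (Or.inr (Or.inr (Or.inr (Or.inr (Or.inr (Or.inr (Or.inr
      (conductor_30 hΔ hW h1))))))))

end Fermat.Agent.Cor.SemistableTable
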