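import Fermat.Agent.Cor.HeckeSpec
import Fermat.Agent.Cor.SemistableTable

/-!
# The Hecke algebra when the genus of `X₀(N)` is one

* `finrank_eq`: the Hecke algebra of weight two and level `N` (generated by all `T_ℓ` and `U_ℓ`) has rank the genus of
  `X₀(N)` over `ℤ`;
* `bijective_of_genus_one`: if the genus of `X₀(N)` is `1`, it is equal to `ℤ`;
* `coeff_int_of_genus_one`: then the coefficients of the normalised eigenform of level `N` are integers;
* `bijective_of_mem`: this applies to `N = 11, 14, 15, 17, 19, 21`.

This file is not used by any of the statement files.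
-/

set_option autoImplicit false

noncomputable section

namespace Fermat.Agent.Cor.GenusOneHecke

open ModularCurve ModularFormClass CongruenceSubgroup Shimura

/-- a commutative ring which is free of rank one over `ℤ` is `ℤ` -/
theorem bijective_of_finrank {A : Type*} [CommRing A] [Module.Free ℤ A] [Module.Finite ℤ A]
    (h : Module.finrank ℤ A = 1) : Function.Bijective (Int.castRingHom A) := by
  let b : Module.Basis Unit ℤ A := Module.basisUnique Unit h
  have hb : ∀ t : A, t = (b.repr t ()) • b () := fun t => by
    have h1 := b.sum_repr t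
    simpa using h1.symm
  have hb0 : ∀ c : ℤ, c • b () = 0 → c = 0 := fun c hc => by
    have h1 : (b.repr (c • b ())) () = 0 := by
      rw [hc]
      simp
    have h2 : b.repr (c • b ()) = c • b.repr (b ()) := map_smul b.repr c (b ())
    rw [h2, Finsupp.smul_apply, Module.Basis.repr_self, Finsupp.single_eq_same, smul_eq_mul,
      mul_one] at h1
    exact h1
  have h1 := hb 1
  have h2 := hb (b () * b ())
  have h3 : (1 - b.repr 1 () * b.repr (b () * b ()) ()) • b () = 0 := by
    have h4 : b () = (b.repr 1 () * b.repr (b () * b ()) ()) • b () := by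
      calc b () = 1 * b () := (one_mul _).symm
        _ = (b.repr 1 () • b ()) * b () := by rw [← h1]
        _ = b.repr 1 () • (b () * b ()) := smul_mul_assoc _ _ _
        _ = b.repr 1 () • (b.repr (b () * b ()) () • b ()) := by rw [← h2]
        _ = _ := smul_smul _ _ _
    rw [sub_smul, one_smul, ← h4, sub_self]
  have h5 : b.repr 1 () * b.repr (b () * b ()) () = 1 := by
    have := hb0 _ h3
    omega
  have h6 : b.repr 1 () * b.repr 1 () = 1 := by
    rcases Int.isUnit_iff.mp (IsUnit.of_mul_eq_one _ h5) with h | h <;> rw [h] <;> norm_num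
  constructor
  · rw [injective_iff_map_eq_zero]
    intro n hn
    apply hb0
    have h7 : (n : A) * b () = 0 := by
      rw [show (n : A) = 0 from hn, zero_mul]
    rwa [← zsmul_eq_mul] at h7
  · intro t
    refine ⟨b.repr t () * b.repr 1 (), ?_⟩
    calc Int.castRingHom A (b.repr t () * b.repr 1 ()) =
        (b.repr t () * b.repr 1 ()) • (1 : A) := by rw [zsmul_eq_mul, mul_one, eq_intCast]
      _ = (b.repr t () * b.repr 1 ()) • (b.repr 1 () • b ()) := by rw [← h1]
      _ = (b.repr t () * (b.repr 1 () * b.repr 1 ())) • b () := by rw [smul_smul, mul_assoc]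
      _ = b.repr t () • b () := by rw [h6, mul_one]
      _ = t := (hb t).symm

section Hecke

variable (N : ℕ) [NeZero N]

/-- **The rank of the Hecke algebra is the genus of `X₀(N)`.** -/
theorem finrank_eq : (Module.finrank ℤ (CuspForm.heckeAlgebra N 2 ∅) : ℚ) = genusFormula N := by
  rw [← Duality.finrank_hecke N]
  let e : CuspForm.heckeAlgebra N 2 ∅ ≃+* CuspForm.heckeLatticeAlgebra N ∅ :=
    RingEquiv.ofBijective (CuspForm.latticeRestrictHom N ∅)
      (CuspForm.latticeRestrictHom_bijective N ∅ (S23.result N))
  congr 1
  exact LinearEquiv.finrank_eq e.toAddEquiv.toIntLinearEquiv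

/-- **If the genus of `X₀(N)` is one, the Hecke algebra is `ℤ`.** -/
theorem bijective_of_genus_one (h : genusFormula N = 1) :
    Function.Bijective (Int.castRingHom (CuspForm.heckeAlgebra N 2 ∅)) := by
  refine bijective_of_finrank ?_
  have h1 := finrank_eq N
  rw [h] at h1
  exact_mod_cast h1

variable {N}

/-- the coefficients of the eigenform are integers -/
theorem coeff_int_of_genus_one (h : genusFormula N = 1) {f : CuspForm (Gamma0 N) 2}
    (hf : f.IsNormalizedEigenform) (n : ℕ) : ∃ a : ℤ, qCoeff f n = a := by
  have h3 := qCoeff_mem_of_primes hf (Int.castRingHom ℂ).range (fun q hq => ?_) n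
  · obtain ⟨a, ha⟩ := h3
    exact ⟨a, ha.symm⟩
  · have h1 := eigenCharC_gen hf hq
    rw [H22.charEigenvalue, dif_pos hq] at h1
    obtain ⟨a, ha⟩ := (bijective_of_genus_one N h).2 (CuspForm.heckeFormsGen N 2 ⟨q, hq⟩)
    refine ⟨a, ?_⟩
    rw [← h1, ← ha]
    simp

end Hecke

/-- the Hecke algebras of level `11`, `14`, `15`, `17`, `19`, `21` are equal to `ℤ` -/
theorem bijective_of_mem {N : ℕ} [NeZero N] (hN : N ∈ ({11, 14, 15, 17, 19, 21} : Finset ℕ)) :
    Function.Bijective (Int.castRingHom (CuspForm.heckeAlgebra N 2 ∅)) := by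
  refine bijective_of_genus_one N ?_
  simp only [Finset.mem_insert, Finset.mem_singleton] at hN
  rcases hN with rfl | rfl | rfl | rfl | rfl | rfl
  · exact GenusOne.genus_eleven
  · exact GenusOne.genus_fourteen
  · exact GenusOne.genus_fifteen
  · exact GenusOne.genus_seventeen
  · exact GenusOne.genus_nineteen
  · exact GenusOne.genus_twentyone

end Fermat.Agent.Cor.GenusOneHecke
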