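import Fermat.Agent.Cor.MordellEq

/-!
# Finitely many integral Weierstrass equations of given discriminant

For every `D ≠ 0` there are only finitely many Weierstrass equations with integral coefficients and
discriminant `D`, up to changes of variables over `ℤ`; in particular there are only finitely many
elliptic curves over `ℚ` of given minimal discriminant.
-/

namespace Fermat.Agent.Cor.Thue

open WeierstrassCurve

/-- Every integral Weierstrass equation is equivalent to a reduced one. -/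
theorem exists_reduced_weierstrass (W : WeierstrassCurve ℤ) : ∃ C : VariableChange ℤ,
    ((C • W).a₁ = 0 ∨ (C • W).a₁ = 1) ∧ ((C • W).a₂ = -1 ∨ (C • W).a₂ = 0 ∨ (C • W).a₂ = 1) ∧
      ((C • W).a₃ = 0 ∨ (C • W).a₃ = 1) ∧ (C • W).Δ = W.Δ := by
  obtain ⟨s, hs⟩ : ∃ s : ℤ, W.a₁ + 2 * s = 0 ∨ W.a₁ + 2 * s = 1 := ⟨-(W.a₁ / 2), by omega⟩
  obtain ⟨v, hv⟩ : ∃ v : ℤ, v = W.a₂ - s * W.a₁ - s ^ 2 := ⟨_, rfl⟩
  obtain ⟨r, hr⟩ : ∃ r : ℤ, v + 3 * r = -1 ∨ v + 3 * r = 0 ∨ v + 3 * r = 1 :=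
    ⟨-((v + 1) / 3), by omega⟩
  obtain ⟨w, hw⟩ : ∃ w : ℤ, w = W.a₃ + r * W.a₁ := ⟨_, rfl⟩
  obtain ⟨t, ht⟩ : ∃ t : ℤ, w + 2 * t = 0 ∨ w + 2 * t = 1 := ⟨-(w / 2), by omega⟩
  refine ⟨⟨1, r, s, t⟩, ?_, ?_, ?_, ?_⟩
  · rw [variableChange_a₁]; simpa using hs
  · rw [variableChange_a₂]
    have : W.a₂ - s * W.a₁ + 3 * r - s ^ 2 = v + 3 * r := by rw [hv]; ring
    simp only [inv_one, Units.val_one, one_pow, one_mul]
    rw [this]; exact hr
  · rw [variableChange_a₃]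
    have : W.a₃ + r * W.a₁ + 2 * t = w + 2 * t := by rw [hw]
    simp only [inv_one, Units.val_one, one_pow, one_mul]
    rw [this]; exact ht
  · rw [variableChange_Δ]; simp

/-- The reduced integral Weierstrass equations of given discriminant `D ≠ 0` are finitely many. -/
theorem finite_reduced_weierstrass {D : ℤ} (hD : D ≠ 0) :
    {W : WeierstrassCurve ℤ | (W.a₁ = 0 ∨ W.a₁ = 1) ∧ (W.a₂ = -1 ∨ W.a₂ = 0 ∨ W.a₂ = 1) ∧
      (W.a₃ = 0 ∨ W.a₃ = 1) ∧ W.Δ = D}.Finite := by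
  have h1 := mordell_equation (k := -1728 * D) (mul_ne_zero (by norm_num) hD)
  have hfin := (Set.finite_Icc (-1 : ℤ) 1).prod ((Set.finite_Icc (-1 : ℤ) 1).prod
    ((Set.finite_Icc (-1 : ℤ) 1).prod h1))
  set φ : WeierstrassCurve ℤ → ℤ × ℤ × ℤ × ℤ × ℤ := fun W ↦ (W.a₁, W.a₂, W.a₃, W.c₄, W.c₆)
    with hφ
  have hinj : Function.Injective φ := by
    intro W W' h
    simp only [hφ, Prod.mk.injEq] at h
    obtain ⟨g1, g2, g3, g4, g5⟩ := h
    have k4 : W.a₄ = W'.a₄ := by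
      simp only [WeierstrassCurve.c₄, WeierstrassCurve.b₂, WeierstrassCurve.b₄] at g4
      rw [g1, g2, g3] at g4
      linarith
    have k6 : W.a₆ = W'.a₆ := by
      simp only [WeierstrassCurve.c₆, WeierstrassCurve.b₂, WeierstrassCurve.b₄,
        WeierstrassCurve.b₆] at g5
      rw [g1, g2, g3, k4] at g5
      linarith
    exact WeierstrassCurve.ext g1 g2 g3 k4 k6
  refine (hfin.preimage (f := φ) hinj.injOn).subset ?_
  rintro W ⟨h2, h3, h4, h5⟩
  refine ⟨?_, ?_, ?_, ?_⟩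
  · show W.a₁ ∈ Set.Icc (-1 : ℤ) 1
    rw [Set.mem_Icc]; omega
  · show W.a₂ ∈ Set.Icc (-1 : ℤ) 1
    rw [Set.mem_Icc]; omega
  · show W.a₃ ∈ Set.Icc (-1 : ℤ) 1
    rw [Set.mem_Icc]; omega
  · show W.c₆ ^ 2 = W.c₄ ^ 3 + -1728 * D
    rw [← h5]
    linear_combination W.c_relation

/-- **Finiteness of the elliptic curves of given discriminant**: for `D ≠ 0` there are only finitely
many integral Weierstrass equations of discriminant `D` up to changes of variables over `ℤ`. -/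
theorem finite_given_discriminant {D : ℤ} (hD : D ≠ 0) :
    ∃ S : Finset (WeierstrassCurve ℤ), (∀ W ∈ S, W.Δ = D) ∧
      ∀ W : WeierstrassCurve ℤ, W.Δ = D → ∃ C : VariableChange ℤ, C • W ∈ S := by
  refine ⟨(finite_reduced_weierstrass hD).toFinset, fun W hW ↦ ?_, fun W hW ↦ ?_⟩
  · rw [Set.Finite.mem_toFinset] at hW
    exact hW.2.2.2
  · obtain ⟨C, h1, h2, h3, h4⟩ := exists_reduced_weierstrass W
    refine ⟨C, ?_⟩
    rw [Set.Finite.mem_toFinset]
    exact ⟨h1, h2, h3, h4.trans hW⟩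

end Fermat.Agent.Cor.Thue
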