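import Fermat.Agent.Cor.Grunwald1

/-!
# The Grunwald–Wang theorem over `ℚ` for odd prime exponent

Let `p` be an odd prime, `T` a finite set of primes, for every `q ∈ T` let `A_q` be a valuation ring of `ℚ̄` over `q` with
decomposition group `D_q ≅ Gal(ℚ̄_q/ℚ_q)` and `χ_q : D_q → ℤ/p` a continuous homomorphism. Then there is a continuous
homomorphism `χ : G_ℚ → ℤ/p` with `χ|D_q = χ_q` for all `q ∈ T` (`grunwald_wang`). In terms of fields: cyclic extensions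
of degree `p` (or `1`) of the fields `ℚ_q`, `q ∈ T`, are the completions of one cyclic extension of `ℚ`.

Proof: Poitou–Tate exactness at `P¹` (`PT.exact_P1`), and the dual fact that a class of `H¹(ℚ, μ_p)` which vanishes at
enough primes outside `T` is zero.

This file is not used by any of the statement files.
-/

set_option autoImplicit false
set_option linter.unusedSectionVars false
set_option linter.style.haveILetI false
set_option maxHeartbeats 400000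

noncomputable section

namespace Fermat.Agent.Cor.Grunwald

open Fermat.Agent.CC Fermat.Agent.CFT.EC
open Fermat.Agent.LF (DK)
open Fermat.Agent.Cor.ShafQ Fermat.Agent.Cor.ProP
open scoped Pointwise

section

variable {p : ℕ} [hp : Fact p.Prime]

/-- **detection**: for every finite `T ∋ p` there is a finite `S ⊇ T` such that a class of `H¹(G_S, μ_p)` which vanishes
at all `q ∈ S`, `q ∉ T` is zero. -/
theorem exists_set (hp2 : p ≠ 2) (T : Finset Nat.Primes) (hpT : pP p ∈ T)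
    (A : Nat.Primes → ValuationSubring Qb) (hA : ∀ q, (A q).LiesOverPrime (q : ℕ)) :
    ∃ S : Finset Nat.Primes, T ⊆ S ∧ ∀ b : H1 (levS S) (Mu p),
      (∀ q ∈ S, q ∉ T → loc1 (cont_D S (A q) ⊥) (Mu p) b = 0) → b = 0 := by
  classical
  haveI : Finite (H1 (levS T) (Mu p)) := PT.finite_H1 hp2 hpT (pr_eT hpT).flip
  haveI : Fintype (H1 (levS T) (Mu p)) := Fintype.ofFinite _
  choose rep hrep using fun x : H1 (levS T) (Mu p) => H1.mk_surjective x
  have key : ∀ x : H1 (levS T) (Mu p), ∃ q : Nat.Primes, x ≠ 0 → (q ∉ T ∧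
      ∀ A : ValuationSubring Qb, A.LiesOverPrime (q : ℕ) →
        ∃ φ ∈ DK A ⊥, φ ∈ cyc p ∧ (rep x).1 φ ≠ 0) := by
    intro x
    by_cases hx : x = 0
    · exact ⟨pP p, fun h => absurd hx h⟩
    · obtain ⟨q, hq⟩ := exists_prime hp2 (rep x) (by rw [hrep]; exact hx)
      exact ⟨q, fun _ => hq⟩
  choose Q hQ using key
  refine ⟨T ∪ Finset.univ.image Q, Finset.subset_union_left, fun b hb => ?_⟩
  obtain ⟨f, rfl⟩ := H1.mk_surjective b
  have hloc : ∀ q ∈ T ∪ Finset.univ.image Q, q ∉ T → ∀ φ ∈ DK (A q) ⊥, φ ∈ cyc p → f.1 φ = 0 := by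
    intro q hq hqT φ hφ hφc
    obtain ⟨t, ht⟩ := H1.mk_eq_zero.mp (hb q hq hqT)
    have h1 : f.1 φ = φ • t - t := ht ⟨φ, hφ⟩
    rw [h1, cyc_smul hφc, sub_self]
  obtain ⟨f', hf'⟩ := descend hpT f A hA hloc
  by_cases hx : H1.mk (levS T) (Mu p) f' = 0
  · obtain ⟨t, ht⟩ := H1.mk_eq_zero.mp hx
    refine H1.mk_eq_zero.mpr ⟨t, fun g => ?_⟩
    rw [← ht g, hf']
  · exfalso
    obtain ⟨hqT, hq⟩ := hQ _ hx
    obtain ⟨φ, hφ, hφc, h0⟩ := hq _ (hA _)
    apply h0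
    have h1 : H1.mk (levS T) (Mu p) (rep (H1.mk (levS T) (Mu p) f') - f') = 0 := by
      rw [map_sub, hrep, sub_self]
    obtain ⟨t, ht⟩ := H1.mk_eq_zero.mp h1
    have h2 : (rep (H1.mk (levS T) (Mu p) f')).1 φ - f'.1 φ = φ • t - t := ht φ
    rw [cyc_smul hφc, sub_self, sub_eq_zero] at h2
    rw [h2, hf']
    exact hloc _ (Finset.mem_union_right _ (Finset.mem_image_of_mem _ (Finset.mem_univ _))) hqT φ hφ hφc

theorem grunwald_S (hp2 : p ≠ 2) {S : Finset Nat.Primes} (hpS : pP p ∈ S)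
    (A : S → ValuationSubring Qb) (hA : ∀ q : S, (A q).LiesOverPrime ((q : Nat.Primes) : ℕ))
    (Z : Set S) (hZ : ∀ b : H1 (levS S) (Mu p),
      (∀ q : S, q ∉ Z → loc1 (cont_D S (A q) ⊥) (Mu p) b = 0) → b = 0)
    (y : ∀ q : S, H1 (lev.sub (DK (A q) ⊥)) (Tv p)) :
    ∃ x : H1 (levS S) (Tv p), ∀ q ∈ Z, loc1 (cont_D S (A q) ⊥) (Tv p) x = y q := by
  obtain ⟨𝒟, rfl⟩ := exists_dat hp2 S A hA
  exact exists_of_inj (𝒟.gld hp2 hpS) (pr_eT hpS) (PT.exact_P1 hp2 hpS 𝒟 (pr_eT hpS)) Z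
    (fun b hb => by rw [show b = 0 from hZ b hb]; exact map_zero _) y

/-- **Grunwald's theorem**, cohomological form: local classes in `H¹(ℚ_q, 𝔽_p)`, `q ∈ T`, come from a global class -/
theorem grunwald_H1 (hp2 : p ≠ 2) (T : Finset Nat.Primes)
    (A : Nat.Primes → ValuationSubring Qb) (hA : ∀ q, (A q).LiesOverPrime (q : ℕ))
    (y : ∀ q : Nat.Primes, H1 (lev.sub (DK (A q) ⊥)) (Tv p)) :
    ∃ (S : Finset Nat.Primes) (x : H1 (levS S) (Tv p)),
      ∀ q ∈ T, loc1 (cont_D S (A q) ⊥) (Tv p) x = y q := by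
  classical
  obtain ⟨S, hTS, hS⟩ := exists_set hp2 (insert (pP p) T) (Finset.mem_insert_self _ _) A hA
  obtain ⟨x, hx⟩ := grunwald_S hp2 (hTS (Finset.mem_insert_self _ _)) (fun q : S => A q.1)
    (fun q => hA q.1) {q : S | q.1 ∈ insert (pP p) T}
    (fun b hb => hS b fun q hq hqT => hb ⟨q, hq⟩ hqT) (fun q => y q.1)
  exact ⟨S, x, fun q hq => hx ⟨q, hTS (Finset.mem_insert_of_mem hq)⟩ (Finset.mem_insert_of_mem hq)⟩

/-- the cocycle of a local character -/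
theorem exists_locZ1 (A : ValuationSubring Qb) (χ : A.decompositionSubgroup ℚ →* Multiplicative (ZMod p))
    (hχ : IsOpen (χ.ker : Set (A.decompositionSubgroup ℚ))) :
    ∃ c : Z1 (lev.sub (DK A ⊥)) (Tv p), ∀ (g : GQ) (hg : g ∈ DK A ⊥)
      (hg' : g ∈ A.decompositionSubgroup ℚ), c.1 ⟨g, hg⟩ = Multiplicative.toAdd (χ ⟨g, hg'⟩) := by
  haveI := H51.isGalois_Qbar
  rw [dk_bot]
  obtain ⟨O, hO, hO'⟩ := isOpen_induced_iff.mp hχ
  have h1 : (1 : GQ) ∈ O := by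
    have h2 : (1 : A.decompositionSubgroup ℚ) ∈ (χ.ker : Set (A.decompositionSubgroup ℚ)) := one_mem _
    rw [← hO'] at h2
    exact h2
  obtain ⟨E, hE, hEO⟩ := (krullTopology_mem_nhds_one_iff ℚ Qb O).mp (hO.mem_nhds h1)
  have hE2 : ∀ s : A.decompositionSubgroup ℚ, s.1 ∈ E.fixingSubgroup → χ s = 1 := by
    intro s hs
    have h3 : s ∈ (Subtype.val : A.decompositionSubgroup ℚ → GQ) ⁻¹' O := hEO hs
    rw [hO'] at h3
    exact h3
  refine ⟨⟨fun g => (show Tv p from Multiplicative.toAdd (χ g)),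
    ⟨E.fixingSubgroup.comap (A.decompositionSubgroup ℚ).subtype,
      ⟨E.fixingSubgroup, ⟨E, hE, le_rfl⟩, le_rfl⟩, fun g s hs => ?_⟩, fun g h => ?_⟩, fun g _ _ => rfl⟩
  · change Multiplicative.toAdd (χ (g * s)) = Multiplicative.toAdd (χ g)
    rw [map_mul, hE2 s hs, mul_one]
  · change Multiplicative.toAdd (χ (g * h)) = Multiplicative.toAdd (χ g) + Multiplicative.toAdd (χ h)
    rw [map_mul]
    rfl

end

/-- **The Grunwald–Wang theorem** over `ℚ` for an odd prime exponent `p`: every family of continuous characters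
`χ_q : D_q → ℤ/p` of the decomposition groups at finitely many primes `q ∈ T` is the restriction of a continuous
character `G_ℚ → ℤ/p`. -/
theorem grunwald_wang {p : ℕ} (hp : p.Prime) (hp2 : p ≠ 2) (T : Finset ℕ) (hT : ∀ q ∈ T, q.Prime)
    (A : ℕ → ValuationSubring Qb) (hA : ∀ q ∈ T, (A q).LiesOverPrime q)
    (χ : ∀ q : ℕ, (A q).decompositionSubgroup ℚ →* Multiplicative (ZMod p))
    (hχ : ∀ q ∈ T, IsOpen ((χ q).ker : Set ((A q).decompositionSubgroup ℚ))) :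
    ∃ f : GQ →* Multiplicative (ZMod p), IsOpen (f.ker : Set GQ) ∧
      ∀ q ∈ T, ∀ g : (A q).decompositionSubgroup ℚ, f g = χ q g := by
  classical
  haveI : Fact p.Prime := ⟨hp⟩
  haveI := H51.isGalois_Qbar
  -- places at all primes
  have hA' : ∀ q : Nat.Primes, ∃ B : ValuationSubring Qb, B.LiesOverPrime (q : ℕ) ∧
      ((q : ℕ) ∈ T → B = A q) := by
    intro q
    by_cases hq : (q : ℕ) ∈ T
    · exact ⟨A q, hA q hq, fun _ => rfl⟩
    · obtain ⟨B, hB⟩ := H05.exists_liesOverPrime Qb q.2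
      exact ⟨B, hB, fun h => absurd h hq⟩
  choose B hB hBA using hA'
  have hy : ∀ q : Nat.Primes, ∃ y : H1 (lev.sub (DK (B q) ⊥)) (Tv p), (q : ℕ) ∈ T →
      ∃ c : Z1 (lev.sub (DK (B q) ⊥)) (Tv p), H1.mk _ _ c = y ∧ ∀ (g : GQ) (hg : g ∈ DK (B q) ⊥)
        (hg' : g ∈ (A q).decompositionSubgroup ℚ), c.1 ⟨g, hg⟩ = Multiplicative.toAdd (χ q ⟨g, hg'⟩) := by
    intro q
    by_cases hq : (q : ℕ) ∈ T
    · rw [hBA q hq]
      obtain ⟨c, hc⟩ := exists_locZ1 (A q) (χ q) (hχ q hq)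
      exact ⟨H1.mk _ _ c, fun _ => ⟨c, rfl, hc⟩⟩
    · exact ⟨0, fun h => absurd h hq⟩
  choose y hy using hy
  let T' : Finset Nat.Primes := T.attach.image fun q => ⟨q.1, hT q.1 q.2⟩
  have hT' : ∀ q : ℕ, ∀ hq : q ∈ T, (⟨q, hT q hq⟩ : Nat.Primes) ∈ T' := fun q hq =>
    Finset.mem_image.mpr ⟨⟨q, hq⟩, Finset.mem_attach _ _, rfl⟩
  obtain ⟨S, x, hx⟩ := grunwald_H1 (p := p) hp2 T' B hB y
  obtain ⟨f, rfl⟩ := toZ1_bijective.2 x
  obtain ⟨F, hF, hF1⟩ := f.2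
  haveI := hF.1
  refine ⟨f.1, Subgroup.isOpen_mono (fun σ hσ => hF1 σ hσ)
    (IntermediateField.fixingSubgroup_isOpen F), fun q hq g => ?_⟩
  obtain ⟨c, hc, hc'⟩ := hy ⟨q, hT q hq⟩ hq
  have h1 := hx ⟨q, hT q hq⟩ (hT' q hq)
  rw [← hc] at h1
  have h2 := sub_eq_zero.mpr h1
  have hg : (g : GQ) ∈ DK (B ⟨q, hT q hq⟩) ⊥ := by
    rw [dk_bot, hBA ⟨q, hT q hq⟩ hq]
    exact g.2
  have h3 : H1.mk (lev.sub (DK (B ⟨q, hT q hq⟩) ⊥)) (Tv p)
      (Z1map (DK (B ⟨q, hT q hq⟩) ⊥).subtype (cont_D S (B ⟨q, hT q hq⟩) ⊥) (AddMonoidHom.id _)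
        (fun _ _ => rfl) f.toZ1 - c) = 0 := by
    rw [map_sub]
    exact h2
  obtain ⟨a, ha⟩ := H1.mk_eq_zero.mp h3
  have h4 := ha ⟨g, hg⟩
  have h5 : (⟨(g : GQ), hg⟩ : DK (B ⟨q, hT q hq⟩) ⊥) • a = a := rfl
  rw [h5, sub_self] at h4
  have h6 : Multiplicative.toAdd (f.1 g) = c.1 ⟨g, hg⟩ := sub_eq_zero.mp h4
  rw [hc' g hg g.2] at h6
  exact h6

end Fermat.Agent.Cor.Grunwald
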