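import Fermat.Agent.H12.Tame
import Fermat.Agent.H12.InertiaConj
import Fermat.Agent.H16.CH.Cyc
import Fermat.Agent.CC.LocUnr
import Fermat.Agent.CC.ECQ

/-!
# Galois `p`-extensions of `ℚ` unramified outside `p`: group theory and reduction to characters of order `p`

`cyc m` is the Galois group of `ℚ̄` over `ℚ(μ_m)`, `W1 p` the statement on characters of order `p`, `cyclic_of_char` the
criterion for a quotient which is a `p`-group to be cyclic, `wild` the proof that an abelian `p`-extension which is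
unramified outside `p` is cyclotomic.

This file is not used by any of the statement files.
-/

set_option autoImplicit false
set_option linter.unusedSectionVars false
set_option linter.style.haveILetI false

noncomputable section

namespace Fermat.Agent.Cor.ProP

open Fermat.Agent.CC (Qb GQ)
open scoped Pointwise

section Group

variable {G : Type} [Group G]

theorem normal_of_com {K : Subgroup G} (hK : ∀ g h, g * h * g⁻¹ * h⁻¹ ∈ K) : K.Normal := by
  refine ⟨fun n hn g => ?_⟩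
  have h1 := mul_mem (hK g n) hn
  rwa [inv_mul_cancel_right] at h1

/-- the quotient by a group containing the commutators -/
@[reducible] def commQ (K : Subgroup G) [K.Normal] (hK : ∀ g h, g * h * g⁻¹ * h⁻¹ ∈ K) :
    CommGroup (G ⧸ K) :=
  { (inferInstance : Group (G ⧸ K)) with
    mul_comm := by
      intro x y
      obtain ⟨g, rfl⟩ := QuotientGroup.mk_surjective x
      obtain ⟨h, rfl⟩ := QuotientGroup.mk_surjective y
      rw [← QuotientGroup.mk_mul, ← QuotientGroup.mk_mul, QuotientGroup.eq]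
      have h1 := hK h⁻¹ g⁻¹
      rw [inv_inv, inv_inv] at h1
      rwa [mul_inv_rev, ← mul_assoc] }

theorem mk_comm {K : Subgroup G} [K.Normal] (hK : ∀ g h, g * h * g⁻¹ * h⁻¹ ∈ K) (x y : G ⧸ K) :
    x * y = y * x := (commQ K hK).mul_comm x y

/-- the group generated by `K` and `I` -/
def join (K : Subgroup G) [K.Normal] (I : Subgroup G) : Subgroup G :=
  (I.map (QuotientGroup.mk' K)).comap (QuotientGroup.mk' K)

theorem mem_join {K : Subgroup G} [K.Normal] {I : Subgroup G} {g : G} :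
    g ∈ join K I ↔ ∃ i ∈ I, i⁻¹ * g ∈ K := by
  rw [join, Subgroup.mem_comap, Subgroup.mem_map]
  constructor
  · rintro ⟨i, hi, h⟩
    exact ⟨i, hi, QuotientGroup.eq.mp h⟩
  · rintro ⟨i, hi, h⟩
    exact ⟨i, hi, QuotientGroup.eq.mpr h⟩

theorem le_join (K : Subgroup G) [K.Normal] (I : Subgroup G) : K ≤ join K I := fun g hg =>
  mem_join.mpr ⟨1, one_mem _, by rwa [inv_one, one_mul]⟩

theorem le_join' (K : Subgroup G) [K.Normal] (I : Subgroup G) : I ≤ join K I := fun g hg =>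
  mem_join.mpr ⟨g, hg, by rw [inv_mul_cancel]; exact one_mem _⟩

/-- `{g | g ^ n ∈ K}` -/
def pwS (K : Subgroup G) (hK : ∀ g h, g * h * g⁻¹ * h⁻¹ ∈ K) (n : ℕ) : Subgroup G :=
  haveI := normal_of_com hK
  letI := commQ K hK
  (powMonoidHom n : (G ⧸ K) →* (G ⧸ K)).ker.comap (QuotientGroup.mk' K)

theorem mem_pwS {K : Subgroup G} {hK : ∀ g h, g * h * g⁻¹ * h⁻¹ ∈ K} {n : ℕ} {g : G} :
    g ∈ pwS K hK n ↔ g ^ n ∈ K := by
  haveI := normal_of_com hK
  rw [← QuotientGroup.eq_one_iff (N := K), QuotientGroup.mk_pow]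
  exact Iff.rfl

theorem le_pwS (K : Subgroup G) (hK : ∀ g h, g * h * g⁻¹ * h⁻¹ ∈ K) (n : ℕ) : K ≤ pwS K hK n :=
  fun _ hg => mem_pwS.mpr (pow_mem hg n)

end Group

/-- `Gal(ℚ̄/ℚ(μ_m))` -/
def cyc (m : ℕ) : Subgroup GQ where
  carrier := {g | ∀ x : Qb, x ^ m = 1 → g x = x}
  one_mem' := fun _ _ => rfl
  mul_mem' := fun {g h} hg hh x hx => by
    rw [AlgEquiv.mul_apply, hh x hx, hg x hx]
  inv_mem' := fun {g} hg x hx => by
    have h1 := AlgEquiv.symm_apply_apply g x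
    rw [hg x hx] at h1
    exact h1

theorem mem_cyc {m : ℕ} {g : GQ} : g ∈ cyc m ↔ ∀ x : Qb, x ^ m = 1 → g x = x := Iff.rfl

theorem cyc_le {m n : ℕ} (h : m ∣ n) : cyc n ≤ cyc m := by
  intro g hg x hx
  obtain ⟨c, rfl⟩ := h
  exact hg x (by rw [pow_mul, hx, one_pow])

theorem cyc_com {m : ℕ} (hm : m ≠ 0) (g h : GQ) : g * h * g⁻¹ * h⁻¹ ∈ cyc m := by
  intro x hx
  obtain ⟨a, -, ha⟩ := H16.CH.exists_exp g hm
  obtain ⟨b, -, hb⟩ := H16.CH.exists_exp h hm
  set y : Qb := g⁻¹ (h⁻¹ x) with hy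
  have hy1 : y ^ m = 1 := by rw [hy, ← map_pow, ← map_pow, hx, map_one, map_one]
  have h1 : h (g y) = x := by
    rw [hy, ← AlgEquiv.mul_apply g, mul_inv_cancel, AlgEquiv.one_apply, ← AlgEquiv.mul_apply h,
      mul_inv_cancel, AlgEquiv.one_apply]
  have h2 : (g * h * g⁻¹ * h⁻¹) x = g (h y) := by
    rw [AlgEquiv.mul_apply, AlgEquiv.mul_apply, AlgEquiv.mul_apply]
  rw [h2, ← h1, hb y hy1, ha y hy1, map_pow, map_pow, ha y hy1, hb y hy1, ← pow_mul, ← pow_mul,
    mul_comm]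

theorem isOpen_cyc {m : ℕ} (hm : m ≠ 0) : IsOpen (cyc m : Set GQ) := by
  haveI : NeZero m := ⟨hm⟩
  obtain ⟨ζ, hζ⟩ := H16.CH.exists_prim m hm
  haveI : FiniteDimensional ℚ (IntermediateField.adjoin ℚ {ζ}) :=
    IntermediateField.adjoin.finiteDimensional (Algebra.IsIntegral.isIntegral ζ)
  refine Subgroup.isOpen_mono ?_
    (IntermediateField.fixingSubgroup_isOpen (IntermediateField.adjoin ℚ {ζ}))
  intro g hg x hx
  have h1 : g ζ = ζ := (IntermediateField.mem_fixingSubgroup_iff _ _).mp hg ζ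
    (IntermediateField.mem_adjoin_simple_self ℚ ζ)
  obtain ⟨i, -, rfl⟩ := hζ.eq_pow_of_pow_eq_one hx
  rw [map_pow, h1]

/-- `H` is open, `G_ℚ/H` is abelian and killed by `p ^ k` -/
structure AbP (p k : ℕ) (H : Subgroup GQ) : Prop where
  op : IsOpen (H : Set GQ)
  com : ∀ g h, g * h * g⁻¹ * h⁻¹ ∈ H
  pw : ∀ g, g ^ p ^ k ∈ H

/-- all inertia groups over `q` are contained in `H` -/
def Unr (q : ℕ) (H : Subgroup GQ) : Prop :=
  ∀ A : ValuationSubring Qb, A.LiesOverPrime q → A.inertiaSubgroupIn ℚ ≤ H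

namespace AbP

variable {p k l : ℕ} {H N : Subgroup GQ}

theorem nor (h : AbP p k H) : H.Normal := normal_of_com h.com

theorem mono (h : AbP p k H) (hl : H ≤ N) : AbP p k N where
  op := Subgroup.isOpen_mono hl h.op
  com := fun g h' => hl (h.com g h')
  pw := fun g => hl (h.pw g)

theorem inf (h : AbP p k H) (h' : AbP p l N) : AbP p (k + l) (H ⊓ N) where
  op := h.op.inter h'.op
  com := fun g h1 => ⟨h.com g h1, h'.com g h1⟩
  pw := fun g => ⟨by rw [pow_add, pow_mul]; exact pow_mem (h.pw g) _, by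
    rw [pow_add, mul_comm, pow_mul]; exact pow_mem (h'.pw g) _⟩

end AbP

theorem unr_cyc {q m : ℕ} (hq : q.Prime) (h : ¬ q ∣ m) : Unr q (cyc m) :=
  fun _ hA _ hτ _ hx => H05.inertia_apply_rootOfUnity hq hA h hτ hx

theorem unr_of_one {q : ℕ} (hq : q.Prime) {H : Subgroup GQ} (hn : H.Normal)
    {A : ValuationSubring Qb} (hA : A.LiesOverPrime q) (h : A.inertiaSubgroupIn ℚ ≤ H) :
    Unr q H := by
  haveI := H51.isGalois_Qbar
  intro B hB σ hσ
  obtain ⟨g, rfl⟩ := H05.exists_smul_eq hq hA hB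
  rw [H12.mem_inertia_conj hq hA] at hσ
  have h2 := hn.conj_mem _ (h hσ) g
  have h3 : g * (g⁻¹ * σ * g) * g⁻¹ = σ := by group
  rwa [h3] at h2

theorem top_of_unr {H : Subgroup GQ} (hn : H.Normal) (hop : IsOpen (H : Set GQ))
    (h : ∀ q : ℕ, q.Prime → Unr q H) : H = ⊤ := by
  haveI := H51.isGalois_Qbar
  haveI := hn
  exact H09.minkowski H hop fun q hq A hA => h q hq A hA

/-- the cyclotomic character modulo `m` -/
theorem exists_char (m : ℕ) (hm : m ≠ 0) : ∃ c : GQ →* (ZMod m)ˣ, ∀ (g : GQ) (a : ℕ),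
    ((c g : (ZMod m)ˣ) : ZMod m) = a ↔ ∀ x : Qb, x ^ m = 1 → g x = x ^ a := by
  haveI : NeZero m := ⟨hm⟩
  obtain ⟨ζ, hζ⟩ := H16.CH.exists_prim m hm
  refine ⟨hζ.autToPow ℚ, fun g a => ?_⟩
  have h0 : ∀ x : Qb, x ^ m = 1 → g x = x ^ ((hζ.autToPow ℚ g : (ZMod m)ˣ) : ZMod m).val := by
    intro x hx
    obtain ⟨i, -, rfl⟩ := hζ.eq_pow_of_pow_eq_one hx
    rw [map_pow, ← hζ.autToPow_spec ℚ g, ← pow_mul, ← pow_mul, mul_comm]
  constructor
  · intro h x hx
    rw [h0 x hx, h, ZMod.val_natCast, ← pow_eq_pow_mod a hx]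
  · intro h
    have h1 := h ζ hζ.pow_eq_one
    rw [h0 ζ hζ.pow_eq_one, pow_eq_pow_mod a hζ.pow_eq_one] at h1
    have h2 := hζ.pow_inj (ZMod.val_lt _) (Nat.mod_lt _ (Nat.pos_of_ne_zero hm)) h1
    rw [← ZMod.natCast_zmod_val (((hζ.autToPow ℚ g : (ZMod m)ˣ) : ZMod m)), h2, ZMod.natCast_mod]

theorem char_eq_one {m : ℕ} {c : GQ →* (ZMod m)ˣ} (hc : ∀ (g : GQ) (a : ℕ),
    ((c g : (ZMod m)ˣ) : ZMod m) = a ↔ ∀ x : Qb, x ^ m = 1 → g x = x ^ a) (g : GQ) :
    c g = 1 ↔ g ∈ cyc m := by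
  rw [mem_cyc, ← Units.val_inj, Units.val_one, ← Nat.cast_one, hc g 1]
  simp only [pow_one]

/-- complex conjugation -/
abbrev cj : GQ := complexConjugation

theorem cj_mul_cj : cj * cj = 1 := complexConjugation_mul_self

/-- complex conjugation inverts the roots of unity -/
theorem cj_root {n : ℕ} (hn : n ≠ 0) {x : Qb} (hx : x ^ n = 1) : cj x = x⁻¹ := by
  apply complexEmbedding.toRingHom.injective
  change complexEmbedding (complexConjugation x) = complexEmbedding x⁻¹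
  rw [complexEmbedding_complexConjugation, map_inv₀]
  have h1 : complexEmbedding x ^ n = 1 := by rw [← map_pow, hx, map_one]
  have h2 : ‖complexEmbedding x‖ = 1 := by
    have h3 : ‖complexEmbedding x‖ ^ n = 1 := by rw [← norm_pow, h1, norm_one]
    exact (pow_eq_one_iff_of_nonneg (norm_nonneg _) hn).mp h3
  rw [← Complex.inv_eq_conj h2]

/-- commutative groups killed by `p` have enough characters -/
theorem exists_hom_comm {Q : Type} [CommGroup Q] {p : ℕ} (hp : p.Prime) (hQ : ∀ x : Q, x ^ p = 1)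
    {x₀ : Q} (h : x₀ ≠ 1) : ∃ f : Q →* Multiplicative (ZMod p), f x₀ ≠ 1 := by
  haveI : Fact p.Prime := ⟨hp⟩
  letI : Module (ZMod p) (Additive Q) := AddCommGroup.zmodModule (n := p) (fun x => hQ x.toMul)
  have hv : Additive.ofMul x₀ ≠ 0 := fun h0 => h h0
  obtain ⟨φ, hφ⟩ : ∃ φ : Additive Q →ₗ[ZMod p] ZMod p, φ (Additive.ofMul x₀) ≠ 0 := by
    by_contra hcon
    push Not at hcon
    exact hv ((Module.forall_dual_apply_eq_zero_iff (ZMod p) _).mp hcon)
  refine ⟨AddMonoidHom.toMultiplicativeRight φ.toAddMonoidHom, fun h1 => hφ ?_⟩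
  exact h1

/-- a proper subgroup with abelian quotient killed by `p ^ k` is contained in the kernel of a nontrivial
homomorphism to `ℤ/p` -/
theorem exists_hom {G : Type} [Group G] {p k : ℕ} (hp : p.Prime) {U : Subgroup G}
    (hc : ∀ g h, g * h * g⁻¹ * h⁻¹ ∈ U) (hpw : ∀ g, g ^ p ^ k ∈ U) (hU : U ≠ ⊤) :
    ∃ f : G →* Multiplicative (ZMod p), f ≠ 1 ∧ ∀ g ∈ U, f g = 1 := by
  haveI : Fact p.Prime := ⟨hp⟩
  haveI hn := normal_of_com hc
  letI i1 := commQ U hc
  set R : Subgroup G := ((powMonoidHom p : (G ⧸ U) →* (G ⧸ U)).range).comap (QuotientGroup.mk' U)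
    with hR
  have hRm : ∀ g : G, g ∈ R ↔ ∃ h : G, (g : G ⧸ U) = ((h ^ p : G) : G ⧸ U) := by
    intro g
    rw [hR, Subgroup.mem_comap]
    constructor
    · rintro ⟨x, hx⟩
      obtain ⟨h, rfl⟩ := QuotientGroup.mk_surjective x
      exact ⟨h, hx.symm⟩
    · rintro ⟨h, hh⟩
      exact ⟨(h : G ⧸ U), hh.symm⟩
  have hUR : U ≤ R := fun g hg => (hRm g).mpr ⟨1, by
    rw [one_pow, QuotientGroup.mk_one]; exact (QuotientGroup.eq_one_iff g).mpr hg⟩
  have hRc : ∀ g h, g * h * g⁻¹ * h⁻¹ ∈ R := fun g h => hUR (hc g h)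
  haveI hRn := normal_of_com hRc
  have hRtop : R ≠ ⊤ := by
    intro htop
    apply hU
    have h1 : ∀ n : ℕ, ∀ g : G, ∃ h : G, (g : G ⧸ U) = ((h ^ p ^ n : G) : G ⧸ U) := by
      intro n
      induction n with
      | zero => exact fun g => ⟨g, by rw [pow_zero, pow_one]⟩
      | succ n ih =>
        intro g
        obtain ⟨h, hh⟩ := ih g
        obtain ⟨h', hh'⟩ := (hRm h).mp (htop ▸ Subgroup.mem_top h)
        refine ⟨h', ?_⟩
        rw [hh, QuotientGroup.mk_pow, hh', ← QuotientGroup.mk_pow, ← pow_mul, pow_succ, mul_comm]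
    rw [Subgroup.eq_top_iff']
    intro g
    obtain ⟨h, hh⟩ := h1 k g
    rw [(QuotientGroup.eq_one_iff _).mpr (hpw h)] at hh
    exact (QuotientGroup.eq_one_iff _).mp hh
  letI i2 := commQ R hRc
  have h3 : ∀ x : G ⧸ R, x ^ p = 1 := by
    intro x
    obtain ⟨g, rfl⟩ := QuotientGroup.mk_surjective x
    rw [← QuotientGroup.mk_pow]
    exact (QuotientGroup.eq_one_iff _).mpr ((hRm _).mpr ⟨g, rfl⟩)
  obtain ⟨g₀, hg₀⟩ : ∃ g₀ : G, g₀ ∉ R := by
    by_contra hcon
    push Not at hcon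
    exact hRtop ((Subgroup.eq_top_iff' R).mpr hcon)
  obtain ⟨f, hf⟩ := exists_hom_comm hp h3 (x₀ := ((g₀ : G) : G ⧸ R))
    (fun h0 => hg₀ ((QuotientGroup.eq_one_iff g₀).mp h0))
  refine ⟨f.comp (QuotientGroup.mk' R), fun h1 => ?_, fun g hg => ?_⟩
  · apply hf
    exact DFunLike.congr_fun h1 g₀
  · have h2 : ((g : G) : G ⧸ R) = 1 := (QuotientGroup.eq_one_iff g).mpr (hUR hg)
    change f ((g : G) : G ⧸ R) = 1
    rw [h2, map_one]

/-- a subgroup of index `p` of a group of order a power of `p` through a given proper subgroup -/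
theorem cyclic_of_char {G : Type} [Group G] {p : ℕ} (hp : p.Prime) {N : Subgroup G} [N.Normal]
    [Finite (G ⧸ N)] (hN : IsPGroup p (G ⧸ N)) (g₀ : G)
    (h : ∀ f : G →* Multiplicative (ZMod p), (∀ n ∈ N, f n = 1) → f g₀ = 1 → f = 1) (g : G) :
    ∃ i : ℤ, (g₀ ^ i)⁻¹ * g ∈ N := by
  haveI : Fact p.Prime := ⟨hp⟩
  by_cases htop : Subgroup.zpowers ((g₀ : G) : G ⧸ N) = ⊤
  · obtain ⟨i, hi⟩ : ((g : G) : G ⧸ N) ∈ Subgroup.zpowers ((g₀ : G) : G ⧸ N) := by
      rw [htop]; exact Subgroup.mem_top _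
    refine ⟨i, QuotientGroup.eq.mp ?_⟩
    rw [QuotientGroup.mk_zpow]
    exact hi
  exfalso
  obtain ⟨n, hn⟩ := IsPGroup.iff_card.mp hN
  obtain ⟨a, ha⟩ := IsPGroup.iff_card.mp (hN.to_subgroup (Subgroup.zpowers ((g₀ : G) : G ⧸ N)))
  have han : a < n := by
    by_contra hcon
    apply htop
    apply Subgroup.eq_top_of_le_card
    rw [hn, ha]
    exact Nat.pow_le_pow_right hp.pos (not_lt.mp hcon)
  obtain ⟨m, rfl⟩ : ∃ m, n = m + 1 := ⟨n - 1, by omega⟩
  obtain ⟨M, hM, hzM⟩ := Sylow.exists_subgroup_card_pow_prime_le (p := p) (m := m)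
    (by rw [hn]; exact pow_dvd_pow p (Nat.le_succ m)) _ ha (by omega)
  have hidx : M.index = p := by
    have h1 := M.card_mul_index
    rw [hM, hn, pow_succ] at h1
    exact Nat.eq_of_mul_eq_mul_left (pow_pos hp.pos m) h1
  have hMn : M.Normal := by
    apply Subgroup.normal_of_index_eq_minFac_card
    rw [hidx, hn, hp.pow_minFac (Nat.succ_ne_zero m)]
  have hcard : Nat.card ((G ⧸ N) ⧸ M) = p := hidx
  haveI : IsCyclic ((G ⧸ N) ⧸ M) := isCyclic_of_prime_card hcard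
  have hcomm : ∀ x y : (G ⧸ N) ⧸ M, x * y = y * x := fun x y => by
    letI := IsCyclic.commGroup (α := (G ⧸ N) ⧸ M)
    exact mul_comm x y
  have hMne : M ≠ ⊤ := by
    intro hM'
    rw [hM', Subgroup.index_top] at hidx
    exact hp.one_lt.ne hidx
  obtain ⟨f, hf1, hf⟩ := exists_hom (k := 1) hp (U := M) (fun x y => by
      rw [← QuotientGroup.eq_one_iff, QuotientGroup.mk_mul, QuotientGroup.mk_mul,
        QuotientGroup.mk_mul, QuotientGroup.mk_inv, QuotientGroup.mk_inv,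
        hcomm ((x : G ⧸ N) : (G ⧸ N) ⧸ M), mul_inv_cancel_right, mul_inv_cancel])
    (fun x => by
      rw [pow_one, ← QuotientGroup.eq_one_iff, QuotientGroup.mk_pow, ← hcard]
      exact pow_card_eq_one') hMne
  apply hf1
  have h1 := h (f.comp (QuotientGroup.mk' N)) (fun n hn => by
    have h2 : ((n : G) : G ⧸ N) = 1 := (QuotientGroup.eq_one_iff n).mpr hn
    change f ((n : G) : G ⧸ N) = 1
    rw [h2, map_one]) (hf _ (hzM (Subgroup.mem_zpowers _)))
  refine MonoidHom.ext fun x => ?_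
  obtain ⟨y, rfl⟩ := QuotientGroup.mk_surjective x
  exact DFunLike.congr_fun h1 y

/-- `g₀` is a topological generator of the Galois group of the cyclotomic `ℤ_p`-extension, `n ≥ 3` -/
def IsGen (p n : ℕ) (g₀ : GQ) : Prop :=
  ∀ x : Qb, x ^ p ^ n = 1 → g₀ x = x ^ (if p = 2 then 5 else 1 + p)

/-- the statement for characters of order `p` -/
def W1 (p : ℕ) : Prop := ∀ f : GQ →* Multiplicative (ZMod p), IsOpen (f.ker : Set GQ) →
  (∀ q : ℕ, q.Prime → q ≠ p → Unr q f.ker) → (p = 2 → f cj = 1) →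
  (∃ (n : ℕ) (g₀ : GQ), 3 ≤ n ∧ IsGen p n g₀ ∧ f g₀ = 1) → f = 1

theorem exists_isGen {p : ℕ} (hp : p.Prime) (n : ℕ) : ∃ g₀ : GQ, IsGen p n g₀ := by
  refine H16.CH.exists_gal (pow_ne_zero _ hp.ne_zero) ?_
  split_ifs with h
  · subst h
    exact Nat.Coprime.pow_right _ (by norm_num)
  · refine Nat.Coprime.pow_right _ ?_
    rw [add_comm]
    exact ((Nat.coprime_self_add_left (m := p) (n := 1)).mpr (Nat.coprime_one_left p) :)

/-- the order of the generator modulo torsion -/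
theorem exists_tor {p : ℕ} (hp : p.Prime) (k : ℕ) : ∃ (T : Subgroup (ZMod (p ^ (k + 3)))ˣ),
    (∀ u : (ZMod (p ^ (k + 3)))ˣ, u ^ p ^ (k + 3) ∈ T) ∧ (p = 2 → (-1 : (ZMod (p ^ (k + 3)))ˣ) ∈ T) ∧
    ∀ (γ : (ZMod (p ^ (k + 3)))ˣ) (i : ℤ),
      (γ : ZMod (p ^ (k + 3))) = ((if p = 2 then 5 else 1 + p : ℕ) : ZMod (p ^ (k + 3))) →
      γ ^ i ∈ T → (p ^ k : ℤ) ∣ i := by
  haveI : Fact p.Prime := ⟨hp⟩
  haveI : NeZero (p ^ (k + 3)) := ⟨pow_ne_zero _ hp.ne_zero⟩
  rcases eq_or_ne p 2 with rfl | h2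
  · refine ⟨Subgroup.zpowers (-1), fun u => ?_, fun _ => Subgroup.mem_zpowers _, fun γ i hγ hi => ?_⟩
    · have h1 : u ^ 2 ^ (k + 2) = 1 := by
        have h3 : Nat.card (ZMod (2 ^ (k + 3)))ˣ = 2 ^ (k + 2) := by
          rw [Nat.card_eq_fintype_card, ZMod.card_units_eq_totient,
            Nat.totient_prime_pow Nat.prime_two (by omega)]
          simp
        rw [← h3]
        exact pow_card_eq_one'
      have h4 : u ^ (2 ^ (k + 2) * 2) = 1 := by rw [pow_mul, h1, one_pow]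
      have h5 : 2 ^ (k + 3) = 2 ^ (k + 2) * 2 := pow_succ 2 (k + 2)
      have h6 : u ^ 2 ^ (k + 3) = 1 := (congrArg (fun n : ℕ => u ^ n) h5).trans h4
      rw [h6]
      exact one_mem _
    · rw [if_pos rfl] at hγ
      have h1 : orderOf γ = 2 ^ (k + 1) := by
        rw [← orderOf_units, hγ]
        exact_mod_cast ZMod.orderOf_five (k + 1)
      obtain ⟨j, hj⟩ := hi
      have h3 : γ ^ (i * 2) = 1 := by
        rw [zpow_mul, ← hj]
        change ((-1 : (ZMod (2 ^ (k + 3)))ˣ) ^ j) ^ (2 : ℤ) = 1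
        rw [← zpow_mul, mul_comm, zpow_mul]
        have : (-1 : (ZMod (2 ^ (k + 3)))ˣ) ^ (2 : ℤ) = 1 := by
          rw [zpow_two]
          simp
        rw [this, one_zpow]
      have h4 := orderOf_dvd_iff_zpow_eq_one.mpr h3
      rw [h1, pow_succ, Nat.cast_mul] at h4
      have h5 := Int.dvd_of_mul_dvd_mul_right (by norm_num) h4
      exact_mod_cast h5
  · refine ⟨(powMonoidHom (p - 1) : (ZMod (p ^ (k + 3)))ˣ →* (ZMod (p ^ (k + 3)))ˣ).ker, fun u => ?_,
      fun h => absurd h h2, fun γ i hγ hi => ?_⟩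
    · rw [MonoidHom.mem_ker, powMonoidHom_apply, ← pow_mul]
      have h3 : Nat.card (ZMod (p ^ (k + 3)))ˣ = p ^ (k + 2) * (p - 1) := by
        rw [Nat.card_eq_fintype_card, ZMod.card_units_eq_totient,
          Nat.totient_prime_pow hp (by omega)]
        rfl
      have h4 : u ^ (Nat.card (ZMod (p ^ (k + 3)))ˣ * p) = 1 := by
        rw [pow_mul, pow_card_eq_one', one_pow]
      have h5 : p ^ (k + 3) * (p - 1) = Nat.card (ZMod (p ^ (k + 3)))ˣ * p := by
        rw [h3, pow_succ p (k + 2), mul_right_comm]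
      exact (congrArg (fun n : ℕ => u ^ n) h5).trans h4
    · rw [if_neg h2] at hγ
      have h1 : orderOf γ = p ^ (k + 2) := by
        rw [← orderOf_units, hγ]
        have := ZMod.orderOf_one_add_prime hp h2 (k + 2)
        push_cast
        exact this
      rw [MonoidHom.mem_ker, powMonoidHom_apply, ← zpow_natCast, ← zpow_mul] at hi
      have h4 := orderOf_dvd_iff_zpow_eq_one.mpr hi
      rw [h1] at h4
      have h5 : IsCoprime ((p ^ (k + 2) : ℕ) : ℤ) ((p - 1 : ℕ) : ℤ) := by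
        rw [Nat.isCoprime_iff_coprime]
        refine Nat.Coprime.pow_left _ ?_
        exact (Nat.coprime_self_sub_right hp.one_lt.le).mpr (Nat.coprime_one_right p)
      have h6 := h5.dvd_of_dvd_mul_right h4
      refine dvd_trans ?_ h6
      exact_mod_cast pow_dvd_pow p (by omega)

/-- **the wild case** -/
theorem wild {p k : ℕ} (hp : p.Prime) (hW : W1 p) {H : Subgroup GQ} (h : AbP p k H)
    (hu : ∀ q : ℕ, q.Prime → q ≠ p → Unr q H) (hcj : p = 2 → cj ∈ H) :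
    cyc (p ^ (k + 3)) ≤ H := by
  have hM : p ^ (k + 3) ≠ 0 := pow_ne_zero _ hp.ne_zero
  haveI : NeZero (p ^ (k + 3)) := ⟨hM⟩
  obtain ⟨T, hT1, hT2, hT3⟩ := exists_tor hp k
  obtain ⟨c, hc⟩ := exists_char (p ^ (k + 3)) hM
  obtain ⟨g₀, hg₀⟩ := exists_isGen hp (k + 3)
  have hcyc : cyc (p ^ (k + 3)) ≤ T.comap c := fun g hg => by
    rw [Subgroup.mem_comap, (char_eq_one hc g).mpr hg]; exact one_mem _
  have hKA : AbP p (k + 3) (T.comap c) := by
    refine ⟨Subgroup.isOpen_mono hcyc (isOpen_cyc hM), fun g g' => hcyc (cyc_com hM g g'),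
      fun g => ?_⟩
    rw [Subgroup.mem_comap, map_pow]
    exact hT1 _
  have hK := h.inf hKA
  haveI := hK.nor
  have htop : join (H ⊓ T.comap c) (Subgroup.zpowers g₀) = ⊤ := by
    by_contra hne
    have hJ := hK.mono (le_join (H ⊓ T.comap c) (Subgroup.zpowers g₀))
    obtain ⟨f, hf1, hf⟩ := exists_hom hp hJ.com hJ.pw hne
    have hle : H ⊓ T.comap c ≤ f.ker := fun g hg => hf g (le_join _ _ hg)
    refine hf1 (hW f (Subgroup.isOpen_mono hle hK.op) ?_ ?_
      ⟨k + 3, g₀, by omega, hg₀, hf g₀ (le_join' _ _ (Subgroup.mem_zpowers _))⟩)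
    · intro q hq hqp A hA σ hσ
      refine hle ⟨hu q hq hqp A hA hσ, hcyc (unr_cyc hq ?_ A hA hσ)⟩
      exact fun hd => hqp ((Nat.prime_dvd_prime_iff_eq hq hp).mp (hq.dvd_of_dvd_pow hd))
    · intro h2
      refine hle ⟨hcj h2, ?_⟩
      change c cj ∈ T
      have h3 : c cj = -1 := by
        apply Units.ext
        have h4 : ((c cj : (ZMod (p ^ (k + 3)))ˣ) : ZMod (p ^ (k + 3))) =
            ((p ^ (k + 3) - 1 : ℕ) : ZMod (p ^ (k + 3))) := by
          rw [hc]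
          intro x hx
          have hx0 : x ≠ 0 := by
            rintro rfl
            rw [zero_pow hM] at hx
            exact zero_ne_one hx
          rw [cj_root hM hx]
          refine inv_eq_of_mul_eq_one_right ?_
          rw [← pow_succ', Nat.sub_add_cancel (Nat.pos_of_ne_zero hM), hx]
        rw [h4, Nat.cast_sub (Nat.pos_of_ne_zero hM), ZMod.natCast_self, Nat.cast_one, zero_sub]
        rfl
      rw [h3]
      exact hT2 h2
  intro g hg
  have h1 : g ∈ join (H ⊓ T.comap c) (Subgroup.zpowers g₀) := htop ▸ Subgroup.mem_top g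
  obtain ⟨x, ⟨i, rfl⟩, hi⟩ := mem_join.mp h1
  change (g₀ ^ i)⁻¹ * g ∈ H ⊓ T.comap c at hi
  have h2 : c ((g₀ ^ i)⁻¹ * g) ∈ T := hi.2
  rw [map_mul, (char_eq_one hc g).mpr hg, mul_one, map_inv, map_zpow] at h2
  obtain ⟨j, hj⟩ := hT3 (c g₀) i ((hc g₀ _).mpr hg₀) (inv_mem_iff.mp h2)
  have h3 : g₀ ^ i ∈ H := by
    rw [hj, zpow_mul]
    have h4 := h.pw g₀
    have h5 : g₀ ^ ((p : ℤ) ^ k) = g₀ ^ p ^ k := by
      rw [← zpow_natCast]; push_cast; rfl
    rw [h5]
    exact zpow_mem h4 j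
  have h4 := mul_mem h3 hi.1
  rwa [mul_inv_cancel_left] at h4

end Fermat.Agent.Cor.ProP
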