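import Fermat.Agent.Cor.ShafQ2
import Fermat.Agent.Cor.ProP1
import Fermat.Agent.Cor.ChebotarevGal

/-!
# The Grunwald–Wang theorem over `ℚ` for odd prime exponent, part 1

* `exists_of_inj`: abstract form (`GLD`): if the classes of the dual module which vanish outside a set `Z` of places vanish
  everywhere, then every family of local classes at the places of `Z` comes from a global class;
* `exists_prime`: a nonzero class of `H¹(G_T, μ_p)` is nonzero at some `q ∉ T` (Chebotarev);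
* `descend`: a class of `H¹(G_S, μ_p)` which vanishes at all `q ∈ S`, `q ∉ T`, comes from `H¹(G_T, μ_p)`.

This file is not used by any of the statement files.
-/

set_option autoImplicit false
set_option linter.unusedSectionVars false
set_option linter.style.haveILetI false
set_option maxHeartbeats 400000

noncomputable section

namespace Fermat.Agent.Cor.Grunwald

open Fermat.Agent.CC Fermat.Agent.CFT.EC
open Fermat.Agent.LF (DK)
open Fermat.Agent.Cor.ShafQ Fermat.Agent.Cor.ProP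
open scoped Pointwise

section Lin

variable {p : ℕ} [hp : Fact p.Prime]

theorem exists_proj_aux {P : Type} [AddCommGroup P] [Module (ZMod p) P]
    (W Y : Submodule (ZMod p) P) (h : ∀ x ∈ W, x ∈ Y → x = 0) :
    ∃ π : P →+ P, (∀ x ∈ W, π x = 0) ∧ ∀ x ∈ Y, π x = x := by
  have hdis : Disjoint W Y := by
    rw [Submodule.disjoint_def]
    exact h
  obtain ⟨C, hWC, hC⟩ := hdis.exists_isCompl
  exact ⟨(Y.projection C hC.symm).toAddMonoidHom,
    fun x hx => (Submodule.projection_apply_eq_zero_iff hC.symm).mpr (hWC hx),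
    fun x hx => Submodule.projection_apply_of_mem_left hC.symm hx⟩

theorem exists_proj {P : Type} [AddCommGroup P] (hP : ∀ x : P, p • x = 0)
    (W Y : AddSubgroup P) (h : ∀ x ∈ W, x ∈ Y → x = 0) :
    ∃ π : P →+ P, (∀ x ∈ W, π x = 0) ∧ ∀ x ∈ Y, π x = x := by
  let _ : Module (ZMod p) P := AddCommGroup.zmodModule hP
  exact exists_proj_aux (p := p) (AddSubgroup.toZModSubmodule p W)
    (AddSubgroup.toZModSubmodule p Y) h

end Lin

section Abs

variable {p : ℕ} [hp : Fact p.Prime] {G : Type} [Group G] {T : Type} [AddCommGroup T]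
  [DistribMulAction G T] (𝒢 : GLD p G T) {M M' : Type} [AddCommGroup M] [AddCommGroup M']
  [DistribMulAction G M] [DistribMulAction G M'] {e : M →+ M' →+ T} (h : Pr p 𝒢.𝓛 e)

/-- the families which vanish outside `Z` -/
def suppIn (Z : Set 𝒢.V) (A : Type) [AddCommGroup A] [DistribMulAction G A] :
    AddSubgroup (∀ v, H1 (𝒢.L v) A) where
  carrier := {z | ∀ v, v ∉ Z → z v = 0}
  zero_mem' := fun _ _ => rfl
  add_mem' := fun {x y} hx hy v hv => by
    rw [Pi.add_apply, hx v hv, hy v hv, add_zero]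
  neg_mem' := fun {x} hx v hv => by
    rw [Pi.neg_apply, hx v hv, neg_zero]

/-- **abstract Grunwald theorem** -/
theorem exists_of_inj (hE : 𝒢.E5 h) (Z : Set 𝒢.V)
    (hZ : ∀ b : H1 𝒢.𝓛 M', (∀ v, v ∉ Z → 𝒢.l1 M' b v = 0) → 𝒢.l1 M' b = 0)
    (y : ∀ v, H1 (𝒢.L v) M) : ∃ x : H1 𝒢.𝓛 M, ∀ v ∈ Z, 𝒢.l1 M x v = y v := by
  classical
  have kP' : ∀ x : (∀ v, H1 (𝒢.L v) M'), p • x = 0 := GLD.pi_killed fun v => H1_killed h.kB
  obtain ⟨π, hπ1, hπ2⟩ := exists_proj kP' (𝒢.l1 M').range (suppIn 𝒢 Z M') (by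
    rintro _ ⟨b, rfl⟩ hb
    exact hZ b hb)
  obtain ⟨y', hy'⟩ := 𝒢.repr11 h ((𝒢.s11 h y).comp π)
  have hy'' : ∀ b, 𝒢.s11 h y' b = 𝒢.s11 h y (π b) := hy'
  obtain ⟨x, hx⟩ := hE y' (fun b => by
    rw [hy'', hπ1 _ ⟨b, rfl⟩, map_zero])
  refine ⟨x, fun v hv => ?_⟩
  rw [hx]
  refine sub_eq_zero.mp ((𝒢.ld v M M' e h).a1 _ fun c => (𝒢.inv v).injective ?_)
  rw [map_zero]
  have h2 : Pi.single v c ∈ suppIn 𝒢 Z M' := fun w hw =>
    Pi.single_eq_of_ne (by rintro rfl; exact hw hv) _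
  have h3 : π (Pi.single v c) = Pi.single v c := hπ2 _ h2
  have h4 := hy'' (Pi.single v c)
  rw [h3, GLD.s11_single, GLD.s11_single] at h4
  change 𝒢.b11 h v (y' v - y v) c = 0
  rw [map_sub, AddMonoidHom.sub_apply, h4, sub_self]

end Abs

section Mu

variable {p : ℕ} [hp : Fact p.Prime]

theorem cyc_smul {g : GQ} (hg : g ∈ cyc p) (t : Mu p) : g • t = t := by
  apply vl_inj
  rw [vl_smul]
  exact hg _ (vl_pow t)

theorem mem_cyc_of {g : GQ} (hg : ∀ t : Mu p, g • t = t) : g ∈ cyc p := by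
  intro x hx
  obtain ⟨t, rfl⟩ := exists_vl hx
  rw [← vl_smul, hg t]

theorem cyc_normal : (cyc p).Normal := normal_of_com (cyc_com hp.out.ne_zero)

/-- rules for functions `f` with `f (g h) = f g + g f h` -/
theorem coc_one {f : GQ → Mu p} (hf : ∀ g h, f (g * h) = f g + g • f h) : f 1 = 0 := by
  have h1 := hf 1 1
  rw [mul_one, one_smul] at h1
  exact left_eq_add.mp h1

theorem coc_conj {f : GQ → Mu p} (hf : ∀ g h, f (g * h) = f g + g • f h) {σ : GQ} (hσ : σ ∈ cyc p)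
    (g : GQ) : f (g * σ * g⁻¹) = g • f σ := by
  have h1 : f (g * g⁻¹) = 0 := by rw [mul_inv_cancel, coc_one hf]
  rw [hf] at h1
  have h2 : (g * σ) • f g⁻¹ = g • f g⁻¹ := by rw [mul_smul, cyc_smul hσ]
  rw [hf, hf, h2]
  calc f g + g • f σ + g • f g⁻¹ = (f g + g • f g⁻¹) + g • f σ := by abel
    _ = g • f σ := by rw [h1, zero_add]

/-- the kernel of a cocycle on `Gal(ℚ̄/ℚ(μ_p))` -/
def nn (f : GQ → Mu p) (hf : ∀ g h, f (g * h) = f g + g • f h) : Subgroup GQ where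
  carrier := {σ | σ ∈ cyc p ∧ f σ = 0}
  one_mem' := ⟨one_mem _, coc_one hf⟩
  mul_mem' := fun {a b} ha hb => ⟨mul_mem ha.1 hb.1, by rw [hf, ha.2, hb.2, smul_zero, add_zero]⟩
  inv_mem' := fun {a} ha => ⟨inv_mem ha.1, by
    have h1 := hf a a⁻¹
    rw [mul_inv_cancel, coc_one hf, ha.2, zero_add, cyc_smul ha.1] at h1
    exact h1.symm⟩

theorem nn_normal (f : GQ → Mu p) (hf : ∀ g h, f (g * h) = f g + g • f h) : (nn f hf).Normal :=
  ⟨fun σ hσ g => ⟨cyc_normal.conj_mem σ hσ.1 g, by rw [coc_conj hf hσ.1, hσ.2, smul_zero]⟩⟩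

/-- a cocycle that vanishes on `Gal(ℚ̄/ℚ(μ_p))` is a coboundary -/
theorem cob_of_zero (hp2 : p ≠ 2) {f : GQ → Mu p} (hf : ∀ g h, f (g * h) = f g + g • f h)
    (h0 : ∀ σ ∈ cyc p, f σ = 0) : ∃ t : Mu p, ∀ g, f g = g • t - t := by
  obtain ⟨A, hA⟩ := H05.exists_liesOverPrime Qb hp.out
  obtain ⟨s, -, hs⟩ := Ell.TameIn.exists_inertia_pow hp.out hA (a := 2)
    (fun hd => hp2 ((Nat.prime_dvd_prime_iff_eq hp.out Nat.prime_two).mp hd))
  have hs2 : ∀ t : Mu p, s • t = t + t := fun t => by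
    rw [smul_eq_nsmul hs, two_nsmul]
  refine ⟨f s, fun g => ?_⟩
  have h1 : f (s * g) = f (g * s) := by
    have h2 : s * g = g * s * ((g * s)⁻¹ * (s * g)) := by group
    have h3 : (g * s)⁻¹ * (s * g) ∈ cyc p := by
      apply mem_cyc_of
      intro t
      rw [mul_smul, inv_smul_eq_iff, mul_smul, mul_smul, hs2, hs2, smul_add]
    rw [h2, hf (g * s), h0 _ h3, smul_zero, add_zero]
  rw [hf, hf, hs2] at h1
  have h4 : f g = g • f s - f s := by
    have h5 : f s + (f g + f g) - f g - f s = f g + g • f s - f g - f s := by rw [h1]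
    have h6 : f s + (f g + f g) - f g - f s = f g := by abel
    rw [h6] at h5
    rw [h5]
    abel
  exact h4

theorem exists_lev_field {T : Finset Nat.Primes} (f : Z1 (levS T) (Mu p)) :
    ∃ F : IntermediateField ℚ Qb, F.IsUnramifiedOutside T ∧ ∀ σ ∈ F.fixingSubgroup, f.1 σ = 0 := by
  obtain ⟨⟨U, ⟨F, hF, hFU⟩, hfU⟩, hfc⟩ := f.2
  refine ⟨F, hF, fun σ hσ => ?_⟩
  have h1 := hfU 1 σ (hFU hσ)
  rwa [one_mul, coc_one hfc] at h1

/-- **a nonzero class of `H¹(G_T, μ_p)` is nonzero at some prime outside `T`** -/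
theorem exists_prime (hp2 : p ≠ 2) {T : Finset Nat.Primes} (f : Z1 (levS T) (Mu p))
    (hf : H1.mk (levS T) (Mu p) f ≠ 0) : ∃ q : Nat.Primes, q ∉ T ∧
      ∀ A : ValuationSubring Qb, A.LiesOverPrime (q : ℕ) → ∃ φ ∈ DK A ⊥, φ ∈ cyc p ∧ f.1 φ ≠ 0 := by
  haveI := H51.isGalois_Qbar
  have hfc := f.2.2
  obtain ⟨σ, hσ, hσ0⟩ : ∃ σ ∈ cyc p, f.1 σ ≠ 0 := by
    by_contra hcon
    push Not at hcon
    obtain ⟨t, ht⟩ := cob_of_zero hp2 hfc hcon
    exact hf (H1.mk_eq_zero.mpr ⟨t, ht⟩)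
  obtain ⟨F, hF, hF0⟩ := exists_lev_field f
  haveI := hF.1
  have hop : IsOpen ((F.fixingSubgroup ⊓ cyc p : Subgroup GQ) : Set GQ) :=
    (IntermediateField.fixingSubgroup_isOpen F).inter (isOpen_cyc hp.out.ne_zero)
  obtain ⟨ℓ, A, φ, hℓ, hℓT, hA, hφ, hφU⟩ := Cheb.exists_frobenius_dense hop σ
    (T.image fun q : Nat.Primes => (q : ℕ))
  refine ⟨⟨ℓ, hℓ⟩, fun hq => hℓT (Finset.mem_image.mpr ⟨⟨ℓ, hℓ⟩, hq, rfl⟩), ?_⟩
  have e1 : φ = σ * (σ⁻¹ * φ) := by group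
  have hφc : φ ∈ cyc p := by
    rw [e1]
    exact mul_mem hσ hφU.2
  have hφ0 : f.1 φ = f.1 σ := by
    rw [e1, hfc, hF0 _ hφU.1, smul_zero, add_zero]
  intro B hB
  obtain ⟨g, rfl⟩ := H05.exists_smul_eq hℓ hA hB
  refine ⟨g * φ * g⁻¹, ?_, cyc_normal.conj_mem φ hφc g, ?_⟩
  · rw [dk_bot]
    have h1 : φ • A = A := H09.frob_smul_eq hφ
    change (g * φ * g⁻¹) • g • A = g • A
    rw [smul_smul, inv_mul_cancel_right, mul_smul, h1]
  · rw [coc_conj hfc hφc, hφ0]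
    intro h2
    exact hσ0 ((smul_eq_zero_iff_eq g).mp h2)

/-- **descent to a smaller set of primes** -/
theorem descend {S T : Finset Nat.Primes} (hpT : pP p ∈ T) (f : Z1 (levS S) (Mu p))
    (A : Nat.Primes → ValuationSubring Qb) (hA : ∀ q, (A q).LiesOverPrime (q : ℕ))
    (hloc : ∀ q ∈ S, q ∉ T → ∀ φ ∈ DK (A q) ⊥, φ ∈ cyc p → f.1 φ = 0) :
    ∃ f' : Z1 (levS T) (Mu p), f'.1 = f.1 := by
  haveI := H51.isGalois_Qbar
  have hfc := f.2.2
  obtain ⟨F, hF, hF0⟩ := exists_lev_field f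
  haveI := hF.1
  have hN : (levS T).isOpen (nn f.1 hfc) := by
    refine L00.Tr.levS_open ?_ fun q hq => ?_
    · obtain ⟨ζ, hζ⟩ := H16.CH.exists_prim p hp.out.ne_zero
      haveI : FiniteDimensional ℚ (IntermediateField.adjoin ℚ {ζ}) :=
        IntermediateField.adjoin.finiteDimensional (Algebra.IsIntegral.isIntegral ζ)
      refine ⟨F ⊔ IntermediateField.adjoin ℚ {ζ}, inferInstance, fun σ hσ => ?_⟩
      rw [IntermediateField.fixingSubgroup_sup] at hσ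
      refine ⟨fun x hx => ?_, hF0 σ hσ.1⟩
      have h1 : σ ζ = ζ := (IntermediateField.mem_fixingSubgroup_iff _ _).mp hσ.2 ζ
        (IntermediateField.mem_adjoin_simple_self ℚ ζ)
      obtain ⟨i, -, rfl⟩ := hζ.eq_pow_of_pow_eq_one hx
      rw [map_pow, h1]
    · have hqp : ¬ (q : ℕ) ∣ p := fun hd => hq (by
        have h1 : q = pP p := Subtype.ext ((Nat.prime_dvd_prime_iff_eq q.2 hp.out).mp hd)
        rw [h1]; exact hpT)
      by_cases hqS : q ∈ S
      · refine unr_of_one q.2 (nn_normal f.1 hfc) (hA q) fun σ hσ => ?_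
        have h1 : σ ∈ cyc p := unr_cyc q.2 hqp (A q) (hA q) hσ
        exact ⟨h1, hloc q hqS hq σ (by rw [dk_bot]; exact inertia_le_dec _ hσ) h1⟩
      · intro B hB σ hσ
        exact ⟨unr_cyc q.2 hqp B hB hσ, hF0 σ (hF.2 q hqS B hB hσ)⟩
  refine ⟨⟨f.1, ⟨nn f.1 hfc, hN, fun g s hs => ?_⟩, hfc⟩, rfl⟩
  rw [hfc, hs.2, smul_zero, add_zero]

end Mu

end Fermat.Agent.Cor.Grunwald
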