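import Fermat.Agent.Cor.PoitouTate
import Fermat.Agent.L00.S55E

/-!
# Tate's global Euler characteristic formula, in the language of the statement `S55`

For an odd prime `p`, a finite set `S` of primes containing `p` and a finite dimensional representation `M` of
`Gal(ℚ̄/ℚ)` over `𝔽_p`, of finite level and unramified outside `S`, the groups `H¹(G_S, M)`, `H²(G_S, M)` are finite
dimensional and `dim H⁰ - dim H¹ + dim H² = dim M^c - dim M`, where `c` is the complex conjugation.

This file is not used by any of the statement files.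
-/

set_option autoImplicit false
set_option maxHeartbeats 400000
set_option synthInstance.maxHeartbeats 400000
set_option linter.unusedSectionVars false

noncomputable section

namespace Fermat.Agent.Cor.PT

open Fermat.Agent.CC Fermat.Agent.CFT.EC Fermat.Agent.L00.Tr CategoryTheory groupCohomology ExtCitation

variable {p : ℕ} [hp : Fact p.Prime] {S : Finset Nat.Primes} (M : Rep (ZMod p) GQ)

theorem card_H1S : Nat.card (H1 (levS S) (MT M)) = Nat.card (continuousH1S S M) := by
  refine Nat.card_congr (Equiv.ofBijective (fun x => (⟨Psi1 S M x, (mem_range_Psi1 S M _).mpr ⟨x, rfl⟩⟩ :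
    continuousH1S S M)) ⟨?_, ?_⟩)
  · intro x y hxy
    exact Psi1_injective S M (congrArg Subtype.val hxy)
  · rintro ⟨y, hy⟩
    obtain ⟨x, hx⟩ := (mem_range_Psi1 S M y).mp hy
    exact ⟨x, Subtype.ext hx⟩

theorem card_H2S : Nat.card (H2 (levS S) (MT M)) = Nat.card (continuousH2S S M) :=
  Nat.card_congr (Equiv.ofBijective _ (Psi2_bijective S M))

theorem card_H0S : Nat.card (H0 GQ (MT M)) = Nat.card M.ρ.invariants :=
  Nat.card_congr (Equiv.subtypeEquivRight fun _ => Iff.rfl)

theorem card_cfix : cfix cc (MT M) = Nat.card (LinearMap.ker (M.ρ complexConjugation - 1)) := by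
  have h1 : ∀ m : M, M.ρ complexConjugation m = m ↔
      m ∈ LinearMap.ker (M.ρ complexConjugation - 1) := fun m => by
    rw [LinearMap.mem_ker, LinearMap.sub_apply, sub_eq_zero]
    exact Iff.rfl
  exact Nat.card_congr (Equiv.subtypeEquivRight h1)

theorem card_pow (V : Type) [AddCommGroup V] [Module (ZMod p) V] [Finite V] :
    Nat.card V = p ^ Module.finrank (ZMod p) V := by
  have : Module.Finite (ZMod p) V := Module.Finite.of_finite
  rw [Module.natCard_eq_pow_finrank (K := ZMod p) (V := V), Nat.card_zmod]

variable (hp2 : p ≠ 2) (hpS : pPrime p ∈ S) [FiniteDimensional (ZMod p) M]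
  (hsm : ∀ m : M, ∃ F : IntermediateField ℚ (AlgebraicClosure ℚ), FiniteDimensional ℚ F ∧
      ∀ s ∈ F.fixingSubgroup, M.ρ s m = m)
  (hMur : ∀ q : Nat.Primes, q ∉ S → ∀ A : ValuationSubring (AlgebraicClosure ℚ),
      A.LiesOverPrime (q : ℕ) → ∀ g ∈ A.inertiaSubgroupIn ℚ, M.ρ g = 1)

include hp2 hpS hsm hMur in
/-- `H¹(G_S, M)` is finite -/
theorem finite_continuousH1S : Finite (continuousH1S S M) := by
  have := finite_H1 hp2 hpS (pr_ePair M hpS hsm hMur)
  apply Nat.finite_of_card_ne_zero
  rw [← card_H1S]
  exact Nat.card_pos.ne'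

include hp2 hpS hsm hMur in
/-- `H²(G_S, M)` is finite -/
theorem finite_continuousH2S : Finite (continuousH2S S M) := by
  have := finite_H2 hp2 hpS (pr_ePair M hpS hsm hMur)
  apply Nat.finite_of_card_ne_zero
  rw [← card_H2S]
  exact Nat.card_pos.ne'

include hp2 hpS hsm hMur in
/-- **Tate's global Euler characteristic formula** over `ℚ` for `𝔽_p`-representations, `p` odd:
`dim H⁰(G_S, M) - dim H¹(G_S, M) + dim H²(G_S, M) = dim M^c - dim M`. -/
theorem tate_euler :
    FiniteDimensional (ZMod p) (continuousH1S S M) ∧ FiniteDimensional (ZMod p) (continuousH2S S M) ∧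
      (Module.finrank (ZMod p) M.ρ.invariants : ℤ) - Module.finrank (ZMod p) (continuousH1S S M) +
          Module.finrank (ZMod p) (continuousH2S S M) =
        Module.finrank (ZMod p) (LinearMap.ker (M.ρ complexConjugation - 1)) -
          Module.finrank (ZMod p) M := by
  have f1 := finite_continuousH1S M hp2 hpS hsm hMur
  have f2 := finite_continuousH2S M hp2 hpS hsm hMur
  have hM : Finite M := finite_MT M
  refine ⟨Module.Finite.of_finite, Module.Finite.of_finite, ?_⟩
  have h1 := global_euler hp2 hpS (pr_ePair M hpS hsm hMur)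
  rw [card_H1S, card_H2S, card_H0S, card_cfix, card_pow (p := p) (continuousH1S S M),
    card_pow (p := p) (continuousH2S S M), card_pow (p := p) M.ρ.invariants,
    card_pow (p := p) (LinearMap.ker (M.ρ complexConjugation - 1)),
    show Nat.card (MT M) = p ^ Module.finrank (ZMod p) M from card_pow (p := p) M,
    ← pow_add, ← pow_add, ← pow_add] at h1
  have h2 := Nat.pow_right_injective hp.out.two_le h1
  omega

end Fermat.Agent.Cor.PT
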