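import Fermat.Agent.Cor.ShafQ
import Fermat.Agent.Cor.TateEuler

/-!
# Shafarevich's formulas over `ℚ`: characters and the language of `S55`

* `card_char`: the number of homomorphisms `G_ℚ → ℤ/p` unramified outside `S` is `p ^ (1 + δ(S))`, where `δ(S)` is
  the number of the `q ∈ S` with `q ≡ 1 mod p` (`p` odd, `p ∈ S`);
* `finrank_H1_trivial`, `finrank_H2_trivial`: `dim H¹(G_S, 𝔽_p) = 1 + δ(S)`, `dim H²(G_S, 𝔽_p) = δ(S)` for the groups
  `continuousH1S`, `continuousH2S` of the Prelude.

This file is not used by any of the statement files.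
-/

set_option autoImplicit false
set_option linter.unusedSectionVars false
set_option linter.style.haveILetI false
set_option maxHeartbeats 400000
set_option synthInstance.maxHeartbeats 400000

noncomputable section

namespace Fermat.Agent.Cor.ShafQ

open Fermat.Agent.CC Fermat.Agent.CFT.EC Fermat.Agent.L00.Tr CategoryTheory groupCohomology ExtCitation

section Congr

variable {G : Type} [Group G] {𝓛 : Lev G} {A B : Type} [AddCommGroup A] [AddCommGroup B]
  [DistribMulAction G A] [DistribMulAction G B]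

theorem card_H1_congr (e : A ≃+ B) (he : ∀ (g : G) (a : A), e (g • a) = g • e a) :
    Nat.card (H1 𝓛 A) = Nat.card (H1 𝓛 B) := by
  have he' : ∀ (g : G) (b : B), e.symm (g • b) = g • e.symm b := fun g b => by
    apply e.injective
    rw [he, e.apply_symm_apply, e.apply_symm_apply]
  refine Nat.card_congr ⟨H1coef 𝓛 e.toAddMonoidHom he, H1coef 𝓛 e.symm.toAddMonoidHom he',
    fun x => ?_, fun x => ?_⟩
  · obtain ⟨f, rfl⟩ := H1.mk_surjective x
    exact congrArg (H1.mk _ _) (Subtype.ext (funext fun g => e.symm_apply_apply _))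
  · obtain ⟨f, rfl⟩ := H1.mk_surjective x
    exact congrArg (H1.mk _ _) (Subtype.ext (funext fun g => e.apply_symm_apply _))

theorem card_H2_congr (e : A ≃+ B) (he : ∀ (g : G) (a : A), e (g • a) = g • e a) :
    Nat.card (H2 𝓛 A) = Nat.card (H2 𝓛 B) := by
  have he' : ∀ (g : G) (b : B), e.symm (g • b) = g • e.symm b := fun g b => by
    apply e.injective
    rw [he, e.apply_symm_apply, e.apply_symm_apply]
  refine Nat.card_congr ⟨H2coef 𝓛 e.toAddMonoidHom he, H2coef 𝓛 e.symm.toAddMonoidHom he',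
    fun x => ?_, fun x => ?_⟩
  · obtain ⟨f, rfl⟩ := H2.mk_surjective x
    exact congrArg (H2.mk _ _) (Subtype.ext (funext fun g => funext fun h => e.symm_apply_apply _))
  · obtain ⟨f, rfl⟩ := H2.mk_surjective x
    exact congrArg (H2.mk _ _) (Subtype.ext (funext fun g => funext fun h => e.apply_symm_apply _))

end Congr

variable {p : ℕ} [hp : Fact p.Prime] {S : Finset Nat.Primes}

/-- the homomorphisms `G_ℚ → ℤ/p` which are unramified outside `S` -/
def CharS (p : ℕ) (S : Finset Nat.Primes) : Type :=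
  {f : GQ →* Multiplicative (ZMod p) // ∃ F : IntermediateField ℚ Qb, F.IsUnramifiedOutside S ∧
    ∀ σ ∈ F.fixingSubgroup, f σ = 1}

/-- the cocycle of a character -/
def CharS.toZ1 (f : CharS p S) : Z1 (levS S) (Tv p) :=
  ⟨fun g => (show Tv p from Multiplicative.toAdd (f.1 g)), by
    obtain ⟨F, hF, h⟩ := f.2
    refine ⟨⟨F.fixingSubgroup, ⟨F, hF, le_rfl⟩, fun g s hs => ?_⟩, fun g h => ?_⟩
    · change Multiplicative.toAdd (f.1 (g * s)) = Multiplicative.toAdd (f.1 g)
      rw [map_mul, h s hs, mul_one]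
    · change Multiplicative.toAdd (f.1 (g * h)) = Multiplicative.toAdd (f.1 g) +
        Multiplicative.toAdd (f.1 h)
      rw [map_mul]
      rfl⟩

theorem toZ1_bijective : Function.Bijective fun f : CharS p S => H1.mk (levS S) (Tv p) f.toZ1 := by
  constructor
  · intro f f' h
    have h1 : H1.mk (levS S) (Tv p) (f.toZ1 - f'.toZ1) = 0 := by
      rw [map_sub]
      exact sub_eq_zero.mpr h
    obtain ⟨a, ha⟩ := H1.mk_eq_zero.mp h1
    apply Subtype.ext
    ext g
    have h2 := ha g
    rw [show g • a = a from rfl, sub_self] at h2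
    exact sub_eq_zero.mp h2
  · intro x
    obtain ⟨z, rfl⟩ := H1.mk_surjective x
    obtain ⟨⟨U, ⟨F, hF, hFU⟩, hU⟩, hc⟩ := z.2
    have hz1 : z.1 1 = 0 := by
      have h1 := hc 1 1
      rw [mul_one, one_smul] at h1
      exact left_eq_add.mp h1
    let f : GQ →* Multiplicative (ZMod p) :=
      MonoidHom.mk' (fun g => Multiplicative.ofAdd (show ZMod p from z.1 g)) (fun g h => by
        rw [hc]
        rfl)
    refine ⟨⟨f, F, hF, fun σ hσ => ?_⟩, rfl⟩
    have h1 := hU 1 σ (hFU hσ)
    rw [one_mul, hz1] at h1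
    exact congrArg Multiplicative.ofAdd h1

/-- **The number of characters of order dividing `p` of `G_ℚ` unramified outside `S`** (`p` odd, `p ∈ S`) is
`p ^ (1 + #{q ∈ S : q ≡ 1 mod p})`. -/
theorem card_char (hp2 : p ≠ 2) (hpS : pP p ∈ S) :
    Nat.card (CharS p S) = p ^ (1 + (S.filter fun q : Nat.Primes => (q : ℕ) % p = 1).card) :=
  (Nat.card_congr (Equiv.ofBijective _ toZ1_bijective)).trans (card_H1S_triv hp2 hpS)

/-- every homomorphism `G_ℚ → ℤ/p` which is unramified outside `p` is a multiple of a fixed one, `p` odd -/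
theorem card_char_p (hp2 : p ≠ 2) : Nat.card (CharS p {pP p}) = p := by
  rw [card_char hp2 (Finset.mem_singleton_self _), Finset.filter_singleton,
    if_neg (show ¬ ((pP p : Nat.Primes) : ℕ) % p = 1 from ?_), Finset.card_empty, add_zero, pow_one]
  change ¬ p % p = 1
  rw [Nat.mod_self]
  norm_num

/-- the trivial representation -/
abbrev TRep (p : ℕ) : Rep (ZMod p) GQ := Rep.trivial (ZMod p) GQ (ZMod p)

/-- identification of the modules -/
def eTriv (p : ℕ) : MT (TRep p) ≃+ Tv p := AddEquiv.refl (ZMod p)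

theorem eTriv_smul (g : GQ) (a : MT (TRep p)) : eTriv p (g • a) = g • eTriv p a := rfl

theorem triv_smooth : ∀ m : TRep p, ∃ F : IntermediateField ℚ (AlgebraicClosure ℚ),
    FiniteDimensional ℚ F ∧ ∀ s ∈ F.fixingSubgroup, (TRep p).ρ s m = m :=
  fun _ => ⟨⊥, inferInstance, fun _ _ => rfl⟩

theorem triv_unr : ∀ q : Nat.Primes, q ∉ S → ∀ A : ValuationSubring (AlgebraicClosure ℚ),
    A.LiesOverPrime (q : ℕ) → ∀ g ∈ A.inertiaSubgroupIn ℚ, (TRep p).ρ g = 1 :=
  fun _ _ _ _ _ _ => rfl

instance : FiniteDimensional (ZMod p) (TRep p) := inferInstanceAs (FiniteDimensional (ZMod p) (ZMod p))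

/-- `dim H¹(G_S, 𝔽_p) = 1 + #{q ∈ S : q ≡ 1 mod p}` -/
theorem finrank_H1_trivial (hp2 : p ≠ 2) (hpS : pPrime p ∈ S) :
    Module.finrank (ZMod p) (continuousH1S S (TRep p)) =
      1 + (S.filter fun q : Nat.Primes => (q : ℕ) % p = 1).card := by
  have f1 := PT.finite_continuousH1S (TRep p) hp2 hpS triv_smooth triv_unr
  have h1 := PT.card_pow (p := p) (continuousH1S S (TRep p))
  rw [← PT.card_H1S, card_H1_congr (eTriv p) eTriv_smul, card_H1S_triv hp2 hpS] at h1
  exact (Nat.pow_right_injective hp.out.two_le h1).symm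

/-- `dim H²(G_S, 𝔽_p) = #{q ∈ S : q ≡ 1 mod p}` -/
theorem finrank_H2_trivial (hp2 : p ≠ 2) (hpS : pPrime p ∈ S) :
    Module.finrank (ZMod p) (continuousH2S S (TRep p)) =
      (S.filter fun q : Nat.Primes => (q : ℕ) % p = 1).card := by
  have f1 := PT.finite_continuousH2S (TRep p) hp2 hpS triv_smooth triv_unr
  have h1 := PT.card_pow (p := p) (continuousH2S S (TRep p))
  rw [← PT.card_H2S, card_H2_congr (eTriv p) eTriv_smul, card_H2S_triv hp2 hpS] at h1
  exact (Nat.pow_right_injective hp.out.two_le h1).symm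

end Fermat.Agent.Cor.ShafQ
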