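import Fermat.Agent.Cor.ProP2
import Fermat.Agent.Cor.ShafQ2

/-!
# The maximal pro-`p` extension of `ℚ` unramified outside `p`

**Theorem** (`pro_p`). Let `K/ℚ` be a Galois extension of degree `p ^ k`, `p` a prime, such that `|disc K|` is a power of
`p`, and `K` totally real if `p = 2`. Then `K/ℚ` is cyclic and `K` is contained in `ℚ(ζ_{p^(k+3)})`.

So the maximal pro-`p` extension of `ℚ` which is unramified outside `p` (and totally real if `p = 2`) is the cyclotomic
`ℤ_p`-extension. In particular there are no non-abelian `p`-extensions of this kind.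

Proof. For odd `p` there are exactly `p` homomorphisms `G_ℚ → ℤ/p` unramified outside `p` by Shafarevich's formula
(`ShafQ.card_char_p`), for `p = 2` Kummer theory (`w1_two`). Hence a subgroup of index `p` containing a topological
generator of the cyclotomic `ℤ_p`-extension cannot exist, and every quotient of `G_ℚ` of this kind which is a `p`-group is
generated by one element (`cyclic_of_char`), hence abelian, hence cyclotomic (`wild`).

This file is not used by any of the statement files.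
-/

set_option autoImplicit false
set_option linter.unusedSectionVars false
set_option linter.style.haveILetI false

noncomputable section

namespace Fermat.Agent.Cor.ProP

open Fermat.Agent.CC (Qb GQ)
open Fermat.Agent.CC
open Fermat.Agent.H05 Fermat.Agent.H09
open scoped Pointwise NumberField

section Odd

variable {p : ℕ} [hp : Fact p.Prime]

theorem mem_charS (f : GQ →* Multiplicative (ZMod p)) (hf : IsOpen (f.ker : Set GQ))
    (hu : ∀ q : ℕ, q.Prime → q ≠ p → Unr q f.ker) :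
    ∃ F : IntermediateField ℚ Qb, F.IsUnramifiedOutside {pP p} ∧
      ∀ σ ∈ F.fixingSubgroup, f σ = 1 := by
  haveI := H51.isGalois_Qbar
  have hF : (IntermediateField.fixedField f.ker).fixingSubgroup = f.ker :=
    InfiniteGalois.fixingSubgroup_fixedField
      (⟨f.ker, Subgroup.isClosed_of_isOpen _ hf⟩ : ClosedSubgroup GQ)
  refine ⟨IntermediateField.fixedField f.ker, ⟨?_, fun q hq A hA => ?_⟩, fun σ hσ => ?_⟩
  · rw [← InfiniteGalois.isOpen_iff_finite, hF]
    exact hf
  · rw [hF]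
    exact hu q q.2 (fun h => hq (Finset.mem_singleton.mpr (Subtype.ext h))) A hA
  · rw [hF] at hσ
    exact hσ

/-- a nontrivial character of order `p` of the cyclotomic field -/
theorem exists_f1 (hp2 : p ≠ 2) {n : ℕ} (hn : 3 ≤ n) {g₀ : GQ} (hg₀ : IsGen p n g₀) :
    ∃ f : GQ →* Multiplicative (ZMod p), IsOpen (f.ker : Set GQ) ∧
      (∀ q : ℕ, q.Prime → q ≠ p → Unr q f.ker) ∧ f g₀ ≠ 1 := by
  have hM : p ^ 2 ≠ 0 := pow_ne_zero _ hp.out.ne_zero
  haveI : NeZero (p ^ 2) := ⟨hM⟩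
  obtain ⟨c, hc⟩ := exists_char (p ^ 2) hM
  have hcg : ((c g₀ : (ZMod (p ^ 2))ˣ) : ZMod (p ^ 2)) = ((1 + p : ℕ) : ZMod (p ^ 2)) := by
    rw [hc]
    intro x hx
    have h1 := hg₀ x (by
      obtain ⟨d, hd⟩ := pow_dvd_pow p (show 2 ≤ n by omega)
      rw [hd, pow_mul, hx, one_pow])
    rwa [if_neg hp2] at h1
  have hord : orderOf (c g₀) = p := by
    rw [← orderOf_units, hcg]
    have h1 := ZMod.orderOf_one_add_prime hp.out hp2 1
    rw [pow_one] at h1
    push_cast
    exact h1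
  have hcard : Nat.card (ZMod (p ^ 2))ˣ = p * (p - 1) := by
    rw [Nat.card_eq_fintype_card, ZMod.card_units_eq_totient,
      Nat.totient_prime_pow hp.out (by omega)]
    simp
  set U := pwS (cyc (p ^ 2)) (cyc_com hM) (p - 1) with hU
  have hUm : ∀ g : GQ, g ∈ U ↔ c g ^ (p - 1) = 1 := by
    intro g
    rw [hU, mem_pwS, ← char_eq_one hc, map_pow]
  have hcU : cyc (p ^ 2) ≤ U := le_pwS _ _ _
  have hUc : ∀ g h, g * h * g⁻¹ * h⁻¹ ∈ U := fun g h => hcU (cyc_com hM g h)
  haveI hUn := normal_of_com hUc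
  letI := commQ U hUc
  have hg₀U : ((g₀ : GQ) : GQ ⧸ U) ≠ 1 := by
    rw [Ne, QuotientGroup.eq_one_iff, hUm]
    intro h1
    have h2 := orderOf_dvd_of_pow_eq_one h1
    rw [hord] at h2
    have h3 := Nat.le_of_dvd (by have := hp.out.two_le; omega) h2
    have := hp.out.two_le
    omega
  obtain ⟨f, hf⟩ := exists_hom_comm (Q := GQ ⧸ U) hp.out (fun x => by
    obtain ⟨g, rfl⟩ := QuotientGroup.mk_surjective x
    rw [← QuotientGroup.mk_pow]
    refine (QuotientGroup.eq_one_iff _).mpr ((hUm _).mpr ?_)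
    rw [map_pow, ← pow_mul, ← hcard, pow_card_eq_one']) hg₀U
  have hle : cyc (p ^ 2) ≤ (f.comp (QuotientGroup.mk' U)).ker := by
    intro g hg
    have h2 : ((g : GQ) : GQ ⧸ U) = 1 := (QuotientGroup.eq_one_iff g).mpr (hcU hg)
    change f ((g : GQ) : GQ ⧸ U) = 1
    rw [h2, map_one]
  refine ⟨f.comp (QuotientGroup.mk' U), Subgroup.isOpen_mono hle (isOpen_cyc hM), ?_, hf⟩
  intro q hq hqp A hA σ hσ
  exact hle (unr_cyc hq (fun hd => hqp
    ((Nat.prime_dvd_prime_iff_eq hq hp.out).mp (hq.dvd_of_dvd_pow hd))) A hA hσ)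

/-- **characters of order `p` unramified outside `p`**, `p` odd -/
theorem w1_odd (hp2 : p ≠ 2) : W1 p := by
  rintro f hf hu - ⟨n, g₀, hn, hg₀, hfg⟩
  obtain ⟨f₁, hf₁, hu₁, hg₁⟩ := exists_f1 hp2 hn hg₀
  have hc := ShafQ.card_char_p (p := p) hp2
  obtain ⟨F, hF, h1⟩ := mem_charS f₁ hf₁ hu₁
  haveI : Finite (ShafQ.CharS p {pP p}) := Nat.finite_of_card_ne_zero (by
    rw [hc]; exact hp.out.ne_zero)
  let Θ : Fin p → ShafQ.CharS p {pP p} := fun i =>
    ⟨f₁ ^ i.val, F, hF, fun σ hσ => by rw [MonoidHom.pow_apply, h1 σ hσ, one_pow]⟩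
  have hpp : ∀ u : Multiplicative (ZMod p), u ^ p = 1 := by
    intro u
    have h1 : ((p : ℕ) • Multiplicative.toAdd u : ZMod p) = 0 := by
      rw [nsmul_eq_mul, ZMod.natCast_self, zero_mul]
    exact h1
  have hord : orderOf (f₁ g₀) = p := orderOf_eq_prime (hpp _) hg₁
  have hinj : Function.Injective Θ := by
    intro i j hij
    have h2 := DFunLike.congr_fun (congrArg Subtype.val hij) g₀
    have h3 : f₁ g₀ ^ i.val = f₁ g₀ ^ j.val := h2
    exact Fin.ext (pow_injOn_Iio_orderOf (by rw [Set.mem_Iio, hord]; exact i.2)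
      (by rw [Set.mem_Iio, hord]; exact j.2) h3)
  have hbij : Function.Bijective Θ := by
    rw [Nat.bijective_iff_injective_and_card]
    exact ⟨hinj, by rw [Nat.card_fin, hc]⟩
  obtain ⟨i, hi⟩ := hbij.2 ⟨f, mem_charS f hf hu⟩
  have h2 : f₁ ^ i.val = f := congrArg Subtype.val hi
  have h3 : f₁ g₀ ^ i.val = 1 := by
    rw [← MonoidHom.pow_apply, h2, hfg]
  have h4 : i.val = 0 := by
    have h5 := orderOf_dvd_of_pow_eq_one h3
    rw [hord] at h5
    exact Nat.eq_zero_of_dvd_of_lt h5 i.2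
  rw [← h2, h4, pow_zero]

end Odd

theorem w1 {p : ℕ} (hp : p.Prime) : W1 p := by
  haveI : Fact p.Prime := ⟨hp⟩
  rcases eq_or_ne p 2 with rfl | h2
  · exact w1_two
  · exact w1_odd h2

/-- **Group theoretic form**: an open normal subgroup `N` of `G_ℚ` of index `p ^ k`, unramified outside `p` and
containing complex conjugation if `p = 2`, has cyclic quotient and contains `Gal(ℚ̄/ℚ(μ_{p^(k+3)}))`. -/
theorem cyclic {p k : ℕ} (hp : p.Prime) {N : Subgroup GQ} [N.Normal] (hop : IsOpen (N : Set GQ))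
    (hidx : N.index = p ^ k) (hu : ∀ q : ℕ, q.Prime → q ≠ p → Unr q N) (hcj : p = 2 → cj ∈ N) :
    IsCyclic (GQ ⧸ N) ∧ cyc (p ^ (k + 3)) ≤ N := by
  haveI : Fact p.Prime := ⟨hp⟩
  haveI : Finite (GQ ⧸ N) := Subgroup.quotient_finite_of_isOpen N hop
  have hP : IsPGroup p (GQ ⧸ N) := IsPGroup.of_card (n := k) hidx
  obtain ⟨g₀, hg₀⟩ := exists_isGen hp (k + 3)
  have hgen := cyclic_of_char hp hP g₀ (fun f hfN hfg => by
    have hle : N ≤ f.ker := fun n hn => hfN n hn
    exact w1 hp f (Subgroup.isOpen_mono hle hop) (fun q hq hqp A hA σ hσ => hle (hu q hq hqp A hA hσ))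
      (fun h2 => hfN _ (hcj h2)) ⟨k + 3, g₀, by omega, hg₀, hfg⟩)
  have hcyc : IsCyclic (GQ ⧸ N) := ⟨((g₀ : GQ) : GQ ⧸ N), fun x => by
    obtain ⟨g, rfl⟩ := QuotientGroup.mk_surjective x
    obtain ⟨i, hi⟩ := hgen g
    refine ⟨i, ?_⟩
    have h1 : ((g₀ ^ i : GQ) : GQ ⧸ N) = (g : GQ ⧸ N) := QuotientGroup.eq.mpr hi
    rw [QuotientGroup.mk_zpow] at h1
    exact h1⟩
  refine ⟨hcyc, ?_⟩
  have hcomm : ∀ x y : GQ ⧸ N, x * y = y * x := fun x y => by
    letI := IsCyclic.commGroup (α := GQ ⧸ N)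
    exact mul_comm x y
  refine wild hp (w1 hp) (k := k) ⟨hop, fun g h => ?_, fun g => ?_⟩ hu hcj
  · rw [← QuotientGroup.eq_one_iff, QuotientGroup.mk_mul, QuotientGroup.mk_mul,
      QuotientGroup.mk_mul, QuotientGroup.mk_inv, QuotientGroup.mk_inv, hcomm ((g : GQ) : GQ ⧸ N),
      mul_inv_cancel_right, mul_inv_cancel]
  · rw [← hidx]
    exact Subgroup.pow_index_mem N g

section Field

variable (K : Type*) [Field K] [NumberField K] [IsGalois ℚ K]

/-- inertia groups of unramified primes are trivial -/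
theorem inertia_trivial {q : ℕ} (hq : q.Prime) (hd : ¬ (q : ℤ) ∣ NumberField.discr K)
    (P : Ideal (𝓞 K)) (hP : P.IsPrime) (hqP : (q : 𝓞 K) ∈ P) (τ : K ≃ₐ[ℚ] K)
    (hτ : ∀ x y : 𝓞 K, (y : K) = τ (x : K) → y - x ∈ P) : τ = 1 := by
  have hun := (NumberField.not_dvd_discr_iff_isUnramifiedIn K (𝓞 K)
    (Nat.prime_iff_prime_int.mp hq)).mp hd
  haveI : Fact q.Prime := ⟨hq⟩
  haveI hover : P.LiesOver (Ideal.span {(q : ℤ)}) := by
    rw [Ideal.liesOver_iff]
    refine Ideal.IsMaximal.eq_of_le (Int.ideal_span_isMaximal_of_prime q)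
      Ideal.IsPrime.ne_top' ?_
    rw [Ideal.span_singleton_le_iff_mem, Ideal.mem_comap, algebraMap_int_eq, map_natCast]
    exact hqP
  have h1 : Algebra.IsUnramifiedAt ℤ P := hun P hP hover
  letI : MulSemiringAction Gal(K/ℚ) (𝓞 K) := IsIntegralClosure.MulSemiringAction ℤ ℚ K (𝓞 K)
  haveI := IsGaloisGroup.of_isFractionRing Gal(K/ℚ) ℤ (𝓞 K) ℚ K
  haveI : PerfectField (P.under ℤ).ResidueField := inferInstance
  rw [← Ideal.ramificationIdx_eq_one_iff,
    ← Ideal.ramificationIdxIn_eq_ramificationIdx (P.under ℤ) _ Gal(K/ℚ),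
    ← Ideal.card_inertia_eq_ramificationIdxIn (G := Gal(K/ℚ)) (P.under ℤ) P] at h1
  have hmem : τ ∈ P.inertia Gal(K/ℚ) := by
    intro x
    refine hτ x (τ • x) ?_
    exact algebraMap_galRestrict_apply ℤ τ x
  have hs := (Nat.card_eq_one_iff_unique.mp h1).1
  exact congrArg Subtype.val (hs.elim ⟨τ, hmem⟩ 1)

variable {K}

/-- an embedding of the integers -/
def intMap {L : Type*} [Field L] [CharZero L] (ι : K →ₐ[ℚ] L) : 𝓞 K →+* integralClosure ℤ L where
  toFun x := ⟨ι (x : K), by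
    have := x.2
    rw [mem_integralClosure_iff] at this ⊢
    exact this.map (ι.restrictScalars ℤ)⟩
  map_one' := Subtype.ext (by simp)
  map_mul' x y := Subtype.ext (by simp)
  map_zero' := Subtype.ext (by simp)
  map_add' x y := Subtype.ext (by simp)

theorem unr_ker_aux {L : Type*} [Field L] [CharZero L] [IsGalois ℚ L] {ι : K →ₐ[ℚ] L}
    {τ : K ≃ₐ[ℚ] K} {σ : L ≃ₐ[ℚ] L} (hr : ∀ x : K, σ (ι x) = ι (τ x)) {q : ℕ} (hq : q.Prime)
    (hd : ¬ (q : ℤ) ∣ NumberField.discr K) {A : ValuationSubring L} (hA : A.LiesOverPrime q)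
    (hσ : σ ∈ A.inertiaSubgroupIn ℚ) : τ = 1 := by
  refine inertia_trivial K hq hd ((center A).comap (intMap ι)) inferInstance (by
    rw [Ideal.mem_comap, map_natCast]
    exact natCast_mem_center hA) _ fun x y hxy => ?_
  rw [Ideal.mem_comap, map_sub]
  have h1 := (H12.mem_inertia_iff hq hA σ).mp hσ (intMap ι x)
  have h2 : σ • intMap ι x = intMap ι y := by
    apply Subtype.ext
    change σ (ι (x : K)) = ι (y : K)
    rw [hr, hxy]
  rwa [h2] at h1

theorem exists_restrict (ι : K →ₐ[ℚ] Qb) : ∃ r : GQ →* (K ≃ₐ[ℚ] K), Function.Surjective r ∧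
    ∀ (g : GQ) (x : K), g (ι x) = ι (r g x) := by
  haveI hgal := H51.isGalois_Qbar
  letI : Algebra K Qb := ι.toRingHom.toAlgebra
  haveI : IsScalarTower ℚ K Qb := IsScalarTower.of_algebraMap_eq fun x => (ι.commutes x).symm
  exact ⟨AlgEquiv.restrictNormalHom K, AlgEquiv.restrictNormalHom_surjective Qb,
    fun g x => (AlgEquiv.restrictNormal_commutes g K x).symm⟩

theorem unr_ker {ι : K →ₐ[ℚ] Qb} {r : GQ →* (K ≃ₐ[ℚ] K)} (hr : ∀ (g : GQ) (x : K), g (ι x) = ι (r g x))
    {q : ℕ} (hq : q.Prime) (hd : ¬ (q : ℤ) ∣ NumberField.discr K) : Unr q r.ker := by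
  haveI hgal := H51.isGalois_Qbar
  exact fun A hA σ hσ => MonoidHom.mem_ker.mpr (unr_ker_aux (hr σ) hq hd hA hσ)

/-- **The maximal pro-`p` extension of `ℚ` unramified outside `p`** (and totally real if `p = 2`) is the cyclotomic
`ℤ_p`-extension: a Galois extension `K/ℚ` of degree `p ^ k` whose discriminant is prime to all primes `q ≠ p`, and which
is totally real if `p = 2`, is cyclic and contained in `ℚ(ζ_{p^(k+3)})`. -/
theorem pro_p {p k : ℕ} (hp : p.Prime) (hK : Module.finrank ℚ K = p ^ k)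
    (hd : ∀ q : ℕ, q.Prime → (q : ℤ) ∣ NumberField.discr K → q = p)
    (hreal : p = 2 → NumberField.IsTotallyReal K) :
    IsCyclic (K ≃ₐ[ℚ] K) ∧ Nonempty (K →ₐ[ℚ] CyclotomicField (p ^ (k + 3)) ℚ) := by
  haveI hgal := H51.isGalois_Qbar
  let ι : K →ₐ[ℚ] Qb := IsAlgClosed.lift
  obtain ⟨r, hrs, hr⟩ := exists_restrict ι
  haveI : FiniteDimensional ℚ ι.fieldRange :=
    (AlgEquiv.ofInjectiveField ι).toLinearEquiv.finiteDimensional
  have hker : r.ker = ι.fieldRange.fixingSubgroup := by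
    ext g
    rw [MonoidHom.mem_ker, IntermediateField.mem_fixingSubgroup_iff]
    constructor
    · rintro h _ ⟨x, rfl⟩
      change g (ι x) = ι x
      rw [hr, h, AlgEquiv.one_apply]
    · intro h
      ext x
      apply ι.toRingHom.injective
      change ι (r g x) = ι x
      rw [← hr]
      exact h (ι x) ⟨x, rfl⟩
  have hop : IsOpen (r.ker : Set GQ) := by
    rw [hker]
    exact IntermediateField.fixingSubgroup_isOpen _
  have hidx : r.ker.index = p ^ k := by
    rw [Subgroup.index_ker, MonoidHom.range_eq_top.mpr hrs, ← hK,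
      Nat.card_congr Subgroup.topEquiv.toEquiv, IsGalois.card_aut_eq_finrank]
  have hcj : p = 2 → cj ∈ r.ker := by
    intro h2
    haveI := hreal h2
    rw [MonoidHom.mem_ker]
    ext x
    apply ι.toRingHom.injective
    change ι (r cj x) = ι x
    rw [← hr]
    apply complexEmbedding.toRingHom.injective
    change complexEmbedding (complexConjugation (ι x)) = complexEmbedding (ι x)
    rw [complexEmbedding_complexConjugation]
    have h3 := NumberField.IsTotallyReal.isReal (K := K)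
      (NumberField.InfinitePlace.mk (complexEmbedding.toRingHom.comp ι.toRingHom))
    rw [NumberField.InfinitePlace.isReal_mk_iff] at h3
    exact RingHom.congr_fun (NumberField.ComplexEmbedding.isReal_iff.mp h3) x
  obtain ⟨h1, h2⟩ := cyclic hp hop hidx (fun q hq hqp => unr_ker hr hq fun h => hqp (hd q hq h)) hcj
  have e : GQ ⧸ r.ker ≃* (K ≃ₐ[ℚ] K) := QuotientGroup.quotientKerEquivOfSurjective r hrs
  refine ⟨isCyclic_of_surjective e e.surjective, ?_⟩
  have hm : p ^ (k + 3) ≠ 0 := pow_ne_zero _ hp.ne_zero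
  haveI : NeZero (p ^ (k + 3)) := ⟨hm⟩
  obtain ⟨ζ, hζ⟩ := H16.CH.exists_prim (p ^ (k + 3)) hm
  set C : IntermediateField ℚ Qb := IntermediateField.adjoin ℚ {ζ} with hC
  have h3 : ι.fieldRange ≤ C := by
    rw [← InfiniteGalois.fixedField_fixingSubgroup C,
      ← InfiniteGalois.fixedField_fixingSubgroup ι.fieldRange, ← hker]
    refine IntermediateField.fixedField_antitone fun g hg => h2 fun x hx => ?_
    have h2 : g ζ = ζ := (IntermediateField.mem_fixingSubgroup_iff _ _).mp hg ζ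
      (IntermediateField.mem_adjoin_simple_self ℚ ζ)
    obtain ⟨i, -, rfl⟩ := hζ.eq_pow_of_pow_eq_one hx
    rw [map_pow, h2]
  haveI : IsCyclotomicExtension {p ^ (k + 3)} ℚ C := hζ.intermediateField_adjoin_isCyclotomicExtension ℚ
  let j : K →ₐ[ℚ] C := ι.codRestrict C.toSubalgebra fun x => h3 ⟨x, rfl⟩
  letI : Algebra ℚ (CyclotomicField (p ^ (k + 3)) ℚ) := CyclotomicField.algebra _ ℚ
  let e' : C ≃ₐ[ℚ] CyclotomicField (p ^ (k + 3)) ℚ :=
    IsCyclotomicExtension.algEquiv {p ^ (k + 3)} ℚ C _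
  exact ⟨(e'.toAlgHom.comp j).toRingHom.toRatAlgHom⟩

end Field

end Fermat.Agent.Cor.ProP
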