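import Fermat.Agent.Cor.Grunwald
import Fermat.Agent.Cor.ProP

/-!
# Cyclic extensions of `ℚ` of odd prime degree with prescribed splitting behaviour

Let `p` be an odd prime and let `Sp`, `In`, `Ra` be disjoint finite sets of primes such that all `q ∈ Ra` satisfy `q = p` or
`q ≡ 1 mod p`. Then there is a cyclic extension of `ℚ` of degree `p` in which the primes of `Sp` split completely, the
primes of `In` are inert and the primes of `Ra` are (totally) ramified (`exists_character`, in terms of characters of `G_ℚ`,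
decomposition and inertia groups). The condition on `Ra` is necessary.

This file is not used by any of the statement files.
-/

set_option autoImplicit false
set_option linter.unusedSectionVars false
set_option linter.style.haveILetI false
set_option maxHeartbeats 400000

noncomputable section

namespace Fermat.Agent.Cor.Grunwald

open Fermat.Agent.CC Fermat.Agent.CFT.EC
open Fermat.Agent.LF (DK)
open Fermat.Agent.Cor.ShafQ Fermat.Agent.Cor.ProP
open scoped Pointwise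

section

variable {p : ℕ} [hp : Fact p.Prime]

/-- Grunwald's theorem for local cocycles with trivial coefficients -/
theorem exists_char_of_Z1 (hp2 : p ≠ 2) (T : Finset Nat.Primes)
    (A : Nat.Primes → ValuationSubring Qb) (hA : ∀ q, (A q).LiesOverPrime (q : ℕ))
    (c : ∀ q : Nat.Primes, Z1 (lev.sub (DK (A q) ⊥)) (Tv p)) :
    ∃ f : GQ →* Multiplicative (ZMod p), IsOpen (f.ker : Set GQ) ∧
      ∀ q ∈ T, ∀ (g : GQ) (hg : g ∈ DK (A q) ⊥), Multiplicative.toAdd (f g) = (c q).1 ⟨g, hg⟩ := by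
  haveI := H51.isGalois_Qbar
  obtain ⟨S, x, hx⟩ := grunwald_H1 (p := p) hp2 T A hA (fun q => H1.mk _ _ (c q))
  obtain ⟨f, rfl⟩ := toZ1_bijective.2 x
  obtain ⟨F, hF, hF1⟩ := f.2
  haveI := hF.1
  refine ⟨f.1, Subgroup.isOpen_mono (fun σ hσ => hF1 σ hσ)
    (IntermediateField.fixingSubgroup_isOpen F), fun q hq g hg => ?_⟩
  have h2 := sub_eq_zero.mpr (hx q hq)
  have h3 : H1.mk (lev.sub (DK (A q) ⊥)) (Tv p)
      (Z1map (DK (A q) ⊥).subtype (cont_D S (A q) ⊥) (AddMonoidHom.id _)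
        (fun _ _ => rfl) f.toZ1 - c q) = 0 := by
    rw [map_sub]
    exact h2
  obtain ⟨a, ha⟩ := H1.mk_eq_zero.mp h3
  have h4 := ha ⟨g, hg⟩
  have h5 : (⟨g, hg⟩ : DK (A q) ⊥) • a = a := rfl
  rw [h5, sub_self] at h4
  exact sub_eq_zero.mp h4

/-- unramified local characters of order `p` -/
theorem exists_unr {q : ℕ} (hq : q.Prime) {A : ValuationSubring Qb} (hA : A.LiesOverPrime q) :
    ∃ (c : Z1 (lev.sub (DK A ⊥)) (Tv p)), (∃ (φ : GQ) (hφ : φ ∈ DK A ⊥), c.1 ⟨φ, hφ⟩ ≠ 0) ∧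
      ∀ (σ : GQ) (hσ : σ ∈ DK A ⊥), σ ∈ A.inertiaSubgroupIn ℚ → c.1 ⟨σ, hσ⟩ = 0 := by
  obtain ⟨φ, P⟩ := exists_procyc hq hA (⊥ : IntermediateField ℚ Qb)
  obtain ⟨χ, h1, h2, h3, h4⟩ := P.chr p hp.out.pos
  refine ⟨⟨fun g => (show Tv p from χ g), h2, h1⟩, ⟨φ.1, φ.2, ?_⟩, fun σ hσ hσI => ?_⟩
  · change χ φ ≠ 0
    rw [h4]
    haveI : Fact (1 < p) := ⟨hp.out.one_lt⟩
    exact one_ne_zero
  · exact h3 _ ⟨hσI, hσ.2⟩

theorem exists_psi {q : ℕ} (hq : q.Prime) (h : q % p = 1) :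
    ∃ (ψ : (ZMod q)ˣ →* Multiplicative (ZMod p)) (a : (ZMod q)ˣ), ψ a ≠ 1 := by
  haveI : Fact q.Prime := ⟨hq⟩
  obtain ⟨r, hr⟩ : ∃ r, q - 1 = r * p := by
    refine ⟨q / p, ?_⟩
    have h1 := Nat.div_add_mod q p
    rw [h] at h1
    rw [mul_comm]
    omega
  obtain ⟨g, hg⟩ := IsCyclic.exists_generator (α := (ZMod q)ˣ)
  have hog : orderOf g = q - 1 := by
    rw [orderOf_eq_card_of_forall_mem_zpowers hg, Nat.card_eq_fintype_card, ZMod.card_units]
  have hr0 : 0 < r := by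
    rcases Nat.eq_zero_or_pos r with h0 | h0
    · rw [h0, zero_mul] at hr
      have := hq.one_lt
      omega
    · exact h0
  have hgr : g ^ r ≠ 1 := by
    intro h1
    have h2 := Nat.le_of_dvd hr0 (orderOf_dvd_of_pow_eq_one h1)
    rw [hog, hr] at h2
    have h3 := hp.out.two_le
    nlinarith
  obtain ⟨φ, hφ⟩ := exists_hom_comm (Q := (powMonoidHom r : (ZMod q)ˣ →* (ZMod q)ˣ).range) hp.out
    (by
      rintro ⟨_, y, rfl⟩
      apply Subtype.ext
      change (y ^ r) ^ p = 1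
      rw [← pow_mul, ← hr]
      exact ZMod.units_pow_card_sub_one_eq_one q y)
    (x₀ := ⟨g ^ r, g, rfl⟩) (fun h1 => hgr (congrArg Subtype.val h1))
  exact ⟨φ.comp (powMonoidHom r : (ZMod q)ˣ →* (ZMod q)ˣ).rangeRestrict, g, hφ⟩

/-- a nontrivial character of order `p` unramified outside `q` -/
theorem exists_ram_aux (hp2 : p ≠ 2) {q : ℕ} (hq : q.Prime) (h : q = p ∨ q % p = 1) :
    ∃ f : GQ →* Multiplicative (ZMod p), IsOpen (f.ker : Set GQ) ∧
      (∀ ℓ : ℕ, ℓ.Prime → ℓ ≠ q → Unr ℓ f.ker) ∧ ∃ g, f g ≠ 1 := by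
  rcases h with rfl | h
  · obtain ⟨g₀, hg₀⟩ := exists_isGen hp.out 3
    obtain ⟨f, h1, h2, h3⟩ := exists_f1 hp2 le_rfl hg₀
    exact ⟨f, h1, h2, g₀, h3⟩
  · obtain ⟨ψ, a, ha⟩ := exists_psi (p := p) hq h
    obtain ⟨c, hc⟩ := exists_char q hq.ne_zero
    have hle : cyc q ≤ (ψ.comp c).ker := fun g hg => by
      rw [MonoidHom.mem_ker, MonoidHom.comp_apply, (char_eq_one hc g).mpr hg, map_one]
    haveI : NeZero q := ⟨hq.ne_zero⟩
    obtain ⟨g, hg⟩ := H16.CH.exists_gal hq.ne_zero (ZMod.val_coe_unit_coprime a)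
    refine ⟨ψ.comp c, Subgroup.isOpen_mono hle (isOpen_cyc hq.ne_zero), fun ℓ hℓ hne A hA σ hσ =>
      hle (unr_cyc hℓ (fun hd => hne ((Nat.prime_dvd_prime_iff_eq hℓ hq).mp hd)) A hA hσ), g, ?_⟩
    have h1 : c g = a := by
      apply Units.ext
      rw [← ZMod.natCast_zmod_val (a : ZMod q)]
      exact (hc g _).mpr hg
    rw [MonoidHom.comp_apply, h1]
    exact ha

theorem exists_ram (hp2 : p ≠ 2) {q : ℕ} (hq : q.Prime) (h : q = p ∨ q % p = 1)
    {A : ValuationSubring Qb} (hA : A.LiesOverPrime q) :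
    ∃ (c : Z1 (lev.sub (DK A ⊥)) (Tv p)) (σ : GQ) (hσ : σ ∈ DK A ⊥),
      σ ∈ A.inertiaSubgroupIn ℚ ∧ c.1 ⟨σ, hσ⟩ ≠ 0 := by
  haveI := H51.isGalois_Qbar
  obtain ⟨f, h1, h2, g, hg⟩ := exists_ram_aux hp2 hq h
  have h3 : ¬ A.inertiaSubgroupIn ℚ ≤ f.ker := by
    intro hle
    have h4 : Unr q f.ker := unr_of_one hq inferInstance hA hle
    have h5 : f.ker = ⊤ := top_of_unr inferInstance h1 (fun ℓ hℓ => by
      rcases eq_or_ne ℓ q with rfl | hne
      · exact h4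
      · exact h2 ℓ hℓ hne)
    apply hg
    have h6 : g ∈ f.ker := by rw [h5]; trivial
    exact h6
  obtain ⟨σ, hσ, hσ1⟩ := SetLike.not_le_iff_exists.mp h3
  obtain ⟨E, hE, hEO⟩ := (krullTopology_mem_nhds_one_iff ℚ Qb (f.ker : Set GQ)).mp
    (h1.mem_nhds (one_mem _))
  refine ⟨⟨fun g => (show Tv p from Multiplicative.toAdd (f g)),
    ⟨E.fixingSubgroup.comap (DK A ⊥).subtype,
      ⟨E.fixingSubgroup, ⟨E, hE, le_rfl⟩, le_rfl⟩, fun g s hs => ?_⟩, fun g h => ?_⟩, σ,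
    by rw [dk_bot]; exact inertia_le_dec _ hσ, hσ, fun h0 => hσ1 h0⟩
  · change Multiplicative.toAdd (f (g.1 * s.1)) = Multiplicative.toAdd (f g)
    have h7 : f s.1 = 1 := hEO hs
    rw [map_mul, h7, mul_one]
  · change Multiplicative.toAdd (f (g.1 * h.1)) = Multiplicative.toAdd (f g) + Multiplicative.toAdd (f h)
    rw [map_mul]
    rfl

theorem mem_dec_conj {A : ValuationSubring Qb} (g : GQ) {σ : GQ} :
    σ ∈ (g • A).decompositionSubgroup ℚ ↔ g⁻¹ * σ * g ∈ A.decompositionSubgroup ℚ := by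
  change σ • g • A = g • A ↔ (g⁻¹ * σ * g) • A = A
  rw [mul_smul, mul_smul, inv_smul_eq_iff]

theorem conj_apply (f : GQ →* Multiplicative (ZMod p)) (g σ : GQ) : f (g⁻¹ * σ * g) = f σ := by
  rw [map_mul, map_mul, mul_comm, ← mul_assoc, ← map_mul, mul_inv_cancel, map_one, one_mul]

end

/-- **Prescribed splitting behaviour in cyclic extensions of odd prime degree `p`**: given disjoint finite sets `Sp`, `In`,
`Ra` of primes, all `q ∈ Ra` with `q = p` or `q ≡ 1 mod p`, there is a cyclic extension of `ℚ` of degree `p` (the fixed field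
of the kernel of `f`) in which the primes of `Sp` split completely, the primes of `In` are inert and the primes of `Ra` are
totally ramified. -/
theorem exists_character {p : ℕ} (hp : p.Prime) (hp2 : p ≠ 2) (Sp In Ra : Finset ℕ)
    (hSp : ∀ q ∈ Sp, q.Prime) (hIn : ∀ q ∈ In, q.Prime) (hRa : ∀ q ∈ Ra, q.Prime)
    (h12 : Disjoint Sp In) (h13 : Disjoint Sp Ra) (h23 : Disjoint In Ra)
    (hram : ∀ q ∈ Ra, q = p ∨ q % p = 1) :
    ∃ f : GQ →* Multiplicative (ZMod p), Function.Surjective f ∧ IsOpen (f.ker : Set GQ) ∧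
      (∀ q ∈ Sp, ∀ A : ValuationSubring Qb, A.LiesOverPrime q → A.decompositionSubgroup ℚ ≤ f.ker) ∧
      (∀ q ∈ In, ∀ A : ValuationSubring Qb, A.LiesOverPrime q →
        A.inertiaSubgroupIn ℚ ≤ f.ker ∧ ¬ A.decompositionSubgroup ℚ ≤ f.ker) ∧
      (∀ q ∈ Ra, ∀ A : ValuationSubring Qb, A.LiesOverPrime q → ¬ A.inertiaSubgroupIn ℚ ≤ f.ker) := by
  classical
  haveI : Fact p.Prime := ⟨hp⟩
  haveI := H51.isGalois_Qbar
  -- an auxiliary inert prime
  obtain ⟨q₀, hq₀, hq₀S⟩ : ∃ q₀ : ℕ, q₀.Prime ∧ q₀ ∉ Sp ∪ In ∪ Ra := by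
    obtain ⟨q₀, h1, h2⟩ := Nat.infinite_setOfPred_prime.exists_notMem_finset (Sp ∪ In ∪ Ra)
    exact ⟨q₀, h1, h2⟩
  simp only [Finset.mem_union, not_or] at hq₀S
  set In' := insert q₀ In with hIn'
  have h12' : Disjoint Sp In' := by
    rw [hIn', Finset.disjoint_insert_right]
    exact ⟨hq₀S.1.1, h12⟩
  have h23' : Disjoint In' Ra := by
    rw [hIn', Finset.disjoint_insert_left]
    exact ⟨hq₀S.2, h23⟩
  have hInp : ∀ q ∈ In', q.Prime := fun q hq => by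
    rcases Finset.mem_insert.mp hq with rfl | h
    · exact hq₀
    · exact hIn q h
  choose A hA using fun q : Nat.Primes => H05.exists_liesOverPrime Qb q.2
  have hc : ∀ q : Nat.Primes, ∃ c : Z1 (lev.sub (DK (A q) ⊥)) (ShafQ.Tv p),
      ((q : ℕ) ∈ Sp → ∀ g, c.1 g = 0) ∧
      ((q : ℕ) ∈ In' → (∃ (φ : GQ) (hφ : φ ∈ DK (A q) ⊥), c.1 ⟨φ, hφ⟩ ≠ 0) ∧
        ∀ (σ : GQ) (hσ : σ ∈ DK (A q) ⊥), σ ∈ (A q).inertiaSubgroupIn ℚ → c.1 ⟨σ, hσ⟩ = 0) ∧
      ((q : ℕ) ∈ Ra → ∃ (σ : GQ) (hσ : σ ∈ DK (A q) ⊥),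
        σ ∈ (A q).inertiaSubgroupIn ℚ ∧ c.1 ⟨σ, hσ⟩ ≠ 0) := by
    intro q
    by_cases h2 : (q : ℕ) ∈ In'
    · obtain ⟨c, hc⟩ := exists_unr (p := p) q.2 (hA q)
      exact ⟨c, fun h => absurd h2 (Finset.disjoint_left.mp h12' h), fun _ => hc,
        fun h => absurd h (Finset.disjoint_left.mp h23' h2)⟩
    · by_cases h3 : (q : ℕ) ∈ Ra
      · obtain ⟨c, hc⟩ := exists_ram (p := p) hp2 q.2 (hram q h3) (hA q)
        exact ⟨c, fun h => absurd h3 (Finset.disjoint_left.mp h13 h), fun h => absurd h h2,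
          fun _ => hc⟩
      · exact ⟨0, fun _ _ => rfl, fun h => absurd h h2, fun h => absurd h h3⟩
  choose c hc1 hc2 hc3 using hc
  have hU : ∀ q ∈ Sp ∪ In' ∪ Ra, q.Prime := fun q hq => by
    rcases Finset.mem_union.mp hq with h | h
    · rcases Finset.mem_union.mp h with h | h
      · exact hSp q h
      · exact hInp q h
    · exact hRa q h
  let T' : Finset Nat.Primes := (Sp ∪ In' ∪ Ra).attach.image fun q => ⟨q.1, hU q.1 q.2⟩
  have hT' : ∀ q : ℕ, ∀ hq : q ∈ Sp ∪ In' ∪ Ra, (⟨q, hU q hq⟩ : Nat.Primes) ∈ T' := fun q hq =>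
    Finset.mem_image.mpr ⟨⟨q, hq⟩, Finset.mem_attach _ _, rfl⟩
  obtain ⟨f, hf, hfc⟩ := exists_char_of_Z1 (p := p) hp2 T' A hA c
  have hspl : ∀ q ∈ Sp, ∀ B : ValuationSubring Qb, B.LiesOverPrime q →
      B.decompositionSubgroup ℚ ≤ f.ker := by
    intro q hq B hB σ hσ
    have hqU : q ∈ Sp ∪ In' ∪ Ra := Finset.mem_union_left _ (Finset.mem_union_left _ hq)
    obtain ⟨g, rfl⟩ := H05.exists_smul_eq (hSp q hq) (hA ⟨q, hU q hqU⟩) hB
    rw [mem_dec_conj] at hσ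
    rw [MonoidHom.mem_ker, ← conj_apply f g]
    have h1 := hfc _ (hT' q hqU) _ (by rw [dk_bot]; exact hσ)
    rw [hc1 ⟨q, hU q hqU⟩ hq] at h1
    exact h1
  have hine : ∀ q ∈ In', ∀ B : ValuationSubring Qb, B.LiesOverPrime q →
      B.inertiaSubgroupIn ℚ ≤ f.ker ∧ ¬ B.decompositionSubgroup ℚ ≤ f.ker := by
    intro q hq B hB
    have hqU : q ∈ Sp ∪ In' ∪ Ra := Finset.mem_union_left _ (Finset.mem_union_right _ hq)
    obtain ⟨⟨φ, hφ, hφ0⟩, hI⟩ := hc2 ⟨q, hU q hqU⟩ hq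
    refine ⟨unr_of_one (hInp q hq) inferInstance (hA ⟨q, hU q hqU⟩) (fun σ hσ => ?_) B hB,
      fun hle => ?_⟩
    · have hσD : σ ∈ DK (A ⟨q, hU q hqU⟩) ⊥ := by rw [dk_bot]; exact inertia_le_dec _ hσ
      have h1 := hfc _ (hT' q hqU) σ hσD
      rw [hI σ hσD hσ] at h1
      exact h1
    · obtain ⟨g, rfl⟩ := H05.exists_smul_eq (hInp q hq) (hA ⟨q, hU q hqU⟩) hB
      have h1 : g * φ * g⁻¹ ∈ (g • A ⟨q, hU q hqU⟩).decompositionSubgroup ℚ := by
        rw [mem_dec_conj]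
        have h2 : g⁻¹ * (g * φ * g⁻¹) * g = φ := by group
        rw [h2, ← dk_bot]
        exact hφ
      have h3 : f φ = 1 := by
        have h4 := hle h1
        rw [MonoidHom.mem_ker, ← conj_apply f g] at h4
        have h2 : g⁻¹ * (g * φ * g⁻¹) * g = φ := by group
        rwa [h2] at h4
      apply hφ0
      rw [← hfc _ (hT' q hqU) φ hφ, h3]
      rfl
  refine ⟨f, ?_, hf, hspl, fun q hq => hine q (Finset.mem_insert_of_mem hq), ?_⟩
  · -- surjectivity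
    obtain ⟨B, hB⟩ := H05.exists_liesOverPrime Qb hq₀
    obtain ⟨φ, -, hφ1⟩ := SetLike.not_le_iff_exists.mp (hine q₀ (Finset.mem_insert_self _ _) B hB).2
    have hu : Multiplicative.toAdd (f φ) ≠ (0 : ZMod p) := fun h0 => hφ1 h0
    intro x
    haveI : NeZero p := ⟨hp.ne_zero⟩
    refine ⟨φ ^ (Multiplicative.toAdd x / Multiplicative.toAdd (f φ) : ZMod p).val, ?_⟩
    rw [map_pow]
    apply Multiplicative.toAdd.injective
    rw [toAdd_pow, nsmul_eq_mul, ZMod.natCast_zmod_val, div_mul_cancel₀ _ hu]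
  · intro q hq B hB hle
    have hqU : q ∈ Sp ∪ In' ∪ Ra := Finset.mem_union_right _ hq
    obtain ⟨σ, hσ, hσI, hσ0⟩ := hc3 ⟨q, hU q hqU⟩ hq
    have h1 : Unr q f.ker := unr_of_one (hRa q hq) inferInstance hB hle
    have h2 : f σ = 1 := h1 _ (hA ⟨q, hU q hqU⟩) hσI
    apply hσ0
    rw [← hfc _ (hT' q hqU) σ hσ, h2]
    rfl

end Fermat.Agent.Cor.Grunwald
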