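import Mathlib
import Fermat.Agent.Cor.H09Irr
import Fermat.Agent.Ell.Det
import Fermat.Agent.S14
import Fermat.Agent.S15

set_option autoImplicit false

/-!
# Rational points of prime order on semistable curves over `ℚ`

If a semistable curve over `ℚ` has a rational point of prime order `p ≥ 11`, `p ≠ 13`, then its
`p`-torsion is the direct sum of `ℤ/p` and of a line on which Galois acts through the cyclotomic
character; in particular it has a Galois stable line with trivial quotient.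
-/

namespace Fermat.Agent.Cor.H09

open Polynomial WeierstrassCurve WeierstrassCurve.Affine WeierstrassCurve.Affine.Point
open Fermat.Agent.H08 Fermat.Agent.H05 Fermat.Agent.H09

local notation "Qb" => AlgebraicClosure ℚ
local notation "GQ" => (AlgebraicClosure ℚ ≃ₐ[ℚ] AlgebraicClosure ℚ)

/-- the `p`-torsion of `W` -/
abbrev TV (W : WeierstrassCurve ℤ) (p : ℕ) : Type :=
  Submodule.torsionBy ℤ ((W.map (Int.castRingHom ℚ))⁄Qb).Point (p : ℤ)

variable {W : WeierstrassCurve ℤ} {p : ℕ}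

theorem isElliptic (hΔ0 : W.Δ ≠ 0) : (W.map (Int.castRingHom ℚ)).IsElliptic :=
  ⟨by rw [map_Δ]; exact isUnit_iff_ne_zero.mpr (by simpa using hΔ0)⟩

/-- The quotient by a fixed line is the cyclotomic character: non trivial elements. -/
theorem quot_aux (hΔ0 : W.Δ ≠ 0) [hp : Fact p.Prime] {N : Submodule (ZMod p) (TV W p)}
    (hfix : ∀ σ : GQ, ∀ x ∈ N, σ • x = x) (hatom : IsAtom N) (hcoatom : IsCoatom N)
    {σ : GQ} (hσ : ∃ x : TV W p, σ • x ≠ x) {a : ℕ} (ha : ∀ μ : Qb, μ ^ p = 1 → σ μ = μ ^ a)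
    (x : TV W p) : σ • x - (a : ZMod p) • x ∈ N := by
  have hE := isElliptic hΔ0
  obtain ⟨l, hl, hlT, A, hA, φ, hφ, m, n, -, h4, -, h6⟩ :=
    Fermat.Agent.EGal.exists_frob (E := W.map (Int.castRingHom ℚ)) (p := p) hp.out.ne_zero
      (Fermat.Agent.EGal.mu_finite hp.out.ne_zero) ({p} ∪ W.Δ.natAbs.primeFactors) σ
  rw [Finset.mem_union, not_or, Finset.mem_singleton] at hlT
  obtain ⟨hlp, hlΔ⟩ := hlT
  have hlp' : ¬ l ∣ p := fun h => hlp ((Nat.prime_dvd_prime_iff_eq hl hp.out).mp h)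
  have hgood : W.IsGoodPrimeFor l := by
    intro hd
    apply hlΔ
    rw [Nat.mem_primeFactors]
    exact ⟨hl, Int.natCast_dvd.mp hd, Int.natAbs_ne_zero.mpr hΔ0⟩
  have hmodel : W.IsIntegralModelOf (W.map (Int.castRingHom ℚ)) := ⟨1, by rw [one_smul]⟩
  have hrel := Fermat.Agent.EGal.rho_rel hmodel hl hgood hlp' hA hφ
  set f := Fermat.Agent.EGal.rho (W.map (Int.castRingHom ℚ)) p φ with hf
  have hfapp : ∀ y : TV W p, f y = φ • y := fun y => rfl
  have hrel' : ∀ y : TV W p, f (f y) - (W.apOfModel l : ZMod p) • f y + (l : ZMod p) • y = 0 := by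
    intro y
    have := congrArg (fun g : Module.End (ZMod p) (TV W p) => g y) hrel
    simpa using this
  -- `f` is not trivial
  have hfne : ∃ y : TV W p, f y ≠ y := by
    by_contra hcon
    push Not at hcon
    have hf1 : f = 1 := LinearMap.ext hcon
    obtain ⟨x, hx⟩ := hσ
    apply hx
    have h7 : Fermat.Agent.EGal.rho (W.map (Int.castRingHom ℚ)) p σ = 1 := by
      rw [h6, hf1, one_pow]
    exact congrArg (fun g : Module.End (ZMod p) (TV W p) => g x) h7
  obtain ⟨x₀, hx₀N, hx₀⟩ := (Submodule.ne_bot_iff N).mp hatom.1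
  have hap : (W.apOfModel l : ZMod p) = 1 + (l : ZMod p) := by
    have h8 := hrel' x₀
    have h9 : f x₀ = x₀ := hfix φ x₀ hx₀N
    rw [h9, h9] at h8
    have h10 : ((1 : ZMod p) - (W.apOfModel l : ZMod p) + (l : ZMod p)) • x₀ = 0 := by
      rw [add_smul, sub_smul, one_smul]; exact h8
    rcases smul_eq_zero.mp h10 with h11 | h11
    · linear_combination -h11
    · exact absurd h11 hx₀
  -- the kernel of `f - 1`
  have hker : LinearMap.ker (f - 1) = N := by
    by_contra hne
    have hle : N ≤ LinearMap.ker (f - 1) := by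
      intro y hy
      rw [LinearMap.mem_ker, LinearMap.sub_apply, Module.End.one_apply, sub_eq_zero]
      exact hfix φ y hy
    have htop := hcoatom.2 _ (lt_of_le_of_ne hle (Ne.symm hne))
    obtain ⟨y, hy⟩ := hfne
    apply hy
    have : y ∈ LinearMap.ker (f - 1) := by rw [htop]; trivial
    rw [LinearMap.mem_ker, LinearMap.sub_apply, Module.End.one_apply, sub_eq_zero] at this
    exact this
  have hstep : ∀ y : TV W p, f y - (l : ZMod p) • y ∈ N := by
    intro y
    rw [← hker, LinearMap.mem_ker, LinearMap.sub_apply, Module.End.one_apply, map_sub, map_smul]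
    have h12 := hrel' y
    rw [hap] at h12
    rw [← h12]
    module
  have hpow : ∀ (j : ℕ) (y : TV W p), (f ^ j) y - ((l : ZMod p) ^ j) • y ∈ N := by
    intro j
    induction j with
    | zero => intro y; simp
    | succ j ih =>
      intro y
      have h13 : (f ^ (j + 1)) y - ((l : ZMod p) ^ (j + 1)) • y =
          ((f ^ j) (f y) - ((l : ZMod p) ^ j) • f y) +
            ((l : ZMod p) ^ j) • (f y - (l : ZMod p) • y) := by
        rw [pow_succ f, Module.End.mul_apply, pow_succ, mul_smul, smul_sub]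
        abel
      rw [h13]
      exact add_mem (ih _) (Submodule.smul_mem _ _ (hstep y))
  have hexp : ((l : ZMod p) ^ n) = (a : ZMod p) := by
    have h14 : l ^ n ≡ a [MOD p] := by
      apply Fermat.Agent.Ell.exponent_congr (σ := σ) hp.out.ne_zero _ ha
      intro μ hμ
      rw [h4 μ hμ]
      exact Fermat.Agent.Ell.frob_pow_zeta hl hA hφ hlp' hμ n
    have := (ZMod.natCast_eq_natCast_iff _ _ _).mpr h14
    push_cast at this
    exact this
  have h15 := hpow n x
  rw [hexp] at h15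
  have h16 : (f ^ n) x = σ • x := by
    rw [← h6]; rfl
  rwa [h16] at h15

/-- The quotient by a fixed line is the cyclotomic character. -/
theorem quot_cyclo (hΔ0 : W.Δ ≠ 0) [hp : Fact p.Prime] {N : Submodule (ZMod p) (TV W p)}
    (hfix : ∀ σ : GQ, ∀ x ∈ N, σ • x = x) (hatom : IsAtom N) (hcoatom : IsCoatom N)
    (hns : ∃ g : GQ, ∃ x : TV W p, g • x ≠ x)
    (σ : GQ) (x : TV W p) : σ • x - (ExtCitation.cycloExp p σ : ZMod p) • x ∈ N := by
  have hspec : ∀ τ : GQ, ∀ μ : Qb, μ ^ p = 1 → τ μ = μ ^ (ExtCitation.cycloExp p τ) :=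
    fun τ μ hμ => Fermat.Agent.S14Lib.chi_spec p τ hμ
  by_cases hσ : ∃ x : TV W p, σ • x ≠ x
  · exact quot_aux hΔ0 hfix hatom hcoatom hσ (hspec σ) x
  · push Not at hσ
    obtain ⟨g, y, hy⟩ := hns
    have hgσ : ∀ z : TV W p, (g * σ) • z = g • z := by
      intro z
      rw [tmul_smul, hσ]
    have h1 : ∀ z : TV W p, g • z - (ExtCitation.cycloExp p g : ZMod p) • z ∈ N :=
      quot_aux hΔ0 hfix hatom hcoatom ⟨y, hy⟩ (hspec g)
    have h2 : ∀ z : TV W p, g • z - (ExtCitation.cycloExp p (g * σ) : ZMod p) • z ∈ N := by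
      intro z
      have := quot_aux hΔ0 hfix hatom hcoatom (σ := g * σ) ⟨y, by rw [hgσ]; exact hy⟩
        (hspec (g * σ)) z
      rwa [hgσ] at this
    have h3 : (ExtCitation.cycloExp p (g * σ) : ZMod p) = (ExtCitation.cycloExp p g : ZMod p) := by
      by_contra hne
      apply hcoatom.1
      rw [Submodule.eq_top_iff']
      intro z
      have h4 : ((ExtCitation.cycloExp p (g * σ) : ZMod p) -
          (ExtCitation.cycloExp p g : ZMod p)) • z ∈ N := by
        have h5 := sub_mem (h1 z) (h2 z)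
        have e : ((ExtCitation.cycloExp p (g * σ) : ZMod p) -
          (ExtCitation.cycloExp p g : ZMod p)) • z =
          (g • z - (ExtCitation.cycloExp p g : ZMod p) • z) -
            (g • z - (ExtCitation.cycloExp p (g * σ) : ZMod p) • z) := by
          rw [sub_smul]; abel
        rw [e]; exact h5
      exact (Submodule.smul_mem_iff _ (sub_ne_zero.mpr hne)).mp h4
    have h6 : (ExtCitation.cycloExp p σ : ZMod p) = 1 := by
      have e1 : ∀ τ : GQ, (ExtCitation.cycloExp p τ : ZMod p) = Fermat.Agent.S14Lib.chi p τ :=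
        fun τ => (ExtCitation.coe_cycloChar p τ).symm
      rw [e1, e1, Fermat.Agent.S14Lib.chi_mul] at h3
      rw [e1]
      exact mul_left_cancel₀ (Fermat.Agent.S14Lib.chi_ne_zero p g) (by rw [h3, mul_one])
    rw [hσ, h6, one_smul, sub_self]
    exact zero_mem _

/-- Inertia at `p`: `σ x - x ∈ F` with `F ≠ ⊤` stable under the decomposition group. -/
theorem inertia_at_stable (hΔ0 : W.Δ ≠ 0) (hss : W.IsSemistableModel) (hp : p.Prime)
    (hp5 : 5 ≤ p) {A : ValuationSubring Qb} (hA : A.LiesOverPrime p)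
    (N : Submodule (ZMod p) (TV W p)) (hN : IsGaloisStable ℚ N) (hcard : Nat.card N = p) :
    ∃ F : Submodule (ZMod p) (TV W p), F ≠ ⊤ ∧
      (∀ σ ∈ A.decompositionSubgroup ℚ, ∀ x ∈ F, σ • x ∈ F) ∧
      ∀ σ ∈ A.inertiaSubgroupIn ℚ, ∀ x : TV W p, σ • x - x ∈ F := by
  have hW₁ := map_int_Qb W
  have hW : IsIntegralFor A.valuation ((W.map (Int.castRingHom ℚ))⁄Qb) := isIntegralFor_of_int hW₁
  have hodd : Odd p := hp.odd_of_ne_two (by omega)
  rcases semistable_cases hW₁ hss hp hA with h | ⟨h1, h2⟩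
  · refine ⟨pull p (E1 A.valuation ((W.map (Int.castRingHom ℚ))⁄Qb) hW), ?_,
      fun σ hσ x hx => inE1_smul hσ hx, fun σ hσ x => ?_⟩
    · classical
      have hfin : Finite N := Nat.finite_of_card_ne_zero (by rw [hcard]; exact hp.ne_zero)
      have := Fintype.ofFinite N
      let ι : N ↪ ((W.map (Int.castRingHom ℚ))⁄Qb).Point :=
        ⟨fun x => ((x : TV W p) : ((W.map (Int.castRingHom ℚ))⁄Qb).Point),
          fun a b hab => Subtype.ext (Subtype.ext hab)⟩
      let S : Finset ((W.map (Int.castRingHom ℚ))⁄Qb).Point :=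
        ((Finset.univ : Finset N).erase 0).map ι
      have hS : ∀ P, P ∈ S ↔ ∃ x : N, x ≠ 0 ∧
          ((x : TV W p) : ((W.map (Int.castRingHom ℚ))⁄Qb).Point) = P := by
        intro P
        simp only [S, Finset.mem_map, Finset.mem_erase, Finset.mem_univ, and_true]
        rfl
      obtain ⟨P, hP0, hPp, hPx⟩ := exists_torsion_not_E1 hW₁ hp hp5 hA h S
        (by
          intro P hP h0
          obtain ⟨x, hx, rfl⟩ := (hS P).mp hP
          exact hx (Subtype.ext (Subtype.ext h0)))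
        (by
          intro P hP
          obtain ⟨x, hx, rfl⟩ := (hS P).mp hP
          exact mem_torsion_iff.mp x.1.2)
        (by
          intro σ P hP
          obtain ⟨x, hx, rfl⟩ := (hS P).mp hP
          rw [hS]
          refine ⟨⟨σ • x.1, hN σ x.1 x.2⟩, ?_, rfl⟩
          intro h0
          apply hx
          have h3 : σ • x.1 = 0 := congrArg Subtype.val h0
          have h4 : σ • ((x : TV W p) : ((W.map (Int.castRingHom ℚ))⁄Qb).Point) = 0 :=
            congrArg Subtype.val h3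
          by_contra hne
          exact Fermat.Agent.H09.smul_ne_zero' σ (fun h5 => hne (Subtype.ext (Subtype.ext h5))) h4)
        (by
          rw [Finset.card_map, Finset.card_erase_of_mem (Finset.mem_univ _), Finset.card_univ,
            ← Nat.card_eq_fintype_card, hcard])
      intro htop
      have hmem : (⟨P, mem_torsion_iff.mpr hPp⟩ : TV W p) ∈
          pull p (E1 A.valuation ((W.map (Int.castRingHom ℚ))⁄Qb) hW) := by
        rw [htop]; trivial
      rw [mem_pull] at hmem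
      rcases hmem with h3 | h3
      · exact hP0 h3
      · exact absurd h3 (not_lt.mpr hPx)
    · rw [mem_pull]
      exact inE1_smul_sub_of_good hW h hσ (x : ((W.map (Int.castRingHom ℚ))⁄Qb).Point)
  · have hΔL := Δ_Qb_ne_zero hΔ0
    obtain ⟨r, t, α, β, hNd⟩ := exists_nodeData hW hΔL h1 h2
    refine ⟨pull p (nodeE0Sub hNd), ?_, fun σ hσ x hx => nodeE0_smul hσ hNd hx,
      fun σ hσ x => ?_⟩
    · have hv2 : A.valuation (2 : Qb) = 1 := by
        have := Fermat.Agent.H09.val_intCast_eq_one (c := 2) hp hA (by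
          intro h
          have h' : p ∣ 2 := by exact_mod_cast h
          have := Nat.le_of_dvd (by norm_num) h'
          omega)
        exact_mod_cast this
      obtain ⟨P, hP0, hPp, hPE⟩ := exists_torsion_not_nodeE0 hNd hΔL hv2 h2 hodd (by omega)
      intro htop
      have hmem : (⟨P, mem_torsion_iff.mpr hPp⟩ : TV W p) ∈ pull p (nodeE0Sub hNd) := by
        rw [htop]; trivial
      rw [mem_pull] at hmem
      exact hPE hmem
    · rw [mem_pull]
      exact nodeE0_smul_sub hσ hNd (x : ((W.map (Int.castRingHom ℚ))⁄Qb).Point)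

/-- If inertia at `p` acts trivially on `V / N` then `N` has trivial quotient. -/
theorem cofixed_of_inertia (hΔ0 : W.Δ ≠ 0) (hss : W.IsSemistableModel) [hpf : Fact p.Prime]
    (hp5 : 5 ≤ p) {N : Submodule (ZMod p) (TV W p)} (hN : IsGaloisStable ℚ N)
    (hatom : IsAtom N) (hcoatom : IsCoatom N) {A₀ : ValuationSubring Qb}
    (hA₀ : A₀.LiesOverPrime p)
    (hI : ∀ σ ∈ A₀.inertiaSubgroupIn ℚ, ∀ x : TV W p, σ • x - x ∈ N) :
    ∀ σ : GQ, ∀ x : TV W p, σ • x - x ∈ N := by
  have hp := hpf.out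
  obtain ⟨K, hKo, hK⟩ := exists_open_fix (L := Qb) (W₀ := W.map (Int.castRingHom ℚ)) hp
    (by omega)
  have hnorm := cofixSub_normal N hN
  have htop : cofixSub N hN = ⊤ := by
    apply minkowski
    · refine Subgroup.isOpen_mono (H₁ := K) ?_ hKo
      intro σ hσ x
      rw [hK σ hσ x, sub_self]; exact zero_mem _
    · intro ℓ hℓ A hA σ hσ
      by_cases hℓp : ℓ = p
      · subst hℓp
        obtain ⟨g, rfl⟩ := exists_smul_eq hℓ hA₀ hA
        have hτ := inertia_conj hσ
        intro x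
        have h1 := hI _ hτ (g⁻¹ • x)
        have e : σ • x - x = g • ((g⁻¹ * σ * g) • (g⁻¹ • x) - g⁻¹ • x) := by
          rw [tsmul_sub, tsmul_inv_smul, tmul_smul, tmul_smul, tsmul_inv_smul, tsmul_inv_smul]
        rw [e]
        exact hN g _ h1
      · obtain ⟨F', h1, h2⟩ := inertia_away (p := p) (map_int_Qb W) hΔ0 hss hp hℓ hℓp hA hσ
        exact (alg_away hatom hcoatom (actHom p σ) h1 h2 (fun x hx => hN σ x hx)).2
  intro σ
  have : σ ∈ cofixSub N hN := by rw [htop]; trivial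
  exact this

/-- Inertia away from `p` acts trivially if the fixed line `N` is of type II everywhere. -/
theorem unramified_of_typeII (hΔ0 : W.Δ ≠ 0) (hss : W.IsSemistableModel) [hpf : Fact p.Prime]
    {N : Submodule (ZMod p) (TV W p)}
    (hfix : ∀ σ : GQ, ∀ x ∈ N, σ • x = x) (hcoatom : IsCoatom N)
    {ℓ : ℕ} (hℓ : ℓ.Prime) (hℓp : ℓ ≠ p) {A : ValuationSubring Qb} (hA : A.LiesOverPrime ℓ)
    (hII : (ℓ : ℤ) ∣ W.Δ → ∀ x ∈ N, x ≠ 0 →
      ¬ W.InZeroComponentAt A (x : ((W.map (Int.castRingHom ℚ))⁄Qb).Point))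
    {σ : GQ} (hσ : σ ∈ A.inertiaSubgroupIn ℚ) (x : TV W p) : σ • x = x := by
  have hp := hpf.out
  have hint : IsIntegralFor A.valuation ((W.map (Int.castRingHom ℚ))⁄Qb) :=
    isIntegralFor_of_int (map_int_Qb W)
  have hvp := val_prime_eq_one hp hℓ hℓp hA
  by_cases hℓΔ : (ℓ : ℤ) ∣ W.Δ
  · obtain ⟨-, r, t, α, β, hNd⟩ := exists_nodeData_int hΔ0 hℓ hℓΔ (hss ℓ hℓ hℓΔ) hA
    set F := pull p (nodeE0Sub hNd) with hF
    have h1 : ∀ x : TV W p, σ • x - x ∈ F := fun x =>
      nodeE0_smul_sub hσ hNd (x : ((W.map (Int.castRingHom ℚ))⁄Qb).Point)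
    have h2 : ∀ x ∈ F, σ • x = x := by
      intro x hx
      have h3 := inE1_smul_sub_of_nodeE0 hσ hNd
        (P := (x : ((W.map (Int.castRingHom ℚ))⁄Qb).Point)) hx
      have h4 : p • (σ • (x : ((W.map (Int.castRingHom ℚ))⁄Qb).Point) - x) = 0 :=
        mem_torsion_iff.mp (σ • x - x).2
      exact sub_eq_zero.mp (Subtype.ext (InE1.eq_zero_of_torsion hint h3 h4 hvp))
    have h3 : ∀ x ∈ N, x ∈ F → x = 0 := by
      intro x hxN hxF
      by_contra hx0
      exact hII hℓΔ x hxN hx0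
        (inZeroComponentAt_iff.mpr ((nodeE0_iff_nonsingularRed hNd).mp hxF))
    by_cases hFN : F ≤ N
    · exact sub_eq_zero.mp (h3 _ (hFN (h1 x)) (h1 x))
    · have htop : N ⊔ F = ⊤ := hcoatom.2 _ (lt_of_le_of_ne le_sup_left (by
        intro h; apply hFN; rw [h]; exact le_sup_right))
      have hx : x ∈ N ⊔ F := by rw [htop]; trivial
      obtain ⟨y, hy, z, hz, rfl⟩ := Submodule.mem_sup.mp hx
      have e : σ • (y + z) = σ • y + σ • z :=
        smul_add (M := GQ) (A := TV W p) σ y z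
      rw [e, hfix σ y hy, h2 z hz]
  · have hv : A.valuation ((W.map (Int.castRingHom ℚ))⁄Qb).Δ = 1 := by
      rw [← map_int_Qb, map_Δ]
      exact Fermat.Agent.H09.val_intCast_eq_one hℓ hA hℓΔ
    have h3 := inE1_smul_sub_of_good hint hv hσ (x : ((W.map (Int.castRingHom ℚ))⁄Qb).Point)
    have h4 : p • (σ • (x : ((W.map (Int.castRingHom ℚ))⁄Qb).Point) - x) = 0 :=
      mem_torsion_iff.mp (σ • x - x).2
    exact sub_eq_zero.mp (Subtype.ext (InE1.eq_zero_of_torsion hint h3 h4 hvp))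

/-- The case where the fixed line is of type II everywhere: the `p`-torsion splits, by S14. -/
theorem cofixed_of_typeII (hΔ0 : W.Δ ≠ 0) (hss : W.IsSemistableModel) [hpf : Fact p.Prime]
    (hp5 : 5 ≤ p) {N : Submodule (ZMod p) (TV W p)} (hfix : ∀ σ : GQ, ∀ x ∈ N, σ • x = x)
    (hatom : IsAtom N) (hcoatom : IsCoatom N) (hcard : Nat.card N = p)
    (hII : ∀ ℓ : ℕ, ℓ.Prime → ℓ ≠ p → (ℓ : ℤ) ∣ W.Δ →
      ∀ A : ValuationSubring Qb, A.LiesOverPrime ℓ → ∀ x ∈ N, x ≠ 0 →
      ¬ W.InZeroComponentAt A (x : ((W.map (Int.castRingHom ℚ))⁄Qb).Point)) :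
    HasGaloisStableCofixedLine (K := Qb) ℚ (W.map (Int.castRingHom ℚ)) p := by
  have hp := hpf.out
  have hE := isElliptic hΔ0
  have hN : IsGaloisStable ℚ N := fun σ x hx => by rw [hfix σ x hx]; exact hx
  by_cases hcof : ∀ σ : GQ, ∀ x : TV W p, σ • x - x ∈ N
  · exact ⟨N, hN, hatom.1, hcoatom.1, hcof⟩
  have hns : ∃ g : GQ, ∃ x : TV W p, g • x ≠ x := by
    by_contra hcon
    push Not at hcon
    exact hcof (fun σ x => by rw [hcon, sub_self]; exact zero_mem _)
  have hadm : ExtCitation.IsAdmissibleExtensionCts p (TV W p) N :=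
    { stable := hN
      fixed_sub := hfix
      cyclo_quot := quot_cyclo hΔ0 hfix hatom hcoatom hns
      card_sub := hcard
      card_total := by
        have h := Fermat.Agent.Frob.card_torsionBy Qb (W.map (Int.castRingHom ℚ)) hp.ne_zero
        exact h
      unramified_outside := fun ℓ hℓ hℓp A hA σ hσ x =>
        unramified_of_typeII hΔ0 hss hfix hcoatom hℓ hℓp hA
          (fun hd x hx h0 => hII ℓ hℓ hℓp hd A hA x hx h0) hσ x
      locally_split := by
        intro A hA
        obtain ⟨F, hFtop, hFst, hI⟩ := inertia_at_stable hΔ0 hss hp hp5 hA N hN hcard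
        rcases alg_at hatom hcoatom hFtop with hFN | hdisj
        · exact absurd (cofixed_of_inertia hΔ0 hss hp5 hN hatom hcoatom hA
            (fun σ hσ x => hFN (hI σ hσ x))) hcof
        · refine ⟨F, hFst, hdisj, ?_⟩
          rw [codisjoint_iff]
          refine hcoatom.2 _ (lt_of_le_of_ne le_sup_left (fun h => ?_))
          have hFN : F ≤ N := by rw [h]; exact le_sup_right
          exact hcof (cofixed_of_inertia hΔ0 hss hp5 hN hatom hcoatom hA
            (fun σ hσ x => hFN (hI σ hσ x)))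
      open_kernel := by
        obtain ⟨K, hKo, hK⟩ := exists_open_fix (L := Qb) (W₀ := W.map (Int.castRingHom ℚ)) hp
          (by omega)
        have h1 : IsOpen ((fixSub (⊤ : Submodule (ZMod p) (TV W p)) : Subgroup GQ) : Set GQ) :=
          Subgroup.isOpen_mono (H₁ := K) (fun σ hσ x _ => hK σ hσ x) hKo
        have e : {σ : GQ | ∀ v : TV W p, σ • v = v} =
            ((fixSub (⊤ : Submodule (ZMod p) (TV W p)) : Subgroup GQ) : Set GQ) := by
          ext σ
          exact ⟨fun h x _ => h x, fun h x => h x trivial⟩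
        rw [e]
        exact h1 }
  obtain ⟨C', hC'st, hcompl⟩ := Fermat.Agent.S14.result (p := p) (by omega) (TV W p) N hadm
  refine ⟨C', hC'st, ?_, ?_, ?_⟩
  · rintro rfl
    apply hcoatom.1
    have := hcompl.sup_eq_top
    rwa [sup_bot_eq] at this
  · rintro rfl
    apply hatom.1
    have := hcompl.inf_eq_bot
    rwa [inf_top_eq] at this
  · intro σ x
    have hx : x ∈ N ⊔ C' := by rw [hcompl.sup_eq_top]; trivial
    obtain ⟨y, hy, z, hz, rfl⟩ := Submodule.mem_sup.mp hx
    have e : σ • (y + z) = σ • y + σ • z := smul_add (M := GQ) (A := TV W p) σ y z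
    rw [e, hfix σ y hy]
    have e2 : y + σ • z - (y + z) = σ • z - z := by abel
    rw [e2]
    exact sub_mem (hC'st σ z hz) hz

/-- **Mazur's theorem, semistable form.** A semistable curve over `ℚ` with a rational point of
prime order `p ≥ 11`, `p ≠ 13` has bad reduction at `2` and `3`, the point is of type II
everywhere, and the `p`-torsion has a Galois stable line with trivial quotient. -/
theorem cofixed_of_fixed (hΔ0 : W.Δ ≠ 0) (hss : W.IsSemistableModel) (pp : p.Prime)
    (hp11 : 11 ≤ p) (hp13 : p ≠ 13) {P₀ : ((W.map (Int.castRingHom ℚ))⁄Qb).Point} (h0 : P₀ ≠ 0)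
    (hpP : p • P₀ = 0) (hσ : ∀ σ : GQ, σ • P₀ = P₀) :
    HasGaloisStableCofixedLine (K := Qb) ℚ (W.map (Int.castRingHom ℚ)) p := by
  have hfact : Fact p.Prime := ⟨pp⟩
  have hE := isElliptic hΔ0
  have hint : ∀ A : ValuationSubring Qb,
      IsIntegralFor A.valuation ((W.map (Int.castRingHom ℚ))⁄Qb) :=
    fun A => isIntegralFor_of_int (map_int_Qb W)
  have hbad : ∀ ℓ : ℕ, ℓ.Prime → ℓ ≠ p → ℓ ^ 2 < p - 1 → (ℓ : ℤ) ∣ W.Δ := by
    intro ℓ hℓ hℓp hbig
    by_contra hd
    obtain ⟨A, hA⟩ := exists_liesOverPrime Qb hℓ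
    have hv : A.valuation ((W.map (Int.castRingHom ℚ))⁄Qb).Δ = 1 := by
      rw [← map_int_Qb, map_Δ]
      exact Fermat.Agent.H09.val_intCast_eq_one hℓ hA hd
    obtain ⟨σ, hσA⟩ := exists_isFrobeniusAt hℓ hA
    exact no_fixed_of_good pp hℓ (val_prime_eq_one pp hℓ hℓp hA) (hint A) hv hσA h0 hpP (hσ σ)
      hbig
  have h2 : (2 : ℤ) ∣ W.Δ := hbad 2 Nat.prime_two (by omega) (by omega)
  have h3 : (3 : ℤ) ∣ W.Δ := hbad 3 Nat.prime_three (by omega) (by omega)
  -- the line
  let x₀ : TV W p := ⟨P₀, mem_torsion_iff.mpr hpP⟩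
  have hx₀ : x₀ ≠ 0 := fun h => h0 (congrArg Subtype.val h)
  set N : Submodule (ZMod p) (TV W p) := Submodule.span (ZMod p) {x₀} with hNdef
  have hfix : ∀ σ : GQ, ∀ x ∈ N, σ • x = x := by
    intro σ x hx
    obtain ⟨c, rfl⟩ := Submodule.mem_span_singleton.mp hx
    have e : σ • (c • x₀) = c • (σ • x₀) := smul_comm σ c x₀
    rw [e]
    have e2 : σ • x₀ = x₀ := Subtype.ext (hσ σ)
    rw [e2]
  have hcard : Nat.card N = p := by
    rw [Module.natCard_eq_pow_finrank (K := ZMod p), finrank_span_singleton hx₀, Nat.card_zmod,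
      pow_one]
  have htot : Nat.card (TV W p) = p ^ 2 :=
    Fermat.Agent.Frob.card_torsionBy Qb (W.map (Int.castRingHom ℚ)) pp.ne_zero
  have hb : N ≠ ⊥ := by
    intro h
    exact hx₀ ((Submodule.mem_bot (ZMod p)).mp (h ▸ Submodule.mem_span_singleton_self x₀))
  have ht : N ≠ ⊤ := by
    intro h
    rw [h] at hcard
    have h4 : Nat.card (⊤ : Submodule (ZMod p) (TV W p)) = p ^ 2 := by
      rw [← htot]
      exact Nat.card_congr (Submodule.topEquiv (R := ZMod p) (M := TV W p)).toEquiv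
    rw [h4] at hcard
    have : p * p = p := by rw [← sq]; exact hcard
    nlinarith
  obtain ⟨hfinM, hrank⟩ := finrank_torsion (L := Qb) (W₀ := W.map (Int.castRingHom ℚ))
    (p := p) (by omega)
  obtain ⟨hatom, hcoatom, hrN⟩ := atom_coatom hrank hb ht
  refine cofixed_of_typeII hΔ0 hss (by omega) hfix hatom hcoatom hcard ?_
  intro ℓ hℓ hℓp hℓΔ A hA x hxN hx0
  have hQ0 : (x : ((W.map (Int.castRingHom ℚ))⁄Qb).Point) ≠ 0 :=
    fun h' => hx0 (Subtype.ext h')
  have hpQ : p • (x : ((W.map (Int.castRingHom ℚ))⁄Qb).Point) = 0 := mem_torsion_iff.mp x.2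
  have hord : addOrderOf (x : ((W.map (Int.castRingHom ℚ))⁄Qb).Point) = p :=
    addOrderOf_eq_prime hpQ hQ0
  have hQfix : ∀ σ : GQ, σ • (x : ((W.map (Int.castRingHom ℚ))⁄Qb).Point) = x :=
    fun σ => congrArg Subtype.val (hfix σ x hxN)
  refine Fermat.Agent.S15.result pp ?_ W hΔ0 x hQfix hord h2 (hss 2 Nat.prime_two h2) ?_ h3
    (hss 3 Nat.prime_three h3) ?_ hℓ hℓp hℓΔ (hss ℓ hℓ hℓΔ) A hA
  · simp only [Finset.mem_insert, Finset.mem_singleton, not_or]
    omega
  · intro A' hA' hin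
    have hd := dvd_of_rational_inZeroComponentAt pp hΔ0 hQfix hord Nat.prime_two (by omega) h2
      (hss 2 Nat.prime_two h2) hA' hin
    have := Nat.le_of_dvd (by norm_num) hd
    omega
  · intro A' hA' hin
    have hd := dvd_of_rational_inZeroComponentAt pp hΔ0 hQfix hord Nat.prime_three (by omega) h3
      (hss 3 Nat.prime_three h3) hA' hin
    have := Nat.le_of_dvd (by norm_num) hd
    omega

/-- The `p`-torsion of a semistable curve is irreducible as soon as it has no Galois stable line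
with trivial quotient, for all primes `p ≥ 11`, `p ≠ 13`. -/
theorem irreducible_of_no_cofixed (hΔ0 : W.Δ ≠ 0) (hss : W.IsSemistableModel) (pp : p.Prime)
    (hp11 : 11 ≤ p) (hp13 : p ≠ 13)
    (hcof : ¬ HasGaloisStableCofixedLine (K := Qb) ℚ (W.map (Int.castRingHom ℚ)) p) :
    GaloisRepIsIrreducible (K := Qb) ℚ (W.map (Int.castRingHom ℚ)) p :=
  irreducible_of hΔ0 hss pp (by omega)
    (fun _ h0 hpP hσ => hcof (cofixed_of_fixed hΔ0 hss pp hp11 hp13 h0 hpP hσ)) hcof

/-- **Irreducibility.** The mod `p` representation of every Frey curve `E_{A,B}`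
(`A`, `B` coprime, `16 ∣ B`, `A ≡ 3 (mod 4)`) is irreducible for every prime `p ≥ 11`,
`p ≠ 13`. -/
theorem frey_irreducible {A B : ℤ} (hF : IsFrey W A B) (pp : p.Prime) (hp11 : 11 ≤ p)
    (hp13 : p ≠ 13) : GaloisRepIsIrreducible (K := Qb) ℚ (W.map (Int.castRingHom ℚ)) p :=
  irreducible_of_no_cofixed hF.Δ_ne_zero hF.semistable pp hp11 hp13 (no_cofixed hF pp hp11 hp13)

/-- A Frey curve `E_{A,B}` has no rational point of prime order `p ≥ 11`, `p ≠ 13`. -/
theorem frey_no_fixed {A B : ℤ} (hF : IsFrey W A B) (pp : p.Prime) (hp11 : 11 ≤ p)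
    (hp13 : p ≠ 13) {P₀ : ((W.map (Int.castRingHom ℚ))⁄Qb).Point} (h0 : P₀ ≠ 0)
    (hpP : p • P₀ = 0) (hσ : ∀ σ : GQ, σ • P₀ = P₀) : False :=
  no_cofixed hF pp hp11 hp13
    (cofixed_of_fixed hF.Δ_ne_zero hF.semistable pp hp11 hp13 h0 hpP hσ)

theorem modRep_irr {A B : ℤ} (hA : A % 4 = 3) (hB : (16 : ℤ) ∣ B) (hcop : IsCoprime A B)
    (h0 : A * B * (A + B) ≠ 0) [Fact p.Prime] (hp11 : 11 ≤ p) (hp13 : p ≠ 13) :
    (FW A B).ModRepIsIrreducible p :=
  frey_irreducible (isFrey_FW hA hB hcop h0) Fact.out hp11 hp13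

theorem modRep_irr' {A B : ℤ} (h1 : W.a₁ = 1) (h3 : W.a₃ = 0)
    (h6 : W.a₆ = 0) (h2 : 4 * W.a₂ = B - A - 1) (h4 : 16 * W.a₄ = -(A * B))
    (hB : (16 : ℤ) ∣ B) (hcop : IsCoprime A B) (h0 : A * B * (A + B) ≠ 0)
    [Fact p.Prime] (hp11 : 11 ≤ p) (hp13 : p ≠ 13) : W.ModRepIsIrreducible p :=
  frey_irreducible ⟨h1, h3, h6, h2, h4, hcop, h0, hB⟩ Fact.out hp11 hp13

end Fermat.Agent.Cor.H09
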