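import Fermat.Agent.Cor.H07Serre
import Fermat.Agent.Cor.H09Rat
import Fermat.Agent.Cor.H11SerreFin

/-!
# The sum of two coprime integers and `p`-th powers

Let `A + B + C = 0` with `A, B, C` nonzero, coprime and `16 ∣ ABC`, and let `p = 5` or `p ≥ 11`,
`p ≠ 13`.  We show that the product of the primes `ℓ` with `p ∤ v_ℓ(ABC / 16)` is at least `11` and
different from `13`.  (Fermat's Last Theorem for the exponent `p` is the case where the product
divides `2`; Serre's equations `x ^ p + y ^ p = L ^ a * z ^ p`, `L = 3, 5`, are special cases, and so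
are the equations with an additional coefficient `16`, `L = 1, 3, 5, 7, 13`.)
-/

set_option autoImplicit false

noncomputable section

namespace Fermat.Agent.Cor.H07

open WeierstrassCurve

/-- the product of the primes whose exponent in `n` is not divisible by `p` -/
def pRad (p n : ℕ) : ℕ := ∏ ℓ ∈ n.primeFactors with ¬ p ∣ n.factorization ℓ, ℓ

theorem pRad_pow_two {p : ℕ} (pp : p.Prime) (hp2 : p ≠ 2) (n : ℕ) :
    pRad p (n ^ 2) = pRad p n := by
  have h : ∀ m : ℕ, p ∣ 2 * m ↔ p ∣ m := by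
    intro m
    refine ⟨fun h => ?_, fun h => h.mul_left 2⟩
    exact ((Nat.Prime.dvd_mul pp).mp h).resolve_left fun h2 =>
      hp2 ((Nat.prime_dvd_prime_iff_eq pp Nat.prime_two).mp h2)
  rw [pRad, pRad, Nat.primeFactors_pow n two_ne_zero]
  refine Finset.prod_congr (Finset.filter_congr fun ℓ _ => ?_) fun _ _ => rfl
  rw [Nat.factorization_pow]
  simp only [Finsupp.smul_apply, smul_eq_mul]
  rw [h]

/-- Serre's level in terms of the factorization of the discriminant -/
theorem serreLevel_eq_pRad (W : WeierstrassCurve ℤ) (p : ℕ) :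
    serreLevel W p = pRad p W.Δ.natAbs := by
  rw [serreLevel, pRad]
  refine Finset.prod_congr (Finset.filter_congr fun ℓ hℓ => ?_) fun _ _ => rfl
  rw [padicValInt, Nat.factorization_def _ (Nat.prime_of_mem_primeFactors hℓ)]

variable {A B C : ℤ} {p : ℕ}

/-- the admissible exponents -/
def Adm (p : ℕ) : Prop := p.Prime ∧ (p = 5 ∨ (11 ≤ p ∧ p ≠ 13))

/-- the case of a Frey curve -/
theorem abc_core (hp : Adm p) (hA : A % 4 = 3) (hB : (16 : ℤ) ∣ B) (hcop : IsCoprime A B)
    (h0 : A * B * (A + B) ≠ 0) {n : ℕ} (hn : 16 * n = (A * B * (A + B)).natAbs) :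
    11 ≤ pRad p n ∧ pRad p n ≠ 13 := by
  obtain ⟨pp, hp'⟩ := hp
  have : Fact p.Prime := ⟨pp⟩
  have hp2 : p ≠ 2 := by omega
  have hF := Cor.H09.isFrey_FW hA hB hcop h0
  have hirr : (Cor.H09.FW A B).ModRepIsIrreducible p := by
    rcases hp' with rfl | ⟨h11, h13⟩
    · exact Cor.H11.irr_five hA hB h0
    · exact Cor.H09.modRep_irr hA hB hcop h0 h11 h13
  have hlev := eleven_le hF.Δ_ne_zero hF.semistable hirr hp2
  have hΔ := congrArg Int.natAbs hF.Δ
  have hΔ' : (Cor.H09.FW A B).Δ.natAbs = n ^ 2 := by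
    rw [Int.natAbs_mul, Int.natAbs_pow (A * B * (A + B)), ← hn] at hΔ
    have h256 : ((2 : ℤ) ^ 8).natAbs = 256 := by norm_num
    rw [h256] at hΔ
    have h2 : 256 * (Cor.H09.FW A B).Δ.natAbs = 256 * n ^ 2 := by rw [hΔ]; ring
    exact Nat.eq_of_mul_eq_mul_left (by norm_num) h2
  rwa [serreLevel_eq_pRad, hΔ', pRad_pow_two pp hp2] at hlev

/-- the case `16 ∣ B` -/
theorem abc_even (hp : Adm p) (hB : (16 : ℤ) ∣ B) (hsum : A + B + C = 0) (hcop : IsCoprime A B)
    (h0 : A * B * C ≠ 0) {n : ℕ} (hn : 16 * n = (A * B * C).natAbs) :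
    11 ≤ pRad p n ∧ pRad p n ≠ 13 := by
  have hC : C = -(A + B) := by linarith
  have hodd : ¬ (2 : ℤ) ∣ A := by
    intro h2
    have h3 : (2 : ℤ) ∣ B := (by norm_num : (2 : ℤ) ∣ 16).trans hB
    have h4 := hcop.isUnit_of_dvd' h2 h3
    rw [Int.isUnit_iff] at h4
    omega
  have h4 : A % 4 = 3 ∨ A % 4 = 1 := by omega
  rcases h4 with h4 | h4
  · refine abc_core hp h4 hB hcop ?_ (n := n) ?_
    · intro h; apply h0; rw [hC]; linear_combination -h
    · rw [hn, hC, mul_neg, Int.natAbs_neg]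
  · refine abc_core (A := -A) (B := -B) hp (by omega) (hB.neg_right) hcop.neg_neg ?_ (n := n) ?_
    · intro h; apply h0; rw [hC]; linear_combination h
    · rw [hn, hC]
      congr 1
      ring

/-- **The sum of coprime integers and `p`-th powers.** Let `A + B + C = 0` with `A, B, C` nonzero
and coprime and `16 ∣ ABC`; let `p = 5` or `p ≥ 11` a prime different from `13`.  Then the product of
the primes `ℓ` such that `p` does not divide the exponent of `ℓ` in `ABC / 16` is at least `11` and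
different from `13`. -/
theorem abc (pp : p.Prime) (hp : p = 5 ∨ (11 ≤ p ∧ p ≠ 13)) (hsum : A + B + C = 0)
    (hcop : IsCoprime A B) (h0 : A * B * C ≠ 0) (h16 : (16 : ℤ) ∣ A * B * C) :
    11 ≤ pRad p (A * B * C / 16).natAbs ∧ pRad p (A * B * C / 16).natAbs ≠ 13 := by
  obtain ⟨m, hm⟩ := h16
  have hdiv : A * B * C / 16 = m := by rw [hm]; exact Int.mul_ediv_cancel_left m (by norm_num)
  have hn : 16 * m.natAbs = (A * B * C).natAbs := by rw [hm, Int.natAbs_mul]; rfl
  rw [hdiv]
  have hAC : IsCoprime A C := by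
    have hC : C = -B + A * (-1) := by linarith
    rw [hC, IsCoprime.add_mul_left_right_iff]
    exact hcop.neg_right
  have hBC : IsCoprime B C := by
    have hC : C = -A + B * (-1) := by linarith
    rw [hC, IsCoprime.add_mul_left_right_iff]
    exact hcop.symm.neg_right
  have key : ∀ {X Y Z : ℤ}, (2 : ℤ) ∣ Y → IsCoprime X Y → IsCoprime Y Z → X * Y * Z = A * B * C →
      (16 : ℤ) ∣ Y := by
    intro X Y Z h2 hXY hYZ he
    have hX : IsCoprime (16 : ℤ) X := by
      have h1 : IsCoprime (2 : ℤ) X := (hXY.symm).of_isCoprime_of_dvd_left h2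
      have h3 := h1.pow_left (m := 4)
      norm_num at h3
      exact h3
    have hZ : IsCoprime (16 : ℤ) Z := by
      have h1 : IsCoprime (2 : ℤ) Z := hYZ.of_isCoprime_of_dvd_left h2
      have h3 := h1.pow_left (m := 4)
      norm_num at h3
      exact h3
    have h4 : (16 : ℤ) ∣ X * Y * Z := ⟨m, by rw [he, hm]⟩
    exact hX.dvd_of_dvd_mul_left (hZ.dvd_of_dvd_mul_right h4)
  have hpar : (2 : ℤ) ∣ A ∨ (2 : ℤ) ∣ B ∨ (2 : ℤ) ∣ C := by omega
  rcases hpar with h | h | h
  · have h16A := key (X := B) (Y := A) (Z := C) h hcop.symm hAC (by ring)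
    exact abc_even ⟨pp, hp⟩ (A := B) (B := A) (C := C) h16A (by linarith) hcop.symm
      (by rw [mul_comm B A]; exact h0) (by rw [hn, mul_comm B A])
  · have h16B := key (X := A) (Y := B) (Z := C) h hcop hBC rfl
    exact abc_even ⟨pp, hp⟩ h16B hsum hcop h0 hn
  · have h16C := key (X := A) (Y := C) (Z := B) h hAC hBC.symm (by ring)
    have e : A * C * B = A * B * C := by ring
    exact abc_even ⟨pp, hp⟩ (A := A) (B := C) (C := B) h16C (by linarith) hAC
      (by rw [e]; exact h0) (by rw [hn, e])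

end Fermat.Agent.Cor.H07
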