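import Fermat.Agent.Cor.H07Abc

/-!
# Sums of coprime integers which are `p`-th powers up to small primes

Consequences of `abc`: let `A + B + C = 0` with `A, B, C` nonzero and coprime, `16 ∣ ABC`, and let
`p = 5` or `p ≥ 11` a prime, `p ≠ 13`.  It is impossible that `A`, `B` and `C` are `p`-th powers up to
powers of `2` and `3`, or up to powers of `2` and `5`.
-/

set_option autoImplicit false

namespace Fermat.Agent.Cor.H07

variable {A B C : ℤ} {p : ℕ}

theorem squarefree_pRad (p n : ℕ) : Squarefree (pRad p n) := by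
  rw [pRad]
  have key : ∀ s : Finset ℕ, (∀ q ∈ s, q.Prime) → Squarefree (∏ q ∈ s, q) := by
    intro s
    induction s using Finset.induction_on with
    | empty => intro _; simp
    | insert a s ha ih =>
      intro h
      rw [Finset.prod_insert ha]
      have hap := h a (Finset.mem_insert_self a s)
      have hs := ih fun q hq => h q (Finset.mem_insert_of_mem hq)
      refine (Nat.squarefree_mul_iff).mpr ⟨?_, hap.prime.squarefree, hs⟩
      refine Nat.Coprime.prod_right fun q hq => ?_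
      refine (Nat.coprime_primes hap (h q (Finset.mem_insert_of_mem hq))).mpr ?_
      rintro rfl
      exact ha hq
  exact key _ fun q hq => Nat.prime_of_mem_primeFactors (Finset.mem_filter.mp hq).1

theorem dvd_pRad_iff {p n q : ℕ} (hq : q.Prime) :
    q ∣ pRad p n ↔ ¬ p ∣ n.factorization q := by
  rw [pRad]
  constructor
  · intro h
    obtain ⟨r, hr, hd⟩ := (hq.prime.dvd_finsetProd_iff _).mp h
    have hr' := Finset.mem_filter.mp hr
    have hrq := (Nat.prime_dvd_prime_iff_eq hq (Nat.prime_of_mem_primeFactors hr'.1)).mp hd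
    rw [hrq]
    exact hr'.2
  · intro h
    refine Finset.dvd_prod_of_mem (fun q => q) (Finset.mem_filter.mpr ⟨?_, h⟩)
    rw [← Nat.support_factorization, Finsupp.mem_support_iff]
    intro h0
    rw [h0] at h
    exact h (dvd_zero p)

/-- if all the primes of the `p`-radical are in `{2, L}`, it divides `2 L` -/
theorem pRad_dvd {p n L : ℕ} (_hL : L.Prime)
    (h : ∀ q : ℕ, q.Prime → q ≠ 2 → q ≠ L → p ∣ n.factorization q) : pRad p n ∣ 2 * L := by
  rw [← Nat.prod_primeFactors_of_squarefree (squarefree_pRad p n)]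
  have hsub : (pRad p n).primeFactors ⊆ {2, L} := by
    intro q hq
    have hqp := Nat.prime_of_mem_primeFactors hq
    have hqd := (dvd_pRad_iff hqp).mp (Nat.dvd_of_mem_primeFactors hq)
    rw [Finset.mem_insert, Finset.mem_singleton]
    by_contra! hne
    exact hqd (h q hqp hne.1 hne.2)
  refine (Finset.prod_dvd_prod_of_subset _ _ _ hsub).trans ?_
  by_cases h2 : (2 : ℕ) = L
  · rw [← h2, Finset.insert_eq_of_mem (Finset.mem_singleton_self 2), Finset.prod_singleton]
    exact dvd_mul_right _ _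
  · rw [Finset.prod_pair h2]

/-- the exponents of the odd primes in `n = ABC / 16` -/
theorem factorization_div (h16 : (16 : ℤ) ∣ A * B * C) {q : ℕ} (hq : q.Prime) (hq2 : q ≠ 2) :
    (A * B * C / 16).natAbs.factorization q = padicValInt q (A * B * C) := by
  have hf : Fact q.Prime := ⟨hq⟩
  obtain ⟨m, hm⟩ := h16
  have hdiv : A * B * C / 16 = m := by rw [hm]; exact Int.mul_ediv_cancel_left m (by norm_num)
  rw [hdiv, hm, padicValInt, Int.natAbs_mul, Nat.factorization_def _ hq]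
  rcases eq_or_ne m.natAbs 0 with h0 | h0
  · rw [h0, mul_zero]
  · have h1 : ((16 : ℤ)).natAbs = 2 ^ 4 := by norm_num
    rw [h1, padicValNat.mul (by norm_num) h0, padicValNat.pow,
      padicValNat_primes hq2, mul_zero, zero_add]

/-- **Sums of coprime integers, `p`-th powers up to powers of `2` and `L`, `L = 3` or `5`.** -/
theorem no_sum (pp : p.Prime) (hp : p = 5 ∨ (11 ≤ p ∧ p ≠ 13)) {L : ℕ} (hL : L = 3 ∨ L = 5)
    (hsum : A + B + C = 0) (hcop : IsCoprime A B) (h0 : A * B * C ≠ 0)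
    (h16 : (16 : ℤ) ∣ A * B * C)
    (hv : ∀ q : ℕ, q.Prime → q ≠ 2 → q ≠ L → p ∣ padicValInt q (A * B * C)) : False := by
  obtain ⟨h1, -⟩ := abc pp hp hsum hcop h0 h16
  have hLp : L.Prime := by rcases hL with rfl | rfl <;> norm_num
  have h2 := pRad_dvd (p := p) (n := (A * B * C / 16).natAbs) hLp (fun q hq hq2 hqL => by
    rw [factorization_div h16 hq hq2]; exact hv q hq hq2 hqL)
  have h3 := Nat.le_of_dvd (mul_pos two_pos hLp.pos) h2
  rcases hL with rfl | rfl <;> omega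

/-- **The equation `2 ^ a 3 ^ b x ^ p + 2 ^ c 3 ^ d y ^ p + 2 ^ e 3 ^ f z ^ p = 0`** (and the same
with `5` in place of `3`) with coprime summands whose product is divisible by `16` has no solution in
nonzero integers, for `p = 5` and all primes `p ≥ 11`, `p ≠ 13`. -/
theorem no_sum_pow (pp : p.Prime) (hp : p = 5 ∨ (11 ≤ p ∧ p ≠ 13)) {L : ℕ} (hL : L = 3 ∨ L = 5)
    {a b c d e f : ℕ} {x y z : ℤ} (hx : x ≠ 0) (hy : y ≠ 0) (hz : z ≠ 0)
    (hcop : IsCoprime (2 ^ a * (L : ℤ) ^ b * x ^ p) (2 ^ c * (L : ℤ) ^ d * y ^ p))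
    (h16 : (16 : ℤ) ∣ (2 ^ a * (L : ℤ) ^ b * x ^ p) * (2 ^ c * (L : ℤ) ^ d * y ^ p) *
      (2 ^ e * (L : ℤ) ^ f * z ^ p)) :
    2 ^ a * (L : ℤ) ^ b * x ^ p + 2 ^ c * (L : ℤ) ^ d * y ^ p + 2 ^ e * (L : ℤ) ^ f * z ^ p ≠ 0 := by
  intro hsum
  have hLp : L.Prime := by rcases hL with rfl | rfl <;> norm_num
  have hL0 : (L : ℤ) ≠ 0 := by exact_mod_cast hLp.ne_zero
  have hk : ∀ (i j : ℕ) {u : ℤ}, u ≠ 0 → (2 ^ i * (L : ℤ) ^ j * u ^ p) ≠ 0 := fun i j u hu =>
    mul_ne_zero (mul_ne_zero (pow_ne_zero _ two_ne_zero) (pow_ne_zero _ hL0)) (pow_ne_zero _ hu)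
  refine no_sum pp hp hL hsum hcop
    (mul_ne_zero (mul_ne_zero (hk a b hx) (hk c d hy)) (hk e f hz)) h16 fun q hq hq2 hqL => ?_
  have hf : Fact q.Prime := ⟨hq⟩
  have h2p : padicValInt q (2 : ℤ) = 0 := by
    refine padicValInt.eq_zero_of_not_dvd fun hd => hq2 ?_
    exact (Nat.prime_dvd_prime_iff_eq hq Nat.prime_two).mp (by exact_mod_cast hd)
  have hLv : padicValInt q (L : ℤ) = 0 := by
    refine padicValInt.eq_zero_of_not_dvd fun hd => hqL ?_
    exact (Nat.prime_dvd_prime_iff_eq hq hLp).mp (by exact_mod_cast hd)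
  have hpow : ∀ (u : ℤ) (n : ℕ), padicValInt q (u ^ n) = n * padicValInt q u := by
    intro u n
    rw [padicValInt, padicValInt, Int.natAbs_pow, padicValNat.pow]
  have hv : ∀ (i j : ℕ) {u : ℤ}, u ≠ 0 → p ∣ padicValInt q (2 ^ i * (L : ℤ) ^ j * u ^ p) := by
    intro i j u hu
    rw [padicValInt.mul (mul_ne_zero (pow_ne_zero _ two_ne_zero) (pow_ne_zero _ hL0))
      (pow_ne_zero _ hu), padicValInt.mul (pow_ne_zero _ two_ne_zero) (pow_ne_zero _ hL0),
      hpow, hpow, hpow, h2p, hLv]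
    simp
  rw [padicValInt.mul (mul_ne_zero (hk a b hx) (hk c d hy)) (hk e f hz),
    padicValInt.mul (hk a b hx) (hk c d hy)]
  exact dvd_add (dvd_add (hv a b hx) (hv c d hy)) (hv e f hz)

/-- **`2 ^ a x ^ p - L ^ b y ^ p ≠ ± 1`** for `a ≥ 4`, `L = 3, 5`, `xy ≠ 0`, `p = 5` or `p ≥ 11`,
`p ≠ 13`. -/
theorem pillai (pp : p.Prime) (hp : p = 5 ∨ (11 ≤ p ∧ p ≠ 13)) {L : ℕ} (hL : L = 3 ∨ L = 5)
    {a b : ℕ} (ha : 4 ≤ a) {x y : ℤ} (hx : x ≠ 0) (hy : y ≠ 0) {u : ℤ} (hu : u = 1 ∨ u = -1) :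
    2 ^ a * x ^ p - (L : ℤ) ^ b * y ^ p ≠ u := by
  intro h
  have hodd : Odd p := pp.odd_of_ne_two (by omega)
  have hup : u ^ p = u := by
    rcases hu with rfl | rfl
    · exact one_pow p
    · exact hodd.neg_one_pow
  have hu2 : u * u = 1 := by rcases hu with rfl | rfl <;> norm_num
  have hyp : (-y) ^ p = -(y ^ p) := hodd.neg_pow y
  have hup' : (-u) ^ p = -u := by rw [hodd.neg_pow, hup]
  have hu0 : -u ≠ 0 := by rcases hu with rfl | rfl <;> norm_num
  refine no_sum_pow pp hp hL (a := a) (b := 0) (c := 0) (d := b) (e := 0) (f := 0)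
    (x := x) (y := -y) (z := -u) hx (neg_ne_zero.mpr hy) hu0 ?_ ?_ ?_
  · simp only [pow_zero, mul_one, one_mul]
    refine ⟨u, u, ?_⟩
    rw [hyp]
    linear_combination u * h + hu2
  · simp only [pow_zero, mul_one, one_mul]
    have h1 : (16 : ℤ) ∣ 2 ^ a := by
      have h2 : ((2 : ℤ)) ^ 4 ∣ 2 ^ a := pow_dvd_pow 2 ha
      norm_num at h2
      exact h2
    exact ((h1.mul_right _).mul_right _).mul_right _
  · simp only [pow_zero, mul_one, one_mul]
    rw [hyp, hup']
    linear_combination h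

end Fermat.Agent.Cor.H07
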