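import Fermat.Agent.Cor.H07Consec
import Fermat.Agent.Cor.SerreAll

/-!
# Sums of coprime integers, consecutive integers: all primes `p ≥ 5`

With the irreducibility of the `13`-torsion of the Frey curves (`Cor/H11Thirteen.lean`,
`Cor/SerreAll.lean`) the theorems of `Cor/H07Abc.lean`, `Cor/H07Abc2.lean` and `Cor/H07Consec.lean`
hold for all primes `p ≥ 5`:

* `abc_all` : if `A + B + C = 0` with `A, B, C` nonzero, coprime, `16 ∣ ABC`, then the product of the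
  primes `ℓ` with `p ∤ v_ℓ(ABC / 16)` is at least `11` and different from `13`;
* `no_sum_pow_all` : `2 ^ a L ^ b x ^ p + 2 ^ c L ^ d y ^ p + 2 ^ e L ^ f z ^ p ≠ 0`, `L = 3, 5`
  (coprime summands with product divisible by `16`), `pillai_all` : `2 ^ a x ^ p - L ^ b y ^ p ≠ ± 1`,
  `a ≥ 4`;
* `sixteen_ne` : `L ^ b x ^ p + 16 L ^ d y ^ p + L ^ f z ^ p ≠ 0` for `L = 3, 5, 7, 13` (coprime
  summands);
* `choose_ne_all` : even binomial coefficients `C(m, 2)`, `C(m, 3)`, `C(m, 4)` are not perfect `e`-th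
  powers, `e` with a prime factor `≥ 5`;
* `schaeffer_all` : `1 ^ k + 2 ^ k + ⋯ + n ^ k ≠ y ^ e` for `k = 1, 2, 3, 5`, `n ≡ 0, 3 (mod 4)`.

This file is not used by any of the statement files.
-/

set_option autoImplicit false

noncomputable section

namespace Fermat.Agent.Cor.H07

variable {A B C : ℤ} {p : ℕ}

/-- **the Frey curves have irreducible `p`-torsion for all primes `p ≥ 5`** -/
theorem irrFW (pp : p.Prime) (hp5 : 5 ≤ p) : IrrFW p := by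
  by_cases h13 : p = 13
  · subst h13
    exact fun A B hA hB _ h0 => Cor.H11.irr_thirteen hA hB h0
  · exact irrFW_of_ne_thirteen pp hp5 h13

/-- **The sum of coprime integers and `p`-th powers.** -/
theorem abc_all (pp : p.Prime) (hp5 : 5 ≤ p) (hsum : A + B + C = 0)
    (hcop : IsCoprime A B) (h0 : A * B * C ≠ 0) (h16 : (16 : ℤ) ∣ A * B * C) :
    11 ≤ pRad p (A * B * C / 16).natAbs ∧ pRad p (A * B * C / 16).natAbs ≠ 13 :=
  abc_of pp (by omega) (irrFW pp hp5) hsum hcop h0 h16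

/-- some prime `q ≠ 2, L` divides `ABC` with an exponent not divisible by `p` -/
theorem no_sum_all (pp : p.Prime) (hp5 : 5 ≤ p) {L : ℕ} (hL : L = 3 ∨ L = 5)
    (hsum : A + B + C = 0) (hcop : IsCoprime A B) (h0 : A * B * C ≠ 0)
    (h16 : (16 : ℤ) ∣ A * B * C) :
    ∃ q : ℕ, q.Prime ∧ q ≠ 2 ∧ q ≠ L ∧ ¬ p ∣ padicValInt q (A * B * C) :=
  no_sum_of pp (by omega) (irrFW pp hp5) hL hsum hcop h0 h16

/-- **Sums of three `p`-th powers with coefficients composed of `2` and `L = 3` or `L = 5`.** -/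
theorem no_sum_pow_all (pp : p.Prime) (hp5 : 5 ≤ p) {L : ℕ} (hL : L = 3 ∨ L = 5)
    {a b c d e f : ℕ} {x y z : ℤ} (hx : x ≠ 0) (hy : y ≠ 0) (hz : z ≠ 0)
    (hcop : IsCoprime (2 ^ a * (L : ℤ) ^ b * x ^ p) (2 ^ c * (L : ℤ) ^ d * y ^ p))
    (h16 : (16 : ℤ) ∣ (2 ^ a * (L : ℤ) ^ b * x ^ p) * (2 ^ c * (L : ℤ) ^ d * y ^ p) *
      (2 ^ e * (L : ℤ) ^ f * z ^ p)) :
    2 ^ a * (L : ℤ) ^ b * x ^ p + 2 ^ c * (L : ℤ) ^ d * y ^ p + 2 ^ e * (L : ℤ) ^ f * z ^ p ≠ 0 := by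
  intro hsum
  have hLp : L.Prime := by rcases hL with rfl | rfl <;> norm_num
  have hL0 : (L : ℤ) ≠ 0 := by exact_mod_cast hLp.ne_zero
  have hk : ∀ (i j : ℕ) {u : ℤ}, u ≠ 0 → (2 ^ i * (L : ℤ) ^ j * u ^ p) ≠ 0 := fun i j u hu =>
    mul_ne_zero (mul_ne_zero (pow_ne_zero _ two_ne_zero) (pow_ne_zero _ hL0)) (pow_ne_zero _ hu)
  obtain ⟨q, hq, hq2, hqL, h⟩ := no_sum_all pp hp5 hL hsum hcop
    (mul_ne_zero (mul_ne_zero (hk a b hx) (hk c d hy)) (hk e f hz)) h16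
  have hf : Fact q.Prime := ⟨hq⟩
  apply h
  rw [padicValInt.mul (mul_ne_zero (hk a b hx) (hk c d hy)) (hk e f hz),
    padicValInt.mul (hk a b hx) (hk c d hy)]
  exact dvd_add (dvd_add (val_unit_mul_pow hLp hq hq2 hqL a b hx)
    (val_unit_mul_pow hLp hq hq2 hqL c d hy)) (val_unit_mul_pow hLp hq hq2 hqL e f hz)

/-- **`2 ^ a x ^ p - L ^ b y ^ p ≠ ± 1`** for `a ≥ 4`, `L = 3, 5`, `xy ≠ 0`, all primes `p ≥ 5`. -/
theorem pillai_all (pp : p.Prime) (hp5 : 5 ≤ p) {L : ℕ} (hL : L = 3 ∨ L = 5)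
    {a b : ℕ} (ha : 4 ≤ a) {x y : ℤ} (hx : x ≠ 0) (hy : y ≠ 0) {u : ℤ} (hu : u = 1 ∨ u = -1) :
    2 ^ a * x ^ p - (L : ℤ) ^ b * y ^ p ≠ u := by
  intro h
  have hodd : Odd p := pp.odd_of_ne_two (by omega)
  have hup : u ^ p = u := by
    rcases hu with rfl | rfl
    · exact one_pow p
    · exact hodd.neg_one_pow
  have hu2 : u * u = 1 := by rcases hu with rfl | rfl <;> norm_num
  have hyp : (-y) ^ p = -(y ^ p) := hodd.neg_pow y
  have hup' : (-u) ^ p = -u := by rw [hodd.neg_pow, hup]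
  have hu0 : -u ≠ 0 := by rcases hu with rfl | rfl <;> norm_num
  refine no_sum_pow_all pp hp5 hL (a := a) (b := 0) (c := 0) (d := b) (e := 0) (f := 0)
    (x := x) (y := -y) (z := -u) hx (neg_ne_zero.mpr hy) hu0 ?_ ?_ ?_
  · simp only [pow_zero, mul_one, one_mul]
    refine ⟨u, u, ?_⟩
    rw [hyp]
    linear_combination u * h + hu2
  · simp only [pow_zero, mul_one, one_mul]
    have h1 : (16 : ℤ) ∣ 2 ^ a := by
      have h2 : ((2 : ℤ)) ^ 4 ∣ 2 ^ a := pow_dvd_pow 2 ha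
      norm_num at h2
      exact h2
    exact ((h1.mul_right _).mul_right _).mul_right _
  · simp only [pow_zero, mul_one, one_mul]
    rw [hyp, hup']
    linear_combination h

/-- if `p` divides all exponents of `n` at the primes `≠ L`, then `pRad p n ∣ L` -/
theorem pRad_dvd_prime {n L : ℕ}
    (h : ∀ q : ℕ, q.Prime → q ≠ L → p ∣ n.factorization q) : pRad p n ∣ L := by
  rw [← Nat.prod_primeFactors_of_squarefree (squarefree_pRad p n)]
  have hsub : (pRad p n).primeFactors ⊆ {L} := by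
    intro q hq
    have hqp := Nat.prime_of_mem_primeFactors hq
    have hqd := (dvd_pRad_iff hqp).mp (Nat.dvd_of_mem_primeFactors hq)
    rw [Finset.mem_singleton]
    by_contra hne
    exact hqd (h q hqp hne)
  refine (Finset.prod_dvd_prod_of_subset _ _ _ hsub).trans ?_
  rw [Finset.prod_singleton]

/-- **Equations with the coefficient `16`**: `L ^ b x ^ p + 16 L ^ d y ^ p + L ^ f z ^ p = 0` with
coprime summands has no solution in nonzero integers, for `L = 3, 5, 7, 13` and all primes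
`p ≥ 5`. -/
theorem sixteen_ne (pp : p.Prime) (hp5 : 5 ≤ p) {L : ℕ} (hL : L = 3 ∨ L = 5 ∨ L = 7 ∨ L = 13)
    {b d f : ℕ} {x y z : ℤ} (hx : x ≠ 0) (hy : y ≠ 0) (hz : z ≠ 0)
    (hcop : IsCoprime ((L : ℤ) ^ b * x ^ p) (16 * (L : ℤ) ^ d * y ^ p)) :
    (L : ℤ) ^ b * x ^ p + 16 * (L : ℤ) ^ d * y ^ p + (L : ℤ) ^ f * z ^ p ≠ 0 := by
  intro hsum
  have hLp : L.Prime := by rcases hL with rfl | rfl | rfl | rfl <;> norm_num
  have hL0 : (L : ℤ) ≠ 0 := by exact_mod_cast hLp.ne_zero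
  have h16 : (L : ℤ) ^ b * x ^ p * (16 * (L : ℤ) ^ d * y ^ p) * ((L : ℤ) ^ f * z ^ p) =
      16 * ((L : ℤ) ^ (b + d + f) * (x * y * z) ^ p) := by ring
  have hk : (L : ℤ) ^ (b + d + f) * (x * y * z) ^ p ≠ 0 :=
    mul_ne_zero (pow_ne_zero _ hL0) (pow_ne_zero _ (mul_ne_zero (mul_ne_zero hx hy) hz))
  have h0 : (L : ℤ) ^ b * x ^ p * (16 * (L : ℤ) ^ d * y ^ p) * ((L : ℤ) ^ f * z ^ p) ≠ 0 := by
    rw [h16]
    exact mul_ne_zero (by norm_num) hk
  obtain ⟨h1, h2⟩ := abc_all pp hp5 hsum hcop h0 ⟨_, h16⟩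
  rw [h16, Int.mul_ediv_cancel_left _ (by norm_num : (16 : ℤ) ≠ 0)] at h1 h2
  have h3 : pRad p ((L : ℤ) ^ (b + d + f) * (x * y * z) ^ p).natAbs ∣ L := by
    apply pRad_dvd_prime
    intro q hq hqL
    have hf : Fact q.Prime := ⟨hq⟩
    rw [Nat.factorization_def _ hq]
    change p ∣ padicValInt q ((L : ℤ) ^ (b + d + f) * (x * y * z) ^ p)
    have hLv : padicValInt q (L : ℤ) = 0 := by
      apply padicValInt_eq_zero
      intro hd
      exact hqL ((Nat.prime_dvd_prime_iff_eq hq hLp).mp (by exact_mod_cast hd))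
    rw [padicValInt.mul (pow_ne_zero _ hL0)
      (pow_ne_zero _ (mul_ne_zero (mul_ne_zero hx hy) hz)), val_pow, val_pow, hLv, mul_zero,
      zero_add]
    exact dvd_mul_right _ _
  rcases (Nat.dvd_prime hLp).mp h3 with h4 | h4
  · omega
  · rw [h4] at h1 h2
    omega

/-- **`x ^ p + 16 y ^ p = L ^ α z ^ p`** has no solution in nonzero integers with `x` prime to `2 y`,
for `L = 3, 5, 7, 13` and all primes `p ≥ 5`. -/
theorem sixteen_ne' (pp : p.Prime) (hp5 : 5 ≤ p) {L : ℕ} (hL : L = 3 ∨ L = 5 ∨ L = 7 ∨ L = 13)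
    {α : ℕ} {x y z : ℤ} (hx : x ≠ 0) (hy : y ≠ 0) (hz : z ≠ 0) (hcop : IsCoprime x (2 * y)) :
    x ^ p + 16 * y ^ p ≠ (L : ℤ) ^ α * z ^ p := by
  intro h
  have hodd : Odd p := pp.odd_of_ne_two (by omega)
  have hc : IsCoprime (x ^ p) (16 * y ^ p) := by
    have h1 : IsCoprime (x ^ p) (2 * y) := hcop.pow_left
    have h2 : IsCoprime (x ^ p) (2 : ℤ) := h1.of_mul_right_left
    have h3 : IsCoprime (x ^ p) y := h1.of_mul_right_right
    have h4 := h2.pow_right (n := 4)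
    norm_num at h4
    exact h4.mul_right h3.pow_right
  refine sixteen_ne pp hp5 hL (b := 0) (d := 0) (f := α) hx hy (neg_ne_zero.mpr hz) ?_ ?_
  · rw [pow_zero, one_mul, mul_one]
    exact hc
  · rw [pow_zero, one_mul, mul_one, hodd.neg_pow]
    linear_combination h

/-- **Even binomial coefficients** `C(m, k)`, `k = 2, 3, 4`, are not perfect `e`-th powers, if `e`
has a prime factor `p ≥ 5`. -/
theorem choose_ne_all (pp : p.Prime) (hp5 : 5 ≤ p) {e : ℕ} (hpe : p ∣ e) {m k : ℕ}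
    (hk : k = 2 ∨ k = 3 ∨ k = 4) (hm : k ≤ m) (he : Even (m.choose k)) (y : ℕ) :
    m.choose k ≠ y ^ e := by
  obtain ⟨c, rfl⟩ := hpe
  have H := irrFW pp hp5
  rw [mul_comm, pow_mul]
  rcases hk with rfl | rfl | rfl
  · exact choose_two_ne pp hp5 H hm he _
  · exact choose_three_ne pp hp5 H hm he _
  · exact choose_four_ne pp hp5 H hm he _

/-- **Schäffer's equation** `1 ^ k + 2 ^ k + ⋯ + n ^ k = y ^ e`, `k = 1, 2, 3, 5`, has no solution
with `n ≥ 1`, `n ≡ 0, 3 (mod 4)` (that is, with `y` even), if `e` has a prime factor `p ≥ 5`. -/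
theorem schaeffer_all (pp : p.Prime) (hp5 : 5 ≤ p) {e : ℕ} (hpe : p ∣ e) {k : ℕ}
    (hk : k = 1 ∨ k = 2 ∨ k = 3 ∨ k = 5) {n : ℕ} (hn : n ≠ 0) (h4 : n % 4 = 0 ∨ n % 4 = 3)
    (y : ℕ) : ∑ i ∈ Finset.range (n + 1), i ^ k ≠ y ^ e := by
  obtain ⟨c, rfl⟩ := hpe
  have H := irrFW pp hp5
  rw [mul_comm p c, pow_mul]
  rcases hk with rfl | rfl | rfl | rfl
  · have h := sum_pow_one_ne pp hp5 H hn h4 (y ^ c)
    simpa using h
  · exact sum_pow_two_ne pp hp5 H hn h4 _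
  · exact sum_pow_three_ne pp hp5 H hn h4 _
  · exact sum_pow_five_ne pp hp5 H hn h4 _

/-- **Two consecutive integers** whose product is divisible by `16`: the product is not of the form
`2 ^ i * L ^ j * y ^ p`, `L = 3, 5`, `p ≥ 5` prime. -/
theorem two_consecutive_all (pp : p.Prime) (hp5 : 5 ≤ p) {L : ℕ} (hL : L = 3 ∨ L = 5)
    {a : ℤ} (h0 : a * (a + 1) ≠ 0) (h16 : (16 : ℤ) ∣ a * (a + 1)) (i j : ℕ) (y : ℤ) :
    a * (a + 1) ≠ 2 ^ i * (L : ℤ) ^ j * y ^ p :=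
  mul_succ_ne pp (by omega) (irrFW pp hp5) hL h0 h16 i j y

/-- **Three consecutive integers**: if `4 ∣ n` or `16 ∣ n² - 1`, then `(n - 1) n (n + 1)` is not of
the form `2 ^ i * L ^ j * y ^ p`, `L = 3, 5`, `p ≥ 5` prime. -/
theorem three_consecutive_all (pp : p.Prime) (hp5 : 5 ≤ p) {L : ℕ} (hL : L = 3 ∨ L = 5)
    {n : ℤ} (h0 : (n - 1) * n * (n + 1) ≠ 0) (h16 : (4 : ℤ) ∣ n ∨ (16 : ℤ) ∣ n ^ 2 - 1)
    (i j : ℕ) (y : ℤ) : (n - 1) * n * (n + 1) ≠ 2 ^ i * (L : ℤ) ^ j * y ^ p :=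
  mul_three_ne pp (by omega) (irrFW pp hp5) hL h0 h16 i j y

end Fermat.Agent.Cor.H07
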