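import Fermat.Agent.Cor.H07Serre

/-!
# The levels at which `W[p]` arises

Let `W` be a semistable curve, `p` an odd prime with `W[p]` irreducible, and `M ≥ 1`; if `W[p]` is
très ramifiée at `p` (that is, if `p ∤ v_p(Δ)`), assume `p ∣ M`.  Then `W[p]` arises from an eigenform
of weight two and level `M` if and only if Serre's level `serreLevel W p` (the product of the primes
`q` with `p ∤ v_q(Δ)`) divides `M` (`arises_iff`).  In particular the set of these levels determines
Serre's level (`serreLevel_unique`).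

This file is not used by any of the statement files.
-/

set_option autoImplicit false

noncomputable section

namespace Fermat.Agent.Cor.H07

open WeierstrassCurve ModularFormClass

variable {W : WeierstrassCurve ℤ} {p : ℕ} [hp : Fact p.Prime]

omit hp in
/-- residual modularity passes to multiples of the level -/
theorem rm_of_dvd {N M : ℕ} (hM : M ≠ 0) (hd : N ∣ M) (h : W.IsResiduallyModularOfLevel p N) :
    W.IsResiduallyModularOfLevel p M := by
  have : NeZero M := ⟨hM⟩
  have : NeZero N := ⟨fun h0 => hM (by rw [h0] at hd; exact zero_dvd_iff.mp hd)⟩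
  obtain ⟨f, 𝔪, hf, hmax, hmem, hcong⟩ := h
  obtain ⟨f', hf', hff'⟩ := H18R.exists_raise hd hf
  refine ⟨f', 𝔪, hf', hmax, hmem, fun ℓ hℓ hgood hℓM hℓp => ?_⟩
  obtain ⟨a, ha, ha'⟩ := hcong ℓ hℓ hgood (fun h => hℓM (h.trans hd)) hℓp
  exact ⟨a, by rw [hff' ℓ hℓ hℓM, ha], ha'⟩

/-- **The levels of `W[p]`** -/
theorem arises_iff (hΔ : W.Δ ≠ 0) (hss : W.IsSemistableModel) (hirr : W.ModRepIsIrreducible p)
    (hp2 : p ≠ 2) {M : ℕ} (hM : M ≠ 0) (h : p ∣ M ∨ p ∣ padicValInt p W.Δ) :
    W.IsResiduallyModularOfLevel p M ↔ serreLevel W p ∣ M := by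
  constructor
  · intro hmod
    have h1 := serreLevel_dvd hΔ hss hirr hp2 hM hmod
    rw [← Nat.prod_primeFactors_of_squarefree (squarefree_serreLevel W p)]
    refine Finset.prod_primes_dvd _ (fun q hq => (Nat.prime_of_mem_primeFactors hq).prime)
      fun q hq => ?_
    have hqp := Nat.prime_of_mem_primeFactors hq
    have hqN := Nat.dvd_of_mem_primeFactors hq
    rcases (Nat.Prime.dvd_mul hqp).mp (hqN.trans h1) with h2 | h2
    · have h3 := (Nat.prime_dvd_prime_iff_eq hqp hp.out).mp h2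
      subst h3
      exact h.resolve_right ((dvd_serreLevel_iff hΔ hqp).mp hqN)
    · exact h2
  · intro hd
    exact rm_of_dvd hM hd (ribet hΔ hss hirr hp2)

/-- **The levels of `W[p]`**, when `W[p]` is finite at `p` -/
theorem arises_iff_of_dvd (hΔ : W.Δ ≠ 0) (hss : W.IsSemistableModel)
    (hirr : W.ModRepIsIrreducible p) (hp2 : p ≠ 2) (h : p ∣ padicValInt p W.Δ) {M : ℕ}
    (hM : M ≠ 0) : W.IsResiduallyModularOfLevel p M ↔ serreLevel W p ∣ M :=
  arises_iff hΔ hss hirr hp2 hM (Or.inr h)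

/-- Serre's level is the only level with this property -/
theorem serreLevel_unique (hΔ : W.Δ ≠ 0) (hss : W.IsSemistableModel)
    (hirr : W.ModRepIsIrreducible p) (hp2 : p ≠ 2) (h : p ∣ padicValInt p W.Δ) {N : ℕ}
    (hN0 : N ≠ 0) (hN : ∀ M : ℕ, M ≠ 0 → (W.IsResiduallyModularOfLevel p M ↔ N ∣ M)) :
    N = serreLevel W p := by
  have h0 := serreLevel_ne_zero W p
  apply Nat.dvd_antisymm
  · rw [← hN _ h0, arises_iff_of_dvd hΔ hss hirr hp2 h h0]
  · rw [← arises_iff_of_dvd hΔ hss hirr hp2 h hN0, hN N hN0]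

/-- the levels at which `W[p]` arises are closed under greatest common divisors -/
theorem arises_gcd (hΔ : W.Δ ≠ 0) (hss : W.IsSemistableModel)
    (hirr : W.ModRepIsIrreducible p) (hp2 : p ≠ 2) (h : p ∣ padicValInt p W.Δ) {M M' : ℕ}
    (hM : M ≠ 0) (hM' : M' ≠ 0) (h1 : W.IsResiduallyModularOfLevel p M)
    (h2 : W.IsResiduallyModularOfLevel p M') : W.IsResiduallyModularOfLevel p (Nat.gcd M M') := by
  rw [arises_iff_of_dvd hΔ hss hirr hp2 h hM] at h1
  rw [arises_iff_of_dvd hΔ hss hirr hp2 h hM'] at h2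
  rw [arises_iff_of_dvd hΔ hss hirr hp2 h (fun h0 => hM (Nat.gcd_eq_zero_iff.mp h0).1)]
  exact Nat.dvd_gcd h1 h2

end Fermat.Agent.Cor.H07
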