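import Fermat.Agent.Cor.H07Semi

/-!
# The conductor is the exact level, and congruence primes

* `conductor_dvd`: if a semistable elliptic curve `W` is modular of level `M` (all but finitely many
  `a_ℓ` agree with those of an eigenform of level `M`), then every bad prime divides `M`;
* `congruence_prime` (Ribet): if `W[p]` is irreducible, `p` odd, and `p ∣ v_q(Δ)` for a bad prime
  `q`, then the form of `W` is congruent modulo `p` to an eigenform of level dividing `N / q`,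
  which is not the form of `W`: the prime `p` is a congruence prime.
-/

set_option autoImplicit false

noncomputable section

namespace Fermat.Agent.Cor.H07

open WeierstrassCurve ModularFormClass

variable {W : WeierstrassCurve ℤ} {p : ℕ}

/-- the conductor of a semistable curve -/
def cond (W : WeierstrassCurve ℤ) : ℕ := ∏ q ∈ W.Δ.natAbs.primeFactors, q

/-- an eigenform with the same `a_ℓ` outside a finite set gives residual modularity -/
theorem rm_of_eq [hp : Fact p.Prime] (hΔ0 : W.Δ ≠ 0) (hirr : W.ModRepIsIrreducible p) {M : ℕ}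
    (hM : M ≠ 0) {f : CuspForm (CongruenceSubgroup.Gamma0 M) 2} (hf : f.IsNormalizedEigenform)
    (S : Finset ℕ) (hfW : ∀ ℓ : ℕ, ℓ.Prime → ℓ ∉ S → qCoeff f ℓ = (W.apOfModel ℓ : ℂ)) :
    W.IsResiduallyModularOfLevel p M := by
  have : NeZero M := ⟨hM⟩
  obtain ⟨𝔪, hmax, hmem⟩ := FLTPrelim.exists_maximalIdeal_natCast_prime_mem (p := p) hp.out
  refine H18R.isResiduallyModular_of_almost hΔ0 hirr hM hf hmax hmem S fun ℓ hℓ hℓS => ?_
  refine ⟨((W.apOfModel ℓ : ℤ) : integralClosure ℤ ℂ), ?_, ?_⟩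
  · rw [hfW ℓ hℓ hℓS]
    simp
  · rw [sub_self]
    exact zero_mem _

/-- **The conductor divides every level.** If `a_ℓ(f) = a_ℓ(W)` for all primes `ℓ` outside a finite
set, `f` an eigenform of level `M`, then every bad prime of the semistable curve `W` divides
`M`. -/
theorem conductor_dvd (hΔ0 : W.Δ ≠ 0) (hss : W.IsSemistableModel) {M : ℕ} (hM : M ≠ 0)
    {f : CuspForm (CongruenceSubgroup.Gamma0 M) 2} (hf : f.IsNormalizedEigenform)
    (S : Finset ℕ) (hfW : ∀ ℓ : ℕ, ℓ.Prime → ℓ ∉ S → qCoeff f ℓ = (W.apOfModel ℓ : ℂ)) :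
    cond W ∣ M := by
  rw [cond]
  refine Finset.prod_primes_dvd _ (fun q hq => (Nat.prime_of_mem_primeFactors hq).prime)
    fun q hq => ?_
  have hqp := Nat.prime_of_mem_primeFactors hq
  have hqΔ : (q : ℤ) ∣ W.Δ := Int.natCast_dvd.mpr (Nat.dvd_of_mem_primeFactors hq)
  obtain ⟨r, hr, hrp⟩ := Nat.exists_infinite_primes (q + padicValInt q W.Δ + 14)
  have hfr : Fact r.Prime := ⟨hrp⟩
  have hirr := Mazur.modRep_irreducible hΔ0 hss hrp (by omega) (by omega)
  have hv : ¬ r ∣ padicValInt q W.Δ := by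
    intro hd
    have hfq : Fact q.Prime := ⟨hqp⟩
    have h1 : 1 ≤ padicValInt q W.Δ := by
      have h2 : ((q : ℕ) : ℤ) ^ 1 ∣ W.Δ := by rw [pow_one]; exact hqΔ
      rcases (padicValInt_dvd_iff (p := q) 1 W.Δ).mp h2 with h3 | h3
      · exact absurd h3 hΔ0
      · exact h3
    have := Nat.le_of_dvd h1 hd
    omega
  exact dvd_of_rm hΔ0 hss hirr (by omega) hM (rm_of_eq hΔ0 hirr hM hf S hfW) hqp (by omega) hv

/-- **Levels of modularity.** A semistable elliptic curve over `ℚ` is modular of level `M` if and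
only if its conductor divides `M`. -/
theorem isModularModelOfLevel_iff (hΔ0 : W.Δ ≠ 0) (hss : W.IsSemistableModel) {M : ℕ}
    (hM : M ≠ 0) : W.IsModularModelOfLevel M ↔ cond W ∣ M := by
  have : NeZero M := ⟨hM⟩
  constructor
  · rintro ⟨f, hf, hfW⟩
    refine conductor_dvd hΔ0 hss hM hf (W.Δ.natAbs.primeFactors ∪ M.primeFactors)
      fun ℓ hℓ hℓS => ?_
    rw [Finset.mem_union, not_or, Nat.mem_primeFactors_of_ne_zero (Int.natAbs_ne_zero.mpr hΔ0),
      Nat.mem_primeFactors_of_ne_zero hM] at hℓS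
    exact hfW ℓ hℓ (fun h => hℓS.1 ⟨hℓ, Int.natCast_dvd.mp h⟩) fun h => hℓS.2 ⟨hℓ, h⟩
  · intro hd
    obtain ⟨N, hN, hsq, hsupp, f, hf, hfW⟩ := Main.modular_of_semistable W hΔ0 hss
    have hN' : NeZero N := ⟨hN.ne'⟩
    have hNc : N = cond W := by
      rw [cond, ← Nat.prod_primeFactors_of_squarefree hsq]
      refine Finset.prod_congr ?_ fun _ _ => rfl
      ext q
      rw [Nat.mem_primeFactors_of_ne_zero (Int.natAbs_ne_zero.mpr hΔ0),
        Nat.mem_primeFactors_of_ne_zero hN.ne']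
      exact and_congr_right fun hq => (hsupp q hq).trans Int.natCast_dvd
    obtain ⟨f', hf', hff'⟩ := H18R.exists_raise (hNc ▸ hd : N ∣ M) hf
    exact ⟨f', hf', fun ℓ hℓ hgood hℓM => by rw [hff' ℓ hℓ hℓM, hfW ℓ hℓ hgood]⟩

/-- Serre's level divides the conductor -/
theorem serreLevel_dvd_cond (W : WeierstrassCurve ℤ) (p : ℕ) : serreLevel W p ∣ cond W :=
  Finset.prod_dvd_prod_of_subset _ _ _ (Finset.filter_subset _ _)

/-- **Congruence primes** (Ribet). Let `W` be semistable, `p` odd, `W[p]` irreducible and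
`p ∣ v_q(Δ)` for a bad prime `q`.  Then there is a normalised eigenform `f` of weight two and level
`serreLevel W p`, a divisor of the conductor not divisible by `q`, which is congruent to the form of
`W` modulo a prime above `p`, but whose coefficients differ from those of `W` at infinitely many
good primes. -/
theorem congruence_prime [hp : Fact p.Prime] (hΔ0 : W.Δ ≠ 0) (hss : W.IsSemistableModel)
    (hirr : W.ModRepIsIrreducible p) (hp2 : p ≠ 2) {q : ℕ} (hq : q.Prime) (hqΔ : (q : ℤ) ∣ W.Δ)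
    (hv : p ∣ padicValInt q W.Δ) :
    serreLevel W p ∣ cond W ∧ ¬ q ∣ serreLevel W p ∧
    ∃ (f : CuspForm (CongruenceSubgroup.Gamma0 (serreLevel W p)) 2)
      (𝔪 : Ideal (integralClosure ℤ ℂ)),
      f.IsNormalizedEigenform ∧ 𝔪.IsMaximal ∧ (p : integralClosure ℤ ℂ) ∈ 𝔪 ∧
      (∀ ℓ : ℕ, ℓ.Prime → W.IsGoodPrimeFor ℓ → ¬ ℓ ∣ serreLevel W p → ℓ ≠ p →
        ∃ a : integralClosure ℤ ℂ, (a : ℂ) = qCoeff f ℓ ∧
          a - ((W.apOfModel ℓ : ℤ) : integralClosure ℤ ℂ) ∈ 𝔪) ∧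
      ∀ S : Finset ℕ, ∃ ℓ : ℕ, ℓ.Prime ∧ ℓ ∉ S ∧ qCoeff f ℓ ≠ (W.apOfModel ℓ : ℂ) := by
  have hqs : ¬ q ∣ serreLevel W p := fun h => (dvd_serreLevel_iff hΔ0 hq).mp h hv
  refine ⟨serreLevel_dvd_cond W p, hqs, ?_⟩
  obtain ⟨f, 𝔪, hf, hmax, hmem, hcong⟩ := ribet hΔ0 hss hirr hp2
  refine ⟨f, 𝔪, hf, hmax, hmem, hcong, fun S => ?_⟩
  by_contra! h
  apply hqs
  refine dvd_trans ?_ (conductor_dvd hΔ0 hss (serreLevel_ne_zero W p) hf S h)
  rw [cond]
  refine Finset.dvd_prod_of_mem (fun q => q) ?_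
  rw [Nat.mem_primeFactors]
  exact ⟨hq, Int.natCast_dvd.mp hqΔ, Int.natAbs_ne_zero.mpr hΔ0⟩

end Fermat.Agent.Cor.H07
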