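import Fermat.Agent.H18R.Core

/-!
# The congruence at a prime of multiplicative reduction not dividing the level

If `W` is a semistable curve with irreducible `W[p]`, congruent modulo `𝔪 ∣ p` to a normalised eigenform `f` of
level `M`, and `q ≠ p` is a prime of multiplicative reduction of `W` which does not divide `M`, then
`a_q(f) ≡ ± (q + 1)` modulo `𝔪`.

This file is not used by any of the statement files.
-/

set_option autoImplicit false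
set_option linter.style.haveILetI false

noncomputable section

namespace Fermat.Agent.Cor.H11

open CongruenceSubgroup ModularFormClass IsLocalRing
open Fermat.Agent.Ell Fermat.Agent.H05 Fermat.Agent.H18R

variable {W : WeierstrassCurve ℤ} {p : ℕ} [hp : Fact p.Prime]

/-- **The congruence at a multiplicative prime**, version for a homomorphism to a field. -/
theorem mult_congr_field (hΔ : W.Δ ≠ 0) (hirr : W.ModRepIsIrreducible p) {M : ℕ} (hM : M ≠ 0)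
    {f : CuspForm (Gamma0 M) 2} (hf : f.IsNormalizedEigenform) {k : Type} [Field k] [CharP k p]
    (φ₀ : integralClosure ℤ ℂ →+* k) (S : Finset ℕ)
    (h : ∀ ℓ : ℕ, ℓ.Prime → ℓ ∉ S → ∃ a : integralClosure ℤ ℂ, (a : ℂ) = qCoeff f ℓ ∧
      φ₀ a = ((W.apOfModel ℓ : ℤ) : k)) {q : ℕ} (hq : q.Prime) (hqΔ : (q : ℤ) ∣ W.Δ)
    (hqc : ¬ (q : ℤ) ∣ W.c₄) (hqM : ¬ q ∣ M) (hqp : q ≠ p) :
    ∃ a : integralClosure ℤ ℂ, (a : ℂ) = qCoeff f q ∧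
      (φ₀ a = (q : k) + 1 ∨ φ₀ a = -((q : k) + 1)) := by
  classical
  obtain ⟨ρ, hρ, -⟩ := Fermat.Agent.S29.result hf hp.out (k := k) φ₀
  have hcp : ∀ {ℓ : ℕ}, ℓ.Prime → W.IsGoodPrimeFor ℓ → ℓ ≠ p →
      ∀ {A : ValuationSubring (AlgebraicClosure ℚ)}, A.LiesOverPrime ℓ →
      ∀ {φ : AlgebraicClosure ℚ ≃ₐ[ℚ] AlgebraicClosure ℚ}, A.IsFrobeniusAt φ ℓ →
      LinearMap.charpoly ((zRep W hΔ p).ρ φ) =
        Polynomial.X ^ 2 - Polynomial.C (W.apOfModel ℓ : ℤ_[p]) * Polynomial.X +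
          Polynomial.C (ℓ : ℤ_[p]) := by
    intro ℓ hℓ hgood hℓp A hA φ hφ
    rw [H25.charpoly_eq_of_finrank_two (zRep W hΔ p).finrank_eq]
    have h1 := zRep_trace_frob hΔ hirr hℓ hgood hℓp hA hφ
    have h2 := zRep_det_frob hΔ hirr hℓ hℓp hA hφ
    have h1' : LinearMap.trace ℤ_[p] (zRep W hΔ p).V ((zRep W hΔ p).ρ φ) =
      (W.apOfModel ℓ : ℤ_[p]) := h1
    rw [h1', h2]
  have hℓk : ∀ {ℓ : ℕ}, ℓ.Prime → ℓ ≠ p → ((ℓ : ℕ) : k) ≠ 0 := by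
    intro ℓ hℓ hℓp h0
    rw [CharP.cast_eq_zero_iff k p] at h0
    exact hℓp ((Nat.prime_dvd_prime_iff_eq hp.out hℓ).mp h0).symm
  have key := trace_eq ρ (zRep W hΔ p)
    (insert p (S ∪ (M.primeFactors ∪ W.Δ.natAbs.primeFactors))) (by
    intro ℓ hℓ hℓS A hA φ hφ
    have hℓp : ℓ ≠ p := fun h => hℓS (h ▸ Finset.mem_insert_self _ _)
    have hℓS' : ℓ ∉ S := fun h => hℓS (Finset.mem_insert_of_mem (Finset.mem_union_left _ h))
    have hℓM : ¬ ℓ ∣ M := fun h => hℓS (Finset.mem_insert_of_mem (Finset.mem_union_right _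
      (Finset.mem_union_left _ (Nat.mem_primeFactors.mpr ⟨hℓ, h, hM⟩))))
    have hgood : W.IsGoodPrimeFor ℓ := fun h => hℓS (Finset.mem_insert_of_mem
      (Finset.mem_union_right _ (Finset.mem_union_right _ (Nat.mem_primeFactors.mpr
        ⟨hℓ, Int.natCast_dvd.mp h, Int.natAbs_ne_zero.mpr hΔ⟩))))
    refine ⟨_, _, hcp hℓ hgood hℓp hA hφ, ?_⟩
    obtain ⟨a, ha, hcha⟩ := hρ ℓ hℓ hℓM (hℓk hℓ hℓp) A hA φ hφ
    obtain ⟨a', ha', hcha'⟩ := h ℓ hℓ hℓS'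
    have e1 : a = a' := Subtype.ext (ha.trans ha'.symm)
    rw [hcha, e1, hcha', redZ_intCast, redZ_natCast])
  haveI := H51.isGalois_Qbar
  obtain ⟨A, hA⟩ := exists_liesOverPrime (AlgebraicClosure ℚ) hq
  obtain ⟨φ, hφ⟩ := exists_isFrobeniusAt (L := AlgebraicClosure ℚ) hq hA
  obtain ⟨a, ha, hcha⟩ := hρ q hq hqM (hℓk hq hqp) A hA φ hφ
  refine ⟨a, ha, ?_⟩
  have e1 := trace_eq_of_charpoly ρ.finrank_eq _ _ _ hcha
  have e2 : (zRep W hΔ p).trace φ = (q : ℤ_[p]) + 1 ∨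
      (zRep W hΔ p).trace φ = -((q : ℤ_[p]) + 1) := zRep_mult_frob hΔ hirr hq hqp hqΔ hqc hA hφ
  have e3 : φ₀ a = redZ p k ((zRep W hΔ p).trace φ) := by
    rw [← e1]
    exact key φ
  rcases e2 with e2 | e2
  · left
    rw [e3, e2, map_add, redZ_natCast, map_one]
  · right
    rw [e3, e2, map_neg, map_add, redZ_natCast, map_one]

/-- **The congruence at a multiplicative prime.** -/
theorem mult_congr (hΔ : W.Δ ≠ 0) (hirr : W.ModRepIsIrreducible p) {M : ℕ} (hM : M ≠ 0)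
    {f : CuspForm (Gamma0 M) 2} (hf : f.IsNormalizedEigenform) {𝔪 : Ideal (integralClosure ℤ ℂ)}
    (h𝔪 : 𝔪.IsMaximal) (hp𝔪 : (p : integralClosure ℤ ℂ) ∈ 𝔪) (S : Finset ℕ)
    (h : ∀ ℓ : ℕ, ℓ.Prime → ℓ ∉ S → ∃ a : integralClosure ℤ ℂ, (a : ℂ) = qCoeff f ℓ ∧
      a - ((W.apOfModel ℓ : ℤ) : integralClosure ℤ ℂ) ∈ 𝔪) {q : ℕ} (hq : q.Prime)
    (hqΔ : (q : ℤ) ∣ W.Δ) (hqc : ¬ (q : ℤ) ∣ W.c₄) (hqM : ¬ q ∣ M) (hqp : q ≠ p) :
    ∃ a : integralClosure ℤ ℂ, (a : ℂ) = qCoeff f q ∧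
      (a - ((q : integralClosure ℤ ℂ) + 1) ∈ 𝔪 ∨ a + ((q : integralClosure ℤ ℂ) + 1) ∈ 𝔪) := by
  letI : Field (integralClosure ℤ ℂ ⧸ 𝔪) := Ideal.Quotient.field 𝔪
  haveI : CharP (integralClosure ℤ ℂ ⧸ 𝔪) p := charP_quot h𝔪 hp𝔪
  obtain ⟨a, ha, ha'⟩ := mult_congr_field hΔ hirr hM hf (Ideal.Quotient.mk 𝔪) S (fun ℓ hℓ hℓS => by
    obtain ⟨a, ha, ha'⟩ := h ℓ hℓ hℓS
    refine ⟨a, ha, ?_⟩
    rw [← map_intCast (Ideal.Quotient.mk 𝔪), Ideal.Quotient.eq]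
    exact ha') hq hqΔ hqc hqM hqp
  refine ⟨a, ha, ?_⟩
  rcases ha' with h1 | h1
  · left
    rw [← Ideal.Quotient.eq, h1, map_add, map_natCast, map_one]
  · right
    rw [← Ideal.Quotient.eq_zero_iff_mem, map_add, h1, map_add, map_natCast, map_one]
    ring

/-- **Residual modularity gives the congruences at all primes** `q ∤ p M`: at good primes
`a_q(f) ≡ a_q(W)`, at multiplicative primes `a_q(f) ≡ ± (q + 1)`. -/
theorem exists_form (hΔ : W.Δ ≠ 0) (hss : W.IsSemistableModel) (hirr : W.ModRepIsIrreducible p)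
    {M : ℕ} (hM : M ≠ 0) (hmod : W.IsResiduallyModularOfLevel p M) :
    ∃ (f : CuspForm (Gamma0 M) 2) (𝔪 : Ideal (integralClosure ℤ ℂ)), f.IsNormalizedEigenform ∧
      𝔪.IsMaximal ∧ (p : integralClosure ℤ ℂ) ∈ 𝔪 ∧
      (∀ q : ℕ, q.Prime → ¬ q ∣ M → q ≠ p → ¬ (q : ℤ) ∣ W.Δ →
        ∃ a : integralClosure ℤ ℂ, (a : ℂ) = qCoeff f q ∧
          a - ((W.apOfModel q : ℤ) : integralClosure ℤ ℂ) ∈ 𝔪) ∧
      (∀ q : ℕ, q.Prime → ¬ q ∣ M → q ≠ p → (q : ℤ) ∣ W.Δ →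
        ∃ a : integralClosure ℤ ℂ, (a : ℂ) = qCoeff f q ∧
          (a - ((q : integralClosure ℤ ℂ) + 1) ∈ 𝔪 ∨
            a + ((q : integralClosure ℤ ℂ) + 1) ∈ 𝔪)) := by
  classical
  obtain ⟨f, 𝔪, hf, h𝔪, hp𝔪, h⟩ := hmod
  refine ⟨f, 𝔪, hf, h𝔪, hp𝔪, fun q hq hqM hqp hqΔ => ?_, fun q hq hqM hqp hqΔ => ?_⟩
  · exact h q hq hqΔ hqM hqp
  · refine mult_congr hΔ hirr hM hf h𝔪 hp𝔪
      (insert p (M.primeFactors ∪ W.Δ.natAbs.primeFactors)) ?_ hq hqΔ (hss q hq hqΔ) hqM hqp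
    intro ℓ hℓ hℓS
    have hℓp : ℓ ≠ p := fun h => hℓS (h ▸ Finset.mem_insert_self _ _)
    have hℓM : ¬ ℓ ∣ M := fun h => hℓS (Finset.mem_insert_of_mem (Finset.mem_union_left _
      (Nat.mem_primeFactors.mpr ⟨hℓ, h, hM⟩)))
    have hgood : ¬ (ℓ : ℤ) ∣ W.Δ := fun h => hℓS (Finset.mem_insert_of_mem
      (Finset.mem_union_right _ (Nat.mem_primeFactors.mpr
        ⟨hℓ, Int.natCast_dvd.mp h, Int.natAbs_ne_zero.mpr hΔ⟩)))
    exact h ℓ hℓ hgood hℓM hℓp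

end Fermat.Agent.Cor.H11
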