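import Fermat.Agent.Cor.H07Shaf
import Fermat.Agent.Cor.H11Raise

/-!
# Congruences between semistable elliptic curves

Let `W`, `W'` be semistable curves and `p` a prime such that `a_ℓ(W) ≡ a_ℓ(W') (mod p)` for almost all
primes `ℓ` (`CongAp p W W'`), with `W[p]` irreducible.

* `cong_good` : then the congruence holds for all primes `ℓ ≠ p` of good reduction of both curves;
* `cong_bad` : if `W` has bad and `W'` good reduction at `q ≠ p`, then `a_q(W') ≡ ± (q + 1) (mod p)`;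
* `val_iff` : if `p` is odd (and `W'[p]` is irreducible too), `p ∣ v_q(Δ) ↔ p ∣ v_q(Δ')` for all
  primes `q ≠ p` (Kraus–Oesterlé, Frey–Mazur);
* `same_of_infinite` : if `W` and `W'` are congruent modulo infinitely many primes `p`, they have the
  same conductor and the same `a_ℓ` at all good primes (Serre, Faltings);
* `finite_congruences` : two semistable curves which do not have the same `a_ℓ` are congruent modulo
  finitely many primes only.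

This file is not used by any of the statement files.
-/

set_option autoImplicit false
set_option linter.style.haveILetI false

noncomputable section

namespace Fermat.Agent.Cor.H07

open WeierstrassCurve ModularFormClass

variable {W W' : WeierstrassCurve ℤ} {p : ℕ}

/-- the `a_ℓ` of `W` and `W'` are congruent modulo `p` for almost all `ℓ` -/
def CongAp (p : ℕ) (W W' : WeierstrassCurve ℤ) : Prop :=
  ∃ S : Finset ℕ, ∀ ℓ : ℕ, ℓ.Prime → ℓ ∉ S → (p : ℤ) ∣ W.apOfModel ℓ - W'.apOfModel ℓ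

theorem CongAp.symm (h : CongAp p W W') : CongAp p W' W := by
  obtain ⟨S, hS⟩ := h
  refine ⟨S, fun ℓ hℓ h' => ?_⟩
  have h1 := hS ℓ hℓ h'
  rwa [← neg_sub, dvd_neg] at h1

/-- integers in a maximal ideal above `p` -/
theorem dvd_of_intCast_mem [hp : Fact p.Prime] {𝔪 : Ideal (integralClosure ℤ ℂ)}
    (h𝔪 : 𝔪.IsMaximal) (hp𝔪 : (p : integralClosure ℤ ℂ) ∈ 𝔪) {n : ℤ}
    (h : (n : integralClosure ℤ ℂ) ∈ 𝔪) : (p : ℤ) ∣ n := by
  letI : Field (integralClosure ℤ ℂ ⧸ 𝔪) := Ideal.Quotient.field 𝔪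
  haveI : CharP (integralClosure ℤ ℂ ⧸ 𝔪) p := H18R.charP_quot h𝔪 hp𝔪
  rw [← CharP.intCast_eq_zero_iff (integralClosure ℤ ℂ ⧸ 𝔪) p n,
    ← map_intCast (Ideal.Quotient.mk 𝔪), Ideal.Quotient.eq_zero_iff_mem]
  exact h

/-- the form of `W'` is congruent to `W` -/
theorem exists_form_of_cong [hp : Fact p.Prime] (hΔ' : W'.Δ ≠ 0)
    (hss' : W'.IsSemistableModel) (h : CongAp p W W') :
    ∃ (f : CuspForm (CongruenceSubgroup.Gamma0 (cond W')) 2) (𝔪 : Ideal (integralClosure ℤ ℂ))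
      (S : Finset ℕ), f.IsNormalizedEigenform ∧ 𝔪.IsMaximal ∧ (p : integralClosure ℤ ℂ) ∈ 𝔪 ∧
      (∀ ℓ : ℕ, ℓ.Prime → W'.IsGoodPrimeFor ℓ → ¬ ℓ ∣ cond W' →
        qCoeff f ℓ = (W'.apOfModel ℓ : ℂ)) ∧
      ∀ ℓ : ℕ, ℓ.Prime → ℓ ∉ S → ∃ a : integralClosure ℤ ℂ, (a : ℂ) = qCoeff f ℓ ∧
        a - ((W.apOfModel ℓ : ℤ) : integralClosure ℤ ℂ) ∈ 𝔪 := by
  classical
  obtain ⟨S, hS⟩ := h
  obtain ⟨f, hf, hfW⟩ := (isModularModelOfLevel_iff hΔ' hss' (cond_ne_zero W')).mpr dvd_rfl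
  obtain ⟨𝔪, hmax, hmem⟩ := FLTPrelim.exists_maximalIdeal_natCast_prime_mem (p := p) hp.out
  refine ⟨f, 𝔪, S ∪ (W'.Δ.natAbs.primeFactors ∪ (cond W').primeFactors), hf, hmax, hmem, hfW,
    fun ℓ hℓ hℓS => ?_⟩
  rw [Finset.mem_union, Finset.mem_union, not_or, not_or,
    Nat.mem_primeFactors_of_ne_zero (Int.natAbs_ne_zero.mpr hΔ'),
    Nat.mem_primeFactors_of_ne_zero (cond_ne_zero W')] at hℓS
  have h1 := hfW ℓ hℓ (fun h => hℓS.2.1 ⟨hℓ, Int.natCast_dvd.mp h⟩) fun h => hℓS.2.2 ⟨hℓ, h⟩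
  refine ⟨((W'.apOfModel ℓ : ℤ) : integralClosure ℤ ℂ), ?_, ?_⟩
  · rw [h1]
    simp
  · obtain ⟨c, hc⟩ := hS ℓ hℓ hℓS.1
    have h2 : ((W'.apOfModel ℓ : ℤ) : integralClosure ℤ ℂ) -
        ((W.apOfModel ℓ : ℤ) : integralClosure ℤ ℂ) =
        ((-c : ℤ) : integralClosure ℤ ℂ) * (p : integralClosure ℤ ℂ) := by
      have h3 : W'.apOfModel ℓ - W.apOfModel ℓ = -c * (p : ℤ) := by linarith
      exact_mod_cast congrArg (fun n : ℤ => (n : integralClosure ℤ ℂ)) h3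
    rw [h2]
    exact 𝔪.mul_mem_left _ hmem

theorem not_dvd_cond {W : WeierstrassCurve ℤ} {q : ℕ} (hq : q.Prime)
    (hgood : W.IsGoodPrimeFor q) : ¬ q ∣ cond W := by
  intro h
  rw [cond] at h
  obtain ⟨r, hr, hd⟩ := (hq.prime.dvd_finsetProd_iff _).mp h
  have hrq := (Nat.prime_dvd_prime_iff_eq hq (Nat.prime_of_mem_primeFactors hr)).mp hd
  rw [← hrq] at hr
  exact hgood (Int.natCast_dvd.mpr (Nat.dvd_of_mem_primeFactors hr))

/-- **Congruent curves: the primes of good reduction.** -/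
theorem cong_good [hp : Fact p.Prime] (hΔ : W.Δ ≠ 0) (hirr : W.ModRepIsIrreducible p)
    (hΔ' : W'.Δ ≠ 0) (hss' : W'.IsSemistableModel) (h : CongAp p W W') {q : ℕ} (hq : q.Prime)
    (hgood : W.IsGoodPrimeFor q) (hgood' : W'.IsGoodPrimeFor q) (hqp : q ≠ p) :
    (p : ℤ) ∣ W.apOfModel q - W'.apOfModel q := by
  obtain ⟨f, 𝔪, S, hf, hmax, hmem, hfW, hS⟩ := exists_form_of_cong hΔ' hss' h
  obtain ⟨a, ha, ha'⟩ := H18R.fill_ideal hΔ hirr (cond_ne_zero W') hf hmax hmem S hS hq hgood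
    (not_dvd_cond hq hgood') hqp
  have h1 : a = ((W'.apOfModel q : ℤ) : integralClosure ℤ ℂ) := by
    apply Subtype.ext
    rw [ha, hfW q hq hgood' (not_dvd_cond hq hgood')]
    simp
  have h2 : ((W'.apOfModel q - W.apOfModel q : ℤ) : integralClosure ℤ ℂ) ∈ 𝔪 := by
    rw [Int.cast_sub, ← h1]
    exact ha'
  have h3 := dvd_of_intCast_mem hmax hmem h2
  rwa [← neg_sub, dvd_neg] at h3

/-- **Congruent curves: the primes of bad reduction of one of them.** -/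
theorem cong_bad [hp : Fact p.Prime] (hΔ : W.Δ ≠ 0) (hss : W.IsSemistableModel)
    (hirr : W.ModRepIsIrreducible p) (hΔ' : W'.Δ ≠ 0) (hss' : W'.IsSemistableModel)
    (h : CongAp p W W') {q : ℕ} (hq : q.Prime) (hbad : (q : ℤ) ∣ W.Δ)
    (hgood' : W'.IsGoodPrimeFor q) (hqp : q ≠ p) :
    (p : ℤ) ∣ W'.apOfModel q - ((q : ℤ) + 1) ∨ (p : ℤ) ∣ W'.apOfModel q + ((q : ℤ) + 1) := by
  obtain ⟨f, 𝔪, S, hf, hmax, hmem, hfW, hS⟩ := exists_form_of_cong hΔ' hss' h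
  obtain ⟨a, ha, ha'⟩ := H11.mult_congr hΔ hirr (cond_ne_zero W') hf hmax hmem S hS hq hbad
    (hss q hq hbad) (not_dvd_cond hq hgood') hqp
  have h1 : a = ((W'.apOfModel q : ℤ) : integralClosure ℤ ℂ) := by
    apply Subtype.ext
    rw [ha, hfW q hq hgood' (not_dvd_cond hq hgood')]
    simp
  rcases ha' with h2 | h2
  · left
    apply dvd_of_intCast_mem hmax hmem
    push_cast
    rw [← h1]
    exact h2
  · right
    apply dvd_of_intCast_mem hmax hmem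
    push_cast
    rw [← h1]
    exact h2

theorem rm_of_cong [hp : Fact p.Prime] (hΔ : W.Δ ≠ 0) (hirr : W.ModRepIsIrreducible p)
    (hΔ' : W'.Δ ≠ 0) (h : CongAp p W W') {M : ℕ} (hM : M ≠ 0)
    (hmod : W'.IsResiduallyModularOfLevel p M) : W.IsResiduallyModularOfLevel p M := by
  classical
  obtain ⟨S, hS⟩ := h
  obtain ⟨f, 𝔪, hf, hmax, hmem, hfW⟩ := hmod
  refine H18R.isResiduallyModular_of_almost hΔ hirr hM hf hmax hmem
    (insert p (S ∪ (W'.Δ.natAbs.primeFactors ∪ M.primeFactors))) fun ℓ hℓ hℓS => ?_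
  rw [Finset.mem_insert, Finset.mem_union, Finset.mem_union, not_or, not_or, not_or,
    Nat.mem_primeFactors_of_ne_zero (Int.natAbs_ne_zero.mpr hΔ'),
    Nat.mem_primeFactors_of_ne_zero hM] at hℓS
  obtain ⟨a, ha, ha'⟩ := hfW ℓ hℓ (fun h => hℓS.2.2.1 ⟨hℓ, Int.natCast_dvd.mp h⟩)
    (fun h => hℓS.2.2.2 ⟨hℓ, h⟩) hℓS.1
  refine ⟨a, ha, ?_⟩
  obtain ⟨c, hc⟩ := hS ℓ hℓ hℓS.2.1
  have h2 : a - ((W.apOfModel ℓ : ℤ) : integralClosure ℤ ℂ) =
      (a - ((W'.apOfModel ℓ : ℤ) : integralClosure ℤ ℂ)) +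
        ((-c : ℤ) : integralClosure ℤ ℂ) * (p : integralClosure ℤ ℂ) := by
    have h3 : W'.apOfModel ℓ - W.apOfModel ℓ = -c * (p : ℤ) := by linarith
    have h4 := congrArg (fun n : ℤ => (n : integralClosure ℤ ℂ)) h3
    push_cast at h4 ⊢
    linear_combination h4
  rw [h2]
  exact 𝔪.add_mem ha' (𝔪.mul_mem_left _ hmem)

/-- **Congruent curves: the valuations of the discriminants** (Kraus–Oesterlé, Frey–Mazur). -/
theorem val_iff [hp : Fact p.Prime] (hp2 : p ≠ 2) (hΔ : W.Δ ≠ 0) (hss : W.IsSemistableModel)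
    (hirr : W.ModRepIsIrreducible p) (hΔ' : W'.Δ ≠ 0) (hss' : W'.IsSemistableModel)
    (hirr' : W'.ModRepIsIrreducible p) (h : CongAp p W W') {q : ℕ} (hq : q.Prime) (hqp : q ≠ p) :
    p ∣ padicValInt q W.Δ ↔ p ∣ padicValInt q W'.Δ := by
  have key : ∀ {V V' : WeierstrassCurve ℤ}, V.Δ ≠ 0 → V.IsSemistableModel →
      V.ModRepIsIrreducible p → V'.Δ ≠ 0 → V'.IsSemistableModel → V'.ModRepIsIrreducible p →
      CongAp p V V' → p ∣ padicValInt q V'.Δ → p ∣ padicValInt q V.Δ := by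
    intro V V' h1 h2 h3 h4 h5 h6 h7 h8
    by_contra hv
    have h9 := rm_of_cong h1 h3 h4 h7 (serreLevel_ne_zero V' p) (ribet h4 h5 h6 hp2)
    have h10 := dvd_of_rm h1 h2 h3 hp2 (serreLevel_ne_zero V' p) h9 hq hqp hv
    exact (dvd_serreLevel_iff h4 hq).mp h10 h8
  exact ⟨key hΔ' hss' hirr' hΔ hss hirr h.symm, key hΔ hss hirr hΔ' hss' hirr' h⟩

theorem one_le_val {W : WeierstrassCurve ℤ} (hΔ : W.Δ ≠ 0) {q : ℕ} (hq : q.Prime)
    (hd : (q : ℤ) ∣ W.Δ) : 1 ≤ padicValInt q W.Δ := by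
  have hfq : Fact q.Prime := ⟨hq⟩
  have h2 : ((q : ℕ) : ℤ) ^ 1 ∣ W.Δ := by rw [pow_one]; exact hd
  rcases (padicValInt_dvd_iff (p := q) 1 W.Δ).mp h2 with h3 | h3
  · exact absurd h3 hΔ
  · exact h3

/-- **Curves which are congruent modulo infinitely many primes** have the same bad primes and the
same `a_ℓ` at all good primes. -/
theorem same_of_infinite (hΔ : W.Δ ≠ 0) (hss : W.IsSemistableModel) (hΔ' : W'.Δ ≠ 0)
    (hss' : W'.IsSemistableModel) (h : {p : ℕ | p.Prime ∧ CongAp p W W'}.Infinite) :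
    cond W = cond W' ∧ ∀ ℓ : ℕ, ℓ.Prime → W.IsGoodPrimeFor ℓ →
      W'.IsGoodPrimeFor ℓ ∧ W.apOfModel ℓ = W'.apOfModel ℓ := by
  have hex : ∀ B : ℕ, ∃ p : ℕ, B < p ∧ p.Prime ∧ CongAp p W W' := by
    intro B
    obtain ⟨p, hp, hB⟩ := h.exists_gt B
    exact ⟨p, hB, hp⟩
  have key : ∀ {V V' : WeierstrassCurve ℤ}, V.Δ ≠ 0 → V.IsSemistableModel → V'.Δ ≠ 0 →
      V'.IsSemistableModel → (∀ B : ℕ, ∃ p : ℕ, B < p ∧ p.Prime ∧ CongAp p V V') →
      ∀ q : ℕ, q.Prime → (q : ℤ) ∣ V.Δ → (q : ℤ) ∣ V'.Δ := by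
    intro V V' h1 h2 h3 h4 h5 q hq hqd
    obtain ⟨p, hB, hp, hc⟩ := h5 (q + padicValInt q V.Δ + 14)
    have hfp : Fact p.Prime := ⟨hp⟩
    have hirr := Mazur.modRep_irreducible h1 h2 hp (by omega) (by omega)
    have hirr' := Mazur.modRep_irreducible h3 h4 hp (by omega) (by omega)
    by_contra hgood
    have h6 := (val_iff (by omega) h1 h2 hirr h3 h4 hirr' hc hq (by omega)).mpr
      (by rw [padicValInt_eq_zero hgood]; exact dvd_zero _)
    have h7 := Nat.le_of_dvd (one_le_val h1 hq hqd) h6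
    omega
  have hbad : ∀ q : ℕ, q.Prime → ((q : ℤ) ∣ W.Δ ↔ (q : ℤ) ∣ W'.Δ) := fun q hq =>
    ⟨key hΔ hss hΔ' hss' hex q hq, key hΔ' hss' hΔ hss (fun B => by
      obtain ⟨p, h1, h2, h3⟩ := hex B
      exact ⟨p, h1, h2, h3.symm⟩) q hq⟩
  refine ⟨?_, fun ℓ hℓ hgood => ?_⟩
  · rw [cond, cond]
    refine Finset.prod_congr ?_ fun _ _ => rfl
    ext q
    rw [Nat.mem_primeFactors_of_ne_zero (Int.natAbs_ne_zero.mpr hΔ),
      Nat.mem_primeFactors_of_ne_zero (Int.natAbs_ne_zero.mpr hΔ')]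
    refine and_congr_right fun hq => ?_
    rw [← Int.natCast_dvd, ← Int.natCast_dvd]
    exact hbad q hq
  · have hgood' : W'.IsGoodPrimeFor ℓ := fun hd => hgood ((hbad ℓ hℓ).mpr hd)
    refine ⟨hgood', ?_⟩
    by_contra hne
    obtain ⟨p, hB, hp, hc⟩ := hex (ℓ + (W.apOfModel ℓ - W'.apOfModel ℓ).natAbs + 14)
    have hfp : Fact p.Prime := ⟨hp⟩
    have hirr := Mazur.modRep_irreducible hΔ hss hp (by omega) (by omega)
    have h1 := cong_good hΔ hirr hΔ' hss' hc hℓ hgood hgood' (by omega)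
    have h2 := Nat.le_of_dvd (Int.natAbs_pos.mpr (sub_ne_zero.mpr hne)) (Int.natCast_dvd.mp h1)
    omega

/-- **Two semistable elliptic curves over `ℚ` which do not have the same `a_ℓ` are congruent modulo
finitely many primes only.** -/
theorem finite_congruences (hΔ : W.Δ ≠ 0) (hss : W.IsSemistableModel) (hΔ' : W'.Δ ≠ 0)
    (hss' : W'.IsSemistableModel) (h : ¬ SameAp W W') :
    {p : ℕ | p.Prime ∧ CongAp p W W'}.Finite := by
  by_contra hinf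
  obtain ⟨-, h1⟩ := same_of_infinite hΔ hss hΔ' hss' hinf
  apply h
  refine ⟨W.Δ.natAbs.primeFactors, fun ℓ hℓ hℓS => (h1 ℓ hℓ fun hd => hℓS ?_).2⟩
  exact Nat.mem_primeFactors.mpr ⟨hℓ, Int.natCast_dvd.mp hd, Int.natAbs_ne_zero.mpr hΔ⟩

end Fermat.Agent.Cor.H07
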