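import Fermat.Agent.Cor.H07Abc2
import Fermat.Agent.Cor.SerreSeven

/-!
# Perfect powers and consecutive integers

Let `p ≥ 5` be a prime, `p ≠ 13` and let `L = 3` or `L = 5`.

* `two_consecutive` : if `16 ∣ a (a + 1) ≠ 0`, some prime `q ≠ 2, L` divides `a (a + 1)` with an
  exponent not divisible by `p`;
* `three_consecutive` : the same for `(n - 1) n (n + 1)`, if `4 ∣ n` or `16 ∣ n² - 1`;
* `triangular_ne`, `choose_three_ne`, `choose_four_ne` : even numbers of the form `n (n + 1) / 2`,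
  `m.choose 3`, `m.choose 4` are not `p`-th powers (Erdős, Győry);
* `sum_pow_two_ne`, `sum_pow_three_ne`, `sum_pow_five_ne` : for `n ≡ 0, 3 (mod 4)`, `n ≥ 1`, the
  sums `1 ^ k + 2 ^ k + ⋯ + n ^ k`, `k = 1, 2, 3, 5`, are not `p`-th powers (Schäffer's equation).

This file is not used by any of the statement files.
-/

set_option autoImplicit false

noncomputable section

namespace Fermat.Agent.Cor.H07

open WeierstrassCurve

variable {A B C : ℤ} {p : ℕ}

/-- the Frey curves have irreducible `p`-torsion -/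
def IrrFW (p : ℕ) : Prop :=
  ∀ A B : ℤ, A % 4 = 3 → (16 : ℤ) ∣ B → IsCoprime A B → A * B * (A + B) ≠ 0 →
    (Cor.H09.FW A B).ModRepIsIrreducible p

theorem irrFW_of_ne_thirteen (hp : p.Prime) (hp5 : 5 ≤ p) (hp13 : p ≠ 13) : IrrFW p := by
  intro A B hA hB hcop h0
  by_cases h5 : p = 5
  · subst h5
    exact Cor.H11.irr_five hA hB h0
  by_cases h7 : p = 7
  · subst h7
    exact Cor.H11.irr_seven hA hB h0
  · have : Fact p.Prime := ⟨hp⟩
    refine Cor.H09.modRep_irr hA hB hcop h0 ?_ hp13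
    by_contra hlt
    have h8 : p = 6 ∨ p = 8 ∨ p = 9 ∨ p = 10 := by omega
    rcases h8 with rfl | rfl | rfl | rfl <;> revert hp <;> norm_num

/-- the case of a Frey curve -/
theorem abc_core_of (pp : p.Prime) (hp2 : p ≠ 2) (H : IrrFW p) (hA : A % 4 = 3)
    (hB : (16 : ℤ) ∣ B) (hcop : IsCoprime A B)
    (h0 : A * B * (A + B) ≠ 0) {n : ℕ} (hn : 16 * n = (A * B * (A + B)).natAbs) :
    11 ≤ pRad p n ∧ pRad p n ≠ 13 := by
  have : Fact p.Prime := ⟨pp⟩
  have hF := Cor.H09.isFrey_FW hA hB hcop h0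
  have hirr : (Cor.H09.FW A B).ModRepIsIrreducible p := H A B hA hB hcop h0
  have hlev := eleven_le hF.Δ_ne_zero hF.semistable hirr hp2
  have hΔ := congrArg Int.natAbs hF.Δ
  have hΔ' : (Cor.H09.FW A B).Δ.natAbs = n ^ 2 := by
    rw [Int.natAbs_mul, Int.natAbs_pow (A * B * (A + B)), ← hn] at hΔ
    have h256 : ((2 : ℤ) ^ 8).natAbs = 256 := by norm_num
    rw [h256] at hΔ
    have h2 : 256 * (Cor.H09.FW A B).Δ.natAbs = 256 * n ^ 2 := by rw [hΔ]; ring
    exact Nat.eq_of_mul_eq_mul_left (by norm_num) h2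
  rwa [serreLevel_eq_pRad, hΔ', pRad_pow_two pp hp2] at hlev

/-- the case `16 ∣ B` -/
theorem abc_even_of (pp : p.Prime) (hp2 : p ≠ 2) (H : IrrFW p) (hB : (16 : ℤ) ∣ B)
    (hsum : A + B + C = 0) (hcop : IsCoprime A B)
    (h0 : A * B * C ≠ 0) {n : ℕ} (hn : 16 * n = (A * B * C).natAbs) :
    11 ≤ pRad p n ∧ pRad p n ≠ 13 := by
  have hC : C = -(A + B) := by linarith
  have hodd : ¬ (2 : ℤ) ∣ A := by
    intro h2
    have h3 : (2 : ℤ) ∣ B := (by norm_num : (2 : ℤ) ∣ 16).trans hB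
    have h4 := hcop.isUnit_of_dvd' h2 h3
    rw [Int.isUnit_iff] at h4
    omega
  have h4 : A % 4 = 3 ∨ A % 4 = 1 := by omega
  rcases h4 with h4 | h4
  · refine abc_core_of pp hp2 H h4 hB hcop ?_ (n := n) ?_
    · intro h; apply h0; rw [hC]; linear_combination -h
    · rw [hn, hC, mul_neg, Int.natAbs_neg]
  · refine abc_core_of (A := -A) (B := -B) pp hp2 H (by omega) (hB.neg_right) hcop.neg_neg ?_
      (n := n) ?_
    · intro h; apply h0; rw [hC]; linear_combination h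
    · rw [hn, hC]
      congr 1
      ring

/-- **The sum of coprime integers and `p`-th powers**, for all primes `p` for which the Frey curves
have irreducible `p`-torsion. -/
theorem abc_of (pp : p.Prime) (hp2 : p ≠ 2) (H : IrrFW p) (hsum : A + B + C = 0)
    (hcop : IsCoprime A B) (h0 : A * B * C ≠ 0) (h16 : (16 : ℤ) ∣ A * B * C) :
    11 ≤ pRad p (A * B * C / 16).natAbs ∧ pRad p (A * B * C / 16).natAbs ≠ 13 := by
  obtain ⟨m, hm⟩ := h16
  have hdiv : A * B * C / 16 = m := by rw [hm]; exact Int.mul_ediv_cancel_left m (by norm_num)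
  have hn : 16 * m.natAbs = (A * B * C).natAbs := by rw [hm, Int.natAbs_mul]; rfl
  rw [hdiv]
  have hAC : IsCoprime A C := by
    have hC : C = -B + A * (-1) := by linarith
    rw [hC, IsCoprime.add_mul_left_right_iff]
    exact hcop.neg_right
  have hBC : IsCoprime B C := by
    have hC : C = -A + B * (-1) := by linarith
    rw [hC, IsCoprime.add_mul_left_right_iff]
    exact hcop.symm.neg_right
  have key : ∀ {X Y Z : ℤ}, (2 : ℤ) ∣ Y → IsCoprime X Y → IsCoprime Y Z → X * Y * Z = A * B * C →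
      (16 : ℤ) ∣ Y := by
    intro X Y Z h2 hXY hYZ he
    have hX : IsCoprime (16 : ℤ) X := by
      have h1 : IsCoprime (2 : ℤ) X := (hXY.symm).of_isCoprime_of_dvd_left h2
      have h3 := h1.pow_left (m := 4)
      norm_num at h3
      exact h3
    have hZ : IsCoprime (16 : ℤ) Z := by
      have h1 : IsCoprime (2 : ℤ) Z := hYZ.of_isCoprime_of_dvd_left h2
      have h3 := h1.pow_left (m := 4)
      norm_num at h3
      exact h3
    have h4 : (16 : ℤ) ∣ X * Y * Z := ⟨m, by rw [he, hm]⟩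
    exact hX.dvd_of_dvd_mul_left (hZ.dvd_of_dvd_mul_right h4)
  have hpar : (2 : ℤ) ∣ A ∨ (2 : ℤ) ∣ B ∨ (2 : ℤ) ∣ C := by omega
  rcases hpar with h | h | h
  · have h16A := key (X := B) (Y := A) (Z := C) h hcop.symm hAC (by ring)
    exact abc_even_of pp hp2 H (A := B) (B := A) (C := C) h16A (by linarith) hcop.symm
      (by rw [mul_comm B A]; exact h0) (by rw [hn, mul_comm B A])
  · have h16B := key (X := A) (Y := B) (Z := C) h hcop hBC rfl
    exact abc_even_of pp hp2 H h16B hsum hcop h0 hn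
  · have h16C := key (X := A) (Y := C) (Z := B) h hAC hBC.symm (by ring)
    have e : A * C * B = A * B * C := by ring
    exact abc_even_of pp hp2 H (A := A) (B := C) (C := B) h16C (by linarith) hAC
      (by rw [e]; exact h0) (by rw [hn, e])

/-- some prime `q ≠ 2, L` divides `ABC` with an exponent not divisible by `p` -/
theorem no_sum_of (pp : p.Prime) (hp2 : p ≠ 2) (H : IrrFW p) {L : ℕ} (hL : L = 3 ∨ L = 5)
    (hsum : A + B + C = 0) (hcop : IsCoprime A B) (h0 : A * B * C ≠ 0)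
    (h16 : (16 : ℤ) ∣ A * B * C) :
    ∃ q : ℕ, q.Prime ∧ q ≠ 2 ∧ q ≠ L ∧ ¬ p ∣ padicValInt q (A * B * C) := by
  by_contra! hv
  obtain ⟨h1, -⟩ := abc_of pp hp2 H hsum hcop h0 h16
  have hLp : L.Prime := by rcases hL with rfl | rfl <;> norm_num
  have h2 := pRad_dvd (p := p) (n := (A * B * C / 16).natAbs) hLp (fun q hq hq2 hqL => by
    rw [factorization_div h16 hq hq2]; exact hv q hq hq2 hqL)
  have h3 := Nat.le_of_dvd (mul_pos two_pos hLp.pos) h2
  rcases hL with rfl | rfl <;> omega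

/-! ### Consecutive integers -/

/-- **Two consecutive integers.** -/
theorem two_consecutive (pp : p.Prime) (hp2 : p ≠ 2) (H : IrrFW p) {L : ℕ} (hL : L = 3 ∨ L = 5)
    {a : ℤ} (h0 : a * (a + 1) ≠ 0) (h16 : (16 : ℤ) ∣ a * (a + 1)) :
    ∃ q : ℕ, q.Prime ∧ q ≠ 2 ∧ q ≠ L ∧ ¬ p ∣ padicValInt q (a * (a + 1)) := by
  have e : (a + 1) * (-a) * (-1) = a * (a + 1) := by ring
  have h := no_sum_of pp hp2 H hL (A := a + 1) (B := -a) (C := -1) (by ring)
    ⟨1, 1, by ring⟩ (by rw [e]; exact h0) (by rw [e]; exact h16)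
  rwa [e] at h

/-- the valuation of the product of three consecutive integers -/
theorem dvd_val_three {n : ℤ} (hn : n ≠ 0) (hn' : n ^ 2 - 1 ≠ 0) {q : ℕ} (hq : q.Prime)
    (h : p ∣ padicValInt q ((n - 1) * n * (n + 1))) : p ∣ padicValInt q (n ^ 2 * (n ^ 2 - 1)) := by
  have hf : Fact q.Prime := ⟨hq⟩
  have e : (n - 1) * n * (n + 1) = n * (n ^ 2 - 1) := by ring
  rw [e, padicValInt.mul hn hn'] at h
  rw [padicValInt.mul (pow_ne_zero 2 hn) hn', pow_two n, padicValInt.mul hn hn, ← pow_two]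
  by_cases hqn : (q : ℤ) ∣ n
  · have h1 : ¬ (q : ℤ) ∣ n ^ 2 - 1 := by
      intro h2
      have h3 : (q : ℤ) ∣ 1 := by
        have h4 : (q : ℤ) ∣ n ^ 2 := dvd_pow hqn two_ne_zero
        have h5 := dvd_sub h4 h2
        have h6 : n ^ 2 - (n ^ 2 - 1) = 1 := by ring
        rwa [h6] at h5
      exact hq.one_lt.ne' (by exact_mod_cast Int.eq_one_of_dvd_one (by positivity) h3)
    rw [padicValInt_eq_zero h1, add_zero] at h ⊢
    exact dvd_add h h
  · rw [padicValInt_eq_zero hqn, zero_add] at h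
    rw [padicValInt_eq_zero hqn, zero_add, zero_add]
    exact h

/-- **Three consecutive integers.** -/
theorem three_consecutive (pp : p.Prime) (hp2 : p ≠ 2) (H : IrrFW p) {L : ℕ} (hL : L = 3 ∨ L = 5)
    {n : ℤ} (h0 : (n - 1) * n * (n + 1) ≠ 0) (h16 : (4 : ℤ) ∣ n ∨ (16 : ℤ) ∣ n ^ 2 - 1) :
    ∃ q : ℕ, q.Prime ∧ q ≠ 2 ∧ q ≠ L ∧ ¬ p ∣ padicValInt q ((n - 1) * n * (n + 1)) := by
  have hn : n ≠ 0 := fun h => h0 (by rw [h]; ring)
  have hn' : n ^ 2 - 1 ≠ 0 := fun h => h0 (by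
    have e : (n - 1) * n * (n + 1) = n * (n ^ 2 - 1) := by ring
    rw [e, h, mul_zero])
  have e : n ^ 2 * (1 - n ^ 2) * (-1) = n ^ 2 * (n ^ 2 - 1) := by ring
  obtain ⟨q, h1, h2, h3, h4⟩ := no_sum_of pp hp2 H hL (A := n ^ 2) (B := 1 - n ^ 2) (C := -1)
    (by ring) ⟨1, 1, by ring⟩ (by rw [e]; exact mul_ne_zero (pow_ne_zero 2 hn) hn') (by
      rw [e]
      rcases h16 with h | h
      · obtain ⟨k, hk⟩ := h
        exact ⟨k ^ 2 * (n ^ 2 - 1), by rw [hk]; ring⟩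
      · exact h.mul_left _)
  rw [e] at h4
  exact ⟨q, h1, h2, h3, fun h => h4 (dvd_val_three hn hn' h1 h)⟩

/-- the valuation of `2 ^ i * L ^ j * y ^ p` at other primes -/
theorem val_unit_mul_pow {L : ℕ} (hL : L.Prime) {q : ℕ} (hq : q.Prime) (hq2 : q ≠ 2) (hqL : q ≠ L)
    (i j : ℕ) {y : ℤ} (hy : y ≠ 0) : p ∣ padicValInt q (2 ^ i * (L : ℤ) ^ j * y ^ p) := by
  have hf : Fact q.Prime := ⟨hq⟩
  have hL0 : (L : ℤ) ≠ 0 := by exact_mod_cast hL.ne_zero
  have hpow : ∀ (x : ℤ) (k : ℕ), padicValInt q (x ^ k) = k * padicValInt q x := by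
    intro x k
    rw [padicValInt, Int.natAbs_pow, padicValNat.pow]
    rfl
  rw [padicValInt.mul (mul_ne_zero (pow_ne_zero _ two_ne_zero) (pow_ne_zero _ hL0))
    (pow_ne_zero _ hy), padicValInt.mul (pow_ne_zero _ two_ne_zero) (pow_ne_zero _ hL0),
    hpow, hpow, hpow]
  have h1 : padicValInt q (2 : ℤ) = 0 := by
    apply padicValInt_eq_zero
    intro h
    have h2 : q ∣ 2 := by exact_mod_cast h
    exact hq2 ((Nat.prime_dvd_prime_iff_eq hq Nat.prime_two).mp h2)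
  have h2 : padicValInt q (L : ℤ) = 0 := by
    apply padicValInt_eq_zero
    intro h
    have h3 : q ∣ L := by exact_mod_cast h
    exact hqL ((Nat.prime_dvd_prime_iff_eq hq hL).mp h3)
  rw [h1, h2, mul_zero, mul_zero, zero_add, zero_add]
  exact dvd_mul_right _ _

/-- the product of two consecutive integers is not `2 ^ i * L ^ j * y ^ p`, if divisible by `16` -/
theorem mul_succ_ne (pp : p.Prime) (hp2 : p ≠ 2) (H : IrrFW p) {L : ℕ} (hL : L = 3 ∨ L = 5)
    {a : ℤ} (h0 : a * (a + 1) ≠ 0) (h16 : (16 : ℤ) ∣ a * (a + 1)) (i j : ℕ) (y : ℤ) :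
    a * (a + 1) ≠ 2 ^ i * (L : ℤ) ^ j * y ^ p := by
  intro h
  have hLp : L.Prime := by rcases hL with rfl | rfl <;> norm_num
  have hy : y ≠ 0 := by
    rintro rfl
    apply h0
    rw [h, zero_pow pp.ne_zero, mul_zero]
  obtain ⟨q, h1, h2, h3, h4⟩ := two_consecutive pp hp2 H hL h0 h16
  apply h4
  rw [h]
  exact val_unit_mul_pow hLp h1 h2 h3 i j hy

/-- the product of three consecutive integers is not `2 ^ i * L ^ j * y ^ p`, if `4 ∣ n` or
`16 ∣ n² - 1` -/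
theorem mul_three_ne (pp : p.Prime) (hp2 : p ≠ 2) (H : IrrFW p) {L : ℕ} (hL : L = 3 ∨ L = 5)
    {n : ℤ} (h0 : (n - 1) * n * (n + 1) ≠ 0) (h16 : (4 : ℤ) ∣ n ∨ (16 : ℤ) ∣ n ^ 2 - 1)
    (i j : ℕ) (y : ℤ) : (n - 1) * n * (n + 1) ≠ 2 ^ i * (L : ℤ) ^ j * y ^ p := by
  intro h
  have hLp : L.Prime := by rcases hL with rfl | rfl <;> norm_num
  have hy : y ≠ 0 := by
    rintro rfl
    apply h0
    rw [h, zero_pow pp.ne_zero, mul_zero]
  obtain ⟨q, h1, h2, h3, h4⟩ := three_consecutive pp hp2 H hL h0 h16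
  apply h4
  rw [h]
  exact val_unit_mul_pow hLp h1 h2 h3 i j hy

/-! ### Binomial coefficients -/

theorem even_of_even_pow {y : ℕ} (h : 2 ∣ y ^ p) : 2 ∣ y := Nat.prime_two.dvd_of_dvd_pow h

theorem sixteen_dvd_pow (hp5 : 5 ≤ p) {y : ℕ} (hy : 2 ∣ y) : 32 ∣ y ^ p := by
  have h1 : (2 : ℕ) ^ 5 ∣ y ^ 5 := pow_dvd_pow_of_dvd hy 5
  exact (by norm_num : (32 : ℕ) ∣ 2 ^ 5).trans (h1.trans (pow_dvd_pow y hp5))

/-- `a (a + 1) = 2 ^ i * 3 ^ j * y ^ p` with `y` even is impossible -/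
theorem nat_two (pp : p.Prime) (hp5 : 5 ≤ p) (H : IrrFW p) {a y i j : ℕ} (ha : a ≠ 0) (hy : 2 ∣ y)
    (h : a * (a + 1) = 2 ^ i * 3 ^ j * y ^ p) : False := by
  have h1 : ((a : ℤ)) * ((a : ℤ) + 1) = 2 ^ i * ((3 : ℕ) : ℤ) ^ j * (y : ℤ) ^ p := by
    exact_mod_cast h
  refine mul_succ_ne pp (by omega) H (L := 3) (Or.inl rfl) (a := (a : ℤ)) ?_ ?_ i j (y : ℤ) h1
  · exact_mod_cast mul_ne_zero ha (Nat.succ_ne_zero a)
  · have h2 : 16 ∣ a * (a + 1) := by
      rw [h]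
      exact ((by norm_num : 16 ∣ 32).trans (sixteen_dvd_pow hp5 hy)).mul_left _
    exact_mod_cast h2

/-- `(n - 1) n (n + 1) = 2 ^ i * 3 ^ j * y ^ p` with `y` even is impossible -/
theorem nat_three (pp : p.Prime) (hp5 : 5 ≤ p) (H : IrrFW p) {n y i j : ℕ} (hn : n ≠ 0)
    (hy : 2 ∣ y) (h : n * (n + 1) * (n + 2) = 2 ^ i * 3 ^ j * y ^ p) : False := by
  have h1 : ((n : ℤ) + 1 - 1) * ((n : ℤ) + 1) * ((n : ℤ) + 1 + 1) =
      2 ^ i * ((3 : ℕ) : ℤ) ^ j * (y : ℤ) ^ p := by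
    have h2 : (n : ℤ) * (n + 1) * (n + 2) = 2 ^ i * ((3 : ℕ) : ℤ) ^ j * (y : ℤ) ^ p := by
      exact_mod_cast h
    rw [← h2]; ring
  have h32 : (32 : ℤ) ∣ (n : ℤ) * (n + 1) * (n + 2) := by
    have h2 : 32 ∣ n * (n + 1) * (n + 2) := by
      rw [h]
      exact (sixteen_dvd_pow hp5 hy).mul_left _
    exact_mod_cast h2
  refine mul_three_ne pp (by omega) H (L := 3) (Or.inl rfl) (n := (n : ℤ) + 1) ?_ ?_ i j (y : ℤ) h1
  · have h2 : (n : ℤ) * (n + 1) * (n + 2) ≠ 0 := by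
      exact_mod_cast mul_ne_zero (mul_ne_zero hn (Nat.succ_ne_zero n)) (by omega)
    intro h3
    apply h2
    rw [← h3]; ring
  · rcases Nat.even_or_odd (n + 1) with he | ho
    · left
      have hodd : IsCoprime (32 : ℤ) ((n : ℤ) * (n + 2)) := by
        have h2 : Odd ((n : ℤ) * (n + 2)) := by
          have h3 : Odd n := by
            rcases Nat.even_or_odd n with h4 | h4
            · exact absurd he (Nat.not_even_iff_odd.mpr h4.add_one)
            · exact h4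
          have h4 : Odd (n * (n + 2)) := h3.mul (h3.add_even (by norm_num))
          exact_mod_cast h4
        have h3 : IsCoprime (2 : ℤ) ((n : ℤ) * (n + 2)) := by
          rw [Int.prime_two.coprime_iff_not_dvd]
          intro h4
          exact (Int.not_even_iff_odd.mpr h2) (even_iff_two_dvd.mpr h4)
        have h4 := h3.pow_left (m := 5)
        norm_num at h4
        exact h4
      have h2 : (32 : ℤ) ∣ (n : ℤ) + 1 := by
        refine hodd.dvd_of_dvd_mul_left (z := (n : ℤ) + 1) ?_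
        have e : (n : ℤ) * (n + 2) * (n + 1) = (n : ℤ) * (n + 1) * (n + 2) := by ring
        rw [e]; exact h32
      exact (by norm_num : (4 : ℤ) ∣ 32).trans h2
    · right
      have hodd : IsCoprime (32 : ℤ) ((n : ℤ) + 1) := by
        have h2 : Odd ((n : ℤ) + 1) := by exact_mod_cast ho
        have h3 : IsCoprime (2 : ℤ) ((n : ℤ) + 1) := by
          rw [Int.prime_two.coprime_iff_not_dvd]
          intro h4
          exact (Int.not_even_iff_odd.mpr h2) (even_iff_two_dvd.mpr h4)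
        have h4 := h3.pow_left (m := 5)
        norm_num at h4
        exact h4
      have h2 : (32 : ℤ) ∣ ((n : ℤ) + 1) ^ 2 - 1 := by
        refine hodd.dvd_of_dvd_mul_left (z := ((n : ℤ) + 1) ^ 2 - 1) ?_
        have e : ((n : ℤ) + 1) * (((n : ℤ) + 1) ^ 2 - 1) = (n : ℤ) * (n + 1) * (n + 2) := by ring
        rw [e]; exact h32
      exact (by norm_num : (16 : ℤ) ∣ 32).trans h2

/-- **Even binomial coefficients `C(m, 2)` are not `p`-th powers.** -/
theorem choose_two_ne (pp : p.Prime) (hp5 : 5 ≤ p) (H : IrrFW p) {m : ℕ} (hm : 2 ≤ m)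
    (he : Even (m.choose 2)) (y : ℕ) : m.choose 2 ≠ y ^ p := by
  intro h
  obtain ⟨a, rfl⟩ : ∃ a, m = a + 1 := ⟨m - 1, by omega⟩
  have h1 : a * (a + 1) = 2 * (a + 1).choose 2 := by
    have h2 := Nat.descFactorial_eq_factorial_mul_choose (a + 1) 2
    simp only [Nat.descFactorial_succ, Nat.descFactorial_zero, Nat.factorial] at h2
    have h3 : a + 1 - 1 = a := rfl
    rw [h3] at h2
    simp only [Nat.sub_zero, mul_one, Nat.succ_eq_add_one] at h2
    linarith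
  rw [h] at h1 he
  refine nat_two pp hp5 H (a := a) (y := y) (i := 1) (j := 0) (by omega)
    (even_of_even_pow (even_iff_two_dvd.mp he)) ?_
  rw [h1, pow_one, pow_zero, mul_one]

/-- **Even binomial coefficients `C(m, 3)` are not `p`-th powers.** -/
theorem choose_three_ne (pp : p.Prime) (hp5 : 5 ≤ p) (H : IrrFW p) {m : ℕ} (hm : 3 ≤ m)
    (he : Even (m.choose 3)) (y : ℕ) : m.choose 3 ≠ y ^ p := by
  intro h
  obtain ⟨n, rfl⟩ : ∃ n, m = n + 2 := ⟨m - 2, by omega⟩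
  have h1 : n * (n + 1) * (n + 2) = 6 * (n + 2).choose 3 := by
    have h2 := Nat.descFactorial_eq_factorial_mul_choose (n + 2) 3
    simp only [Nat.descFactorial_succ, Nat.descFactorial_zero, Nat.factorial] at h2
    have h3 : n + 2 - 2 = n := rfl
    have h4 : n + 2 - 1 = n + 1 := rfl
    rw [h3, h4] at h2
    simp only [Nat.sub_zero, mul_one, Nat.succ_eq_add_one] at h2
    linarith
  rw [h] at h1 he
  refine nat_three pp hp5 H (n := n) (y := y) (i := 1) (j := 1) (by omega)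
    (even_of_even_pow (even_iff_two_dvd.mp he)) ?_
  rw [h1, pow_one, pow_one]

/-- **Even binomial coefficients `C(m, 4)` are not `p`-th powers.** -/
theorem choose_four_ne (pp : p.Prime) (hp5 : 5 ≤ p) (H : IrrFW p) {m : ℕ} (hm : 4 ≤ m)
    (he : Even (m.choose 4)) (y : ℕ) : m.choose 4 ≠ y ^ p := by
  intro h
  obtain ⟨k, rfl⟩ : ∃ k, m = k + 3 := ⟨m - 3, by omega⟩
  obtain ⟨a, ha⟩ : ∃ a, k * (k + 3) = 2 * a := by
    have h1 : Even (k * (k + 3)) := by
      rcases Nat.even_or_odd k with h2 | h2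
      · exact h2.mul_right _
      · exact (h2.add_odd (by decide)).mul_left _
    obtain ⟨a, ha⟩ := h1
    exact ⟨a, by omega⟩
  have h1 : k * (k + 1) * (k + 2) * (k + 3) = 24 * (k + 3).choose 4 := by
    have h2 := Nat.descFactorial_eq_factorial_mul_choose (k + 3) 4
    simp only [Nat.descFactorial_succ, Nat.descFactorial_zero, Nat.factorial] at h2
    have h3 : k + 3 - 3 = k := rfl
    have h4 : k + 3 - 2 = k + 1 := rfl
    have h5 : k + 3 - 1 = k + 2 := rfl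
    rw [h3, h4, h5] at h2
    simp only [Nat.sub_zero, mul_one, Nat.succ_eq_add_one] at h2
    linarith
  rw [h] at h1 he
  refine nat_two pp hp5 H (a := a) (y := y) (i := 1) (j := 1) ?_
    (even_of_even_pow (even_iff_two_dvd.mp he)) ?_
  · rintro rfl
    have h2 : k * (k + 3) ≠ 0 := mul_ne_zero (by omega) (by omega)
    omega
  · have h2 : (k * (k + 3)) * (k * (k + 3) + 2) = 24 * y ^ p := by rw [← h1]; ring
    rw [ha] at h2
    rw [pow_one, pow_one]
    nlinarith [h2]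

/-! ### Sums of powers -/

theorem sum_pow_two (n : ℕ) :
    6 * ∑ i ∈ Finset.range (n + 1), i ^ 2 = n * (n + 1) * (2 * n + 1) := by
  induction n with
  | zero => simp
  | succ n ih => rw [Finset.sum_range_succ, mul_add, ih]; ring

theorem sum_pow_one (n : ℕ) : 2 * ∑ i ∈ Finset.range (n + 1), i = n * (n + 1) := by
  induction n with
  | zero => simp
  | succ n ih => rw [Finset.sum_range_succ, mul_add, ih]; ring

theorem sum_pow_three (n : ℕ) :
    ∑ i ∈ Finset.range (n + 1), i ^ 3 = (∑ i ∈ Finset.range (n + 1), i) ^ 2 := by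
  induction n with
  | zero => simp
  | succ n ih =>
    rw [Finset.sum_range_succ, Finset.sum_range_succ _ (n + 1), ih]
    have h := sum_pow_one n
    have e : (∑ i ∈ Finset.range (n + 1), i + (n + 1)) ^ 2 =
        (∑ i ∈ Finset.range (n + 1), i) ^ 2 +
          (2 * ∑ i ∈ Finset.range (n + 1), i) * (n + 1) + (n + 1) ^ 2 := by ring
    rw [e, h]
    ring

theorem sum_pow_five (n : ℕ) : 3 * ∑ i ∈ Finset.range (n + 1), i ^ 5 +
      (∑ i ∈ Finset.range (n + 1), i) ^ 2 = 4 * (∑ i ∈ Finset.range (n + 1), i) ^ 3 := by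
  induction n with
  | zero => simp
  | succ n ih =>
    rw [Finset.sum_range_succ, Finset.sum_range_succ _ (n + 1)]
    have h := sum_pow_one n
    set S := ∑ i ∈ Finset.range (n + 1), i ^ 5
    set T := ∑ i ∈ Finset.range (n + 1), i
    have h2 : (2 * T) * (2 * T) = n * (n + 1) * (n * (n + 1)) := by rw [h]
    have h3 : 4 * (T + (n + 1)) ^ 3 = 4 * T ^ 3 + 3 * ((2 * T) * (2 * T)) * (n + 1) +
      6 * (2 * T) * (n + 1) ^ 2 + 4 * (n + 1) ^ 3 := by ring
    have h4 : 3 * (S + (n + 1) ^ 5) + (T + (n + 1)) ^ 2 =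
      (3 * S + T ^ 2) + 3 * (n + 1) ^ 5 + (2 * T) * (n + 1) + (n + 1) ^ 2 := by ring
    rw [h3, h4, ih, h2, h]
    ring

/-- the sums of `k`-th powers are even iff `n ≡ 0, 3 (mod 4)` -/
theorem even_sum_pow_iff {k : ℕ} (hk : k ≠ 0) (n : ℕ) :
    Even (∑ i ∈ Finset.range (n + 1), i ^ k) ↔ n % 4 = 0 ∨ n % 4 = 3 := by
  have hpow : ∀ m : ℕ, m ^ k % 2 = m % 2 := by
    intro m
    rw [Nat.pow_mod]
    rcases Nat.mod_two_eq_zero_or_one m with h | h
    · rw [h, zero_pow hk, Nat.zero_mod]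
    · rw [h, one_pow]; rfl
  have key : ∀ n : ℕ, (∑ i ∈ Finset.range (n + 1), i ^ k) % 2 =
      if n % 4 = 0 ∨ n % 4 = 3 then 0 else 1 := by
    intro n
    induction n with
    | zero => simp [hk]
    | succ n ih =>
      rw [Finset.sum_range_succ, Nat.add_mod, ih, hpow]
      split_ifs <;> omega
  rw [Nat.even_iff, key]
  split_ifs with h
  · exact ⟨fun _ => h, fun _ => rfl⟩
  · exact ⟨fun h1 => by simp at h1, fun h1 => absurd h1 h⟩

theorem even_sum_iff (n : ℕ) :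
    Even (∑ i ∈ Finset.range (n + 1), i) ↔ n % 4 = 0 ∨ n % 4 = 3 := by
  have h := even_sum_pow_iff one_ne_zero n
  simpa using h

/-- **Schäffer's equation**, `k = 2` -/
theorem sum_pow_two_ne (pp : p.Prime) (hp5 : 5 ≤ p) (H : IrrFW p) {n : ℕ} (hn : n ≠ 0)
    (h4 : n % 4 = 0 ∨ n % 4 = 3) (y : ℕ) : ∑ i ∈ Finset.range (n + 1), i ^ 2 ≠ y ^ p := by
  intro h
  have he := (even_sum_pow_iff two_ne_zero n).mpr h4
  have h1 := sum_pow_two n
  rw [h] at h1 he
  refine nat_three pp hp5 H (n := 2 * n) (y := y) (i := 3) (j := 1) (by omega)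
    (even_of_even_pow (even_iff_two_dvd.mp he)) ?_
  have h2 : 2 * n * (2 * n + 1) * (2 * n + 2) = 4 * (n * (n + 1) * (2 * n + 1)) := by ring
  rw [h2, ← h1]
  ring

theorem val_two {q : ℕ} (hq : q.Prime) (hq2 : q ≠ 2) : padicValInt q (2 : ℤ) = 0 := by
  apply padicValInt_eq_zero
  intro h
  have h2 : q ∣ 2 := by exact_mod_cast h
  exact hq2 ((Nat.prime_dvd_prime_iff_eq hq Nat.prime_two).mp h2)

theorem val_pow {q : ℕ} [Fact q.Prime] (x : ℤ) (k : ℕ) :
    padicValInt q (x ^ k) = k * padicValInt q x := by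
  rw [padicValInt, Int.natAbs_pow, padicValNat.pow]
  rfl

/-- passing from `u² v` to `u v` -/
theorem dvd_val_sq_mul (pp : p.Prime) (hp2 : p ≠ 2) {u v : ℤ} (hu : u ≠ 0) (hv : v ≠ 0)
    (huv : IsCoprime u v) {q : ℕ} (hq : q.Prime) (h : p ∣ padicValInt q (u ^ 2 * v)) :
    p ∣ padicValInt q (u * v) := by
  have hf : Fact q.Prime := ⟨hq⟩
  rw [padicValInt.mul (pow_ne_zero 2 hu) hv, pow_two, padicValInt.mul hu hu] at h
  rw [padicValInt.mul hu hv]
  by_cases hqu : (q : ℤ) ∣ u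
  · have h1 : ¬ (q : ℤ) ∣ v := by
      intro h2
      have h3 := huv.isUnit_of_dvd' hqu h2
      exact (Nat.prime_iff_prime_int.mp hq).not_isUnit h3
    rw [padicValInt_eq_zero h1, add_zero] at h ⊢
    rw [← two_mul] at h
    exact (pp.dvd_mul.mp h).resolve_left fun h2 =>
      hp2 ((Nat.prime_dvd_prime_iff_eq pp Nat.prime_two).mp h2)
  · rw [padicValInt_eq_zero hqu, zero_add, zero_add] at h
    rw [padicValInt_eq_zero hqu, zero_add]
    exact h

/-- **Schäffer's equation**, `k = 1` -/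
theorem sum_pow_one_ne (pp : p.Prime) (hp5 : 5 ≤ p) (H : IrrFW p) {n : ℕ} (hn : n ≠ 0)
    (h4 : n % 4 = 0 ∨ n % 4 = 3) (y : ℕ) : ∑ i ∈ Finset.range (n + 1), i ≠ y ^ p := by
  intro h
  have he := (even_sum_iff n).mpr h4
  have h1 := sum_pow_one n
  rw [h] at h1 he
  refine nat_two pp hp5 H (a := n) (y := y) (i := 1) (j := 0) hn
    (even_of_even_pow (even_iff_two_dvd.mp he)) ?_
  rw [← h1, pow_one, pow_zero, mul_one]

/-- `T² = y ^ p`, `T² (4 T - 1) = 3 y ^ p` with `y` even imply `4 ∣ T`. -/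
theorem four_dvd_of_sq (hp5 : 5 ≤ p) {T y w c : ℕ} (hw : Odd w) (hy : 2 ∣ y)
    (h : T ^ 2 * w = c * y ^ p) : 4 ∣ T := by
  have h1 : 2 ^ 3 ∣ T ^ 2 * w := by
    rw [h]
    exact ((by norm_num : 2 ^ 3 ∣ 32).trans (sixteen_dvd_pow hp5 hy)).mul_left _
  have h2 : Nat.Coprime (2 ^ 3) w := (Nat.coprime_two_left.mpr hw).pow_left 3
  have h3 : 2 ^ 3 ∣ T ^ 2 := h2.dvd_of_dvd_mul_right h1
  have h4 : 2 ∣ T := Nat.prime_two.dvd_of_dvd_pow ((by norm_num : 2 ∣ 2 ^ 3).trans h3)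
  obtain ⟨s, rfl⟩ := h4
  have h5 : 2 ∣ s ^ 2 := by
    have e : (2 * s) ^ 2 = 4 * s ^ 2 := by ring
    rw [e] at h3
    omega
  have h6 := Nat.prime_two.dvd_of_dvd_pow h5
  omega

/-- **Schäffer's equation**, `k = 3` -/
theorem sum_pow_three_ne (pp : p.Prime) (hp5 : 5 ≤ p) (H : IrrFW p) {n : ℕ} (hn : n ≠ 0)
    (h4 : n % 4 = 0 ∨ n % 4 = 3) (y : ℕ) : ∑ i ∈ Finset.range (n + 1), i ^ 3 ≠ y ^ p := by
  intro h
  have he := (even_sum_pow_iff three_ne_zero n).mpr h4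
  have h1 := sum_pow_one n
  have h3 := sum_pow_three n
  rw [h] at he
  rw [h3] at h
  set T := ∑ i ∈ Finset.range (n + 1), i with hT
  have hy := even_of_even_pow (even_iff_two_dvd.mp he)
  have h5 : 4 ∣ T := four_dvd_of_sq (w := 1) (c := 1) hp5 odd_one hy (by rw [h]; ring)
  have hT0 : T ≠ 0 := by
    intro h0
    rw [h0] at h1
    have h6 : n * (n + 1) ≠ 0 := mul_ne_zero hn (Nat.succ_ne_zero n)
    omega
  have hy0 : y ≠ 0 := by
    rintro rfl
    rw [zero_pow pp.ne_zero] at h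
    exact hT0 (pow_eq_zero_iff two_ne_zero |>.mp h)
  have e : (n : ℤ) * ((n : ℤ) + 1) = 2 * (T : ℤ) := by exact_mod_cast h1.symm
  obtain ⟨q, hq, hq2, -, hq4⟩ := two_consecutive pp (by omega) H (L := 3) (Or.inl rfl)
    (a := (n : ℤ)) (by exact_mod_cast mul_ne_zero hn (Nat.succ_ne_zero n)) (by
      rw [e]
      obtain ⟨s, hs⟩ := h5
      -- `T` is divisible by `8`, since `T² = y ^ p` is divisible by `32`
      have h6 : 32 ∣ T ^ 2 := by rw [h]; exact sixteen_dvd_pow hp5 hy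
      have h7 : 2 ∣ s := by
        rw [hs] at h6
        have e2 : (4 * s) ^ 2 = 16 * s ^ 2 := by ring
        rw [e2] at h6
        have h8 : 2 ∣ s ^ 2 := by omega
        exact Nat.prime_two.dvd_of_dvd_pow h8
      have h8 : 16 ∣ 2 * T := by omega
      exact_mod_cast h8)
  have hf : Fact q.Prime := ⟨hq⟩
  apply hq4
  have hTZ : (T : ℤ) ≠ 0 := by exact_mod_cast hT0
  rw [e, padicValInt.mul two_ne_zero hTZ, val_two hq hq2, zero_add]
  have h8 : 2 * padicValInt q (T : ℤ) = p * padicValInt q (y : ℤ) := by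
    rw [← val_pow, ← val_pow]
    congr 1
    exact_mod_cast h
  have h9 : p ∣ 2 * padicValInt q (T : ℤ) := ⟨_, h8⟩
  exact (pp.dvd_mul.mp h9).resolve_left fun h2 => by
    have := (Nat.prime_dvd_prime_iff_eq pp Nat.prime_two).mp h2
    omega

/-- **Schäffer's equation**, `k = 5` -/
theorem sum_pow_five_ne (pp : p.Prime) (hp5 : 5 ≤ p) (H : IrrFW p) {n : ℕ} (hn : n ≠ 0)
    (h4 : n % 4 = 0 ∨ n % 4 = 3) (y : ℕ) : ∑ i ∈ Finset.range (n + 1), i ^ 5 ≠ y ^ p := by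
  intro h
  have he := (even_sum_pow_iff (by norm_num : 5 ≠ 0) n).mpr h4
  have h1 := sum_pow_one n
  have h3 := sum_pow_five n
  rw [h] at h3 he
  set T := ∑ i ∈ Finset.range (n + 1), i with hT
  have hy := even_of_even_pow (even_iff_two_dvd.mp he)
  have hT0 : T ≠ 0 := by
    intro h0
    rw [h0] at h1
    have h6 : n * (n + 1) ≠ 0 := mul_ne_zero hn (Nat.succ_ne_zero n)
    omega
  have hTZ : (T : ℤ) ≠ 0 := by exact_mod_cast hT0
  have h3Z : (T : ℤ) ^ 2 * (4 * (T : ℤ) - 1) = 3 * (y : ℤ) ^ p := by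
    have h5 : (3 : ℤ) * (y : ℤ) ^ p + (T : ℤ) ^ 2 = 4 * (T : ℤ) ^ 3 := by exact_mod_cast h3
    linear_combination -h5
  have h5 : 4 ∣ T := by
    refine four_dvd_of_sq (w := 4 * T - 1) (c := 3) hp5 ⟨2 * T - 1, by omega⟩ hy ?_
    have h6 : ((T ^ 2 * (4 * T - 1) : ℕ) : ℤ) = ((3 * y ^ p : ℕ) : ℤ) := by
      push_cast [Nat.cast_sub (show 1 ≤ 4 * T by omega)]
      exact h3Z
    exact_mod_cast h6
  have hv0 : 4 * (T : ℤ) - 1 ≠ 0 := by omega
  have hy0 : (y : ℤ) ≠ 0 := by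
    intro h0
    rw [h0, zero_pow pp.ne_zero, mul_zero] at h3Z
    exact mul_ne_zero (pow_ne_zero 2 hTZ) hv0 h3Z
  have e : (4 * (T : ℤ) - 1) * (4 * (T : ℤ) - 1 + 1) = 2 * 2 * ((T : ℤ) * (4 * (T : ℤ) - 1)) := by
    ring
  obtain ⟨q, hq, hq2, hq3, hq4⟩ := two_consecutive pp (by omega) H (L := 3) (Or.inl rfl)
    (a := 4 * (T : ℤ) - 1)
    (by rw [e]; exact mul_ne_zero (by norm_num) (mul_ne_zero hTZ hv0)) (by
      rw [e]
      obtain ⟨s, hs⟩ := h5
      exact ⟨(s : ℤ) * (4 * (T : ℤ) - 1), by rw [hs]; push_cast; ring⟩)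
  have hf : Fact q.Prime := ⟨hq⟩
  apply hq4
  rw [e, padicValInt.mul (by norm_num) (mul_ne_zero hTZ hv0),
    padicValInt.mul two_ne_zero two_ne_zero, val_two hq hq2, zero_add, zero_add]
  refine dvd_val_sq_mul pp (by omega) hTZ hv0 ⟨4, -1, by ring⟩ hq ?_
  have h8 := val_unit_mul_pow (p := p) Nat.prime_three hq hq2 hq3 0 1 hy0
  rw [h3Z]
  rw [pow_zero, one_mul, pow_one] at h8
  exact_mod_cast h8

/-! ### Final forms, exponents with a prime factor `p ≥ 5`, `p ≠ 13` -/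

/-- **Even binomial coefficients** `C(m, k)`, `k = 2, 3, 4`, are not perfect `e`-th powers, if `e`
has a prime factor `p ≥ 5`, `p ≠ 13`. -/
theorem choose_ne (pp : p.Prime) (hp5 : 5 ≤ p) (hp13 : p ≠ 13) {e : ℕ} (hpe : p ∣ e) {m k : ℕ}
    (hk : k = 2 ∨ k = 3 ∨ k = 4) (hm : k ≤ m) (he : Even (m.choose k)) (y : ℕ) :
    m.choose k ≠ y ^ e := by
  obtain ⟨c, rfl⟩ := hpe
  have H := irrFW_of_ne_thirteen pp hp5 hp13
  rw [mul_comm, pow_mul]
  rcases hk with rfl | rfl | rfl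
  · exact choose_two_ne pp hp5 H hm he _
  · exact choose_three_ne pp hp5 H hm he _
  · exact choose_four_ne pp hp5 H hm he _

/-- **Schäffer's equation** `1 ^ k + 2 ^ k + ⋯ + n ^ k = y ^ e`, `k = 1, 2, 3, 5`, has no solution
with `n ≥ 1`, `n ≡ 0, 3 (mod 4)` (that is, with `y` even), if `e` has a prime factor `p ≥ 5`,
`p ≠ 13`. -/
theorem schaeffer (pp : p.Prime) (hp5 : 5 ≤ p) (hp13 : p ≠ 13) {e : ℕ} (hpe : p ∣ e) {k : ℕ}
    (hk : k = 1 ∨ k = 2 ∨ k = 3 ∨ k = 5) {n : ℕ} (hn : n ≠ 0) (h4 : n % 4 = 0 ∨ n % 4 = 3)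
    (y : ℕ) : ∑ i ∈ Finset.range (n + 1), i ^ k ≠ y ^ e := by
  obtain ⟨c, rfl⟩ := hpe
  have H := irrFW_of_ne_thirteen pp hp5 hp13
  rw [mul_comm p c, pow_mul]
  rcases hk with rfl | rfl | rfl | rfl
  · have h := sum_pow_one_ne pp hp5 H hn h4 (y ^ c)
    simpa using h
  · exact sum_pow_two_ne pp hp5 H hn h4 _
  · exact sum_pow_three_ne pp hp5 H hn h4 _
  · exact sum_pow_five_ne pp hp5 H hn h4 _

/-- **Two consecutive integers** whose product is divisible by `16`: the product is not of the form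
`2 ^ i * L ^ j * y ^ p`, `L = 3, 5`. -/
theorem mul_succ_ne' (pp : p.Prime) (hp5 : 5 ≤ p) (hp13 : p ≠ 13) {L : ℕ} (hL : L = 3 ∨ L = 5)
    {a : ℤ} (h0 : a * (a + 1) ≠ 0) (h16 : (16 : ℤ) ∣ a * (a + 1)) (i j : ℕ) (y : ℤ) :
    a * (a + 1) ≠ 2 ^ i * (L : ℤ) ^ j * y ^ p :=
  mul_succ_ne pp (by omega) (irrFW_of_ne_thirteen pp hp5 hp13) hL h0 h16 i j y

/-- **Three consecutive integers**: if `4 ∣ n` or `16 ∣ n² - 1`, then `(n - 1) n (n + 1)` is not of
the form `2 ^ i * L ^ j * y ^ p`, `L = 3, 5`. -/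
theorem mul_three_ne' (pp : p.Prime) (hp5 : 5 ≤ p) (hp13 : p ≠ 13) {L : ℕ} (hL : L = 3 ∨ L = 5)
    {n : ℤ} (h0 : (n - 1) * n * (n + 1) ≠ 0) (h16 : (4 : ℤ) ∣ n ∨ (16 : ℤ) ∣ n ^ 2 - 1)
    (i j : ℕ) (y : ℤ) : (n - 1) * n * (n + 1) ≠ 2 ^ i * (L : ℤ) ^ j * y ^ p :=
  mul_three_ne pp (by omega) (irrFW_of_ne_thirteen pp hp5 hp13) hL h0 h16 i j y

end Fermat.Agent.Cor.H07
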