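import Fermat.Agent.Cor.H07MO
import Fermat.Agent.Cor.Surj

/-!
# Irreducibility and surjectivity for semistable curves with a small good prime

After Serre (*Propriétés galoisiennes*, §5.4): let `W` be a semistable elliptic curve over `ℚ` with
good reduction at the prime `ℓ`.  For every prime `p ≥ 5` with `p > (1 + √ℓ)²` the representation
of `Gal(ℚ̄/ℚ)` on `W[p]` is irreducible, and it is surjective onto `Aut(W[p]) ≅ GL₂(𝔽_p)`.
For `ℓ = 2` these are all primes `p ≥ 7`, for `ℓ = 3` and `ℓ = 5` all primes `p ≥ 11`.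
-/

set_option autoImplicit false

noncomputable section

namespace Fermat.Agent.Cor.H07

open WeierstrassCurve WeierstrassCurve.Affine WeierstrassCurve.Affine.Point

local notation "Qb" => AlgebraicClosure ℚ

variable {W : WeierstrassCurve ℤ} {p : ℕ}

/-- **Irreducibility.** Let `W` be semistable with good reduction at `ℓ`; then `W[p]` is irreducible
for every prime `p ≥ 5` with `p > ℓ + 1` and `(p - ℓ - 1) ^ 2 ≥ 4 ℓ`. -/
theorem irreducible_of_good (hΔ0 : W.Δ ≠ 0) (hss : W.IsSemistableModel) (pp : p.Prime)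
    (hp5 : 5 ≤ p) {ℓ : ℕ} (hℓ : ℓ.Prime) (hgood : ¬ (ℓ : ℤ) ∣ W.Δ) (hlt : ℓ + 1 < p)
    (h4 : 4 * ℓ ≤ (p - (ℓ + 1)) ^ 2) : W.ModRepIsIrreducible p := by
  by_contra hred
  obtain ⟨c, hc⟩ := Nat.exists_eq_add_of_lt hlt
  have e : p - (ℓ + 1) = c + 1 := by omega
  rw [e] at h4
  have h := le_of_reducible hΔ0 hss pp hp5 hred hℓ hgood (by omega) (B := (c : ℤ))
    (Int.natCast_nonneg c) (by exact_mod_cast h4)
  omega

/-- semistable curves with good reduction at `2`: `W[p]` is irreducible for all `p ≥ 7` -/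
theorem irreducible_of_good_two (hΔ0 : W.Δ ≠ 0) (hss : W.IsSemistableModel)
    (h2 : ¬ (2 : ℤ) ∣ W.Δ) (pp : p.Prime) (hp7 : 7 ≤ p) : W.ModRepIsIrreducible p := by
  by_contra hred
  have := le_five_of_reducible hΔ0 hss pp (fun _ _ => hred) h2
  omega

/-- semistable curves with good reduction at `3` or `5`: `W[p]` is irreducible for all `p ≥ 11` -/
theorem irreducible_of_good_three_or_five (hΔ0 : W.Δ ≠ 0) (hss : W.IsSemistableModel)
    (h3 : ¬ (3 : ℤ) ∣ W.Δ ∨ ¬ (5 : ℤ) ∣ W.Δ) (pp : p.Prime) (hp11 : 11 ≤ p) :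
    W.ModRepIsIrreducible p := by
  by_contra hred
  have := le_seven_of_reducible hΔ0 hss pp (fun _ _ => hred) h3
  omega

/-- every Galois automorphism of `W[p]` comes from the Galois group -/
def GalSurj (W : WeierstrassCurve ℤ) (p : ℕ) : Prop :=
  ∀ f : Submodule.torsionBy ℤ ((W.map (Int.castRingHom ℚ))⁄Qb).Point (p : ℤ) ≃ₗ[ZMod p]
    Submodule.torsionBy ℤ ((W.map (Int.castRingHom ℚ))⁄Qb).Point (p : ℤ),
    ∃ σ : Qb ≃ₐ[ℚ] Qb, ∀ x, σ • x = f x

/-- **Surjectivity** for semistable curves with good reduction at `ℓ` -/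
theorem galSurj_of_good (hΔ0 : W.Δ ≠ 0) (hss : W.IsSemistableModel) (pp : p.Prime)
    (hp5 : 5 ≤ p) {ℓ : ℕ} (hℓ : ℓ.Prime) (hgood : ¬ (ℓ : ℤ) ∣ W.Δ) (hlt : ℓ + 1 < p)
    (h4 : 4 * ℓ ≤ (p - (ℓ + 1)) ^ 2) : GalSurj W p :=
  Surj.galois_surjective W hΔ0 hss pp (by omega)
    (irreducible_of_good hΔ0 hss pp hp5 hℓ hgood hlt h4)

/-- **Surjectivity, good reduction at `2`**: `Gal(ℚ̄/ℚ) → GL₂(𝔽_p)` is surjective for all primes
`p ≥ 7`. -/
theorem galSurj_of_good_two (hΔ0 : W.Δ ≠ 0) (hss : W.IsSemistableModel)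
    (h2 : ¬ (2 : ℤ) ∣ W.Δ) (pp : p.Prime) (hp7 : 7 ≤ p) : GalSurj W p :=
  Surj.galois_surjective W hΔ0 hss pp (by omega) (irreducible_of_good_two hΔ0 hss h2 pp hp7)

/-- **Surjectivity, good reduction at `3` or `5`**: all primes `p ≥ 11`. -/
theorem galSurj_of_good_three_or_five (hΔ0 : W.Δ ≠ 0) (hss : W.IsSemistableModel)
    (h3 : ¬ (3 : ℤ) ∣ W.Δ ∨ ¬ (5 : ℤ) ∣ W.Δ) (pp : p.Prime) (hp11 : 11 ≤ p) : GalSurj W p :=
  Surj.galois_surjective W hΔ0 hss pp (by omega)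
    (irreducible_of_good_three_or_five hΔ0 hss h3 pp hp11)

/-- **Serre's theorem for semistable curves**: for a semistable elliptic curve `W` over `ℚ` the
representation on `W[p]` is irreducible and surjective onto `GL₂(𝔽_p)` for all primes
`p ≥ 4 ℓ + 5`, where `ℓ` is any prime of good reduction. -/
theorem galSurj_of_large (hΔ0 : W.Δ ≠ 0) (hss : W.IsSemistableModel) (pp : p.Prime)
    {ℓ : ℕ} (hℓ : ℓ.Prime) (hgood : ¬ (ℓ : ℤ) ∣ W.Δ) (hp : 4 * ℓ + 5 ≤ p) :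
    W.ModRepIsIrreducible p ∧ GalSurj W p := by
  have h1 : ℓ + 1 < p := by omega
  have h4 : 4 * ℓ ≤ (p - (ℓ + 1)) ^ 2 := by
    have h5 : 3 * ℓ + 4 ≤ p - (ℓ + 1) := by omega
    calc 4 * ℓ ≤ (3 * ℓ + 4) ^ 2 := by nlinarith
      _ ≤ (p - (ℓ + 1)) ^ 2 := Nat.pow_le_pow_left h5 2
  exact ⟨irreducible_of_good hΔ0 hss pp (by omega) hℓ hgood h1 h4,
    galSurj_of_good hΔ0 hss pp (by omega) hℓ hgood h1 h4⟩

/-- for a semistable elliptic curve over `ℚ`, `Gal(ℚ̄/ℚ) → Aut(W[p])` is surjective for all but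
finitely many primes `p` -/
theorem exists_bound (hΔ0 : W.Δ ≠ 0) (hss : W.IsSemistableModel) :
    ∃ B : ℕ, ∀ p : ℕ, p.Prime → B ≤ p → W.ModRepIsIrreducible p ∧ GalSurj W p := by
  obtain ⟨ℓ, hℓ1, hℓ⟩ := Nat.exists_infinite_primes (W.Δ.natAbs + 1)
  refine ⟨4 * ℓ + 5, fun p pp hp => galSurj_of_large hΔ0 hss pp hℓ (fun hd => ?_) hp⟩
  have h1 := Nat.le_of_dvd (Int.natAbs_pos.mpr hΔ0) (Int.natCast_dvd.mp hd)
  omega

/-- **No torsion**: a semistable curve with good reduction at `2` has no rational point of prime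
order `p ≥ 7`. -/
theorem no_fixed_point_of_good_two (hΔ0 : W.Δ ≠ 0) (hss : W.IsSemistableModel)
    (h2 : ¬ (2 : ℤ) ∣ W.Δ) (pp : p.Prime) (hp7 : 7 ≤ p)
    {P : ((W.map (Int.castRingHom ℚ))⁄Qb).Point} (hP0 : P ≠ 0) (hpP : p • P = 0) :
    ∃ σ : Qb ≃ₐ[ℚ] Qb, σ • P ≠ P := by
  have hfact : Fact p.Prime := ⟨pp⟩
  by_contra! hfix
  -- the automorphism `-1` moves `P`
  obtain ⟨σ, hσ⟩ := galSurj_of_good_two hΔ0 hss h2 pp hp7 (LinearEquiv.neg (ZMod p))
  have h1 := hσ ⟨P, Fermat.Agent.H09.mem_torsion_iff.mpr hpP⟩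
  have h2' := congrArg Subtype.val h1
  have h3 : σ • P = -P := h2'
  rw [hfix σ] at h3
  have h4 : 2 • P = 0 := by
    rw [two_nsmul]
    nth_rewrite 2 [h3]
    exact add_neg_cancel P
  have hord : addOrderOf P = p := addOrderOf_eq_prime hpP hP0
  have h5 : p ∣ 2 := by
    rw [← hord]; exact addOrderOf_dvd_of_nsmul_eq_zero h4
  have := Nat.le_of_dvd (by norm_num) h5
  omega

end Fermat.Agent.Cor.H07
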