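import Mathlib
import Fermat.Agent.H08.KummerSystem
import Fermat.Agent.H08.Kummer
import Fermat.Agent.H09.NodeExists

/-!
# `x`-coordinates of `p`-torsion points near a node, in every residue characteristic

On a Weierstrass curve with `a₃ = a₄ = 0`, `b₂` a unit and `v a₆ < 1` (a node at the origin) the
`x`-coordinate satisfies the relations below with `b = b₂` and `c = a₆`.  We show that for a
`p`-torsion point `P` reducing to the node (`p ≥ 5` different from the residue characteristic)
`p · w(x(P)) ∈ ℤ · w(a₆)` for the additive valuation `w`.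
No hypothesis on the valuation of `2` is made.
-/

set_option autoImplicit false

namespace Fermat.Agent.Cor.H07

open Fermat.Agent.H08

/-- The relations satisfied by the `x`-coordinate on a curve with `a₃ = a₄ = 0`, `b₂ = b`,
`a₆ = c`. -/
structure NodeSystem {G F : Type*} [AddCommGroup G] [Field F] (t : G → F) (b c : F) : Prop where
  eq_iff : ∀ P Q : G, P ≠ 0 → Q ≠ 0 → (t P = t Q ↔ P = Q ∨ P = -Q)
  sum : ∀ P Q : G, P ≠ 0 → Q ≠ 0 → t P ≠ t Q →
    (t (P + Q) + t (P - Q)) * (t P - t Q) ^ 2
      = b * (t P * t Q) + (2 * (t P * t Q) * (t P + t Q) + 4 * c)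
  prod : ∀ P Q : G, P ≠ 0 → Q ≠ 0 → t P ≠ t Q →
    (t (P + Q) * t (P - Q)) * (t P - t Q) ^ 2
      = (t P * t Q) ^ 2 - (b * c + 4 * c * (t P + t Q))
  double : ∀ P : G, P ≠ 0 → P + P ≠ 0 →
    t (P + P) * (b * t P ^ 2 + (4 * t P ^ 3 + 4 * c)) = (t P ^ 2) ^ 2 - (b * c + 8 * c * t P)

section

variable {G F : Type*} [AddCommGroup G] [Field F] {Γ₀ : Type*} [LinearOrderedCommGroupWithZero Γ₀]
  {t : G → F} {b c : F} {v : Valuation F Γ₀} {p : ℕ}

/-- The standing hypotheses: a node, and integrality of the torsion points. -/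
structure NHyp (t : G → F) (b c : F) (v : Valuation F Γ₀) (p : ℕ) : Prop where
  K : NodeSystem t b c
  hp : p.Prime
  hp5 : 5 ≤ p
  vb : v b = 1
  vc : v c < 1
  c0 : c ≠ 0
  int : ∀ P : G, P ≠ 0 → p • P = 0 → v (t P) ≤ 1

namespace NHyp

lemma nsmul_ne_zero (H : NHyp t b c v p) {P : G} (hP : P ≠ 0) (hpP : p • P = 0) {m : ℕ}
    (hm : ¬ p ∣ m) : m • P ≠ 0 := by
  intro h
  have h1 : addOrderOf P ∣ p := addOrderOf_dvd_of_nsmul_eq_zero hpP
  have h2 : addOrderOf P ∣ m := addOrderOf_dvd_of_nsmul_eq_zero h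
  rcases (Nat.dvd_prime H.hp).mp h1 with h3 | h3
  · exact hP (AddMonoid.addOrderOf_eq_one_iff.mp h3)
  · exact hm (h3 ▸ h2)

lemma nsmul_ne_zero' (H : NHyp t b c v p) {P : G} (hP : P ≠ 0) (hpP : p • P = 0) {m : ℕ}
    (hm1 : 1 ≤ m) (hm : m ≤ p - 1) : m • P ≠ 0 :=
  H.nsmul_ne_zero hP hpP (fun h => by have := Nat.le_of_dvd (by omega) h; have := H.hp5; omega)

lemma torsion_nsmul {P : G} (hpP : p • P = 0) (m : ℕ) : p • (m • P) = 0 := by
  rw [← mul_smul, mul_comm, mul_smul, hpP, smul_zero]

lemma t_ne (H : NHyp t b c v p) {P : G} (hP : P ≠ 0) (hpP : p • P = 0) {m : ℕ}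
    (hm1 : 2 ≤ m) (hm : m ≤ p - 2) : t (m • P) ≠ t P := by
  have hp5 := H.hp5
  intro h
  rcases (H.K.eq_iff _ _ (H.nsmul_ne_zero' hP hpP (by omega) (by omega)) hP).mp h with h1 | h1
  · have : (m - 1) • P = 0 := by
      have e : m = (m - 1) + 1 := by omega
      rw [e, succ_nsmul] at h1
      simpa using h1
    exact H.nsmul_ne_zero' hP hpP (by omega) (by omega) this
  · have : (m + 1) • P = 0 := by
      rw [succ_nsmul, h1, neg_add_cancel]
    exact H.nsmul_ne_zero' hP hpP (by omega) (by omega) this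

lemma vc_pos (H : NHyp t b c v p) : 0 < v c := zero_lt_iff.mpr ((Valuation.ne_zero_iff v).mpr H.c0)

lemma v_bc (H : NHyp t b c v p) {z : F} (hz : v z < 1) (n : ℕ) :
    v (b * c + (n : F) * c * z) = v c := by
  have h1 : v (b * c) = v c := by rw [map_mul, H.vb, one_mul]
  rw [v.map_add_eq_of_lt_left, h1]
  rw [h1, map_mul, map_mul, mul_right_comm]
  calc v (n : F) * v z * v c ≤ 1 * v z * v c :=
        mul_le_mul_left (mul_le_mul_left (v_natCast_le_one v n) _) _
    _ < 1 * 1 * v c := by
        rw [one_mul, one_mul]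
        exact mul_lt_mul_of_pos_right hz H.vc_pos
    _ = v c := by rw [one_mul, one_mul]

/-- Step 1: points with nonsingular reduction. -/
lemma val_eq_one_nsmul (H : NHyp t b c v p) {P : G} (hP : P ≠ 0) (hpP : p • P = 0)
    (h1 : v (t P) = 1) : ∀ m, 1 ≤ m → m ≤ p - 1 → v (t (m • P)) = 1 := by
  have hp5 := H.hp5
  have key : ∀ m, 1 ≤ m → m + 1 ≤ p - 1 → v (t (m • P)) = 1 ∧ v (t ((m + 1) • P)) = 1 := by
    intro m hm
    induction m, hm using Nat.le_induction with
    | base =>
      intro _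
      rw [one_nsmul]
      refine ⟨h1, ?_⟩
      have h2P : P + P ≠ 0 := by
        rw [← two_nsmul]; exact H.nsmul_ne_zero' hP hpP (by omega) (by omega)
      have hd := H.K.double P hP h2P
      have hR : v ((t P ^ 2) ^ 2 - (b * c + 8 * c * t P)) = 1 := by
        have h2 : v ((t P ^ 2) ^ 2) = 1 := by rw [map_pow, map_pow, h1, one_pow, one_pow]
        have h3 : v (b * c + 8 * c * t P) < 1 :=
          v_add_lt_one (v_mul_lt_one_right H.vb.le H.vc)
            (v_mul_lt_one_left (v_mul_lt_one_right (v_ofNat_le_one v 8) H.vc) h1.le)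
        rw [v.map_sub_eq_of_lt_left (by rw [h2]; exact h3), h2]
      have hL : v (b * t P ^ 2 + (4 * t P ^ 3 + 4 * c)) ≤ 1 :=
        v_add_le_one (v_mul_le_one H.vb.le (v_pow_le_one h1.le 2))
          (v_add_le_one (v_mul_le_one (v_ofNat_le_one v 4) (v_pow_le_one h1.le 3))
            (v_mul_le_one (v_ofNat_le_one v 4) H.vc.le))
      have hi : v (t (P + P)) ≤ 1 := H.int _ h2P (by rw [← two_nsmul]; exact torsion_nsmul hpP 2)
      show v (t ((1 + 1) • P)) = 1
      rw [show (1 + 1 : ℕ) = 2 from rfl, two_nsmul]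
      by_contra hc
      have hlt : v (t (P + P)) < 1 := lt_of_le_of_ne hi hc
      have := v_mul_lt_one_left hlt hL
      rw [hd, hR] at this
      exact lt_irrefl _ this
    | succ m hm ih =>
      intro hm2
      obtain ⟨i1, i2⟩ := ih (by omega)
      refine ⟨i2, ?_⟩
      have hne := H.t_ne hP hpP (m := m + 1) (by omega) (by omega)
      have hmP := H.nsmul_ne_zero' hP hpP (m := m + 1) (by omega) (by omega)
      have hpr := H.K.prod _ _ hmP hP hne
      rw [← succ_nsmul, show (m + 1) • P - P = m • P by rw [succ_nsmul, add_sub_cancel_right]]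
        at hpr
      have hR : v ((t ((m + 1) • P) * t P) ^ 2 - (b * c + 4 * c * (t ((m + 1) • P) + t P))) = 1 := by
        have h2 : v ((t ((m + 1) • P) * t P) ^ 2) = 1 := by
          rw [map_pow, map_mul, i2, h1, one_mul, one_pow]
        have h3 : v (b * c + 4 * c * (t ((m + 1) • P) + t P)) < 1 :=
          v_add_lt_one (v_mul_lt_one_right H.vb.le H.vc)
            (v_mul_lt_one_left (v_mul_lt_one_right (v_ofNat_le_one v 4) H.vc)
              (v_add_le_one i2.le h1.le))
        rw [v.map_sub_eq_of_lt_left (by rw [h2]; exact h3), h2]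
      have hi : v (t ((m + 1 + 1) • P)) ≤ 1 :=
        H.int _ (H.nsmul_ne_zero' hP hpP (by omega) (by omega)) (torsion_nsmul hpP _)
      by_contra hc
      have hlt : v (t ((m + 1 + 1) • P)) < 1 := lt_of_le_of_ne hi hc
      have := v_mul_lt_one_left (v_mul_lt_one_left hlt i1.le)
        (v_pow_le_one (v_sub_le_one i2.le h1.le) 2)
      rw [hpr, hR] at this
      exact lt_irrefl _ this
  intro m hm1 hm2
  by_cases h : m + 1 ≤ p - 1
  · exact (key m hm1 h).1
  · have := (key (m - 1) (by omega) (by omega)).2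
    rwa [show m - 1 + 1 = m by omega] at this

/-- Step 2: `v c < v (t P) ^ 2`. -/
lemma val_c_lt (H : NHyp t b c v p) {P : G} (hP : P ≠ 0) (hpP : p • P = 0) :
    v c < v (t P) ^ 2 := by
  have hp5 := H.hp5
  by_contra hc
  push Not at hc
  have h2P : P + P ≠ 0 := by
    rw [← two_nsmul]; exact H.nsmul_ne_zero' hP hpP (by omega) (by omega)
  have hd := H.K.double P hP h2P
  have hc0 := H.vc_pos
  have hi : v (t (P + P)) ≤ 1 := H.int _ h2P (by rw [← two_nsmul]; exact torsion_nsmul hpP 2)
  have htlt : v (t P) < 1 := by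
    by_contra h'
    push Not at h'
    have : 1 ≤ v (t P) ^ 2 := one_le_pow_of_one_le' h' 2
    exact absurd (this.trans hc) (not_le.mpr H.vc)
  -- the right hand side
  have hR : v ((t P ^ 2) ^ 2 - (b * c + 8 * c * t P)) = v c := by
    have e := H.v_bc htlt 8
    push_cast at e
    rw [v.map_sub_eq_of_lt_right, e]
    rw [e, map_pow, map_pow, pow_two]
    calc v (t P) ^ 2 * v (t P) ^ 2 ≤ v c * v c := mul_le_mul' hc hc
      _ < 1 * v c := mul_lt_mul_of_pos_right H.vc hc0
      _ = v c := one_mul _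
  have hin : v (b * t P ^ 2 + (4 * t P ^ 3 + 4 * c)) ≤ v c := by
    refine v.map_add_le ?_ (v.map_add_le ?_ ?_)
    · rw [map_mul, H.vb, one_mul, map_pow]; exact hc
    · rw [map_mul, map_pow, pow_succ]
      calc v 4 * (v (t P) ^ 2 * v (t P)) ≤ 1 * (v c * 1) :=
            mul_le_mul' (v_ofNat_le_one v 4) (mul_le_mul' hc htlt.le)
        _ = v c := by rw [one_mul, mul_one]
    · rw [map_mul]
      calc v 4 * v c ≤ 1 * v c := mul_le_mul_left (v_ofNat_le_one v 4) _
        _ = v c := one_mul _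
  have hone : v (t (P + P)) = 1 := by
    by_contra hne
    have hlt : v (t (P + P)) < 1 := lt_of_le_of_ne hi hne
    have hv := congrArg v hd
    rw [hR, map_mul] at hv
    have : v (t (P + P)) * v (b * t P ^ 2 + (4 * t P ^ 3 + 4 * c)) < v c := by
      calc v (t (P + P)) * v (b * t P ^ 2 + (4 * t P ^ 3 + 4 * c))
          ≤ v (t (P + P)) * v c := mul_le_mul_right hin _
        _ < 1 * v c := mul_lt_mul_of_pos_right hlt hc0
        _ = v c := one_mul _
    rw [hv] at this
    exact lt_irrefl _ this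
  -- `P` is a multiple of `2P`
  obtain ⟨k, hk⟩ := H.hp.odd_of_ne_two (by omega)
  have hk1 : (k + 1) • (P + P) = P := by
    have : (k + 1) • (P + P) = p • P + P := by
      rw [← two_nsmul, ← mul_smul, hk, ← succ_nsmul]; congr 1; ring
    rw [this, hpP, zero_add]
  have := H.val_eq_one_nsmul h2P (by rw [← two_nsmul]; exact torsion_nsmul hpP 2) hone (k + 1)
    (by omega) (by omega)
  rw [hk1] at this
  rw [this] at htlt
  exact lt_irrefl _ htlt

lemma t_ne_zero (H : NHyp t b c v p) {P : G} (hP : P ≠ 0) (hpP : p • P = 0) : t P ≠ 0 := by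
  intro h
  have := H.val_c_lt hP hpP
  rw [h, _root_.map_zero, zero_pow two_ne_zero] at this
  exact absurd this (by simp)

lemma vc_lt_mul (H : NHyp t b c v p) {x y : F} (hx : v c < v x ^ 2) (hy : v c < v y ^ 2) :
    v c < v x * v y := by
  rcases le_total (v x) (v y) with h | h
  · calc v c < v x ^ 2 := hx
      _ = v x * v x := pow_two _
      _ ≤ v x * v y := mul_le_mul_right h _
  · calc v c < v y ^ 2 := hy
      _ = v y * v y := pow_two _
      _ ≤ v x * v y := mul_le_mul_left h _

/-- The right-hand side of the sum formula. -/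
lemma val_sum_rhs (H : NHyp t b c v p) {x y : F} (hx : v c < v x ^ 2) (hx1 : v x < 1)
    (hy : v c < v y ^ 2) (hy1 : v y < 1) :
    v (b * (x * y) + (2 * (x * y) * (x + y) + 4 * c)) = v x * v y := by
  have h1 : v (b * (x * y)) = v x * v y := by
    rw [map_mul, H.vb, one_mul, map_mul]
  have hxy := H.vc_lt_mul hx hy
  have hpos : 0 < v x * v y := H.vc_pos.trans hxy
  rw [v.map_add_eq_of_lt_left, h1]
  rw [h1]
  refine v.map_add_lt ?_ ?_
  · rw [map_mul, map_mul, map_mul]
    have h2 : v (x + y) < 1 := v_add_lt_one hx1 hy1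
    calc v 2 * (v x * v y) * v (x + y) ≤ 1 * (v x * v y) * v (x + y) :=
          mul_le_mul_left (mul_le_mul_left (v_ofNat_le_one v 2) _) _
      _ < 1 * (v x * v y) * 1 := by
          refine mul_lt_mul_of_pos_left h2 ?_
          rw [one_mul]; exact hpos
      _ = v x * v y := by rw [one_mul, mul_one]
  · rw [map_mul]
    calc v 4 * v c ≤ 1 * v c := mul_le_mul_left (v_ofNat_le_one v 4) _
      _ = v c := one_mul _
      _ < v x * v y := hxy

/-- Step 3a: the recursion. -/
lemma recursion (H : NHyp t b c v p) {w : F → ℝ} (hw : IsLogVal v w) {P : G} (hP : P ≠ 0)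
    (hpP : p • P = 0) (h1 : v (t P) < 1) {m : ℕ} (hm1 : 1 ≤ m) (hm : m + 2 ≤ p - 1) :
    w (t ((m + 2) • P)) + w (t (m • P))
      = |w (t ((m + 1) • P)) - w (t P)|
        + min (w (t ((m + 1) • P)) + w (t P)) (w c - (w (t ((m + 1) • P)) + w (t P))) := by
  have hp5 := H.hp5
  have hne := H.t_ne hP hpP (m := m + 1) (by omega) (by omega)
  have hQ := H.nsmul_ne_zero' hP hpP (m := m + 1) (by omega) (by omega)
  have hQm := H.nsmul_ne_zero' hP hpP (m := m) (by omega) (by omega)
  have hQ2 := H.nsmul_ne_zero' hP hpP (m := m + 2) (by omega) (by omega)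
  have hpr := H.K.prod _ _ hQ hP hne
  have hsu := H.K.sum _ _ hQ hP hne
  rw [← succ_nsmul, show (m + 1) • P - P = m • P by rw [succ_nsmul, add_sub_cancel_right],
    show m + 1 + 1 = m + 2 from rfl] at hpr hsu
  have hbx := H.val_c_lt hP hpP
  have hby := H.val_c_lt hQ (torsion_nsmul hpP _)
  have hbX := H.val_c_lt hQ2 (torsion_nsmul hpP _)
  have hbY := H.val_c_lt hQm (torsion_nsmul hpP _)
  have hX0 := H.t_ne_zero hQ2 (torsion_nsmul hpP _)
  have hY0 := H.t_ne_zero hQm (torsion_nsmul hpP _)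
  have hx0 := H.t_ne_zero hP hpP
  have hy0 := H.t_ne_zero hQ (torsion_nsmul hpP _)
  have hX1 := H.int _ hQ2 (torsion_nsmul hpP _)
  have hY1 := H.int _ hQm (torsion_nsmul hpP _)
  have hy1 := H.int _ hQ (torsion_nsmul hpP _)
  set x := t P with hx
  set y := t ((m + 1) • P) with hy
  set X := t ((m + 2) • P) with hX
  set Y := t (m • P) with hY
  have hvc0 := H.vc_pos
  have hvx0 : v x ≠ 0 := (Valuation.ne_zero_iff v).mpr hx0
  have hvy0 : v y ≠ 0 := (Valuation.ne_zero_iff v).mpr hy0
  have hd0 : y - x ≠ 0 := sub_ne_zero.mpr hne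
  -- (i)
  have hi : v (y - x) = max (v y) (v x) := by
    by_cases hvv : v y = v x
    · rw [hvv, max_self]
      apply le_antisymm
      · have := v.map_sub y x
        rwa [hvv, max_self] at this
      · by_contra hc
        push Not at hc
        have hrhs := H.val_sum_rhs (x := y) (y := x) hby (by rw [hvv]; exact h1) hbx h1
        rw [← hsu, map_mul, map_pow, hvv] at hrhs
        have h3 : v (X + Y) ≤ 1 := v_add_le_one hX1 hY1
        have h4 : v (X + Y) * v (y - x) ^ 2 < v x * v x := by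
          calc v (X + Y) * v (y - x) ^ 2 ≤ 1 * v (y - x) ^ 2 := mul_le_mul_left h3 _
            _ = v (y - x) * v (y - x) := by rw [one_mul, pow_two]
            _ ≤ v x * v (y - x) := mul_le_mul_left hc.le _
            _ < v x * v x := mul_lt_mul_of_pos_left hc (zero_lt_iff.mpr hvx0)
        rw [hrhs] at h4
        exact lt_irrefl _ h4
    · exact KHyp.val_sub_of_val_ne hvv
  -- (ii)
  have hE : v (b * c + 4 * c * (y + x)) = v c ∨ v y = 1 := by
    by_cases hyy : v y = 1
    · exact Or.inr hyy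
    · left
      have e := H.v_bc (v_add_lt_one (lt_of_le_of_ne hy1 hyy) h1) 4
      push_cast at e
      exact e
  have hii : v ((y * x) ^ 2 - (b * c + 4 * c * (y + x))) = max (v (y * x) ^ 2) (v c) := by
    by_cases hyy : v y = 1
    · have e1 : v ((y * x) ^ 2) = v x ^ 2 := by rw [map_pow, map_mul, hyy, one_mul]
      have e2 : v (b * c + 4 * c * (y + x)) ≤ v c := by
        refine v.map_add_le ?_ ?_
        · rw [map_mul, H.vb, one_mul]
        · rw [map_mul, map_mul]
          calc v 4 * v c * v (y + x) ≤ 1 * v c * 1 :=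
                mul_le_mul' (mul_le_mul_left (v_ofNat_le_one v 4) _) (v_add_le_one hy1 h1.le)
            _ = v c := by rw [one_mul, mul_one]
      rw [v.map_sub_eq_of_lt_left (by rw [e1]; exact e2.trans_lt hbx), ← map_pow, e1,
        max_eq_left hbx.le]
    · have hE' : v (b * c + 4 * c * (y + x)) = v c := hE.resolve_right hyy
      by_cases hvv : v (y * x) ^ 2 = v c
      · rw [hvv, max_self]
        apply le_antisymm
        · have := v.map_sub ((y * x) ^ 2) (b * c + 4 * c * (y + x))
          rwa [map_pow, hvv, hE', max_self] at this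
        · by_contra hc
          push Not at hc
          have hy1' : v y < 1 := lt_of_le_of_ne hy1 hyy
          have hrhs := H.val_sum_rhs (x := y) (y := x) hby hy1' hbx h1
          rw [← hsu, map_mul, map_pow] at hrhs
          have hprv := congrArg v hpr
          rw [map_mul, map_mul, map_pow] at hprv
          have hvv' : (v y * v x) * (v y * v x) = v c := by
            rw [← pow_two, ← map_mul]; exact hvv
          have hyx0 : 0 < v y * v x := zero_lt_iff.mpr (mul_ne_zero hvy0 hvx0)
          -- both orders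
          have key : ∀ X Y : F, v c < v X ^ 2 → v (X + Y) * v (y - x) ^ 2 = v y * v x →
              v X * v Y * v (y - x) ^ 2 < v c → v X ≤ v Y → False := by
            intro X Y hbX e1 e2 hXY
            have e3 : v (X + Y) ≤ v Y := v.map_add_le hXY le_rfl
            have e4 : v X * (v y * v x) < (v y * v x) * (v y * v x) := by
              calc v X * (v y * v x) = v X * (v (X + Y) * v (y - x) ^ 2) := by rw [e1]
                _ ≤ v X * (v Y * v (y - x) ^ 2) := mul_le_mul_right (mul_le_mul_left e3 _) _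
                _ = v X * v Y * v (y - x) ^ 2 := by rw [mul_assoc]
                _ < v c := e2
                _ = (v y * v x) * (v y * v x) := hvv'.symm
            have e5 : v X < v y * v x := lt_of_mul_lt_mul_right e4 zero_le
            have e6 : v X ^ 2 < v c := by
              rw [← hvv', pow_two]
              calc v X * v X ≤ v X * (v y * v x) := mul_le_mul_right e5.le _
                _ < (v y * v x) * (v y * v x) := e4
            exact lt_irrefl _ (e6.trans hbX)
          rcases le_total (v X) (v Y) with h | h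
          · exact key X Y hbX hrhs (by rw [hprv]; exact hc) h
          · exact key Y X hbY (by rw [add_comm]; exact hrhs)
              (by rw [mul_comm (v Y) (v X), hprv]; exact hc) h
      · rw [KHyp.val_sub_of_val_ne (by rw [map_pow, hE']; exact hvv), map_pow, hE']
  have hyxb0 : (y * x) ^ 2 - (b * c + 4 * c * (y + x)) ≠ 0 := by
    rw [← Valuation.ne_zero_iff v, hii]
    exact ne_of_gt (lt_of_lt_of_le hvc0 (le_max_right _ _))
  have hyx0 : (y * x) ^ 2 ≠ 0 := pow_ne_zero 2 (mul_ne_zero hy0 hx0)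
  have hwi := KHyp.w_eq_min hw hy0 hx0 hd0 hi
  have hwii := KHyp.w_eq_min hw hyx0 H.c0 hyxb0 (by rw [hii, map_pow])
  rw [hw.pow (mul_ne_zero hy0 hx0), hw.map_mul y x hy0 hx0] at hwii
  have hwpr := congrArg w hpr
  rw [hw.map_mul _ _ (mul_ne_zero hX0 hY0) (pow_ne_zero 2 hd0), hw.map_mul _ _ hX0 hY0,
    hw.pow hd0, hwi, hwii] at hwpr
  push_cast at hwpr
  have hfin : w X + w Y = min (2 * (w y + w x)) (w c) - 2 * min (w y) (w x) := by linarith
  rw [hfin]
  rcases le_total (w y) (w x) with h | h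
  · rw [min_eq_left h, abs_of_nonpos (by linarith)]
    rcases le_total (2 * (w y + w x)) (w c) with h' | h'
    · rw [min_eq_left h', min_eq_left (by linarith)]; ring
    · rw [min_eq_right h', min_eq_right (by linarith)]; ring
  · rw [min_eq_right h, abs_of_nonneg (by linarith)]
    rcases le_total (2 * (w y + w x)) (w c) with h' | h'
    · rw [min_eq_left h', min_eq_left (by linarith)]; ring
    · rw [min_eq_right h', min_eq_right (by linarith)]; ring

/-- Step 3b: the start of the recursion. -/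
lemma recursion_start (H : NHyp t b c v p) {w : F → ℝ} (hw : IsLogVal v w) {P : G} (hP : P ≠ 0)
    (hpP : p • P = 0) (h1 : v (t P) < 1) :
    w (t (2 • P)) = min (w (t P) + w (t P)) (w c - (w (t P) + w (t P))) := by
  have hp5 := H.hp5
  have hQ2 := H.nsmul_ne_zero' hP hpP (m := 2) (by omega) (by omega)
  have h2P : P + P ≠ 0 := by rw [← two_nsmul]; exact hQ2
  have hd := H.K.double P hP h2P
  rw [← two_nsmul] at hd
  have hbx := H.val_c_lt hP hpP
  have hbX := H.val_c_lt hQ2 (torsion_nsmul hpP _)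
  have hX0 := H.t_ne_zero hQ2 (torsion_nsmul hpP _)
  have hx0 := H.t_ne_zero hP hpP
  set x := t P with hx
  set X := t (2 • P) with hX
  have hvc0 := H.vc_pos
  have hvx0 : v x ≠ 0 := (Valuation.ne_zero_iff v).mpr hx0
  have hx2 : 0 < v x ^ 2 := pow_pos (zero_lt_iff.mpr hvx0) 2
  have hin : v (b * x ^ 2 + (4 * x ^ 3 + 4 * c)) = v (x ^ 2) := by
    have h2 : v (b * x ^ 2) = v (x ^ 2) := by rw [map_mul, H.vb, one_mul]
    rw [v.map_add_eq_of_lt_left, h2]
    rw [h2, map_pow]
    refine v.map_add_lt ?_ ?_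
    · rw [map_mul, map_pow, pow_succ]
      calc v 4 * (v x ^ 2 * v x) ≤ 1 * (v x ^ 2 * v x) := mul_le_mul_left (v_ofNat_le_one v 4) _
        _ < 1 * (v x ^ 2 * 1) := by
            rw [one_mul, one_mul]; exact mul_lt_mul_of_pos_left h1 hx2
        _ = v x ^ 2 := by rw [one_mul, mul_one]
    · rw [map_mul]
      calc v 4 * v c ≤ 1 * v c := mul_le_mul_left (v_ofNat_le_one v 4) _
        _ = v c := one_mul _
        _ < v x ^ 2 := hbx
  have hin0 : b * x ^ 2 + (4 * x ^ 3 + 4 * c) ≠ 0 := by
    rw [← Valuation.ne_zero_iff v, hin, map_pow]; exact hx2.ne'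
  have hE : v (b * c + 8 * c * x) = v c := by
    have e := H.v_bc h1 8
    push_cast at e
    exact e
  have hii : v ((x ^ 2) ^ 2 - (b * c + 8 * c * x)) = max (v ((x ^ 2) ^ 2)) (v c) := by
    by_cases hvv : v ((x ^ 2) ^ 2) = v c
    · rw [hvv, max_self]
      apply le_antisymm
      · have := v.map_sub ((x ^ 2) ^ 2) (b * c + 8 * c * x)
        rwa [hvv, hE, max_self] at this
      · by_contra hc
        push Not at hc
        have hv := congrArg v hd
        rw [map_mul, hin] at hv
        rw [← hv, ← hvv, map_pow _ (x ^ 2) 2, pow_two (v (x ^ 2))] at hc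
        have e5 : v X < v (x ^ 2) := lt_of_mul_lt_mul_right hc zero_le
        have e6 : v X ^ 2 < v c := by
          rw [← hvv, map_pow _ (x ^ 2) 2]
          exact pow_lt_pow_left₀ e5 zero_le two_ne_zero
        exact lt_irrefl _ (e6.trans hbX)
    · rw [KHyp.val_sub_of_val_ne (by rw [hE]; exact hvv), hE]
  have hxb0 : (x ^ 2) ^ 2 - (b * c + 8 * c * x) ≠ 0 := by
    rw [← Valuation.ne_zero_iff v, hii]
    exact ne_of_gt (lt_of_lt_of_le hvc0 (le_max_right _ _))
  have hwii := KHyp.w_eq_min hw (pow_ne_zero 2 (pow_ne_zero 2 hx0)) H.c0 hxb0 hii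
  rw [hw.pow (pow_ne_zero 2 hx0), hw.pow hx0] at hwii
  have hwin : w (b * x ^ 2 + (4 * x ^ 3 + 4 * c)) = w (x ^ 2) :=
    (hw.eq_iff hin0 (pow_ne_zero 2 hx0)).mp hin
  rw [hw.pow hx0] at hwin
  have hwd := congrArg w hd
  rw [hw.map_mul _ _ hX0 hin0, hwin, hwii] at hwd
  push_cast at hwd
  rcases le_total (2 * (2 * w x)) (w c) with h' | h'
  · rw [min_eq_left h'] at hwd
    rw [min_eq_left (by linarith)]
    linarith
  · rw [min_eq_right h'] at hwd
    rw [min_eq_right (by linarith)]
    linarith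

/-- The valuation of the `x`-coordinate of a `p`-torsion point reducing to the node. -/
theorem val_singular (H : NHyp t b c v p) {w : F → ℝ} (hw : IsLogVal v w) {P : G} (hP : P ≠ 0)
    (hpP : p • P = 0) (h1 : v (t P) < 1) :
    ∃ k : ℤ, p * w (t P) = k * w c := by
  have hp5 := H.hp5
  have hx0 := H.t_ne_zero hP hpP
  have hbx := H.val_c_lt hP hpP
  set r : ℕ → ℝ := fun m => if m = 0 then 0 else w (t (m • P)) with hr
  have hr0 : r 0 = 0 := by simp [hr]
  have hrm : ∀ m, 1 ≤ m → r m = w (t (m • P)) := by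
    intro m hm; simp [hr, show m ≠ 0 by omega]
  have hr1 : r 1 = w (t P) := by rw [hrm 1 le_rfl, one_nsmul]
  have hN0 : 0 < w c := (hw.pos_iff H.c0).mp H.vc
  have hN : 0 < w c / 2 := by linarith
  have hlt : ∀ Q : G, Q ≠ 0 → p • Q = 0 → w (t Q) < w c / 2 := by
    intro Q hQ hpQ
    have h2 := H.val_c_lt hQ hpQ
    have h3 := H.t_ne_zero hQ hpQ
    rw [← map_pow] at h2
    have h4 := (hw.lt_iff _ _ H.c0 (pow_ne_zero 2 h3)).mp h2
    rw [hw.pow h3] at h4
    push_cast at h4
    linarith
  have hneg : ∀ Q : G, Q ≠ 0 → t (-Q) = t Q := by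
    intro Q hQ
    exact (H.K.eq_iff _ _ (neg_ne_zero.mpr hQ) hQ).mpr (Or.inr rfl)
  have := tent_final hN hp5 (r := r) hr0 ?_ ?_ ?_ ?_ ?_ ?_ ?_
  · obtain ⟨k, hk⟩ := this
    refine ⟨k, ?_⟩
    rw [hr1] at hk
    rw [hk]; ring
  · intro m hm
    by_cases hm0 : m = 0
    · rw [hm0, hr0]
    · rw [hrm m (by omega)]
      have hQ := H.nsmul_ne_zero' hP hpP (m := m) (by omega) hm
      exact (hw.nonneg_iff (H.t_ne_zero hQ (torsion_nsmul hpP _))).mp
        (H.int _ hQ (torsion_nsmul hpP _))
  · intro m hm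
    by_cases hm0 : m = 0
    · rw [hm0, hr0]; exact hN.le
    · rw [hrm m (by omega)]
      have hQ := H.nsmul_ne_zero' hP hpP (m := m) (by omega) hm
      exact (hlt _ hQ (torsion_nsmul hpP _)).le
  · intro m hm
    rw [show 2 * (w c / 2) = w c by ring]
    by_cases hm0 : m = 0
    · subst hm0
      rw [hr0, hrm 2 (by omega), H.recursion_start hw hP hpP h1, hr1]
      simp
    · rw [hrm (m + 2) (by omega), hrm m (by omega), hrm (m + 1) (by omega), hr1]
      exact H.recursion hw hP hpP h1 (by omega) hm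
  · rw [hr1]; exact (hw.pos_iff hx0).mp h1
  · rw [hr1]; exact hlt P hP hpP
  · rw [hrm _ (by omega), hr1]
    have : (p - 1) • P = -P := by
      have e : (p - 1) • P + P = 0 := by rw [← succ_nsmul, show p - 1 + 1 = p by omega, hpP]
      exact eq_neg_of_add_eq_zero_left e
    rw [this, hneg P hP]
  · rw [hrm _ (by omega), hrm 2 (by omega)]
    have : (p - 2) • P = -(2 • P) := by
      have e : (p - 2) • P + 2 • P = 0 := by
        rw [← add_nsmul, show p - 2 + 2 = p by omega, hpP]
      exact eq_neg_of_add_eq_zero_left e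
    rw [this, hneg _ (H.nsmul_ne_zero' hP hpP (by omega) (by omega))]

end NHyp

end

end Fermat.Agent.Cor.H07
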