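import Fermat.Agent.Cor.H07Ram
import Fermat.Agent.Cor.H07Conv
import Fermat.Agent.MainConductor

/-!
# Ribet's theorem for semistable curves, with Serre's level

For a semistable model `W` and an odd prime `p` with `W[p]` irreducible, let
`N = ∏ q`, `q` prime with `p ∤ v_q(Δ)`.  We show that `W[p]` arises from a cusp form of weight two
and level `N`, that all primes `q ≠ p` dividing `N` divide every level at which `W[p]` arises, and
that `N ≥ 11`, `N ≠ 13`.

In this file the fact that `W[p]` is unramified at the multiplicative primes `q ≠ p` with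
`p ∣ v_q(Δ)` is a hypothesis (`UnrHyp`).
-/

set_option autoImplicit false

noncomputable section

namespace Fermat.Agent.Cor.H07

open Fermat.Agent.H12.LL Fermat.Agent.H18O
open WeierstrassCurve

/-- Serre's level (with the factor `p` when `W[p]` is très ramifiée at `p`): the product of the
primes `q` with `p ∤ v_q(Δ)` -/
def serreLevel (W : WeierstrassCurve ℤ) (p : ℕ) : ℕ :=
  ∏ q ∈ W.Δ.natAbs.primeFactors with ¬ p ∣ padicValInt q W.Δ, q

/-- `W[p]` is unramified at the multiplicative primes `q ≠ p` with `p ∣ v_q(Δ)` -/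
def UnrHyp (W : WeierstrassCurve ℤ) (p : ℕ) : Prop :=
  ∀ q : ℕ, q.Prime → q ≠ p → (q : ℤ) ∣ W.Δ → p ∣ padicValInt q W.Δ → UnrAt W p q

variable {W : WeierstrassCurve ℤ} {p : ℕ}

theorem padicValInt_eq_zero {q : ℕ} {m : ℤ} (h : ¬ (q : ℤ) ∣ m) :
    padicValInt q m = 0 := padicValInt.eq_zero_of_not_dvd h

theorem prime_of_mem_serre {q : ℕ}
    (h : q ∈ W.Δ.natAbs.primeFactors.filter fun q => ¬ p ∣ padicValInt q W.Δ) : q.Prime :=
  Nat.prime_of_mem_primeFactors (Finset.mem_filter.mp h).1

theorem serreLevel_ne_zero (W : WeierstrassCurve ℤ) (p : ℕ) : serreLevel W p ≠ 0 :=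
  Finset.prod_ne_zero_iff.mpr fun _ hq => (prime_of_mem_serre hq).ne_zero

/-- the primes of Serre's level -/
theorem dvd_serreLevel_iff (hΔ : W.Δ ≠ 0) {q : ℕ} (hq : q.Prime) :
    q ∣ serreLevel W p ↔ ¬ p ∣ padicValInt q W.Δ := by
  rw [serreLevel]
  constructor
  · intro h
    obtain ⟨r, hr, hd⟩ := (hq.prime.dvd_finsetProd_iff _).mp h
    have hrq := (Nat.prime_dvd_prime_iff_eq hq (prime_of_mem_serre hr)).mp hd
    rw [hrq]
    exact (Finset.mem_filter.mp hr).2
  · intro h
    refine Finset.dvd_prod_of_mem (fun q => q) (Finset.mem_filter.mpr ⟨?_, h⟩)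
    rw [Nat.mem_primeFactors]
    refine ⟨hq, ?_, Int.natAbs_ne_zero.mpr hΔ⟩
    by_contra hd
    apply h
    rw [padicValInt_eq_zero fun h' => hd (Int.natCast_dvd.mp h')]
    exact dvd_zero p

theorem squarefree_serreLevel (W : WeierstrassCurve ℤ) (p : ℕ) : Squarefree (serreLevel W p) := by
  rw [serreLevel]
  have key : ∀ s : Finset ℕ, (∀ q ∈ s, q.Prime) → Squarefree (∏ q ∈ s, q) := by
    intro s
    induction s using Finset.induction_on with
    | empty => intro _; simp
    | insert a s ha ih =>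
      intro h
      rw [Finset.prod_insert ha]
      have hap := h a (Finset.mem_insert_self a s)
      have hs := ih fun q hq => h q (Finset.mem_insert_of_mem hq)
      refine (Nat.squarefree_mul_iff).mpr ⟨?_, hap.prime.squarefree, hs⟩
      refine Nat.Coprime.prod_right fun q hq => ?_
      refine (Nat.coprime_primes hap (h q (Finset.mem_insert_of_mem hq))).mpr ?_
      rintro rfl
      exact ha hq
  exact key _ fun q hq => prime_of_mem_serre hq

/-- the primes of Serre's level are bad -/
theorem dvd_disc_of_dvd_serreLevel (hΔ : W.Δ ≠ 0) {q : ℕ} (hq : q.Prime)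
    (h : q ∣ serreLevel W p) : (q : ℤ) ∣ W.Δ := by
  by_contra hd
  rw [dvd_serreLevel_iff hΔ hq, padicValInt_eq_zero hd] at h
  exact h (dvd_zero p)

variable [hp : Fact p.Prime]

/-- **Ramification of `W[p]` at `q ≠ p`**: `W[p]` is unramified at `q` if and only if
`p ∣ v_q(Δ)`. -/
theorem unrAt_iff (hΔ : W.Δ ≠ 0) (hss : W.IsSemistableModel) (hp2 : p ≠ 2) (hU : UnrHyp W p)
    {q : ℕ} (hq : q.Prime) (hqp : q ≠ p) : UnrAt W p q ↔ p ∣ padicValInt q W.Δ := by
  constructor
  · intro h
    by_contra hv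
    have hqΔ : (q : ℤ) ∣ W.Δ := by
      by_contra hd
      rw [padicValInt_eq_zero hd] at hv
      exact hv (dvd_zero p)
    exact not_unrAt hΔ hp.out hp2 hq hqp hqΔ (hss q hq hqΔ) hv h
  · intro h
    by_cases hqΔ : (q : ℤ) ∣ W.Δ
    · exact hU q hq hqp hqΔ h
    · exact unrAt_of_good hq hqΔ fun hd =>
        hqp ((Nat.prime_dvd_prime_iff_eq hq hp.out).mp hd)

/-- **Ribet's theorem for semistable curves**: `W[p]` arises at Serre's level. -/
theorem rm_serreLevel (hΔ : W.Δ ≠ 0) (hss : W.IsSemistableModel) (hirr : W.ModRepIsIrreducible p)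
    (hp2 : p ≠ 2) (hU : UnrHyp W p) : W.IsResiduallyModularOfLevel p (serreLevel W p) := by
  refine level_of_ramified hΔ hss hirr hp2 (serreLevel_ne_zero W p) (fun q hq hqp hqΔ hram => ?_)
    fun hpΔ hv => (dvd_serreLevel_iff hΔ hp.out).mpr hv
  exact (dvd_serreLevel_iff hΔ hq).mpr fun hv => hram (hU q hq hqp hqΔ hv)

/-- minimality: a prime `q ≠ p` with `p ∤ v_q(Δ)` divides every level at which `W[p]` arises -/
theorem dvd_of_rm (hΔ : W.Δ ≠ 0) (hss : W.IsSemistableModel) (hirr : W.ModRepIsIrreducible p)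
    (hp2 : p ≠ 2) {N : ℕ} (hN : N ≠ 0) (hmod : W.IsResiduallyModularOfLevel p N) {q : ℕ}
    (hq : q.Prime) (hqp : q ≠ p) (hv : ¬ p ∣ padicValInt q W.Δ) : q ∣ N := by
  have hqΔ : (q : ℤ) ∣ W.Δ := by
    by_contra hd
    rw [padicValInt_eq_zero hd] at hv
    exact hv (dvd_zero p)
  exact dvd_level hΔ hirr hp2 hN hmod hq hqp
    (not_unrAt hΔ hp.out hp2 hq hqp hqΔ (hss q hq hqΔ) hv)

omit hp in
/-- a residual eigenform gives a normalised eigenform of the level -/
theorem exists_eigenform {N : ℕ} (h : W.IsResiduallyModularOfLevel p N) :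
    ∃ f : CuspForm (CongruenceSubgroup.Gamma0 N) 2, f.IsNormalizedEigenform := by
  obtain ⟨f, 𝔪, hf, -⟩ := h
  exact ⟨f, hf⟩

omit hp in
/-- a squarefree level at which `W[p]` arises is at least `11` and different from `13` -/
theorem eleven_le_of_rm {N : ℕ} (hN : Squarefree N) (h : W.IsResiduallyModularOfLevel p N) :
    11 ≤ N ∧ N ≠ 13 := by
  have : NeZero N := ⟨hN.ne_zero⟩
  obtain ⟨f, hf⟩ := exists_eigenform h
  have key : ModularCurve.genusFormula N ≠ 0 := fun h => Main.not_isNormalizedEigenform h f hf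
  constructor
  · by_contra! hlt
    interval_cases N
    · exact not_squarefree_zero hN
    · exact key Main.genus_one
    · exact key Main.genus_two
    · exact key Main.genus_three
    · exact absurd hN (by decide +kernel)
    · exact key Main.genus_five
    · exact key Main.genus_six
    · exact key Main.genus_seven
    · exact absurd hN (by decide +kernel)
    · exact absurd hN (by decide +kernel)
    · exact key Main.genus_ten
  · rintro rfl
    exact key Main.genus_thirteen

/-- **Serre's level is at least `11` and different from `13`** if `W[p]` is irreducible. -/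
theorem eleven_le_serreLevel (hΔ : W.Δ ≠ 0) (hss : W.IsSemistableModel)
    (hirr : W.ModRepIsIrreducible p) (hp2 : p ≠ 2) (hU : UnrHyp W p) :
    11 ≤ serreLevel W p ∧ serreLevel W p ≠ 13 :=
  eleven_le_of_rm (squarefree_serreLevel W p) (rm_serreLevel hΔ hss hirr hp2 hU)

/-- **Discriminants which are `p`-th powers** (Serre; Mestre–Oesterlé): if all valuations of the
discriminant of a semistable curve are divisible by the odd prime `p`, then `W[p]` is reducible. -/
theorem reducible_of_forall_dvd (hΔ : W.Δ ≠ 0) (hss : W.IsSemistableModel) (hp2 : p ≠ 2)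
    (hU : UnrHyp W p) (h : ∀ q : ℕ, q.Prime → p ∣ padicValInt q W.Δ) :
    ¬ W.ModRepIsIrreducible p := by
  intro hirr
  have h1 := (eleven_le_serreLevel hΔ hss hirr hp2 hU).1
  have h2 : serreLevel W p = 1 := by
    rw [serreLevel, Finset.filter_false_of_mem, Finset.prod_empty]
    intro q hq hq'
    exact hq' (h q (Nat.prime_of_mem_primeFactors hq))
  omega

/-- the discriminant of a semistable curve with `W[p]` irreducible is not a `p`-th power -/
theorem disc_ne_pow (hΔ : W.Δ ≠ 0) (hss : W.IsSemistableModel)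
    (hirr : W.ModRepIsIrreducible p) (hp2 : p ≠ 2) (hU : UnrHyp W p) (m : ℤ) :
    W.Δ ≠ m ^ p := by
  intro h
  refine reducible_of_forall_dvd hΔ hss hp2 hU (fun q hq => ?_) hirr
  have : Fact q.Prime := ⟨hq⟩
  rw [h, padicValInt, Int.natAbs_pow, padicValNat.pow]
  exact dvd_mul_right _ _

end Fermat.Agent.Cor.H07
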