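import Fermat.Agent.Cor.H07Serre
import Fermat.Agent.Cor.H11Raise
import Fermat.Agent.Cor.ChebotarevGal
import Fermat.Agent.S41

/-!
# Level raising for elliptic curves

`W` is a semistable curve, `p` an odd prime with `W[p]` irreducible, `N` a level at which `W[p]`
arises (for instance Serre's level `serreLevel W p`).

* `raise` : (Ribet, Diamond–Taylor) for a prime `q ∤ p N` of good reduction with
  `a_q(W)² ≡ (q + 1)² (mod p)` there is an eigenform `g` of level `N q`, new at `q` (that is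
  `a_q(g) = ± 1`), congruent to `W` modulo a prime above `p`.
* `raise_of_bad` : the same for a prime `q ∤ p N` of bad reduction (here the congruence is
  automatic).
* `exists_prime` : there are infinitely many primes `q` with `p ∣ a_q(W)` and `q ≡ -1 (mod p)`
  (Chebotarev's theorem for the class of complex conjugation).
* `infinite_raise` : hence `W[p]` arises from eigenforms of level `N q`, new at `q`, for infinitely
  many primes `q`.

This file is not used by any of the statement files.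
-/

set_option autoImplicit false
set_option linter.style.haveILetI false

noncomputable section

namespace Fermat.Agent.Cor.H07

open CongruenceSubgroup ModularFormClass
open WeierstrassCurve
open Fermat.Agent.Ell Fermat.Agent.H12.LL Fermat.Agent.EGal

variable {W : WeierstrassCurve ℤ} {p : ℕ} [hp : Fact p.Prime]

/-- `g` is a normalised eigenform of level `M`, new at `q`, congruent to `W` modulo a prime
above `p` -/
def ArisesNewAt (W : WeierstrassCurve ℤ) (p M q : ℕ) : Prop :=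
  ∃ (g : CuspForm (Gamma0 M) 2) (𝔪 : Ideal (integralClosure ℤ ℂ)),
    g.IsNormalizedEigenform ∧ 𝔪.IsMaximal ∧ (p : integralClosure ℤ ℂ) ∈ 𝔪 ∧
    (∀ ℓ : ℕ, ℓ.Prime → W.IsGoodPrimeFor ℓ → ¬ ℓ ∣ M → ℓ ≠ p →
      ∃ a : integralClosure ℤ ℂ, (a : ℂ) = qCoeff g ℓ ∧
        a - ((W.apOfModel ℓ : ℤ) : integralClosure ℤ ℂ) ∈ 𝔪) ∧
    g.IsNewAt q

omit hp in
theorem isIntegralModelOf_WQ' (W : WeierstrassCurve ℤ) : W.IsIntegralModelOf (WQ W) :=
  ⟨1, one_smul _ _⟩

/-- **Level raising** at a good prime -/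
theorem raise (hΔ : W.Δ ≠ 0) (hirr : W.ModRepIsIrreducible p)
    (hp2 : p ≠ 2) {N : ℕ} (hN : 0 < N) (hmod : W.IsResiduallyModularOfLevel p N) {q : ℕ}
    (hq : q.Prime) (hqN : ¬ q ∣ N) (hqp : q ≠ p) (hgood : W.IsGoodPrimeFor q)
    (hcong : (p : ℤ) ∣ W.apOfModel q ^ 2 - ((q : ℤ) + 1) ^ 2) : ArisesNewAt W p (N * q) q := by
  haveI := isElliptic_WQ hΔ
  obtain ⟨f, 𝔪, hf, h𝔪, hp𝔪, h⟩ := hmod
  refine Fermat.Agent.S41.result (WQ W) (isIntegralModelOf_WQ' W) hp.out hp2 hN hq hqN hqp hirr f 𝔪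
    hf h𝔪 hp𝔪 h ?_
  obtain ⟨a, ha, ha'⟩ := h q hq hgood hqN hqp
  refine ⟨a, ha, ?_⟩
  obtain ⟨c, hc⟩ := hcong
  have h1 : a ^ 2 - ((q : integralClosure ℤ ℂ) + 1) ^ 2 =
      (a + ((W.apOfModel q : ℤ) : integralClosure ℤ ℂ)) *
        (a - ((W.apOfModel q : ℤ) : integralClosure ℤ ℂ)) +
      ((c : ℤ) : integralClosure ℤ ℂ) * (p : integralClosure ℤ ℂ) := by
    have h2 : (((W.apOfModel q ^ 2 - ((q : ℤ) + 1) ^ 2 : ℤ)) : integralClosure ℤ ℂ) =
        (((p : ℤ) * c : ℤ) : integralClosure ℤ ℂ) := by rw [hc]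
    push_cast at h2
    linear_combination h2
  rw [h1]
  exact 𝔪.add_mem (𝔪.mul_mem_left _ ha') (𝔪.mul_mem_left _ hp𝔪)

/-- **Level raising** at a bad prime not dividing the level -/
theorem raise_of_bad (hΔ : W.Δ ≠ 0) (hss : W.IsSemistableModel) (hirr : W.ModRepIsIrreducible p)
    (hp2 : p ≠ 2) {N : ℕ} (hN : 0 < N) (hmod : W.IsResiduallyModularOfLevel p N) {q : ℕ}
    (hq : q.Prime) (hqN : ¬ q ∣ N) (hqp : q ≠ p) (hbad : (q : ℤ) ∣ W.Δ) :
    ArisesNewAt W p (N * q) q := by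
  haveI := isElliptic_WQ hΔ
  obtain ⟨f, 𝔪, hf, h𝔪, hp𝔪, h, hb⟩ := H11.exists_form hΔ hss hirr hN.ne' hmod
  refine Fermat.Agent.S41.result (WQ W) (isIntegralModelOf_WQ' W) hp.out hp2 hN hq hqN hqp hirr f 𝔪
    hf h𝔪 hp𝔪 (fun ℓ hℓ hgood hℓN hℓp => h ℓ hℓ hℓN hℓp hgood) ?_
  obtain ⟨a, ha, ha'⟩ := hb q hq hqN hqp hbad
  refine ⟨a, ha, ?_⟩
  have h1 : a ^ 2 - ((q : integralClosure ℤ ℂ) + 1) ^ 2 =
      (a + ((q : integralClosure ℤ ℂ) + 1)) * (a - ((q : integralClosure ℤ ℂ) + 1)) := by ring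
  rw [h1]
  rcases ha' with ha' | ha'
  · exact 𝔪.mul_mem_left _ ha'
  · exact 𝔪.mul_mem_right _ ha'

omit hp in
theorem isOpen_tFix (hΔ : W.Δ ≠ 0) {n : ℕ} (hn : n ≠ 0) :
    IsOpen ((tFix W n : Subgroup GQ) : Set GQ) := by
  have hell := isElliptic_WQ hΔ
  have hfin : Finite (coords (WQ W) n) := coords_finite hn
  haveI : FiniteDimensional ℚ (IntermediateField.adjoin ℚ (coords (WQ W) n)) := by
    apply IntermediateField.finiteDimensional_adjoin
    intro x _
    exact Algebra.IsIntegral.isIntegral x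
  refine Subgroup.isOpen_mono ?_
    (IntermediateField.fixingSubgroup_isOpen (IntermediateField.adjoin ℚ (coords (WQ W) n)))
  intro σ hσ
  rw [IntermediateField.mem_fixingSubgroup_iff] at hσ
  rw [mem_tFix]
  intro P hP
  have hP' : P ∈ Submodule.torsionBy ℤ (Pts (WQ W)) n := by
    rw [Submodule.mem_torsionBy_iff, natCast_zsmul]; exact hP
  have h1 := smul_eq_of_agree (σ := σ) (τ := 1)
    (hσ _ (IntermediateField.subset_adjoin ℚ _ ⟨⟨P, hP'⟩, Or.inl rfl⟩))
    (hσ _ (IntermediateField.subset_adjoin ℚ _ ⟨⟨P, hP'⟩, Or.inr rfl⟩))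
  rwa [one_smul] at h1

/-- **Infinitely many primes `q` with `p ∣ a_q` and `q ≡ -1 (mod p)`** -/
theorem exists_prime (hΔ : W.Δ ≠ 0) (hirr : W.ModRepIsIrreducible p) (T : Finset ℕ) :
    ∃ q : ℕ, q.Prime ∧ q ∉ T ∧ q ≠ p ∧ W.IsGoodPrimeFor q ∧ (p : ℤ) ∣ W.apOfModel q ∧
      (p : ℤ) ∣ (q : ℤ) + 1 := by
  classical
  haveI := isElliptic_WQ hΔ
  obtain ⟨q, A, φ, hq, hqT, hA, hφ, hU⟩ := Cheb.exists_frobenius_dense
    (isOpen_tFix (W := W) hΔ hp.out.ne_zero) complexConjugation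
    (insert p (T ∪ W.Δ.natAbs.primeFactors))
  have hqp : q ≠ p := fun h => hqT (h ▸ Finset.mem_insert_self _ _)
  have hqT' : q ∉ T := fun h => hqT (Finset.mem_insert_of_mem (Finset.mem_union_left _ h))
  have hgood : W.IsGoodPrimeFor q := fun h => hqT (Finset.mem_insert_of_mem
    (Finset.mem_union_right _ (Nat.mem_primeFactors.mpr
      ⟨hq, Int.natCast_dvd.mp h, Int.natAbs_ne_zero.mpr hΔ⟩)))
  set b := tateBasis (WQ W) p
  have h1 : MR b (PadicInt.toZMod (p := p)) (complexConjugation⁻¹ * φ) = 1 :=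
    (MR_toZMod_eq_one_iff b _).mpr hU
  have h2 : MR b (PadicInt.toZMod (p := p)) φ =
      MR b (PadicInt.toZMod (p := p)) complexConjugation := by
    calc MR b (PadicInt.toZMod (p := p)) φ = MR b (PadicInt.toZMod (p := p))
          (complexConjugation * (complexConjugation⁻¹ * φ)) := by rw [mul_inv_cancel_left]
      _ = _ := by rw [map_mul, h1, mul_one]
  have ht : LinearMap.trace ℤ_[p] (TT (WQ W) p) (rr (WQ W) p φ) = (W.apOfModel q : ℤ_[p]) :=
    zRep_trace_frob hΔ hirr hq hgood hqp hA hφ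
  have hd : LinearMap.det (rr (WQ W) p φ) = (q : ℤ_[p]) := zRep_det_frob hΔ hirr hq hqp hA hφ
  refine ⟨q, hq, hqT', hqp, hgood, ?_, ?_⟩
  · have h3 := congrArg Matrix.trace h2
    rw [trace_MR, trace_MR, H12.LL.trace_conj hΔ hirr, ht, _root_.map_zero, map_intCast] at h3
    exact (ZMod.intCast_zmod_eq_zero_iff_dvd _ p).mp h3
  · have h3 := congrArg Matrix.det h2
    rw [det_MR, det_MR, H12.LL.det_conj hΔ hirr, hd, map_natCast, map_neg, map_one] at h3
    refine (ZMod.intCast_zmod_eq_zero_iff_dvd _ p).mp ?_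
    push_cast
    rw [h3]
    ring

/-- **Level raising, infinitely many primes.** -/
theorem infinite_raise (hΔ : W.Δ ≠ 0) (hss : W.IsSemistableModel) (hirr : W.ModRepIsIrreducible p)
    (hp2 : p ≠ 2) :
    {q : ℕ | q.Prime ∧ ¬ q ∣ serreLevel W p ∧ ArisesNewAt W p (serreLevel W p * q) q}.Infinite := by
  intro hfin
  obtain ⟨q, hq, hqT, hqp, hgood, h1, h2⟩ := exists_prime hΔ hirr
    (hfin.toFinset ∪ (serreLevel W p).primeFactors)
  rw [Finset.mem_union, not_or] at hqT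
  apply hqT.1
  have hqN : ¬ q ∣ serreLevel W p := fun h =>
    hqT.2 (Nat.mem_primeFactors.mpr ⟨hq, h, serreLevel_ne_zero W p⟩)
  rw [Set.Finite.mem_toFinset]
  refine ⟨hq, hqN, raise hΔ hirr hp2 (Nat.pos_of_ne_zero (serreLevel_ne_zero W p))
    (ribet hΔ hss hirr hp2) hq hqN hqp hgood ?_⟩
  exact dvd_sub (dvd_pow h1 two_ne_zero) (dvd_pow h2 two_ne_zero)

/-- **Level raising from Serre's level**, all allowed primes: if `q ∤ p · serreLevel W p` is a
prime and either `W` has bad reduction at `q` or `a_q(W) ≡ ± (q + 1) (mod p)`, then `W[p]` arises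
from an eigenform of level `serreLevel W p * q` which is new at `q`. -/
theorem raise_serreLevel (hΔ : W.Δ ≠ 0) (hss : W.IsSemistableModel)
    (hirr : W.ModRepIsIrreducible p) (hp2 : p ≠ 2) {q : ℕ} (hq : q.Prime) (hqp : q ≠ p)
    (hqN : ¬ q ∣ serreLevel W p)
    (h : (q : ℤ) ∣ W.Δ ∨ (p : ℤ) ∣ W.apOfModel q - ((q : ℤ) + 1) ∨
      (p : ℤ) ∣ W.apOfModel q + ((q : ℤ) + 1)) :
    ArisesNewAt W p (serreLevel W p * q) q := by
  have hN := Nat.pos_of_ne_zero (serreLevel_ne_zero W p)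
  by_cases hbad : (q : ℤ) ∣ W.Δ
  · exact raise_of_bad hΔ hss hirr hp2 hN (ribet hΔ hss hirr hp2) hq hqN hqp hbad
  · refine raise hΔ hirr hp2 hN (ribet hΔ hss hirr hp2) hq hqN hqp hbad ?_
    have h1 : W.apOfModel q ^ 2 - ((q : ℤ) + 1) ^ 2 =
        (W.apOfModel q - ((q : ℤ) + 1)) * (W.apOfModel q + ((q : ℤ) + 1)) := by ring
    rw [h1]
    rcases h with h | h | h
    · exact absurd h hbad
    · exact h.mul_right _
    · exact h.mul_left _

end Fermat.Agent.Cor.H07
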