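import Fermat.Agent.Cor.H07All

/-!
# Perfect powers among repunits, Jacobsthal numbers and `2 ^ n ± 1`

Let `e` have a prime factor `p ≥ 5`.

* `two_pow_ne` : `2 ^ n ± 1 ≠ L ^ b y ^ p` for `n ≥ 4`, `L = 3, 5`;
* `jacobsthal_ne` : the Jacobsthal number `J_n = (2 ^ n - (-1) ^ n) / 3` is not an `e`-th power for
  `n ≥ 3`;
* `repunit_four_ne` : the repunits `1 + 4 + ⋯ + 4 ^ (n - 1)`, `n ≥ 2`, in base `4` are not `e`-th powers;
* `repunit_ne` : the even repunits in base `3`, `5` and `9` are not `e`-th powers (special cases of the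
  equation of Nagell and Ljunggren).

This file is not used by any of the statement files.
-/

set_option autoImplicit false

noncomputable section

namespace Fermat.Agent.Cor.H07

variable {p : ℕ}

/-- **`2 ^ n ± 1 ≠ L ^ b y ^ p`** -/
theorem two_pow_ne (pp : p.Prime) (hp5 : 5 ≤ p) {L : ℕ} (hL : L = 3 ∨ L = 5) {n : ℕ} (hn : 4 ≤ n)
    (b : ℕ) (y : ℤ) {u : ℤ} (hu : u = 1 ∨ u = -1) : 2 ^ n - u ≠ (L : ℤ) ^ b * y ^ p := by
  intro h
  by_cases hy : y = 0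
  · rw [hy, zero_pow pp.ne_zero, mul_zero] at h
    have h1 : (2 : ℤ) ^ 4 ≤ 2 ^ n := pow_le_pow_right₀ (by norm_num) hn
    rcases hu with rfl | rfl <;> linarith
  · refine pillai_all pp hp5 hL (a := n) (b := b) hn one_ne_zero hy hu ?_
    rw [one_pow]
    linarith

/-- the Jacobsthal numbers `0, 1, 1, 3, 5, 11, 21, 43, …` -/
def jacobsthal : ℕ → ℕ
  | 0 => 0
  | 1 => 1
  | n + 2 => jacobsthal (n + 1) + 2 * jacobsthal n

theorem three_mul_jacobsthal (n : ℕ) : (3 * jacobsthal n : ℤ) = 2 ^ n - (-1) ^ n ∧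
    (3 * jacobsthal (n + 1) : ℤ) = 2 ^ (n + 1) - (-1) ^ (n + 1) := by
  induction n with
  | zero => simp [jacobsthal]
  | succ n ih =>
    refine ⟨ih.2, ?_⟩
    have h : jacobsthal (n + 1 + 1) = jacobsthal (n + 1) + 2 * jacobsthal n := rfl
    rw [h]
    push_cast
    have h1 := ih.1
    have h2 := ih.2
    linear_combination h2 + 2 * h1

/-- **The Jacobsthal numbers `J_n`, `n ≥ 3`, are not `e`-th powers.** -/
theorem jacobsthal_ne (pp : p.Prime) (hp5 : 5 ≤ p) {e : ℕ} (hpe : p ∣ e) (he : e ≠ 0) {n : ℕ}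
    (hn : 3 ≤ n) (y : ℕ) : jacobsthal n ≠ y ^ e := by
  intro h
  obtain ⟨c, rfl⟩ := hpe
  rcases Nat.lt_or_ge n 4 with h4 | h4
  · have hn3 : n = 3 := by omega
    subst hn3
    have h3 : jacobsthal 3 = 3 := rfl
    rw [h3] at h
    have hc : c ≠ 0 := fun h0 => he (by rw [h0, mul_zero])
    have h5 : 2 ≤ p * c := by nlinarith [Nat.pos_of_ne_zero hc]
    rcases Nat.lt_or_ge y 2 with hy | hy
    · interval_cases y
      · rw [zero_pow he] at h; omega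
      · rw [one_pow] at h; omega
    · have h6 : 2 ^ 2 ≤ y ^ (p * c) :=
        (Nat.pow_le_pow_left hy 2).trans (Nat.pow_le_pow_right (by omega) h5)
      omega
  · have h1 := (three_mul_jacobsthal n).1
    rw [h] at h1
    refine two_pow_ne pp hp5 (L := 3) (Or.inl rfl) h4 1 ((y : ℤ) ^ c) (u := (-1) ^ n) ?_ ?_
    · rcases Nat.even_or_odd n with h2 | h2
      · left; exact h2.neg_one_pow
      · right; exact h2.neg_one_pow
    · rw [← h1]
      push_cast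
      ring

/-- **The repunits in base `4`** are not `e`-th powers. -/
theorem repunit_four_ne (pp : p.Prime) (hp5 : 5 ≤ p) {e : ℕ} (hpe : p ∣ e) {n : ℕ}
    (hn : 2 ≤ n) (y : ℕ) : ∑ i ∈ Finset.range n, 4 ^ i ≠ y ^ e := by
  intro h
  obtain ⟨c, rfl⟩ := hpe
  have h1 := geom_sum_mul (4 : ℤ) n
  have h2 : (∑ i ∈ Finset.range n, (4 : ℤ) ^ i) = (y : ℤ) ^ (p * c) := by exact_mod_cast h
  rw [h2] at h1
  refine two_pow_ne pp hp5 (L := 3) (Or.inl rfl) (n := 2 * n) (by omega) 1 ((y : ℤ) ^ c) (u := 1)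
    (Or.inl rfl) ?_
  rw [pow_mul (2 : ℤ) 2 n]
  have h3 : ((2 : ℤ) ^ 2) ^ n = 4 ^ n := by norm_num
  rw [h3, ← h1]
  push_cast
  ring

/-- **The even repunits in base `3`, `5`, `9`** are not `e`-th powers. -/
theorem repunit_ne (pp : p.Prime) (hp5 : 5 ≤ p) {e : ℕ} (hpe : p ∣ e) {x n : ℕ}
    (hx : x = 3 ∨ x = 5 ∨ x = 9) (hn : n ≠ 0) (heven : Even (∑ i ∈ Finset.range n, x ^ i))
    (y : ℕ) : ∑ i ∈ Finset.range n, x ^ i ≠ y ^ e := by
  intro h
  obtain ⟨c, rfl⟩ := hpe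
  rw [h, mul_comm, pow_mul] at heven
  have hy : 2 ∣ y ^ c := even_of_even_pow (even_iff_two_dvd.mp heven)
  have h32 : (32 : ℤ) ∣ ((y : ℤ) ^ c) ^ p := by exact_mod_cast sixteen_dvd_pow hp5 hy
  have h1 := geom_sum_mul (x : ℤ) n
  have h2 : (∑ i ∈ Finset.range n, (x : ℤ) ^ i) = ((y : ℤ) ^ c) ^ p := by
    rw [← pow_mul, mul_comm c p]; exact_mod_cast h
  rw [h2] at h1
  obtain ⟨L, k, i, hL, hxL, hxi⟩ : ∃ L k i : ℕ, (L = 3 ∨ L = 5) ∧ (x : ℤ) = (L : ℤ) ^ k ∧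
      (x : ℤ) - 1 = 2 ^ i := by
    rcases hx with rfl | rfl | rfl
    · exact ⟨3, 1, 1, Or.inl rfl, by norm_num, by norm_num⟩
    · exact ⟨5, 1, 2, Or.inr rfl, by norm_num, by norm_num⟩
    · exact ⟨3, 2, 3, Or.inl rfl, by norm_num, by norm_num⟩
  have hx1 : (1 : ℤ) < (x : ℤ) := by rcases hx with rfl | rfl | rfl <;> norm_num
  have hpos : (1 : ℤ) < (x : ℤ) ^ n := one_lt_pow₀ hx1 hn
  refine two_consecutive_all pp hp5 hL (a := (x : ℤ) ^ n - 1) ?_ ?_ i (k * n) ((y : ℤ) ^ c) ?_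
  · rw [sub_add_cancel]
    exact mul_ne_zero (by omega) (by omega)
  · rw [← h1]
    exact ((((by norm_num : (16 : ℤ) ∣ 32).trans h32).mul_right _).mul_right _)
  · rw [sub_add_cancel, ← h1, hxi, pow_mul, ← hxL]
    ring

end Fermat.Agent.Cor.H07
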