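import Fermat.Agent.Cor.H07Irr
import Fermat.Agent.Cor.Mazur

/-!
# All semistable elliptic curves: Serre's level and perfect power discriminants

With Mazur's theorem for semistable curves (`Cor.Mazur.modRep_irreducible`): for every semistable
elliptic curve `W` over `ℚ` and every prime `p ≥ 11`, `p ≠ 13`, the representation `W[p]` is
irreducible, surjective, arises at Serre's level, and this level is at least `11` and different from
`13`.  In particular, if the discriminant of a semistable elliptic curve is `± m ^ p` with `p` prime,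
then `p ∈ {2, 3, 5, 7, 13}`.
-/

set_option autoImplicit false

noncomputable section

namespace Fermat.Agent.Cor.H07

open WeierstrassCurve

variable {W : WeierstrassCurve ℤ} {p : ℕ}

/-- **Uniform surjectivity**: for every semistable elliptic curve over `ℚ` and every prime
`p ≥ 11`, `p ≠ 13`, the map `Gal(ℚ̄/ℚ) → Aut(W[p]) ≅ GL₂(𝔽_p)` is surjective. -/
theorem galSurj (hΔ0 : W.Δ ≠ 0) (hss : W.IsSemistableModel) (pp : p.Prime) (hp11 : 11 ≤ p)
    (hp13 : p ≠ 13) : GalSurj W p :=
  Surj.galois_surjective W hΔ0 hss pp (by omega) (Mazur.modRep_irreducible hΔ0 hss pp hp11 hp13)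

/-- **Modularity at Serre's level** for all semistable curves, `p ≥ 11`, `p ≠ 13`. -/
theorem ribet_uniform (hΔ0 : W.Δ ≠ 0) (hss : W.IsSemistableModel) (pp : p.Prime) (hp11 : 11 ≤ p)
    (hp13 : p ≠ 13) : W.IsResiduallyModularOfLevel p (serreLevel W p) := by
  have : Fact p.Prime := ⟨pp⟩
  exact ribet hΔ0 hss (Mazur.modRep_irreducible hΔ0 hss pp hp11 hp13) (by omega)

/-- **The exponents of the discriminant**: for every semistable elliptic curve over `ℚ` and every
prime `p ≥ 11`, `p ≠ 13`, the product of the primes `q` with `p ∤ v_q(Δ)` is at least `11` and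
different from `13`. -/
theorem eleven_le_uniform (hΔ0 : W.Δ ≠ 0) (hss : W.IsSemistableModel) (pp : p.Prime)
    (hp11 : 11 ≤ p) (hp13 : p ≠ 13) : 11 ≤ serreLevel W p ∧ serreLevel W p ≠ 13 := by
  have : Fact p.Prime := ⟨pp⟩
  exact eleven_le hΔ0 hss (Mazur.modRep_irreducible hΔ0 hss pp hp11 hp13) (by omega)

/-- the primes below `14` -/
theorem mem_of_lt (pp : p.Prime) (h : p < 14) : p ∈ ({2, 3, 5, 7, 11, 13} : Finset ℕ) := by
  interval_cases p <;> revert pp <;> decide

/-- **Perfect power discriminants** (after Serre, Mestre–Oesterlé): if a prime `p` divides all the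
valuations of the discriminant of a semistable elliptic curve over `ℚ`, then
`p ∈ {2, 3, 5, 7, 13}`. -/
theorem mem_of_forall_dvd (hΔ0 : W.Δ ≠ 0) (hss : W.IsSemistableModel) (pp : p.Prime)
    (h : ∀ q : ℕ, q.Prime → p ∣ padicValInt q W.Δ) : p ∈ ({2, 3, 5, 7, 13} : Finset ℕ) := by
  have : Fact p.Prime := ⟨pp⟩
  have key : ¬ (11 ≤ p ∧ p ≠ 13) := by
    rintro ⟨h11, h13⟩
    exact reducible hΔ0 hss (by omega) h (Mazur.modRep_irreducible hΔ0 hss pp h11 h13)
  have h1 := mem_of_lt pp (by omega)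
  simp only [Finset.mem_insert, Finset.mem_singleton] at h1 ⊢
  omega

/-- if the discriminant of a semistable elliptic curve over `ℚ` is, up to sign, a `p`-th power with
`p` prime, then `p ∈ {2, 3, 5, 7, 13}` -/
theorem mem_of_natAbs_eq_pow (hΔ0 : W.Δ ≠ 0) (hss : W.IsSemistableModel) (pp : p.Prime) {m : ℕ}
    (h : W.Δ.natAbs = m ^ p) : p ∈ ({2, 3, 5, 7, 13} : Finset ℕ) := by
  refine mem_of_forall_dvd hΔ0 hss pp fun q hq => ?_
  have : Fact q.Prime := ⟨hq⟩
  rw [padicValInt, h, padicValNat.pow]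
  exact dvd_mul_right _ _

/-- **The Diophantine form**: let `x, y, z` be integers with `x ^ 3 - y ^ 2 = 1728 z ^ p` such that
`x, y` are the invariants `c₄, c₆` of an integral Weierstrass equation, `z ≠ 0`, and `x` is prime to
`z`.  Then `p ∈ {2, 3, 5, 7, 13}`. -/
theorem mem_of_c_relation (pp : p.Prime) {z : ℤ} (hz : z ≠ 0) (hcop : IsCoprime W.c₄ z)
    (h : W.c₄ ^ 3 - W.c₆ ^ 2 = 1728 * z ^ p) : p ∈ ({2, 3, 5, 7, 13} : Finset ℕ) := by
  have hΔ : W.Δ = z ^ p := by
    have h1 := W.c_relation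
    have h2 : (1728 : ℤ) * W.Δ = 1728 * z ^ p := by rw [h1, h]
    exact mul_left_cancel₀ (by norm_num) h2
  have hΔ0 : W.Δ ≠ 0 := by rw [hΔ]; exact pow_ne_zero p hz
  have hss : W.IsSemistableModel := by
    intro q hq hqΔ hqc
    have hqp : Prime (q : ℤ) := Nat.prime_iff_prime_int.mp hq
    rw [hΔ] at hqΔ
    have h3 := hcop.isUnit_of_dvd' hqc (hqp.dvd_of_dvd_pow hqΔ)
    exact hqp.not_isUnit h3
  exact mem_of_natAbs_eq_pow hΔ0 hss pp (m := z.natAbs) (by rw [hΔ, Int.natAbs_pow])

end Fermat.Agent.Cor.H07
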