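import Fermat.Agent.Cor.UnrNode
import Fermat.Agent.H16.Ram2

/-!
# Ramification of the `p`-torsion at a multiplicative prime `q ≠ p`

For a Weierstrass equation `W` over `ℤ`, a prime `q` of multiplicative reduction (`q ∣ Δ`, `q ∤ c₄`; `q = 2` is
allowed) and an odd prime `p ≠ q`, the Galois module `W[p]` is unramified at `q` if and only if `p ∣ v_q(Δ)`
(`unrAt_iff_dvd`).  Proved without the Tate curve.  Not used by any of the statement files.
-/

set_option autoImplicit false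

noncomputable section

namespace Fermat.Agent.Cor.Unr

open WeierstrassCurve WeierstrassCurve.Affine WeierstrassCurve.Affine.Point
open Fermat.Agent.H08 Fermat.Agent.H09 Fermat.Agent.Ell Fermat.Agent.H16.Ram
open Fermat.Agent.CC (Qb GQ)

variable {W : WeierstrassCurve ℤ} {p q : ℕ}

/-- the exponent `k` of a point of order `p` reducing to the node is prime to `p` -/
theorem exists_k_place (hΔ : W.Δ ≠ 0) (hp : p.Prime) (hp2 : p ≠ 2) (hq : q.Prime)
    {A : ValuationSubring Qb} (hA : A.LiesOverPrime q) {r t α β : Qb}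
    (h : NodeData A.valuation ((WQ W)⁄Qb) r t α β) {P : Pts (WQ W)} (hpP : p • P = 0)
    (hP : ¬ NodeE0 A.valuation r t P) :
    ∃ k : ℤ, ¬ (p : ℤ) ∣ k ∧ A.valuation (px P - r) ^ p =
      A.valuation (q : Qb) ^ (k * (padicValInt q W.Δ : ℤ)) := by
  have := H51.isGalois_Qbar
  have hP0 : P ≠ 0 := by rintro rfl; exact hP NodeE0.zero
  obtain ⟨w, hw⟩ := exists_isLogVal (L := Qb) hq hA
  have nd : Nd A.valuation (shiftCurve ((WQ W)⁄Qb) r t) α β := ⟨h.int_shift, h.slopes, h.a₆⟩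
  set P' := shiftPt ((WQ W)⁄Qb) r t P with hP'
  have hpP' : p • P' = 0 := by
    have h1 := map_nsmul (shiftHom ((WQ W)⁄Qb) r t) p P
    rw [hpP, _root_.map_zero] at h1
    exact h1.symm
  have hPn : ¬ InE0 A.valuation P' := hP
  obtain ⟨k, hk⟩ := nd.exists_k hw hp hp2 hPn hpP'
  have hnr : Nr A.valuation P' := by
    have := nd.nr_nsmul hp hp2 hPn hpP' (m := 1) (fun hd => hp.one_lt.ne' (Nat.dvd_one.mp hd))
    rwa [one_smul] at this
  obtain ⟨l1, l2⟩ := nd.log_px hw hnr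
  have hx0 := nd.px_ne_zero hnr
  have epx : px P' = px P - r := px_shiftPt hP0
  rw [epx] at hk l1 l2 hx0
  have ha6 : (shiftCurve ((WQ W)⁄Qb) r t).a₆ ≠ 0 := h.slopes.a₆
  have va6 : A.valuation (shiftCurve ((WQ W)⁄Qb) r t).a₆ =
      A.valuation (q : Qb) ^ padicValInt q W.Δ := by
    rw [N4.val_a₆_eq_val_Δ h, ← map_WQ, map_Δ]
    exact N4.val_intCast_eq_padicValInt hq hA hΔ
  have hpR : (0 : ℝ) < p := by exact_mod_cast hp.pos
  have hk0 : 0 < k := by
    by_contra hc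
    push Not at hc
    have h1 : (k : ℝ) ≤ 0 := by exact_mod_cast hc
    have h2 : (k : ℝ) * w (shiftCurve ((WQ W)⁄Qb) r t).a₆ ≤ 0 :=
      mul_nonpos_of_nonpos_of_nonneg h1 (by linarith)
    have h3 : 0 < (p : ℝ) * w (px P - r) := mul_pos hpR l1
    linarith
  have hkp : k < p := by
    by_contra hc
    push Not at hc
    have h1 : (p : ℝ) ≤ k := by exact_mod_cast hc
    have h2 : (p : ℝ) * w (shiftCurve ((WQ W)⁄Qb) r t).a₆ ≤
        k * w (shiftCurve ((WQ W)⁄Qb) r t).a₆ :=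
      mul_le_mul_of_nonneg_right h1 (by linarith)
    have h3 : (p : ℝ) * (2 * w (px P - r)) < p * w (shiftCurve ((WQ W)⁄Qb) r t).a₆ :=
      mul_lt_mul_of_pos_left l2 hpR
    nlinarith [mul_pos hpR l1]
  refine ⟨k, fun hd => ?_, ?_⟩
  · have := Int.le_of_dvd hk0 hd
    omega
  · have h1 : A.valuation ((px P - r) ^ p) =
        A.valuation ((shiftCurve ((WQ W)⁄Qb) r t).a₆ ^ k) := by
      rw [hw.eq_iff (pow_ne_zero p hx0) (zpow_ne_zero k ha6), hw.pow hx0, hw.zpow ha6]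
      exact hk
    rw [map_pow, map_zpow₀, va6] at h1
    rw [h1, ← zpow_natCast, ← zpow_mul, mul_comm k]

/-- **Unramified** if `p ∣ v_q(Δ)`. -/
theorem unrAt_of_dvd (hΔ : W.Δ ≠ 0) (hp : p.Prime) (hp2 : p ≠ 2) (hq : q.Prime) (hqp : q ≠ p)
    (hqΔ : (q : ℤ) ∣ W.Δ) (hc₄ : ¬ (q : ℤ) ∣ W.c₄) (hv : p ∣ padicValInt q W.Δ) :
    H12.LL.UnrAt W p q := by
  have := H51.isGalois_Qbar
  intro A hA σ hσ P hpP
  have hint : IsIntegralFor A.valuation ((WQ W)⁄Qb) := isIntegralFor_of_int (map_WQ W)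
  have h0 : ((WQ W)⁄Qb).Δ ≠ 0 := by
    rw [← map_WQ, WeierstrassCurve.map_Δ]; simpa using hΔ
  have h1 : A.valuation ((WQ W)⁄Qb).Δ < 1 := by
    rw [← map_WQ, WeierstrassCurve.map_Δ]; exact H09.val_intCast_lt_one hA hqΔ
  have h2 : A.valuation ((WQ W)⁄Qb).c₄ = 1 := by
    rw [← map_WQ, WeierstrassCurve.map_c₄]; exact H09.val_intCast_eq_one hq hA hc₄
  have hvp : A.valuation (p : Qb) = 1 := by
    have := H09.val_intCast_eq_one (c := (p : ℤ)) hq hA (by
      intro h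
      have h' : q ∣ p := by exact_mod_cast h
      exact hqp ((Nat.prime_dvd_prime_iff_eq hq hp).mp h'))
    exact_mod_cast this
  obtain ⟨r, t, α, β, h⟩ := exists_nodeData hint h0 h1 h2
  have hpσ : p • (σ • P) = 0 := by
    have e : p • (σ • P) = σ • (p • P) := by
      rw [← natCast_zsmul, ← natCast_zsmul, algEquiv_smul_zsmul]
    rw [e, hpP, smul_zero_pt]
  have hpT : p • (σ • P - P) = 0 := by
    rw [nsmul_sub, hpσ, hpP, sub_zero]
  by_cases hE : NodeE0 A.valuation r t P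
  · exact sub_eq_zero.mp ((inE1_smul_sub_of_nodeE0 hσ h hE).eq_zero_of_torsion h.int hpT hvp)
  have hP0 : P ≠ 0 := by rintro rfl; exact hE NodeE0.zero
  have hσP0 := H09.smul_ne_zero' σ hP0
  obtain ⟨hr, ht, hα, hβ⟩ := node_fixed hσ h
  have hσA := smul_eq_of_inertia hσ
  have nd : Nd A.valuation (shiftCurve ((WQ W)⁄Qb) r t) α β := ⟨h.int_shift, h.slopes, h.a₆⟩
  -- the valuation of `x` is an integral power of `v(q)`
  obtain ⟨k, -, hk⟩ := exists_k_place hΔ hp hp2 hq hA h hpP hE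
  obtain ⟨n, hn⟩ := hv
  have hqpos := val_q_pos (A := A) hq
  have hvx : A.valuation (px P - r) = A.valuation (q : Qb) ^ (k * (n : ℤ)) := by
    apply H09.pow_inj hp.ne_zero
    rw [hk, hn, ← zpow_natCast, ← zpow_mul]
    congr 1
    push_cast
    ring
  set P' := shiftPt ((WQ W)⁄Qb) r t P with hP'
  set Q' := shiftPt ((WQ W)⁄Qb) r t (σ • P) with hQ'
  have hnsm : ∀ R : Pts (WQ W), p • R = 0 → p • shiftPt ((WQ W)⁄Qb) r t R = 0 := by
    intro R hR
    have h1 := map_nsmul (shiftHom ((WQ W)⁄Qb) r t) p R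
    rw [hR, _root_.map_zero] at h1
    exact h1.symm
  have hpP' : p • P' = 0 := hnsm P hpP
  have hPn : ¬ InE0 A.valuation P' := hE
  have hnr : Nr A.valuation P' := by
    have := nd.nr_nsmul hp hp2 hPn hpP' (m := 1) (fun hd => hp.one_lt.ne' (Nat.dvd_one.mp hd))
    rwa [one_smul] at this
  have hs0' : Q' ≠ 0 := fun h' => hσP0 (shiftPt_eq_zero.mp h')
  have ex : px P' = px P - r := px_shiftPt hP0
  have ey : py P' = py P - t := py_shiftPt hP0
  have ex' : px Q' = σ (px P - r) := by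
    rw [px_shiftPt hσP0, H09.px_smul, map_sub, hr]
  have ey' : py Q' = σ (py P - t) := by
    rw [py_shiftPt hσP0, H09.py_smul, map_sub, ht]
  have hu : A.valuation (py Q' - α * px Q') = A.valuation (py P' - α * px P') := by
    rw [ex', ey', ex, ey]
    have : σ (py P - t) - α * σ (px P - r) = σ ((py P - t) - α * (px P - r)) := by
      rw [map_sub σ (py P - t), map_mul, hα]
    rw [this, val_apply_eq hσA]
  have hw' : A.valuation (py Q' - β * px Q') = A.valuation (py P' - β * px P') := by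
    rw [ex', ey', ex, ey]
    have : σ (py P - t) - β * σ (px P - r) = σ ((py P - t) - β * (px P - r)) := by
      rw [map_sub σ (py P - t), map_mul, hβ]
    rw [this, val_apply_eq hσA]
  -- `σ x ≡ x`
  have hclose : A.valuation (px Q' - px P') < A.valuation (px P') := by
    rw [ex', ex]
    obtain ⟨x, hx⟩ : ∃ x : Qb, x = px P - r := ⟨_, rfl⟩
    rw [← hx] at hvx ⊢
    have hc0 : (q : Qb) ^ (k * (n : ℤ)) ≠ 0 := by
      apply zpow_ne_zero
      exact_mod_cast hq.ne_zero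
    set c : Qb := (q : Qb) ^ (k * (n : ℤ)) with hc
    have hvc : A.valuation c = A.valuation x := by rw [hvx, hc, map_zpow₀]
    have hσc : σ c = c := by rw [hc, map_zpow₀, map_natCast]
    have hcpos : 0 < A.valuation c := zero_lt_iff.mpr ((Valuation.ne_zero_iff _).mpr hc0)
    have h5 : A.valuation (x / c) ≤ 1 := by
      rw [map_div₀, hvc, div_self]
      rw [← hvc]; exact hcpos.ne'
    have h6 := val_sub_lt_one_of_inertia hσ h5
    have h7 : σ (x / c) - x / c = (σ x - x) / c := by rw [map_div₀, hσc, sub_div]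
    rw [h7, map_div₀, div_lt_one₀ hcpos, hvc] at h6
    exact h6
  rcases nd.inE1_of_close hnr hs0' hu hw' hclose with h5 | h5
  · -- the difference is a point of order `p` of `E₁`
    have h6 : p • (Q' - P') = 0 := by
      rw [nsmul_sub, hpP', sub_zero]
      exact hnsm (σ • P) hpσ
    have h7 := h5.eq_zero_of_torsion nd.int h6 hvp
    have h8 : shiftHom ((WQ W)⁄Qb) r t (σ • P) = shiftHom ((WQ W)⁄Qb) r t P :=
      sub_eq_zero.mp h7
    exact N4.shiftHom_injective h8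
  · -- `σ P = - P` is impossible
    exfalso
    have h6 : InE0 A.valuation (Q' - P') := by
      have := nodeE0_smul_sub hσ h P
      unfold NodeE0 at this
      rw [sub_eq_add_neg, shiftPt_add, N4.shiftPt_neg, ← sub_eq_add_neg] at this
      exact this
    rw [h5] at h6
    have h7 : -P' - P' = -(P' + P') := by abel
    rw [h7] at h6
    have h8 := h6.neg
    rw [_root_.neg_neg] at h8
    exact hnr.two h8

/-- **Ramified** if `p ∤ v_q(Δ)`. -/
theorem dvd_of_unrAt (hΔ : W.Δ ≠ 0) (hp : p.Prime) (hp2 : p ≠ 2) (hq : q.Prime)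
    (hqΔ : (q : ℤ) ∣ W.Δ) (hc₄ : ¬ (q : ℤ) ∣ W.c₄) (hun : H12.LL.UnrAt W p q) :
    p ∣ padicValInt q W.Δ := by
  have := H51.isGalois_Qbar
  obtain ⟨A, hA⟩ := H05.exists_liesOverPrime Qb hq
  obtain ⟨r, t, α, β, h, P, hP, hpP, hlt⟩ := exists_data hΔ hq hqΔ hc₄ hA hp
  have hE : ¬ NodeE0 A.valuation r t P := by
    rw [nodeE0_iff hP, not_le]; exact hlt
  obtain ⟨k, hkp, hk⟩ := exists_k_place hΔ hp hp2 hq hA h hpP hE
  have hqpos := val_q_pos (A := A) hq
  have hx0 : px P - r ≠ 0 := by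
    intro h0
    rw [h0, _root_.map_zero, zero_pow hp.ne_zero] at hk
    exact zpow_ne_zero _ hqpos.ne' hk.symm
  have hfix : ∀ σ ∈ A.inertiaSubgroupIn ℚ, σ (px P - r) = px P - r := by
    intro σ hσ
    have h4 := hun A hA σ hσ P hpP
    have h5 : σ (px P) = px P := by rw [← H09.px_smul, h4]
    obtain ⟨h6, -⟩ := node_fixed hσ h
    rw [map_sub, h5, h6]
  obtain ⟨n, hn⟩ := H12.exists_valuation_eq_zpow hq hA (px P - r) hx0 hfix
  rw [hn, ← zpow_natCast, ← zpow_mul] at hk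
  have h7 := zpow_inj' hq hA hk
  have h8 : (p : ℤ) ∣ k * (padicValInt q W.Δ : ℤ) := ⟨n, by rw [← h7]; ring⟩
  rcases (Nat.prime_iff_prime_int.mp hp).dvd_or_dvd h8 with h9 | h9
  · exact absurd h9 hkp
  · exact_mod_cast h9

/-- **`W[p]` is unramified at a multiplicative prime `q ≠ p` iff `p ∣ v_q(Δ)`** (`p` odd). -/
theorem unrAt_iff_dvd (hΔ : W.Δ ≠ 0) (hp : p.Prime) (hp2 : p ≠ 2) (hq : q.Prime) (hqp : q ≠ p)
    (hqΔ : (q : ℤ) ∣ W.Δ) (hc₄ : ¬ (q : ℤ) ∣ W.c₄) :
    H12.LL.UnrAt W p q ↔ p ∣ padicValInt q W.Δ :=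
  ⟨dvd_of_unrAt hΔ hp hp2 hq hqΔ hc₄, unrAt_of_dvd hΔ hp hp2 hq hqp hqΔ hc₄⟩

end Fermat.Agent.Cor.Unr
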