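import Fermat.Agent.Cor.H07Level
import Fermat.Agent.Cor.Unr

/-!
# Ribet's theorem for semistable elliptic curves, in Serre's form

Let `W` be a semistable integral Weierstrass model with `Δ ≠ 0` and `p` an odd prime.

* `unramified_iff`: for a prime `q ≠ p`, `W[p]` is unramified at `q` if and only if `p ∣ v_q(Δ)`;
* `ribet`: if `W[p]` is irreducible, it arises from a cusp form of weight two and level
  `serreLevel W p`, the product of the primes `q` with `p ∤ v_q(Δ)`;
* `serreLevel_dvd`: away from `p` this level is optimal;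
* `eleven_le`: Serre's level is at least `11` and different from `13`;
* `reducible`: if the discriminant is (up to sign) a `p`-th power, then `W[p]` is reducible.
-/

set_option autoImplicit false

noncomputable section

namespace Fermat.Agent.Cor.H07

open Fermat.Agent.H12.LL
open WeierstrassCurve

variable {W : WeierstrassCurve ℤ} {p : ℕ} [hp : Fact p.Prime]

theorem unrHyp (hΔ : W.Δ ≠ 0) (hss : W.IsSemistableModel) (hp2 : p ≠ 2) : UnrHyp W p :=
  fun q hq hqp hqΔ hv => Unr.unrAt_of_dvd hΔ hp.out hp2 hq hqp hqΔ (hss q hq hqΔ) hv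

/-- **Ramification of `W[p]`**: for a prime `q ≠ p`, `W[p]` is unramified at `q` if and only if
`p ∣ v_q(Δ)`. -/
theorem unramified_iff (hΔ : W.Δ ≠ 0) (hss : W.IsSemistableModel) (hp2 : p ≠ 2)
    {q : ℕ} (hq : q.Prime) (hqp : q ≠ p) : UnrAt W p q ↔ p ∣ padicValInt q W.Δ :=
  unrAt_iff hΔ hss hp2 (unrHyp hΔ hss hp2) hq hqp

/-- **Ribet's theorem for semistable elliptic curves** (Serre's conjecture for `W[p]`): the
representation `W[p]` arises from a cusp form of weight two and level the product of the primes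
`q` with `p ∤ v_q(Δ)`. -/
theorem ribet (hΔ : W.Δ ≠ 0) (hss : W.IsSemistableModel) (hirr : W.ModRepIsIrreducible p)
    (hp2 : p ≠ 2) : W.IsResiduallyModularOfLevel p (serreLevel W p) :=
  rm_serreLevel hΔ hss hirr hp2 (unrHyp hΔ hss hp2)

/-- **Optimality of Serre's level** away from `p`: if `W[p]` arises at level `N`, then
`serreLevel W p` divides `p N`. -/
theorem serreLevel_dvd (hΔ : W.Δ ≠ 0) (hss : W.IsSemistableModel)
    (hirr : W.ModRepIsIrreducible p) (hp2 : p ≠ 2) {N : ℕ} (hN : N ≠ 0)
    (hmod : W.IsResiduallyModularOfLevel p N) : serreLevel W p ∣ p * N := by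
  rw [← Nat.prod_primeFactors_of_squarefree (squarefree_serreLevel W p)]
  refine Finset.prod_primes_dvd _ (fun ℓ hℓ => (Nat.prime_of_mem_primeFactors hℓ).prime)
    fun ℓ hℓ => ?_
  have hℓp := Nat.prime_of_mem_primeFactors hℓ
  by_cases h : ℓ = p
  · subst h
    exact dvd_mul_right _ _
  · exact (dvd_of_rm hΔ hss hirr hp2 hN hmod hℓp h
      ((dvd_serreLevel_iff hΔ hℓp).mp (Nat.dvd_of_mem_primeFactors hℓ))).mul_left _

/-- **Serre's level is at least `11` and different from `13`.** -/
theorem eleven_le (hΔ : W.Δ ≠ 0) (hss : W.IsSemistableModel)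
    (hirr : W.ModRepIsIrreducible p) (hp2 : p ≠ 2) :
    11 ≤ serreLevel W p ∧ serreLevel W p ≠ 13 :=
  eleven_le_serreLevel hΔ hss hirr hp2 (unrHyp hΔ hss hp2)

/-- **Reducibility**: if Serre's level is at most `10` or equal to `13`, then `W[p]` is
reducible. -/
theorem reducible_of_serreLevel (hΔ : W.Δ ≠ 0) (hss : W.IsSemistableModel) (hp2 : p ≠ 2)
    (h : serreLevel W p ≤ 10 ∨ serreLevel W p = 13) : ¬ W.ModRepIsIrreducible p := by
  intro hirr
  have := eleven_le hΔ hss hirr hp2
  omega

/-- **Discriminants all of whose valuations are divisible by `p`** (Serre, Mestre–Oesterlé). -/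
theorem reducible (hΔ : W.Δ ≠ 0) (hss : W.IsSemistableModel) (hp2 : p ≠ 2)
    (h : ∀ q : ℕ, q.Prime → p ∣ padicValInt q W.Δ) : ¬ W.ModRepIsIrreducible p :=
  reducible_of_forall_dvd hΔ hss hp2 (unrHyp hΔ hss hp2) h

/-- the discriminant of a semistable curve with `W[p]` irreducible is not a `p`-th power -/
theorem disc_not_pow (hΔ : W.Δ ≠ 0) (hss : W.IsSemistableModel)
    (hirr : W.ModRepIsIrreducible p) (hp2 : p ≠ 2) (m : ℤ) : W.Δ ≠ m ^ p :=
  disc_ne_pow hΔ hss hirr hp2 (unrHyp hΔ hss hp2) m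

end Fermat.Agent.Cor.H07
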