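import Fermat.Agent.Cor.H07Cong
import Fermat.Agent.Cor.H14Small

/-!
# Semistable elliptic curves with given conductor: Shafarevich's theorem up to isogeny class

* `same_cond`: semistable curves with the same `a_ℓ` for almost all `ℓ` have the same conductor;
* `card_le_genus`: the number of families `(a_ℓ(W))_ℓ` of semistable elliptic curves whose conductor
  divides `N` is at most the genus of `X₀(N)`.
-/

set_option autoImplicit false

noncomputable section

namespace Fermat.Agent.Cor.H07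

open WeierstrassCurve ModularFormClass ModularCurve CongruenceSubgroup

/-- the curves have the same `a_ℓ` for all primes outside a finite set -/
def SameAp (W W' : WeierstrassCurve ℤ) : Prop :=
  ∃ S : Finset ℕ, ∀ ℓ : ℕ, ℓ.Prime → ℓ ∉ S → W.apOfModel ℓ = W'.apOfModel ℓ

variable {W W' : WeierstrassCurve ℤ}

theorem SameAp.symm (h : SameAp W W') : SameAp W' W := by
  obtain ⟨S, hS⟩ := h
  exact ⟨S, fun ℓ hℓ h' => (hS ℓ hℓ h').symm⟩

theorem cond_ne_zero (W : WeierstrassCurve ℤ) : cond W ≠ 0 :=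
  Finset.prod_ne_zero_iff.mpr fun _ hq => (Nat.prime_of_mem_primeFactors hq).ne_zero

theorem cond_dvd_of_same (hΔ : W.Δ ≠ 0) (hss : W.IsSemistableModel) (hΔ' : W'.Δ ≠ 0)
    (hss' : W'.IsSemistableModel) (h : SameAp W W') : cond W ∣ cond W' := by
  obtain ⟨S, hS⟩ := h
  obtain ⟨f, hf, hfW⟩ := (isModularModelOfLevel_iff hΔ' hss' (cond_ne_zero W')).mpr dvd_rfl
  refine conductor_dvd hΔ hss (cond_ne_zero W') hf
    (S ∪ (W'.Δ.natAbs.primeFactors ∪ (cond W').primeFactors)) fun ℓ hℓ hℓS => ?_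
  rw [Finset.mem_union, Finset.mem_union, not_or, not_or,
    Nat.mem_primeFactors_of_ne_zero (Int.natAbs_ne_zero.mpr hΔ'),
    Nat.mem_primeFactors_of_ne_zero (cond_ne_zero W')] at hℓS
  rw [hfW ℓ hℓ (fun h => hℓS.2.1 ⟨hℓ, Int.natCast_dvd.mp h⟩) fun h => hℓS.2.2 ⟨hℓ, h⟩,
    hS ℓ hℓ hℓS.1]

/-- **Curves with the same `a_ℓ` have the same conductor.** -/
theorem same_cond (hΔ : W.Δ ≠ 0) (hss : W.IsSemistableModel) (hΔ' : W'.Δ ≠ 0)
    (hss' : W'.IsSemistableModel) (h : SameAp W W') : cond W = cond W' :=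
  Nat.dvd_antisymm (cond_dvd_of_same hΔ hss hΔ' hss' h)
    (cond_dvd_of_same hΔ' hss' hΔ hss h.symm)

/-- curves with the same `a_ℓ` have the same bad primes -/
theorem same_bad (hΔ : W.Δ ≠ 0) (hss : W.IsSemistableModel) (hΔ' : W'.Δ ≠ 0)
    (hss' : W'.IsSemistableModel) (h : SameAp W W') {q : ℕ} (hq : q.Prime) :
    (q : ℤ) ∣ W.Δ ↔ (q : ℤ) ∣ W'.Δ := by
  have key : ∀ {V : WeierstrassCurve ℤ}, V.Δ ≠ 0 → ((q : ℤ) ∣ V.Δ ↔ q ∣ cond V) := by
    intro V hV
    rw [Int.natCast_dvd, cond]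
    constructor
    · intro hd
      exact Finset.dvd_prod_of_mem (fun q => q)
        ((Nat.mem_primeFactors_of_ne_zero (Int.natAbs_ne_zero.mpr hV)).mpr ⟨hq, hd⟩)
    · intro hd
      obtain ⟨r, hr, hqr⟩ := (hq.prime.dvd_finsetProd_iff _).mp hd
      rw [(Nat.prime_dvd_prime_iff_eq hq (Nat.prime_of_mem_primeFactors hr)).mp hqr]
      exact Nat.dvd_of_mem_primeFactors hr
  rw [key hΔ, key hΔ', same_cond hΔ hss hΔ' hss' h]

/-- **Shafarevich's theorem for semistable elliptic curves over `ℚ`, up to isogeny class.** Let `s`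
be a finite set of semistable integral models whose conductors divide `N`, no two of which have the
same `a_ℓ` for almost all `ℓ`.  Then the number of elements of `s` is at most the genus of
`X₀(N)`. -/
theorem card_le_genus (N : ℕ) [NeZero N] (s : Finset (WeierstrassCurve ℤ))
    (hs : ∀ W ∈ s, W.Δ ≠ 0 ∧ W.IsSemistableModel ∧ cond W ∣ N)
    (hd : ∀ W ∈ s, ∀ W' ∈ s, SameAp W W' → W = W') : (s.card : ℚ) ≤ genusFormula N := by
  classical
  have hex : ∀ W : s, ∃ f : {f : CuspForm (Gamma0 N) 2 // f.IsNormalizedEigenform},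
      ∀ ℓ : ℕ, ℓ.Prime → W.1.IsGoodPrimeFor ℓ → ¬ ℓ ∣ N →
        qCoeff f.1 ℓ = (W.1.apOfModel ℓ : ℂ) := by
    intro W
    obtain ⟨h1, h2, h3⟩ := hs W.1 W.2
    obtain ⟨f, hf, hfW⟩ := (isModularModelOfLevel_iff h1 h2 (NeZero.ne N)).mpr h3
    exact ⟨⟨f, hf⟩, hfW⟩
  choose F hF using hex
  have hinj : Function.Injective F := by
    intro W W' h
    apply Subtype.ext
    refine hd W.1 W.2 W'.1 W'.2 ⟨W.1.Δ.natAbs.primeFactors ∪ (W'.1.Δ.natAbs.primeFactors ∪
      N.primeFactors), fun ℓ hℓ hℓS => ?_⟩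
    rw [Finset.mem_union, Finset.mem_union, not_or, not_or,
      Nat.mem_primeFactors_of_ne_zero (Int.natAbs_ne_zero.mpr (hs W.1 W.2).1),
      Nat.mem_primeFactors_of_ne_zero (Int.natAbs_ne_zero.mpr (hs W'.1 W'.2).1),
      Nat.mem_primeFactors_of_ne_zero (NeZero.ne N)] at hℓS
    have h1 := hF W ℓ hℓ (fun h => hℓS.1 ⟨hℓ, Int.natCast_dvd.mp h⟩) fun h => hℓS.2.2 ⟨hℓ, h⟩
    have h2 := hF W' ℓ hℓ (fun h => hℓS.2.1 ⟨hℓ, Int.natCast_dvd.mp h⟩) fun h => hℓS.2.2 ⟨hℓ, h⟩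
    rw [h, h2] at h1
    exact_mod_cast h1.symm
  have hfd : FiniteDimensional ℂ (CuspForm (Gamma0 N) 2) := H22.finiteDimensional_cuspForm N 2
  have hli := (H14.linearIndependent_eigenforms N).comp F hinj
  have hcard := hli.fintype_card_le_finrank
  rw [Fintype.card_coe] at hcard
  have hg := Fermat.Agent.S20.result N
  rw [← hg]
  exact_mod_cast hcard

end Fermat.Agent.Cor.H07
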