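import Fermat.Agent.Cor.H07All

/-!
# The equation `x ^ e + y ^ e = 2 ^ a L ^ b z ^ e`

Let `e` have a prime factor `p ≥ 5`, `L = 3, 5`, and let `x, y` be coprime nonzero integers.

* `add_pow_ne` : if `16 ∣ x y (x + y)` then `x ^ e + y ^ e ≠ 2 ^ a L ^ b z ^ e` for `z ≠ 0`, `e` odd;
* `add_pow_ne_of_four_le` : `x ^ e + y ^ e ≠ 2 ^ a L ^ b z ^ e` for `a ≥ 4` or `z` even (`e` odd);
* `mul_add_ne` : `u v (u + v) ≠ 2 ^ i L ^ j w ^ p` for coprime `u`, `v` with `16 ∣ u v (u + v) ≠ 0`.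

This file is not used by any of the statement files.
-/

set_option autoImplicit false

noncomputable section

namespace Fermat.Agent.Cor.H07

variable {p : ℕ}

/-- prime exponents -/
theorem add_pow_ne_prime (pp : p.Prime) (hp5 : 5 ≤ p) {L : ℕ} (hL : L = 3 ∨ L = 5) {a b : ℕ}
    {x y z : ℤ} (hx : x ≠ 0) (hy : y ≠ 0) (hz : z ≠ 0) (hcop : IsCoprime x y)
    (h16 : (16 : ℤ) ∣ x * y * (x + y)) : x ^ p + y ^ p ≠ 2 ^ a * (L : ℤ) ^ b * z ^ p := by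
  intro h
  have hodd : Odd p := pp.odd_of_ne_two (by omega)
  refine no_sum_pow_all pp hp5 hL (a := 0) (b := 0) (c := 0) (d := 0) (e := a) (f := b)
    (x := x) (y := y) (z := -z) hx hy (neg_ne_zero.mpr hz) ?_ ?_ ?_
  · simp only [pow_zero, one_mul]
    exact hcop.pow
  · simp only [pow_zero, one_mul]
    rw [hodd.neg_pow, mul_neg, ← h]
    refine h16.trans ?_
    rw [mul_neg, dvd_neg]
    exact mul_dvd_mul (mul_dvd_mul (dvd_pow_self x pp.ne_zero) (dvd_pow_self y pp.ne_zero))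
      (hodd.add_dvd_pow_add_pow x y)
  · simp only [pow_zero, one_mul]
    rw [hodd.neg_pow, mul_neg, ← h]
    ring

/-- **`x ^ e + y ^ e ≠ 2 ^ a L ^ b z ^ e`** if `16 ∣ x y (x + y)`. -/
theorem add_pow_ne (pp : p.Prime) (hp5 : 5 ≤ p) {e : ℕ} (hpe : p ∣ e) (he : Odd e) {L : ℕ}
    (hL : L = 3 ∨ L = 5) {a b : ℕ} {x y z : ℤ} (hx : x ≠ 0) (hy : y ≠ 0) (hz : z ≠ 0)
    (hcop : IsCoprime x y) (h16 : (16 : ℤ) ∣ x * y * (x + y)) :
    x ^ e + y ^ e ≠ 2 ^ a * (L : ℤ) ^ b * z ^ e := by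
  obtain ⟨c, rfl⟩ := hpe
  have hc : Odd c := (Nat.odd_mul.mp he).2
  have hc0 : c ≠ 0 := by rintro rfl; exact absurd hc (by decide)
  rw [mul_comm, pow_mul, pow_mul, pow_mul]
  refine add_pow_ne_prime pp hp5 hL (pow_ne_zero c hx) (pow_ne_zero c hy) (pow_ne_zero c hz)
    hcop.pow (h16.trans ?_)
  exact mul_dvd_mul (mul_dvd_mul (dvd_pow_self x hc0) (dvd_pow_self y hc0))
    (hc.add_dvd_pow_add_pow x y)

/-- `16 ∣ x ^ e + y ^ e`, `e` odd, `x` and `y` coprime, gives `16 ∣ x + y` -/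
theorem sixteen_dvd_of_pow {e : ℕ} (he : Odd e) {x y : ℤ} (hcop : IsCoprime x y)
    (h : (16 : ℤ) ∣ x ^ e + y ^ e) : (16 : ℤ) ∣ x * y * (x + y) := by
  have he0 : e ≠ 0 := by rintro rfl; exact absurd he (by decide)
  -- both `x` and `y` are odd
  have hpar : ∀ u v : ℤ, IsCoprime u v → (16 : ℤ) ∣ u ^ e + v ^ e → Odd u := by
    intro u v huv h1
    by_contra hu
    rw [Int.not_odd_iff_even, even_iff_two_dvd] at hu
    have h2 : (2 : ℤ) ∣ u ^ e + v ^ e := (by norm_num : (2 : ℤ) ∣ 16).trans h1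
    have h3 : (2 : ℤ) ∣ v ^ e := (dvd_add_right (dvd_pow hu he0)).mp h2
    have h4 : (2 : ℤ) ∣ v := Int.prime_two.dvd_of_dvd_pow h3
    have h5 := huv.isUnit_of_dvd' hu h4
    rw [Int.isUnit_iff] at h5
    omega
  have hxo : Odd x := hpar x y hcop h
  have hyo : Odd y := hpar y x hcop.symm (by rwa [add_comm])
  -- odd `e`-th powers modulo `16`: `u ^ 4 = 1`
  have h4 : ∀ u : ZMod 16, (∃ v : ZMod 16, u = 2 * v + 1) → u ^ 4 = 1 := by decide
  have hz4 : ∀ {u : ℤ}, Odd u → ((u : ℤ) : ZMod 16) ^ 4 = 1 := by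
    intro u hu
    obtain ⟨v, rfl⟩ := hu
    exact h4 _ ⟨(v : ZMod 16), by push_cast; ring⟩
  have hzero : ((x ^ e + y ^ e : ℤ) : ZMod 16) = 0 := by
    rw [ZMod.intCast_zmod_eq_zero_iff_dvd]; exact_mod_cast h
  have hres : ((x + y : ℤ) : ZMod 16) = 0 := by
    have hmod : e % 4 = 1 ∨ e % 4 = 3 := by
      have := Nat.odd_iff.mp he
      omega
    have hred : ∀ {u : ℤ}, Odd u → ((u : ℤ) : ZMod 16) ^ e = ((u : ℤ) : ZMod 16) ^ (e % 4) := by
      intro u hu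
      conv_lhs => rw [← Nat.div_add_mod e 4, pow_add, pow_mul, hz4 hu, one_pow, one_mul]
    push_cast at hzero ⊢
    rw [hred hxo, hred hyo] at hzero
    have h3 : ∀ u v : ZMod 16, u ^ 4 = 1 → v ^ 4 = 1 → u ^ 3 + v ^ 3 = 0 → u + v = 0 := by decide
    rcases hmod with h5 | h5
    · rw [h5, pow_one, pow_one] at hzero
      exact hzero
    · rw [h5] at hzero
      exact h3 _ _ (hz4 hxo) (hz4 hyo) hzero
  rw [ZMod.intCast_zmod_eq_zero_iff_dvd] at hres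
  exact (by exact_mod_cast hres : (16 : ℤ) ∣ x + y).mul_left _

/-- **`x ^ e + y ^ e = 2 ^ a L ^ b z ^ e`** has no solution in nonzero integers, `x`, `y` coprime, if
`a ≥ 4` or `z` is even. -/
theorem add_pow_ne_of_four_le (pp : p.Prime) (hp5 : 5 ≤ p) {e : ℕ} (hpe : p ∣ e) (he : Odd e)
    {L : ℕ} (hL : L = 3 ∨ L = 5) {a b : ℕ} {x y z : ℤ} (hx : x ≠ 0) (hy : y ≠ 0) (hz : z ≠ 0)
    (hcop : IsCoprime x y) (h4 : 4 ≤ a ∨ (2 : ℤ) ∣ z) :
    x ^ e + y ^ e ≠ 2 ^ a * (L : ℤ) ^ b * z ^ e := by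
  intro h
  refine add_pow_ne pp hp5 hpe he hL hx hy hz hcop (sixteen_dvd_of_pow he hcop ?_) h
  rw [h]
  have he5 : 4 ≤ e := by
    have := Nat.le_of_dvd he.pos hpe
    omega
  rcases h4 with h4 | h4
  · have h1 : (2 : ℤ) ^ 4 ∣ 2 ^ a := pow_dvd_pow 2 h4
    norm_num at h1
    exact (h1.mul_right _).mul_right _
  · have h1 : (2 : ℤ) ^ 4 ∣ z ^ e := (pow_dvd_pow_of_dvd h4 4).trans (pow_dvd_pow z he5)
    norm_num at h1
    exact h1.mul_left _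

/-- **`u v (u + v) ≠ 2 ^ i L ^ j w ^ p`** for coprime `u, v` with `16 ∣ u v (u + v)`. -/
theorem mul_add_ne (pp : p.Prime) (hp5 : 5 ≤ p) {L : ℕ} (hL : L = 3 ∨ L = 5) {u v : ℤ}
    (hcop : IsCoprime u v) (h0 : u * v * (u + v) ≠ 0) (h16 : (16 : ℤ) ∣ u * v * (u + v))
    (i j : ℕ) (w : ℤ) : u * v * (u + v) ≠ 2 ^ i * (L : ℤ) ^ j * w ^ p := by
  intro h
  have hLp : L.Prime := by rcases hL with rfl | rfl <;> norm_num
  have hw : w ≠ 0 := by
    rintro rfl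
    apply h0
    rw [h, zero_pow pp.ne_zero, mul_zero]
  have e : u * v * (-(u + v)) = -(u * v * (u + v)) := by ring
  obtain ⟨q, hq, hq2, hqL, h1⟩ := no_sum_all pp hp5 hL (A := u) (B := v) (C := -(u + v)) (by ring)
    hcop (by rw [e]; exact neg_ne_zero.mpr h0) (by rw [e]; exact h16.neg_right)
  apply h1
  rw [e, padicValInt, Int.natAbs_neg, h]
  exact val_unit_mul_pow hLp hq hq2 hqL i j hw

end Fermat.Agent.Cor.H07
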