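import Mathlib
import Fermat.Agent.Cor.VeluD
import Fermat.Agent.H09.EndTools
import Fermat.Agent.Frob.FrobTorsion
import Fermat.Agent.Cor.Effective
import Fermat.Agent.Cor.BadMain

set_option autoImplicit false

/-!
# Isogeny invariance of the numbers `a_ℓ`
-/

namespace Fermat.Agent.Cor.H09I

open WeierstrassCurve WeierstrassCurve.Affine WeierstrassCurve.Affine.Point
open Fermat.Agent.H08 Fermat.Agent.H05 Fermat.Agent.H09

local notation "Qb" => AlgebraicClosure ℚ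
local notation "GQ" => AlgebraicClosure ℚ ≃ₐ[ℚ] AlgebraicClosure ℚ

/-- A homomorphism `W(ℚ̄) → W'(ℚ̄)` with finite kernel which commutes with the Galois group; for
instance an isogeny over `ℚ`. -/
structure IsIsog (W W' : WeierstrassCurve ℤ)
    (φ : ((W.map (Int.castRingHom ℚ))⁄Qb).Point →+ ((W'.map (Int.castRingHom ℚ))⁄Qb).Point) :
    Prop where
  ker : Finite φ.ker
  equiv : ∀ (σ : GQ) P, φ (σ • P) = σ • φ P

variable {W W' : WeierstrassCurve ℤ}
  {φ : ((W.map (Int.castRingHom ℚ))⁄Qb).Point →+ ((W'.map (Int.castRingHom ℚ))⁄Qb).Point}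

theorem exists_point (hΔ : W.Δ ≠ 0) {q : ℕ} (hq : q.Prime) :
    ∃ P : ((W.map (Int.castRingHom ℚ))⁄Qb).Point, P ≠ 0 ∧ q • P = 0 := by
  have hell : (W.map (Int.castRingHom ℚ)).IsElliptic :=
    ⟨isUnit_iff_ne_zero.mpr (by rw [map_Δ]; simpa using hΔ)⟩
  have h := Fermat.Agent.Frob.card_torsionBy Qb (W.map (Int.castRingHom ℚ)) hq.ne_zero
  have h1 : 1 < Nat.card (Submodule.torsionBy ℤ ((W.map (Int.castRingHom ℚ))⁄Qb).Point (q : ℤ)) := by
    rw [h]; exact Nat.one_lt_pow two_ne_zero hq.one_lt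
  have hfin : Finite (Submodule.torsionBy ℤ ((W.map (Int.castRingHom ℚ))⁄Qb).Point (q : ℤ)) :=
    Nat.finite_of_card_ne_zero (by omega)
  have hnt := Finite.one_lt_card_iff_nontrivial.mp h1
  obtain ⟨x, hx⟩ := exists_ne (0 : Submodule.torsionBy ℤ ((W.map (Int.castRingHom ℚ))⁄Qb).Point (q : ℤ))
  exact ⟨x, fun h0 => hx (Subtype.ext h0), mem_torsion_iff.mp x.2⟩

/-- **Isogeny invariance**: isogenous curves have the same number of points over `𝔽_ℓ` for every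
common good prime `ℓ`. -/
theorem IsIsog.apOfModel_eq (hφ : IsIsog W W' φ) (hΔ : W.Δ ≠ 0) {ℓ : ℕ} (hℓ : ℓ.Prime)
    (h : W.IsGoodPrimeFor ℓ) (h' : W'.IsGoodPrimeFor ℓ) : W'.apOfModel ℓ = W.apOfModel ℓ := by
  classical
  by_contra hne
  have hfin := hφ.ker
  set D := W'.apOfModel ℓ - W.apOfModel ℓ with hD
  have hD0 : D ≠ 0 := sub_ne_zero.mpr hne
  obtain ⟨q, hqge, hq⟩ := Nat.exists_infinite_primes (ℓ + Nat.card φ.ker + D.natAbs + 1)
  obtain ⟨P, hP0, hP⟩ := exists_point hΔ hq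
  obtain ⟨A, hA⟩ := exists_liesOverPrime Qb hℓ
  obtain ⟨σ, hσ⟩ := exists_isFrobeniusAt hℓ hA
  have hℓq : ¬ ℓ ∣ q := by
    intro hd
    have := (Nat.prime_dvd_prime_iff_eq hℓ hq).mp hd
    omega
  have r1 := Fermat.Agent.Frob.frobenius_relation_torsion W hℓ h hA hσ hℓq P hP
  have hQ : q • φ P = 0 := by rw [← map_nsmul, hP, _root_.map_zero]
  have r2 := Fermat.Agent.Frob.frobenius_relation_torsion W' hℓ h' hA hσ hℓq (φ P) hQ
  have r3 := congrArg φ r1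
  rw [map_add, map_sub, map_zsmul, map_zsmul, hφ.equiv, hφ.equiv, _root_.map_zero] at r3
  have r4 : D • (σ • φ P) = 0 := by
    rw [hD, sub_smul]
    have e : σ • σ • φ P - W'.apOfModel ℓ • σ • φ P + (ℓ : ℤ) • φ P =
      σ • σ • φ P - W.apOfModel ℓ • σ • φ P + (ℓ : ℤ) • φ P := by rw [r2, r3]
    have e2 : W'.apOfModel ℓ • σ • φ P = W.apOfModel ℓ • σ • φ P := by
      have e3 := add_right_cancel e
      exact sub_right_injective e3
    rw [e2, sub_self]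
  have r5 : (q : ℤ) • (σ • φ P) = 0 := by
    rw [natCast_zsmul, smul_comm, hQ]
    rfl
  have hcop : IsCoprime D (q : ℤ) := by
    rw [Int.isCoprime_iff_gcd_eq_one]
    have h1 : Nat.Coprime q D.natAbs := by
      rw [Nat.Prime.coprime_iff_not_dvd hq]
      intro hd
      have := Nat.le_of_dvd (Int.natAbs_pos.mpr hD0) hd
      omega
    rw [Int.gcd_comm]
    simpa [Int.gcd] using h1
  obtain ⟨a, b, hab⟩ := hcop
  have r6 : σ • φ P = 0 := by
    calc σ • φ P = (a * D + b * (q : ℤ)) • (σ • φ P) := by rw [hab, one_zsmul]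
      _ = 0 := by rw [add_zsmul, mul_zsmul, mul_zsmul, r4, r5, zsmul_zero, zsmul_zero, add_zero]
  have r7 : φ P = 0 := by
    have h1 : φ P = σ⁻¹ • (σ • φ P) := (inv_smul_smul σ (φ P)).symm
    rw [h1, r6]
    rfl
  -- `P` is in the kernel
  have hord : addOrderOf P = q := addOrderOf_eq_prime hP hP0 (hp := ⟨hq⟩)
  have hdvd : q ∣ Nat.card φ.ker := by
    have h1 : addOrderOf (⟨P, r7⟩ : φ.ker) = q := by
      rw [← hord]
      exact (AddSubgroup.addOrderOf_mk P r7)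
    rw [← h1]
    exact addOrderOf_dvd_natCard _
  have := Nat.le_of_dvd Nat.card_pos hdvd
  omega

/-! ### Modularity -/

open CongruenceSubgroup ModularFormClass CuspForm

/-- Modularity is invariant under isogeny: the same eigenform works. -/
theorem IsIsog.isModularModelOfLevel (hφ : IsIsog W W' φ) (hΔ : W.Δ ≠ 0) {N : ℕ}
    (hbad : ∀ ℓ : ℕ, ℓ.Prime → (ℓ : ℤ) ∣ W.Δ → ℓ ∣ N) (h : W.IsModularModelOfLevel N) :
    W'.IsModularModelOfLevel N := by
  obtain ⟨f, hf, hfW⟩ := h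
  refine ⟨f, hf, fun q hq hq' hqN => ?_⟩
  have hgood : W.IsGoodPrimeFor q := fun h1 => hqN (hbad q hq h1)
  rw [hfW q hq hgood hqN, hφ.apOfModel_eq hΔ hq hgood hq']

/-- **The newform of a curve isogenous to a semistable curve.** -/
theorem IsIsog.exists_newform (hφ : IsIsog W W' φ) (hΔ : W.Δ ≠ 0) (hW : W.IsSemistableModel) :
    ∃ g : CuspForm (Gamma0 W.conductorLevel) 2, g.IsNewform ∧
      ∀ q : ℕ, q.Prime → ¬ (q : ℤ) ∣ W.Δ → ¬ (q : ℤ) ∣ W'.Δ →
        qCoeff g q = (W'.apOfModel q : ℂ) := by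
  obtain ⟨g, hg, h1, -⟩ := Fermat.Agent.Cor.Bad.exists_newform hΔ hW
  exact ⟨g, hg, fun q hq hqΔ hqΔ' => by rw [h1 q hq hqΔ, hφ.apOfModel_eq hΔ hq hqΔ hqΔ']⟩

/-- Every curve isogenous to a semistable curve is modular, of level the conductor of the
semistable curve. -/
theorem IsIsog.isModularModelOfLevel_conductorLevel (hφ : IsIsog W W' φ) (hΔ : W.Δ ≠ 0)
    (hW : W.IsSemistableModel) : W'.IsModularModelOfLevel W.conductorLevel := by
  obtain ⟨g, hg, h1, -⟩ := Fermat.Agent.Cor.Bad.exists_newform hΔ hW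
  refine hφ.isModularModelOfLevel hΔ
    (fun ℓ hℓ hd => (W.prime_dvd_conductorLevel_iff hΔ hℓ).mpr hd)
    ⟨g, hg.1, fun q hq hq' _ => h1 q hq hq'⟩

theorem IsIsog.isModular (hφ : IsIsog W W' φ) (hΔ : W.Δ ≠ 0) (hW : W.IsSemistableModel) :
    (W'.map (Int.castRingHom ℚ)).IsModular :=
  ⟨W', ⟨1, by rw [one_smul]⟩, W.conductorLevel, W.conductorLevel_pos,
    hφ.isModularModelOfLevel_conductorLevel hΔ hW⟩

/-- **Isogenous semistable curves** have the same conductor and the same number of points modulo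
every prime, the bad ones included. -/
theorem IsIsog.semistable (hφ : IsIsog W W' φ) (hΔ : W.Δ ≠ 0) (hW : W.IsSemistableModel)
    (hΔ' : W'.Δ ≠ 0) (hW' : W'.IsSemistableModel) :
    W'.conductorLevel = W.conductorLevel ∧
      ∀ q : ℕ, q.Prime → W'.apOfModel q = W.apOfModel q := by
  obtain ⟨f, hf, f1, f2⟩ := Fermat.Agent.Cor.Bad.exists_newform hΔ hW
  obtain ⟨g, hg, g1, g2⟩ := Fermat.Agent.Cor.Bad.exists_newform hΔ' hW'
  have hne : NeZero W.conductorLevel := ⟨W.conductorLevel_pos.ne'⟩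
  have hne' : NeZero W'.conductorLevel := ⟨W'.conductorLevel_pos.ne'⟩
  obtain ⟨h1, h2⟩ := Fermat.Agent.Cor.Effective.newform_eq hf hg fun p hp hp1 hp2 _ ↦ by
    have hd : ¬ (p : ℤ) ∣ W.Δ := fun hh ↦ hp1 ((W.prime_dvd_conductorLevel_iff hΔ hp).mpr hh)
    have hd' : ¬ (p : ℤ) ∣ W'.Δ := fun hh ↦ hp2 ((W'.prime_dvd_conductorLevel_iff hΔ' hp).mpr hh)
    rw [f1 p hp hd, g1 p hp hd', hφ.apOfModel_eq hΔ hp hd hd']
  refine ⟨h1.symm, fun q hq => ?_⟩
  have hiff : (q : ℤ) ∣ W.Δ ↔ (q : ℤ) ∣ W'.Δ := by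
    rw [← W.prime_dvd_conductorLevel_iff hΔ hq, ← W'.prime_dvd_conductorLevel_iff hΔ' hq, h1]
  by_cases hd : (q : ℤ) ∣ W.Δ
  · have e1 := f2 q hq hd
    have e2 := g2 q hq (hiff.mp hd)
    rw [h2, e2] at e1
    have e3 : ((W'.apOfModel q : ℤ) : ℂ) = ((W.apOfModel q : ℤ) : ℂ) := sub_left_injective e1
    exact_mod_cast e3
  · exact hφ.apOfModel_eq hΔ hq hd (fun h => hd (hiff.mpr h))

/-- **Quotients of semistable curves are modular.** -/
theorem exists_quotient (hΔ : W.Δ ≠ 0) (hW : W.IsSemistableModel) {p : ℕ} (hp : p.Prime)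
    (hp2 : p ≠ 2) {C : AddSubgroup ((W.map (Int.castRingHom ℚ))⁄Qb).Point}
    (hC : Nat.card C = p) (hst : ∀ σ : GQ, ∀ Q ∈ C, σ • Q ∈ C) :
    ∃ (W' : WeierstrassCurve ℤ)
      (φ : ((W.map (Int.castRingHom ℚ))⁄Qb).Point →+ ((W'.map (Int.castRingHom ℚ))⁄Qb).Point),
      W'.Δ ≠ 0 ∧ φ.ker = C ∧ IsIsog W W' φ ∧ W'.IsModularModelOfLevel W.conductorLevel := by
  obtain ⟨W', φ, h1, -, -, h4, h5, -⟩ := VeluD.exists_quot hΔ hp hp2 hC hst
  have hker : φ.ker = C := by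
    ext P
    rw [AddMonoidHom.mem_ker]
    exact h4 P
  have hI : IsIsog W W' φ := ⟨by
    rw [hker]
    exact Nat.finite_of_card_ne_zero (by rw [hC]; exact hp.ne_zero), h5⟩
  exact ⟨W', φ, h1, hker, hI, hI.isModularModelOfLevel_conductorLevel hΔ hW⟩

end Fermat.Agent.Cor.H09I
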