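import Mathlib
import Fermat.Agent.Cor.VeluD
import Fermat.Agent.Cor.H09Isog

set_option autoImplicit false

/-!
# The reduction of the quotient at the multiplicative primes
-/

namespace Fermat.Agent.Cor.H09Q

open Polynomial WeierstrassCurve WeierstrassCurve.Affine WeierstrassCurve.Affine.Point
open Fermat.Agent.H08 Fermat.Agent.H05 Fermat.Agent.H09 Fermat.Agent.Cor.VeluZ

local notation "Qb" => AlgebraicClosure ℚ
local notation "GQ" => AlgebraicClosure ℚ ≃ₐ[ℚ] AlgebraicClosure ℚ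

section Field

variable {F : Type*} [Field F]

/-- the coefficients of `t` and `w` in the discriminant of the Velu model -/
def eX (b₂ b₄ b₆ t w : F) : F :=
  b₂ ^ 2 * (b₂ ^ 2 - 5 * b₄ + 25 * t) + 80 * (3 * b₄ ^ 2 - 30 * b₄ * t + 100 * t ^ 2) +
    108 * b₂ * (2 * b₆ - (4 * b₂ * t + 28 * w)) -
    9 * b₂ * (4 * b₂ * b₄ + 10 * b₆ - 10 * (4 * b₂ * t + 28 * w))

/-- see `eX` -/
def eY (b₂ b₄ b₆ t w : F) : F :=
  7 * b₂ ^ 3 + 756 * (2 * b₆ - (4 * b₂ * t + 28 * w)) - 252 * b₂ * b₄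

theorem expand (E : WeierstrassCurve F) (t w : F) :
    (E.c₄ + 240 * t) ^ 3 - (E.c₆ + 504 * E.b₂ * t + 6048 * w) ^ 2 =
      1728 * (E.Δ + t * eX E.b₂ E.b₄ E.b₆ t w + w * eY E.b₂ E.b₄ E.b₆ t w) := by
  simp only [eX, eY, WeierstrassCurve.c₄, WeierstrassCurve.c₆, WeierstrassCurve.Δ,
    WeierstrassCurve.b₂, WeierstrassCurve.b₄, WeierstrassCurve.b₆, WeierstrassCurve.b₈]
  ring

variable {A : ValuationSubring F}

theorem eX_mem {b₂ b₄ b₆ t w : F} (h2 : b₂ ∈ A) (h4 : b₄ ∈ A) (h6 : b₆ ∈ A) (ht : t ∈ A)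
    (hw : w ∈ A) : eX b₂ b₄ b₆ t w ∈ A ∧ eY b₂ b₄ b₆ t w ∈ A := by
  lift b₂ to A using h2
  lift b₄ to A using h4
  lift b₆ to A using h6
  lift t to A using ht
  lift w to A using hw
  constructor
  · have e : eX (b₂ : F) b₄ b₆ t w = ((b₂ ^ 2 * (b₂ ^ 2 - 5 * b₄ + 25 * t) +
      80 * (3 * b₄ ^ 2 - 30 * b₄ * t + 100 * t ^ 2) +
      108 * b₂ * (2 * b₆ - (4 * b₂ * t + 28 * w)) -
      9 * b₂ * (4 * b₂ * b₄ + 10 * b₆ - 10 * (4 * b₂ * t + 28 * w)) : A) : F) := by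
      rw [eX]; push_cast; rfl
    rw [e]
    exact Subtype.mem _
  · have e : eY (b₂ : F) b₄ b₆ t w = ((7 * b₂ ^ 3 + 756 * (2 * b₆ - (4 * b₂ * t + 28 * w)) -
      252 * b₂ * b₄ : A) : F) := by
      rw [eY]; push_cast; rfl
    rw [e]
    exact Subtype.mem _

variable [DecidableEq F] {Γ₀ : Type*} [LinearOrderedCommGroupWithZero Γ₀] {v : Valuation F Γ₀}
  {W : WeierstrassCurve.Affine F} {r t α β : F}

theorem t_lt (h : NodeData v W r t α β) {P : W.Point} (hP : ¬ NodeE0 v r t P) :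
    v (px P) ≤ 1 ∧ v (6 * px P ^ 2 + W.b₂ * px P + W.b₄) < 1 ∧
      v (10 * px P ^ 3 + 2 * W.b₂ * px P ^ 2 + 3 * W.b₄ * px P + W.b₆) < 1 := by
  obtain ⟨h0, hx, hy⟩ := h.val_of_not_nodeE0 hP
  have hψ := h.val_psi2_lt hP
  have h3 : (shiftCurve W r t).a₃ = 0 := h.slopes.a₃
  have h4 : (shiftCurve W r t).a₄ = 0 := h.slopes.a₄
  have e3 : (shiftCurve W r t).a₃ = W.a₃ + r * W.a₁ + 2 * t := rfl
  have e4 : (shiftCurve W r t).a₄ = W.a₄ + 2 * r * W.a₂ - t * W.a₁ + 3 * r ^ 2 := rfl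
  have hpx : v (px P) ≤ 1 := by
    have : px P = (px P - r) + r := by ring
    rw [this]
    exact v_add_le_one hx.le h.hr
  have hb2 : v W.b₂ ≤ 1 := by
    rw [WeierstrassCurve.b₂]
    exact v_add_le_one (v_pow_le_one h.int.h₁ 2) (v_mul_le_one (v_ofNat_le_one v 4) h.int.h₂)
  have ht : v (6 * px P ^ 2 + W.b₂ * px P + W.b₄) < 1 := by
    have e : 6 * px P ^ 2 + W.b₂ * px P + W.b₄ =
        (px P - r) * (6 * (px P - r) + (W.b₂ + 12 * r)) := by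
      rw [e3] at h3
      rw [e4] at h4
      rw [WeierstrassCurve.b₂, WeierstrassCurve.b₄]
      linear_combination 2 * h4 + W.a₁ * h3
    rw [e]
    refine v_mul_lt_one_left hx (v_add_le_one (v_mul_le_one (v_ofNat_le_one v 6) hx.le)
      (v_add_le_one hb2 (v_mul_le_one (v_ofNat_le_one v 12) h.hr)))
  refine ⟨hpx, ht, ?_⟩
  have e : 10 * px P ^ 3 + 2 * W.b₂ * px P ^ 2 + 3 * W.b₄ * px P + W.b₆ =
      H08.psi2 P * H08.psi2 P + px P * (6 * px P ^ 2 + W.b₂ * px P + W.b₄) := by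
    have := H08.psi2_sq h0
    linear_combination -this
  rw [e]
  exact v_add_lt_one (v_mul_lt_one_left hψ hψ.le) (v_mul_lt_one_right hpx ht)

end Field

section Main

variable {W : WeierstrassCurve ℤ} {p : ℕ} {C : AddSubgroup ((W.map (Int.castRingHom ℚ))⁄Qb).Point}

/-- **Type II**: if `C` is not contained in the zero component, the quotient is multiplicative. -/
theorem typeII (hΔ : W.Δ ≠ 0) (hp : p.Prime) (hp2 : p ≠ 2) (hC : Nat.card C = p)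
    {W' : WeierstrassCurve ℤ} {k : ℕ}
    (h4 : (W'.c₄ : Qb) = ((p : Qb) ^ k) ^ 4 *
        H24.veluC4 ((W.map (Int.castRingHom ℚ))⁄Qb) (C : Set _))
    (hD : (W'.Δ : Qb) = ((p : Qb) ^ k) ^ 12 *
        H24.veluD ((W.map (Int.castRingHom ℚ))⁄Qb) (C : Set _))
    {ℓ : ℕ} (hℓ : ℓ.Prime) (hℓp : ℓ ≠ p) (hℓΔ : (ℓ : ℤ) ∣ W.Δ) (hℓc : ¬ (ℓ : ℤ) ∣ W.c₄)
    {A : ValuationSubring Qb} (hA : A.LiesOverPrime ℓ)
    (hII : ¬ ∀ Q ∈ C, W.InZeroComponentAt A Q) :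
    (ℓ : ℤ) ∣ W'.Δ ∧ ¬ (ℓ : ℤ) ∣ W'.c₄ := by
  have hvp := val_prime_eq_one hp hℓ hℓp hA
  obtain ⟨hc₄, ρ, τ, α, β, hnd⟩ := exists_nodeData_int hΔ hℓ hℓΔ hℓc hA
  have hfact : Fact p.Prime := ⟨hp⟩
  have hII' : ¬ ∀ Q ∈ C, NodeE0 A.valuation ρ τ Q := fun hI => hII fun Q hQ =>
    inZeroComponentAt_iff.mpr ((nodeE0_iff_nonsingularRed hnd).mp (hI Q hQ))
  obtain ⟨h1, -⟩ := typeII_core hnd hc₄ hp hC hII'
  push Not at hII'
  obtain ⟨T, hT, hTE⟩ := hII'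
  have hT0 : T ≠ 0 := by rintro rfl; exact hTE NodeE0.zero
  have hpT : p • T = 0 := by
    have hfin : Finite C := Nat.finite_of_card_ne_zero (by rw [hC]; exact hp.ne_zero)
    have h1 : Nat.card C • (⟨T, hT⟩ : C) = 0 := card_nsmul_eq_zero'
    rw [hC] at h1
    exact congrArg Subtype.val h1
  have hord : addOrderOf T = p := addOrderOf_eq_prime hpT hT0
  obtain ⟨r, hr⟩ := hp.odd_of_ne_two hp2
  have hall := not_nodeE0_cyc hnd hp hord hTE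
  have hmem : ∀ i ∈ Finset.Ico 1 (r + 1), i • T ∈ cyc p T := by
    intro i hi
    rw [Finset.mem_Ico] at hi
    refine Finset.mem_image.mpr ⟨i, ?_, rfl⟩
    rw [Finset.mem_Ico]
    omega
  have hvt : A.valuation (vt ((W.map (Int.castRingHom ℚ))⁄Qb) r T) < 1 := by
    rw [vt]
    apply Valuation.map_sum_lt _ one_ne_zero
    intro i hi
    exact (t_lt hnd (hall _ (hmem i hi))).2.1
  have hvw : A.valuation (vw ((W.map (Int.castRingHom ℚ))⁄Qb) r T) < 1 := by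
    rw [vw]
    apply Valuation.map_sum_lt _ one_ne_zero
    intro i hi
    exact (t_lt hnd (hall _ (hmem i hi))).2.2
  constructor
  · by_contra hd
    have h3 := Fermat.Agent.H09.val_intCast_eq_one hℓ hA hd
    rw [hD, map_mul, map_pow, map_pow, hvp, one_pow, one_pow, one_mul] at h3
    have h5 : H24.veluD ((W.map (Int.castRingHom ℚ))⁄Qb) (C : Set _) =
        ((W.map (Int.castRingHom ℚ))⁄Qb).Δ + vt ((W.map (Int.castRingHom ℚ))⁄Qb) r T *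
          eX ((W.map (Int.castRingHom ℚ))⁄Qb).b₂ ((W.map (Int.castRingHom ℚ))⁄Qb).b₄
          ((W.map (Int.castRingHom ℚ))⁄Qb).b₆ (vt ((W.map (Int.castRingHom ℚ))⁄Qb) r T) (vw ((W.map (Int.castRingHom ℚ))⁄Qb) r T) +
        vw ((W.map (Int.castRingHom ℚ))⁄Qb) r T *
          eY ((W.map (Int.castRingHom ℚ))⁄Qb).b₂ ((W.map (Int.castRingHom ℚ))⁄Qb).b₄
          ((W.map (Int.castRingHom ℚ))⁄Qb).b₆ (vt ((W.map (Int.castRingHom ℚ))⁄Qb) r T) (vw ((W.map (Int.castRingHom ℚ))⁄Qb) r T) := by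
      rw [H24.veluD, veluC4_eq_vt hp hr hC hT hT0 hord, veluC6_eq_vt hp hr hC hT hT0 hord, expand]
      field_simp
    have hb2 : ((W.map (Int.castRingHom ℚ))⁄Qb).b₂ ∈ A := by rw [b₂_Qb]; exact intCast_mem A _
    have hb4 : ((W.map (Int.castRingHom ℚ))⁄Qb).b₄ ∈ A := by rw [b₄_Qb]; exact intCast_mem A _
    have hb6 : ((W.map (Int.castRingHom ℚ))⁄Qb).b₆ ∈ A := by rw [b₆_Qb]; exact intCast_mem A _
    obtain ⟨hX, hY⟩ := eX_mem hb2 hb4 hb6 ((A.valuation_le_one_iff _).mp hvt.le)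
      ((A.valuation_le_one_iff _).mp hvw.le)
    have hΔ1 : A.valuation ((W.map (Int.castRingHom ℚ))⁄Qb).Δ < 1 := by
      rw [Δ_Qb]
      exact Fermat.Agent.H09.val_intCast_lt_one hA hℓΔ
    have h6 : A.valuation (H24.veluD ((W.map (Int.castRingHom ℚ))⁄Qb) (C : Set _)) < 1 := by
      rw [h5]
      exact v_add_lt_one (v_add_lt_one hΔ1
        (v_mul_lt_one_left hvt ((A.valuation_le_one_iff _).mpr hX)))
        (v_mul_lt_one_left hvw ((A.valuation_le_one_iff _).mpr hY))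
    rw [h3] at h6
    exact lt_irrefl _ h6
  · intro hd
    have h3 := Fermat.Agent.H09.val_intCast_lt_one hA hd
    rw [h4, map_mul, map_pow, map_pow, hvp, one_pow, one_pow, one_mul, h1] at h3
    exact lt_irrefl _ h3

/-- **The quotient of a semistable curve** by a rational subgroup of odd prime order `p` is
semistable outside `p`, with the same bad primes. -/
theorem exists_quot_semistable (hΔ : W.Δ ≠ 0)
    (hss : ∀ ℓ : ℕ, ℓ.Prime → ℓ ≠ p → (ℓ : ℤ) ∣ W.Δ → ¬ (ℓ : ℤ) ∣ W.c₄) (hp : p.Prime)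
    (hp2 : p ≠ 2) (hC : Nat.card C = p) (hst : ∀ σ : GQ, ∀ Q ∈ C, σ • Q ∈ C) :
    ∃ (W' : WeierstrassCurve ℤ)
      (φ : ((W.map (Int.castRingHom ℚ))⁄Qb).Point →+ ((W'.map (Int.castRingHom ℚ))⁄Qb).Point),
      W'.Δ ≠ 0 ∧
      (∀ ℓ : ℕ, ℓ.Prime → ℓ ≠ p → ((ℓ : ℤ) ∣ W'.Δ ↔ (ℓ : ℤ) ∣ W.Δ)) ∧
      (∀ ℓ : ℕ, ℓ.Prime → ℓ ≠ p → (ℓ : ℤ) ∣ W'.Δ → ¬ (ℓ : ℤ) ∣ W'.c₄) ∧
      (∀ P, φ P = 0 ↔ P ∈ C) ∧ (∀ (σ : GQ) P, φ (σ • P) = σ • φ P) ∧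
      ∀ (Q : ((W'.map (Int.castRingHom ℚ))⁄Qb).Point) (n : ℕ), n ≠ 0 → n • Q = 0 →
        ∃ P, φ P = Q := by
  obtain ⟨W', k, h4, h6, hD, hΔ', hℓ'⟩ := exists_model hΔ hp hp2 hC hst
  obtain ⟨φ, h1, h2, h3⟩ := VeluD.exists_isog hΔ hp hp2 hC hst h4 h6
  have key : ∀ ℓ : ℕ, ℓ.Prime → ℓ ≠ p → (ℓ : ℤ) ∣ W.Δ → (ℓ : ℤ) ∣ W'.Δ ∧ ¬ (ℓ : ℤ) ∣ W'.c₄ := by
    intro ℓ hℓ hℓp hd
    obtain ⟨A, hA⟩ := exists_liesOverPrime Qb hℓ
    by_cases hI : ∀ Q ∈ C, W.InZeroComponentAt A Q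
    · exact (hℓ' ℓ hℓ hℓp).2 hd (hss ℓ hℓ hℓp hd) ⟨A, hA, hI⟩
    · exact typeII hΔ hp hp2 hC h4 hD hℓ hℓp hd (hss ℓ hℓ hℓp hd) hA hI
  refine ⟨W', φ, hΔ', fun ℓ hℓ hℓp => ⟨fun hd => ?_, fun hd => (key ℓ hℓ hℓp hd).1⟩,
    fun ℓ hℓ hℓp hd => ?_, h1, h2, h3⟩
  · by_contra hcon
    exact (hℓ' ℓ hℓ hℓp).1 hcon hd
  · have hd' : (ℓ : ℤ) ∣ W.Δ := by
      by_contra hcon
      exact (hℓ' ℓ hℓ hℓp).1 hcon hd
    exact (key ℓ hℓ hℓp hd').2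

end Main

end Fermat.Agent.Cor.H09Q
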