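import Mathlib
import Fermat.Agent.Cor.Mazur
import Fermat.Agent.Cor.H07Irr
import Fermat.Agent.Cor.H09Isog

set_option autoImplicit false

/-!
# Rational subgroups and rational isogenies of semistable curves
-/

namespace Fermat.Agent.Cor.H09S

open WeierstrassCurve WeierstrassCurve.Affine WeierstrassCurve.Affine.Point
open Fermat.Agent.H08 Fermat.Agent.H05 Fermat.Agent.H09

local notation "Qb" => AlgebraicClosure ℚ
local notation "GQ" => AlgebraicClosure ℚ ≃ₐ[ℚ] AlgebraicClosure ℚ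

variable {W : WeierstrassCurve ℤ} {p : ℕ}

/-- If `W[p]` is irreducible then a Galois stable subgroup with a point of order `p` contains
`W[p]`. -/
theorem torsion_le (hp : p.Prime)
    (hirr : GaloisRepIsIrreducible (K := Qb) ℚ (W.map (Int.castRingHom ℚ)) p)
    (G : AddSubgroup ((W.map (Int.castRingHom ℚ))⁄Qb).Point)
    (hG : ∃ x ∈ G, x ≠ 0 ∧ p • x = 0) (hst : ∀ σ : GQ, ∀ x ∈ G, σ • x ∈ G) :
    ∀ x : ((W.map (Int.castRingHom ℚ))⁄Qb).Point, p • x = 0 → x ∈ G := by
  have hfact : Fact p.Prime := ⟨hp⟩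
  obtain ⟨-, hirr⟩ := hirr
  let N : Submodule (ZMod p) (Submodule.torsionBy ℤ ((W.map (Int.castRingHom ℚ))⁄Qb).Point (p : ℤ)) :=
    AddSubgroup.toZModSubmodule p (G.comap (Submodule.subtype _).toAddMonoidHom)
  have hNst : IsGaloisStable ℚ N := fun σ x hx => hst σ x hx
  obtain ⟨x₀, hx₀C, hx₀, hpx₀⟩ := hG
  rcases hirr N hNst with h | h
  · exfalso
    apply hx₀
    have h1 : (⟨x₀, mem_torsion_iff.mpr hpx₀⟩ :
      Submodule.torsionBy ℤ ((W.map (Int.castRingHom ℚ))⁄Qb).Point (p : ℤ)) ∈ N := hx₀C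
    rw [h, Submodule.mem_bot] at h1
    exact congrArg Subtype.val h1
  · intro x hx
    have h1 : (⟨x, mem_torsion_iff.mpr hx⟩ :
      Submodule.torsionBy ℤ ((W.map (Int.castRingHom ℚ))⁄Qb).Point (p : ℤ)) ∈ N := by
      rw [h]; trivial
    exact h1

theorem subgroup_aux (n : ℕ) : ∀ (G : AddSubgroup ((W.map (Int.castRingHom ℚ))⁄Qb).Point),
    Finite G → Nat.card G ≤ n →
    (∀ p : ℕ, p.Prime → p ∣ Nat.card G →
      GaloisRepIsIrreducible (K := Qb) ℚ (W.map (Int.castRingHom ℚ)) p) →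
    (∀ σ : GQ, ∀ x ∈ G, σ • x ∈ G) →
    ∃ m : ℕ, m ≠ 0 ∧ (∀ q : ℕ, q.Prime → q ∣ m → q ∣ Nat.card G) ∧ ∀ x, x ∈ G ↔ m • x = 0 := by
  induction n with
  | zero =>
    intro G hfin hcard
    have := Nat.card_pos (α := G)
    omega
  | succ n ih =>
    intro G hfin hcard hirr hst
    by_cases h1 : Nat.card G = 1
    · refine ⟨1, one_ne_zero, fun q hq hd => ?_, fun x => ?_⟩
      · exact absurd (Nat.dvd_one.mp hd) hq.one_lt.ne'
      · have hbot : G = ⊥ := AddSubgroup.card_eq_one.mp h1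
        rw [hbot, AddSubgroup.mem_bot, one_smul]
    · obtain ⟨p, hp, hpd⟩ := Nat.exists_prime_and_dvd h1
      have hfact : Fact p.Prime := ⟨hp⟩
      obtain ⟨x₀, hx₀⟩ := exists_prime_addOrderOf_dvd_card' (G := G) p hpd
      have hle := torsion_le hp (hirr p hp hpd) G ⟨x₀.1, x₀.2, fun h0 => by
          have : x₀ = 0 := Subtype.ext h0
          rw [this, addOrderOf_zero] at hx₀
          exact hp.one_lt.ne hx₀, by
          have h2 := addOrderOf_nsmul_eq_zero x₀
          rw [hx₀] at h2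
          exact congrArg Subtype.val h2⟩ hst
      let f : G →+ ((W.map (Int.castRingHom ℚ))⁄Qb).Point :=
        (nsmulAddMonoidHom p).comp G.subtype
      have hf : ∀ x : G, f x = p • (x : ((W.map (Int.castRingHom ℚ))⁄Qb).Point) := fun x => rfl
      have hfinr : Finite f.range := Finite.of_surjective _ f.rangeRestrict_surjective
      have hcardr : Nat.card f.range * Nat.card f.ker = Nat.card G := by
        rw [mul_comm, ← AddSubgroup.index_ker, mul_comm]
        exact AddSubgroup.index_mul_card _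
      have hker : 1 < Nat.card f.ker := by
        have hfink : Finite f.ker := inferInstance
        rw [Finite.one_lt_card_iff_nontrivial]
        refine ⟨⟨⟨x₀, ?_⟩, 0, ?_⟩⟩
        · rw [AddMonoidHom.mem_ker, hf]
          have h2 := addOrderOf_nsmul_eq_zero x₀
          rw [hx₀] at h2
          exact congrArg Subtype.val h2
        · intro h0
          have h2 : x₀ = 0 := congrArg Subtype.val h0
          rw [h2, addOrderOf_zero] at hx₀
          exact hp.one_lt.ne hx₀
      have hpos := Nat.card_pos (α := f.range)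
      have hdvd : Nat.card f.range ∣ Nat.card G := ⟨_, hcardr.symm⟩
      obtain ⟨m, hm0, hmq, hm⟩ := ih f.range hfinr (by nlinarith)
        (fun q hq hd => hirr q hq (hd.trans hdvd)) (by
          rintro σ _ ⟨x, rfl⟩
          refine ⟨⟨σ • (x : ((W.map (Int.castRingHom ℚ))⁄Qb).Point), hst σ x x.2⟩, ?_⟩
          rw [hf, hf]
          exact smul_comm p σ (x : ((W.map (Int.castRingHom ℚ))⁄Qb).Point))
      refine ⟨p * m, mul_ne_zero hp.ne_zero hm0, fun q hq hd => ?_, fun x => ⟨fun hx => ?_,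
        fun hx => ?_⟩⟩
      · rcases (hq.dvd_mul).mp hd with h | h
        · rwa [(Nat.prime_dvd_prime_iff_eq hq hp).mp h]
        · exact (hmq q hq h).trans hdvd
      · have h2 : p • x ∈ f.range := ⟨⟨x, hx⟩, rfl⟩
        rw [mul_comm, mul_smul]
        exact (hm _).mp h2
      · rw [mul_comm, mul_smul] at hx
        obtain ⟨y, hy⟩ := (hm _).mpr hx
        rw [hf] at hy
        have h2 : x - y ∈ G := hle _ (by rw [nsmul_sub, hy, sub_self])
        have h3 := G.add_mem h2 y.2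
        rwa [sub_add_cancel] at h3

/-- **Rational subgroups.** Let `G` be a finite Galois stable subgroup of `W(ℚ̄)` such that `W[p]`
is irreducible for all primes `p ∣ #G`. Then `G = W[m]` for some `m`. -/
theorem exists_eq_torsion {G : AddSubgroup ((W.map (Int.castRingHom ℚ))⁄Qb).Point} [Finite G]
    (hirr : ∀ p : ℕ, p.Prime → p ∣ Nat.card G →
      GaloisRepIsIrreducible (K := Qb) ℚ (W.map (Int.castRingHom ℚ)) p)
    (hst : ∀ σ : GQ, ∀ x ∈ G, σ • x ∈ G) :
    ∃ m : ℕ, m ≠ 0 ∧ ∀ x, x ∈ G ↔ m • x = 0 := by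
  obtain ⟨m, h1, -, h2⟩ := subgroup_aux (Nat.card G) G inferInstance le_rfl hirr hst
  exact ⟨m, h1, h2⟩

/-- **Rational subgroups of semistable curves**: every finite Galois stable subgroup of order
prime to `2 · 3 · 5 · 7 · 13` is of the form `W[m]`. -/
theorem exists_eq_torsion_of_semistable (hΔ : W.Δ ≠ 0) (hss : W.IsSemistableModel)
    {G : AddSubgroup ((W.map (Int.castRingHom ℚ))⁄Qb).Point} [Finite G]
    (hG : Nat.Coprime (Nat.card G) 2730) (hst : ∀ σ : GQ, ∀ x ∈ G, σ • x ∈ G) :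
    ∃ m : ℕ, m ≠ 0 ∧ ∀ x, x ∈ G ↔ m • x = 0 := by
  refine exists_eq_torsion (fun p hp hd => ?_) hst
  have h1 : ¬ p ∣ 2730 := fun h => hp.one_lt.ne' (Nat.eq_one_of_dvd_coprimes hG hd h)
  have h13 : p ≠ 13 := by rintro rfl; exact h1 (by norm_num)
  have h11 : 11 ≤ p := by
    by_contra hlt
    have : p < 11 := by omega
    interval_cases p <;> revert h1 hp <;> decide
  exact Fermat.Agent.Cor.Mazur.irreducible hΔ hss hp h11 h13

/-- The same for subgroups of order prime to `30`, if `W` has good reduction at `2`. -/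
theorem exists_eq_torsion_of_good_two (hΔ : W.Δ ≠ 0) (hss : W.IsSemistableModel)
    (h2 : ¬ (2 : ℤ) ∣ W.Δ)
    {G : AddSubgroup ((W.map (Int.castRingHom ℚ))⁄Qb).Point} [Finite G]
    (hG : Nat.Coprime (Nat.card G) 30) (hst : ∀ σ : GQ, ∀ x ∈ G, σ • x ∈ G) :
    ∃ m : ℕ, m ≠ 0 ∧ ∀ x, x ∈ G ↔ m • x = 0 := by
  refine exists_eq_torsion (fun p hp hd => ?_) hst
  have h1 : ¬ p ∣ 30 := fun h => hp.one_lt.ne' (Nat.eq_one_of_dvd_coprimes hG hd h)
  have h7 : 7 ≤ p := by
    by_contra hlt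
    have : p < 7 := by omega
    interval_cases p <;> revert h1 hp <;> decide
  exact Fermat.Agent.Cor.H07.irreducible_of_good_two hΔ hss h2 hp h7

/-- **Rational isogenies**: a Galois equivariant homomorphism with finite kernel of order prime to
`2 · 3 · 5 · 7 · 13` between elliptic curves over `ℚ`, the first semistable, has kernel `W[m]`. -/
theorem isog_ker {W' : WeierstrassCurve ℤ}
    {φ : ((W.map (Int.castRingHom ℚ))⁄Qb).Point →+ ((W'.map (Int.castRingHom ℚ))⁄Qb).Point}
    (hφ : H09I.IsIsog W W' φ) (hΔ : W.Δ ≠ 0) (hss : W.IsSemistableModel)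
    (hG : Nat.Coprime (Nat.card φ.ker) 2730) :
    ∃ m : ℕ, m ≠ 0 ∧ ∀ x, φ x = 0 ↔ m • x = 0 := by
  have := hφ.ker
  exact exists_eq_torsion_of_semistable hΔ hss (G := φ.ker) hG (fun σ x hx => by
    rw [AddMonoidHom.mem_ker] at hx ⊢
    rw [hφ.equiv, hx]
    rfl)

end Fermat.Agent.Cor.H09S
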