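import Fermat.Agent.Cor.H13MW4
import Fermat.Agent.H11N.Tors
import Fermat.Agent.H22.CharK

/-!
# The Hecke algebra of cusp forms acts on `J_0(N)(Qb)`

Every polynomial relation between the Hecke operators on `S_2(Γ_0(N))` holds on the whole group
`J_0(N)(Qb) = Pic⁰`: it kills the torsion (root characters), hence, by the Mordell–Weil theorem over
number fields, everything.
-/

set_option autoImplicit false
set_option linter.unusedSectionVars false

noncomputable section

namespace Fermat.Agent.Cor.H13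

open AlgebraicCurve ModularCurve Fermat.Agent.H11N CongruenceSubgroup

local notation "GQ" => AlgebraicClosure ℚ ≃ₐ[ℚ] AlgebraicClosure ℚ

/-- an element of a finitely generated abelian group which is divisible by all `n` vanishes -/
theorem eq_zero_of_divisible {A : Type*} [AddCommGroup A] [AddGroup.FG A] {z : A}
    (h : ∀ n : ℕ, n ≠ 0 → ∃ w : A, n • w = z) : z = 0 := by
  obtain ⟨r, ι, _, p, hp, e, ⟨φ⟩⟩ := AddCommGroup.equiv_free_prod_directSum_zmod A
  rw [← φ.map_eq_zero_iff]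
  have h' : ∀ n : ℕ, n ≠ 0 → ∃ w, n • w = φ z := by
    intro n hn
    obtain ⟨w, rfl⟩ := h n hn
    exact ⟨φ w, (map_nsmul φ n w).symm⟩
  refine Prod.ext ?_ ?_
  · ext i
    obtain ⟨w, hw⟩ := h' ((φ z).1 i).natAbs.succ (Nat.succ_ne_zero _)
    have h1 : (((φ z).1 i).natAbs.succ : ℤ) * w.1 i = (φ z).1 i := by
      have := congrArg (fun u => u.1 i) hw
      simpa [nsmul_eq_mul] using this
    by_contra hne
    have hne' : (φ z).1 i ≠ 0 := hne
    have h2 : ((((φ z).1 i).natAbs.succ : ℕ) : ℤ) ∣ (φ z).1 i := ⟨w.1 i, h1.symm⟩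
    have h3 := Int.natCast_dvd.mp h2
    have h4 := Nat.le_of_dvd (Int.natAbs_pos.mpr hne') h3
    omega
  · obtain ⟨w, hw⟩ := h' (∏ i, p i ^ e i) (Finset.prod_ne_zero_iff.mpr fun i _ =>
      pow_ne_zero _ (hp i).ne_zero)
    have h1 : (φ z).2 = (∏ i, p i ^ e i) • w.2 := (congrArg Prod.snd hw).symm
    rw [h1]
    ext i
    have h2 : (((∏ i, p i ^ e i) • w.2 : DirectSum ι fun i => ZMod (p i ^ e i)) i) =
        (∏ i, p i ^ e i) • (w.2 i) := by
      rfl
    rw [h2, nsmul_eq_mul]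
    have h3 : ((∏ i, p i ^ e i : ℕ) : ZMod (p i ^ e i)) = 0 :=
      (ZMod.natCast_eq_zero_iff _ _).mpr (Finset.dvd_prod_of_mem _ (Finset.mem_univ i))
    rw [h3, zero_mul]
    rfl

/-- every point of `J_0(N)` is defined over a number field -/
theorem exists_field (N : ℕ) [NeZero N] (x : JZero N) :
    ∃ E : IntermediateField ℚ (AlgebraicClosure ℚ), FiniteDimensional ℚ E ∧ x ∈ JPts N E := by
  obtain ⟨U, hU, hU'⟩ := H12.exists_open_pic0 (modularFunctionFieldFull N) x
  obtain ⟨E, hE, hEU⟩ := (krullTopology_mem_nhds_one_iff ℚ (AlgebraicClosure ℚ) (U : Set GQ)).mp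
    (hU.mem_nhds U.one_mem)
  exact ⟨E, hE, fun σ => hU' _ (hEU σ.2)⟩

/-- **Relations between Hecke operators on cusp forms hold on `J_0(N)(Qb)`.** -/
theorem heckeJ_eq_zero {N : ℕ} [NeZero N] {t : HeckeAlg}
    (ht : CuspForm.heckeEvalForms N 2 t = 0) (x : JZero N) : heckeJ N t x = 0 := by
  obtain ⟨E, hE, hx⟩ := exists_field N x
  have hFG := mordellWeil_JZero N E
  have hdiv : ∀ n : ℕ, n ≠ 0 → ∃ w : JPts N E, (n • (w : JZero N)) = heckeJ N t x := by
    intro n hn
    obtain ⟨y, rfl⟩ := exists_nsmul_eq hn x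
    have hfix : ∀ σ : E.fixingSubgroup, σ • heckeJ N t y = heckeJ N t y := by
      intro σ
      have h1 : n • ((σ : GQ) • y - y) = 0 := by
        have h2 : (σ : GQ) • (n • y) = n • y := hx σ
        have h4 : (σ : GQ) • (n • y) = n • ((σ : GQ) • y) :=
          map_nsmul (DistribSMul.toAddMonoidHom (JZero N) (σ : GQ)) n y
        rw [nsmul_sub, ← h4, h2, sub_self]
      have h3 := heckeJ_torsion ht hn h1
      rw [map_sub, heckeJ_smul, sub_eq_zero] at h3
      exact h3
    exact ⟨⟨heckeJ N t y, hfix⟩, (map_nsmul _ _ _).symm⟩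
  have hmem : heckeJ N t x ∈ JPts N E := by
    obtain ⟨w, hw⟩ := hdiv 1 one_ne_zero
    rw [one_smul] at hw
    rw [← hw]
    exact w.2
  have h0 : (⟨heckeJ N t x, hmem⟩ : JPts N E) = 0 :=
    eq_zero_of_divisible fun n hn => by
      obtain ⟨w, hw⟩ := hdiv n hn
      exact ⟨w, Subtype.ext hw⟩
  exact congrArg Subtype.val h0

/-- **The action of the Hecke algebra of `S_2(Γ_0(N))` on `J_0(N)(Qb)`.** -/
def actJ (N : ℕ) [NeZero N] : CuspForm.heckeAlgebra N 2 ∅ →+* Module.End ℤ (JZero N) :=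
  RingHom.liftOfSurjective (CuspForm.heckeEvalForms N 2) H22.heckeEvalForms_surjective
    ⟨heckeJ N, fun t ht => by
      rw [RingHom.mem_ker] at ht ⊢
      ext x
      exact heckeJ_eq_zero ht x⟩

theorem actJ_heckeEvalForms (N : ℕ) [NeZero N] (t : HeckeAlg) :
    actJ N (CuspForm.heckeEvalForms N 2 t) = heckeJ N t :=
  RingHom.liftOfRightInverse_comp_apply _ _ _ _ _

/-- `actJ` is the action of the Hecke correspondences. -/
theorem actJ_gen (N : ℕ) [NeZero N] (l : Nat.Primes) :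
    actJ N (CuspForm.heckeFormsGen N 2 l) = heckeOperatorBar N l := by
  rw [← CuspForm.heckeEvalForms_heckeGen, actJ_heckeEvalForms, heckeJ_gen]

/-- the Hecke action commutes with the Galois action -/
theorem actJ_smul (N : ℕ) [NeZero N] (σ : GQ) (t : CuspForm.heckeAlgebra N 2 ∅) (x : JZero N) :
    actJ N t (σ • x) = σ • actJ N t x := by
  obtain ⟨s, rfl⟩ := H22.heckeEvalForms_surjective t
  rw [actJ_heckeEvalForms, heckeJ_smul]

end Fermat.Agent.Cor.H13
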