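import Fermat.Agent.Cor.H13Hecke
import Fermat.Agent.H22.Transport
import Fermat.Agent.Descent.Input2
import Fermat.Agent.H16.Separation

/-!
# The Hecke algebra of `S_2(Γ_0(N))` acts faithfully on `J_0(N)(Qb)`
-/

set_option autoImplicit false
set_option linter.unusedSectionVars false
set_option maxSynthPendingDepth 3
set_option synthInstance.maxHeartbeats 400000
set_option linter.style.haveILetI false

noncomputable section

namespace Fermat.Agent.Cor.H13

open AlgebraicCurve ModularCurve CongruenceSubgroup Fermat.Agent.H11N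

/-- an element of a finite free `ℤ`-module divisible by all powers of `2` vanishes -/
theorem eq_zero_of_two_pow {A : Type*} [AddCommGroup A] [IsAddTorsionFree A] [Module.Finite ℤ A]
    {z : A} (h : ∀ n : ℕ, ∃ w : A, z = (2 ^ n : ℕ) • w) : z = 0 := by
  have hfree : Module.Free ℤ A := inferInstance
  let b := Module.Free.chooseBasis ℤ A
  rw [← b.repr.map_eq_zero_iff]
  ext i
  obtain ⟨w, hw⟩ := h (b.repr z i).natAbs
  have h1 : b.repr z i = ((2 ^ (b.repr z i).natAbs : ℕ) : ℤ) * b.repr w i := by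
    conv_lhs => rw [hw]
    rw [map_nsmul, Finsupp.smul_apply, nsmul_eq_mul]
  by_contra hne
  have hne' : b.repr z i ≠ 0 := hne
  have h2 : ((2 ^ (b.repr z i).natAbs : ℕ) : ℤ) ∣ b.repr z i := ⟨_, h1⟩
  have h3 := Nat.le_of_dvd (Int.natAbs_pos.mpr hne') (Int.natCast_dvd.mp h2)
  have h4 := Nat.lt_two_pow_self (n := (b.repr z i).natAbs)
  omega

set_option maxHeartbeats 1600000 in
theorem formsPartActAway_eq_zero [Algebra (AlgebraicClosure ℚ) ℂ] {N : ℕ} [NeZero N] (m : ℕ)
    [NeZero m] {x : CuspForm.heckeAlgebra N 2 ∅} (hx : actJ N x = 0) :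
    H22.formsPartActAway N (H26.torAct N m) ∅ x = 0 := by
  obtain ⟨t, ht⟩ := H22.heckeEvalForms_surjective x
  have ht' : (CuspForm.heckeEvalForms N 2 t : Module.End ℂ (CuspForm (Gamma0 N) 2)) = x := by
    rw [ht]
  have hJ : heckeJ N t = 0 := by rw [← actJ_heckeEvalForms, ht, hx]
  refine LinearMap.ext fun w => Subtype.ext (Subtype.ext ?_)
  have h1 := H22.formsPartActAway_apply (H26.torAct N m) x t ht' w
  have h2 : ((H26.torAct N m t (w : H26.Tor N m) : H26.Tor N m) : JZero N) =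
      heckeJ N t ((w : H26.Tor N m) : JZero N) := coe_torAct_eq (N := N) t _
  rw [h1, h2, hJ]
  rfl

theorem exists_eq_pow_smul {N : ℕ} [NeZero N] {p : ℕ} (hp : p.Prime)
    {x : CuspForm.heckeAlgebra N 2 ∅} (hx : actJ N x = 0) (n : ℕ) :
    ∃ s : CuspForm.heckeAlgebra N 2 ∅, x = (p ^ n : ℕ) • s := by
  letI : Algebra (AlgebraicClosure ℚ) ℂ :=
    (IsAlgClosed.lift : AlgebraicClosure ℚ →ₐ[ℚ] ℂ).toRingHom.toAlgebra
  obtain ⟨m, -, hm⟩ := H22.exists_transport (N := N) ∅ hp n
  have hpm : p ^ m ≠ 0 := pow_ne_zero _ hp.ne_zero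
  have : NeZero (p ^ m) := ⟨hpm⟩
  have hζ0 := Complex.isPrimitiveRoot_exp (p ^ m) hpm
  have hζ : IsPrimitiveRoot (hζ0.isUnit hpm).unit (p ^ m) := IsPrimitiveRoot.coe_units_iff.mp hζ0
  exact hm (H26.torAct N (p ^ m)) (H26.zetaHom (hζ0.isUnit hpm).unit)
    (fun k hk => (hζ.zpow_eq_one_iff_dvd k).mp (Additive.ofMul.injective hk))
    (H26.kappa N (p ^ m)) H26.kappa_injective
    (fun ℓ w => by rw [H26.torAct_heckeGen, H26.kappa_heckeTor])
    (fun ψ hψ => H26.exists_kappa_eq (H26.surjC N hpm) hζ hψ) x (formsPartActAway_eq_zero _ hx)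

/-- **The Hecke algebra of `S_2(Γ_0(N))` acts faithfully on `J_0(N)(Qb)`.** -/
theorem actJ_injective (N : ℕ) [NeZero N] : Function.Injective (actJ N) := by
  have hfin : Module.Finite ℤ (CuspForm.heckeAlgebra N 2 ∅) := H16.moduleFinite_heckeAlgebra N 2 ∅
  rw [injective_iff_map_eq_zero]
  intro x hx
  exact eq_zero_of_two_pow fun n => exists_eq_pow_smul Nat.prime_two hx n

end Fermat.Agent.Cor.H13
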