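import Fermat.Agent.Cor.H13Hecke
import Fermat.Agent.M5.CuspCases
import Fermat.Agent.M5.Main
import Fermat.Agent.H19.HeckeBound
import Fermat.Agent.H16.Separation

/-!
# The theorem of Manin and Drinfeld

A point `x` of `J_0(N)` with `T_ℓ x = (ℓ + 1) x` for one prime `ℓ ∤ N` is torsion; in particular the
classes of the differences of the cusps `w_Q(∞)` (`Q` an exact divisor of `N`) are torsion. If `N` is
squarefree these are all the cusps.
-/

set_option autoImplicit false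
set_option linter.unusedSectionVars false

noncomputable section

namespace Fermat.Agent.Cor.H13

open AlgebraicCurve ModularCurve CongruenceSubgroup Polynomial Fermat.Agent.M5

variable {N : ℕ} [NeZero N] {ℓ : ℕ}

/-- `T_ℓ - (ℓ + 1)` is injective on cusp forms of weight two -/
theorem eq_zero_of_heckeT (hℓ : ℓ.Prime) (hℓN : ¬ ℓ ∣ N) {v : CuspForm (Gamma0 N) 2}
    (h : CuspForm.heckeTLin 2 hℓ hℓN v = ((ℓ : ℂ) + 1) • v) : v = 0 := by
  by_contra hv
  have h1 := H19.norm_lt_of_heckeT hv hℓ.one_lt (a := (ℓ : ℂ) + 1) fun τ => DFunLike.congr_fun h τ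
  have h2 : ‖(ℓ : ℂ) + 1‖ = ℓ + 1 := by
    have : (ℓ : ℂ) + 1 = ((ℓ + 1 : ℕ) : ℂ) := by push_cast; ring
    rw [this, Complex.norm_natCast]
    push_cast; ring
  linarith

/-- there is an integral polynomial killing `T_ℓ` but not vanishing at `ℓ + 1` -/
theorem exists_poly (hℓ : ℓ.Prime) (hℓN : ¬ ℓ ∣ N) : ∃ f : ℤ[X],
    Polynomial.aeval (CuspForm.heckeAlgebra.T (k := 2) (S := ∅) hℓ hℓN (Set.notMem_empty _)) f = 0 ∧
      f.eval ((ℓ : ℤ) + 1) ≠ 0 := by
  have hfin : Module.Finite ℤ (CuspForm.heckeAlgebra N 2 ∅) := H16.moduleFinite_heckeAlgebra N 2 ∅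
  set T := CuspForm.heckeAlgebra.T (k := 2) (S := ∅) hℓ hℓN (Set.notMem_empty ℓ) with hT
  obtain ⟨g, hgm, hg⟩ := Algebra.IsIntegral.isIntegral (R := ℤ) T
  obtain ⟨h, hgh, hndvd⟩ := Polynomial.exists_eq_pow_rootMultiplicity_mul_and_not_dvd g
    hgm.ne_zero ((ℓ : ℤ) + 1)
  refine ⟨h, ?_, fun h0 => hndvd (Polynomial.dvd_iff_isRoot.mpr h0)⟩
  set k := g.rootMultiplicity ((ℓ : ℤ) + 1) with hk
  set D : CuspForm.heckeAlgebra N 2 ∅ := T - algebraMap ℤ _ ((ℓ : ℤ) + 1) with hD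
  have hDinj : ∀ v : CuspForm (Gamma0 N) 2,
      (D : Module.End ℂ (CuspForm (Gamma0 N) 2)) v = 0 → v = 0 := by
    intro v hv
    apply eq_zero_of_heckeT hℓ hℓN
    have h1 : (D : Module.End ℂ (CuspForm (Gamma0 N) 2)) v =
        CuspForm.heckeTLin 2 hℓ hℓN v - ((ℓ : ℂ) + 1) • v := by
      have h2 : (D : Module.End ℂ (CuspForm (Gamma0 N) 2)) =
          CuspForm.heckeTLin 2 hℓ hℓN - algebraMap ℤ (Module.End ℂ (CuspForm (Gamma0 N) 2))
            ((ℓ : ℤ) + 1) := rfl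
      rw [h2, LinearMap.sub_apply]
      congr 1
      rw [eq_intCast, Module.End.intCast_apply, ← Int.cast_smul_eq_zsmul ℂ]
      push_cast
      rfl
    rw [h1, sub_eq_zero] at hv
    exact hv
  have hDpow : ∀ (n : ℕ) (v : CuspForm (Gamma0 N) 2),
      ((D ^ n : CuspForm.heckeAlgebra N 2 ∅) : Module.End ℂ (CuspForm (Gamma0 N) 2)) v = 0 →
        v = 0 := by
    intro n
    induction n with
    | zero => intro v hv; exact hv
    | succ n ih =>
      intro v hv
      apply ih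
      apply hDinj
      rw [pow_succ'] at hv
      exact hv
  have h1 : D ^ k * Polynomial.aeval T h = 0 := by
    have h2 : Polynomial.aeval T g = 0 := hg
    rw [hgh, map_mul, map_pow, map_sub, Polynomial.aeval_X, Polynomial.aeval_C] at h2
    exact h2
  apply Subtype.ext
  ext1 v
  have h2 := congrArg (fun x : CuspForm.heckeAlgebra N 2 ∅ =>
    (x : Module.End ℂ (CuspForm (Gamma0 N) 2)) v) h1
  exact hDpow k _ h2

/-- evaluation of a polynomial in an endomorphism on an eigenvector -/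
theorem aeval_eigen {A : Type*} [AddCommGroup A] {φ : Module.End ℤ A} {x : A} {a : ℤ}
    (h : φ x = a • x) (f : ℤ[X]) : Polynomial.aeval φ f x = f.eval a • x := by
  induction f using Polynomial.induction_on' with
  | add p q hp hq => rw [map_add, LinearMap.add_apply, hp, hq, Polynomial.eval_add, add_smul]
  | monomial n c =>
    rw [Polynomial.aeval_monomial, Polynomial.eval_monomial]
    have h1 : ∀ m : ℕ, (φ ^ m) x = a ^ m • x := by
      intro m
      induction m with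
      | zero => simp
      | succ m ih => rw [pow_succ', Module.End.mul_apply, ih, map_zsmul, h, ← mul_smul, pow_succ]
    rw [Module.End.mul_apply, h1, Module.algebraMap_end_apply, ← mul_smul]

/-- **Eisenstein points of `J_0(N)(Qb)` are torsion.** -/
theorem torsion_of_hecke (l : Nat.Primes) (hl : ¬ (l : ℕ) ∣ N) :
    ∃ m : ℕ, 0 < m ∧ ∀ x : JZero N,
      heckeOperatorBar N l x = (1 + ((l : ℕ) : ℤ)) • x → m • x = 0 := by
  obtain ⟨f, hf, hf0⟩ := exists_poly (N := N) l.2 hl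
  refine ⟨(f.eval (((l : ℕ) : ℤ) + 1)).natAbs, Int.natAbs_pos.mpr hf0, fun x hx => ?_⟩
  have h1 : actJ N (CuspForm.heckeAlgebra.T l.2 hl (Set.notMem_empty _)) = heckeOperatorBar N l := by
    rw [← CuspForm.heckeFormsGen_of_not_dvd hl, actJ_gen]
  have h2 : Polynomial.aeval (heckeOperatorBar N l) f = 0 := by
    rw [← h1]
    have h3 := Polynomial.aeval_algHom_apply (actJ N).toIntAlgHom
      (CuspForm.heckeAlgebra.T l.2 hl (Set.notMem_empty _)) f
    rw [hf, map_zero] at h3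
    exact h3
  have h3 := aeval_eigen (a := ((l : ℕ) : ℤ) + 1) (by rw [hx, add_comm]) f
  rw [h2, LinearMap.zero_apply] at h3
  have h4 : ((f.eval (((l : ℕ) : ℤ) + 1)).natAbs : ℤ) • x = 0 := by
    rcases Int.natAbs_eq (f.eval (((l : ℕ) : ℤ) + 1)) with h5 | h5
    · rw [← h5]; exact h3.symm
    · have h6 : ((f.eval (((l : ℕ) : ℤ) + 1)).natAbs : ℤ) = -f.eval (((l : ℕ) : ℤ) + 1) := by
        omega
      rw [h6, neg_smul, ← h3, neg_zero]
  rwa [natCast_zsmul] at h4

theorem exists_prime_not_dvd (N : ℕ) [NeZero N] : ∃ l : Nat.Primes, ¬ (l : ℕ) ∣ N := by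
  obtain ⟨p, hp, hpp⟩ := Nat.exists_infinite_primes (N + 1)
  exact ⟨⟨p, hpp⟩, fun h => by
    have := Nat.le_of_dvd (NeZero.pos N) h
    change p ≤ N at this
    omega⟩

/-- **The theorem of Manin and Drinfeld** for the cusps `w_Q(∞)` of `X_0(N)`: the class of
`w_Q(∞) - w_Q'(∞)` in `J_0(N)` is torsion, for arbitrary `N` and exact divisors `Q`, `Q'` of `N`. -/
theorem manin_drinfeld {M Q M' Q' : ℕ} [NeZero M] [NeZero Q] [NeZero M'] [NeZero Q']
    (h : M * Q = N) (hQM : Nat.Coprime Q M) (h' : M' * Q' = N) (hQM' : Nat.Coprime Q' M') :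
    ∃ m : ℕ, 0 < m ∧ m • (cl (AlgebraicClosure ℚ) (cW (AlgebraicClosure ℚ) h hQM)
      (cW (AlgebraicClosure ℚ) h' hQM') : JZero N) = 0 := by
  obtain ⟨l, hl⟩ := exists_prime_not_dvd N
  obtain ⟨m, hm, H⟩ := torsion_of_hecke (N := N) l hl
  refine ⟨m, hm, H _ ?_⟩
  have : Fact (l : ℕ).Prime := ⟨l.2⟩
  rw [heckeOperatorBar_apply, cl]
  apply heckeOperatorAlong_mk_of
  change heckeDivBar _ _ (Finsupp.single (cW (AlgebraicClosure ℚ) h hQM) 1 -
    Finsupp.single (cW (AlgebraicClosure ℚ) h' hQM') 1) = _ •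
    (Finsupp.single (cW (AlgebraicClosure ℚ) h hQM) 1 -
      Finsupp.single (cW (AlgebraicClosure ℚ) h' hQM') 1)
  rw [map_sub, smul_sub, heckeDivBar_cW _ _ hl, heckeDivBar_cW _ _ hl]

/-- the class `(0) - (∞)` is torsion in `J_0(N)`, for every `N` -/
theorem manin_drinfeld_zero_inf (N : ℕ) [NeZero N] :
    ∃ m : ℕ, 0 < m ∧ m • (cuspClass (AlgebraicClosure ℚ) N : JZero N) = 0 := by
  rw [cuspClass, cInf_eq_cW, cZero]
  exact manin_drinfeld _ _ _ _

section Squarefree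

theorem dedekindPsi_squarefree (hN : Squarefree N) : dedekindPsi N = ∑ d ∈ N.divisors, d := by
  rw [dedekindPsi, Finset.filter_true_of_mem fun d hd =>
    hN.squarefree_of_dvd (Nat.dvd_of_mem_divisors hd)]
  exact Nat.sum_div_divisors N fun d => d

/-- the cusp `w_Q(∞)`, as a function of `Q`, for squarefree level -/
def cQ (hN : Squarefree N) (Q : ℕ) : Place (AlgebraicClosure ℚ) (FB (AlgebraicClosure ℚ) N) :=
  if h : Q ∣ N then
    haveI : NeZero Q := ⟨fun h0 => NeZero.ne N (Nat.eq_zero_of_zero_dvd (h0 ▸ h))⟩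
    have : NeZero (N / Q) := ⟨(Nat.div_pos (Nat.le_of_dvd (NeZero.pos N) h)
      (NeZero.pos Q)).ne'⟩
    cW (AlgebraicClosure ℚ) (Nat.div_mul_cancel h)
      (by
        have h1 : Squarefree (Q * (N / Q)) := by rwa [Nat.mul_div_cancel' h]
        exact Nat.coprime_of_squarefree_mul h1)
  else cInf (AlgebraicClosure ℚ) N

theorem cQ_ord (hN : Squarefree N) {Q : ℕ} (h : Q ∣ N) :
    (cQ hN Q).ord (jB (AlgebraicClosure ℚ) (one_dvd N)) = -(Q : ℤ) := by
  unfold cQ
  rw [dif_pos h]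
  have : NeZero Q := ⟨fun h0 => NeZero.ne N (Nat.eq_zero_of_zero_dvd (h0 ▸ h))⟩
  have : NeZero (N / Q) := ⟨(Nat.div_pos (Nat.le_of_dvd (NeZero.pos N) h)
    (NeZero.pos Q)).ne'⟩
  exact cW_ord_jB (AlgebraicClosure ℚ) _ _

/-- **The cusps of `X_0(N)`, `N` squarefree, are the `w_Q(∞)`, `Q ∣ N`.** -/
theorem cusp_cases_squarefree (hN : Squarefree N)
    (v : Place (AlgebraicClosure ℚ) (FB (AlgebraicClosure ℚ) N))
    (hv : v.ord (jB (AlgebraicClosure ℚ) (one_dvd N)) < 0) : ∃ Q, Q ∣ N ∧ v = cQ hN Q := by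
  classical
  by_contra hcon
  push Not at hcon
  have hdeg := degree_poles_jB (AlgebraicClosure ℚ) N
  rw [dedekindPsi_squarefree hN] at hdeg
  have hinj : ∀ Q ∈ N.divisors, ∀ Q' ∈ N.divisors, cQ hN Q = cQ hN Q' → Q = Q' := by
    intro Q hQ Q' hQ' h
    have h1 := cQ_ord hN (Nat.dvd_of_mem_divisors hQ)
    have h2 := cQ_ord hN (Nat.dvd_of_mem_divisors hQ')
    rw [h, h2] at h1
    omega
  set E : Divisor (AlgebraicClosure ℚ) (FB (AlgebraicClosure ℚ) N) :=
    ∑ Q ∈ N.divisors, Finsupp.single (cQ hN Q) (Q : ℤ) with hE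
  have hEapp : ∀ w, E w = ∑ Q ∈ N.divisors, (Finsupp.single (cQ hN Q) (Q : ℤ)) w := fun w => by
    rw [hE, Finsupp.finsetSum_apply]
  have hge : 0 ≤ Divisor.degree (FF.poles (K := AlgebraicClosure ℚ)
      (jB (AlgebraicClosure ℚ) (one_dvd N)) - (E + Finsupp.single v 1)) := by
    apply degree_nonneg
    intro w
    rw [Finsupp.sub_apply, Finsupp.add_apply, FF.poles_apply]
    by_cases hw : ∃ Q, Q ∣ N ∧ w = cQ hN Q
    · obtain ⟨Q, hQ, rfl⟩ := hw
      have hQm : Q ∈ N.divisors := Nat.mem_divisors.mpr ⟨hQ, NeZero.ne N⟩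
      have h1 : E (cQ hN Q) = Q := by
        rw [hEapp, Finset.sum_eq_single Q]
        · rw [Finsupp.single_eq_same]
        · intro Q' hQ' hne
          rw [Finsupp.single_eq_of_ne]
          intro h
          exact hne (hinj Q' hQ' Q hQm h.symm)
        · intro h; exact absurd hQm h
      rw [h1, Finsupp.single_eq_of_ne (fun h => hcon Q hQ h.symm), cQ_ord hN hQ]
      simp
    · have h1 : E w = 0 := by
        rw [hEapp]
        refine Finset.sum_eq_zero fun Q hQ => ?_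
        rw [Finsupp.single_eq_of_ne]
        intro h
        exact hw ⟨Q, Nat.dvd_of_mem_divisors hQ, h⟩
      rw [h1]
      by_cases hwv : w = v
      · subst hwv
        rw [Finsupp.single_eq_same]
        have : 1 ≤ max (-w.ord (jB (AlgebraicClosure ℚ) (one_dvd N))) 0 :=
          le_max_of_le_left (by omega)
        omega
      · rw [Finsupp.single_eq_of_ne hwv]
        have : 0 ≤ max (-w.ord (jB (AlgebraicClosure ℚ) (one_dvd N))) 0 := le_max_right _ _
        omega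
  have hdegE : Divisor.degree E = ((∑ d ∈ N.divisors, d : ℕ) : ℤ) := by
    rw [hE, map_sum, Nat.cast_sum]
    refine Finset.sum_congr rfl fun Q _ => ?_
    rw [Divisor.degree_single, H05.deg_eq_one_bc (AlgebraicClosure ℚ) N]
    simp
  rw [map_sub, map_add, Divisor.degree_single, hdeg, hdegE,
    H05.deg_eq_one_bc (AlgebraicClosure ℚ) N] at hge
  push_cast at hge
  omega

/-- **Manin–Drinfeld, squarefree level**: the difference of any two cusps (places with `j = ∞`) is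
torsion in `J_0(N)`. -/
theorem manin_drinfeld_squarefree (hN : Squarefree N)
    {v w : Place (AlgebraicClosure ℚ) (FB (AlgebraicClosure ℚ) N)}
    (hv : v.ord (jB (AlgebraicClosure ℚ) (one_dvd N)) < 0)
    (hw : w.ord (jB (AlgebraicClosure ℚ) (one_dvd N)) < 0) :
    ∃ m : ℕ, 0 < m ∧ m • (cl (AlgebraicClosure ℚ) v w : JZero N) = 0 := by
  obtain ⟨Q, hQ, rfl⟩ := cusp_cases_squarefree hN v hv
  obtain ⟨Q', hQ', rfl⟩ := cusp_cases_squarefree hN w hw
  unfold cQ
  rw [dif_pos hQ, dif_pos hQ']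
  have : NeZero Q := ⟨fun h0 => NeZero.ne N (Nat.eq_zero_of_zero_dvd (h0 ▸ hQ))⟩
  have : NeZero Q' := ⟨fun h0 => NeZero.ne N (Nat.eq_zero_of_zero_dvd (h0 ▸ hQ'))⟩
  have : NeZero (N / Q) := ⟨(Nat.div_pos (Nat.le_of_dvd (NeZero.pos N) hQ)
    (NeZero.pos Q)).ne'⟩
  have : NeZero (N / Q') := ⟨(Nat.div_pos (Nat.le_of_dvd (NeZero.pos N) hQ')
    (NeZero.pos Q')).ne'⟩
  exact manin_drinfeld _ _ _ _

end Squarefree

end Fermat.Agent.Cor.H13
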