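import Fermat.Agent.MW.XCtx

/-!
# Heights over number fields

Transfer of the global hypotheses `GAV` (product formula, Northcott's property, Siegel's lemma) from a
field `k0` to a finite extension `k1`: the family of absolute values is replaced by the absolute values
`x ↦ |s i x|_v`, where the `s i` extend the embeddings of `k1` over `k0`.
-/

set_option autoImplicit false
set_option linter.unusedSectionVars false

noncomputable section

namespace Fermat.Agent.Cor.H13

open Filter Matrix Fermat.Agent.MW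

section Prod

variable {Λ ι : Type} [Fintype ι]

theorem adm_of_fib {x : Λ × ι → ℝ} (hx : ∀ i, Adm (fun v => x (v, i))) : Adm x := by
  refine ⟨fun p => (hx p.2).1 p.1, ?_⟩
  rw [Filter.eventually_cofinite]
  have h : ∀ i, {v | ¬ x (v, i) = 1}.Finite := fun i => by
    have := (hx i).2
    rwa [Filter.eventually_cofinite] at this
  refine (Set.finite_iUnion fun i => (h i).image fun v => (v, i)).subset ?_
  rintro ⟨v, i⟩ hp
  exact Set.mem_iUnion.mpr ⟨i, v, hp, rfl⟩

theorem adm_fib {x : Λ × ι → ℝ} (hx : Adm x) (i : ι) : Adm (fun v => x (v, i)) := by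
  refine ⟨fun v => hx.1 _, ?_⟩
  have h := hx.2
  rw [Filter.eventually_cofinite] at h ⊢
  exact (h.image Prod.fst).subset fun v hv => ⟨(v, i), hv, rfl⟩

theorem hh_fib {x : Λ × ι → ℝ} (hx : Adm x) : hh x = ∑ i, hh (fun v => x (v, i)) := by
  unfold hh
  rw [finsum_curry _ hx.fin_log]
  rw [← finsum_sum_comm Finset.univ _ fun i _ => (adm_fib hx i).fin_log]
  exact finsum_congr fun v => finsum_eq_sum_of_fintype _

theorem adm_finProd {x : ι → Λ → ℝ} (hx : ∀ i, Adm (x i)) : Adm (fun v => ∏ i, x i v) := by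
  refine ⟨fun v => Finset.prod_pos fun i _ => (hx i).1 v, ?_⟩
  have : ∀ᶠ v in cofinite, ∀ i, x i v = 1 := eventually_all.mpr fun i => (hx i).2
  filter_upwards [this] with v hv
  simp [hv]

theorem hh_finProd {x : ι → Λ → ℝ} (hx : ∀ i, Adm (x i)) :
    hh (fun v => ∏ i, x i v) = ∑ i, hh (x i) := by
  unfold hh
  rw [← finsum_sum_comm Finset.univ _ fun i _ => (hx i).fin_log]
  exact finsum_congr fun v => Real.log_prod fun i _ => ((hx i).1 v).ne'

theorem hh_fib' {x : Λ × ι → ℝ} (hx : Adm x) : hh x = hh (fun v => ∏ i, x (v, i)) := by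
  rw [hh_fib hx, hh_finProd fun i => adm_fib hx i]

end Prod

variable {K : Type*} [Field K]

/-- the transported family of absolute values -/
def AVs (Vf : AVF K) {ι : Type} [Finite ι] (s : ι → K →+* K) : AVF K where
  Λ := Vf.Λ × ι
  av p := (Vf.av p.1).comp (s p.2).injective
  nonarch := by
    have h := Vf.nonarch
    rw [Filter.eventually_cofinite] at h ⊢
    refine (Set.finite_iUnion fun i : ι => h.image fun v => (v, i)).subset ?_
    rintro ⟨v, i⟩ hp
    refine Set.mem_iUnion.mpr ⟨i, v, fun hv => hp ?_, rfl⟩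
    intro x y
    show Vf.av v (s i (x + y)) ≤ max (Vf.av v (s i x)) (Vf.av v (s i y))
    rw [map_add]
    exact hv _ _
  fin x hx := by
    have h : ∀ i, {v | ¬ Vf.av v (s i x) = 1}.Finite := fun i => by
      have := Vf.fin (s i x) ((map_ne_zero (s i)).mpr hx)
      rwa [Filter.eventually_cofinite] at this
    rw [Filter.eventually_cofinite]
    refine (Set.finite_iUnion fun i : ι => (h i).image fun v => (v, i)).subset ?_
    rintro ⟨v, i⟩ hp
    exact Set.mem_iUnion.mpr ⟨i, v, hp, rfl⟩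

theorem HH_comp {m n : Type*} [Fintype m] [DecidableEq m] [Finite n] (v : AbsoluteValue K ℝ)
    (s : K →+* K) (A : Matrix m n K) :
    HH (v.comp s.injective) A = HH v (A.map s) := by
  unfold HH
  congr 1
  funext f
  have h1 : ((A.map s).submatrix id f).det = s (A.submatrix id f).det := by
    rw [RingHom.map_det]
    rfl
  rw [h1]
  rfl

theorem HH_cols {m n n' : Type*} [Fintype m] [DecidableEq m] [Fintype n] [Fintype n']
    (v : AbsoluteValue K ℝ) (A : Matrix m n K) (e : n' ≃ n) :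
    HH v (A.submatrix id e) = HH v A := by
  apply le_antisymm
  · refine HH_le v _ (HH_nonneg v A) fun f => ?_
    exact le_HH v A (e ∘ f)
  · refine HH_le v _ (HH_nonneg v _) fun f => ?_
    have : (A.submatrix id f) = (A.submatrix id e).submatrix id (e.symm ∘ f) := by
      ext i j; simp
    rw [this]
    exact le_HH v (A.submatrix id e) _

theorem nrm_equiv {n n' : Type*} [Finite n] [Finite n'] (v : AbsoluteValue K ℝ) (x : n → K)
    (e : n' ≃ n) : nrm v (x ∘ e) = nrm v x := by
  apply le_antisymm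
  · exact nrm_le _ _ (nrm_nonneg _ _) fun i => le_nrm v x _
  · refine nrm_le _ _ (nrm_nonneg _ _) fun i => ?_
    have := le_nrm v (x ∘ e) (e.symm i)
    simpa using this

/-- Siegel's lemma with arbitrary index types -/
theorem siegel_fintype {Vf : AVF K} {k0 : Subfield K} (G : GAV Vf k0) (a b : Type)
    [Fintype a] [DecidableEq a] [Fintype b] [Nonempty a] :
    ∃ C : ℝ, ∀ M : Matrix a b K, (∀ i j, M i j ∈ k0) → LinearIndependent K M.row →
      ∃ x : a → K, (∀ i, x i ∈ k0) ∧ x ≠ 0 ∧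
        Fintype.card a * hh (fun v => nrm (Vf.av v) (x ᵥ* M)) ≤
          hh (fun v => HH (Vf.av v) M) + C := by
  classical
  obtain ⟨C, hC⟩ := G.siegel (Fintype.card a) (Fintype.card b) Fintype.card_pos
  refine ⟨C, fun M hM hli => ?_⟩
  let ea : Fin (Fintype.card a) ≃ a := (Fintype.equivFin a).symm
  let eb : Fin (Fintype.card b) ≃ b := (Fintype.equivFin b).symm
  obtain ⟨f, hf⟩ := exists_det_ne_zero M hli
  have hHH : ∀ v, HH (Vf.av v) (M.submatrix ea eb) = HH (Vf.av v) M := by
    intro v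
    have h1 : M.submatrix ea eb = (M.submatrix ea id).submatrix id eb := by
      ext i j; rfl
    rw [h1, HH_cols, HH_reindex]
  obtain ⟨v0⟩ := G.ne
  have hli' : LinearIndependent K (M.submatrix ea eb).row := by
    rw [← HH_ne_zero_iff (Vf.av v0), hHH]
    exact (HH_ne_zero_iff _ _).mpr hli
  obtain ⟨x, hx, hx0, hle⟩ := hC (M.submatrix ea eb) (fun i j => hM _ _) hli'
  refine ⟨x ∘ ea.symm, fun i => hx _, fun h => hx0 ?_, ?_⟩
  · funext i
    have := congrFun h (ea i)
    simpa using this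
  · have h1 : x ᵥ* (M.submatrix ea eb) = ((x ∘ ea.symm) ᵥ* M) ∘ eb := by
      funext j
      simp only [Matrix.vecMul, dotProduct, Function.comp]
      rw [← Equiv.sum_comp ea]
      simp [Matrix.submatrix_apply]
    have h2 : ∀ v, nrm (Vf.av v) (x ᵥ* (M.submatrix ea eb)) =
        nrm (Vf.av v) ((x ∘ ea.symm) ᵥ* M) := fun v => by
      rw [h1, nrm_equiv]
    simp only [h2, hHH] at hle
    exact hle

/-- data describing a finite separable extension `k1 / k0` inside `K` -/
structure ExtData (k0 k1 : Subfield K) (ι : Type) [Fintype ι] [DecidableEq ι] where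
  s : ι → K →+* K
  ω : ι → K
  fix0 : ∀ i, ∀ x ∈ k0, s i x = x
  ω_mem : ∀ i, ω i ∈ k1
  span : ∀ x ∈ k1, ∃ c : ι → K, (∀ i, c i ∈ k0) ∧ x = ∑ i, c i * ω i
  det_ne : (Matrix.of fun i k => s k (ω i)).det ≠ 0
  le : k0 ≤ k1
  i0 : ι
  hi0 : ∀ x ∈ k1, s i0 x = x
  sym : ∀ x ∈ k1, ∀ n, (∏ i, (Polynomial.X - Polynomial.C (s i x))).coeff n ∈ k0

namespace ExtData

variable {k0 k1 : Subfield K} {ι : Type} [Fintype ι] [DecidableEq ι] (E : ExtData k0 k1 ι)
variable {Vf : AVF K}

/-- the matrix of the embeddings -/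
def Om : Matrix ι ι K := Matrix.of fun i k => E.s k (E.ω i)

theorem prod_mem {x : K} (hx : x ∈ k1) : ∏ i, E.s i x ∈ k0 := by
  have h := E.sym x hx 0
  rw [Polynomial.coeff_zero_eq_eval_zero, Polynomial.eval_prod] at h
  simp only [Polynomial.eval_sub, Polynomial.eval_X, Polynomial.eval_C, zero_sub] at h
  rw [Finset.prod_neg] at h
  rcases neg_one_pow_eq_or K (Finset.univ : Finset ι).card with h1 | h1
  · rwa [h1, one_mul] at h
  · rw [h1, neg_one_mul] at h
    have := neg_mem h
    rwa [neg_neg] at this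

theorem eq_zero {c : ι → K} (hc : ∀ i, c i ∈ k0) (h : ∑ i, c i * E.ω i = 0) : c = 0 := by
  have h1 : c ᵥ* E.Om = 0 := by
    funext k
    have h2 := congrArg (E.s k) h
    rw [map_sum, map_zero] at h2
    simp only [map_mul] at h2
    rw [Pi.zero_apply, ← h2]
    simp only [Matrix.vecMul, dotProduct]
    refine Finset.sum_congr rfl fun i _ => ?_
    rw [E.fix0 k _ (hc i)]
    rfl
  by_contra hne
  exact E.det_ne (Matrix.exists_vecMul_eq_zero_iff.mp ⟨c, hne, h1⟩)

theorem pf (G : GAV Vf k0) {x : K} (hx : x ∈ k1) (hx0 : x ≠ 0) :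
    hh (fun p => (AVs Vf E.s).av p x) = 0 := by
  have hadm : Adm (fun p => (AVs Vf E.s).av p x) := adm_av _ hx0
  rw [show hh (fun p => (AVs Vf E.s).av p x) =
    hh (Λ := Vf.Λ × ι) (fun p => Vf.av p.1 (E.s p.2 x)) from rfl,
    hh_fib' (show Adm (fun p : Vf.Λ × ι => Vf.av p.1 (E.s p.2 x)) from hadm)]
  have h1 : (fun v => ∏ i, Vf.av v (E.s i x)) = fun v => Vf.av v (∏ i, E.s i x) := by
    funext v
    rw [map_prod]
  show hh (fun v => ∏ i, Vf.av v (E.s i x)) = 0
  rw [h1]
  exact G.pf _ (E.prod_mem hx) (Finset.prod_ne_zero_iff.mpr fun i _ => (map_ne_zero _).mpr hx0)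

theorem north (G : GAV Vf k0) (B : ℝ) :
    {x ∈ k1 | hh (fun p => max 1 ((AVs Vf E.s).av p x)) ≤ B}.Finite := by
  classical
  set d := Fintype.card ι with hd
  set B' : ℝ := hh (fun v => kap (Vf.av v) 2 ^ d) + B with hB'
  set U : Set K := {x ∈ k0 | hh (fun v => max 1 (Vf.av v x)) ≤ B'} with hU
  have hUfin : U.Finite := G.north B'
  have hfin := Polynomial.bUnion_roots_finite (RingHom.id K) d hUfin
  refine hfin.subset ?_
  rintro x ⟨hx, hxB⟩
  have hadm1 : ∀ y : K, Adm (fun v => max 1 (Vf.av v y)) := by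
    intro y
    refine ⟨fun v => lt_of_lt_of_le one_pos (le_max_left _ _), ?_⟩
    by_cases hy : y = 0
    · simp [hy]
    · filter_upwards [Vf.fin _ hy] with v hv
      rw [hv, max_self]
  have hadm : Adm (fun p : Vf.Λ × ι => max 1 (Vf.av p.1 (E.s p.2 x))) :=
    adm_of_fib fun i => hadm1 (E.s i x)
  have hxB' : hh (fun v => ∏ i, max 1 (Vf.av v (E.s i x))) ≤ B := by
    have := hh_fib' hadm
    rw [← this]
    exact hxB
  set P : Polynomial K := ∏ i, (Polynomial.X - Polynomial.C (E.s i x)) with hP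
  have hPdeg : P.natDegree ≤ d := by
    rw [hP, Polynomial.natDegree_prod_of_monic _ _ fun i _ => Polynomial.monic_X_sub_C _]
    simp [hd]
  have hPne : P ≠ 0 := (Polynomial.monic_prod_of_monic _ _ fun i _ =>
    Polynomial.monic_X_sub_C _).ne_zero
  have hcoef : ∀ n, P.coeff n ∈ U := by
    intro n
    refine ⟨E.sym x hx n, ?_⟩
    have h1 : ∀ v, max 1 (Vf.av v (P.coeff n)) ≤
        kap (Vf.av v) 2 ^ d * ∏ i, max 1 (Vf.av v (E.s i x)) := by
      intro v
      have h2 := coeff_prod_le (Vf.av v) (Finset.univ : Finset ι).toList (fun i => E.s i x) n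
      rw [Finset.prod_map_toList, Finset.prod_map_toList, Finset.length_toList,
        Finset.card_univ] at h2
      refine max_le ?_ h2
      have h3 : (1 : ℝ) ≤ kap (Vf.av v) 2 ^ d := one_le_pow₀ (one_le_kap _ _)
      have h4 : (1 : ℝ) ≤ ∏ i, max 1 (Vf.av v (E.s i x)) := by
        calc (1 : ℝ) = ∏ _i : ι, (1 : ℝ) := by simp
          _ ≤ _ := Finset.prod_le_prod (fun _ _ => zero_le_one) fun j _ => le_max_left _ _
      nlinarith
    have h5 := hh_le_mul (hadm1 (P.coeff n)) (adm_finProd fun i => hadm1 (E.s i x))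
      ((Vf.kap_MC 2).pow d) h1
    linarith
  rw [Set.mem_iUnion₂]
  refine ⟨P, ⟨hPdeg, hcoef⟩, ?_⟩
  simp only [Polynomial.map_id, SetLike.mem_coe, Multiset.mem_toFinset]
  rw [Polynomial.mem_roots hPne, Polynomial.IsRoot.def, hP, Polynomial.eval_prod]
  refine Finset.prod_eq_zero (Finset.mem_univ E.i0) ?_
  rw [E.hi0 x hx]
  simp

end ExtData

end Fermat.Agent.Cor.H13
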