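import Fermat.Agent.Cor.H13MW1

/-!
# Siegel's lemma over number fields, by restriction of scalars
-/

set_option autoImplicit false
set_option linter.unusedSectionVars false

noncomputable section

namespace Fermat.Agent.Cor.H13

open Filter Matrix Fermat.Agent.MW

variable {K : Type*} [Field K]

/-- maximal minors of a block diagonal matrix -/
theorem HH_blockDiagonal_le {ι m n : Type*} [Fintype ι] [DecidableEq ι] [Fintype m] [DecidableEq m]
    [Fintype n] [DecidableEq n] (v : AbsoluteValue K ℝ) (A : ι → Matrix m n K)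
    (hA : ∀ k, HH v (A k) ≠ 0) :
    HH v (Matrix.blockDiagonal A) ≤
      kap v (Fintype.card (Equiv.Perm (m × ι))) * ∏ k, HH v (A k) := by
  choose f C hf hAC _ hC using fun k => exists_cramer v (A k) (hA k)
  have h1 : Matrix.blockDiagonal A =
      Matrix.blockDiagonal (fun k => (A k).submatrix id (f k)) * Matrix.blockDiagonal C := by
    rw [← Matrix.blockDiagonal_mul]
    congr 1
    funext k
    exact hAC k
  rw [h1, HH_mul_left, Matrix.det_blockDiagonal, map_prod]
  have h2 : HH v (Matrix.blockDiagonal C) ≤ kap v (Fintype.card (Equiv.Perm (m × ι))) *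
      ∏ _i : m × ι, (1 : ℝ) := by
    refine HH_le_of_entries v _ _ (fun _ => zero_le_one) ?_
    rintro ⟨i, k⟩ ⟨j, k'⟩
    rw [Matrix.blockDiagonal_apply]
    split_ifs
    · exact hC _ _ _
    · rw [map_zero]; exact zero_le_one
  rw [Finset.prod_const_one, mul_one] at h2
  have h3 : ∏ k, v ((A k).submatrix id (f k)).det = ∏ k, HH v (A k) :=
    Finset.prod_congr rfl fun k _ => hf k
  rw [h3, mul_comm]
  exact mul_le_mul_of_nonneg_right h2 (Finset.prod_nonneg fun k _ => HH_nonneg _ _)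

theorem row_blockDiagonal {ι m n : Type*} [Fintype ι] [DecidableEq ι] [Fintype m] [DecidableEq m]
    [Fintype n] [DecidableEq n] (A : ι → Matrix m n K)
    (hA : ∀ k, LinearIndependent K (A k).row) :
    LinearIndependent K (Matrix.blockDiagonal A).row := by
  rw [Fintype.linearIndependent_iff]
  rintro c hc ⟨a, k⟩
  have h1 := Fintype.linearIndependent_iff.mp (hA k) (fun a => c (a, k)) (by
    funext b
    have h2 := congrFun hc (b, k)
    rw [Finset.sum_apply, Fintype.sum_prod_type, Pi.zero_apply] at h2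
    rw [Finset.sum_apply, Pi.zero_apply, ← h2]
    refine Finset.sum_congr rfl fun a _ => ?_
    simp only [Pi.smul_apply, smul_eq_mul, Matrix.row, Matrix.blockDiagonal_apply]
    rw [Finset.sum_eq_single k]
    · simp
    · intro k' _ hk'
      rw [if_neg hk', mul_zero]
    · intro h; exact absurd (Finset.mem_univ _) h)
  exact h1 a

namespace ExtData

variable {k0 k1 : Subfield K} {ι : Type} [Fintype ι] [DecidableEq ι] (E : ExtData k0 k1 ι)
variable {Vf : AVF K}

/-- restriction of scalars of a matrix -/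
theorem exists_res {m n : Type} [Fintype m] [DecidableEq m] [Fintype n] [DecidableEq n]
    (M : Matrix m n K) (hM : ∀ i j, M i j ∈ k1) :
    ∃ M' : Matrix (m × ι) (n × ι) K, (∀ i j, M' i j ∈ k0) ∧
      (∀ a b i, M a b * E.ω i = ∑ j, M' (a, i) (b, j) * E.ω j) := by
  choose c hc hc' using fun (a : m) (b : n) (i : ι) =>
    E.span (M a b * E.ω i) (mul_mem (hM a b) (E.ω_mem i))
  exact ⟨fun p q => c p.1 q.1 p.2 q.2, fun p q => hc _ _ _ _, fun a b i => hc' a b i⟩

/-- the block matrix -/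
def PP (m : Type) [Fintype m] [DecidableEq m] : Matrix (m × ι) (m × ι) K :=
  Matrix.kroneckerMap (· * ·) (1 : Matrix m m K) E.Om

theorem PP_apply (m : Type) [Fintype m] [DecidableEq m] (a b : m) (i k : ι) :
    E.PP m (a, i) (b, k) = if a = b then E.s k (E.ω i) else 0 := by
  unfold PP Om
  rw [Matrix.kroneckerMap_apply, Matrix.one_apply, Matrix.of_apply]
  split_ifs <;> simp

theorem det_PP_ne (m : Type) [Fintype m] [DecidableEq m] : (E.PP m).det ≠ 0 := by
  unfold PP
  have h := Matrix.det_kronecker (1 : Matrix m m K) E.Om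
  rw [Matrix.det_one, one_pow, one_mul] at h
  show (Matrix.kroneckerMap (· * ·) (1 : Matrix m m K) E.Om).det ≠ 0
  rw [h]
  exact pow_ne_zero _ E.det_ne

theorem res_mul {m n : Type} [Fintype m] [DecidableEq m] [Fintype n] [DecidableEq n]
    (M : Matrix m n K) (M' : Matrix (m × ι) (n × ι) K) (hM' : ∀ i j, M' i j ∈ k0)
    (h : ∀ a b i, M a b * E.ω i = ∑ j, M' (a, i) (b, j) * E.ω j) :
    M' * E.PP n = E.PP m * Matrix.blockDiagonal (fun k => M.map (E.s k)) := by
  ext ⟨a, i⟩ ⟨b, k⟩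
  rw [Matrix.mul_apply, Matrix.mul_apply, Fintype.sum_prod_type, Fintype.sum_prod_type]
  have h1 : ∑ x : n, ∑ y : ι, M' (a, i) (x, y) * E.PP n (x, y) (b, k) =
      ∑ y, M' (a, i) (b, y) * E.s k (E.ω y) := by
    rw [Finset.sum_eq_single b]
    · exact Finset.sum_congr rfl fun y _ => by rw [PP_apply, if_pos rfl]
    · intro x _ hx
      exact Finset.sum_eq_zero fun y _ => by rw [PP_apply, if_neg hx, mul_zero]
    · intro hx; exact absurd (Finset.mem_univ _) hx
  have h2 : ∑ x : m, ∑ y : ι, E.PP m (a, i) (x, y) *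
      Matrix.blockDiagonal (fun k => M.map (E.s k)) (x, y) (b, k) =
      E.s k (E.ω i) * E.s k (M a b) := by
    rw [Finset.sum_eq_single a]
    · rw [Finset.sum_eq_single k]
      · rw [PP_apply, if_pos rfl, Matrix.blockDiagonal_apply, if_pos rfl]
        rfl
      · intro y _ hy
        rw [Matrix.blockDiagonal_apply, if_neg hy, mul_zero]
      · intro hx; exact absurd (Finset.mem_univ _) hx
    · intro x _ hx
      exact Finset.sum_eq_zero fun y _ => by rw [PP_apply, if_neg (Ne.symm hx), zero_mul]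
    · intro hx; exact absurd (Finset.mem_univ _) hx
  rw [h1, h2, mul_comm (E.s k (E.ω i)), ← map_mul, h, map_sum]
  refine Finset.sum_congr rfl fun j _ => ?_
  rw [map_mul, E.fix0 k _ (hM' _ _)]

theorem HH_map_ne {m n : Type} [Fintype m] [DecidableEq m] [Fintype n] [DecidableEq n]
    (M : Matrix m n K) (hM : LinearIndependent K M.row) (k : ι) :
    LinearIndependent K (M.map (E.s k)).row := by
  obtain ⟨f, hf⟩ := exists_det_ne_zero M hM
  apply row_linearIndependent_of_det_ne_zero (M.map (E.s k)) f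
  have h1 : ((M.map (E.s k)).submatrix id f).det = E.s k (M.submatrix id f).det := by
    rw [RingHom.map_det]
    rfl
  rw [h1]
  exact (map_ne_zero _).mpr hf

theorem siegel (G : GAV Vf k0) (m n : ℕ) (hm : 0 < m) :
    ∃ C : ℝ, ∀ (M : Matrix (Fin m) (Fin n) K),
    (∀ i j, M i j ∈ k1) → LinearIndependent K M.row →
    ∃ x : Fin m → K, (∀ i, x i ∈ k1) ∧ x ≠ 0 ∧
      m * hh (fun p => nrm ((AVs Vf E.s).av p) (Matrix.vecMul x M)) ≤
        hh (fun p => HH ((AVs Vf E.s).av p) M) + C := by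
  classical
  have : Nonempty (Fin m × ι) := ⟨(⟨0, hm⟩, E.i0)⟩
  obtain ⟨v0⟩ := G.ne
  obtain ⟨C0, hC0⟩ := siegel_fintype G (Fin m × ι) (Fin n × ι)
  obtain ⟨C1, hC1, hC1'⟩ := Vf.exists_bound (fun p : ι × ι => E.s p.2 (E.ω p.1))
  obtain ⟨C2, hC2, hC2'⟩ := Vf.exists_bound
    (fun p : (Fin n × ι) × (Fin n × ι) => (E.PP (Fin n))⁻¹ p.1 p.2)
  obtain ⟨C3, hC3, hC3'⟩ := Vf.exists_bound (fun _ : Unit => (E.PP (Fin m)).det)
  -- constant for the heights of vectors
  set D1 : Vf.Λ → ℝ := fun v => kap (Vf.av v) (Fintype.card ι) * C1 v with hD1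
  have hD1mc : IsMC D1 := (Vf.kap_MC _).mul hC1
  -- constant for the heights of matrices
  set D2 : Vf.Λ → ℝ := fun v => C3 v * (kap (Vf.av v) (Fintype.card (Equiv.Perm (Fin m × ι))) *
    (kap (Vf.av v) (Fintype.card (Fin n × ι)) * C2 v) ^ (Fintype.card (Fin m × ι))) *
    kap (Vf.av v) (Fintype.card (Equiv.Perm (Fin m × ι))) with hD2
  have hD2mc : IsMC D2 :=
    (hC3.mul ((Vf.kap_MC _).mul (((Vf.kap_MC _).mul hC2).pow _))).mul (Vf.kap_MC _)
  refine ⟨m * (Fintype.card ι * hh D1) + hh D2 + C0, fun M hM hli => ?_⟩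
  obtain ⟨M', hM'0, hM'⟩ := E.exists_res M hM
  set D := Matrix.blockDiagonal (fun k => M.map (E.s k)) with hD
  have hmul := E.res_mul M M' hM'0 hM'
  have hunit : IsUnit (E.PP (Fin n)).det := isUnit_iff_ne_zero.mpr (E.det_PP_ne _)
  have hM'eq : M' = E.PP (Fin m) * (D * (E.PP (Fin n))⁻¹) := by
    rw [← Matrix.mul_assoc, ← hmul, Matrix.mul_assoc, Matrix.mul_nonsing_inv _ hunit,
      Matrix.mul_one]
  have hkli : ∀ k, LinearIndependent K (M.map (E.s k)).row := fun k => E.HH_map_ne M hli k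
  have hDli : LinearIndependent K D.row := row_blockDiagonal _ hkli
  -- local bound
  have hloc : ∀ v, HH (Vf.av v) M' ≤ D2 v * ∏ k, HH (Vf.av v) (M.map (E.s k)) := by
    intro v
    rw [hM'eq, HH_mul_left]
    have h1 := HH_mul_right_le (Vf.av v) D (E.PP (Fin n))⁻¹ (hC2.nonneg v)
      (fun i j => hC2' (i, j) v)
    have h2 := HH_blockDiagonal_le (Vf.av v) (fun k => M.map (E.s k))
      (fun k => (HH_ne_zero_iff _ _).mpr (hkli k))
    have h3 := hC3' () v
    have hk1 := kap_pos (Vf.av v) (Fintype.card (Equiv.Perm (Fin m × ι)))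
    have hk2 := kap_pos (Vf.av v) (Fintype.card (Fin n × ι))
    have hc2 := hC2.pos v
    have hc3 := hC3.pos v
    have hpow : 0 < (kap (Vf.av v) (Fintype.card (Fin n × ι)) * C2 v) ^
      (Fintype.card (Fin m × ι)) := pow_pos (mul_pos hk2 hc2) _
    calc Vf.av v (E.PP (Fin m)).det * HH (Vf.av v) (D * (E.PP (Fin n))⁻¹)
        ≤ C3 v * (kap (Vf.av v) (Fintype.card (Equiv.Perm (Fin m × ι))) *
          (kap (Vf.av v) (Fintype.card (Fin n × ι)) * C2 v) ^ (Fintype.card (Fin m × ι)) *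
          HH (Vf.av v) D) := mul_le_mul h3 h1 (HH_nonneg _ _) hc3.le
      _ ≤ C3 v * (kap (Vf.av v) (Fintype.card (Equiv.Perm (Fin m × ι))) *
          (kap (Vf.av v) (Fintype.card (Fin n × ι)) * C2 v) ^ (Fintype.card (Fin m × ι)) *
          (kap (Vf.av v) (Fintype.card (Equiv.Perm (Fin m × ι))) *
            ∏ k, HH (Vf.av v) (M.map (E.s k)))) :=
          mul_le_mul_of_nonneg_left (mul_le_mul_of_nonneg_left h2
            (mul_pos hk1 hpow).le) hc3.le
      _ = _ := by rw [hD2]; ring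
  have hM'li : LinearIndependent K M'.row := by
    rw [← HH_ne_zero_iff (Vf.av v0), hM'eq, HH_mul_left]
    have hDP : HH (Vf.av v0) (D * (E.PP (Fin n))⁻¹) ≠ 0 := by
      intro h0
      have h1 := HH_mul_right_le (Vf.av v0) (D * (E.PP (Fin n))⁻¹) (E.PP (Fin n))
        (nrm_nonneg (Vf.av v0) (fun p : (Fin n × ι) × (Fin n × ι) => E.PP (Fin n) p.1 p.2))
        (fun i j => le_nrm (Vf.av v0)
          (fun p : (Fin n × ι) × (Fin n × ι) => E.PP (Fin n) p.1 p.2) (i, j))
      rw [h0, mul_zero, Matrix.mul_assoc, Matrix.nonsing_inv_mul _ hunit, Matrix.mul_one] at h1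
      exact (HH_pos (Vf.av v0) D hDli).not_ge h1
    exact mul_ne_zero ((Vf.av v0).ne_zero (E.det_PP_ne _)) hDP
  obtain ⟨x', hx'k, hx'0, hx'⟩ := hC0 M' hM'0 hM'li
  -- the vector over `k1`
  set x : Fin m → K := fun a => ∑ i, x' (a, i) * E.ω i with hx
  have hxk : ∀ a, x a ∈ k1 := fun a =>
    sum_mem fun i _ => mul_mem (E.le (hx'k _)) (E.ω_mem i)
  have hx0 : x ≠ 0 := by
    intro h
    apply hx'0
    funext ⟨a, i⟩
    exact congrFun (E.eq_zero (c := fun i => x' (a, i)) (fun i => hx'k _) (congrFun h a)) i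
  set y' : Fin n × ι → K := x' ᵥ* M' with hy'
  have hy'k : ∀ q, y' q ∈ k0 := fun q => sum_mem fun p _ => mul_mem (hx'k _) (hM'0 _ _)
  have hyy : ∀ b, (x ᵥ* M) b = ∑ j, y' (b, j) * E.ω j := by
    intro b
    have h1 : (x ᵥ* M) b = ∑ a, ∑ i, ∑ j, x' (a, i) * M' (a, i) (b, j) * E.ω j := by
      simp only [Matrix.vecMul, dotProduct, hx]
      refine Finset.sum_congr rfl fun a _ => ?_
      rw [Finset.sum_mul]
      refine Finset.sum_congr rfl fun i _ => ?_
      rw [mul_assoc, mul_comm (E.ω i), hM' a b i, Finset.mul_sum]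
      exact Finset.sum_congr rfl fun j _ => (mul_assoc _ _ _).symm
    have h2 : ∑ j, y' (b, j) * E.ω j = ∑ j, ∑ a, ∑ i, x' (a, i) * M' (a, i) (b, j) * E.ω j := by
      refine Finset.sum_congr rfl fun j _ => ?_
      simp only [hy', Matrix.vecMul, dotProduct]
      rw [Fintype.sum_prod_type, Finset.sum_mul]
      exact Finset.sum_congr rfl fun a _ => Finset.sum_mul _ _ _
    rw [h1, h2, Finset.sum_comm (s := (Finset.univ : Finset ι))
      (t := (Finset.univ : Finset (Fin m)))]
    exact Finset.sum_congr rfl fun a _ => Finset.sum_comm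
  have hy'0 : y' ≠ 0 := by
    intro h0
    apply hx'0
    have h1 : ∑ p, x' p • M'.row p = 0 := by
      rw [← h0]
      funext q
      rw [Finset.sum_apply]
      rfl
    funext p
    exact Fintype.linearIndependent_iff.mp hM'li _ h1 p
  have hyne : x ᵥ* M ≠ 0 := by
    intro h0
    apply hx0
    have h1 : ∑ a, x a • M.row a = 0 := by
      rw [← h0]
      funext q
      rw [Finset.sum_apply]
      rfl
    funext a
    exact Fintype.linearIndependent_iff.mp hli _ h1 a
  refine ⟨x, hxk, hx0, ?_⟩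
  have hadm' : Adm (fun v => nrm (Vf.av v) y') := adm_nrm Vf hy'0
  have hadmx : Adm (fun p => nrm ((AVs Vf E.s).av p) (x ᵥ* M)) := adm_nrm (AVs Vf E.s) hyne
  have hfib := hh_fib (Λ := Vf.Λ) (ι := ι) hadmx
  have hk : ∀ k, hh (fun v => nrm ((AVs Vf E.s).av (v, k)) (x ᵥ* M)) ≤
      hh D1 + hh (fun v => nrm (Vf.av v) y') := by
    intro k
    refine hh_le_mul (adm_fib (Λ := Vf.Λ) (ι := ι) hadmx k) hadm' hD1mc fun v => ?_
    have hn := nrm_nonneg (Vf.av v) y'
    refine nrm_le _ _ (mul_nonneg (hD1mc.nonneg v) hn) fun b => ?_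
    show Vf.av v (E.s k ((x ᵥ* M) b)) ≤ _
    rw [hyy, map_sum, hD1]
    simp only
    rw [mul_assoc]
    refine abv_sum_univ_le _ _ (mul_nonneg (hC1.nonneg v) hn) fun j => ?_
    rw [map_mul, (Vf.av v).map_mul, E.fix0 k _ (hy'k _), mul_comm]
    exact mul_le_mul (hC1' (j, k) v) (le_nrm (Vf.av v) y' (b, j)) ((Vf.av v).nonneg _)
      (hC1.nonneg v)
  have hsum : hh (fun p => nrm ((AVs Vf E.s).av p) (x ᵥ* M)) ≤
      Fintype.card ι * (hh D1 + hh (fun v => nrm (Vf.av v) y')) := by
    refine (le_of_eq hfib).trans ((Finset.sum_le_sum fun k _ => hk k).trans ?_)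
    rw [Finset.sum_const, Finset.card_univ, nsmul_eq_mul]
  have hadmH : Adm (fun p => HH ((AVs Vf E.s).av p) M) := adm_HH (AVs Vf E.s) M hli
  have hH1 : hh (fun p => HH ((AVs Vf E.s).av p) M) =
      hh (fun v => ∏ k, HH (Vf.av v) (M.map (E.s k))) := by
    refine (hh_fib' (Λ := Vf.Λ) (ι := ι) hadmH).trans ?_
    congr 1
    funext v
    refine Finset.prod_congr rfl fun k _ => ?_
    exact HH_comp (Vf.av v) (E.s k) M
  have hH2 : hh (fun v => HH (Vf.av v) M') ≤
      hh D2 + hh (fun v => ∏ k, HH (Vf.av v) (M.map (E.s k))) :=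
    hh_le_mul (adm_HH Vf M' hM'li) (adm_finProd fun k => adm_HH Vf _ (hkli k)) hD2mc hloc
  rw [hH1]
  rw [Fintype.card_prod, Fintype.card_fin, Nat.cast_mul] at hx'
  have hm' : (0 : ℝ) ≤ m := Nat.cast_nonneg _
  have h3 := mul_le_mul_of_nonneg_left hsum hm'
  have h4 : (m : ℝ) * (Fintype.card ι * (hh D1 + hh (fun v => nrm (Vf.av v) y'))) =
      m * (Fintype.card ι * hh D1) + m * Fintype.card ι * hh (fun v => nrm (Vf.av v) y') := by
    ring
  rw [h4] at h3
  linarith

/-- **transfer of the global hypotheses to a finite extension** -/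
theorem gav (G : GAV Vf k0) : GAV (AVs Vf E.s) k1 where
  ne := by
    obtain ⟨v⟩ := G.ne
    exact ⟨(v, E.i0)⟩
  pf x hx hx0 := E.pf G hx hx0
  north B := E.north G B
  siegel m n hm := E.siegel G m n hm

end ExtData

end Fermat.Agent.Cor.H13
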