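import Fermat.Agent.Cor.H13MW2
import Fermat.Agent.WMW.Quot

/-!
# The Mordell–Weil theorem for `J_0(N)` over number fields
-/

set_option autoImplicit false
set_option linter.unusedSectionVars false

noncomputable section

namespace Fermat.Agent.Cor.H13

open AlgebraicCurve ModularCurve Fermat.Agent.FF Fermat.Agent.MW

local notation "Qb" => AlgebraicClosure ℚ
local notation "GQ" => AlgebraicClosure ℚ ≃ₐ[ℚ] AlgebraicClosure ℚ

section Ext

variable (E : IntermediateField ℚ (AlgebraicClosure ℚ)) [FiniteDimensional ℚ E]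

instance : DecidableEq (E →ₐ[ℚ] AlgebraicClosure ℚ) := Classical.decEq _

/-- the extension of an embedding -/
def emb (k : E →ₐ[ℚ] AlgebraicClosure ℚ) : AlgebraicClosure ℚ →ₐ[ℚ] AlgebraicClosure ℚ :=
  k.liftNormal (AlgebraicClosure ℚ)

theorem emb_apply (k : E →ₐ[ℚ] AlgebraicClosure ℚ) {x : AlgebraicClosure ℚ} (hx : x ∈ E) :
    emb E k x = k ⟨x, hx⟩ :=
  k.liftNormal_commutes (AlgebraicClosure ℚ) ⟨x, hx⟩

/-- a basis indexed by the embeddings -/
def bas : Module.Basis (E →ₐ[ℚ] AlgebraicClosure ℚ) ℚ E :=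
  (Module.finBasis ℚ E).reindex ((finCongr (AlgHom.card ℚ E (AlgebraicClosure ℚ)).symm).trans
    (Fintype.equivFin _).symm)

theorem coeff_mem {x : AlgebraicClosure ℚ} (hx : x ∈ E) (n : ℕ) :
    (∏ k : E →ₐ[ℚ] AlgebraicClosure ℚ, (Polynomial.X -
      Polynomial.C (emb E k x))).coeff n ∈ (algebraMap ℚ (AlgebraicClosure ℚ)).fieldRange := by
  have h : ∀ g : GQ, g ((∏ k : E →ₐ[ℚ] AlgebraicClosure ℚ, (Polynomial.X -
      Polynomial.C (emb E k x))).coeff n) = (∏ k : E →ₐ[ℚ] AlgebraicClosure ℚ, (Polynomial.X -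
      Polynomial.C (emb E k x))).coeff n := by
    intro g
    have h1 : (∏ k : E →ₐ[ℚ] AlgebraicClosure ℚ, (Polynomial.X -
        Polynomial.C (emb E k x))).map (g : AlgebraicClosure ℚ →+* AlgebraicClosure ℚ) =
        ∏ k : E →ₐ[ℚ] AlgebraicClosure ℚ, (Polynomial.X - Polynomial.C (emb E k x)) := by
      rw [Polynomial.map_prod]
      refine Fintype.prod_equiv (AlgEquiv.arrowCongr (AlgEquiv.refl) g) _ _ fun k => ?_
      rw [Polynomial.map_sub, Polynomial.map_X, Polynomial.map_C, emb_apply E k hx,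
        emb_apply E _ hx]
      rfl
    have h2 := congrArg (fun P => Polynomial.coeff P n) h1
    simp only [Polynomial.coeff_map] at h2
    exact h2
  obtain ⟨q, hq⟩ := H51.rational_of_fixed h
  exact ⟨q, hq⟩

/-- the extension data of a number field -/
def extE : ExtData (algebraMap ℚ (AlgebraicClosure ℚ)).fieldRange E.toSubfield
    (E →ₐ[ℚ] AlgebraicClosure ℚ) where
  s k := (emb E k : AlgebraicClosure ℚ →+* AlgebraicClosure ℚ)
  ω i := (bas E i : AlgebraicClosure ℚ)
  fix0 := by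
    rintro k _ ⟨q, rfl⟩
    exact (emb E k).commutes q
  ω_mem i := (bas E i).2
  span := by
    intro x hx
    refine ⟨fun i => algebraMap ℚ _ ((bas E).repr ⟨x, hx⟩ i), fun i => ⟨_, rfl⟩, ?_⟩
    have h := (bas E).sum_repr ⟨x, hx⟩
    have h2 := congrArg (algebraMap E (AlgebraicClosure ℚ)) h
    rw [map_sum] at h2
    refine h2.symm.trans (Finset.sum_congr rfl fun i _ => ?_)
    rw [Algebra.smul_def, map_mul, ← IsScalarTower.algebraMap_apply]
    rfl
  det_ne := by
    intro h0
    have h1 := Algebra.discr_eq_det_embeddingsMatrixReindex_pow_two ℚ (AlgebraicClosure ℚ)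
      (bas E) (Equiv.refl _)
    have h2 : (Algebra.embeddingsMatrixReindex ℚ (AlgebraicClosure ℚ) (bas E)
        (Equiv.refl _)) = Matrix.of fun i k : E →ₐ[ℚ] AlgebraicClosure ℚ =>
          (emb E k : AlgebraicClosure ℚ →+* AlgebraicClosure ℚ) (bas E i : AlgebraicClosure ℚ) := by
      ext i k
      rw [Matrix.of_apply]
      exact (emb_apply E k (bas E i).2).symm
    rw [h2, h0, zero_pow two_ne_zero] at h1
    exact Algebra.discr_not_zero_of_basis ℚ (bas E)
      ((map_eq_zero (algebraMap ℚ (AlgebraicClosure ℚ))).mp h1)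
  le := by
    rintro _ ⟨q, rfl⟩
    exact E.algebraMap_mem q
  i0 := E.val
  hi0 x hx := emb_apply E E.val hx
  sym x hx n := coeff_mem E hx n

theorem gavE : GAV (AVs (VfK (AlgebraicClosure ℚ)) (extE E).s) E.toSubfield :=
  (extE E).gav (gavK _ fun _ hx => hx)

end Ext

section X0

variable (N : ℕ) [NeZero N] (E : IntermediateField ℚ (AlgebraicClosure ℚ))

/-- the group of semilinear automorphisms attached to `Gal(Qb/E)` -/
def GamE : Subgroup (SemilinearAut (AlgebraicClosure ℚ) (modularFunctionFieldBar N)) :=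
  E.fixingSubgroup.map (arithmeticGalois (modularFunctionFieldFull N))

theorem GamE_le : GamE N E ≤ GamX N := by
  rintro _ ⟨σ, _, rfl⟩
  exact ⟨σ, rfl⟩

/-- coefficients -/
def ratE : RatData (GamE N E) where
  cf := (ratX N).cf
  cf_smul g hg := (ratX N).cf_smul g (GamE_le N E hg)
  cf_sep := (ratX N).cf_sep

theorem fixK_E : fixK (GamE N E) = E.toSubfield := by
  ext x
  constructor
  · intro hx
    have h1 : x ∈ IntermediateField.fixedField E.fixingSubgroup := by
      intro σ
      exact hx _ ⟨σ, σ.2, rfl⟩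
    rw [InfiniteGalois.fixedField_fixingSubgroup] at h1
    exact h1
  · rintro hx _ ⟨σ, hσ, rfl⟩
    exact (IntermediateField.mem_fixingSubgroup_iff _ _).mp hσ x hx

theorem fixP_E : fixP (GamE N E) =
    FixedPoints.addSubgroup E.fixingSubgroup (JZero N) := by
  ext x
  constructor
  · intro h σ
    exact h _ ⟨σ, σ.2, rfl⟩
  · rintro h _ ⟨σ, hσ, rfl⟩
    exact h ⟨σ, hσ⟩

variable [FiniteDimensional ℚ E]

/-- the context of `X_0(N)` over a number field -/
def ctxE : Ctx (AlgebraicClosure ℚ) (modularFunctionFieldBar N) :=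
  Ctx.mk' (AVs (VfK (AlgebraicClosure ℚ)) (extE E).s) (GamE N E) (ratE N E) (M5.c₁ N)
    (fun g hg => fix_c1 N g (GamE_le N E hg)) (by rw [fixK_E]; exact gavE E)

theorem fg_of_weakE (h : (nsmulAddMonoidHom (α := ↥(FixedPoints.addSubgroup
    E.fixingSubgroup (JZero N))) 2).range.FiniteIndex) :
    AddGroup.FG ↥(FixedPoints.addSubgroup E.fixingSubgroup (JZero N)) := by
  rw [← fixP_E] at h ⊢
  exact (ctxE N E).fg_of_weak h

end X0

end Fermat.Agent.Cor.H13
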