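import Fermat.Agent.Cor.H13MW3

/-!
# The Mordell–Weil theorem for `J_0(N)` over number fields: the weak theorem and the final statements
-/

set_option autoImplicit false
set_option linter.unusedSectionVars false

noncomputable section

namespace Fermat.Agent.Cor.H13

open AlgebraicCurve ModularCurve Fermat.Agent.FF Fermat.Agent.MW Fermat.Agent.WMW

local notation "GQ" => AlgebraicClosure ℚ ≃ₐ[ℚ] AlgebraicClosure ℚ

/-- **weak Mordell–Weil for `J_0(N)` over a number field** -/
theorem finite_quotientE (N : ℕ) [NeZero N] (E : IntermediateField ℚ (AlgebraicClosure ℚ))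
    [FiniteDimensional ℚ E] :
    (nsmulAddMonoidHom (α := ↥(FixedPoints.addSubgroup E.fixingSubgroup (JZero N))) 2).range.FiniteIndex := by
  classical
  have hfin2 := WMW.finite_T2 N
  choose U hU hU' using H12.exists_open_pic0 (modularFunctionFieldFull N)
  have hEo : IsOpen (E.fixingSubgroup : Set GQ) := E.fixingSubgroup_isOpen
  let H0 : Subgroup GQ := ⨅ x : T2 (JZero N), U (x : JZero N)
  have hHo0 : IsOpen (H0 : Set GQ) := by
    rw [Subgroup.coe_iInf]
    exact isOpen_iInter_of_finite fun w => hU w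
  let H : Subgroup GQ := H0 ⊓ E.fixingSubgroup
  have hHo : IsOpen (H : Set GQ) := by
    rw [Subgroup.coe_inf]
    exact hHo0.inter hEo
  have hle : H ≤ E.fixingSubgroup := inf_le_right
  have : Finite (GQ ⧸ H) := Subgroup.quotient_finite_of_isOpen H hHo
  have : H.FiniteIndex := Subgroup.finiteIndex_of_finite_quotient
  let e : H.subgroupOf E.fixingSubgroup ≃* H := Subgroup.subgroupOfEquivOfLe hle
  have he : ∀ σ : H.subgroupOf E.fixingSubgroup, ((e σ : H) : GQ) = ((σ : E.fixingSubgroup) : GQ) :=
    fun σ => rfl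
  have hes : ∀ σ : H, (((e.symm σ : H.subgroupOf E.fixingSubgroup) : E.fixingSubgroup) : GQ) = σ :=
    fun σ => by rw [← he, e.apply_symm_apply]
  have hH : ∀ σ ∈ H.subgroupOf E.fixingSubgroup, ∀ x : JZero N, 2 • x = 0 → σ • x = x := by
    intro σ hσ x hx
    rw [Subgroup.mem_subgroupOf] at hσ
    have h1 : (σ : GQ) ∈ H0 := hσ.1
    rw [Subgroup.mem_iInf] at h1
    exact hU' x σ (h1 ⟨x, mem_T2.mpr hx⟩)
  have hX := (finite_quadratic H hHo (2 * N).primeFactors).image
    (fun χ : H →* Multiplicative (ZMod 2) => χ.comp e.toMonoidHom)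
  refine finiteIndex_of (G := E.fixingSubgroup) (H.subgroupOf E.fixingSubgroup) hH hfin2
    (fun x => WP.divisible_JZero (by norm_num) x) hX ?_
  intro y hy l
  refine ⟨(cc (H.subgroupOf E.fixingSubgroup) hH y hy l).comp e.symm.toMonoidHom, ⟨?_, ?_⟩, ?_⟩
  · -- open kernel
    have h1 : IsOpen (((U y).subgroupOf H : Subgroup H) : Set H) := by
      exact (hU y).preimage continuous_subtype_val
    refine Subgroup.isOpen_mono ?_ h1
    intro σ hσ
    rw [MonoidHom.mem_ker]
    have h2 : dd y hy ((e.symm σ : H.subgroupOf E.fixingSubgroup) : E.fixingSubgroup) = 0 :=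
      Subtype.ext (by
        rw [coe_dd]
        have h3 : (((e.symm σ : H.subgroupOf E.fixingSubgroup) : E.fixingSubgroup) • y : JZero N) =
            (((e.symm σ : H.subgroupOf E.fixingSubgroup) : E.fixingSubgroup) : GQ) • y := rfl
        rw [h3, hes, hU' y σ (Subgroup.mem_subgroupOf.mp hσ), sub_self]; rfl)
    change Multiplicative.ofAdd (l (dd y hy ((e.symm σ : H.subgroupOf E.fixingSubgroup) :
      E.fixingSubgroup))) = 1
    rw [h2, map_zero]; rfl
  · intro p hp hpS A hA σ hσ
    have hpN : ¬ p ∣ N := fun h => hpS (Nat.mem_primeFactors.mpr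
      ⟨hp, h.mul_left 2, by have := NeZero.ne N; positivity⟩)
    have hp2 : ¬ p ∣ 2 := fun h => hpS (Nat.mem_primeFactors.mpr
      ⟨hp, h.mul_right N, by have := NeZero.ne N; positivity⟩)
    obtain ⟨K, hK⟩ := H28.exists_redKernel N hp hpN A hA
    have h2 : dd y hy ((e.symm σ : H.subgroupOf E.fixingSubgroup) : E.fixingSubgroup) = 0 := by
      apply Subtype.ext
      have h4 := (dd y hy ((e.symm σ : H.subgroupOf E.fixingSubgroup) : E.fixingSubgroup)).2
      rw [mem_T2, coe_dd] at h4
      rw [coe_dd]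
      have h3 : (((e.symm σ : H.subgroupOf E.fixingSubgroup) : E.fixingSubgroup) • y : JZero N) =
          (((e.symm σ : H.subgroupOf E.fixingSubgroup) : E.fixingSubgroup) : GQ) • y := rfl
      rw [h3, hes] at h4 ⊢
      exact hK.torsion 2 hp2 _ (hK.inertia _ hσ y) h4
    change Multiplicative.ofAdd (l (dd y hy ((e.symm σ : H.subgroupOf E.fixingSubgroup) :
      E.fixingSubgroup))) = 1
    rw [h2, map_zero]; rfl
  · ext σ
    simp

/-- the group of points of `J_0(N)` over a subfield of `AlgebraicClosure ℚ` -/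
abbrev JPts (N : ℕ) [NeZero N] (E : IntermediateField ℚ (AlgebraicClosure ℚ)) :
    AddSubgroup (JZero N) := FixedPoints.addSubgroup E.fixingSubgroup (JZero N)

/-- **The Mordell–Weil theorem for `J_0(N)` over number fields**: for every `N ≥ 1` and every finite
extension `E` of `ℚ` inside `AlgebraicClosure ℚ`, the group `J_0(N)(E)` is finitely generated. -/
theorem mordellWeil_JZero (N : ℕ) [NeZero N] (E : IntermediateField ℚ (AlgebraicClosure ℚ))
    [FiniteDimensional ℚ E] : AddGroup.FG (JPts N E) :=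
  fg_of_weakE N E (finite_quotientE N E)

/-- the structure of `J_0(N)(E)`: it is isomorphic to `ℤ^r` times a finite group. -/
theorem structure_JZero (N : ℕ) [NeZero N] (E : IntermediateField ℚ (AlgebraicClosure ℚ))
    [FiniteDimensional ℚ E] :
    ∃ (r : ℕ) (ι : Type) (_ : Fintype ι) (p : ι → ℕ) (_ : ∀ i, (p i).Prime) (e : ι → ℕ),
      Nonempty (JPts N E ≃+ (Fin r →₀ ℤ) × DirectSum ι fun i => ZMod (p i ^ e i)) := by
  have := mordellWeil_JZero N E
  exact AddCommGroup.equiv_free_prod_directSum_zmod _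

/-- `J_0(N)(E)/n` is finite for every `n ≥ 1`. -/
theorem finite_quotient_nsmul (N : ℕ) [NeZero N] (E : IntermediateField ℚ (AlgebraicClosure ℚ))
    [FiniteDimensional ℚ E] {n : ℕ} (hn : n ≠ 0) :
    Finite (JPts N E ⧸ (nsmulAddMonoidHom (α := JPts N E) n).range) := by
  have := mordellWeil_JZero N E
  exact AddCommGroup.finite_of_fg_isAddTorsion _
    (AddCommGroup.isAddTorsion_quotient_range_nsmulAddMonoidHom _ hn)

/-- the torsion subgroup of `J_0(N)(E)` is finite -/
theorem finite_torsion_JZero (N : ℕ) [NeZero N] (E : IntermediateField ℚ (AlgebraicClosure ℚ))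
    [FiniteDimensional ℚ E] : Finite (AddCommGroup.torsion (JPts N E)) := by
  have h0 := mordellWeil_JZero N E
  have h1 : Module.Finite ℤ (JPts N E) := Module.Finite.iff_addGroup_fg.mpr h0
  have h2 : IsNoetherian ℤ (JPts N E) := isNoetherian_of_isNoetherianRing_of_finite ℤ _
  have h3 : Module.Finite ℤ (AddSubgroup.toIntSubmodule (AddCommGroup.torsion (JPts N E))) :=
    Module.Finite.iff_fg.mpr (IsNoetherian.noetherian _)
  have h4 : AddGroup.FG (AddCommGroup.torsion (JPts N E)) :=
    Module.Finite.iff_addGroup_fg.mp h3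
  refine AddCommGroup.finite_of_fg_isAddTorsion _ ?_
  exact AddCommMonoid.addTorsion.isAddTorsion

end Fermat.Agent.Cor.H13
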