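import Fermat.Agent.Cor.NormSplit
import Fermat.Agent.Q.Conc4
import Fermat.Agent.H05.Toric

/-!
# `U_r = - w_r` on the `r`-new part of the torsion of `J₀(M r)`
-/

set_option autoImplicit false
set_option linter.style.haveILetI false
set_option linter.unusedSectionVars false
set_option maxSynthPendingDepth 3

noncomputable section

open AlgebraicCurve ModularCurve

namespace Fermat.Agent.Cor.Bad

open Fermat.Agent.H05

local notation "Qb" => AlgebraicClosure ℚ
local notation "Γℚ" => AlgebraicClosure ℚ ≃ₐ[ℚ] AlgebraicClosure ℚ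

variable {M r : ℕ} [NeZero M]

/-- The field of level `M r²` is generated by the two images of the field of level `M r`. -/
theorem gen_sq [hr : Fact r.Prime] (hrM : ¬ r ∣ M)
    (S : Subfield (laurentBaseChange Qb (modularFunctionFieldFull (M * r * r))))
    (hS₁ : ∀ x, heckeAlphaBar Qb (M * r) r x ∈ S)
    (hS₂ : ∀ y, heckeBetaBar Qb (M * r) r y ∈ S) : S = ⊤ := by
  let A : IntermediateField Qb (LaurentSeries Qb) :=
    { S.map (laurentBaseChange Qb (modularFunctionFieldFull (M * r * r))).val.toRingHom with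
      algebraMap_mem' := fun a => ⟨algebraMap Qb _ a, by
        have := hS₁ (algebraMap Qb _ a)
        rwa [AlgHom.commutes] at this, rfl⟩ }
  have hAmem : ∀ z : laurentBaseChange Qb (modularFunctionFieldFull (M * r * r)),
      (z : LaurentSeries Qb) ∈ A ↔ z ∈ S := by
    intro z
    constructor
    · rintro ⟨z', hz', he⟩
      have : z' = z := Subtype.ext he
      rwa [← this]
    · intro hz
      exact ⟨z, hz, rfl⟩
  have hA₁ : modularFunctionFieldFullC Qb (M * r) ≤ A := by
    intro x hx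
    rw [← laurentBaseChange_full] at hx
    have h1 := (hAmem _).mpr (hS₁ ⟨x, hx⟩)
    rwa [heckeAlphaBar_eq, coe_inc] at h1
  have hA₂ : ∀ x ∈ modularFunctionFieldFullC Qb (M * r), qExpand Qb r x ∈ A := by
    intro x hx
    rw [← laurentBaseChange_full] at hx
    have h1 := (hAmem _).mpr (hS₂ ⟨x, hx⟩)
    rwa [heckeBetaBar_eq, coe_qe] at h1
  have hrL : (r : Qb) ≠ 0 := by exact_mod_cast hr.out.ne_zero
  have hj3 : Igusa.jd Qb (r * r) ∈ A := by
    rw [← Igusa.qExpand_jd]
    exact hA₂ _ (Igusa.jd_mem_full (dvd_mul_left r M))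
  have hfull : modularFunctionFieldFullC Qb (M * r * r) ≤ A := by
    have h1 := Igusa.full_le_adj (k := Qb) r 1 M hrM hrL (by exact_mod_cast NeZero.ne M)
    have h2 : M * r * r = r ^ 1 * M * r := by ring
    have h3 : M * r = r ^ 1 * M := by ring
    have h4 : modularFunctionFieldFullC Qb (M * r * r) =
        modularFunctionFieldFullC Qb (r ^ 1 * M * r) := by rw [h2]
    have h5 : modularFunctionFieldFullC Qb (M * r) =
        modularFunctionFieldFullC Qb (r ^ 1 * M) := by rw [h3]
    rw [h4]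
    refine h1.trans (Igusa.adj_le (by rw [← h5]; exact hA₁) ?_)
    rwa [Igusa.jd_congr Qb (show r ^ (1 + 1) = r * r by ring)]
  rw [eq_top_iff]
  intro z _
  rw [← hAmem]
  apply hfull
  rw [← laurentBaseChange_full]
  exact z.2

/-- The norm identity `w f · N(f(q^r)) = (N f)(q^r)`. -/
theorem wBar_mul_normAlong [hr : Fact r.Prime] (h : Nat.Coprime r M)
    (f : modularFunctionFieldBar (M * r)) :
    Q.wBar M r h f *
      normAlong (heckeAlphaBar Qb (M * r) r) (heckeBetaBar Qb (M * r) r f) =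
      heckeBetaBar Qb M r (normAlong (heckeAlphaBar Qb M r) f) := by
  have hrM : ¬ r ∣ M := by rw [← hr.out.coprime_iff_not_dvd]; exact h
  have e1 : finrankAlong Qb (heckeAlphaBar Qb (M * r) r) = r := by
    rw [heckeAlphaBar_eq, finrankAlong_inc_prime Qb hr.out _ rfl, if_pos (dvd_mul_left r M)]
  have e2 : finrankAlong Qb (heckeAlphaBar Qb M r) = r + 1 := by
    rw [heckeAlphaBar_eq, finrankAlong_inc_prime Qb hr.out _ rfl, if_neg hrM]
  refine normAlong_split (heckeBetaBar Qb M r) (heckeAlphaBar Qb M r)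
    (heckeAlphaBar Qb (M * r) r) (heckeBetaBar Qb (M * r) r) (Q.wBar M r h).toAlgHom ?_ ?_
    (finiteAlong_alpha Qb M r) (finiteAlong_alpha Qb (M * r) r) (gen_sq hrM) (by rw [e1, e2])
    (by rw [e1]; exact hr.out.one_lt.ne') f
  · refine AlgHom.ext fun x => Subtype.ext ?_
    rw [AlgHom.comp_apply, AlgHom.comp_apply, heckeAlphaBar_eq, heckeAlphaBar_eq,
      heckeBetaBar_eq, heckeBetaBar_eq, coe_inc, coe_qe, coe_qe, coe_inc]
  · refine AlgHom.ext fun x => Subtype.ext ?_
    rw [AlgHom.comp_apply, heckeBetaBar_eq, coe_qe]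
    exact Q.coe_wBar_incl M r h x

/-- **`U_r = - w_r` on the torsion classes with trivial trace to level `M`.** -/
theorem heckeOperatorBar_eq_neg_wS (hr : r.Prime) [NeZero r] (h : Nat.Coprime r M) {m : ℕ}
    (hm : m ≠ 0) {x : JZero (M * r)} (hx : m • x = 0) (h0 : degPush Qb M r x = 0) :
    heckeOperatorBar (M * r) ⟨r, hr⟩ x = -(Q.wS M r h • x) := by
  haveI : Fact r.Prime := ⟨hr⟩
  obtain ⟨f, hf⟩ := exists_kum hx
  have k1 : Kum m (heckeOperatorBar (M * r) ⟨r, hr⟩ x) _ :=
    H11N.kum_hecke (l := r) hf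
  have k2 : Kum m (Q.wS M r h • x) (Q.wBar M r h f) := hf.smul (Q.wS M r h)
  have k3 := k2.mul k1
  have e3 := wBar_mul_normAlong h f
  rw [e3] at k3
  have k4 := hf.degPush Qb
  rw [h0] at k4
  obtain ⟨v₀, -⟩ := exists_place_infinity_bc Qb M
  obtain ⟨g, hg0, hg⟩ := k4.exists_pow_of_zero (deg_eq_one_bc Qb M v₀) hm
  rw [hg, map_pow] at k3
  have hg1 : heckeBetaBar Qb M r g ≠ 0 := (map_ne_zero_iff _ (heckeBetaBar Qb M r).injective).mpr hg0
  have k5 := kum_zero_pow (K := Qb) m hg1
  have := k3.unique_left hm k5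
  exact eq_neg_of_add_eq_zero_right this

end Fermat.Agent.Cor.Bad
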