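import Fermat.Agent.Cor.H13MD
import Fermat.Agent.Cor.UW
import Fermat.Agent.S16
import Fermat.Agent.S23

/-!
# The order of the cuspidal class `(0) - (∞)` on `X_0(N)`, `N` prime (Ogg)
-/

set_option autoImplicit false
set_option linter.unusedSectionVars false
set_option linter.style.haveILetI false
set_option maxSynthPendingDepth 3

noncomputable section

namespace Fermat.Agent.Cor.H13

open AlgebraicCurve ModularCurve CongruenceSubgroup Fermat.Agent.M5 Fermat.Agent.H11N

local notation "Qb" => AlgebraicClosure ℚ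

/-- evaluation of the abstract Hecke algebra on a simultaneous eigenvector of `J_0(N)` -/
theorem heckeJ_eigen {N : ℕ} [NeZero N] {x : JZero N} {a : Nat.Primes → ℤ}
    (h : ∀ l, heckeOperatorBar N l x = a l • x) (t : HeckeAlg) :
    heckeJ N t x = (MvPolynomial.aeval a t : ℤ) • x := by
  induction t using MvPolynomial.induction_on with
  | C c =>
    have h1 : (MvPolynomial.C c : HeckeAlg) = ((c : ℤ) : HeckeAlg) := by
      rw [← MvPolynomial.algebraMap_eq, eq_intCast]
    rw [h1, map_intCast, map_intCast, Module.End.intCast_apply]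
    simp
  | add p q hp hq => rw [map_add, LinearMap.add_apply, hp, hq, map_add, add_smul]
  | mul_X p l hp =>
    have h2 : heckeJ N (MvPolynomial.X l) x = a l • x := by
      rw [show (MvPolynomial.X l : HeckeAlg) = heckeGen l from rfl, heckeJ_gen, h]
    rw [map_mul, Module.End.mul_apply, h2, map_zsmul, hp, map_mul, MvPolynomial.aeval_X,
      ← mul_smul, mul_comm]

set_option maxHeartbeats 2000000 in
/-- `n` lies in the Eisenstein ideal -/
theorem exists_mem_eisensteinIdeal (N : ℕ) [hN : Fact N.Prime] :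
    ∃ e ∈ eisensteinIdeal N,
      CuspForm.heckeEvalForms N 2 e = ((eisensteinNumerator N : ℕ) : CuspForm.heckeAlgebra N 2 ∅) := by
  have : NeZero N := ⟨hN.out.ne_zero⟩
  have hcard := S16.result N
  set φ := ((CuspForm.latticeRestrictHom N ∅).toRingHom.comp (CuspForm.heckeEvalForms N 2)) with hφ
  have hpos : 0 < eisensteinNumerator N := by
    have h2 := hN.out.two_le
    exact Nat.div_pos (Nat.le_of_dvd (by omega) (Nat.gcd_dvd_left _ _))
      (Nat.gcd_pos_of_pos_left _ (by omega))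
  have hint := S23.result N
  have hsurj : Function.Surjective φ :=
    (CuspForm.latticeRestrictHom_surjective N ∅).comp H22.heckeEvalForms_surjective
  have h1 : ((eisensteinNumerator N : ℕ) : ↥(CuspForm.heckeLatticeAlgebra N ∅)) ∈
      Ideal.map φ (eisensteinIdeal N) := by
    rw [← Ideal.Quotient.eq_zero_iff_mem, map_natCast, ← hcard, ← nsmul_one]
    exact card_nsmul_eq_zero'
  obtain ⟨e, he, heq⟩ := (Ideal.mem_map_iff_of_surjective φ hsurj).mp h1
  refine ⟨e, he, ?_⟩
  apply (CuspForm.latticeRestrictHom_bijective N ∅ hint).1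
  rw [map_natCast]
  exact heq

/-- an Eisenstein point of `J_0(N)` is killed by the numerator of `(N-1)/12` -/
theorem eisensteinNumerator_smul {N : ℕ} [NeZero N] (hN : N.Prime) {x : JZero N}
    (h : ∀ l, heckeOperatorBar N l x = eisensteinSystem N l • x) :
    eisensteinNumerator N • x = 0 := by
  have : Fact N.Prime := ⟨hN⟩
  obtain ⟨e, he, heq⟩ := exists_mem_eisensteinIdeal N
  have h1 := heckeJ_eigen h e
  rw [(mem_eigenIdeal_iff _ _).mp he, zero_smul, ← actJ_heckeEvalForms, heq, map_natCast,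
    Module.End.natCast_apply] at h1
  exact h1

section Level

variable {p : ℕ} [NeZero p]

theorem smul_cl {N : ℕ} [NeZero N] (g : SemilinearAut Qb (FB Qb N)) (v w : Place Qb (FB Qb N)) :
    g • (cl Qb v w : JZero N) = cl Qb (g • v) (g • w) := by
  change Pic0.mk _ = Pic0.mk _
  congr 1
  apply Subtype.ext
  change g • (Finsupp.single v (1 : ℤ) - Finsupp.single w (1 : ℤ)) =
    Finsupp.single (g • v) 1 - Finsupp.single (g • w) 1
  rw [smul_sub, SemilinearAut.smul_single, SemilinearAut.smul_single]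

theorem wS_cInf (hp : p.Prime) : Q.wS 1 p (Nat.coprime_one_right p) • cInf Qb (1 * p) =
    cZero Qb (1 * p) := by
  have hN : (1 * p).Prime := by rwa [one_mul]
  have : Fact p.Prime := ⟨hp⟩
  have hj : (Q.wS 1 p (Nat.coprime_one_right p) • cInf Qb (1 * p)).ord
      (jB Qb (one_dvd (1 * p))) = -(p : ℤ) := by
    have h1 := SemilinearAut.ord_smul (Q.wS 1 p (Nat.coprime_one_right p)) (cInf Qb (1 * p))
      (Q.wBar 1 p (Nat.coprime_one_right p) (jB Qb (one_dvd (1 * p))))
    rw [Q.wS_smul_fun, Q.wBar_wBar] at h1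
    rw [h1, cInf_ord]
    have h2 : jB Qb (one_dvd (1 * p)) =
        IntermediateField.inclusion (Q.bar_le 1 p) (jB Qb (one_dvd 1)) := Subtype.ext (by
      rw [IntermediateField.coe_inclusion]; rfl)
    rw [h2, Q.coe_wBar_incl, order_qExpand']
    have h3 := cInf_ord_jB Qb (one_dvd 1)
    rw [cInf_ord] at h3
    rw [h3]
    simp
  rcases cusp_cases Qb hN _ (by rw [hj]; have := hp.pos; omega) with h | h
  · exfalso
    rw [h, cInf_ord_jB] at hj
    have := hp.one_lt
    push_cast at hj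
    omega
  · exact h

theorem wS_cZero (hp : p.Prime) : Q.wS 1 p (Nat.coprime_one_right p) • cZero Qb (1 * p) =
    cInf Qb (1 * p) := by
  rw [← wS_cInf hp, ← mul_smul, Q.wS_mul_self, one_smul]

theorem degPush_cc : H05.degPush Qb 1 p (cuspClass Qb (1 * p)) = 0 := by
  have h11 : 1 * 1 = 1 := rfl
  have h₁ : (1 * p) * 1 = 1 * p := mul_one _
  have h₂ : 1 * (1 * p) = 1 * p := one_mul _
  have hα₁ : ∀ f : FB Qb 1, f ≠ 0 → (cW Qb h₁ (Nat.coprime_one_left _)).ord
      (heckeAlphaBar Qb 1 p f) = 1 * (cW Qb h11 (Nat.coprime_one_left _)).ord f := fun f _ => by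
    rw [cW_ord, cW_ord, coe_wB_alpha Qb h11 (Nat.coprime_one_left _) rfl h₁
      (Nat.coprime_one_left _), one_mul]
  have hα₂ : ∀ f : FB Qb 1, f ≠ 0 → (cW Qb h₂ (Nat.coprime_one_right _)).ord
      (heckeAlphaBar Qb 1 p f) = p * (cW Qb h11 (Nat.coprime_one_left _)).ord f := fun f _ => by
    rw [cW_ord, cW_ord, coe_wB_alpha' Qb h11 (Nat.coprime_one_left _) rfl h₂
      (Nat.coprime_one_right _), order_qExpand']
  have hαI : (heckeAlphaBar Qb 1 p).toRingHom.IsIntegral := H05.heckeAlphaBarIntegral Qb 1 p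
  have hq₁ := pushforwardAlong_single_of (H05.deg_eq_one_bc Qb (1 * p)) (heckeAlphaBar Qb 1 p) hαI
    one_pos hα₁ 1
  have hq₂ := pushforwardAlong_single_of (H05.deg_eq_one_bc Qb (1 * p)) (heckeAlphaBar Qb 1 p) hαI
    (by exact_mod_cast NeZero.pos p : (0 : ℤ) < p) hα₂ 1
  rw [cuspClass, cl, cInf_eq_cW, cZero]
  have h0 : H05.pushDegZero (heckeAlphaBar Qb 1 p) (H05.heckeAlphaBarIntegral Qb 1 p)
      ⟨_, mem_degZero_single_sub Qb (cW Qb (one_mul (1 * p)) (Nat.coprime_one_right _))
        (cW Qb (mul_one (1 * p)) (Nat.coprime_one_left _))⟩ = 0 := by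
    apply Subtype.ext
    change Divisor.pushforwardAlong (heckeAlphaBar Qb 1 p) hαI
      (Finsupp.single (cW Qb (one_mul (1 * p)) (Nat.coprime_one_right _)) 1 -
        Finsupp.single (cW Qb (mul_one (1 * p)) (Nat.coprime_one_left _)) 1) = 0
    rw [map_sub, hq₁, hq₂, sub_self]
  refine (H05.pushPic_mk _ _ _ _ _).trans ?_
  rw [h0]
  rfl

theorem U_cuspClass_aux (hp : p.Prime) :
    heckeOperatorBar (1 * p) ⟨p, hp⟩ (cuspClass Qb (1 * p)) = cuspClass Qb (1 * p) := by
  have hN : (1 * p).Prime := by rwa [one_mul]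
  have hm : (1 * p - 1 : ℕ) ≠ 0 := by
    have := hp.one_lt
    omega
  have hx : (1 * p - 1 : ℕ) • (cuspClass Qb (1 * p) : JZero (1 * p)) = 0 := by
    have h1 := sub_one_smul_cuspClass Qb hN
    rw [← natCast_zsmul, Nat.cast_sub hN.one_le]
    exact h1
  have h1 := Cor.Bad.heckeOperatorBar_eq_neg_wS hp (Nat.coprime_one_right p) hm hx degPush_cc
  rw [h1, cuspClass, smul_cl, wS_cZero hp, wS_cInf hp]
  change Pic0.mk (-⟨_, mem_degZero_single_sub Qb (cInf Qb (1 * p)) (cZero Qb (1 * p))⟩) = Pic0.mk _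
  congr 1
  apply Subtype.ext
  exact neg_sub _ _

/-- `U_N` fixes the cuspidal class, `N` prime -/
theorem U_cuspClass {N : ℕ} [NeZero N] (hN : N.Prime) :
    heckeOperatorBar N ⟨N, hN⟩ (cuspClass Qb N) = cuspClass Qb N := by
  have key : ∀ k : ℕ, k = 1 * N → ∀ [NeZero k],
      heckeOperatorBar k ⟨N, hN⟩ (cuspClass Qb k) = cuspClass Qb k := by
    rintro _ rfl inst
    exact U_cuspClass_aux hN
  exact key N (one_mul N).symm

/-- the cuspidal class is an Eisenstein point -/
theorem hecke_cuspClass {N : ℕ} [NeZero N] (hN : N.Prime) (l : Nat.Primes) :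
    heckeOperatorBar N l (cuspClass Qb N) = eisensteinSystem N l • (cuspClass Qb N : JZero N) := by
  by_cases hl : (l : ℕ) ∣ N
  · have h1 : (l : ℕ) = N := (Nat.prime_dvd_prime_iff_eq l.2 hN).mp hl
    have h2 : l = ⟨N, hN⟩ := Subtype.ext h1
    rw [eisensteinSystem_of_dvd hl, one_smul, h2]
    exact U_cuspClass hN
  · rw [eisensteinSystem_of_not_dvd hl]
    exact M5.hecke_cc hN l (fun h => hl (by rw [h]))

/-- **Upper bound**: `(0) - (∞)` is killed by the numerator of `(N-1)/12`, `N` prime. -/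
theorem eisensteinNumerator_smul_cuspClass {N : ℕ} [NeZero N] (hN : N.Prime) :
    eisensteinNumerator N • (cuspClass Qb N : JZero N) = 0 :=
  eisensteinNumerator_smul hN (hecke_cuspClass hN)

end Level

section Lower

/-- a root of the modular unit from the order of the cuspidal class -/
theorem exists_root' {N : ℕ} [NeZero N] (hN : N.Prime) {m s : ℕ}
    (hm : m • (cuspClass Qb N : JZero N) = 0) (hs : s ≠ 0) (hsm : N - 1 = s * m) :
    ∃ g : FB Qb N, g ^ s = uB Qb N := by
  rw [← natCast_zsmul] at hm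
  obtain ⟨f, hf0, hf⟩ := isPrincipal_of_smul_cuspClass Qb hm
  have hN1 : ((N : ℤ) - 1) = s * m := by
    have := hN.one_le
    have h2 : ((N - 1 : ℕ) : ℤ) = (s : ℤ) * m := by rw [hsm]; push_cast; rfl
    rw [Nat.cast_sub this] at h2
    exact_mod_cast h2
  have hu0 := uB_ne_zero Qb N
  have hfs : f ^ s ≠ 0 := pow_ne_zero _ hf0
  obtain ⟨c, hc0, hc⟩ := exists_const Qb (f := uB Qb N / f ^ s) (div_ne_zero hu0 hfs) (by
    intro v
    have h1 := hf v
    have h2 := ord_uB Qb hN v
    rw [Finsupp.smul_apply, smul_eq_mul] at h1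
    rw [Finsupp.smul_apply, smul_eq_mul, hN1] at h2
    rw [div_eq_mul_inv, v.ord_mul hu0 (inv_ne_zero hfs), v.ord_inv, H18.ord_pow, ← h1, h2]
    ring)
  obtain ⟨d, hd⟩ := IsAlgClosed.exists_pow_nat_eq c (Nat.pos_of_ne_zero hs)
  refine ⟨algebraMap Qb (FB Qb N) d * f, ?_⟩
  rw [mul_pow, ← map_pow, hd, ← hc, div_mul_cancel₀ _ hfs]

/-- an exponent `s` such that the modular unit is an `s`-th power divides `24` -/
theorem dvd_24_of_root {N : ℕ} [NeZero N] (hN : N.Prime) {s : ℕ} (hs : s ≠ 0) {g : FB Qb N}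
    (hg : g ^ s = uB Qb N) : s ∣ 24 := by
  rw [← Nat.factorization_le_iff_dvd hs (by norm_num)]
  intro r
  by_cases hr : r.Prime
  · rw [← hr.pow_dvd_iff_le_factorization (by norm_num)]
    by_contra h24
    have hk : r ^ s.factorization r ∣ s := Nat.ordProj_dvd s r
    obtain ⟨t, ht⟩ := hk
    have hg' : (g ^ t) ^ (r ^ s.factorization r) = uB Qb N := by
      rw [← pow_mul, mul_comm t, ← ht, hg]
    obtain ⟨A, hA⟩ := H05.exists_liesOverPrime Qb hr
    have hmem := div_mem_of_root Qb hN (pow_ne_zero _ hr.ne_zero) hg' hr A hA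
    set k := s.factorization r with hk
    obtain ⟨a, c, hc, h24'⟩ := Nat.exists_eq_pow_mul_and_not_dvd (n := 24) (by norm_num) r hr.ne_one
    have hak : a < k := by
      by_contra hcon
      push Not at hcon
      apply h24
      rw [h24']
      exact (pow_dvd_pow r hcon).mul_right c
    have hcL : ((c : ℤ) : Qb) ∉ A.nonunits := H05.natCast_not_mem_nonunits hr hA
      (fun h => hc (by exact_mod_cast h))
    apply hcL
    have hr0 : (r : Qb) ≠ 0 := by exact_mod_cast hr.ne_zero
    have h1 : ((c : ℤ) : Qb) = (r : Qb) * ((r : Qb) ^ (k - a - 1) * (24 / ((r ^ k : ℕ) : Qb))) := by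
      have h2 : (24 : Qb) = (r : Qb) ^ a * c := by exact_mod_cast h24'
      rw [h2]
      push_cast
      rw [eq_comm, ← mul_assoc, ← pow_succ', mul_div_assoc', div_eq_iff (pow_ne_zero k hr0),
        show k - a - 1 + 1 = k - a by omega, ← mul_assoc, ← _root_.pow_add,
        show k - a + a = k by omega]
      ring
    rw [h1]
    rw [ValuationSubring.mem_nonunits_iff, map_mul]
    have hA' : A.valuation (r : Qb) < 1 := by
      rw [← ValuationSubring.mem_nonunits_iff]
      exact hA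
    refine mul_lt_one_of_lt_of_le hA' ?_
    rw [A.valuation_le_one_iff]
    exact mul_mem (pow_mem (natCast_mem A r) _) hmem
  · rw [Nat.factorization_eq_zero_of_not_prime _ hr]
    exact Nat.zero_le _

/-- **Ogg's theorem, `N ≢ 1 mod 8`**: the class `(0) - (∞)` has order exactly the numerator of
`(N-1)/12` in `J_0(N)`, `N` prime. -/
theorem addOrderOf_cuspClass {N : ℕ} [NeZero N] (hN : N.Prime) (h8 : ¬ 8 ∣ N - 1) :
    addOrderOf (cuspClass Qb N : JZero N) = eisensteinNumerator N := by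
  set d := addOrderOf (cuspClass Qb N : JZero N) with hd
  have h1 : d ∣ eisensteinNumerator N :=
    addOrderOf_dvd_of_nsmul_eq_zero (eisensteinNumerator_smul_cuspClass hN)
  have h2 : d ∣ N - 1 := h1.trans (eisensteinNumerator_dvd N)
  obtain ⟨s, hs⟩ := h2
  have hN1 : N - 1 ≠ 0 := by have := hN.two_le; omega
  have hs0 : s ≠ 0 := by rintro rfl; exact hN1 (by rw [hs, mul_zero])
  obtain ⟨g, hg⟩ := exists_root' hN (addOrderOf_nsmul_eq_zero _) hs0 (by rw [hs, mul_comm])
  have h24 := dvd_24_of_root hN hs0 hg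
  have hsN : s ∣ N - 1 := ⟨d, by rw [hs, mul_comm]⟩
  have h12 : s ∣ 12 := by
    have h3 : s ∣ Nat.gcd (N - 1) 24 := Nat.dvd_gcd hsN h24
    have h4 : ¬ 8 ∣ s := fun h => h8 (h.trans hsN)
    have h5 : s ≤ 24 := Nat.le_of_dvd (by norm_num) h24
    interval_cases s <;> omega
  have h6 : s ∣ Nat.gcd (N - 1) 12 := Nat.dvd_gcd hsN h12
  apply Nat.dvd_antisymm h1
  obtain ⟨t, ht⟩ := h6
  refine ⟨t, ?_⟩
  have h7 : eisensteinNumerator N * Nat.gcd (N - 1) 12 = N - 1 := by
    rw [eisensteinNumerator]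
    exact Nat.div_mul_cancel (Nat.gcd_dvd_left _ _)
  have h8' : s * d = s * (eisensteinNumerator N * t) := by
    rw [mul_comm s d, ← hs, ← h7, ht]
    ring
  exact Nat.eq_of_mul_eq_mul_left (Nat.pos_of_ne_zero hs0) h8'

end Lower

end Fermat.Agent.Cor.H13
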