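import Fermat.Agent.Cor.H13Ogg
import Fermat.Agent.Igusa.Ramanujan
import Fermat.Agent.H29.Theta
import Fermat.Agent.H18_Differential
import Fermat.Agent.H51.QbarGalois

/-!
# The order of the cuspidal class `(0) - (∞)` on `X_0(N)`, `N` prime (Ogg): the case `N ≡ 1 mod 8`

The modular unit `u = Δ(τ) / Δ(Nτ)` satisfies `u · w_N(u) = N ^ 12`.
-/

set_option autoImplicit false
set_option linter.unusedSectionVars false
set_option linter.style.haveILetI false
set_option maxSynthPendingDepth 3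

noncomputable section

attribute [-instance] HahnSeries.instModule

namespace Fermat.Agent.Cor.H13

open AlgebraicCurve ModularCurve CongruenceSubgroup Fermat.Agent.M5 KaehlerDifferential
open scoped IntermediateField

local notation "Qb" => AlgebraicClosure ℚ

section Diff

variable {K F E : Type} [Field K] [Field F] [Algebra K F] [CharZero K] [FF.FunField K F]
  [Field E] [Algebra K E] [Algebra F E] [IsScalarTower K F E]

/-- an involution exchanging `x` and `y` maps `dy/dx` to `dx/dy`. -/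
theorem exists_diff (w : F ≃ₐ[K] F) (hw : ∀ f, w (w f) = f) (θ : Derivation K F E) {x y : F}
    (hxy : w x = y) (hx : θ x ≠ 0) (hy : θ y ≠ 0) :
    ∃ t : F, algebraMap F E t * θ x = θ y ∧ t * w t = 1 := by
  obtain ⟨s, hs, hfin⟩ := FF.FunField.exists_finite (K := K) (F := F)
  obtain ⟨e, he⟩ := H18.exists_kaehlerEquiv s hs
  let δ : Derivation K F F := (e : Ω[F⁄K] →ₗ[F] F).compDer (KaehlerDifferential.D K F)
  have hδ : ∀ f, δ f = e (KaehlerDifferential.D K F f) := fun f => rfl
  have hD : ∀ f, KaehlerDifferential.D K F f = δ f • KaehlerDifferential.D K F s := by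
    intro f
    apply e.injective
    rw [map_smul, he, hδ, smul_eq_mul, mul_one]
  have keyE : ∀ f, θ f = algebraMap F E (δ f) * θ s := by
    intro f
    rw [← θ.liftKaehlerDifferential_comp_D f, hD, map_smul, θ.liftKaehlerDifferential_comp_D,
      Algebra.smul_def]
  let δ' : Derivation K F F := Derivation.mk'
    ((w : F →ₗ[K] F) ∘ₗ (δ : F →ₗ[K] F) ∘ₗ (w : F →ₗ[K] F)) (fun a b => by
      change w (δ (w (a * b))) = a * w (δ (w b)) + b * w (δ (w a))
      rw [map_mul, Derivation.leibniz, smul_eq_mul, smul_eq_mul, map_add, map_mul, map_mul, hw, hw])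
  have hδ' : ∀ f, δ' f = w (δ (w f)) := fun f => rfl
  have keyF : ∀ f, δ' f = δ f * δ' s := by
    intro f
    rw [← δ'.liftKaehlerDifferential_comp_D f, hD, map_smul, δ'.liftKaehlerDifferential_comp_D,
      smul_eq_mul]
  have hyx : w y = x := by rw [← hxy, hw]
  have hx0 : δ x ≠ 0 := fun h => hx (by rw [keyE, h, map_zero, zero_mul])
  have hy0 : δ y ≠ 0 := fun h => hy (by rw [keyE, h, map_zero, zero_mul])
  have h1 : w (δ y) = δ x * δ' s := by rw [← keyF, hδ', hxy]
  have h2 : w (δ x) = δ y * δ' s := by rw [← keyF, hδ', hyx]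
  have hg : δ' s ≠ 0 := by
    intro h
    rw [h, mul_zero] at h1
    exact hy0 ((map_eq_zero w).mp h1)
  refine ⟨δ y / δ x, ?_, ?_⟩
  · rw [keyE x, keyE y, ← mul_assoc, ← map_mul, div_mul_cancel₀ _ hx0]
  · rw [map_div₀, h1, h2]
    field_simp

end Diff

section Fricke

variable (L : Type) [Field L] [Algebra ℚ L] [Algebra.IsAlgebraic ℚ L] (N : ℕ) [NeZero N]

theorem theta_jd_one_six : Igusa.theta (Igusa.jd L 1) ^ 6 =
    Igusa.jd L 1 ^ 4 * (Igusa.jd L 1 - 1728) ^ 3 * Igusa.dS L := by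
  have h := congrArg (coeffMap (Int.castRingHom L)) Igusa.theta_j_six
  rw [map_mul, map_mul, map_pow, map_pow, map_pow, map_sub, ← Igusa.theta_coeffMap,
    coeffMap_jqModC, Igusa.coeffMap_dS, map_ofNat] at h
  rw [Igusa.jd_one]
  exact h

theorem theta_jd_six : Igusa.theta (Igusa.jd L N) ^ 6 =
    (N : LaurentSeries L) ^ 6 * (Igusa.jd L N ^ 4 * (Igusa.jd L N - 1728) ^ 3 *
      qExpand L N (Igusa.dS L)) := by
  have h1 : Igusa.jd L N = qExpand L N (Igusa.jd L 1) := by
    rw [Igusa.qExpand_jd]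
    exact Igusa.jd_congr L (by simp)
  have h := congrArg (qExpand L N) (theta_jd_one_six L)
  rw [map_mul, map_mul, map_pow, map_pow, map_pow, map_sub, map_ofNat, ← h1] at h
  rw [← h, h1, Igusa.theta_qExpand, mul_pow]

theorem igusa_theta_eq (F : LaurentSeries L) : H29.theta L F = Igusa.theta F := by
  ext n
  rfl

theorem theta_jd_ne_zero : Igusa.theta (Igusa.jd L N) ≠ 0 := by
  haveI : CharZero L := charZero_of_injective_algebraMap (algebraMap ℚ L).injective
  rw [← igusa_theta_eq]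
  refine H29.theta_ne_zero_of_coeff (-(N : ℤ)) ?_ ?_
  · have := NeZero.ne N
    push_cast
    rw [neg_ne_zero]
    exact_mod_cast this
  · have h0 : Igusa.jd L N ≠ 0 := by
      intro h
      have h1 := Igusa.order_jd (R := L) N
      rw [h, HahnSeries.order_zero] at h1
      have := NeZero.ne N
      omega
    rw [← Igusa.order_jd (R := L) N]
    intro h
    exact h0 (HahnSeries.coeff_order_eq_zero.mp h)

theorem coe_uB_mul : (uB L N : LaurentSeries L) * qExpand L N (Igusa.dS L) = Igusa.dS L := by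
  rw [coe_uB, ← uR_rat, coeffEmb, coeffMap_uR, uR, mul_assoc, ← map_mul,
    mul_comm (Igusa.dSinv L), Igusa.dS_mul_dSinv, map_one, mul_one]

theorem wN_jB : wN L N (jB L (one_dvd N)) = jB L (dvd_refl N) := by
  apply Subtype.ext
  rw [wN, coe_wB_of_mem L _ _ _ (jd_mem_FB L (dvd_refl 1)), coe_jB, coe_jB, Igusa.qExpand_jd]
  exact Igusa.jd_congr L (by simp)

theorem wN_wN (f : FB L N) : wN L N (wN L N f) = f := wB_wB L _ _ f

/-- **The Fricke involution on the modular unit**: `u · w_N(u) = N ^ 12` for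
`u = Δ(τ) / Δ(Nτ)`. -/
theorem uB_mul_wN : uB L N * wN L N (uB L N) = (N : FB L N) ^ 12 := by
  haveI : CharZero L := charZero_of_injective_algebraMap (algebraMap ℚ L).injective
  set j := jB L (one_dvd N) with hj
  set jN := jB L (dvd_refl N) with hjN
  obtain ⟨t, ht1, ht2⟩ := exists_diff (wN L N) (wN_wN L N)
    ((H29.theta L).compAlgebraMap (FB L N)) (x := j) (y := jN) (wN_jB L N)
    (by
      change H29.theta L (Igusa.jd L 1) ≠ 0
      rw [igusa_theta_eq]
      exact theta_jd_ne_zero L 1)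
    (by
      change H29.theta L (Igusa.jd L N) ≠ 0
      rw [igusa_theta_eq]
      exact theta_jd_ne_zero L N)
  replace ht1 : (t : LaurentSeries L) * Igusa.theta (Igusa.jd L 1) = Igusa.theta (Igusa.jd L N) := by
    rw [← igusa_theta_eq, ← igusa_theta_eq]
    exact ht1
  have h1 := theta_jd_one_six L
  have h2 := theta_jd_six L N
  have h3 := coe_uB_mul L N
  have key : uB L N * t ^ 6 * (j ^ 4 * (j - 1728) ^ 3) =
      (N : FB L N) ^ 6 * (jN ^ 4 * (jN - 1728) ^ 3) := by
    apply Subtype.ext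
    have hθ : Igusa.theta (Igusa.jd L 1) ^ 6 ≠ 0 := pow_ne_zero _ (theta_jd_ne_zero L 1)
    apply mul_right_cancel₀ hθ
    change (uB L N : LaurentSeries L) * (t : LaurentSeries L) ^ 6 *
      (Igusa.jd L 1 ^ 4 * (Igusa.jd L 1 - 1728) ^ 3) * Igusa.theta (Igusa.jd L 1) ^ 6 =
      (N : LaurentSeries L) ^ 6 * (Igusa.jd L N ^ 4 * (Igusa.jd L N - 1728) ^ 3) *
        Igusa.theta (Igusa.jd L 1) ^ 6
    have h4 : (t : LaurentSeries L) ^ 6 * Igusa.theta (Igusa.jd L 1) ^ 6 =
        (N : LaurentSeries L) ^ 6 * (Igusa.jd L N ^ 4 * (Igusa.jd L N - 1728) ^ 3 *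
      qExpand L N (Igusa.dS L)) := by rw [← mul_pow, ht1, h2]
    calc _ = (uB L N : LaurentSeries L) * ((t : LaurentSeries L) ^ 6 *
          Igusa.theta (Igusa.jd L 1) ^ 6) * (Igusa.jd L 1 ^ 4 * (Igusa.jd L 1 - 1728) ^ 3) := by ring
      _ = (N : LaurentSeries L) ^ 6 * (Igusa.jd L N ^ 4 * (Igusa.jd L N - 1728) ^ 3) *
          (Igusa.jd L 1 ^ 4 * (Igusa.jd L 1 - 1728) ^ 3) *
          ((uB L N : LaurentSeries L) * qExpand L N (Igusa.dS L)) := by rw [h4]; ring
      _ = _ := by rw [h3, h1]; ring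
  have key2 := congrArg (wN L N) key
  have hwjN : wN L N jN = j := by rw [hjN, ← wN_jB L N, wN_wN]
  rw [map_mul, map_mul, map_pow, map_mul, map_pow, map_pow, map_sub, map_mul, map_mul, map_pow,
    map_pow, map_pow, map_sub, map_ofNat, map_natCast, wN_jB L N, hwjN] at key2
  have hnz : ∀ {d : ℕ} [NeZero d] (hd : d ∣ N) (c : ℕ), jB L hd - (c : FB L N) ≠ 0 := by
    intro d _ hd c h
    have h5 : (jB L hd : FB L N) = algebraMap L (FB L N) (c : L) := by
      rw [map_natCast]
      exact sub_eq_zero.mp h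
    have h6 : Igusa.jd L d = algebraMap L (LaurentSeries L) (c : L) := congrArg Subtype.val h5
    have h7 := theta_jd_ne_zero L d
    rw [h6, ← igusa_theta_eq] at h7
    exact h7 ((H29.theta L).map_algebraMap _)
  have hA : j ^ 4 * (j - 1728) ^ 3 ≠ 0 := by
    have e1 := hnz (one_dvd N) 0
    have e2 := hnz (one_dvd N) 1728
    rw [Nat.cast_zero, sub_zero] at e1
    rw [Nat.cast_ofNat] at e2
    exact mul_ne_zero (pow_ne_zero _ e1) (pow_ne_zero _ e2)
  have hB : jN ^ 4 * (jN - 1728) ^ 3 ≠ 0 := by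
    have e1 := hnz (dvd_refl N) 0
    have e2 := hnz (dvd_refl N) 1728
    rw [Nat.cast_zero, sub_zero] at e1
    rw [Nat.cast_ofNat] at e2
    exact mul_ne_zero (pow_ne_zero _ e1) (pow_ne_zero _ e2)
  apply mul_right_cancel₀ (mul_ne_zero hA hB)
  have h8 := congrArg₂ (· * ·) key key2
  have h9 : t ^ 6 * (wN L N t) ^ 6 = 1 := by rw [← mul_pow, ht2, one_pow]
  linear_combination h8 - (uB L N * wN L N (uB L N) * (j ^ 4 * (j - 1728) ^ 3) *
    (jN ^ 4 * (jN - 1728) ^ 3)) * h9

end Fricke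

section Root

/-- a Laurent series whose `s`-th power is `1` is constant -/
theorem eq_C_of_pow_eq_one {K : Type} [Field K] [CharZero K] {r : LaurentSeries K} {s : ℕ}
    (hs : s ≠ 0) (h : r ^ s = 1) : r = HahnSeries.C (r.coeff 0) := by
  have hr : r ≠ 0 := by
    rintro rfl
    rw [zero_pow hs] at h
    exact zero_ne_one h
  have h1 := congrArg (H29.theta K) h
  have : CharZero (LaurentSeries K) :=
    charZero_of_injective_algebraMap (algebraMap K (LaurentSeries K)).injective
  rw [Derivation.leibniz_pow, Derivation.map_one_eq_zero, nsmul_eq_mul] at h1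
  have h2 : H29.theta K r = 0 := by
    rcases mul_eq_zero.mp h1 with h1 | h1
    · exact absurd (by exact_mod_cast h1) hs
    · rw [smul_eq_mul] at h1
      exact (mul_eq_zero.mp h1).resolve_left (pow_ne_zero _ hr)
  ext n
  by_cases hn : n = 0
  · rw [hn, HahnSeries.C_apply, HahnSeries.coeff_single_same]
  · rw [HahnSeries.C_apply, HahnSeries.coeff_single_of_ne hn]
    have h3 := congrArg (fun x : LaurentSeries K => x.coeff n) h2
    simp only [H29.theta_coeff, HahnSeries.coeff_zero] at h3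
    exact (mul_eq_zero.mp h3).resolve_left (by exact_mod_cast hn)

/-- `s`-th roots with leading coefficient `1` are unique -/
theorem eq_of_pow_eq {K : Type} [Field K] [CharZero K] {f g : LaurentSeries K} {s : ℕ}
    (hs : s ≠ 0) (h : f ^ s = g ^ s) (hf : f.leadingCoeff = 1) (hg : g.leadingCoeff = 1) :
    f = g := by
  have hg0 : g ≠ 0 := by
    rintro rfl
    rw [HahnSeries.leadingCoeff_zero] at hg
    exact zero_ne_one hg
  have h1 : (f / g) ^ s = 1 := by rw [div_pow, h, div_self (pow_ne_zero _ hg0)]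
  have h2 := eq_C_of_pow_eq_one hs h1
  have h3 : f = HahnSeries.C ((f / g).coeff 0) * g := by rw [← h2, div_mul_cancel₀ _ hg0]
  have h4 := congrArg HahnSeries.leadingCoeff h3
  rw [H26.laurent_leadingCoeff_mul, hf, hg, mul_one, HahnSeries.C_apply,
    HahnSeries.leadingCoeff_of_single] at h4
  rw [h3, ← h4, map_one, one_mul]

theorem leadingCoeff_pow' {K : Type} [Field K] (f : LaurentSeries K) (n : ℕ) :
    (f ^ n).leadingCoeff = f.leadingCoeff ^ n := by
  induction n with
  | zero => rw [pow_zero, pow_zero]; exact HahnSeries.leadingCoeff_one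
  | succ n ih => rw [pow_succ, H26.laurent_leadingCoeff_mul, ih, pow_succ]

/-- a root of the modular unit, suitably normalised, has rational coefficients -/
theorem exists_root_rat {N : ℕ} [NeZero N] {s : ℕ} (hs : s ≠ 0) {g : FB Qb N}
    (hg : g ^ s = uB Qb N) : ∃ h : FB ℚ N, h ^ s = uB ℚ N := by
  have hgs : (g : LaurentSeries Qb) ^ s = coeffEmb Qb (modularUnitSeries N) := congrArg Subtype.val hg
  have hlead : (coeffEmb Qb (modularUnitSeries N)).leadingCoeff = 1 := by
    rw [coeffEmb, H26.leadingCoeff_coeffMap, (isMonicOfOrder_modularUnitSeries N).2, map_one]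
  set a := (g : LaurentSeries Qb).leadingCoeff with ha
  have has : a ^ s = 1 := by rw [ha, ← leadingCoeff_pow', hgs, hlead]
  have ha0 : a ≠ 0 := by
    intro h
    rw [h, zero_pow hs] at has
    exact zero_ne_one has
  let h : FB Qb N := algebraMap Qb (FB Qb N) a⁻¹ * g
  have hh : h ^ s = uB Qb N := by
    change (algebraMap Qb (FB Qb N) a⁻¹ * g) ^ s = _
    rw [mul_pow, hg, ← map_pow, inv_pow, has, inv_one, map_one, one_mul]
  have hhs : (h : LaurentSeries Qb) ^ s = coeffEmb Qb (modularUnitSeries N) := congrArg Subtype.val hh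
  have hh1 : (h : LaurentSeries Qb).leadingCoeff = 1 := by
    have h1 : (h : LaurentSeries Qb) = HahnSeries.C a⁻¹ * (g : LaurentSeries Qb) := by
      change algebraMap Qb (LaurentSeries Qb) a⁻¹ * (g : LaurentSeries Qb) = _
      rw [algebraMap_laurentSeries_eq_single]
      rfl
    rw [h1, H26.laurent_leadingCoeff_mul, HahnSeries.C_apply, HahnSeries.leadingCoeff_of_single,
      ← ha, inv_mul_cancel₀ ha0]
  have hfix : ∀ σ : Qb ≃ₐ[ℚ] Qb, coeffMap (σ : Qb →+* Qb) (h : LaurentSeries Qb) = h := by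
    intro σ
    apply eq_of_pow_eq hs _ _ hh1
    · rw [← map_pow, hhs, coeffEmb, coeffMap_coeffMap]
      congr 1
      exact congrArg _ (Subsingleton.elim _ _)
    · rw [H26.leadingCoeff_coeffMap, hh1, map_one]
  obtain ⟨z, hz⟩ := H26.exists_embBC_of_coeff_mem (K := ℚ) (L := Qb) h (fun n => by
    obtain ⟨q, hq⟩ := H51.rational_of_fixed (x := (h : LaurentSeries Qb).coeff n) (fun σ => by
      have h2 := congrArg (fun x : LaurentSeries Qb => x.coeff n) (hfix σ)
      exact h2)
    exact ⟨q, hq⟩)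
  refine ⟨z, ?_⟩
  apply (H26.embBC Qb (modularFunctionFieldFull N)).injective
  rw [map_pow, hz, hh]
  apply Subtype.ext
  rw [H26.coe_embBC]
  change coeffEmb Qb (modularUnitSeries N) = coeffMap (algebraMap ℚ Qb) (coeffEmb ℚ (modularUnitSeries N))
  rw [coeffEmb, coeffEmb, coeffMap_coeffMap]
  congr 1

/-- **The modular unit `Δ(τ) / Δ(Nτ)` is an `s`-th power in the function field of `X_0(N)`, `N` prime,
only if `s ∣ 12`.** -/
theorem dvd_twelve_of_root {N : ℕ} [NeZero N] (hN : N.Prime) {s : ℕ} (hs : s ≠ 0) {g : FB Qb N}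
    (hg : g ^ s = uB Qb N) : s ∣ 12 := by
  obtain ⟨h, hh⟩ := exists_root_rat hs hg
  have h1 : (h * wN ℚ N h) ^ s = (N : FB ℚ N) ^ 12 := by
    rw [mul_pow, ← map_pow, hh, uB_mul_wN]
  have h2 : ((h * wN ℚ N h : FB ℚ N) : LaurentSeries ℚ) ^ s = HahnSeries.C ((N : ℚ) ^ 12) := by
    rw [map_pow, map_natCast]
    exact congrArg Subtype.val h1
  have h3 := congrArg HahnSeries.leadingCoeff h2
  rw [leadingCoeff_pow', HahnSeries.C_apply, HahnSeries.leadingCoeff_of_single] at h3
  set c := ((h * wN ℚ N h : FB ℚ N) : LaurentSeries ℚ).leadingCoeff with hc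
  have : Fact N.Prime := ⟨hN⟩
  have hN0 : (N : ℚ) ≠ 0 := by exact_mod_cast hN.ne_zero
  have hc0 : c ≠ 0 := by
    intro h4
    rw [h4, zero_pow hs] at h3
    exact pow_ne_zero _ hN0 h3.symm
  have h4 := congrArg (padicValRat N) h3
  rw [padicValRat.pow, padicValRat.pow, padicValRat.self hN.one_lt, mul_one] at h4
  exact_mod_cast Dvd.intro _ h4

/-- **Ogg's theorem**: for every prime `N` the class `(0) - (∞)` has order exactly the numerator of
`(N - 1) / 12` in `J_0(N)`. -/
theorem addOrderOf_cuspClass' {N : ℕ} [NeZero N] (hN : N.Prime) :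
    addOrderOf (cuspClass Qb N : JZero N) = eisensteinNumerator N := by
  set d := addOrderOf (cuspClass Qb N : JZero N) with hd
  have h1 : d ∣ eisensteinNumerator N :=
    addOrderOf_dvd_of_nsmul_eq_zero (eisensteinNumerator_smul_cuspClass hN)
  have h2 : d ∣ N - 1 := h1.trans (eisensteinNumerator_dvd N)
  obtain ⟨s, hs⟩ := h2
  have hN1 : N - 1 ≠ 0 := by have := hN.two_le; omega
  have hs0 : s ≠ 0 := by rintro rfl; exact hN1 (by rw [hs, mul_zero])
  obtain ⟨g, hg⟩ := exists_root' hN (addOrderOf_nsmul_eq_zero _) hs0 (by rw [hs, mul_comm])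
  have hsN : s ∣ N - 1 := ⟨d, by rw [hs, mul_comm]⟩
  have h6 : s ∣ Nat.gcd (N - 1) 12 := Nat.dvd_gcd hsN (dvd_twelve_of_root hN hs0 hg)
  apply Nat.dvd_antisymm h1
  obtain ⟨t, ht⟩ := h6
  refine ⟨t, ?_⟩
  have h7 : eisensteinNumerator N * Nat.gcd (N - 1) 12 = N - 1 := by
    rw [eisensteinNumerator]
    exact Nat.div_mul_cancel (Nat.gcd_dvd_left _ _)
  have h8' : s * d = s * (eisensteinNumerator N * t) := by
    rw [mul_comm s d, ← hs, ← h7, ht]
    ring
  exact Nat.eq_of_mul_eq_mul_left (Nat.pos_of_ne_zero hs0) h8'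

end Root

end Fermat.Agent.Cor.H13
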