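import Fermat.Agent.Cor.H13Ogg2

/-!
# Consequences of Ogg's theorem on the cuspidal class `(0) - (∞)` of `X_0(N)`, `N` prime
-/

set_option autoImplicit false
set_option linter.unusedSectionVars false
set_option linter.style.haveILetI false
set_option maxSynthPendingDepth 3

noncomputable section

attribute [-instance] HahnSeries.instModule

namespace Fermat.Agent.Cor.H13

open AlgebraicCurve ModularCurve CongruenceSubgroup Fermat.Agent.M5
open scoped IntermediateField

local notation "Qb" => AlgebraicClosure ℚ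

variable {N : ℕ} [NeZero N]

theorem numerator_mul_gcd (N : ℕ) : eisensteinNumerator N * Nat.gcd (N - 1) 12 = N - 1 := by
  rw [eisensteinNumerator]
  exact Nat.div_mul_cancel (Nat.gcd_dvd_left _ _)

/-- **Roots of the modular unit** `Δ(τ) / Δ(Nτ)`, `N` prime. -/
theorem exists_root_iff (hN : N.Prime) {s : ℕ} (hs : s ≠ 0) :
    (∃ g : FB Qb N, g ^ s = uB Qb N) ↔ s ∣ Nat.gcd (N - 1) 12 := by
  constructor
  · rintro ⟨g, hg⟩
    refine Nat.dvd_gcd ?_ (dvd_twelve_of_root hN hs hg)
    have h1 : (cInf Qb N).ord (g ^ s) = (cInf Qb N).ord (uB Qb N) := by rw [hg]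
    rw [H18.ord_pow, cInf_ord_uB] at h1
    have h2 : (s : ℤ) ∣ ((N - 1 : ℕ) : ℤ) := by
      rw [Nat.cast_sub hN.one_le]
      exact ⟨-(cInf Qb N).ord g, by push_cast; linarith⟩
    exact_mod_cast h2
  · rintro ⟨t, ht⟩
    refine exists_root' hN (m := eisensteinNumerator N * t) ?_ hs ?_
    · rw [mul_comm, mul_smul, eisensteinNumerator_smul_cuspClass hN, smul_zero]
    · have h7 := numerator_mul_gcd N
      rw [ht] at h7
      rw [← h7]
      ring

/-- the same over `ℚ`: the eta quotient `(η(τ) / η(Nτ)) ^ (24 / s)` is a modular function on `X_0(N)`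
with rational Fourier coefficients if and only if `s ∣ gcd(N - 1, 12)`. -/
theorem exists_root_rat_iff (hN : N.Prime) {s : ℕ} (hs : s ≠ 0) :
    (∃ g : FB ℚ N, g ^ s = uB ℚ N) ↔ s ∣ Nat.gcd (N - 1) 12 := by
  rw [← exists_root_iff hN hs]
  constructor
  · rintro ⟨g, hg⟩
    refine ⟨H26.embBC Qb (modularFunctionFieldFull N) g, ?_⟩
    rw [← map_pow, hg]
    apply Subtype.ext
    rw [H26.coe_embBC]
    change coeffMap (algebraMap ℚ Qb) (coeffEmb ℚ (modularUnitSeries N)) =
      coeffEmb Qb (modularUnitSeries N)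
    rw [coeffEmb, coeffEmb, coeffMap_coeffMap]
    congr 1
  · rintro ⟨g, hg⟩
    exact exists_root_rat hs hg

/-- `(0)` and `(∞)` are linearly equivalent on `X_0(N)`, `N` prime, only for `N = 2, 3, 5, 7, 13` -/
theorem cuspClass_eq_zero_iff (hN : N.Prime) :
    (cuspClass Qb N : JZero N) = 0 ↔ N = 2 ∨ N = 3 ∨ N = 5 ∨ N = 7 ∨ N = 13 := by
  rw [← AddMonoid.addOrderOf_eq_one_iff, addOrderOf_cuspClass' hN]
  have h7 := numerator_mul_gcd N
  constructor
  · intro h
    rw [h, one_mul] at h7
    have h1 : N - 1 ∣ 12 := h7 ▸ Nat.gcd_dvd_right _ _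
    have h2 := Nat.le_of_dvd (by norm_num) h1
    have h0 := hN.two_le
    have h25 : N ≤ 13 := by omega
    interval_cases N <;> first | omega | (exfalso; revert hN; decide)
  · rintro (rfl | rfl | rfl | rfl | rfl) <;> decide

section Points

variable (N) in
/-- the cuspidal class as a point of `J_0(N)(E)` -/
theorem cuspClass_mem (hN : N.Prime) (E : IntermediateField ℚ (AlgebraicClosure ℚ)) :
    (cuspClass Qb N : JZero N) ∈ JPts N E := fun σ => smul_cc hN (σ : Qb ≃ₐ[ℚ] Qb)

/-- **`J_0(N)(ℚ)` has a point of order the numerator of `(N - 1) / 12`** (`N` prime; every field `E`). -/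
theorem exists_point_order (hN : N.Prime) (E : IntermediateField ℚ (AlgebraicClosure ℚ)) :
    ∃ x : JPts N E, addOrderOf x = eisensteinNumerator N := by
  refine ⟨⟨_, cuspClass_mem N hN E⟩, ?_⟩
  rw [← AddSubgroup.addOrderOf_coe]
  exact addOrderOf_cuspClass' hN

/-- the cuspidal subgroup is cyclic of order the numerator of `(N - 1) / 12` -/
theorem card_cuspidal (hN : N.Prime) :
    Nat.card (AddSubgroup.zmultiples (cuspClass Qb N : JZero N)) = eisensteinNumerator N := by
  rw [Nat.card_zmultiples, addOrderOf_cuspClass' hN]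

/-- the numerator of `(N - 1) / 12` divides the order of the torsion subgroup of `J_0(N)(E)`, for every
number field `E`. -/
theorem eisensteinNumerator_dvd_card_torsion (hN : N.Prime)
    (E : IntermediateField ℚ (AlgebraicClosure ℚ)) [FiniteDimensional ℚ E] :
    eisensteinNumerator N ∣ Nat.card (AddCommGroup.torsion (JPts N E)) := by
  have := finite_torsion_JZero N E
  obtain ⟨x, hx⟩ := exists_point_order hN E
  have hpos : 0 < eisensteinNumerator N := by
    have h2 := hN.two_le
    exact Nat.div_pos (Nat.le_of_dvd (by omega) (Nat.gcd_dvd_left _ _))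
      (Nat.gcd_pos_of_pos_left _ (by omega))
  have hfin : IsOfFinAddOrder x := by
    rw [← addOrderOf_pos_iff, hx]
    exact hpos
  have h1 : addOrderOf (⟨x, hfin⟩ : AddCommGroup.torsion (JPts N E)) = eisensteinNumerator N := by
    rw [← AddSubgroup.addOrderOf_coe]
    exact hx
  rw [← h1]
  exact addOrderOf_dvd_natCard _

end Points

section Hauptmodul

/-- **The Hauptmodul** of `X_0(N)`, `N = 2, 3, 5, 7, 13`: the function `t = (η(τ)/η(Nτ)) ^ (24 / (N - 1))`
generates the function field. -/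
theorem exists_hauptmodul (hN : N.Prime) (h12 : N - 1 ∣ 12) :
    ∃ t : FB Qb N, t ^ (N - 1) = uB Qb N ∧ Qb⟮t⟯ = ⊤ ∧
      ∀ v, v.ord t = ((Finsupp.single (cZero Qb N) 1 - Finsupp.single (cInf Qb N) 1 :
        Divisor Qb (FB Qb N)) v) := by
  have hN1 : N - 1 ≠ 0 := by have := hN.two_le; omega
  obtain ⟨t, ht⟩ := (exists_root_iff hN hN1).mpr (Nat.dvd_gcd dvd_rfl h12)
  have hord : ∀ v : Place Qb (FB Qb N), v.ord t = ((Finsupp.single (cZero Qb N) 1 -
      Finsupp.single (cInf Qb N) 1 : Divisor Qb (FB Qb N)) v) := by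
    intro v
    have h1 := ord_uB Qb hN v
    rw [← ht, H18.ord_pow, Finsupp.smul_apply, smul_eq_mul, Nat.cast_sub hN.one_le,
      Nat.cast_one] at h1
    have h2 : ((N : ℤ) - 1) ≠ 0 := by have := hN.two_le; omega
    exact mul_left_cancel₀ h2 h1
  refine ⟨t, ht, ?_, hord⟩
  have h01 := cInf_ne_cZero Qb hN.one_lt
  have hinf : (cInf Qb N).ord t = -1 := by
    rw [hord, Finsupp.sub_apply, Finsupp.single_eq_of_ne h01, Finsupp.single_eq_same]
    norm_num
  have htr : Transcendental Qb t := by
    apply FF.transcendental_of_not_mem_range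
    rintro ⟨c, hc⟩
    rw [← hc] at hinf
    have h3 : (cInf Qb N).ord (algebraMap Qb (FB Qb N) c) = 0 := by
      rw [cInf_ord]
      change (algebraMap Qb (LaurentSeries Qb) c).order = 0
      rw [algebraMap_laurentSeries_eq_single]
      by_cases hc0 : c = 0
      · rw [hc0, HahnSeries.single_eq_zero, HahnSeries.order_zero]
      · exact HahnSeries.order_single hc0
    rw [h3] at hinf
    exact absurd hinf (by norm_num)
  have hpoles : (FF.poles (K := Qb) t) = Finsupp.single (cInf Qb N) 1 := by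
    ext v
    rw [FF.poles_apply, hord, Finsupp.sub_apply]
    by_cases hv : v = cInf Qb N
    · subst hv
      rw [Finsupp.single_eq_same, Finsupp.single_eq_of_ne h01]
      norm_num
    · rw [Finsupp.single_eq_of_ne hv]
      by_cases hv2 : v = cZero Qb N
      · subst hv2
        rw [Finsupp.single_eq_same]
        norm_num
      · rw [Finsupp.single_eq_of_ne hv2]
        norm_num
  have hdeg := FF.degree_poles t htr
  rw [hpoles, Divisor.degree_single, H05.deg_eq_one_bc Qb N] at hdeg
  rw [← IntermediateField.finrank_eq_one_iff_eq_top]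
  exact_mod_cast hdeg.symm

/-- the Fricke involution on the Hauptmodul, up to sign: `(t · w_N(t)) ^ 2 = N ^ (24 / (N - 1))`;
here for every root `t` (of any exponent `s`) of the modular unit with rational coefficients. -/
theorem root_mul_wN_sq {s : ℕ} (hs : s ≠ 0) (h12 : s ∣ 12) {t : FB ℚ N}
    (ht : t ^ s = uB ℚ N) : (t * wN ℚ N t) ^ 2 = (N : FB ℚ N) ^ (24 / s) := by
  obtain ⟨k, hk⟩ := h12
  have h1 : (t * wN ℚ N t) ^ s = (N : FB ℚ N) ^ 12 := by
    rw [mul_pow, ← map_pow, ht, uB_mul_wN]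
  have hN0 : (N : FB ℚ N) ≠ 0 := by
    have : CharZero (FB ℚ N) := charZero_of_injective_algebraMap (algebraMap ℚ (FB ℚ N)).injective
    exact_mod_cast NeZero.ne N
  have h2 : ((t * wN ℚ N t) / (N : FB ℚ N) ^ k) ^ s = 1 := by
    rw [div_pow, h1, ← pow_mul, mul_comm k s, ← hk, div_self (pow_ne_zero _ hN0)]
  set r := (t * wN ℚ N t) / (N : FB ℚ N) ^ k with hr
  have h3 : (r : LaurentSeries ℚ) ^ s = 1 := congrArg Subtype.val h2
  have h4 := eq_C_of_pow_eq_one hs h3
  set c := (r : LaurentSeries ℚ).coeff 0 with hc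
  have h5 : c ^ s = 1 := by
    rw [h4, ← map_pow, ← map_one HahnSeries.C] at h3
    exact HahnSeries.C_injective h3
  have h6 : c ^ 2 = 1 := by
    rcases pow_eq_one_iff_cases.mp h5 with h | h | ⟨h, -⟩
    · exact absurd h hs
    · rw [h, one_pow]
    · rw [h]; norm_num
  have h7 : r ^ 2 = 1 := by
    apply Subtype.ext
    change (r : LaurentSeries ℚ) ^ 2 = 1
    rw [h4, ← map_pow, h6, map_one]
  have h8 : t * wN ℚ N t = r * (N : FB ℚ N) ^ k := by
    rw [hr, div_mul_cancel₀ _ (pow_ne_zero _ hN0)]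
  rw [h8, mul_pow, h7, one_mul, ← pow_mul]
  congr 1
  rw [show 24 = s * (k * 2) by rw [← mul_assoc, ← hk]; norm_num]
  exact (Nat.mul_div_cancel_left _ (Nat.pos_of_ne_zero hs)).symm

end Hauptmodul

end Fermat.Agent.Cor.H13
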