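import Fermat.Agent.Cor.H13Ogg3
import Fermat.Agent.Cor.H13Lat

/-!
# The numerator of `(N - 1) / 12` divides `det(1 + ℓ - T_ℓ)` on `S₂(Γ₀(N))`, `N` prime

By the Eichler–Shimura relation this determinant is the number of points of `J_0(N)` over `𝔽_ℓ`.
-/

set_option autoImplicit false
set_option linter.unusedSectionVars false
set_option linter.style.haveILetI false
set_option maxSynthPendingDepth 3

noncomputable section

namespace Fermat.Agent.Cor.H13

open AlgebraicCurve ModularCurve CongruenceSubgroup Fermat.Agent.M5 Polynomial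

local notation "Qb" => AlgebraicClosure ℚ

variable {N : ℕ} [NeZero N]

/-- a polynomial relation `f(t) = 0` for a Hecke operator `t` on cusp forms implies that the numerator of `(N - 1) / 12`
divides `f(a)`, `a` the eigenvalue of `t` on the Eisenstein series. -/
theorem numerator_dvd_eval (hN : N.Prime) {l : Nat.Primes} {f : ℤ[X]}
    (hf : aeval (CuspForm.heckeFormsGen N 2 l) f = 0) :
    (eisensteinNumerator N : ℤ) ∣ f.eval (eisensteinSystem N l) := by
  have h1 := actJ_gen N l
  have h2 : aeval (heckeOperatorBar N l) f = 0 := by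
    rw [← h1]
    have h3 := Polynomial.aeval_algHom_apply (actJ N).toIntAlgHom (CuspForm.heckeFormsGen N 2 l) f
    rw [hf, map_zero] at h3
    exact h3
  have h3 := aeval_eigen (hecke_cuspClass hN l) f
  rw [h2, LinearMap.zero_apply] at h3
  rw [← addOrderOf_cuspClass' hN]
  exact addOrderOf_dvd_iff_zsmul_eq_zero.mpr h3.symm

/-- the characteristic polynomial of a Hecke operator has integral coefficients and annihilates it -/
theorem exists_charpoly (t : CuspForm.heckeAlgebra N 2 ∅) : ∃ P : ℤ[X],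
    (t : Module.End ℂ (CuspForm (Gamma0 N) 2)).charpoly = P.map (Int.castRingHom ℂ) ∧
      aeval t P = 0 := by
  let TL : Module.End ℤ (Lat.LL N) :=
    ((CuspForm.latticeRestrictHom N ∅ t : ↥(CuspForm.heckeLatticeAlgebra N ∅)) :
      Module.End ℤ (Lat.LL N))
  have h1 := Lat.charpoly_eq N
    (T := (t : Module.End ℂ (CuspForm (Gamma0 N) 2))) (TL := TL) (fun f => rfl)
  refine ⟨TL.charpoly, h1, ?_⟩
  apply Subtype.ext
  have h2 := LinearMap.aeval_self_charpoly (t : Module.End ℂ (CuspForm (Gamma0 N) 2))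
  rw [h1] at h2
  have h3 := Polynomial.aeval_algHom_apply (CuspForm.heckeAlgebra N 2 ∅).val t TL.charpoly
  change _ = ((aeval t TL.charpoly : CuspForm.heckeAlgebra N 2 ∅) :
    Module.End ℂ (CuspForm (Gamma0 N) 2)) at h3
  rw [← h3]
  rw [show (Int.castRingHom ℂ) = algebraMap ℤ ℂ from rfl, aeval_map_algebraMap] at h2
  exact h2

/-- **The numerator of `(N - 1) / 12` divides the characteristic polynomial of each Hecke operator at the
Eisenstein eigenvalue.** -/
theorem numerator_dvd_charpoly (hN : N.Prime) (l : Nat.Primes) : ∃ m : ℤ,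
    ((CuspForm.heckeFormsGen N 2 l : CuspForm.heckeAlgebra N 2 ∅) :
      Module.End ℂ (CuspForm (Gamma0 N) 2)).charpoly.eval ((eisensteinSystem N l : ℤ) : ℂ) =
      (eisensteinNumerator N : ℂ) * m := by
  obtain ⟨P, hP, h0⟩ := exists_charpoly (CuspForm.heckeFormsGen N 2 l)
  obtain ⟨m, hm⟩ := numerator_dvd_eval hN h0
  refine ⟨m, ?_⟩
  rw [hP, ← eq_intCast (Int.castRingHom ℂ), Polynomial.eval_map_apply, hm]
  simp

/-- **`det(1 + ℓ - T_ℓ)` on `S₂(Γ₀(N))` is an integer divisible by the numerator of `(N - 1) / 12`**, `N` prime,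
`ℓ ∤ N`. -/
theorem numerator_dvd_det_T (hN : N.Prime) (l : Nat.Primes) (hlN : ¬ (l : ℕ) ∣ N) : ∃ m : ℤ,
    LinearMap.det (algebraMap ℂ (Module.End ℂ (CuspForm (Gamma0 N) 2)) (1 + ((l : ℕ) : ℂ)) -
      CuspForm.heckeTLin 2 l.2 hlN) = (eisensteinNumerator N : ℂ) * m := by
  obtain ⟨m, hm⟩ := numerator_dvd_charpoly hN l
  rw [eisensteinSystem_of_not_dvd hlN, CuspForm.heckeFormsGen_of_not_dvd hlN,
    LinearMap.eval_charpoly] at hm
  refine ⟨m, ?_⟩
  rw [← hm]
  push_cast
  rfl

/-- **`det(1 - U_N)` on `S₂(Γ₀(N))` is an integer divisible by the numerator of `(N - 1) / 12`**, `N` prime. -/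
theorem numerator_dvd_det_U (hN : N.Prime) : ∃ m : ℤ,
    LinearMap.det (1 - CuspForm.heckeULin (p := N) 2 (dvd_refl N) :
      Module.End ℂ (CuspForm (Gamma0 N) 2)) = (eisensteinNumerator N : ℂ) * m := by
  let q : Nat.Primes := ⟨N, hN⟩
  have hq : (q : ℕ) ∣ N := dvd_refl N
  obtain ⟨m, hm⟩ := numerator_dvd_charpoly hN q
  rw [eisensteinSystem_of_dvd hq, CuspForm.heckeFormsGen_of_dvd hq, LinearMap.eval_charpoly,
    Int.cast_one, map_one] at hm
  exact ⟨m, hm⟩

end Fermat.Agent.Cor.H13
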