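import Fermat.Agent.Cor.H13Ogg3

/-!
# The Eisenstein points of `J_0(N)(Qb)`, `N` prime
-/

set_option autoImplicit false
set_option linter.unusedSectionVars false
set_option linter.style.haveILetI false
set_option maxSynthPendingDepth 3

noncomputable section

namespace Fermat.Agent.Cor.H13

open AlgebraicCurve ModularCurve CongruenceSubgroup Fermat.Agent.M5

local notation "Qb" => AlgebraicClosure ℚ

variable {N : ℕ} [NeZero N]

variable (N) in
/-- the kernel of the Eisenstein ideal in `J_0(N)(Qb)`: the points with `T_ℓ x = (1 + ℓ) x` for the primes `ℓ ∤ N` and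
`U_q x = x` for the primes `q ∣ N`. -/
def eisPts : AddSubgroup (JZero N) where
  carrier := {x | ∀ l, heckeOperatorBar N l x = eisensteinSystem N l • x}
  zero_mem' := fun l => by rw [map_zero, smul_zero]
  add_mem' := fun {x y} hx hy l => by rw [map_add, hx l, hy l, smul_add]
  neg_mem' := fun {x} hx l => by rw [map_neg, hx l, smul_neg]

theorem mem_eisPts {x : JZero N} :
    x ∈ eisPts N ↔ ∀ l, heckeOperatorBar N l x = eisensteinSystem N l • x := Iff.rfl

/-- the Galois group acts on the Eisenstein points -/
theorem smul_mem_eisPts (σ : Qb ≃ₐ[ℚ] Qb) {x : JZero N} (hx : x ∈ eisPts N) :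
    σ • x ∈ eisPts N := by
  intro l
  rw [← actJ_gen, actJ_smul, actJ_gen, hx l, smul_comm]

/-- **The group of Eisenstein points of `J_0(N)(Qb)` has exponent exactly the numerator of `(N - 1) / 12`** (`N` prime) -/
theorem exponent_eisPts (hN : N.Prime) :
    AddMonoid.exponent (eisPts N) = eisensteinNumerator N := by
  apply Nat.dvd_antisymm
  · apply AddMonoid.exponent_dvd_of_forall_nsmul_eq_zero
    rintro ⟨x, hx⟩
    apply Subtype.ext
    exact eisensteinNumerator_smul hN hx
  · have h1 : addOrderOf (⟨_, hecke_cuspClass hN⟩ : eisPts N) = eisensteinNumerator N := by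
      rw [← AddSubgroup.addOrderOf_coe]
      exact addOrderOf_cuspClass' hN
    rw [← h1]
    exact AddMonoid.addOrder_dvd_exponent _

theorem eisensteinNumerator_pos (hN : N.Prime) : 0 < eisensteinNumerator N := by
  have h2 := hN.two_le
  exact Nat.div_pos (Nat.le_of_dvd (by omega) (Nat.gcd_dvd_left _ _))
    (Nat.gcd_pos_of_pos_left _ (by omega))

/-- there are only finitely many Eisenstein points -/
theorem finite_eisPts (hN : N.Prime) : Finite (eisPts N) := by
  have h := H02F.finite_torsionBy N (eisensteinNumerator_pos hN)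
  let f : eisPts N → Submodule.torsionBy ℤ (JZero N) ((eisensteinNumerator N : ℕ) : ℤ) := fun x =>
    ⟨(x : JZero N), (Submodule.mem_torsionBy_iff _ _).mpr (by
      rw [Nat.cast_smul_eq_nsmul]; exact eisensteinNumerator_smul hN x.2)⟩
  refine Finite.of_injective f fun x y hxy => ?_
  have h1 : ((f x : Submodule.torsionBy ℤ (JZero N) ((eisensteinNumerator N : ℕ) : ℤ)) : JZero N) = f y :=
    congrArg Subtype.val hxy
  exact Subtype.ext h1

/-- the order of the group of Eisenstein points is divisible by the numerator of `(N - 1) / 12` and has the same prime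
divisors -/
theorem card_eisPts (hN : N.Prime) : eisensteinNumerator N ∣ Nat.card (eisPts N) ∧
    ∀ p : ℕ, p.Prime → (p ∣ Nat.card (eisPts N) ↔ p ∣ eisensteinNumerator N) := by
  have := finite_eisPts hN
  have h1 : eisensteinNumerator N ∣ Nat.card (eisPts N) := by
    rw [← exponent_eisPts hN]
    exact AddGroup.exponent_dvd_nat_card
  refine ⟨h1, fun p hp => ⟨fun h => ?_, fun h => h.trans h1⟩⟩
  have : Fact p.Prime := ⟨hp⟩
  obtain ⟨x, hx⟩ := exists_prime_addOrderOf_dvd_card' p h
  rw [← exponent_eisPts hN, ← hx]
  exact AddMonoid.addOrder_dvd_exponent x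

end Fermat.Agent.Cor.H13
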