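import Fermat.Agent.Cor.H13Ogg3

/-!
# The modular units of `X_0(N)`, `N` prime
-/

set_option autoImplicit false
set_option linter.unusedSectionVars false
set_option linter.style.haveILetI false
set_option maxSynthPendingDepth 3

noncomputable section

namespace Fermat.Agent.Cor.H13

open AlgebraicCurve ModularCurve CongruenceSubgroup Fermat.Agent.M5

local notation "Qb" => AlgebraicClosure ℚ

variable {N : ℕ} [NeZero N]

/-- a function with divisor `a ((0) - (∞))` exists only if the order of the cuspidal class divides `a` -/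
theorem numerator_dvd_of_ord (hN : N.Prime) {a : ℤ} {f : FB Qb N} (hf : f ≠ 0)
    (h : ∀ v : Place Qb (FB Qb N), v.ord f = a * ((Finsupp.single (cZero Qb N) 1 -
      Finsupp.single (cInf Qb N) 1 : Divisor Qb (FB Qb N)) v)) :
    (eisensteinNumerator N : ℤ) ∣ a := by
  rw [← addOrderOf_cuspClass' hN]
  apply addOrderOf_dvd_iff_zsmul_eq_zero.mpr
  have h1 : a • cuspClass Qb N = Pic0.mk (a •
    ⟨_, mem_degZero_single_sub Qb (cZero Qb N) (cInf Qb N)⟩) := rfl
  rw [h1]
  refine (QuotientAddGroup.eq_zero_iff _).mpr ?_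
  rw [AddSubgroup.mem_addSubgroupOf]
  exact ⟨f, hf, fun v => (h v).symm⟩

/-- a function whose zeros and poles are cusps has divisor a multiple of `(0) - (∞)` -/
theorem exists_ord_eq (hN : N.Prime) {f : FB Qb N}
    (h : ∀ v : Place Qb (FB Qb N), 0 ≤ v.ord (jB Qb (one_dvd N)) → v.ord f = 0) :
    ∃ a : ℤ, ∀ v : Place Qb (FB Qb N), v.ord f = a * ((Finsupp.single (cZero Qb N) 1 -
      Finsupp.single (cInf Qb N) 1 : Divisor Qb (FB Qb N)) v) := by
  have h12 := cInf_ne_cZero Qb hN.one_lt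
  have hdiv : FF.div (K := Qb) f = Finsupp.single (cInf Qb N) ((cInf Qb N).ord f) +
      Finsupp.single (cZero Qb N) ((cZero Qb N).ord f) := by
    ext w
    rw [FF.div_apply, Finsupp.add_apply]
    by_cases hw1 : w = cInf Qb N
    · subst hw1
      rw [Finsupp.single_eq_same, Finsupp.single_eq_of_ne h12, add_zero]
    by_cases hw2 : w = cZero Qb N
    · subst hw2
      rw [Finsupp.single_eq_same, Finsupp.single_eq_of_ne hw1, zero_add]
    rw [Finsupp.single_eq_of_ne hw1, Finsupp.single_eq_of_ne hw2, add_zero]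
    apply h
    by_contra hneg
    push Not at hneg
    rcases cusp_cases Qb hN w hneg with h' | h'
    · exact hw1 h'
    · exact hw2 h'
  have hdeg := FF.degree_div (K := Qb) f
  rw [hdiv, map_add, Divisor.degree_single, Divisor.degree_single, H05.deg_eq_one_bc Qb N,
    H05.deg_eq_one_bc Qb N] at hdeg
  have h0 : (cInf Qb N).ord f = - (cZero Qb N).ord f := by
    push_cast at hdeg
    omega
  refine ⟨(cZero Qb N).ord f, fun v => ?_⟩
  rw [← FF.div_apply, hdiv, h0, Finsupp.add_apply, Finsupp.sub_apply]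
  by_cases hv1 : v = cInf Qb N
  · subst hv1
    rw [Finsupp.single_eq_same, Finsupp.single_eq_same, Finsupp.single_eq_of_ne h12,
      Finsupp.single_eq_of_ne h12]
    ring
  · rw [Finsupp.single_eq_of_ne hv1, Finsupp.single_eq_of_ne hv1]
    by_cases hv2 : v = cZero Qb N
    · subst hv2
      rw [Finsupp.single_eq_same, Finsupp.single_eq_same]
      ring
    · rw [Finsupp.single_eq_of_ne hv2, Finsupp.single_eq_of_ne hv2]
      ring

/-- **The modular units of `X_0(N)`, `N` prime**: with `t ^ gcd(N - 1, 12) = Δ(τ) / Δ(Nτ)` (so that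
`t = (η(τ) / η(Nτ)) ^ (24 / gcd(N - 1, 12))`), the functions without zeros and poles outside the cusps are the `c t ^ k`. -/
theorem modular_units (hN : N.Prime) : ∃ t : FB Qb N, t ^ Nat.gcd (N - 1) 12 = uB Qb N ∧
    ∀ f : FB Qb N, (f ≠ 0 ∧ ∀ v : Place Qb (FB Qb N), 0 ≤ v.ord (jB Qb (one_dvd N)) → v.ord f = 0) ↔
      ∃ (c : Qb) (k : ℤ), c ≠ 0 ∧ f = algebraMap Qb (FB Qb N) c * t ^ k := by
  have hN1 : N - 1 ≠ 0 := by have := hN.two_le; omega
  have hg : Nat.gcd (N - 1) 12 ≠ 0 := (Nat.gcd_pos_of_pos_left _ (Nat.pos_of_ne_zero hN1)).ne'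
  obtain ⟨t, ht⟩ := (exists_root_iff hN hg).mpr dvd_rfl
  have ht0 : t ≠ 0 := by
    rintro rfl
    rw [zero_pow hg] at ht
    exact uB_ne_zero Qb N ht.symm
  have hord : ∀ v : Place Qb (FB Qb N), v.ord t = eisensteinNumerator N *
      ((Finsupp.single (cZero Qb N) 1 -
        Finsupp.single (cInf Qb N) 1 : Divisor Qb (FB Qb N)) v) := by
    intro v
    have h1 := ord_uB Qb hN v
    have h7 : ((N : ℤ) - 1) = Nat.gcd (N - 1) 12 * eisensteinNumerator N := by
      have h8 := numerator_mul_gcd N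
      have h9 : ((N - 1 : ℕ) : ℤ) = (N : ℤ) - 1 := by
        rw [Nat.cast_sub hN.one_le, Nat.cast_one]
      rw [← h9, ← h8]
      push_cast
      rw [mul_comm, h8]
    rw [← ht, H18.ord_pow, Finsupp.smul_apply, smul_eq_mul, h7, mul_assoc] at h1
    exact mul_left_cancel₀ (by exact_mod_cast hg) h1
  refine ⟨t, ht, fun f => ⟨fun ⟨hf, h⟩ => ?_, ?_⟩⟩
  · obtain ⟨a, ha⟩ := exists_ord_eq hN h
    obtain ⟨k, rfl⟩ := numerator_dvd_of_ord hN hf ha
    have htk : t ^ k ≠ 0 := zpow_ne_zero _ ht0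
    obtain ⟨c, hc0, hc⟩ := exists_const Qb (f := f / t ^ k) (div_ne_zero hf htk) (by
      intro v
      rw [div_eq_mul_inv, v.ord_mul hf (inv_ne_zero htk), v.ord_inv, v.ord_zpow, ha, hord]
      ring)
    exact ⟨c, k, hc0, by rw [← hc, div_mul_cancel₀ _ htk]⟩
  · rintro ⟨c, k, hc, rfl⟩
    have hc' : algebraMap Qb (FB Qb N) c ≠ 0 := (map_ne_zero _).mpr hc
    refine ⟨mul_ne_zero hc' (zpow_ne_zero _ ht0), fun v hv => ?_⟩
    have h1 : v.ord t = 0 := by
      have h2 := ord_uB_eq_zero Qb N v hv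
      rw [← ht, H18.ord_pow] at h2
      rcases mul_eq_zero.mp h2 with h3 | h3
      · exact absurd (by exact_mod_cast h3) hg
      · exact h3
    rw [v.ord_mul hc' (zpow_ne_zero _ ht0), v.ord_zpow, h1, mul_zero, add_zero]
    exact FF.ord_algebraMap' v c

end Fermat.Agent.Cor.H13
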