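import Fermat.Agent.Cor.H13Hecke

/-!
# The Hecke algebra and the Mordell–Weil group `J_0(N)(E)`

`J_0(N)(E)` is a module over the Hecke algebra; if the Hecke algebra contains a square root of an integer `d` which is not
a square, the rank of `J_0(N)(E)` is even for every number field `E`.
-/

set_option autoImplicit false
set_option linter.unusedSectionVars false
set_option linter.style.haveILetI false
set_option maxSynthPendingDepth 3

noncomputable section

namespace Fermat.Agent.Cor.H13

open AlgebraicCurve ModularCurve CongruenceSubgroup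

/-- `φ² = d` on a finitely generated abelian group forces the rank to be even if `d` is not a square -/
theorem even_finrank_of_sq {M : Type*} [AddCommGroup M] [Module.Finite ℤ M] (φ : M →ₗ[ℤ] M) {d : ℤ}
    (hφ : ∀ x, φ (φ x) = d • x) (hd : ¬ IsSquare d) : Even (Module.finrank ℤ M) := by
  set T := Submodule.torsion ℤ M with hT
  have hTφ : T ≤ T.comap φ := by
    intro x hx
    rw [Submodule.mem_comap]
    obtain ⟨a, ha⟩ := (Submodule.mem_torsion_iff (R := ℤ) x).mp hx
    refine (Submodule.mem_torsion_iff (R := ℤ) (φ x)).mpr ⟨a, ?_⟩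
    have h : (a : ℤ) • x = 0 := ha
    have h' : (a : ℤ) • φ x = 0 := by rw [← φ.map_smul, h, φ.map_zero]
    exact h'
  let ψ : (M ⧸ T) →ₗ[ℤ] (M ⧸ T) := T.mapQ T φ hTφ
  have hψ : ψ * ψ = d • (1 : Module.End ℤ (M ⧸ T)) := by
    ext x
    change (Submodule.Quotient.mk (φ (φ x)) : M ⧸ T) = d • (Submodule.Quotient.mk x : M ⧸ T)
    rw [hφ]
    rfl
  have : Module.IsTorsionFree ℤ (M ⧸ T) := inferInstance
  have : Module.Free ℤ (M ⧸ T) := inferInstance
  have h1 := congrArg LinearMap.det hψ
  rw [map_mul, LinearMap.det_smul, map_one, mul_one] at h1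
  have h2 : Module.finrank ℤ (M ⧸ T) = Module.finrank ℤ M :=
    finrank_quotient_eq_of_le_torsion (R := ℤ) (le_refl T)
  rw [h2] at h1
  by_contra hodd
  rw [Nat.not_even_iff_odd] at hodd
  obtain ⟨k, hk⟩ := hodd
  apply hd
  have hd0 : d ≠ 0 := by
    rintro rfl
    exact hd ⟨0, rfl⟩
  rw [hk, pow_succ, mul_comm 2 k, pow_mul] at h1
  have h3 : (d ^ k) ^ 2 ∣ LinearMap.det ψ ^ 2 := ⟨d, by rw [sq (LinearMap.det ψ), h1]⟩
  obtain ⟨e, he⟩ := (Int.pow_dvd_pow_iff (by norm_num)).mp h3
  rw [he] at h1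
  refine ⟨e, ?_⟩
  have h4 : (d ^ k) ^ 2 ≠ 0 := pow_ne_zero _ (pow_ne_zero _ hd0)
  apply mul_left_cancel₀ h4
  rw [← h1]
  ring

variable (N : ℕ) [NeZero N] (E : IntermediateField ℚ (AlgebraicClosure ℚ))

/-- the action of the Hecke algebra on `J_0(N)(E)` -/
def actE (t : CuspForm.heckeAlgebra N 2 ∅) : JPts N E →ₗ[ℤ] JPts N E where
  toFun x := ⟨actJ N t x, fun σ => by
    have h1 := actJ_smul N (σ : AlgebraicClosure ℚ ≃ₐ[ℚ] AlgebraicClosure ℚ) t (x : JZero N)
    have h2 : (σ : AlgebraicClosure ℚ ≃ₐ[ℚ] AlgebraicClosure ℚ) • (x : JZero N) = x := x.2 σ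
    rw [h2] at h1
    exact h1.symm⟩
  map_add' x y := Subtype.ext (map_add _ _ _)
  map_smul' a x := Subtype.ext (map_zsmul (actJ N t) a (x : JZero N))

theorem coe_actE (t : CuspForm.heckeAlgebra N 2 ∅) (x : JPts N E) :
    ((actE N E t x : JPts N E) : JZero N) = actJ N t x := rfl

/-- **Parity of the rank**: if the Hecke algebra of weight two and level `N` contains a square root of an integer which is
not a square, then `J_0(N)(E)` has even rank for every number field `E`. -/
theorem even_rank [FiniteDimensional ℚ E] {t : CuspForm.heckeAlgebra N 2 ∅} {d : ℤ}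
    (ht : t ^ 2 = (d : CuspForm.heckeAlgebra N 2 ∅)) (hd : ¬ IsSquare d) :
    Even (Module.finrank ℤ (JPts N E)) := by
  have h0 := mordellWeil_JZero N E
  have h1 : Module.Finite ℤ (JPts N E) := Module.Finite.iff_addGroup_fg.mpr h0
  refine even_finrank_of_sq (actE N E t) (fun x => ?_) hd
  apply Subtype.ext
  rw [coe_actE, coe_actE]
  have h2 := congrArg (fun s => actJ N s (x : JZero N)) ht
  simp only [map_pow, map_intCast] at h2
  rw [sq, Module.End.mul_apply, Module.End.intCast_apply] at h2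
  exact h2

end Fermat.Agent.Cor.H13
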