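import Fermat.Agent.Cor.H13Rank
import Fermat.Agent.Cor.H13OggCard
import Fermat.Agent.H24.Pet
import Fermat.Agent.S20

/-!
# The rank of `J_0(23)` over number fields is even

The characteristic polynomial of `T₂` on `S₂(Γ₀(23))` is `X² + X - 1` (the argument is that of `Cor/Level23`: integrality,
reality and Hecke's bound for the roots, and the divisibility of `P(3)` by `11`), so `(2 T₂ + 1)² = 5` in the Hecke algebra.
-/

set_option autoImplicit false
set_option linter.unusedSectionVars false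
set_option linter.style.haveILetI false
set_option maxSynthPendingDepth 3

noncomputable section

namespace Fermat.Agent.Cor.H13

open AlgebraicCurve ModularCurve CongruenceSubgroup Fermat.Agent.M5 Polynomial

variable {N : ℕ} [NeZero N]

/-- the roots of the characteristic polynomial of `T_ℓ` are real and of absolute value `< ℓ + 1` -/
theorem real_of_isRoot {ℓ : ℕ} (hℓ : ℓ.Prime) (hℓN : ¬ ℓ ∣ N) {a : ℂ}
    (h : (CuspForm.heckeTLin (N := N) 2 hℓ hℓN).charpoly.IsRoot a) :
    ∃ x : ℝ, a = x ∧ |x| < ℓ + 1 := by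
  have h2 := (Module.End.hasEigenvalue_iff_isRoot_charpoly _ _).mpr h
  obtain ⟨g, hg⟩ := h2.exists_hasEigenvector
  have h3 := H19.norm_lt_of_heckeT hg.2 hℓ.one_lt (a := a) (fun τ => by
    have h4 := DFunLike.congr_fun hg.apply_eq_smul τ
    exact h4)
  have h5 := H24.conj_eigenvalue hℓ hℓN hg.2 hg.apply_eq_smul
  obtain ⟨x, hx⟩ := Complex.conj_eq_iff_real.mp h5
  refine ⟨x, hx, ?_⟩
  rw [hx, Complex.norm_real, Real.norm_eq_abs] at h3
  exact h3

/-- the Hecke operator `T_ℓ` as an element of the Hecke algebra -/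
abbrev tA (N : ℕ) [NeZero N] {ℓ : ℕ} (hℓ : ℓ.Prime) (hℓN : ¬ ℓ ∣ N) : CuspForm.heckeAlgebra N 2 ∅ :=
  CuspForm.heckeAlgebra.T hℓ hℓN (Set.notMem_empty _)

/-- **Genus two**: the characteristic polynomial of `T_ℓ` -/
theorem exists_quadratic (hg : genusFormula N = 2) {ℓ : ℕ} (hℓ : ℓ.Prime) (hℓN : ¬ ℓ ∣ N) :
    ∃ (u v : ℤ) (x y : ℝ), aeval (tA N hℓ hℓN) (X ^ 2 + C u * X + C v : ℤ[X]) = 0 ∧
      |x| < ℓ + 1 ∧ |y| < ℓ + 1 ∧ x + y = -u ∧ x * y = v := by
  obtain ⟨P, hP, hP0⟩ := exists_charpoly (tA N hℓ hℓN)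
  change (CuspForm.heckeTLin (N := N) 2 hℓ hℓN).charpoly = _ at hP
  have hm : P.Monic := by
    have h1 := LinearMap.charpoly_monic (CuspForm.heckeTLin (N := N) 2 hℓ hℓN)
    rw [hP] at h1
    exact Polynomial.monic_of_injective (f := Int.castRingHom ℂ) Int.cast_injective h1
  have hd : P.natDegree = 2 := by
    have h1 := LinearMap.charpoly_natDegree (CuspForm.heckeTLin (N := N) 2 hℓ hℓN)
    rw [hP, Polynomial.natDegree_map_eq_of_injective Int.cast_injective] at h1
    rw [h1]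
    exact_mod_cast (Fermat.Agent.S20.result N).trans hg
  have h2 : P.coeff 2 = 1 := by
    have := hm.coeff_natDegree
    rwa [hd] at this
  obtain ⟨u, v, hPe⟩ : ∃ u v : ℤ, P = X ^ 2 + C u * X + C v := by
    refine ⟨P.coeff 1, P.coeff 0, ?_⟩
    conv_lhs => rw [P.as_sum_range, hd]
    rw [Finset.sum_range_succ, Finset.sum_range_succ, Finset.sum_range_succ, Finset.sum_range_zero,
      h2, ← C_mul_X_pow_eq_monomial, ← C_mul_X_pow_eq_monomial, ← C_mul_X_pow_eq_monomial]
    simp only [C_1]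
    ring
  have hc : ∀ a : ℂ, (CuspForm.heckeTLin (N := N) 2 hℓ hℓN).charpoly.IsRoot a ↔
      a ^ 2 + u * a + v = 0 := by
    intro a
    rw [hP, Polynomial.IsRoot.def, hPe]
    simp
  have hdeg : (CuspForm.heckeTLin (N := N) 2 hℓ hℓN).charpoly.degree ≠ 0 := by
    rw [Polynomial.degree_eq_natDegree (LinearMap.charpoly_monic _).ne_zero, hP,
      Polynomial.natDegree_map_eq_of_injective Int.cast_injective, hd]
    norm_num
  obtain ⟨r, hr⟩ := IsAlgClosed.exists_root _ hdeg
  have hr' := (hc r).mp hr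
  have hs : (CuspForm.heckeTLin (N := N) 2 hℓ hℓN).charpoly.IsRoot (-u - r) := by
    rw [hc]
    linear_combination hr'
  obtain ⟨x, hx, hx'⟩ := real_of_isRoot hℓ hℓN hr
  obtain ⟨y, hy, hy'⟩ := real_of_isRoot hℓ hℓN hs
  have e1 : (x : ℂ) + y = -u := by rw [← hx, ← hy]; ring
  have e2 : (x : ℂ) * y = v := by rw [← hx, ← hy]; linear_combination -hr'
  exact ⟨u, v, x, y, by rw [← hPe]; exact hP0, hx', hy', by exact_mod_cast e1, by exact_mod_cast e2⟩

theorem genus_23 : genusFormula 23 = 2 := by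
  have h1 : dedekindPsi 23 = 24 := by decide +kernel
  have h2 : nuTwo 23 = 0 := by
    rw [nuTwo, Nat.card_eq_fintype_card]
    decide +kernel
  have h3 : nuThree 23 = 0 := by
    rw [nuThree, Nat.card_eq_fintype_card]
    decide +kernel
  have h4 : cuspCount 23 = 2 := by decide +kernel
  rw [genusFormula, h1, h2, h3, h4]
  norm_num

/-- `T₂² + T₂ - 1 = 0` at level `23` -/
theorem heckeT_two_23 : (tA 23 Nat.prime_two (by norm_num)) ^ 2 + tA 23 Nat.prime_two (by norm_num) =
    1 := by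
  have h23 : Nat.Prime 23 := by norm_num
  obtain ⟨u, v, x, y, hP, hx, hy, h1, h2⟩ := exists_quadratic (N := 23) genus_23
    (ℓ := 2) Nat.prime_two (by norm_num)
  have hnd : ¬ ((⟨2, Nat.prime_two⟩ : Nat.Primes) : ℕ) ∣ 23 := by
    change ¬ 2 ∣ 23
    norm_num
  have h3 := numerator_dvd_eval (N := 23) h23 (l := ⟨2, Nat.prime_two⟩)
    (f := X ^ 2 + C u * X + C v) (by
      rw [CuspForm.heckeFormsGen_of_not_dvd hnd]
      exact hP)
  rw [eisensteinSystem_of_not_dvd hnd, eisensteinNumerator_twentythree] at h3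
  simp only [eval_add, eval_mul, eval_pow, eval_X, eval_C] at h3
  norm_num at h3 hx hy
  rw [abs_lt] at hx hy
  obtain ⟨hx1, hx2⟩ := hx
  obtain ⟨hy1, hy2⟩ := hy
  have k1 : (-6 : ℝ) < u := by linarith
  have k2 : (u : ℝ) < 6 := by linarith
  have k3 : 0 < 9 + 3 * u + (v : ℝ) := by
    have : 0 < (3 - x) * (3 - y) := mul_pos (by linarith) (by linarith)
    nlinarith
  have k4 : 0 < 9 - 3 * u + (v : ℝ) := by
    have : 0 < (3 + x) * (3 + y) := mul_pos (by linarith) (by linarith)
    nlinarith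
  have k5 : 0 ≤ (u : ℝ) ^ 2 - 4 * v := by
    have : 0 ≤ (x - y) ^ 2 := sq_nonneg _
    have h4 : (u : ℝ) = -(x + y) := by linarith
    rw [h4, ← h2]
    nlinarith
  have m1 : -6 < u := by exact_mod_cast k1
  have m2 : u < 6 := by exact_mod_cast k2
  have m3 : 0 < 9 + 3 * u + v := by exact_mod_cast k3
  have m4 : 0 < 9 - 3 * u + v := by exact_mod_cast k4
  have m5 : 0 ≤ u ^ 2 - 4 * v := by exact_mod_cast k5
  have key : u = 1 ∧ v = -1 := by
    interval_cases u <;> omega
  obtain ⟨rfl, rfl⟩ := key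
  have h5 : aeval (tA 23 Nat.prime_two (by norm_num)) (X ^ 2 + C 1 * X + C (-1) : ℤ[X]) = 0 := hP
  simp only [map_add, map_pow, aeval_X, map_one, one_mul, map_neg] at h5
  linear_combination h5

/-- **`J_0(23)(E)` has even rank for every number field `E`.** -/
theorem even_rank_23 (E : IntermediateField ℚ (AlgebraicClosure ℚ)) [FiniteDimensional ℚ E] :
    Even (Module.finrank ℤ (JPts 23 E)) := by
  have h1 := heckeT_two_23
  refine even_rank 23 E (t := 2 * tA 23 Nat.prime_two (by norm_num) + 1) (d := 5) ?_ ?_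
  · push_cast
    linear_combination 4 * h1
  · rintro ⟨r, hr⟩
    have h2 : r < 3 := by nlinarith
    have h3 : -3 < r := by nlinarith
    interval_cases r <;> omega

end Fermat.Agent.Cor.H13
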