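import Fermat.Agent.Cor.H13Rank23

/-!
# The rank of `J_0(29)` over number fields is even

For a prime `N` with `X_0(N)` of genus two, the Eisenstein ideal forces the characteristic polynomial of `T₂` to be
irreducible as soon as the numerator of `(N - 1) / 12` has a prime divisor `≥ 7`.
-/

set_option autoImplicit false
set_option linter.unusedSectionVars false
set_option linter.style.haveILetI false
set_option maxSynthPendingDepth 3

noncomputable section

namespace Fermat.Agent.Cor.H13

open AlgebraicCurve ModularCurve CongruenceSubgroup Fermat.Agent.M5 Polynomial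

theorem no_small {q m : ℤ} (hq : Prime q) (h7 : 7 ≤ q) (h0 : 0 < 2 * m) (h12 : 2 * m < 12)
    (h : q ∣ 2 * m) : False := by
  have h1 : q ≤ 2 * m := Int.le_of_dvd h0 h
  have h2 : q ≤ 10 := by omega
  have h3 : q = 7 := by
    have h4 : Nat.Prime q.natAbs := Int.prime_iff_natAbs_prime.mp hq
    interval_cases q
    · rfl
    · exact absurd h4 (by norm_num)
    · exact absurd h4 (by norm_num)
    · exact absurd h4 (by norm_num)
  subst h3
  omega

/-- **Genus two**: if the numerator of `(N - 1) / 12` has a prime divisor `≥ 7`, the rank of `J_0(N)(E)` is even for every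
number field `E`. -/
theorem even_rank_of_genus_two {N : ℕ} [NeZero N] (hN : N.Prime) (hg : genusFormula N = 2)
    (h2 : ¬ 2 ∣ N) {q : ℕ} (hq : q.Prime) (h7 : 7 ≤ q) (hqn : q ∣ eisensteinNumerator N)
    (E : IntermediateField ℚ (AlgebraicClosure ℚ)) [FiniteDimensional ℚ E] :
    Even (Module.finrank ℤ (JPts N E)) := by
  obtain ⟨u, v, x, y, hP, hx, hy, h1, h1'⟩ := exists_quadratic hg Nat.prime_two h2
  have hnd : ¬ ((⟨2, Nat.prime_two⟩ : Nat.Primes) : ℕ) ∣ N := h2
  have h3 := numerator_dvd_eval hN (l := ⟨2, Nat.prime_two⟩)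
    (f := X ^ 2 + C u * X + C v) (by
      rw [CuspForm.heckeFormsGen_of_not_dvd hnd]
      exact hP)
  rw [eisensteinSystem_of_not_dvd hnd] at h3
  simp only [eval_add, eval_mul, eval_pow, eval_X, eval_C] at h3
  norm_num at h3 hx hy
  have hq3 : (q : ℤ) ∣ 9 + u * 3 + v := (Int.natCast_dvd_natCast.mpr hqn).trans h3
  rw [abs_lt] at hx hy
  obtain ⟨hx1, hx2⟩ := hx
  obtain ⟨hy1, hy2⟩ := hy
  have h5 : aeval (tA N Nat.prime_two h2) (X ^ 2 + C u * X + C v : ℤ[X]) = 0 := hP
  simp only [map_add, map_mul, map_pow, aeval_X, eq_intCast, map_intCast] at h5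
  refine even_rank N E (t := 2 * tA N Nat.prime_two h2 + (u : CuspForm.heckeAlgebra N 2 ∅))
    (d := u ^ 2 - 4 * v) ?_ ?_
  · push_cast
    linear_combination 4 * h5
  · rintro ⟨r, hr⟩
    have hev : Even (u ^ 2 - r ^ 2) := ⟨2 * v, by linarith⟩
    rw [Int.even_sub, Int.even_pow' two_ne_zero, Int.even_pow' two_ne_zero] at hev
    obtain ⟨a, ha⟩ := Int.even_sub.mpr hev
    obtain ⟨b, hb⟩ := Int.even_add.mpr hev
    have hqp : Prime (q : ℤ) := Nat.prime_iff_prime_int.mp hq
    have hprod : (q : ℤ) ∣ (6 + u - r) * (6 + u + r) :=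
      (hq3.mul_left 4).trans (dvd_of_eq (by linarith [hr]))
    have hrr : (r : ℝ) ^ 2 = (x - y) ^ 2 := by
      have h6 : (u : ℝ) ^ 2 - 4 * v = r * r := by exact_mod_cast hr
      have h7 : (u : ℝ) = -(x + y) := by linarith
      rw [h7, ← h1'] at h6
      nlinarith
    have hbd : (0 < 6 + u - r ∧ 6 + u - r < 12) ∧ (0 < 6 + u + r ∧ 6 + u + r < 12) := by
      have h7 : (u : ℝ) = -(x + y) := by linarith
      rcases sq_eq_sq_iff_eq_or_eq_neg.mp hrr with h8 | h8
      · refine ⟨⟨?_, ?_⟩, ⟨?_, ?_⟩⟩ <;> (have : (0 : ℝ) < 1 := one_pos)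
        · have : (0 : ℝ) < 6 + u - r := by rw [h7, h8]; linarith
          exact_mod_cast this
        · have : (6 + u - r : ℝ) < 12 := by rw [h7, h8]; linarith
          exact_mod_cast this
        · have : (0 : ℝ) < 6 + u + r := by rw [h7, h8]; linarith
          exact_mod_cast this
        · have : (6 + u + r : ℝ) < 12 := by rw [h7, h8]; linarith
          exact_mod_cast this
      · refine ⟨⟨?_, ?_⟩, ⟨?_, ?_⟩⟩ <;> (have : (0 : ℝ) < 1 := one_pos)
        · have : (0 : ℝ) < 6 + u - r := by rw [h7, h8]; linarith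
          exact_mod_cast this
        · have : (6 + u - r : ℝ) < 12 := by rw [h7, h8]; linarith
          exact_mod_cast this
        · have : (0 : ℝ) < 6 + u + r := by rw [h7, h8]; linarith
          exact_mod_cast this
        · have : (6 + u + r : ℝ) < 12 := by rw [h7, h8]; linarith
          exact_mod_cast this
    obtain ⟨⟨b1, b2⟩, b3, b4⟩ := hbd
    have h7' : (7 : ℤ) ≤ q := by exact_mod_cast h7
    rcases hqp.dvd_or_dvd hprod with h | h
    · exact no_small (m := 3 + a) hqp h7' (by omega) (by omega) (by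
        rwa [show 2 * (3 + a) = 6 + u - r by omega])
    · exact no_small (m := 3 + b) hqp h7' (by omega) (by omega) (by
        rwa [show 2 * (3 + b) = 6 + u + r by omega])

theorem genus_29 : genusFormula 29 = 2 := by
  have h1 : dedekindPsi 29 = 30 := by decide +kernel
  have h2 : nuTwo 29 = 2 := by
    rw [nuTwo, Nat.card_eq_fintype_card]
    decide +kernel
  have h3 : nuThree 29 = 0 := by
    rw [nuThree, Nat.card_eq_fintype_card]
    decide +kernel
  have h4 : cuspCount 29 = 2 := by decide +kernel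
  rw [genusFormula, h1, h2, h3, h4]
  norm_num

/-- **`J_0(29)(E)` has even rank for every number field `E`.** -/
theorem even_rank_29 (E : IntermediateField ℚ (AlgebraicClosure ℚ)) [FiniteDimensional ℚ E] :
    Even (Module.finrank ℤ (JPts 29 E)) :=
  even_rank_of_genus_two (by norm_num) genus_29 (by norm_num) (q := 7) (by norm_num) le_rfl
    (by decide) E

end Fermat.Agent.Cor.H13
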