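import Fermat.Agent.Cor.H13Rank

/-!
# Divisibility of the rank of `J_0(N)(E)` by the degrees of the irreducible relations in the Hecke algebra
-/

set_option autoImplicit false
set_option linter.unusedSectionVars false
set_option linter.style.haveILetI false
set_option maxSynthPendingDepth 3

noncomputable section

namespace Fermat.Agent.Cor.H13

open AlgebraicCurve ModularCurve CongruenceSubgroup Polynomial
open scoped TensorProduct

/-- polynomials in semiconjugate endomorphisms are semiconjugate -/
theorem aeval_semiconj {M A : Type*} [AddCommGroup M] [AddCommGroup A] (ι : M →ₗ[ℤ] A)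
    (φ : Module.End ℤ M) (Φ : Module.End ℤ A) (h : ∀ x, ι (φ x) = Φ (ι x)) (g : ℤ[X]) :
    ∀ x : M, ι (aeval φ g x) = aeval Φ g (ι x) := by
  have hpow : ∀ (n : ℕ) (x : M), ι ((φ ^ n) x) = (Φ ^ n) (ι x) := by
    intro n
    induction n with
    | zero => intro x; rfl
    | succ n ih =>
      intro x
      rw [pow_succ', pow_succ', Module.End.mul_apply, Module.End.mul_apply, h, ih]
  induction g using Polynomial.induction_on' with
  | add p q hp hq =>
    intro x
    rw [map_add, map_add, LinearMap.add_apply, LinearMap.add_apply, map_add, hp, hq]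
  | monomial n c =>
    intro x
    rw [aeval_monomial, aeval_monomial, Module.End.mul_apply, Module.End.mul_apply,
      Module.algebraMap_end_apply, Module.algebraMap_end_apply, map_smul, hpow]

/-- an endomorphism of a rational vector space satisfying an irreducible polynomial of degree `d`: `d` divides the
dimension -/
theorem natDegree_dvd_finrank {V : Type*} [AddCommGroup V] [Module ℚ V] (φ : Module.End ℚ V) {f : ℚ[X]}
    (hf : Irreducible f) (h : aeval φ f = 0) : f.natDegree ∣ Module.finrank ℚ V := by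
  haveI : Fact (Irreducible f) := ⟨hf⟩
  let Φ : AdjoinRoot f →+* Module.End ℚ V :=
    Ideal.Quotient.lift (Ideal.span {f}) (aeval φ : ℚ[X] →ₐ[ℚ] Module.End ℚ V).toRingHom
      (fun a ha => by
        obtain ⟨b, rfl⟩ := Ideal.mem_span_singleton.mp ha
        change aeval φ (f * b) = 0
        rw [map_mul, h, zero_mul])
  letI : Module (AdjoinRoot f) V := Module.compHom V Φ
  have hΦ : ∀ (a : AdjoinRoot f) (v : V), a • v = Φ a v := fun a v => rfl
  haveI : IsScalarTower ℚ (AdjoinRoot f) V := IsScalarTower.of_algebraMap_smul fun q v => by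
    rw [hΦ]
    have h1 : Φ (algebraMap ℚ (AdjoinRoot f) q) = aeval φ (C q) := rfl
    rw [h1, aeval_C, Module.algebraMap_end_apply]
  have h1 := Module.finrank_mul_finrank ℚ (AdjoinRoot f) V
  have h2 : Module.finrank ℚ (AdjoinRoot f) = f.natDegree :=
    (AdjoinRoot.powerBasis hf.ne_zero).finrank
  rw [← h1, h2]
  exact dvd_mul_right _ _

/-- the same for finitely generated abelian groups -/
theorem natDegree_dvd_finrank_int {M : Type*} [AddCommGroup M] [Module.Finite ℤ M] (φ : M →ₗ[ℤ] M)
    {f : ℤ[X]} (hf : Irreducible (f.map (Int.castRingHom ℚ))) (h : ∀ x, aeval (φ : Module.End ℤ M) f x = 0) :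
    (f.map (Int.castRingHom ℚ)).natDegree ∣ Module.finrank ℤ M := by
  set T := Submodule.torsion ℤ M with hT
  have hTφ : T ≤ T.comap φ := by
    intro x hx
    rw [Submodule.mem_comap]
    obtain ⟨a, ha⟩ := (Submodule.mem_torsion_iff (R := ℤ) x).mp hx
    refine (Submodule.mem_torsion_iff (R := ℤ) (φ x)).mpr ⟨a, ?_⟩
    have h : (a : ℤ) • x = 0 := ha
    have h' : (a : ℤ) • φ x = 0 := by rw [← φ.map_smul, h, φ.map_zero]
    exact h'
  let ψ : Module.End ℤ (M ⧸ T) := T.mapQ T φ hTφ
  have hψ0 : aeval ψ f = 0 := by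
    refine LinearMap.ext fun y => ?_
    obtain ⟨x, rfl⟩ := T.mkQ_surjective y
    rw [← aeval_semiconj T.mkQ φ ψ (fun x => rfl) f x, h, map_zero, LinearMap.zero_apply]
  have : Module.IsTorsionFree ℤ (M ⧸ T) := inferInstance
  have : Module.Free ℤ (M ⧸ T) := inferInstance
  have h2 : Module.finrank ℤ (M ⧸ T) = Module.finrank ℤ M :=
    finrank_quotient_eq_of_le_torsion (R := ℤ) (le_refl T)
  rw [← h2, ← Module.finrank_baseChange (R := ℚ) (S := ℤ) (M' := M ⧸ T)]
  refine natDegree_dvd_finrank (V := ℚ ⊗[ℤ] (M ⧸ T)) (Module.End.baseChangeHom ℤ ℚ (M ⧸ T) ψ) hf ?_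
  rw [show (Int.castRingHom ℚ) = algebraMap ℤ ℚ from rfl, aeval_map_algebraMap]
  have h3 := Polynomial.aeval_algHom_apply (Module.End.baseChangeHom ℤ ℚ (M ⧸ T)) ψ f
  rw [h3, hψ0, map_zero]

variable (N : ℕ) [NeZero N] (E : IntermediateField ℚ (AlgebraicClosure ℚ))

theorem aeval_actE (t : CuspForm.heckeAlgebra N 2 ∅) (g : ℤ[X]) (x : JPts N E) :
    ((aeval (actE N E t : Module.End ℤ (JPts N E)) g x : JPts N E) : JZero N) =
      aeval (actJ N t) g (x : JZero N) :=
  aeval_semiconj (JPts N E).subtype.toIntLinearMap (actE N E t) (actJ N t) (fun _ => rfl) g x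

/-- **The Hecke algebra and the rank**: if an element of the Hecke algebra of weight two and level `N` is a root of an
irreducible polynomial of degree `d`, then `d` divides the rank of `J_0(N)(E)` for every number field `E`. -/
theorem natDegree_dvd_rank [FiniteDimensional ℚ E] {t : CuspForm.heckeAlgebra N 2 ∅} {f : ℤ[X]}
    (hf : Irreducible (f.map (Int.castRingHom ℚ))) (ht : aeval t f = 0) :
    (f.map (Int.castRingHom ℚ)).natDegree ∣ Module.finrank ℤ (JPts N E) := by
  have h0 := mordellWeil_JZero N E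
  have h1 : Module.Finite ℤ (JPts N E) := Module.Finite.iff_addGroup_fg.mpr h0
  refine natDegree_dvd_finrank_int (actE N E t) hf (fun x => ?_)
  apply Subtype.ext
  rw [aeval_actE]
  have h3 := Polynomial.aeval_algHom_apply (actJ N).toIntAlgHom t f
  rw [ht, map_zero] at h3
  have h4 : aeval (actJ N t) f = 0 := h3
  rw [h4]
  rfl

end Fermat.Agent.Cor.H13
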