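import Fermat.Agent.Cor.H14Super

/-!
# Almost all values of `τ` are divisible by `11`

* `tendsto_of_density`: let `P` be a set of primes with a nonzero Dirichlet density, and `S` a set of natural numbers
  no element of which is exactly divisible by a prime of `P`. Then `S` has natural density `0`;
* `tendsto_tau` (Serre): the set of the integers `n` with `11 ∤ τ(n)` has natural density `0`: almost all values of
  Ramanujan's function `τ` are divisible by `11`.

This file is not used by any of the statement files.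
-/

set_option autoImplicit false

open scoped Classical Topology

noncomputable section

namespace Fermat.Agent.Cor.H14

open Filter
open Fermat.Agent.ZC (qsum summable_qsum)

/-- the number of the `n ∈ [1, N]` which are not exactly divisible by any `q ∈ Q` -/
def cA (Q : Finset ℕ) (N : ℕ) : ℕ :=
  ((Finset.Icc 1 N).filter fun n => ∀ q ∈ Q, q ∣ n → q ^ 2 ∣ n).card

theorem cA_empty (N : ℕ) : cA ∅ N = N := by
  simp [cA]

theorem card_dvd {q : ℕ} (hq : 0 < q) (p : ℕ → Prop) [DecidablePred fun n => q ∣ n ∧ p n]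
    [DecidablePred fun m => p (q * m)] (N : ℕ) :
    ((Finset.Icc 1 N).filter fun n => q ∣ n ∧ p n).card =
      ((Finset.Icc 1 (N / q)).filter fun m => p (q * m)).card := by
  symm
  refine Finset.card_bij (fun m _ => q * m) ?_ ?_ ?_
  · intro m hm
    rw [Finset.mem_filter, Finset.mem_Icc] at hm ⊢
    refine ⟨⟨Nat.mul_pos hq hm.1.1, ?_⟩, dvd_mul_right _ _, hm.2⟩
    rw [mul_comm]
    exact (Nat.le_div_iff_mul_le hq).1 hm.1.2
  · intro a _ b _ h
    exact Nat.eq_of_mul_eq_mul_left hq h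
  · intro n hn
    rw [Finset.mem_filter, Finset.mem_Icc] at hn
    obtain ⟨⟨h1, h2⟩, ⟨m, rfl⟩, h3⟩ := hn
    refine ⟨m, ?_, rfl⟩
    rw [Finset.mem_filter, Finset.mem_Icc]
    refine ⟨⟨Nat.pos_of_ne_zero fun h => ?_, (Nat.le_div_iff_mul_le hq).2 ?_⟩, h3⟩
    · rw [h, mul_zero] at h1
      omega
    rw [mul_comm]
    exact h2

theorem cA_insert {Q : Finset ℕ} (hQ : ∀ q ∈ Q, q.Prime) {q : ℕ} (hq : q.Prime) (hqQ : q ∉ Q)
    (N : ℕ) : cA (insert q Q) N + cA Q (N / q) = cA Q N + cA Q (N / q / q) := by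
  let A : ℕ → Prop := fun n => ∀ q' ∈ Q, q' ∣ n → q' ^ 2 ∣ n
  have hA : ∀ m, A (q * m) ↔ A m := by
    intro m
    refine forall₂_congr fun q' hq' => ?_
    have hne : q' ≠ q := fun h => hqQ (h ▸ hq')
    have hc : q'.Coprime q := (Nat.coprime_primes (hQ q' hq') hq).2 hne
    rw [hc.dvd_mul_left, (hc.pow_left 2).dvd_mul_left]
  have h1 : cA Q N = cA (insert q Q) N +
      ((Finset.Icc 1 (N / q)).filter fun m => A m ∧ ¬ q ∣ m).card := by
    have e1 : cA Q N = ((Finset.Icc 1 N).filter fun n => A n).card := rfl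
    rw [e1, ← Finset.card_filter_add_card_filter_not (s := (Finset.Icc 1 N).filter fun n => A n)
      (fun n => q ∣ n → q ^ 2 ∣ n), Finset.filter_filter, Finset.filter_filter]
    congr 1
    · rw [cA]
      congr 1
      refine Finset.filter_congr fun n _ => ?_
      rw [Finset.forall_mem_insert]
      exact and_comm
    · have e2 : ((Finset.Icc 1 N).filter fun n => A n ∧ ¬ (q ∣ n → q ^ 2 ∣ n)) =
          (Finset.Icc 1 N).filter fun n => q ∣ n ∧ (A n ∧ ¬ q ^ 2 ∣ n) := by
        refine Finset.filter_congr fun n _ => ?_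
        tauto
      rw [e2, card_dvd hq.pos]
      congr 1
      refine Finset.filter_congr fun m _ => ?_
      rw [hA, sq, Nat.mul_dvd_mul_iff_left hq.pos]
  have h2 : cA Q (N / q) = cA Q (N / q / q) +
      ((Finset.Icc 1 (N / q)).filter fun m => A m ∧ ¬ q ∣ m).card := by
    have e1 : cA Q (N / q) = ((Finset.Icc 1 (N / q)).filter fun n => A n).card := rfl
    rw [e1, ← Finset.card_filter_add_card_filter_not
      (s := (Finset.Icc 1 (N / q)).filter fun n => A n)
      (fun n => q ∣ n), Finset.filter_filter, Finset.filter_filter]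
    congr 1
    have e2 : ((Finset.Icc 1 (N / q)).filter fun n => A n ∧ q ∣ n) =
        (Finset.Icc 1 (N / q)).filter fun n => q ∣ n ∧ A n :=
      Finset.filter_congr fun n _ => and_comm
    rw [e2, card_dvd hq.pos, cA]
    congr 1
    exact Finset.filter_congr fun m _ => hA m
  omega

theorem div_bound {q : ℕ} (hq : 0 < q) (N : ℕ) :
    ((N / q : ℕ) : ℝ) ≤ N / q ∧ (N : ℝ) / q ≤ ((N / q : ℕ) : ℝ) + 1 := by
  refine ⟨Nat.cast_div_le, ?_⟩
  rw [div_le_iff₀ (by exact_mod_cast hq)]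
  have h := Nat.lt_mul_div_succ N hq
  have h2 : N ≤ (N / q + 1) * q := by
    rw [mul_comm]
    exact h.le
  exact_mod_cast h2

/-- the natural density of the set of the integers which are not exactly divisible by any `q ∈ Q` -/
theorem cA_bound (Q : Finset ℕ) (hQ : ∀ q ∈ Q, q.Prime) :
    ∃ K : ℝ, ∀ N : ℕ, |(cA Q N : ℝ) - (∏ q ∈ Q, (1 - 1 / (q : ℝ) + 1 / (q : ℝ) ^ 2)) * N| ≤ K := by
  induction Q using Finset.induction_on with
  | empty =>
    refine ⟨0, fun N => ?_⟩
    rw [cA_empty, Finset.prod_empty, one_mul, sub_self, abs_zero]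
  | insert q Q hqQ ih =>
    have hq : q.Prime := hQ q (Finset.mem_insert_self q Q)
    have hQ' : ∀ q ∈ Q, q.Prime := fun q hq => hQ q (Finset.mem_insert_of_mem hq)
    obtain ⟨K, hK⟩ := ih hQ'
    rw [Finset.prod_insert hqQ]
    set ρ : ℝ := ∏ q ∈ Q, (1 - 1 / (q : ℝ) + 1 / (q : ℝ) ^ 2) with hρ
    refine ⟨3 * K + 3 * |ρ|, fun N => ?_⟩
    have h1 : (cA (insert q Q) N : ℝ) + cA Q (N / q) = cA Q N + cA Q (N / q / q) := by
      exact_mod_cast cA_insert hQ' hq hqQ N
    have hq0 : (0 : ℝ) < q := by exact_mod_cast hq.pos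
    have hq1 : (1 : ℝ) ≤ q := by exact_mod_cast hq.one_le
    obtain ⟨a1, a2⟩ := div_bound hq.pos N
    obtain ⟨b1, b2⟩ := div_bound hq.pos (N / q)
    set a : ℝ := ((N / q : ℕ) : ℝ) with ha
    set b : ℝ := ((N / q / q : ℕ) : ℝ) with hb
    have ea : |(N : ℝ) / q - a| ≤ 1 := by
      rw [abs_le]
      constructor <;> linarith
    have eb : |b - (N : ℝ) / q ^ 2| ≤ 2 := by
      have h2 : (N : ℝ) / q ^ 2 = N / q / q := by
        rw [sq, div_div]
      have h3 : a / q ≤ (N : ℝ) / q / q := div_le_div_of_nonneg_right a1 hq0.le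
      have h4 : (N : ℝ) / q / q ≤ (a + 1) / q := div_le_div_of_nonneg_right a2 hq0.le
      have h5 : (a + 1) / q ≤ a / q + 1 := by
        rw [add_div]
        have : 1 / (q : ℝ) ≤ 1 := by
          rw [div_le_one hq0]
          exact hq1
        linarith
      rw [h2, abs_le]
      constructor <;> linarith
    have key : (cA (insert q Q) N : ℝ) - (1 - 1 / (q : ℝ) + 1 / (q : ℝ) ^ 2) * ρ * N =
        (cA Q N - ρ * N) - (cA Q (N / q) - ρ * a) + (cA Q (N / q / q) - ρ * b) +
          ρ * ((N : ℝ) / q - a) + ρ * (b - (N : ℝ) / q ^ 2) := by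
      have h2 : (cA (insert q Q) N : ℝ) = cA Q N + cA Q (N / q / q) - cA Q (N / q) := by linarith
      rw [h2]
      ring
    rw [key]
    have k1 := hK N
    have k2 := hK (N / q)
    have k3 := hK (N / q / q)
    have k4 : |ρ * ((N : ℝ) / q - a)| ≤ |ρ| * 1 := by
      rw [abs_mul]
      exact mul_le_mul_of_nonneg_left ea (abs_nonneg _)
    have k5 : |ρ * (b - (N : ℝ) / q ^ 2)| ≤ |ρ| * 2 := by
      rw [abs_mul]
      exact mul_le_mul_of_nonneg_left eb (abs_nonneg _)
    rw [abs_le] at k1 k2 k3 k4 k5 ⊢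
    constructor <;> linarith [k1.1, k1.2, k2.1, k2.2, k3.1, k3.2, k4.1, k4.2, k5.1, k5.2]

theorem prod_le_exp (Q : Finset ℕ) (hQ : ∀ q ∈ Q, q.Prime) :
    ∏ q ∈ Q, (1 - 1 / (q : ℝ) + 1 / (q : ℝ) ^ 2) ≤ Real.exp (-(∑ q ∈ Q, 1 / (q : ℝ)) / 2) := by
  rw [← Finset.sum_neg_distrib, Finset.sum_div, Real.exp_sum]
  refine Finset.prod_le_prod (fun q hq => ?_) fun q hq => ?_
  · have h2 : (2 : ℝ) ≤ q := by exact_mod_cast (hQ q hq).two_le
    have h3 : 1 / (q : ℝ) ≤ 1 := by
      rw [div_le_one (by linarith)]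
      linarith
    have h4 : 0 ≤ 1 / (q : ℝ) ^ 2 := by positivity
    linarith
  · have h2 : (2 : ℝ) ≤ q := by exact_mod_cast (hQ q hq).two_le
    refine le_trans ?_ (Real.add_one_le_exp _)
    have h3 : 1 / (q : ℝ) ^ 2 ≤ 1 / (q : ℝ) / 2 := by
      rw [div_div, div_le_div_iff₀ (by positivity) (by positivity)]
      nlinarith
    linarith

/-- the sum of the inverses of the primes in a set of nonzero density diverges -/
theorem exists_large_sum {P : Set ℕ} {δ : ℝ} (hP : HasDensity P δ) (hδ : δ ≠ 0) (C : ℝ) :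
    ∃ Q : Finset ℕ, (∀ q ∈ Q, q.Prime ∧ q ∈ P) ∧ C < ∑ q ∈ Q, 1 / (q : ℝ) := by
  by_contra hcon
  push Not at hcon
  apply hδ
  have hbd : ∀ s : ℝ, 1 < s → qsum P s ≤ C := by
    intro s hs
    rw [qsum]
    refine Real.tsum_le_of_sum_le (fun q => ?_) fun u => ?_
    · split_ifs
      · positivity
      · exact le_rfl
    · have h1 : ∑ q ∈ u, (if (q : ℕ) ∈ P then 1 / ((q : ℕ) : ℝ) ^ s else 0) ≤
          ∑ q ∈ (u.filter fun q : Nat.Primes => (q : ℕ) ∈ P).map
            ⟨fun q : Nat.Primes => (q : ℕ), Subtype.val_injective⟩, 1 / (q : ℝ) := by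
        rw [Finset.sum_map, Finset.sum_filter]
        refine Finset.sum_le_sum fun q _ => ?_
        split_ifs
        · have hq1 : (1 : ℝ) ≤ (q : ℕ) := by exact_mod_cast q.2.one_le
          have h2 : ((q : ℕ) : ℝ) ≤ ((q : ℕ) : ℝ) ^ s := by
            calc ((q : ℕ) : ℝ) = ((q : ℕ) : ℝ) ^ (1 : ℝ) := (Real.rpow_one _).symm
              _ ≤ _ := Real.rpow_le_rpow_of_exponent_le hq1 hs.le
          have h0 : (0 : ℝ) < (q : ℕ) := by linarith
          exact one_div_le_one_div_of_le h0 h2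
        · exact le_rfl
      refine h1.trans (hcon _ fun q hq => ?_)
      rw [Finset.mem_map] at hq
      obtain ⟨q', hq', rfl⟩ := hq
      exact ⟨q'.2, (Finset.mem_filter.1 hq').2⟩
  have h1 : Tendsto (fun s : ℝ => qsum P s / qsum Set.univ s) (𝓝[>] 1) (𝓝 0) := by
    refine squeeze_zero' ?_ ?_ (tendsto_qsum_univ.const_div_atTop C)
    · filter_upwards [tendsto_qsum_univ.eventually_gt_atTop 0] with s hs
      exact div_nonneg (qsum_nonneg P s) hs.le
    · filter_upwards [tendsto_qsum_univ.eventually_gt_atTop 0, eventually_one_lt] with s h2 hs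
      exact div_le_div_of_nonneg_right (hbd s hs) h2.le
  exact tendsto_nhds_unique (hasDensity_iff.1 hP) h1

/-- **A set of natural numbers which are not exactly divisible by any prime of a set of nonzero density has natural
density zero.** -/
theorem tendsto_of_density {P : Set ℕ} {δ : ℝ} (hP : HasDensity P δ) (hδ : δ ≠ 0) {S : Set ℕ}
    (hS : ∀ q : ℕ, q.Prime → q ∈ P → ∀ m : ℕ, ¬ q ∣ m → q * m ∉ S) :
    Tendsto (fun N : ℕ => (((Finset.Icc 1 N).filter fun n => n ∈ S).card : ℝ) / N) atTop (𝓝 0) := by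
  rw [tendsto_order]
  refine ⟨fun a ha => Eventually.of_forall fun N => ha.trans_le (by positivity), fun ε hε => ?_⟩
  obtain ⟨Q, hQ, hsum⟩ := exists_large_sum hP hδ (-2 * Real.log (ε / 2))
  obtain ⟨K, hK⟩ := cA_bound Q fun q hq => (hQ q hq).1
  set ρ : ℝ := ∏ q ∈ Q, (1 - 1 / (q : ℝ) + 1 / (q : ℝ) ^ 2) with hρ
  have hρε : ρ < ε / 2 := by
    refine (prod_le_exp Q fun q hq => (hQ q hq).1).trans_lt ?_
    rw [← Real.lt_log_iff_exp_lt (by positivity)]
    linarith
  have hlim : Tendsto (fun N : ℕ => K / (N : ℝ)) atTop (𝓝 0) :=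
    tendsto_const_nhds.div_atTop tendsto_natCast_atTop_atTop
  filter_upwards [hlim.eventually (gt_mem_nhds (show (0 : ℝ) < ε / 2 by positivity)),
    eventually_gt_atTop 0] with N h1 hN
  have hN' : (0 : ℝ) < N := by exact_mod_cast hN
  have h2 : (((Finset.Icc 1 N).filter fun n => n ∈ S).card : ℝ) ≤ cA Q N := by
    have h3 : ((Finset.Icc 1 N).filter fun n => n ∈ S).card ≤ cA Q N := by
      rw [cA]
      refine Finset.card_le_card fun n hn => ?_
      rw [Finset.mem_filter] at hn ⊢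
      refine ⟨hn.1, fun q hq hqn => ?_⟩
      by_contra h4
      obtain ⟨m, rfl⟩ := hqn
      refine hS q (hQ q hq).1 (hQ q hq).2 m (fun h5 => h4 ?_) hn.2
      rw [sq]
      exact Nat.mul_dvd_mul_left q h5
    exact_mod_cast h3
  have h3 : (cA Q N : ℝ) ≤ ρ * N + K := by
    have := (abs_le.1 (hK N)).2
    linarith
  calc (((Finset.Icc 1 N).filter fun n => n ∈ S).card : ℝ) / N ≤ (ρ * N + K) / N :=
        div_le_div_of_nonneg_right (h2.trans h3) hN'.le
    _ = ρ + K / N := by
        rw [add_div, mul_div_cancel_right₀ _ hN'.ne']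
    _ < ε := by linarith

/-- **Almost all values of Ramanujan's function `τ` are divisible by `11`.** -/
theorem tendsto_tau : Tendsto (fun N : ℕ =>
    (((Finset.Icc 1 N).filter fun n => ¬ (11 : ℤ) ∣ tau n).card : ℝ) / N) atTop (𝓝 0) := by
  have h := tendsto_of_density (S := {n | ¬ (11 : ℤ) ∣ tau n}) hasDensity_dvd_tau (by norm_num)
    fun q hq hqP m hm hmem => hmem (by
      have hqP' : (11 : ℤ) ∣ tau q := hqP
      have h1 := tau_mul_modEq ((Nat.Prime.coprime_iff_not_dvd hq).2 hm)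
      exact (Int.ModEq.dvd_iff h1).2 (hqP'.mul_right _))
  simp only [Set.mem_ofPred_eq] at h
  convert h

end Fermat.Agent.Cor.H14
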