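import Mathlib
import Fermat.Agent.Cor.Mordell

/-!
# Lehmer's theorem on the zeros of Ramanujan's function

* `exists_of_zero`: if a sequence with `U₀ = 1`, `U₁ = a`, `U_{k+2} = a U_{k+1} - b U_k` has a zero, then `a² = c b` with
  `c ∈ {0, 1, 2, 3, 4}` (the quotient `ζ` of the roots of `X² - a X + b` is a root of unity, and `ζ + ζ⁻¹` is rational,
  hence an integer).
* `tau_prime_eq_zero`: `τ(p ^ k) = 0` implies `τ(p) = 0`; `exists_prime`, `prime_of_isLeast`:
  **Lehmer's theorem (1947)**: the least positive zero of `τ`, if there is one, is a prime number.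
* `tau_mod_540`: `τ(n) ≡ n² σ₇(n)` modulo `540`; `tau_sigma_eleven`: a formula for `600 τ(n) + 91 σ₁₁(n)`.
* `dvd_of_zero`: if `τ(p) = 0` for a prime `p`, then `p ≡ -1` modulo `2985120 = 32 · 27 · 5 · 691`, and `p` is a quadratic
  non-residue modulo `7` (`mod_seven`).
* `tau_ne_zero`: **`τ(n) ≠ 0` for `1 ≤ n < 74627999`.**

This file is not used by any of the statement files.
-/

set_option autoImplicit false

namespace Fermat.Agent.Cor.Lehmer

open Fermat.Agent.Cor.RamCong Fermat.Agent.Cor.Mordell Fermat.Agent.H13 PowerSeries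

/-- If a sequence with `U₀ = 1`, `U₁ = a`, `U_{k+2} = a U_{k+1} - b U_k` has a zero, the quotient of the roots of
`X² - a X + b` is a root of unity, and `a² = c b` with `c ∈ {0, 1, 2, 3, 4}`. -/
theorem exists_of_zero {a b : ℤ} (hb : b ≠ 0) {U : ℕ → ℤ} (h0 : U 0 = 1) (h1 : U 1 = a)
    (hU : ∀ k, U (k + 2) = a * U (k + 1) - b * U k) {k : ℕ} (hk : U k = 0) :
    ∃ c : ℤ, 0 ≤ c ∧ c ≤ 4 ∧ a ^ 2 = c * b := by
  obtain ⟨s, hs⟩ := IsAlgClosed.exists_pow_nat_eq ((a : ℂ) ^ 2 - 4 * b) (n := 2) two_pos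
  set α : ℂ := (a + s) / 2 with hα
  set β : ℂ := (a - s) / 2 with hβ
  have hsum : α + β = a := by rw [hα, hβ]; ring
  have hprod : α * β = b := by rw [hα, hβ]; linear_combination (-1 / 4 : ℂ) * hs
  have hb' : (b : ℂ) ≠ 0 := by exact_mod_cast hb
  have hβ0 : β ≠ 0 := by
    intro h
    rw [h, mul_zero] at hprod
    exact hb' hprod.symm
  have hα0 : α ≠ 0 := by
    intro h
    rw [h, zero_mul] at hprod
    exact hb' hprod.symm
  have hform : ∀ n : ℕ, (α - β) * U n = α ^ (n + 1) - β ^ (n + 1) := by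
    intro n
    induction n using Nat.twoStepInduction with
    | zero => rw [h0]; push_cast; ring
    | one => rw [h1, ← hsum]; ring
    | more n ih1 ih2 =>
      rw [hU]
      push_cast
      rw [← hsum, ← hprod]
      linear_combination (α + β) * ih2 - α * β * ih1
  have hpow : α ^ (k + 1) = β ^ (k + 1) := by
    have := hform k
    rw [hk, Int.cast_zero, mul_zero] at this
    exact (sub_eq_zero.mp this.symm)
  set ζ : ℂ := α / β with hζ
  have hζ1 : ζ ^ (k + 1) = 1 := by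
    rw [hζ, div_pow, hpow, div_self (pow_ne_zero _ hβ0)]
  have hζ0 : ζ ≠ 0 := div_ne_zero hα0 hβ0
  have hinv : ζ⁻¹ = ζ ^ k := by
    apply inv_eq_of_mul_eq_one_right
    rw [← hζ1, pow_succ']
  have hint : IsIntegral ℤ (ζ + ζ⁻¹) := by
    have h2 : IsIntegral ℤ ζ := IsIntegral.of_pow (Nat.succ_pos k) (by rw [hζ1]; exact isIntegral_one)
    rw [hinv]
    exact h2.add (h2.pow k)
  have hx : ζ + ζ⁻¹ = (((a ^ 2 - 2 * b : ℤ) : ℚ) / (b : ℚ) : ℚ) := by
    rw [hζ, inv_div]
    push_cast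
    rw [← hsum, ← hprod]
    field_simp
    ring
  rw [hx] at hint
  have hint2 : IsIntegral ℤ (((a ^ 2 - 2 * b : ℤ) : ℚ) / (b : ℚ)) := by
    have := (isIntegral_algebraMap_iff (R := ℤ) (A := ℚ) (B := ℂ) (algebraMap ℚ ℂ).injective).mp hint
    exact this
  obtain ⟨m, hm⟩ := IsIntegrallyClosed.isIntegral_iff.mp hint2
  have hm' : ((m : ℤ) : ℚ) = ((a ^ 2 - 2 * b : ℤ) : ℚ) / (b : ℚ) := hm
  have hnorm : ‖ζ + ζ⁻¹‖ ≤ 2 := by
    have h2 : ‖ζ‖ = 1 := Complex.norm_eq_one_of_pow_eq_one hζ1 (Nat.succ_ne_zero k)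
    calc ‖ζ + ζ⁻¹‖ ≤ ‖ζ‖ + ‖ζ⁻¹‖ := norm_add_le _ _
      _ = 2 := by rw [norm_inv, h2]; norm_num
  rw [hx, ← hm'] at hnorm
  have hnorm2 : |(m : ℝ)| ≤ 2 := by
    have : (((m : ℤ) : ℚ) : ℂ) = ((m : ℝ) : ℂ) := by push_cast; rfl
    rw [this, Complex.norm_real] at hnorm
    exact hnorm
  have hm1 : |m| ≤ 2 := by exact_mod_cast hnorm2
  rw [abs_le] at hm1
  refine ⟨m + 2, by linarith [hm1.1], by linarith [hm1.2], ?_⟩
  have hbq : (b : ℚ) ≠ 0 := by exact_mod_cast hb
  rw [eq_div_iff hbq] at hm'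
  have h3 : m * b = a ^ 2 - 2 * b := by exact_mod_cast hm'
  linear_combination -h3

/-- `a² = c p ^ 11` with `1 ≤ c ≤ 4` is possible for `p = c = 2` and `p = c = 3` only -/
theorem sq_eq {p : ℕ} (hp : p.Prime) {a c : ℤ} (h0 : 1 ≤ c) (h4 : c ≤ 4)
    (h : a ^ 2 = c * (p : ℤ) ^ 11) : (p = 2 ∧ c = 2) ∨ (p = 3 ∧ c = 3) := by
  have hF : Fact p.Prime := ⟨hp⟩
  have hpp : (p : ℤ) ≠ 0 := by exact_mod_cast hp.ne_zero
  have hc : c ≠ 0 := by omega
  have ha : a ≠ 0 := by
    rintro rfl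
    rw [zero_pow two_ne_zero] at h
    exact mul_ne_zero hc (pow_ne_zero 11 hpp) h.symm
  have h1 := congrArg (fun z : ℤ ↦ padicValNat p z.natAbs) h
  simp only [Int.natAbs_pow, Int.natAbs_mul, Int.natAbs_natCast] at h1
  rw [padicValNat.pow,
    padicValNat.mul (Int.natAbs_ne_zero.mpr hc) (pow_ne_zero 11 hp.ne_zero),
    padicValNat.pow, padicValNat_self] at h1
  have hodd : Odd (padicValInt p c) := by
    rw [Nat.odd_iff, padicValInt]; omega
  have hdvd : (p : ℤ) ∣ c := by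
    by_contra hnd
    rw [padicValInt.eq_zero_of_not_dvd hnd] at hodd
    simp at hodd
  have hle : (p : ℤ) ≤ 4 := (Int.le_of_dvd (by omega) hdvd).trans h4
  have hle' : p ≤ 4 := by exact_mod_cast hle
  have h2p := hp.two_le
  interval_cases p
  · left
    refine ⟨rfl, ?_⟩
    interval_cases c
    · norm_num at hdvd
    · rfl
    · norm_num at hdvd
    · exfalso
      have : padicValInt 2 4 = 2 := by
        rw [show (4 : ℤ) = ((4 : ℕ) : ℤ) by norm_num, padicValInt.of_nat,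
          show (4 : ℕ) = 2 ^ 2 by norm_num, padicValNat.prime_pow]
      rw [this] at hodd
      exact absurd hodd (by decide)
  · right
    refine ⟨rfl, ?_⟩
    interval_cases c
    · norm_num at hdvd
    · norm_num at hdvd
    · rfl
    · norm_num at hdvd
  · exact absurd hp (by norm_num)

/-- **`τ(p ^ k) = 0` implies `τ(p) = 0`.** -/
theorem tau_prime_eq_zero {p : ℕ} (hp : p.Prime) {k : ℕ} (hk : tau (p ^ k) = 0) : tau p = 0 := by
  obtain ⟨c, hc0, hc4, h⟩ := exists_of_zero (a := tau p) (b := (p : ℤ) ^ 11)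
    (U := fun k ↦ tau (p ^ k)) (pow_ne_zero 11 (by exact_mod_cast hp.ne_zero))
    (by simp only [pow_zero]; exact tau_values.1) (by simp only [pow_one])
    (fun r ↦ tau_pow hp r) hk
  rcases eq_or_lt_of_le hc0 with h0 | h0
  · rw [← h0, zero_mul] at h
    exact pow_eq_zero_iff two_ne_zero |>.mp h
  · exfalso
    rcases sq_eq hp h0 hc4 h with ⟨rfl, rfl⟩ | ⟨rfl, rfl⟩
    · rw [tau_values.2.1] at h; norm_num at h
    · rw [tau_values.2.2.1] at h; norm_num at h

/-- **Lehmer (1947)**: if `τ(n) = 0` there is a prime divisor `p` of `n` with `τ(p) = 0`. -/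
theorem exists_prime {n : ℕ} (hn : n ≠ 0) (h : tau n = 0) :
    ∃ p : ℕ, p.Prime ∧ p ∣ n ∧ tau p = 0 := by
  induction n using Nat.recOnPosPrimePosCoprime with
  | prime_pow p k hp hk => exact ⟨p, hp, dvd_pow_self p hk.ne', tau_prime_eq_zero hp h⟩
  | zero => exact absurd rfl hn
  | one => rw [tau_values.1] at h; exact absurd h one_ne_zero
  | coprime b c hb hc hbc ihb ihc =>
    rw [tau_mul hbc] at h
    rcases mul_eq_zero.mp h with h1 | h1
    · obtain ⟨p, hp, hd, h2⟩ := ihb (by omega) h1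
      exact ⟨p, hp, hd.mul_right c, h2⟩
    · obtain ⟨p, hp, hd, h2⟩ := ihc (by omega) h1
      exact ⟨p, hp, hd.mul_left b, h2⟩

/-- **Lehmer (1947)**: the least positive zero of `τ`, if there is one, is a prime number. -/
theorem prime_of_isLeast {n : ℕ} (h : IsLeast {n : ℕ | 0 < n ∧ tau n = 0} n) : n.Prime := by
  obtain ⟨p, hp, hd, h1⟩ := exists_prime h.1.1.ne' h.1.2
  have h2 : n ≤ p := h.2 ⟨hp.pos, h1⟩
  have h3 : p ≤ n := Nat.le_of_dvd h.1.1 hd
  rw [le_antisymm h2 h3]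
  exact hp

theorem tau_seven : tau 7 = -16744 := by
  rw [tau_formula]; decide +kernel

theorem s7_eq : sser ℤ 7 = sser ℤ 3 + 120 * sser ℤ 3 ^ 2 := by
  have h := e8_Z
  rw [e4] at h
  have h480 : (480 : ℤ⟦X⟧) ≠ 0 := by
    intro h0
    have := congrArg (coeff 0) h0
    rw [show (480 : ℤ⟦X⟧) = C (480 : ℤ) by rw [map_ofNat], coeff_zero_C, map_zero] at this
    norm_num at this
  apply mul_left_cancel₀ h480
  linear_combination -h

/-- **`τ(n) ≡ n² σ₇(n)` modulo `540 = 4 · 27 · 5`** -/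
theorem tau_mod_540 (n : ℕ) : (540 : ℤ) ∣ tau n - n ^ 2 * ArithmeticFunction.sigma 7 n := by
  have h7 : theta (theta (sser ℤ 7)) = theta (theta (sser ℤ 3)) +
      240 * (sser ℤ 3 * theta (theta (sser ℤ 3)) + theta (sser ℤ 3) * theta (sser ℤ 3)) := by
    rw [s7_eq, theta_add, theta_ofNat_mul, pow_two, theta_mul, theta_add, theta_ofNat_mul,
      theta_add, theta_mul, theta_mul]
    ring
  have h : deltaZ - theta (theta (sser ℤ 7)) = 540 * (-(theta (sser ℤ 3) * theta (sser ℤ 3))) := by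
    rw [delta_rc_Z, e4, h7]
    ring
  have h1 := congrArg (coeff n) h
  rw [map_sub, coeff_theta, coeff_theta, coeff_sser, coeff_ofNat_mul] at h1
  rw [tau_eq]
  refine ⟨_, Eq.trans ?_ h1⟩
  ring

/-- `600 τ(n) + 91 σ₁₁(n) = 691 (2 σ₇(n) - σ₃(n)) + 691 · 19200 · T(n)` with `T(n)` the coefficient of the cube of
`∑ σ₃(n) X ^ n` -/
theorem tau_sigma_eleven (n : ℕ) :
    600 * tau n + 91 * ArithmeticFunction.sigma 11 n =
      691 * (2 * ArithmeticFunction.sigma 7 n - ArithmeticFunction.sigma 3 n +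
        19200 * coeff n (sser ℤ 3 ^ 3)) := by
  have h1 := e12_Z
  have h2 := deltaZ_spec
  have h3 := s7_eq
  have h720 : (720 : ℤ⟦X⟧) ≠ 0 := by
    intro h0
    have := congrArg (coeff 0) h0
    rw [show (720 : ℤ⟦X⟧) = C (720 : ℤ) by rw [map_ofNat], coeff_zero_C, map_zero] at this
    norm_num at this
  have h4 : 600 * deltaZ + 91 * sser ℤ 11 =
      691 * (2 * sser ℤ 7 - sser ℤ 3 + 19200 * sser ℤ 3 ^ 3) := by
    apply mul_left_cancel₀ h720
    have h5 : e4 ℤ = 1 + 240 * sser ℤ 3 := rfl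
    rw [h5] at h1 h2
    linear_combination h1 + 250 * h2 - 995040 * h3
  have h5 := congrArg (coeff n) h4
  rw [map_add, coeff_ofNat_mul, coeff_ofNat_mul, coeff_ofNat_mul, map_add, map_sub,
    coeff_ofNat_mul, coeff_ofNat_mul, coeff_sser, coeff_sser, coeff_sser, ← tau_eq] at h5
  exact h5

theorem aux_691 : ¬ ((0 : ZMod 691) = -1) := by decide

theorem aux_27 : ∀ x : ZMod 27, x ^ 2 * (1 + x ^ 7) = 0 → x.val % 3 ≠ 0 → x.val = 26 := by
  decide +kernel

theorem aux_256 : ∀ x : ZMod 256, 91 * (1 + x ^ 11) = 691 * (2 * (1 + x ^ 7) - (1 + x ^ 3)) →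
    x.val % 2 = 1 → x.val % 32 = 31 := by
  decide +kernel

theorem aux_7 : ∀ x : ZMod 7, x ^ 3 = -1 → x.val = 3 ∨ x.val = 5 ∨ x.val = 6 := by
  decide

/-- a prime zero of `τ` is congruent to `-1` modulo `691` -/
theorem mod_691 {p : ℕ} (hp : p.Prime) (h : tau p = 0) : 691 ∣ p + 1 := by
  have hF : Fact (Nat.Prime 691) := ⟨by norm_num⟩
  have h1 := tau_prime_691 hp
  rw [h, zero_sub, dvd_neg] at h1
  have h2 := (ZMod.intCast_zmod_eq_zero_iff_dvd _ 691).mpr h1
  push_cast at h2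
  have h3 : (p : ZMod 691) ^ 11 = -1 := by linear_combination h2
  have h4 : (p : ZMod 691) ≠ 0 := by
    intro h0
    rw [h0, zero_pow (by norm_num)] at h3
    exact aux_691 h3
  have h5 := ZMod.pow_card_sub_one_eq_one h4
  have h6 : (p : ZMod 691) ^ (11 * 251) = -1 := by rw [pow_mul, h3]; norm_num
  rw [show 11 * 251 = (691 - 1) * 4 + 1 by norm_num, pow_succ, pow_mul, h5, one_pow, one_mul] at h6
  apply (ZMod.natCast_eq_zero_iff _ _).mp
  push_cast
  rw [h6]
  ring

theorem mod_five {p : ℕ} (hp : p.Prime) (h : tau p = 0) : 5 ∣ p + 1 := by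
  have hF : Fact (Nat.Prime 5) := ⟨by norm_num⟩
  have h1 := tau_prime_five hp
  rw [h, zero_sub, dvd_neg] at h1
  have h2 := (ZMod.intCast_zmod_eq_zero_iff_dvd _ 5).mpr h1
  push_cast at h2
  rcases mul_eq_zero.mp h2 with h3 | h3
  · exfalso
    have h4 := (ZMod.natCast_eq_zero_iff _ _).mp h3
    have h5 := (Nat.prime_dvd_prime_iff_eq (by norm_num) hp).mp h4
    rw [← h5, tau_values.2.2.2.2] at h
    norm_num at h
  · apply (ZMod.natCast_eq_zero_iff _ _).mp
    push_cast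
    linear_combination h3

/-- a prime zero of `τ` is a quadratic non-residue modulo `7` -/
theorem mod_seven {p : ℕ} (hp : p.Prime) (h : tau p = 0) : p % 7 = 3 ∨ p % 7 = 5 ∨ p % 7 = 6 := by
  have hF : Fact (Nat.Prime 7) := ⟨by norm_num⟩
  have h1 := tau_prime_seven hp
  rw [h, zero_sub, dvd_neg] at h1
  have h2 := (ZMod.intCast_zmod_eq_zero_iff_dvd _ 7).mpr h1
  push_cast at h2
  rcases mul_eq_zero.mp h2 with h3 | h3
  · exfalso
    have h4 := (ZMod.natCast_eq_zero_iff _ _).mp h3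
    have h5 := (Nat.prime_dvd_prime_iff_eq (by norm_num) hp).mp h4
    rw [← h5, tau_seven] at h
    norm_num at h
  · have h4 := aux_7 (p : ZMod 7) (by linear_combination h3)
    rw [ZMod.val_natCast] at h4
    exact h4

/-- a prime zero of `τ` is congruent to `-1` modulo `27` -/
theorem mod_27 {p : ℕ} (hp : p.Prime) (h : tau p = 0) : 27 ∣ p + 1 := by
  have h1 := (show (27 : ℤ) ∣ 540 by norm_num).trans (tau_mod_540 p)
  rw [h, zero_sub, dvd_neg, ArithmeticFunction.sigma_apply, hp.sum_divisors] at h1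
  have h2 := (ZMod.intCast_zmod_eq_zero_iff_dvd _ 27).mpr h1
  push_cast at h2
  have h3 : p % 3 ≠ 0 := by
    intro h3
    have h5 := (Nat.prime_dvd_prime_iff_eq (by norm_num) hp).mp (Nat.dvd_of_mod_eq_zero h3)
    rw [← h5, tau_values.2.2.1] at h
    norm_num at h
  have h4 := aux_27 (p : ZMod 27) (by linear_combination h2)
    (by rw [ZMod.val_natCast]; omega)
  rw [ZMod.val_natCast] at h4
  omega

/-- a prime zero of `τ` is congruent to `-1` modulo `32` -/
theorem mod_32 {p : ℕ} (hp : p.Prime) (h : tau p = 0) : 32 ∣ p + 1 := by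
  have h1 := tau_sigma_eleven p
  rw [h, ArithmeticFunction.sigma_apply, ArithmeticFunction.sigma_apply,
    ArithmeticFunction.sigma_apply, hp.sum_divisors, hp.sum_divisors, hp.sum_divisors] at h1
  have h2 := congrArg (Int.cast (R := ZMod 256)) h1
  push_cast at h2
  have h19200 : (19200 : ZMod 256) = 0 := by decide
  rw [h19200] at h2
  have h3 : p % 2 ≠ 0 := by
    intro h3
    have h5 := (Nat.prime_dvd_prime_iff_eq (by norm_num) hp).mp (Nat.dvd_of_mod_eq_zero h3)
    rw [← h5, tau_values.2.1] at h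
    norm_num at h
  have h4 := aux_256 (p : ZMod 256) (by linear_combination h2)
    (by rw [ZMod.val_natCast]; omega)
  rw [ZMod.val_natCast] at h4
  omega

/-- a prime zero `p` of `τ` satisfies `p ≡ -1` modulo `2985120 = 32 · 27 · 5 · 691` -/
theorem dvd_of_zero {p : ℕ} (hp : p.Prime) (h : tau p = 0) : 2985120 ∣ p + 1 := by
  have h32 := mod_32 hp h
  have h27 := mod_27 hp h
  have h5 := mod_five hp h
  have h691 := mod_691 hp h
  have h1 : 32 * 27 ∣ p + 1 := Nat.Coprime.mul_dvd_of_dvd_of_dvd (by norm_num) h32 h27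
  have h2 : 32 * 27 * 5 ∣ p + 1 := Nat.Coprime.mul_dvd_of_dvd_of_dvd (by norm_num) h1 h5
  exact Nat.Coprime.mul_dvd_of_dvd_of_dvd (by norm_num) h2 h691

/-- **`τ(n) ≠ 0` for `1 ≤ n < 74627999`.** -/
theorem tau_ne_zero {n : ℕ} (hn : 0 < n) (hlt : n < 74627999) : tau n ≠ 0 := by
  intro h
  obtain ⟨p, hp, hd, h1⟩ := exists_prime hn.ne' h
  have hle : p ≤ n := Nat.le_of_dvd hn hd
  have h2 := dvd_of_zero hp h1
  have h7 := mod_seven hp h1
  obtain ⟨k, hk⟩ := h2
  have hk7 : k < 25 := by omega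
  have hk0 : 0 < k := by
    rcases Nat.eq_zero_or_pos k with rfl | h0
    · omega
    · exact h0
  have hpk : p = 2985120 * k - 1 := by omega
  interval_cases k
  all_goals
    norm_num at hpk
    subst hpk
  all_goals first
    | omega
    | exact absurd hp (by norm_num)

end Fermat.Agent.Cor.Lehmer
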