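import Mathlib
import Fermat.Agent.Cor.RamCong

/-!
# Ramanujan's function modulo `2`, `7` and `23`

* `tau_dvd_23`: **Wilton (1930)**: `τ(n) ≡ 0 (mod 23)` if `n` is a quadratic non-residue modulo `23`.
  Proof: `Δ ≡ q ∏ (1 - q ^ n) (1 - q ^ (23 n))` modulo `23`, and Euler's pentagonal number theorem.
* `tau_dvd_7`: `τ(n) ≡ 0 (mod 7)` if `n` is a quadratic non-residue modulo `7`.
* `odd_tau_iff`: `τ(n)` is odd if and only if `n` is an odd square.

This file is not used by any of the statement files.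
-/

set_option autoImplicit false

namespace Fermat.Agent.Cor.TauMod

open Fermat.Agent.Cor.RamCong Fermat.Agent.H13

noncomputable section

theorem etaProd_coeff_eq_zero {a : ℕ} {p : ℕ}
    (h : PowerSeries.coeff a (ModularCurve.etaProd.map (Int.castRingHom (ZMod p))) ≠ 0) :
    ∃ k : ℤ, 24 * (a : ℤ) + 1 = (6 * k - 1) ^ 2 := by
  rw [H01.etaProd_eq, PowerSeries.coeff_map] at h
  by_cases ha : a ∈ Set.range pentagonal
  · obtain ⟨k, rfl⟩ := ha
    refine ⟨k, ?_⟩
    have := two_mul_natCast_pentagonal k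
    linear_combination 12 * this
  · rw [PowerSeries.coeff_pentagonalSeries_eq_zero ℤ ha, map_zero] at h
    exact absurd rfl h

theorem zmod_23 : (23 : ZMod 23) = 0 := by decide

/-- **Wilton (1930)**: `τ(n) ≡ 0` modulo `23` if `n` is a quadratic non-residue modulo `23`. -/
theorem tau_dvd_23 {n : ℕ} (h : ¬ IsSquare (n : ZMod 23)) : (23 : ℤ) ∣ tau n := by
  have hF : Fact (Nat.Prime 23) := ⟨by norm_num⟩
  set E : PowerSeries (ZMod 23) := ModularCurve.etaProd.map (Int.castRingHom (ZMod 23)) with hE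
  have h2 : delta (ZMod 23) = PowerSeries.X * (PowerSeries.expand 23 hF.out.ne_zero E * E) := by
    rw [delta, deltaZ_eq, map_mul, PowerSeries.map_X, map_pow, ← hE, ← pow_char, ← pow_succ]
  rcases n with _ | m
  · exact absurd (by simp) h
  have h3 : PowerSeries.coeff (m + 1) (delta (ZMod 23)) = 0 := by
    rw [h2, PowerSeries.coeff_succ_X_mul, PowerSeries.coeff_mul]
    refine Finset.sum_eq_zero fun x hx ↦ ?_
    rw [Finset.HasAntidiagonal.mem_antidiagonal] at hx
    by_contra hne
    have hx1 : 23 ∣ x.1 := by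
      by_contra hnd
      rw [PowerSeries.coeff_expand_of_not_dvd _ _ _ hnd, zero_mul] at hne
      exact hne rfl
    have hx2 := right_ne_zero_of_mul hne
    obtain ⟨k, hk⟩ := etaProd_coeff_eq_zero hx2
    apply h
    obtain ⟨b, hb⟩ := hx1
    have hk' := congrArg (Int.cast (R := ZMod 23)) hk
    push_cast at hk'
    have hz : (23 : ZMod 23) = 0 := zmod_23
    refine ⟨6 * (k : ZMod 23) - 1, ?_⟩
    rw [← hx, hb]
    push_cast
    linear_combination hk' + ((b : ZMod 23) - (x.2 : ZMod 23)) * hz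
  have h4 := coeff_delta 23 (m + 1)
  rw [h3] at h4
  exact (ZMod.intCast_zmod_eq_zero_iff_dvd _ _).mp h4.symm

/-- `τ(n) ≡ 0` modulo `7` if `n` is a quadratic non-residue modulo `7`. -/
theorem tau_dvd_7 {n : ℕ} (h : ¬ IsSquare (n : ZMod 7)) : (7 : ℤ) ∣ tau n := by
  have hn : (n : ZMod 7) ^ 3 = -1 := by
    generalize (n : ZMod 7) = x at h
    revert x
    decide
  have hn0 : n ≠ 0 := by
    rintro rfl
    exact h (by simp)
  have h1 : ((ArithmeticFunction.sigma 3 n : ℕ) : ZMod 7) = 0 := by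
    have h2 : ((ArithmeticFunction.sigma 3 n : ℕ) : ZMod 7) =
        -((ArithmeticFunction.sigma 3 n : ℕ) : ZMod 7) := by
      rw [ArithmeticFunction.sigma_apply]
      push_cast
      rw [← Finset.sum_neg_distrib, ← Nat.sum_div_divisors n (fun d ↦ (d : ZMod 7) ^ 3)]
      refine Finset.sum_congr rfl fun d hd ↦ ?_
      have hd' := Nat.dvd_of_mem_divisors hd
      obtain ⟨e, he⟩ := hd'
      have hd0 : 0 < d := Nat.pos_of_mem_divisors hd
      rw [he, Nat.mul_div_cancel_left _ hd0]
      have h5 : ((d : ZMod 7) * (e : ZMod 7)) ^ 3 = -1 := by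
        rw [← hn, he]; push_cast; ring
      generalize (d : ZMod 7) = x at h5
      generalize (e : ZMod 7) = y at h5
      revert x y
      decide
    have h3 : (2 : ZMod 7) * ((ArithmeticFunction.sigma 3 n : ℕ) : ZMod 7) = 0 := by
      linear_combination h2
    generalize ((ArithmeticFunction.sigma 3 n : ℕ) : ZMod 7) = x at h3
    revert x
    decide
  have h2 : (7 : ℤ) ∣ (ArithmeticFunction.sigma 3 n : ℕ) := by
    exact_mod_cast (ZMod.natCast_eq_zero_iff _ _).mp h1
  have h3 := tau_mod_seven n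
  have h4 := dvd_add h3 (Dvd.dvd.mul_left h2 (n : ℤ))
  rwa [sub_add_cancel] at h4

/-- for odd `n` the sum of the cubes of the divisors is congruent to their number modulo `2` -/
theorem sigma_three_mod_two {n : ℕ} (hn : Odd n) :
    ((ArithmeticFunction.sigma 3 n : ℕ) : ZMod 2) = (n.divisors.card : ℕ) := by
  rw [ArithmeticFunction.sigma_apply, Finset.card_eq_sum_ones]
  push_cast
  refine Finset.sum_congr rfl fun d hd ↦ ?_
  have h1 : Odd d := hn.of_dvd_nat (Nat.dvd_of_mem_divisors hd)
  rw [(ZMod.natCast_eq_one_iff_odd).mpr h1, one_pow]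

/-- the number of divisors of `n` is odd if and only if `n` is a square -/
theorem odd_card_divisors {n : ℕ} (hn : n ≠ 0) : Odd n.divisors.card ↔ IsSquare n := by
  have h1 : ∑ d ∈ n.divisors.filter (fun d ↦ ¬ d * d = n), (1 : ZMod 2) = 0 := by
    refine Finset.sum_involution (fun d _ ↦ n / d) (fun d _ ↦ by decide) ?_ ?_ ?_
    · intro d hd _ h
      rw [Finset.mem_filter, Nat.mem_divisors] at hd
      apply hd.2
      nth_rewrite 1 [← h]
      exact Nat.div_mul_cancel hd.1.1
    · intro d hd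
      rw [Finset.mem_filter, Nat.mem_divisors] at hd ⊢
      refine ⟨⟨Nat.div_dvd_of_dvd hd.1.1, hn⟩, fun h ↦ hd.2 ?_⟩
      have h2 : n / d * d = n := Nat.div_mul_cancel hd.1.1
      have h3 : n / d = d := by
        have h4 : 0 < n / d := Nat.pos_of_ne_zero (by rintro h0; rw [h0] at h2; omega)
        exact Nat.eq_of_mul_eq_mul_left h4 (h.trans h2.symm)
      rw [h3] at h2
      exact h2
    · intro d hd
      rw [Finset.mem_filter, Nat.mem_divisors] at hd
      exact Nat.div_div_self hd.1.1 hn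
  have h2 : ((n.divisors.card : ℕ) : ZMod 2) =
      ∑ d ∈ n.divisors.filter (fun d ↦ d * d = n), (1 : ZMod 2) := by
    rw [Finset.card_eq_sum_ones]
    push_cast
    rw [← Finset.sum_filter_add_sum_filter_not n.divisors (fun d ↦ d * d = n), h1, add_zero]
  rw [← ZMod.natCast_eq_one_iff_odd, h2]
  constructor
  · intro h
    by_contra hs
    have h3 : n.divisors.filter (fun d ↦ d * d = n) = ∅ := by
      rw [Finset.filter_eq_empty_iff]
      intro d _ hd
      exact hs ⟨d, hd.symm⟩
    rw [h3, Finset.sum_empty] at h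
    exact zero_ne_one h
  · rintro ⟨m, rfl⟩
    have h3 : (m * m).divisors.filter (fun d ↦ d * d = m * m) = {m} := by
      ext d
      rw [Finset.mem_filter, Nat.mem_divisors, Finset.mem_singleton]
      constructor
      · rintro ⟨_, h⟩
        exact Nat.mul_self_inj.mp h
      · rintro rfl
        exact ⟨⟨dvd_mul_left _ _, hn⟩, rfl⟩
    rw [h3, Finset.sum_singleton]

/-- **`τ(n)` is odd if and only if `n` is an odd square.** -/
theorem odd_tau_iff {n : ℕ} : Odd (tau n) ↔ Odd n ∧ IsSquare n := by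
  have h1 : ((tau n : ℤ) : ZMod 2) = (n : ZMod 2) ^ 2 * ((ArithmeticFunction.sigma 3 n : ℕ) : ZMod 2) := by
    have h2 := (show (2 : ℤ) ∣ 60 by norm_num).trans (tau_mod_sixty n)
    have h3 := (ZMod.intCast_zmod_eq_zero_iff_dvd _ 2).mpr h2
    push_cast at h3
    exact sub_eq_zero.mp h3
  rw [← ZMod.intCast_eq_one_iff_odd, h1]
  rcases Nat.even_or_odd n with hn | hn
  · rw [(ZMod.natCast_eq_zero_iff_even).mpr hn]
    constructor
    · intro h
      rw [zero_pow two_ne_zero, zero_mul] at h
      exact absurd h zero_ne_one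
    · rintro ⟨h, _⟩
      exact absurd hn (Nat.not_even_iff_odd.mpr h)
  · rw [(ZMod.natCast_eq_one_iff_odd).mpr hn, one_pow, one_mul, sigma_three_mod_two hn,
      ZMod.natCast_eq_one_iff_odd, odd_card_divisors (by rintro rfl; simp at hn)]
    exact ⟨fun h ↦ ⟨hn, h⟩, fun h ↦ h.2⟩


end

end Fermat.Agent.Cor.TauMod
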