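import Fermat.Agent.Cor.H14Almost
import Fermat.Agent.Cor.Lehmer
import Fermat.Agent.Cor.TauMod

/-!
# Divisibility of almost all values of `τ`

* `hasDensity_mod` (Dirichlet): the primes `q ≡ d` modulo `m` have Dirichlet density `1 / φ(m)`;
* `natZero_pow`: let `f` be a multiplicative function with integral values and `ℓ` an integer which divides `f(q)` for the
  primes `q` of a set of nonzero density. For every `k` the set of the `n` with `ℓ ^ k ∤ f(n)` has natural density `0`;
* `natZero_tau` (Ramanujan, Watson, Serre): if all prime factors of `m` are in `{2, 3, 5, 7, 11, 23, 691}`, then `m`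
  divides `τ(n)` for almost all `n`;
* `natZero_tau_eq`: for every integer `c ≠ 0` the set of the `n` with `τ(n) = c` has natural density `0`; so has the set of
  the `n` with `0 < |τ(n)| ≤ B`, for every `B`.

This file is not used by any of the statement files.
-/

set_option autoImplicit false

open scoped Classical Topology

noncomputable section

namespace Fermat.Agent.Cor.H14

open Filter

local notation "Qb" => AlgebraicClosure ℚ
local notation "Γq" => AlgebraicClosure ℚ ≃ₐ[ℚ] AlgebraicClosure ℚ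

/-! ### Dirichlet's theorem -/

/-- **Dirichlet's theorem**: the primes `q ≡ d` modulo `m` have density `1 / φ(m)`. -/
theorem hasDensity_mod (m : ℕ) [NeZero m] (d : (ZMod m)ˣ) :
    HasDensity {q | (q : ZMod m) = d} (1 / m.totient) := by
  have hg : IsGalois ℚ Qb := H51.isGalois_Qbar
  have hF : ∃ F : IntermediateField ℚ Qb, FiniteDimensional ℚ F ∧
      ∀ σ : Γq, (∀ x ∈ F, σ x = x) → DS.cyc m σ = 1 := by
    obtain ⟨ζ, hζ⟩ := DS.exists_primitive m
    refine ⟨IntermediateField.adjoin ℚ {ζ}, ?_, fun σ hσ => ?_⟩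
    · exact IntermediateField.adjoin.finiteDimensional (Algebra.IsAlgebraic.isAlgebraic ζ).isIntegral
    · have h1 : σ ζ = ζ ^ 1 := by
        rw [pow_one]
        exact hσ ζ (IntermediateField.mem_adjoin_simple_self ℚ ζ)
      rw [DS.cyc_eq_of hζ (Nat.coprime_one_left m) h1]
      ext
      rw [ZMod.coe_unitOfCoprime, Nat.cast_one, Units.val_one]
  have h1 := hasDensity_rep (DS.cyc_surjective m) hF {d} (fun g hg t => by
    rw [Set.mem_singleton_iff] at hg ⊢
    rw [hg, mul_comm t d, mul_inv_cancel_right])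
  rw [Nat.card_eq_fintype_card (α := (ZMod m)ˣ), ZMod.card_units_eq_totient] at h1
  have h2 : (Nat.card ({d} : Set (ZMod m)ˣ) : ℝ) = 1 := by
    rw [Nat.card_eq_fintype_card, Set.card_singleton, Nat.cast_one]
  rw [h2] at h1
  refine h1.congr (Finset.finite_toSet m.divisors) fun q hq hqm => ?_
  have hqm' : ¬ q ∣ m := fun h => hqm (by
    rw [Finset.mem_coe, Nat.mem_divisors]
    exact ⟨h, NeZero.ne m⟩)
  have hc : q.Coprime m := (Nat.Prime.coprime_iff_not_dvd hq).2 hqm'
  constructor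
  · rintro ⟨A, φ, hA, hφ, hmem⟩
    rw [Set.mem_singleton_iff, DS.cyc_frob hq hqm' hA hφ hc] at hmem
    change (q : ZMod m) = d
    rw [← hmem, ZMod.coe_unitOfCoprime]
  · intro h
    obtain ⟨A, hA⟩ := H05.exists_liesOverPrime Qb hq
    obtain ⟨φ, hφ⟩ := H05.exists_isFrobeniusAt hq hA
    refine ⟨A, φ, hA, hφ, ?_⟩
    rw [Set.mem_singleton_iff, DS.cyc_frob hq hqm' hA hφ hc]
    ext
    rw [ZMod.coe_unitOfCoprime]
    exact h

/-! ### Sets of natural density zero -/

/-- the set `S` of positive integers has natural density zero -/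
def NatZero (S : Set ℕ) : Prop :=
  Tendsto (fun N : ℕ => ((S ∩ Set.Icc 1 N).ncard : ℝ) / N) atTop (𝓝 0)

theorem fin_inter (S : Set ℕ) (N : ℕ) : (S ∩ Set.Icc 1 N).Finite :=
  (Set.finite_Icc 1 N).subset Set.inter_subset_right

theorem NatZero.mono {S T : Set ℕ} (hT : NatZero T) (h : ∀ n, 0 < n → n ∈ S → n ∈ T) :
    NatZero S := by
  refine squeeze_zero (fun N => by positivity) (fun N => ?_) hT
  refine div_le_div_of_nonneg_right ?_ (Nat.cast_nonneg N)
  have h1 : (S ∩ Set.Icc 1 N).ncard ≤ (T ∩ Set.Icc 1 N).ncard :=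
    Set.ncard_le_ncard (fun n hn => ⟨h n hn.2.1 hn.1, hn.2⟩) (fin_inter T N)
  exact_mod_cast h1

theorem NatZero.union {S T : Set ℕ} (hS : NatZero S) (hT : NatZero T) : NatZero (S ∪ T) := by
  have h1 := Tendsto.add hS hT
  rw [add_zero] at h1
  refine squeeze_zero (fun N => by positivity) (fun N => ?_) h1
  rw [← add_div]
  refine div_le_div_of_nonneg_right ?_ (Nat.cast_nonneg N)
  have h2 : ((S ∪ T) ∩ Set.Icc 1 N).ncard ≤ (S ∩ Set.Icc 1 N).ncard + (T ∩ Set.Icc 1 N).ncard := by
    rw [Set.union_inter_distrib_right]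
    exact Set.ncard_union_le _ _
  exact_mod_cast h2

theorem natZero_empty : NatZero ∅ := by
  have h : ∀ N : ℕ, (((∅ : Set ℕ) ∩ Set.Icc 1 N).ncard : ℝ) / N = 0 := by
    intro N
    rw [Set.empty_inter, Set.ncard_empty, Nat.cast_zero, zero_div]
  rw [NatZero]
  simp only [h]
  exact tendsto_const_nhds

theorem natZero_biUnion {ι : Type*} (I : Finset ι) (S : ι → Set ℕ) (h : ∀ i ∈ I, NatZero (S i)) :
    NatZero (⋃ i ∈ I, S i) := by
  induction I using Finset.induction_on with
  | empty =>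
    simp only [Finset.notMem_empty, Set.iUnion_of_empty, Set.iUnion_empty]
    exact natZero_empty
  | insert i I hi ih =>
    rw [Finset.set_biUnion_insert]
    exact (h i (Finset.mem_insert_self i I)).union
      (ih fun j hj => h j (Finset.mem_insert_of_mem hj))

/-- **Almost all values of a multiplicative function are divisible by `ℓ ^ k`**, if `ℓ` divides its values at the primes
of a set of nonzero density. -/
theorem natZero_pow {f : ℕ → ℤ} (hf : ∀ m n : ℕ, m.Coprime n → f (m * n) = f m * f n) {ℓ : ℤ}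
    {P : Set ℕ} {δ : ℝ} (hP : HasDensity P δ) (hδ : δ ≠ 0)
    (hPf : ∀ q : ℕ, q.Prime → q ∈ P → ℓ ∣ f q) (k : ℕ) : NatZero {n | ¬ ℓ ^ k ∣ f n} := by
  induction k with
  | zero =>
    refine natZero_empty.mono fun n _ hn => ?_
    exact absurd (by rw [pow_zero]; exact one_dvd _) hn
  | succ k ih =>
    set T : Set ℕ := {n | ¬ ℓ ^ k ∣ f n} with hT
    set S : Set ℕ := {n | ¬ ℓ ^ (k + 1) ∣ f n} with hS
    refine tendsto_order.2 ⟨fun a ha => Eventually.of_forall fun N => ha.trans_le (by positivity),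
      fun ε hε => ?_⟩
    obtain ⟨Q, hQ, hsum⟩ := exists_large_sum hP hδ (-2 * Real.log (ε / 3))
    obtain ⟨K, hK⟩ := cA_bound Q fun q hq => (hQ q hq).1
    set ρ : ℝ := ∏ q ∈ Q, (1 - 1 / (q : ℝ) + 1 / (q : ℝ) ^ 2) with hρ
    have hρε : ρ < ε / 3 := by
      refine (prod_le_exp Q fun q hq => (hQ q hq).1).trans_lt ?_
      rw [← Real.lt_log_iff_exp_lt (by positivity)]
      linarith
    have hlim : Tendsto (fun N : ℕ => K / (N : ℝ)) atTop (𝓝 0) :=
      tendsto_const_nhds.div_atTop tendsto_natCast_atTop_atTop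
    have hlim2 : Tendsto (fun N : ℕ => (Q.card : ℝ) * (((T ∩ Set.Icc 1 N).ncard : ℝ) / N))
        atTop (𝓝 0) := by
      have h0 := Tendsto.const_mul (Q.card : ℝ) ih
      rw [mul_zero] at h0
      exact h0
    filter_upwards [hlim.eventually (gt_mem_nhds (show (0 : ℝ) < ε / 3 by positivity)),
      hlim2.eventually (gt_mem_nhds (show (0 : ℝ) < ε / 3 by positivity)),
      eventually_gt_atTop 0] with N h1 h1' hN
    have hN' : (0 : ℝ) < N := by exact_mod_cast hN
    have h2 : (S ∩ Set.Icc 1 N).ncard ≤ cA Q N + Q.card * (T ∩ Set.Icc 1 N).ncard := by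
      have hfT := fin_inter T N
      have hsub : S ∩ Set.Icc 1 N ⊆
          (((Finset.Icc 1 N).filter fun n => ∀ q ∈ Q, q ∣ n → q ^ 2 ∣ n) ∪
            Q.biUnion fun q => hfT.toFinset.image fun m => q * m : Finset ℕ) := by
        intro n hn
        rw [Finset.mem_coe, Finset.mem_union]
        by_cases hA : ∀ q ∈ Q, q ∣ n → q ^ 2 ∣ n
        · exact Or.inl (Finset.mem_filter.2 ⟨Finset.mem_Icc.2 hn.2, hA⟩)
        · right
          push Not at hA
          obtain ⟨q, hq, ⟨m, rfl⟩, h3⟩ := hA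
          have hqm : ¬ q ∣ m := fun h => h3 (by
            rw [sq]
            exact Nat.mul_dvd_mul_left q h)
          have hn1 : 1 ≤ q * m ∧ q * m ≤ N := hn.2
          rw [Finset.mem_biUnion]
          refine ⟨q, hq, Finset.mem_image.2 ⟨m, hfT.mem_toFinset.2 ⟨?_, ?_, ?_⟩, rfl⟩⟩
          · intro h4
            apply hn.1
            rw [hf q m ((Nat.Prime.coprime_iff_not_dvd (hQ q hq).1).2 hqm), pow_succ']
            exact mul_dvd_mul (hPf q (hQ q hq).1 (hQ q hq).2) h4
          · refine Nat.pos_of_ne_zero fun h => ?_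
            rw [h, mul_zero] at hn1
            omega
          · exact (Nat.le_mul_of_pos_left m (hQ q hq).1.pos).trans hn1.2
      have h3 := Set.ncard_le_ncard hsub (Finset.finite_toSet _)
      rw [Set.ncard_coe_finset] at h3
      refine h3.trans ((Finset.card_union_le _ _).trans (Nat.add_le_add (le_of_eq ?_) ?_))
      · rw [cA]
      · refine Finset.card_biUnion_le.trans ?_
        rw [← smul_eq_mul]
        refine Finset.sum_le_card_nsmul _ _ _ fun q _ => Finset.card_image_le.trans (le_of_eq ?_)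
        rw [Set.ncard_eq_toFinset_card _ hfT]
    have h3 : ((S ∩ Set.Icc 1 N).ncard : ℝ) ≤ (ρ * N + K) + Q.card * (T ∩ Set.Icc 1 N).ncard := by
      have h4 := (abs_le.1 (hK N)).2
      have h5 : ((S ∩ Set.Icc 1 N).ncard : ℝ) ≤ cA Q N + Q.card * (T ∩ Set.Icc 1 N).ncard := by
        exact_mod_cast h2
      linarith
    calc ((S ∩ Set.Icc 1 N).ncard : ℝ) / N
        ≤ ((ρ * N + K) + Q.card * (T ∩ Set.Icc 1 N).ncard) / N :=
          div_le_div_of_nonneg_right h3 hN'.le
      _ = ρ + K / N + Q.card * (((T ∩ Set.Icc 1 N).ncard : ℝ) / N) := by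
          rw [add_div, add_div, mul_div_cancel_right₀ _ hN'.ne', mul_div_assoc]
      _ < ε := by linarith

/-- if all powers of the primes in a finite set `I` divide almost all values of `f`, then so do all integers composed of
these primes -/
theorem natZero_of_primes {f : ℕ → ℤ} (I : Finset ℕ) (h : ∀ p ∈ I, ∀ k : ℕ, NatZero {n | ¬ (p : ℤ) ^ k ∣ f n})
    {m : ℕ} (hm : m ≠ 0) (hmI : ∀ p : ℕ, p.Prime → p ∣ m → p ∈ I) : NatZero {n | ¬ (m : ℤ) ∣ f n} := by
  refine (natZero_biUnion I (fun p => {n | ¬ (p : ℤ) ^ m ∣ f n}) fun p hp => h p hp m).mono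
    fun n _ hn => ?_
  have hn' : ¬ m ∣ (f n).natAbs := fun h => hn (Int.natCast_dvd.2 h)
  rw [Nat.dvd_iff_prime_pow_dvd_dvd] at hn'
  push Not at hn'
  obtain ⟨p, k, hp, hpk, hnot⟩ := hn'
  have hk : k ≠ 0 := by
    rintro rfl
    exact hnot (by rw [pow_zero]; exact one_dvd _)
  have hkm : k ≤ m :=
    ((Nat.lt_pow_self hp.one_lt).le).trans (Nat.le_of_dvd (Nat.pos_of_ne_zero hm) hpk)
  simp only [Set.mem_iUnion]
  refine ⟨p, hmI p hp ((dvd_pow_self p hk).trans hpk), fun h => hnot ?_⟩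
  have h2 : ((p ^ m : ℕ) : ℤ) ∣ f n := by
    push_cast
    exact h
  exact (pow_dvd_pow p hkm).trans (Int.natCast_dvd.1 h2)

theorem natZero_of_neg_one {f : ℕ → ℤ} (hf : ∀ m n : ℕ, m.Coprime n → f (m * n) = f m * f n)
    (ℓ : ℕ) (m : ℕ) [NeZero m] (h : ∀ q : ℕ, q.Prime → (q : ZMod m) = -1 → ((f q : ℤ) : ZMod ℓ) = 0)
    (k : ℕ) : NatZero {n | ¬ (ℓ : ℤ) ^ k ∣ f n} := by
  have hm : (1 : ℝ) / m.totient ≠ 0 := by
    have : (0 : ℝ) < m.totient := by exact_mod_cast Nat.totient_pos.2 (Nat.pos_of_ne_zero (NeZero.ne m))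
    positivity
  refine natZero_pow hf (hasDensity_mod m (-1)) hm (fun q hq hqP => ?_) k
  rw [← ZMod.intCast_zmod_eq_zero_iff_dvd]
  refine h q hq ?_
  have h1 : (q : ZMod m) = ((-1 : (ZMod m)ˣ) : ZMod m) := hqP
  rw [h1]
  rfl

/-! ### Ramanujan's function -/

theorem tau_eq_ram (n : ℕ) : tau n = RamCong.tau n := by
  rw [RamCong.tau, tau, Finset.prod_pow]

/-- **Mordell's theorem** -/
theorem tau_mul {m n : ℕ} (h : m.Coprime n) : tau (m * n) = tau m * tau n := by
  rw [tau_eq_ram, tau_eq_ram, tau_eq_ram]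
  exact Mordell.tau_mul h

theorem natZero_tau_pow {p : ℕ} (hp : p ∈ ({2, 3, 5, 7, 11, 23, 691} : Finset ℕ)) (k : ℕ) :
    NatZero {n | ¬ (p : ℤ) ^ k ∣ tau n} := by
  simp only [Finset.mem_insert, Finset.mem_singleton] at hp
  rcases hp with rfl | rfl | rfl | rfl | rfl | rfl | rfl
  · refine natZero_of_neg_one (fun m n => tau_mul) 2 3 (fun q hq _ => ?_) k
    rw [ZMod.intCast_zmod_eq_zero_iff_dvd]
    have h1 : ¬ Odd (RamCong.tau q) := fun h =>
      hq.prime.irreducible.not_isSquare (TauMod.odd_tau_iff.1 h).2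
    rw [tau_eq_ram]
    exact (Int.not_odd_iff_even.1 h1).two_dvd
  · refine natZero_of_neg_one (fun m n => tau_mul) 3 3 (fun q hq hq1 => ?_) k
    have h1 := (ZMod.intCast_zmod_eq_zero_iff_dvd _ 3).2
      ((show (3 : ℤ) ∣ 60 by norm_num).trans (RamCong.tau_mod_sixty q))
    rw [ArithmeticFunction.sigma_apply, hq.sum_divisors] at h1
    push_cast at h1
    rw [hq1, ← tau_eq_ram] at h1
    linear_combination h1
  · refine natZero_of_neg_one (fun m n => tau_mul) 5 5 (fun q hq hq1 => ?_) k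
    have h1 := (ZMod.intCast_zmod_eq_zero_iff_dvd _ 5).2 (Mordell.tau_prime_five hq)
    push_cast at h1
    rw [hq1, ← tau_eq_ram] at h1
    linear_combination h1
  · refine natZero_of_neg_one (fun m n => tau_mul) 7 7 (fun q hq hq1 => ?_) k
    have h1 := (ZMod.intCast_zmod_eq_zero_iff_dvd _ 7).2 (Mordell.tau_prime_seven hq)
    push_cast at h1
    rw [hq1, ← tau_eq_ram] at h1
    linear_combination h1
  · exact natZero_pow (fun m n => tau_mul) hasDensity_dvd_tau (by norm_num) (fun q _ h => h) k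
  · refine natZero_of_neg_one (fun m n => tau_mul) 23 23 (fun q hq hq1 => ?_) k
    rw [ZMod.intCast_zmod_eq_zero_iff_dvd, tau_eq_ram]
    refine TauMod.tau_dvd_23 ?_
    rw [hq1]
    decide
  · refine natZero_of_neg_one (fun m n => tau_mul) 691 691 (fun q hq hq1 => ?_) k
    have h1 := (ZMod.intCast_zmod_eq_zero_iff_dvd _ 691).2 (Mordell.tau_prime_691 hq)
    push_cast at h1
    rw [hq1, ← tau_eq_ram] at h1
    linear_combination h1

/-- **Almost all values of `τ` are divisible by `m`**, for every integer `m` all whose prime factors are in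
`{2, 3, 5, 7, 11, 23, 691}`. -/
theorem natZero_tau {m : ℕ} (hm : m ≠ 0)
    (h : ∀ p : ℕ, p.Prime → p ∣ m → p ∈ ({2, 3, 5, 7, 11, 23, 691} : Finset ℕ)) :
    Tendsto (fun N : ℕ => (({n | ¬ (m : ℤ) ∣ tau n} ∩ Set.Icc 1 N).ncard : ℝ) / N) atTop (𝓝 0) :=
  natZero_of_primes _ (fun _ hp k => natZero_tau_pow hp k) hm h

/-- **`τ(n)` is either `0` or large for almost all `n`.** -/
theorem natZero_tau_le (B : ℕ) :
    Tendsto (fun N : ℕ => (({n | tau n ≠ 0 ∧ |tau n| ≤ B} ∩ Set.Icc 1 N).ncard : ℝ) / N) atTop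
      (𝓝 0) := by
  refine NatZero.mono (natZero_tau_pow (p := 2) (by simp) B) fun n _ hn h => ?_
  have h1 : ((2 : ℕ) : ℤ) ^ B ≤ |tau n| := Int.le_of_dvd (abs_pos.2 hn.1) ((dvd_abs _ _).2 h)
  have h2 : (B : ℤ) < ((2 : ℕ) : ℤ) ^ B := by exact_mod_cast Nat.lt_pow_self (by norm_num)
  have h3 := hn.2
  linarith

/-- **For every integer `c ≠ 0` the set of the `n` with `τ(n) = c` has natural density zero.** -/
theorem natZero_tau_eq {c : ℤ} (hc : c ≠ 0) :
    Tendsto (fun N : ℕ => (({n | tau n = c} ∩ Set.Icc 1 N).ncard : ℝ) / N) atTop (𝓝 0) := by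
  refine NatZero.mono (natZero_tau_le c.natAbs) fun n _ hn => ?_
  have h1 : tau n = c := hn
  refine ⟨by rw [h1]; exact hc, ?_⟩
  rw [h1, Int.natCast_natAbs]

end Fermat.Agent.Cor.H14
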