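import Fermat.Agent.Cor.H14AlmostAll
import Fermat.Agent.Cor.CentralValue
import Fermat.Agent.Cor.SmallConductor

/-!
# Divisibility of almost all coefficients of the `L`-series of a semistable elliptic curve

Let `W` be a semistable elliptic curve over `ℚ`, `g` its newform and `a n` the coefficients of `g`, integers
(`exists_coeff`).

* `natZero_dvd`: if `m` is odd and `W[p]` is irreducible for all prime factors `p` of `m`, then `m ∣ a n` for almost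
  all `n`; `natZero_dvd_uniform`: for every semistable `W` this applies to all `m` whose prime factors are `≥ 11` and
  `≠ 13`;
* `natZero_le`: for every `B` the set of the `n` with `0 < |a n| ≤ B` has natural density `0`;
* `natZero_eq`: for every integer `c ≠ 0` the set of the `n` with `a n = c` has natural density `0`.

This file is not used by any of the statement files.
-/

set_option autoImplicit false

open scoped Classical Topology

noncomputable section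

namespace Fermat.Agent.Cor.H14

open Filter ModularFormClass CongruenceSubgroup

/-- **The coefficients of the newform of a semistable elliptic curve.** -/
theorem exists_coeff {W : WeierstrassCurve ℤ} (hΔ : W.Δ ≠ 0) (hss : W.IsSemistableModel) :
    ∃ (g : CuspForm (Gamma0 W.conductorLevel) 2) (a : ℕ → ℤ), g.IsNewform ∧
      (∀ n, qCoeff g n = (a n : ℂ)) ∧
      ∀ ℓ : ℕ, ℓ.Prime → ¬ ℓ ∣ W.conductorLevel → a ℓ = W.apOfModel ℓ := by
  have : NeZero W.conductorLevel := ⟨W.conductorLevel_pos.ne'⟩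
  obtain ⟨g, hg, hgW⟩ := SmallConductor.exists_newform W hΔ hss
  choose a ha using CentralValue.exists_int_qCoeff hg fun l hl hlN => ⟨_, hgW l hl hlN⟩
  refine ⟨g, a, hg, ha, fun ℓ hℓ hℓN => ?_⟩
  have h := hgW ℓ hℓ hℓN
  rw [ha] at h
  exact_mod_cast h

variable {W : WeierstrassCurve ℤ} {N : ℕ} {g : CuspForm (Gamma0 N) 2} {a : ℕ → ℤ}

theorem coeff_mul (hg : g.IsNormalizedEigenform) (ha : ∀ n, qCoeff g n = (a n : ℂ)) (m n : ℕ)
    (h : m.Coprime n) : a (m * n) = a m * a n := by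
  have h1 := hg.qCoeff_mul_of_coprime m n h
  rw [ha, ha, ha] at h1
  exact_mod_cast h1

theorem natZero_prime_pow (hΔ : W.Δ ≠ 0) (hss : W.IsSemistableModel) (hN : N ≠ 0)
    (hg : g.IsNormalizedEigenform) (ha : ∀ n, qCoeff g n = (a n : ℂ))
    (hW : ∀ ℓ : ℕ, ℓ.Prime → ¬ ℓ ∣ N → a ℓ = W.apOfModel ℓ) {p : ℕ} (hp : p.Prime) (hp2 : p ≠ 2)
    (hirr : W.ModRepIsIrreducible p) (k : ℕ) : NatZero {n | ¬ (p : ℤ) ^ k ∣ a n} := by
  have : Fact p.Prime := ⟨hp⟩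
  have h1 := hasDensity_dvd_ap hΔ hss hirr hp2
  have h2 : HasDensity {q | (p : ℤ) ∣ a q ∧ ¬ q ∣ N} (p / ((p : ℝ) ^ 2 - 1)) := by
    refine h1.congr (Finset.finite_toSet N.divisors) fun q hq hqN => ?_
    have hqN' : ¬ q ∣ N := fun h => hqN (by
      rw [Finset.mem_coe, Nat.mem_divisors]
      exact ⟨h, hN⟩)
    change (p : ℤ) ∣ W.apOfModel q ↔ (p : ℤ) ∣ a q ∧ ¬ q ∣ N
    rw [hW q hq hqN']
    exact ⟨fun h => ⟨h, hqN'⟩, fun h => h.1⟩
  have h3 : (p : ℝ) / ((p : ℝ) ^ 2 - 1) ≠ 0 := by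
    have hp1 : (2 : ℝ) ≤ p := by exact_mod_cast hp.two_le
    have : (0 : ℝ) < (p : ℝ) ^ 2 - 1 := by nlinarith
    positivity
  exact natZero_pow (coeff_mul hg ha) h2 h3 (fun q _ h => h.1) k

/-- **Almost all coefficients are divisible by `m`.** -/
theorem natZero_dvd (hΔ : W.Δ ≠ 0) (hss : W.IsSemistableModel) (hN : N ≠ 0)
    (hg : g.IsNormalizedEigenform) (ha : ∀ n, qCoeff g n = (a n : ℂ))
    (hW : ∀ ℓ : ℕ, ℓ.Prime → ¬ ℓ ∣ N → a ℓ = W.apOfModel ℓ) {m : ℕ} (hm : m ≠ 0)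
    (h : ∀ p : ℕ, p.Prime → p ∣ m → p ≠ 2 ∧ W.ModRepIsIrreducible p) :
    Tendsto (fun x : ℕ => (({n | ¬ (m : ℤ) ∣ a n} ∩ Set.Icc 1 x).ncard : ℝ) / x) atTop (𝓝 0) :=
  natZero_of_primes m.primeFactors (fun p hp k =>
    natZero_prime_pow hΔ hss hN hg ha hW (Nat.prime_of_mem_primeFactors hp)
      (h p (Nat.prime_of_mem_primeFactors hp) (Nat.dvd_of_mem_primeFactors hp)).1
      (h p (Nat.prime_of_mem_primeFactors hp) (Nat.dvd_of_mem_primeFactors hp)).2 k) hm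
    fun _ hp hpm => Nat.mem_primeFactors.2 ⟨hp, hpm, hm⟩

/-- the same for all semistable `W`, if the prime factors of `m` are `≥ 11` and `≠ 13` -/
theorem natZero_dvd_uniform (hΔ : W.Δ ≠ 0) (hss : W.IsSemistableModel) (hN : N ≠ 0)
    (hg : g.IsNormalizedEigenform) (ha : ∀ n, qCoeff g n = (a n : ℂ))
    (hW : ∀ ℓ : ℕ, ℓ.Prime → ¬ ℓ ∣ N → a ℓ = W.apOfModel ℓ) {m : ℕ} (hm : m ≠ 0)
    (h : ∀ p : ℕ, p.Prime → p ∣ m → 11 ≤ p ∧ p ≠ 13) :
    Tendsto (fun x : ℕ => (({n | ¬ (m : ℤ) ∣ a n} ∩ Set.Icc 1 x).ncard : ℝ) / x) atTop (𝓝 0) :=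
  natZero_dvd hΔ hss hN hg ha hW hm fun p hp hpm =>
    ⟨by have := (h p hp hpm).1; omega,
      Mazur.modRep_irreducible hΔ hss hp (h p hp hpm).1 (h p hp hpm).2⟩

/-- **The nonzero coefficients are large for almost all `n`.** -/
theorem natZero_le (hΔ : W.Δ ≠ 0) (hss : W.IsSemistableModel) (hN : N ≠ 0)
    (hg : g.IsNormalizedEigenform) (ha : ∀ n, qCoeff g n = (a n : ℂ))
    (hW : ∀ ℓ : ℕ, ℓ.Prime → ¬ ℓ ∣ N → a ℓ = W.apOfModel ℓ) (B : ℕ) :
    Tendsto (fun x : ℕ => (({n | a n ≠ 0 ∧ |a n| ≤ B} ∩ Set.Icc 1 x).ncard : ℝ) / x) atTop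
      (𝓝 0) := by
  have h1 := natZero_prime_pow hΔ hss hN hg ha hW (p := 11) (by norm_num) (by norm_num)
    (Mazur.modRep_irreducible hΔ hss (by norm_num) le_rfl (by norm_num)) B
  refine NatZero.mono h1 fun n _ hn h => ?_
  have h2 : ((11 : ℕ) : ℤ) ^ B ≤ |a n| := Int.le_of_dvd (abs_pos.2 hn.1) ((dvd_abs _ _).2 h)
  have h3 : (B : ℤ) < ((11 : ℕ) : ℤ) ^ B := by exact_mod_cast Nat.lt_pow_self (by norm_num)
  have h4 := hn.2
  linarith

/-- **For every integer `c ≠ 0` the set of the `n` with `a n = c` has natural density zero.** -/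
theorem natZero_eq (hΔ : W.Δ ≠ 0) (hss : W.IsSemistableModel) (hN : N ≠ 0)
    (hg : g.IsNormalizedEigenform) (ha : ∀ n, qCoeff g n = (a n : ℂ))
    (hW : ∀ ℓ : ℕ, ℓ.Prime → ¬ ℓ ∣ N → a ℓ = W.apOfModel ℓ) {c : ℤ} (hc : c ≠ 0) :
    Tendsto (fun x : ℕ => (({n | a n = c} ∩ Set.Icc 1 x).ncard : ℝ) / x) atTop (𝓝 0) := by
  refine NatZero.mono (natZero_le hΔ hss hN hg ha hW c.natAbs) fun n _ hn => ?_
  have h1 : a n = c := hn
  refine ⟨by rw [h1]; exact hc, ?_⟩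
  rw [h1, Int.natCast_natAbs]

/-- **Summary**: the coefficients of the `L`-series of a semistable elliptic curve over `ℚ`. -/
theorem coeff_almost (hΔ : W.Δ ≠ 0) (hss : W.IsSemistableModel) :
    ∃ (g : CuspForm (Gamma0 W.conductorLevel) 2) (a : ℕ → ℤ), g.IsNewform ∧
      (∀ n, qCoeff g n = (a n : ℂ)) ∧
      (∀ ℓ : ℕ, ℓ.Prime → ¬ ℓ ∣ W.conductorLevel → a ℓ = W.apOfModel ℓ) ∧
      (∀ m : ℕ, m ≠ 0 → (∀ p : ℕ, p.Prime → p ∣ m → 11 ≤ p ∧ p ≠ 13) →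
        Tendsto (fun x : ℕ => (({n | ¬ (m : ℤ) ∣ a n} ∩ Set.Icc 1 x).ncard : ℝ) / x) atTop (𝓝 0)) ∧
      ∀ c : ℤ, c ≠ 0 →
        Tendsto (fun x : ℕ => (({n | a n = c} ∩ Set.Icc 1 x).ncard : ℝ) / x) atTop (𝓝 0) := by
  obtain ⟨g, a, hg, ha, hW⟩ := exists_coeff hΔ hss
  have hN : W.conductorLevel ≠ 0 := W.conductorLevel_pos.ne'
  exact ⟨g, a, hg, ha, hW, fun m hm h => natZero_dvd_uniform hΔ hss hN hg.1 ha hW hm h,
    fun c hc => natZero_eq hΔ hss hN hg.1 ha hW hc⟩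

end Fermat.Agent.Cor.H14
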