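import Fermat.Agent.Cor.H14TauGal
import Fermat.Agent.Cor.ChebotarevGal

/-!
# The traces of Frobenius and Ramanujan's `τ` take all values modulo `p`

* `infinite_ap`: let `W` be a semistable elliptic curve over `ℚ` and `p ≥ 11`, `p ≠ 13` a prime. For all residue classes
  `t` and `d ≠ 0` modulo `p` there are infinitely many primes `q ≡ d` with `a_q(W) ≡ t` modulo `p`;
* `infinite_tau` (Serre, Swinnerton-Dyer): for all residue classes `t` and `d ≠ 0` modulo `11` there are infinitely many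
  primes `q ≡ d` with `τ(q) ≡ t` modulo `11`. In particular there is no congruence for `τ(q)` modulo `11` in terms of the
  residue class of `q` modulo `11`, and `11 ∣ τ(q)` for infinitely many primes `q` in every class modulo `11`.

The proof uses modularity and level lowering (surjectivity of the representations modulo `p`) and Chebotarev's theorem.

This file is not used by any of the statement files.
-/

set_option autoImplicit false

noncomputable section

namespace Fermat.Agent.Cor.H14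

open Matrix

local notation "Qb" => AlgebraicClosure ℚ
local notation "Γq" => AlgebraicClosure ℚ ≃ₐ[ℚ] AlgebraicClosure ℚ

/-- Chebotarev's theorem for a surjective representation with values in `GL₂(𝔽_p)`: every pair (trace, determinant)
occurs for infinitely many Frobenius elements. -/
theorem infinite_of_surjective {p : ℕ} [Fact p.Prime] {ρ : Γq →* GL (Fin 2) (ZMod p)}
    (hF : ∃ F : IntermediateField ℚ Qb, FiniteDimensional ℚ F ∧
      ∀ σ : Γq, (∀ x ∈ F, σ x = x) → ρ σ = 1)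
    (hρ : Function.Surjective ρ) (t d : ZMod p) (hd : d ≠ 0) :
    {q : ℕ | q.Prime ∧ ∃ (A : ValuationSubring Qb) (φ : Γq), A.LiesOverPrime q ∧
      A.IsFrobeniusAt φ q ∧ (ρ φ : Matrix (Fin 2) (Fin 2) (ZMod p)).trace = t ∧
        (ρ φ : Matrix (Fin 2) (Fin 2) (ZMod p)).det = d}.Infinite := by
  obtain ⟨F, hfin, hF⟩ := hF
  have hdet : (!![0, -d; 1, t] : Matrix (Fin 2) (Fin 2) (ZMod p)).det = d := by
    rw [Matrix.det_fin_two_of]
    ring
  let g : GL (Fin 2) (ZMod p) := Matrix.GeneralLinearGroup.mkOfDetNeZero !![0, -d; 1, t]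
    (by rw [hdet]; exact hd)
  have hg : (g : Matrix (Fin 2) (Fin 2) (ZMod p)) = !![0, -d; 1, t] := rfl
  obtain ⟨σ, hσ⟩ := hρ g
  have hU : IsOpen ((ρ.ker : Subgroup Γq) : Set Γq) := by
    have h1 : F.fixingSubgroup ≤ ρ.ker := fun τ hτ =>
      hF τ fun x hx => (IntermediateField.mem_fixingSubgroup_iff F τ).1 hτ x hx
    exact Subgroup.isOpen_mono h1 (IntermediateField.fixingSubgroup_isOpen F)
  refine (Cheb.infinite_frobenius_dense hU σ).mono ?_
  rintro q ⟨hq, A, φ, hA, hφ, hmem⟩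
  refine ⟨hq, A, φ, hA, hφ, ?_⟩
  have h2 : ρ φ = g := by
    have h3 : ρ (σ⁻¹ * φ) = 1 := hmem
    rw [map_mul, map_inv, inv_mul_eq_one] at h3
    rw [← h3, hσ]
  rw [h2, hg, hdet]
  refine ⟨?_, rfl⟩
  rw [Matrix.trace_fin_two_of]
  ring

/-- **The traces of Frobenius take all values modulo `p`.** -/
theorem infinite_ap {W : WeierstrassCurve ℤ} {p : ℕ} (hΔ : W.Δ ≠ 0) (hss : W.IsSemistableModel)
    (hp : p.Prime) (hp11 : 11 ≤ p) (hp13 : p ≠ 13) (t d : ZMod p) (hd : d ≠ 0) :
    {q : ℕ | q.Prime ∧ (q : ZMod p) = d ∧ (W.apOfModel q : ZMod p) = t}.Infinite := by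
  have : Fact p.Prime := ⟨hp⟩
  obtain ⟨ρ, h1, h2, h3⟩ := exists_rep hΔ hss hp hp11 hp13
  have h4 := infinite_of_surjective h1 h2 t d hd
  have hfin : (((W.Δ.natAbs * p).divisors : Finset ℕ) : Set ℕ).Finite := Finset.finite_toSet _
  refine (h4.sdiff hfin).mono ?_
  rintro q ⟨⟨hq, A, φ, hA, hφ, htr, hdet⟩, hnot⟩
  have hne : W.Δ.natAbs * p ≠ 0 := mul_ne_zero (Int.natAbs_ne_zero.2 hΔ) hp.ne_zero
  have hq1 : ¬ (q : ℤ) ∣ W.Δ := fun h => hnot (by
    rw [Finset.mem_coe, Nat.mem_divisors]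
    exact ⟨(Int.natCast_dvd.1 h).mul_right _, hne⟩)
  have hq2 : q ≠ p := fun h => hnot (by
    rw [Finset.mem_coe, Nat.mem_divisors, h]
    exact ⟨dvd_mul_left _ _, hne⟩)
  obtain ⟨-, h5⟩ := h3 q hq hq1 hq2 A hA
  obtain ⟨h6, h7⟩ := h5 φ hφ
  exact ⟨hq, by rw [← h7, hdet], by rw [← h6, htr]⟩

/-- **Ramanujan's `τ` takes all values modulo `11`** in every class of primes modulo `11`. -/
theorem infinite_tau (t d : ZMod 11) (hd : d ≠ 0) :
    {q : ℕ | q.Prime ∧ (q : ZMod 11) = d ∧ (tau q : ZMod 11) = t}.Infinite := by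
  have h := infinite_ap (W := Eichler.W11) (p := 11) (by rw [Eichler.W11_Δ]; decide)
    Eichler.W11_semistable (by norm_num) le_rfl (by norm_num) t d hd
  refine (h.sdiff (Set.finite_singleton 11)).mono ?_
  rintro q ⟨⟨hq, h1, h2⟩, hne⟩
  refine ⟨hq, h1, ?_⟩
  rw [← h2, ZMod.intCast_eq_intCast_iff]
  exact (apOfModel_modEq_tau hq hne).symm

/-- `11` divides `τ(q)` for infinitely many primes `q`. -/
theorem infinite_dvd_tau : {q : ℕ | q.Prime ∧ (11 : ℤ) ∣ tau q}.Infinite := by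
  refine (infinite_tau 0 1 (by decide)).mono ?_
  rintro q ⟨hq, -, h⟩
  exact ⟨hq, (ZMod.intCast_zmod_eq_zero_iff_dvd (tau q) 11).1 h⟩

end Fermat.Agent.Cor.H14
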