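import Fermat.Agent.Cor.H14Density
import Fermat.Agent.Cor.H14TauCheb

/-!
# The densities of the primes with given `a_q` modulo `p`, and of the primes with given `τ(q)` modulo `11`

Let `W` be a semistable elliptic curve over `ℚ` and `p` an odd prime such that `W[p]` is irreducible (any prime `p ≥ 11`,
`p ≠ 13`, will do).

* `hasDensity_ap_det`: for `t` and `d ≠ 0` modulo `p`, the set of the primes `q ≡ d` with `a_q(W) ≡ t` modulo `p` has
  Dirichlet density `(p + ((t² - 4d) / p)) / ((p - 1)² (p + 1))`, where `(· / p)` is Legendre's symbol;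
* `hasDensity_ap`: the set of the primes `q` with `a_q(W) ≡ t` modulo `p` has density `(p² - p - 1) / ((p - 1)² (p + 1))`
  if `t ≠ 0`, and `p / (p² - 1)` if `t = 0`;
* `hasDensity_tau_det`, `hasDensity_tau`, `hasDensity_dvd_tau`: the same for Ramanujan's `τ` modulo `11`. In particular
  the set of the primes `q` with `11 ∣ τ(q)` has Dirichlet density `11 / 120`.

This file is not used by any of the statement files.
-/

set_option autoImplicit false
set_option linter.unusedSectionVars false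

open scoped Classical

noncomputable section

namespace Fermat.Agent.Cor.H14

open Matrix

section count

variable {K : Type*} [Field K] [Fintype K] [DecidableEq K]

theorem sum_mul_eq (m : K) : (∑ b : K, ∑ c : K, if b * c = m then (1 : ℤ) else 0) =
    (Fintype.card K - 1) + if m = 0 then (Fintype.card K : ℤ) else 0 := by
  have h : ∀ b : K, (∑ c : K, if b * c = m then (1 : ℤ) else 0) =
      1 + (if b = 0 then (if m = 0 then (Fintype.card K : ℤ) else 0) - 1 else 0) := by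
    intro b
    by_cases hb : b = 0
    · subst hb
      by_cases hm : m = 0
      · subst hm
        simp
      · simp [hm, Ne.symm hm]
    · have h1 : ∀ c : K, b * c = m ↔ c = b⁻¹ * m := by
        intro c
        rw [eq_inv_mul_iff_mul_eq₀ hb]
      simp [h1, hb]
  rw [Finset.sum_congr rfl fun b _ => h b, Finset.sum_add_distrib, Finset.sum_ite_eq' Finset.univ (0 : K),
    if_pos (Finset.mem_univ _), Finset.sum_const, Finset.card_univ, nsmul_eq_mul, mul_one]
  ring

theorem sum_quad (hK : ringChar K ≠ 2) (t d : K) :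
    (∑ a : K, if a * (t - a) = d then (1 : ℤ) else 0) = quadraticChar K (t ^ 2 - 4 * d) + 1 := by
  have h2 : (2 : K) ≠ 0 := Ring.two_ne_zero hK
  rw [← quadraticChar_card_sqrts hK]
  let e : K ≃ K := (Equiv.mulLeft₀ (2 : K) h2).trans (Equiv.subRight t)
  have he : ∀ a, e a = 2 * a - t := fun a => rfl
  have h3 : (∑ a : K, if a * (t - a) = d then (1 : ℤ) else 0) =
      ∑ a : K, if (e a) ^ 2 = t ^ 2 - 4 * d then (1 : ℤ) else 0 := by
    refine Finset.sum_congr rfl fun a _ => ?_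
    have h4 : a * (t - a) = d ↔ (e a) ^ 2 = t ^ 2 - 4 * d := by
      rw [he, ← sub_eq_zero, ← sub_eq_zero (a := (2 * a - t) ^ 2)]
      have h5 : (2 * a - t) ^ 2 - (t ^ 2 - 4 * d) = -(2 * 2) * (a * (t - a) - d) := by ring
      rw [h5, mul_eq_zero]
      refine ⟨Or.inr, fun h => h.resolve_left ?_⟩
      exact neg_ne_zero.2 (mul_ne_zero h2 h2)
    simp only [h4]
  rw [h3, Equiv.sum_comp e fun x => if x ^ 2 = t ^ 2 - 4 * d then (1 : ℤ) else 0, Finset.sum_boole]
  congr 2
  ext x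
  simp

/-- the number of the matrices with trace `t` and determinant `d` -/
theorem sum_char (hK : ringChar K ≠ 2) (t d : K) :
    (∑ x : K × K × K, if x.1 * (t - x.1) - x.2.1 * x.2.2 = d then (1 : ℤ) else 0) =
      Fintype.card K * (Fintype.card K + quadraticChar K (t ^ 2 - 4 * d)) := by
  rw [Fintype.sum_prod_type]
  have h1 : ∀ a : K, (∑ y : K × K, if a * (t - a) - y.1 * y.2 = d then (1 : ℤ) else 0) =
      (Fintype.card K - 1) + Fintype.card K * (if a * (t - a) = d then (1 : ℤ) else 0) := by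
    intro a
    rw [Fintype.sum_prod_type]
    have h2 := sum_mul_eq (a * (t - a) - d)
    have h3 : ∀ b c : K, a * (t - a) - b * c = d ↔ b * c = a * (t - a) - d := fun b c =>
      ⟨fun h => by rw [← h]; ring, fun h => by rw [h]; ring⟩
    simp only [h3, h2, sub_eq_zero (b := d), mul_ite, mul_one, mul_zero]
  rw [Finset.sum_congr rfl fun a _ => h1 a, Finset.sum_add_distrib, ← Finset.mul_sum, sum_quad hK,
    Finset.sum_const, Finset.card_univ, nsmul_eq_mul]
  ring

theorem mat_form (M : Matrix (Fin 2) (Fin 2) K) :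
    !![M 0 0, M 0 1; M 1 0, M.trace - M 0 0] = M := by
  rw [Matrix.trace_fin_two]
  ext i j
  fin_cases i <;> fin_cases j <;> simp

theorem mat_det (M : Matrix (Fin 2) (Fin 2) K) :
    M 0 0 * (M.trace - M 0 0) - M 0 1 * M 1 0 = M.det := by
  rw [Matrix.trace_fin_two, Matrix.det_fin_two]
  ring

theorem card_char (hK : ringChar K ≠ 2) (t : K) {d : K} (hd : d ≠ 0) :
    (Nat.card {g : GL (Fin 2) K // (g : Matrix (Fin 2) (Fin 2) K).trace = t ∧
      (g : Matrix (Fin 2) (Fin 2) K).det = d} : ℤ) =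
      Fintype.card K * (Fintype.card K + quadraticChar K (t ^ 2 - 4 * d)) := by
  rw [← sum_char hK t d, Finset.sum_boole]
  have h0 : ∀ x : {x : K × K × K // x.1 * (t - x.1) - x.2.1 * x.2.2 = d},
      (!![x.1.1, x.1.2.1; x.1.2.2, t - x.1.1] : Matrix (Fin 2) (Fin 2) K).det ≠ 0 := by
    intro x
    rw [Matrix.det_fin_two_of, x.2]
    exact hd
  have e : {g : GL (Fin 2) K // (g : Matrix (Fin 2) (Fin 2) K).trace = t ∧
      (g : Matrix (Fin 2) (Fin 2) K).det = d} ≃
      {x : K × K × K // x.1 * (t - x.1) - x.2.1 * x.2.2 = d} :=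
    { toFun := fun g => ⟨(g.1 0 0, g.1 0 1, g.1 1 0), by
        have h := mat_det (g.1 : Matrix (Fin 2) (Fin 2) K)
        rw [g.2.1, g.2.2] at h
        exact h⟩
      invFun := fun x => ⟨Matrix.GeneralLinearGroup.mkOfDetNeZero _ (h0 x), by
        change (!![x.1.1, x.1.2.1; x.1.2.2, t - x.1.1] : Matrix (Fin 2) (Fin 2) K).trace = t ∧
          (!![x.1.1, x.1.2.1; x.1.2.2, t - x.1.1] : Matrix (Fin 2) (Fin 2) K).det = d
        rw [Matrix.trace_fin_two_of, Matrix.det_fin_two_of, x.2]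
        exact ⟨by ring, rfl⟩⟩
      left_inv := fun g => by
        apply Subtype.ext
        apply Units.ext
        have h := mat_form (g.1 : Matrix (Fin 2) (Fin 2) K)
        rw [g.2.1] at h
        exact h
      right_inv := fun x => rfl }
  rw [Nat.card_congr e, Nat.card_eq_fintype_card, Fintype.card_subtype]

theorem card_trace (hK : ringChar K ≠ 2) (t : K) :
    (Nat.card {g : GL (Fin 2) K // (g : Matrix (Fin 2) (Fin 2) K).trace = t} : ℤ) =
      Fintype.card K ^ 3 - Fintype.card K * (Fintype.card K + quadraticChar K (t ^ 2)) := by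
  have h0 : ∀ x : {x : K × K × K // ¬ x.1 * (t - x.1) - x.2.1 * x.2.2 = 0},
      (!![x.1.1, x.1.2.1; x.1.2.2, t - x.1.1] : Matrix (Fin 2) (Fin 2) K).det ≠ 0 := by
    intro x
    rw [Matrix.det_fin_two_of]
    exact x.2
  have e : {g : GL (Fin 2) K // (g : Matrix (Fin 2) (Fin 2) K).trace = t} ≃
      {x : K × K × K // ¬ x.1 * (t - x.1) - x.2.1 * x.2.2 = 0} :=
    { toFun := fun g => ⟨(g.1 0 0, g.1 0 1, g.1 1 0), by
        have h2 : (g.1 : Matrix (Fin 2) (Fin 2) K).det ≠ 0 :=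
          ((Matrix.isUnit_iff_isUnit_det _).1 g.1.isUnit).ne_zero
        rw [← mat_det, g.2] at h2
        exact h2⟩
      invFun := fun x => ⟨Matrix.GeneralLinearGroup.mkOfDetNeZero _ (h0 x), by
        change (!![x.1.1, x.1.2.1; x.1.2.2, t - x.1.1] : Matrix (Fin 2) (Fin 2) K).trace = t
        rw [Matrix.trace_fin_two_of]
        ring⟩
      left_inv := fun g => by
        apply Subtype.ext
        apply Units.ext
        have h := mat_form (g.1 : Matrix (Fin 2) (Fin 2) K)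
        rw [g.2] at h
        exact h
      right_inv := fun x => rfl }
  rw [Nat.card_congr e, Nat.card_eq_fintype_card, Fintype.card_subtype]
  have h1 := sum_char hK t 0
  rw [Finset.sum_boole, mul_zero, sub_zero] at h1
  have h2 := Finset.card_filter_add_card_filter_not (s := (Finset.univ : Finset (K × K × K)))
    (fun x => x.1 * (t - x.1) - x.2.1 * x.2.2 = 0)
  rw [Finset.card_univ, Fintype.card_prod, Fintype.card_prod] at h2
  rw [← h1]
  have h3 : (((Finset.univ.filter fun x : K × K × K => x.1 * (t - x.1) - x.2.1 * x.2.2 = 0).card +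
      (Finset.univ.filter fun x : K × K × K => ¬ x.1 * (t - x.1) - x.2.1 * x.2.2 = 0).card : ℕ) : ℤ) =
      ((Fintype.card K * (Fintype.card K * Fintype.card K) : ℕ) : ℤ) := by
    exact_mod_cast h2
  push_cast at h3
  linear_combination h3

theorem card_GL_two : (Nat.card (GL (Fin 2) K) : ℝ) =
    Fintype.card K * (Fintype.card K - 1) ^ 2 * (Fintype.card K + 1) := by
  rw [Matrix.card_GL_field]
  have h1 : 1 ≤ Fintype.card K := Fintype.card_pos
  have h2 : 1 ≤ Fintype.card K ^ 2 := Nat.one_le_pow _ _ h1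
  have h3 : Fintype.card K ≤ Fintype.card K ^ 2 := Nat.le_self_pow two_ne_zero _
  rw [Fin.prod_univ_two]
  simp only [Fin.val_zero, Fin.val_one, pow_zero, pow_one]
  push_cast [Nat.cast_sub h2, Nat.cast_sub h3]
  ring

end count

section galois

local notation "Qb" => AlgebraicClosure ℚ
local notation "Γq" => AlgebraicClosure ℚ ≃ₐ[ℚ] AlgebraicClosure ℚ

/-- The density of the primes with prescribed trace and determinant of Frobenius, for a surjective representation
`Gal(ℚ̄/ℚ) → GL₂(𝔽_p)`. -/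
theorem hasDensity_of_rep {p : ℕ} [Fact p.Prime] {ρ : Γq →* GL (Fin 2) (ZMod p)}
    (hF : ∃ F : IntermediateField ℚ Qb, FiniteDimensional ℚ F ∧
      ∀ σ : Γq, (∀ x ∈ F, σ x = x) → ρ σ = 1)
    (hρ : Function.Surjective ρ) {D : ℕ} (hD : D ≠ 0) {a b : ℕ → ZMod p}
    (h : ∀ q : ℕ, q.Prime → ¬ q ∣ D → ∀ A : ValuationSubring Qb, A.LiesOverPrime q →
      ∀ φ : Γq, A.IsFrobeniusAt φ q → (ρ φ : Matrix (Fin 2) (Fin 2) (ZMod p)).trace = a q ∧
        (ρ φ : Matrix (Fin 2) (Fin 2) (ZMod p)).det = b q)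
    (C : Set (ZMod p × ZMod p)) :
    HasDensity {q | (a q, b q) ∈ C}
      (Nat.card {g : GL (Fin 2) (ZMod p) // ((g : Matrix (Fin 2) (Fin 2) (ZMod p)).trace,
        (g : Matrix (Fin 2) (Fin 2) (ZMod p)).det) ∈ C} / Nat.card (GL (Fin 2) (ZMod p))) := by
  have hg : IsGalois ℚ Qb := H51.isGalois_Qbar
  have h1 := hasDensity_rep hρ hF {g : GL (Fin 2) (ZMod p) |
    ((g : Matrix (Fin 2) (Fin 2) (ZMod p)).trace,
      (g : Matrix (Fin 2) (Fin 2) (ZMod p)).det) ∈ C} (fun g hg t => by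
    rw [Set.mem_ofPred_eq] at hg ⊢
    rw [Units.val_mul, Units.val_mul, Matrix.trace_units_conj, Matrix.det_units_conj]
    exact hg)
  refine HasDensity.congr h1 (Finset.finite_toSet D.divisors) fun q hq hqD => ?_
  have hqD' : ¬ q ∣ D := fun h => hqD (by
    rw [Finset.mem_coe, Nat.mem_divisors]
    exact ⟨h, hD⟩)
  constructor
  · rintro ⟨A, φ, hA, hφ, hmem⟩
    obtain ⟨h2, h3⟩ := h q hq hqD' A hA φ hφ
    rw [Set.mem_ofPred_eq, h2, h3] at hmem
    exact hmem
  · intro hmem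
    obtain ⟨A, hA⟩ := H05.exists_liesOverPrime Qb hq
    obtain ⟨φ, hφ⟩ := H05.exists_isFrobeniusAt hq hA
    obtain ⟨h2, h3⟩ := h q hq hqD' A hA φ hφ
    refine ⟨A, φ, hA, hφ, ?_⟩
    rw [Set.mem_ofPred_eq, h2, h3]
    exact hmem

theorem ringChar_ne_two {p : ℕ} (hp2 : p ≠ 2) : ringChar (ZMod p) ≠ 2 := by
  rw [ZMod.ringChar_zmod_n]
  exact hp2

/-- The density of the primes with Frobenius of trace `t` and determinant `d`. -/
theorem hasDensity_of_rep_char {p : ℕ} [Fact p.Prime] (hp2 : p ≠ 2)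
    {ρ : Γq →* GL (Fin 2) (ZMod p)}
    (hF : ∃ F : IntermediateField ℚ Qb, FiniteDimensional ℚ F ∧
      ∀ σ : Γq, (∀ x ∈ F, σ x = x) → ρ σ = 1)
    (hρ : Function.Surjective ρ) {D : ℕ} (hD : D ≠ 0) {a b : ℕ → ZMod p}
    (h : ∀ q : ℕ, q.Prime → ¬ q ∣ D → ∀ A : ValuationSubring Qb, A.LiesOverPrime q →
      ∀ φ : Γq, A.IsFrobeniusAt φ q → (ρ φ : Matrix (Fin 2) (Fin 2) (ZMod p)).trace = a q ∧
        (ρ φ : Matrix (Fin 2) (Fin 2) (ZMod p)).det = b q)
    (t : ZMod p) {d : ZMod p} (hd : d ≠ 0) :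
    HasDensity {q | a q = t ∧ b q = d}
      ((p + quadraticChar (ZMod p) (t ^ 2 - 4 * d)) / (((p : ℝ) - 1) ^ 2 * (p + 1))) := by
  have hp := (Fact.out : p.Prime)
  have h1 := hasDensity_of_rep hF hρ hD h {(t, d)}
  have h2 := card_char (ringChar_ne_two hp2) t hd
  have h3 : (Nat.card {g : GL (Fin 2) (ZMod p) // (g : Matrix (Fin 2) (Fin 2) (ZMod p)).trace = t ∧
      (g : Matrix (Fin 2) (Fin 2) (ZMod p)).det = d} : ℝ) =
      p * (p + quadraticChar (ZMod p) (t ^ 2 - 4 * d)) := by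
    rw [ZMod.card] at h2
    exact_mod_cast h2
  simp only [Set.mem_singleton_iff, Prod.mk.injEq] at h1
  rw [h3, card_GL_two, ZMod.card] at h1
  have hp0 : (p : ℝ) ≠ 0 := by exact_mod_cast hp.ne_zero
  rw [mul_assoc, mul_div_mul_left _ _ hp0] at h1
  exact h1

/-- The density of the primes with Frobenius of trace `t`. -/
theorem hasDensity_of_rep_trace {p : ℕ} [Fact p.Prime] (hp2 : p ≠ 2)
    {ρ : Γq →* GL (Fin 2) (ZMod p)}
    (hF : ∃ F : IntermediateField ℚ Qb, FiniteDimensional ℚ F ∧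
      ∀ σ : Γq, (∀ x ∈ F, σ x = x) → ρ σ = 1)
    (hρ : Function.Surjective ρ) {D : ℕ} (hD : D ≠ 0) {a b : ℕ → ZMod p}
    (h : ∀ q : ℕ, q.Prime → ¬ q ∣ D → ∀ A : ValuationSubring Qb, A.LiesOverPrime q →
      ∀ φ : Γq, A.IsFrobeniusAt φ q → (ρ φ : Matrix (Fin 2) (Fin 2) (ZMod p)).trace = a q ∧
        (ρ φ : Matrix (Fin 2) (Fin 2) (ZMod p)).det = b q) (t : ZMod p) :
    HasDensity {q | a q = t}
      (if t = 0 then p / ((p : ℝ) ^ 2 - 1) else
        ((p : ℝ) ^ 2 - p - 1) / (((p : ℝ) - 1) ^ 2 * (p + 1))) := by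
  have hp := (Fact.out : p.Prime)
  have h1 := hasDensity_of_rep hF hρ hD h {x | x.1 = t}
  have h2 := card_trace (ringChar_ne_two hp2) t
  have h3 : (Nat.card {g : GL (Fin 2) (ZMod p) //
      (g : Matrix (Fin 2) (Fin 2) (ZMod p)).trace = t} : ℝ) =
      p ^ 3 - p * (p + quadraticChar (ZMod p) (t ^ 2)) := by
    rw [ZMod.card] at h2
    exact_mod_cast h2
  simp only [Set.mem_ofPred_eq] at h1
  rw [h3, card_GL_two, ZMod.card] at h1
  have hp0 : (p : ℝ) ≠ 0 := by exact_mod_cast hp.ne_zero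
  have hp1 : (p : ℝ) - 1 ≠ 0 := by
    rw [sub_ne_zero]
    exact_mod_cast hp.one_lt.ne'
  have hp2 : (p : ℝ) + 1 ≠ 0 := by positivity
  have hp3 : (p : ℝ) ^ 2 - 1 ≠ 0 := by
    have : (p : ℝ) ^ 2 - 1 = (p - 1) * (p + 1) := by ring
    rw [this]
    exact mul_ne_zero hp1 hp2
  by_cases ht : t = 0
  · subst ht
    rw [if_pos rfl]
    rw [zero_pow two_ne_zero, MulChar.map_zero, Int.cast_zero, add_zero] at h1
    convert h1 using 1
    field_simp
    ring
  · rw [if_neg ht]
    rw [quadraticChar_sq_one' ht, Int.cast_one] at h1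
    convert h1 using 1
    field_simp
    ring

/-- The density of the primes with `1 - tr + det = 0`, i.e. with the eigenvalue `1`. -/
theorem hasDensity_of_rep_one {p : ℕ} [Fact p.Prime] (hp2 : p ≠ 2)
    {ρ : Γq →* GL (Fin 2) (ZMod p)}
    (hF : ∃ F : IntermediateField ℚ Qb, FiniteDimensional ℚ F ∧
      ∀ σ : Γq, (∀ x ∈ F, σ x = x) → ρ σ = 1)
    (hρ : Function.Surjective ρ) {D : ℕ} (hD : D ≠ 0) {a b : ℕ → ZMod p}
    (h : ∀ q : ℕ, q.Prime → ¬ q ∣ D → ∀ A : ValuationSubring Qb, A.LiesOverPrime q →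
      ∀ φ : Γq, A.IsFrobeniusAt φ q → (ρ φ : Matrix (Fin 2) (Fin 2) (ZMod p)).trace = a q ∧
        (ρ φ : Matrix (Fin 2) (Fin 2) (ZMod p)).det = b q)
    (hb : ∀ q : ℕ, q.Prime → ¬ q ∣ D → b q ≠ 0) :
    HasDensity {q | a q = b q + 1}
      (((p : ℝ) ^ 2 - 2) / (((p : ℝ) - 1) ^ 2 * (p + 1))) := by
  have hp := (Fact.out : p.Prime)
  have h1 : HasDensity {q | a q = b q + 1 ∧ b q ≠ 0}
      ((∑ d ∈ Finset.univ.erase (0 : ZMod p), (1 : ℝ) * ((p + quadraticChar (ZMod p)
        ((d + 1) ^ 2 - 4 * d)) / (((p : ℝ) - 1) ^ 2 * (p + 1)))) / 1) := by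
    refine hasDensity_of_weights (Finset.univ.erase (0 : ZMod p))
      (fun d => {q | a q = d + 1 ∧ b q = d}) (fun _ => 1) _ one_ne_zero
      (fun d hd => hasDensity_of_rep_char hp2 hF hρ hD h (d + 1) (Finset.ne_of_mem_erase hd))
      fun q _ => ?_
    by_cases h1 : a q = b q + 1 ∧ b q ≠ 0
    · rw [if_pos (show q ∈ {q | a q = b q + 1 ∧ b q ≠ 0} from h1), Finset.sum_eq_single (b q)]
      · rw [if_pos ⟨h1.1, rfl⟩]
      · intro d _ hd
        rw [if_neg fun h => hd h.2.symm, mul_zero]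
      · intro h2
        exact absurd (Finset.mem_erase.2 ⟨h1.2, Finset.mem_univ _⟩) h2
    · rw [if_neg (show ¬ q ∈ {q | a q = b q + 1 ∧ b q ≠ 0} from h1), mul_zero]
      refine Finset.sum_eq_zero fun d hd => ?_
      rw [if_neg, mul_zero]
      rintro ⟨h2, h3⟩
      refine h1 ⟨by rw [h3, h2], ?_⟩
      rw [h3]
      exact Finset.ne_of_mem_erase hd
  have h2 : ∑ d ∈ Finset.univ.erase (0 : ZMod p), (1 : ℝ) * ((p + quadraticChar (ZMod p)
        ((d + 1) ^ 2 - 4 * d)) / (((p : ℝ) - 1) ^ 2 * (p + 1))) =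
      ((p : ℝ) ^ 2 - 2) / (((p : ℝ) - 1) ^ 2 * (p + 1)) := by
    have h3 : ∀ d : ZMod p, ((quadraticChar (ZMod p) ((d + 1) ^ 2 - 4 * d) : ℤ) : ℝ) =
        1 - if d = 1 then 1 else 0 := by
      intro d
      have h4 : (d + 1) ^ 2 - 4 * d = (d - 1) ^ 2 := by ring
      rw [h4]
      by_cases hd : d = 1
      · rw [if_pos hd, hd, sub_self, zero_pow two_ne_zero, MulChar.map_zero, Int.cast_zero, sub_self]
      · rw [if_neg hd, quadraticChar_sq_one' (sub_ne_zero.2 hd), Int.cast_one, sub_zero]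
    simp only [h3, one_mul]
    rw [← Finset.sum_div]
    congr 1
    rw [Finset.sum_add_distrib, Finset.sum_sub_distrib, Finset.sum_ite_eq',
      if_pos (Finset.mem_erase.2 ⟨one_ne_zero, Finset.mem_univ _⟩), Finset.sum_const,
      Finset.sum_const, Finset.card_erase_of_mem (Finset.mem_univ _), Finset.card_univ, ZMod.card,
      nsmul_eq_mul, nsmul_eq_mul, Nat.cast_sub hp.one_le]
    push_cast
    ring
  rw [h2, div_one] at h1
  refine h1.congr (Finset.finite_toSet D.divisors) fun q hq hqD => ?_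
  have hqD' : ¬ q ∣ D := fun h => hqD (by
    rw [Finset.mem_coe, Nat.mem_divisors]
    exact ⟨h, hD⟩)
  exact ⟨fun h => h.1, fun h' => ⟨h', hb q hq hqD'⟩⟩

end galois

section elliptic

variable {W : WeierstrassCurve ℤ} {p : ℕ}

/-- **The density of the primes `q ≡ d` with `a_q(W) ≡ t` modulo `p`.** -/
theorem hasDensity_ap_det [hp : Fact p.Prime] (hΔ : W.Δ ≠ 0) (hss : W.IsSemistableModel)
    (hirr : W.ModRepIsIrreducible p) (hp2 : p ≠ 2) (t : ZMod p) {d : ZMod p} (hd : d ≠ 0) :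
    HasDensity {q | (W.apOfModel q : ZMod p) = t ∧ (q : ZMod p) = d}
      ((p + quadraticChar (ZMod p) (t ^ 2 - 4 * d)) / (((p : ℝ) - 1) ^ 2 * (p + 1))) := by
  obtain ⟨ρ, h1, h2, h3⟩ := exists_rep_of_irr hΔ hss hirr hp2
  exact hasDensity_of_rep_char hp2 h1 h2 (D := W.Δ.natAbs * p)
    (mul_ne_zero (Int.natAbs_ne_zero.2 hΔ) hp.out.ne_zero)
    (a := fun q => (W.apOfModel q : ZMod p)) (b := fun q => (q : ZMod p))
    (fun q hq hqD A hA φ hφ => (h3 q hq (fun h => hqD ((Int.natCast_dvd.1 h).mul_right _))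
      (fun h => hqD (h ▸ dvd_mul_left _ _)) A hA).2 φ hφ) t hd

/-- **The density of the primes with `a_q(W) ≡ t` modulo `p`.** -/
theorem hasDensity_ap [hp : Fact p.Prime] (hΔ : W.Δ ≠ 0) (hss : W.IsSemistableModel)
    (hirr : W.ModRepIsIrreducible p) (hp2 : p ≠ 2) (t : ZMod p) :
    HasDensity {q | (W.apOfModel q : ZMod p) = t}
      (if t = 0 then p / ((p : ℝ) ^ 2 - 1) else
        ((p : ℝ) ^ 2 - p - 1) / (((p : ℝ) - 1) ^ 2 * (p + 1))) := by
  obtain ⟨ρ, h1, h2, h3⟩ := exists_rep_of_irr hΔ hss hirr hp2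
  exact hasDensity_of_rep_trace hp2 h1 h2 (D := W.Δ.natAbs * p)
    (mul_ne_zero (Int.natAbs_ne_zero.2 hΔ) hp.out.ne_zero)
    (a := fun q => (W.apOfModel q : ZMod p)) (b := fun q => (q : ZMod p))
    (fun q hq hqD A hA φ hφ => (h3 q hq (fun h => hqD ((Int.natCast_dvd.1 h).mul_right _))
      (fun h => hqD (h ▸ dvd_mul_left _ _)) A hA).2 φ hφ) t

/-- **The density of the primes with `p ∣ a_q(W)`** is `p / (p² - 1)`. -/
theorem hasDensity_dvd_ap [hp : Fact p.Prime] (hΔ : W.Δ ≠ 0) (hss : W.IsSemistableModel)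
    (hirr : W.ModRepIsIrreducible p) (hp2 : p ≠ 2) :
    HasDensity {q | (p : ℤ) ∣ W.apOfModel q} (p / ((p : ℝ) ^ 2 - 1)) := by
  have h := hasDensity_ap hΔ hss hirr hp2 0
  rw [if_pos rfl] at h
  refine h.congr Set.finite_empty fun q _ _ => ?_
  exact ZMod.intCast_zmod_eq_zero_iff_dvd _ p

/-- **The density of the primes with `p ∣ #W(𝔽_q) = q + 1 - a_q(W)`** is `(p² - 2) / ((p - 1)² (p + 1))`. -/
theorem hasDensity_dvd_card [hp : Fact p.Prime] (hΔ : W.Δ ≠ 0) (hss : W.IsSemistableModel)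
    (hirr : W.ModRepIsIrreducible p) (hp2 : p ≠ 2) :
    HasDensity {q | (p : ℤ) ∣ q + 1 - W.apOfModel q}
      (((p : ℝ) ^ 2 - 2) / (((p : ℝ) - 1) ^ 2 * (p + 1))) := by
  obtain ⟨ρ, h1, h2, h3⟩ := exists_rep_of_irr hΔ hss hirr hp2
  have h4 := hasDensity_of_rep_one hp2 h1 h2 (D := W.Δ.natAbs * p)
    (mul_ne_zero (Int.natAbs_ne_zero.2 hΔ) hp.out.ne_zero)
    (a := fun q => (W.apOfModel q : ZMod p)) (b := fun q => (q : ZMod p))
    (fun q hq hqD A hA φ hφ => (h3 q hq (fun h => hqD ((Int.natCast_dvd.1 h).mul_right _))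
      (fun h => hqD (h ▸ dvd_mul_left _ _)) A hA).2 φ hφ)
    (fun q hq hqD h => hqD (by
      rw [ZMod.natCast_eq_zero_iff, Nat.prime_dvd_prime_iff_eq hp.out hq] at h
      rw [← h]
      exact dvd_mul_left _ _))
  refine h4.congr Set.finite_empty fun q _ _ => ?_
  rw [Set.mem_ofPred_eq, Set.mem_ofPred_eq, ← ZMod.intCast_zmod_eq_zero_iff_dvd]
  push_cast
  rw [sub_eq_zero]
  exact eq_comm

end elliptic

section tau

theorem W11_irreducible : Eichler.W11.ModRepIsIrreducible 11 :=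
  Mazur.modRep_irreducible (by rw [Eichler.W11_Δ]; decide) Eichler.W11_semistable (by norm_num)
    le_rfl (by norm_num)

local instance fact_prime_eleven : Fact (Nat.Prime 11) := ⟨by norm_num⟩

theorem tau_cast_eq {q : ℕ} (hq : q.Prime) (h : q ≠ 11) :
    (Eichler.W11.apOfModel q : ZMod 11) = (tau q : ZMod 11) := by
  rw [ZMod.intCast_eq_intCast_iff]
  exact apOfModel_modEq_tau hq h

/-- **The density of the primes `q ≡ d` with `τ(q) ≡ t` modulo `11`.** -/
theorem hasDensity_tau_det (t : ZMod 11) {d : ZMod 11} (hd : d ≠ 0) :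
    HasDensity {q | (tau q : ZMod 11) = t ∧ (q : ZMod 11) = d}
      ((11 + quadraticChar (ZMod 11) (t ^ 2 - 4 * d)) / 1200) := by
  have h := hasDensity_ap_det (p := 11) (by rw [Eichler.W11_Δ]; decide) Eichler.W11_semistable
    W11_irreducible (by norm_num) t hd
  norm_num at h
  refine HasDensity.congr h (Set.finite_singleton 11) fun q hq h11 => ?_
  rw [Set.mem_ofPred_eq, Set.mem_ofPred_eq, tau_cast_eq hq h11]

/-- **The density of the primes `q` with `τ(q) ≡ t` modulo `11`** is `11 / 120` for `t = 0` and `109 / 1200` for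
`t ≠ 0`. -/
theorem hasDensity_tau (t : ZMod 11) :
    HasDensity {q | (tau q : ZMod 11) = t} (if t = 0 then 11 / 120 else 109 / 1200) := by
  have h := hasDensity_ap (p := 11) (by rw [Eichler.W11_Δ]; decide) Eichler.W11_semistable
    W11_irreducible (by norm_num) t
  norm_num at h
  refine HasDensity.congr h (Set.finite_singleton 11) fun q hq h11 => ?_
  rw [Set.mem_ofPred_eq, Set.mem_ofPred_eq, tau_cast_eq hq h11]

/-- **The set of the primes `q` with `11 ∣ τ(q)` has Dirichlet density `11 / 120`.** -/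
theorem hasDensity_dvd_tau : HasDensity {q | (11 : ℤ) ∣ tau q} (11 / 120) := by
  have h := hasDensity_tau 0
  rw [if_pos rfl] at h
  refine h.congr Set.finite_empty fun q _ _ => ?_
  exact ZMod.intCast_zmod_eq_zero_iff_dvd _ 11

end tau

end Fermat.Agent.Cor.H14
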