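import Fermat.Agent.S16
import Fermat.Agent.IntStr.Main
import Fermat.Agent.H23.EigenChar

/-!
# Eisenstein congruences of prime level (after Mazur)

Let `N` be a prime and let `n = (N - 1) / gcd (N - 1, 12)` be the numerator of `(N - 1) / 12`. From the computation of the
index of the Eisenstein ideal (statement S16) we deduce:

* `quotientEquiv`: the Hecke algebra of level `N` modulo the Eisenstein ideal is `ℤ/n`;
* `exists_cuspForm_congr_iff`: there is a cusp form of weight two on `Γ₀(N)` with integral coefficients congruent modulo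
  `m` to the coefficients `∑_{d ∣ k, N ∤ d} d` of the Eisenstein series if and only if `m` divides `n`;
* `exists_eigenform_congr_iff`: for a prime `ℓ` there is a normalised eigenform `f` of weight two on `Γ₀(N)` and a maximal
  ideal `𝔪` over `ℓ` of the ring of algebraic integers with `a_q(f) ≡ 1 + q` for all primes `q ≠ N` and `a_N(f) ≡ 1`
  modulo `𝔪` if and only if `ℓ` divides `n`;
* `exists_eigenform_congr_of_modEq`: in particular such a congruence exists for every prime `ℓ ≥ 5` and every prime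
  `N ≡ 1` modulo `ℓ`.

This file is not used by any of the statement files.
-/

set_option autoImplicit false

open ModularForm CongruenceSubgroup ModularFormClass ModularCurve
open Fermat.Agent.H13 Fermat.Agent.H22

namespace Fermat.Agent.Cor.H14

variable (N : ℕ) [hN : Fact N.Prime]

theorem eisensteinNumerator_pos : 0 < eisensteinNumerator N := by
  rw [eisensteinNumerator]
  have h1 : 0 < N - 1 := by have := hN.out.two_le; omega
  exact Nat.div_pos (Nat.le_of_dvd h1 (Nat.gcd_dvd_left _ _))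
    (Nat.gcd_pos_of_pos_left _ h1)

/-- The Hecke algebra of prime level `N` modulo the Eisenstein ideal is `ℤ/n`, `n` the numerator of
`(N - 1) / 12`. -/
theorem quotientEquiv : Nonempty
    ((TT N ⧸ Ideal.map (piH N) (eisensteinIdeal N)) ≃+* ZMod (eisensteinNumerator N)) := by
  set I := Ideal.map (piH N) (eisensteinIdeal N) with hI
  let c : ℤ →+* TT N ⧸ I := (Ideal.Quotient.mk I).comp (Int.castRingHom (TT N))
  have hc : Function.Surjective c := by
    intro y
    obtain ⟨t, rfl⟩ := Ideal.Quotient.mk_surjective y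
    obtain ⟨Q, rfl⟩ := piH_surjective N t
    refine ⟨epsH N Q, ?_⟩
    change Ideal.Quotient.mk I ((Int.castRingHom (TT N)) (epsH N Q)) = _
    rw [Ideal.Quotient.eq]
    rw [eq_intCast]
    have : ((epsH N Q : ℤ) : TT N) - piH N Q = piH N (((epsH N Q : ℤ) : HeckeAlg) - Q) := by
      rw [map_sub, map_intCast]
    rw [this, hI]
    apply Ideal.mem_map_of_mem
    rw [eisensteinIdeal_eq, RingHom.mem_ker, map_sub, map_intCast]
    simp
  obtain ⟨m, hm⟩ : ∃ m : ℕ, RingHom.ker c = Ideal.span {(m : ℤ)} := by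
    obtain ⟨a, ha⟩ := (IsPrincipalIdealRing.principal (RingHom.ker c)).principal
    refine ⟨a.natAbs, ?_⟩
    rw [Int.span_natAbs]
    exact ha
  have e1 := RingHom.quotientKerEquivOfSurjective hc
  have e2 : ℤ ⧸ RingHom.ker c ≃+* ZMod m :=
    (Ideal.quotEquivOfEq hm).trans (Int.quotientSpanNatEquivZMod m)
  have h1 : Nat.card (TT N ⧸ I) = eisensteinNumerator N := card_quotient N
  have h2 : m = eisensteinNumerator N := by
    rw [← h1, ← Nat.card_congr e1.toEquiv, Nat.card_congr e2.toEquiv, Nat.card_zmod]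
  subst h2
  exact ⟨e1.symm.trans e2⟩

/-- **The congruence between Eisenstein series and cusp forms.** For a prime `N` there is a cusp form of weight two on
`Γ₀(N)` with integral coefficients which is congruent modulo `m` to the Eisenstein series (away from the constant
term) if and only if `m` divides the numerator of `(N - 1) / 12`. -/
theorem exists_cuspForm_congr_iff (m : ℕ) :
    (∃ (f : CuspForm (Gamma0 N) 2) (c : ℕ → ℤ), (∀ k, qCoeff ⇑f k = (c k : ℂ)) ∧
      ∀ k, 1 ≤ k → (m : ℤ) ∣ c k - ∑ d ∈ k.divisors with ¬ N ∣ d, (d : ℤ)) ↔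
    m ∣ (N - 1) / Nat.gcd (N - 1) 12 := by
  have hs : ∀ k : ℕ, ∑ d ∈ k.divisors with ¬ N ∣ d, (d : ℤ) = (sigN N k : ℤ) := by
    intro k
    rw [sigN]
    push_cast
    rfl
  constructor
  · rintro ⟨f, c, hc, hcong⟩
    rw [Nat.dvd_iff_prime_pow_dvd_dvd]
    intro q v hq hqv
    rcases Nat.eq_zero_or_pos v with rfl | hv
    · simp
    have : Fact q.Prime := ⟨hq⟩
    refine partB (N := N) (q := q) (ModularFormClass.modularForm (f : CuspForm (Gamma0 N) 2)) c
      ?_ (fun k => hc k) v hv (fun k hk => ?_)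
    · have h := hc 0
      rw [cusp_qCoeff_zero] at h
      exact_mod_cast h.symm
    · have h1 := (Int.natCast_dvd_natCast.mpr hqv).trans (hcong k hk)
      rw [hs] at h1
      have h2 := h1.neg_right
      rwa [neg_sub] at h2
  · intro hm
    have hn : 0 < m := Nat.pos_of_dvd_of_pos hm (eisensteinNumerator_pos N)
    let χ : TT N →+* ZMod m := RingHom.liftOfSurjective (piH N) (piH_surjective N)
      ⟨(Int.castRingHom (ZMod m)).comp (epsH N), by
        intro Q hQ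
        rw [RingHom.mem_ker] at hQ ⊢
        have h1 := (Int.natCast_dvd_natCast.mpr hm).trans (lower N Q hQ)
        rw [RingHom.comp_apply, eq_intCast, ZMod.intCast_zmod_eq_zero_iff_dvd]
        exact h1⟩
    have hχ : ∀ Q, χ (piH N Q) = ((epsH N Q : ℤ) : ZMod m) := fun Q =>
      RingHom.liftOfRightInverse_comp_apply (piH N) _ _ _ Q
    let cast : ℤ →ₗ[ℤ] ZMod m := (Int.castAddHom (ZMod m)).toIntLinearMap
    have hcast : Function.Surjective cast := ZMod.intCast_surjective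
    obtain ⟨ψ, hψ⟩ := Module.projective_lifting_property cast χ.toAddMonoidHom.toIntLinearMap hcast
    obtain ⟨f, hf⟩ := pairB_surjective N ψ
    refine ⟨f, coefL N f, fun k => coefL_spec N f k, fun k hk => ?_⟩
    obtain ⟨P, hP, hP'⟩ := coefL_eq_pairB N hk
    have h1 : coefL N f k = ψ (piH N P) := by rw [hP, hf]
    have h2 : ((ψ (piH N P) : ℤ) : ZMod m) = ((sigN N k : ℤ) : ZMod m) := by
      have h3 := LinearMap.congr_fun hψ (piH N P)
      have h4 : ((ψ (piH N P) : ℤ) : ZMod m) = χ (piH N P) := h3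
      rw [h4, hχ, hP']
    rw [h1, hs]
    exact ((ZMod.intCast_eq_intCast_iff_dvd_sub _ _ _).mp h2.symm)

/-- The eigenform `f` of prime level `N` is congruent to the Eisenstein series modulo the ideal `𝔪`. -/
def IsEisenstein (N : ℕ) (f : CuspForm (Gamma0 N) 2) (𝔪 : Ideal (integralClosure ℤ ℂ)) : Prop :=
  (∀ q : ℕ, q.Prime → q ≠ N → ∃ a : integralClosure ℤ ℂ, (a : ℂ) = qCoeff ⇑f q ∧
    a - ((1 + q : ℕ) : integralClosure ℤ ℂ) ∈ 𝔪) ∧
  ∃ a : integralClosure ℤ ℂ, (a : ℂ) = qCoeff ⇑f N ∧ a - 1 ∈ 𝔪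

theorem heckeEvalForms_surjective : Function.Surjective (CuspForm.heckeEvalForms N 2) := by
  intro x
  obtain ⟨x, hx⟩ := x
  induction hx using Algebra.adjoin_induction with
  | mem x hx =>
    rcases hx with ⟨ℓ, hℓ, hℓN, hℓS, rfl⟩ | ⟨q, hqN, hq, hqS, rfl⟩
    · exact ⟨heckeGen ⟨ℓ, hℓ⟩, CuspForm.heckeEvalForms_heckeGen_of_not_dvd (ℓ := ⟨ℓ, hℓ⟩) hℓN⟩
    · exact ⟨heckeGen ⟨q, hq⟩, CuspForm.heckeEvalForms_heckeGen_of_dvd (q := ⟨q, hq⟩) hqN⟩
  | algebraMap r => exact ⟨MvPolynomial.C r, CuspForm.heckeEvalForms_C N 2 r⟩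
  | add x y hx hy h1 h2 =>
    obtain ⟨t1, h1⟩ := h1
    obtain ⟨t2, h2⟩ := h2
    exact ⟨t1 + t2, by rw [map_add, h1, h2]; rfl⟩
  | mul x y hx hy h1 h2 =>
    obtain ⟨t1, h1⟩ := h1
    obtain ⟨t2, h2⟩ := h2
    exact ⟨t1 * t2, by rw [map_mul, h1, h2]; rfl⟩

theorem piH_eq_zero_iff (Q : HeckeAlg) : piH N Q = 0 ↔ CuspForm.heckeEvalForms N 2 Q = 0 := by
  have h := (CuspForm.latticeRestrictHom_bijective N ∅ (IntStr.hasIntegralStructure N 2)).1
  change CuspForm.latticeRestrictHom N ∅ (CuspForm.heckeEvalForms N 2 Q) = 0 ↔ _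
  rw [← map_zero (CuspForm.latticeRestrictHom N ∅)]
  exact h.eq_iff

/-- **Mazur's Eisenstein congruences (existence).** -/
theorem exists_eigenform_congr {ℓ : ℕ} (hℓ : ℓ.Prime) (h : ℓ ∣ (N - 1) / Nat.gcd (N - 1) 12) :
    ∃ (f : CuspForm (Gamma0 N) 2) (𝔪 : Ideal (integralClosure ℤ ℂ)), f.IsNormalizedEigenform ∧
      𝔪.IsMaximal ∧ ((ℓ : ℕ) : integralClosure ℤ ℂ) ∈ 𝔪 ∧ IsEisenstein N f 𝔪 := by
  have : Fact ℓ.Prime := ⟨hℓ⟩
  let χ : CuspForm.heckeAlgebra N 2 ∅ →+* ZMod ℓ :=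
    RingHom.liftOfSurjective (CuspForm.heckeEvalForms N 2) (heckeEvalForms_surjective N)
      ⟨(Int.castRingHom (ZMod ℓ)).comp (epsH N), by
        intro Q hQ
        rw [RingHom.mem_ker] at hQ ⊢
        have h1 := (Int.natCast_dvd_natCast.mpr h).trans (lower N Q ((piH_eq_zero_iff N Q).2 hQ))
        rw [RingHom.comp_apply, eq_intCast, ZMod.intCast_zmod_eq_zero_iff_dvd]
        exact h1⟩
  have hχ : ∀ Q, χ (CuspForm.heckeEvalForms N 2 Q) = ((epsH N Q : ℤ) : ZMod ℓ) := fun Q =>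
    RingHom.liftOfRightInverse_comp_apply (CuspForm.heckeEvalForms N 2) _ _ _ Q
  have : (RingHom.ker χ).IsPrime := RingHom.ker_isPrime χ
  obtain ⟨ψ, g, Q, hg, -, hq, hQ, hQP⟩ :=
    exists_integral_eigenform_of_prime (IntStr.hasIntegralStructure N 2) (RingHom.ker χ)
  obtain ⟨𝔪, h𝔪, hQ𝔪⟩ := Ideal.exists_le_maximal Q hQ.ne_top
  have hmem : ∀ t, χ t = 0 → ψ t ∈ 𝔪 := fun t ht => hQ𝔪 (by
    rw [← RingHom.mem_ker, ← hQP] at ht
    exact ht)
  have hgen : ∀ q : Nat.Primes, χ (CuspForm.heckeFormsGen N 2 q) =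
      ((eisensteinSystem N q : ℤ) : ZMod ℓ) := by
    intro q
    rw [← CuspForm.heckeEvalForms_heckeGen, hχ, epsH_gen]
  have key : ∀ q : Nat.Primes, charEigenvalue ψ q -
      ((eisensteinSystem N q : ℤ) : integralClosure ℤ ℂ) ∈ 𝔪 := by
    intro q
    rw [charEigenvalue, dif_pos q.2]
    have h1 := hmem (CuspForm.heckeFormsGen N 2 q -
      ((eisensteinSystem N q : ℤ) : CuspForm.heckeAlgebra N 2 ∅)) (by
        rw [map_sub, hgen, map_intCast, sub_self])
    rwa [map_sub, map_intCast] at h1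
  refine ⟨g, 𝔪, hg, h𝔪, ?_, fun q hq' hqN => ⟨charEigenvalue ψ q, (hq q hq').symm, ?_⟩,
    charEigenvalue ψ N, (hq N hN.out).symm, ?_⟩
  · have h1 := hmem ((ℓ : ℕ) : CuspForm.heckeAlgebra N 2 ∅) (by rw [map_natCast]; simp)
    rwa [map_natCast] at h1
  · have h1 := key ⟨q, hq'⟩
    have hd : ¬ ((⟨q, hq'⟩ : Nat.Primes) : ℕ) ∣ N := fun h =>
      hqN ((Nat.prime_dvd_prime_iff_eq hq' hN.out).mp h)
    rw [eisensteinSystem_of_not_dvd hd] at h1
    convert h1 using 2
    push_cast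
    rfl
  · have h1 := key ⟨N, hN.out⟩
    have hd : ((⟨N, hN.out⟩ : Nat.Primes) : ℕ) ∣ N := dvd_rfl
    rw [eisensteinSystem_of_dvd hd] at h1
    simpa using h1

/-- **Mazur's Eisenstein congruences (converse).** -/
theorem dvd_of_isEisenstein {ℓ : ℕ} (hℓ : ℓ.Prime) {f : CuspForm (Gamma0 N) 2}
    (hf : f.IsNormalizedEigenform) {𝔪 : Ideal (integralClosure ℤ ℂ)} (h𝔪 : 𝔪.IsMaximal)
    (hℓ𝔪 : ((ℓ : ℕ) : integralClosure ℤ ℂ) ∈ 𝔪) (h : IsEisenstein N f 𝔪) :
    ℓ ∣ (N - 1) / Nat.gcd (N - 1) 12 := by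
  have : Fact ℓ.Prime := ⟨hℓ⟩
  let χ : CuspForm.heckeAlgebra N 2 ∅ →+* integralClosure ℤ ℂ := H23.eigenChar hf ∅
  have hχ : ∀ q : Nat.Primes, ((χ (CuspForm.heckeFormsGen N 2 q) : integralClosure ℤ ℂ) : ℂ) =
      qCoeff ⇑f q := by
    intro q
    change H23.eigenCharC hf ∅ (CuspForm.heckeFormsGen N 2 q) = _
    by_cases hd : (q : ℕ) ∣ N
    · rw [CuspForm.heckeFormsGen_of_dvd hd, H23.eigenCharC_apply, CuspForm.heckeAlgebra.coe_U,
        H23.heckeULin_eigen hf q.2 hd, cusp_qCoeff_smul, hf.qCoeff_one, mul_one]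
    · rw [CuspForm.heckeFormsGen_of_not_dvd hd, H23.eigenCharC_T]
  have hgen : ∀ q : Nat.Primes, χ (CuspForm.heckeFormsGen N 2 q) -
      ((eisensteinSystem N q : ℤ) : integralClosure ℤ ℂ) ∈ 𝔪 := by
    intro q
    by_cases hd : (q : ℕ) ∣ N
    · have hq : (q : ℕ) = N := (Nat.prime_dvd_prime_iff_eq q.2 hN.out).mp hd
      obtain ⟨a, ha, ha'⟩ := h.2
      have h1 : χ (CuspForm.heckeFormsGen N 2 q) = a := by
        apply Subtype.ext
        rw [hχ, ha, hq]
      rw [h1, eisensteinSystem_of_dvd hd]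
      simpa using ha'
    · have hq : (q : ℕ) ≠ N := fun h => hd (h ▸ dvd_rfl)
      obtain ⟨a, ha, ha'⟩ := h.1 q q.2 hq
      have h1 : χ (CuspForm.heckeFormsGen N 2 q) = a := by
        apply Subtype.ext
        rw [hχ, ha]
      rw [h1, eisensteinSystem_of_not_dvd hd]
      convert ha' using 2
      push_cast
      rfl
  have hhom : ((Ideal.Quotient.mk 𝔪).comp χ).comp (CuspForm.heckeEvalForms N 2) =
      (Int.castRingHom (integralClosure ℤ ℂ ⧸ 𝔪)).comp (epsH N) := by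
    apply MvPolynomial.ringHom_ext
    · intro a
      rw [RingHom.comp_apply, CuspForm.heckeEvalForms_C]
      have h1 : (MvPolynomial.C a : HeckeAlg) = ((a : ℤ) : HeckeAlg) := by simp
      rw [h1]
      simp
    · intro q
      have h2 : (MvPolynomial.X q : HeckeAlg) = heckeGen q := rfl
      rw [h2, RingHom.comp_apply, CuspForm.heckeEvalForms_heckeGen, RingHom.comp_apply,
        RingHom.comp_apply, epsH_gen, eq_intCast, ← map_intCast (Ideal.Quotient.mk 𝔪),
        Ideal.Quotient.eq]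
      exact hgen q
  have h1 := upper N (q := ℓ) 1 le_rfl (fun Q hQ => ?_)
  · rwa [pow_one] at h1
  · have h2 := congrArg (fun φ => φ Q) hhom
    simp only [RingHom.comp_apply] at h2
    rw [(piH_eq_zero_iff N Q).1 hQ, map_zero, map_zero, eq_intCast,
      ← map_intCast (Ideal.Quotient.mk 𝔪), eq_comm, Ideal.Quotient.eq_zero_iff_mem] at h2
    rw [pow_one]
    by_contra hnd
    have hcop : IsCoprime (ℓ : ℤ) (epsH N Q) :=
      ((Nat.prime_iff_prime_int.mp hℓ).coprime_iff_not_dvd).mpr hnd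
    obtain ⟨u, v, huv⟩ := hcop
    apply h𝔪.ne_top
    rw [Ideal.eq_top_iff_one]
    have h3 := congrArg (fun z : ℤ => (z : integralClosure ℤ ℂ)) huv
    simp only [Int.cast_add, Int.cast_mul, Int.cast_natCast, Int.cast_one] at h3
    rw [← h3]
    exact 𝔪.add_mem (𝔪.mul_mem_left _ hℓ𝔪) (𝔪.mul_mem_left _ h2)

/-- **Mazur's Eisenstein congruences.** For a prime `N` and a prime `ℓ` there is a normalised eigenform of weight two on
`Γ₀(N)` congruent to the Eisenstein series modulo a maximal ideal over `ℓ` if and only if `ℓ` divides the numerator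
of `(N - 1) / 12`. -/
theorem exists_eigenform_congr_iff {ℓ : ℕ} (hℓ : ℓ.Prime) :
    (∃ (f : CuspForm (Gamma0 N) 2) (𝔪 : Ideal (integralClosure ℤ ℂ)), f.IsNormalizedEigenform ∧
      𝔪.IsMaximal ∧ ((ℓ : ℕ) : integralClosure ℤ ℂ) ∈ 𝔪 ∧ IsEisenstein N f 𝔪) ↔
    ℓ ∣ (N - 1) / Nat.gcd (N - 1) 12 :=
  ⟨fun ⟨_, _, hf, h𝔪, hℓ𝔪, h⟩ => dvd_of_isEisenstein N hℓ hf h𝔪 hℓ𝔪 h,
    fun h => exists_eigenform_congr N hℓ h⟩

theorem numerator_mul (M : ℕ) : M = Nat.gcd M 12 * (M / Nat.gcd M 12) :=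
  (Nat.mul_div_cancel' (Nat.gcd_dvd_left M 12)).symm

theorem dvd_numerator_iff {M ℓ : ℕ} (hℓ : ℓ.Prime) (h5 : 5 ≤ ℓ) :
    ℓ ∣ M / Nat.gcd M 12 ↔ ℓ ∣ M := by
  constructor
  · intro h
    rw [numerator_mul M]
    exact h.mul_left _
  · intro h
    rw [numerator_mul M] at h
    rcases hℓ.dvd_mul.1 h with h1 | h1
    · exfalso
      have h2 := h1.trans (Nat.gcd_dvd_right M 12)
      have h3 : ℓ ∣ 2 * 2 * 3 := h2
      rcases hℓ.dvd_mul.1 h3 with h4 | h4
      · rcases hℓ.dvd_mul.1 h4 with h4 | h4 <;> have := Nat.le_of_dvd (by norm_num) h4 <;> omega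
      · have := Nat.le_of_dvd (by norm_num) h4
        omega
    · exact h1

theorem three_dvd_numerator_iff {M : ℕ} : 3 ∣ M / Nat.gcd M 12 ↔ 9 ∣ M := by
  constructor
  · intro h
    have h1 : 3 ∣ M := by
      rw [numerator_mul M]
      exact h.mul_left _
    have h2 : 3 ∣ Nat.gcd M 12 := Nat.dvd_gcd h1 (by norm_num)
    rw [numerator_mul M]
    exact mul_dvd_mul h2 h
  · intro h
    rw [numerator_mul M] at h
    by_contra hn
    have h1 : Nat.Coprime 9 (M / Nat.gcd M 12) :=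
      Nat.Coprime.pow_left 2 ((Nat.Prime.coprime_iff_not_dvd Nat.prime_three).2 hn)
    have h2 := (h1.dvd_of_dvd_mul_right h).trans (Nat.gcd_dvd_right M 12)
    revert h2
    decide

theorem two_dvd_numerator_iff {M : ℕ} : 2 ∣ M / Nat.gcd M 12 ↔ 8 ∣ M := by
  constructor
  · intro h
    have h1 : 2 ∣ M := by
      rw [numerator_mul M]
      exact h.mul_left _
    have h2 : 2 ∣ Nat.gcd M 12 := Nat.dvd_gcd h1 (by norm_num)
    have h3 : 2 * 2 ∣ M := by
      rw [numerator_mul M]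
      exact mul_dvd_mul h2 h
    have h4 : 4 ∣ Nat.gcd M 12 := Nat.dvd_gcd h3 (by norm_num)
    rw [numerator_mul M]
    exact mul_dvd_mul h4 h
  · intro h
    rw [numerator_mul M] at h
    by_contra hn
    have h1 : Nat.Coprime 8 (M / Nat.gcd M 12) :=
      Nat.Coprime.pow_left 3 ((Nat.Prime.coprime_iff_not_dvd Nat.prime_two).2 hn)
    have h2 := (h1.dvd_of_dvd_mul_right h).trans (Nat.gcd_dvd_right M 12)
    revert h2
    decide

/-- For every prime `ℓ ≥ 5` and every prime `N ≡ 1` modulo `ℓ` there is an Eisenstein congruence of level `N` modulo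
`ℓ`. -/
theorem exists_eigenform_congr_of_modEq {ℓ : ℕ} (hℓ : ℓ.Prime) (h5 : 5 ≤ ℓ) (h : N ≡ 1 [MOD ℓ]) :
    ∃ (f : CuspForm (Gamma0 N) 2) (𝔪 : Ideal (integralClosure ℤ ℂ)), f.IsNormalizedEigenform ∧
      𝔪.IsMaximal ∧ ((ℓ : ℕ) : integralClosure ℤ ℂ) ∈ 𝔪 ∧ IsEisenstein N f 𝔪 :=
  exists_eigenform_congr N hℓ ((dvd_numerator_iff hℓ h5).2
    ((Nat.modEq_iff_dvd' hN.out.one_lt.le).1 h.symm))

/-- For every prime `N ≡ 1` modulo `9` there is an Eisenstein congruence of level `N` modulo `3`. -/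
theorem exists_eigenform_congr_three (h : N ≡ 1 [MOD 9]) :
    ∃ (f : CuspForm (Gamma0 N) 2) (𝔪 : Ideal (integralClosure ℤ ℂ)), f.IsNormalizedEigenform ∧
      𝔪.IsMaximal ∧ ((3 : ℕ) : integralClosure ℤ ℂ) ∈ 𝔪 ∧ IsEisenstein N f 𝔪 :=
  exists_eigenform_congr N Nat.prime_three (three_dvd_numerator_iff.2
    ((Nat.modEq_iff_dvd' hN.out.one_lt.le).1 h.symm))

/-- For every prime `N ≡ 1` modulo `8` there is an Eisenstein congruence of level `N` modulo `2`. -/
theorem exists_eigenform_congr_two (h : N ≡ 1 [MOD 8]) :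
    ∃ (f : CuspForm (Gamma0 N) 2) (𝔪 : Ideal (integralClosure ℤ ℂ)), f.IsNormalizedEigenform ∧
      𝔪.IsMaximal ∧ ((2 : ℕ) : integralClosure ℤ ℂ) ∈ 𝔪 ∧ IsEisenstein N f 𝔪 :=
  exists_eigenform_congr N Nat.prime_two (two_dvd_numerator_iff.2
    ((Nat.modEq_iff_dvd' hN.out.one_lt.le).1 h.symm))

end Fermat.Agent.Cor.H14
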