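import Fermat.Agent.H08.FormalSubgroup

/-!
# The Nagell–Lutz theorem
-/

namespace Fermat.Agent.Cor.MW

open WeierstrassCurve WeierstrassCurve.Affine WeierstrassCurve.Affine.Point
open Fermat.Agent.H08

/-! ### A refined multiplication formula near the origin -/

/-- The integers `d n = n² (n² - 1) / 12`. -/
def dd : ℕ → ℤ
  | 0 => 0
  | 1 => 0
  | (n + 2) => 2 * dd (n + 1) - dd n + ((n : ℤ) + 1) ^ 2

lemma twelve_dd (n : ℕ) : 12 * dd n = (n : ℤ) ^ 2 * ((n : ℤ) ^ 2 - 1) ∧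
    12 * dd (n + 1) = ((n : ℤ) + 1) ^ 2 * (((n : ℤ) + 1) ^ 2 - 1) := by
  induction n with
  | zero => simp [dd]
  | succ n ih =>
    refine ⟨by push_cast; exact ih.2, ?_⟩
    have h1 : dd (n + 1 + 1) = 2 * dd (n + 1) - dd n + ((n : ℤ) + 1) ^ 2 := rfl
    rw [h1]
    push_cast
    linear_combination 2 * ih.2 - ih.1

section

variable {F : Type*} [Field F] [DecidableEq F] {Γ₀ : Type*} [LinearOrderedCommGroupWithZero Γ₀]
  {v : Valuation F Γ₀} {W : WeierstrassCurve.Affine F}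

/-- `x(P)/x(nP) = n² + b₂ d_n / x(P) + O(1/x(P)²)` for `P` in the kernel of reduction. -/
theorem mult_formula₂ (hW : IsIntegralFor v W) {P : W.Point} (h1 : 1 < v (px P)) (n : ℕ) :
    ∃ r : F, v r ≤ 1 ∧ (px (n • P))⁻¹ * px P =
      (n : F) ^ 2 + W.b₂ * (dd n : F) * (px P)⁻¹ + (px P)⁻¹ ^ 2 * r := by
  have hPE : InE1 v P := Or.inr h1
  have hx : px P ≠ 0 := by
    intro h; rw [h, _root_.map_zero] at h1; exact absurd h1 (by simp)
  have hg : v (px P)⁻¹ < 1 := hPE.v_inv_lt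
  have hE : ∀ n : ℕ, InE1 v (n • P) := fun n ↦ (mult_formula hW h1 n).1
  have hle : ∀ n : ℕ, v ((px (n • P))⁻¹ * px P) ≤ 1 := by
    intro n
    have h := (mult_formula hW h1 n).2
    have e : (px (n • P))⁻¹ * px P = ((px (n • P))⁻¹ * px P - (n : F) ^ 2) + (n : F) ^ 2 := by ring
    rw [e]
    exact v_add_le_one h.le (v_pow_le_one (v_natCast_le_one v _) 2)
  set g := (px P)⁻¹ with hgdef
  have hgx : g * px P = 1 := inv_mul_cancel₀ hx
  have hg0 : g ≠ 0 := inv_ne_zero hx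
  have main : ∀ n : ℕ, (∃ r : F, v r ≤ 1 ∧ (px (n • P))⁻¹ * px P =
      (n : F) ^ 2 + W.b₂ * (dd n : F) * g + g ^ 2 * r) ∧
      (∃ r : F, v r ≤ 1 ∧ (px ((n + 1) • P))⁻¹ * px P =
      ((n + 1 : ℕ) : F) ^ 2 + W.b₂ * (dd (n + 1) : F) * g + g ^ 2 * r) := by
    intro n
    induction n with
    | zero => exact ⟨⟨0, by simp, by simp [dd]⟩, ⟨0, by simp, by simp [dd, hx]⟩⟩
    | succ n ih =>
      refine ⟨ih.2, ?_⟩
      obtain ⟨⟨r, hr, er⟩, ⟨s, hs, es⟩⟩ := ih
      have hQ := hE (n + 1)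
      have hgQ : v (px ((n + 1) • P))⁻¹ < 1 := hQ.v_inv_lt
      have hD := v_DD_eq_one hW hgQ hg
      have hD0 : DD W (px ((n + 1) • P))⁻¹ g ≠ 0 := by
        intro h; rw [h, _root_.map_zero] at hD; exact zero_ne_one hD
      obtain ⟨-, h2, -⟩ := uniform_formula hQ.px_ne hPE.px_ne hD0
      have e1 : (n + 1) • P + P = (n + 1 + 1) • P := (succ_nsmul P (n + 1)).symm
      have e2 : (n + 1) • P - P = n • P := by rw [succ_nsmul, add_sub_cancel_right]
      rw [e1, e2] at h2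
      have hkle := hle (n + 1 + 1)
      have hhle := hle (n + 1)
      have hlle := hle n
      set k := (px ((n + 1 + 1) • P))⁻¹ * px P with hk
      set h := (px ((n + 1) • P))⁻¹ * px P with hh
      set l := (px (n • P))⁻¹ * px P with hl
      have ek : (px ((n + 1 + 1) • P))⁻¹ = g * k := by
        rw [hk, mul_left_comm, hgx, mul_one]
      have eh : (px ((n + 1) • P))⁻¹ = g * h := by
        rw [hh, mul_left_comm, hgx, mul_one]
      have el : (px (n • P))⁻¹ = g * l := by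
        rw [hl, mul_left_comm, hgx, mul_one]
      rw [← hgdef, ek, eh, el] at h2
      have hg1 := hg.le
      -- the error terms
      set Y := W.b₄ * h + W.b₆ * (g * h * (h + 1)) + W.b₈ * (g ^ 2 * h ^ 2) with hY
      set Z := W.b₄ * (h * (h + 1)) + W.b₆ * (g * h ^ 2) with hZ
      have hYle : v Y ≤ 1 := by
        refine v_add_le_one (v_add_le_one ?_ ?_) ?_
        · exact v_mul_le_one hW.b₄ hhle
        · exact v_mul_le_one hW.b₆ (v_mul_le_one (v_mul_le_one hg1 hhle)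
            (v_add_le_one hhle (by simp)))
        · exact v_mul_le_one hW.b₈ (v_mul_le_one (v_pow_le_one hg1 2) (v_pow_le_one hhle 2))
      have hZle : v Z ≤ 1 := by
        refine v_add_le_one ?_ ?_
        · exact v_mul_le_one hW.b₄ (v_mul_le_one hhle (v_add_le_one hhle (by simp)))
        · exact v_mul_le_one hW.b₆ (v_mul_le_one hg1 (v_pow_le_one hhle 2))
      have hkl : k + l = 2 * (h + 1) + W.b₂ * g * h + g ^ 2 * (Z + Y * (k + l)) := by
        apply mul_left_cancel₀ hg0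
        have hNN : NN W (g * h) g = g * (2 * (h + 1) + W.b₂ * g * h + g ^ 2 * Z) := by
          simp only [NN, hZ]; ring
        have hDD : DD W (g * h) g = 1 - g ^ 2 * Y := by
          simp only [DD, hY]; ring
        rw [hNN, hDD] at h2
        linear_combination h2
      refine ⟨-r + 2 * s + W.b₂ * (W.b₂ * (dd (n + 1) : F)) + W.b₂ * (g * s) + (Z + Y * (k + l)),
        ?_, ?_⟩
      · have hdd : v (dd (n + 1) : F) ≤ 1 := by
          have : ((dd (n + 1) : ℤ) : F) ∈ v.integer := intCast_mem _ _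
          exact this
        refine v_add_le_one (v_add_le_one (v_add_le_one (v_add_le_one (v_neg_le_one hr) ?_) ?_) ?_) ?_
        · exact v_mul_le_one (v_ofNat_le_one v 2) hs
        · exact v_mul_le_one hW.b₂ (v_mul_le_one hW.b₂ hdd)
        · exact v_mul_le_one hW.b₂ (v_mul_le_one hg1 hs)
        · exact v_add_le_one hZle (v_mul_le_one hYle (v_add_le_one hkle hlle))
      · have hd : (dd (n + 1 + 1) : F) = 2 * dd (n + 1) - dd n + ((n : F) + 1) ^ 2 := by
          have : dd (n + 1 + 1) = 2 * dd (n + 1) - dd n + ((n : ℤ) + 1) ^ 2 := rfl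
          rw [this]; push_cast; ring
        have hk' : k = -l + 2 * (h + 1) + W.b₂ * g * h + g ^ 2 * (Z + Y * (k + l)) := by
          linear_combination hkl
        generalize Z + Y * (k + l) = E at hk' ⊢
        rw [hk', hd, er, es]
        push_cast
        ring
  exact (main n).1

end

/-! ### Rational points -/

section Rat

variable (W : WeierstrassCurve ℤ)

/-- The curve over `ℚ`. -/
abbrev WQ : WeierstrassCurve.Affine ℚ := W.map (Int.castRingHom ℚ)

lemma integral_padic (p : ℕ) [Fact p.Prime] : IsIntegralFor (Rat.padicValuation p) (WQ W) where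
  h₁ := by
    change Rat.padicValuation p ((W.a₁ : ℤ) : ℚ) ≤ 1
    rw [Rat.padicValuation_cast]; exact Int.padicValuation_le_one _ _
  h₂ := by
    change Rat.padicValuation p ((W.a₂ : ℤ) : ℚ) ≤ 1
    rw [Rat.padicValuation_cast]; exact Int.padicValuation_le_one _ _
  h₃ := by
    change Rat.padicValuation p ((W.a₃ : ℤ) : ℚ) ≤ 1
    rw [Rat.padicValuation_cast]; exact Int.padicValuation_le_one _ _
  h₄ := by
    change Rat.padicValuation p ((W.a₄ : ℤ) : ℚ) ≤ 1
    rw [Rat.padicValuation_cast]; exact Int.padicValuation_le_one _ _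
  h₆ := by
    change Rat.padicValuation p ((W.a₆ : ℤ) : ℚ) ≤ 1
    rw [Rat.padicValuation_cast]; exact Int.padicValuation_le_one _ _

variable {W}

open WithZero in
/-- The valuation of `x(P)` is a square if it is `> 1`. -/
lemma val_px_sq (p : ℕ) [Fact p.Prime] {P : (WQ W).Point} (h : 1 < Rat.padicValuation p (px P)) :
    Rat.padicValuation p (px P) = (Rat.padicValuation p (py P / px P)) ^ 2 := by
  set v := Rat.padicValuation p with hv
  have hW := integral_padic W p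
  have hP0 : P ≠ 0 := by rintro rfl; simp at h
  have hx0 : px P ≠ 0 := by rintro h0; rw [h0, _root_.map_zero] at h; exact absurd h (by simp)
  have hvx : v (px P) ≠ 0 := (v.ne_zero_iff).mpr hx0
  have heq := eqn_of_ne_zero hP0
  -- `v (y² + a₁ x y + a₃ y) = v (x)³`
  have hR : v (px P ^ 3 + (WQ W).a₂ * px P ^ 2 + (WQ W).a₄ * px P + (WQ W).a₆) = v (px P) ^ 3 := by
    have e : px P ^ 3 + (WQ W).a₂ * px P ^ 2 + (WQ W).a₄ * px P + (WQ W).a₆ =
        px P ^ 3 * (1 + ((WQ W).a₂ * (px P)⁻¹ + (WQ W).a₄ * (px P)⁻¹ ^ 2 +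
          (WQ W).a₆ * (px P)⁻¹ ^ 3)) := by field_simp; ring
    have hg : v (px P)⁻¹ < 1 := by rw [map_inv₀]; exact inv_lt_one_of_one_lt₀ h
    rw [e, map_mul, map_pow, v_one_add, mul_one]
    refine v_add_lt_one (v_add_lt_one ?_ ?_) ?_
    · exact v_mul_lt_one_right hW.h₂ hg
    · exact v_mul_lt_one_right hW.h₄ (v_pow_lt_one hg two_ne_zero)
    · exact v_mul_lt_one_right hW.h₆ (v_pow_lt_one hg three_ne_zero)
  -- `v y > v x`
  have hyx : v (px P) < v (py P) := by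
    by_contra hc
    rw [not_lt] at hc
    have h1 : v (py P ^ 2 + (WQ W).a₁ * px P * py P + (WQ W).a₃ * py P) ≤ v (px P) ^ 2 := by
      refine v.map_add_le (v.map_add_le ?_ ?_) ?_
      · rw [map_pow]; exact pow_le_pow_left' hc 2
      · rw [map_mul, map_mul, pow_two]
        calc v (WQ W).a₁ * v (px P) * v (py P) ≤ 1 * v (px P) * v (px P) := by
              gcongr; exact hW.h₁
          _ = _ := by rw [one_mul]
      · rw [map_mul, pow_two]
        calc v (WQ W).a₃ * v (py P) ≤ v (px P) * v (px P) := by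
              gcongr; exact hW.h₃.trans h.le
          _ = _ := rfl
    rw [heq, hR] at h1
    have h2 : v (px P) ^ 2 < v (px P) ^ 3 := pow_lt_pow_right₀ h (by norm_num)
    exact absurd h1 (not_le.mpr h2)
  have hy0 : py P ≠ 0 := by
    rintro h0; rw [h0, _root_.map_zero] at hyx; exact absurd hyx (by simp)
  have hvy : v (py P) ≠ 0 := (v.ne_zero_iff).mpr hy0
  have hL : v (py P ^ 2 + (WQ W).a₁ * px P * py P + (WQ W).a₃ * py P) = v (py P) ^ 2 := by
    have e : py P ^ 2 + (WQ W).a₁ * px P * py P + (WQ W).a₃ * py P =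
        py P ^ 2 * (1 + ((WQ W).a₁ * (px P / py P) + (WQ W).a₃ * (py P)⁻¹)) := by
      field_simp; ring
    rw [e, map_mul, map_pow, v_one_add, mul_one]
    refine v_add_lt_one ?_ ?_
    · refine v_mul_lt_one_right hW.h₁ ?_
      rw [map_div₀]
      exact (div_lt_one₀ (zero_lt_iff.mpr hvy)).mpr hyx
    · refine v_mul_lt_one_right hW.h₃ ?_
      rw [map_inv₀]
      exact inv_lt_one_of_one_lt₀ (h.trans hyx)
  rw [heq, hR] at hL
  rw [map_div₀, div_pow, ← hL]
  field_simp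

open WithZero in
/-- The valuation of `1/x(P)` is at most `v(p)²` for `P` in the kernel of reduction modulo `p`. -/
lemma val_inv_le (p : ℕ) [Fact p.Prime] {P : (WQ W).Point}
    (h : 1 < Rat.padicValuation p (px P)) :
    Rat.padicValuation p (px P)⁻¹ ≤ exp (-2) := by
  have h1 := val_px_sq p h
  have hx0 : px P ≠ 0 := by rintro h0; rw [h0, _root_.map_zero] at h; exact absurd h (by simp)
  set w := Rat.padicValuation p (py P / px P) with hw
  have hw0 : w ≠ 0 := by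
    rintro h0
    rw [h0, zero_pow two_ne_zero] at h1
    exact (Rat.padicValuation p).ne_zero_iff.mpr hx0 h1
  have hw1 : 1 < w := by
    by_contra hc
    rw [not_lt] at hc
    rw [h1] at h
    exact absurd h (not_lt.mpr (pow_le_one' hc 2))
  have hw2 : exp 1 ≤ w := by
    rw [← exp_log hw0, exp_le_exp]
    rw [← exp_log hw0, ← exp_zero, exp_lt_exp] at hw1
    omega
  rw [map_inv₀, h1, ← inv_pow, exp_neg]
  rw [inv_pow]
  refine inv_anti₀ (by simp) ?_
  calc exp (2 : ℤ) = exp 1 ^ 2 := by rw [← exp_nsmul]; rfl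
    _ ≤ w ^ 2 := pow_le_pow_left' hw2 2

lemma dvd_dd {p : ℕ} (hp : p.Prime) (hp2 : p ≠ 2) : (p : ℤ) ∣ dd p := by
  have hpp : Prime (p : ℤ) := Nat.prime_iff_prime_int.mp hp
  by_cases h3 : p = 3
  · subst h3
    exact ⟨2, rfl⟩
  · have h1 := (twelve_dd p).1
    have h2 : (p : ℤ) ∣ 12 * dd p := by
      rw [h1]; exact Dvd.dvd.mul_right (dvd_pow_self _ two_ne_zero) _
    rcases hpp.dvd_or_dvd h2 with h | h
    · exfalso
      have h' : p ∣ 12 := by exact_mod_cast h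
      have h4 : (12 : ℕ) = 2 ^ 2 * 3 := by norm_num
      rw [h4, hp.dvd_mul] at h'
      rcases h' with h' | h'
      · exact hp2 ((Nat.prime_dvd_prime_iff_eq hp Nat.prime_two).mp (hp.dvd_of_dvd_pow h'))
      · exact h3 ((Nat.prime_dvd_prime_iff_eq hp Nat.prime_three).mp h')
    · exact h

open WithZero in
/-- `p`-torsion in the kernel of reduction modulo `p`. -/
lemma torsion_p_aux (p : ℕ) [hp : Fact p.Prime] {P : (WQ W).Point}
    (h : 1 < Rat.padicValuation p (px P)) (hn : p • P = 0) :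
    p = 2 ∧ ¬ (2 : ℤ) ∣ W.a₁ ∧ Rat.padicValuation p (px P)⁻¹ = exp (-2) := by
  set v := Rat.padicValuation p with hv
  have hW := integral_padic W p
  obtain ⟨r, hr, e⟩ := mult_formula₂ hW h p
  rw [hn, px_zero, inv_zero, zero_mul] at e
  have hg2 := val_inv_le p h
  rw [← hv] at hg2
  have hx0 : px P ≠ 0 := by rintro h0; rw [h0, _root_.map_zero] at h; exact absurd h (by simp)
  set g := (px P)⁻¹ with hg
  have hg0 : g ≠ 0 := inv_ne_zero hx0
  have hvg0 : v g ≠ 0 := (v.ne_zero_iff).mpr hg0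
  have hg1 : v g < 1 := lt_of_le_of_lt hg2 (by rw [← exp_zero, exp_lt_exp]; norm_num)
  have e2 : (p : ℚ) ^ 2 = -(g * ((WQ W).b₂ * (dd p : ℚ) + g * r)) := by linear_combination -e
  have e3 : exp (-2) = v g * v ((WQ W).b₂ * (dd p : ℚ) + g * r) := by
    rw [← map_mul, ← Valuation.map_neg, ← e2, map_pow, hv, Rat.padicValuation_self, ← exp_nsmul]
    rfl
  have hb₂ : v (WQ W).b₂ ≤ 1 := hW.b₂
  have hdd : v (dd p : ℚ) ≤ 1 := by
    rw [hv, Rat.padicValuation_cast]; exact Int.padicValuation_le_one _ _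
  have hgr : v (g * r) < 1 := v_mul_lt_one_left hg1 hr
  -- the second factor is a unit
  have hunit : ¬ v ((WQ W).b₂ * (dd p : ℚ)) < 1 := by
    intro hc
    have h1 : v ((WQ W).b₂ * (dd p : ℚ) + g * r) < 1 := v_add_lt_one hc hgr
    have h2 : exp (-2) < v g := by
      rw [e3]
      exact mul_lt_of_lt_one_right (zero_lt_iff.mpr hvg0) h1
    exact absurd hg2 (not_le.mpr h2)
  have hp2 : p = 2 := by
    by_contra hp2
    refine hunit (v_mul_lt_one_right hb₂ ?_)
    rw [hv, Rat.padicValuation_cast, Int.padicValuation_lt_one_iff]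
    exact dvd_dd hp.out hp2
  refine ⟨hp2, fun h2 ↦ ?_, le_antisymm hg2 ?_⟩
  · refine hunit (v_mul_lt_one_left ?_ hdd)
    have hb : (WQ W).b₂ = ((W.b₂ : ℤ) : ℚ) := W.map_b₂ (Int.castRingHom ℚ)
    rw [hb, hv, Rat.padicValuation_cast, Int.padicValuation_lt_one_iff, hp2, WeierstrassCurve.b₂]
    obtain ⟨c, hc⟩ := h2
    exact ⟨2 * c ^ 2 + 2 * W.a₂, by rw [hc]; push_cast; ring⟩
  · rw [e3]
    exact mul_le_of_le_one_right' (v_add_le_one (v_mul_le_one hb₂ hdd) hgr.le)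

/-- A torsion point in the kernel of reduction modulo `p`: `p = 2`, `a₁` is odd and `2P = 0`. -/
lemma torsion_aux (p : ℕ) [hp : Fact p.Prime] {P : (WQ W).Point}
    (h : 1 < Rat.padicValuation p (px P)) (ht : IsOfFinAddOrder P) :
    p = 2 ∧ ¬ (2 : ℤ) ∣ W.a₁ ∧ 2 • P = 0 := by
  have hW := integral_padic W p
  have hPE : InE1 (Rat.padicValuation p) P := Or.inr h
  have hE : ∀ n : ℕ, InE1 (Rat.padicValuation p) (n • P) := fun n ↦ (mult_formula hW h n).1
  have hval : ∀ n : ℕ, n • P ≠ 0 → 1 < Rat.padicValuation p (px (n • P)) := fun n hn ↦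
    (hE n).resolve_left hn
  have hP0 : P ≠ 0 := by rintro rfl; simp at h
  have hn0 : 0 < addOrderOf P := ht.addOrderOf_pos
  have hn1 : addOrderOf P ≠ 1 := fun h1 ↦ hP0 (AddMonoid.addOrderOf_eq_one_iff.mp h1)
  -- all prime factors of the order are `p`
  have hq : ∀ q : ℕ, q.Prime → q ∣ addOrderOf P → q = p ∧ p = 2 ∧ ¬ (2 : ℤ) ∣ W.a₁ := by
    intro q hq hqn
    obtain ⟨m, hm⟩ := hqn
    have hm0 : m • P ≠ 0 := by
      intro h0
      have h1 := addOrderOf_dvd_of_nsmul_eq_zero h0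
      have hmpos : 0 < m := Nat.pos_of_ne_zero (by rintro rfl; rw [mul_zero] at hm; omega)
      have h2 := Nat.le_of_dvd hmpos h1
      rw [hm] at h2
      have := hq.two_le
      nlinarith
    have hqm : q • (m • P) = 0 := by
      rw [smul_smul, ← hm, addOrderOf_nsmul_eq_zero]
    by_cases hqp : q = p
    · subst hqp
      obtain ⟨h2, h3, -⟩ := torsion_p_aux q (hval m hm0) hqm
      exact ⟨rfl, h2, h3⟩
    · exfalso
      refine hm0 ((hE m).eq_zero_of_torsion hW hqm ?_)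
      have : ((q : ℕ) : ℚ) = ((q : ℤ) : ℚ) := by push_cast; rfl
      rw [this, Rat.padicValuation_cast, Int.padicValuation_eq_one_iff]
      intro hdvd
      have hdvd' : p ∣ q := by exact_mod_cast hdvd
      exact hqp ((Nat.prime_dvd_prime_iff_eq hp.out hq).mp hdvd').symm
  obtain ⟨q, hqp, hqn⟩ := Nat.exists_prime_and_dvd hn1
  obtain ⟨rfl, h2, h3⟩ := hq q hqp hqn
  refine ⟨h2, h3, ?_⟩
  subst h2
  by_contra hne
  obtain ⟨m, hm⟩ := hqn
  have hm1 : m ≠ 1 := by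
    rintro rfl
    apply hne
    rw [show (2 : ℕ) = addOrderOf P by rw [hm], addOrderOf_nsmul_eq_zero]
  obtain ⟨q', hq', hqm⟩ := Nat.exists_prime_and_dvd hm1
  obtain ⟨rfl, -, -⟩ := hq q' hq' (hm ▸ Dvd.dvd.mul_left hqm 2)
  obtain ⟨k, hk⟩ := hqm
  -- `k • P` has order four
  have hkpos : 0 < k := Nat.pos_of_ne_zero (by rintro rfl; rw [mul_zero] at hk; subst hk; omega)
  have h2k : 2 • (k • P) ≠ 0 := by
    intro h0
    rw [smul_smul] at h0
    have h1 := Nat.le_of_dvd (by omega) (addOrderOf_dvd_of_nsmul_eq_zero h0)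
    omega
  have hk0 : k • P ≠ 0 := by intro h0; rw [h0, nsmul_zero] at h2k; exact h2k rfl
  have h4k : 2 • (2 • (k • P)) = 0 := by
    rw [smul_smul, smul_smul, show 2 * 2 * k = addOrderOf P by rw [hm, hk]; ring,
      addOrderOf_nsmul_eq_zero]
  have hvk := hval k hk0
  have hv2k : 1 < Rat.padicValuation 2 (px (2 • (k • P))) := by
    have := hval (2 * k) (by rwa [← smul_smul])
    rwa [← smul_smul] at this
  obtain ⟨-, -, hex⟩ := torsion_p_aux 2 hv2k h4k
  have hmf := (mult_formula hW hvk 2).2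
  have h5 : Rat.padicValuation 2 ((px (2 • (k • P)))⁻¹ * px (k • P)) < 1 := by
    have e : (px (2 • (k • P)))⁻¹ * px (k • P) =
        ((px (2 • (k • P)))⁻¹ * px (k • P) - ((2 : ℕ) : ℚ) ^ 2) + ((2 : ℕ) : ℚ) ^ 2 := by ring
    rw [e]
    refine v_add_lt_one hmf (v_pow_lt_one ?_ two_ne_zero)
    rw [Rat.padicValuation_self, ← WithZero.exp_zero, WithZero.exp_lt_exp]
    norm_num
  have hxk : px (k • P) ≠ 0 := by
    intro h0; rw [h0, _root_.map_zero] at hvk; exact absurd hvk (by simp)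
  have h6 := val_inv_le 2 hvk
  rw [map_mul, hex] at h5
  rw [map_inv₀] at h6
  have hvx : Rat.padicValuation 2 (px (k • P)) ≠ 0 := (Rat.padicValuation 2).ne_zero_iff.mpr hxk
  have h7 : WithZero.exp (-2 : ℤ) * Rat.padicValuation 2 (px (k • P)) ≥ 1 := by
    calc (1 : WithZero (Multiplicative ℤ)) = (Rat.padicValuation 2 (px (k • P)))⁻¹ *
          Rat.padicValuation 2 (px (k • P)) := (inv_mul_cancel₀ hvx).symm
      _ ≤ _ := by gcongr
  exact absurd h5 (not_lt.mpr h7)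

lemma isInt_of_val {x : ℚ} (h : ∀ p : ℕ, ∀ _ : Fact p.Prime, Rat.padicValuation p x ≤ 1) :
    ∃ n : ℤ, x = n := by
  have hden : x.den = 1 := by
    by_contra hne
    obtain ⟨p, hp, hpd⟩ := Nat.exists_prime_and_dvd hne
    have : Fact p.Prime := ⟨hp⟩
    exact (Rat.padicValuation_le_one_iff.mp (h p this)) hpd
  exact ⟨x.num, (Rat.den_eq_one_iff x).mp hden |>.symm⟩

/-- **Torsion points are integral**: if `P ≠ 0` is a torsion point of `E(ℚ)`, `E` given by an
integral Weierstrass equation, and `2P ≠ 0` or `a₁` is even, then the coordinates of `P` are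
integers. -/
theorem torsion_integral {P : (WQ W).Point} (hP : P ≠ 0) (ht : IsOfFinAddOrder P)
    (h2 : 2 • P ≠ 0 ∨ (2 : ℤ) ∣ W.a₁) : ∃ x y : ℤ, px P = x ∧ py P = y := by
  have hvx : ∀ p : ℕ, ∀ _ : Fact p.Prime, Rat.padicValuation p (px P) ≤ 1 := by
    intro p _
    by_contra hc
    obtain ⟨-, h3, h4⟩ := torsion_aux p (not_le.mp hc) ht
    rcases h2 with h2 | h2
    · exact h2 h4
    · exact h3 h2
  have hvy : ∀ p : ℕ, ∀ _ : Fact p.Prime, Rat.padicValuation p (py P) ≤ 1 := by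
    intro p hp
    by_contra hc
    rw [not_le] at hc
    set v := Rat.padicValuation p with hv
    have hW := integral_padic W p
    have heq := eqn_of_ne_zero hP
    have hy0 : py P ≠ 0 := by rintro h0; rw [h0, _root_.map_zero] at hc; exact absurd hc (by simp)
    have hgy : v (py P)⁻¹ < 1 := by rw [map_inv₀]; exact inv_lt_one_of_one_lt₀ hc
    have e : py P ^ 2 + (WQ W).a₁ * px P * py P + (WQ W).a₃ * py P =
        py P ^ 2 * (1 + ((WQ W).a₁ * px P + (WQ W).a₃) * (py P)⁻¹) := by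
      field_simp; ring
    have hL : v (py P ^ 2 + (WQ W).a₁ * px P * py P + (WQ W).a₃ * py P) = v (py P) ^ 2 := by
      rw [e, map_mul, map_pow, v_one_add, mul_one]
      exact v_mul_lt_one_right (v_add_le_one (v_mul_le_one hW.h₁ (hvx p hp)) hW.h₃) hgy
    have hR : v (px P ^ 3 + (WQ W).a₂ * px P ^ 2 + (WQ W).a₄ * px P + (WQ W).a₆) ≤ 1 :=
      v_add_le_one (v_add_le_one (v_add_le_one (v_pow_le_one (hvx p hp) 3)
        (v_mul_le_one hW.h₂ (v_pow_le_one (hvx p hp) 2)))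
        (v_mul_le_one hW.h₄ (hvx p hp))) hW.h₆
    rw [← heq, hL] at hR
    exact absurd hR (not_le.mpr (one_lt_pow₀ hc two_ne_zero))
  obtain ⟨x, hx⟩ := isInt_of_val hvx
  obtain ⟨y, hy⟩ := isInt_of_val hvy
  exact ⟨x, y, hx, hy⟩

/-- The points of order two: `4x` and `8y` are integers. -/
theorem two_torsion_integral {P : (WQ W).Point} (hP : P ≠ 0) (h2 : 2 • P = 0) :
    ∃ x y : ℤ, 4 * px P = x ∧ 8 * py P = y := by
  rw [two_nsmul] at h2
  have h1 := psi_eq_zero_of_two_torsion hP h2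
  have hb₂ : (WQ W).b₂ = ((W.b₂ : ℤ) : ℚ) := W.map_b₂ (Int.castRingHom ℚ)
  have hb₄ : (WQ W).b₄ = ((W.b₄ : ℤ) : ℚ) := W.map_b₄ (Int.castRingHom ℚ)
  have hb₆ : (WQ W).b₆ = ((W.b₆ : ℤ) : ℚ) := W.map_b₆ (Int.castRingHom ℚ)
  rw [hb₂, hb₄, hb₆] at h1
  have hx : ∃ x : ℤ, 4 * px P = x := by
    refine isInt_of_val fun p hp ↦ ?_
    by_contra hc
    rw [not_le] at hc
    set v := Rat.padicValuation p with hv
    set X := 4 * px P with hX
    have hint : ∀ m : ℤ, v (m : ℚ) ≤ 1 := fun m ↦ by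
      rw [hv, Rat.padicValuation_cast]; exact Int.padicValuation_le_one _ _
    have h3 : X ^ 3 = -(((W.b₂ : ℤ) : ℚ) * X ^ 2 + ((8 * W.b₄ : ℤ) : ℚ) * X +
        ((16 * W.b₆ : ℤ) : ℚ)) := by
      rw [hX]; push_cast; linear_combination 16 * h1
    have h4 : v X ^ 3 ≤ v X ^ 2 := by
      rw [← map_pow, h3, Valuation.map_neg]
      have hX1 : 1 ≤ v X := hc.le
      refine v.map_add_le (v.map_add_le ?_ ?_) ?_
      · rw [map_mul, map_pow]; exact mul_le_of_le_one_left' (hint _)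
      · rw [map_mul]
        calc v ((8 * W.b₄ : ℤ) : ℚ) * v X ≤ 1 * v X := by gcongr; exact hint _
          _ ≤ v X ^ 2 := by rw [one_mul]; exact le_self_pow₀ hX1 two_ne_zero
      · exact (hint _).trans (one_le_pow₀ hX1)
    exact absurd h4 (not_le.mpr (pow_lt_pow_right₀ hc (by norm_num)))
  obtain ⟨x, hx⟩ := hx
  have hy : 2 * py P + (WQ W).a₁ * px P + (WQ W).a₃ = 0 := by
    have h5 : P = -P := eq_neg_of_add_eq_zero_left h2
    have h6 : py P = - py P - (WQ W).a₁ * px P - (WQ W).a₃ := by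
      conv_lhs => rw [h5]
      exact py_neg hP
    linear_combination h6
  refine ⟨x, -(W.a₁ * x) - 4 * W.a₃, hx, ?_⟩
  have ha₁ : (WQ W).a₁ = ((W.a₁ : ℤ) : ℚ) := rfl
  have ha₃ : (WQ W).a₃ = ((W.a₃ : ℤ) : ℚ) := rfl
  rw [ha₁, ha₃] at hy
  push_cast
  linear_combination 4 * hy - W.a₁ * hx

/-- The Nagell–Lutz theorem for an integral short Weierstrass equation. -/
theorem nagell_lutz_aux (h₁ : W.a₁ = 0) (h₂ : W.a₂ = 0) (h₃ : W.a₃ = 0) {P : (WQ W).Point}
    (hP0 : P ≠ 0) (ht : IsOfFinAddOrder P) :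
    ∃ X Y : ℤ, px P = X ∧ py P = Y ∧ (Y = 0 ∨ Y ^ 2 ∣ 4 * W.a₄ ^ 3 + 27 * W.a₆ ^ 2) := by
  have ha₁ : (2 : ℤ) ∣ W.a₁ := by rw [h₁]; exact dvd_zero _
  have q₁ : (WQ W).a₁ = 0 := by change ((W.a₁ : ℤ) : ℚ) = 0; rw [h₁]; norm_num
  have q₂ : (WQ W).a₂ = 0 := by change ((W.a₂ : ℤ) : ℚ) = 0; rw [h₂]; norm_num
  have q₃ : (WQ W).a₃ = 0 := by change ((W.a₃ : ℤ) : ℚ) = 0; rw [h₃]; norm_num
  have q₄ : (WQ W).a₄ = (W.a₄ : ℚ) := rfl
  have q₆ : (WQ W).a₆ = (W.a₆ : ℚ) := rfl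
  obtain ⟨X, Y, hX, hY⟩ := torsion_integral hP0 ht (Or.inr ha₁)
  refine ⟨X, Y, hX, hY, ?_⟩
  by_cases hY0 : Y = 0
  · exact Or.inl hY0
  right
  have heq : (Y : ℤ) ^ 2 = X ^ 3 + W.a₄ * X + W.a₆ := by
    have h' := eqn_of_ne_zero hP0
    rw [q₁, q₂, q₃, q₄, q₆, hX, hY] at h'
    have h'' : ((Y ^ 2 : ℤ) : ℚ) = ((X ^ 3 + W.a₄ * X + W.a₆ : ℤ) : ℚ) := by
      push_cast; linear_combination h'
    exact_mod_cast h''
  have h2P : P + P ≠ 0 := by
    intro h0
    have h1 : P = -P := eq_neg_of_add_eq_zero_left h0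
    have h2 : py P = - py P - (WQ W).a₁ * px P - (WQ W).a₃ := by
      conv_lhs => rw [h1]
      exact py_neg hP0
    rw [q₁, q₃, hY] at h2
    have h3 : (Y : ℚ) = 0 := by linarith
    exact hY0 (by exact_mod_cast h3)
  obtain ⟨X₂, _, hX₂, -⟩ := torsion_integral h2P (ht.add ht) (Or.inr ha₁)
  have hd := px_double hP0 h2P
  rw [WeierstrassCurve.b₂, WeierstrassCurve.b₄, WeierstrassCurve.b₆, WeierstrassCurve.b₈,
    q₁, q₂, q₃, q₄, q₆, hX₂, hX] at hd
  have hd' : X₂ * (4 * Y ^ 2) = X ^ 4 - 2 * W.a₄ * X ^ 2 - 8 * W.a₆ * X + W.a₄ ^ 2 := by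
    have : ((X₂ * (4 * (X ^ 3 + W.a₄ * X + W.a₆)) : ℤ) : ℚ) =
        ((X ^ 4 - 2 * W.a₄ * X ^ 2 - 8 * W.a₆ * X + W.a₄ ^ 2 : ℤ) : ℚ) := by
      push_cast; linear_combination hd
    rw [heq]
    exact_mod_cast this
  refine ⟨(3 * X ^ 2 + 4 * W.a₄) * (4 * X₂) - (3 * X ^ 3 - 5 * W.a₄ * X - 27 * W.a₆), ?_⟩
  linear_combination (-(3 * X ^ 2 + 4 * W.a₄)) * hd' +
    (3 * X ^ 3 - 5 * W.a₄ * X - 27 * W.a₆) * heq

/-- **The Nagell–Lutz theorem.** Let `P = (x, y)` be a torsion point of `y² = x³ + ax + b`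
(`a, b ∈ ℤ`) over `ℚ`. Then `x` and `y` are integers, and `y = 0` or `y² ∣ 4a³ + 27b²`. -/
theorem nagell_lutz (a b : ℤ) {E : WeierstrassCurve ℚ} (hE : E = ⟨0, 0, 0, a, b⟩) {x y : ℚ}
    (h : E.toAffine.Nonsingular x y) (ht : IsOfFinAddOrder (Point.some x y h)) :
    ∃ X Y : ℤ, x = X ∧ y = Y ∧ (Y = 0 ∨ Y ^ 2 ∣ 4 * a ^ 3 + 27 * b ^ 2) := by
  have hE' : E = (⟨0, 0, 0, a, b⟩ : WeierstrassCurve ℤ).map (Int.castRingHom ℚ) := by
    rw [hE]; ext <;> simp
  clear hE
  subst hE'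
  exact nagell_lutz_aux (W := ⟨0, 0, 0, a, b⟩) rfl rfl rfl (some_ne_zero h) ht

end Rat

end Fermat.Agent.Cor.MW
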