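import Fermat.Agent.Cor.H14EisTwo
import Fermat.Agent.Cor.NagellLutz
import Fermat.Agent.Cor.BadMain
import Fermat.Agent.Frob.Reduction

/-!
# Rational points of odd prime order on semistable elliptic curves of prime conductor

* `exists_red`: the reduction homomorphism `W(ℚ) → W(𝔽_q)` at a prime `q` of good reduction;
* `dvd_card_of_torsion`: if `W` is an integral Weierstrass equation and `P ∈ W(ℚ)` has odd prime order `ℓ`, then `ℓ`
  divides `#W(𝔽_q)` for all good primes `q`, including `q = ℓ` and `q = 2`;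
* `dvd_numerator_of_torsion`: let `W` be a semistable elliptic curve of prime conductor `N`, with split multiplicative
  reduction at `N`, and with a rational point of odd prime order `ℓ`. Then `ℓ` divides the numerator of `(N - 1) / 12`; so
  `N ≡ 1` modulo `9` if `ℓ = 3` and `N ≡ 1` modulo `ℓ` if `ℓ ≥ 5`.

This file is not used by any of the statement files.
-/

set_option autoImplicit false

noncomputable section

namespace Fermat.Agent.Cor.H14

open WeierstrassCurve WeierstrassCurve.Affine WeierstrassCurve.Affine.Point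
open Fermat.Agent.H08 Fermat.Agent.Frob
open CongruenceSubgroup ModularFormClass

section Reduction

variable (q : ℕ) [hq : Fact q.Prime]

/-- the valuation ring of `ℚ` at `q` -/
abbrev Aq : ValuationSubring ℚ := (Rat.padicValuation q).valuationSubring

theorem mem_Aq {x : ℚ} : x ∈ Aq q ↔ ¬ q ∣ x.den :=
  Rat.padicValuation_le_one_iff

/-- reduction modulo `q` -/
def piA : Aq q →+* ZMod q := (PadicInt.toZMod (p := q)).comp
  { toFun := fun x => ⟨((x : ℚ) : ℚ_[q]), Padic.norm_rat_le_one ((mem_Aq q).1 x.2)⟩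
    map_one' := Subtype.ext (by simp)
    map_mul' := fun x y => Subtype.ext (Rat.cast_mul (x : ℚ) (y : ℚ))
    map_zero' := Subtype.ext (by simp)
    map_add' := fun x y => Subtype.ext (Rat.cast_add (x : ℚ) (y : ℚ)) }

instance : IsLocalHom (piA q) := by
  refine ⟨fun x hx => ?_⟩
  have hx0 : piA q x ≠ 0 := hx.ne_zero
  have hden : ¬ q ∣ (x : ℚ).den := (mem_Aq q).1 x.2
  have hnum : ¬ (q : ℤ) ∣ (x : ℚ).num := by
    intro h
    apply hx0
    have h1 : x * ((x : ℚ).den : Aq q) = ((x : ℚ).num : Aq q) := by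
      apply Subtype.ext
      push_cast
      exact Rat.mul_den_eq_num _
    have h2 := congrArg (piA q) h1
    rw [map_mul, map_natCast, map_intCast] at h2
    have h3 : (((x : ℚ).num : ℤ) : ZMod q) = 0 := (ZMod.intCast_zmod_eq_zero_iff_dvd _ q).2 h
    have h4 : (((x : ℚ).den : ℕ) : ZMod q) ≠ 0 := by
      rwa [Ne, ZMod.natCast_eq_zero_iff]
    rw [h3] at h2
    exact (mul_eq_zero.1 h2).resolve_right h4
  have hxne : (x : ℚ) ≠ 0 := by
    intro h
    rw [h] at hnum
    exact hnum (by simp)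
  refine isUnit_iff_exists_inv.2 ⟨⟨(x : ℚ)⁻¹, ?_⟩, ?_⟩
  · rw [mem_Aq]
    intro h
    apply hnum
    rw [Rat.den_inv_of_ne_zero hxne] at h
    exact Int.natCast_dvd.2 h
  · apply Subtype.ext
    exact mul_inv_cancel₀ hxne

/-- the map from the residue field to `ZMod q` -/
def fA : IsLocalRing.ResidueField (Aq q) →+* ZMod q := IsLocalRing.ResidueField.lift (piA q)

variable {q} {W : WeierstrassCurve ℤ}

/-- the reduced curve over the residue field -/
abbrev WA (q : ℕ) [Fact q.Prime] (W : WeierstrassCurve ℤ) :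
    WeierstrassCurve.Affine (IsLocalRing.ResidueField (Aq q)) :=
  W.map (Int.castRingHom _)

theorem redCurve : RedCurve (Aq q) (W.map (Int.castRingHom ℚ)) (WA q W) :=
  ⟨Rz.intCast _, Rz.intCast _, Rz.intCast _, Rz.intCast _, Rz.intCast _⟩

theorem isElliptic_WA (hd : ¬ (q : ℤ) ∣ W.Δ) : (WA q W).IsElliptic := by
  refine ⟨isUnit_iff_ne_zero.mpr ?_⟩
  intro h
  apply hd
  have h1 : (W.map (Int.castRingHom (IsLocalRing.ResidueField (Aq q)))).Δ = 0 := h
  rw [map_Δ] at h1
  have h2 := congrArg (fA q) h1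
  rw [eq_intCast, map_intCast, _root_.map_zero] at h2
  exact (ZMod.intCast_zmod_eq_zero_iff_dvd _ _).1 h2

/-- **The reduction homomorphism** at a prime of good reduction. -/
theorem exists_red (hd : ¬ (q : ℤ) ∣ W.Δ) :
    ∃ r : (W.map (Int.castRingHom ℚ)).toAffine.Point →+ (W.reductionMod q).toAffine.Point,
      ∀ P, r P = 0 ↔ InE1 (Rat.padicValuation q) P := by
  classical
  have := isElliptic_WA hd
  let f : IsLocalRing.ResidueField (Aq q) →ₐ[ℤ] ZMod q := (fA q).toIntAlgHom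
  let r₁ : (W.map (Int.castRingHom ℚ)).toAffine.Point →+ (WA q W).Point :=
    redHom (redCurve (q := q) (W := W))
  let r₂ : (WA q W).Point →+ (W.reductionMod q).toAffine.Point := Point.map (W' := W) f
  refine ⟨r₂.comp r₁, fun P => ?_⟩
  have hinj : Function.Injective r₂ := Point.map_injective (W' := W) (f := f)
  rw [AddMonoidHom.comp_apply, ← _root_.map_zero r₂, hinj.eq_iff]
  rw [redHom_eq_zero_iff, InE1, InE1, ← not_le, ← not_le, (Aq q).valuation_le_one_iff,
    Valuation.mem_valuationSubring_iff]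

/-- **Torsion of odd prime order injects at all good primes**: if `W(ℚ)` has a point of odd prime order `ℓ` then `ℓ`
divides `#W(𝔽_q)` for all good primes `q`, including `q = ℓ`. -/
theorem dvd_card_of_torsion {ℓ : ℕ} (hℓ : ℓ.Prime) (hℓ2 : ℓ ≠ 2)
    {P : (W.map (Int.castRingHom ℚ)).toAffine.Point} (hP : P ≠ 0) (hP' : ℓ • P = 0)
    (hd : ¬ (q : ℤ) ∣ W.Δ) : ℓ ∣ (W.reductionMod q).card := by
  obtain ⟨r, hr⟩ := exists_red hd
  have hord : addOrderOf P = ℓ := addOrderOf_eq_prime (hp := ⟨hℓ⟩) hP' hP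
  have h2P : 2 • P ≠ 0 := by
    intro h
    have h1 : ℓ ∣ 2 := by
      rw [← hord]
      exact addOrderOf_dvd_of_nsmul_eq_zero h
    exact hℓ2 ((Nat.prime_dvd_prime_iff_eq hℓ Nat.prime_two).1 h1)
  obtain ⟨x, y, hx, hy⟩ := MW.torsion_integral (W := W) hP
    (isOfFinAddOrder_iff_nsmul_eq_zero.2 ⟨ℓ, hℓ.pos, hP'⟩) (Or.inl h2P)
  have h0 : r P ≠ 0 := by
    rw [Ne, hr, InE1, not_or]
    refine ⟨hP, ?_⟩
    rw [not_lt, hx]
    exact Int.padicValuation_le_one q x
  have h1 : ℓ • r P = 0 := by rw [← map_nsmul, hP', _root_.map_zero]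
  have h2 : addOrderOf (r P) = ℓ := addOrderOf_eq_prime (hp := ⟨hℓ⟩) h1 h0
  rw [← h2]
  exact addOrderOf_dvd_natCard (r P)

end Reduction

/-- `a_q(W) ≡ 1 + q` modulo `ℓ` for all good primes `q` if `W(ℚ)` has a point of odd prime order `ℓ` -/
theorem ap_modEq_of_torsion {W : WeierstrassCurve ℤ} {ℓ : ℕ} (hℓ : ℓ.Prime) (hℓ2 : ℓ ≠ 2)
    {P : (W.map (Int.castRingHom ℚ)).toAffine.Point} (hP : P ≠ 0) (hP' : ℓ • P = 0)
    {q : ℕ} (hq : q.Prime) (hd : ¬ (q : ℤ) ∣ W.Δ) : (ℓ : ℤ) ∣ W.apOfModel q - (1 + q : ℕ) := by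
  have : Fact q.Prime := ⟨hq⟩
  obtain ⟨c, hc⟩ := dvd_card_of_torsion hℓ hℓ2 hP hP' hd
  refine ⟨-c, ?_⟩
  rw [apOfModel, traceOfFrobenius, hc, Nat.card_zmod]
  push_cast
  ring

/-- **Rational points of odd prime order, prime conductor, split reduction**: `ℓ` divides the numerator of
`(N - 1) / 12`. (`W.apOfModel N = 2` means that the reduction at `N` is split multiplicative.) -/
theorem dvd_numerator_of_torsion {W : WeierstrassCurve ℤ} (hΔ : W.Δ ≠ 0)
    (hss : W.IsSemistableModel) (hN : W.conductorLevel.Prime)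
    (hsplit : W.apOfModel W.conductorLevel = 2) {ℓ : ℕ} (hℓ : ℓ.Prime) (hℓ2 : ℓ ≠ 2)
    {P : (W.map (Int.castRingHom ℚ)).toAffine.Point} (hP : P ≠ 0) (hP' : ℓ • P = 0) :
    ℓ ∣ (W.conductorLevel - 1) / Nat.gcd (W.conductorLevel - 1) 12 := by
  obtain ⟨g, hg, hg1, hg2⟩ := Bad.exists_newform hΔ hss
  have hL : HasLevel W W.conductorLevel :=
    ⟨hΔ, hss, fun q hq => W.prime_dvd_conductorLevel_iff hΔ hq⟩
  refine dvd_of_ap_modEq hN hL hℓ (fun q hq hqN => ?_) hg.1 hg1 ⟨1, ?_, ?_⟩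
  · refine ap_modEq_of_torsion hℓ hℓ2 hP hP' hq fun hd => hqN ?_
    exact (Nat.prime_dvd_prime_iff_eq hq hN).1 ((hL.bad q hq).2 hd)
  · rw [hg2 _ hN ((hL.bad _ hN).1 dvd_rfl), hsplit]
    norm_num
  · simp

/-- a rational point of order three, prime conductor, split reduction: `N ≡ 1` modulo `9` -/
theorem modEq_nine_of_three_torsion {W : WeierstrassCurve ℤ} (hΔ : W.Δ ≠ 0)
    (hss : W.IsSemistableModel) (hN : W.conductorLevel.Prime)
    (hsplit : W.apOfModel W.conductorLevel = 2)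
    {P : (W.map (Int.castRingHom ℚ)).toAffine.Point} (hP : P ≠ 0) (hP' : 3 • P = 0) :
    W.conductorLevel ≡ 1 [MOD 9] :=
  ((Nat.modEq_iff_dvd' hN.one_lt.le).2 (three_dvd_numerator_iff.1
    (dvd_numerator_of_torsion hΔ hss hN hsplit Nat.prime_three (by norm_num) hP hP'))).symm

/-- a rational point of order five, prime conductor, split reduction: `N ≡ 1` modulo `5` -/
theorem modEq_five_of_five_torsion {W : WeierstrassCurve ℤ} (hΔ : W.Δ ≠ 0)
    (hss : W.IsSemistableModel) (hN : W.conductorLevel.Prime)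
    (hsplit : W.apOfModel W.conductorLevel = 2)
    {P : (W.map (Int.castRingHom ℚ)).toAffine.Point} (hP : P ≠ 0) (hP' : 5 • P = 0) :
    W.conductorLevel ≡ 1 [MOD 5] :=
  ((Nat.modEq_iff_dvd' hN.one_lt.le).2 ((dvd_numerator_iff Nat.prime_five le_rfl).1
    (dvd_numerator_of_torsion hΔ hss hN hsplit Nat.prime_five (by norm_num) hP hP'))).symm

end Fermat.Agent.Cor.H14
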