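import Fermat.Agent.Cor.H14FltMod

/-!
# Fermat's Last Theorem modulo a set of primes of positive density

* `exists_density_not_pow`: let `p` be a prime and `D` an integer which is not a `p`-th power. There is a set of primes of
  positive Dirichlet density modulo which `D` is not a `p`-th power;
* `exists_density_no_solution`: for `n ≥ 3` and positive integers `a`, `b` there is a set of primes `q` of positive Dirichlet
  density for which the congruence `aⁿ + bⁿ ≡ cⁿ (mod q)` has no solution `c`.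

This file is not used by any of the statement files.
-/

set_option autoImplicit false

open scoped Topology

noncomputable section

namespace Fermat.Agent.Cor.H14

local notation "Qb" => AlgebraicClosure ℚ
local notation "Γq" => AlgebraicClosure ℚ ≃ₐ[ℚ] AlgebraicClosure ℚ

theorem exists_density_not_pow {p : ℕ} (hp : p.Prime) {D : ℤ} (hD : ∀ y : ℤ, y ^ p ≠ D) :
    ∃ (P : Set ℕ) (δ : ℝ), 0 < δ ∧ HasDensity P δ ∧
      ∀ q : ℕ, q.Prime → q ∈ P → ∀ x : ZMod q, x ^ p ≠ D := by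
  have : NeZero p := ⟨hp.ne_zero⟩
  have hg : IsGalois ℚ Qb := H51.isGalois_Qbar
  obtain ⟨ζ, hζ⟩ := DS.exists_primitive p
  obtain ⟨r, hr⟩ := IsAlgClosed.exists_pow_nat_eq (D : Qb) hp.pos
  obtain ⟨σ₀, hσζ, hσr⟩ := exists_move hp hD hζ hr
  have hD0 : D ≠ 0 := by
    rintro rfl
    exact hD 0 (zero_pow hp.ne_zero)
  have hr0 : r ≠ 0 := by
    rintro rfl
    rw [zero_pow hp.ne_zero] at hr
    exact hD0 (by exact_mod_cast hr.symm)
  let L : IntermediateField ℚ Qb := IntermediateField.adjoin ℚ {ζ, r}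
  have hL : FiniteDimensional ℚ L := IntermediateField.finiteDimensional_adjoin fun x _ =>
    (Algebra.IsAlgebraic.isAlgebraic x).isIntegral
  have hζL : ζ ∈ L := IntermediateField.subset_adjoin _ _ (by simp)
  have hrL : r ∈ L := IntermediateField.subset_adjoin _ _ (by simp)
  obtain ⟨E, hE1, hE2, hE3⟩ := (krullTopology_mem_nhds_one_iff_of_normal ℚ Qb
    (L.fixingSubgroup : Set Γq)).mp
      ((IntermediateField.fixingSubgroup_isOpen L).mem_nhds L.fixingSubgroup.one_mem)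
  have : IsGalois ℚ E := { to_isSeparable := inferInstance, to_normal := hE2 }
  let π : Γq →* Gal(E/ℚ) := AlgEquiv.restrictNormalHom E
  have hπ : Function.Surjective π := AlgEquiv.restrictNormalHom_surjective _
  have hagree : ∀ σ τ : Γq, π σ = π τ → ∀ x ∈ L, σ x = τ x := by
    intro σ τ h x hx
    have h1 : σ⁻¹ * τ ∈ E.fixingSubgroup := (DS.restrict_eq_iff E).1 h
    have h2 : σ⁻¹ (τ x) = x := (IntermediateField.mem_fixingSubgroup_iff L _).1 (hE3 h1) x hx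
    exact ((AlgEquiv.symm_apply_eq σ).1 h2).symm
  have hroot : ∀ σ : Γq, σ ζ = ζ → ∀ ξ : Qb, ξ ^ p = 1 → σ ξ = ξ := by
    intro σ hσ ξ hξ
    obtain ⟨i, -, rfl⟩ := hζ.eq_pow_of_pow_eq_one hξ
    rw [map_pow, hσ]
  let C : Set Gal(E/ℚ) := {g | ∃ σ : Γq, π σ = g ∧ σ ζ = ζ ∧ σ r ≠ r}
  have hC : ∀ g ∈ C, ∀ t : Gal(E/ℚ), t * g * t⁻¹ ∈ C := by
    rintro _ ⟨σ, rfl, h1, h2⟩ t
    obtain ⟨τ, rfl⟩ := hπ t
    refine ⟨τ * σ * τ⁻¹, by rw [map_mul, map_mul, map_inv], ?_, fun h3 => h2 ?_⟩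
    · change τ (σ (τ⁻¹ ζ)) = ζ
      rw [hroot σ h1 (τ⁻¹ ζ) (by rw [← map_pow, hζ.pow_eq_one, map_one])]
      exact AlgEquiv.apply_symm_apply τ ζ
    · have h4 : σ (τ⁻¹ r) = τ⁻¹ r := by
        have h5 : τ (σ (τ⁻¹ r)) = r := h3
        exact ((AlgEquiv.symm_apply_eq τ).2 h5.symm).symm
      have h6 : (τ⁻¹ r / r) ^ p = 1 := by
        rw [div_pow, ← map_pow, hr, map_intCast]
        refine div_self ?_
        rw [← hr]
        exact pow_ne_zero p hr0
      have h7 := hroot σ h1 _ h6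
      rw [map_div₀, h4] at h7
      have h8 : τ⁻¹ r ≠ 0 := by
        rw [Ne, map_eq_zero]
        exact hr0
      have h9 : σ r ≠ 0 := by
        rw [Ne, map_eq_zero]
        exact hr0
      rw [div_eq_div_iff h9 hr0] at h7
      exact (mul_left_cancel₀ h8 h7).symm
  have h1 := hasDensity_rep hπ ⟨E, hE1, fun σ hσ => by
    have h2 : σ ∈ π.ker := by
      rw [DS.ker_restrict]
      exact (IntermediateField.mem_fixingSubgroup_iff E σ).2 hσ
    exact h2⟩ C hC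
  have hCne : Nonempty C := ⟨⟨π σ₀, σ₀, rfl, hσζ, hσr⟩⟩
  have hpos : (0 : ℝ) < (Nat.card C : ℝ) / Nat.card Gal(E/ℚ) := by
    have h2 : 0 < Nat.card C := Nat.card_pos
    have h3 : 0 < Nat.card Gal(E/ℚ) := Nat.card_pos
    have h4 : (0 : ℝ) < Nat.card C := by exact_mod_cast h2
    have h5 : (0 : ℝ) < Nat.card Gal(E/ℚ) := by exact_mod_cast h3
    positivity
  have hne : p * D.natAbs ≠ 0 := mul_ne_zero hp.ne_zero (Int.natAbs_ne_zero.2 hD0)
  refine ⟨_ \ {q | q ∣ p * D.natAbs}, _, hpos, h1.congr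
    (Finset.finite_toSet (p * D.natAbs).divisors) fun q hq hqD =>
      ⟨fun h => ⟨h, fun h3 => hqD ?_⟩, fun h => h.1⟩, ?_⟩
  · rw [Finset.mem_coe, Nat.mem_divisors]
    exact ⟨h3, hne⟩
  · rintro q hq ⟨⟨A, φ, hA, hφ, σ, hσ, h2, h3⟩, hqD⟩
    have hqp : ¬ q ∣ p := fun h => hqD (h.mul_right _)
    have hqD' : ¬ (q : ℤ) ∣ D := fun h => hqD ((Int.natCast_dvd.1 h).mul_left _)
    exact not_pow_of_frob hp hζ hr hq hqp hqD' hA hφ
      (by rw [← hagree σ φ hσ r hrL]; exact h3) (by rw [← hagree σ φ hσ ζ hζL]; exact h2)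

/-- **Fermat's Last Theorem modulo a set of primes of positive density.** -/
theorem exists_density_no_solution {n : ℕ} (hn : 3 ≤ n) {a b : ℕ} (ha : 0 < a) (hb : 0 < b) :
    ∃ (P : Set ℕ) (δ : ℝ), 0 < δ ∧ HasDensity P δ ∧
      ∀ q : ℕ, q.Prime → q ∈ P → ∀ c : ZMod q, (a : ZMod q) ^ n + (b : ZMod q) ^ n ≠ c ^ n := by
  have key : ∀ p m : ℕ, p.Prime → n = p * m → (∀ y : ℤ, y ^ p ≠ (a : ℤ) ^ n + (b : ℤ) ^ n) →
      ∃ (P : Set ℕ) (δ : ℝ), 0 < δ ∧ HasDensity P δ ∧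
      ∀ q : ℕ, q.Prime → q ∈ P → ∀ c : ZMod q, (a : ZMod q) ^ n + (b : ZMod q) ^ n ≠ c ^ n := by
    intro p m hp hnm hy
    obtain ⟨P, δ, hδ, hP, h⟩ := exists_density_not_pow hp hy
    refine ⟨P, δ, hδ, hP, fun q hq hqP c hc => h q hq hqP (c ^ m) ?_⟩
    push_cast
    rw [hc, hnm, ← pow_mul, mul_comm]
  have ha' : (0 : ℤ) < a := by exact_mod_cast ha
  have hb' : (0 : ℤ) < b := by exact_mod_cast hb
  rcases Nat.four_dvd_or_exists_odd_prime_and_dvd_of_two_lt (n := n) (by omega) with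
    ⟨m, hm⟩ | ⟨p, hp, ⟨m, hm⟩, hodd⟩
  · refine key 2 (2 * m) Nat.prime_two (by omega) fun y hy => ?_
    have h1 : ((a : ℤ) ^ m) ^ 4 + ((b : ℤ) ^ m) ^ 4 = y ^ 2 := by
      rw [hy, hm, ← pow_mul, ← pow_mul, mul_comm m 4]
    exact not_fermat_42 (pow_ne_zero m ha'.ne') (pow_ne_zero m hb'.ne') h1
  · refine key p m hp hm fun y hy => ?_
    have hy0 : 0 < y := by
      rw [← hodd.pow_pos_iff, hy]
      positivity
    have hp3 : 3 ≤ p := by
      have h2 := hp.two_le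
      have h3 : p ≠ 2 := by
        rintro rfl
        exact absurd hodd (by decide)
      omega
    refine S01.result p hp3 (a ^ m) (b ^ m) y.natAbs (Nat.pos_of_ne_zero (pow_ne_zero m ha.ne'))
      (Nat.pos_of_ne_zero (pow_ne_zero m hb.ne')) (Int.natAbs_pos.2 hy0.ne') ?_
    have h1 : (((a ^ m) ^ p + (b ^ m) ^ p : ℕ) : ℤ) = ((y.natAbs ^ p : ℕ) : ℤ) := by
      push_cast
      rw [abs_of_pos hy0, hy, hm, ← pow_mul, ← pow_mul, mul_comm m p]
    exact_mod_cast h1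

end Fermat.Agent.Cor.H14
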