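import Fermat.Agent.Cor.H14FltMod

/-!
# The Hasse principle for `aⁿ + bⁿ = cⁿ` with `a`, `b` fixed

`exists_iff_finite`: for `n ≥ 3` and integers `a`, `b`, the equation `aⁿ + bⁿ = cⁿ` has a solution `c ∈ ℤ` if and only if
the congruence `aⁿ + bⁿ ≡ cⁿ (mod q)` has a solution for all but finitely many primes `q`. (In general an integer may be an
`n`-th power modulo all primes without being an `n`-th power: `16` is an eighth power modulo all primes.)

This file is not used by any of the statement files.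
-/

set_option autoImplicit false

namespace Fermat.Agent.Cor.H14

/-- **Fermat's Last Theorem modulo primes**, for integers of any sign. -/
theorem infinite_primes_no_solution_int {n : ℕ} (hn : 3 ≤ n) {a b : ℤ} (ha : a ≠ 0) (hb : b ≠ 0)
    (hab : a ^ n + b ^ n ≠ 0) :
    {q : ℕ | q.Prime ∧ ∀ c : ZMod q, (a : ZMod q) ^ n + (b : ZMod q) ^ n ≠ c ^ n}.Infinite := by
  intro hfin
  have key : ∀ p m : ℕ, p.Prime → n = p * m → ∃ y : ℤ, y ^ p = a ^ n + b ^ n := by
    intro p m hp hnm
    refine exists_pow_eq hp hfin.toFinset fun q hq hqT => ?_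
    rw [Set.Finite.mem_toFinset, Set.mem_ofPred_eq, not_and] at hqT
    have h1 := hqT hq
    push Not at h1
    obtain ⟨c, hc⟩ := h1
    refine ⟨c ^ m, ?_⟩
    push_cast
    rw [hc, hnm, ← pow_mul, mul_comm]
  rcases Nat.four_dvd_or_exists_odd_prime_and_dvd_of_two_lt (n := n) (by omega) with
    ⟨m, hm⟩ | ⟨p, hp, ⟨m, hm⟩, hodd⟩
  · obtain ⟨y, hy⟩ := key 2 (2 * m) Nat.prime_two (by omega)
    have h1 : (a ^ m) ^ 4 + (b ^ m) ^ 4 = y ^ 2 := by
      rw [hy, hm, ← pow_mul, ← pow_mul, mul_comm m 4]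
    exact not_fermat_42 (pow_ne_zero m ha) (pow_ne_zero m hb) h1
  · obtain ⟨y, hy⟩ := key p m hp hm
    have hy0 : y ≠ 0 := by
      rintro rfl
      rw [zero_pow hp.ne_zero] at hy
      exact hab hy.symm
    have hp3 : 3 ≤ p := by
      have h2 := hp.two_le
      have h3 : p ≠ 2 := by
        rintro rfl
        exact absurd hodd (by decide)
      omega
    have hflt : FermatLastTheoremFor p := fun a b c ha hb hc =>
      S01.result p hp3 a b c (Nat.pos_of_ne_zero ha) (Nat.pos_of_ne_zero hb) (Nat.pos_of_ne_zero hc)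
    refine fermatLastTheoremFor_iff_int.1 hflt (a ^ m) (b ^ m) y (pow_ne_zero m ha)
      (pow_ne_zero m hb) hy0 ?_
    rw [hy, hm, ← pow_mul, ← pow_mul, mul_comm m p]

/-- **The Hasse principle for `aⁿ + bⁿ = cⁿ`**, `a` and `b` fixed, `n ≥ 3`. -/
theorem exists_iff_finite {n : ℕ} (hn : 3 ≤ n) (a b : ℤ) : (∃ c : ℤ, a ^ n + b ^ n = c ^ n) ↔
    {q : ℕ | q.Prime ∧ ∀ c : ZMod q, (a : ZMod q) ^ n + (b : ZMod q) ^ n ≠ c ^ n}.Finite := by
  constructor
  · rintro ⟨c, hc⟩
    convert Set.finite_empty (α := ℕ)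
    ext q
    rw [Set.mem_ofPred_eq, Set.mem_empty_iff_false, iff_false, not_and]
    intro _ h
    apply h (c : ZMod q)
    have h1 := congrArg (fun z : ℤ => (z : ZMod q)) hc
    push_cast at h1
    exact h1
  · intro hfin
    have hn0 : n ≠ 0 := by omega
    by_cases ha : a = 0
    · exact ⟨b, by rw [ha, zero_pow hn0, zero_add]⟩
    by_cases hb : b = 0
    · exact ⟨a, by rw [hb, zero_pow hn0, add_zero]⟩
    by_cases hab : a ^ n + b ^ n = 0
    · exact ⟨0, by rw [hab, zero_pow hn0]⟩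
    exact absurd hfin (infinite_primes_no_solution_int hn ha hb hab)

end Fermat.Agent.Cor.H14
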