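import Fermat.Agent.Cor.H14Forms

/-!
# Integers which are `p`-th powers modulo almost all primes

`exists_pow_eq`: let `p` be a prime. An integer which is a `p`-th power modulo all but finitely many primes is the `p`-th
power of an integer.

This file is not used by any of the statement files.
-/

set_option autoImplicit false

open Polynomial

noncomputable section

namespace Fermat.Agent.Cor.H14

local notation "Qb" => AlgebraicClosure ℚ
local notation "Γq" => AlgebraicClosure ℚ ≃ₐ[ℚ] AlgebraicClosure ℚ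

/-- the local computation -/
theorem not_pow_of_frob {p : ℕ} (hp : p.Prime) {D : ℤ} {r ζ : Qb} (hζ : IsPrimitiveRoot ζ p)
    (hr : r ^ p = D) {q : ℕ} (hq : q.Prime) (hqp : ¬ q ∣ p) (hqD : ¬ (q : ℤ) ∣ D)
    {A : ValuationSubring Qb} (hA : A.LiesOverPrime q) {φ : Γq} (hφ : A.IsFrobeniusAt φ q)
    (h : φ r ≠ r) (hφζ : φ ζ = ζ) (x : ZMod q) : x ^ p ≠ D := by
  intro hx
  have : Fact q.Prime := ⟨hq⟩
  have : CharP (IsLocalRing.ResidueField A) q := H05.charP_residueField hq hA
  have hrA : r ∈ A := H05.mem_of_isIntegral A (IsIntegral.of_pow (n := p) hp.pos (by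
    rw [hr]
    exact isIntegral_algebraMap (R := ℤ) (x := D)))
  have hr0 : r ≠ 0 := by
    rintro rfl
    rw [zero_pow hp.ne_zero] at hr
    exact hqD (by rw [show D = 0 by exact_mod_cast hr.symm]; exact dvd_zero _)
  -- `p ∣ q - 1`
  have h1 : ζ ^ q = ζ := by
    rw [← H05.IsFrobeniusAt.apply_rootOfUnity hq hA hqp hφ hζ.pow_eq_one, hφζ]
  have hpq : p ∣ q - 1 := by
    apply hζ.dvd_of_pow_eq_one
    have h2 : ζ ^ (q - 1) * ζ = 1 * ζ := by
      rw [← pow_succ, Nat.sub_add_cancel hq.one_le, h1, one_mul]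
    exact mul_right_cancel₀ (hζ.ne_zero hp.ne_zero) h2
  have hη : (φ r / r) ^ p = 1 := by
    rw [div_pow, ← map_pow, hr, map_intCast]
    refine div_self ?_
    rw [← hr]
    exact pow_ne_zero p hr0
  obtain ⟨h4, h5⟩ := hφ
  set R := IsLocalRing.residue A ⟨r, hrA⟩ with hR
  have h6 : R ^ p = (D : IsLocalRing.ResidueField A) := by
    rw [hR, ← map_pow, ← map_intCast (IsLocalRing.residue A)]
    congr 1
    apply Subtype.ext
    push_cast
    exact hr
  have hDk : (D : IsLocalRing.ResidueField A) ≠ 0 := fun h =>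
    hqD ((CharP.intCast_eq_zero_iff (IsLocalRing.ResidueField A) q D).1 h)
  let f : ZMod q →+* IsLocalRing.ResidueField A := ZMod.castHom dvd_rfl _
  have h7 : f x ^ p = (D : IsLocalRing.ResidueField A) := by
    rw [← map_pow, hx, map_intCast]
  have hfx : f x ≠ 0 := by
    intro h
    rw [h, zero_pow hp.ne_zero] at h7
    exact hDk h7.symm
  have hu : (R / f x) ^ p = 1 := by
    rw [div_pow, h6, h7, div_self hDk]
  have hu2 : (R / f x) ^ q = R / f x := by
    obtain ⟨c, hc⟩ := hpq
    have h8 : (R / f x) ^ (q - 1) = 1 := by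
      rw [hc, pow_mul, hu, one_pow]
    calc (R / f x) ^ q = (R / f x) ^ (q - 1) * (R / f x) := by
          rw [← pow_succ, Nat.sub_add_cancel hq.one_le]
      _ = R / f x := by rw [h8, one_mul]
  have h8 : R ^ q = R := by
    rw [div_pow, ← map_pow f, ZMod.pow_card] at hu2
    exact (div_left_inj' hfx).1 hu2
  have hφr : φ r ∈ A := H05.mem_of_isIntegral A (IsIntegral.of_pow (n := p) hp.pos (by
    rw [← map_pow, hr, map_intCast]
    exact isIntegral_algebraMap (R := ℤ) (x := D)))
  have h9 : IsLocalRing.residue A ⟨φ r, hφr⟩ = R := (h5 R).trans h8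
  have hηA : φ r / r ∈ A := H05.mem_of_pow_eq_one A hp.ne_zero hη
  have h10 : IsLocalRing.residue A ⟨φ r / r, hηA⟩ * R = R := by
    have e : IsLocalRing.residue A ⟨φ r / r, hηA⟩ * IsLocalRing.residue A ⟨r, hrA⟩ =
        IsLocalRing.residue A ⟨φ r, hφr⟩ := by
      rw [← map_mul]
      congr 1
      apply Subtype.ext
      exact div_mul_cancel₀ _ hr0
    exact e.trans h9
  have hR0 : R ≠ 0 := by
    intro h
    rw [h, zero_pow hp.ne_zero] at h6
    exact hDk h6.symm
  have h11 : IsLocalRing.residue A ⟨φ r / r, hηA⟩ = 1 := by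
    exact mul_right_cancel₀ hR0 (by rw [h10, one_mul])
  have h12 : φ r / r = 1 := by
    refine H05.rootsOfUnity_eq_of_residue_eq hq hA hqp hη (one_pow p) ?_
    rw [← sub_eq_zero, ← map_one (IsLocalRing.residue A), ← map_sub,
      IsLocalRing.residue_eq_zero_iff, ← ValuationSubring.coe_mem_nonunits_iff] at h11
    exact h11
  exact h (by rw [div_eq_one_iff_eq hr0] at h12; exact h12)

/-- the global element -/
theorem exists_move {p : ℕ} (hp : p.Prime) {D : ℤ} (hD : ∀ y : ℤ, y ^ p ≠ D) {r ζ : Qb}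
    (hζ : IsPrimitiveRoot ζ p) (hr : r ^ p = D) : ∃ σ : Γq, σ ζ = ζ ∧ σ r ≠ r := by
  have hg : IsGalois ℚ Qb := H51.isGalois_Qbar
  by_contra hcon
  push Not at hcon
  have hDQ : ∀ b : ℚ, b ^ p ≠ (D : ℚ) := by
    intro b hb
    obtain ⟨y, hy⟩ := IsIntegrallyClosed.exists_algebraMap_eq_of_isIntegral_pow (R := ℤ) (x := b)
      hp.pos (by rw [hb]; exact isIntegral_algebraMap (R := ℤ) (x := D))
    apply hD y
    rw [← hy] at hb
    have h1 : ((y ^ p : ℤ) : ℚ) = D := by
      push_cast
      exact hb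
    exact_mod_cast h1
  have hirr := X_pow_sub_C_irreducible_of_prime hp hDQ
  have hmin : X ^ p - C (D : ℚ) = minpoly ℚ r := by
    refine minpoly.eq_of_irreducible_of_monic hirr ?_ (monic_X_pow_sub_C _ hp.ne_zero)
    rw [map_sub, map_pow, aeval_X, aeval_C, hr, map_intCast, sub_self]
  have hri : IsIntegral ℚ r := (Algebra.IsAlgebraic.isAlgebraic r).isIntegral
  have hζi : IsIntegral ℚ ζ := (Algebra.IsAlgebraic.isAlgebraic ζ).isIntegral
  have h1 : Module.finrank ℚ (IntermediateField.adjoin ℚ {r}) = p := by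
    rw [IntermediateField.adjoin.finrank hri, ← hmin, natDegree_X_pow_sub_C]
  have h2 : Module.finrank ℚ (IntermediateField.adjoin ℚ {ζ}) = p - 1 := by
    rw [IntermediateField.adjoin.finrank hζi, ← cyclotomic_eq_minpoly_rat hζ hp.pos,
      natDegree_cyclotomic, Nat.totient_prime hp]
  have h3 : r ∈ IntermediateField.adjoin ℚ {ζ} := by
    rw [← InfiniteGalois.fixedField_fixingSubgroup (IntermediateField.adjoin ℚ {ζ}),
      IntermediateField.mem_fixedField_iff]
    intro σ hσ
    exact hcon σ ((IntermediateField.mem_fixingSubgroup_iff _ σ).1 hσ ζ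
      (IntermediateField.mem_adjoin_simple_self ℚ ζ))
  have h4 : IntermediateField.adjoin ℚ {r} ≤ IntermediateField.adjoin ℚ {ζ} :=
    IntermediateField.adjoin_simple_le_iff.2 h3
  have : FiniteDimensional ℚ (IntermediateField.adjoin ℚ {ζ}) :=
    IntermediateField.adjoin.finiteDimensional hζi
  have h5 : Module.finrank ℚ (IntermediateField.adjoin ℚ {r}) ≤
      Module.finrank ℚ (IntermediateField.adjoin ℚ {ζ}) :=
    LinearMap.finrank_le_finrank_of_injective
      (f := (IntermediateField.inclusion h4).toLinearMap) (IntermediateField.inclusion h4).injective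
  have := hp.one_lt
  omega

/-- **Powers are detected modulo primes**: an integer which is a `p`-th power modulo all but finitely many primes is the
`p`-th power of an integer, `p` a prime. -/
theorem exists_pow_eq {p : ℕ} (hp : p.Prime) {D : ℤ} (T : Finset ℕ)
    (h : ∀ q : ℕ, q.Prime → q ∉ T → ∃ x : ZMod q, x ^ p = D) : ∃ y : ℤ, y ^ p = D := by
  by_contra hcon
  push Not at hcon
  have : NeZero p := ⟨hp.ne_zero⟩
  obtain ⟨ζ, hζ⟩ := DS.exists_primitive p
  obtain ⟨r, hr⟩ := IsAlgClosed.exists_pow_nat_eq (D : Qb) hp.pos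
  obtain ⟨σ, hσζ, hσr⟩ := exists_move hp hcon hζ hr
  have hD0 : D ≠ 0 := by
    rintro rfl
    exact hcon 0 (zero_pow hp.ne_zero)
  let L : IntermediateField ℚ Qb := IntermediateField.adjoin ℚ {ζ, r}
  have hL : FiniteDimensional ℚ L := by
    refine IntermediateField.finiteDimensional_adjoin fun x _ =>
      (Algebra.IsAlgebraic.isAlgebraic x).isIntegral
  obtain ⟨q, A, φ, hq, hqT, hA, hφ, hmem⟩ := Cheb.exists_frobenius_dense
    (IntermediateField.fixingSubgroup_isOpen L) σ (T ∪ (p * D.natAbs).divisors)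
  rw [Finset.mem_union, not_or, Nat.mem_divisors] at hqT
  have hne : p * D.natAbs ≠ 0 := mul_ne_zero hp.ne_zero (Int.natAbs_ne_zero.2 hD0)
  have hqp : ¬ q ∣ p := fun h => hqT.2 ⟨h.mul_right _, hne⟩
  have hqD : ¬ (q : ℤ) ∣ D := fun h => hqT.2 ⟨(Int.natCast_dvd.1 h).mul_left _, hne⟩
  have hfix : ∀ x ∈ L, φ x = σ x := by
    intro x hx
    have h1 : σ⁻¹ (φ x) = x := (IntermediateField.mem_fixingSubgroup_iff L _).1 hmem x hx
    exact (AlgEquiv.symm_apply_eq σ).1 h1
  have hζL : ζ ∈ L := IntermediateField.subset_adjoin _ _ (by simp)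
  have hrL : r ∈ L := IntermediateField.subset_adjoin _ _ (by simp)
  obtain ⟨x, hx⟩ := h q hq hqT.1
  exact not_pow_of_frob hp hζ hr hq hqp hqD hA hφ (by rw [hfix r hrL]; exact hσr)
    (by rw [hfix ζ hζL]; exact hσζ) x hx

end Fermat.Agent.Cor.H14
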