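import Fermat.Agent.S01
import Fermat.Agent.Cor.H14Powers

/-!
# Fermat's Last Theorem modulo primes

`infinite_primes_no_solution`: for `n ≥ 3` and positive integers `a`, `b` there are infinitely many primes `q` for which
the congruence `aⁿ + bⁿ ≡ cⁿ (mod q)` has no solution `c`.

Since an equality `aⁿ + bⁿ = cⁿ` would give a solution modulo all primes, this is a strengthening of Fermat's Last
Theorem. The proof uses Fermat's Last Theorem (S01) and the fact that an integer which is a `p`-th power modulo almost all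
primes is a `p`-th power (Chebotarev).

This file is not used by any of the statement files.
-/

set_option autoImplicit false

namespace Fermat.Agent.Cor.H14

/-- **Fermat's Last Theorem modulo primes.** -/
theorem infinite_primes_no_solution {n : ℕ} (hn : 3 ≤ n) {a b : ℕ} (ha : 0 < a) (hb : 0 < b) :
    {q : ℕ | q.Prime ∧ ∀ c : ZMod q, (a : ZMod q) ^ n + (b : ZMod q) ^ n ≠ c ^ n}.Infinite := by
  intro hfin
  have key : ∀ p m : ℕ, p.Prime → n = p * m → ∃ y : ℤ, y ^ p = (a : ℤ) ^ n + (b : ℤ) ^ n := by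
    intro p m hp hnm
    refine exists_pow_eq hp hfin.toFinset fun q hq hqT => ?_
    rw [Set.Finite.mem_toFinset, Set.mem_ofPred_eq, not_and] at hqT
    have h1 := hqT hq
    push Not at h1
    obtain ⟨c, hc⟩ := h1
    refine ⟨c ^ m, ?_⟩
    push_cast
    rw [hc, hnm, ← pow_mul, mul_comm]
  have ha' : (0 : ℤ) < a := by exact_mod_cast ha
  have hb' : (0 : ℤ) < b := by exact_mod_cast hb
  rcases Nat.four_dvd_or_exists_odd_prime_and_dvd_of_two_lt (n := n) (by omega) with
    ⟨m, hm⟩ | ⟨p, hp, ⟨m, hm⟩, hodd⟩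
  · obtain ⟨y, hy⟩ := key 2 (2 * m) Nat.prime_two (by omega)
    have h1 : ((a : ℤ) ^ m) ^ 4 + ((b : ℤ) ^ m) ^ 4 = y ^ 2 := by
      rw [hy, hm, ← pow_mul, ← pow_mul, mul_comm m 4]
    exact not_fermat_42 (pow_ne_zero m ha'.ne') (pow_ne_zero m hb'.ne') h1
  · obtain ⟨y, hy⟩ := key p m hp hm
    have hy0 : 0 < y := by
      rw [← hodd.pow_pos_iff, hy]
      positivity
    have hp3 : 3 ≤ p := by
      have h2 := hp.two_le
      have h3 : p ≠ 2 := by
        rintro rfl
        exact absurd hodd (by decide)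
      omega
    refine S01.result p hp3 (a ^ m) (b ^ m) y.natAbs (Nat.pos_of_ne_zero (pow_ne_zero m ha.ne'))
      (Nat.pos_of_ne_zero (pow_ne_zero m hb.ne')) (Int.natAbs_pos.2 hy0.ne') ?_
    have h1 : (((a ^ m) ^ p + (b ^ m) ^ p : ℕ) : ℤ) = ((y.natAbs ^ p : ℕ) : ℤ) := by
      push_cast
      rw [abs_of_pos hy0, hy, hm, ← pow_mul, ← pow_mul, mul_comm m p]
    exact_mod_cast h1

end Fermat.Agent.Cor.H14
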