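import Fermat.Agent.Cor.H14Watson

/-!
# The integers represented by a binary quadratic form have density zero

* `hasDensity_quad`: let `D` be an integer which is not a square. There is a set of primes of density `1 / 2` modulo which
  `D` is not a square;
* `natZero_form`: let `a x² + b x y + c y²` be a binary quadratic form with integral coefficients whose discriminant
  `b² - 4 a c` is not a square. The set of the positive integers represented by the form has natural density `0`.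

This file is not used by any of the statement files.
-/

set_option autoImplicit false

open scoped Classical Topology

noncomputable section

namespace Fermat.Agent.Cor.H14

open Filter

local notation "Qb" => AlgebraicClosure ℚ
local notation "Γq" => AlgebraicClosure ℚ ≃ₐ[ℚ] AlgebraicClosure ℚ

theorem not_isSquare_of_frob {D : ℤ} {r : Qb} (hr : r ^ 2 = D) {q : ℕ} (hq : q.Prime)
    (hqD : ¬ (q : ℤ) ∣ 4 * D) {A : ValuationSubring Qb} (hA : A.LiesOverPrime q) {φ : Γq}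
    (hφ : A.IsFrobeniusAt φ q) (h : φ r = -r) : ¬ IsSquare (D : ZMod q) := by
  rintro ⟨x, hx⟩
  have : Fact q.Prime := ⟨hq⟩
  have : CharP (IsLocalRing.ResidueField A) q := H05.charP_residueField hq hA
  have hrA : r ∈ A := H05.mem_of_isIntegral A (IsIntegral.of_pow (n := 2) two_pos (by
    rw [hr]
    exact isIntegral_algebraMap (R := ℤ) (x := D)))
  obtain ⟨h1, h2⟩ := hφ
  have h3 := h2 (IsLocalRing.residue A ⟨r, hrA⟩)
  have h4 : (IsLocalRing.residue A ⟨r, hrA⟩) ^ 2 = (D : IsLocalRing.ResidueField A) := by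
    rw [← map_pow, ← map_intCast (IsLocalRing.residue A)]
    congr 1
    apply Subtype.ext
    push_cast
    exact hr
  let f : ZMod q →+* IsLocalRing.ResidueField A := ZMod.castHom dvd_rfl _
  have h5 : (IsLocalRing.residue A ⟨r, hrA⟩) ^ 2 = f x ^ 2 := by
    rw [h4, ← map_intCast f, hx, map_mul, sq]
  have h6 : (IsLocalRing.residue A ⟨r, hrA⟩) ^ q = IsLocalRing.residue A ⟨r, hrA⟩ := by
    rcases sq_eq_sq_iff_eq_or_eq_neg.1 h5 with h | h
    · rw [h, ← map_pow, ZMod.pow_card]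
    · rw [h, ← map_neg, ← map_pow, ZMod.pow_card]
  have hφr : φ r ∈ A := by
    rw [h]
    exact neg_mem hrA
  have h7 : IsLocalRing.residue A ⟨φ r, hφr⟩ = IsLocalRing.residue A ⟨r, hrA⟩ := h3.trans h6
  have h8 : IsLocalRing.residue A ⟨φ r, hφr⟩ = -IsLocalRing.residue A ⟨r, hrA⟩ := by
    rw [← map_neg]
    congr 1
    exact Subtype.ext h
  have h9 : 2 * IsLocalRing.residue A ⟨r, hrA⟩ = 0 := by
    rw [h7] at h8
    linear_combination h8
  refine hqD ((CharP.intCast_eq_zero_iff (IsLocalRing.ResidueField A) q (4 * D)).1 ?_)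
  push_cast
  rw [← h4]
  linear_combination (2 * IsLocalRing.residue A ⟨r, hrA⟩) * h9

theorem exists_quad {D : ℤ} (hD : ¬ IsSquare D) : ∃ (r : Qb) (ρ : Γq →* ℤˣ), r ^ 2 = D ∧
    Function.Surjective ρ ∧ ∀ σ, (ρ σ = 1 ↔ σ r = r) ∧ (ρ σ = -1 ↔ σ r = -r) := by
  have hg : IsGalois ℚ Qb := H51.isGalois_Qbar
  obtain ⟨r, hr⟩ := IsAlgClosed.exists_pow_nat_eq (D : Qb) two_pos
  have hD0 : D ≠ 0 := by
    rintro rfl
    exact hD ⟨0, by norm_num⟩
  have hr0 : r ≠ 0 := by
    rintro rfl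
    rw [zero_pow two_ne_zero] at hr
    exact hD0 (by exact_mod_cast hr.symm)
  have hrr : r ≠ -r := by
    intro h
    apply hr0
    have h1 : 2 * r = 0 := by linear_combination h
    exact (mul_eq_zero.1 h1).resolve_left two_ne_zero
  have hσ : ∀ σ : Γq, σ r = r ∨ σ r = -r := by
    intro σ
    apply sq_eq_sq_iff_eq_or_eq_neg.1
    rw [← map_pow, hr, map_intCast]
  have hne : (1 : ℤˣ) ≠ -1 := by decide
  let ρ : Γq →* ℤˣ := MonoidHom.mk' (fun σ => if σ r = r then 1 else -1) (fun σ τ => by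
    have e : (σ * τ) r = σ (τ r) := rfl
    rw [e]
    rcases hσ σ with h1 | h1 <;> rcases hσ τ with h2 | h2
    · rw [h2, h1, if_pos rfl]
      rfl
    · rw [h2, map_neg, h1, if_neg hrr.symm, if_pos rfl]
      rfl
    · rw [h2, h1, if_neg hrr.symm, if_pos rfl]
      rfl
    · rw [h2, map_neg, h1, neg_neg, if_pos rfl, if_neg hrr.symm]
      rfl)
  have hρ : ∀ σ : Γq, ρ σ = if σ r = r then 1 else -1 := fun σ => rfl
  have h1 : ∀ σ : Γq, (ρ σ = 1 ↔ σ r = r) ∧ (ρ σ = -1 ↔ σ r = -r) := by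
    intro σ
    rw [hρ]
    rcases hσ σ with h | h
    · rw [h, if_pos rfl]
      exact ⟨⟨fun _ => rfl, fun _ => rfl⟩, ⟨fun h => absurd h hne, fun h => absurd h hrr⟩⟩
    · rw [h, if_neg hrr.symm]
      exact ⟨⟨fun h => absurd h.symm hne, fun h => absurd h.symm hrr⟩,
        ⟨fun _ => rfl, fun _ => rfl⟩⟩
  refine ⟨r, ρ, hr, fun u => ?_, h1⟩
  rcases Int.units_eq_one_or u with rfl | rfl
  · exact ⟨1, map_one ρ⟩
  · by_contra hcon
    push Not at hcon
    have h2 : ∀ σ : Γq, σ r = r := fun σ =>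
      (hσ σ).resolve_right fun h => hcon σ ((h1 σ).2.2 h)
    have h3 : r ∈ (⊥ : IntermediateField ℚ Qb) := (InfiniteGalois.mem_bot_iff_fixed r).2 h2
    obtain ⟨y, hy⟩ := IntermediateField.mem_bot.1 h3
    apply hD
    rw [← Rat.isSquare_intCast_iff]
    refine ⟨y, ?_⟩
    apply (algebraMap ℚ Qb).injective
    rw [map_mul, hy, map_intCast, ← hr, sq]

/-- If `D` is not a square, there is a set of primes of density `1 / 2` modulo which `D` is not a square. -/
theorem hasDensity_quad {D : ℤ} (hD : ¬ IsSquare D) : ∃ P : Set ℕ, HasDensity P (1 / 2) ∧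
    ∀ q : ℕ, q.Prime → q ∈ P → ¬ (q : ℤ) ∣ 4 * D ∧ ¬ IsSquare (D : ZMod q) := by
  obtain ⟨r, ρ, hr, hsurj, hρ⟩ := exists_quad hD
  have hD0 : D ≠ 0 := by
    rintro rfl
    exact hD ⟨0, by norm_num⟩
  have h1 := hasDensity_rep hsurj ⟨IntermediateField.adjoin ℚ {r},
    IntermediateField.adjoin.finiteDimensional (Algebra.IsAlgebraic.isAlgebraic r).isIntegral,
    fun σ hσ => (hρ σ).1.2 (hσ r (IntermediateField.mem_adjoin_simple_self ℚ r))⟩ {-1}
    (fun g hg t => by
      rw [Set.mem_singleton_iff] at hg ⊢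
      rw [hg, mul_comm t, mul_inv_cancel_right])
  have h2 : (Nat.card ({-1} : Set ℤˣ) : ℝ) / Nat.card ℤˣ = 1 / 2 := by
    rw [Nat.card_eq_fintype_card, Set.card_singleton, Nat.card_eq_fintype_card, Fintype.card_units_int]
    norm_num
  rw [h2] at h1
  refine ⟨_ \ {q | (q : ℤ) ∣ 4 * D}, h1.congr (Finset.finite_toSet (4 * D).natAbs.divisors)
    fun q hq hqD => ⟨fun h => ⟨h, fun h3 => hqD ?_⟩, fun h => h.1⟩, ?_⟩
  · rw [Finset.mem_coe, Nat.mem_divisors]
    exact ⟨Int.natCast_dvd.1 h3, Int.natAbs_ne_zero.2 (mul_ne_zero (by norm_num) hD0)⟩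
  · rintro q hq ⟨⟨A, φ, hA, hφ, hmem⟩, hqD⟩
    exact ⟨hqD, not_isSquare_of_frob hr hq hqD hA hφ ((hρ φ).2.1 hmem)⟩

/-- **The set of the positive integers represented by a binary quadratic form whose discriminant is not a square has
natural density zero.** -/
theorem natZero_form {a b c : ℤ} (hD : ¬ IsSquare (b ^ 2 - 4 * a * c)) :
    Tendsto (fun N : ℕ => (({n : ℕ | ∃ x y : ℤ, (n : ℤ) = a * x ^ 2 + b * x * y + c * y ^ 2} ∩
      Set.Icc 1 N).ncard : ℝ) / N) atTop (𝓝 0) := by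
  obtain ⟨P, hP, hPD⟩ := hasDensity_quad hD
  have ha : a ≠ 0 := by
    rintro rfl
    exact hD ⟨b, by ring⟩
  have hP' : HasDensity (P \ {q | (q : ℤ) ∣ 2 * a}) (1 / 2) :=
    hP.congr (Finset.finite_toSet (2 * a).natAbs.divisors)
      fun q hq hqD => ⟨fun h => ⟨h, fun h3 => hqD (by
        rw [Finset.mem_coe, Nat.mem_divisors]
        exact ⟨Int.natCast_dvd.1 h3, Int.natAbs_ne_zero.2 (mul_ne_zero two_ne_zero ha)⟩)⟩,
        fun h => h.1⟩
  refine natZero_of_exact hP' (by norm_num) fun q hq hqP m hm hmem => ?_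
  obtain ⟨hqD, hsq⟩ := hPD q hq hqP.1
  have hqa : ¬ (q : ℤ) ∣ 2 * a := hqP.2
  obtain ⟨x, y, hxy⟩ := hmem
  have hqi : Prime (q : ℤ) := Nat.prime_iff_prime_int.1 hq
  have : Fact q.Prime := ⟨hq⟩
  have e1 : (2 * a * x + b * y) ^ 2 - (b ^ 2 - 4 * a * c) * y ^ 2 = 4 * a * (q * m) := by
    have h1 : ((q * m : ℕ) : ℤ) = (q : ℤ) * m := by push_cast; rfl
    rw [h1] at hxy
    rw [hxy]
    ring
  -- `q ∣ y`
  have hy : (q : ℤ) ∣ y := by
    by_contra hy
    apply hsq
    have h1 := congrArg (fun z : ℤ => (z : ZMod q)) e1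
    push_cast at h1
    rw [ZMod.natCast_self, zero_mul, mul_zero, sub_eq_zero] at h1
    have hy' : (y : ZMod q) ≠ 0 := fun h => hy ((ZMod.intCast_zmod_eq_zero_iff_dvd y q).1 h)
    refine ⟨(2 * a * x + b * y) / y, ?_⟩
    push_cast
    rw [← sq, div_pow, h1, mul_div_cancel_right₀ _ (pow_ne_zero 2 hy')]
  have hx : (q : ℤ) ∣ x := by
    have h1 : (q : ℤ) ∣ (2 * a * x + b * y) ^ 2 := by
      have h2 : (2 * a * x + b * y) ^ 2 = q * (4 * a * m) + (b ^ 2 - 4 * a * c) * y * y := by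
        linear_combination e1
      rw [h2]
      exact dvd_add (dvd_mul_right _ _) (hy.mul_left _)
    have h2 := hqi.dvd_of_dvd_pow h1
    have h3 : (q : ℤ) ∣ 2 * a * x := (dvd_add_left (hy.mul_left b)).1 h2
    exact (hqi.dvd_or_dvd h3).resolve_left hqa
  obtain ⟨x', rfl⟩ := hx
  obtain ⟨y', rfl⟩ := hy
  have h1 : (q : ℤ) * m = q * (q * (a * x' ^ 2 + b * x' * y' + c * y' ^ 2)) := by
    have h2 : ((q * m : ℕ) : ℤ) = (q : ℤ) * m := by push_cast; rfl
    rw [← h2, hxy]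
    ring
  have h2 := mul_left_cancel₀ hqi.ne_zero h1
  apply hm
  have h3 : (q : ℤ) ∣ m := by
    rw [h2]
    exact dvd_mul_right _ _
  exact_mod_cast h3

end Fermat.Agent.Cor.H14
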