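import Fermat.Agent.Cor.H14Small

/-!
# The semistable elliptic curves of conductor at most 21

For `N = 11, 14, 15, 17, 19, 21` the curve `X₀(N)` has genus one. Hence all semistable elliptic curves of conductor `N`
have the `a_ℓ` of one explicit curve `E₁₁ : y² + y = x³ - x²`, …, `E₂₁ : y² + xy = x³ + x`.
-/

set_option autoImplicit false

namespace Fermat.Agent.Cor.H14

open CongruenceSubgroup ModularFormClass ModularCurve WeierstrassCurve

/-- numerical form of the genus formula -/
lemma genus_eq {N a b c d : ℕ} [NeZero N] {g : ℚ} (ha : dedekindPsi N = a)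
    (hb : (Finset.univ.filter fun x : ZMod N => x ^ 2 + 1 = 0).card = b)
    (hc : (Finset.univ.filter fun x : ZMod N => x ^ 2 + x + 1 = 0).card = c)
    (hd : cuspCount N = d) (h : (1 : ℚ) + a / 12 - b / 4 - c / 3 - d / 2 = g) :
    genusFormula N = g := by
  rw [genusFormula, Main.nuTwo_eq, Main.nuThree_eq, ha, hb, hc, hd, h]

theorem genus_11 : genusFormula 11 = 1 :=
  genus_eq (a := 12) (b := 0) (c := 0) (d := 2) (by decide +kernel) (by decide) (by decide)
    (by decide +kernel) (by norm_num)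

theorem genus_14 : genusFormula 14 = 1 :=
  genus_eq (a := 24) (b := 0) (c := 0) (d := 4) (by decide +kernel) (by decide) (by decide)
    (by decide +kernel) (by norm_num)

theorem genus_15 : genusFormula 15 = 1 :=
  genus_eq (a := 24) (b := 0) (c := 0) (d := 4) (by decide +kernel) (by decide) (by decide)
    (by decide +kernel) (by norm_num)

theorem genus_17 : genusFormula 17 = 1 :=
  genus_eq (a := 18) (b := 2) (c := 0) (d := 2) (by decide +kernel) (by decide) (by decide)
    (by decide +kernel) (by norm_num)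

theorem genus_19 : genusFormula 19 = 1 :=
  genus_eq (a := 20) (b := 0) (c := 2) (d := 2) (by decide +kernel) (by decide) (by decide)
    (by decide +kernel) (by norm_num)

theorem genus_21 : genusFormula 21 = 1 :=
  genus_eq (a := 32) (b := 0) (c := 2) (d := 4) (by decide +kernel) (by decide) (by decide)
    (by decide +kernel) (by norm_num)

/-- `y² + y = x³ - x²` -/
def E11 : WeierstrassCurve ℤ := ⟨0, -1, 1, 0, 0⟩
/-- `y² + xy + y = x³ - x` -/
def E14 : WeierstrassCurve ℤ := ⟨1, 0, 1, -1, 0⟩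
/-- `y² + xy + y = x³ + x²` -/
def E15 : WeierstrassCurve ℤ := ⟨1, 1, 1, 0, 0⟩
/-- `y² + xy + y = x³ - x² - x` -/
def E17 : WeierstrassCurve ℤ := ⟨1, -1, 1, -1, 0⟩
/-- `y² + y = x³ + x² + x` -/
def E19 : WeierstrassCurve ℤ := ⟨0, 1, 1, 1, 0⟩
/-- `y² + xy = x³ + x` -/
def E21 : WeierstrassCurve ℤ := ⟨1, 0, 0, 1, 0⟩

lemma disc_11 : E11.Δ = -11 := by decide
lemma disc_14 : E14.Δ = -28 := by decide
lemma disc_15 : E15.Δ = -15 := by decide
lemma disc_17 : E17.Δ = 17 := by decide
lemma disc_19 : E19.Δ = -19 := by decide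
lemma disc_21 : E21.Δ = -63 := by decide

lemma hasLevel_of {W : WeierstrassCurve ℤ} {N : ℕ} (h0 : W.Δ ≠ 0)
    (hpf : W.Δ.natAbs.primeFactors = N.primeFactors) (hN : N ≠ 0)
    (hc : ∀ q ∈ N.primeFactors, ¬ (q : ℤ) ∣ W.c₄) : HasLevel W N := by
  have key : ∀ q : ℕ, q.Prime → (q ∣ N ↔ (q : ℤ) ∣ W.Δ) := by
    intro q hq
    rw [Int.natCast_dvd]
    constructor
    · intro h
      have h1 : q ∈ N.primeFactors := Nat.mem_primeFactors.mpr ⟨hq, h, hN⟩
      rw [← hpf] at h1
      exact Nat.dvd_of_mem_primeFactors h1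
    · intro h
      have h1 : q ∈ W.Δ.natAbs.primeFactors :=
        Nat.mem_primeFactors.mpr ⟨hq, h, by simpa using h0⟩
      rw [hpf] at h1
      exact Nat.dvd_of_mem_primeFactors h1
  exact ⟨h0, fun q hq hd => hc q (Nat.mem_primeFactors.mpr ⟨hq, (key q hq).mpr hd, hN⟩), key⟩

theorem hasLevel_11 : HasLevel E11 11 :=
  hasLevel_of (by decide) (by decide +kernel) (by decide) (by decide +kernel)
theorem hasLevel_14 : HasLevel E14 14 :=
  hasLevel_of (by decide) (by decide +kernel) (by decide) (by decide +kernel)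
theorem hasLevel_15 : HasLevel E15 15 :=
  hasLevel_of (by decide) (by decide +kernel) (by decide) (by decide +kernel)
theorem hasLevel_17 : HasLevel E17 17 :=
  hasLevel_of (by decide) (by decide +kernel) (by decide) (by decide +kernel)
theorem hasLevel_19 : HasLevel E19 19 :=
  hasLevel_of (by decide) (by decide +kernel) (by decide) (by decide +kernel)
theorem hasLevel_21 : HasLevel E21 21 :=
  hasLevel_of (by decide) (by decide +kernel) (by decide) (by decide +kernel)

section Count

/-- number of affine points modulo `p` -/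
def cnt (p : ℕ) [NeZero p] (W : WeierstrassCurve ℤ) : ℕ :=
  ∑ x : ZMod p, (Finset.univ.filter fun y : ZMod p =>
    y ^ 2 + (W.a₁ : ZMod p) * x * y + (W.a₃ : ZMod p) * y =
      x ^ 3 + (W.a₂ : ZMod p) * x ^ 2 + (W.a₄ : ZMod p) * x + (W.a₆ : ZMod p)).card

theorem card_point_eq {p : ℕ} [hp : Fact p.Prime] {W : WeierstrassCurve ℤ} (h : ¬ (p : ℤ) ∣ W.Δ) :
    Nat.card (W.reductionMod p).toAffine.Point = 1 + cnt p W := by
  have hV : (W.reductionMod p).Δ ≠ 0 := by
    rw [WeierstrassCurve.reductionMod, WeierstrassCurve.map_Δ]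
    intro h1
    exact h ((ZMod.intCast_zmod_eq_zero_iff_dvd W.Δ p).mp (by exact_mod_cast h1))
  have hell : (W.reductionMod p).IsElliptic := ⟨isUnit_iff_ne_zero.mpr hV⟩
  have hell' : (W.reductionMod p).toAffine.IsElliptic := hell
  rw [Frob.card_point_eq]
  congr 1
  unfold cnt
  refine Finset.sum_congr rfl fun x _ => ?_
  congr 1
  ext y
  rw [Frob.mem_fib, Finset.mem_filter, WeierstrassCurve.Affine.equation_iff]
  simp [WeierstrassCurve.reductionMod]

theorem apOfModel_eq {p : ℕ} [hp : Fact p.Prime] {W : WeierstrassCurve ℤ} (h : ¬ (p : ℤ) ∣ W.Δ) :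
    W.apOfModel p = p - cnt p W := by
  have h1 : W.apOfModel p = (p : ℤ) + 1 - (Nat.card (W.reductionMod p).toAffine.Point : ℤ) := by
    unfold WeierstrassCurve.apOfModel WeierstrassCurve.traceOfFrobenius WeierstrassCurve.card
    rw [Nat.card_zmod]
  rw [h1, card_point_eq h]
  push_cast
  ring

instance : Fact (Nat.Prime 5) := ⟨Nat.prime_five⟩
instance : Fact (Nat.Prime 7) := ⟨by norm_num⟩

theorem ap2_11 : E11.apOfModel 2 = -2 := by
  rw [apOfModel_eq (p := 2) (by decide)]; decide +kernel
theorem ap3_11 : E11.apOfModel 3 = -1 := by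
  rw [apOfModel_eq (p := 3) (by decide)]; decide +kernel
theorem ap5_11 : E11.apOfModel 5 = 1 := by
  rw [apOfModel_eq (p := 5) (by decide)]; decide +kernel
theorem ap7_11 : E11.apOfModel 7 = -2 := by
  rw [apOfModel_eq (p := 7) (by decide)]; decide +kernel
theorem ap3_14 : E14.apOfModel 3 = -2 := by
  rw [apOfModel_eq (p := 3) (by decide)]; decide +kernel
theorem ap5_14 : E14.apOfModel 5 = 0 := by
  rw [apOfModel_eq (p := 5) (by decide)]; decide +kernel
theorem ap2_15 : E15.apOfModel 2 = -1 := by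
  rw [apOfModel_eq (p := 2) (by decide)]; decide +kernel
theorem ap7_15 : E15.apOfModel 7 = 0 := by
  rw [apOfModel_eq (p := 7) (by decide)]; decide +kernel
theorem ap2_17 : E17.apOfModel 2 = -1 := by
  rw [apOfModel_eq (p := 2) (by decide)]; decide +kernel
theorem ap3_17 : E17.apOfModel 3 = 0 := by
  rw [apOfModel_eq (p := 3) (by decide)]; decide +kernel
theorem ap5_17 : E17.apOfModel 5 = -2 := by
  rw [apOfModel_eq (p := 5) (by decide)]; decide +kernel
theorem ap7_17 : E17.apOfModel 7 = 4 := by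
  rw [apOfModel_eq (p := 7) (by decide)]; decide +kernel
theorem ap2_19 : E19.apOfModel 2 = 0 := by
  rw [apOfModel_eq (p := 2) (by decide)]; decide +kernel
theorem ap3_19 : E19.apOfModel 3 = -2 := by
  rw [apOfModel_eq (p := 3) (by decide)]; decide +kernel
theorem ap5_19 : E19.apOfModel 5 = 3 := by
  rw [apOfModel_eq (p := 5) (by decide)]; decide +kernel
theorem ap7_19 : E19.apOfModel 7 = -1 := by
  rw [apOfModel_eq (p := 7) (by decide)]; decide +kernel
theorem ap2_21 : E21.apOfModel 2 = -1 := by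
  rw [apOfModel_eq (p := 2) (by decide)]; decide +kernel
theorem ap5_21 : E21.apOfModel 5 = -2 := by
  rw [apOfModel_eq (p := 5) (by decide)]; decide +kernel

end Count

end Fermat.Agent.Cor.H14
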