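import Fermat.Agent.Main

/-!
# Fermat's Last Theorem in other rings

* `flt_of_hom`: let `R` be an integral domain with enough ring homomorphisms to `ℚ` (every nonzero element is nonzero
  under some homomorphism). Then Fermat's Last Theorem holds in `R` for all exponents `n ≥ 3`;
* `flt_mvPolynomial`, `flt_mvPolynomial_int`, `flt_rationalFunctions`: Fermat's Last Theorem in the rings of polynomials
  over `ℚ` and `ℤ` in any number of variables and in the purely transcendental extensions of `ℚ` (and so in all their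
  subfields, `flt_of_injective`);
* `flt_germ`: Fermat's Last Theorem for the nonstandard integers (ultrapowers of `ℤ`);
* `irrational_two_rpow`: the `n`-th root of `2` is irrational for `n ≥ 3`, since `b ^ n + b ^ n ≠ a ^ n`.

This file is not used by any of the statement files.
-/

set_option autoImplicit false

namespace Fermat.Agent.Cor.H14

variable {n : ℕ}

/-- passage to subrings -/
theorem flt_of_injective {R S : Type*} [CommRing R] [CommRing S] (f : R →+* S)
    (hf : Function.Injective f) (h : FermatLastTheoremWith S n) : FermatLastTheoremWith R n := by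
  intro a b c ha hb hc habc
  refine h (f a) (f b) (f c) ?_ ?_ ?_ (by rw [← map_pow, ← map_pow, ← map_add, habc, map_pow]) <;>
    rwa [Ne, map_eq_zero_iff f hf]

/-- **Fermat's Last Theorem in a domain with enough homomorphisms to `ℚ`.** -/
theorem flt_of_hom {R : Type*} [CommRing R] [IsDomain R]
    (h : ∀ r : R, r ≠ 0 → ∃ φ : R →+* ℚ, φ r ≠ 0) (hn : 3 ≤ n) : FermatLastTheoremWith R n := by
  intro a b c ha hb hc habc
  obtain ⟨φ, hφ⟩ := h (a * b * c) (mul_ne_zero (mul_ne_zero ha hb) hc)
  rw [map_mul, map_mul] at hφ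
  exact Main.flt_rat n hn (φ a) (φ b) (φ c) (left_ne_zero_of_mul (left_ne_zero_of_mul hφ))
    (right_ne_zero_of_mul (left_ne_zero_of_mul hφ)) (right_ne_zero_of_mul hφ)
    (by rw [← map_pow, ← map_pow, ← map_add, habc, map_pow])

/-- passage to the field of fractions -/
theorem flt_fractionRing {R K : Type*} [CommRing R] [IsDomain R] [Field K] [Algebra R K]
    [IsFractionRing R K] (h : FermatLastTheoremWith R n) : FermatLastTheoremWith K n := by
  intro a b c ha hb hc habc
  obtain ⟨a₁, a₂, ha₂, rfl⟩ := IsFractionRing.div_surjective (A := R) a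
  obtain ⟨b₁, b₂, hb₂, rfl⟩ := IsFractionRing.div_surjective (A := R) b
  obtain ⟨c₁, c₂, hc₂, rfl⟩ := IsFractionRing.div_surjective (A := R) c
  have hinj := IsFractionRing.injective R K
  have e : ∀ x ∈ nonZeroDivisors R, algebraMap R K x ≠ 0 := fun x hx =>
    (map_ne_zero_iff _ hinj).2 (nonZeroDivisors.ne_zero hx)
  have h1 : a₁ ≠ 0 := by rintro rfl; simp at ha
  have h2 : b₁ ≠ 0 := by rintro rfl; simp at hb
  have h3 : c₁ ≠ 0 := by rintro rfl; simp at hc
  have ka := nonZeroDivisors.ne_zero ha₂
  have kb := nonZeroDivisors.ne_zero hb₂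
  have kc := nonZeroDivisors.ne_zero hc₂
  refine h (a₁ * b₂ * c₂) (b₁ * a₂ * c₂) (c₁ * a₂ * b₂) (mul_ne_zero (mul_ne_zero h1 kb) kc)
    (mul_ne_zero (mul_ne_zero h2 ka) kc) (mul_ne_zero (mul_ne_zero h3 ka) kb) ?_
  apply hinj
  have qa := e _ ha₂
  have qb := e _ hb₂
  have qc := e _ hc₂
  have e1 : algebraMap R K a₁ * algebraMap R K b₂ * algebraMap R K c₂ =
      (algebraMap R K a₁ / algebraMap R K a₂) *
        (algebraMap R K a₂ * algebraMap R K b₂ * algebraMap R K c₂) := by field_simp
  have e2 : algebraMap R K b₁ * algebraMap R K a₂ * algebraMap R K c₂ =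
      (algebraMap R K b₁ / algebraMap R K b₂) *
        (algebraMap R K a₂ * algebraMap R K b₂ * algebraMap R K c₂) := by field_simp
  have e3 : algebraMap R K c₁ * algebraMap R K a₂ * algebraMap R K b₂ =
      (algebraMap R K c₁ / algebraMap R K c₂) *
        (algebraMap R K a₂ * algebraMap R K b₂ * algebraMap R K c₂) := by field_simp
  simp only [map_add, map_pow, map_mul]
  rw [e1, e2, e3]
  generalize algebraMap R K a₂ * algebraMap R K b₂ * algebraMap R K c₂ = D
  rw [mul_pow, mul_pow, mul_pow, ← add_mul, habc]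

/-- **Fermat's Last Theorem for polynomials with rational coefficients**, in any number of variables. -/
theorem flt_mvPolynomial (σ : Type*) (hn : 3 ≤ n) : FermatLastTheoremWith (MvPolynomial σ ℚ) n := by
  refine flt_of_hom (fun r hr => ?_) hn
  by_contra hcon
  push Not at hcon
  exact hr (MvPolynomial.funext fun x => by rw [map_zero]; exact hcon (MvPolynomial.eval x))

/-- **Fermat's Last Theorem for polynomials with integral coefficients.** -/
theorem flt_mvPolynomial_int (σ : Type*) (hn : 3 ≤ n) :
    FermatLastTheoremWith (MvPolynomial σ ℤ) n :=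
  flt_of_injective (MvPolynomial.map (Int.castRingHom ℚ))
    (MvPolynomial.map_injective _ Int.cast_injective) (flt_mvPolynomial σ hn)

/-- **Fermat's Last Theorem in purely transcendental extensions of `ℚ`.** -/
theorem flt_rationalFunctions (σ K : Type*) [Field K] [Algebra (MvPolynomial σ ℚ) K]
    [IsFractionRing (MvPolynomial σ ℚ) K] (hn : 3 ≤ n) : FermatLastTheoremWith K n :=
  flt_fractionRing (flt_mvPolynomial σ hn)

/-- **Fermat's Last Theorem for nonstandard integers.** -/
theorem flt_germ {ι : Type*} (l : Ultrafilter ι) (hn : 3 ≤ n) :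
    FermatLastTheoremWith (Filter.Germ (l : Filter ι) ℤ) n := by
  intro a b c ha hb hc habc
  induction a using Filter.Germ.inductionOn with | _ f
  induction b using Filter.Germ.inductionOn with | _ g
  induction c using Filter.Germ.inductionOn with | _ k
  have key : ∀ u : ι → ℤ, (u : Filter.Germ (l : Filter ι) ℤ) ≠ 0 → ∀ᶠ i in l, u i ≠ 0 := by
    intro u hu
    rw [Ultrafilter.eventually_not]
    intro h
    exact hu (Filter.Germ.coe_eq.2 h)
  have h1 : ∀ᶠ i in l, f i ^ n + g i ^ n = k i ^ n := by
    have h2 : ((fun i => f i ^ n + g i ^ n : ι → ℤ) : Filter.Germ (l : Filter ι) ℤ) =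
        ((fun i => k i ^ n : ι → ℤ) : Filter.Germ (l : Filter ι) ℤ) := habc
    exact Filter.Germ.coe_eq.1 h2
  obtain ⟨i, hi, hf, hg, hk⟩ := (h1.and ((key f ha).and ((key g hb).and (key k hc)))).exists
  exact Main.flt_int n hn (f i) (g i) (k i) hf hg hk hi

/-- **The `n`-th root of `2` is irrational for `n ≥ 3`** (by Fermat's Last Theorem). -/
theorem irrational_two_rpow (hn : 3 ≤ n) : Irrational ((2 : ℝ) ^ (1 / n : ℝ)) := by
  rintro ⟨q, hq⟩
  have hn0 : (n : ℝ) ≠ 0 := by positivity
  have h1 : ((q ^ n : ℚ) : ℝ) = ((2 : ℚ) : ℝ) := by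
    push_cast
    rw [hq, ← Real.rpow_natCast, ← Real.rpow_mul (by norm_num), one_div, inv_mul_cancel₀ hn0,
      Real.rpow_one]
  have h2 : q ^ n = 2 := by exact_mod_cast h1
  have hq0 : q ≠ 0 := by
    rintro rfl
    rw [zero_pow (by omega)] at h2
    norm_num at h2
  exact Main.flt_rat n hn 1 1 q one_ne_zero one_ne_zero hq0 (by rw [h2]; norm_num)

end Fermat.Agent.Cor.H14
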