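import Fermat.Agent.Cor.H14ApDensity
import Fermat.Agent.Cor.Hasse

/-!
# The supersingular primes of a semistable elliptic curve over `ℚ` have density zero

Let `W` be a semistable elliptic curve over `ℚ`.

* `hasDensity_ap_eq` (Serre): for every integer `t` the set of the primes `q` with `a_q(W) = t` has Dirichlet density `0`;
* `hasDensity_abs_ap_le`: for every `B` the set of the primes `q` with `|a_q(W)| ≤ B` has Dirichlet density `0`;
* `hasDensity_supersingular` (Serre): the set of the supersingular primes `q` of `W` (`q ∣ a_q(W)`) has Dirichlet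
  density `0`.

The proof uses the surjectivity of the representations modulo `p` for all primes `p ≥ 11`, `p ≠ 13` (modularity, level
lowering and Mazur's theorem) and Chebotarev's density theorem.

This file is not used by any of the statement files.
-/

set_option autoImplicit false

open scoped Classical Topology

noncomputable section

namespace Fermat.Agent.Cor.H14

open Filter
open Fermat.Agent.ZC (qsum summable_qsum)

theorem qsum_nonneg (S : Set ℕ) (s : ℝ) : 0 ≤ qsum S s := by
  rw [qsum]
  refine tsum_nonneg fun q => ?_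
  split_ifs
  · positivity
  · exact le_rfl

theorem qsum_mono {S T : Set ℕ} (h : ∀ q : ℕ, q.Prime → q ∈ S → q ∈ T) {s : ℝ} (hs : 1 < s) :
    qsum S s ≤ qsum T s := by
  rw [qsum, qsum]
  refine Summable.tsum_le_tsum (fun q => ?_) (summable_qsum S hs) (summable_qsum T hs)
  have h0 : 0 ≤ 1 / ((q : ℕ) : ℝ) ^ s := by positivity
  by_cases hq : (q : ℕ) ∈ S
  · rw [if_pos hq, if_pos (h q q.2 hq)]
  · rw [if_neg hq]
    split_ifs
    · exact h0
    · exact le_rfl

/-- A set which is contained, up to finite sets, in sets of arbitrarily small density has density zero. -/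
theorem hasDensity_zero {S : Set ℕ} (h : ∀ ε : ℝ, 0 < ε → ∃ (T W : Set ℕ) (δ : ℝ),
    HasDensity T δ ∧ δ < ε ∧ W.Finite ∧ ∀ q : ℕ, q.Prime → q ∉ W → q ∈ S → q ∈ T) :
    HasDensity S 0 := by
  rw [hasDensity_iff, tendsto_order]
  refine ⟨fun a ha => ?_, fun ε hε => ?_⟩
  · filter_upwards [tendsto_qsum_univ.eventually_gt_atTop 0] with s hs
    exact ha.trans_le (div_nonneg (qsum_nonneg S s) hs.le)
  · obtain ⟨T, W, δ, hT, hδ, hW, hST⟩ := h ε hε
    have hT' : HasDensity (T ∪ W) δ :=
      hT.congr hW fun q _ hq => ⟨Or.inl, fun h => h.resolve_right hq⟩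
    filter_upwards [(hasDensity_iff.1 hT').eventually (gt_mem_nhds hδ),
      tendsto_qsum_univ.eventually_gt_atTop 0, eventually_one_lt] with s h1 h2 hs
    refine lt_of_le_of_lt (div_le_div_of_nonneg_right (qsum_mono (fun q hq hqS => ?_) hs) h2.le) h1
    by_cases hqW : q ∈ W
    · exact Or.inr hqW
    · exact Or.inl (hST q hq hqW hqS)

theorem HasDensity.mono_zero {S T : Set ℕ} (hT : HasDensity T 0)
    (h : ∀ q : ℕ, q.Prime → q ∈ S → q ∈ T) : HasDensity S 0 :=
  hasDensity_zero fun _ hε => ⟨T, ∅, 0, hT, hε, Set.finite_empty, fun q hq _ => h q hq⟩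

theorem HasDensity.union_zero {S T : Set ℕ} (hS : HasDensity S 0) (hT : HasDensity T 0) :
    HasDensity (S ∪ T) 0 := by
  rw [hasDensity_iff] at hS hT ⊢
  have h1 := hS.add hT
  rw [add_zero] at h1
  refine squeeze_zero' ?_ ?_ h1
  · filter_upwards [tendsto_qsum_univ.eventually_gt_atTop 0] with s hs
    exact div_nonneg (qsum_nonneg _ s) hs.le
  · filter_upwards [tendsto_qsum_univ.eventually_gt_atTop 0, eventually_one_lt] with s h2 hs
    rw [← add_div]
    exact div_le_div_of_nonneg_right (ZC.qsum_union_le S T hs) h2.le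

theorem hasDensity_empty : HasDensity ∅ 0 := by
  rw [hasDensity_iff]
  have h : ∀ s : ℝ, qsum ∅ s / qsum Set.univ s = 0 := by
    intro s
    have : qsum ∅ s = 0 := by
      rw [qsum]
      simp
    rw [this, zero_div]
  simp only [h]
  exact tendsto_const_nhds

theorem hasDensity_biUnion_zero {ι : Type*} (I : Finset ι) (S : ι → Set ℕ)
    (h : ∀ i ∈ I, HasDensity (S i) 0) : HasDensity (⋃ i ∈ I, S i) 0 := by
  induction I using Finset.induction_on with
  | empty =>
    simp only [Finset.notMem_empty, Set.iUnion_of_empty, Set.iUnion_empty]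
    exact hasDensity_empty
  | insert i I hi ih =>
    rw [Finset.set_biUnion_insert]
    exact (h i (Finset.mem_insert_self i I)).union_zero
      (ih fun j hj => h j (Finset.mem_insert_of_mem hj))

variable {W : WeierstrassCurve ℤ}

/-- **Serre's theorem**: `a_q(W) = t` on a set of primes of density zero only. -/
theorem hasDensity_ap_eq (hΔ : W.Δ ≠ 0) (hss : W.IsSemistableModel) (t : ℤ) :
    HasDensity {q | W.apOfModel q = t} 0 := by
  refine hasDensity_zero fun ε hε => ?_
  obtain ⟨p, hp, hprime⟩ := Nat.exists_infinite_primes (max 14 (⌈2 / ε⌉₊ + 1))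
  have : Fact p.Prime := ⟨hprime⟩
  have hp14 : 14 ≤ p := (le_max_left _ _).trans hp
  have h1 := hasDensity_ap hΔ hss (Mazur.modRep_irreducible hΔ hss hprime (by omega) (by omega))
    (by omega) (t : ZMod p)
  refine ⟨_, ∅, _, h1, ?_, Set.finite_empty, fun q _ _ hq => ?_⟩
  · have h2 : 2 / ε < p := by
      have h3 : ⌈2 / ε⌉₊ + 1 ≤ p := (le_max_right _ _).trans hp
      have h4 : (⌈2 / ε⌉₊ : ℝ) + 1 ≤ p := by exact_mod_cast h3
      have h5 := Nat.le_ceil (2 / ε)
      linarith
    have hp0 : (14 : ℝ) ≤ p := by exact_mod_cast hp14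
    have h3 : 2 / (p : ℝ) < ε := by
      rw [div_lt_iff₀ hε] at h2
      rw [div_lt_iff₀ (by linarith)]
      linarith
    refine lt_of_le_of_lt ?_ h3
    have h4 : (p : ℝ) ^ 2 - 1 > 0 := by nlinarith
    split_ifs
    · rw [div_le_div_iff₀ h4 (by linarith)]
      nlinarith
    · have h5 : 0 < ((p : ℝ) - 1) ^ 2 * (p + 1) := by
        have : 0 < (p : ℝ) - 1 := by linarith
        positivity
      rw [div_le_div_iff₀ h5 (by linarith)]
      nlinarith
  · change (W.apOfModel q : ZMod p) = (t : ZMod p)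
    have h2 : W.apOfModel q = t := hq
    rw [h2]

/-- `|a_q(W)|` is large for almost all primes `q`. -/
theorem hasDensity_abs_ap_le (hΔ : W.Δ ≠ 0) (hss : W.IsSemistableModel) (B : ℤ) :
    HasDensity {q | |W.apOfModel q| ≤ B} 0 := by
  refine (hasDensity_biUnion_zero (Finset.Icc (-B) B) (fun t => {q | W.apOfModel q = t})
    fun t _ => hasDensity_ap_eq hΔ hss t).mono_zero fun q _ hq => ?_
  simp only [Set.mem_iUnion]
  exact ⟨W.apOfModel q, Finset.mem_Icc.2 (abs_le.1 hq), rfl⟩

/-- **The supersingular primes of a semistable elliptic curve over `ℚ` have density zero.** -/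
theorem hasDensity_supersingular (hΔ : W.Δ ≠ 0) (hss : W.IsSemistableModel) :
    HasDensity {q | (q : ℤ) ∣ W.apOfModel q} 0 := by
  refine (hasDensity_ap_eq hΔ hss 0).congr (Finset.finite_toSet ((W.Δ.natAbs * 6).divisors))
    fun q hq hqD => ⟨fun h => ?_, fun h => ?_⟩
  · have h1 : W.apOfModel q = 0 := h
    change (q : ℤ) ∣ W.apOfModel q
    rw [h1]
    exact dvd_zero _
  · have hqD' : ¬ q ∣ W.Δ.natAbs * 6 := fun h => hqD (by
      rw [Finset.mem_coe, Nat.mem_divisors]
      exact ⟨h, mul_ne_zero (Int.natAbs_ne_zero.2 hΔ) (by norm_num)⟩)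
    have hgood : W.IsGoodPrimeFor q := fun h => hqD' ((Int.natCast_dvd.1 h).mul_right _)
    have h6 : ¬ q ∣ 6 := fun h => hqD' (h.mul_left _)
    have hq4 : 4 ≤ q := by
      by_contra hlt
      push Not at hlt
      have h2 := hq.two_le
      interval_cases q
      · exact h6 (by norm_num)
      · exact h6 (by norm_num)
    have h1 := Bounds.apOfModel_sq_lt W hq hgood
    have h2 : (q : ℤ) ∣ W.apOfModel q := h
    change W.apOfModel q = 0
    by_contra h3
    have h4 : (q : ℤ) ≤ |W.apOfModel q| := Int.le_of_dvd (abs_pos.2 h3) ((dvd_abs _ _).2 h2)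
    have h5 : (q : ℤ) ^ 2 ≤ W.apOfModel q ^ 2 := by
      rw [← sq_abs (W.apOfModel q)]
      exact pow_le_pow_left₀ (by positivity) h4 2
    have h7 : (4 : ℤ) ≤ q := by exact_mod_cast hq4
    nlinarith

end Fermat.Agent.Cor.H14
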