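import Fermat.Agent.Cor.Eichler

/-!
# Ramanujan's function `τ` modulo `11`

Let `τ(n)` be the coefficients of the discriminant `Δ = q ∏ (1 - q ^ n) ^ 24`. Modulo `11` one has
`Δ ≡ q ∏ (1 - q ^ n) ^ 2 (1 - q ^ (11 n)) ^ 2`, the newform of level `11`. Hence, by Eichler's theorem
(`Fermat.Agent.Cor.Eichler`, a corollary of the modularity theorem),

* `tau_modEq_card`: for every prime `p ≠ 11`, the number of solutions of `y² + y = x³ - x²` modulo `p` is congruent to
  `p - τ(p)` modulo `11`; in other words `τ(p) ≡ p + 1 - #E(𝔽_p)` modulo `11`, where `E` is the elliptic curve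
  `y² + y = x³ - x²` of conductor `11` (Serre, Swinnerton-Dyer);
* `tau_mul_modEq`, `tau_pow_modEq`: modulo `11` the function `τ` is multiplicative and satisfies the recursion
  `τ(p ^ (r + 2)) ≡ τ(p) τ(p ^ (r + 1)) - p ^ 11 τ(p ^ r)`.

In the same way the newforms `(η(z) η(2z)) ^ 8` of level `2` and weight `8`, `(η(z) η(3z)) ^ 6` of level `3` and weight
`6` and `(η(z) η(5z)) ^ 4` of level `5` and weight `4` are congruent modulo `7`, `5` and `3` to the newforms of the
elliptic curves `y² + xy + y = x³ - x` of conductor `14` and `y² + xy + y = x³ + x²` of conductor `15`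
(`card_14_modEq_seven`, `card_15_modEq_five`, `card_15_modEq_three`).

This file is not used by any of the statement files.
-/

set_option autoImplicit false

open Polynomial
open Fermat.Agent.Cor.Eichler

namespace Fermat.Agent.Cor.H14

/-- Ramanujan's function `τ`: the coefficient of `X ^ n` in `X ∏ (1 - X ^ m) ^ 24` -/
noncomputable def tau (n : ℕ) : ℤ :=
  (X * ∏ m ∈ Finset.range n, (1 - X ^ (m + 1)) ^ 24 : ℤ[X]).coeff n

/-- `τ(n)` is the `n`-th coefficient of the `q`-expansion of the discriminant -/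
theorem qExpansion_discriminant_coeff (n : ℕ) :
    (UpperHalfPlane.qExpansion 1 ModularForm.discriminant).coeff n = (tau n : ℂ) := by
  rw [qExpansion_disc, eC, ← map_pow, ← PowerSeries.map_X (Int.castRingHom ℂ), ← map_mul,
    PowerSeries.coeff_map]
  have h1 : (PowerSeries.X * ModularCurve.etaProd ^ 24 : PowerSeries ℤ).coeff n = tau n := by
    have h2 : ((X * ∏ m ∈ Finset.range n, (1 - X ^ (m + 1)) ^ 24 : ℤ[X]) : PowerSeries ℤ) =
        PowerSeries.X * (∏ m ∈ Finset.range n, (1 - PowerSeries.X ^ (m + 1))) ^ 24 := by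
      rw [← Polynomial.coeToPowerSeries.ringHom_apply, map_mul, map_prod, ← Finset.prod_pow]
      simp
    rw [tau, ← Polynomial.coeff_coe, h2]
    refine md_coeff (m := n + 1) ?_ (by omega)
    rw [map_mul, map_mul, map_pow, map_pow, md_etaProd n]
  rw [h1]
  rfl

/-- congruence of coefficients from congruence of polynomials -/
theorem modEq_of_map {p : ℕ} {f g : ℤ[X]} (h : f.map (Int.castRingHom (ZMod p)) =
    g.map (Int.castRingHom (ZMod p))) (n : ℕ) : f.coeff n ≡ g.coeff n [ZMOD p] := by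
  rw [← ZMod.intCast_eq_intCast_iff]
  have h1 := congrArg (fun q => q.coeff n) h
  simpa [Polynomial.coeff_map] using h1

theorem one_sub_pow {p : ℕ} [Fact p.Prime] (k : ℕ) :
    (1 - X ^ (p * k) : (ZMod p)[X]) = (1 - X ^ k) ^ p := by
  rw [sub_pow_char, one_pow, ← pow_mul, mul_comm k p]

theorem map_eq_of_forall {p : ℕ} {n : ℕ} {u v : ℕ → ℤ[X]}
    (h : ∀ m, (u m).map (Int.castRingHom (ZMod p)) = (v m).map (Int.castRingHom (ZMod p))) :
    (X * ∏ m ∈ Finset.range n, u m).map (Int.castRingHom (ZMod p)) =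
      (X * ∏ m ∈ Finset.range n, v m).map (Int.castRingHom (ZMod p)) := by
  simp only [Polynomial.map_mul, Polynomial.map_prod, h]

theorem tau_modEq (n : ℕ) : tau n ≡ a11 n [ZMOD 11] := by
  have : Fact (Nat.Prime 11) := ⟨by norm_num⟩
  rw [tau, a11]
  have h := modEq_of_map (p := 11) (map_eq_of_forall (n := n)
    (u := fun m => (1 - X ^ (m + 1)) ^ 24)
    (v := fun m => (1 - X ^ (m + 1)) ^ 2 * (1 - X ^ (11 * (m + 1))) ^ 2) fun m => ?_) n
  · exact_mod_cast h
  · simp only [Polynomial.map_mul, Polynomial.map_X, Polynomial.map_pow, Polynomial.map_sub,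
      Polynomial.map_one]
    rw [one_sub_pow]
    ring

/-- **`τ(p) ≡ p + 1 - #E(𝔽_p)` modulo `11`** for the elliptic curve `E : y² + y = x³ - x²` of conductor `11` and all
primes `p ≠ 11`; the affine solutions are counted here. -/
theorem tau_modEq_card {p : ℕ} (hp : p.Prime) (h11 : p ≠ 11) :
    (Nat.card {P : ZMod p × ZMod p // P.2 ^ 2 + P.2 = P.1 ^ 3 - P.1 ^ 2} : ℤ) ≡
      p - tau p [ZMOD 11] := by
  rw [eichler_11 p hp h11]
  exact (Int.ModEq.refl _).sub (tau_modEq p).symm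

theorem tau_mul_modEq {m n : ℕ} (h : m.Coprime n) : tau (m * n) ≡ tau m * tau n [ZMOD 11] := by
  have h1 := tau_modEq (m * n)
  rw [a11_mul h] at h1
  exact h1.trans ((tau_modEq m).mul (tau_modEq n)).symm

/-- the Hecke recursion modulo `11`, with `p ^ 11` as for forms of weight `12` -/
theorem tau_pow_modEq {p : ℕ} (hp : p.Prime) (h11 : p ≠ 11) (r : ℕ) :
    tau (p ^ (r + 2)) ≡ tau p * tau (p ^ (r + 1)) - p ^ 11 * tau (p ^ r) [ZMOD 11] := by
  have : Fact (Nat.Prime 11) := ⟨by norm_num⟩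
  have h1 := tau_modEq (p ^ (r + 2))
  rw [a11_pow hp h11] at h1
  have h2 : (p : ℤ) ^ 11 ≡ p [ZMOD 11] := by
    have h3 := ZMod.pow_card (p : ZMod 11)
    have h4 : (((p : ℤ) ^ 11 : ℤ) : ZMod 11) = ((p : ℤ) : ZMod 11) := by
      push_cast
      exact h3
    exact_mod_cast (ZMod.intCast_eq_intCast_iff _ _ 11).1 h4
  refine h1.trans (((tau_modEq p).mul (tau_modEq _)).symm.sub ?_)
  exact (h2.symm.mul (tau_modEq _).symm)

/-! ### Levels `14` and `15` -/

/-- The coefficient of `q ^ n` in `(η(z) η(2z)) ^ 8 = q ∏ (1 - q ^ m) ^ 8 (1 - q ^ (2 m)) ^ 8` is congruent modulo `7` to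
the coefficient of the newform of level `14`. -/
theorem level_two_modEq (n : ℕ) :
    (X * ∏ m ∈ Finset.range n, ((1 - X ^ (m + 1)) ^ 8 * (1 - X ^ (2 * (m + 1))) ^ 8) :
      ℤ[X]).coeff n ≡ a14 n [ZMOD 7] := by
  have : Fact (Nat.Prime 7) := ⟨by norm_num⟩
  rw [a14]
  have h := modEq_of_map (p := 7) (map_eq_of_forall (n := n)
    (u := fun m => (1 - X ^ (m + 1)) ^ 8 * (1 - X ^ (2 * (m + 1))) ^ 8)
    (v := fun m => (1 - X ^ (m + 1)) * (1 - X ^ (2 * (m + 1))) * (1 - X ^ (7 * (m + 1))) *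
      (1 - X ^ (14 * (m + 1)))) fun m => ?_) n
  · exact_mod_cast h
  · simp only [Polynomial.map_mul, Polynomial.map_X, Polynomial.map_pow, Polynomial.map_sub,
      Polynomial.map_one]
    rw [show 14 * (m + 1) = 7 * (2 * (m + 1)) by ring, one_sub_pow, one_sub_pow]
    ring

/-- The coefficient of `q ^ n` in `(η(z) η(3z)) ^ 6 = q ∏ (1 - q ^ m) ^ 6 (1 - q ^ (3 m)) ^ 6` is congruent modulo `5` to
the coefficient of the newform of level `15`. -/
theorem level_three_modEq (n : ℕ) :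
    (X * ∏ m ∈ Finset.range n, ((1 - X ^ (m + 1)) ^ 6 * (1 - X ^ (3 * (m + 1))) ^ 6) :
      ℤ[X]).coeff n ≡ a15 n [ZMOD 5] := by
  have : Fact (Nat.Prime 5) := ⟨by norm_num⟩
  rw [a15]
  have h := modEq_of_map (p := 5) (map_eq_of_forall (n := n)
    (u := fun m => (1 - X ^ (m + 1)) ^ 6 * (1 - X ^ (3 * (m + 1))) ^ 6)
    (v := fun m => (1 - X ^ (m + 1)) * (1 - X ^ (3 * (m + 1))) * (1 - X ^ (5 * (m + 1))) *
      (1 - X ^ (15 * (m + 1)))) fun m => ?_) n
  · exact_mod_cast h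
  · simp only [Polynomial.map_mul, Polynomial.map_X, Polynomial.map_pow, Polynomial.map_sub,
      Polynomial.map_one]
    rw [show 15 * (m + 1) = 5 * (3 * (m + 1)) by ring, one_sub_pow, one_sub_pow]
    ring

/-- The coefficient of `q ^ n` in `(η(z) η(5z)) ^ 4 = q ∏ (1 - q ^ m) ^ 4 (1 - q ^ (5 m)) ^ 4` is congruent modulo `3` to
the coefficient of the newform of level `15`. -/
theorem level_five_modEq (n : ℕ) :
    (X * ∏ m ∈ Finset.range n, ((1 - X ^ (m + 1)) ^ 4 * (1 - X ^ (5 * (m + 1))) ^ 4) :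
      ℤ[X]).coeff n ≡ a15 n [ZMOD 3] := by
  have : Fact (Nat.Prime 3) := ⟨by norm_num⟩
  rw [a15]
  have h := modEq_of_map (p := 3) (map_eq_of_forall (n := n)
    (u := fun m => (1 - X ^ (m + 1)) ^ 4 * (1 - X ^ (5 * (m + 1))) ^ 4)
    (v := fun m => (1 - X ^ (m + 1)) * (1 - X ^ (3 * (m + 1))) * (1 - X ^ (5 * (m + 1))) *
      (1 - X ^ (15 * (m + 1)))) fun m => ?_) n
  · exact_mod_cast h
  · simp only [Polynomial.map_mul, Polynomial.map_X, Polynomial.map_pow, Polynomial.map_sub,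
      Polynomial.map_one]
    rw [show 15 * (m + 1) = 3 * (5 * (m + 1)) by ring, one_sub_pow, one_sub_pow]
    ring

/-- the newform of weight `8` and level `2` counts points modulo `7` on the curve of conductor `14` -/
theorem card_14_modEq_seven {p : ℕ} (hp : p.Prime) (h2 : p ≠ 2) (h7 : p ≠ 7) :
    (Nat.card {P : ZMod p × ZMod p // P.2 ^ 2 + P.1 * P.2 + P.2 = P.1 ^ 3 - P.1} : ℤ) ≡
      p - (X * ∏ m ∈ Finset.range p, ((1 - X ^ (m + 1)) ^ 8 * (1 - X ^ (2 * (m + 1))) ^ 8) :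
        ℤ[X]).coeff p [ZMOD 7] := by
  rw [eichler_14 p hp h2 h7]
  exact (Int.ModEq.refl _).sub (level_two_modEq p).symm

/-- the newform of weight `6` and level `3` counts points modulo `5` on the curve of conductor `15` -/
theorem card_15_modEq_five {p : ℕ} (hp : p.Prime) (h3 : p ≠ 3) (h5 : p ≠ 5) :
    (Nat.card {P : ZMod p × ZMod p // P.2 ^ 2 + P.1 * P.2 + P.2 = P.1 ^ 3 + P.1 ^ 2} : ℤ) ≡
      p - (X * ∏ m ∈ Finset.range p, ((1 - X ^ (m + 1)) ^ 6 * (1 - X ^ (3 * (m + 1))) ^ 6) :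
        ℤ[X]).coeff p [ZMOD 5] := by
  rw [eichler_15 p hp h3 h5]
  exact (Int.ModEq.refl _).sub (level_three_modEq p).symm

/-- the newform of weight `4` and level `5` counts points modulo `3` on the curve of conductor `15` -/
theorem card_15_modEq_three {p : ℕ} (hp : p.Prime) (h3 : p ≠ 3) (h5 : p ≠ 5) :
    (Nat.card {P : ZMod p × ZMod p // P.2 ^ 2 + P.1 * P.2 + P.2 = P.1 ^ 3 + P.1 ^ 2} : ℤ) ≡
      p - (X * ∏ m ∈ Finset.range p, ((1 - X ^ (m + 1)) ^ 4 * (1 - X ^ (5 * (m + 1))) ^ 4) :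
        ℤ[X]).coeff p [ZMOD 3] := by
  rw [eichler_15 p hp h3 h5]
  exact (Int.ModEq.refl _).sub (level_five_modEq p).symm

end Fermat.Agent.Cor.H14
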