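import Fermat.Agent.Cor.H14Tau
import Fermat.Agent.Cor.Surj
import Fermat.Agent.Cor.Mazur

/-!
# The Galois representation modulo `11` attached to the discriminant `Δ`

* `exists_rep`: for a semistable elliptic curve `W` over `ℚ` and a prime `p ≥ 11`, `p ≠ 13`, the Galois action on `W[p]`
  gives a surjective homomorphism `Gal(ℚ̄/ℚ) → GL₂(𝔽_p)` with open kernel, unramified outside `p` and the bad primes of
  `W`, with `tr Frob_q = a_q(W)` and `det Frob_q = q`;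
* `exists_rep_tau` (Serre, Swinnerton-Dyer): there is a surjective homomorphism `ρ : Gal(ℚ̄/ℚ) → GL₂(𝔽₁₁)` with open
  kernel, unramified outside `11`, such that `tr ρ(Frob_q) = τ(q)` and `det ρ(Frob_q) = q ^ 11` modulo `11` for all
  primes `q ≠ 11`.

This file is not used by any of the statement files.
-/

set_option autoImplicit false
set_option maxSynthPendingDepth 3

noncomputable section

namespace Fermat.Agent.Cor.H14

open WeierstrassCurve WeierstrassCurve.Affine WeierstrassCurve.Affine.Point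
open Fermat.Agent.Ell Fermat.Agent.H12.LL Fermat.Agent.H11N Matrix
open Fermat.Agent.EGal (VV rho)

local notation "Qb" => AlgebraicClosure ℚ
local notation "Γq" => AlgebraicClosure ℚ ≃ₐ[ℚ] AlgebraicClosure ℚ

/-- every invertible matrix is the matrix of a Galois automorphism -/
theorem exists_mat_eq {W : WeierstrassCurve ℤ} {p : ℕ} [hp : Fact p.Prime] (hΔ : W.Δ ≠ 0)
    (hss : W.IsSemistableModel) (hirr : W.ModRepIsIrreducible p) (hp2 : p ≠ 2)
    (g : GL (Fin 2) (ZMod p)) :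
    ∃ σ : Γq, MR (tB (p := p) hΔ) (PadicInt.toZMod (p := p)) σ = (g : Matrix (Fin 2) (Fin 2) (ZMod p)) := by
  have := isElliptic_WQ hΔ
  set m := mtx (redBasis (tB (p := p) hΔ)) with hm
  let f : VV (WQ W) p ≃ₗ[ZMod p] VV (WQ W) p :=
    LinearMap.GeneralLinearGroup.generalLinearEquiv _ _ (Units.map (m.symm : _ →* _) g)
  obtain ⟨σ, hσ⟩ := Surj.surjective hΔ hss hirr hp2 f
  refine ⟨σ, ?_⟩
  have h1 : rho (WQ W) p σ = m.symm (g : Matrix (Fin 2) (Fin 2) (ZMod p)) := by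
    apply LinearMap.ext
    intro x
    exact hσ x
  rw [MR_toZMod, h1, ← hm, AlgEquiv.apply_symm_apply]

/-- The representation on `W[p]` in matrix form, for a semistable curve `W` with `W[p]` irreducible. -/
theorem exists_rep_of_irr {W : WeierstrassCurve ℤ} {p : ℕ} [hp : Fact p.Prime] (hΔ : W.Δ ≠ 0)
    (hss : W.IsSemistableModel) (hirr : W.ModRepIsIrreducible p) (hp2 : p ≠ 2) :
    ∃ ρ : Γq →* GL (Fin 2) (ZMod p),
      (∃ F : IntermediateField ℚ Qb, FiniteDimensional ℚ F ∧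
        ∀ σ : Γq, (∀ x ∈ F, σ x = x) → ρ σ = 1) ∧
      Function.Surjective ρ ∧
      ∀ q : ℕ, q.Prime → ¬ (q : ℤ) ∣ W.Δ → q ≠ p → ∀ A : ValuationSubring Qb, A.LiesOverPrime q →
        (∀ σ ∈ A.inertiaSubgroupIn ℚ, ρ σ = 1) ∧
        ∀ φ : Γq, A.IsFrobeniusAt φ q →
          (ρ φ : Matrix (Fin 2) (Fin 2) (ZMod p)).trace = (W.apOfModel q : ZMod p) ∧
          (ρ φ : Matrix (Fin 2) (Fin 2) (ZMod p)).det = (q : ZMod p) := by
  have := isElliptic_WQ hΔ
  let P := mrepCurve hΔ hirr hp2 (D := p * W.Δ.natAbs) (dvd_mul_right _ _) (dvd_mul_left _ _)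
  have hPρ : P.ρ = MR (tB (p := p) hΔ) (PadicInt.toZMod (p := p)) := rfl
  refine ⟨P.ρ.toHomUnits, ⟨P.F, P.fin, fun σ hσ => ?_⟩, fun g => ?_, fun q hq hgood hqp A hA =>
    ⟨fun σ hσ => ?_, fun φ hφ => ?_⟩⟩
  · apply Units.ext
    rw [MonoidHom.coe_toHomUnits, P.triv σ hσ, Units.val_one]
  · obtain ⟨σ, hσ⟩ := exists_mat_eq hΔ hss hirr hp2 g
    refine ⟨σ, ?_⟩
    apply Units.ext
    rw [MonoidHom.coe_toHomUnits, hPρ, hσ]
  · apply Units.ext
    rw [MonoidHom.coe_toHomUnits, hPρ, MR_apply, rr_unramified hq hgood hqp hA hσ, map_one,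
      Units.val_one]
    exact Matrix.map_one _ (map_zero _) (map_one _)
  · rw [MonoidHom.coe_toHomUnits]
    refine P.frob q hq (fun h => ?_) A hA φ hφ
    rcases (hq.dvd_mul).1 h with h1 | h1
    · exact hqp ((Nat.prime_dvd_prime_iff_eq hq hp.out).1 h1)
    · exact hgood (Int.natCast_dvd.2 h1)

/-- **The representation modulo `p` of a semistable elliptic curve over `ℚ`**, for every prime `p ≥ 11`, `p ≠ 13`. -/
theorem exists_rep {W : WeierstrassCurve ℤ} {p : ℕ} (hΔ : W.Δ ≠ 0)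
    (hss : W.IsSemistableModel) (hp : p.Prime) (hp11 : 11 ≤ p) (hp13 : p ≠ 13) :
    ∃ ρ : Γq →* GL (Fin 2) (ZMod p),
      (∃ F : IntermediateField ℚ Qb, FiniteDimensional ℚ F ∧
        ∀ σ : Γq, (∀ x ∈ F, σ x = x) → ρ σ = 1) ∧
      Function.Surjective ρ ∧
      ∀ q : ℕ, q.Prime → ¬ (q : ℤ) ∣ W.Δ → q ≠ p → ∀ A : ValuationSubring Qb, A.LiesOverPrime q →
        (∀ σ ∈ A.inertiaSubgroupIn ℚ, ρ σ = 1) ∧
        ∀ φ : Γq, A.IsFrobeniusAt φ q →
          (ρ φ : Matrix (Fin 2) (Fin 2) (ZMod p)).trace = (W.apOfModel q : ZMod p) ∧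
          (ρ φ : Matrix (Fin 2) (Fin 2) (ZMod p)).det = (q : ZMod p) :=
  have : Fact p.Prime := ⟨hp⟩
  exists_rep_of_irr hΔ hss (Mazur.modRep_irreducible hΔ hss hp hp11 hp13) (by omega)

/-- the trace of Frobenius of `y² + y = x³ - x²` is `τ` modulo `11` -/
theorem apOfModel_modEq_tau {q : ℕ} (hq : q.Prime) (h11 : q ≠ 11) :
    Eichler.W11.apOfModel q ≡ tau q [ZMOD 11] := by
  have : Fact q.Prime := ⟨hq⟩
  have hd : ¬ (q : ℤ) ∣ Eichler.W11.Δ := fun h =>
    Eichler.coprime_11 hq h11 ((Eichler.W11_supp q hq).1 h)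
  rw [Eichler.apOfModel_eq_sub _ q hd]
  have h := Eichler.card_eq (N := 11) (e := 12) (k := 2) (by decide) (by decide) (by decide)
    (by decide) (Nat.prime_eleven.squarefree) Eichler.W11 (by rw [Eichler.W11_Δ]; decide)
    Eichler.W11_semistable Eichler.W11_supp hq (Eichler.coprime_11 hq h11) le_rfl
  rw [h, ← Eichler.a11_eq, sub_sub_cancel]
  exact (tau_modEq q).symm

/-- **The Galois representation modulo `11` of `Δ`** (Serre, Swinnerton-Dyer): there is a surjective homomorphism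
`Gal(ℚ̄/ℚ) → GL₂(𝔽₁₁)` with open kernel, unramified outside `11`, such that the Frobenius elements at the primes `q ≠ 11`
have trace `τ(q)` and determinant `q ^ 11`. -/
theorem exists_rep_tau :
    ∃ ρ : Γq →* GL (Fin 2) (ZMod 11),
      (∃ F : IntermediateField ℚ Qb, FiniteDimensional ℚ F ∧
        ∀ σ : Γq, (∀ x ∈ F, σ x = x) → ρ σ = 1) ∧
      Function.Surjective ρ ∧
      ∀ q : ℕ, q.Prime → q ≠ 11 → ∀ A : ValuationSubring Qb, A.LiesOverPrime q →
        (∀ σ ∈ A.inertiaSubgroupIn ℚ, ρ σ = 1) ∧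
        ∀ φ : Γq, A.IsFrobeniusAt φ q →
          (ρ φ : Matrix (Fin 2) (Fin 2) (ZMod 11)).trace = (tau q : ZMod 11) ∧
          (ρ φ : Matrix (Fin 2) (Fin 2) (ZMod 11)).det = (q : ZMod 11) ^ 11 := by
  obtain ⟨ρ, h1, h2, h3⟩ := exists_rep (W := Eichler.W11) (p := 11)
    (by rw [Eichler.W11_Δ]; decide) Eichler.W11_semistable (by norm_num) le_rfl (by norm_num)
  refine ⟨ρ, h1, h2, fun q hq h11 A hA => ?_⟩
  have hd : ¬ (q : ℤ) ∣ Eichler.W11.Δ := fun h =>
    Eichler.coprime_11 hq h11 ((Eichler.W11_supp q hq).1 h)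
  obtain ⟨h4, h5⟩ := h3 q hq hd h11 A hA
  refine ⟨h4, fun φ hφ => ?_⟩
  obtain ⟨h6, h7⟩ := h5 φ hφ
  refine ⟨?_, ?_⟩
  · rw [h6, ZMod.intCast_eq_intCast_iff]
    exact apOfModel_modEq_tau hq h11
  · have : Fact (Nat.Prime 11) := ⟨by norm_num⟩
    rw [h7, ZMod.pow_card]

end Fermat.Agent.Cor.H14
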