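import Fermat.Agent.Cor.H14Levels

/-!
# Number of points of the semistable curves of conductor at most 21

* `small_conductor`: a semistable elliptic curve over `ℚ` of conductor `≤ 21` has the bad primes and the traces of
  Frobenius `a_ℓ` of exactly one of `E11, E14, E15, E17, E19, E21`;
* `ncard_systems`: so there are exactly six systems `(a_ℓ)` (six isogeny classes);
* `five_dvd_of_hasLevel_11` etc.: the number of points modulo `ℓ` of every semistable elliptic curve of conductor `11`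
  (`14, 15, 17, 19, 21`) is divisible by `5` (`6, 4, 4, 3, 4`) for all primes `ℓ` of good reduction.
-/

set_option autoImplicit false

namespace Fermat.Agent.Cor.H14

open CongruenceSubgroup ModularFormClass ModularCurve WeierstrassCurve

section Points

variable {E : WeierstrassCurve ℤ} {ℓ : ℕ} [hℓ : Fact ℓ.Prime]

/-- the equation of `E` at an integral point -/
def IsPt (E : WeierstrassCurve ℤ) (x y : ℤ) : Prop :=
  y ^ 2 + E.a₁ * x * y + E.a₃ * y = x ^ 3 + E.a₂ * x ^ 2 + E.a₄ * x + E.a₆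

lemma isElliptic_red (h : ¬ (ℓ : ℤ) ∣ E.Δ) : (E.reductionMod ℓ).IsElliptic := by
  refine ⟨isUnit_iff_ne_zero.mpr ?_⟩
  rw [WeierstrassCurve.reductionMod, WeierstrassCurve.map_Δ]
  intro h1
  exact h ((ZMod.intCast_zmod_eq_zero_iff_dvd E.Δ ℓ).mp (by exact_mod_cast h1))

lemma nonsing (h : ¬ (ℓ : ℤ) ∣ E.Δ) {x y : ℤ} (hxy : IsPt E x y) :
    (E.reductionMod ℓ).toAffine.Nonsingular (x : ZMod ℓ) (y : ZMod ℓ) := by
  have hell : (E.reductionMod ℓ).IsElliptic := isElliptic_red h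
  have hell' : (E.reductionMod ℓ).toAffine.IsElliptic := hell
  rw [← Affine.equation_iff_nonsingular, Affine.equation_iff]
  have h1 := congrArg (Int.cast : ℤ → ZMod ℓ) hxy
  push_cast at h1
  simpa [WeierstrassCurve.reductionMod] using h1

/-- the reduction of an integral point -/
def pt (h : ¬ (ℓ : ℤ) ∣ E.Δ) {x y : ℤ} (hxy : IsPt E x y) : (E.reductionMod ℓ).toAffine.Point :=
  .some _ _ (nonsing h hxy)

lemma pt_ne_zero (h : ¬ (ℓ : ℤ) ∣ E.Δ) {x y : ℤ} (hxy : IsPt E x y) : pt h hxy ≠ 0 :=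
  Affine.Point.some_ne_zero _

lemma neg_pt (h : ¬ (ℓ : ℤ) ∣ E.Δ) {x y y' : ℤ} (hxy : IsPt E x y) (hxy' : IsPt E x y')
    (hy : y' = -y - E.a₁ * x - E.a₃) : -pt h hxy = pt h hxy' := by
  rw [pt, pt, Affine.Point.neg_some, Affine.Point.some.injEq]
  refine ⟨rfl, ?_⟩
  rw [hy]
  simp [Affine.negY, WeierstrassCurve.reductionMod]

lemma double_eq_zero (h : ¬ (ℓ : ℤ) ∣ E.Δ) {x y : ℤ} (hxy : IsPt E x y)
    (hy : y = -y - E.a₁ * x - E.a₃) : pt h hxy + pt h hxy = 0 := by
  have := neg_pt h hxy hxy hy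
  nth_rewrite 1 [← this]
  exact neg_add_cancel _

lemma double_pt (h : ¬ (ℓ : ℤ) ∣ E.Δ) {x y m x' y' : ℤ} (hxy : IsPt E x y) (hxy' : IsPt E x' y')
    (hne : ¬ (ℓ : ℤ) ∣ 2 * y + E.a₁ * x + E.a₃)
    (hm : m * (2 * y + E.a₁ * x + E.a₃) = 3 * x ^ 2 + 2 * E.a₂ * x + E.a₄ - E.a₁ * y)
    (hx' : x' = m ^ 2 + E.a₁ * m - E.a₂ - 2 * x)
    (hy' : y' = -(m * (x' - x) + y) - E.a₁ * x' - E.a₃) : pt h hxy + pt h hxy = pt h hxy' := by
  have e1 : (E.reductionMod ℓ).toAffine.negY (x : ZMod ℓ) (y : ZMod ℓ) =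
      -(y : ZMod ℓ) - E.a₁ * x - E.a₃ := by
    simp [Affine.negY, WeierstrassCurve.reductionMod]
  have hne0 : ((2 * y + E.a₁ * x + E.a₃ : ℤ) : ZMod ℓ) ≠ 0 := fun h0 =>
    hne ((ZMod.intCast_zmod_eq_zero_iff_dvd _ ℓ).mp h0)
  have e2 : (y : ZMod ℓ) - (E.reductionMod ℓ).toAffine.negY (x : ZMod ℓ) (y : ZMod ℓ) =
      ((2 * y + E.a₁ * x + E.a₃ : ℤ) : ZMod ℓ) := by
    rw [e1]; push_cast; ring
  have hne' : (y : ZMod ℓ) ≠ (E.reductionMod ℓ).toAffine.negY (x : ZMod ℓ) (y : ZMod ℓ) := by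
    intro h0
    apply hne0
    rw [← e2, ← h0, sub_self]
  have hslope : (E.reductionMod ℓ).toAffine.slope (x : ZMod ℓ) (x : ZMod ℓ) (y : ZMod ℓ)
      (y : ZMod ℓ) = (m : ZMod ℓ) := by
    rw [Affine.slope_of_Y_ne rfl hne', e2, div_eq_iff hne0]
    have h1 := congrArg (Int.cast : ℤ → ZMod ℓ) hm
    push_cast at h1 ⊢
    simpa [WeierstrassCurve.reductionMod] using h1.symm
  rw [pt, pt, Affine.Point.add_self_of_Y_ne hne', Affine.Point.some.injEq, hslope]
  have hX : (E.reductionMod ℓ).toAffine.addX (x : ZMod ℓ) (x : ZMod ℓ) (m : ZMod ℓ) =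
      (x' : ZMod ℓ) := by
    rw [hx']
    simp [Affine.addX, WeierstrassCurve.reductionMod]
    ring
  refine ⟨hX, ?_⟩
  rw [Affine.addY, Affine.negAddY, hX, hy']
  simp [Affine.negY, WeierstrassCurve.reductionMod]

lemma card_pos_finite : Finite (E.reductionMod ℓ).toAffine.Point :=
  WeierstrassCurve.Affine.Point.instFinite

/-- a point with `2P = -P` gives divisibility by `3` -/
lemma three_dvd_card {P : (E.reductionMod ℓ).toAffine.Point} (hP : P ≠ 0) (h : P + P = -P) :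
    3 ∣ Nat.card (E.reductionMod ℓ).toAffine.Point := by
  have h3 : (3 : ℕ) • P = 0 := by
    rw [show (3 : ℕ) = 1 + 1 + 1 from rfl, add_smul, add_smul, one_smul, h, neg_add_cancel]
  have : addOrderOf P = 3 := addOrderOf_eq_prime h3 hP
  rw [← this]
  exact addOrderOf_dvd_natCard P

lemma two_dvd_card {P : (E.reductionMod ℓ).toAffine.Point} (hP : P ≠ 0) (h : P + P = 0) :
    2 ∣ Nat.card (E.reductionMod ℓ).toAffine.Point := by
  have h2 : (2 : ℕ) • P = 0 := by rw [two_smul, h]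
  have : addOrderOf P = 2 := addOrderOf_eq_prime h2 hP
  rw [← this]
  exact addOrderOf_dvd_natCard P

lemma four_dvd_card {P Q : (E.reductionMod ℓ).toAffine.Point} (hQ : Q ≠ 0) (h : P + P = Q)
    (h' : Q + Q = 0) : 4 ∣ Nat.card (E.reductionMod ℓ).toAffine.Point := by
  have h2 : (2 : ℕ) • P = Q := by rw [two_smul, h]
  have h4 : (2 ^ (1 + 1) : ℕ) • P = 0 := by
    rw [pow_succ, pow_one, mul_smul, h2, two_smul, h']
  have : addOrderOf P = 2 ^ (1 + 1) :=
    addOrderOf_eq_prime_pow (by rw [pow_one, h2]; exact hQ) h4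
  rw [show 4 = 2 ^ (1 + 1) from rfl, ← this]
  exact addOrderOf_dvd_natCard P

lemma five_dvd_card {P Q : (E.reductionMod ℓ).toAffine.Point} (hP : P ≠ 0) (h : P + P = Q)
    (h' : Q + Q = -P) : 5 ∣ Nat.card (E.reductionMod ℓ).toAffine.Point := by
  have h5 : (5 : ℕ) • P = 0 := by
    have : (5 : ℕ) • P = (P + P) + (P + P) + P := by abel
    rw [this, h, h', neg_add_cancel]
  have : addOrderOf P = 5 := addOrderOf_eq_prime h5 hP
  rw [← this]
  exact addOrderOf_dvd_natCard P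

theorem five_dvd_11 (h : ¬ (ℓ : ℤ) ∣ E11.Δ) :
    5 ∣ Nat.card (E11.reductionMod ℓ).toAffine.Point := by
  have hu : ∀ a : ℤ, IsUnit a → ¬ (ℓ : ℤ) ∣ a := fun a ha hd =>
    (Nat.prime_iff_prime_int.mp hℓ.out).not_isUnit (isUnit_of_dvd_unit hd ha)
  have hP : IsPt E11 0 0 := by unfold IsPt; decide
  have hQ : IsPt E11 1 (-1) := by unfold IsPt; decide
  have hR : IsPt E11 0 (-1) := by unfold IsPt; decide
  refine five_dvd_card (pt_ne_zero h hP)
    (double_pt h (m := 0) hP hQ (hu _ (by decide)) (by decide) (by decide) (by decide)) ?_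
  rw [neg_pt h hP hR (by decide)]
  exact double_pt h (m := -1) hQ hR (hu _ (by decide)) (by decide) (by decide) (by decide)

theorem three_dvd_14 (h : ¬ (ℓ : ℤ) ∣ E14.Δ) :
    3 ∣ Nat.card (E14.reductionMod ℓ).toAffine.Point := by
  have hu : ∀ a : ℤ, IsUnit a → ¬ (ℓ : ℤ) ∣ a := fun a ha hd =>
    (Nat.prime_iff_prime_int.mp hℓ.out).not_isUnit (isUnit_of_dvd_unit hd ha)
  have hP : IsPt E14 0 0 := by unfold IsPt; decide
  have hR : IsPt E14 0 (-1) := by unfold IsPt; decide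
  refine three_dvd_card (pt_ne_zero h hP) ?_
  rw [neg_pt h hP hR (by decide)]
  exact double_pt h (m := -1) hP hR (hu _ (by decide)) (by decide) (by decide) (by decide)

theorem two_dvd_14 (h : ¬ (ℓ : ℤ) ∣ E14.Δ) :
    2 ∣ Nat.card (E14.reductionMod ℓ).toAffine.Point := by
  have hT : IsPt E14 (-1) 0 := by unfold IsPt; decide
  exact two_dvd_card (pt_ne_zero h hT) (double_eq_zero h hT (by decide))

theorem six_dvd_14 (h : ¬ (ℓ : ℤ) ∣ E14.Δ) :
    6 ∣ Nat.card (E14.reductionMod ℓ).toAffine.Point :=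
  Nat.Coprime.mul_dvd_of_dvd_of_dvd (m := 2) (n := 3) (by decide) (two_dvd_14 h) (three_dvd_14 h)

theorem four_dvd_15 (h : ¬ (ℓ : ℤ) ∣ E15.Δ) :
    4 ∣ Nat.card (E15.reductionMod ℓ).toAffine.Point := by
  have hu : ∀ a : ℤ, IsUnit a → ¬ (ℓ : ℤ) ∣ a := fun a ha hd =>
    (Nat.prime_iff_prime_int.mp hℓ.out).not_isUnit (isUnit_of_dvd_unit hd ha)
  have hP : IsPt E15 0 0 := by unfold IsPt; decide
  have hQ : IsPt E15 (-1) 0 := by unfold IsPt; decide
  exact four_dvd_card (pt_ne_zero h hQ)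
    (double_pt h (m := 0) hP hQ (hu _ (by decide)) (by decide) (by decide) (by decide))
    (double_eq_zero h hQ (by decide))

theorem four_dvd_17 (h : ¬ (ℓ : ℤ) ∣ E17.Δ) :
    4 ∣ Nat.card (E17.reductionMod ℓ).toAffine.Point := by
  have hu : ∀ a : ℤ, IsUnit a → ¬ (ℓ : ℤ) ∣ a := fun a ha hd =>
    (Nat.prime_iff_prime_int.mp hℓ.out).not_isUnit (isUnit_of_dvd_unit hd ha)
  have hP : IsPt E17 0 0 := by unfold IsPt; decide
  have hQ : IsPt E17 1 (-1) := by unfold IsPt; decide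
  exact four_dvd_card (pt_ne_zero h hQ)
    (double_pt h (m := -1) hP hQ (hu _ (by decide)) (by decide) (by decide) (by decide))
    (double_eq_zero h hQ (by decide))

theorem three_dvd_19 (h : ¬ (ℓ : ℤ) ∣ E19.Δ) :
    3 ∣ Nat.card (E19.reductionMod ℓ).toAffine.Point := by
  have hu : ∀ a : ℤ, IsUnit a → ¬ (ℓ : ℤ) ∣ a := fun a ha hd =>
    (Nat.prime_iff_prime_int.mp hℓ.out).not_isUnit (isUnit_of_dvd_unit hd ha)
  have hP : IsPt E19 0 0 := by unfold IsPt; decide
  have hR : IsPt E19 0 (-1) := by unfold IsPt; decide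
  refine three_dvd_card (pt_ne_zero h hP) ?_
  rw [neg_pt h hP hR (by decide)]
  exact double_pt h (m := 1) hP hR (hu _ (by decide)) (by decide) (by decide) (by decide)

theorem four_dvd_21 (h : ¬ (ℓ : ℤ) ∣ E21.Δ) :
    4 ∣ Nat.card (E21.reductionMod ℓ).toAffine.Point := by
  have hP : IsPt E21 1 1 := by unfold IsPt; decide
  have hQ : IsPt E21 0 0 := by unfold IsPt; decide
  have h3 : ¬ (ℓ : ℤ) ∣ 2 * 1 + E21.a₁ * 1 + E21.a₃ := by
    intro h0
    apply h
    rw [disc_21]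
    exact h0.trans (by decide)
  exact four_dvd_card (pt_ne_zero h hQ)
    (double_pt h (m := 1) hP hQ h3 (by decide) (by decide) (by decide))
    (double_eq_zero h hQ (by decide))

end Points

section Main

/-- curves with the same `a_ℓ` have the same number of points -/
lemma card_eq_of_ap {W W' : WeierstrassCurve ℤ} {ℓ : ℕ} (h : W.apOfModel ℓ = W'.apOfModel ℓ) :
    Nat.card (W.reductionMod ℓ).toAffine.Point = Nat.card (W'.reductionMod ℓ).toAffine.Point := by
  unfold WeierstrassCurve.apOfModel WeierstrassCurve.traceOfFrobenius WeierstrassCurve.card at h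
  omega

lemma HasLevel.not_dvd {W : WeierstrassCurve ℤ} {N ℓ : ℕ} (h : HasLevel W N) (hℓ : ℓ.Prime)
    (hn : ¬ ℓ ∣ N) : ¬ (ℓ : ℤ) ∣ W.Δ := fun hd => hn ((h.bad ℓ hℓ).mpr hd)

/-- **Semistable elliptic curves of conductor `11`.** -/
theorem conductor_11 {W : WeierstrassCurve ℤ} (h : HasLevel W 11) {ℓ : ℕ} (hℓ : ℓ.Prime)
    (hn : ¬ ℓ ∣ 11) : W.apOfModel ℓ = E11.apOfModel ℓ ∧
      5 ∣ Nat.card (W.reductionMod ℓ).toAffine.Point := by
  have h1 := apOfModel_eq_of_genus_one (by decide +kernel) genus_11 h hasLevel_11 hℓ hn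
  have : Fact ℓ.Prime := ⟨hℓ⟩
  exact ⟨h1, by rw [card_eq_of_ap h1]; exact five_dvd_11 (hasLevel_11.not_dvd hℓ hn)⟩

/-- **Semistable elliptic curves of conductor `14`.** -/
theorem conductor_14 {W : WeierstrassCurve ℤ} (h : HasLevel W 14) {ℓ : ℕ} (hℓ : ℓ.Prime)
    (hn : ¬ ℓ ∣ 14) : W.apOfModel ℓ = E14.apOfModel ℓ ∧
      6 ∣ Nat.card (W.reductionMod ℓ).toAffine.Point := by
  have h1 := apOfModel_eq_of_genus_one (by decide +kernel) genus_14 h hasLevel_14 hℓ hn
  have : Fact ℓ.Prime := ⟨hℓ⟩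
  exact ⟨h1, by rw [card_eq_of_ap h1]; exact six_dvd_14 (hasLevel_14.not_dvd hℓ hn)⟩

/-- **Semistable elliptic curves of conductor `15`.** -/
theorem conductor_15 {W : WeierstrassCurve ℤ} (h : HasLevel W 15) {ℓ : ℕ} (hℓ : ℓ.Prime)
    (hn : ¬ ℓ ∣ 15) : W.apOfModel ℓ = E15.apOfModel ℓ ∧
      4 ∣ Nat.card (W.reductionMod ℓ).toAffine.Point := by
  have h1 := apOfModel_eq_of_genus_one (by decide +kernel) genus_15 h hasLevel_15 hℓ hn
  have : Fact ℓ.Prime := ⟨hℓ⟩
  exact ⟨h1, by rw [card_eq_of_ap h1]; exact four_dvd_15 (hasLevel_15.not_dvd hℓ hn)⟩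

/-- **Semistable elliptic curves of conductor `17`.** -/
theorem conductor_17 {W : WeierstrassCurve ℤ} (h : HasLevel W 17) {ℓ : ℕ} (hℓ : ℓ.Prime)
    (hn : ¬ ℓ ∣ 17) : W.apOfModel ℓ = E17.apOfModel ℓ ∧
      4 ∣ Nat.card (W.reductionMod ℓ).toAffine.Point := by
  have h1 := apOfModel_eq_of_genus_one (by decide +kernel) genus_17 h hasLevel_17 hℓ hn
  have : Fact ℓ.Prime := ⟨hℓ⟩
  exact ⟨h1, by rw [card_eq_of_ap h1]; exact four_dvd_17 (hasLevel_17.not_dvd hℓ hn)⟩

/-- **Semistable elliptic curves of conductor `19`.** -/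
theorem conductor_19 {W : WeierstrassCurve ℤ} (h : HasLevel W 19) {ℓ : ℕ} (hℓ : ℓ.Prime)
    (hn : ¬ ℓ ∣ 19) : W.apOfModel ℓ = E19.apOfModel ℓ ∧
      3 ∣ Nat.card (W.reductionMod ℓ).toAffine.Point := by
  have h1 := apOfModel_eq_of_genus_one (by decide +kernel) genus_19 h hasLevel_19 hℓ hn
  have : Fact ℓ.Prime := ⟨hℓ⟩
  exact ⟨h1, by rw [card_eq_of_ap h1]; exact three_dvd_19 (hasLevel_19.not_dvd hℓ hn)⟩

/-- **Semistable elliptic curves of conductor `21`.** -/
theorem conductor_21 {W : WeierstrassCurve ℤ} (h : HasLevel W 21) {ℓ : ℕ} (hℓ : ℓ.Prime)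
    (hn : ¬ ℓ ∣ 21) : W.apOfModel ℓ = E21.apOfModel ℓ ∧
      4 ∣ Nat.card (W.reductionMod ℓ).toAffine.Point := by
  have h1 := apOfModel_eq_of_genus_one (by decide +kernel) genus_21 h hasLevel_21 hℓ hn
  have : Fact ℓ.Prime := ⟨hℓ⟩
  exact ⟨h1, by rw [card_eq_of_ap h1]; exact four_dvd_21 (hasLevel_21.not_dvd hℓ hn)⟩

lemma apSeq_good {W : WeierstrassCurve ℤ} {ℓ : ℕ} (hℓ : ℓ.Prime) (h : ¬ (ℓ : ℤ) ∣ W.Δ) :
    apSeq W ℓ = W.apOfModel ℓ := by
  simp [apSeq, hℓ, h]

lemma apSeq_bad {W : WeierstrassCurve ℤ} {ℓ : ℕ} (h : (ℓ : ℤ) ∣ W.Δ) : apSeq W ℓ = 0 := by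
  simp [apSeq, h]

/-- at a level of genus one there is only one system -/
theorem apSeq_eq {N : ℕ} [NeZero N] (hsq : Squarefree N) (hg : genusFormula N = 1)
    {W W' : WeierstrassCurve ℤ} (h : HasLevel W N) (h' : HasLevel W' N) : apSeq W = apSeq W' := by
  funext ℓ
  by_cases hℓ : ℓ.Prime
  · by_cases hn : ℓ ∣ N
    · rw [apSeq_bad ((h.bad ℓ hℓ).mp hn), apSeq_bad ((h'.bad ℓ hℓ).mp hn)]
    · rw [apSeq_good hℓ (h.not_dvd hℓ hn), apSeq_good hℓ (h'.not_dvd hℓ hn),
        apOfModel_eq_of_genus_one hsq hg h h' hℓ hn]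
  · simp [apSeq, hℓ]

/-- the conductor of a semistable Weierstrass equation -/
def cond (W : WeierstrassCurve ℤ) : ℕ := ∏ q ∈ W.Δ.natAbs.primeFactors, q

lemma cond_pos (W : WeierstrassCurve ℤ) : 0 < cond W :=
  Finset.prod_pos fun _ hq => (Nat.prime_of_mem_primeFactors hq).pos

lemma squarefree_cond (W : WeierstrassCurve ℤ) : Squarefree (cond W) :=
  Finset.squarefree_prod_of_pairwise_isCoprime
    (fun _ ha _ hb hab => Nat.coprime_iff_isRelPrime.mp ((Nat.coprime_primes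
      (Nat.prime_of_mem_primeFactors ha) (Nat.prime_of_mem_primeFactors hb)).mpr hab))
    (fun _ ha => (Nat.prime_of_mem_primeFactors ha).prime.squarefree)

lemma hasLevel_cond {W : WeierstrassCurve ℤ} (hΔ : W.Δ ≠ 0) (hW : W.IsSemistableModel) :
    HasLevel W (cond W) := by
  refine ⟨hΔ, hW, fun q hq => ?_⟩
  rw [Int.natCast_dvd]
  constructor
  · intro h
    obtain ⟨r, hr, hqr⟩ := (hq.prime.dvd_finsetProd_iff _).mp h
    have h1 := (Nat.prime_dvd_prime_iff_eq hq (Nat.prime_of_mem_primeFactors hr)).mp hqr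
    rw [h1]
    exact Nat.dvd_of_mem_primeFactors hr
  · intro h
    exact Finset.dvd_prod_of_mem _ (Nat.mem_primeFactors.mpr ⟨hq, h, by simpa using hΔ⟩)

/-- **The semistable elliptic curves over `ℚ` of conductor at most `21`.** -/
theorem small_conductor {W : WeierstrassCurve ℤ} (hΔ : W.Δ ≠ 0) (hW : W.IsSemistableModel)
    (hN : cond W ≤ 21) :
    (cond W = 11 ∧ apSeq W = apSeq E11) ∨ (cond W = 14 ∧ apSeq W = apSeq E14) ∨
    (cond W = 15 ∧ apSeq W = apSeq E15) ∨ (cond W = 17 ∧ apSeq W = apSeq E17) ∨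
    (cond W = 19 ∧ apSeq W = apSeq E19) ∨ (cond W = 21 ∧ apSeq W = apSeq E21) := by
  have h := hasLevel_cond hΔ hW
  have hsq := squarefree_cond W
  obtain ⟨h11, h13⟩ := Main.eleven_le_conductor W hΔ hW
  change 11 ≤ cond W at h11
  change cond W ≠ 13 at h13
  generalize cond W = N at *
  interval_cases N
  · exact Or.inl ⟨rfl, apSeq_eq hsq genus_11 h hasLevel_11⟩
  · exact absurd hsq (by decide +kernel)
  · exact absurd rfl h13
  · exact Or.inr (Or.inl ⟨rfl, apSeq_eq hsq genus_14 h hasLevel_14⟩)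
  · exact Or.inr (Or.inr (Or.inl ⟨rfl, apSeq_eq hsq genus_15 h hasLevel_15⟩))
  · exact absurd hsq (by decide +kernel)
  · exact Or.inr (Or.inr (Or.inr (Or.inl ⟨rfl, apSeq_eq hsq genus_17 h hasLevel_17⟩)))
  · exact absurd hsq (by decide +kernel)
  · exact Or.inr (Or.inr (Or.inr (Or.inr (Or.inl ⟨rfl, apSeq_eq hsq genus_19 h hasLevel_19⟩))))
  · exact absurd hsq (by decide +kernel)
  · exact Or.inr (Or.inr (Or.inr (Or.inr (Or.inr ⟨rfl, apSeq_eq hsq genus_21 h hasLevel_21⟩))))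

/-- the values at `2, 5, 7` -/
def val (a : ℕ → ℤ) : ℤ × ℤ × ℤ := (a 2, a 5, a 7)

lemma val_11 : val (apSeq E11) = (-2, 1, -2) := by
  rw [val, apSeq_good Nat.prime_two (by decide), apSeq_good Nat.prime_five (by decide),
    apSeq_good (by norm_num) (by decide), ap2_11, ap5_11, ap7_11]
lemma val_14 : val (apSeq E14) = (0, 0, 0) := by
  rw [val, apSeq_bad (by decide), apSeq_good Nat.prime_five (by decide),
    apSeq_bad (by decide), ap5_14]
lemma val_15 : val (apSeq E15) = (-1, 0, 0) := by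
  rw [val, apSeq_good Nat.prime_two (by decide), apSeq_bad (by decide),
    apSeq_good (by norm_num) (by decide), ap2_15, ap7_15]
lemma val_17 : val (apSeq E17) = (-1, -2, 4) := by
  rw [val, apSeq_good Nat.prime_two (by decide), apSeq_good Nat.prime_five (by decide),
    apSeq_good (by norm_num) (by decide), ap2_17, ap5_17, ap7_17]
lemma val_19 : val (apSeq E19) = (0, 3, -1) := by
  rw [val, apSeq_good Nat.prime_two (by decide), apSeq_good Nat.prime_five (by decide),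
    apSeq_good (by norm_num) (by decide), ap2_19, ap5_19, ap7_19]
lemma val_21 : val (apSeq E21) = (-1, -2, 0) := by
  rw [val, apSeq_good Nat.prime_two (by decide), apSeq_good Nat.prime_five (by decide),
    apSeq_bad (by decide), ap2_21, ap5_21]

lemma cond_eq {W : WeierstrassCurve ℤ} {N : ℕ} (h : HasLevel W N) (hsq : Squarefree N) :
    cond W = N := by
  refine (Nat.Squarefree.ext_iff (squarefree_cond W) hsq).mpr fun q hq => ?_
  rw [(hasLevel_cond h.disc_ne h.semistable).bad q hq, h.bad q hq]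

/-- the systems of traces of Frobenius of the semistable elliptic curves of conductor at most `N` -/
def systems (N : ℕ) : Set (ℕ → ℤ) :=
  {a | ∃ W : WeierstrassCurve ℤ, W.Δ ≠ 0 ∧ W.IsSemistableModel ∧ cond W ≤ N ∧ a = apSeq W}

theorem systems_eq : systems 21 =
    {apSeq E11, apSeq E14, apSeq E15, apSeq E17, apSeq E19, apSeq E21} := by
  ext a
  constructor
  · rintro ⟨W, hΔ, hW, hN, rfl⟩
    rcases small_conductor hΔ hW hN with h | h | h | h | h | h <;> rw [h.2] <;> simp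
  · have key : ∀ {E : WeierstrassCurve ℤ} {N : ℕ}, HasLevel E N → Squarefree N →
        N ≤ 21 → apSeq E ∈ systems 21 := fun h hsq hN =>
      ⟨_, h.disc_ne, h.semistable, (cond_eq h hsq).trans_le hN, rfl⟩
    rintro (rfl | rfl | rfl | rfl | rfl | rfl)
    · exact key hasLevel_11 (by decide +kernel) (by decide)
    · exact key hasLevel_14 (by decide +kernel) (by decide)
    · exact key hasLevel_15 (by decide +kernel) (by decide)
    · exact key hasLevel_17 (by decide +kernel) (by decide)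
    · exact key hasLevel_19 (by decide +kernel) (by decide)
    · exact key hasLevel_21 (by decide +kernel) (by decide)

/-- **There are exactly six systems of traces of Frobenius of semistable elliptic curves over `ℚ` of conductor at most
`21`** (six isogeny classes: conductors `11, 14, 15, 17, 19, 21`, one each). -/
theorem ncard_systems : (systems 21).ncard = 6 := by
  classical
  have hfin : (systems 21).Finite := by
    rw [systems_eq]
    exact Set.toFinite _
  apply le_antisymm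
  · have h2 : systems 21 = ((({apSeq E11, apSeq E14, apSeq E15, apSeq E17, apSeq E19, apSeq E21} :
        Finset (ℕ → ℤ))) : Set (ℕ → ℤ)) := by
      rw [systems_eq]
      simp
    rw [h2, Set.ncard_coe_finset]
    exact Finset.card_le_six
  · have h1 : (val '' systems 21).ncard ≤ (systems 21).ncard := Set.ncard_image_le hfin
    refine le_trans (le_of_eq ?_) h1
    rw [systems_eq]
    simp only [Set.image_insert_eq, Set.image_singleton, val_11, val_14, val_15, val_17, val_19,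
      val_21]
    have h2 : ({(-2, 1, -2), (0, 0, 0), (-1, 0, 0), (-1, -2, 4), (0, 3, -1), (-1, -2, 0)} :
        Set (ℤ × ℤ × ℤ)) = ((({(-2, 1, -2), (0, 0, 0), (-1, 0, 0), (-1, -2, 4), (0, 3, -1),
          (-1, -2, 0)} : Finset (ℤ × ℤ × ℤ))) : Set (ℤ × ℤ × ℤ)) := by
      simp
    rw [h2, Set.ncard_coe_finset]
    decide

end Main

end Fermat.Agent.Cor.H14
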