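import Fermat.Agent.Cor.H14Powers

/-!
# Wang's example

`16` is an eighth power modulo every prime, but it is not the eighth power of an integer. So `exists_pow_eq` (an integer which
is a `p`-th power modulo almost all primes is a `p`-th power, `p` prime) does not hold for composite exponents in general.

This file is not used by any of the statement files.
-/

set_option autoImplicit false

namespace Fermat.Agent.Cor.H14

/-- `16` is an eighth power modulo every prime. -/
theorem exists_pow_eight (q : ℕ) (hq : q.Prime) : ∃ x : ZMod q, x ^ 8 = 16 := by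
  by_cases hq2 : q = 2
  · subst hq2
    exact ⟨(0 : ZMod 2), rfl⟩
  have : Fact q.Prime := ⟨hq⟩
  have hχ : ringChar (ZMod q) ≠ 2 := by
    rw [ZMod.ringChar_zmod_n]
    exact hq2
  by_cases h1 : IsSquare (-1 : ZMod q)
  · obtain ⟨s, hs⟩ := h1
    refine ⟨1 + s, ?_⟩
    have e : (1 + s) ^ 2 = 2 * s := by linear_combination -hs
    calc (1 + s) ^ 8 = ((1 + s) ^ 2) ^ 4 := by ring
      _ = 16 * (s * s) ^ 2 := by rw [e]; ring
      _ = 16 := by rw [← hs]; norm_num
  by_cases h2 : IsSquare (2 : ZMod q)
  · obtain ⟨s, hs⟩ := h2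
    exact ⟨s, by
      calc s ^ 8 = (s * s) ^ 4 := by ring
        _ = 16 := by rw [← hs]; norm_num⟩
  have h3 : IsSquare (-2 : ZMod q) := by
    have hne1 : (-1 : ZMod q) ≠ 0 := neg_ne_zero.2 one_ne_zero
    have hne2 : (2 : ZMod q) ≠ 0 := Ring.two_ne_zero hχ
    rw [← quadraticChar_one_iff_isSquare (neg_ne_zero.2 hne2)]
    have e : (-2 : ZMod q) = -1 * 2 := by ring
    rw [e, map_mul, quadraticChar_neg_one_iff_not_isSquare.2 h1,
      quadraticChar_neg_one_iff_not_isSquare.2 h2]
    norm_num
  obtain ⟨s, hs⟩ := h3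
  exact ⟨s, by
    calc s ^ 8 = (s * s) ^ 4 := by ring
      _ = 16 := by rw [← hs]; norm_num⟩

/-- `16` is not the eighth power of an integer. -/
theorem not_pow_eight (y : ℤ) : y ^ 8 ≠ 16 := by
  intro h
  have h1 : y ^ 2 < 4 := by nlinarith [sq_nonneg (y ^ 4 - 4), sq_nonneg (y ^ 2 - 2), sq_nonneg y]
  have h2 : -2 < y := by nlinarith
  have h3 : y < 2 := by nlinarith
  interval_cases y <;> norm_num at h

end Fermat.Agent.Cor.H14
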