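import Fermat.Agent.Cor.H14AlmostAll

/-!
# Theorems of Watson and Landau

* `watson`: for every `m ≠ 0` and every odd `k` the number `σ_k(n)` is divisible by `m` for almost all `n`;
* `natZero_totient`: `φ(n)` is divisible by `m` for almost all `n`;
* `natZero_card_divisors`: the number of divisors of `n` is divisible by `2 ^ k` for almost all `n`;
* `landau`: the set of the sums of two squares has natural density `0`.

This file is not used by any of the statement files.
-/

set_option autoImplicit false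

open scoped Classical Topology

noncomputable section

namespace Fermat.Agent.Cor.H14

open Filter

theorem density_ne_zero (m : ℕ) [NeZero m] : (1 : ℝ) / m.totient ≠ 0 := by
  have : (0 : ℝ) < m.totient := by exact_mod_cast Nat.totient_pos.2 (Nat.pos_of_ne_zero (NeZero.ne m))
  positivity

/-- **Watson's theorem (1935)**: `m ∣ σ_k(n)` for almost all `n`, for every `m` and every odd `k`. -/
theorem watson {m : ℕ} (hm : m ≠ 0) {k : ℕ} (hk : Odd k) :
    Tendsto (fun N : ℕ => (({n | ¬ m ∣ ArithmeticFunction.sigma k n} ∩ Set.Icc 1 N).ncard : ℝ) / N)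
      atTop (𝓝 0) := by
  have : NeZero m := ⟨hm⟩
  have h := natZero_of_neg_one (f := fun n => ((ArithmeticFunction.sigma k n : ℕ) : ℤ))
    (fun a b hab => by
      rw [ArithmeticFunction.isMultiplicative_sigma.map_mul_of_coprime hab]
      push_cast
      rfl) m m (fun q hq hq1 => by
      rw [ArithmeticFunction.sigma_apply, hq.sum_divisors]
      push_cast
      rw [hq1, hk.neg_one_pow]
      ring) 1
  refine NatZero.mono h fun n _ hn h1 => hn ?_
  rw [pow_one] at h1
  exact_mod_cast h1

/-- `m ∣ φ(n)` for almost all `n`. -/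
theorem natZero_totient {m : ℕ} (hm : m ≠ 0) :
    Tendsto (fun N : ℕ => (({n | ¬ m ∣ n.totient} ∩ Set.Icc 1 N).ncard : ℝ) / N)
      atTop (𝓝 0) := by
  have : NeZero m := ⟨hm⟩
  have h := natZero_pow (f := fun n => ((n.totient : ℕ) : ℤ)) (ℓ := m)
    (fun a b hab => by
      rw [Nat.totient_mul hab]
      push_cast
      rfl) (hasDensity_mod m 1) (density_ne_zero m) (fun q hq hqP => by
      have h1 : (q : ZMod m) = ((1 : (ZMod m)ˣ) : ZMod m) := hqP
      rw [← ZMod.intCast_zmod_eq_zero_iff_dvd]
      rw [Nat.totient_prime hq, Nat.cast_sub hq.one_le]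
      push_cast
      rw [h1, Units.val_one, sub_self]) 1
  refine NatZero.mono h fun n _ hn h1 => hn ?_
  rw [pow_one] at h1
  exact_mod_cast h1

/-- `2 ^ k` divides the number of divisors of `n` for almost all `n`. -/
theorem natZero_card_divisors (k : ℕ) :
    Tendsto (fun N : ℕ => (({n | ¬ 2 ^ k ∣ n.divisors.card} ∩ Set.Icc 1 N).ncard : ℝ) / N)
      atTop (𝓝 0) := by
  have h := natZero_pow (f := fun n => ((n.divisors.card : ℕ) : ℤ)) (ℓ := 2)
    (fun a b hab => by
      rw [Nat.Coprime.card_divisors_mul hab]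
      push_cast
      rfl) (hasDensity_mod 1 1) (density_ne_zero 1) (fun q hq _ => by
      rw [hq.divisors, Finset.card_pair hq.one_lt.ne]
      norm_num) k
  refine NatZero.mono h fun n _ hn h1 => hn ?_
  exact_mod_cast h1

theorem natZero_of_exact {P : Set ℕ} {δ : ℝ} (hP : HasDensity P δ) (hδ : δ ≠ 0) {S : Set ℕ}
    (hS : ∀ q : ℕ, q.Prime → q ∈ P → ∀ m : ℕ, ¬ q ∣ m → q * m ∉ S) : NatZero S := by
  refine (tendsto_of_density hP hδ hS).congr fun N => ?_
  congr 2
  rw [← Set.ncard_coe_finset]
  congr 1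
  ext n
  rw [Finset.coe_filter, Set.mem_inter_iff, Set.mem_Icc]
  simp only [Finset.mem_Icc]
  exact and_comm

/-- **Landau's theorem**: the set of the sums of two squares has natural density zero. -/
theorem landau :
    Tendsto (fun N : ℕ => (({n | ∃ x y : ℕ, n = x ^ 2 + y ^ 2} ∩ Set.Icc 1 N).ncard : ℝ) / N)
      atTop (𝓝 0) := by
  refine natZero_of_exact (hasDensity_mod 4 (-1)) (density_ne_zero 4) fun q hq hqP m hm hmem => ?_
  have : Fact q.Prime := ⟨hq⟩
  have hm0 : m ≠ 0 := fun h => hm (h ▸ dvd_zero q)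
  have h1 : (q : ZMod 4) = ((-1 : (ZMod 4)ˣ) : ZMod 4) := hqP
  have h2 : q % 4 = 3 := by
    have h3 := congrArg ZMod.val h1
    rw [ZMod.val_natCast] at h3
    rw [h3]
    rfl
  have h3 := Nat.eq_sq_add_sq_iff.1 hmem q
    (Nat.mem_primeFactors.2 ⟨hq, dvd_mul_right q m, mul_ne_zero hq.ne_zero hm0⟩) h2
  rw [padicValNat.mul hq.ne_zero hm0, padicValNat_self, padicValNat.eq_zero_of_not_dvd hm] at h3
  exact absurd h3 (by decide)

end Fermat.Agent.Cor.H14
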