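import Mathlib

/-!
# The Manin–Drinfeld theorem: combinatorics and linear algebra

The combinatorial part: two maps `p, r : S' → S` of finite sets with ramification indices `e, e'`
of total degree `ℓ + 1`, a width function `m` on `S` with values prime to `ℓ` and a dichotomy. Then
the correspondence `D ↦ ∑_{r w = u} e_w D(p w)` has the form `ℓ D(b u) + D(a u)` with a
permutation `b`.

This file is not used by any of the statement files.
-/

set_option autoImplicit false

namespace Fermat.Agent.Cor.MD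

open Finset

section Comb

variable {S S' : Type*} [Fintype S] [Fintype S'] [DecidableEq S] [DecidableEq S']

/-- the combinatorial data at the cusps -/
structure CuspData (ℓ : ℕ) (p r : S' → S) (e e' : S' → ℕ) (m : S → ℕ) : Prop where
  prime : ℓ.Prime
  epos : ∀ w, 0 < e w
  epos' : ∀ w, 0 < e' w
  mpos : ∀ v, 0 < m v
  mlt : ∀ v, m v < ℓ
  sum : ∀ v, ∑ w ∈ univ.filter (fun w => p w = v), e w = ℓ + 1
  sum' : ∀ u, ∑ w ∈ univ.filter (fun w => r w = u), e' w = ℓ + 1
  dich : ∀ w, e w * m (p w) = ℓ * (e' w * m (r w)) ∨ e' w * m (r w) = ℓ * (e w * m (p w))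

variable {ℓ : ℕ} {p r : S' → S} {e e' : S' → ℕ} {m : S → ℕ}

theorem CuspData.swap (h : CuspData ℓ p r e e' m) : CuspData ℓ r p e' e m where
  prime := h.prime
  epos := h.epos'
  epos' := h.epos
  mpos := h.mpos
  mlt := h.mlt
  sum := h.sum'
  sum' := h.sum
  dich w := (h.dich w).symm

theorem CuspData.le (h : CuspData ℓ p r e e' m) (w : S') : e w ≤ ℓ + 1 := by
  rw [← h.sum (p w)]
  exact single_le_sum (f := e) (fun _ _ => Nat.zero_le _) (by simp)

theorem CuspData.e_eq (h : CuspData ℓ p r e e' m) {w : S'}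
    (hw : e w * m (p w) = ℓ * (e' w * m (r w))) : e w = ℓ ∧ m (p w) = e' w * m (r w) := by
  have h2 := h.prime.two_le
  have h1 : ℓ ∣ e w * m (p w) := ⟨_, hw⟩
  have h3 : ℓ ∣ e w := (h.prime.dvd_mul.mp h1).resolve_right
    (Nat.not_dvd_of_pos_of_lt (h.mpos _) (h.mlt _))
  obtain ⟨k, hk⟩ := h3
  have h4 := h.le w
  have h5 := h.epos w
  have hk1 : k = 1 := by
    rcases Nat.lt_or_ge k 2 with hlt | hge
    · interval_cases k
      · omega
      · rfl
    · have : ℓ * 2 ≤ ℓ * k := Nat.mul_le_mul_left ℓ hge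
      omega
  have h6 : e w = ℓ := by rw [hk, hk1, mul_one]
  refine ⟨h6, ?_⟩
  rw [h6] at hw
  exact Nat.eq_of_mul_eq_mul_left h.prime.pos hw

/-- type one -/
def One (ℓ : ℕ) (p r : S' → S) (e e' : S' → ℕ) (m : S → ℕ) (w : S') : Prop :=
  e w * m (p w) = ℓ * (e' w * m (r w))

theorem CuspData.not_both (h : CuspData ℓ p r e e' m) {w : S'} (h1 : One ℓ p r e e' m w) :
    ¬ One ℓ r p e' e m w := by
  intro h2
  unfold One at h1 h2
  have h3 := h.prime.two_le
  have h4 : 0 < e w * m (p w) := Nat.mul_pos (h.epos w) (h.mpos _)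
  rw [h2] at h1
  have h5 : 2 * 2 ≤ ℓ * ℓ := Nat.mul_le_mul h3 h3
  have h6 : e w * m (p w) = (ℓ * ℓ) * (e w * m (p w)) := by rw [mul_assoc]; exact h1
  nlinarith

theorem CuspData.one_or (h : CuspData ℓ p r e e' m) (w : S') :
    One ℓ p r e e' m w ∨ One ℓ r p e' e m w := h.dich w

theorem CuspData.inj (h : CuspData ℓ p r e e' m) {w₁ w₂ : S'} (h1 : One ℓ p r e e' m w₁)
    (h2 : One ℓ p r e e' m w₂) (hp : p w₁ = p w₂) : w₁ = w₂ := by
  by_contra hne
  have h3 := h.sum (p w₁)
  have h4 : ∑ w ∈ ({w₁, w₂} : Finset S'), e w ≤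
      ∑ w ∈ univ.filter (fun w => p w = p w₁), e w := by
    apply sum_le_sum_of_subset
    intro w hw
    rw [mem_insert, mem_singleton] at hw
    rcases hw with rfl | rfl
    · simp
    · simp [hp]
  rw [sum_pair hne, (h.e_eq h1).1, (h.e_eq h2).1, h3] at h4
  have := h.prime.two_le
  omega

open scoped Classical in
theorem CuspData.surj (h : CuspData ℓ p r e e' m) :
    (∀ v, ∃ w, One ℓ p r e e' m w ∧ p w = v) ∧ (∀ u, ∃ w, One ℓ r p e' e m w ∧ r w = u) := by
  set I := univ.filter (fun w => One ℓ p r e e' m w) with hI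
  set J := univ.filter (fun w => ¬ One ℓ p r e e' m w) with hJ
  have hJ2 : ∀ w ∈ J, One ℓ r p e' e m w := fun w hw =>
    (h.one_or w).resolve_left (mem_filter.mp hw).2
  have tot : ∑ w, e w * m (p w) = (ℓ + 1) * ∑ v, m v := by
    rw [mul_sum, ← sum_fiberwise (s := (univ : Finset S')) (g := p)
      (f := fun w => e w * m (p w))]
    refine sum_congr rfl fun v _ => ?_
    rw [← h.sum v, sum_mul]
    refine sum_congr rfl fun w hw => ?_
    rw [(mem_filter.mp hw).2]
  have split : ∑ w, e w * m (p w) = ℓ * ∑ w ∈ I, m (p w) + ∑ w ∈ J, m (r w) := by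
    rw [← sum_filter_add_sum_filter_not univ (fun w => One ℓ p r e e' m w)]
    congr 1
    · rw [mul_sum]
      refine sum_congr rfl fun w hw => ?_
      rw [(h.e_eq (mem_filter.mp hw).2).1]
    · refine sum_congr rfl fun w hw => ?_
      rw [(h.swap.e_eq (hJ2 w hw)).2]
  have bI : ∑ w ∈ I, m (p w) = ∑ v ∈ I.image p, m v := by
    rw [sum_image]
    intro w₁ h1 w₂ h2 hh
    exact h.inj (mem_filter.mp h1).2 (mem_filter.mp h2).2 hh
  have bJ : ∑ w ∈ J, m (r w) = ∑ v ∈ J.image r, m v := by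
    rw [sum_image]
    intro w₁ h1 w₂ h2 hh
    exact h.swap.inj (hJ2 w₁ h1) (hJ2 w₂ h2) hh
  have cI := sum_add_sum_compl (I.image p) m
  have cJ := sum_add_sum_compl (J.image r) m
  have key : ℓ * ∑ v ∈ (I.image p)ᶜ, m v + ∑ v ∈ (J.image r)ᶜ, m v = 0 := by
    rw [split, bI, bJ] at tot
    have e1 : ℓ * ∑ v, m v = ℓ * ∑ v ∈ I.image p, m v + ℓ * ∑ v ∈ (I.image p)ᶜ, m v := by
      rw [← cI, mul_add]
    rw [add_mul, one_mul, e1] at tot
    omega
  have k1 : ∑ v ∈ (I.image p)ᶜ, m v = 0 := by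
    have := h.prime.pos
    rcases Nat.eq_zero_or_pos (∑ v ∈ (I.image p)ᶜ, m v) with h0 | h0
    · exact h0
    · have := Nat.mul_pos this h0
      omega
  have k2 : ∑ v ∈ (J.image r)ᶜ, m v = 0 := by omega
  constructor
  · intro v
    by_contra hcon
    have hv : v ∈ (I.image p)ᶜ := by
      rw [mem_compl, mem_image]
      rintro ⟨w, hw, hpw⟩
      exact hcon ⟨w, (mem_filter.mp hw).2, hpw⟩
    have := (sum_eq_zero_iff.mp k1) v hv
    have := h.mpos v
    omega
  · intro v
    by_contra hcon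
    have hv : v ∈ (J.image r)ᶜ := by
      rw [mem_compl, mem_image]
      rintro ⟨w, hw, hpw⟩
      exact hcon ⟨w, hJ2 w hw, hpw⟩
    have := (sum_eq_zero_iff.mp k2) v hv
    have := h.mpos v
    omega

/-- the two points over `u` -/
theorem CuspData.fiber (h : CuspData ℓ p r e e' m) (u : S) :
    ∃ w₁ w₂ : S', w₁ ≠ w₂ ∧ One ℓ p r e e' m w₁ ∧ One ℓ r p e' e m w₂ ∧
      e w₁ = ℓ ∧ e w₂ = 1 ∧ univ.filter (fun w => r w = u) = {w₁, w₂} := by
  classical
  obtain ⟨w₂, h2, hr2⟩ := h.surj.2 u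
  have e2' := (h.swap.e_eq h2).1
  have hs := h.sum' u
  have hmem : w₂ ∈ univ.filter (fun w => r w = u) := by simp [hr2]
  rw [← add_sum_erase _ _ hmem, e2'] at hs
  have hs1 : ∑ w ∈ (univ.filter (fun w => r w = u)).erase w₂, e' w = 1 := by omega
  obtain ⟨w₁, hw1⟩ : ((univ.filter (fun w => r w = u)).erase w₂).Nonempty := by
    rw [nonempty_iff_ne_empty]
    intro h0
    rw [h0, sum_empty] at hs1
    omega
  have hw1' := mem_erase.mp hw1
  have hr1 : r w₁ = u := (mem_filter.mp hw1'.2).2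
  have hone : One ℓ p r e e' m w₁ := by
    refine (h.one_or w₁).resolve_right fun h3 => ?_
    exact hw1'.1 (h.swap.inj h3 h2 (hr1.trans hr2.symm))
  have hset : (univ.filter (fun w => r w = u)).erase w₂ = {w₁} := by
    rw [eq_singleton_iff_unique_mem]
    refine ⟨hw1, fun w hw => ?_⟩
    by_contra hne
    have h4 : ∑ x ∈ ({w, w₁} : Finset S'), e' x ≤
        ∑ w ∈ (univ.filter (fun w => r w = u)).erase w₂, e' w := by
      apply sum_le_sum_of_subset
      intro x hx
      rw [mem_insert, mem_singleton] at hx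
      rcases hx with rfl | rfl
      · exact hw
      · exact hw1
    rw [sum_pair hne, hs1] at h4
    have := h.epos' w
    have := h.epos' w₁
    omega
  refine ⟨w₁, w₂, hw1'.1, hone, h2, (h.e_eq hone).1, ?_, ?_⟩
  · obtain ⟨w', hw', hp'⟩ := h.surj.1 (p w₂)
    have hne : w' ≠ w₂ := by
      rintro rfl
      exact h.not_both hw' h2
    have h4 : ∑ x ∈ ({w', w₂} : Finset S'), e x ≤
        ∑ w ∈ univ.filter (fun w => p w = p w₂), e w := by
      apply sum_le_sum_of_subset
      intro x hx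
      rw [mem_insert, mem_singleton] at hx
      rcases hx with rfl | rfl
      · simp [hp']
      · simp
    rw [sum_pair hne, h.sum, (h.e_eq hw').1] at h4
    have := h.epos w₂
    omega
  · rw [← insert_erase hmem, hset, pair_comm]

/-- **The correspondence at the cusps** is `ℓ B + A` with a permutation `B`. -/
theorem CuspData.main (h : CuspData ℓ p r e e' m) : ∃ a b : S → S, Function.Surjective b ∧
    ∀ (D : S → ℤ) (u : S), ∑ w ∈ univ.filter (fun w => r w = u), (e w : ℤ) * D (p w) =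
      ℓ * D (b u) + D (a u) := by
  classical
  choose w₁ w₂ hne h1 h2 e1 e2 hf using h.fiber
  refine ⟨fun u => p (w₂ u), fun u => p (w₁ u), ?_, ?_⟩
  · intro v
    obtain ⟨w, hw, hpw⟩ := h.surj.1 v
    refine ⟨r w, ?_⟩
    have hmem : w ∈ univ.filter (fun x => r x = r w) := by simp
    rw [hf (r w), mem_insert, mem_singleton] at hmem
    rcases hmem with h3 | h3
    · simp only
      rw [← h3, hpw]
    · exfalso
      rw [h3] at hw
      exact h.not_both hw (h2 _)
  · intro D u
    rw [hf u, sum_pair (hne u), e1, e2, Nat.cast_one, one_mul]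

end Comb

section Lin

variable {S : Type*} [Fintype S] [DecidableEq S] {ℓ : ℕ} {a b : S → S}

/-- the operator on complex valued functions -/
def opC (ℓ : ℕ) (a b : S → S) : Module.End ℂ (S → ℂ) where
  toFun f u := ℓ * f (b u) + f (a u)
  map_add' f g := by ext u; simp only [Pi.add_apply]; ring
  map_smul' c f := by ext u; simp only [Pi.smul_apply, smul_eq_mul, RingHom.id_apply]; ring

/-- the operator on integer valued functions -/
def opZ (ℓ : ℕ) (a b : S → S) : Module.End ℤ (S → ℤ) where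
  toFun f u := ℓ * f (b u) + f (a u)
  map_add' f g := by ext u; simp only [Pi.add_apply]; ring
  map_smul' c f := by ext u; simp only [Pi.smul_apply, smul_eq_mul, RingHom.id_apply]; ring

theorem injective_sub (hb : Function.Surjective b) {α : ℂ} (hα : ‖α‖ < ℓ - 1) :
    Function.Injective (opC ℓ a b - algebraMap ℂ (Module.End ℂ (S → ℂ)) α) := by
  rw [← LinearMap.ker_eq_bot, LinearMap.ker_eq_bot']
  intro f hf
  by_contra hne
  have hne' : ∃ u, f u ≠ 0 := Function.ne_iff.mp hne
  have : Nonempty S := ⟨hne'.choose⟩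
  obtain ⟨u₀, hu₀⟩ := Finite.exists_max (fun u => ‖f u‖)
  obtain ⟨u, hu⟩ := hb u₀
  have hpos : 0 < ‖f u₀‖ := by
    obtain ⟨x, hx⟩ := hne'
    exact (norm_pos_iff.mpr hx).trans_le (hu₀ x)
  have h1 : (ℓ : ℂ) * f (b u) + f (a u) - α * f u = 0 := by
    have := congrFun hf u
    exact this
  rw [hu] at h1
  have h2 : (ℓ : ℂ) * f u₀ = α * f u - f (a u) := by linear_combination h1
  have h3 := congrArg norm h2
  rw [norm_mul, Complex.norm_natCast] at h3
  have h4 : ‖α * f u - f (a u)‖ ≤ ‖α‖ * ‖f u₀‖ + ‖f u₀‖ := by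
    refine (norm_sub_le _ _).trans ?_
    rw [norm_mul]
    exact add_le_add (mul_le_mul_of_nonneg_left (hu₀ u) (norm_nonneg _)) (hu₀ _)
  rw [← h3] at h4
  nlinarith

open Polynomial in
theorem injective_aeval (hb : Function.Surjective b) {P : ℂ[X]} (hP : P ≠ 0)
    (hr : ∀ α ∈ P.roots, ‖α‖ < ℓ - 1) : Function.Injective (aeval (opC ℓ a b) P) := by
  have hs : P = C P.leadingCoeff * (P.roots.map fun α => X - C α).prod :=
    (IsAlgClosed.splits P).eq_prod_roots
  rw [hs, map_mul, aeval_C]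
  have h1 : Function.Injective (aeval (opC ℓ a b) (P.roots.map fun α => X - C α).prod) := by
    generalize P.roots = s at hr
    induction s using Multiset.induction_on with
    | empty =>
      rw [Multiset.map_zero, Multiset.prod_zero, map_one]
      exact Function.injective_id
    | cons x s ih =>
      rw [Multiset.map_cons, Multiset.prod_cons, map_mul, map_sub, aeval_X, aeval_C]
      exact (injective_sub hb (hr x (Multiset.mem_cons_self _ _))).comp
        (ih fun α hα => hr α (Multiset.mem_cons_of_mem hα))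
  have h2 : Function.Injective (algebraMap ℂ (Module.End ℂ (S → ℂ)) P.leadingCoeff) := by
    intro x y hxy
    simp only [Module.algebraMap_end_apply] at hxy
    exact smul_right_injective _ (leadingCoeff_ne_zero.mpr hP) hxy
  exact h2.comp h1

open Polynomial in
theorem aeval_opZ (P : ℤ[X]) (f : S → ℤ) :
    (fun u => ((aeval (opZ ℓ a b) P f u : ℤ) : ℂ)) =
      aeval (opC ℓ a b) (P.map (Int.castRingHom ℂ)) (fun u => (f u : ℂ)) := by
  induction P using Polynomial.induction_on generalizing f with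
  | C c =>
    rw [aeval_C, Polynomial.map_C, aeval_C]
    ext u
    simp [Module.algebraMap_end_apply]
  | add p q hp hq =>
    rw [map_add, Polynomial.map_add, map_add, LinearMap.add_apply, LinearMap.add_apply, ← hp,
      ← hq]
    ext u
    simp
  | monomial n c ih =>
    have e1 : (C c * X ^ (n + 1) : ℤ[X]) = (C c * X ^ n) * X := by ring
    have e2 : aeval (opZ ℓ a b) (C c * X ^ (n + 1) : ℤ[X]) f =
        aeval (opZ ℓ a b) (C c * X ^ n : ℤ[X]) (opZ ℓ a b f) := by
      rw [e1, map_mul (aeval (opZ ℓ a b)) (C c * X ^ n) X, aeval_X, Module.End.mul_apply]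
    have e3 : aeval (opC ℓ a b) ((C c * X ^ (n + 1) : ℤ[X]).map (Int.castRingHom ℂ)) =
        aeval (opC ℓ a b) ((C c * X ^ n : ℤ[X]).map (Int.castRingHom ℂ)) * opC ℓ a b := by
      rw [e1, Polynomial.map_mul (p := C c * X ^ n) (q := X), Polynomial.map_X,
        map_mul (aeval (opC ℓ a b)) _ X, aeval_X]
    rw [e2, e3, Module.End.mul_apply, ih]
    congr 1
    ext u
    simp [opZ, opC]

open Polynomial in
/-- **A nonzero integer is in the image.** -/
theorem exists_int_smul (hb : Function.Surjective b) {P : ℤ[X]} (hP : P ≠ 0)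
    (hr : ∀ α ∈ (P.map (Int.castRingHom ℂ)).roots, ‖α‖ < ℓ - 1) :
    ∃ δ : ℤ, δ ≠ 0 ∧ ∀ f : S → ℤ, ∃ g : S → ℤ, aeval (opZ ℓ a b) P g = δ • f := by
  have hP' : P.map (Int.castRingHom ℂ) ≠ 0 :=
    (Polynomial.map_ne_zero_iff (Int.cast_injective)).mpr hP
  have hinj : Function.Injective (aeval (opZ ℓ a b) P) := by
    intro f g hfg
    have h1 := aeval_opZ (ℓ := ℓ) (a := a) (b := b) P f
    have h2 := aeval_opZ (ℓ := ℓ) (a := a) (b := b) P g
    rw [hfg, h2] at h1
    have h3 := injective_aeval hb hP' hr h1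
    ext u
    exact_mod_cast (congrFun h3 u).symm
  set M := LinearMap.toMatrix' (aeval (opZ ℓ a b) P) with hM
  have hdet : M.det ≠ 0 := by
    intro h0
    obtain ⟨v, hv, hv0⟩ := Matrix.exists_mulVec_eq_zero_iff.mpr h0
    rw [hM, LinearMap.toMatrix'_mulVec] at hv0
    exact hv (hinj (hv0.trans (map_zero _).symm))
  refine ⟨M.det, hdet, fun f => ⟨M.adjugate.mulVec f, ?_⟩⟩
  rw [← LinearMap.toMatrix'_mulVec, ← hM, Matrix.mulVec_mulVec, Matrix.mul_adjugate,
    Matrix.smul_mulVec, Matrix.one_mulVec]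

end Lin

end Fermat.Agent.Cor.MD
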