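import Fermat.Agent.Cor.H17MD9
import Fermat.Agent.H02F.PullInj2

/-!
# The rank of the modular units of `X_0(N)`

The group of modular units of `X_0(N)` (functions over `Qb` without zeros and poles outside the
cusps) modulo constants is free of rank `#cusps - 1`, for every `N`.

This file is not used by any of the statement files.
-/

set_option autoImplicit false
set_option linter.style.haveILetI false

noncomputable section

open AlgebraicCurve ModularCurve Polynomial

namespace Fermat.Agent.Cor.MD

section Gen

variable {K F : Type*} [Field K] [Field F] [Algebra K F] [HasPrincipalDivisors K F] {j : F}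

theorem toDiv_eq_sum [Fintype (Poles K j)] (f : Poles K j → ℤ) :
    toDiv f = ∑ v : Poles K j, (Finsupp.single v.1 (f v) : Divisor K F) := by
  classical
  ext u
  rw [Finsupp.finsetSum_apply]
  by_cases hu : u.ord j < 0
  · have h1 := toDiv_apply f ⟨u, hu⟩
    change toDiv f u = _ at h1
    rw [h1, Finset.sum_eq_single_of_mem (⟨u, hu⟩ : Poles K j) (Finset.mem_univ _)]
    · exact Finsupp.single_eq_same.symm
    · intro v _ hv
      exact Finsupp.single_eq_of_ne (fun h => hv (Subtype.ext h.symm))
  · rw [toDiv_apply_of_not _ hu, Finset.sum_eq_zero]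
    intro v _
    exact Finsupp.single_eq_of_ne (fun h => hu (h ▸ v.2))

theorem degree_toDiv [Fintype (Poles K j)] (hd : ∀ v : Place K F, v.deg = 1)
    (f : Poles K j → ℤ) : Divisor.degree (toDiv f) = ∑ v, f v := by
  rw [toDiv_eq_sum, map_sum]
  refine Finset.sum_congr rfl fun v _ => ?_
  rw [Divisor.degree_single, hd, Nat.cast_one, mul_one]

end Gen

local notation "Qb" => AlgebraicClosure ℚ

variable (N : ℕ) [NeZero N]

/-- the modular units of `X_0(N)` -/
def modUnits : Subgroup (modularFunctionFieldBar N)ˣ where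
  carrier := {f | ∀ v : Place Qb (modularFunctionFieldBar N),
    v.ord (f : modularFunctionFieldBar N) ≠ 0 → v.ord (H05.jB Qb N) < 0}
  one_mem' := fun v hv => absurd v.ord_one hv
  mul_mem' := by
    intro f g hf hg v hv
    by_cases h : v.ord (f : modularFunctionFieldBar N) = 0
    · refine hg v fun h' => hv ?_
      rw [Units.val_mul, v.ord_mul f.ne_zero g.ne_zero, h, h', add_zero]
    · exact hf v h
  inv_mem' := by
    intro f hf v hv
    refine hf v fun h => hv ?_
    rw [Units.val_inv_eq_inv_val, v.ord_inv, h, neg_zero]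

/-- the orders of a modular unit at the cusps -/
def ordC : Additive (modUnits N) →ₗ[ℤ] (Cusp N → ℤ) :=
  AddMonoidHom.toIntLinearMap
    { toFun := fun f v => v.1.ord ((f.toMul : (modularFunctionFieldBar N)ˣ) :
        modularFunctionFieldBar N)
      map_zero' := by
        funext v
        exact v.1.ord_one
      map_add' := by
        intro f g
        funext v
        exact v.1.ord_mul (f.toMul : (modularFunctionFieldBar N)ˣ).ne_zero
          (g.toMul : (modularFunctionFieldBar N)ˣ).ne_zero }

theorem ordC_apply (f : Additive (modUnits N)) (v : Cusp N) :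
    ordC N f v = v.1.ord ((f.toMul : (modularFunctionFieldBar N)ˣ) :
        modularFunctionFieldBar N) := rfl

/-- a modular unit is determined by its orders at the cusps up to a constant. -/
theorem ordC_eq_zero_iff (f : modUnits N) : ordC N (Additive.ofMul f) = 0 ↔
    ∃ c : Qb, algebraMap Qb (modularFunctionFieldBar N) c =
      ((f : (modularFunctionFieldBar N)ˣ) : modularFunctionFieldBar N) := by
  constructor
  · intro h
    have h1 : ∀ v : Place Qb (modularFunctionFieldBar N),
        v.ord ((f : (modularFunctionFieldBar N)ˣ) : modularFunctionFieldBar N) =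
          v.ord (1 : modularFunctionFieldBar N) := by
      intro v
      rw [v.ord_one]
      by_contra h0
      exact h0 (congrFun h ⟨v, f.2 v h0⟩)
    obtain ⟨c, -, hc⟩ := H02F.exists_const_of_ord (K := Qb) one_ne_zero
      (f : (modularFunctionFieldBar N)ˣ).ne_zero h1
    exact ⟨c, by rw [hc, Algebra.smul_def, mul_one]⟩
  · rintro ⟨c, hc⟩
    funext v
    rw [ordC_apply]
    change v.1.ord ((f : (modularFunctionFieldBar N)ˣ) : modularFunctionFieldBar N) = 0
    rw [← hc]
    exact H18.ord_algebraMap v.1 c

instance nonempty_cusp : Nonempty (Cusp N) :=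
  ⟨⟨M5.cInf Qb N, by
    have h1 := M5.cInf_ord_jB Qb (one_dvd N)
    have h2 : M5.jB Qb (one_dvd N) = H05.jB Qb N := Subtype.ext (Igusa.jd_one _)
    rw [h2] at h1
    rw [h1]
    norm_num⟩⟩

/-- the sum of the multiplicities -/
def sumC [Fintype (Cusp N)] : (Cusp N → ℤ) →ₗ[ℤ] ℤ where
  toFun f := ∑ v, f v
  map_add' f g := Finset.sum_add_distrib
  map_smul' c f := by
    simp only [Pi.smul_apply, smul_eq_mul, RingHom.id_apply]
    rw [Finset.mul_sum]

theorem range_ordC_le [Fintype (Cusp N)] : LinearMap.range (ordC N) ≤ LinearMap.ker (sumC N) := by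
  rintro _ ⟨f, rfl⟩
  rw [LinearMap.mem_ker]
  obtain ⟨D, hD, hD0⟩ := HasPrincipalDivisors.exists_divisor (K := Qb)
    ((f.toMul : (modularFunctionFieldBar N)ˣ) : modularFunctionFieldBar N) (Units.ne_zero _)
  have h1 : D = toDiv (fun v : Cusp N => D v.1) :=
    eq_toDiv (fun v hv => f.toMul.2 v (by rw [← hD]; exact hv))
  rw [h1, degree_toDiv (H05.deg_eq_one_bc Qb N)] at hD0
  rw [← hD0]
  refine Finset.sum_congr rfl fun v _ => ?_
  rw [hD]
  rfl

theorem exists_smul_mem_range [Fintype (Cusp N)] : ∃ m : ℕ, 0 < m ∧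
    ∀ z ∈ LinearMap.ker (sumC N), (m : ℤ) • z ∈ LinearMap.range (ordC N) := by
  obtain ⟨m, hm, h⟩ := exists_modular_units N
  refine ⟨m, hm, fun z hz => ?_⟩
  have hz' : ∑ v, z v = 0 := hz
  obtain ⟨f, hf, hff⟩ := h (toDiv z)
    (by rw [degree_toDiv (H05.deg_eq_one_bc Qb N)]; exact hz')
    (by
      intro v hv
      by_contra hcon
      exact hv (toDiv_apply_of_not _ hcon))
  have hmem : Units.mk0 f hf ∈ modUnits N := by
    intro v hv
    by_contra hcon
    apply hv
    rw [Units.val_mk0, hff, toDiv_apply_of_not _ hcon, mul_zero]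
  refine ⟨Additive.ofMul ⟨_, hmem⟩, ?_⟩
  funext v
  change v.1.ord f = _
  rw [hff, toDiv_apply]
  rfl

/-- **The rank of the modular units**. -/
theorem finrank_range_ordC :
    Module.finrank ℤ (LinearMap.range (ordC N)) = Nat.card (Cusp N) - 1 := by
  classical
  letI : Fintype (Cusp N) := Fintype.ofFinite _
  obtain ⟨m, hm, hmz⟩ := exists_smul_mem_range N
  have h1 : Module.finrank ℤ (LinearMap.range (ordC N)) ≤
      Module.finrank ℤ (LinearMap.ker (sumC N)) := Submodule.finrank_mono (range_ordC_le N)
  have h2 : Module.finrank ℤ (LinearMap.ker (sumC N)) ≤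
      Module.finrank ℤ (LinearMap.range (ordC N)) := by
    let g : LinearMap.ker (sumC N) →ₗ[ℤ] LinearMap.range (ordC N) :=
      { toFun := fun z => ⟨(m : ℤ) • z.1, hmz z.1 z.2⟩
        map_add' := fun a b => Subtype.ext (smul_add _ _ _)
        map_smul' := fun c a => Subtype.ext (smul_comm _ _ _) }
    refine LinearMap.finrank_le_finrank_of_injective (f := g) ?_
    intro a b hab
    have h3 : (m : ℤ) • a.1 = (m : ℤ) • b.1 := congrArg Subtype.val hab
    apply Subtype.ext
    funext v
    have h4 : (m : ℤ) * a.1 v = (m : ℤ) * b.1 v := congrFun h3 v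
    exact mul_left_cancel₀ (by exact_mod_cast hm.ne') h4
  have h3 := Submodule.finrank_quotient_add_finrank (LinearMap.ker (sumC N))
  rw [(LinearMap.quotKerEquivRange (sumC N)).finrank_eq] at h3
  have h4 : LinearMap.range (sumC N) = ⊤ := by
    rw [LinearMap.range_eq_top]
    intro c
    obtain ⟨v⟩ := nonempty_cusp N
    refine ⟨Pi.single v c, ?_⟩
    change ∑ w, (Pi.single v c : Cusp N → ℤ) w = c
    rw [Finset.sum_pi_single']
    simp
  rw [h4, finrank_top, Module.finrank_self, Module.finrank_fintype_fun_eq_card] at h3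
  rw [Nat.card_eq_fintype_card]
  omega

/-- **The group of modular units modulo constants is free of rank `#cusps - 1`.** -/
theorem modular_units_structure :
    Nonempty ((Additive (modUnits N) ⧸ LinearMap.ker (ordC N)) ≃ₗ[ℤ]
      (Fin (Nat.card (Cusp N) - 1) → ℤ)) := by
  haveI : Module.Free ℤ (LinearMap.range (ordC N)) := inferInstance
  haveI : Module.Finite ℤ (LinearMap.range (ordC N)) := inferInstance
  exact ⟨(LinearMap.quotKerEquivRange (ordC N)).trans
    (LinearEquiv.ofFinrankEq _ _ (by rw [finrank_range_ordC, Module.finrank_fin_fun]))⟩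

end Fermat.Agent.Cor.MD
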