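import Fermat.Agent.Cor.H17MD10
import Fermat.Agent.Cor.H13MD

/-!
# Rationality of the cuspidal subgroup of `J_0(N)`

* the cuspidal subgroup of `J_0(N)(Qb)` is stable under the Galois group, for every `N`;
* for squarefree `N` it consists of rational points;
* for squarefree `N` the number of cusps is the number of divisors of `N`, the rank of the modular
  units is `σ₀(N) - 1`.

This file is not used by any of the statement files.
-/

set_option autoImplicit false
set_option linter.style.haveILetI false

noncomputable section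

open AlgebraicCurve ModularCurve Polynomial

namespace Fermat.Agent.Cor.MD

local notation "Qb" => AlgebraicClosure ℚ
local notation "GQ" => AlgebraicClosure ℚ ≃ₐ[ℚ] AlgebraicClosure ℚ

variable (N : ℕ) [NeZero N]

theorem jB_eq : M5.jB Qb (one_dvd N) = H05.jB Qb N := Subtype.ext (Igusa.jd_one _)

/-- `j` is rational. -/
theorem smul_jB (σ : GQ) :
    arithmeticGalois (modularFunctionFieldFull N) σ • H05.jB Qb N = H05.jB Qb N := by
  apply Subtype.ext
  rw [coe_arithmeticGalois_smul]
  exact coeffMap_jqModC _

theorem ord_smul_jB (σ : GQ) (v : Place Qb (modularFunctionFieldBar N)) :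
    (arithmeticGalois (modularFunctionFieldFull N) σ • v).ord (H05.jB Qb N) =
      v.ord (H05.jB Qb N) := by
  conv_lhs => rw [← smul_jB N σ]
  exact SemilinearAut.ord_smul _ _ _

theorem ord_inv_smul_jB (σ : GQ) (v : Place Qb (modularFunctionFieldBar N)) :
    ((arithmeticGalois (modularFunctionFieldFull N) σ)⁻¹ • v).ord (H05.jB Qb N) =
      v.ord (H05.jB Qb N) := by
  conv_rhs => rw [← smul_inv_smul (arithmeticGalois (modularFunctionFieldFull N) σ) v]
  rw [ord_smul_jB]

/-- **The cuspidal subgroup is stable under the Galois group.** -/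
theorem smul_mem_cuspGroup (σ : GQ) {x : JZero N} (hx : x ∈ cuspGroup N) :
    σ • x ∈ cuspGroup N := by
  obtain ⟨D, hD, rfl⟩ := hx
  refine ⟨SemilinearAut.degZeroSMulHom (arithmeticGalois (modularFunctionFieldFull N) σ) D,
    ?_, rfl⟩
  intro v hv
  rw [SemilinearAut.coe_degZeroSMulHom, SemilinearAut.divisor_smul_apply] at hv
  have := hD _ hv
  rwa [ord_inv_smul_jB] at this

variable {N}

/-- the cusps are rational for squarefree level -/
theorem smul_cusp_squarefree (hN : Squarefree N) (σ : GQ)
    {v : Place Qb (modularFunctionFieldBar N)} (hv : v.ord (H05.jB Qb N) < 0) :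
    arithmeticGalois (modularFunctionFieldFull N) σ • v = v := by
  obtain ⟨Q, hQ, h1⟩ := H13.cusp_cases_squarefree hN v (by rw [jB_eq]; exact hv)
  obtain ⟨Q', hQ', h2⟩ := H13.cusp_cases_squarefree hN
    (arithmeticGalois (modularFunctionFieldFull N) σ • v) (by rw [jB_eq, ord_smul_jB]; exact hv)
  have h3 := H13.cQ_ord hN hQ
  have h4 := H13.cQ_ord hN hQ'
  rw [← h1, jB_eq] at h3
  rw [← h2, jB_eq, ord_smul_jB, h3] at h4
  have h5 : Q = Q' := by exact_mod_cast neg_injective h4
  rw [h2, ← h5, ← h1]

/-- **For squarefree `N` the cuspidal subgroup of `J_0(N)` consists of rational points.** -/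
theorem smul_eq_of_mem_cuspGroup (hN : Squarefree N) (σ : GQ) {x : JZero N}
    (hx : x ∈ cuspGroup N) : σ • x = x := by
  obtain ⟨D, hD, rfl⟩ := hx
  change Pic0.mk (SemilinearAut.degZeroSMulHom
    (arithmeticGalois (modularFunctionFieldFull N) σ) D) = Pic0.mk D
  refine congrArg Pic0.mk (Subtype.ext ?_)
  ext v
  rw [SemilinearAut.coe_degZeroSMulHom, SemilinearAut.divisor_smul_apply]
  by_cases hv : v.ord (H05.jB Qb N) < 0
  · have h1 := smul_cusp_squarefree hN σ hv
    have h2 : (arithmeticGalois (modularFunctionFieldFull N) σ)⁻¹ • v = v := by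
      rw [inv_smul_eq_iff, h1]
    rw [h2]
  · have h1 : (D : Divisor Qb (modularFunctionFieldBar N)) v = 0 := by
      by_contra h
      exact hv (hD v h)
    have h2 : (D : Divisor Qb (modularFunctionFieldBar N))
        ((arithmeticGalois (modularFunctionFieldFull N) σ)⁻¹ • v) = 0 := by
      by_contra h
      have := hD _ h
      rw [ord_inv_smul_jB] at this
      exact hv this
    rw [h1, h2]

/-- for squarefree `N` the number of cusps is the number of divisors. -/
theorem card_cusp_squarefree (hN : Squarefree N) : Nat.card (Cusp N) = N.divisors.card := by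
  have h1 : ∀ Q : N.divisors, (H13.cQ hN Q.1).ord (H05.jB Qb N) = -((Q.1 : ℕ) : ℤ) := by
    intro Q
    rw [← jB_eq]
    exact H13.cQ_ord hN (Nat.dvd_of_mem_divisors Q.2)
  let g : N.divisors → Cusp N := fun Q => ⟨H13.cQ hN Q.1, by
    rw [h1]
    have := Nat.pos_of_mem_divisors Q.2
    omega⟩
  have hg : Function.Bijective g := by
    constructor
    · intro Q Q' h
      have h2 := h1 Q
      have h3 := h1 Q'
      have h4 : H13.cQ hN Q.1 = H13.cQ hN Q'.1 := congrArg Subtype.val h
      rw [h4, h3] at h2
      apply Subtype.ext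
      have := neg_injective h2
      exact_mod_cast this.symm
    · intro v
      obtain ⟨Q, hQ, h2⟩ := H13.cusp_cases_squarefree hN v.1 (by rw [jB_eq]; exact v.2)
      exact ⟨⟨Q, Nat.mem_divisors.mpr ⟨hQ, NeZero.ne N⟩⟩, Subtype.ext h2.symm⟩
  rw [← Nat.card_congr (Equiv.ofBijective g hg), Nat.card_eq_fintype_card, Fintype.card_coe]

/-- for squarefree `N` the rank of the modular units is `σ₀(N) - 1`. -/
theorem rank_units_squarefree (hN : Squarefree N) :
    Module.finrank ℤ (LinearMap.range (ordC N)) = N.divisors.card - 1 := by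
  rw [finrank_range_ordC, card_cusp_squarefree hN]

end Fermat.Agent.Cor.MD
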