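import Fermat.Agent.Cor.H17MD11

/-!
# The Hecke action on the cuspidal subgroup of `J_0(N)`

* the cuspidal subgroup is stable under all Hecke operators `T_ℓ`, `U_ℓ`, for every `N`;
* for squarefree `N` and `ℓ ∤ N` the operator `T_ℓ` acts on it as `1 + ℓ`.

This file is not used by any of the statement files.
-/

set_option autoImplicit false
set_option linter.style.haveILetI false
set_option linter.unusedSectionVars false

noncomputable section

open AlgebraicCurve ModularCurve Polynomial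

namespace Fermat.Agent.Cor.MD

local notation "Qb" => AlgebraicClosure ℚ

variable (N : ℕ) [NeZero N]

theorem correspondence_cusp (ℓ : ℕ) [hℓ : Fact ℓ.Prime]
    {D : Divisor Qb (modularFunctionFieldBar N)} (hD : ∀ v, D v ≠ 0 → v.ord (H05.jB Qb N) < 0)
    (v : Place Qb (modularFunctionFieldBar N))
    (hv : Divisor.correspondence (heckeBetaBar Qb N ℓ) (heckeAlphaBar Qb N ℓ)
      (H05.heckeBetaBarIntegral Qb N ℓ) (H05.heckeAlphaBarIntegral Qb N ℓ) D v ≠ 0) :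
    v.ord (H05.jB Qb N) < 0 := by
  classical
  by_contra hcon
  apply hv
  rw [Divisor.correspondence_apply, pushforward_apply (heckeAlphaBar Qb N ℓ)
    (H05.heckeAlphaBarIntegral Qb N ℓ) (H05.deg_eq_one_bc Qb (N * ℓ))]
  apply Finset.sum_eq_zero
  intro W hW
  rw [Place.mem_fiberAlong] at hW
  rw [Divisor.pullbackAlong_apply]
  by_cases h0 : D (W.restrictAlong (heckeBetaBar Qb N ℓ) (H05.heckeBetaBarIntegral Qb N ℓ)) = 0
  · rw [h0, mul_zero]
  · exfalso
    have h1 := hD _ h0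
    rw [← ord_lt_iff (heckeBetaBar Qb N ℓ) (H05.heckeBetaBarIntegral Qb N ℓ) W,
      pole_iff ℓ W (rel_beta_alpha N ℓ) (rel_alpha_beta N ℓ),
      ord_lt_iff (heckeAlphaBar Qb N ℓ) (H05.heckeAlphaBarIntegral Qb N ℓ) W, hW] at h1
    exact hcon h1

/-- **The cuspidal subgroup is stable under all Hecke operators.** -/
theorem hecke_mem_cuspGroup (ℓ : Nat.Primes) {x : JZero N} (hx : x ∈ cuspGroup N) :
    heckeOperatorBar N ℓ x ∈ cuspGroup N := by
  obtain ⟨D, hD, rfl⟩ := hx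
  haveI : Fact (ℓ : ℕ).Prime := ⟨ℓ.2⟩
  obtain ⟨E', h1, h2⟩ := H12.heckeOperatorBar_mk ℓ.2 D
  refine ⟨E', ?_, h1.symm⟩
  intro v hv
  rw [h2] at hv
  exact correspondence_cusp N ℓ hD v hv

variable {N}

theorem heckeDivBar_cusp (hN : Squarefree N) (ℓ : ℕ) [hℓ : Fact ℓ.Prime] (h : ¬ ℓ ∣ N)
    {v : Place Qb (modularFunctionFieldBar N)} (hv : v.ord (H05.jB Qb N) < 0) (n : ℤ) :
    heckeDivBar (H05.heckeAlphaBarIntegral Qb N ℓ) (H05.heckeBetaBarIntegral Qb N ℓ)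
      (Finsupp.single v n) = (1 + (ℓ : ℤ)) • Finsupp.single v n := by
  obtain ⟨Q, hQ, rfl⟩ := H13.cusp_cases_squarefree hN v (by rw [jB_eq]; exact hv)
  unfold H13.cQ
  rw [dif_pos hQ]
  have : NeZero Q := ⟨fun h0 => NeZero.ne N (Nat.eq_zero_of_zero_dvd (h0 ▸ hQ))⟩
  have : NeZero (N / Q) := ⟨(Nat.div_pos (Nat.le_of_dvd (NeZero.pos N) hQ)
    (NeZero.pos Q)).ne'⟩
  exact M5.heckeDivBar_cW _ _ h _ _ n

/-- **The cuspidal subgroup is Eisenstein** for squarefree `N`: `T_ℓ = 1 + ℓ` for `ℓ ∤ N`. -/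
theorem hecke_cuspGroup_squarefree (hN : Squarefree N) (ℓ : Nat.Primes) (h : ¬ (ℓ : ℕ) ∣ N)
    {x : JZero N} (hx : x ∈ cuspGroup N) :
    heckeOperatorBar N ℓ x = (1 + ((ℓ : ℕ) : ℤ)) • x := by
  classical
  obtain ⟨D, hD, rfl⟩ := hx
  haveI : Fact (ℓ : ℕ).Prime := ⟨ℓ.2⟩
  letI : Fintype (Cusp N) := Fintype.ofFinite _
  rw [heckeOperatorBar_apply]
  change heckeOperatorAlong Qb N ℓ (Pic0.mk D) = (1 + ((ℓ : ℕ) : ℤ)) • Pic0.mk D
  apply M5.heckeOperatorAlong_mk_of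
  have h1 : (D : Divisor Qb (modularFunctionFieldBar N)) = ∑ v : Cusp N,
      (Finsupp.single v.1 ((D : Divisor Qb (modularFunctionFieldBar N)) v.1) :
        Divisor Qb (modularFunctionFieldBar N)) := by
    rw [← toDiv_eq_sum]
    exact eq_toDiv hD
  rw [h1, map_sum, Finset.smul_sum]
  exact Finset.sum_congr rfl fun v _ => heckeDivBar_cusp hN ℓ h v.2 _

end Fermat.Agent.Cor.MD
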