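import Fermat.Agent.Cor.H17MD12
import Fermat.Agent.Cor.H13Ogg2

/-!
# The cuspidal subgroup of `J_0(N)` for prime `N`

For prime `N` the cuspidal subgroup is cyclic, generated by the class of `(0) - (∞)`, and its order is
the numerator of `(N - 1) / 12`.

This file is not used by any of the statement files.
-/

set_option autoImplicit false
set_option linter.style.haveILetI false

noncomputable section

open AlgebraicCurve ModularCurve Polynomial

namespace Fermat.Agent.Cor.MD

local notation "Qb" => AlgebraicClosure ℚ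

variable {N : ℕ} [NeZero N]

theorem single_sub_cusp {a b : Place Qb (modularFunctionFieldBar N)}
    (ha : a.ord (H05.jB Qb N) < 0) (hb : b.ord (H05.jB Qb N) < 0)
    (u : Place Qb (modularFunctionFieldBar N))
    (hu : (Finsupp.single a 1 - Finsupp.single b 1 : Divisor Qb (modularFunctionFieldBar N)) u ≠ 0) :
    u.ord (H05.jB Qb N) < 0 := by
  classical
  by_contra hcon
  apply hu
  have e1 : u ≠ a := by rintro rfl; exact hcon ha
  have e2 : u ≠ b := by rintro rfl; exact hcon hb
  change (Finsupp.single a (1 : ℤ) u) - Finsupp.single b 1 u = 0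
  rw [Finsupp.single_eq_of_ne e1, Finsupp.single_eq_of_ne e2, sub_zero]

/-- the class of a difference of two cusps is in the cuspidal subgroup -/
theorem cl_mem_cuspGroup {a b : Place Qb (modularFunctionFieldBar N)}
    (ha : a.ord (H05.jB Qb N) < 0) (hb : b.ord (H05.jB Qb N) < 0) :
    (M5.cl Qb a b : JZero N) ∈ cuspGroup N :=
  ⟨⟨_, M5.mem_degZero_single_sub Qb a b⟩, single_sub_cusp ha hb, rfl⟩

theorem ord_cInf : (M5.cInf Qb N).ord (H05.jB Qb N) < 0 := by
  have h1 := M5.cInf_ord_jB Qb (one_dvd N)
  rw [jB_eq] at h1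
  rw [h1]
  norm_num

theorem ord_cZero : (M5.cZero Qb N).ord (H05.jB Qb N) < 0 := by
  have h1 : (M5.cZero Qb N).ord (M5.jB Qb (one_dvd N)) = -(N : ℤ) := M5.cW_ord_jB Qb _ _
  rw [jB_eq] at h1
  rw [h1]
  have := NeZero.pos N
  omega

/-- **For prime `N` the cuspidal subgroup is generated by `(0) - (∞)`.** -/
theorem cuspGroup_eq_zmultiples (hN : N.Prime) :
    cuspGroup N = AddSubgroup.zmultiples (M5.cuspClass Qb N : JZero N) := by
  classical
  apply le_antisymm
  · rintro _ ⟨D, hD, rfl⟩
    set a : ℤ := (D : Divisor Qb (modularFunctionFieldBar N)) (M5.cZero Qb N) with ha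
    set E : Divisor.degZero (K := Qb) (F := modularFunctionFieldBar N) :=
      ⟨Finsupp.single (M5.cZero Qb N) 1 - Finsupp.single (M5.cInf Qb N) 1,
        M5.mem_degZero_single_sub Qb _ _⟩ with hE
    have hne : M5.cZero Qb N ≠ M5.cInf Qb N := fun h => M5.cInf_ne_cZero Qb hN.one_lt h.symm
    set D' : Divisor.degZero (K := Qb) (F := modularFunctionFieldBar N) := D - a • E with hD'
    have hval : ∀ v, (D' : Divisor Qb (modularFunctionFieldBar N)) v =
        (D : Divisor Qb (modularFunctionFieldBar N)) v - a *
          (Finsupp.single (M5.cZero Qb N) (1 : ℤ) v - Finsupp.single (M5.cInf Qb N) (1 : ℤ) v) :=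
      fun v => rfl
    have hs : (D' : Divisor Qb (modularFunctionFieldBar N)) = Finsupp.single (M5.cInf Qb N)
        ((D' : Divisor Qb (modularFunctionFieldBar N)) (M5.cInf Qb N)) := by
      ext v
      by_cases h1 : v = M5.cInf Qb N
      · rw [h1, Finsupp.single_eq_same]
      · rw [Finsupp.single_eq_of_ne h1, hval, Finsupp.single_eq_of_ne h1, sub_zero]
        by_cases h2 : v = M5.cZero Qb N
        · rw [h2, Finsupp.single_eq_same, mul_one, ← ha, sub_self]
        · rw [Finsupp.single_eq_of_ne h2, mul_zero, sub_zero]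
          by_contra h3
          have h4 := hD v h3
          rw [← jB_eq] at h4
          rcases M5.cusp_cases Qb hN v h4 with h5 | h5
          · exact h1 h5
          · exact h2 h5
    have hdeg : Divisor.degree (D' : Divisor Qb (modularFunctionFieldBar N)) = 0 := D'.2
    rw [hs, Divisor.degree_single, H05.deg_eq_one_bc Qb N, Nat.cast_one, mul_one] at hdeg
    rw [hdeg, Finsupp.single_zero] at hs
    have h0 : D' = 0 := Subtype.ext hs
    have h1 : D = a • E := by
      rw [hD', sub_eq_zero] at h0
      exact h0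
    refine AddSubgroup.mem_zmultiples_iff.mpr ⟨a, ?_⟩
    change a • mkL N E = mkL N D
    rw [← map_zsmul, ← h1]
  · rw [AddSubgroup.zmultiples_le]
    exact cl_mem_cuspGroup ord_cZero ord_cInf

/-- **For prime `N` the cuspidal subgroup is cyclic of order the numerator of `(N - 1) / 12`.** -/
theorem card_cuspGroup_prime (hN : N.Prime) : Nat.card (cuspGroup N) = eisensteinNumerator N := by
  rw [cuspGroup_eq_zmultiples hN, Nat.card_zmultiples, H13.addOrderOf_cuspClass' hN]

theorem isAddCyclic_cuspGroup_prime (hN : N.Prime) : IsAddCyclic (cuspGroup N) := by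
  rw [cuspGroup_eq_zmultiples hN]
  infer_instance

end Fermat.Agent.Cor.MD
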