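import Fermat.Agent.Cor.H17MD12

/-!
# Images of cusps under parametrizations by `X_0(N)`

If `X_0(N) → C` is a nonconstant map of curves over `Qb` (an embedding of the function field of `C`),
the images of the cusps differ by torsion classes in the divisor class group of `C`. For an elliptic
curve `C` this says that the images of the cusps are torsion points if the image of `∞` is the origin.

This file is not used by any of the statement files.
-/

set_option autoImplicit false
set_option linter.style.haveILetI false

noncomputable section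

open AlgebraicCurve ModularCurve Polynomial

namespace Fermat.Agent.Cor.MD

local notation "Qb" => AlgebraicClosure ℚ

variable (N : ℕ) [NeZero N]

/-- **Push-forwards of cuspidal divisors are torsion**, with one exponent for all maps. -/
theorem pushforward_principal : ∃ m : ℕ, 0 < m ∧ ∀ {F' : Type} [Field F'] [Algebra Qb F']
    (ι : F' →ₐ[Qb] modularFunctionFieldBar N) (hι : ι.toRingHom.IsIntegral)
    (D : Divisor Qb (modularFunctionFieldBar N)), Divisor.degree D = 0 →
      (∀ v, D v ≠ 0 → v.ord (H05.jB Qb N) < 0) →
        (m • Divisor.pushforwardAlong ι hι D).IsPrincipal := by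
  obtain ⟨m, hm, h⟩ := exists_modular_units N
  refine ⟨m, hm, fun {F'} _ _ ι hι D h0 hD => ?_⟩
  obtain ⟨f, hf, hff⟩ := h D h0 hD
  have h1 : (m • D).IsPrincipal := ⟨f, hf, fun v => by
    rw [hff]
    change m • D v = _
    rw [nsmul_eq_mul]⟩
  have hfin : FiniteAlong Qb ι := H05.finiteAlong_of ι hι
  have h2 := Divisor.isPrincipal_pushforwardAlong ι hι hfin (H05.normFormulaAlong_of ι hfin) h1
  rwa [map_nsmul] at h2

/-- **Images of cusps**: for two cusps `v`, `w` of `X_0(N)` and a nonconstant map of `X_0(N)` to a
curve with function field `F'`, the difference of the images has finite order. -/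
theorem image_cusps {F' : Type} [Field F'] [Algebra Qb F']
    (ι : F' →ₐ[Qb] modularFunctionFieldBar N) (hι : ι.toRingHom.IsIntegral)
    {v w : Place Qb (modularFunctionFieldBar N)}
    (hv : v.ord (H05.jB Qb N) < 0) (hw : w.ord (H05.jB Qb N) < 0) :
    ∃ (m : ℕ) (g : F'), 0 < m ∧ g ≠ 0 ∧ ∀ P : Place Qb F', P.ord g = m *
      (Finsupp.single (v.restrictAlong ι hι) 1 - Finsupp.single (w.restrictAlong ι hι) 1 :
        Divisor Qb F') P := by
  classical
  obtain ⟨m, hm, h⟩ := pushforward_principal N
  obtain ⟨g, hg, hgg⟩ := h ι hι (Finsupp.single v 1 - Finsupp.single w 1)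
    (M5.mem_degZero_single_sub Qb v w) (by
      intro u hu
      by_contra hcon
      apply hu
      have e1 : u ≠ v := by rintro rfl; exact hcon hv
      have e2 : u ≠ w := by rintro rfl; exact hcon hw
      change (Finsupp.single v (1 : ℤ) u) - Finsupp.single w 1 u = 0
      rw [Finsupp.single_eq_of_ne e1, Finsupp.single_eq_of_ne e2, sub_zero])
  refine ⟨m, g, hm, hg, fun P => ?_⟩
  rw [← hgg P, map_sub, Divisor.pushforwardAlong_single, Divisor.pushforwardAlong_single,
    M5.inertiaDegAlong_eq_one (H05.deg_eq_one_bc Qb N) ι hι v,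
    M5.inertiaDegAlong_eq_one (H05.deg_eq_one_bc Qb N) ι hι w, Nat.cast_one, mul_one]
  change m • (Finsupp.single (v.restrictAlong ι hι) (1 : ℤ) P -
    Finsupp.single (w.restrictAlong ι hι) (1 : ℤ) P) = _
  rw [nsmul_eq_mul]
  rfl

end Fermat.Agent.Cor.MD
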