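import Fermat.Agent.Cor.H17MD12
import Fermat.Agent.S24

/-!
# The number of cusps of `X_0(N)` and the rank of the modular units, for every `N`

* the number of cusps of `X_0(N)` is `∑_{d ∣ N} φ(gcd(d, N/d))`;
* the group of modular units modulo constants is free of rank `∑_{d ∣ N} φ(gcd(d, N/d)) - 1`.

This file is not used by any of the statement files.
-/

set_option autoImplicit false
set_option linter.style.haveILetI false

noncomputable section

open AlgebraicCurve ModularCurve Polynomial CongruenceSubgroup
open scoped MatrixGroups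

namespace Fermat.Agent.Cor.MD

local notation "Qb" => AlgebraicClosure ℚ

attribute [local instance] H18.algFb H18.algFM

/-- **The number of cusps of `X_0(N)`** (as places of the function field over `Qb`). -/
theorem card_cusp (N : ℕ) [NeZero N] :
    Nat.card (Cusp N) = ∑ d ∈ N.divisors, Nat.totient (Nat.gcd d (N / d)) := by
  let φ : AlgebraicClosure ℚ →+* ℂ :=
    letI : Algebra ℚ (AlgebraicClosure ℚ) := AlgebraicClosure.instAlgebra ℚ
    (IsAlgClosed.lift : AlgebraicClosure ℚ →ₐ[ℚ] ℂ).toRingHom
  let _ : Algebra (AlgebraicClosure ℚ) ℂ := φ.toAlgebra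
  have h4 : Nat.card (MulAction.orbitRel.Quotient (Subgroup.zpowers ModularGroup.T)
      (SL(2, ℤ) ⧸ Gamma0 N)) = cuspCount N := H14.card_orbits_T N
  rw [← H18.card_places_inf (K := Qb)] at h4
  rw [cuspCount] at h4
  rw [← h4]
  refine Nat.card_congr (Equiv.subtypeEquivRight fun w => ?_)
  rw [H18.restrict_eq_infPlace_iff]
  have h5 : algebraMap (RatFunc Qb) (H18.Fb Qb N) RatFunc.X = H05.jB Qb N := by
    rw [H18.ratFuncAlgebra_X]
    apply Subtype.ext
    rw [H18.coe_jB]
    rfl
  rw [h5]

/-- **The rank of the modular units of `X_0(N)`.** -/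
theorem rank_units (N : ℕ) [NeZero N] : Module.finrank ℤ (LinearMap.range (ordC N)) =
    (∑ d ∈ N.divisors, Nat.totient (Nat.gcd d (N / d))) - 1 := by
  rw [finrank_range_ordC, card_cusp]

/-- the modular units of `X_0(N)` modulo constants -/
theorem units_equiv (N : ℕ) [NeZero N] :
    Nonempty ((Additive (modUnits N) ⧸ LinearMap.ker (ordC N)) ≃ₗ[ℤ]
      (Fin ((∑ d ∈ N.divisors, Nat.totient (Nat.gcd d (N / d))) - 1) → ℤ)) := by
  rw [← card_cusp]
  exact modular_units_structure N

end Fermat.Agent.Cor.MD
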