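import Fermat.Agent.Cor.H17MD15
import Fermat.Agent.Cor.H17MD13
import Fermat.Agent.Cor.Kaehler
import Fermat.Agent.RR.Genus

/-!
# A lower bound for the order of the cuspidal subgroup of `J_0(N)`

If the genus of `X_0(N)` is not zero, the classes `(c) - (∞)` of the cusps `c` are distinct, hence the
order of the cuspidal subgroup is at least the number of cusps.

This file is not used by any of the statement files.
-/

set_option autoImplicit false
set_option linter.style.haveILetI false
set_option linter.unusedSectionVars false

noncomputable section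

open AlgebraicCurve ModularCurve CongruenceSubgroup
open Fermat.Agent.FF Fermat.Agent.H18
open scoped IntermediateField

namespace Fermat.Agent.Cor.MD

section AJ

variable {K F : Type*} [Field K] [Field F] [Algebra K F] [IsAlgClosed K] [FunField K F]

/-- a function with divisor `(v) - (w)`, `v ≠ w`, exists only in genus zero. -/
theorem genus_eq_zero_of_div {v w : Place K F} (hvw : v ≠ w) {f : F}
    (hd : ∀ u : Place K F, u.ord f = (Finsupp.single v 1 - Finsupp.single w 1 : Divisor K F) u) :
    genusFF K F = 0 := by
  classical
  have hval : ∀ u : Place K F, u.ord f = Finsupp.single v (1 : ℤ) u - Finsupp.single w (1 : ℤ) u :=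
    hd
  have hv : v.ord f = 1 := by
    rw [hval, Finsupp.single_eq_same, Finsupp.single_eq_of_ne hvw, sub_zero]
  have hx : Transcendental K f := by
    apply transcendental_of_not_mem_range
    rintro ⟨c, rfl⟩
    rw [H18.ord_algebraMap] at hv
    omega
  have hpoles : (poles f : Divisor K F) = Finsupp.single w 1 := by
    ext u
    rw [poles_apply, hval]
    rcases eq_or_ne u w with rfl | hu
    · rw [Finsupp.single_eq_same, Finsupp.single_eq_of_ne hvw.symm]
      norm_num
    · rw [Finsupp.single_eq_of_ne hu]
      rcases eq_or_ne u v with rfl | hu'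
      · rw [Finsupp.single_eq_same]
        norm_num
      · rw [Finsupp.single_eq_of_ne hu']
        norm_num
  have h2 := degree_poles f hx
  rw [hpoles, Divisor.degree_single, FF.deg_eq_one] at h2
  exact RR.genus_eq_zero_of_adjoin hx (by push_cast at h2; exact_mod_cast h2.symm)

end AJ

local notation "Qb" => AlgebraicClosure ℚ

variable {N : ℕ} [NeZero N]

/-- the class of `(v) - (c)` determines `v` in positive genus -/
theorem cl_injective (hg : 0 < Module.finrank ℂ (CuspForm (Gamma0 N) 2))
    (c : Place Qb (modularFunctionFieldBar N)) {v w : Place Qb (modularFunctionFieldBar N)}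
    (h : (M5.cl Qb v c : JZero N) = M5.cl Qb w c) : v = w := by
  by_contra hvw
  have h1 : mkL N (⟨_, M5.mem_degZero_single_sub Qb v c⟩ -
      ⟨_, M5.mem_degZero_single_sub Qb w c⟩) = 0 := by
    rw [map_sub]
    exact sub_eq_zero.mpr h
  have h3 := (QuotientAddGroup.eq_zero_iff _).mp h1
  obtain ⟨f, hf, h4⟩ := AddSubgroup.mem_addSubgroupOf.mp h3
  have h5 : genusFF Qb (modularFunctionFieldBar N) = 0 := by
    refine genus_eq_zero_of_div hvw (f := f) fun u => ?_
    rw [← h4 u]
    change (Finsupp.single v (1 : ℤ) u - Finsupp.single c (1 : ℤ) u) -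
      (Finsupp.single w (1 : ℤ) u - Finsupp.single c (1 : ℤ) u) =
      Finsupp.single v (1 : ℤ) u - Finsupp.single w (1 : ℤ) u
    ring
  rw [Fermat.Agent.RR.genusFF_bar_eq_finrank N] at h5
  omega

/-- **Lower bound**: for positive genus the order of the cuspidal subgroup of `J_0(N)` is at least the
number of cusps of `X_0(N)`. -/
theorem card_cusp_le_card_cuspGroup (hg : 0 < Module.finrank ℂ (CuspForm (Gamma0 N) 2)) :
    ∑ d ∈ N.divisors, Nat.totient (Nat.gcd d (N / d)) ≤ Nat.card (cuspGroup N) := by
  haveI := finite_cuspGroup N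
  rw [← card_cusp]
  refine Nat.card_le_card_of_injective (fun v : Cusp N =>
    (⟨M5.cl Qb v.1 (M5.cInf Qb N), cl_mem_cuspGroup v.2 ord_cInf⟩ : cuspGroup N)) ?_
  intro v w h
  exact Subtype.ext (cl_injective hg _ (congrArg Subtype.val h))

end Fermat.Agent.Cor.MD
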