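import Fermat.Agent.Cor.H17MD16

/-!
# The cuspidal subgroup is trivial only in genus zero

* for every `N` with `dim S₂(Γ₀(N)) > 0` the class of `(0) - (∞)` is a nontrivial torsion point of
  `J_0(N)`; for squarefree `N` it is rational;
* the cuspidal subgroup of `J_0(N)` is trivial if and only if the genus of `X_0(N)` is zero.

This file is not used by any of the statement files.
-/

set_option autoImplicit false
set_option linter.style.haveILetI false
set_option linter.unusedSectionVars false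

noncomputable section

open AlgebraicCurve ModularCurve CongruenceSubgroup
open Fermat.Agent.FF Fermat.Agent.H18

namespace Fermat.Agent.Cor.MD

local notation "Qb" => AlgebraicClosure ℚ
local notation "GQ" => AlgebraicClosure ℚ ≃ₐ[ℚ] AlgebraicClosure ℚ

variable {N : ℕ} [NeZero N]

theorem one_lt_of_genus_pos (hg : 0 < Module.finrank ℂ (CuspForm (Gamma0 N) 2)) : 1 < N := by
  have h0 := NeZero.pos N
  by_contra hN
  have h1 : N = 1 := by omega
  have h2 := Fermat.Agent.RR.genusFF_bar N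
  rw [Fermat.Agent.RR.genusFF_bar_eq_finrank N] at h2
  have h3 : genusFormula N = 0 := by
    rw [h1, genusFormula]
    have e1 : dedekindPsi 1 = 1 := dedekindPsi_one
    have e2 : nuTwo 1 = 1 := by
      rw [nuTwo, Nat.card_eq_one_iff_unique]
      exact ⟨⟨fun a b => Subtype.ext (Subsingleton.elim _ _)⟩, ⟨⟨0, Subsingleton.elim _ _⟩⟩⟩
    have e3 : nuThree 1 = 1 := by
      rw [nuThree, Nat.card_eq_one_iff_unique]
      exact ⟨⟨fun a b => Subtype.ext (Subsingleton.elim _ _)⟩, ⟨⟨0, Subsingleton.elim _ _⟩⟩⟩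
    rw [e1, e2, e3, cuspCount_one]
    norm_num
  rw [h3] at h2
  have h4 : Module.finrank ℂ (CuspForm (Gamma0 N) 2) = 0 := by exact_mod_cast h2
  omega

/-- **`(0) - (∞)` is nontrivial in positive genus.** -/
theorem cuspClass_ne_zero (hg : 0 < Module.finrank ℂ (CuspForm (Gamma0 N) 2)) :
    (M5.cuspClass Qb N : JZero N) ≠ 0 := by
  intro h
  have h1 : (M5.cl Qb (M5.cInf Qb N) (M5.cInf Qb N) : JZero N) = 0 := by
    have e : (⟨_, M5.mem_degZero_single_sub Qb (M5.cInf Qb N) (M5.cInf Qb N)⟩ :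
        Divisor.degZero (K := Qb) (F := modularFunctionFieldBar N)) = 0 :=
      Subtype.ext (sub_self _)
    change mkL N ⟨_, M5.mem_degZero_single_sub Qb (M5.cInf Qb N) (M5.cInf Qb N)⟩ = 0
    rw [e, map_zero]
  have h2 := cl_injective hg (M5.cInf Qb N) (v := M5.cZero Qb N) (w := M5.cInf Qb N)
    (Eq.trans h h1.symm)
  exact M5.cInf_ne_cZero Qb (one_lt_of_genus_pos hg) h2.symm

/-- `(0) - (∞)` has finite order, for every `N`. -/
theorem isOfFinAddOrder_of_mem {x : JZero N} (hx : x ∈ cuspGroup N) : IsOfFinAddOrder x := by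
  haveI := finite_cuspGroup N
  have h1 := isOfFinAddOrder_of_finite (⟨x, hx⟩ : cuspGroup N)
  rw [isOfFinAddOrder_iff_nsmul_eq_zero] at h1 ⊢
  obtain ⟨n, hn, h2⟩ := h1
  exact ⟨n, hn, congrArg Subtype.val h2⟩

/-- **For squarefree `N` with `dim S₂(Γ₀(N)) > 0` the group `J_0(N)(ℚ)` has a nontrivial torsion
point.** -/
theorem exists_rational_torsion (hN : Squarefree N)
    (hg : 0 < Module.finrank ℂ (CuspForm (Gamma0 N) 2)) :
    ∃ x : JZero N, x ≠ 0 ∧ IsOfFinAddOrder x ∧ ∀ σ : GQ, σ • x = x :=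
  ⟨M5.cuspClass Qb N, cuspClass_ne_zero hg,
    isOfFinAddOrder_of_mem (cl_mem_cuspGroup ord_cZero ord_cInf),
    fun σ => smul_eq_of_mem_cuspGroup hN σ (cl_mem_cuspGroup ord_cZero ord_cInf)⟩

/-- **The cuspidal subgroup of `J_0(N)` is trivial if and only if the genus of `X_0(N)` is zero.** -/
theorem cuspGroup_eq_bot_iff (N : ℕ) [NeZero N] :
    cuspGroup N = ⊥ ↔ Module.finrank ℂ (CuspForm (Gamma0 N) 2) = 0 := by
  constructor
  · intro h
    by_contra hg
    have hg' : 0 < Module.finrank ℂ (CuspForm (Gamma0 N) 2) := Nat.pos_of_ne_zero hg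
    have h1 : (M5.cuspClass Qb N : JZero N) ∈ cuspGroup N := cl_mem_cuspGroup ord_cZero ord_cInf
    rw [h, AddSubgroup.mem_bot] at h1
    exact cuspClass_ne_zero hg' h1
  · intro hg
    rw [eq_bot_iff]
    intro x hx
    rw [AddSubgroup.mem_bot]
    obtain ⟨n, hn, h1⟩ := isOfFinAddOrder_iff_nsmul_eq_zero.mp (isOfFinAddOrder_of_mem hx)
    have h2 := Fermat.Agent.FF.card_torsion Qb (modularFunctionFieldBar N) n hn
    rw [Fermat.Agent.RR.genusFF_bar_eq_finrank N, hg, mul_zero, pow_zero] at h2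
    have h3 := (Nat.card_eq_one_iff_unique.mp h2).1
    have h5 : x ∈ Pic0.torsion Qb (modularFunctionFieldBar N) n := by
      rw [Pic0.mem_torsion, natCast_zsmul]
      exact h1
    have h4 : (⟨x, h5⟩ : Pic0.torsion Qb (modularFunctionFieldBar N) n) = 0 := h3.elim _ _
    exact congrArg Subtype.val h4

end Fermat.Agent.Cor.MD
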