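import Fermat.Agent.Cor.H17MD17
import Fermat.Agent.Q.Galois

/-!
# A rational torsion point on `J_0(N)` for every `N`

For every `N` the cusps `w_Q(∞)` (in particular `0` and `∞`) are rational; for every `N` with
`dim S₂(Γ₀(N)) > 0` the class `(0) - (∞)` is a nontrivial rational torsion point of `J_0(N)`.

This file is not used by any of the statement files.
-/

set_option autoImplicit false
set_option linter.style.haveILetI false
set_option linter.unusedSectionVars false

noncomputable section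

open AlgebraicCurve ModularCurve CongruenceSubgroup

namespace Fermat.Agent.Cor.MD

local notation "Qb" => AlgebraicClosure ℚ
local notation "GQ" => AlgebraicClosure ℚ ≃ₐ[ℚ] AlgebraicClosure ℚ

/-- the Atkin–Lehner involutions are rational -/
theorem coeffMap_wB {M Q N : ℕ} [NeZero M] [NeZero Q] (h : M * Q = N) (hQM : Nat.Coprime Q M)
    (σ : GQ) (z : M5.FB Qb N) :
    coeffMap (σ : Qb →+* Qb) (M5.wB Qb h hQM z : LaurentSeries Qb) =
      (M5.wB Qb h hQM (arithmeticGalois (modularFunctionFieldFull N) σ • z) :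
        LaurentSeries Qb) := by
  have hz : (z : LaurentSeries Qb) ∈ modularFunctionFieldFullC Qb (M * Q) := by
    rw [← M5.FB_eq_of Qb h]
    exact z.2
  have hz' : coeffMap (σ : Qb →+* Qb) (z : LaurentSeries Qb) ∈
      modularFunctionFieldFullC Qb (M * Q) := by
    rw [← M5.FB_eq_of Qb h]
    exact (arithmeticGalois (modularFunctionFieldFull N) σ • z).2
  rw [M5.coe_wB' Qb h hQM z ⟨_, hz⟩ rfl,
    M5.coe_wB' Qb h hQM (arithmeticGalois (modularFunctionFieldFull N) σ • z) ⟨_, hz'⟩ rfl]
  exact Fermat.Agent.Q.coeffMap_wQ hQM _ hz hz hz'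

/-- **The cusps `w_Q(∞)` are rational.** -/
theorem galois_smul_cW {M Q N : ℕ} [NeZero M] [NeZero Q] (h : M * Q = N)
    (hQM : Nat.Coprime Q M) (σ : GQ) :
    arithmeticGalois (modularFunctionFieldFull N) σ • M5.cW Qb h hQM = M5.cW Qb h hQM := by
  apply M5.place_ext
  intro f _
  have h1 := SemilinearAut.ord_smul (arithmeticGalois (modularFunctionFieldFull N) σ)
    (M5.cW Qb h hQM) ((arithmeticGalois (modularFunctionFieldFull N) σ)⁻¹ • f)
  rw [smul_inv_smul] at h1
  rw [h1]
  have h2 : ∀ g : M5.FB Qb N, (M5.cW Qb h hQM).ord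
      (arithmeticGalois (modularFunctionFieldFull N) σ • g) = (M5.cW Qb h hQM).ord g := by
    intro g
    rw [M5.cW_ord, M5.cW_ord, ← coeffMap_wB]
    exact H26.order_coeffMap (σ : Qb →+* Qb) (M5.wB Qb h hQM g : LaurentSeries Qb)
  rw [← h2 ((arithmeticGalois (modularFunctionFieldFull N) σ)⁻¹ • f), smul_inv_smul]

variable {N : ℕ} [NeZero N]

/-- **`(0) - (∞)` is rational, for every `N`.** -/
theorem smul_cuspClass (σ : GQ) : σ • (M5.cuspClass Qb N : JZero N) = M5.cuspClass Qb N := by
  change Pic0.mk (SemilinearAut.degZeroSMulHom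
    (arithmeticGalois (modularFunctionFieldFull N) σ) ⟨_, M5.mem_degZero_single_sub Qb
      (M5.cZero Qb N) (M5.cInf Qb N)⟩) = Pic0.mk ⟨_, M5.mem_degZero_single_sub Qb
      (M5.cZero Qb N) (M5.cInf Qb N)⟩
  refine congrArg Pic0.mk (Subtype.ext ?_)
  rw [SemilinearAut.coe_degZeroSMulHom, smul_sub, SemilinearAut.smul_single,
    SemilinearAut.smul_single, M5.galois_smul_cInf]
  have h1 : arithmeticGalois (modularFunctionFieldFull N) σ • M5.cZero Qb N = M5.cZero Qb N :=
    galois_smul_cW _ _ σ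
  rw [h1]

/-- **For every `N` with `dim S₂(Γ₀(N)) > 0` the group `J_0(N)(ℚ)` has a nontrivial torsion
point**, the class of `(0) - (∞)`. -/
theorem cuspClass_rational_torsion (hg : 0 < Module.finrank ℂ (CuspForm (Gamma0 N) 2)) :
    (M5.cuspClass Qb N : JZero N) ≠ 0 ∧ IsOfFinAddOrder (M5.cuspClass Qb N : JZero N) ∧
      ∀ σ : GQ, σ • (M5.cuspClass Qb N : JZero N) = M5.cuspClass Qb N :=
  ⟨cuspClass_ne_zero hg, isOfFinAddOrder_of_mem (cl_mem_cuspGroup ord_cZero ord_cInf),
    smul_cuspClass⟩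

end Fermat.Agent.Cor.MD
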