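import Fermat.Agent.Cor.H17MD18

/-!
# Rational torsion points on `J_0(N)` from the rational cusps

For every `N` with `dim S₂(Γ₀(N)) > 0` the group `J_0(N)(ℚ)` has at least as many torsion points as
there are divisors `Q` of `N` with `gcd(Q, N/Q) = 1` (that is `2^ω(N)`).

This file is not used by any of the statement files.
-/

set_option autoImplicit false
set_option linter.style.haveILetI false
set_option linter.unusedSectionVars false

noncomputable section

open AlgebraicCurve ModularCurve CongruenceSubgroup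

namespace Fermat.Agent.Cor.MD

local notation "Qb" => AlgebraicClosure ℚ
local notation "GQ" => AlgebraicClosure ℚ ≃ₐ[ℚ] AlgebraicClosure ℚ

variable {N : ℕ} [NeZero N]

/-- the class of the difference of two rational places is rational -/
theorem smul_cl {v w : Place Qb (modularFunctionFieldBar N)} {σ : GQ}
    (hv : arithmeticGalois (modularFunctionFieldFull N) σ • v = v)
    (hw : arithmeticGalois (modularFunctionFieldFull N) σ • w = w) :
    σ • (M5.cl Qb v w : JZero N) = M5.cl Qb v w := by
  change Pic0.mk (SemilinearAut.degZeroSMulHom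
    (arithmeticGalois (modularFunctionFieldFull N) σ) ⟨_, M5.mem_degZero_single_sub Qb v w⟩) =
      Pic0.mk ⟨_, M5.mem_degZero_single_sub Qb v w⟩
  refine congrArg Pic0.mk (Subtype.ext ?_)
  rw [SemilinearAut.coe_degZeroSMulHom, smul_sub, SemilinearAut.smul_single,
    SemilinearAut.smul_single, hv, hw]

theorem exists_cusp {Q : ℕ} (hQ : Q ∣ N) (hc : Nat.Coprime Q (N / Q)) :
    ∃ v : Place Qb (modularFunctionFieldBar N), v.ord (H05.jB Qb N) = -(Q : ℤ) ∧
      ∀ σ : GQ, arithmeticGalois (modularFunctionFieldFull N) σ • v = v := by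
  have : NeZero Q := ⟨fun h0 => NeZero.ne N (Nat.eq_zero_of_zero_dvd (h0 ▸ hQ))⟩
  have : NeZero (N / Q) := ⟨(Nat.div_pos (Nat.le_of_dvd (NeZero.pos N) hQ)
    (NeZero.pos Q)).ne'⟩
  refine ⟨M5.cW Qb (Nat.div_mul_cancel hQ) hc, ?_, galois_smul_cW _ _⟩
  rw [← jB_eq]
  exact M5.cW_ord_jB Qb _ _

/-- **Rational torsion points of `J_0(N)`** for every `N` of positive genus. -/
theorem exists_rational_torsion_points (hg : 0 < Module.finrank ℂ (CuspForm (Gamma0 N) 2)) :
    ∃ S : Finset (JZero N), S.card = (N.divisors.filter fun Q => Nat.Coprime Q (N / Q)).card ∧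
      ∀ x ∈ S, IsOfFinAddOrder x ∧ ∀ σ : GQ, σ • x = x := by
  classical
  have hex : ∀ Q : {Q // Q ∈ N.divisors.filter fun Q => Nat.Coprime Q (N / Q)},
      ∃ v : Place Qb (modularFunctionFieldBar N), v.ord (H05.jB Qb N) = -((Q : ℕ) : ℤ) ∧
        ∀ σ : GQ, arithmeticGalois (modularFunctionFieldFull N) σ • v = v := fun Q =>
    exists_cusp (Nat.dvd_of_mem_divisors (Finset.mem_filter.mp Q.2).1)
      (Finset.mem_filter.mp Q.2).2
  choose c hc hσ using hex
  have hpos : ∀ Q, (c Q).ord (H05.jB Qb N) < 0 := by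
    intro Q
    rw [hc]
    have := Nat.pos_of_mem_divisors (Finset.mem_filter.mp Q.2).1
    omega
  have hinj : Function.Injective fun Q => (M5.cl Qb (c Q) (M5.cInf Qb N) : JZero N) := by
    intro Q Q' h
    have h1 : c Q = c Q' := cl_injective hg _ h
    have h2 := hc Q
    rw [h1, hc] at h2
    apply Subtype.ext
    have := neg_injective h2
    exact_mod_cast this.symm
  refine ⟨Finset.univ.image fun Q => (M5.cl Qb (c Q) (M5.cInf Qb N) : JZero N), ?_, ?_⟩
  · rw [Finset.card_image_of_injective _ hinj, Finset.card_univ, Fintype.card_coe]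
  · intro x hx
    obtain ⟨Q, -, rfl⟩ := Finset.mem_image.mp hx
    exact ⟨isOfFinAddOrder_of_mem (cl_mem_cuspGroup (hpos Q) ord_cInf),
      fun σ => smul_cl (hσ Q σ) (M5.galois_smul_cInf Qb N σ)⟩

end Fermat.Agent.Cor.MD
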