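import Fermat.Agent.Cor.H17MD1
import Fermat.Agent.M5.Along

/-!
# The Manin–Drinfeld theorem: correspondences on the poles of a function

This file is not used by any of the statement files.
-/

set_option autoImplicit false
set_option linter.style.haveILetI false
set_option linter.unusedSectionVars false

noncomputable section

open AlgebraicCurve Polynomial

namespace Fermat.Agent.Cor.MD

variable {K F F' : Type*} [Field K] [Field F] [Field F'] [Algebra K F] [Algebra K F']
  [HasPrincipalDivisors K F] [HasPrincipalDivisors K F']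

/-- the poles of a function -/
abbrev Poles (K : Type*) {F : Type*} [Field K] [Field F] [Algebra K F] (j : F) : Type _ :=
  {v : Place K F // v.ord j < 0}

theorem finite_poles (j : F) : Finite (Poles K j) := by
  by_cases hj : j = 0
  · subst hj
    have : IsEmpty (Poles K (0 : F)) := ⟨fun v => by
      have := v.2
      rw [Place.ord_zero] at this
      exact lt_irrefl _ this⟩
    infer_instance
  · obtain ⟨D, hD, -⟩ := HasPrincipalDivisors.exists_divisor (K := K) j hj
    have hfin : Finite {v : Place K F // v ∈ D.support} := inferInstance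
    refine Finite.of_injective (β := {v : Place K F // v ∈ D.support})
      (fun v => ⟨v.1, by rw [Finsupp.mem_support_iff, hD]; exact v.2.ne⟩) ?_
    intro v w h
    have h1 := congrArg (fun x : {v : Place K F // v ∈ D.support} => x.1) h
    exact Subtype.ext h1

/-- the hypotheses on the correspondence -/
structure Corr (ℓ : ℕ) (φ ψ : F →ₐ[K] F') (j : F) : Prop where
  prime : ℓ.Prime
  hφ : φ.toRingHom.IsIntegral
  hψ : ψ.toRingHom.IsIntegral
  fiφ : FundamentalIdentityAlong K φ hφ
  fiψ : FundamentalIdentityAlong K ψ hψ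
  degφ : finrankAlong K φ = ℓ + 1
  degψ : finrankAlong K ψ = ℓ + 1
  hd : ∀ w : Place K F, w.deg = 1
  hd' : ∀ w : Place K F', w.deg = 1
  small : ∀ v : Place K F, v.ord j < 0 → -(ℓ : ℤ) < v.ord j
  pole : ∀ w : Place K F', w.ord (φ j) < 0 ↔ w.ord (ψ j) < 0
  dich : ∀ w : Place K F', w.ord (φ j) < 0 →
    w.ord (φ j) = ℓ * w.ord (ψ j) ∨ w.ord (ψ j) = ℓ * w.ord (φ j)

variable {ℓ : ℕ} {φ ψ : F →ₐ[K] F'} {j : F}

theorem ord_lt_iff (φ : F →ₐ[K] F') (hφ : φ.toRingHom.IsIntegral) (w : Place K F') :
    w.ord (φ j) < 0 ↔ (w.restrictAlong φ hφ).ord j < 0 := by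
  have h1 := Place.ord_restrictAlong φ hφ w j
  have h2 : (0 : ℤ) < Place.ramificationIndexAlong φ w := by
    exact_mod_cast M5.ramificationIndexAlong_pos φ hφ w
  rw [h1]
  constructor
  · intro h
    by_contra hcon
    push Not at hcon
    exact absurd h (not_lt.mpr (mul_nonneg h2.le hcon))
  · intro h
    exact mul_neg_of_pos_of_neg h2 h

/-- restriction of poles -/
def resP (h : Corr ℓ φ ψ j) (w : Poles K (φ j)) : Poles K j :=
  ⟨w.1.restrictAlong φ h.hφ, (ord_lt_iff φ h.hφ w.1).mp w.2⟩

/-- restriction of poles -/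
def resR (h : Corr ℓ φ ψ j) (w : Poles K (φ j)) : Poles K j :=
  ⟨w.1.restrictAlong ψ h.hψ, (ord_lt_iff ψ h.hψ w.1).mp ((h.pole w.1).mp w.2)⟩

/-- the width -/
def width (v : Poles K j) : ℕ := (-(v.1.ord j)).toNat

theorem coe_width (v : Poles K j) : ((width v : ℕ) : ℤ) = -(v.1.ord j) :=
  Int.toNat_of_nonneg (by have := v.2; omega)

open scoped Classical in
theorem sum_fib [Fintype (Poles K (φ j))] (φ' : F →ₐ[K] F') (hφ' : φ'.toRingHom.IsIntegral)
    (hp : ∀ w : Place K F', w.ord (φ j) < 0 ↔ w.ord (φ' j) < 0)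
    (v : Poles K j) (G : Place K F' → ℤ) :
    ∑ w ∈ Finset.univ.filter (fun w : Poles K (φ j) =>
      (⟨w.1.restrictAlong φ' hφ', (ord_lt_iff φ' hφ' w.1).mp ((hp w.1).mp w.2)⟩ : Poles K j) = v),
        G w.1 = ∑ W ∈ Place.fiberAlong φ' hφ' v.1, G W := by
  refine Finset.sum_bij (fun w _ => w.1) ?_ ?_ ?_ ?_
  · intro w hw
    rw [Place.mem_fiberAlong]
    exact congrArg Subtype.val (Finset.mem_filter.mp hw).2
  · intro w _ w' _ hh
    exact Subtype.ext hh
  · intro W hW
    rw [Place.mem_fiberAlong] at hW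
    have h1 : W.ord (φ' j) < 0 := by
      rw [ord_lt_iff φ' hφ', hW]
      exact v.2
    refine ⟨⟨W, (hp W).mpr h1⟩, ?_, rfl⟩
    rw [Finset.mem_filter]
    exact ⟨Finset.mem_univ _, Subtype.ext hW⟩
  · intro w _
    rfl

open scoped Classical in
theorem cuspData [Fintype (Poles K j)] [Fintype (Poles K (φ j))] (h : Corr ℓ φ ψ j) :
    CuspData ℓ (resP h) (resR h) (fun w => w.1.ramificationIndexAlong φ)
      (fun w => w.1.ramificationIndexAlong ψ) width where
  prime := h.prime
  epos w := M5.ramificationIndexAlong_pos φ h.hφ w.1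
  epos' w := M5.ramificationIndexAlong_pos ψ h.hψ w.1
  mpos v := by
    have h1 := coe_width v
    have h2 := v.2
    omega
  mlt v := by
    have h1 := coe_width v
    have h2 := h.small v.1 v.2
    omega
  sum v := by
    have h1 := sum_fib (φ := φ) φ h.hφ (fun w => Iff.rfl) v
      (fun w => (w.ramificationIndexAlong φ : ℤ))
    rw [M5.sum_ramificationIndexAlong φ h.hφ h.fiφ h.hd' h.hd v.1, h.degφ] at h1
    exact_mod_cast h1
  sum' v := by
    have h1 := sum_fib (φ := φ) ψ h.hψ h.pole v
      (fun w => (w.ramificationIndexAlong ψ : ℤ))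
    rw [M5.sum_ramificationIndexAlong ψ h.hψ h.fiψ h.hd' h.hd v.1, h.degψ] at h1
    exact_mod_cast h1
  dich w := by
    have e1 := Place.ord_restrictAlong φ h.hφ w.1 j
    have e2 := Place.ord_restrictAlong ψ h.hψ w.1 j
    have m1 : ((width (resP h w) : ℕ) : ℤ) = -((w.1.restrictAlong φ h.hφ).ord j) :=
      coe_width (resP h w)
    have m2 : ((width (resR h w) : ℕ) : ℤ) = -((w.1.restrictAlong ψ h.hψ).ord j) :=
      coe_width (resR h w)
    rcases h.dich w.1 w.2 with h1 | h1
    · left
      have : ((w.1.ramificationIndexAlong φ : ℕ) : ℤ) * (width (resP h w) : ℕ) =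
          ℓ * (((w.1.ramificationIndexAlong ψ : ℕ) : ℤ) * (width (resR h w) : ℕ)) := by
        rw [m1, m2]
        rw [e1, e2] at h1
        linear_combination (-1 : ℤ) * h1
      exact_mod_cast this
    · right
      have : ((w.1.ramificationIndexAlong ψ : ℕ) : ℤ) * (width (resR h w) : ℕ) =
          ℓ * (((w.1.ramificationIndexAlong φ : ℕ) : ℤ) * (width (resP h w) : ℕ)) := by
        rw [m1, m2]
        rw [e1, e2] at h1
        linear_combination (-1 : ℤ) * h1
      exact_mod_cast this

/-- the push-forward at a place -/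
theorem pushforward_apply (ψ : F →ₐ[K] F') (hψ : ψ.toRingHom.IsIntegral)
    (hd' : ∀ w : Place K F', w.deg = 1) (D : Divisor K F') (u : Place K F) :
    Divisor.pushforwardAlong ψ hψ D u = ∑ W ∈ Place.fiberAlong ψ hψ u, D W := by
  classical
  induction D using Finsupp.induction with
  | zero => simp
  | single_add v n D _ _ ih =>
    rw [map_add, Finsupp.add_apply, ih]
    have h1 : ∀ W, (Finsupp.single v n + D) W = Finsupp.single v n W + D W := fun _ => rfl
    simp only [h1]
    rw [Finset.sum_add_distrib]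
    congr 1
    rw [Divisor.pushforwardAlong_single, M5.inertiaDegAlong_eq_one hd' ψ hψ v, Nat.cast_one,
      mul_one]
    by_cases hv : v.restrictAlong ψ hψ = u
    · rw [hv, Finsupp.single_eq_same, Finset.sum_eq_single_of_mem v
        (Place.mem_fiberAlong.mpr hv) (fun W _ hW => Finsupp.single_eq_of_ne hW),
        Finsupp.single_eq_same]
    · rw [Finsupp.single_eq_of_ne (Ne.symm hv), Finset.sum_eq_zero]
      intro W hW
      rw [Place.mem_fiberAlong] at hW
      apply Finsupp.single_eq_of_ne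
      rintro rfl
      exact hv hW

/-- the divisor supported on the poles with given multiplicities -/
def toDiv [Finite (Poles K j)] (f : Poles K j → ℤ) : Divisor K F :=
  Finsupp.mapDomain Subtype.val (Finsupp.equivFunOnFinite.symm f)

theorem toDiv_apply [Finite (Poles K j)] (f : Poles K j → ℤ) (v : Poles K j) :
    toDiv f v.1 = f v := by
  unfold toDiv
  rw [Finsupp.mapDomain_apply Subtype.val_injective]
  rfl

theorem toDiv_apply_of_not [Finite (Poles K j)] (f : Poles K j → ℤ) {v : Place K F}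
    (hv : ¬ v.ord j < 0) : toDiv f v = 0 := by
  unfold toDiv
  apply Finsupp.mapDomain_of_notMem_range
  rintro ⟨w, rfl⟩
  exact hv w.2

theorem eq_toDiv [Finite (Poles K j)] {D : Divisor K F} (hD : ∀ v, D v ≠ 0 → v.ord j < 0) :
    D = toDiv (fun v : Poles K j => D v.1) := by
  ext v
  by_cases hv : v.ord j < 0
  · exact (toDiv_apply (fun v : Poles K j => D v.1) ⟨v, hv⟩).symm
  · rw [toDiv_apply_of_not _ hv]
    by_contra h0
    exact hv (hD v h0)

theorem toDiv_smul [Finite (Poles K j)] (δ : ℤ) (f : Poles K j → ℤ) :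
    toDiv (δ • f) = δ • toDiv f := by
  ext v
  by_cases hv : v.ord j < 0
  · have h1 := toDiv_apply (δ • f) ⟨v, hv⟩
    have h2 := toDiv_apply f ⟨v, hv⟩
    change toDiv (δ • f) v = δ • toDiv f v
    rw [h1, h2]
    rfl
  · change toDiv (δ • f) v = δ • toDiv f v
    rw [toDiv_apply_of_not _ hv, toDiv_apply_of_not _ hv, smul_zero]

/-- the correspondence -/
def T (h : Corr ℓ φ ψ j) : Module.End ℤ (Divisor K F) :=
  (Divisor.correspondence φ ψ h.hφ h.hψ).toIntLinearMap

theorem exists_op (h : Corr ℓ φ ψ j) : ∃ (_ : Fintype (Poles K j))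
    (a b : Poles K j → Poles K j), Function.Surjective b ∧
    ∀ f : Poles K j → ℤ, T h (toDiv f) = toDiv (opZ ℓ a b f) := by
  classical
  haveI := finite_poles (K := K) j
  haveI := finite_poles (K := K) (φ j)
  letI : Fintype (Poles K j) := Fintype.ofFinite _
  letI : Fintype (Poles K (φ j)) := Fintype.ofFinite _
  obtain ⟨a, b, hb, hD⟩ := (cuspData h).main
  refine ⟨inferInstance, a, b, hb, fun f => ?_⟩
  ext u
  have e1 : T h (toDiv f) u = ∑ W ∈ Place.fiberAlong ψ h.hψ u,
      (W.ramificationIndexAlong φ : ℤ) * toDiv f (W.restrictAlong φ h.hφ) := by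
    change Divisor.correspondence φ ψ h.hφ h.hψ (toDiv f) u = _
    rw [Divisor.correspondence_apply, pushforward_apply ψ h.hψ h.hd']
    refine Finset.sum_congr rfl fun W _ => ?_
    rw [Divisor.pullbackAlong_apply]
  rw [e1]
  by_cases hu : u.ord j < 0
  · have h3 := toDiv_apply (opZ ℓ a b f) ⟨u, hu⟩
    change toDiv (opZ ℓ a b f) u = _ at h3
    rw [h3]
    change _ = (ℓ : ℤ) * f (b ⟨u, hu⟩) + f (a ⟨u, hu⟩)
    rw [← hD f ⟨u, hu⟩]
    have h4 := sum_fib (φ := φ) ψ h.hψ h.pole ⟨u, hu⟩
      (fun W => (W.ramificationIndexAlong φ : ℤ) * toDiv f (W.restrictAlong φ h.hφ))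
    rw [← h4]
    refine Finset.sum_congr rfl fun w _ => ?_
    congr 1
    exact toDiv_apply f (resP h w)
  · rw [toDiv_apply_of_not _ hu]
    apply Finset.sum_eq_zero
    intro W hW
    rw [Place.mem_fiberAlong] at hW
    rw [toDiv_apply_of_not, mul_zero]
    rw [← ord_lt_iff φ h.hφ, h.pole, ord_lt_iff ψ h.hψ, hW]
    exact hu

/-- **The main result for divisors.** -/
theorem exists_divisor (h : Corr ℓ φ ψ j) {P : ℤ[X]} (hP : P ≠ 0)
    (hr : ∀ α ∈ (P.map (Int.castRingHom ℂ)).roots, ‖α‖ < ℓ - 1) {D : Divisor K F}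
    (hD : ∀ v, D v ≠ 0 → v.ord j < 0) (hD0 : Divisor.degree D = 0) :
    ∃ (δ : ℤ) (E : Divisor K F), δ ≠ 0 ∧ Divisor.degree E = 0 ∧ aeval (T h) P E = δ • D := by
  classical
  haveI := finite_poles (K := K) j
  obtain ⟨hfin, a, b, hb, hT⟩ := exists_op h
  have hpol : ∀ (Q : ℤ[X]) (f : Poles K j → ℤ),
      aeval (T h) Q (toDiv f) = toDiv (aeval (opZ ℓ a b) Q f) := by
    intro Q
    induction Q using Polynomial.induction_on with
    | C c =>
      intro f
      rw [aeval_C, aeval_C, Module.algebraMap_end_apply, Module.algebraMap_end_apply,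
        toDiv_smul]
    | add p q hp hq =>
      intro f
      rw [map_add, map_add, LinearMap.add_apply, LinearMap.add_apply, hp, hq]
      ext v
      change toDiv _ v + toDiv _ v = toDiv _ v
      by_cases hv : v.ord j < 0
      · rw [toDiv_apply _ ⟨v, hv⟩, toDiv_apply _ ⟨v, hv⟩, toDiv_apply _ ⟨v, hv⟩]
        rfl
      · rw [toDiv_apply_of_not _ hv, toDiv_apply_of_not _ hv, toDiv_apply_of_not _ hv, add_zero]
    | monomial n c ih =>
      intro f
      have e1 : (C c * X ^ (n + 1) : ℤ[X]) = (C c * X ^ n) * X := by ring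
      have e2 : aeval (T h) (C c * X ^ (n + 1) : ℤ[X]) (toDiv f) =
          aeval (T h) (C c * X ^ n : ℤ[X]) (T h (toDiv f)) := by
        rw [e1, map_mul (aeval (T h)) (C c * X ^ n) X, aeval_X, Module.End.mul_apply]
      have e3 : aeval (opZ ℓ a b) (C c * X ^ (n + 1) : ℤ[X]) f =
          aeval (opZ ℓ a b) (C c * X ^ n : ℤ[X]) (opZ ℓ a b f) := by
        rw [e1, map_mul (aeval (opZ ℓ a b)) (C c * X ^ n) X, aeval_X, Module.End.mul_apply]
      rw [e2, e3, hT, ih]
  obtain ⟨δ, hδ, hex⟩ := exists_int_smul hb hP hr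
  obtain ⟨g, hg⟩ := hex (fun v : Poles K j => D v.1)
  refine ⟨δ, toDiv g, hδ, ?_, ?_⟩
  · -- the degree
    have hdegT : ∀ E : Divisor K F, Divisor.degree (T h E) = (ℓ + 1 : ℤ) * Divisor.degree E := by
      intro E
      change Divisor.degree (Divisor.correspondence φ ψ h.hφ h.hψ E) = _
      rw [Divisor.correspondence_apply, Divisor.degree_pushforwardAlong,
        Divisor.degree_pullbackAlong φ h.hφ h.fiφ, h.degφ]
      push_cast
      rfl
    have hdegP : ∀ (Q : ℤ[X]) (E : Divisor K F), Divisor.degree (aeval (T h) Q E) =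
        Q.eval (ℓ + 1 : ℤ) * Divisor.degree E := by
      intro Q
      induction Q using Polynomial.induction_on with
      | C c =>
        intro E
        rw [aeval_C, Module.algebraMap_end_apply, map_zsmul, eval_C, smul_eq_mul]
      | add p q hp hq =>
        intro E
        rw [map_add, LinearMap.add_apply, map_add, hp, hq, eval_add, add_mul]
      | monomial n c ih =>
        intro E
        have e1 : (C c * X ^ (n + 1) : ℤ[X]) = (C c * X ^ n) * X := by ring
        rw [e1, map_mul (aeval (T h)) (C c * X ^ n) X, aeval_X, Module.End.mul_apply, ih, hdegT]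
        simp only [eval_mul, eval_X]
        ring
    have h1 := hdegP P (toDiv g)
    rw [hpol, hg, toDiv_smul, ← eq_toDiv hD, map_zsmul, hD0, smul_zero] at h1
    rcases mul_eq_zero.mp h1.symm with h2 | h2
    · exfalso
      have h3 : ((ℓ + 1 : ℤ) : ℂ) ∈ (P.map (Int.castRingHom ℂ)).roots := by
        rw [Polynomial.mem_roots
          ((Polynomial.map_ne_zero_iff (Int.cast_injective)).mpr hP), Polynomial.IsRoot.def,
          Polynomial.eval_map]
        have h4 := congrArg (Int.castRingHom ℂ) h2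
        rw [← Polynomial.eval₂_at_apply, map_zero] at h4
        exact h4
      have h5 := hr _ h3
      rw [Complex.norm_intCast] at h5
      push_cast at h5
      have h6 : |(ℓ : ℝ) + 1| = ℓ + 1 := abs_of_nonneg (by positivity)
      rw [h6] at h5
      linarith
    · exact h2
  · rw [hpol, hg, toDiv_smul, ← eq_toDiv hD]

end Fermat.Agent.Cor.MD
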