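import Fermat.Agent.Cor.H17MD15
import Fermat.Agent.Q.Conc1
import Fermat.Agent.NN.Geo

/-!
# The modular units as units of the integral closure of `Qb[j]`

A function on `X_0(N)` is a modular unit if and only if it is a unit of the integral closure of
`Qb[j]` in the function field of `X_0(N)` (the ring of functions on `Y_0(N)`).

This file is not used by any of the statement files.
-/

set_option autoImplicit false
set_option linter.style.haveILetI false
set_option linter.unusedSectionVars false

noncomputable section

open AlgebraicCurve ModularCurve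

namespace Fermat.Agent.Cor.MD

local notation "Qb" => AlgebraicClosure ℚ

variable (N : ℕ) [NeZero N]

/-- the ring of functions on the affine curve `Y_0(N)`: no poles outside the cusps -/
theorem isIntegral_iff (f : modularFunctionFieldBar N) :
    IsIntegral (Algebra.adjoin Qb {H05.jB Qb N}) f ↔
      ∀ v : Place Qb (modularFunctionFieldBar N), 0 ≤ v.ord (H05.jB Qb N) → 0 ≤ v.ord f := by
  constructor
  · intro h v hv
    exact (H18.mem_iff v).mp (Fermat.Agent.NN.mem_of_isIntegral_adjoin ((H18.mem_iff v).mpr hv) h)
  · intro h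
    refine Fermat.Agent.Q.isIntegral_of_forall_place _ _ fun v hv => ?_
    exact (H18.mem_iff v).mpr (h v ((H18.mem_iff v).mp hv))

/-- **The modular units are the units of the integral closure of `Qb[j]`.** -/
theorem mem_modUnits_iff (f : (modularFunctionFieldBar N)ˣ) : f ∈ modUnits N ↔
    IsIntegral (Algebra.adjoin Qb {H05.jB Qb N}) (f : modularFunctionFieldBar N) ∧
    IsIntegral (Algebra.adjoin Qb {H05.jB Qb N}) ((f⁻¹ : (modularFunctionFieldBar N)ˣ) :
      modularFunctionFieldBar N) := by
  rw [isIntegral_iff, isIntegral_iff]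
  have hinv : ∀ v : Place Qb (modularFunctionFieldBar N),
      v.ord ((f⁻¹ : (modularFunctionFieldBar N)ˣ) : modularFunctionFieldBar N) =
        -v.ord (f : modularFunctionFieldBar N) := by
    intro v
    rw [Units.val_inv_eq_inv_val, v.ord_inv]
  constructor
  · intro h
    have h0 : ∀ v : Place Qb (modularFunctionFieldBar N), 0 ≤ v.ord (H05.jB Qb N) →
        v.ord (f : modularFunctionFieldBar N) = 0 := by
      intro v hv
      by_contra hne
      exact absurd (h v hne) (not_lt.mpr hv)
    exact ⟨fun v hv => (h0 v hv).ge, fun v hv => by rw [hinv, h0 v hv, neg_zero]⟩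
  · rintro ⟨h1, h2⟩ v hv
    by_contra hcon
    push Not at hcon
    have h3 := h1 v hcon
    have h4 := h2 v hcon
    rw [hinv] at h4
    omega

/-- the ring of functions on `Y_0(N)` -/
def affRing : Subring (modularFunctionFieldBar N) :=
  (integralClosure (Algebra.adjoin Qb {H05.jB Qb N}) (modularFunctionFieldBar N)).toSubring

theorem mem_affRing (f : modularFunctionFieldBar N) : f ∈ affRing N ↔
    ∀ v : Place Qb (modularFunctionFieldBar N), 0 ≤ v.ord (H05.jB Qb N) → 0 ≤ v.ord f :=
  isIntegral_iff N f

/-- the units of the ring of functions on `Y_0(N)` -/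
def unitsEquiv : (affRing N)ˣ ≃* modUnits N where
  toFun u := ⟨Units.map (affRing N).subtype.toMonoidHom u, (mem_modUnits_iff N _).mpr
    ⟨u.1.2, u.2.2⟩⟩
  invFun f := ⟨⟨_, ((mem_modUnits_iff N _).mp f.2).1⟩, ⟨_, ((mem_modUnits_iff N _).mp f.2).2⟩,
    Subtype.ext (Units.mul_inv _), Subtype.ext (Units.inv_mul _)⟩
  left_inv u := Units.ext (Subtype.ext rfl)
  right_inv f := Subtype.ext (Units.ext rfl)
  map_mul' u w := Subtype.ext (map_mul _ u w)

/-- the units modulo constants: the map to the orders at the cusps -/
def ordU : Additive (affRing N)ˣ →+ (Cusp N → ℤ) :=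
  (ordC N).toAddMonoidHom.comp (MonoidHom.toAdditive (unitsEquiv N).toMonoidHom)

/-- **The unit theorem for `Y_0(N)`**: the kernel of `ordU` consists of the constants and its range
is free of rank `∑_{d ∣ N} φ(gcd(d, N/d)) - 1`. -/
theorem unit_theorem :
    (∀ u : (affRing N)ˣ, ordU N (Additive.ofMul u) = 0 ↔ ∃ c : Qb,
      algebraMap Qb (modularFunctionFieldBar N) c = ((u : affRing N) : modularFunctionFieldBar N)) ∧
    Nonempty ((ordU N).range ≃+
      (Fin ((∑ d ∈ N.divisors, Nat.totient (Nat.gcd d (N / d))) - 1) → ℤ)) := by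
  constructor
  · intro u
    exact ordC_eq_zero_iff N (unitsEquiv N u)
  · have h1 : (ordU N).range = (LinearMap.range (ordC N)).toAddSubgroup := by
      ext z
      constructor
      · rintro ⟨u, rfl⟩
        exact ⟨_, rfl⟩
      · rintro ⟨f, rfl⟩
        refine ⟨Additive.ofMul ((unitsEquiv N).symm f.toMul), ?_⟩
        change ordC N (Additive.ofMul (unitsEquiv N ((unitsEquiv N).symm f.toMul))) = ordC N f
        rw [MulEquiv.apply_symm_apply]
        rfl
    rw [h1]
    haveI : Module.Free ℤ (LinearMap.range (ordC N)) := inferInstance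
    haveI : Module.Finite ℤ (LinearMap.range (ordC N)) := inferInstance
    exact ⟨(LinearEquiv.ofFinrankEq (LinearMap.range (ordC N)) _
      (by rw [rank_units, Module.finrank_fin_fun])).toAddEquiv⟩

end Fermat.Agent.Cor.MD
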