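import Fermat.Agent.Cor.H17MD19
import Fermat.Agent.Cor.H17MD20

/-!
# Cusps and cuspidal subgroups: small levels

* the order of the cuspidal subgroup of `J_0(N)` for `N = 11, 17, 19, 23, 29, 31, 37, 41, 43, 47`;
* the number of cusps of `X_0(N)` for some non-squarefree `N`;
* there are nonconstant modular units of level `N` if and only if `N > 1`.

This file is not used by any of the statement files.
-/

set_option autoImplicit false
set_option linter.style.haveILetI false

noncomputable section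

open AlgebraicCurve ModularCurve

namespace Fermat.Agent.Cor.MD

theorem card_cuspGroup_small :
    Nat.card (cuspGroup 11) = 5 ∧ Nat.card (cuspGroup 17) = 4 ∧ Nat.card (cuspGroup 19) = 3 ∧
    Nat.card (cuspGroup 23) = 11 ∧ Nat.card (cuspGroup 29) = 7 ∧ Nat.card (cuspGroup 31) = 5 ∧
    Nat.card (cuspGroup 37) = 3 ∧ Nat.card (cuspGroup 41) = 10 ∧ Nat.card (cuspGroup 43) = 7 ∧
    Nat.card (cuspGroup 47) = 23 := by
  refine ⟨?_, ?_, ?_, ?_, ?_, ?_, ?_, ?_, ?_, ?_⟩ <;>
  · rw [card_cuspGroup_prime (by norm_num)]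
    decide

theorem card_cusp_small :
    Nat.card (Cusp 4) = 3 ∧ Nat.card (Cusp 9) = 4 ∧ Nat.card (Cusp 16) = 6 ∧
    Nat.card (Cusp 24) = 8 ∧ Nat.card (Cusp 25) = 6 ∧ Nat.card (Cusp 27) = 6 ∧
    Nat.card (Cusp 32) = 8 ∧ Nat.card (Cusp 36) = 12 ∧ Nat.card (Cusp 49) = 8 := by
  refine ⟨?_, ?_, ?_, ?_, ?_, ?_, ?_, ?_, ?_⟩ <;>
  · rw [card_cusp]
    decide

/-- the number of cusps is one only for `N = 1`. -/
theorem card_cusp_eq_one_iff (N : ℕ) [NeZero N] : Nat.card (Cusp N) = 1 ↔ N = 1 := by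
  constructor
  · intro h
    by_contra hN
    have h0 := NeZero.pos N
    have hN1 : 1 < N := by omega
    have h1 := (Nat.card_eq_one_iff_unique.mp h).1
    have h2 : (⟨M5.cInf _ N, ord_cInf⟩ : Cusp N) = ⟨M5.cZero _ N, ord_cZero⟩ := h1.elim _ _
    exact M5.cInf_ne_cZero _ hN1 (congrArg Subtype.val h2)
  · rintro rfl
    rw [card_cusp]
    decide

/-- **Nonconstant modular units exist if and only if `N > 1`.** -/
theorem exists_nonconst_unit_iff (N : ℕ) [NeZero N] :
    (∃ f : modUnits N, ∀ c : AlgebraicClosure ℚ,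
      algebraMap (AlgebraicClosure ℚ) (modularFunctionFieldBar N) c ≠
        ((f : (modularFunctionFieldBar N)ˣ) : modularFunctionFieldBar N)) ↔ 1 < N := by
  have hbot : (∃ f : modUnits N, ∀ c : AlgebraicClosure ℚ,
      algebraMap (AlgebraicClosure ℚ) (modularFunctionFieldBar N) c ≠
        ((f : (modularFunctionFieldBar N)ˣ) : modularFunctionFieldBar N)) ↔
      LinearMap.range (ordC N) ≠ ⊥ := by
    rw [Ne, LinearMap.range_eq_bot]
    constructor
    · rintro ⟨f, hf⟩ h
      have h1 : ordC N (Additive.ofMul f) = 0 := by rw [h]; rfl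
      obtain ⟨c, hc⟩ := (ordC_eq_zero_iff N f).mp h1
      exact hf c hc
    · intro h
      by_contra hcon
      push Not at hcon
      apply h
      ext1 f
      exact (ordC_eq_zero_iff N f.toMul).mpr (hcon f.toMul)
  have hcard : LinearMap.range (ordC N) = ⊥ ↔ Nat.card (Cusp N) = 1 := by
    rw [← Submodule.finrank_eq_zero (R := ℤ), finrank_range_ordC]
    have : 0 < Nat.card (Cusp N) := Nat.card_pos
    omega
  rw [hbot, Ne, hcard, card_cusp_eq_one_iff]
  have := NeZero.pos N
  omega

end Fermat.Agent.Cor.MD
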