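import Fermat.Agent.Cor.H17MD19

/-!
# The cuspidal subgroup is stable under the Atkin–Lehner involutions

The functions `j(d τ)`, `d ∣ N`, have poles exactly at the cusps; the Atkin–Lehner involutions `w_Q`
permute the cusps of `X_0(N)` and preserve the cuspidal subgroup of `J_0(N)`.

This file is not used by any of the statement files.
-/

set_option autoImplicit false
set_option linter.style.haveILetI false
set_option linter.unusedSectionVars false

noncomputable section

open AlgebraicCurve ModularCurve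

namespace Fermat.Agent.Cor.MD

local notation "Qb" => AlgebraicClosure ℚ

variable {N : ℕ} [NeZero N]

theorem pole_step {d r : ℕ} [NeZero d] [hr : Fact r.Prime] [NeZero (d * r)] (hd : d ∣ N)
    (hdr : d * r ∣ N) (v : Place Qb (modularFunctionFieldBar N)) :
    v.ord (M5.jB Qb hd) < 0 ↔ v.ord (M5.jB Qb hdr) < 0 := by
  refine pole_iff r v ?_ ?_
  · apply (modularFunctionFieldBar N).val.toRingHom.injective
    rw [map_zero, Igusa.eval₂_evZ_map]
    exact Igusa.modPoly_eval r Qb d
  · apply (modularFunctionFieldBar N).val.toRingHom.injective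
    rw [map_zero, Igusa.eval₂_evZ_map]
    exact Igusa.modPoly_eval' r Qb d

/-- **The functions `j(dτ)` have poles exactly at the cusps.** -/
theorem ord_jB_neg_iff (d : ℕ) : ∀ [NeZero d] (hd : d ∣ N)
    (v : Place Qb (modularFunctionFieldBar N)),
    v.ord (M5.jB Qb hd) < 0 ↔ v.ord (H05.jB Qb N) < 0 := by
  induction d using Nat.strong_induction_on with
  | _ d ih =>
    intro _ hd v
    by_cases h1 : d = 1
    · subst h1
      rw [← jB_eq]
    · obtain ⟨p, hp, e, he⟩ := Nat.exists_prime_and_dvd h1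
      obtain rfl : d = e * p := by rw [he, mul_comm]
      haveI : Fact p.Prime := ⟨hp⟩
      have he0 : e ≠ 0 := by
        rintro rfl
        exact NeZero.ne (0 * p) (Nat.zero_mul p)
      haveI : NeZero e := ⟨he0⟩
      have hlt : e < e * p := by
        nlinarith [hp.one_lt, Nat.pos_of_ne_zero he0]
      rw [← pole_step (dvd_of_mul_right_dvd hd) hd v]
      exact ih e hlt _ v

/-- **The Atkin–Lehner involutions permute the cusps.** -/
theorem wB_cusp {M Q : ℕ} [NeZero M] [NeZero Q] (h : M * Q = N) (hQM : Nat.Coprime Q M)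
    (v : Place Qb (modularFunctionFieldBar N)) :
    (M5.wB Qb h hQM • v).ord (H05.jB Qb N) < 0 ↔ v.ord (H05.jB Qb N) < 0 := by
  have h1 := Place.ord_smul (M5.wB Qb h hQM) v (M5.wB Qb h hQM (H05.jB Qb N))
  rw [M5.wB_wB] at h1
  rw [h1]
  have hQN : Q ∣ N := ⟨M, by rw [← h, mul_comm]⟩
  have h2 : M5.wB Qb h hQM (H05.jB Qb N) = M5.jB Qb hQN := by
    apply Subtype.ext
    rw [← jB_eq, M5.coe_wB_of_mem Qb h hQM _ (M5.jd_mem_FB Qb (one_dvd M)), M5.coe_jB,
      Igusa.qExpand_jd]
    exact Igusa.jd_congr Qb (mul_one Q)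
  rw [h2]
  exact ord_jB_neg_iff Q hQN v

/-- **The cuspidal subgroup is stable under the Atkin–Lehner involutions.** -/
theorem wB_mem_cuspGroup {M Q : ℕ} [NeZero M] [NeZero Q] (h : M * Q = N) (hQM : Nat.Coprime Q M)
    {x : JZero N} (hx : x ∈ cuspGroup N) :
    (M5.wB Qb h hQM : M5.FB Qb N ≃ₐ[Qb] M5.FB Qb N) • x ∈ cuspGroup N := by
  obtain ⟨D, hD, rfl⟩ := hx
  refine ⟨Pic0.degZeroSMulHom (M5.wB Qb h hQM) D, ?_, rfl⟩
  intro v hv
  rw [Pic0.coe_degZeroSMulHom, Divisor.smul_apply] at hv
  have h1 := hD _ hv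
  rw [← wB_cusp h hQM, smul_inv_smul] at h1
  exact h1

end Fermat.Agent.Cor.MD
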