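import Fermat.Agent.Cor.H17MD22

/-!
# Degeneracy maps and cusps

The degeneracy maps `X_0(M') → X_0(M)`, `τ ↦ d τ`, `M d ∣ M'`, map cusps to cusps and non-cusps to
non-cusps; push-forwards and pull-backs of cuspidal divisors are cuspidal.

This file is not used by any of the statement files.
-/

set_option autoImplicit false
set_option linter.style.haveILetI false
set_option linter.unusedSectionVars false

noncomputable section

open AlgebraicCurve ModularCurve

namespace Fermat.Agent.Cor.MD

local notation "Qb" => AlgebraicClosure ℚ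

variable {M M' : ℕ} [NeZero M] [NeZero M']

theorem qe_jB (d : ℕ) [NeZero d] (h : M * d ∣ M') :
    H05.qe Qb d h (H05.jB Qb M) = M5.jB Qb (dvd_of_mul_left_dvd h) := by
  apply Subtype.ext
  rw [H05.coe_qe, M5.coe_jB]
  rfl

/-- **A degeneracy map sends exactly the cusps to cusps.** -/
theorem cusp_iff_restrict (d : ℕ) [NeZero d] (h : M * d ∣ M')
    (W : Place Qb (modularFunctionFieldBar M')) : W.ord (H05.jB Qb M') < 0 ↔
      (W.restrictAlong (H05.qe Qb d h) (H05.qe_isIntegral Qb d h)).ord (H05.jB Qb M) < 0 := by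
  rw [← ord_lt_iff (H05.qe Qb d h) (H05.qe_isIntegral Qb d h) W, qe_jB, ord_jB_neg_iff]

/-- pull-backs of cuspidal divisors are cuspidal. -/
theorem pullback_cusp (d : ℕ) [NeZero d] (h : M * d ∣ M')
    {D : Divisor Qb (modularFunctionFieldBar M)} (hD : ∀ v, D v ≠ 0 → v.ord (H05.jB Qb M) < 0)
    (W : Place Qb (modularFunctionFieldBar M'))
    (hW : Divisor.pullbackAlong (H05.qe Qb d h) (H05.qe_isIntegral Qb d h) D W ≠ 0) :
    W.ord (H05.jB Qb M') < 0 := by
  rw [cusp_iff_restrict d h]
  apply hD
  intro h0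
  apply hW
  rw [Divisor.pullbackAlong_apply, h0, mul_zero]

/-- push-forwards of cuspidal divisors are cuspidal. -/
theorem pushforward_cusp (d : ℕ) [NeZero d] (h : M * d ∣ M')
    {D : Divisor Qb (modularFunctionFieldBar M')} (hD : ∀ W, D W ≠ 0 → W.ord (H05.jB Qb M') < 0)
    (v : Place Qb (modularFunctionFieldBar M))
    (hv : Divisor.pushforwardAlong (H05.qe Qb d h) (H05.qe_isIntegral Qb d h) D v ≠ 0) :
    v.ord (H05.jB Qb M) < 0 := by
  by_contra hcon
  apply hv
  rw [pushforward_apply (H05.qe Qb d h) (H05.qe_isIntegral Qb d h) (H05.deg_eq_one_bc Qb M')]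
  apply Finset.sum_eq_zero
  intro W hW
  rw [Place.mem_fiberAlong] at hW
  by_contra h0
  have h1 := hD W h0
  rw [cusp_iff_restrict d h, hW] at h1
  exact hcon h1

end Fermat.Agent.Cor.MD
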