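import Fermat.Agent.Cor.ModularPolynomial

/-!
# The Manin–Drinfeld theorem: `j(τ)` and `j(ℓτ)` at the cusps

For a valuation which is trivial on the nonzero integers and two elements `x, y` with
`Φ_ℓ(x, y) = 0` the values are related by `v(x) = v(y)^ℓ` or `v(y) = v(x)^ℓ` if `v(x) > 1`.

This file is not used by any of the statement files.
-/

set_option autoImplicit false

noncomputable section

namespace Fermat.Agent.Cor.MD

open Polynomial Fermat.Agent.Igusa Finset
open scoped Polynomial.Bivariate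

variable (ℓ : ℕ) [hℓ : Fact ℓ.Prime]

theorem coeff_swap (p : ℤ[X][X]) (i k : ℕ) :
    ((Bivariate.swap p).coeff i).coeff k = (p.coeff k).coeff i := by
  induction p using Polynomial.induction_on' with
  | add p q hp hq => rw [map_add, coeff_add, coeff_add, coeff_add, coeff_add, hp, hq]
  | monomial n a =>
    induction a using Polynomial.induction_on' with
    | add a b ha hb =>
      rw [map_add, map_add, coeff_add, coeff_add, coeff_add, coeff_add, ha, hb]
    | monomial m r =>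
      rw [Bivariate.swap_monomial_monomial]
      simp only [coeff_monomial]
      by_cases h1 : m = i <;> by_cases h2 : n = k <;> simp [h1, h2, coeff_monomial]

/-- the coefficients of the modular polynomial -/
def mc (i k : ℕ) : ℤ := ((modPoly ℓ).coeff k).coeff i

theorem mc_symm (i k : ℕ) : mc ℓ i k = mc ℓ k i := by
  unfold mc
  conv_lhs => rw [← CM.swap_modPoly ℓ]
  rw [coeff_swap]

theorem mc_top (i : ℕ) : mc ℓ i (ℓ + 1) = if i = 0 then 1 else 0 := by
  unfold mc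
  have h1 := modPoly_monic ℓ
  have h2 : (modPoly ℓ).coeff (ℓ + 1) = 1 := by
    rw [← modPoly_natDegree ℓ]
    exact h1
  rw [h2, coeff_one]

theorem mc_top' (k : ℕ) : mc ℓ (ℓ + 1) k = if k = 0 then 1 else 0 := by
  rw [mc_symm, mc_top]

theorem mc_eq_zero {i k : ℕ} (hi : ℓ + 1 < i) : mc ℓ i k = 0 := by
  rw [mc_symm]
  unfold mc
  rw [coeff_eq_zero_of_natDegree_lt (p := modPoly ℓ) (by rw [modPoly_natDegree]; exact hi),
    coeff_zero]

theorem mc_self : mc ℓ ℓ ℓ ≠ 0 := by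
  have hp := hℓ.out.two_le
  intro h0
  have h1 := congrArg (fun P : (ZMod ℓ)[X][X] => (P.coeff ℓ).coeff ℓ) (CM.modPoly_kronecker ℓ)
  rw [coeff_map, coe_mapRingHom, coeff_map] at h1
  have h2 : ((modPoly ℓ).coeff ℓ).coeff ℓ = 0 := h0
  rw [h2, map_zero] at h1
  have e : ((C X ^ ℓ - X) * (C X - X ^ ℓ) : (ZMod ℓ)[X][X]) =
      C (X ^ (ℓ + 1)) - C (X ^ ℓ) * X ^ ℓ - C X * X + X ^ (ℓ + 1) := by
    simp only [C_pow]
    ring
  rw [e] at h1
  simp only [coeff_add, coeff_sub, coeff_C_mul, coeff_X_pow, coeff_C, coeff_X] at h1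
  have a1 : ℓ ≠ 0 := by omega
  have a2 : ¬ (1 = ℓ) := by omega
  have a3 : ¬ (ℓ = ℓ + 1) := by omega
  simp [a1, a2] at h1

variable {ℓ} {E Γ₀ : Type*} [Field E] [LinearOrderedCommGroupWithZero Γ₀] (v : Valuation E Γ₀)

theorem rel_sum {x y : E} (h : (modPoly ℓ).eval₂ (evZ x) y = 0) :
    ∑ p ∈ range (ℓ + 2) ×ˢ range (ℓ + 2), (mc ℓ p.1 p.2 : E) * x ^ p.1 * y ^ p.2 = 0 := by
  rw [eval₂_eq_sum_range, modPoly_natDegree] at h
  rw [sum_product_right, ← h]
  refine sum_congr rfl fun k _ => ?_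
  have h1 : ((modPoly ℓ).coeff k).natDegree < ℓ + 2 := by
    rw [Nat.lt_succ_iff, natDegree_le_iff_coeff_eq_zero]
    intro i hi
    exact mc_eq_zero ℓ hi
  rw [evZ_apply, eval₂_eq_sum_range' _ h1, sum_mul]
  refine sum_congr rfl fun i _ => ?_
  rfl

variable {v} (hv : ∀ n : ℤ, n ≠ 0 → v (n : E) = 1)

include hv

theorem val_int_le (n : ℤ) : v (n : E) ≤ 1 := by
  by_cases h : n = 0
  · rw [h, Int.cast_zero, map_zero]; exact zero_le_one
  · exact (hv n h).le

theorem val_le_one_of_rel {x y : E} (h : (modPoly ℓ).eval₂ (evZ x) y = 0) (hx : v x ≤ 1) :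
    v y ≤ 1 := by
  by_contra hcon
  push Not at hcon
  have hy0 : v y ≠ 0 := (zero_lt_one.trans hcon).ne'
  have h1 := rel_sum h
  have hmem : (0, ℓ + 1) ∈ range (ℓ + 2) ×ˢ range (ℓ + 2) := by simp
  rw [← add_sum_erase _ _ hmem, mc_top, if_pos rfl, Int.cast_one, one_mul, pow_zero,
    one_mul] at h1
  have h2 : v (∑ p ∈ (range (ℓ + 2) ×ˢ range (ℓ + 2)).erase (0, ℓ + 1),
      (mc ℓ p.1 p.2 : E) * x ^ p.1 * y ^ p.2) < v (y ^ (ℓ + 1)) := by
    refine v.map_sum_lt (by rw [map_pow]; exact pow_ne_zero _ hy0) fun p hp => ?_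
    obtain ⟨i, k⟩ := p
    rw [mem_erase, mem_product, mem_range, mem_range] at hp
    obtain ⟨hne, hi, hk⟩ := hp
    simp only at hi hk ⊢
    by_cases hk1 : k = ℓ + 1
    · subst hk1
      have hi0 : i ≠ 0 := fun h => hne (by rw [h])
      rw [mc_top, if_neg hi0, Int.cast_zero, zero_mul, zero_mul, map_zero, map_pow]
      exact zero_lt_iff.mpr (pow_ne_zero _ hy0)
    · rw [map_mul, map_mul, map_pow, map_pow, map_pow]
      have h3 : v (mc ℓ i k : E) * v x ^ i ≤ 1 := mul_le_one' (val_int_le hv _) (pow_le_one' hx _)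
      calc v (mc ℓ i k : E) * v x ^ i * v y ^ k ≤ 1 * v y ^ k := mul_le_mul_left h3 _
        _ = v y ^ k := one_mul _
        _ < v y ^ (ℓ + 1) := pow_lt_pow_right₀ hcon (by omega)
  have h4 : y ^ (ℓ + 1) = -(∑ p ∈ (range (ℓ + 2) ×ˢ range (ℓ + 2)).erase (0, ℓ + 1),
      (mc ℓ p.1 p.2 : E) * x ^ p.1 * y ^ p.2) := eq_neg_of_add_eq_zero_left h1
  rw [h4, Valuation.map_neg] at h2
  exact lt_irrefl _ h2

theorem dich_aux {x y : E} (h : (modPoly ℓ).eval₂ (evZ x) y = 0) (hx : 1 < v x) (hy : 1 < v y)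
    (hle : v y ≤ v x) : v x = v y ^ ℓ := by
  have hl2 := hℓ.out.two_le
  have hx0 : v x ≠ 0 := (zero_lt_one.trans hx).ne'
  have hy0 : v y ≠ 0 := (zero_lt_one.trans hy).ne'
  have h1 := rel_sum h
  have hmem : (ℓ + 1, 0) ∈ range (ℓ + 2) ×ˢ range (ℓ + 2) := by simp
  have hmem2 : (ℓ, ℓ) ∈ (range (ℓ + 2) ×ˢ range (ℓ + 2)).erase (ℓ + 1, 0) := by
    simp only [mem_erase, mem_product, mem_range]
    refine ⟨?_, by omega, by omega⟩
    intro hh
    have := congrArg Prod.fst hh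
    simp at this
  rw [← add_sum_erase _ _ hmem, ← add_sum_erase _ _ hmem2] at h1
  simp only at h1
  rw [mc_top', if_pos rfl, Int.cast_one, one_mul, pow_zero, mul_one, ← add_assoc] at h1
  set R := ∑ p ∈ ((range (ℓ + 2) ×ˢ range (ℓ + 2)).erase (ℓ + 1, 0)).erase (ℓ, ℓ),
      (mc ℓ p.1 p.2 : E) * x ^ p.1 * y ^ p.2 with hR
  have hB0 : v x ^ ℓ * v y ^ ℓ ≠ 0 := mul_ne_zero (pow_ne_zero _ hx0) (pow_ne_zero _ hy0)
  have h2 : v R < v x ^ ℓ * v y ^ ℓ := by
    refine v.map_sum_lt hB0 fun p hp => ?_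
    obtain ⟨i, k⟩ := p
    rw [mem_erase, mem_erase, mem_product, mem_range, mem_range] at hp
    obtain ⟨hne1, hne2, hi, hk⟩ := hp
    simp only at hi hk ⊢
    by_cases hi1 : i = ℓ + 1
    · subst hi1
      have hk0 : k ≠ 0 := fun h => hne2 (by rw [h])
      rw [mc_top', if_neg hk0, Int.cast_zero, zero_mul, zero_mul, map_zero]
      exact zero_lt_iff.mpr hB0
    by_cases hk1 : k = ℓ + 1
    · subst hk1
      by_cases hi0 : i = 0
      · subst hi0
        rw [mc_top, if_pos rfl, Int.cast_one, one_mul, pow_zero, one_mul, map_pow, pow_succ,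
          mul_comm]
        refine mul_lt_mul_of_pos_right ?_ (zero_lt_iff.mpr (pow_ne_zero _ hy0))
        refine hle.trans_lt ?_
        calc v x = v x ^ 1 := (pow_one _).symm
          _ < v x ^ ℓ := pow_lt_pow_right₀ hx (by omega)
      · rw [mc_top, if_neg hi0, Int.cast_zero, zero_mul, zero_mul, map_zero]
        exact zero_lt_iff.mpr hB0
    · rw [map_mul, map_mul, map_pow, map_pow]
      have h3 : v (mc ℓ i k : E) * v x ^ i * v y ^ k ≤ v x ^ i * v y ^ k := by
        rw [mul_assoc]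
        calc v (mc ℓ i k : E) * (v x ^ i * v y ^ k) ≤ 1 * (v x ^ i * v y ^ k) :=
              mul_le_mul_left (val_int_le hv _) _
          _ = _ := one_mul _
      refine h3.trans_lt ?_
      by_cases hi2 : i = ℓ
      · subst hi2
        have hk2 : k < i := by
          have : k ≠ i := fun h => hne1 (by rw [h])
          omega
        exact mul_lt_mul_of_pos_left (pow_lt_pow_right₀ hy hk2)
          (zero_lt_iff.mpr (pow_ne_zero _ hx0))
      · have hi3 : i < ℓ := by omega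
        calc v x ^ i * v y ^ k ≤ v x ^ i * v y ^ ℓ :=
              mul_le_mul_right (pow_le_pow_right₀ hy.le (by omega)) _
          _ < v x ^ ℓ * v y ^ ℓ := mul_lt_mul_of_pos_right (pow_lt_pow_right₀ hx hi3)
              (zero_lt_iff.mpr (pow_ne_zero _ hy0))
  have h5 : v ((mc ℓ ℓ ℓ : E) * x ^ ℓ * y ^ ℓ) = v x ^ ℓ * v y ^ ℓ := by
    rw [map_mul, map_mul, map_pow, map_pow, hv _ (mc_self ℓ), one_mul]
  have h6 : v (x ^ (ℓ + 1)) = v x ^ ℓ * v y ^ ℓ := by
    have e1 : x ^ (ℓ + 1) = -(R + (mc ℓ ℓ ℓ : E) * x ^ ℓ * y ^ ℓ) := by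
      linear_combination h1
    rw [e1, Valuation.map_neg, Valuation.map_add_eq_of_lt_right _ (by rw [h5]; exact h2), h5]
  rw [map_pow, pow_succ] at h6
  exact mul_left_cancel₀ (pow_ne_zero _ hx0) h6

end Fermat.Agent.Cor.MD
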