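import Fermat.Agent.LM.Bound
import Fermat.Agent.H05.NewRel
import Fermat.Agent.S22

/-!
# The Manin–Drinfeld theorem: an elementary bound for Hecke eigenvalues

For a cusp form `f ≠ 0` of weight two on `Γ₀(N)` and all sufficiently large primes `ℓ ∤ N`, every
`a` with `T_ℓ f = a f` satisfies `|a| < ℓ - 1`: at a maximum `z` of `|f(τ)| Im τ` at least four of
the `ℓ + 1` terms of `T_ℓ` are small. The bound is uniform for all eigensystems of level `N`.

This file is not used by any of the statement files.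
-/

set_option autoImplicit false
set_option linter.style.haveILetI false

noncomputable section

open UpperHalfPlane Filter Topology ModularGroup CongruenceSubgroup ModularFormClass
open scoped MatrixGroups ModularForm Modular

namespace Fermat.Agent.Cor.MD

open Fermat.Agent.LM

variable {N : ℕ} [NeZero N]

open ConjAct Pointwise in
/-- decay at all cusps -/
theorem tendsto_smul (f : CuspForm (Gamma0 N) 2) (g : SL(2, ℤ)) :
    Tendsto (fun τ : ℍ => ‖f (g • τ)‖ * (g • τ).im) atImInfty (𝓝 0) := by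
  have hP : ∀ τ : ℍ, ‖petersson 2 f f τ‖ = (‖f τ‖ * τ.im) ^ 2 := by
    intro τ
    rw [petersson, norm_mul, norm_mul, Complex.norm_conj]
    have : ‖((τ.im : ℂ) ^ (2 : ℤ))‖ = τ.im ^ 2 := by
      rw [norm_zpow, Complex.norm_real, Real.norm_of_nonneg τ.im_pos.le]
      norm_cast
    rw [this]
    ring
  have h1 : Tendsto (fun τ : ℍ => ‖petersson 2 f f (g • τ)‖) atImInfty (𝓝 0) := by
    simp_rw [← UpperHalfPlane.petersson_slash_SL]
    rw [← tendsto_zero_iff_norm_tendsto_zero]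
    have : ((toConjAct (g : GL (Fin 2) ℝ)⁻¹) • (Gamma0 N : Subgroup (GL (Fin 2) ℝ))).IsArithmetic := by
      simpa [(show Rat.castHom ℝ = algebraMap ℚ ℝ by rfl), map_inv, Subgroup.map_map]
        using! Subgroup.IsArithmetic.conj (Gamma0 N : Subgroup (GL (Fin 2) ℝ)) (Matrix.SpecialLinearGroup.mapGL ℚ g)⁻¹
    exact (CuspFormClass.zero_at_infty <| CuspForm.translate f g).petersson_isZeroAtImInfty_left 2 _
      (ModularForm.translate f g)
  have h2 := (Real.continuous_sqrt.tendsto 0).comp h1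
  rw [Real.sqrt_zero] at h2
  refine h2.congr fun τ => ?_
  rw [Function.comp_apply, hP, Real.sqrt_sq (mul_nonneg (norm_nonneg _) (g • τ).im_pos.le)]

omit [NeZero N] in
/-- the Hecke operator and `|f(τ)| Im τ`. -/
theorem norm_mul_le_sum {q : ℕ} (hq : q.Prime) (hqN : ¬ q ∣ N) {f : CuspForm (Gamma0 N) 2} {a : ℂ}
    (ha : CuspForm.heckeTLin 2 hq hqN f = a • f) (τ : ℍ) :
    ‖a‖ * (‖f τ‖ * τ.im) ≤ (∑ j ∈ Finset.range q, ‖f (ModularForm.heckeMatrix q j • τ)‖ *
        (ModularForm.heckeMatrix q j • τ).im) + ‖f (ModularForm.heckeDiagMatrix q • τ)‖ *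
      (ModularForm.heckeDiagMatrix q • τ).im := by
  have hq0 : q ≠ 0 := hq.ne_zero
  have hqR : (0 : ℝ) < q := by exact_mod_cast hq.pos
  have h1 : a * f τ = (∑ j ∈ Finset.range q, (q : ℂ)⁻¹ * f (ModularForm.heckeMatrix q j • τ)) +
      (q : ℂ) * f (ModularForm.heckeDiagMatrix q • τ) := by
    have h2 := congrArg (fun g : CuspForm (Gamma0 N) 2 => g τ) ha
    have h3 : (CuspForm.heckeTLin 2 hq hqN f) τ = ModularForm.heckeT 2 q (⇑f) τ := rfl
    have h4 : (a • f) τ = a * f τ := rfl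
    rw [← h4]
    refine h2.symm.trans (h3.trans ?_)
    rw [ModularForm.heckeT_def, Pi.add_apply, Finset.sum_apply,
      ModularForm.slash_heckeDiagMatrix_apply 2 hq0]
    congr 1
    · exact Finset.sum_congr rfl fun j _ => ModularForm.slash_heckeMatrix_apply 2 hq0 j _ τ
    · norm_num
  have h5 : ‖a‖ * ‖f τ‖ ≤ (∑ j ∈ Finset.range q, (q : ℝ)⁻¹ *
      ‖f (ModularForm.heckeMatrix q j • τ)‖) + q * ‖f (ModularForm.heckeDiagMatrix q • τ)‖ := by
    rw [← norm_mul, h1]
    refine (norm_add_le _ _).trans (add_le_add ((norm_sum_le _ _).trans ?_) ?_)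
    · refine Finset.sum_le_sum fun j _ => ?_
      rw [norm_mul, norm_inv, Complex.norm_natCast]
    · rw [norm_mul, Complex.norm_natCast]
  calc ‖a‖ * (‖f τ‖ * τ.im) = (‖a‖ * ‖f τ‖) * τ.im := by ring
    _ ≤ ((∑ j ∈ Finset.range q, (q : ℝ)⁻¹ * ‖f (ModularForm.heckeMatrix q j • τ)‖) +
        q * ‖f (ModularForm.heckeDiagMatrix q • τ)‖) * τ.im :=
        mul_le_mul_of_nonneg_right h5 τ.im_pos.le
    _ = _ := by
        rw [add_mul, Finset.sum_mul, im_heckeDiagMatrix_smul hq0]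
        congr 1
        · refine Finset.sum_congr rfl fun j _ => ?_
          rw [im_heckeMatrix_smul hq0]
          ring
        · ring

theorem im_S_heckeMatrix {q : ℕ} (hq : q ≠ 0) (j : ℕ) (τ : ℍ) :
    (ModularGroup.S • (ModularForm.heckeMatrix q j • τ)).im =
      q * (τ.im / Complex.normSq ((τ : ℂ) + j)) := by
  have hqR : (q : ℝ) ≠ 0 := by exact_mod_cast hq
  have h1 : (ModularGroup.S • (ModularForm.heckeMatrix q j • τ)).im =
      (ModularForm.heckeMatrix q j • τ).im /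
        Complex.normSq ((ModularForm.heckeMatrix q j • τ : ℍ) : ℂ) := by
    rw [ModularGroup.im_smul_eq_div_normSq, ModularGroup.denom_S]
  rw [h1, im_heckeMatrix_smul hq, ModularForm.coe_heckeMatrix_smul hq j τ, Complex.normSq_div,
    Complex.normSq_natCast]
  have h2 : Complex.normSq ((τ : ℂ) + j) ≠ 0 := by
    rw [Ne, Complex.normSq_eq_zero]
    intro h0
    have := congrArg Complex.im h0
    simp at this
    exact τ.im_pos.ne' this
  field_simp

/-- **The bound for one form.** -/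
theorem exists_bound {f : CuspForm (Gamma0 N) 2} (hf : f ≠ 0) :
    ∃ q₀ : ℕ, ∀ (q : ℕ) (hq : q.Prime) (hqN : ¬ q ∣ N) (a : ℂ), q₀ ≤ q →
      CuspForm.heckeTLin 2 hq hqN f = a • f → ‖a‖ < q - 1 := by
  obtain ⟨z, hz⟩ := exists_max_norm f
  set C := ‖f z‖ * z.im with hC
  have hC0 : 0 < C := by
    refine lt_of_le_of_ne (mul_nonneg (norm_nonneg _) z.im_pos.le) fun h0 => hf ?_
    refine DFunLike.ext _ _ fun τ => ?_
    have h1 := hz τ
    rw [← h0] at h1
    have h2 : ‖f τ‖ ≤ 0 := by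
      by_contra h
      push Not at h
      exact absurd (mul_pos h τ.im_pos) (not_lt.mpr h1)
    exact norm_le_zero_iff.mp h2
  have hC4 : 0 < C / 4 := by positivity
  -- the bound at infinity and at zero
  obtain ⟨Y, hY⟩ : ∃ Y : ℝ, ∀ τ : ℍ, Y ≤ τ.im → ‖f τ‖ * τ.im < C / 4 := by
    have h1 := (tendsto_norm_mul_im f).eventually (gt_mem_nhds hC4)
    rw [atImInfty, eventually_comap, eventually_atTop] at h1
    obtain ⟨Y, hY⟩ := h1
    exact ⟨Y, fun τ hτ => hY _ hτ τ rfl⟩
  obtain ⟨Y', hY'⟩ : ∃ Y : ℝ, ∀ τ : ℍ, Y ≤ (ModularGroup.S • τ).im →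
      ‖f τ‖ * τ.im < C / 4 := by
    have h1 := (tendsto_smul f (ModularGroup.S⁻¹)).eventually (gt_mem_nhds hC4)
    rw [atImInfty, eventually_comap, eventually_atTop] at h1
    obtain ⟨Y, hY⟩ := h1
    refine ⟨Y, fun τ hτ => ?_⟩
    have h2 := hY _ hτ (ModularGroup.S • τ) rfl
    rwa [inv_smul_smul] at h2
  -- large primes
  have hns : ∀ j : ℕ, 0 < z.im / Complex.normSq ((z : ℂ) + j) := by
    intro j
    refine div_pos z.im_pos (Complex.normSq_pos.mpr fun h0 => ?_)
    have := congrArg Complex.im h0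
    simp at this
    exact z.im_pos.ne' this
  obtain ⟨n₀, hn₀⟩ := exists_nat_gt (Y / z.im)
  have hex : ∀ j : ℕ, ∃ n : ℕ, Y' / (z.im / Complex.normSq ((z : ℂ) + j)) < n := fun j =>
    exists_nat_gt _
  choose n hn using hex
  refine ⟨n₀ + n 0 + n 1 + n 2 + 3, fun q hq hqN a hq₀ ha => ?_⟩
  have hq0 := hq.ne_zero
  have h1 := norm_mul_le_sum hq hqN ha z
  have hdiag : ‖f (ModularForm.heckeDiagMatrix q • z)‖ *
      (ModularForm.heckeDiagMatrix q • z).im < C / 4 := by
    apply hY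
    rw [im_heckeDiagMatrix_smul hq0]
    rw [div_lt_iff₀ z.im_pos] at hn₀
    have : (n₀ : ℝ) ≤ q := by exact_mod_cast (by omega : n₀ ≤ q)
    nlinarith [z.im_pos]
  have hsm : ∀ j : ℕ, n j ≤ q → ‖f (ModularForm.heckeMatrix q j • z)‖ *
      (ModularForm.heckeMatrix q j • z).im < C / 4 := by
    intro j hj
    apply hY'
    rw [im_S_heckeMatrix hq0]
    have h2 := hn j
    rw [div_lt_iff₀ (hns j)] at h2
    have : (n j : ℝ) ≤ q := by exact_mod_cast hj
    nlinarith [hns j]
  have hsub : ({0, 1, 2} : Finset ℕ) ⊆ Finset.range q := by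
    intro j hj
    simp only [Finset.mem_insert, Finset.mem_singleton] at hj
    rw [Finset.mem_range]
    omega
  have hsum : ∑ j ∈ Finset.range q, ‖f (ModularForm.heckeMatrix q j • z)‖ *
        (ModularForm.heckeMatrix q j • z).im ≤ (q - 3) * C + 3 * (C / 4) := by
    rw [← Finset.sum_sdiff hsub]
    refine add_le_add ?_ ?_
    · refine (Finset.sum_le_sum fun j _ => hz _).trans ?_
      rw [Finset.sum_const, Finset.card_sdiff_of_subset hsub, Finset.card_range, nsmul_eq_mul]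
      have h3 : (({0, 1, 2} : Finset ℕ)).card = 3 := rfl
      rw [h3, Nat.cast_sub (by omega)]
      norm_num
    · refine (Finset.sum_le_sum (g := fun _ => C / 4) fun j hj => ?_).trans ?_
      · simp only [Finset.mem_insert, Finset.mem_singleton] at hj
        rcases hj with rfl | rfl | rfl
        · exact (hsm 0 (by omega)).le
        · exact (hsm 1 (by omega)).le
        · exact (hsm 2 (by omega)).le
      · rw [Finset.sum_const, nsmul_eq_mul]
        have h3 : (({0, 1, 2} : Finset ℕ)).card = 3 := rfl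
        rw [h3]
        norm_num
  have h4 : ‖a‖ * C < (q - 1) * C := by
    calc ‖a‖ * C ≤ _ := h1
      _ ≤ ((q - 3) * C + 3 * (C / 4)) + C / 4 := add_le_add hsum hdiag.le
      _ < (q - 1) * C := by nlinarith
  exact lt_of_mul_lt_mul_right h4 hC0.le

/-- the characters of the Hecke algebra are finite in number. -/
theorem finite_char (N : ℕ) [NeZero N] : Finite (CuspForm.heckeAlgebra N 2 ∅ →+* ℂ) := by
  have hfin := S22.result N 2 ∅
  obtain ⟨s, hs⟩ := hfin.fg_top
  have hint : ∀ x : CuspForm.heckeAlgebra N 2 ∅, IsIntegral ℤ x := fun x =>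
    Algebra.IsIntegral.isIntegral x
  let Φ : (CuspForm.heckeAlgebra N 2 ∅ →+* ℂ) → ((x : s) →
      {z : ℂ // z ∈ ((minpoly ℤ (x : CuspForm.heckeAlgebra N 2 ∅)).map
        (Int.castRingHom ℂ)).roots.toFinset}) := fun χ x => ⟨χ x.1, by
    rw [Multiset.mem_toFinset, Polynomial.mem_roots (by
      exact (((minpoly.monic (hint x.1)).map _).ne_zero)), Polynomial.IsRoot.def,
      Polynomial.eval_map]
    have h1 := minpoly.aeval ℤ (x : CuspForm.heckeAlgebra N 2 ∅)
    have h2 := congrArg χ h1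
    rw [map_zero, Polynomial.aeval_def, Polynomial.hom_eval₂] at h2
    have h3 : (χ.comp (algebraMap ℤ _)) = Int.castRingHom ℂ := RingHom.ext_int _ _
    rwa [h3] at h2⟩
  refine Finite.of_injective Φ fun χ χ' h => ?_
  have h1 : ∀ x ∈ (s : Set (CuspForm.heckeAlgebra N 2 ∅)), χ x = χ' x := fun x hx =>
    congrArg Subtype.val (congrFun h ⟨x, hx⟩)
  have h2 : χ.toIntAlgHom.toLinearMap = χ'.toIntAlgHom.toLinearMap :=
    LinearMap.ext_on hs (fun x hx => h1 x hx)
  exact RingHom.ext fun x => LinearMap.congr_fun h2 x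

/-- **The uniform bound.** -/
theorem exists_uniform (N : ℕ) [NeZero N] : ∃ q₀ : ℕ, ∀ (q : ℕ) (hq : q.Prime) (hqN : ¬ q ∣ N),
    q₀ ≤ q → ∀ χ : CuspForm.heckeAlgebra N 2 ∅ →+* ℂ,
      ‖χ (CuspForm.heckeAlgebra.T hq hqN (Set.notMem_empty q))‖ < q - 1 := by
  have hfin := finite_char N
  have h1 : ∀ χ : CuspForm.heckeAlgebra N 2 ∅ →+* ℂ, ∃ q₀ : ℕ, ∀ (q : ℕ) (hq : q.Prime)
      (hqN : ¬ q ∣ N), q₀ ≤ q →
        ‖χ (CuspForm.heckeAlgebra.T hq hqN (Set.notMem_empty q))‖ < q - 1 := by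
    intro χ
    obtain ⟨f, hf, hχ⟩ := H05.exists_form_of_char ∅ χ
    obtain ⟨q₀, hq₀⟩ := exists_bound hf
    exact ⟨q₀, fun q hq hqN hle => hq₀ q hq hqN _ hle
      (hχ (CuspForm.heckeAlgebra.T hq hqN (Set.notMem_empty q)))⟩
  choose n hn using h1
  obtain ⟨B, hB⟩ := (Set.finite_range n).bddAbove
  exact ⟨B, fun q hq hqN hle χ => hn χ q hq hqN ((hB ⟨χ, rfl⟩).trans hle)⟩

end Fermat.Agent.Cor.MD
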