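import Fermat.Agent.Cor.H17MD4

/-!
# The Manin–Drinfeld theorem: the integral polynomial

This file is not used by any of the statement files.
-/

set_option autoImplicit false
set_option linter.style.haveILetI false

noncomputable section

open Polynomial TensorProduct

namespace Fermat.Agent.Cor.MD

section Alg

variable (R : Type*) [CommRing R] [Module.Finite ℤ R] [Module.Free ℤ R]

/-- the characteristic polynomial of the multiplication by `x` -/
def cp (x : R) : ℤ[X] := LinearMap.charpoly (Algebra.lmul ℤ R x : Module.End ℤ R)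

variable {R}

theorem cp_monic (x : R) : (cp R x).Monic := LinearMap.charpoly_monic _

theorem aeval_cp (x : R) : aeval x (cp R x) = 0 := by
  have h1 : aeval (Algebra.lmul ℤ R x) (cp R x) = 0 := LinearMap.aeval_self_charpoly _
  rw [Polynomial.aeval_algHom_apply] at h1
  have h2 := congrArg (fun f : Module.End ℤ R => f 1) h1
  simpa using h2

omit [Module.Finite ℤ R] [Module.Free ℤ R] in
theorem baseChange_lmul (x : R) (b : ℂ ⊗[ℤ] R) :
    ((Algebra.lmul ℤ R x : Module.End ℤ R).baseChange ℂ) b =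
      ((1 : ℂ) ⊗ₜ[ℤ] x : ℂ ⊗[ℤ] R) * b := by
  induction b using TensorProduct.induction_on with
  | zero => rw [map_zero, mul_zero]
  | tmul c y =>
    rw [LinearMap.baseChange_tmul, Algebra.TensorProduct.tmul_mul_tmul, one_mul]
    rfl
  | add c d hc hd =>
    rw [map_add, mul_add, hc, hd]

theorem exists_char_of_annihilator {B : Type*} [CommRing B] [Algebra ℂ B] [Module.Finite ℂ B]
    (z b : B) (hb : b ≠ 0) (hz : z * b = 0) : ∃ χ : B →ₐ[ℂ] ℂ, χ z = 0 := by
  have hnu : z ∈ nonunits B := by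
    intro hu
    exact hb (by
      have := hu.mul_left_cancel (a := z) (b := b) (c := 0) (by rw [hz, mul_zero])
      exact this)
  obtain ⟨M, hM, hzM⟩ := exists_max_ideal_of_mem_nonunits hnu
  letI : Field (B ⧸ M) := Ideal.Quotient.field M
  haveI : Module.Finite ℂ (B ⧸ M) :=
    Module.Finite.of_surjective (Ideal.Quotient.mkₐ ℂ M).toLinearMap
      (Ideal.Quotient.mkₐ_surjective ℂ M)
  haveI : Algebra.IsIntegral ℂ (B ⧸ M) := Algebra.IsIntegral.of_finite ℂ (B ⧸ M)
  have hbij : Function.Bijective (algebraMap ℂ (B ⧸ M)) :=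
    IsAlgClosed.algebraMap_bijective_of_isIntegral
  let e : ℂ ≃ₐ[ℂ] (B ⧸ M) := AlgEquiv.ofBijective (Algebra.ofId ℂ (B ⧸ M)) hbij
  refine ⟨e.symm.toAlgHom.comp (Ideal.Quotient.mkₐ ℂ M), ?_⟩
  have h0 : Ideal.Quotient.mkₐ ℂ M z = 0 := by
    rw [Ideal.Quotient.mkₐ_eq_mk]
    exact Ideal.Quotient.eq_zero_iff_mem.mpr hzM
  rw [AlgHom.comp_apply, h0, map_zero]

/-- every complex root of the characteristic polynomial is a value of a character -/
theorem exists_char_of_root (x : R) {α : ℂ} (hα : α ∈ ((cp R x).map (Int.castRingHom ℂ)).roots) :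
    ∃ χ : R →+* ℂ, χ x = α := by
  haveI : Module.Finite ℂ (ℂ ⊗[ℤ] R) := Module.Finite.base_change ℤ ℂ R
  set L : Module.End ℂ (ℂ ⊗[ℤ] R) := (Algebra.lmul ℤ R x : Module.End ℤ R).baseChange ℂ with hL
  have h1 : L.charpoly = (cp R x).map (Int.castRingHom ℂ) := by
    rw [hL, LinearMap.charpoly_baseChange]
    rfl
  have hroot : L.charpoly.IsRoot α := by
    rw [h1]
    exact (Polynomial.mem_roots ((cp_monic x).map _).ne_zero).mp hα
  have heig : L.HasEigenvalue α := by
    rw [Module.End.hasEigenvalue_iff_isRoot_charpoly]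
    exact hroot
  obtain ⟨b, hb⟩ := heig.exists_hasEigenvector
  have hb0 : b ≠ 0 := hb.2
  have hmul : L b = ((1 : ℂ) ⊗ₜ[ℤ] x : ℂ ⊗[ℤ] R) * b := baseChange_lmul x b
  have h2 : L b = α • b := hb.apply_eq_smul
  have h3 : (((1 : ℂ) ⊗ₜ[ℤ] x : ℂ ⊗[ℤ] R) - algebraMap ℂ (ℂ ⊗[ℤ] R) α) * b = 0 := by
    have h5 : α • b = algebraMap ℂ (ℂ ⊗[ℤ] R) α * b := Algebra.smul_def α b
    rw [sub_mul, ← hmul, h2, h5, sub_self]
  obtain ⟨χ, hχ⟩ := exists_char_of_annihilator _ b hb0 h3
  refine ⟨χ.toRingHom.comp (Algebra.TensorProduct.includeRight : R →ₐ[ℤ] ℂ ⊗[ℤ] R).toRingHom, ?_⟩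
  rw [map_sub, AlgHom.commutes] at hχ
  have h4 : χ ((1 : ℂ) ⊗ₜ[ℤ] x) = α := by
    have := sub_eq_zero.mp hχ
    simpa using this
  exact h4

end Alg

end Fermat.Agent.Cor.MD
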