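import Fermat.Agent.Cor.H17MD5
import Fermat.Agent.Cor.H17MD3
import Fermat.Agent.Cor.H17MD2
import Fermat.Agent.M5.HeckeCusp
import Fermat.Agent.H12.HeckeStab2

/-!
# The Manin–Drinfeld theorem: the Hecke correspondences on the cusps of `X_0(N)`

This file is not used by any of the statement files.
-/

set_option autoImplicit false
set_option linter.style.haveILetI false
set_option maxSynthPendingDepth 3
set_option synthInstance.maxHeartbeats 400000

noncomputable section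

open AlgebraicCurve ModularCurve Polynomial WithZero

namespace Fermat.Agent.Cor.MD

section Val

variable {K F : Type*} [Field K] [Field F] [Algebra K F] [CharZero K]

theorem val_int (v : Place K F) (n : ℤ) (hn : n ≠ 0) : v.adicValuation (n : F) = 1 := by
  have h1 : (n : F) = algebraMap K F (n : K) := (map_intCast _ n).symm
  have hn' : (n : K) ≠ 0 := Int.cast_ne_zero.mpr hn
  have hF : algebraMap K F (n : K) ≠ 0 := (_root_.map_ne_zero _).mpr hn'
  rw [h1, v.adicValuation_eq_exp_neg_ord hF, H18.ord_algebraMap, neg_zero, exp_zero]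

omit [CharZero K] in
theorem one_lt_iff (v : Place K F) (f : F) : 1 < v.adicValuation f ↔ v.ord f < 0 := by
  rw [← not_le, v.adicValuation_le_one_iff]
  push Not
  constructor
  · exact fun h => h.2
  · intro h
    exact ⟨fun h0 => by rw [h0, v.ord_zero] at h; exact lt_irrefl _ h, h⟩

omit [CharZero K] in
theorem ord_of_eq_pow (v : Place K F) {f g : F} {ℓ : ℕ}
    (h : v.adicValuation f = v.adicValuation g ^ ℓ) : v.ord f = ℓ * v.ord g := by
  rw [Place.ord, Place.ord, h, WithZero.log_pow, nsmul_eq_mul, mul_neg]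

theorem pole_iff (ℓ : ℕ) [Fact ℓ.Prime] (v : Place K F) {x y : F}
    (h1 : (Igusa.modPoly ℓ).eval₂ (Igusa.evZ x) y = 0)
    (h2 : (Igusa.modPoly ℓ).eval₂ (Igusa.evZ y) x = 0) : v.ord x < 0 ↔ v.ord y < 0 := by
  rw [← one_lt_iff, ← one_lt_iff, ← not_le, ← not_le, not_iff_not]
  exact ⟨val_le_one_of_rel (val_int v) h1, val_le_one_of_rel (val_int v) h2⟩

theorem dich (ℓ : ℕ) [Fact ℓ.Prime] (v : Place K F) {x y : F}
    (h1 : (Igusa.modPoly ℓ).eval₂ (Igusa.evZ x) y = 0)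
    (h2 : (Igusa.modPoly ℓ).eval₂ (Igusa.evZ y) x = 0) (hx : v.ord x < 0) :
    v.ord x = ℓ * v.ord y ∨ v.ord y = ℓ * v.ord x := by
  have hy : v.ord y < 0 := (pole_iff ℓ v h1 h2).mp hx
  rw [← one_lt_iff] at hx hy
  rcases le_total (v.adicValuation y) (v.adicValuation x) with h | h
  · exact Or.inl (ord_of_eq_pow v (dich_aux (val_int v) h1 hx hy h))
  · exact Or.inr (ord_of_eq_pow v (dich_aux (val_int v) h2 hy hx h))

end Val

section Intertwine

theorem intertwine {V W : Type*} [AddCommGroup V] [AddCommGroup W] (A : Module.End ℤ V)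
    (B : Module.End ℤ W) (f : V →ₗ[ℤ] W) (h : ∀ v, f (A v) = B (f v)) (P : ℤ[X]) (v : V) :
    f (aeval A P v) = aeval B P (f v) := by
  induction P using Polynomial.induction_on generalizing v with
  | C c =>
    rw [aeval_C, aeval_C, Module.algebraMap_end_apply, Module.algebraMap_end_apply, map_zsmul]
  | add p q hp hq =>
    rw [map_add, map_add, LinearMap.add_apply, LinearMap.add_apply, map_add, hp, hq]
  | monomial n c ih =>
    have e1 : (C c * X ^ (n + 1) : ℤ[X]) = (C c * X ^ n) * X := by ring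
    have e2 : aeval A (C c * X ^ (n + 1) : ℤ[X]) v = aeval A (C c * X ^ n : ℤ[X]) (A v) := by
      rw [e1, map_mul (aeval A) (C c * X ^ n) X, aeval_X, Module.End.mul_apply]
    have e3 : aeval B (C c * X ^ (n + 1) : ℤ[X]) (f v) =
        aeval B (C c * X ^ n : ℤ[X]) (B (f v)) := by
      rw [e1, map_mul (aeval B) (C c * X ^ n) X, aeval_X, Module.End.mul_apply]
    rw [e2, e3, ih, h]

end Intertwine

section Modular

local notation "Qb" => AlgebraicClosure ℚ

variable (N ℓ : ℕ) [NeZero N] [hℓ : Fact ℓ.Prime]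

theorem rel_alpha_beta : (Igusa.modPoly ℓ).eval₂
    (Igusa.evZ (heckeAlphaBar Qb N ℓ (H05.jB Qb N))) (heckeBetaBar Qb N ℓ (H05.jB Qb N)) = 0 := by
  haveI : NeZero (1 * ℓ) := ⟨by rw [one_mul]; exact hℓ.out.ne_zero⟩
  have h1 := Igusa.modPoly_eval ℓ Qb 1
  rw [Igusa.jd_one, Igusa.jd_congr Qb (one_mul ℓ)] at h1
  apply (laurentBaseChange Qb (modularFunctionFieldFull (N * ℓ))).val.toRingHom.injective
  rw [map_zero, Igusa.eval₂_evZ_map]
  exact h1

theorem rel_beta_alpha : (Igusa.modPoly ℓ).eval₂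
    (Igusa.evZ (heckeBetaBar Qb N ℓ (H05.jB Qb N))) (heckeAlphaBar Qb N ℓ (H05.jB Qb N)) = 0 := by
  haveI : NeZero (1 * ℓ) := ⟨by rw [one_mul]; exact hℓ.out.ne_zero⟩
  have h1 := Igusa.modPoly_eval' ℓ Qb 1
  rw [Igusa.jd_one, Igusa.jd_congr Qb (one_mul ℓ)] at h1
  apply (laurentBaseChange Qb (modularFunctionFieldFull (N * ℓ))).val.toRingHom.injective
  rw [map_zero, Igusa.eval₂_evZ_map]
  exact h1

/-- the Hecke correspondence `T_ℓ` -/
theorem corr (hN : ¬ ℓ ∣ N) (hs : ∀ v : Place Qb (laurentBaseChange Qb (modularFunctionFieldFull N)),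
    v.ord (H05.jB Qb N) < 0 → -(ℓ : ℤ) < v.ord (H05.jB Qb N)) :
    Corr ℓ (heckeBetaBar Qb N ℓ) (heckeAlphaBar Qb N ℓ) (H05.jB Qb N) where
  prime := hℓ.out
  hφ := H05.heckeBetaBarIntegral Qb N ℓ
  hψ := H05.heckeAlphaBarIntegral Qb N ℓ
  fiφ := H05.fundamentalIdentityAlong_of _ _ (H05.finiteAlong_beta Qb N ℓ)
  fiψ := H05.fundamentalIdentityAlong_of _ _ (H05.finiteAlong_alpha Qb N ℓ)
  degφ := M5.finrankAlong_beta Qb N ℓ hN
  degψ := M5.finrankAlong_alpha Qb N ℓ hN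
  hd := H05.deg_eq_one_bc Qb N
  hd' := H05.deg_eq_one_bc Qb (N * ℓ)
  small := hs
  pole w := pole_iff ℓ w (rel_beta_alpha N ℓ) (rel_alpha_beta N ℓ)
  dich w hw := dich ℓ w (rel_beta_alpha N ℓ) (rel_alpha_beta N ℓ) hw

/-- the correspondence on divisors of degree zero -/
def Tz (h : Corr ℓ (heckeBetaBar Qb N ℓ) (heckeAlphaBar Qb N ℓ) (H05.jB Qb N)) :
    Module.End ℤ (Divisor.degZero (K := Qb) (F := modularFunctionFieldBar N)) :=
  (Pic0.degZeroCorrespondence (heckeBetaBar Qb N ℓ) (heckeAlphaBar Qb N ℓ)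
    h.hφ h.hψ h.fiφ).toIntLinearMap

theorem mk_Tz (h : Corr ℓ (heckeBetaBar Qb N ℓ) (heckeAlphaBar Qb N ℓ) (H05.jB Qb N))
    (E : Divisor.degZero (K := Qb) (F := modularFunctionFieldBar N)) :
    (Pic0.mk (Tz N ℓ h E) : JZero N) = heckeOperatorBar N ⟨ℓ, hℓ.out⟩ (Pic0.mk E) := by
  change _ = heckeOperatorAlong Qb N ℓ (Pic0.mk E)
  rw [heckeOperatorAlong_eq (H05.heckeAlphaBarIntegral Qb N ℓ) (H05.heckeBetaBarIntegral Qb N ℓ)
    (H05.fundamentalIdentityAlong_of _ _ (H05.finiteAlong_beta Qb N ℓ))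
    (H05.finiteAlong_alpha Qb N ℓ) (H05.normFormulaAlong_of _ _)]
  rfl

theorem coe_Tz (h : Corr ℓ (heckeBetaBar Qb N ℓ) (heckeAlphaBar Qb N ℓ) (H05.jB Qb N))
    (E : Divisor.degZero (K := Qb) (F := modularFunctionFieldBar N)) :
    ((Tz N ℓ h E : Divisor.degZero (K := Qb) (F := modularFunctionFieldBar N)) :
      Divisor Qb (modularFunctionFieldBar N)) = T h (E : Divisor Qb _) := rfl

end Modular

end Fermat.Agent.Cor.MD
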