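import Fermat.Agent.Cor.H17MD6

/-!
# The Manin–Drinfeld theorem: a Hecke relation for cuspidal divisors

For a divisor `D` of degree zero on `X_0(N)` supported on cusps (poles of `j`) there are a prime
`ℓ ∤ N`, an integral polynomial `P` with `P(T_ℓ) = 0` on `S_2(Γ_0(N))`, a class `x` and `δ ≠ 0` with
`P(T_ℓ) x = δ [D]` in `J_0(N)`.

This file is not used by any of the statement files.
-/

set_option autoImplicit false
set_option linter.style.haveILetI false
set_option maxSynthPendingDepth 3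
set_option synthInstance.maxHeartbeats 400000

noncomputable section

open AlgebraicCurve ModularCurve Polynomial WithZero

namespace Fermat.Agent.Cor.MD

local notation "Qb" => AlgebraicClosure ℚ

/-- the class map -/
def mkL (N : ℕ) [NeZero N] :
    Divisor.degZero (K := Qb) (F := modularFunctionFieldBar N) →ₗ[ℤ] JZero N :=
  AddMonoidHom.toIntLinearMap
    { toFun := Pic0.mk
      map_zero' := Pic0.mk_zero
      map_add' := Pic0.mk_add }

theorem mkL_apply (N : ℕ) [NeZero N]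
    (E : Divisor.degZero (K := Qb) (F := modularFunctionFieldBar N)) :
    mkL N E = Pic0.mk E := rfl

/-- **The Hecke relation for cuspidal divisors.** -/
theorem exists_hecke (N : ℕ) [NeZero N]
    (D : Divisor.degZero (K := Qb) (F := modularFunctionFieldBar N))
    (hD : ∀ v, (D : Divisor Qb (modularFunctionFieldBar N)) v ≠ 0 → v.ord (H05.jB Qb N) < 0) :
    ∃ (ℓ : Nat.Primes) (P : ℤ[X]) (δ : ℤ) (x : JZero N), δ ≠ 0 ∧
      aeval (CuspForm.heckeFormsGen N 2 ℓ) P = 0 ∧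
      aeval (heckeOperatorBar N ℓ) P x = δ • (Pic0.mk D : JZero N) := by
  classical
  obtain ⟨q₀, hq₀⟩ := exists_uniform N
  haveI := finite_poles (K := Qb) (H05.jB Qb N)
  obtain ⟨B, hB⟩ := (Set.finite_range (fun v : Poles Qb (H05.jB Qb N) =>
    (-(v.1.ord (H05.jB Qb N))).toNat)).bddAbove
  obtain ⟨ℓ, hℓ, hp⟩ := Nat.exists_infinite_primes (q₀ + B + N + 1)
  haveI : Fact ℓ.Prime := ⟨hp⟩
  have hN : ¬ ℓ ∣ N := fun h => by
    have := Nat.le_of_dvd (NeZero.pos N) h
    omega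
  have hs : ∀ v : Place Qb (laurentBaseChange Qb (modularFunctionFieldFull N)),
      v.ord (H05.jB Qb N) < 0 → -(ℓ : ℤ) < v.ord (H05.jB Qb N) := by
    intro v hv
    have h1 : (-(v.ord (H05.jB Qb N))).toNat ≤ B := hB ⟨⟨v, hv⟩, rfl⟩
    omega
  have h := corr N ℓ hN hs
  haveI : Module.Finite ℤ (CuspForm.heckeAlgebra N 2 ∅) := S22.result N 2 ∅
  haveI : Module.Free ℤ (CuspForm.heckeAlgebra N 2 ∅) := inferInstance
  have hr : ∀ α ∈ ((cp (CuspForm.heckeAlgebra N 2 ∅)
      (CuspForm.heckeAlgebra.T hp hN (Set.notMem_empty ℓ))).map (Int.castRingHom ℂ)).roots,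
      ‖α‖ < ℓ - 1 := by
    intro α hα
    obtain ⟨χ, rfl⟩ := exists_char_of_root _ hα
    exact hq₀ ℓ hp hN (by omega) χ
  obtain ⟨δ, E, hδ, hE, hEq⟩ := exists_divisor h (cp_monic _).ne_zero hr hD D.2
  let E' : Divisor.degZero (K := Qb) (F := modularFunctionFieldBar N) := ⟨E, hE⟩
  refine ⟨⟨ℓ, hp⟩, cp (CuspForm.heckeAlgebra N 2 ∅)
      (CuspForm.heckeAlgebra.T hp hN (Set.notMem_empty ℓ)), δ, mkL N E', hδ, ?_, ?_⟩
  · rw [CuspForm.heckeFormsGen_of_not_dvd (ℓ := ⟨ℓ, hp⟩) hN]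
    exact aeval_cp _
  · have h1 := intertwine (Tz N ℓ h) (heckeOperatorBar N ⟨ℓ, hp⟩) (mkL N)
      (fun E => mk_Tz N ℓ h E) (cp (CuspForm.heckeAlgebra N 2 ∅)
      (CuspForm.heckeAlgebra.T hp hN (Set.notMem_empty ℓ))) E'
    have h2 := intertwine (Tz N ℓ h) (T h)
      (Divisor.degZero (K := Qb) (F := modularFunctionFieldBar N)).subtype.toIntLinearMap
      (fun E => coe_Tz N ℓ h E) (cp (CuspForm.heckeAlgebra N 2 ∅)
      (CuspForm.heckeAlgebra.T hp hN (Set.notMem_empty ℓ))) E'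
    have h3 : aeval (Tz N ℓ h) (cp (CuspForm.heckeAlgebra N 2 ∅)
      (CuspForm.heckeAlgebra.T hp hN (Set.notMem_empty ℓ))) E' = δ • D := by
      apply Subtype.ext
      exact h2.trans hEq
    rw [h3, map_zsmul] at h1
    exact h1.symm

end Fermat.Agent.Cor.MD
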