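import Fermat.Agent.Cor.H17MD7
import Fermat.Agent.Cor.H13Hecke

/-!
# The theorem of Manin and Drinfeld for all cusps of `X_0(N)`

Every divisor of degree zero on `X_0(N)` supported on the cusps has finite order in `J_0(N)`, for
every level `N` and all cusps. The cusps are the poles of `j`.

The proof is the one of Drinfeld: for a large prime `ℓ ∤ N` the Hecke correspondence `T_ℓ` acts on
cuspidal divisors as `D ↦ ℓ σ_* D + τ_* D` for two permutations of the cusps, whose eigenvalues have
absolute value at least `ℓ - 1`, whereas the eigenvalues of `T_ℓ` on `S_2(Γ_0(N))` are smaller than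
`ℓ - 1`.

This file is not used by any of the statement files.
-/

set_option autoImplicit false
set_option linter.style.haveILetI false

noncomputable section

open AlgebraicCurve ModularCurve Polynomial

namespace Fermat.Agent.Cor.MD

local notation "Qb" => AlgebraicClosure ℚ

/-- relations for the Hecke operators on cusp forms hold in `J_0(N)`. -/
theorem aeval_heckeOperatorBar {N : ℕ} [NeZero N] {ℓ : Nat.Primes} {P : ℤ[X]}
    (hP : aeval (CuspForm.heckeFormsGen N 2 ℓ) P = 0) : aeval (heckeOperatorBar N ℓ) P = 0 := by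
  have h1 := Polynomial.aeval_algHom_apply (H13.actJ N).toIntAlgHom
    (CuspForm.heckeFormsGen N 2 ℓ) P
  rw [hP, map_zero] at h1
  have h2 : (H13.actJ N).toIntAlgHom (CuspForm.heckeFormsGen N 2 ℓ) = heckeOperatorBar N ℓ :=
    H13.actJ_gen N ℓ
  rw [h2] at h1
  exact h1

/-- **The theorem of Manin and Drinfeld**: a divisor of degree zero on `X_0(N)` supported on the
cusps has finite order in `J_0(N)`. -/
theorem manin_drinfeld (N : ℕ) [NeZero N]
    (D : Divisor.degZero (K := Qb) (F := modularFunctionFieldBar N))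
    (hD : ∀ v, (D : Divisor Qb (modularFunctionFieldBar N)) v ≠ 0 → v.ord (H05.jB Qb N) < 0) :
    ∃ m : ℕ, 0 < m ∧ m • (Pic0.mk D : JZero N) = 0 := by
  obtain ⟨ℓ, P, δ, x, hδ, hP, hx⟩ := exists_hecke N D hD
  rw [aeval_heckeOperatorBar hP, LinearMap.zero_apply] at hx
  refine ⟨δ.natAbs, Int.natAbs_pos.mpr hδ, ?_⟩
  rw [← natCast_zsmul]
  rcases Int.natAbs_eq δ with h | h
  · rw [← h]
    exact hx.symm
  · have h6 : ((δ.natAbs : ℕ) : ℤ) = -δ := by omega
    rw [h6, neg_smul, ← hx, neg_zero]

end Fermat.Agent.Cor.MD
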