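import Fermat.Agent.Cor.H17MD8

/-!
# The cuspidal subgroup of `J_0(N)` and modular units

* the cuspidal subgroup of `J_0(N)` is finite, for every `N`;
* there is `m > 0` such that `m D` is the divisor of a modular unit for every cuspidal divisor `D` of
  degree zero; in particular every two cusps are connected by a modular unit.

This file is not used by any of the statement files.
-/

set_option autoImplicit false
set_option linter.style.haveILetI false

noncomputable section

open AlgebraicCurve ModularCurve Polynomial

namespace Fermat.Agent.Cor.MD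

local notation "Qb" => AlgebraicClosure ℚ

variable (N : ℕ) [NeZero N]

/-- the cusps of `X_0(N)`: the poles of `j` -/
abbrev Cusp : Type := Poles Qb (H05.jB Qb N)

instance finite_cusp : Finite (Cusp N) := finite_poles _

/-- the cuspidal divisors of degree zero -/
def cuspDiv : AddSubgroup (Divisor.degZero (K := Qb) (F := modularFunctionFieldBar N)) where
  carrier := {D | ∀ v, (D : Divisor Qb (modularFunctionFieldBar N)) v ≠ 0 →
    v.ord (H05.jB Qb N) < 0}
  zero_mem' := fun v hv => absurd rfl hv
  add_mem' := by
    intro D E hD hE v hv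
    by_cases h : (D : Divisor Qb (modularFunctionFieldBar N)) v = 0
    · refine hE v fun h' => hv ?_
      change (D : Divisor Qb (modularFunctionFieldBar N)) v +
        (E : Divisor Qb (modularFunctionFieldBar N)) v = 0
      rw [h, h', add_zero]
    · exact hD v h
  neg_mem' := by
    intro D hD v hv
    refine hD v fun h => hv ?_
    change -((D : Divisor Qb (modularFunctionFieldBar N)) v) = 0
    rw [h, neg_zero]

theorem mem_cuspDiv {D : Divisor.degZero (K := Qb) (F := modularFunctionFieldBar N)} :
    D ∈ cuspDiv N ↔ ∀ v, (D : Divisor Qb (modularFunctionFieldBar N)) v ≠ 0 →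
      v.ord (H05.jB Qb N) < 0 := Iff.rfl

/-- the multiplicities at the cusps -/
def resC : cuspDiv N →ₗ[ℤ] (Cusp N → ℤ) where
  toFun D v := ((D : Divisor.degZero (K := Qb) (F := modularFunctionFieldBar N)) :
    Divisor Qb (modularFunctionFieldBar N)) v.1
  map_add' _ _ := rfl
  map_smul' n D := by
    ext v
    change ((n • (D : Divisor.degZero (K := Qb) (F := modularFunctionFieldBar N)) :
      Divisor.degZero (K := Qb) (F := modularFunctionFieldBar N)) :
      Divisor Qb (modularFunctionFieldBar N)) v.1 = n • _
    rfl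

theorem resC_injective : Function.Injective (resC N) := by
  intro D E h
  apply Subtype.ext
  apply Subtype.ext
  ext v
  by_cases hv : v.ord (H05.jB Qb N) < 0
  · exact congrFun h ⟨v, hv⟩
  · have h1 : ((D : Divisor.degZero (K := Qb) (F := modularFunctionFieldBar N)) :
        Divisor Qb (modularFunctionFieldBar N)) v = 0 := by
      by_contra h0
      exact hv (D.2 v h0)
    have h2 : ((E : Divisor.degZero (K := Qb) (F := modularFunctionFieldBar N)) :
        Divisor Qb (modularFunctionFieldBar N)) v = 0 := by
      by_contra h0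
      exact hv (E.2 v h0)
    rw [h1, h2]

instance : Module.Finite ℤ (cuspDiv N) :=
  Module.Finite.of_injective (resC N) (resC_injective N)

instance : Module.Free ℤ (cuspDiv N) := by
  haveI : IsAddTorsionFree (cuspDiv N) :=
    Function.Injective.isAddTorsionFree (resC N).toAddMonoidHom (resC_injective N)
  infer_instance

/-- the cuspidal subgroup of `J_0(N)` -/
def cuspGroup : AddSubgroup (JZero N) := (cuspDiv N).map (mkL N).toAddMonoidHom

theorem mem_cuspGroup {x : JZero N} : x ∈ cuspGroup N ↔
    ∃ D : Divisor.degZero (K := Qb) (F := modularFunctionFieldBar N),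
      (∀ v, (D : Divisor Qb (modularFunctionFieldBar N)) v ≠ 0 → v.ord (H05.jB Qb N) < 0) ∧
        Pic0.mk D = x := Iff.rfl

/-- **The cuspidal subgroup of `J_0(N)` is finite**, for every `N`. -/
theorem finite_cuspGroup : Finite (cuspGroup N) := by
  haveI : AddGroup.FG (cuspDiv N) := Module.Finite.iff_addGroup_fg.mp inferInstance
  haveI : AddGroup.FG (cuspGroup N) := by
    refine AddGroup.fg_of_surjective
      (f := ((mkL N).toAddMonoidHom.addSubgroupMap (cuspDiv N))) ?_
    exact (mkL N).toAddMonoidHom.addSubgroupMap_surjective (cuspDiv N)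
  refine AddCommGroup.finite_of_fg_isAddTorsion _ ?_
  rintro ⟨_, D, hD, rfl⟩
  obtain ⟨m, hm, h⟩ := manin_drinfeld N D hD
  rw [isOfFinAddOrder_iff_nsmul_eq_zero]
  exact ⟨m, hm, Subtype.ext h⟩

/-- **Modular units**: there is one `m > 0` such that for every cuspidal divisor `D` of degree zero
the divisor `m D` is the divisor of a function. -/
theorem exists_modular_units : ∃ m : ℕ, 0 < m ∧ ∀ D : Divisor Qb (modularFunctionFieldBar N),
    Divisor.degree D = 0 → (∀ v, D v ≠ 0 → v.ord (H05.jB Qb N) < 0) →
      ∃ f : modularFunctionFieldBar N, f ≠ 0 ∧ ∀ v : Place Qb (modularFunctionFieldBar N),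
        v.ord f = m * D v := by
  haveI := finite_cuspGroup N
  refine ⟨Nat.card (cuspGroup N), Nat.card_pos, fun D hD0 hD => ?_⟩
  let D' : Divisor.degZero (K := Qb) (F := modularFunctionFieldBar N) := ⟨D, hD0⟩
  have hmem : mkL N D' ∈ cuspGroup N := ⟨D', hD, rfl⟩
  have h1 : Nat.card (cuspGroup N) • (⟨mkL N D', hmem⟩ : cuspGroup N) = 0 :=
    card_nsmul_eq_zero'
  have h2 : Nat.card (cuspGroup N) • (mkL N D') = 0 := congrArg Subtype.val h1
  rw [← map_nsmul] at h2
  have h3 : Nat.card (cuspGroup N) • D' ∈ (Divisor.principal (K := Qb)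
      (F := modularFunctionFieldBar N)).addSubgroupOf
        (Divisor.degZero (K := Qb) (F := modularFunctionFieldBar N)) :=
    (QuotientAddGroup.eq_zero_iff _).mp h2
  obtain ⟨f, hf, h4⟩ := AddSubgroup.mem_addSubgroupOf.mp h3
  refine ⟨f, hf, fun v => ?_⟩
  rw [← h4 v]
  change Nat.card (cuspGroup N) • D v = _
  rw [nsmul_eq_mul]

/-- two cusps are connected by a modular unit -/
theorem exists_modular_unit {v w : Place Qb (modularFunctionFieldBar N)}
    (hv : v.ord (H05.jB Qb N) < 0) (hw : w.ord (H05.jB Qb N) < 0) :
    ∃ (m : ℕ) (f : modularFunctionFieldBar N), 0 < m ∧ f ≠ 0 ∧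
      ∀ u : Place Qb (modularFunctionFieldBar N),
        u.ord f = m * (Finsupp.single v 1 - Finsupp.single w 1 : Divisor Qb _) u := by
  classical
  obtain ⟨m, hm, h⟩ := exists_modular_units N
  obtain ⟨f, hf, h1⟩ := h (Finsupp.single v 1 - Finsupp.single w 1)
    (M5.mem_degZero_single_sub Qb v w) (by
      intro u hu
      by_contra hcon
      apply hu
      have e1 : u ≠ v := by rintro rfl; exact hcon hv
      have e2 : u ≠ w := by rintro rfl; exact hcon hw
      change (Finsupp.single v (1 : ℤ) u) - Finsupp.single w 1 u = 0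
      rw [Finsupp.single_eq_of_ne e1, Finsupp.single_eq_of_ne e2, sub_zero])
  exact ⟨m, f, hm, hf, h1⟩

end Fermat.Agent.Cor.MD
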