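import Fermat.Agent.Cor.H18MO3

/-!
# Curves of prime conductor with an isogeny of degree 3 or 5: discriminants and invariants `c₄`

This file is not used by any of the statement files.
-/

set_option autoImplicit false

namespace Fermat.Agent.Cor.H18Cl

open Fermat.Agent.Cor.H18MO

lemma cube_inj {u v : ℤ} (h : u ^ 3 = v ^ 3) : u = v :=
  (Odd.strictMono_pow (by decide : Odd 3)).injective h

lemma sq_of_mul_sq2 {σ x G w : ℤ} (hσ : σ = 1 ∨ σ = -1) (hx : x ≠ 0) (hG : 0 < G)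
    (h : σ * (x ^ 2 * G) = w ^ 2) : σ = 1 ∧ ∃ w', G = w' ^ 2 := by
  have hx2 : 0 < x ^ 2 * G := mul_pos (by positivity) hG
  rcases hσ with rfl | rfl
  · exact ⟨rfl, sq_of_mul_sq hx (by linarith)⟩
  · exfalso
    nlinarith [sq_nonneg w]

/-- `X₀(5)` and prime conductors: the discriminants and the invariants `c₄` -/
theorem core5' {N m : ℕ} (hN : N.Prime) (hN7 : 7 ≤ N) (hm : m ≠ 0) {c Δ a b w : ℤ}
    (hΔ : Δ.natAbs = N ^ m) (hc : ¬ (N : ℤ) ∣ c) (hab : IsCoprime a b) (hb : 0 < b) (ha : a ≠ 0)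
    (h1 : c ^ 3 * a * b ^ 5 = Δ * (a ^ 2 + 10 * a * b + 5 * b ^ 2) ^ 3)
    (h2 : Δ * a * b * (a ^ 2 + 22 * a * b + 125 * b ^ 2) = w ^ 2) :
    (Δ = -11 ∧ (c = 16 ∨ c = 375376)) ∨ (Δ = -161051 ∧ c = 496) := by
  have hNN : Prime (N : ℤ) := Nat.prime_iff_prime_int.mp hN
  have h5p : Prime (5 : ℤ) := Int.prime_iff_natAbs_prime.mpr (by norm_num)
  have hN5 : ¬ (N : ℤ) ∣ 5 := by
    intro h
    have := Int.le_of_dvd (by norm_num) h
    omega
  have hΔ5 : IsCoprime Δ 5 := coprime_of_pow hN hΔ hN5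
  have hΔc : IsCoprime Δ c := coprime_of_pow hN hΔ hc
  have hb0 : b ≠ 0 := hb.ne'
  have hΔ0 : Δ ≠ 0 := by
    rintro rfl
    have := pow_pos hN.pos m
    simp at hΔ
    omega
  have bF : IsCoprime b (a ^ 2 + 10 * a * b + 5 * b ^ 2) := by
    have h3 := (hab.symm.pow_right (n := 2)).add_mul_left_right (10 * a + 5 * b)
    have e : a ^ 2 + b * (10 * a + 5 * b) = a ^ 2 + 10 * a * b + 5 * b ^ 2 := by ring
    rwa [e] at h3
  have hbΔ : b ^ 5 ∣ Δ := by
    have h3 : b ^ 5 ∣ Δ * (a ^ 2 + 10 * a * b + 5 * b ^ 2) ^ 3 := ⟨c ^ 3 * a, by rw [← h1]; ring⟩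
    exact (IsCoprime.pow bF : IsCoprime (b ^ 5) _).dvd_of_dvd_mul_right h3
  -- the number `x`
  obtain ⟨x, hx, hxΔ, hΔx⟩ : ∃ x : ℤ, (a = x ∨ a = 125 * x) ∧ x * b ^ 5 ∣ Δ ∧ Δ ∣ x * b ^ 5 := by
    by_cases h5 : (5 : ℤ) ∣ a
    · -- the 5-adic valuation of `a` is `3`
      have hb5 : ¬ (5 : ℤ) ∣ b := fun h => h5p.not_isUnit (hab.isUnit_of_dvd' h5 h)
      have hΔ5' : ¬ (5 : ℤ) ∣ Δ := fun h => h5p.not_isUnit (hΔ5.isUnit_of_dvd' h dvd_rfl)
      obtain ⟨a₁, rfl⟩ := h5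
      have e1 : c ^ 3 * a₁ * b ^ 5 = 25 * (Δ * (5 * a₁ ^ 2 + 10 * a₁ * b + b ^ 2) ^ 3) := by
        have h3 : (5 : ℤ) * (c ^ 3 * a₁ * b ^ 5) =
            5 * (25 * (Δ * (5 * a₁ ^ 2 + 10 * a₁ * b + b ^ 2) ^ 3)) := by linear_combination h1
        exact mul_left_cancel₀ (by norm_num) h3
      have hF' : ¬ (5 : ℤ) ∣ (5 * a₁ ^ 2 + 10 * a₁ * b + b ^ 2) := by
        intro h
        have h3 : (5 : ℤ) ∣ b ^ 2 := by
          have e : b ^ 2 = (5 * a₁ ^ 2 + 10 * a₁ * b + b ^ 2) - 5 * (a₁ ^ 2 + 2 * a₁ * b) := by ring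
          rw [e]
          exact dvd_sub h (dvd_mul_right _ _)
        exact hb5 (h5p.dvd_of_dvd_pow h3)
      have hR : ¬ (5 : ℤ) ∣ Δ * (5 * a₁ ^ 2 + 10 * a₁ * b + b ^ 2) ^ 3 := by
        intro h
        rcases h5p.dvd_or_dvd h with h | h
        · exact hΔ5' h
        · exact hF' (h5p.dvd_of_dvd_pow h)
      -- `5 ∤ c`
      have hc5 : ¬ (5 : ℤ) ∣ c := by
        rintro ⟨c', rfl⟩
        apply hR
        have h3 : (25 : ℤ) * (Δ * (5 * a₁ ^ 2 + 10 * a₁ * b + b ^ 2) ^ 3) =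
            25 * (5 * (c' ^ 3 * a₁ * b ^ 5)) := by rw [← e1]; ring
        exact ⟨_, mul_left_cancel₀ (by norm_num) h3⟩
      have h25 : (25 : ℤ) ∣ a₁ := by
        have h3 : (25 : ℤ) ∣ (c ^ 3 * b ^ 5) * a₁ := ⟨_, by rw [← e1]; ring⟩
        have h4 : IsCoprime (25 : ℤ) (c ^ 3 * b ^ 5) := by
          have h6 : IsCoprime (5 : ℤ) (c ^ 3 * b ^ 5) :=
            (h5p.coprime_iff_not_dvd).mpr fun h => by
              rcases h5p.dvd_or_dvd h with h | h
              · exact hc5 (h5p.dvd_of_dvd_pow h)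
              · exact hb5 (h5p.dvd_of_dvd_pow h)
          have h7 := h6.pow_left (m := 2)
          norm_num at h7
          exact h7
        exact h4.dvd_of_dvd_mul_left h3
      obtain ⟨x, rfl⟩ := h25
      refine ⟨x, Or.inr (by ring), ?_, ?_⟩
      · have e2 : c ^ 3 * x * b ^ 5 = Δ * (5 * (25 * x) ^ 2 + 10 * (25 * x) * b + b ^ 2) ^ 3 := by
          have h3 : (25 : ℤ) * (c ^ 3 * x * b ^ 5) =
              25 * (Δ * (5 * (25 * x) ^ 2 + 10 * (25 * x) * b + b ^ 2) ^ 3) := by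
            rw [← e1]; ring
          exact mul_left_cancel₀ (by norm_num) h3
        have hxb : IsCoprime x b := IsCoprime.of_isCoprime_of_dvd_left hab ⟨125, by ring⟩
        have hxF : IsCoprime x (5 * (25 * x) ^ 2 + 10 * (25 * x) * b + b ^ 2) := by
          have h3 := (hxb.pow_right (n := 2)).add_mul_left_right (3125 * x + 250 * b)
          have e : b ^ 2 + x * (3125 * x + 250 * b) =
            5 * (25 * x) ^ 2 + 10 * (25 * x) * b + b ^ 2 := by ring
          rwa [e] at h3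
        have hxd : x ∣ Δ := by
          have h3 : x ∣ Δ * (5 * (25 * x) ^ 2 + 10 * (25 * x) * b + b ^ 2) ^ 3 :=
            ⟨c ^ 3 * b ^ 5, by rw [← e2]; ring⟩
          exact (hxF.pow_right (n := 3)).dvd_of_dvd_mul_right h3
        exact (hxb.pow_right (n := 5)).mul_dvd hxd hbΔ
      · have h3 : Δ ∣ (c ^ 3 * 5 ^ 3) * (x * b ^ 5) :=
          ⟨((5 * (25 * x)) ^ 2 + 10 * (5 * (25 * x)) * b + 5 * b ^ 2) ^ 3, by rw [← h1]; ring⟩
        exact ((hΔc.pow_right (n := 3)).mul_right (hΔ5.pow_right (n := 3))).dvd_of_dvd_mul_left h3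
    · have ha5 : IsCoprime a 5 := ((h5p.coprime_iff_not_dvd).mpr h5).symm
      refine ⟨a, Or.inl rfl, ?_, ?_⟩
      · have haF : IsCoprime a (a ^ 2 + 10 * a * b + 5 * b ^ 2) := by
          have h3 := (ha5.mul_right (hab.pow_right (n := 2))).add_mul_left_right (a + 10 * b)
          have e : 5 * b ^ 2 + a * (a + 10 * b) = a ^ 2 + 10 * a * b + 5 * b ^ 2 := by ring
          rwa [e] at h3
        have had : a ∣ Δ := by
          have h3 : a ∣ Δ * (a ^ 2 + 10 * a * b + 5 * b ^ 2) ^ 3 :=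
            ⟨c ^ 3 * b ^ 5, by rw [← h1]; ring⟩
          exact (haF.pow_right (n := 3)).dvd_of_dvd_mul_right h3
        exact (hab.pow_right (n := 5)).mul_dvd had hbΔ
      · have h3 : Δ ∣ c ^ 3 * (a * b ^ 5) :=
          ⟨(a ^ 2 + 10 * a * b + 5 * b ^ 2) ^ 3, by rw [← h1]; ring⟩
        exact (hΔc.pow_right (n := 3)).dvd_of_dvd_mul_left h3
  obtain ⟨σ, hσ, hσΔ⟩ := unit_of_dvd_dvd hxΔ hΔx
  have hx0 : x ≠ 0 := by
    rintro rfl
    apply hΔ0
    rw [hσΔ]; ring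
  have hxb : IsCoprime x b := by
    rcases hx with rfl | rfl
    · exact hab
    · exact IsCoprime.of_isCoprime_of_dvd_left hab (dvd_mul_left _ _)
  have hxΔ' : x ∣ Δ := (dvd_mul_right _ _).trans hxΔ
  have hbΔ' : b ∣ Δ := (dvd_pow_self b (by norm_num)).trans hbΔ
  obtain ⟨s, hs⟩ := eq_pow_of_dvd hN hΔ hxΔ'
  obtain ⟨t, ht⟩ := eq_pow_of_dvd hN hΔ hbΔ'
  have hs' : x.natAbs = N ^ s := by
    rcases hs with h | h <;> rw [h] <;> simp [Int.natAbs_pow]
  have ht' : b.natAbs = N ^ t := by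
    rcases ht with h | h <;> rw [h] <;> simp [Int.natAbs_pow]
  have hst : s = 0 ∨ t = 0 := by
    by_contra hcon
    push Not at hcon
    apply hNN.not_isUnit
    refine hxb.isUnit_of_dvd' ?_ ?_
    · rw [← Int.natAbs_dvd_natAbs, hs', Int.natAbs_natCast]; exact dvd_pow_self N hcon.1
    · rw [← Int.natAbs_dvd_natAbs, ht', Int.natAbs_natCast]; exact dvd_pow_self N hcon.2
  have hmabs : N ^ m = x.natAbs * b.natAbs ^ 5 := by
    rw [← hΔ, hσΔ, Int.natAbs_mul, Int.natAbs_mul, Int.natAbs_pow]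
    rcases hσ with rfl | rfl <;> simp
  -- the square condition
  have hG : σ = 1 ∧ ((a = x ∧ ∃ w', x ^ 2 + 22 * x * b + 125 * b ^ 2 = w' ^ 2) ∨
      (a = 125 * x ∧ ∃ w', 125 * x ^ 2 + 22 * x * b + b ^ 2 = w' ^ 2)) := by
    rcases hx with rfl | rfl
    · obtain ⟨k1, k2⟩ := sq_of_mul_sq2 hσ (x := a * b ^ 3) (w := w)
        (G := a ^ 2 + 22 * a * b + 125 * b ^ 2) (mul_ne_zero ha (pow_ne_zero 3 hb0))
        (by nlinarith [sq_nonneg (a + 11 * b), mul_pos hb hb]) (by rw [← h2, hσΔ]; ring)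
      exact ⟨k1, Or.inl ⟨rfl, k2⟩⟩
    · obtain ⟨k1, k2⟩ := sq_of_mul_sq2 hσ (x := 125 * x * b ^ 3) (w := w)
        (G := 125 * x ^ 2 + 22 * x * b + b ^ 2) (mul_ne_zero ha (pow_ne_zero 3 hb0))
        (by nlinarith [sq_nonneg (11 * x + b), mul_pos hb hb, sq_nonneg x, sq_nonneg (x + 11 * b),
          sq_pos_of_ne_zero hx0]) (by rw [← h2, hσΔ]; ring)
      exact ⟨k1, Or.inr ⟨rfl, k2⟩⟩
  obtain ⟨hσ1, hG⟩ := hG
  rw [hσ1, one_mul] at hσΔ
  rcases hst with hs0 | ht0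
  · -- `x = ± 1`
    rw [hs0, pow_zero] at hs'
    have hx1 : x = 1 ∨ x = -1 := Int.natAbs_eq_iff.mp hs'
    have hxx : x ^ 2 = 1 := by rcases hx1 with h | h <;> rw [h] <;> norm_num
    have ht0 : t ≠ 0 := by
      rintro rfl
      rw [hs', ht', pow_zero, one_pow, mul_one] at hmabs
      exact hm ((Nat.pow_eq_one.mp hmabs).resolve_left hN.one_lt.ne')
    have hz : (x * b).natAbs = N ^ t := by rw [Int.natAbs_mul, hs', one_mul, ht']
    have hz11 : x * b = -11 := by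
      rcases hG with ⟨-, w', hw'⟩ | ⟨-, w', hw'⟩
      · refine eqZ hN (by omega) ht0 hz (w := w') ?_
        rw [← hw']
        linear_combination (125 * b ^ 2 - 1) * hxx
      · refine eqY (w := w') ?_
        rw [← hw']
        linear_combination (b ^ 2 - 125) * hxx
    have hxm : x = -1 ∧ b = 11 := by
      rcases hx1 with h | h
      · rw [h] at hz11; omega
      · rw [h] at hz11; omega
    obtain ⟨rfl, rfl⟩ := hxm
    have hΔv : Δ = -161051 := by rw [hσΔ]; norm_num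
    right
    refine ⟨hΔv, ?_⟩
    apply cube_inj
    rcases hG with ⟨rfl, -⟩ | ⟨rfl, -⟩
    · rw [hΔv] at h1
      linarith [h1]
    · rw [hΔv] at h1
      linarith [h1]
  · rw [ht0, pow_zero] at ht'
    have hb1 : b = 1 := by omega
    subst hb1
    have hs0 : s ≠ 0 := by
      rintro rfl
      rw [hs', ht', pow_zero, one_pow, mul_one] at hmabs
      exact hm ((Nat.pow_eq_one.mp hmabs).resolve_left hN.one_lt.ne')
    have hz11 : x = -11 := by
      rcases hG with ⟨-, w', hw'⟩ | ⟨-, w', hw'⟩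
      · exact eqY (w := w') (by rw [← hw']; ring)
      · exact eqZ hN (by omega) hs0 hs' (w := w') (by rw [← hw']; ring)
    subst hz11
    have hΔv : Δ = -11 := by rw [hσΔ]; norm_num
    left
    refine ⟨hΔv, ?_⟩
    rcases hG with ⟨rfl, -⟩ | ⟨rfl, -⟩
    · left
      apply cube_inj
      rw [hΔv] at h1
      linarith [h1]
    · right
      apply cube_inj
      rw [hΔv] at h1
      linarith [h1]

/-- `X₀(3)` and prime conductors: the discriminants and the invariants `c₄` -/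
theorem core3' {N m : ℕ} (hN : N.Prime) (hN7 : 7 ≤ N) {c Δ a b w : ℤ}
    (hΔ : Δ.natAbs = N ^ m) (hc : ¬ (N : ℤ) ∣ c) (hab : IsCoprime a b) (hb : 0 < b) (ha : a ≠ 0)
    (h1 : c ^ 3 * a * b ^ 3 = Δ * ((a + 27 * b) * (a + 3 * b) ^ 3))
    (h2 : Δ * a * b = w ^ 2)
    (h3 : (3 : ℤ) ∣ c → ∃ c' d, c = 3 * c' ∧ c' ^ 3 - 27 * d ^ 2 = 64 * Δ) :
    (Δ = -19 ∧ (c = -32 ∨ c = 36928)) ∨ (Δ = -6859 ∧ c = 448) ∨
      (Δ = 37 ∧ (c = 160 ∨ c = 89920)) ∨ (Δ = 50653 ∧ c = 1120) := by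
  have hNN : Prime (N : ℤ) := Nat.prime_iff_prime_int.mp hN
  have h3p : Prime (3 : ℤ) := Int.prime_three
  have hN3 : ¬ (N : ℤ) ∣ 3 := by
    intro h
    have := Int.le_of_dvd (by norm_num) h
    omega
  have hΔ3 : IsCoprime Δ 3 := coprime_of_pow hN hΔ hN3
  have hΔ3' : ¬ (3 : ℤ) ∣ Δ := fun h => h3p.not_isUnit (hΔ3.isUnit_of_dvd' h dvd_rfl)
  have hΔc : IsCoprime Δ c := coprime_of_pow hN hΔ hc
  have hb0 : b ≠ 0 := hb.ne'
  have hc0 : c ≠ 0 := by rintro rfl; exact hc (dvd_zero _)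
  have hΔ0 : Δ ≠ 0 := by
    rintro rfl
    have := pow_pos hN.pos m
    simp at hΔ
    omega
  have hbΔ : b ^ 3 ∣ Δ := by
    have bF : IsCoprime b (a + 27 * b) := by
      have := hab.symm.add_mul_left_right 27
      rwa [mul_comm b 27] at this
    have bG : IsCoprime b (a + 3 * b) := by
      have := hab.symm.add_mul_left_right 3
      rwa [mul_comm b 3] at this
    have h4 : b ^ 3 ∣ Δ * ((a + 27 * b) * (a + 3 * b) ^ 3) := ⟨c ^ 3 * a, by rw [← h1]; ring⟩
    exact ((bF.mul_right (bG.pow_right (n := 3))).pow_left (m := 3)).dvd_of_dvd_mul_right h4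
  -- the number `x`
  obtain ⟨x, hx, hxΔ, hΔx⟩ : ∃ x : ℤ,
      ((a = x ∧ c ^ 3 * x * b ^ 3 = Δ * ((x + 27 * b) * (x + 3 * b) ^ 3)) ∨
        (a = 729 * x ∧ c ^ 3 * x * b ^ 3 = Δ * ((27 * x + b) * (243 * x + b) ^ 3))) ∧
      x * b ^ 3 ∣ Δ ∧ Δ ∣ x * b ^ 3 := by
    by_cases h3a : (3 : ℤ) ∣ a
    · have hb3 : ¬ (3 : ℤ) ∣ b := fun h => h3p.not_isUnit (hab.isUnit_of_dvd' h3a h)
      have step : ∀ {y v : ℤ}, Δ * (3 * y) * b = v ^ 2 → ∃ y' v', y = 3 * y' ∧ v = 3 * v' ∧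
          Δ * y' * b = v' ^ 2 := by
        intro y v hv
        obtain ⟨v', rfl⟩ : (3 : ℤ) ∣ v := by
          apply h3p.dvd_of_dvd_pow (n := 2)
          rw [← hv]
          exact ⟨Δ * y * b, by ring⟩
        have h4 : Δ * y * b = 3 * v' ^ 2 := by
          have : (3 : ℤ) * (Δ * y * b) = 3 * (3 * v' ^ 2) := by linear_combination hv
          exact mul_left_cancel₀ (by norm_num) this
        have h5 : (3 : ℤ) ∣ Δ * y * b := ⟨_, h4⟩
        obtain ⟨y', rfl⟩ : (3 : ℤ) ∣ y := by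
          rcases h3p.dvd_or_dvd h5 with h | h
          · rcases h3p.dvd_or_dvd h with h | h
            · exact absurd h hΔ3'
            · exact h
          · exact absurd h hb3
        refine ⟨y', v', rfl, rfl, ?_⟩
        have : (3 : ℤ) * (Δ * y' * b) = 3 * (v' ^ 2) := by linear_combination h4
        exact mul_left_cancel₀ (by norm_num) this
      obtain ⟨a₁, rfl⟩ := h3a
      obtain ⟨a₂, w₁, rfl, rfl, h2₁⟩ := step h2
      have e2 : c ^ 3 * a₂ * b ^ 3 = 27 * (Δ * ((a₂ + 3 * b) * (3 * a₂ + b) ^ 3)) := by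
        have : (9 : ℤ) * (c ^ 3 * a₂ * b ^ 3) =
            9 * (27 * (Δ * ((a₂ + 3 * b) * (3 * a₂ + b) ^ 3))) := by linear_combination h1
        exact mul_left_cancel₀ (by norm_num) this
      have hab₂ : IsCoprime a₂ b :=
        IsCoprime.of_isCoprime_of_dvd_left hab ⟨9, by ring⟩
      by_cases h3a₂ : (3 : ℤ) ∣ a₂
      · obtain ⟨a₃, rfl⟩ := h3a₂
        obtain ⟨a₄, w₂, rfl, rfl, h2₂⟩ := step h2₁
        have e4 : c ^ 3 * a₄ * b ^ 3 = 9 * (Δ * ((3 * a₄ + b) * (27 * a₄ + b) ^ 3)) := by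
          have : (9 : ℤ) * (c ^ 3 * a₄ * b ^ 3) =
              9 * (9 * (Δ * ((3 * a₄ + b) * (27 * a₄ + b) ^ 3))) := by linear_combination e2
          exact mul_left_cancel₀ (by norm_num) this
        have hR : ¬ (3 : ℤ) ∣ Δ * ((3 * a₄ + b) * (27 * a₄ + b) ^ 3) := by
          intro h
          have k1 : ¬ (3 : ℤ) ∣ 3 * a₄ + b := fun h => hb3 (by omega)
          have k2 : ¬ (3 : ℤ) ∣ 27 * a₄ + b := fun h => hb3 (by omega)
          rcases h3p.dvd_or_dvd h with h | h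
          · exact hΔ3' h
          · rcases h3p.dvd_or_dvd h with h | h
            · exact k1 h
            · exact k2 (h3p.dvd_of_dvd_pow h)
        have hc3 : ¬ (3 : ℤ) ∣ c := by
          rintro ⟨c', rfl⟩
          apply hR
          have : (9 : ℤ) * (Δ * ((3 * a₄ + b) * (27 * a₄ + b) ^ 3)) =
              9 * (3 * (c' ^ 3 * a₄ * b ^ 3)) := by rw [← e4]; ring
          exact ⟨_, mul_left_cancel₀ (by norm_num) this⟩
        obtain ⟨x, rfl⟩ : (9 : ℤ) ∣ a₄ := by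
          have k3 : (9 : ℤ) ∣ (c ^ 3 * b ^ 3) * a₄ := ⟨_, by rw [← e4]; ring⟩
          have k4 : IsCoprime (3 : ℤ) (c ^ 3 * b ^ 3) :=
            (h3p.coprime_iff_not_dvd).mpr fun h => by
              rcases h3p.dvd_or_dvd h with h | h
              · exact hc3 (h3p.dvd_of_dvd_pow h)
              · exact hb3 (h3p.dvd_of_dvd_pow h)
          have k5 := k4.pow_left (m := 2)
          norm_num at k5
          exact k5.dvd_of_dvd_mul_left k3
        have e5 : c ^ 3 * x * b ^ 3 = Δ * ((27 * x + b) * (243 * x + b) ^ 3) := by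
          have : (9 : ℤ) * (c ^ 3 * x * b ^ 3) =
              9 * (Δ * ((27 * x + b) * (243 * x + b) ^ 3)) := by linear_combination e4
          exact mul_left_cancel₀ (by norm_num) this
        have hxb : IsCoprime x b := IsCoprime.of_isCoprime_of_dvd_left hab ⟨729, by ring⟩
        refine ⟨x, Or.inr ⟨by ring, e5⟩, ?_, ?_⟩
        · have k6 : IsCoprime x (27 * x + b) := by
            have := hxb.add_mul_left_right 27
            rwa [add_comm, mul_comm x 27] at this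
          have k7 : IsCoprime x (243 * x + b) := by
            have := hxb.add_mul_left_right 243
            rwa [add_comm, mul_comm x 243] at this
          have k8 : x ∣ Δ * ((27 * x + b) * (243 * x + b) ^ 3) :=
            ⟨c ^ 3 * b ^ 3, by rw [← e5]; ring⟩
          exact (hxb.pow_right (n := 3)).mul_dvd
            ((k6.mul_right (k7.pow_right (n := 3))).dvd_of_dvd_mul_right k8) hbΔ
        · have k9 : Δ ∣ c ^ 3 * (x * b ^ 3) := ⟨(27 * x + b) * (243 * x + b) ^ 3, by rw [← e5]; ring⟩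
          exact (hΔc.pow_right (n := 3)).dvd_of_dvd_mul_left k9
      · exfalso
        have hc3 : (3 : ℤ) ∣ c := by
          have k1 : (3 : ℤ) ∣ c ^ 3 * a₂ * b ^ 3 := by
            rw [e2]
            exact ⟨9 * (Δ * ((a₂ + 3 * b) * (3 * a₂ + b) ^ 3)), by ring⟩
          rcases h3p.dvd_or_dvd k1 with h | h
          · rcases h3p.dvd_or_dvd h with h | h
            · exact h3p.dvd_of_dvd_pow h
            · exact absurd h h3a₂
          · exact absurd (h3p.dvd_of_dvd_pow h) hb3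
        obtain ⟨c', d, rfl, hcd⟩ := h3 hc3
        have e3 : c' ^ 3 * a₂ * b ^ 3 = Δ * ((a₂ + 3 * b) * (3 * a₂ + b) ^ 3) := by
          have : (27 : ℤ) * (c' ^ 3 * a₂ * b ^ 3) =
              27 * (Δ * ((a₂ + 3 * b) * (3 * a₂ + b) ^ 3)) := by linear_combination e2
          exact mul_left_cancel₀ (by norm_num) this
        have k2 : Δ * b ^ 4 = 3 * (7 * Δ * a₂ * b ^ 3 + 3 * d ^ 2 * a₂ * b ^ 3 -
            Δ * (a₂ + 3 * b) * (3 * a₂ ^ 3 + 3 * a₂ ^ 2 * b + a₂ * b ^ 2)) := by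
          have : (3 : ℤ) * (Δ * b ^ 4) = 3 * (3 * (7 * Δ * a₂ * b ^ 3 + 3 * d ^ 2 * a₂ * b ^ 3 -
            Δ * (a₂ + 3 * b) * (3 * a₂ ^ 3 + 3 * a₂ ^ 2 * b + a₂ * b ^ 2))) := by
            linear_combination -e3 + a₂ * b ^ 3 * hcd
          exact mul_left_cancel₀ (by norm_num) this
        have k3 : (3 : ℤ) ∣ Δ * b ^ 4 := ⟨_, k2⟩
        rcases h3p.dvd_or_dvd k3 with h | h
        · exact hΔ3' h
        · exact hb3 (h3p.dvd_of_dvd_pow h)
    · have ha3 : IsCoprime a 3 := ((h3p.coprime_iff_not_dvd).mpr h3a).symm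
      have ha27 : IsCoprime a (27 * b) := by
        have k := ha3.pow_right (n := 3)
        norm_num at k
        exact k.mul_right hab
      have ha3b : IsCoprime a (3 * b) := ha3.mul_right hab
      refine ⟨a, Or.inl ⟨rfl, h1⟩, ?_, ?_⟩
      · have k6 : IsCoprime a (a + 27 * b) := by
          have := ha27.add_mul_left_right 1
          rwa [mul_one, add_comm] at this
        have k7 : IsCoprime a (a + 3 * b) := by
          have := ha3b.add_mul_left_right 1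
          rwa [mul_one, add_comm] at this
        have k8 : a ∣ Δ * ((a + 27 * b) * (a + 3 * b) ^ 3) := ⟨c ^ 3 * b ^ 3, by rw [← h1]; ring⟩
        exact (hab.pow_right (n := 3)).mul_dvd
          ((k6.mul_right (k7.pow_right (n := 3))).dvd_of_dvd_mul_right k8) hbΔ
      · have k9 : Δ ∣ c ^ 3 * (a * b ^ 3) := ⟨(a + 27 * b) * (a + 3 * b) ^ 3, by rw [← h1]; ring⟩
        exact (hΔc.pow_right (n := 3)).dvd_of_dvd_mul_left k9
  obtain ⟨σ, hσ, hσΔ⟩ := unit_of_dvd_dvd hxΔ hΔx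
  have hx0 : x ≠ 0 := by
    rintro rfl
    apply hΔ0
    rw [hσΔ]; ring
  have hxb : IsCoprime x b := by
    rcases hx with ⟨rfl, -⟩ | ⟨rfl, -⟩
    · exact hab
    · exact IsCoprime.of_isCoprime_of_dvd_left hab (dvd_mul_left _ _)
  -- `σ = 1`
  have hσ1 : σ = 1 := by
    rcases hσ with h | h
    · exact h
    · exfalso
      subst h
      rw [hσΔ] at h2
      have k1 : 0 < x ^ 2 * b ^ 4 := by positivity
      rcases hx with ⟨rfl, -⟩ | ⟨rfl, -⟩
      · nlinarith [sq_nonneg w]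
      · nlinarith [sq_nonneg w]
  subst hσ1
  rw [one_mul] at hσΔ
  -- the cube
  have hxb0 : x * b ^ 3 ≠ 0 := mul_ne_zero hx0 (pow_ne_zero 3 hb0)
  have hcc : ∀ {u v : ℤ}, c ^ 3 * x * b ^ 3 = Δ * (u * v ^ 3) → c ^ 3 = u * v ^ 3 := by
    intro u v huv
    apply mul_left_cancel₀ hxb0
    rw [hσΔ] at huv
    linear_combination huv
  have hcub : ∀ {u v : ℤ}, c ^ 3 * x * b ^ 3 = Δ * (u * v ^ 3) → ∃ e, u = e ^ 3 := by
    intro u v huv
    have k1 : c ^ 3 = u * v ^ 3 := hcc huv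
    have k2 : v ^ 3 ∣ c ^ 3 := ⟨u, by rw [k1]; ring⟩
    obtain ⟨e, rfl⟩ := (Int.pow_dvd_pow_iff three_ne_zero).mp k2
    have hv0 : v ≠ 0 := by
      rintro rfl
      exact hc0 (by ring)
    refine ⟨e, ?_⟩
    have k3 : v ^ 3 * u = v ^ 3 * e ^ 3 := by linear_combination -k1
    exact mul_left_cancel₀ (pow_ne_zero 3 hv0) k3
  have hxΔ' : x ∣ Δ := (dvd_mul_right _ _).trans hxΔ
  have hbΔ' : b ∣ Δ := (dvd_pow_self b (by norm_num)).trans hbΔ
  obtain ⟨s, hs⟩ := eq_pow_of_dvd hN hΔ hxΔ'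
  obtain ⟨t, ht⟩ := eq_pow_of_dvd hN hΔ hbΔ'
  have hs' : x.natAbs = N ^ s := by
    rcases hs with h | h <;> rw [h] <;> simp [Int.natAbs_pow]
  have ht' : b.natAbs = N ^ t := by
    rcases ht with h | h <;> rw [h] <;> simp [Int.natAbs_pow]
  have hst : s = 0 ∨ t = 0 := by
    by_contra hcon
    push Not at hcon
    apply hNN.not_isUnit
    refine hxb.isUnit_of_dvd' ?_ ?_
    · rw [← Int.natAbs_dvd_natAbs, hs', Int.natAbs_natCast]; exact dvd_pow_self N hcon.1
    · rw [← Int.natAbs_dvd_natAbs, ht', Int.natAbs_natCast]; exact dvd_pow_self N hcon.2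
  rcases hst with hs0 | ht0
  · -- `x = ± 1`
    rw [hs0, pow_zero] at hs'
    have hx1 : x = 1 ∨ x = -1 := Int.natAbs_eq_iff.mp hs'
    have hxx : x ^ 2 = 1 := by rcases hx1 with h | h <;> rw [h] <;> norm_num
    have hz : (x * b).natAbs = N ^ t := by rw [Int.natAbs_mul, hs', one_mul, ht']
    have hzz : x * b = 37 ∨ x * b = -19 := by
      rcases hx with ⟨-, h⟩ | ⟨-, h⟩
      · obtain ⟨e, he⟩ := hcub h
        refine eqB hN hz (e := x * e) ?_
        rw [mul_pow, ← he]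
        linear_combination (-x ^ 2 - 1 - 27 * b * x) * hxx
      · obtain ⟨e, he⟩ := hcub h
        refine eqA hN (by omega) hz (e := x * e) ?_
        rw [mul_pow, ← he]
        linear_combination (-27 * x ^ 2 - 27 - b * x) * hxx
    rcases hzz with hz1 | hz1
    · have hxm : x = 1 ∧ b = 37 := by
        rcases hx1 with h | h
        · rw [h] at hz1; omega
        · rw [h] at hz1; omega
      obtain ⟨rfl, rfl⟩ := hxm
      have hΔv : Δ = 50653 := by rw [hσΔ]; norm_num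
      refine Or.inr (Or.inr (Or.inr ⟨hΔv, ?_⟩))
      apply cube_inj
      rcases hx with ⟨-, h⟩ | ⟨-, h⟩
      · rw [hcc h]; norm_num
      · rw [hcc h]; norm_num
    · have hxm : x = -1 ∧ b = 19 := by
        rcases hx1 with h | h
        · rw [h] at hz1; omega
        · rw [h] at hz1; omega
      obtain ⟨rfl, rfl⟩ := hxm
      have hΔv : Δ = -6859 := by rw [hσΔ]; norm_num
      refine Or.inr (Or.inl ⟨hΔv, ?_⟩)
      apply cube_inj
      rcases hx with ⟨-, h⟩ | ⟨-, h⟩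
      · rw [hcc h]; norm_num
      · rw [hcc h]; norm_num
  · rw [ht0, pow_zero] at ht'
    have hb1 : b = 1 := by omega
    subst hb1
    have hzz : x = 37 ∨ x = -19 := by
      rcases hx with ⟨-, h⟩ | ⟨-, h⟩
      · obtain ⟨e, he⟩ := hcub h
        exact eqA hN (by omega) hs' (e := e) (by rw [← he]; ring)
      · obtain ⟨e, he⟩ := hcub h
        exact eqB hN hs' (e := e) (by rw [← he])
    rcases hzz with rfl | rfl
    · have hΔv : Δ = 37 := by rw [hσΔ]; norm_num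
      refine Or.inr (Or.inr (Or.inl ⟨hΔv, ?_⟩))
      rcases hx with ⟨-, h⟩ | ⟨-, h⟩
      · left
        apply cube_inj
        rw [hcc h]; norm_num
      · right
        apply cube_inj
        rw [hcc h]; norm_num
    · have hΔv : Δ = -19 := by rw [hσΔ]; norm_num
      refine Or.inl ⟨hΔv, ?_⟩
      rcases hx with ⟨-, h⟩ | ⟨-, h⟩
      · left
        apply cube_inj
        rw [hcc h]; norm_num
      · right
        apply cube_inj
        rw [hcc h]; norm_num

end Fermat.Agent.Cor.H18Cl
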