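import Fermat.Agent.Cor.H18Cl9

/-!
# The Setzer–Neumann curves

Let `N = (4 t + 1)² + 64` be a prime number. Up to isomorphism over `ℚ` there are exactly two semistable elliptic curves of
conductor `N` with a rational point of order `2`, namely `y² + x y = x³ + t x² - x` and
`y² + x y = x³ + t x² + 4 x + (4 t + 1)` (`setzer_list`). If `N` is a prime number different from `17` which is not of the
form `u² + 64`, then there is no such curve (`no_two_torsion`).

This file is not used by any of the statement files.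
-/

set_option autoImplicit false

namespace Fermat.Agent.Cor.H18Cl

open WeierstrassCurve Fermat.Agent.Cor.H18MO

/-- the first Setzer–Neumann curve -/
def setzerA (t : ℤ) : WeierstrassCurve ℤ := ⟨1, t, 0, -1, 0⟩

/-- the second Setzer–Neumann curve -/
def setzerB (t : ℤ) : WeierstrassCurve ℤ := ⟨1, t, 0, 4, 4 * t + 1⟩

theorem setzerA_Δ (t : ℤ) : (setzerA t).Δ = (4 * t + 1) ^ 2 + 64 := by
  simp only [setzerA, WeierstrassCurve.Δ, WeierstrassCurve.b₂, WeierstrassCurve.b₄,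
    WeierstrassCurve.b₆, WeierstrassCurve.b₈]
  ring

theorem setzerA_c₄ (t : ℤ) : (setzerA t).c₄ = (4 * t + 1) ^ 2 + 48 := by
  simp only [setzerA, WeierstrassCurve.c₄, WeierstrassCurve.b₂, WeierstrassCurve.b₄]
  ring

theorem setzerB_Δ (t : ℤ) : (setzerB t).Δ = -((4 * t + 1) ^ 2 + 64) ^ 2 := by
  simp only [setzerB, WeierstrassCurve.Δ, WeierstrassCurve.b₂, WeierstrassCurve.b₄,
    WeierstrassCurve.b₆, WeierstrassCurve.b₈]
  ring

theorem setzerB_c₄ (t : ℤ) : (setzerB t).c₄ = (4 * t + 1) ^ 2 - 192 := by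
  simp only [setzerB, WeierstrassCurve.c₄, WeierstrassCurve.b₂, WeierstrassCurve.b₄]
  ring

theorem setzerA_two (t : ℤ) : HasTwoTorsion (setzerA t) :=
  ⟨0, by simp [setzerA, WeierstrassCurve.b₂, WeierstrassCurve.b₄, WeierstrassCurve.b₆]⟩

theorem setzerB_two (t : ℤ) : HasTwoTorsion (setzerB t) := by
  refine ⟨-(4 * t + 1) / 4, ?_⟩
  simp only [setzerB, WeierstrassCurve.b₂, WeierstrassCurve.b₄, WeierstrassCurve.b₆]
  push_cast
  ring

section

variable {N : ℕ} {t : ℤ}

theorem semistable_of_prime {W : WeierstrassCurve ℤ} {m : ℕ} (hN : N.Prime) (hm : m ≠ 0)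
    (h : W.Δ.natAbs = N ^ m) (hc : ¬ (N : ℤ) ∣ W.c₄) :
    W.IsSemistableModel ∧ W.Δ ≠ 0 ∧ W.conductorLevel = N := by
  have h0 := H18MO.disc_ne_zero hN h
  refine ⟨?_, h0, ?_⟩
  · intro q hq hqΔ
    have h1 : q ∣ N ^ m := by
      rw [← h]
      exact Int.natCast_dvd.mp hqΔ
    have h2 := (Nat.prime_dvd_prime_iff_eq hq hN).mp (hq.dvd_of_dvd_pow h1)
    rw [h2]
    exact hc
  · rw [GenusOne.conductorLevel_eq W h0, h, Nat.primeFactors_prime_pow hm hN,
      Finset.prod_singleton]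

theorem large_of (hN : N.Prime) (h : (N : ℤ) = (4 * t + 1) ^ 2 + 64) : 64 < N :=
  (exists_sign hN h).1

theorem setzerA_props (hN : N.Prime) (h : (N : ℤ) = (4 * t + 1) ^ 2 + 64) :
    (setzerA t).IsSemistableModel ∧ (setzerA t).Δ ≠ 0 ∧ (setzerA t).conductorLevel = N := by
  refine semistable_of_prime (m := 1) hN one_ne_zero ?_ ?_
  · rw [setzerA_Δ, ← h, Int.natAbs_natCast, pow_one]
  · rw [setzerA_c₄]
    intro hd
    have h1 : (N : ℤ) ∣ 2 ^ 4 := by
      have := dvd_sub (dvd_refl (N : ℤ)) hd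
      have e : (N : ℤ) - ((4 * t + 1) ^ 2 + 48) = 2 ^ 4 := by rw [h]; ring
      rwa [e] at this
    have h2 := Int.le_of_dvd (by norm_num) h1
    have := large_of hN h
    omega

theorem setzerB_props (hN : N.Prime) (h : (N : ℤ) = (4 * t + 1) ^ 2 + 64) :
    (setzerB t).IsSemistableModel ∧ (setzerB t).Δ ≠ 0 ∧ (setzerB t).conductorLevel = N := by
  refine semistable_of_prime (m := 2) hN two_ne_zero ?_ ?_
  · rw [setzerB_Δ, ← h, Int.natAbs_neg, Int.natAbs_pow, Int.natAbs_natCast]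
  · rw [setzerB_c₄]
    intro hd
    have h1 : (N : ℤ) ∣ 2 ^ 8 := by
      have := dvd_sub (dvd_refl (N : ℤ)) hd
      have e : (N : ℤ) - ((4 * t + 1) ^ 2 - 192) = 2 ^ 8 := by rw [h]; ring
      rwa [e] at this
    have h2 := (Nat.prime_iff_prime_int.mp hN).dvd_of_dvd_pow h1
    have h3 := Int.le_of_dvd (by norm_num) h2
    have := large_of hN h
    omega

/-- the two Setzer–Neumann curves are not isomorphic -/
theorem not_isIso (hN : N.Prime) (h : (N : ℤ) = (4 * t + 1) ^ 2 + 64) :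
    ¬ IsIso (setzerA t) (setzerB t) := by
  intro hI
  have h1 := hI.j_eq
  rw [setzerA_Δ, setzerA_c₄, setzerB_Δ, setzerB_c₄, ← h] at h1
  have e1 : (4 * t + 1) ^ 2 + 48 = (N : ℤ) - 16 := by rw [h]; ring
  have e2 : (4 * t + 1) ^ 2 - 192 = (N : ℤ) - 256 := by rw [h]; ring
  rw [e1, e2] at h1
  have hN0 : (N : ℤ) ≠ 0 := by exact_mod_cast hN.ne_zero
  have h2 : ((N : ℤ) - 16) ^ 3 * (-(N : ℤ)) = ((N : ℤ) - 256) ^ 3 := by
    apply mul_right_cancel₀ hN0
    linear_combination h1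
  have hd : (N : ℤ) ∣ 2 ^ 24 := by
    refine ⟨((N : ℤ) - 16) ^ 3 + (N : ℤ) ^ 2 - 768 * N + 196608, ?_⟩
    linear_combination h2
  have h3 := (Nat.prime_iff_prime_int.mp hN).dvd_of_dvd_pow hd
  have h4 := Int.le_of_dvd (by norm_num) h3
  have := large_of hN h
  omega

/-- **The theorem of Setzer and Neumann.** Let `N = (4 t + 1)² + 64` be a prime number. Up to isomorphism over `ℚ` there are
exactly two semistable elliptic curves of conductor `N` with a rational point of order `2`. -/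
theorem setzer_list (hN : N.Prime) (h : (N : ℤ) = (4 * t + 1) ^ 2 + 64) :
    (∀ W ∈ ({setzerA t, setzerB t} : Set (WeierstrassCurve ℤ)), W.IsSemistableModel ∧ W.Δ ≠ 0 ∧
      W.conductorLevel = N ∧ HasTwoTorsion W) ∧ ¬ IsIso (setzerA t) (setzerB t) ∧
    ∀ W : WeierstrassCurve ℤ, W.Δ ≠ 0 → W.IsSemistableModel → W.conductorLevel = N →
      HasTwoTorsion W → IsIso W (setzerA t) ∨ IsIso W (setzerB t) := by
  refine ⟨?_, not_isIso hN h, ?_⟩
  · intro W hW
    rcases hW with rfl | rfl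
    · obtain ⟨h1, h2, h3⟩ := setzerA_props hN h
      exact ⟨h1, h2, h3, setzerA_two t⟩
    · obtain ⟨h1, h2, h3⟩ := setzerB_props hN h
      exact ⟨h1, h2, h3, setzerB_two t⟩
  · intro W hΔ hss hcond h2
    obtain ⟨m, hm⟩ := exists_exponent hΔ hN hcond
    have hodd := odd_disc hss hN hm
    have h64 := large_of hN h
    have h17 : ∀ j : ℕ, j ≠ 0 → N ^ m ≠ 17 ^ j := by
      intro j hj hc
      have := (pow_eq_prime (by norm_num) hN hc hj).1
      omega
    rcases disc_two hss hN hm h2 with ⟨h1, -⟩ | ⟨h1, -⟩ | ⟨h1, -⟩ | ⟨u, hu, h3⟩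
    · exact absurd (by rw [← hm, h1]; norm_num) (h17 1 (by norm_num))
    · exact absurd (by rw [← hm, h1]; norm_num) (h17 2 (by norm_num))
    · exact absurd (by rw [← hm, h1]; norm_num) (h17 4 (by norm_num))
    · rcases h3 with ⟨h4, h5⟩ | ⟨h4, h5⟩
      · left
        refine isIso_of hodd ?_ ?_
        · rw [h4, setzerA_Δ, h]
        · rw [h5, setzerA_c₄, h]; ring
      · right
        refine isIso_of hodd ?_ ?_
        · rw [h4, setzerB_Δ, h]
        · rw [h5, setzerB_c₄, h]; ring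

/-- If `N ≠ 17` is a prime number which is not of the form `u² + 64`, then no semistable elliptic curve of conductor `N`
has a rational point of order `2`. -/
theorem no_two_torsion (hN : N.Prime) (h17 : N ≠ 17) (h : ∀ u : ℤ, (N : ℤ) ≠ u ^ 2 + 64)
    {W : WeierstrassCurve ℤ} (hΔ : W.Δ ≠ 0) (hss : W.IsSemistableModel)
    (hcond : W.conductorLevel = N) : ¬ HasTwoTorsion W := by
  intro h2
  obtain ⟨m, hm⟩ := exists_exponent hΔ hN hcond
  rcases setzer_neumann hss hN hm h2 with ⟨⟨u, hu⟩, -⟩ | ⟨h3, -⟩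
  · exact h u hu
  · exact h17 h3

end

end Fermat.Agent.Cor.H18Cl
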