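import Fermat.Agent.Cor.H18Cl10
import Fermat.Agent.Cor.SemistableTable

/-!
# The semistable elliptic curves of conductor 37

There are two systems of eigenvalues of level `37`, those of `E37a : y² + y = x³ - x` (rank one) and of
`E37b : y² + y = x³ + x² - 3 x + 1`. Up to isomorphism over `ℚ` there are exactly three semistable elliptic curves of
conductor `37` with the second system of eigenvalues (`thirtyseven_b`). Hence a semistable elliptic curve of conductor
`37` either has the same number of points as `E37a` modulo all primes, or it is one of these three curves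
(`conductor_thirtyseven`).

This file is not used by any of the statement files.
-/

set_option autoImplicit false

namespace Fermat.Agent.Cor.H18Cl

open WeierstrassCurve Fermat.Agent.Cor.H18MO Fermat.Agent.Cor.SemistableTable
open Fermat.Agent.Cor.EigenTable (apOfModel_of_cnt)
open Fermat.Agent.Cor.GenusOne (not_dvd_of_ne nonsingular_of add_self_eq add_eq_zero
  dvd_card_of_addOrderOf addOrderOf_eq_three)

theorem three_dvd_card_E37b {ℓ : ℕ} [Fact ℓ.Prime] (h : ¬ ℓ ∣ 37) :
    3 ∣ (E37b.reductionMod ℓ).card := by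
  have hd : ¬ (ℓ : ℤ) ∣ E37b.Δ := by
    rw [E37b_Δ]
    exact not_dvd_of_ne (N := 37) (by decide +kernel) (by norm_num) (by norm_num) h
  have hA : (E37b.reductionMod ℓ).toAffine.Nonsingular 1 0 := nonsingular_of hd (by
    simp [E37b]; ring)
  have hB : (E37b.reductionMod ℓ).toAffine.Nonsingular 1 (-1) := nonsingular_of hd (by
    simp [E37b]; ring)
  have h1 : Affine.Point.some _ _ hA + Affine.Point.some _ _ hA = Affine.Point.some _ _ hB := by
    refine add_self_eq hA hB 2 ?_ ?_ ?_ ?_
    · simp [reductionMod, E37b]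
    · simp [reductionMod, E37b]
    · simp [reductionMod, E37b]; ring
    · simp [reductionMod, E37b]
  have h2 : Affine.Point.some _ _ hA + Affine.Point.some _ _ hB = 0 := by
    refine add_eq_zero hA hB ?_
    simp [reductionMod, E37b]
  exact dvd_card_of_addOrderOf (Affine.Point.some _ _ hA)
    (addOrderOf_eq_three h1 h2 (Affine.Point.some_ne_zero _))

variable {W : WeierstrassCurve ℤ}

/-- a semistable curve with the traces of `E37b` has a rational isogeny of degree `3` -/
theorem reducible_three_of_E37b (hΔ : W.Δ ≠ 0) (hss : W.IsSemistableModel)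
    (h : SameTraces W E37b) : ¬ W.ModRepIsIrreducible 3 := by
  intro hirr
  obtain ⟨ℓ, hℓ, h1, h2⟩ := exists_not_dvd (by norm_num) hΔ hss hirr (by norm_num) {37}
  apply h2
  have : Fact ℓ.Prime := ⟨hℓ⟩
  have h3 : ¬ ℓ ∣ 37 := by
    intro h4
    apply h1
    rw [Finset.mem_singleton]
    exact (Nat.prime_dvd_prime_iff_eq hℓ (by norm_num)).mp h4
  rw [h.2 ℓ hℓ (by rw [h.1, conductorLevel_E37b]; exact h3), ← card_eq]
  exact_mod_cast three_dvd_card_E37b h3

/-- the three curves of conductor `37` which are isogenous to `E37b` -/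
def list37b : Fin 3 → WeierstrassCurve ℤ :=
  ![⟨0, 1, 1, -3, 1⟩, ⟨0, 1, 1, -1873, -31833⟩, ⟨0, 1, 1, -23, -50⟩]

theorem complete_E37b (hΔ : W.Δ ≠ 0) (hss : W.IsSemistableModel) (h : SameTraces W E37b) :
    ∃ i, IsIso W (list37b i) := by
  have hN : Nat.Prime 37 := by norm_num
  obtain ⟨m, hm⟩ := exists_exponent hΔ hN (h.1.trans conductorLevel_E37b)
  have hodd := odd_disc hss hN hm
  have h19 : ∀ j : ℕ, j ≠ 0 → 37 ^ m ≠ 19 ^ j := by
    intro j hj hc
    have := (pow_eq_prime (by norm_num) hN hc hj).1
    omega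
  rcases disc_three hss hN hm (reducible_three_of_E37b hΔ hss h) with
    ⟨h1, -⟩ | ⟨h1, -⟩ | ⟨h1, h2 | h2⟩ | ⟨h1, h2⟩
  · exact absurd (by rw [← hm, h1]; norm_num) (h19 1 (by norm_num))
  · exact absurd (by rw [← hm, h1]; norm_num) (h19 3 (by norm_num))
  · exact ⟨0, isIso_of hodd (by rw [h1]; decide) (by rw [h2]; decide)⟩
  · exact ⟨1, isIso_of hodd (by rw [h1]; decide) (by rw [h2]; decide)⟩
  · exact ⟨2, isIso_of hodd (by rw [h1]; decide) (by rw [h2]; decide)⟩

/-- **The semistable elliptic curves of conductor 37**: the traces of `E37a`, or one of three curves. -/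
theorem conductor_thirtyseven (hΔ : W.Δ ≠ 0) (hss : W.IsSemistableModel)
    (h : W.conductorLevel = 37) :
    SameTraces W E37a ∨ IsIso W ⟨0, 1, 1, -3, 1⟩ ∨ IsIso W ⟨0, 1, 1, -1873, -31833⟩ ∨
      IsIso W ⟨0, 1, 1, -23, -50⟩ := by
  rcases conductor_37 hΔ hss h with h1 | h1
  · exact Or.inl h1
  · obtain ⟨i, hi⟩ := complete_E37b hΔ hss h1
    fin_cases i
    · exact Or.inr (Or.inl hi)
    · exact Or.inr (Or.inr (Or.inl hi))
    · exact Or.inr (Or.inr (Or.inr hi))

theorem list37b_props (i : Fin 3) : (list37b i).IsSemistableModel ∧ (list37b i).Δ ≠ 0 ∧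
    (list37b i).conductorLevel = 37 := by
  fin_cases i
  · exact conductor_of (m := 1) (D := 37) (c := 160) (by norm_num) (by norm_num) (by decide)
      (by decide) (by decide) (by norm_num)
  · exact conductor_of (m := 1) (D := 37) (c := 89920) (by norm_num) (by norm_num) (by decide)
      (by decide) (by decide) (by norm_num)
  · exact conductor_of (m := 3) (D := 50653) (c := 1120) (by norm_num) (by norm_num) (by decide)
      (by decide) (by decide) (by norm_num)

theorem list37b_a2 (i : Fin 3) : (list37b i).apOfModel 2 = 0 := by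
  fin_cases i
  · exact apOfModel_of_cnt (D := 37) (by norm_num) (by decide) (by norm_num) (by decide)
  · exact apOfModel_of_cnt (D := 37) (by norm_num) (by decide) (by norm_num) (by decide)
  · exact apOfModel_of_cnt (D := 50653) (by norm_num) (by decide) (by norm_num) (by decide)

theorem list37b_traces (i : Fin 3) : SameTraces (list37b i) E37b := by
  obtain ⟨h1, h2, h3⟩ := list37b_props i
  rcases conductor_37 h2 h1 h3 with h4 | h4
  · exfalso
    have h5 := h4.2 2 Nat.prime_two (by rw [h3]; norm_num)
    rw [list37b_a2, E37a_a2] at h5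
    norm_num at h5
  · exact h4

/-- **There are exactly three isomorphism classes of semistable elliptic curves of conductor 37 with the traces of
Frobenius of `E37b`.** -/
theorem thirtyseven_b :
    (∀ i, (list37b i).IsSemistableModel ∧ (list37b i).Δ ≠ 0 ∧ (list37b i).conductorLevel = 37 ∧
      SameTraces (list37b i) E37b) ∧ (∀ i j, IsIso (list37b i) (list37b j) → i = j) ∧
    ∀ W : WeierstrassCurve ℤ, W.Δ ≠ 0 → W.IsSemistableModel → SameTraces W E37b →
      ∃ i, IsIso W (list37b i) := by
  refine ⟨fun i => ⟨(list37b_props i).1, (list37b_props i).2.1, (list37b_props i).2.2,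
    list37b_traces i⟩, fun i j h => ?_, fun W hΔ hss h => complete_E37b hΔ hss h⟩
  have h1 := h.j_eq
  revert h1
  fin_cases i <;> fin_cases j <;> first | (intro _; rfl) | (intro h2; exact absurd h2 (by decide))

end Fermat.Agent.Cor.H18Cl
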