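import Fermat.Agent.Cor.H18Cl9
import Fermat.Agent.Cor.Conductor23

/-!
# The ten semistable elliptic curves of prime conductor less than 31

Up to isomorphism over `ℚ` there are exactly ten semistable elliptic curves whose conductor is a prime number less than
`31`: three of conductor `11`, four of conductor `17` and three of conductor `19` (`prime_conductor_lt`).

This file is not used by any of the statement files.
-/

set_option autoImplicit false

namespace Fermat.Agent.Cor.H18Cl

open WeierstrassCurve Fermat.Agent.Cor.H18MO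

/-- the ten semistable curves of prime conductor less than `31` -/
def list31 : Fin 10 → WeierstrassCurve ℤ :=
  ![⟨0, -1, 1, 0, 0⟩, ⟨0, -1, 1, -7820, -263580⟩, ⟨0, -1, 1, -10, -20⟩,
    ⟨1, -1, 1, -1, 0⟩, ⟨1, -1, 1, -91, -310⟩, ⟨1, -1, 1, -6, -4⟩, ⟨1, -1, 1, -1, -14⟩,
    ⟨0, 1, 1, 1, 0⟩, ⟨0, 1, 1, -769, -8470⟩, ⟨0, 1, 1, -9, -15⟩]

theorem list31_props (i : Fin 10) : (list31 i).IsSemistableModel ∧ (list31 i).Δ ≠ 0 ∧
    (list31 i).conductorLevel ∈ ({11, 17, 19} : Finset ℕ) := by
  have key : ∀ {W : WeierstrassCurve ℤ} {N : ℕ}, N ∈ ({11, 17, 19} : Finset ℕ) →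
      (W.IsSemistableModel ∧ W.Δ ≠ 0 ∧ W.conductorLevel = N) →
      W.IsSemistableModel ∧ W.Δ ≠ 0 ∧ W.conductorLevel ∈ ({11, 17, 19} : Finset ℕ) :=
    fun h1 h2 => ⟨h2.1, h2.2.1, by rw [h2.2.2]; exact h1⟩
  fin_cases i
  · exact key (by decide) (list11_props 0)
  · exact key (by decide) (list11_props 1)
  · exact key (by decide) (list11_props 2)
  · exact key (by decide) (list17_props 0)
  · exact key (by decide) (list17_props 1)
  · exact key (by decide) (list17_props 2)
  · exact key (by decide) (list17_props 3)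
  · exact key (by decide) (list19_props 0)
  · exact key (by decide) (list19_props 1)
  · exact key (by decide) (list19_props 2)

theorem list31_injective (i j : Fin 10) (h : IsIso (list31 i) (list31 j)) : i = j := by
  have h1 := h.j_eq
  revert h1
  revert i j
  intro i j _
  fin_cases i <;> fin_cases j <;> first | (intro _; rfl) | (intro h2; exact absurd h2 (by decide))

/-- **The semistable elliptic curves of prime conductor less than 31.** Up to isomorphism over `ℚ` there are exactly
ten of them. -/
theorem prime_conductor_lt :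
    (∀ i, (list31 i).IsSemistableModel ∧ (list31 i).Δ ≠ 0 ∧ (list31 i).conductorLevel.Prime ∧
      (list31 i).conductorLevel < 31) ∧
    (∀ i j, IsIso (list31 i) (list31 j) → i = j) ∧
    ∀ W : WeierstrassCurve ℤ, W.Δ ≠ 0 → W.IsSemistableModel → W.conductorLevel.Prime →
      W.conductorLevel < 31 → ∃ i, IsIso W (list31 i) := by
  refine ⟨fun i => ?_, list31_injective, fun W hΔ hss hp hlt => ?_⟩
  · obtain ⟨h1, h2, h3⟩ := list31_props i
    refine ⟨h1, h2, ?_⟩
    simp only [Finset.mem_insert, Finset.mem_singleton] at h3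
    rcases h3 with h3 | h3 | h3 <;> rw [h3] <;> norm_num
  · have h1 := (Conductor23.exists_conductorLevel_iff hlt).mp ⟨W, hΔ, hss, rfl⟩
    simp only [Finset.mem_insert, Finset.mem_singleton] at h1
    have hcase : W.conductorLevel = 11 ∨ W.conductorLevel = 17 ∨ W.conductorLevel = 19 := by
      rcases h1 with h | h | h | h | h | h | h | h
      · exact Or.inl h
      · rw [h] at hp; exact absurd hp (by norm_num)
      · rw [h] at hp; exact absurd hp (by norm_num)
      · exact Or.inr (Or.inl h)
      · exact Or.inr (Or.inr h)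
      · rw [h] at hp; exact absurd hp (by norm_num)
      · rw [h] at hp; exact absurd hp (by norm_num)
      · rw [h] at hp; exact absurd hp (by norm_num)
    rcases hcase with h | h | h
    · rcases conductor_eleven hΔ hss h with h2 | h2 | h2
      · exact ⟨0, h2⟩
      · exact ⟨1, h2⟩
      · exact ⟨2, h2⟩
    · rcases conductor_seventeen hΔ hss h with h2 | h2 | h2 | h2
      · exact ⟨3, h2⟩
      · exact ⟨4, h2⟩
      · exact ⟨5, h2⟩
      · exact ⟨6, h2⟩
    · rcases conductor_nineteen hΔ hss h with h2 | h2 | h2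
      · exact ⟨7, h2⟩
      · exact ⟨8, h2⟩
      · exact ⟨9, h2⟩

end Fermat.Agent.Cor.H18Cl
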