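import Fermat.Agent.Cor.H18MO9
import Fermat.Agent.Cor.H18Cl1

/-!
# Integral Weierstrass curves with odd discriminant and the same `Δ` and `c₄` are isomorphic over `ℚ`

This file is not used by any of the statement files.
-/

set_option autoImplicit false

namespace Fermat.Agent.Cor.H18Cl

open WeierstrassCurve Fermat.Agent.Cor.H18MO

/-- the change of variables to the short normal form -/
noncomputable def toShort (E : WeierstrassCurve ℚ) : VariableChange ℚ :=
  ⟨1, -E.b₂ / 12, -E.a₁ / 2, -E.a₃ / 2 + E.a₁ * E.b₂ / 24⟩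

theorem toShort_smul (E : WeierstrassCurve ℚ) :
    toShort E • E = ⟨0, 0, 0, -E.c₄ / 48, -E.c₆ / 864⟩ := by
  ext
  · rw [variableChange_a₁, toShort]
    simp only [inv_one, Units.val_one]
    ring
  · rw [variableChange_a₂, toShort]
    simp only [inv_one, Units.val_one, WeierstrassCurve.b₂]
    ring
  · rw [variableChange_a₃, toShort]
    simp only [inv_one, Units.val_one, WeierstrassCurve.b₂]
    ring
  · rw [variableChange_a₄, toShort]
    simp only [inv_one, Units.val_one, WeierstrassCurve.b₂, WeierstrassCurve.b₄,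
      WeierstrassCurve.c₄]
    ring
  · rw [variableChange_a₆, toShort]
    simp only [inv_one, Units.val_one, WeierstrassCurve.b₂, WeierstrassCurve.b₄,
      WeierstrassCurve.b₆, WeierstrassCurve.c₆]
    ring

/-- Weierstrass curves over `ℚ` with the same `c₄` and `c₆` are isomorphic -/
theorem iso_of_c {E E' : WeierstrassCurve ℚ} (h4 : E.c₄ = E'.c₄) (h6 : E.c₆ = E'.c₆) :
    ∃ C : VariableChange ℚ, C • E = E' := by
  refine ⟨(toShort E')⁻¹ * toShort E, ?_⟩
  rw [mul_smul, toShort_smul, h4, h6, ← toShort_smul, inv_smul_smul]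

/-- `c₆` modulo `4` or `32` -/
theorem c₆_mod (W : WeierstrassCurve ℤ) (hodd : ¬ (2 : ℤ) ∣ W.Δ) :
    W.c₆ % 4 = 3 ∨ W.c₆ % 32 = 8 := by
  rcases Int.even_or_odd' W.a₁ with ⟨c, hc | hc⟩
  · -- `a₁` even, hence `a₃` odd
    right
    rcases Int.even_or_odd' W.a₃ with ⟨d, hd | hd⟩
    · exfalso
      apply hodd
      rw [WeierstrassCurve.Δ, WeierstrassCurve.b₂, WeierstrassCurve.b₄, WeierstrassCurve.b₆,
        WeierstrassCurve.b₈, hc, hd]
      ring_nf
      omega
    · obtain ⟨e, he⟩ : ∃ e, d ^ 2 + d = 2 * e := by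
        rcases Int.even_or_odd' d with ⟨f, hf | hf⟩
        · exact ⟨2 * f ^ 2 + f, by rw [hf]; ring⟩
        · exact ⟨2 * f ^ 2 + 3 * f + 1, by rw [hf]; ring⟩
      have e6 : W.b₆ = 4 * (2 * e + W.a₆) + 1 := by
        rw [WeierstrassCurve.b₆, hd]
        linear_combination 4 * he
      have e2 : W.b₂ = 4 * (c ^ 2 + W.a₂) := by rw [WeierstrassCurve.b₂, hc]; ring
      have e4 : W.b₄ = 2 * (W.a₄ + c * (2 * d + 1)) := by rw [WeierstrassCurve.b₄, hc, hd]; ring
      have e7 : W.c₆ = 32 * (-2 * (c ^ 2 + W.a₂) ^ 3 + 9 * (c ^ 2 + W.a₂) *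
          (W.a₄ + c * (2 * d + 1)) - 27 * (2 * e + W.a₆) - 7) + 8 := by
        rw [WeierstrassCurve.c₆, e6, e2, e4]; ring
      rw [e7]
      omega
  · left
    have e2 : W.b₂ = 4 * (c ^ 2 + c + W.a₂) + 1 := by rw [WeierstrassCurve.b₂, hc]; ring
    have e7 : W.c₆ = 4 * (-(16 * (c ^ 2 + c + W.a₂) ^ 3 + 12 * (c ^ 2 + c + W.a₂) ^ 2 +
        3 * (c ^ 2 + c + W.a₂)) + 9 * W.b₂ * W.b₄ - 54 * W.b₆ - 1) + 3 := by
      rw [WeierstrassCurve.c₆]
      linear_combination (-(W.b₂ ^ 2 + W.b₂ * (4 * (c ^ 2 + c + W.a₂) + 1) +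
        (4 * (c ^ 2 + c + W.a₂) + 1) ^ 2)) * e2
    rw [e7]
    omega

/-- `W` and `W'` are isomorphic over `ℚ` -/
def IsIso (W W' : WeierstrassCurve ℤ) : Prop :=
  ∃ C : VariableChange ℚ, C • W.map (Int.castRingHom ℚ) = W'.map (Int.castRingHom ℚ)

/-- integral Weierstrass curves with odd discriminant and the same `Δ` and `c₄` are isomorphic -/
theorem isIso_of {W W' : WeierstrassCurve ℤ} (hodd : ¬ (2 : ℤ) ∣ W.Δ) (hΔ : W.Δ = W'.Δ)
    (hc : W.c₄ = W'.c₄) : IsIso W W' := by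
  have h6 : W.c₆ = W'.c₆ := by
    have h1 := W.c_relation
    have h2 := W'.c_relation
    rw [hΔ, hc, h2] at h1
    have h3 : W.c₆ ^ 2 = W'.c₆ ^ 2 := by linarith
    rcases sq_eq_sq_iff_eq_or_eq_neg.mp h3 with h4 | h4
    · exact h4
    · have h5 := c₆_mod W hodd
      have h7 := c₆_mod W' (by rwa [← hΔ])
      omega
  apply iso_of_c
  · rw [map_c₄, map_c₄, hc]
  · rw [map_c₆, map_c₆, h6]

end Fermat.Agent.Cor.H18Cl
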