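import Fermat.Agent.Cor.H18Cl2

/-!
# Classification of the semistable elliptic curves of prime conductor with a rational isogeny of degree 2, 3 or 5

Let `W` be a semistable elliptic curve over `ℚ` of prime conductor `N`.

* `class_five`: if `W[5]` is reducible, then `W` is isomorphic over `ℚ` to one of the three curves of conductor `11`;
* `class_three`: if `W[3]` is reducible, then `W` is isomorphic over `ℚ` to one of the three curves `19a1`, `19a2`, `19a3`
  of conductor `19` or to one of the three curves `37b1`, `37b2`, `37b3` of conductor `37`;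
* `class_two` (Setzer, Neumann): if `W` has a rational point of order `2`, then `W` is isomorphic over `ℚ` to one of the
  four curves of conductor `17`, or `N = (4 t + 1)² + 64` and `W` is isomorphic to one of the two Setzer–Neumann curves
  `y² + x y = x³ + t x² - x`, `y² + x y = x³ + t x² + 4 x + (4 t + 1)`.

This file is not used by any of the statement files.
-/

set_option autoImplicit false

namespace Fermat.Agent.Cor.H18Cl

open WeierstrassCurve WeierstrassCurve.Affine WeierstrassCurve.Affine.Point Fermat.Agent.Cor.H18MO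

local notation "Kbar" => AlgebraicClosure ℚ

/-! ### points of order two -/

/-- from a rational root to the equation of `core2'` -/
theorem exists_xy' {a b Δ c₄ : ℤ} (hodd : ¬ (2 : ℤ) ∣ Δ) (h1 : b ^ 2 * (a ^ 2 - 4 * b) = 256 * Δ)
    (hc : c₄ = a ^ 2 - 3 * b) (hc' : (¬ (2 : ℤ) ∣ c₄) ∨ (16 : ℤ) ∣ c₄) :
    ∃ a' x y : ℤ, y = a' ^ 2 - 64 * x ∧
      ((Δ = x ^ 2 * y ∧ c₄ = y + 16 * x) ∨ (Δ = x * y ^ 2 ∧ c₄ = y + 256 * x)) := by
  rcases hc' with hc' | ⟨c', hc'⟩
  · rcases Int.even_or_odd' a with ⟨a', ha | ha⟩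
    · -- `a` even, `b` odd
      subst ha
      have hb : ¬ (2 : ℤ) ∣ b := by
        intro hb
        apply hc'
        rw [hc]
        exact dvd_sub ⟨2 * a' ^ 2, by ring⟩ (Dvd.dvd.mul_left hb 3)
      have h2 : b ^ 2 * (a' ^ 2 - b) = 64 * Δ := by
        have : (4 : ℤ) * (b ^ 2 * (a' ^ 2 - b)) = 4 * (64 * Δ) := by linear_combination h1
        exact mul_left_cancel₀ (by norm_num) this
      have hco : IsCoprime (64 : ℤ) (b ^ 2) := by
        have k1 : IsCoprime (2 : ℤ) b := (Int.prime_two.coprime_iff_not_dvd).mpr hb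
        have k2 := (k1.pow_left (m := 6)).pow_right (n := 2)
        norm_num at k2
        exact k2
      obtain ⟨x, hx⟩ : (64 : ℤ) ∣ a' ^ 2 - b := hco.dvd_of_dvd_mul_left ⟨Δ, h2⟩
      refine ⟨a', x, b, by linarith, Or.inr ⟨?_, ?_⟩⟩
      · have : (64 : ℤ) * Δ = 64 * (x * b ^ 2) := by rw [← h2, hx]; ring
        exact mul_left_cancel₀ (by norm_num) this
      · rw [hc]
        linear_combination 4 * hx
    · -- `a` odd
      have hao : ¬ (2 : ℤ) ∣ a := by omega
      have hco : IsCoprime ((16 : ℤ) ^ 2) (a ^ 2 - 4 * b) := by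
        have k1 : IsCoprime (2 : ℤ) (a ^ 2 - 4 * b) := by
          rw [Int.prime_two.coprime_iff_not_dvd]
          intro h
          apply hao
          apply Int.prime_two.dvd_of_dvd_pow (n := 2)
          have e : a ^ 2 = (a ^ 2 - 4 * b) + 2 * (2 * b) := by ring
          rw [e]
          exact dvd_add h (dvd_mul_right _ _)
        have k2 := k1.pow_left (m := 8)
        norm_num at k2 ⊢
        exact k2
      have h3 : (16 : ℤ) ^ 2 ∣ b ^ 2 := hco.dvd_of_dvd_mul_right ⟨Δ, by rw [h1]; norm_num⟩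
      obtain ⟨x, rfl⟩ := (Int.pow_dvd_pow_iff two_ne_zero).mp h3
      refine ⟨a, x, a ^ 2 - 64 * x, rfl, Or.inl ⟨?_, ?_⟩⟩
      · have : (256 : ℤ) * Δ = 256 * (x ^ 2 * (a ^ 2 - 64 * x)) := by rw [← h1]; ring
        exact mul_left_cancel₀ (by norm_num) this
      · rw [hc]; ring
  · exfalso
    have ha2 : (2 : ℤ) ∣ a := by
      by_contra ha
      have hb : ¬ (2 : ℤ) ∣ b := by
        intro hb
        apply ha
        apply Int.prime_two.dvd_of_dvd_pow (n := 2)
        have e : a ^ 2 = 2 * (8 * c') + 3 * b := by linarith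
        rw [e]
        exact dvd_add (dvd_mul_right _ _) (Dvd.dvd.mul_left hb _)
      have h2 : (2 : ℤ) ∣ b ^ 2 * (a ^ 2 - 4 * b) := ⟨128 * Δ, by rw [h1]; ring⟩
      rcases Int.prime_two.dvd_or_dvd h2 with h3 | h3
      · exact hb (Int.prime_two.dvd_of_dvd_pow h3)
      · apply ha
        apply Int.prime_two.dvd_of_dvd_pow (n := 2)
        have e : a ^ 2 = (a ^ 2 - 4 * b) + 2 * (2 * b) := by ring
        rw [e]
        exact dvd_add h3 (dvd_mul_right _ _)
    obtain ⟨a', rfl⟩ := ha2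
    obtain ⟨b₁, rfl⟩ : (4 : ℤ) ∣ b := by
      have e : 3 * b = 4 * (a' ^ 2 - 4 * c') := by linarith [hc, hc']
      omega
    have h2 : b₁ ^ 2 * (a' ^ 2 - 4 * b₁) = 4 * Δ := by
      have : (64 : ℤ) * (b₁ ^ 2 * (a' ^ 2 - 4 * b₁)) = 64 * (4 * Δ) := by linear_combination h1
      exact mul_left_cancel₀ (by norm_num) this
    have h3 : a' ^ 2 = 3 * b₁ + 4 * c' := by linarith [hc, hc']
    rcases Int.even_or_odd' a' with ⟨a₂, ha | ha⟩
    · obtain ⟨b₂, rfl⟩ : (4 : ℤ) ∣ b₁ := by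
        have e : 3 * b₁ = 4 * (a₂ ^ 2 - c') := by rw [ha] at h3; linarith [h3]
        omega
      apply hodd
      rw [ha] at h2
      have : (4 : ℤ) * Δ = 4 * (2 * (8 * b₂ ^ 2 * (a₂ ^ 2 - 4 * b₂))) := by rw [← h2]; ring
      exact ⟨_, mul_left_cancel₀ (by norm_num) this⟩
    · rw [ha] at h3 h2
      -- `b₁` is odd
      have hb₁ : ¬ (2 : ℤ) ∣ b₁ := by
        intro h
        have e : 4 * (a₂ ^ 2 + a₂) + 1 = 3 * b₁ + 4 * c' := by rw [← h3]; ring
        omega
      have h5 : (2 : ℤ) ∣ b₁ ^ 2 * ((2 * a₂ + 1) ^ 2 - 4 * b₁) := ⟨2 * Δ, by rw [h2]; ring⟩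
      rcases Int.prime_two.dvd_or_dvd h5 with h6 | h6
      · exact hb₁ (Int.prime_two.dvd_of_dvd_pow h6)
      · have e : (2 * a₂ + 1) ^ 2 - 4 * b₁ = 2 * (2 * (a₂ ^ 2 + a₂ - b₁)) + 1 := by ring
        rw [e] at h6
        omega

lemma sq_mod_five (a : ℤ) : a ^ 2 % 5 = 0 ∨ a ^ 2 % 5 = 1 ∨ a ^ 2 % 5 = 4 := by
  have h : a % 5 = 0 ∨ a % 5 = 1 ∨ a % 5 = 2 ∨ a % 5 = 3 ∨ a % 5 = 4 := by omega
  rcases h with h | h | h | h | h <;> rw [pow_two, Int.mul_emod, h] <;> norm_num

lemma sq_mod_four (a : ℤ) : a ^ 2 % 4 = 0 ∨ a ^ 2 % 4 = 1 := by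
  have h : a % 4 = 0 ∨ a % 4 = 1 ∨ a % 4 = 2 ∨ a % 4 = 3 := by omega
  rcases h with h | h | h | h <;> rw [pow_two, Int.mul_emod, h] <;> norm_num

/-- the discriminants and the invariants `c₄` of the curves of prime conductor with a rational point of order two -/
theorem core2' {N m : ℕ} (hN : N.Prime) (hN7 : 7 ≤ N) (hm : m ≠ 0) {a x y Δ c₄ : ℤ}
    (hΔ : Δ.natAbs = N ^ m) (hy : y = a ^ 2 - 64 * x) (hc : ¬ (N : ℤ) ∣ c₄)
    (hΔxy : (Δ = x ^ 2 * y ∧ c₄ = y + 16 * x) ∨ (Δ = x * y ^ 2 ∧ c₄ = y + 256 * x))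
    (hSN : ((∃ u : ℤ, (N : ℤ) = u ^ 2 + 64) ∧ (m = 1 ∨ m = 2)) ∨
      (N = 17 ∧ (m = 1 ∨ m = 2 ∨ m = 4))) :
    (Δ = 17 ∧ (c₄ = 33 ∨ c₄ = 4353)) ∨ (Δ = 289 ∧ c₄ = 273) ∨ (Δ = -83521 ∧ c₄ = 33) ∨
      ∃ u : ℤ, (N : ℤ) = u ^ 2 + 64 ∧
        ((Δ = N ∧ c₄ = N - 16) ∨ (Δ = -(N : ℤ) ^ 2 ∧ c₄ = N - 256)) := by
  have hxΔ : x ∣ Δ := by
    rcases hΔxy with ⟨h, -⟩ | ⟨h, -⟩
    · exact ⟨x * y, by rw [h]; ring⟩
    · exact ⟨y ^ 2, h⟩
  have hyΔ : y ∣ Δ := by
    rcases hΔxy with ⟨h, -⟩ | ⟨h, -⟩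
    · exact ⟨x ^ 2, by rw [h]; ring⟩
    · exact ⟨x * y, by rw [h]; ring⟩
  obtain ⟨s, hs⟩ := eq_pow_of_dvd hN hΔ hxΔ
  obtain ⟨t, ht⟩ := eq_pow_of_dvd hN hΔ hyΔ
  have hs' : x.natAbs = N ^ s := by
    rcases hs with h | h <;> rw [h] <;> simp [Int.natAbs_pow]
  have ht' : y.natAbs = N ^ t := by
    rcases ht with h | h <;> rw [h] <;> simp [Int.natAbs_pow]
  have hmm : m = 2 * s + t ∨ m = s + 2 * t := by
    rcases hΔxy with ⟨h, -⟩ | ⟨h, -⟩
    · left
      apply Nat.pow_right_injective hN.two_le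
      change N ^ m = N ^ (2 * s + t)
      rw [← hΔ, h, Int.natAbs_mul, Int.natAbs_pow, hs', ht', ← pow_mul, ← pow_add, mul_comm s 2]
    · right
      apply Nat.pow_right_injective hN.two_le
      change N ^ m = N ^ (s + 2 * t)
      rw [← hΔ, h, Int.natAbs_mul, Int.natAbs_pow, hs', ht', ← pow_mul, ← pow_add, mul_comm t 2]
  have hst : s = 0 ∨ t = 0 := by
    by_contra hcon
    push Not at hcon
    have h1 : (N : ℤ) ∣ x := by
      rw [← Int.natAbs_dvd_natAbs, hs', Int.natAbs_natCast]; exact dvd_pow_self N hcon.1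
    have h2 : (N : ℤ) ∣ y := by
      rw [← Int.natAbs_dvd_natAbs, ht', Int.natAbs_natCast]; exact dvd_pow_self N hcon.2
    apply hc
    rcases hΔxy with ⟨-, h⟩ | ⟨-, h⟩ <;> rw [h] <;>
      exact dvd_add h2 (Dvd.dvd.mul_left h1 _)
  rcases hst with hs0 | ht0
  · have ht0 : t ≠ 0 := by clear hSN; omega
    rw [hs0, pow_zero] at hs'
    rcases Int.natAbs_eq_iff.mp hs' with h1 | h1
    · -- `x = 1`
      have h17 := eqS1 hN hN7 ht' (a := a) (by rw [hy, h1]; norm_num)
      rw [h17] at ht'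
      have hy17 : y = 17 := by
        have h2 : y = a ^ 2 - 64 := by rw [hy, h1]; norm_num
        have h3 := sq_mod_four a
        omega
      have hx1 : x = 1 := by simpa using h1
      subst hy17 hx1
      rcases hΔxy with ⟨h2, h3⟩ | ⟨h2, h3⟩
      · left; exact ⟨by rw [h2]; norm_num, Or.inl (by rw [h3]; norm_num)⟩
      · right; left; exact ⟨by rw [h2]; norm_num, by rw [h3]; norm_num⟩
    · -- `x = -1`
      have hx1 : x = -1 := by simpa using h1
      subst hx1
      have hya : y = a ^ 2 + 64 := by rw [hy]; ring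
      have hyN : y = (N : ℤ) ^ t := by
        have h2 : (0 : ℤ) ≤ y := by rw [hya]; positivity
        rw [← Int.natAbs_of_nonneg h2, ht']; push_cast; rfl
      have htt : t = 1 ∨ (N = 17 ∧ t = 2) := by
        rcases hSN with ⟨⟨u, hu⟩, hm12⟩ | ⟨h17, hm124⟩
        · by_cases ht1 : t = 1
          · exact Or.inl ht1
          · exfalso
            have ht2 : t = 2 := by omega
            rw [ht2, hya] at hyN
            have h3 : (N : ℤ) ≥ 64 := by rw [hu]; nlinarith [sq_nonneg u]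
            have h4 : ((N : ℤ) - |a|) * ((N : ℤ) + |a|) = 64 := by
              have h9 : |a| ^ 2 = a ^ 2 := sq_abs a
              linear_combination -hyN - h9
            have h5 : 0 ≤ |a| := abs_nonneg a
            have h6 : (N : ℤ) - |a| ≤ 0 ∨ 1 ≤ (N : ℤ) - |a| := by omega
            rcases h6 with h6 | h6
            · nlinarith
            · have h7 : (N : ℤ) + |a| ≤ 64 := by nlinarith
              have hN64 : (N : ℤ) = 64 := by linarith
              have : N = 64 := by exact_mod_cast hN64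
              rw [this] at hN
              exact absurd hN (by norm_num)
        · have h3 : t = 1 ∨ t = 2 ∨ t = 4 := by omega
          rcases h3 with h3 | h3 | h3
          · exact Or.inl h3
          · exact Or.inr ⟨h17, h3⟩
          · exfalso
            rw [h17, h3, hya] at hyN
            have h4 := sq_mod_five a
            norm_num at hyN
            omega
      rcases htt with ht1 | ⟨h17, ht2⟩
      · right; right; right
        rw [ht1, pow_one] at hyN
        refine ⟨a, by rw [← hyN, hya], ?_⟩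
        rcases hΔxy with ⟨h2, h3⟩ | ⟨h2, h3⟩
        · left; exact ⟨by rw [h2, hyN]; ring, by rw [h3, hyN]; ring⟩
        · right; exact ⟨by rw [h2, hyN]; ring, by rw [h3, hyN]; ring⟩
      · rw [h17, ht2] at hyN
        norm_num at hyN
        rcases hΔxy with ⟨h2, h3⟩ | ⟨h2, h3⟩
        · right; left; exact ⟨by rw [h2, hyN]; norm_num, by rw [h3, hyN]; norm_num⟩
        · right; right; left; exact ⟨by rw [h2, hyN]; norm_num, by rw [h3, hyN]; norm_num⟩
  · have hs0 : s ≠ 0 := by clear hSN; omega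
    rw [ht0, pow_zero] at ht'
    rcases Int.natAbs_eq_iff.mp ht' with h1 | h1
    · -- `y = 1`
      have hy1 : y = 1 := by simpa using h1
      have h17 : N ^ s = 17 := eqS2 hN hN7 hs' (a := a) (by rw [hy1] at hy; linarith)
      rw [h17] at hs'
      have hx17 : x = 17 := by
        rw [hy1] at hy
        have := sq_nonneg a
        omega
      subst hx17 hy1
      rcases hΔxy with ⟨h2, h3⟩ | ⟨h2, h3⟩
      · right; left; exact ⟨by rw [h2]; norm_num, by rw [h3]; norm_num⟩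
      · left; exact ⟨by rw [h2]; norm_num, Or.inr (by rw [h3]; norm_num)⟩
    · exfalso
      push_cast at h1
      have h2 : a ^ 2 + 1 = 64 * x := by linarith
      have h3 := sq_mod_four a
      omega

end Fermat.Agent.Cor.H18Cl
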