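import Fermat.Agent.Cor.H18Cl3

/-!
# Classification of the semistable elliptic curves of prime conductor with a rational isogeny of degree 2, 3 or 5

Let `W` be a semistable elliptic curve over `ℚ` of prime conductor `N`.

* `class_five`: if `W[5]` is reducible, then `W` is isomorphic over `ℚ` to one of the three curves of conductor `11`;
* `class_three`: if `W[3]` is reducible, then `W` is isomorphic over `ℚ` to one of the three curves of conductor `19` or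
  to one of three curves of conductor `37`;
* `class_two` (Setzer, Neumann): if `W` has a rational point of order `2`, then `W` is isomorphic over `ℚ` to one of the
  four curves of conductor `17`, or `N = (4 t + 1)² + 64` and `W` is isomorphic to one of the two Setzer–Neumann curves
  `y² + x y = x³ + t x² - x`, `y² + x y = x³ + t x² + 4 x + (4 t + 1)`;
* `class_disc` (Mestre, Oesterlé): if `|Δ| ≠ N`, then `W` is isomorphic over `ℚ` to one of five curves of conductor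
  `11`, `17`, `17`, `19`, `37`, or to the second Setzer–Neumann curve.

This file is not used by any of the statement files.
-/

set_option autoImplicit false

namespace Fermat.Agent.Cor.H18Cl

open WeierstrassCurve WeierstrassCurve.Affine WeierstrassCurve.Affine.Point Fermat.Agent.Cor.H18MO

local notation "Kbar" => AlgebraicClosure ℚ

variable {W : WeierstrassCurve ℤ} {N m : ℕ}

/-- **Prime conductor and reducible `W[5]`**: the discriminant and the invariant `c₄`. -/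
theorem disc_five (hss : W.IsSemistableModel) (hN : N.Prime) (h : W.Δ.natAbs = N ^ m)
    (hred : ¬ W.ModRepIsIrreducible 5) :
    (W.Δ = -11 ∧ (W.c₄ = 16 ∨ W.c₄ = 375376)) ∨ (W.Δ = -161051 ∧ W.c₄ = 496) := by
  have hΔ := disc_ne_zero hN h
  have hΔQ : (W.map (Int.castRingHom ℚ)).Δ ≠ 0 := by
    rw [map_Δ]
    simpa using hΔ
  obtain ⟨s, p, h1, h2⟩ := S51.five_reducible (E := W.map (Int.castRingHom ℚ)) (disc_Kbar hΔ) hred
  obtain ⟨t, v, ht0, h3, h4⟩ := param_five _ hΔQ h1 h2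
  obtain ⟨a, b, hb, hab, rfl⟩ := exists_num_den t
  have hbQ : (b : ℚ) ≠ 0 := by exact_mod_cast hb.ne'
  have ha : a ≠ 0 := by
    rintro rfl
    exact ht0 (by simp)
  rw [map_Δ, map_c₄] at h3
  rw [map_Δ] at h4
  change ((W.c₄ : ℤ) : ℚ) ^ 3 * _ = ((W.Δ : ℤ) : ℚ) * _ at h3
  change ((W.Δ : ℤ) : ℚ) * _ * _ = _ at h4
  have e1 : W.c₄ ^ 3 * a * b ^ 5 = W.Δ * (a ^ 2 + 10 * a * b + 5 * b ^ 2) ^ 3 := by
    have : ((W.c₄ : ℤ) : ℚ) ^ 3 * a * b ^ 5 =
        ((W.Δ : ℤ) : ℚ) * ((a : ℚ) ^ 2 + 10 * a * b + 5 * b ^ 2) ^ 3 := by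
      have e : ((W.Δ : ℤ) : ℚ) * ((a : ℚ) ^ 2 + 10 * a * b + 5 * b ^ 2) ^ 3 =
          (((W.Δ : ℤ) : ℚ) * (((a : ℚ) / b) ^ 2 + 10 * ((a : ℚ) / b) + 5) ^ 3) * b ^ 6 := by
        field_simp
      rw [e, ← h3]
      field_simp
    exact_mod_cast this
  obtain ⟨w, hw⟩ : ∃ w : ℤ, W.Δ * a * b * (a ^ 2 + 22 * a * b + 125 * b ^ 2) = w ^ 2 := by
    apply exists_int_sq (v := v * b ^ 2)
    push_cast
    rw [mul_pow, ← h4]
    field_simp
  exact core5' hN (by have := eleven_le hss hN h; omega) (exponent_ne_zero h) h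
    (not_dvd_c₄ hss hN h) hab hb ha e1 hw

/-- **Prime conductor and reducible `W[3]`**: the discriminant and the invariant `c₄`. -/
theorem disc_three (hss : W.IsSemistableModel) (hN : N.Prime) (h : W.Δ.natAbs = N ^ m)
    (hred : ¬ W.ModRepIsIrreducible 3) :
    (W.Δ = -19 ∧ (W.c₄ = -32 ∨ W.c₄ = 36928)) ∨ (W.Δ = -6859 ∧ W.c₄ = 448) ∨
      (W.Δ = 37 ∧ (W.c₄ = 160 ∨ W.c₄ = 89920)) ∨ (W.Δ = 50653 ∧ W.c₄ = 1120) := by
  have hΔ := disc_ne_zero hN h
  have hc := not_dvd_c₄ hss hN h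
  have hc0 : W.c₄ ≠ 0 := by
    intro h0
    rw [h0] at hc
    exact hc (dvd_zero _)
  have hΔQ : (W.map (Int.castRingHom ℚ)).Δ ≠ 0 := by
    rw [map_Δ]
    simpa using hΔ
  have hcQ : (W.map (Int.castRingHom ℚ)).c₄ ≠ 0 := by
    rw [map_c₄]
    simpa using hc0
  obtain ⟨x, hx⟩ := S51.three_reducible (E := W.map (Int.castRingHom ℚ)) (disc_Kbar hΔ) hred
  have hx' : 3 * x ^ 4 + (W.map (Int.castRingHom ℚ)).b₂ * x ^ 3 +
      3 * (W.map (Int.castRingHom ℚ)).b₄ * x ^ 2 + 3 * (W.map (Int.castRingHom ℚ)).b₆ * x +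
      (W.map (Int.castRingHom ℚ)).b₈ = 0 := by
    apply (algebraMap ℚ Kbar).injective
    rw [_root_.map_zero, ← hx, H51.psi3]
    change _ = 3 * _ ^ 4 + ((W.map (Int.castRingHom ℚ)).map (algebraMap ℚ Kbar)).b₂ * _ ^ 3 +
      3 * ((W.map (Int.castRingHom ℚ)).map (algebraMap ℚ Kbar)).b₄ * _ ^ 2 +
      3 * ((W.map (Int.castRingHom ℚ)).map (algebraMap ℚ Kbar)).b₆ * _ +
      ((W.map (Int.castRingHom ℚ)).map (algebraMap ℚ Kbar)).b₈
    rw [map_b₂ (W.map (Int.castRingHom ℚ)), map_b₄ (W.map (Int.castRingHom ℚ)),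
      map_b₆ (W.map (Int.castRingHom ℚ)), map_b₈ (W.map (Int.castRingHom ℚ))]
    simp only [map_add, map_mul, map_pow, map_ofNat]
  obtain ⟨t, v, ht0, h3, h4⟩ := param_three _ hΔQ hcQ hx'
  obtain ⟨a, b, hb, hab, rfl⟩ := exists_num_den t
  have hbQ : (b : ℚ) ≠ 0 := by exact_mod_cast hb.ne'
  have ha : a ≠ 0 := by
    rintro rfl
    exact ht0 (by simp)
  rw [map_Δ, map_c₄] at h3
  rw [map_Δ] at h4
  change ((W.c₄ : ℤ) : ℚ) ^ 3 * _ = ((W.Δ : ℤ) : ℚ) * _ at h3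
  change ((W.Δ : ℤ) : ℚ) * _ = _ at h4
  have e1 : W.c₄ ^ 3 * a * b ^ 3 = W.Δ * ((a + 27 * b) * (a + 3 * b) ^ 3) := by
    have : ((W.c₄ : ℤ) : ℚ) ^ 3 * a * b ^ 3 =
        ((W.Δ : ℤ) : ℚ) * (((a : ℚ) + 27 * b) * (a + 3 * b) ^ 3) := by
      have e : ((W.Δ : ℤ) : ℚ) * (((a : ℚ) + 27 * b) * (a + 3 * b) ^ 3) =
          (((W.Δ : ℤ) : ℚ) * (((a : ℚ) / b + 27) * ((a : ℚ) / b + 3) ^ 3)) * b ^ 4 := by
        field_simp
      rw [e, ← h3]
      field_simp
    exact_mod_cast this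
  obtain ⟨w, hw⟩ : ∃ w : ℤ, W.Δ * a * b = w ^ 2 := by
    apply exists_int_sq (v := v * b)
    push_cast
    rw [mul_pow, ← h4]
    field_simp
  refine core3' hN (by have := eleven_le hss hN h; omega) h hc hab hb ha e1 hw ?_
  rintro ⟨c', hc'⟩
  obtain ⟨d₀, hd₀⟩ : (3 : ℤ) ∣ W.b₂ := by
    apply Int.prime_three.dvd_of_dvd_pow (n := 2)
    have e : W.b₂ ^ 2 = 3 * (c' + 8 * W.b₄) := by
      have : W.c₄ = W.b₂ ^ 2 - 24 * W.b₄ := rfl
      rw [this] at hc'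
      linear_combination hc'
    exact ⟨_, e⟩
  refine ⟨c', -d₀ ^ 3 + 4 * d₀ * W.b₄ - 8 * W.b₆, hc', ?_⟩
  have hrel := W.c_relation
  have h6 : W.c₆ = 27 * (-d₀ ^ 3 + 4 * d₀ * W.b₄ - 8 * W.b₆) := by
    rw [WeierstrassCurve.c₆, hd₀]
    ring
  rw [hc', h6] at hrel
  have e : (27 : ℤ) * (c' ^ 3 - 27 * (-d₀ ^ 3 + 4 * d₀ * W.b₄ - 8 * W.b₆) ^ 2) =
      27 * (64 * W.Δ) := by
    linear_combination -hrel
  exact mul_left_cancel₀ (by norm_num) e

/-- **Prime conductor and a rational point of order two**: the discriminant and the invariant `c₄`. -/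
theorem disc_two (hss : W.IsSemistableModel) (hN : N.Prime) (h : W.Δ.natAbs = N ^ m)
    (h2 : HasTwoTorsion W) :
    (W.Δ = 17 ∧ (W.c₄ = 33 ∨ W.c₄ = 4353)) ∨ (W.Δ = 289 ∧ W.c₄ = 273) ∨
      (W.Δ = -83521 ∧ W.c₄ = 33) ∨ ∃ u : ℤ, (N : ℤ) = u ^ 2 + 64 ∧
        ((W.Δ = N ∧ W.c₄ = N - 16) ∨ (W.Δ = -(N : ℤ) ^ 2 ∧ W.c₄ = N - 256)) := by
  have hSN := setzer_neumann hss hN h h2
  have hΔ := disc_ne_zero hN h
  have h11 := eleven_le hss hN h
  have hm := exponent_ne_zero h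
  have hNN : Prime (N : ℤ) := Nat.prime_iff_prime_int.mp hN
  have hN2 : ¬ 2 ∣ N ^ m := by
    intro hd
    have := (Nat.prime_dvd_prime_iff_eq Nat.prime_two hN).mp (Nat.prime_two.dvd_of_dvd_pow hd)
    omega
  have hodd : ¬ (2 : ℤ) ∣ W.Δ := by
    intro hd
    apply hN2
    rw [← h]
    exact Int.natCast_dvd.mp (by exact_mod_cast hd)
  obtain ⟨x, hx⟩ := h2
  obtain ⟨X, hX⟩ := int_root (X := 4 * x) (p := W.b₂) (q := 8 * W.b₄) (r := 16 * W.b₆) (by
    push_cast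
    linear_combination 16 * hx)
  have hXr : X ^ 3 + W.b₂ * X ^ 2 + 8 * W.b₄ * X + 16 * W.b₆ = 0 := by
    have : (X : ℚ) ^ 3 + W.b₂ * X ^ 2 + 8 * W.b₄ * X + 16 * W.b₆ = 0 := by
      rw [← hX]
      linear_combination 16 * hx
    exact_mod_cast this
  have hb8 := W.b_relation
  obtain ⟨a', x', y', h3, h4⟩ := exists_xy' (a := 3 * X + W.b₂)
    (b := 3 * X ^ 2 + 2 * W.b₂ * X + 8 * W.b₄) (Δ := W.Δ) (c₄ := W.c₄) hodd (by
      have e : W.Δ = -W.b₂ ^ 2 * W.b₈ - 8 * W.b₄ ^ 3 - 27 * W.b₆ ^ 2 + 9 * W.b₂ * W.b₄ * W.b₆ := rfl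
      have e6 : 16 * W.b₆ = -(X ^ 3 + W.b₂ * X ^ 2 + 8 * W.b₄ * X) := by linarith
      have e2 : 256 * W.Δ = -W.b₂ ^ 2 * (64 * (4 * W.b₈)) - 2048 * W.b₄ ^ 3 - 27 * (16 * W.b₆) ^ 2 +
          144 * W.b₂ * W.b₄ * (16 * W.b₆) := by rw [e]; ring
      have e8 : 64 * (4 * W.b₈) = 4 * W.b₂ * (16 * W.b₆) - 64 * W.b₄ ^ 2 := by
        rw [hb8]; ring
      rw [e2, e8, e6]
      ring) (by
      rw [WeierstrassCurve.c₄]
      ring) (c₄_odd_or W)
  exact core2' hN (by omega) hm h h3 (not_dvd_c₄ hss hN h) h4 hSN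

/-! ### the classification -/

theorem odd_disc (hss : W.IsSemistableModel) (hN : N.Prime) (h : W.Δ.natAbs = N ^ m) :
    ¬ (2 : ℤ) ∣ W.Δ := by
  intro hd
  have h11 := eleven_le hss hN h
  have h2 : 2 ∣ N ^ m := by
    rw [← h]
    exact Int.natCast_dvd.mp (by exact_mod_cast hd)
  have := (Nat.prime_dvd_prime_iff_eq Nat.prime_two hN).mp (Nat.prime_two.dvd_of_dvd_pow h2)
  omega

/-- **Classification for `5`**: a semistable elliptic curve of prime conductor with `W[5]` reducible is one of the three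
curves of conductor `11`. -/
theorem class_five (hss : W.IsSemistableModel) (hN : N.Prime) (h : W.Δ.natAbs = N ^ m)
    (hred : ¬ W.ModRepIsIrreducible 5) :
    IsIso W ⟨0, -1, 1, 0, 0⟩ ∨ IsIso W ⟨0, -1, 1, -7820, -263580⟩ ∨
      IsIso W ⟨0, -1, 1, -10, -20⟩ := by
  have hodd := odd_disc hss hN h
  rcases disc_five hss hN h hred with ⟨h1, h2 | h2⟩ | ⟨h1, h2⟩
  · exact Or.inl (isIso_of hodd (by rw [h1]; decide) (by rw [h2]; decide))
  · exact Or.inr (Or.inl (isIso_of hodd (by rw [h1]; decide) (by rw [h2]; decide)))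
  · exact Or.inr (Or.inr (isIso_of hodd (by rw [h1]; decide) (by rw [h2]; decide)))

/-- **Classification for `3`**: a semistable elliptic curve of prime conductor with `W[3]` reducible is one of three
curves of conductor `19` or one of three curves of conductor `37`. -/
theorem class_three (hss : W.IsSemistableModel) (hN : N.Prime) (h : W.Δ.natAbs = N ^ m)
    (hred : ¬ W.ModRepIsIrreducible 3) :
    (IsIso W ⟨0, 1, 1, 1, 0⟩ ∨ IsIso W ⟨0, 1, 1, -769, -8470⟩ ∨ IsIso W ⟨0, 1, 1, -9, -15⟩) ∨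
      (IsIso W ⟨0, 1, 1, -3, 1⟩ ∨ IsIso W ⟨0, 1, 1, -1873, -31833⟩ ∨
        IsIso W ⟨0, 1, 1, -23, -50⟩) := by
  have hodd := odd_disc hss hN h
  rcases disc_three hss hN h hred with ⟨h1, h2 | h2⟩ | ⟨h1, h2⟩ | ⟨h1, h2 | h2⟩ | ⟨h1, h2⟩
  · exact Or.inl (Or.inl (isIso_of hodd (by rw [h1]; decide) (by rw [h2]; decide)))
  · exact Or.inl (Or.inr (Or.inl (isIso_of hodd (by rw [h1]; decide) (by rw [h2]; decide))))
  · exact Or.inl (Or.inr (Or.inr (isIso_of hodd (by rw [h1]; decide) (by rw [h2]; decide))))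
  · exact Or.inr (Or.inl (isIso_of hodd (by rw [h1]; decide) (by rw [h2]; decide)))
  · exact Or.inr (Or.inr (Or.inl (isIso_of hodd (by rw [h1]; decide) (by rw [h2]; decide))))
  · exact Or.inr (Or.inr (Or.inr (isIso_of hodd (by rw [h1]; decide) (by rw [h2]; decide))))

/-- **The theorem of Setzer and Neumann**, with the curves. -/
theorem class_two (hss : W.IsSemistableModel) (hN : N.Prime) (h : W.Δ.natAbs = N ^ m)
    (h2 : HasTwoTorsion W) :
    (IsIso W ⟨1, -1, 1, -1, 0⟩ ∨ IsIso W ⟨1, -1, 1, -91, -310⟩ ∨ IsIso W ⟨1, -1, 1, -6, -4⟩ ∨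
      IsIso W ⟨1, -1, 1, -1, -14⟩) ∨
      ∃ t : ℤ, (N : ℤ) = (4 * t + 1) ^ 2 + 64 ∧
        (IsIso W ⟨1, t, 0, -1, 0⟩ ∨ IsIso W ⟨1, t, 0, 4, 4 * t + 1⟩) := by
  have hodd := odd_disc hss hN h
  rcases disc_two hss hN h h2 with ⟨h1, h2 | h2⟩ | ⟨h1, h2⟩ | ⟨h1, h2⟩ | ⟨u, hu, h3⟩
  · exact Or.inl (Or.inl (isIso_of hodd (by rw [h1]; decide) (by rw [h2]; decide)))
  · exact Or.inl (Or.inr (Or.inl (isIso_of hodd (by rw [h1]; decide) (by rw [h2]; decide))))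
  · exact Or.inl (Or.inr (Or.inr (Or.inl (isIso_of hodd (by rw [h1]; decide)
      (by rw [h2]; decide)))))
  · exact Or.inl (Or.inr (Or.inr (Or.inr (isIso_of hodd (by rw [h1]; decide)
      (by rw [h2]; decide)))))
  · obtain ⟨-, t, ht⟩ := exists_sign hN hu
    refine Or.inr ⟨t, ht, ?_⟩
    rcases h3 with ⟨h4, h5⟩ | ⟨h4, h5⟩
    · left
      refine isIso_of hodd ?_ ?_
      · rw [h4, ht]
        simp only [WeierstrassCurve.Δ, WeierstrassCurve.b₂, WeierstrassCurve.b₄,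
          WeierstrassCurve.b₆, WeierstrassCurve.b₈]
        ring
      · rw [h5, ht]
        simp only [WeierstrassCurve.c₄, WeierstrassCurve.b₂, WeierstrassCurve.b₄]
        ring
    · right
      refine isIso_of hodd ?_ ?_
      · rw [h4, ht]
        simp only [WeierstrassCurve.Δ, WeierstrassCurve.b₂, WeierstrassCurve.b₄,
          WeierstrassCurve.b₆, WeierstrassCurve.b₈]
        ring
      · rw [h5, ht]
        simp only [WeierstrassCurve.c₄, WeierstrassCurve.b₂, WeierstrassCurve.b₄]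
        ring

end Fermat.Agent.Cor.H18Cl
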