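import Fermat.Agent.Cor.H18Cl4

/-!
# The theorem of Mestre and Oesterlé, with the curves

This file is not used by any of the statement files.
-/

set_option autoImplicit false

namespace Fermat.Agent.Cor.H18Cl

open WeierstrassCurve Fermat.Agent.Cor.H18MO

variable {W : WeierstrassCurve ℤ} {N m : ℕ}

/-- **The theorem of Mestre and Oesterlé, with the curves.** A semistable elliptic curve of prime conductor `N` whose
discriminant is not `± N` is isomorphic over `ℚ` to one of the curves `11a1`, `19a1`, `37b1`, `17a1`, `17a2` or to the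
Setzer–Neumann curve `y² + x y = x³ + t x² + 4 x + (4 t + 1)`, where `N = (4 t + 1)² + 64`. -/
theorem class_disc (hss : W.IsSemistableModel) (hN : N.Prime) (h : W.Δ.natAbs = N ^ m)
    (hm : m ≠ 1) :
    IsIso W ⟨0, -1, 1, -10, -20⟩ ∨ IsIso W ⟨0, 1, 1, -9, -15⟩ ∨ IsIso W ⟨0, 1, 1, -23, -50⟩ ∨
      IsIso W ⟨1, -1, 1, -6, -4⟩ ∨ IsIso W ⟨1, -1, 1, -1, -14⟩ ∨
      ∃ t : ℤ, (N : ℤ) = (4 * t + 1) ^ 2 + 64 ∧ IsIso W ⟨1, t, 0, 4, 4 * t + 1⟩ := by
  have hodd := odd_disc hss hN h
  have hΔ := disc_ne_zero hN h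
  have hinj : ∀ {a b : ℕ}, N ^ a = N ^ b → a = b := fun {a b} hab =>
    Nat.pow_right_injective hN.two_le hab
  rcases Nat.even_or_odd m with hev | hod
  · -- `m` even
    have h2 := two_torsion_of_even hss hN h hev
    rcases disc_two hss hN h h2 with ⟨h1, -⟩ | ⟨h1, h3⟩ | ⟨h1, h3⟩ | ⟨u, hu, h3⟩
    · exfalso
      rw [h1] at h
      obtain ⟨h4, h5⟩ := pow_eq_prime (P := 17) (j := 1) (by norm_num) hN (by rw [← h]; rfl)
        (by norm_num)
      exact hm h5
    · exact Or.inr (Or.inr (Or.inr (Or.inl (isIso_of hodd (by rw [h1]; decide)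
        (by rw [h3]; decide)))))
    · exact Or.inr (Or.inr (Or.inr (Or.inr (Or.inl (isIso_of hodd (by rw [h1]; decide)
        (by rw [h3]; decide))))))
    · obtain ⟨-, t, ht⟩ := exists_sign hN hu
      refine Or.inr (Or.inr (Or.inr (Or.inr (Or.inr ⟨t, ht, ?_⟩))))
      rcases h3 with ⟨h4, -⟩ | ⟨h4, h5⟩
      · exfalso
        rw [h4, Int.natAbs_natCast] at h
        exact hm (hinj (by rw [← h, pow_one]))
      · refine isIso_of hodd ?_ ?_
        · rw [h4, ht]
          simp only [WeierstrassCurve.Δ, WeierstrassCurve.b₂, WeierstrassCurve.b₄,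
            WeierstrassCurve.b₆, WeierstrassCurve.b₈]
          ring
        · rw [h5, ht]
          simp only [WeierstrassCurve.c₄, WeierstrassCurve.b₂, WeierstrassCurve.b₄]
          ring
  · -- `m` odd
    obtain ⟨p, hp, hpm⟩ := Nat.exists_prime_and_dvd hm
    have hp2 : p ≠ 2 := by
      rintro rfl
      rw [Nat.odd_iff] at hod
      omega
    have : Fact p.Prime := ⟨hp⟩
    have hred : ¬ W.ModRepIsIrreducible p := by
      refine H07.reducible hΔ hss hp2 fun q hq => ?_
      have : Fact q.Prime := ⟨hq⟩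
      rw [padicValInt, h, padicValNat.pow]
      exact hpm.mul_right _
    rcases of_dvd_exponent hss hN h hp hp2 hpm with ⟨hN11, hm5, rfl⟩ | ⟨hN19, hm3, rfl⟩
    · rcases disc_five hss hN h hred with ⟨h1, -⟩ | ⟨h1, h3⟩
      · exfalso
        rw [h1, hN11, hm5] at h
        exact absurd h (by norm_num)
      · exact Or.inl (isIso_of hodd (by rw [h1]; decide) (by rw [h3]; decide))
    · rcases disc_three hss hN h hred with ⟨h1, -⟩ | ⟨h1, h3⟩ | ⟨h1, -⟩ | ⟨h1, h3⟩
      · exfalso
        rw [h1, hm3] at h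
        rcases hN19 with hN19 | hN19 <;> rw [hN19] at h <;> exact absurd h (by norm_num)
      · exact Or.inr (Or.inl (isIso_of hodd (by rw [h1]; decide) (by rw [h3]; decide)))
      · exfalso
        rw [h1, hm3] at h
        rcases hN19 with hN19 | hN19 <;> rw [hN19] at h <;> exact absurd h (by norm_num)
      · exact Or.inr (Or.inr (Or.inl (isIso_of hodd (by rw [h1]; decide) (by rw [h3]; decide))))

/-- **No isogenies**: if the conductor `N` of a semistable elliptic curve is a prime different from `11`, `17`, `19`,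
`37` and not of the form `u² + 64`, then the curve has no rational isogeny of prime degree: `W[p]` is irreducible for
every odd prime `p`, and there is no rational point of order `2`. -/
theorem no_isogeny (hss : W.IsSemistableModel) (hN : N.Prime) (h : W.Δ.natAbs = N ^ m)
    (h1 : N ∉ ({11, 17, 19, 37} : Finset ℕ)) (h2 : ∀ u : ℤ, (N : ℤ) ≠ u ^ 2 + 64) :
    m = 1 ∧ ¬ HasTwoTorsion W ∧ ∀ p : ℕ, p.Prime → p ≠ 2 → W.ModRepIsIrreducible p := by
  simp only [Finset.mem_insert, Finset.mem_singleton, not_or] at h1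
  have h3 : ¬ HasTwoTorsion W := by
    intro h4
    rcases setzer_neumann hss hN h h4 with ⟨⟨u, hu⟩, -⟩ | ⟨h5, -⟩
    · exact h2 u hu
    · exact h1.2.1 h5
  refine ⟨?_, h3, fun p hp hp2 => irreducible hss hN h hp hp2 (fun h5 => h1.1 h5.1)
    (fun h5 => h1.2.2.1 h5.1) (fun h5 => h1.2.2.2 h5.1)⟩
  rcases disc_exponent hss hN h with h4 | ⟨-, h4⟩ | ⟨h4, -⟩ | ⟨h4, -⟩ | ⟨h4, -⟩
  · exact h4
  · rcases h4 with h4 | ⟨u, hu⟩
    · exact absurd h4 h1.2.1
    · exact absurd hu (h2 u)
  · exact absurd h4 h1.2.1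
  · exact absurd h4 h1.1
  · rcases h4 with h4 | h4
    · exact absurd h4 h1.2.2.1
    · exact absurd h4 h1.2.2.2

end Fermat.Agent.Cor.H18Cl
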