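import Fermat.Agent.Cor.H18Cl5
import Fermat.Agent.Cor.GenusOne
import Fermat.Agent.Cor.H14ApDensity

/-!
# The semistable elliptic curves of conductor 11 and 19

* `conductor_eleven`: a semistable elliptic curve over `ℚ` of conductor `11` is isomorphic over `ℚ` to one of the three
  curves `y² + y = x³ - x²`, `y² + y = x³ - x² - 10 x - 20`, `y² + y = x³ - x² - 7820 x - 263580`;
* `conductor_nineteen`: a semistable elliptic curve over `ℚ` of conductor `19` is isomorphic over `ℚ` to one of the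
  three curves `y² + y = x³ + x² + x`, `y² + y = x³ + x² - 9 x - 15`, `y² + y = x³ + x² - 769 x - 8470`.

The proof: by modularity and `dim S₂(Γ₀(N)) = 1` the curve has the same number of points modulo `ℓ` as the first curve of
the list, so `5` (resp. `3`) divides the number of points; by Chebotarev's theorem `W[5]` (resp. `W[3]`) is reducible.

This file is not used by any of the statement files.
-/

set_option autoImplicit false

namespace Fermat.Agent.Cor.H18Cl

open WeierstrassCurve Filter Topology Fermat.Agent.Cor.H18MO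

variable {W : WeierstrassCurve ℤ}

theorem hasDensity_empty {δ : ℝ} (h : H14.HasDensity ∅ δ) : δ = 0 := by
  have h' : Tendsto (fun _ : ℝ => (0 : ℝ)) (𝓝[>] 1) (𝓝 δ) := Tendsto.congr (fun s => by simp) h
  exact tendsto_nhds_unique h' tendsto_const_nhds

/-- if `W[p]` is irreducible, `p` odd, then there are primes `q` outside any finite set with `p ∤ #W(𝔽_q)` -/
theorem exists_not_dvd {p : ℕ} (hp : p.Prime) (hΔ : W.Δ ≠ 0) (hss : W.IsSemistableModel)
    (hirr : W.ModRepIsIrreducible p) (hp2 : p ≠ 2) (T : Finset ℕ) :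
    ∃ q : ℕ, q.Prime ∧ q ∉ T ∧ ¬ (p : ℤ) ∣ q + 1 - W.apOfModel q := by
  have : Fact p.Prime := ⟨hp⟩
  by_contra hcon
  push Not at hcon
  have h1 := H14.hasDensity_ap_det hΔ hss hirr hp2 0 (d := 1) one_ne_zero
  have h2 := hasDensity_empty (h1.congr (T := ∅) T.finite_toSet fun q hq hqT => by
    rw [Set.mem_ofPred_eq]
    refine ⟨?_, fun h => absurd h (Set.notMem_empty q)⟩
    rintro ⟨h3, h4⟩
    exfalso
    have h5 := hcon q hq (by simpa using hqT)
    rw [← ZMod.intCast_zmod_eq_zero_iff_dvd] at h5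
    push_cast at h5
    rw [h3, h4] at h5
    have h6 : ((2 : ℕ) : ZMod p) = 0 := by
      push_cast
      linear_combination h5
    rw [ZMod.natCast_eq_zero_iff] at h6
    have h7 := Nat.le_of_dvd (by norm_num) h6
    have := hp.two_le
    omega)
  have hp3 : (3 : ℝ) ≤ p := by
    have : 3 ≤ p := by
      have := hp.two_le
      omega
    exact_mod_cast this
  have h8 : (-1 : ℝ) ≤ quadraticChar (ZMod p) (0 ^ 2 - 4 * 1) := by
    have h9 : (-1 : ℤ) ≤ quadraticChar (ZMod p) (0 ^ 2 - 4 * 1) := by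
      rcases eq_or_ne ((0 : ZMod p) ^ 2 - 4 * 1) 0 with h0 | h0
      · rw [h0, quadraticChar_zero]; norm_num
      · rcases quadraticChar_dichotomy h0 with h | h <;> rw [h]
        norm_num
    exact_mod_cast h9
  have h10 : (0 : ℝ) < (p + quadraticChar (ZMod p) (0 ^ 2 - 4 * 1)) /
      (((p : ℝ) - 1) ^ 2 * (p + 1)) := by
    apply div_pos
    · linarith
    · have : (0 : ℝ) < p - 1 := by linarith
      positivity
  linarith

/-- the number of points modulo `ℓ` -/
theorem card_eq (W : WeierstrassCurve ℤ) (ℓ : ℕ) :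
    ((W.reductionMod ℓ).card : ℤ) = ℓ + 1 - W.apOfModel ℓ := by
  simp only [apOfModel, traceOfFrobenius, Nat.card_zmod]
  ring

theorem reducible_five_of_eleven (hΔ : W.Δ ≠ 0) (hss : W.IsSemistableModel)
    (h : W.conductorLevel = 11) : ¬ W.ModRepIsIrreducible 5 := by
  intro hirr
  obtain ⟨ℓ, hℓ, h1, h2⟩ := exists_not_dvd (by norm_num) hΔ hss hirr (by norm_num) {11}
  apply h2
  have h3 : ¬ ℓ ∣ 11 := by
    intro h4
    apply h1
    rw [Finset.mem_singleton]
    exact (Nat.prime_dvd_prime_iff_eq hℓ (by norm_num)).mp h4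
  rw [← card_eq]
  exact_mod_cast GenusOne.five_dvd_card W hΔ hss ℓ hℓ h h3

/-- **The semistable elliptic curves of conductor 11.** -/
theorem conductor_eleven (hΔ : W.Δ ≠ 0) (hss : W.IsSemistableModel) (h : W.conductorLevel = 11) :
    IsIso W ⟨0, -1, 1, 0, 0⟩ ∨ IsIso W ⟨0, -1, 1, -7820, -263580⟩ ∨
      IsIso W ⟨0, -1, 1, -10, -20⟩ := by
  have hN : Nat.Prime 11 := by norm_num
  obtain ⟨m, hm⟩ := exists_exponent hΔ hN h
  exact class_five hss hN hm (reducible_five_of_eleven hΔ hss h)

theorem reducible_three_of_nineteen (hΔ : W.Δ ≠ 0) (hss : W.IsSemistableModel)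
    (h : W.conductorLevel = 19) : ¬ W.ModRepIsIrreducible 3 := by
  intro hirr
  obtain ⟨ℓ, hℓ, h1, h2⟩ := exists_not_dvd (by norm_num) hΔ hss hirr (by norm_num) {19}
  apply h2
  have h3 : ¬ ℓ ∣ 19 := by
    intro h4
    apply h1
    rw [Finset.mem_singleton]
    exact (Nat.prime_dvd_prime_iff_eq hℓ (by norm_num)).mp h4
  rw [← card_eq]
  exact_mod_cast GenusOne.three_dvd_card W hΔ hss ℓ hℓ h h3

/-- **The semistable elliptic curves of conductor 19.** -/
theorem conductor_nineteen (hΔ : W.Δ ≠ 0) (hss : W.IsSemistableModel)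
    (h : W.conductorLevel = 19) :
    IsIso W ⟨0, 1, 1, 1, 0⟩ ∨ IsIso W ⟨0, 1, 1, -769, -8470⟩ ∨ IsIso W ⟨0, 1, 1, -9, -15⟩ := by
  have hN : Nat.Prime 19 := by norm_num
  obtain ⟨m, hm⟩ := exists_exponent hΔ hN h
  have hodd := odd_disc hss hN hm
  rcases disc_three hss hN hm (reducible_three_of_nineteen hΔ hss h) with
    ⟨h1, h2 | h2⟩ | ⟨h1, h2⟩ | ⟨h1, -⟩ | ⟨h1, -⟩
  · exact Or.inl (isIso_of hodd (by rw [h1]; decide) (by rw [h2]; decide))
  · exact Or.inr (Or.inl (isIso_of hodd (by rw [h1]; decide) (by rw [h2]; decide)))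
  · exact Or.inr (Or.inr (isIso_of hodd (by rw [h1]; decide) (by rw [h2]; decide)))
  · exfalso
    rw [h1] at hm
    have := (pow_eq_prime (P := 37) (m := m) (j := 1) (by norm_num) hN (by rw [← hm]; rfl)
      (by norm_num)).1
    omega
  · exfalso
    rw [h1] at hm
    have := (pow_eq_prime (P := 37) (m := m) (j := 3) (by norm_num) hN (by rw [← hm]; norm_num)
      (by norm_num)).1
    omega

end Fermat.Agent.Cor.H18Cl
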