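import Fermat.Agent.Cor.H18MO4

/-!
# Semistable curves of prime conductor with a rational point of order 2 (Setzer, Neumann)

Let `W` be a semistable elliptic curve over `ℚ` of prime conductor `N` with a rational point of order `2`, `|Δ| = N ^ m`.
Then `N = u² + 64` and `m = 1` or `m = 2`, or `N = 17` and `m = 1`, `2` or `4`.

This file is not used by any of the statement files.
-/

set_option autoImplicit false

namespace Fermat.Agent.Cor.H18MO

open WeierstrassCurve WeierstrassCurve.Affine WeierstrassCurve.Affine.Point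

/-! ### elementary number theory -/

lemma ne_fifteen {N k : ℕ} (hN : N.Prime) (hN7 : 7 ≤ N) : N ^ k ≠ 15 := by
  intro h
  have hk : k ≠ 0 := by rintro rfl; norm_num at h
  have h1 : N ∣ 3 * 5 := by
    have := dvd_pow_self N hk
    rw [h] at this
    exact this
  rcases (Nat.Prime.dvd_mul hN).mp h1 with h2 | h2 <;>
    have := Nat.le_of_dvd (by norm_num) h2 <;> omega

/-- `a² - 64 = y` -/
lemma eqS1 {N k : ℕ} (hN : N.Prime) (hN7 : 7 ≤ N) {a y : ℤ} (hy : y.natAbs = N ^ k)
    (h : y = a ^ 2 - 64) : N ^ k = 17 := by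
  have hNN : Prime (N : ℤ) := Nat.prime_iff_prime_int.mp hN
  rcases unit_of_mul hN hy (x := a - 8) (y := a + 8) (by rw [h]; ring) (by
    rintro ⟨h1, h2⟩
    have h3 : (N : ℤ) ∣ 2 ^ 4 := by
      have := dvd_sub h2 h1
      have e : a + 8 - (a - 8) = 2 ^ 4 := by ring
      rwa [e] at this
    have h4 := Int.le_of_dvd (by norm_num) (hNN.dvd_of_dvd_pow h3)
    omega) with h1 | h1
  · rcases Int.natAbs_eq_iff.mp h1 with h2 | h2
    · have ha : a = 9 := by push_cast at h2; linarith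
      rw [← hy, h, ha]; norm_num
    · have ha : a = 7 := by push_cast at h2; linarith
      exact absurd (by rw [← hy, h, ha]; norm_num) (ne_fifteen (k := k) hN hN7)
  · rcases Int.natAbs_eq_iff.mp h1 with h2 | h2
    · have ha : a = -7 := by push_cast at h2; linarith
      exact absurd (by rw [← hy, h, ha]; norm_num) (ne_fifteen (k := k) hN hN7)
    · have ha : a = -9 := by push_cast at h2; linarith
      rw [← hy, h, ha]; norm_num

/-- `a² - 1 = 64 x` -/
lemma eqS2 {N k : ℕ} (hN : N.Prime) (hN7 : 7 ≤ N) {a x : ℤ} (hx : x.natAbs = N ^ k)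
    (h : a ^ 2 - 1 = 64 * x) : N ^ k = 17 := by
  have hNN : Prime (N : ℤ) := Nat.prime_iff_prime_int.mp hN
  have hx0 : x ≠ 0 := by
    rintro rfl
    have := pow_pos hN.pos k
    simp at hx
    omega
  obtain ⟨c, rfl⟩ : ∃ c, a = 2 * c + 1 := by
    rcases Int.even_or_odd' a with ⟨c, hc | hc⟩
    · exfalso
      rw [hc] at h
      have : 4 * c ^ 2 - 1 = 64 * x := by rw [← h]; ring
      omega
    · exact ⟨c, hc⟩
  have h1 : c * (c + 1) = 16 * x := by linarith [h]
  rcases Int.even_or_odd' c with ⟨d, hd | hd⟩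
  · -- `c` is even
    have hco : IsCoprime (16 : ℤ) (c + 1) := by
      have h2 : IsCoprime (2 : ℤ) (c + 1) := by
        rw [(Int.prime_two).coprime_iff_not_dvd]
        omega
      have h3 := h2.pow_left (m := 4)
      norm_num at h3
      exact h3
    obtain ⟨e, rfl⟩ : (16 : ℤ) ∣ c := hco.dvd_of_dvd_mul_right ⟨x, h1⟩
    have h2 : x = e * (16 * e + 1) := by linarith
    rcases unit_of_mul hN hx h2 (by
      rintro ⟨h3, h4⟩
      have h5 : (N : ℤ) ∣ 1 := by
        have := dvd_sub h4 (Dvd.dvd.mul_left h3 16)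
        have e' : 16 * e + 1 - 16 * e = 1 := by ring
        rwa [e'] at this
      exact hNN.not_isUnit (isUnit_of_dvd_one h5)) with h3 | h3
    · rcases Int.natAbs_eq_iff.mp h3 with h4 | h4
      · rw [← hx, h2, h4]; norm_num
      · exact absurd (by rw [← hx, h2, h4]; norm_num) (ne_fifteen (k := k) hN hN7)
    · exfalso
      apply hx0
      have he : e = 0 := by
        rcases Int.natAbs_eq_iff.mp h3 with h4 | h4 <;> push_cast at h4 <;> omega
      rw [h2, he]; ring
  · -- `c + 1` is even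
    have hco : IsCoprime (16 : ℤ) c := by
      have h2 : IsCoprime (2 : ℤ) c := by
        rw [(Int.prime_two).coprime_iff_not_dvd]
        omega
      have h3 := h2.pow_left (m := 4)
      norm_num at h3
      exact h3
    obtain ⟨e, he⟩ : (16 : ℤ) ∣ c + 1 := hco.dvd_of_dvd_mul_left ⟨x, h1⟩
    have hc : c = 16 * e - 1 := by linarith
    subst hc
    have h2 : x = e * (16 * e - 1) := by linarith
    rcases unit_of_mul hN hx h2 (by
      rintro ⟨h3, h4⟩
      have h5 : (N : ℤ) ∣ 1 := by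
        have := dvd_sub (Dvd.dvd.mul_left h3 16) h4
        have e' : 16 * e - (16 * e - 1) = 1 := by ring
        rwa [e'] at this
      exact hNN.not_isUnit (isUnit_of_dvd_one h5)) with h3 | h3
    · rcases Int.natAbs_eq_iff.mp h3 with h4 | h4
      · exact absurd (by rw [← hx, h2, h4]; norm_num) (ne_fifteen (k := k) hN hN7)
      · rw [← hx, h2, h4]; norm_num
    · exfalso
      apply hx0
      have he' : e = 0 := by
        rcases Int.natAbs_eq_iff.mp h3 with h4 | h4 <;> push_cast at h4 <;> omega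
      rw [h2, he']; ring

/-- the diophantine equation of the curves with a rational point of order two -/
theorem core2 {N m : ℕ} (hN : N.Prime) (hN7 : 7 ≤ N) (hm : m ≠ 0) {a x y Δ : ℤ}
    (hΔ : Δ.natAbs = N ^ m) (hy : y = a ^ 2 - 64 * x) (hΔxy : Δ = x ^ 2 * y ∨ Δ = x * y ^ 2)
    (hN2 : ¬ ((N : ℤ) ∣ x ∧ (N : ℤ) ∣ y)) :
    ∃ k, k ≠ 0 ∧ (m = k ∨ m = 2 * k) ∧ (N ^ k = 17 ∨ ((N ^ k : ℕ) : ℤ) = a ^ 2 + 64) := by
  have hxΔ : x ∣ Δ := by
    rcases hΔxy with h | h
    · exact ⟨x * y, by rw [h]; ring⟩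
    · exact ⟨y ^ 2, h⟩
  have hyΔ : y ∣ Δ := by
    rcases hΔxy with h | h
    · exact ⟨x ^ 2, by rw [h]; ring⟩
    · exact ⟨x * y, by rw [h]; ring⟩
  obtain ⟨s, hs⟩ := eq_pow_of_dvd hN hΔ hxΔ
  obtain ⟨t, ht⟩ := eq_pow_of_dvd hN hΔ hyΔ
  have hs' : x.natAbs = N ^ s := by
    rcases hs with h | h <;> rw [h] <;> simp [Int.natAbs_pow]
  have ht' : y.natAbs = N ^ t := by
    rcases ht with h | h <;> rw [h] <;> simp [Int.natAbs_pow]
  have hmm : m = 2 * s + t ∨ m = s + 2 * t := by
    rcases hΔxy with h | h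
    · left
      apply Nat.pow_right_injective hN.two_le
      change N ^ m = N ^ (2 * s + t)
      rw [← hΔ, h, Int.natAbs_mul, Int.natAbs_pow, hs', ht', ← pow_mul, ← pow_add, mul_comm s 2]
    · right
      apply Nat.pow_right_injective hN.two_le
      change N ^ m = N ^ (s + 2 * t)
      rw [← hΔ, h, Int.natAbs_mul, Int.natAbs_pow, hs', ht', ← pow_mul, ← pow_add, mul_comm t 2]
  have hst : s = 0 ∨ t = 0 := by
    by_contra hcon
    push Not at hcon
    apply hN2
    constructor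
    · rw [← Int.natAbs_dvd_natAbs, hs', Int.natAbs_natCast]; exact dvd_pow_self N hcon.1
    · rw [← Int.natAbs_dvd_natAbs, ht', Int.natAbs_natCast]; exact dvd_pow_self N hcon.2
  rcases hst with hs0 | ht0
  · have ht0 : t ≠ 0 := by omega
    refine ⟨t, ht0, by omega, ?_⟩
    rw [hs0, pow_zero] at hs'
    rcases Int.natAbs_eq_iff.mp hs' with h1 | h1
    · left
      exact eqS1 hN hN7 ht' (a := a) (by rw [hy, h1]; norm_num)
    · right
      rw [← ht', hy, h1]
      have e : a ^ 2 - 64 * (-((1 : ℕ) : ℤ)) = a ^ 2 + 64 := by push_cast; ring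
      rw [e]
      exact Int.natAbs_of_nonneg (by positivity)
  · have hs0 : s ≠ 0 := by omega
    refine ⟨s, hs0, by omega, ?_⟩
    rw [ht0, pow_zero] at ht'
    rcases Int.natAbs_eq_iff.mp ht' with h1 | h1
    · left
      refine eqS2 hN hN7 hs' (a := a) ?_
      push_cast at h1
      linarith
    · exfalso
      push_cast at h1
      have h2 : a ^ 2 + 1 = 64 * x := by linarith
      rcases Int.even_or_odd' a with ⟨c, hc | hc⟩
      · rw [hc] at h2
        have : 4 * c ^ 2 + 1 = 64 * x := by rw [← h2]; ring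
        omega
      · rw [hc] at h2
        have : 4 * (c ^ 2 + c) + 2 = 64 * x := by rw [← h2]; ring
        omega

/-- from a rational root to the equation of `core2` -/
theorem exists_xy {a b Δ c₄ : ℤ} (hodd : ¬ (2 : ℤ) ∣ Δ) (h1 : b ^ 2 * (a ^ 2 - 4 * b) = 256 * Δ)
    (hc : c₄ = a ^ 2 - 3 * b) (hc' : (¬ (2 : ℤ) ∣ c₄) ∨ (16 : ℤ) ∣ c₄) :
    ∃ a' x y : ℤ, y = a' ^ 2 - 64 * x ∧ (Δ = x ^ 2 * y ∨ Δ = x * y ^ 2) ∧
      (∀ n : ℤ, n ∣ x → n ∣ y → n ∣ a' ^ 2 ∧ n ∣ c₄) := by
  rcases hc' with hc' | ⟨c', hc'⟩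
  · rcases Int.even_or_odd' a with ⟨a', ha | ha⟩
    · -- `a` even, `b` odd
      subst ha
      have hb : ¬ (2 : ℤ) ∣ b := by
        intro hb
        apply hc'
        rw [hc]
        exact dvd_sub ⟨2 * a' ^ 2, by ring⟩ (Dvd.dvd.mul_left hb 3)
      have h2 : b ^ 2 * (a' ^ 2 - b) = 64 * Δ := by
        have : (4 : ℤ) * (b ^ 2 * (a' ^ 2 - b)) = 4 * (64 * Δ) := by linear_combination h1
        exact mul_left_cancel₀ (by norm_num) this
      have hco : IsCoprime (64 : ℤ) (b ^ 2) := by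
        have k1 : IsCoprime (2 : ℤ) b := (Int.prime_two.coprime_iff_not_dvd).mpr hb
        have k2 := (k1.pow_left (m := 6)).pow_right (n := 2)
        norm_num at k2
        exact k2
      obtain ⟨x, hx⟩ : (64 : ℤ) ∣ a' ^ 2 - b := hco.dvd_of_dvd_mul_left ⟨Δ, h2⟩
      refine ⟨a', x, b, by linarith, Or.inr ?_, ?_⟩
      · have : (64 : ℤ) * Δ = 64 * (x * b ^ 2) := by rw [← h2, hx]; ring
        exact mul_left_cancel₀ (by norm_num) this
      · intro n hnx hnb
        have k3 : n ∣ a' ^ 2 := by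
          have e : a' ^ 2 = 64 * x + b := by linarith
          rw [e]
          exact dvd_add (Dvd.dvd.mul_left hnx _) hnb
        refine ⟨k3, ?_⟩
        have e : c₄ = 4 * a' ^ 2 - 3 * b := by rw [hc]; ring
        rw [e]
        exact dvd_sub (Dvd.dvd.mul_left k3 _) (Dvd.dvd.mul_left hnb _)
    · -- `a` odd
      have hao : ¬ (2 : ℤ) ∣ a := by omega
      have hco : IsCoprime ((16 : ℤ) ^ 2) (a ^ 2 - 4 * b) := by
        have k1 : IsCoprime (2 : ℤ) (a ^ 2 - 4 * b) := by
          rw [Int.prime_two.coprime_iff_not_dvd]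
          intro h
          apply hao
          apply Int.prime_two.dvd_of_dvd_pow (n := 2)
          have e : a ^ 2 = (a ^ 2 - 4 * b) + 2 * (2 * b) := by ring
          rw [e]
          exact dvd_add h (dvd_mul_right _ _)
        have k2 := k1.pow_left (m := 8)
        norm_num at k2 ⊢
        exact k2
      have h3 : (16 : ℤ) ^ 2 ∣ b ^ 2 := hco.dvd_of_dvd_mul_right ⟨Δ, by rw [h1]; norm_num⟩
      obtain ⟨x, rfl⟩ := (Int.pow_dvd_pow_iff two_ne_zero).mp h3
      refine ⟨a, x, a ^ 2 - 64 * x, rfl, Or.inl ?_, ?_⟩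
      · have : (256 : ℤ) * Δ = 256 * (x ^ 2 * (a ^ 2 - 64 * x)) := by rw [← h1]; ring
        exact mul_left_cancel₀ (by norm_num) this
      · intro n hnx hny
        have k3 : n ∣ a ^ 2 := by
          have e : a ^ 2 = (a ^ 2 - 64 * x) + 64 * x := by ring
          rw [e]
          exact dvd_add hny (Dvd.dvd.mul_left hnx _)
        refine ⟨k3, ?_⟩
        rw [hc]
        exact dvd_sub k3 ⟨3 * (16 * (x / n)), by
          obtain ⟨x', rfl⟩ := hnx
          rcases eq_or_ne n 0 with rfl | hn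
          · simp
          · rw [Int.mul_ediv_cancel_left _ hn]; ring⟩
  · exfalso
    have ha2 : (2 : ℤ) ∣ a := by
      by_contra ha
      have hb : ¬ (2 : ℤ) ∣ b := by
        intro hb
        apply ha
        apply Int.prime_two.dvd_of_dvd_pow (n := 2)
        have e : a ^ 2 = 2 * (8 * c') + 3 * b := by linarith
        rw [e]
        exact dvd_add (dvd_mul_right _ _) (Dvd.dvd.mul_left hb _)
      have h2 : (2 : ℤ) ∣ b ^ 2 * (a ^ 2 - 4 * b) := ⟨128 * Δ, by rw [h1]; ring⟩
      rcases Int.prime_two.dvd_or_dvd h2 with h3 | h3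
      · exact hb (Int.prime_two.dvd_of_dvd_pow h3)
      · apply ha
        apply Int.prime_two.dvd_of_dvd_pow (n := 2)
        have e : a ^ 2 = (a ^ 2 - 4 * b) + 2 * (2 * b) := by ring
        rw [e]
        exact dvd_add h3 (dvd_mul_right _ _)
    obtain ⟨a', rfl⟩ := ha2
    obtain ⟨b₁, rfl⟩ : (4 : ℤ) ∣ b := by
      have e : 3 * b = 4 * (a' ^ 2 - 4 * c') := by linarith [hc, hc']
      omega
    have h2 : b₁ ^ 2 * (a' ^ 2 - 4 * b₁) = 4 * Δ := by
      have : (64 : ℤ) * (b₁ ^ 2 * (a' ^ 2 - 4 * b₁)) = 64 * (4 * Δ) := by linear_combination h1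
      exact mul_left_cancel₀ (by norm_num) this
    have h3 : a' ^ 2 = 3 * b₁ + 4 * c' := by linarith [hc, hc']
    rcases Int.even_or_odd' a' with ⟨a₂, ha | ha⟩
    · obtain ⟨b₂, rfl⟩ : (4 : ℤ) ∣ b₁ := by
        have e : 3 * b₁ = 4 * (a₂ ^ 2 - c') := by rw [ha] at h3; linarith [h3]
        omega
      apply hodd
      rw [ha] at h2
      have : (4 : ℤ) * Δ = 4 * (2 * (8 * b₂ ^ 2 * (a₂ ^ 2 - 4 * b₂))) := by rw [← h2]; ring
      exact ⟨_, mul_left_cancel₀ (by norm_num) this⟩
    · rw [ha] at h3 h2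
      -- `b₁` is odd
      have hb₁ : ¬ (2 : ℤ) ∣ b₁ := by
        intro h
        have e : 4 * (a₂ ^ 2 + a₂) + 1 = 3 * b₁ + 4 * c' := by rw [← h3]; ring
        omega
      have h5 : (2 : ℤ) ∣ b₁ ^ 2 * ((2 * a₂ + 1) ^ 2 - 4 * b₁) := ⟨2 * Δ, by rw [h2]; ring⟩
      rcases Int.prime_two.dvd_or_dvd h5 with h6 | h6
      · exact hb₁ (Int.prime_two.dvd_of_dvd_pow h6)
      · have e : (2 * a₂ + 1) ^ 2 - 4 * b₁ = 2 * (2 * (a₂ ^ 2 + a₂ - b₁)) + 1 := by ring
        rw [e] at h6
        omega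

/-! ### the theorem of Setzer and Neumann -/

/-- `W` has a rational point of order two -/
def HasTwoTorsion (W : WeierstrassCurve ℤ) : Prop :=
  ∃ x : ℚ, 4 * x ^ 3 + (W.b₂ : ℚ) * x ^ 2 + 2 * (W.b₄ : ℚ) * x + (W.b₆ : ℚ) = 0

/-- a rational root of a monic cubic polynomial with integral coefficients is an integer -/
theorem int_root {X : ℚ} {p q r : ℤ} (h : X ^ 3 + p * X ^ 2 + q * X + r = 0) :
    ∃ n : ℤ, X = n := by
  have h1 : IsIntegral ℤ X := by
    refine ⟨Polynomial.X ^ 3 + Polynomial.C p * Polynomial.X ^ 2 + Polynomial.C q * Polynomial.X +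
      Polynomial.C r, by monicity!, ?_⟩
    simp only [Polynomial.eval₂_add, Polynomial.eval₂_mul, Polynomial.eval₂_pow, Polynomial.eval₂_X,
      Polynomial.eval₂_C]
    exact h
  obtain ⟨n, hn⟩ := IsIntegrallyClosed.isIntegral_iff.mp h1
  exact ⟨n, by rw [← hn]; rfl⟩

section

variable {W : WeierstrassCurve ℤ} {N m : ℕ}

/-- `c₄` of an integral model is odd or divisible by `16` -/
theorem c₄_odd_or (W : WeierstrassCurve ℤ) : (¬ (2 : ℤ) ∣ W.c₄) ∨ (16 : ℤ) ∣ W.c₄ := by
  have h : W.c₄ = (W.a₁ ^ 2 + 4 * W.a₂) ^ 2 - 24 * (2 * W.a₄ + W.a₁ * W.a₃) := rfl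
  rcases Int.even_or_odd' W.a₁ with ⟨c, hc | hc⟩
  · right
    rw [h, hc]
    exact ⟨(c ^ 2 + W.a₂) ^ 2 - 3 * (W.a₄ + c * W.a₃), by ring⟩
  · left
    rw [h, hc]
    rintro ⟨d, hd⟩
    have : 2 * (d + 12 * (2 * W.a₄ + (2 * c + 1) * W.a₃) - 8 * (c ^ 2 + c + W.a₂) ^ 2 -
      4 * (c ^ 2 + c + W.a₂)) = 1 := by linarith [hd]
    omega

/-- **The theorem of Setzer and Neumann** (for semistable models, with the discriminants): a semistable elliptic curve of
prime conductor `N` with a rational point of order two. -/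
theorem setzer_neumann (hss : W.IsSemistableModel) (hN : N.Prime) (h : W.Δ.natAbs = N ^ m)
    (h2 : HasTwoTorsion W) :
    ((∃ u : ℤ, (N : ℤ) = u ^ 2 + 64) ∧ (m = 1 ∨ m = 2)) ∨ (N = 17 ∧ (m = 1 ∨ m = 2 ∨ m = 4)) := by
  have hΔ := disc_ne_zero hN h
  have h11 := eleven_le hss hN h
  have hm := exponent_ne_zero h
  have hNN : Prime (N : ℤ) := Nat.prime_iff_prime_int.mp hN
  have hN2 : ¬ 2 ∣ N ^ m := by
    intro hd
    have := (Nat.prime_dvd_prime_iff_eq Nat.prime_two hN).mp (Nat.prime_two.dvd_of_dvd_pow hd)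
    omega
  have hodd : ¬ (2 : ℤ) ∣ W.Δ := by
    intro hd
    apply hN2
    rw [← h]
    exact Int.natCast_dvd.mp (by exact_mod_cast hd)
  obtain ⟨x, hx⟩ := h2
  obtain ⟨X, hX⟩ := int_root (X := 4 * x) (p := W.b₂) (q := 8 * W.b₄) (r := 16 * W.b₆) (by
    push_cast
    linear_combination 16 * hx)
  have hXr : X ^ 3 + W.b₂ * X ^ 2 + 8 * W.b₄ * X + 16 * W.b₆ = 0 := by
    have : (X : ℚ) ^ 3 + W.b₂ * X ^ 2 + 8 * W.b₄ * X + 16 * W.b₆ = 0 := by
      rw [← hX]
      linear_combination 16 * hx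
    exact_mod_cast this
  have hb8 := W.b_relation
  obtain ⟨a', x', y', h3, h4, h5⟩ := exists_xy (a := 3 * X + W.b₂)
    (b := 3 * X ^ 2 + 2 * W.b₂ * X + 8 * W.b₄) (Δ := W.Δ) (c₄ := W.c₄) hodd (by
      have e : W.Δ = -W.b₂ ^ 2 * W.b₈ - 8 * W.b₄ ^ 3 - 27 * W.b₆ ^ 2 + 9 * W.b₂ * W.b₄ * W.b₆ := rfl
      have e6 : 16 * W.b₆ = -(X ^ 3 + W.b₂ * X ^ 2 + 8 * W.b₄ * X) := by linarith
      have e2 : 256 * W.Δ = -W.b₂ ^ 2 * (64 * (4 * W.b₈)) - 2048 * W.b₄ ^ 3 - 27 * (16 * W.b₆) ^ 2 +
          144 * W.b₂ * W.b₄ * (16 * W.b₆) := by rw [e]; ring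
      have e8 : 64 * (4 * W.b₈) = 4 * W.b₂ * (16 * W.b₆) - 64 * W.b₄ ^ 2 := by
        rw [hb8]; ring
      rw [e2, e8, e6]
      ring) (by
      rw [WeierstrassCurve.c₄]
      ring) (c₄_odd_or W)
  obtain ⟨k, hk, hmk, hfin⟩ := core2 hN (by omega) hm h h3 h4 (by
    rintro ⟨h6, h7⟩
    exact not_dvd_c₄ hss hN h (h5 _ h6 h7).2)
  rcases hfin with h17 | h64
  · right
    obtain ⟨h8, h9⟩ := pow_eq_prime (P := 17) (j := 1) (by norm_num) hN (by rw [h17]; rfl)
      (by norm_num)
    exact ⟨h8, by omega⟩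
  · -- `N ^ k = a² + 64`
    have hpow := mestre_oesterle hss hN h
    have hkcases : k = 1 ∨ ∃ l, l ≠ 0 ∧ k = 2 * l := by
      rcases hpow with ⟨j, hj⟩ | h8 | h8
      · have hkd : k ∣ 2 ^ j := by
          rw [← hj]
          rcases hmk with h9 | h9 <;> rw [h9]
          exact dvd_mul_left _ _
        obtain ⟨i, -, hi⟩ := (Nat.dvd_prime_pow Nat.prime_two).mp hkd
        rcases Nat.eq_zero_or_pos i with h0 | h0
        · left; rw [hi, h0, pow_zero]
        · right
          refine ⟨2 ^ (i - 1), by positivity, ?_⟩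
          rw [hi, ← pow_succ']
          congr 1
          omega
      · exfalso
        obtain ⟨h8, h9⟩ := h8
        have hk5 : k = 5 := by omega
        rw [h8, hk5] at h64
        push_cast at h64
        have h10 : (401 : ℤ) ^ 2 < a' ^ 2 := by linarith
        have h11' : a' ^ 2 < 402 ^ 2 := by linarith
        have h12 := sq_lt_sq.mp h10
        have h13 := sq_lt_sq.mp h11'
        norm_num at h12 h13
        omega
      · exfalso
        obtain ⟨h8, h9⟩ := h8
        have hk3 : k = 3 := by omega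
        rcases h8 with h8 | h8
        · rw [h8, hk3] at h64
          push_cast at h64
          have h10 : (82 : ℤ) ^ 2 < a' ^ 2 := by linarith
          have h11' : a' ^ 2 < 83 ^ 2 := by linarith
          have h12 := sq_lt_sq.mp h10
          have h13 := sq_lt_sq.mp h11'
          norm_num at h12 h13
          omega
        · rw [h8, hk3] at h64
          push_cast at h64
          have h10 : (224 : ℤ) ^ 2 < a' ^ 2 := by linarith
          have h11' : a' ^ 2 < 225 ^ 2 := by linarith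
          have h12 := sq_lt_sq.mp h10
          have h13 := sq_lt_sq.mp h11'
          norm_num at h12 h13
          omega
    rcases hkcases with rfl | ⟨l, hl, rfl⟩
    · left
      refine ⟨⟨a', ?_⟩, by omega⟩
      rw [← h64, pow_one]
    · right
      -- `(N ^ l - |a|) (N ^ l + |a|) = 64`
      have h8 : ((N : ℤ) ^ l - |a'|) * ((N : ℤ) ^ l + |a'|) = 64 := by
        have h9 : |a'| ^ 2 = a' ^ 2 := sq_abs a'
        have h10 : ((N : ℤ) ^ l) ^ 2 = a' ^ 2 + 64 := by
          rw [← h64]; push_cast; ring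
        linear_combination h10 - h9
      have hl17 : (N : ℤ) ^ l = 17 := by
        have ha0 : 0 ≤ |a'| := abs_nonneg a'
        have hNl : 0 < (N : ℤ) ^ l := by have := hN.pos; positivity
        have hNodd : ¬ (2 : ℤ) ∣ (N : ℤ) ^ l := by
          intro hd
          have h9 : 2 ∣ N ^ l := by exact_mod_cast hd
          have := (Nat.prime_dvd_prime_iff_eq Nat.prime_two hN).mp
            (Nat.prime_two.dvd_of_dvd_pow h9)
          omega
        generalize (N : ℤ) ^ l = n at *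
        generalize |a'| = b at *
        have h12 : 0 < n - b := by
          by_contra hcon
          push Not at hcon
          nlinarith
        have h13 : n - b ≤ 8 := by
          by_contra hcon
          push Not at hcon
          nlinarith
        obtain ⟨d, hd⟩ : ∃ d, d = n - b := ⟨_, rfl⟩
        rw [← hd] at h12 h13 h8
        have h14 : n + b = 2 * n - d := by linarith
        rw [h14] at h8
        interval_cases d <;> omega
      have hl17' : N ^ l = 17 ^ 1 := by
        have : ((N ^ l : ℕ) : ℤ) = ((17 ^ 1 : ℕ) : ℤ) := by push_cast; rw [hl17]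
        exact_mod_cast this
      obtain ⟨h9, h10⟩ := pow_eq_prime (by norm_num) hN hl17' (by norm_num)
      exact ⟨h9, by omega⟩

end

end Fermat.Agent.Cor.H18MO
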