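import Fermat.Agent.Cor.ChebotarevGal
import Fermat.Agent.Cor.H18MO5
import Fermat.Agent.H09.FrobNode

/-!
# A cubic polynomial without rational roots has no root modulo infinitely many primes

This file is not used by any of the statement files.
-/

set_option autoImplicit false

noncomputable section

namespace Fermat.Agent.Cor.H18Cl

local notation "Qb" => AlgebraicClosure ℚ
local notation "GQ" => AlgebraicClosure ℚ ≃ₐ[ℚ] AlgebraicClosure ℚ

section Perm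

variable {e₁ e₂ e₃ : Qb}

/-- the roots of a cubic polynomial over an algebraically closed field -/
theorem exists_roots (p q r : ℤ) : ∃ e₁ e₂ e₃ : Qb, e₁ + e₂ + e₃ = -(p : Qb) ∧
    e₁ * e₂ + e₁ * e₃ + e₂ * e₃ = q ∧ e₁ * e₂ * e₃ = -(r : Qb) := by
  obtain ⟨e₁, h1⟩ : ∃ e₁ : Qb, e₁ ^ 3 + p * e₁ ^ 2 + q * e₁ + r = 0 := by
    have hd : (Polynomial.X ^ 3 + Polynomial.C (p : Qb) * Polynomial.X ^ 2 +
        Polynomial.C (q : Qb) * Polynomial.X + Polynomial.C (r : Qb)).degree = 3 := by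
      compute_degree!
    obtain ⟨e, he⟩ := IsAlgClosed.exists_root _ (by rw [hd]; norm_num)
    refine ⟨e, ?_⟩
    simpa [Polynomial.IsRoot] using he
  obtain ⟨d, hd⟩ := IsAlgClosed.exists_pow_nat_eq
    ((p + e₁) ^ 2 - 4 * (q + p * e₁ + e₁ ^ 2) : Qb) (n := 2) (by norm_num)
  refine ⟨e₁, (-(p + e₁) + d) / 2, (-(p + e₁) - d) / 2, ?_, ?_, ?_⟩
  · ring
  · linear_combination (-1 / 4 : Qb) * hd
  · linear_combination (-1 / 4 : Qb) * e₁ * hd + h1

/-- a Galois automorphism permutes the roots -/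
theorem perm {p q r : ℤ} (h1 : e₁ + e₂ + e₃ = -(p : Qb)) (h2 : e₁ * e₂ + e₁ * e₃ + e₂ * e₃ = q)
    (h3 : e₁ * e₂ * e₃ = -(r : Qb)) (σ : GQ) {e : Qb} (he : e = e₁ ∨ e = e₂ ∨ e = e₃) :
    σ e = e₁ ∨ σ e = e₂ ∨ σ e = e₃ := by
  have h4 : (e - e₁) * ((e - e₂) * (e - e₃)) = 0 := by
    rcases he with rfl | rfl | rfl <;> ring
  have h5 : e ^ 3 + p * e ^ 2 + q * e + r = 0 := by
    linear_combination h4 + e ^ 2 * h1 - e * h2 + h3
  have h6 : (σ e) ^ 3 + p * (σ e) ^ 2 + q * (σ e) + r = 0 := by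
    have h := congrArg σ h5
    simpa using h
  have h7 : (σ e - e₁) * ((σ e - e₂) * (σ e - e₃)) = 0 := by
    linear_combination h6 - (σ e) ^ 2 * h1 + (σ e) * h2 - h3
  rcases mul_eq_zero.mp h7 with h | h
  · exact Or.inl (sub_eq_zero.mp h)
  · rcases mul_eq_zero.mp h with h | h
    · exact Or.inr (Or.inl (sub_eq_zero.mp h))
    · exact Or.inr (Or.inr (sub_eq_zero.mp h))

/-- an automorphism without fixed roots -/
theorem exists_fixedpoint_free {p q r : ℤ} (h1 : e₁ + e₂ + e₃ = -(p : Qb))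
    (h2 : e₁ * e₂ + e₁ * e₃ + e₂ * e₃ = q) (h3 : e₁ * e₂ * e₃ = -(r : Qb))
    (h12 : e₁ ≠ e₂) (h13 : e₁ ≠ e₃) (h23 : e₂ ≠ e₃)
    (hm1 : ∃ σ : GQ, σ e₁ ≠ e₁) (hm2 : ∃ σ : GQ, σ e₂ ≠ e₂) (hm3 : ∃ σ : GQ, σ e₃ ≠ e₃) :
    ∃ σ : GQ, σ e₁ ≠ e₁ ∧ σ e₂ ≠ e₂ ∧ σ e₃ ≠ e₃ := by
  by_contra hcon
  push Not at hcon
  have hp : ∀ σ : GQ, (σ e₁ = e₁ ∧ σ e₂ = e₂ ∧ σ e₃ = e₃) ∨ (σ e₁ = e₂ ∧ σ e₂ = e₁ ∧ σ e₃ = e₃) ∨
      (σ e₁ = e₃ ∧ σ e₂ = e₂ ∧ σ e₃ = e₁) ∨ (σ e₁ = e₁ ∧ σ e₂ = e₃ ∧ σ e₃ = e₂) := by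
    intro σ
    have k1 := perm h1 h2 h3 σ (e := e₁) (Or.inl rfl)
    have k2 := perm h1 h2 h3 σ (e := e₂) (Or.inr (Or.inl rfl))
    have k3 := perm h1 h2 h3 σ (e := e₃) (Or.inr (Or.inr rfl))
    have n12 : σ e₁ ≠ σ e₂ := fun h => h12 (σ.injective h)
    have n13 : σ e₁ ≠ σ e₃ := fun h => h13 (σ.injective h)
    have n23 : σ e₂ ≠ σ e₃ := fun h => h23 (σ.injective h)
    have hc := hcon σ
    rcases k1 with k1 | k1 | k1 <;> rcases k2 with k2 | k2 | k2 <;> rcases k3 with k3 | k3 | k3 <;>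
      simp only [k1, k2, k3, ne_eq, not_true_eq_false] at n12 n13 n23 hc <;>
      first
        | exact Or.inl ⟨k1, k2, k3⟩
        | exact Or.inr (Or.inl ⟨k1, k2, k3⟩)
        | exact Or.inr (Or.inr (Or.inl ⟨k1, k2, k3⟩))
        | exact Or.inr (Or.inr (Or.inr ⟨k1, k2, k3⟩))
        | (exfalso; first | exact h12 hc | exact h13 hc | exact h23 hc | exact h12 hc.symm |
            exact h13 hc.symm | exact h23 hc.symm | (have := hc h12.symm; tauto) | tauto)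
  have hcomp : ∀ (σ τ : GQ) (e : Qb), (σ * τ) e = σ (τ e) := fun _ _ _ => rfl
  obtain ⟨σ, hσ⟩ := hm1
  rcases hp σ with ⟨a1, a2, a3⟩ | ⟨a1, a2, a3⟩ | ⟨a1, a2, a3⟩ | ⟨a1, a2, a3⟩
  · exact hσ a1
  · obtain ⟨τ, hτ⟩ := hm3
    rcases hp τ with ⟨b1, b2, b3⟩ | ⟨b1, b2, b3⟩ | ⟨b1, b2, b3⟩ | ⟨b1, b2, b3⟩
    · exact hτ b3
    · exact hτ b3
    · rcases hp (σ * τ) with ⟨c1, c2, c3⟩ | ⟨c1, c2, c3⟩ | ⟨c1, c2, c3⟩ | ⟨c1, c2, c3⟩ <;>
        rw [hcomp, b1] at c1 <;> rw [hcomp, b2] at c2 <;> rw [hcomp, b3] at c3 <;>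
        simp_all
    · rcases hp (σ * τ) with ⟨c1, c2, c3⟩ | ⟨c1, c2, c3⟩ | ⟨c1, c2, c3⟩ | ⟨c1, c2, c3⟩ <;>
        rw [hcomp, b1] at c1 <;> rw [hcomp, b2] at c2 <;> rw [hcomp, b3] at c3 <;>
        simp_all
  · obtain ⟨τ, hτ⟩ := hm2
    rcases hp τ with ⟨b1, b2, b3⟩ | ⟨b1, b2, b3⟩ | ⟨b1, b2, b3⟩ | ⟨b1, b2, b3⟩
    · exact hτ b2
    · rcases hp (σ * τ) with ⟨c1, c2, c3⟩ | ⟨c1, c2, c3⟩ | ⟨c1, c2, c3⟩ | ⟨c1, c2, c3⟩ <;>
        rw [hcomp, b1] at c1 <;> rw [hcomp, b2] at c2 <;> rw [hcomp, b3] at c3 <;>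
        simp_all
    · exact hτ b2
    · rcases hp (σ * τ) with ⟨c1, c2, c3⟩ | ⟨c1, c2, c3⟩ | ⟨c1, c2, c3⟩ | ⟨c1, c2, c3⟩ <;>
        rw [hcomp, b1] at c1 <;> rw [hcomp, b2] at c2 <;> rw [hcomp, b3] at c3 <;>
        simp_all
  · exact hσ a1

end Perm

/-- an element of `Q̄` fixed by all automorphisms is rational -/
theorem rational_of_fixed {e : Qb} (h : ∀ σ : GQ, σ e = e) : ∃ x : ℚ, e = algebraMap ℚ Qb x := by
  have hg : IsGalois ℚ Qb := H51.isGalois_Qbar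
  obtain ⟨x, hx⟩ := (InfiniteGalois.mem_bot_iff_fixed (k := ℚ) (K := Qb) e).mpr h
  exact ⟨x, hx.symm⟩

/-- **A cubic polynomial without rational roots has no root modulo infinitely many primes.** -/
theorem exists_prime_no_root {p q r D : ℤ} (hno : ∀ n : ℤ, n ^ 3 + p * n ^ 2 + q * n + r ≠ 0)
    (hD : D = p ^ 2 * q ^ 2 - 4 * q ^ 3 - 4 * p ^ 3 * r + 18 * p * q * r - 27 * r ^ 2)
    (hD0 : D ≠ 0) (T : Finset ℕ) :
    ∃ ℓ : ℕ, ℓ.Prime ∧ ℓ ∉ T ∧ ∀ n : ℤ, ¬ (ℓ : ℤ) ∣ n ^ 3 + p * n ^ 2 + q * n + r := by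
  obtain ⟨e₁, e₂, e₃, h1, h2, h3⟩ := exists_roots p q r
  have hdisc : ((e₁ - e₂) * (e₁ - e₃) * (e₂ - e₃)) ^ 2 = (D : Qb) := by
    have hp' : (p : Qb) = -(e₁ + e₂ + e₃) := by linear_combination h1
    have hr' : (r : Qb) = -(e₁ * e₂ * e₃) := by linear_combination h3
    rw [hD]
    push_cast
    rw [hp', ← h2, hr']
    ring
  have hDQ : (D : Qb) ≠ 0 := by exact_mod_cast hD0
  have hprod : (e₁ - e₂) * (e₁ - e₃) * (e₂ - e₃) ≠ 0 := by
    intro h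
    rw [h] at hdisc
    apply hDQ
    rw [← hdisc]
    ring
  have h12 : e₁ ≠ e₂ := by rintro rfl; apply hprod; ring
  have h13 : e₁ ≠ e₃ := by rintro rfl; apply hprod; ring
  have h23 : e₂ ≠ e₃ := by rintro rfl; apply hprod; ring
  -- the polynomial
  have hpoly : ∀ z : Qb, z ^ 3 + p * z ^ 2 + q * z + r = (z - e₁) * (z - e₂) * (z - e₃) := by
    intro z
    linear_combination z ^ 2 * h1 - z * h2 + h3
  have hmove : ∀ e : Qb, e ^ 3 + p * e ^ 2 + q * e + r = 0 → ∃ σ : GQ, σ e ≠ e := by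
    intro e he
    by_contra hcon
    push Not at hcon
    obtain ⟨x, hx⟩ := rational_of_fixed hcon
    have hx0 : x ^ 3 + p * x ^ 2 + q * x + r = 0 := by
      apply (algebraMap ℚ Qb).injective
      rw [hx] at he
      simpa using he
    obtain ⟨n, hn⟩ := H18MO.int_root hx0
    apply hno n
    rw [hn] at hx0
    exact_mod_cast hx0
  obtain ⟨σ, s1, s2, s3⟩ := exists_fixedpoint_free h1 h2 h3 h12 h13 h23
    (hmove e₁ (by rw [hpoly]; ring)) (hmove e₂ (by rw [hpoly]; ring))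
    (hmove e₃ (by rw [hpoly]; ring))
  -- the open subgroup
  have hint : ∀ e ∈ ({e₁, e₂, e₃} : Set Qb), IsIntegral ℚ e := fun e _ =>
    (Algebra.IsAlgebraic.isAlgebraic (R := ℚ) e).isIntegral
  have hfin : FiniteDimensional ℚ (IntermediateField.adjoin ℚ ({e₁, e₂, e₃} : Set Qb)) :=
    IntermediateField.finiteDimensional_adjoin hint
  obtain ⟨ℓ, A, φ, hℓ, hT, hA, hφ, hU⟩ := Cheb.exists_frobenius_dense
    (IntermediateField.fixingSubgroup_isOpen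
      (IntermediateField.adjoin ℚ ({e₁, e₂, e₃} : Set Qb))) σ (T ∪ D.natAbs.divisors)
  rw [Finset.mem_union, not_or] at hT
  have hℓD : ¬ (ℓ : ℤ) ∣ D := fun h => hT.2 (Nat.mem_divisors.mpr
    ⟨Int.natCast_dvd.mp h, Int.natAbs_ne_zero.mpr hD0⟩)
  have hφe : ∀ e ∈ ({e₁, e₂, e₃} : Set Qb), φ e = σ e := by
    intro e he
    have k1 : (σ⁻¹ * φ) e = e := by
      have := (IntermediateField.mem_fixingSubgroup_iff _ _).mp hU e
        (IntermediateField.subset_adjoin ℚ _ he)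
      exact this
    have k2 : φ e = σ ((σ⁻¹ * φ) e) := by
      change _ = (σ * (σ⁻¹ * φ)) e
      rw [mul_inv_cancel_left]
    rw [k2, k1]
  refine ⟨ℓ, hℓ, hT.1, fun n hn => ?_⟩
  -- valuations
  have hmul : ∀ {x y : Qb}, A.valuation x < 1 → A.valuation y ≤ 1 → A.valuation (x * y) < 1 := by
    intro x y hx hy
    rw [map_mul]
    calc A.valuation x * A.valuation y ≤ A.valuation x * 1 := mul_le_mul' le_rfl hy
      _ = A.valuation x := mul_one _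
      _ < 1 := hx
  have hmul' : ∀ {x y : Qb}, A.valuation x ≤ 1 → A.valuation y < 1 → A.valuation (x * y) < 1 := by
    intro x y hx hy
    rw [mul_comm]
    exact hmul hy hx
  have hvint : ∀ m : ℤ, A.valuation (m : Qb) ≤ 1 := fun m => by
    rw [A.valuation_le_one_iff]
    exact intCast_mem A m
  have hvℓ : ∀ m : ℤ, (ℓ : ℤ) ∣ m → A.valuation (m : Qb) < 1 := by
    rintro m ⟨k, rfl⟩
    push_cast
    exact hmul hA (hvint k)
  have hve : ∀ e ∈ ({e₁, e₂, e₃} : Set Qb), A.valuation e ≤ 1 := by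
    intro e he
    have he0 : e ^ 3 + p * e ^ 2 + q * e + r = 0 := by
      rw [hpoly]
      rcases he with rfl | rfl | rfl <;> ring
    have hI : IsIntegral ℤ e := by
      refine ⟨Polynomial.X ^ 3 + Polynomial.C p * Polynomial.X ^ 2 +
        Polynomial.C q * Polynomial.X + Polynomial.C r, by monicity!, ?_⟩
      simp only [Polynomial.eval₂_add, Polynomial.eval₂_mul, Polynomial.eval₂_pow,
        Polynomial.eval₂_X, Polynomial.eval₂_C]
      exact he0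
    rw [A.valuation_le_one_iff]
    exact H05.mem_of_isIntegral A hI
  have hvD : ¬ A.valuation (D : Qb) < 1 := by
    intro h
    obtain ⟨u, v, huv⟩ := ((Nat.prime_iff_prime_int.mp hℓ).coprime_iff_not_dvd).mpr hℓD
    have k1 : A.valuation ((u * ℓ + v * D : ℤ) : Qb) < 1 := by
      push_cast
      refine lt_of_le_of_lt (A.valuation.map_add _ _) (max_lt ?_ ?_)
      · exact hmul' (hvint u) hA
      · exact hmul' (hvint v) h
    rw [huv] at k1
    simp at k1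
  have m1 : e₁ ∈ ({e₁, e₂, e₃} : Set Qb) := by simp
  have m2 : e₂ ∈ ({e₁, e₂, e₃} : Set Qb) := by simp
  have m3 : e₃ ∈ ({e₁, e₂, e₃} : Set Qb) := by simp
  have hsub : ∀ {x y : Qb}, A.valuation x ≤ 1 → A.valuation y ≤ 1 → A.valuation (x - y) ≤ 1 :=
    fun hx hy => (A.valuation.map_sub _ _).trans (max_le hx hy)
  have l12 := hsub (hve e₁ m1) (hve e₂ m2)
  have l13 := hsub (hve e₁ m1) (hve e₃ m3)
  have l23 := hsub (hve e₂ m2) (hve e₃ m3)
  have hD' : ¬ A.valuation ((e₁ - e₂) * (e₁ - e₃) * (e₂ - e₃)) < 1 := by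
    intro h
    apply hvD
    rw [← hdisc, map_pow]
    exact pow_lt_one₀ zero_le h two_ne_zero
  have v12 : ¬ A.valuation (e₁ - e₂) < 1 := fun h => hD' (hmul (hmul h l13) l23)
  have v13 : ¬ A.valuation (e₁ - e₃) < 1 := fun h => hD' (hmul (hmul' l12 h) l23)
  have v23 : ¬ A.valuation (e₂ - e₃) < 1 := fun h => hD' (hmul' (by
    rw [map_mul]
    exact mul_le_one' l12 l13) h)
  have hv : ∀ e e' : Qb, (e = e₁ ∨ e = e₂ ∨ e = e₃) → (e' = e₁ ∨ e' = e₂ ∨ e' = e₃) → e ≠ e' →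
      ¬ A.valuation (e - e') < 1 := by
    intro e e' he he' hne h
    have h' : A.valuation (e' - e) < 1 := by rwa [Valuation.map_sub_swap]
    rcases he with rfl | rfl | rfl <;> rcases he' with rfl | rfl | rfl <;>
      first
        | exact absurd rfl hne
        | exact v12 h
        | exact v13 h
        | exact v23 h
        | exact v12 h'
        | exact v13 h'
        | exact v23 h'
  have key : ∀ e ∈ ({e₁, e₂, e₃} : Set Qb), σ e ≠ e → ¬ A.valuation ((n : Qb) - e) < 1 := by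
    intro e he hσe h
    have k1 : A.valuation (φ ((n : Qb) - e) - ((n : Qb) - e) ^ ℓ) < 1 := H09.frob_val_sub hφ h.le
    have k2 : A.valuation (((n : Qb) - e) ^ ℓ) < 1 := by
      rw [map_pow]
      exact pow_lt_one₀ zero_le h hℓ.ne_zero
    have k3 : A.valuation (φ ((n : Qb) - e)) < 1 := by
      have e1 : φ ((n : Qb) - e) = (φ ((n : Qb) - e) - ((n : Qb) - e) ^ ℓ) + ((n : Qb) - e) ^ ℓ := by
        ring
      rw [e1]
      exact lt_of_le_of_lt (A.valuation.map_add _ _) (max_lt k1 k2)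
    rw [map_sub, map_intCast, hφe e he] at k3
    have k4 : A.valuation (e - σ e) < 1 := by
      have e1 : e - σ e = ((n : Qb) - σ e) - ((n : Qb) - e) := by ring
      rw [e1]
      exact lt_of_le_of_lt (A.valuation.map_sub _ _) (max_lt k3 h)
    exact hv e (σ e) he (perm h1 h2 h3 σ he) hσe.symm k4
  have hfn : A.valuation (((n : Qb) - e₁) * (n - e₂) * (n - e₃)) < 1 := by
    rw [← hpoly]
    have := hvℓ _ hn
    push_cast at this
    exact this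
  have n1 := key e₁ m1 s1
  have n2 := key e₂ m2 s2
  have n3 := key e₃ m3 s3
  have w1 : A.valuation ((n : Qb) - e₁) = 1 := le_antisymm (hsub (hvint n) (hve e₁ m1)) (not_lt.mp n1)
  have w2 : A.valuation ((n : Qb) - e₂) = 1 := le_antisymm (hsub (hvint n) (hve e₂ m2)) (not_lt.mp n2)
  have w3 : A.valuation ((n : Qb) - e₃) = 1 := le_antisymm (hsub (hvint n) (hve e₃ m3)) (not_lt.mp n3)
  rw [map_mul, map_mul, w1, w2, w3] at hfn
  simp at hfn

end Fermat.Agent.Cor.H18Cl
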