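import Fermat.Agent.Cor.H18Cl6
import Fermat.Agent.Cor.H18Cl7

/-!
# The semistable elliptic curves of conductor 17

* `two_torsion_of_even_card`: if the number of points of `W` modulo almost all primes is even, then `W` has a rational
  point of order two;
* `conductor_seventeen`: a semistable elliptic curve over `ℚ` of conductor `17` is isomorphic over `ℚ` to one of the four
  curves `y² + x y + y = x³ - x² - x`, `y² + x y + y = x³ - x² - 6 x - 4`, `y² + x y + y = x³ - x² - x - 14`,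
  `y² + x y + y = x³ - x² - 91 x - 310`.

This file is not used by any of the statement files.
-/

set_option autoImplicit false

namespace Fermat.Agent.Cor.H18Cl

open WeierstrassCurve Fermat.Agent.Cor.H18MO

variable {W : WeierstrassCurve ℤ}

/-- an even number of points modulo `ℓ` gives a root of the `2`-division polynomial modulo `ℓ` -/
theorem exists_root_of_even_card {ℓ : ℕ} (hℓ : ℓ.Prime) (h : 2 ∣ (W.reductionMod ℓ).card) :
    ∃ n : ℤ, (ℓ : ℤ) ∣ n ^ 3 + W.b₂ * n ^ 2 + 8 * W.b₄ * n + 16 * W.b₆ := by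
  have : Fact ℓ.Prime := ⟨hℓ⟩
  have : Fact (Nat.Prime 2) := ⟨Nat.prime_two⟩
  obtain ⟨P, hP⟩ : ∃ P : (W.reductionMod ℓ).toAffine.Point, addOrderOf P = 2 := by
    have hfin : Finite (W.reductionMod ℓ).toAffine.Point := inferInstance
    exact exists_prime_addOrderOf_dvd_card' 2 h
  have hP0 : P ≠ 0 := by
    rintro rfl
    simp at hP
  have hPP : P + P = 0 := by
    rw [← two_nsmul, ← hP]
    exact addOrderOf_nsmul_eq_zero P
  rcases P with _ | ⟨x, y, hxy⟩
  · exact absurd rfl hP0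
  have h3 := eq_neg_of_add_eq_zero_left hPP
  rw [Affine.Point.neg_some, Affine.Point.some.injEq] at h3
  have h4 : y = -y - (W.a₁ : ZMod ℓ) * x - W.a₃ := h3.2
  have h5 : y ^ 2 + (W.a₁ : ZMod ℓ) * x * y + W.a₃ * y =
      x ^ 3 + W.a₂ * x ^ 2 + W.a₄ * x + W.a₆ := (Affine.equation_iff x y).mp hxy.1
  obtain ⟨n, hn⟩ := ZMod.intCast_surjective (4 * x)
  refine ⟨n, ?_⟩
  rw [← ZMod.intCast_zmod_eq_zero_iff_dvd]
  simp only [WeierstrassCurve.b₂, WeierstrassCurve.b₄, WeierstrassCurve.b₆]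
  push_cast
  rw [hn]
  linear_combination (-64) * h5 + 16 * (2 * y + W.a₁ * x + W.a₃) * h4

/-- **Two-torsion and the number of points**: if the number of points of `W` modulo all primes outside a finite set is
even, then `W` has a rational point of order two. -/
theorem two_torsion_of_even_card (hΔ : W.Δ ≠ 0) (T : Finset ℕ)
    (h : ∀ ℓ : ℕ, ℓ.Prime → ℓ ∉ T → 2 ∣ (W.reductionMod ℓ).card) : HasTwoTorsion W := by
  by_contra hcon
  obtain ⟨ℓ, hℓ, hT, hno⟩ := exists_prime_no_root (p := W.b₂) (q := 8 * W.b₄) (r := 16 * W.b₆)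
    (D := 256 * W.Δ) (fun n hn => hcon ⟨(n : ℚ) / 4, by
      have : ((n : ℚ)) ^ 3 + W.b₂ * n ^ 2 + 8 * W.b₄ * n + 16 * W.b₆ = 0 := by exact_mod_cast hn
      linear_combination (1 / 16) * this⟩) (by
      have e : W.Δ = -W.b₂ ^ 2 * W.b₈ - 8 * W.b₄ ^ 3 - 27 * W.b₆ ^ 2 + 9 * W.b₂ * W.b₄ * W.b₆ := rfl
      have hb8 := W.b_relation
      rw [e]
      linear_combination (-64) * W.b₂ ^ 2 * hb8) (mul_ne_zero (by norm_num) hΔ) T
  obtain ⟨n, hn⟩ := exists_root_of_even_card hℓ (h ℓ hℓ hT)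
  exact hno n hn

/-- **The semistable elliptic curves of conductor 17.** -/
theorem conductor_seventeen (hΔ : W.Δ ≠ 0) (hss : W.IsSemistableModel)
    (h : W.conductorLevel = 17) :
    IsIso W ⟨1, -1, 1, -1, 0⟩ ∨ IsIso W ⟨1, -1, 1, -91, -310⟩ ∨ IsIso W ⟨1, -1, 1, -6, -4⟩ ∨
      IsIso W ⟨1, -1, 1, -1, -14⟩ := by
  have hN : Nat.Prime 17 := by norm_num
  obtain ⟨m, hm⟩ := exists_exponent hΔ hN h
  have h2 : HasTwoTorsion W := by
    refine two_torsion_of_even_card hΔ {17} fun ℓ hℓ hT => ?_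
    have h3 : ¬ ℓ ∣ 17 := by
      intro h4
      apply hT
      rw [Finset.mem_singleton]
      exact (Nat.prime_dvd_prime_iff_eq hℓ hN).mp h4
    exact (by norm_num : 2 ∣ 4).trans
      (GenusOne.four_dvd_card_of_conductor_seventeen W hΔ hss ℓ hℓ h h3)
  rcases class_two hss hN hm h2 with h3 | ⟨t, ht, -⟩
  · exact h3
  · exfalso
    have := sq_nonneg (4 * t + 1)
    push_cast at ht
    omega

end Fermat.Agent.Cor.H18Cl
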