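import Fermat.Agent.Cor.H18Cl8

/-!
# The number of isomorphism classes of semistable elliptic curves of conductor 11, 17, 19

There are exactly three isomorphism classes of semistable elliptic curves over `ℚ` of conductor `11` (`eleven`), exactly
four of conductor `17` (`seventeen`) and exactly three of conductor `19` (`nineteen`).

This file is not used by any of the statement files.
-/

set_option autoImplicit false

namespace Fermat.Agent.Cor.H18Cl

open WeierstrassCurve Fermat.Agent.Cor.H18MO

/-- isomorphic curves have the same `j`-invariant -/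
theorem IsIso.j_eq {W W' : WeierstrassCurve ℤ} (h : IsIso W W') :
    W.c₄ ^ 3 * W'.Δ = W'.c₄ ^ 3 * W.Δ := by
  obtain ⟨C, hC⟩ := h
  have h1 : ((W'.c₄ : ℤ) : ℚ) = (C.u⁻¹ : ℚˣ) ^ 4 * ((W.c₄ : ℤ) : ℚ) := by
    have := congrArg WeierstrassCurve.c₄ hC
    rw [variableChange_c₄, map_c₄, map_c₄] at this
    exact this.symm
  have h2 : ((W'.Δ : ℤ) : ℚ) = (C.u⁻¹ : ℚˣ) ^ 12 * ((W.Δ : ℤ) : ℚ) := by
    have := congrArg WeierstrassCurve.Δ hC
    rw [variableChange_Δ, map_Δ, map_Δ] at this
    exact this.symm
  have h3 : ((W.c₄ : ℤ) : ℚ) ^ 3 * ((W'.Δ : ℤ) : ℚ) = ((W'.c₄ : ℤ) : ℚ) ^ 3 * ((W.Δ : ℤ) : ℚ) := by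
    rw [h1, h2]
    ring
  exact_mod_cast h3

theorem IsIso.refl (W : WeierstrassCurve ℤ) : IsIso W W := ⟨1, one_smul _ _⟩

theorem IsIso.symm {W W' : WeierstrassCurve ℤ} (h : IsIso W W') : IsIso W' W := by
  obtain ⟨C, hC⟩ := h
  exact ⟨C⁻¹, by rw [← hC, inv_smul_smul]⟩

theorem IsIso.trans {W W' W'' : WeierstrassCurve ℤ} (h : IsIso W W') (h' : IsIso W' W'') :
    IsIso W W'' := by
  obtain ⟨C, hC⟩ := h
  obtain ⟨C', hC'⟩ := h'
  exact ⟨C' * C, by rw [mul_smul, hC, hC']⟩

/-- `L` is a complete list without repetition of the semistable elliptic curves of conductor `N`, up to isomorphism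
over `ℚ` -/
structure IsList (N : ℕ) {k : ℕ} (L : Fin k → WeierstrassCurve ℤ) : Prop where
  semistable : ∀ i, (L i).IsSemistableModel
  disc_ne_zero : ∀ i, (L i).Δ ≠ 0
  conductor : ∀ i, (L i).conductorLevel = N
  injective : ∀ i j, IsIso (L i) (L j) → i = j
  complete : ∀ W : WeierstrassCurve ℤ, W.Δ ≠ 0 → W.IsSemistableModel → W.conductorLevel = N →
    ∃ i, IsIso W (L i)

theorem conductor_of {W : WeierstrassCurve ℤ} {N m : ℕ} (hN : N.Prime) (hm : m ≠ 0) {D c : ℤ}
    (hD : W.Δ = D) (hc : W.c₄ = c) (hg : Int.gcd D c = 1) (hDN : D.natAbs = N ^ m) :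
    W.IsSemistableModel ∧ W.Δ ≠ 0 ∧ W.conductorLevel = N := by
  have h := example_of hD hc hg hDN
  have h0 := H18MO.disc_ne_zero hN h.2
  refine ⟨h.1, h0, ?_⟩
  rw [GenusOne.conductorLevel_eq W h0, h.2, Nat.primeFactors_prime_pow hm hN,
    Finset.prod_singleton]

/-- the three curves of conductor `11` -/
def list11 : Fin 3 → WeierstrassCurve ℤ :=
  ![⟨0, -1, 1, 0, 0⟩, ⟨0, -1, 1, -7820, -263580⟩, ⟨0, -1, 1, -10, -20⟩]

/-- the four curves of conductor `17` -/
def list17 : Fin 4 → WeierstrassCurve ℤ :=
  ![⟨1, -1, 1, -1, 0⟩, ⟨1, -1, 1, -91, -310⟩, ⟨1, -1, 1, -6, -4⟩, ⟨1, -1, 1, -1, -14⟩]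

/-- the three curves of conductor `19` -/
def list19 : Fin 3 → WeierstrassCurve ℤ :=
  ![⟨0, 1, 1, 1, 0⟩, ⟨0, 1, 1, -769, -8470⟩, ⟨0, 1, 1, -9, -15⟩]

theorem list11_props (i : Fin 3) : (list11 i).IsSemistableModel ∧ (list11 i).Δ ≠ 0 ∧
    (list11 i).conductorLevel = 11 := by
  fin_cases i
  · exact conductor_of (m := 1) (D := -11) (c := 16) (by norm_num) (by norm_num) (by decide)
      (by decide) (by decide) (by norm_num)
  · exact conductor_of (m := 1) (D := -11) (c := 375376) (by norm_num) (by norm_num) (by decide)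
      (by decide) (by decide) (by norm_num)
  · exact conductor_of (m := 5) (D := -161051) (c := 496) (by norm_num) (by norm_num) (by decide)
      (by decide) (by decide) (by norm_num)

theorem list17_props (i : Fin 4) : (list17 i).IsSemistableModel ∧ (list17 i).Δ ≠ 0 ∧
    (list17 i).conductorLevel = 17 := by
  fin_cases i
  · exact conductor_of (m := 1) (D := 17) (c := 33) (by norm_num) (by norm_num) (by decide)
      (by decide) (by decide) (by norm_num)
  · exact conductor_of (m := 1) (D := 17) (c := 4353) (by norm_num) (by norm_num) (by decide)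
      (by decide) (by decide) (by norm_num)
  · exact conductor_of (m := 2) (D := 289) (c := 273) (by norm_num) (by norm_num) (by decide)
      (by decide) (by decide) (by norm_num)
  · exact conductor_of (m := 4) (D := -83521) (c := 33) (by norm_num) (by norm_num) (by decide)
      (by decide) (by decide) (by norm_num)

theorem list19_props (i : Fin 3) : (list19 i).IsSemistableModel ∧ (list19 i).Δ ≠ 0 ∧
    (list19 i).conductorLevel = 19 := by
  fin_cases i
  · exact conductor_of (m := 1) (D := -19) (c := -32) (by norm_num) (by norm_num) (by decide)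
      (by decide) (by decide) (by norm_num)
  · exact conductor_of (m := 1) (D := -19) (c := 36928) (by norm_num) (by norm_num) (by decide)
      (by decide) (by decide) (by norm_num)
  · exact conductor_of (m := 3) (D := -6859) (c := 448) (by norm_num) (by norm_num) (by decide)
      (by decide) (by decide) (by norm_num)

/-- **There are exactly three isomorphism classes of semistable elliptic curves of conductor 11.** -/
theorem eleven : IsList 11 list11 where
  semistable i := (list11_props i).1
  disc_ne_zero i := (list11_props i).2.1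
  conductor i := (list11_props i).2.2
  injective i j h := by
    have h1 := h.j_eq
    revert h1
    fin_cases i <;> fin_cases j <;> first | (intro _; rfl) | (intro h2; exact absurd h2 (by decide))
  complete W hΔ hss h := by
    rcases conductor_eleven hΔ hss h with h1 | h1 | h1
    · exact ⟨0, h1⟩
    · exact ⟨1, h1⟩
    · exact ⟨2, h1⟩

/-- **There are exactly four isomorphism classes of semistable elliptic curves of conductor 17.** -/
theorem seventeen : IsList 17 list17 where
  semistable i := (list17_props i).1
  disc_ne_zero i := (list17_props i).2.1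
  conductor i := (list17_props i).2.2
  injective i j h := by
    have h1 := h.j_eq
    revert h1
    fin_cases i <;> fin_cases j <;> first | (intro _; rfl) | (intro h2; exact absurd h2 (by decide))
  complete W hΔ hss h := by
    rcases conductor_seventeen hΔ hss h with h1 | h1 | h1 | h1
    · exact ⟨0, h1⟩
    · exact ⟨1, h1⟩
    · exact ⟨2, h1⟩
    · exact ⟨3, h1⟩

/-- **There are exactly three isomorphism classes of semistable elliptic curves of conductor 19.** -/
theorem nineteen : IsList 19 list19 where
  semistable i := (list19_props i).1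
  disc_ne_zero i := (list19_props i).2.1
  conductor i := (list19_props i).2.2
  injective i j h := by
    have h1 := h.j_eq
    revert h1
    fin_cases i <;> fin_cases j <;> first | (intro _; rfl) | (intro h2; exact absurd h2 (by decide))
  complete W hΔ hss h := by
    rcases conductor_nineteen hΔ hss h with h1 | h1 | h1
    · exact ⟨0, h1⟩
    · exact ⟨1, h1⟩
    · exact ⟨2, h1⟩

end Fermat.Agent.Cor.H18Cl
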