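import Mathlib

/-!
# The diophantine equations for curves of prime conductor with an isogeny of degree 3 or 5

This file is not used by any of the statement files.
-/

set_option autoImplicit false

namespace Fermat.Agent.Cor.H18MO

lemma vpow (ℓ : ℕ) [Fact ℓ.Prime] (n : ℕ) (z : ℤ) :
    padicValInt ℓ (z ^ n) = n * padicValInt ℓ z := by
  rw [padicValInt, Int.natAbs_pow, padicValNat.pow, padicValInt]

lemma vneg (ℓ : ℕ) (z : ℤ) : padicValInt ℓ (-z) = padicValInt ℓ z := by
  rw [padicValInt, Int.natAbs_neg, padicValInt]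

lemma vself (ℓ : ℕ) [hℓ : Fact ℓ.Prime] : padicValInt ℓ (ℓ : ℤ) = 1 := by
  rw [padicValInt, Int.natAbs_natCast]
  exact padicValNat.self hℓ.out.one_lt

/-- an integer dividing a power of a prime -/
lemma eq_pow_of_dvd {N m : ℕ} (hN : N.Prime) {z Δ : ℤ} (hΔ : Δ.natAbs = N ^ m) (h : z ∣ Δ) :
    ∃ k : ℕ, z = (N : ℤ) ^ k ∨ z = -(N : ℤ) ^ k := by
  obtain ⟨k, -, hk⟩ := (Nat.dvd_prime_pow hN).mp (hΔ ▸ Int.natAbs_dvd_natAbs.mpr h)
  refine ⟨k, ?_⟩
  rcases Int.natAbs_eq z with h1 | h1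
  · left; rw [h1, hk]; push_cast; rfl
  · right; rw [h1, hk]; push_cast; rfl

/-- `z² + 22 z + 125 = w²` only for `z = -11` -/
lemma eqY {z w : ℤ} (h : z ^ 2 + 22 * z + 125 = w ^ 2) : z = -11 := by
  have h1 : (w - (z + 11)) * (w + (z + 11)) = 4 := by linear_combination -h
  have h2 : (w - (z + 11)) ∣ 4 := ⟨_, h1.symm⟩
  have h3 : (w - (z + 11)) ≤ 4 := Int.le_of_dvd (by norm_num) h2
  have h4 : -4 ≤ (w - (z + 11)) := by
    have := Int.le_of_dvd (by norm_num) ((neg_dvd).mpr h2)
    omega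
  generalize hd : w - (z + 11) = d at *
  have h5 : w + (z + 11) = d + 2 * (z + 11) := by rw [← hd]; ring
  rw [h5] at h1
  interval_cases d <;> omega

/-- `125 z² + 22 z + 1 = w²` with `z` a prime power up to sign, `z ≠ 0`: `z = -11` -/
lemma eqZ {N k : ℕ} (hN : N.Prime) (hN5 : 5 ≤ N) (hk : k ≠ 0) {z w : ℤ}
    (hz : z.natAbs = N ^ k) (h : 125 * z ^ 2 + 22 * z + 1 = w ^ 2) : z = -11 := by
  have hNN : Prime (N : ℤ) := Nat.prime_iff_prime_int.mp hN
  have hzpow : z ∣ (N : ℤ) ^ k := by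
    rw [← Int.natAbs_dvd_natAbs, hz, Int.natAbs_pow, Int.natAbs_natCast]
  have hNz : (N : ℤ) ∣ z := by
    rw [← Int.natAbs_dvd_natAbs, hz, Int.natAbs_natCast]
    exact dvd_pow_self N hk
  have hz5 : 5 ≤ z.natAbs := by
    rw [hz]
    calc 5 ≤ N := hN5
      _ ≤ N ^ k := Nat.le_self_pow hk N
  have h1 : z * (125 * z + 22) = (w - 1) * (w + 1) := by linear_combination h
  -- `z` divides `w - 1` or `w + 1`
  have key : z ∣ w - 1 ∨ z ∣ w + 1 := by
    have h2 : (N : ℤ) ∣ (w - 1) * (w + 1) := by rw [← h1]; exact Dvd.dvd.mul_right hNz _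
    have hdvd : z ∣ (w - 1) * (w + 1) := ⟨_, h1.symm⟩
    rcases hNN.dvd_or_dvd h2 with h3 | h3
    · left
      have h4 : ¬ (N : ℤ) ∣ w + 1 := by
        intro h4
        have h5 : (N : ℤ) ∣ 2 := by
          have := dvd_sub h4 h3
          have e : w + 1 - (w - 1) = 2 := by ring
          rwa [e] at this
        have := Int.le_of_dvd (by norm_num) h5
        omega
      have h6 : IsCoprime z (w + 1) :=
        IsCoprime.of_isCoprime_of_dvd_left (((hNN.coprime_iff_not_dvd).mpr h4).pow_left) hzpow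
      exact h6.dvd_of_dvd_mul_right hdvd
    · right
      have h4 : ¬ (N : ℤ) ∣ w - 1 := by
        intro h4
        have h5 : (N : ℤ) ∣ 2 := by
          have := dvd_sub h3 h4
          have e : w + 1 - (w - 1) = 2 := by ring
          rwa [e] at this
        have := Int.le_of_dvd (by norm_num) h5
        omega
      have h6 : IsCoprime z (w - 1) :=
        IsCoprime.of_isCoprime_of_dvd_left (((hNN.coprime_iff_not_dvd).mpr h4).pow_left) hzpow
      exact h6.dvd_of_dvd_mul_left hdvd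
  have hz0 : z ≠ 0 := by rintro rfl; simp at hz5
  -- the final estimate
  have fin : ∀ u : ℤ, z * (125 - u ^ 2) = 2 * (u - 11) → z = -11 := by
    intro u hu
    have hz5' : 5 ≤ |z| := by rw [Int.abs_eq_natAbs]; exact_mod_cast hz5
    have hab : |z| * |125 - u ^ 2| = 2 * |u - 11| := by
      rw [← abs_mul, hu, abs_mul]; norm_num
    have hb1 : 5 * |125 - u ^ 2| ≤ 2 * |u - 11| := by
      rw [← hab]
      exact mul_le_mul_of_nonneg_right hz5' (abs_nonneg _)
    have hu1 : u ≤ 13 := by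
      by_contra hc
      push Not at hc
      have e1 : |125 - u ^ 2| = u ^ 2 - 125 := by
        rw [abs_of_nonpos (by nlinarith)]; ring
      have e2 : |u - 11| = u - 11 := abs_of_nonneg (by linarith)
      rw [e1, e2] at hb1
      nlinarith
    have hu2 : -13 ≤ u := by
      by_contra hc
      push Not at hc
      have e1 : |125 - u ^ 2| = u ^ 2 - 125 := by
        rw [abs_of_nonpos (by nlinarith)]; ring
      have e2 : |u - 11| = 11 - u := by
        rw [abs_of_nonpos (by linarith)]; ring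
      rw [e1, e2] at hb1
      nlinarith
    clear hb1 hab
    interval_cases u <;> omega
  rcases key with ⟨u, hu⟩ | ⟨u, hu⟩
  · have hw : w = 1 + z * u := by linarith
    apply fin u
    have h7 : z * (z * (125 - u ^ 2)) = z * (2 * (u - 11)) := by
      rw [hw] at h
      linear_combination h
    exact mul_left_cancel₀ hz0 h7
  · have hw : w = -1 + z * u := by linarith
    apply fin (-u)
    have h7 : z * (z * (125 - (-u) ^ 2)) = z * (2 * (-u - 11)) := by
      rw [hw] at h
      linear_combination h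
    exact mul_left_cancel₀ hz0 h7

/-- a product which is a prime power up to sign, with coprime factors -/
lemma unit_of_mul {N k : ℕ} (hN : N.Prime) {x y z : ℤ} (hz : z.natAbs = N ^ k) (hxy : z = x * y)
    (hcop : ¬ ((N : ℤ) ∣ x ∧ (N : ℤ) ∣ y)) : x.natAbs = 1 ∨ y.natAbs = 1 := by
  obtain ⟨i, hi⟩ := eq_pow_of_dvd hN hz ⟨y, hxy⟩
  obtain ⟨j, hj⟩ := eq_pow_of_dvd hN hz ⟨x, hxy.trans (mul_comm x y)⟩
  rcases Nat.eq_zero_or_pos i with rfl | hi0
  · left; rcases hi with h | h <;> rw [h] <;> simp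
  rcases Nat.eq_zero_or_pos j with rfl | hj0
  · right; rcases hj with h | h <;> rw [h] <;> simp
  exfalso
  apply hcop
  constructor
  · rcases hi with h | h <;> rw [h]
    · exact dvd_pow_self _ hi0.ne'
    · exact (dvd_neg).mpr (dvd_pow_self _ hi0.ne')
  · rcases hj with h | h <;> rw [h]
    · exact dvd_pow_self _ hj0.ne'
    · exact (dvd_neg).mpr (dvd_pow_self _ hj0.ne')

/-- `z + 27 = e³` -/
lemma eqA {N k : ℕ} (hN : N.Prime) (hN5 : 5 ≤ N) {z e : ℤ}
    (hz : z.natAbs = N ^ k) (h : z + 27 = e ^ 3) : z = 37 ∨ z = -19 := by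
  have hNN : Prime (N : ℤ) := Nat.prime_iff_prime_int.mp hN
  have h1 : z = (e - 3) * (e ^ 2 + 3 * e + 9) := by linear_combination h
  rcases unit_of_mul hN hz h1 (by
    rintro ⟨h2, h3⟩
    have h4 : (N : ℤ) ∣ 3 ^ 3 := by
      have : (3 : ℤ) ^ 3 = (e ^ 2 + 3 * e + 9) - (e - 3) * (e + 6) := by ring
      rw [this]
      exact dvd_sub h3 (Dvd.dvd.mul_right h2 _)
    have h5 := hNN.dvd_of_dvd_pow h4
    have := Int.le_of_dvd (by norm_num) h5
    omega) with h2 | h2
  · rcases Int.natAbs_eq_iff.mp h2 with h3 | h3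
    · left
      have : e = 4 := by push_cast at h3; linarith
      rw [h1, this]; norm_num
    · right
      have : e = 2 := by push_cast at h3; linarith
      rw [h1, this]; norm_num
  · exfalso
    have h3 : e ^ 2 + 3 * e + 9 ≤ 1 := by
      have := Int.le_natAbs (a := e ^ 2 + 3 * e + 9)
      rw [h2] at this
      exact_mod_cast this
    nlinarith [sq_nonneg (2 * e + 3)]

/-- `27 z + 1 = e³` -/
lemma eqB {N k : ℕ} (hN : N.Prime) {z e : ℤ}
    (hz : z.natAbs = N ^ k) (h : 27 * z + 1 = e ^ 3) : z = 37 ∨ z = -19 := by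
  have hNN : Prime (N : ℤ) := Nat.prime_iff_prime_int.mp hN
  obtain ⟨g, hg⟩ : ∃ g, e = 3 * g + 1 := by
    have h1 : e ^ 3 % 3 = 1 := by rw [← h]; omega
    have h2 : e % 3 = 1 := by
      rcases (show e % 3 = 0 ∨ e % 3 = 1 ∨ e % 3 = 2 by omega) with h3 | h3 | h3
      · rw [pow_succ, pow_succ, pow_one, Int.mul_emod, h3] at h1
        simp at h1
      · exact h3
      · rw [pow_succ, pow_succ, pow_one, Int.mul_emod, Int.mul_emod e e, h3] at h1
        norm_num at h1
    exact ⟨e / 3, by omega⟩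
  subst hg
  have h1 : 3 * z = 3 * g ^ 3 + 3 * g ^ 2 + g := by linarith [h]
  obtain ⟨f, rfl⟩ : (3 : ℤ) ∣ g := by
    have : g = 3 * (z - g ^ 3 - g ^ 2) := by linarith
    exact ⟨_, this⟩
  have h2 : z = f * (27 * f ^ 2 + 9 * f + 1) := by linarith
  have hz0 : z ≠ 0 := by
    rintro rfl
    have := pow_pos hN.pos k
    simp at hz
    omega
  rcases unit_of_mul hN hz h2 (by
    rintro ⟨h3, h4⟩
    have h5 : (N : ℤ) ∣ 1 := by
      have : (1 : ℤ) = (27 * f ^ 2 + 9 * f + 1) - f * (27 * f + 9) := by ring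
      rw [this]
      exact dvd_sub h4 (Dvd.dvd.mul_right h3 _)
    exact hNN.not_isUnit (isUnit_of_dvd_one h5)) with h3 | h3
  · rcases Int.natAbs_eq_iff.mp h3 with h4 | h4
    · left; rw [h2, h4]; norm_num
    · right; rw [h2, h4]; norm_num
  · exfalso
    rcases Int.natAbs_eq_iff.mp h3 with h4 | h4
    · have h5 : f * (3 * f + 1) = 0 := by push_cast at h4; linarith
      rcases mul_eq_zero.mp h5 with h6 | h6
      · exact hz0 (by rw [h2, h6]; ring)
      · omega
    · push_cast at h4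
      omega

end Fermat.Agent.Cor.H18MO
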