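import Fermat.Agent.Cor.H18MO1

/-!
# The diophantine equations for curves of prime conductor with an isogeny of degree 3 or 5, continued

This file is not used by any of the statement files.
-/

set_option autoImplicit false

namespace Fermat.Agent.Cor.H18MO

lemma sq_of_mul_sq {x G w : ℤ} (hx : x ≠ 0) (h : x ^ 2 * G = w ^ 2) : ∃ w', G = w' ^ 2 := by
  have h1 : x ^ 2 ∣ w ^ 2 := ⟨G, h.symm⟩
  obtain ⟨w', rfl⟩ := (Int.pow_dvd_pow_iff two_ne_zero).mp h1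
  refine ⟨w', ?_⟩
  have h2 : x ^ 2 * G = x ^ 2 * w' ^ 2 := by rw [h]; ring
  exact mul_left_cancel₀ (pow_ne_zero 2 hx) h2

lemma sq_of_mul_sq' {σ x G w : ℤ} (hσ : σ = 1 ∨ σ = -1) (hx : x ≠ 0) (hG : 0 < G)
    (h : σ * (x ^ 2 * G) = w ^ 2) : ∃ w', G = w' ^ 2 := by
  have hx2 : 0 < x ^ 2 * G := mul_pos (by positivity) hG
  rcases hσ with rfl | rfl
  · exact sq_of_mul_sq hx (by linarith)
  · exfalso
    nlinarith [sq_nonneg w]

lemma coprime_of_pow {N m : ℕ} (hN : N.Prime) {Δ c : ℤ} (hΔ : Δ.natAbs = N ^ m)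
    (hc : ¬ (N : ℤ) ∣ c) : IsCoprime Δ c := by
  have hNN : Prime (N : ℤ) := Nat.prime_iff_prime_int.mp hN
  have h1 : IsCoprime ((N : ℤ) ^ m) c := ((hNN.coprime_iff_not_dvd).mpr hc).pow_left
  refine IsCoprime.of_isCoprime_of_dvd_left h1 ?_
  rw [← Int.natAbs_dvd_natAbs, hΔ, Int.natAbs_pow, Int.natAbs_natCast]

lemma unit_of_dvd_dvd {x y : ℤ} (h1 : x ∣ y) (h2 : y ∣ x) : ∃ σ : ℤ, (σ = 1 ∨ σ = -1) ∧ y = σ * x := by
  rcases Int.natAbs_eq_natAbs_iff.mp (Nat.dvd_antisymm (Int.natAbs_dvd_natAbs.mpr h1)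
    (Int.natAbs_dvd_natAbs.mpr h2)) with h | h
  · exact ⟨1, Or.inl rfl, by rw [h, one_mul]⟩
  · exact ⟨-1, Or.inr rfl, by rw [h]; ring⟩

lemma pow_eq_eleven {N m j : ℕ} (hN : N.Prime) (h : N ^ m = 11 ^ j) (hj : j ≠ 0) :
    N = 11 ∧ m = j := by
  have hm : m ≠ 0 := by
    rintro rfl
    have : 11 ^ j = 1 := by rw [← h, pow_zero]
    have h2 := Nat.one_lt_pow hj (by norm_num : 1 < 11)
    omega
  have h1 : N ∣ 11 ^ j := by rw [← h]; exact dvd_pow_self N hm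
  have h2 : N = 11 := (Nat.prime_dvd_prime_iff_eq hN (by norm_num)).mp (hN.dvd_of_dvd_pow h1)
  subst h2
  exact ⟨rfl, Nat.pow_right_injective (by norm_num : 2 ≤ 11) h⟩

/-- `X₀(5)` and prime conductors -/
theorem core5 {N m : ℕ} (hN : N.Prime) (hN7 : 7 ≤ N) (hm : m ≠ 0) {c Δ a b w : ℤ}
    (hΔ : Δ.natAbs = N ^ m) (hc : ¬ (N : ℤ) ∣ c) (hab : IsCoprime a b) (hb : 0 < b) (ha : a ≠ 0)
    (h1 : c ^ 3 * a * b ^ 5 = Δ * (a ^ 2 + 10 * a * b + 5 * b ^ 2) ^ 3)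
    (h2 : Δ * a * b * (a ^ 2 + 22 * a * b + 125 * b ^ 2) = w ^ 2) :
    N = 11 ∧ (m = 1 ∨ m = 5) := by
  have hNN : Prime (N : ℤ) := Nat.prime_iff_prime_int.mp hN
  have h5p : Prime (5 : ℤ) := Int.prime_iff_natAbs_prime.mpr (by norm_num)
  have hN5 : ¬ (N : ℤ) ∣ 5 := by
    intro h
    have := Int.le_of_dvd (by norm_num) h
    omega
  have hΔ5 : IsCoprime Δ 5 := coprime_of_pow hN hΔ hN5
  have hΔc : IsCoprime Δ c := coprime_of_pow hN hΔ hc
  have hb0 : b ≠ 0 := hb.ne'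
  have hΔ0 : Δ ≠ 0 := by
    rintro rfl
    have := pow_pos hN.pos m
    simp at hΔ
    omega
  have bF : IsCoprime b (a ^ 2 + 10 * a * b + 5 * b ^ 2) := by
    have h3 := (hab.symm.pow_right (n := 2)).add_mul_left_right (10 * a + 5 * b)
    have e : a ^ 2 + b * (10 * a + 5 * b) = a ^ 2 + 10 * a * b + 5 * b ^ 2 := by ring
    rwa [e] at h3
  have hbΔ : b ^ 5 ∣ Δ := by
    have h3 : b ^ 5 ∣ Δ * (a ^ 2 + 10 * a * b + 5 * b ^ 2) ^ 3 := ⟨c ^ 3 * a, by rw [← h1]; ring⟩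
    exact (IsCoprime.pow bF : IsCoprime (b ^ 5) _).dvd_of_dvd_mul_right h3
  -- the number `x`
  obtain ⟨x, hx, hxΔ, hΔx⟩ : ∃ x : ℤ, (a = x ∨ a = 125 * x) ∧ x * b ^ 5 ∣ Δ ∧ Δ ∣ x * b ^ 5 := by
    by_cases h5 : (5 : ℤ) ∣ a
    · -- the 5-adic valuation of `a` is `3`
      have hb5 : ¬ (5 : ℤ) ∣ b := fun h => h5p.not_isUnit (hab.isUnit_of_dvd' h5 h)
      have hΔ5' : ¬ (5 : ℤ) ∣ Δ := fun h => h5p.not_isUnit (hΔ5.isUnit_of_dvd' h dvd_rfl)
      obtain ⟨a₁, rfl⟩ := h5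
      have e1 : c ^ 3 * a₁ * b ^ 5 = 25 * (Δ * (5 * a₁ ^ 2 + 10 * a₁ * b + b ^ 2) ^ 3) := by
        have h3 : (5 : ℤ) * (c ^ 3 * a₁ * b ^ 5) =
            5 * (25 * (Δ * (5 * a₁ ^ 2 + 10 * a₁ * b + b ^ 2) ^ 3)) := by linear_combination h1
        exact mul_left_cancel₀ (by norm_num) h3
      have hF' : ¬ (5 : ℤ) ∣ (5 * a₁ ^ 2 + 10 * a₁ * b + b ^ 2) := by
        intro h
        have h3 : (5 : ℤ) ∣ b ^ 2 := by
          have e : b ^ 2 = (5 * a₁ ^ 2 + 10 * a₁ * b + b ^ 2) - 5 * (a₁ ^ 2 + 2 * a₁ * b) := by ring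
          rw [e]
          exact dvd_sub h (dvd_mul_right _ _)
        exact hb5 (h5p.dvd_of_dvd_pow h3)
      have hR : ¬ (5 : ℤ) ∣ Δ * (5 * a₁ ^ 2 + 10 * a₁ * b + b ^ 2) ^ 3 := by
        intro h
        rcases h5p.dvd_or_dvd h with h | h
        · exact hΔ5' h
        · exact hF' (h5p.dvd_of_dvd_pow h)
      -- `5 ∤ c`
      have hc5 : ¬ (5 : ℤ) ∣ c := by
        rintro ⟨c', rfl⟩
        apply hR
        have h3 : (25 : ℤ) * (Δ * (5 * a₁ ^ 2 + 10 * a₁ * b + b ^ 2) ^ 3) =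
            25 * (5 * (c' ^ 3 * a₁ * b ^ 5)) := by rw [← e1]; ring
        exact ⟨_, mul_left_cancel₀ (by norm_num) h3⟩
      have h25 : (25 : ℤ) ∣ a₁ := by
        have h3 : (25 : ℤ) ∣ (c ^ 3 * b ^ 5) * a₁ := ⟨_, by rw [← e1]; ring⟩
        have h4 : IsCoprime (25 : ℤ) (c ^ 3 * b ^ 5) := by
          have h6 : IsCoprime (5 : ℤ) (c ^ 3 * b ^ 5) :=
            (h5p.coprime_iff_not_dvd).mpr fun h => by
              rcases h5p.dvd_or_dvd h with h | h
              · exact hc5 (h5p.dvd_of_dvd_pow h)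
              · exact hb5 (h5p.dvd_of_dvd_pow h)
          have h7 := h6.pow_left (m := 2)
          norm_num at h7
          exact h7
        exact h4.dvd_of_dvd_mul_left h3
      obtain ⟨x, rfl⟩ := h25
      refine ⟨x, Or.inr (by ring), ?_, ?_⟩
      · have e2 : c ^ 3 * x * b ^ 5 = Δ * (5 * (25 * x) ^ 2 + 10 * (25 * x) * b + b ^ 2) ^ 3 := by
          have h3 : (25 : ℤ) * (c ^ 3 * x * b ^ 5) =
              25 * (Δ * (5 * (25 * x) ^ 2 + 10 * (25 * x) * b + b ^ 2) ^ 3) := by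
            rw [← e1]; ring
          exact mul_left_cancel₀ (by norm_num) h3
        have hxb : IsCoprime x b := IsCoprime.of_isCoprime_of_dvd_left hab ⟨125, by ring⟩
        have hxF : IsCoprime x (5 * (25 * x) ^ 2 + 10 * (25 * x) * b + b ^ 2) := by
          have h3 := (hxb.pow_right (n := 2)).add_mul_left_right (3125 * x + 250 * b)
          have e : b ^ 2 + x * (3125 * x + 250 * b) =
            5 * (25 * x) ^ 2 + 10 * (25 * x) * b + b ^ 2 := by ring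
          rwa [e] at h3
        have hxd : x ∣ Δ := by
          have h3 : x ∣ Δ * (5 * (25 * x) ^ 2 + 10 * (25 * x) * b + b ^ 2) ^ 3 :=
            ⟨c ^ 3 * b ^ 5, by rw [← e2]; ring⟩
          exact (hxF.pow_right (n := 3)).dvd_of_dvd_mul_right h3
        exact (hxb.pow_right (n := 5)).mul_dvd hxd hbΔ
      · have h3 : Δ ∣ (c ^ 3 * 5 ^ 3) * (x * b ^ 5) :=
          ⟨((5 * (25 * x)) ^ 2 + 10 * (5 * (25 * x)) * b + 5 * b ^ 2) ^ 3, by rw [← h1]; ring⟩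
        exact ((hΔc.pow_right (n := 3)).mul_right (hΔ5.pow_right (n := 3))).dvd_of_dvd_mul_left h3
    · have ha5 : IsCoprime a 5 := ((h5p.coprime_iff_not_dvd).mpr h5).symm
      refine ⟨a, Or.inl rfl, ?_, ?_⟩
      · have haF : IsCoprime a (a ^ 2 + 10 * a * b + 5 * b ^ 2) := by
          have h3 := (ha5.mul_right (hab.pow_right (n := 2))).add_mul_left_right (a + 10 * b)
          have e : 5 * b ^ 2 + a * (a + 10 * b) = a ^ 2 + 10 * a * b + 5 * b ^ 2 := by ring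
          rwa [e] at h3
        have had : a ∣ Δ := by
          have h3 : a ∣ Δ * (a ^ 2 + 10 * a * b + 5 * b ^ 2) ^ 3 :=
            ⟨c ^ 3 * b ^ 5, by rw [← h1]; ring⟩
          exact (haF.pow_right (n := 3)).dvd_of_dvd_mul_right h3
        exact (hab.pow_right (n := 5)).mul_dvd had hbΔ
      · have h3 : Δ ∣ c ^ 3 * (a * b ^ 5) :=
          ⟨(a ^ 2 + 10 * a * b + 5 * b ^ 2) ^ 3, by rw [← h1]; ring⟩
        exact (hΔc.pow_right (n := 3)).dvd_of_dvd_mul_left h3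
  obtain ⟨σ, hσ, hσΔ⟩ := unit_of_dvd_dvd hxΔ hΔx
  have hx0 : x ≠ 0 := by
    rintro rfl
    apply hΔ0
    rw [hσΔ]; ring
  have hxb : IsCoprime x b := by
    rcases hx with rfl | rfl
    · exact hab
    · exact IsCoprime.of_isCoprime_of_dvd_left hab (dvd_mul_left _ _)
  have hxΔ' : x ∣ Δ := (dvd_mul_right _ _).trans hxΔ
  have hbΔ' : b ∣ Δ := (dvd_pow_self b (by norm_num)).trans hbΔ
  obtain ⟨s, hs⟩ := eq_pow_of_dvd hN hΔ hxΔ'
  obtain ⟨t, ht⟩ := eq_pow_of_dvd hN hΔ hbΔ'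
  have hs' : x.natAbs = N ^ s := by
    rcases hs with h | h <;> rw [h] <;> simp [Int.natAbs_pow]
  have ht' : b.natAbs = N ^ t := by
    rcases ht with h | h <;> rw [h] <;> simp [Int.natAbs_pow]
  have hst : s = 0 ∨ t = 0 := by
    by_contra hcon
    push Not at hcon
    apply hNN.not_isUnit
    refine hxb.isUnit_of_dvd' ?_ ?_
    · rw [← Int.natAbs_dvd_natAbs, hs', Int.natAbs_natCast]; exact dvd_pow_self N hcon.1
    · rw [← Int.natAbs_dvd_natAbs, ht', Int.natAbs_natCast]; exact dvd_pow_self N hcon.2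
  have hmabs : N ^ m = x.natAbs * b.natAbs ^ 5 := by
    rw [← hΔ, hσΔ, Int.natAbs_mul, Int.natAbs_mul, Int.natAbs_pow]
    rcases hσ with rfl | rfl <;> simp
  -- the square condition
  have hG : (∃ w', x ^ 2 + 22 * x * b + 125 * b ^ 2 = w' ^ 2) ∨
      (∃ w', 125 * x ^ 2 + 22 * x * b + b ^ 2 = w' ^ 2) := by
    rcases hx with rfl | rfl
    · left
      refine sq_of_mul_sq' hσ (x := a * b ^ 3) (w := w) (mul_ne_zero ha (pow_ne_zero 3 hb0)) ?_ ?_
      · nlinarith [sq_nonneg (a + 11 * b), mul_pos hb hb]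
      · rw [← h2, hσΔ]; ring
    · right
      refine sq_of_mul_sq' hσ (x := 125 * x * b ^ 3) (w := w)
        (mul_ne_zero ha (pow_ne_zero 3 hb0)) ?_ ?_
      · nlinarith [sq_nonneg (11 * x + b), mul_pos hb hb, sq_nonneg x, sq_nonneg (x + 11 * b),
          sq_pos_of_ne_zero hx0]
      · rw [← h2, hσΔ]; ring
  -- the case `b = 1`
  rcases hst with hs0 | ht0
  · -- `x = ± 1`
    rw [hs0, pow_zero] at hs'
    have hx1 : x = 1 ∨ x = -1 := Int.natAbs_eq_iff.mp hs'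
    have hxx : x ^ 2 = 1 := by rcases hx1 with h | h <;> rw [h] <;> norm_num
    have ht0 : t ≠ 0 := by
      rintro rfl
      rw [hs', ht', pow_zero, one_pow, mul_one] at hmabs
      exact hm ((Nat.pow_eq_one.mp hmabs).resolve_left hN.one_lt.ne')
    have hz : (x * b).natAbs = N ^ t := by rw [Int.natAbs_mul, hs', one_mul, ht']
    have hz11 : x * b = -11 := by
      rcases hG with ⟨w', hw'⟩ | ⟨w', hw'⟩
      · refine eqZ hN (by omega) ht0 hz (w := w') ?_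
        rw [← hw']
        linear_combination (125 * b ^ 2 - 1) * hxx
      · refine eqY (w := w') ?_
        rw [← hw']
        linear_combination (b ^ 2 - 125) * hxx
    have hb11 : b.natAbs = 11 := by
      have := congrArg Int.natAbs hz11
      rw [Int.natAbs_mul, hs', one_mul] at this
      exact this
    rw [hs', hb11, one_mul] at hmabs
    obtain ⟨h3, h4⟩ := pow_eq_eleven hN hmabs (by norm_num)
    exact ⟨h3, Or.inr h4⟩
  · rw [ht0, pow_zero] at ht'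
    have hb1 : b = 1 := by omega
    have hs0 : s ≠ 0 := by
      rintro rfl
      rw [hs', ht', pow_zero, one_pow, mul_one] at hmabs
      exact hm ((Nat.pow_eq_one.mp hmabs).resolve_left hN.one_lt.ne')
    have hz11 : x = -11 := by
      rw [hb1] at hG
      rcases hG with ⟨w', hw'⟩ | ⟨w', hw'⟩
      · exact eqY (w := w') (by rw [← hw']; ring)
      · exact eqZ hN (by omega) hs0 hs' (w := w') (by rw [← hw']; ring)
    rw [hz11, ht', one_pow, mul_one] at hmabs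
    obtain ⟨h3, h4⟩ := pow_eq_eleven hN (j := 1) (by rw [hmabs]; rfl) (by norm_num)
    exact ⟨h3, Or.inl h4⟩

end Fermat.Agent.Cor.H18MO
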