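import Fermat.Agent.Cor.H18MO2

/-!
# The diophantine equations for curves of prime conductor with an isogeny of degree 3

This file is not used by any of the statement files.
-/

set_option autoImplicit false

namespace Fermat.Agent.Cor.H18MO

lemma pow_eq_prime {N m j P : ℕ} (hP : P.Prime) (hN : N.Prime) (h : N ^ m = P ^ j) (hj : j ≠ 0) :
    N = P ∧ m = j := by
  have hm : m ≠ 0 := by
    rintro rfl
    have : P ^ j = 1 := by rw [← h, pow_zero]
    have h2 := Nat.one_lt_pow hj hP.one_lt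
    omega
  have h1 : N ∣ P ^ j := by rw [← h]; exact dvd_pow_self N hm
  have h2 : N = P := (Nat.prime_dvd_prime_iff_eq hN hP).mp (hN.dvd_of_dvd_pow h1)
  subst h2
  exact ⟨rfl, Nat.pow_right_injective hP.two_le h⟩

/-- `X₀(3)` and prime conductors -/
theorem core3 {N m : ℕ} (hN : N.Prime) (hN7 : 7 ≤ N) {c Δ a b w : ℤ}
    (hΔ : Δ.natAbs = N ^ m) (hc : ¬ (N : ℤ) ∣ c) (hab : IsCoprime a b) (hb : 0 < b) (ha : a ≠ 0)
    (h1 : c ^ 3 * a * b ^ 3 = Δ * ((a + 27 * b) * (a + 3 * b) ^ 3))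
    (h2 : Δ * a * b = w ^ 2)
    (h3 : (3 : ℤ) ∣ c → ∃ c' d, c = 3 * c' ∧ c' ^ 3 - 27 * d ^ 2 = 64 * Δ) :
    (N = 19 ∨ N = 37) ∧ (m = 1 ∨ m = 3) := by
  have hNN : Prime (N : ℤ) := Nat.prime_iff_prime_int.mp hN
  have h3p : Prime (3 : ℤ) := Int.prime_three
  have hN3 : ¬ (N : ℤ) ∣ 3 := by
    intro h
    have := Int.le_of_dvd (by norm_num) h
    omega
  have hΔ3 : IsCoprime Δ 3 := coprime_of_pow hN hΔ hN3
  have hΔ3' : ¬ (3 : ℤ) ∣ Δ := fun h => h3p.not_isUnit (hΔ3.isUnit_of_dvd' h dvd_rfl)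
  have hΔc : IsCoprime Δ c := coprime_of_pow hN hΔ hc
  have hb0 : b ≠ 0 := hb.ne'
  have hc0 : c ≠ 0 := by rintro rfl; exact hc (dvd_zero _)
  have hΔ0 : Δ ≠ 0 := by
    rintro rfl
    have := pow_pos hN.pos m
    simp at hΔ
    omega
  have hbΔ : b ^ 3 ∣ Δ := by
    have bF : IsCoprime b (a + 27 * b) := by
      have := hab.symm.add_mul_left_right 27
      rwa [mul_comm b 27] at this
    have bG : IsCoprime b (a + 3 * b) := by
      have := hab.symm.add_mul_left_right 3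
      rwa [mul_comm b 3] at this
    have h4 : b ^ 3 ∣ Δ * ((a + 27 * b) * (a + 3 * b) ^ 3) := ⟨c ^ 3 * a, by rw [← h1]; ring⟩
    exact ((bF.mul_right (bG.pow_right (n := 3))).pow_left (m := 3)).dvd_of_dvd_mul_right h4
  -- the number `x`
  obtain ⟨x, hx, hxΔ, hΔx⟩ : ∃ x : ℤ,
      ((a = x ∧ c ^ 3 * x * b ^ 3 = Δ * ((x + 27 * b) * (x + 3 * b) ^ 3)) ∨
        (a = 729 * x ∧ c ^ 3 * x * b ^ 3 = Δ * ((27 * x + b) * (243 * x + b) ^ 3))) ∧
      x * b ^ 3 ∣ Δ ∧ Δ ∣ x * b ^ 3 := by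
    by_cases h3a : (3 : ℤ) ∣ a
    · have hb3 : ¬ (3 : ℤ) ∣ b := fun h => h3p.not_isUnit (hab.isUnit_of_dvd' h3a h)
      have step : ∀ {y v : ℤ}, Δ * (3 * y) * b = v ^ 2 → ∃ y' v', y = 3 * y' ∧ v = 3 * v' ∧
          Δ * y' * b = v' ^ 2 := by
        intro y v hv
        obtain ⟨v', rfl⟩ : (3 : ℤ) ∣ v := by
          apply h3p.dvd_of_dvd_pow (n := 2)
          rw [← hv]
          exact ⟨Δ * y * b, by ring⟩
        have h4 : Δ * y * b = 3 * v' ^ 2 := by
          have : (3 : ℤ) * (Δ * y * b) = 3 * (3 * v' ^ 2) := by linear_combination hv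
          exact mul_left_cancel₀ (by norm_num) this
        have h5 : (3 : ℤ) ∣ Δ * y * b := ⟨_, h4⟩
        obtain ⟨y', rfl⟩ : (3 : ℤ) ∣ y := by
          rcases h3p.dvd_or_dvd h5 with h | h
          · rcases h3p.dvd_or_dvd h with h | h
            · exact absurd h hΔ3'
            · exact h
          · exact absurd h hb3
        refine ⟨y', v', rfl, rfl, ?_⟩
        have : (3 : ℤ) * (Δ * y' * b) = 3 * (v' ^ 2) := by linear_combination h4
        exact mul_left_cancel₀ (by norm_num) this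
      obtain ⟨a₁, rfl⟩ := h3a
      obtain ⟨a₂, w₁, rfl, rfl, h2₁⟩ := step h2
      have e2 : c ^ 3 * a₂ * b ^ 3 = 27 * (Δ * ((a₂ + 3 * b) * (3 * a₂ + b) ^ 3)) := by
        have : (9 : ℤ) * (c ^ 3 * a₂ * b ^ 3) =
            9 * (27 * (Δ * ((a₂ + 3 * b) * (3 * a₂ + b) ^ 3))) := by linear_combination h1
        exact mul_left_cancel₀ (by norm_num) this
      have hab₂ : IsCoprime a₂ b :=
        IsCoprime.of_isCoprime_of_dvd_left hab ⟨9, by ring⟩
      by_cases h3a₂ : (3 : ℤ) ∣ a₂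
      · obtain ⟨a₃, rfl⟩ := h3a₂
        obtain ⟨a₄, w₂, rfl, rfl, h2₂⟩ := step h2₁
        have e4 : c ^ 3 * a₄ * b ^ 3 = 9 * (Δ * ((3 * a₄ + b) * (27 * a₄ + b) ^ 3)) := by
          have : (9 : ℤ) * (c ^ 3 * a₄ * b ^ 3) =
              9 * (9 * (Δ * ((3 * a₄ + b) * (27 * a₄ + b) ^ 3))) := by linear_combination e2
          exact mul_left_cancel₀ (by norm_num) this
        have hR : ¬ (3 : ℤ) ∣ Δ * ((3 * a₄ + b) * (27 * a₄ + b) ^ 3) := by
          intro h
          have k1 : ¬ (3 : ℤ) ∣ 3 * a₄ + b := fun h => hb3 (by omega)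
          have k2 : ¬ (3 : ℤ) ∣ 27 * a₄ + b := fun h => hb3 (by omega)
          rcases h3p.dvd_or_dvd h with h | h
          · exact hΔ3' h
          · rcases h3p.dvd_or_dvd h with h | h
            · exact k1 h
            · exact k2 (h3p.dvd_of_dvd_pow h)
        have hc3 : ¬ (3 : ℤ) ∣ c := by
          rintro ⟨c', rfl⟩
          apply hR
          have : (9 : ℤ) * (Δ * ((3 * a₄ + b) * (27 * a₄ + b) ^ 3)) =
              9 * (3 * (c' ^ 3 * a₄ * b ^ 3)) := by rw [← e4]; ring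
          exact ⟨_, mul_left_cancel₀ (by norm_num) this⟩
        obtain ⟨x, rfl⟩ : (9 : ℤ) ∣ a₄ := by
          have k3 : (9 : ℤ) ∣ (c ^ 3 * b ^ 3) * a₄ := ⟨_, by rw [← e4]; ring⟩
          have k4 : IsCoprime (3 : ℤ) (c ^ 3 * b ^ 3) :=
            (h3p.coprime_iff_not_dvd).mpr fun h => by
              rcases h3p.dvd_or_dvd h with h | h
              · exact hc3 (h3p.dvd_of_dvd_pow h)
              · exact hb3 (h3p.dvd_of_dvd_pow h)
          have k5 := k4.pow_left (m := 2)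
          norm_num at k5
          exact k5.dvd_of_dvd_mul_left k3
        have e5 : c ^ 3 * x * b ^ 3 = Δ * ((27 * x + b) * (243 * x + b) ^ 3) := by
          have : (9 : ℤ) * (c ^ 3 * x * b ^ 3) =
              9 * (Δ * ((27 * x + b) * (243 * x + b) ^ 3)) := by linear_combination e4
          exact mul_left_cancel₀ (by norm_num) this
        have hxb : IsCoprime x b := IsCoprime.of_isCoprime_of_dvd_left hab ⟨729, by ring⟩
        refine ⟨x, Or.inr ⟨by ring, e5⟩, ?_, ?_⟩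
        · have k6 : IsCoprime x (27 * x + b) := by
            have := hxb.add_mul_left_right 27
            rwa [add_comm, mul_comm x 27] at this
          have k7 : IsCoprime x (243 * x + b) := by
            have := hxb.add_mul_left_right 243
            rwa [add_comm, mul_comm x 243] at this
          have k8 : x ∣ Δ * ((27 * x + b) * (243 * x + b) ^ 3) :=
            ⟨c ^ 3 * b ^ 3, by rw [← e5]; ring⟩
          exact (hxb.pow_right (n := 3)).mul_dvd
            ((k6.mul_right (k7.pow_right (n := 3))).dvd_of_dvd_mul_right k8) hbΔ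
        · have k9 : Δ ∣ c ^ 3 * (x * b ^ 3) := ⟨(27 * x + b) * (243 * x + b) ^ 3, by rw [← e5]; ring⟩
          exact (hΔc.pow_right (n := 3)).dvd_of_dvd_mul_left k9
      · exfalso
        have hc3 : (3 : ℤ) ∣ c := by
          have k1 : (3 : ℤ) ∣ c ^ 3 * a₂ * b ^ 3 := by
            rw [e2]
            exact ⟨9 * (Δ * ((a₂ + 3 * b) * (3 * a₂ + b) ^ 3)), by ring⟩
          rcases h3p.dvd_or_dvd k1 with h | h
          · rcases h3p.dvd_or_dvd h with h | h
            · exact h3p.dvd_of_dvd_pow h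
            · exact absurd h h3a₂
          · exact absurd (h3p.dvd_of_dvd_pow h) hb3
        obtain ⟨c', d, rfl, hcd⟩ := h3 hc3
        have e3 : c' ^ 3 * a₂ * b ^ 3 = Δ * ((a₂ + 3 * b) * (3 * a₂ + b) ^ 3) := by
          have : (27 : ℤ) * (c' ^ 3 * a₂ * b ^ 3) =
              27 * (Δ * ((a₂ + 3 * b) * (3 * a₂ + b) ^ 3)) := by linear_combination e2
          exact mul_left_cancel₀ (by norm_num) this
        have k2 : Δ * b ^ 4 = 3 * (7 * Δ * a₂ * b ^ 3 + 3 * d ^ 2 * a₂ * b ^ 3 -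
            Δ * (a₂ + 3 * b) * (3 * a₂ ^ 3 + 3 * a₂ ^ 2 * b + a₂ * b ^ 2)) := by
          have : (3 : ℤ) * (Δ * b ^ 4) = 3 * (3 * (7 * Δ * a₂ * b ^ 3 + 3 * d ^ 2 * a₂ * b ^ 3 -
            Δ * (a₂ + 3 * b) * (3 * a₂ ^ 3 + 3 * a₂ ^ 2 * b + a₂ * b ^ 2))) := by
            linear_combination -e3 + a₂ * b ^ 3 * hcd
          exact mul_left_cancel₀ (by norm_num) this
        have k3 : (3 : ℤ) ∣ Δ * b ^ 4 := ⟨_, k2⟩
        rcases h3p.dvd_or_dvd k3 with h | h
        · exact hΔ3' h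
        · exact hb3 (h3p.dvd_of_dvd_pow h)
    · have ha3 : IsCoprime a 3 := ((h3p.coprime_iff_not_dvd).mpr h3a).symm
      have ha27 : IsCoprime a (27 * b) := by
        have k := ha3.pow_right (n := 3)
        norm_num at k
        exact k.mul_right hab
      have ha3b : IsCoprime a (3 * b) := ha3.mul_right hab
      refine ⟨a, Or.inl ⟨rfl, h1⟩, ?_, ?_⟩
      · have k6 : IsCoprime a (a + 27 * b) := by
          have := ha27.add_mul_left_right 1
          rwa [mul_one, add_comm] at this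
        have k7 : IsCoprime a (a + 3 * b) := by
          have := ha3b.add_mul_left_right 1
          rwa [mul_one, add_comm] at this
        have k8 : a ∣ Δ * ((a + 27 * b) * (a + 3 * b) ^ 3) := ⟨c ^ 3 * b ^ 3, by rw [← h1]; ring⟩
        exact (hab.pow_right (n := 3)).mul_dvd
          ((k6.mul_right (k7.pow_right (n := 3))).dvd_of_dvd_mul_right k8) hbΔ
      · have k9 : Δ ∣ c ^ 3 * (a * b ^ 3) := ⟨(a + 27 * b) * (a + 3 * b) ^ 3, by rw [← h1]; ring⟩
        exact (hΔc.pow_right (n := 3)).dvd_of_dvd_mul_left k9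
  obtain ⟨σ, hσ, hσΔ⟩ := unit_of_dvd_dvd hxΔ hΔx
  have hx0 : x ≠ 0 := by
    rintro rfl
    apply hΔ0
    rw [hσΔ]; ring
  have hxb : IsCoprime x b := by
    rcases hx with ⟨rfl, -⟩ | ⟨rfl, -⟩
    · exact hab
    · exact IsCoprime.of_isCoprime_of_dvd_left hab (dvd_mul_left _ _)
  -- `σ = 1`
  have hσ1 : σ = 1 := by
    rcases hσ with h | h
    · exact h
    · exfalso
      subst h
      rw [hσΔ] at h2
      have k1 : 0 < x ^ 2 * b ^ 4 := by positivity
      rcases hx with ⟨rfl, -⟩ | ⟨rfl, -⟩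
      · nlinarith [sq_nonneg w]
      · nlinarith [sq_nonneg w]
  subst hσ1
  rw [one_mul] at hσΔ
  -- the cube
  have hcube : (∃ e, x + 27 * b = e ^ 3) ∨ (∃ e, 27 * x + b = e ^ 3) := by
    have hxb0 : x * b ^ 3 ≠ 0 := mul_ne_zero hx0 (pow_ne_zero 3 hb0)
    have hcub : ∀ {u v : ℤ}, c ^ 3 * x * b ^ 3 = Δ * (u * v ^ 3) → ∃ e, u = e ^ 3 := by
      intro u v huv
      have k1 : c ^ 3 = u * v ^ 3 := by
        apply mul_left_cancel₀ hxb0
        rw [hσΔ] at huv
        linear_combination huv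
      have k2 : v ^ 3 ∣ c ^ 3 := ⟨u, by rw [k1]; ring⟩
      obtain ⟨e, rfl⟩ := (Int.pow_dvd_pow_iff three_ne_zero).mp k2
      have hv0 : v ≠ 0 := by
        rintro rfl
        exact hc0 (by ring)
      refine ⟨e, ?_⟩
      have k3 : v ^ 3 * u = v ^ 3 * e ^ 3 := by linear_combination -k1
      exact mul_left_cancel₀ (pow_ne_zero 3 hv0) k3
    rcases hx with ⟨-, h⟩ | ⟨-, h⟩
    · exact Or.inl (hcub h)
    · exact Or.inr (hcub h)
  have hxΔ' : x ∣ Δ := (dvd_mul_right _ _).trans hxΔ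
  have hbΔ' : b ∣ Δ := (dvd_pow_self b (by norm_num)).trans hbΔ
  obtain ⟨s, hs⟩ := eq_pow_of_dvd hN hΔ hxΔ'
  obtain ⟨t, ht⟩ := eq_pow_of_dvd hN hΔ hbΔ'
  have hs' : x.natAbs = N ^ s := by
    rcases hs with h | h <;> rw [h] <;> simp [Int.natAbs_pow]
  have ht' : b.natAbs = N ^ t := by
    rcases ht with h | h <;> rw [h] <;> simp [Int.natAbs_pow]
  have hst : s = 0 ∨ t = 0 := by
    by_contra hcon
    push Not at hcon
    apply hNN.not_isUnit
    refine hxb.isUnit_of_dvd' ?_ ?_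
    · rw [← Int.natAbs_dvd_natAbs, hs', Int.natAbs_natCast]; exact dvd_pow_self N hcon.1
    · rw [← Int.natAbs_dvd_natAbs, ht', Int.natAbs_natCast]; exact dvd_pow_self N hcon.2
  have hmabs : N ^ m = x.natAbs * b.natAbs ^ 3 := by
    rw [← hΔ, hσΔ, Int.natAbs_mul, Int.natAbs_pow]
  rcases hst with hs0 | ht0
  · -- `x = ± 1`
    rw [hs0, pow_zero] at hs'
    have hx1 : x = 1 ∨ x = -1 := Int.natAbs_eq_iff.mp hs'
    have hxx : x ^ 2 = 1 := by rcases hx1 with h | h <;> rw [h] <;> norm_num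
    have hz : (x * b).natAbs = N ^ t := by rw [Int.natAbs_mul, hs', one_mul, ht']
    have hzz : x * b = 37 ∨ x * b = -19 := by
      rcases hcube with ⟨e, he⟩ | ⟨e, he⟩
      · refine eqB hN hz (e := x * e) ?_
        rw [mul_pow, ← he]
        linear_combination (-x ^ 2 - 1 - 27 * b * x) * hxx
      · refine eqA hN (by omega) hz (e := x * e) ?_
        rw [mul_pow, ← he]
        linear_combination (-27 * x ^ 2 - 27 - b * x) * hxx
    rcases hzz with hz1 | hz1
    · have hb37 : b.natAbs = 37 := by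
        have := congrArg Int.natAbs hz1
        rw [Int.natAbs_mul, hs', one_mul] at this
        exact this
      rw [hs', hb37, one_mul] at hmabs
      obtain ⟨h3, h4⟩ := pow_eq_prime (by norm_num) hN hmabs (by norm_num)
      exact ⟨Or.inr h3, Or.inr h4⟩
    · have hb19 : b.natAbs = 19 := by
        have := congrArg Int.natAbs hz1
        rw [Int.natAbs_mul, hs', one_mul] at this
        exact this
      rw [hs', hb19, one_mul] at hmabs
      obtain ⟨h3, h4⟩ := pow_eq_prime (by norm_num) hN hmabs (by norm_num)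
      exact ⟨Or.inl h3, Or.inr h4⟩
  · rw [ht0, pow_zero] at ht'
    have hb1 : b = 1 := by omega
    have hzz : x = 37 ∨ x = -19 := by
      rw [hb1] at hcube
      rcases hcube with ⟨e, he⟩ | ⟨e, he⟩
      · exact eqA hN (by omega) hs' (e := e) (by rw [← he]; ring)
      · exact eqB hN hs' (e := e) (by rw [← he])
    rcases hzz with hz1 | hz1
    · rw [hz1, ht', one_pow, mul_one] at hmabs
      obtain ⟨h3, h4⟩ := pow_eq_prime (P := 37) (j := 1) (by norm_num) hN (by rw [hmabs]; rfl)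
        (by norm_num)
      exact ⟨Or.inr h3, Or.inl h4⟩
    · rw [hz1, ht', one_pow, mul_one] at hmabs
      obtain ⟨h3, h4⟩ := pow_eq_prime (P := 19) (j := 1) (by norm_num) hN (by rw [hmabs]; rfl)
        (by norm_num)
      exact ⟨Or.inl h3, Or.inl h4⟩

end Fermat.Agent.Cor.H18MO
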