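import Fermat.Agent.Cor.H18MO3
import Fermat.Agent.Cor.H07MO
import Fermat.Agent.S51
import Fermat.Agent.H23.K1.Main

/-!
# Semistable elliptic curves of prime conductor (Mestre–Oesterlé)

Let `W` be a semistable elliptic curve over `ℚ` of prime conductor `N`, so that `|Δ| = N ^ m`.

* `reducible_five`: if `W[5]` is reducible, then `N = 11` and `m = 1` or `m = 5`;
* `reducible_three`: if `W[3]` is reducible, then `N = 19` or `N = 37`, and `m = 1` or `m = 3`;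
* `irreducible`: in all other cases `W[p]` is irreducible for every odd prime `p`;
* `mestre_oesterle`: if `m` is not a power of `2`, then `(N, m) = (11, 5)`, `(19, 3)` or `(37, 3)`.

The proof: if the odd prime `p` divides `m`, then `W[p]` is reducible by modularity and level lowering (there are no cusp
forms of weight two and level one), hence `p = 3` or `p = 5` by counting the points of `W` over `𝔽₂` (helper7, `H07MO`);
the rational points of `X₀(3)` and `X₀(5)` which give rise to semistable curves of prime conductor are found by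
elementary number theory.

This file is not used by any of the statement files.
-/

set_option autoImplicit false

namespace Fermat.Agent.Cor.H18MO

open WeierstrassCurve WeierstrassCurve.Affine WeierstrassCurve.Affine.Point

local notation "Kbar" => AlgebraicClosure ℚ

/-! ### `X₀(5)` -/

theorem param_five_short {A B S T D : ℚ} (h1 : S * (S ^ 2 - 4 * T) = 2 * T * S + 2 * A * S + 4 * B)
    (h2 : T * (S ^ 2 - 4 * T) = T ^ 2 - 2 * A * T - 4 * B * S + A ^ 2)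
    (hD : -16 * (4 * A ^ 3 + 27 * B ^ 2) = D) (hD0 : D ≠ 0) :
    ∃ h v : ℚ, h ≠ 0 ∧ -(48 * A) ^ 3 * h = D * (h ^ 2 + 10 * h + 5) ^ 3 ∧
      D * h * (h ^ 2 + 22 * h + 125) = v ^ 2 := by
  have hB : B = (S ^ 3 - 6 * T * S - 2 * A * S) / 4 := by linear_combination -(1 / 4) * h1
  have hQ : A ^ 2 + 2 * A * (S ^ 2 - T) - S ^ 4 + 5 * S ^ 2 * T + 5 * T ^ 2 = 0 := by
    rw [hB] at h2
    linear_combination -h2
  have hkey : (4 * A - 7 * S ^ 2 + 40 * T) * (S ^ 2 - 4 * T) ^ 2 = D := by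
    rw [← hD, hB]
    linear_combination (64 * A - 20 * S ^ 2 + 128 * T) * hQ
  have hu : S ^ 2 - 4 * T ≠ 0 := by
    intro h
    rw [h] at hkey
    exact hD0 (by rw [← hkey]; ring)
  obtain ⟨u, hu'⟩ : ∃ u, u = S ^ 2 - 4 * T := ⟨_, rfl⟩
  obtain ⟨h, hh⟩ : ∃ h, h * u = 4 * A - 7 * S ^ 2 + 40 * T :=
    ⟨(4 * A - 7 * S ^ 2 + 40 * T) / u, by rw [hu']; field_simp⟩
  rw [← hu'] at hu hkey
  rw [← hh] at hkey
  -- `D = h u³`
  have hDu : D = h * u ^ 3 := by rw [← hkey]; ring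
  have hT : T = (S ^ 2 - u) / 4 := by rw [hu']; ring
  have hA : 4 * A = (h + 10) * u - 3 * S ^ 2 := by
    rw [hT] at hh
    linear_combination -hh
  have hS : 36 * S ^ 2 = u * (h ^ 2 + 22 * h + 125) := by
    have e : u * (36 * S ^ 2) = u * (u * (h ^ 2 + 22 * h + 125)) := by
      have hA' : A = ((h + 10) * u - 3 * S ^ 2) / 4 := by linear_combination (1 / 4) * hA
      rw [hA', hT] at hQ
      linear_combination (-16) * hQ
    exact mul_left_cancel₀ hu e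
  have hA48 : -(48 * A) = u * (h ^ 2 + 10 * h + 5) := by
    linear_combination -12 * hA + hS
  refine ⟨h, h * u * 6 * S, ?_, ?_, ?_⟩
  · rintro rfl
    exact hD0 (by rw [hDu]; ring)
  · have e : -(48 * A) ^ 3 = (-(48 * A)) ^ 3 := by ring
    rw [e, hA48, hDu]
    ring
  · rw [hDu]
    linear_combination -(h ^ 2 * u ^ 2) * hS

/-- the parametrisation of `X₀(5)` -/
theorem param_five (E : WeierstrassCurve ℚ) (hΔ : E.Δ ≠ 0) {s p : ℚ}
    (h1 : s * (s ^ 2 - 4 * p) = 2 * p * s + E.b₂ * p + E.b₄ * s + E.b₆)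
    (h2 : p * (s ^ 2 - 4 * p) = p ^ 2 - E.b₄ * p - E.b₆ * s - E.b₈) :
    ∃ h v : ℚ, h ≠ 0 ∧ E.c₄ ^ 3 * h = E.Δ * (h ^ 2 + 10 * h + 5) ^ 3 ∧
      E.Δ * h * (h ^ 2 + 22 * h + 125) = v ^ 2 := by
  have hb8 := E.b_relation
  have hc := E.c_relation
  have h := param_five_short (A := -27 * E.c₄) (B := -54 * E.c₆) (S := 36 * s + 6 * E.b₂)
    (T := 1296 * p + 108 * E.b₂ * s + 9 * E.b₂ ^ 2) (D := 6 ^ 12 * E.Δ) ?_ ?_ ?_
    (mul_ne_zero (by norm_num) hΔ)
  · obtain ⟨h, v, h0, h3, h4⟩ := h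
    refine ⟨h, v / 6 ^ 6, h0, ?_, ?_⟩
    · linear_combination (1 / 6 ^ 12) * h3
    · rw [div_pow, ← h4]
      ring
  · rw [WeierstrassCurve.c₄, WeierstrassCurve.c₆]
    linear_combination 46656 * h1
  · rw [WeierstrassCurve.c₄, WeierstrassCurve.c₆]
    linear_combination 1679616 * h2 + 139968 * E.b₂ * h1 - 419904 * hb8
  · linear_combination (-1259712) * hc

/-! ### `X₀(3)` -/

theorem param_three_short {A B X D : ℚ} (h1 : 3 * X ^ 4 + 6 * A * X ^ 2 + 12 * B * X - A ^ 2 = 0)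
    (hD : -16 * (4 * A ^ 3 + 27 * B ^ 2) = D) (hD0 : D ≠ 0) (hA0 : A ≠ 0) :
    ∃ h v : ℚ, h ≠ 0 ∧ -(192 * A ^ 3) * 576 * h = D * ((h + 27) * (h + 3) ^ 3) ∧
      D * h = v ^ 2 := by
  have hX : X ≠ 0 := by
    rintro rfl
    apply hA0
    have : A ^ 2 = 0 := by linear_combination -h1
    exact pow_eq_zero_iff (two_ne_zero) |>.1 this
  have hB : 12 * (B * X) = A ^ 2 - 6 * A * X ^ 2 - 3 * X ^ 4 := by linear_combination h1
  have hkey : D * X ^ 2 = -((A + 3 * X ^ 2) ^ 3 * (3 * A + X ^ 2)) := by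
    rw [← hD]
    linear_combination (-3) * (12 * (B * X) + (A ^ 2 - 6 * A * X ^ 2 - 3 * X ^ 4)) * hB
  have hu : A + 3 * X ^ 2 ≠ 0 := by
    intro h
    rw [h] at hkey
    have : D * X ^ 2 = 0 := by rw [hkey]; ring
    rcases mul_eq_zero.mp this with h | h
    · exact hD0 h
    · exact hX (pow_eq_zero_iff (two_ne_zero) |>.1 h)
  obtain ⟨u, hu'⟩ : ∃ u, u = A + 3 * X ^ 2 := ⟨_, rfl⟩
  rw [← hu'] at hu hkey
  obtain ⟨h, hh⟩ : ∃ h, h * u = -9 * (3 * A + X ^ 2) :=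
    ⟨-9 * (3 * A + X ^ 2) / u, by field_simp⟩
  have h27 : (h + 27) * u = 72 * X ^ 2 := by
    rw [add_mul, hh, hu']; ring
  have h3 : (h + 3) * u = -24 * A := by
    rw [add_mul, hh, hu']; ring
  have hDu : D * (3 * X) ^ 2 = h * u ^ 4 := by
    have e : h * u ^ 4 = u ^ 3 * (h * u) := by ring
    rw [e, hh]
    linear_combination 9 * hkey
  refine ⟨h, h * u ^ 2 / (3 * X), ?_, ?_, ?_⟩
  · rintro rfl
    rw [zero_mul] at hDu
    rcases mul_eq_zero.mp hDu with h | h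
    · exact hD0 h
    · exact hX (by
        have := pow_eq_zero_iff (two_ne_zero) |>.1 h
        linarith)
  · have hX2 : (3 * X) ^ 2 * u ^ 4 ≠ 0 := by positivity
    apply mul_left_cancel₀ hX2
    have e1 : (3 * X) ^ 2 * u ^ 4 * (D * ((h + 27) * (h + 3) ^ 3)) =
        (D * (3 * X) ^ 2) * (((h + 27) * u) * ((h + 3) * u) ^ 3) := by ring
    rw [e1, hDu, h27, h3]
    ring
  · rw [div_pow, eq_div_iff (by positivity)]
    linear_combination h * hDu

/-- the parametrisation of `X₀(3)` -/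
theorem param_three (E : WeierstrassCurve ℚ) (hΔ : E.Δ ≠ 0) (hc₄ : E.c₄ ≠ 0) {x : ℚ}
    (h1 : 3 * x ^ 4 + E.b₂ * x ^ 3 + 3 * E.b₄ * x ^ 2 + 3 * E.b₆ * x + E.b₈ = 0) :
    ∃ h v : ℚ, h ≠ 0 ∧ E.c₄ ^ 3 * h = E.Δ * ((h + 27) * (h + 3) ^ 3) ∧ E.Δ * h = v ^ 2 := by
  have hb8 := E.b_relation
  have hc := E.c_relation
  have h := param_three_short (A := -27 * E.c₄) (B := -54 * E.c₆) (X := 36 * x + 3 * E.b₂)
    (D := 6 ^ 12 * E.Δ) ?_ ?_ (mul_ne_zero (by norm_num) hΔ) (mul_ne_zero (by norm_num) hc₄)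
  · obtain ⟨h, v, h0, h3, h4⟩ := h
    refine ⟨h, v / 6 ^ 6, h0, ?_, ?_⟩
    · linear_combination (1 / 6 ^ 12) * h3
    · rw [div_pow, ← h4]
      ring
  · rw [WeierstrassCurve.c₄, WeierstrassCurve.c₆]
    linear_combination 1679616 * h1 - 419904 * hb8
  · linear_combination (-1259712) * hc

/-! ### integral models -/

/-- the numerator and the denominator of a rational number -/
theorem exists_num_den (h : ℚ) : ∃ a b : ℤ, 0 < b ∧ IsCoprime a b ∧ h = (a : ℚ) / b := by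
  refine ⟨h.num, h.den, by exact_mod_cast h.den_pos, ?_, ?_⟩
  · rw [Int.isCoprime_iff_gcd_eq_one, Int.gcd, Int.natAbs_natCast]
    exact h.reduced
  · have := h.num_div_den
    rw [Int.cast_natCast]
    exact this.symm

/-- an integer which is the square of a rational number -/
theorem exists_int_sq {n : ℤ} {v : ℚ} (h : (n : ℚ) = v ^ 2) : ∃ w : ℤ, n = w ^ 2 := by
  have h1 : IsSquare (n : ℚ) := ⟨v, by rw [h]; ring⟩
  obtain ⟨w, hw⟩ := Rat.isSquare_intCast_iff.mp h1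
  exact ⟨w, by rw [hw]; ring⟩

section

variable {W : WeierstrassCurve ℤ} {N m : ℕ}

theorem disc_ne_zero (hN : N.Prime) (h : W.Δ.natAbs = N ^ m) : W.Δ ≠ 0 := by
  intro h0
  rw [h0, Int.natAbs_zero] at h
  exact pow_ne_zero m hN.ne_zero h.symm

theorem exponent_ne_zero (h : W.Δ.natAbs = N ^ m) : m ≠ 0 := by
  rintro rfl
  rw [pow_zero] at h
  exact Main.natAbs_disc_ne_one W h

theorem eleven_le (hss : W.IsSemistableModel) (hN : N.Prime) (h : W.Δ.natAbs = N ^ m) : 11 ≤ N := by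
  have h11 := (Main.eleven_le_conductor W (disc_ne_zero hN h) hss).1
  rwa [h, Nat.primeFactors_prime_pow (exponent_ne_zero h) hN, Finset.prod_singleton] at h11

theorem not_dvd_c₄ (hss : W.IsSemistableModel) (hN : N.Prime) (h : W.Δ.natAbs = N ^ m) :
    ¬ (N : ℤ) ∣ W.c₄ := by
  refine hss N hN ?_
  rw [← Int.natAbs_dvd_natAbs, h, Int.natAbs_natCast]
  exact dvd_pow_self N (exponent_ne_zero h)

theorem disc_Kbar (hΔ : W.Δ ≠ 0) : ((W.map (Int.castRingHom ℚ))⁄Kbar).Δ ≠ 0 := by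
  change ((W.map (Int.castRingHom ℚ)).map (algebraMap ℚ Kbar)).Δ ≠ 0
  rw [map_Δ, map_Δ]
  simpa using hΔ

/-- **Prime conductor and reducible `W[5]`**: the conductor is `11`. -/
theorem reducible_five (hss : W.IsSemistableModel) (hN : N.Prime) (h : W.Δ.natAbs = N ^ m)
    (hred : ¬ W.ModRepIsIrreducible 5) : N = 11 ∧ (m = 1 ∨ m = 5) := by
  have hΔ := disc_ne_zero hN h
  have hΔQ : (W.map (Int.castRingHom ℚ)).Δ ≠ 0 := by
    rw [map_Δ]
    simpa using hΔ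
  obtain ⟨s, p, h1, h2⟩ := S51.five_reducible (E := W.map (Int.castRingHom ℚ)) (disc_Kbar hΔ) hred
  obtain ⟨t, v, ht0, h3, h4⟩ := param_five _ hΔQ h1 h2
  obtain ⟨a, b, hb, hab, rfl⟩ := exists_num_den t
  have hbQ : (b : ℚ) ≠ 0 := by exact_mod_cast hb.ne'
  have ha : a ≠ 0 := by
    rintro rfl
    exact ht0 (by simp)
  rw [map_Δ, map_c₄] at h3
  rw [map_Δ] at h4
  change ((W.c₄ : ℤ) : ℚ) ^ 3 * _ = ((W.Δ : ℤ) : ℚ) * _ at h3
  change ((W.Δ : ℤ) : ℚ) * _ * _ = _ at h4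
  have e1 : W.c₄ ^ 3 * a * b ^ 5 = W.Δ * (a ^ 2 + 10 * a * b + 5 * b ^ 2) ^ 3 := by
    have : ((W.c₄ : ℤ) : ℚ) ^ 3 * a * b ^ 5 =
        ((W.Δ : ℤ) : ℚ) * ((a : ℚ) ^ 2 + 10 * a * b + 5 * b ^ 2) ^ 3 := by
      have e : ((W.Δ : ℤ) : ℚ) * ((a : ℚ) ^ 2 + 10 * a * b + 5 * b ^ 2) ^ 3 =
          (((W.Δ : ℤ) : ℚ) * (((a : ℚ) / b) ^ 2 + 10 * ((a : ℚ) / b) + 5) ^ 3) * b ^ 6 := by
        field_simp
      rw [e, ← h3]
      field_simp
    exact_mod_cast this
  obtain ⟨w, hw⟩ : ∃ w : ℤ, W.Δ * a * b * (a ^ 2 + 22 * a * b + 125 * b ^ 2) = w ^ 2 := by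
    apply exists_int_sq (v := v * b ^ 2)
    push_cast
    rw [mul_pow, ← h4]
    field_simp
  exact core5 hN (by have := eleven_le hss hN h; omega) (exponent_ne_zero h) h
    (not_dvd_c₄ hss hN h) hab hb ha e1 hw

/-- **Prime conductor and reducible `W[3]`**: the conductor is `19` or `37`. -/
theorem reducible_three (hss : W.IsSemistableModel) (hN : N.Prime) (h : W.Δ.natAbs = N ^ m)
    (hred : ¬ W.ModRepIsIrreducible 3) : (N = 19 ∨ N = 37) ∧ (m = 1 ∨ m = 3) := by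
  have hΔ := disc_ne_zero hN h
  have hc := not_dvd_c₄ hss hN h
  have hc0 : W.c₄ ≠ 0 := by
    intro h0
    rw [h0] at hc
    exact hc (dvd_zero _)
  have hΔQ : (W.map (Int.castRingHom ℚ)).Δ ≠ 0 := by
    rw [map_Δ]
    simpa using hΔ
  have hcQ : (W.map (Int.castRingHom ℚ)).c₄ ≠ 0 := by
    rw [map_c₄]
    simpa using hc0
  obtain ⟨x, hx⟩ := S51.three_reducible (E := W.map (Int.castRingHom ℚ)) (disc_Kbar hΔ) hred
  have hx' : 3 * x ^ 4 + (W.map (Int.castRingHom ℚ)).b₂ * x ^ 3 +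
      3 * (W.map (Int.castRingHom ℚ)).b₄ * x ^ 2 + 3 * (W.map (Int.castRingHom ℚ)).b₆ * x +
      (W.map (Int.castRingHom ℚ)).b₈ = 0 := by
    apply (algebraMap ℚ Kbar).injective
    rw [_root_.map_zero, ← hx, H51.psi3]
    change _ = 3 * _ ^ 4 + ((W.map (Int.castRingHom ℚ)).map (algebraMap ℚ Kbar)).b₂ * _ ^ 3 +
      3 * ((W.map (Int.castRingHom ℚ)).map (algebraMap ℚ Kbar)).b₄ * _ ^ 2 +
      3 * ((W.map (Int.castRingHom ℚ)).map (algebraMap ℚ Kbar)).b₆ * _ +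
      ((W.map (Int.castRingHom ℚ)).map (algebraMap ℚ Kbar)).b₈
    rw [map_b₂ (W.map (Int.castRingHom ℚ)), map_b₄ (W.map (Int.castRingHom ℚ)),
      map_b₆ (W.map (Int.castRingHom ℚ)), map_b₈ (W.map (Int.castRingHom ℚ))]
    simp only [map_add, map_mul, map_pow, map_ofNat]
  obtain ⟨t, v, ht0, h3, h4⟩ := param_three _ hΔQ hcQ hx'
  obtain ⟨a, b, hb, hab, rfl⟩ := exists_num_den t
  have hbQ : (b : ℚ) ≠ 0 := by exact_mod_cast hb.ne'
  have ha : a ≠ 0 := by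
    rintro rfl
    exact ht0 (by simp)
  rw [map_Δ, map_c₄] at h3
  rw [map_Δ] at h4
  change ((W.c₄ : ℤ) : ℚ) ^ 3 * _ = ((W.Δ : ℤ) : ℚ) * _ at h3
  change ((W.Δ : ℤ) : ℚ) * _ = _ at h4
  have e1 : W.c₄ ^ 3 * a * b ^ 3 = W.Δ * ((a + 27 * b) * (a + 3 * b) ^ 3) := by
    have : ((W.c₄ : ℤ) : ℚ) ^ 3 * a * b ^ 3 =
        ((W.Δ : ℤ) : ℚ) * (((a : ℚ) + 27 * b) * (a + 3 * b) ^ 3) := by
      have e : ((W.Δ : ℤ) : ℚ) * (((a : ℚ) + 27 * b) * (a + 3 * b) ^ 3) =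
          (((W.Δ : ℤ) : ℚ) * (((a : ℚ) / b + 27) * ((a : ℚ) / b + 3) ^ 3)) * b ^ 4 := by
        field_simp
      rw [e, ← h3]
      field_simp
    exact_mod_cast this
  obtain ⟨w, hw⟩ : ∃ w : ℤ, W.Δ * a * b = w ^ 2 := by
    apply exists_int_sq (v := v * b)
    push_cast
    rw [mul_pow, ← h4]
    field_simp
  refine core3 hN (by have := eleven_le hss hN h; omega) h hc hab hb ha e1 hw ?_
  rintro ⟨c', hc'⟩
  obtain ⟨d₀, hd₀⟩ : (3 : ℤ) ∣ W.b₂ := by
    apply Int.prime_three.dvd_of_dvd_pow (n := 2)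
    have e : W.b₂ ^ 2 = 3 * (c' + 8 * W.b₄) := by
      have : W.c₄ = W.b₂ ^ 2 - 24 * W.b₄ := rfl
      rw [this] at hc'
      linear_combination hc'
    exact ⟨_, e⟩
  refine ⟨c', -d₀ ^ 3 + 4 * d₀ * W.b₄ - 8 * W.b₆, hc', ?_⟩
  have hrel := W.c_relation
  have h6 : W.c₆ = 27 * (-d₀ ^ 3 + 4 * d₀ * W.b₄ - 8 * W.b₆) := by
    rw [WeierstrassCurve.c₆, hd₀]
    ring
  rw [hc', h6] at hrel
  have e : (27 : ℤ) * (c' ^ 3 - 27 * (-d₀ ^ 3 + 4 * d₀ * W.b₄ - 8 * W.b₆) ^ 2) =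
      27 * (64 * W.Δ) := by
    linear_combination -hrel
  exact mul_left_cancel₀ (by norm_num) e

/-- **Semistable elliptic curves of prime conductor `N`**: `W[p]` is irreducible for all odd primes `p`, except for
`(N, p) = (11, 5)`, `(19, 3)` and `(37, 3)`. -/
theorem irreducible (hss : W.IsSemistableModel) (hN : N.Prime) (h : W.Δ.natAbs = N ^ m)
    {p : ℕ} (hp : p.Prime) (hp2 : p ≠ 2) (h5 : ¬ (N = 11 ∧ p = 5)) (h19 : ¬ (N = 19 ∧ p = 3))
    (h37 : ¬ (N = 37 ∧ p = 3)) : W.ModRepIsIrreducible p := by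
  by_contra hred
  have hΔ := disc_ne_zero hN h
  have h11 := eleven_le hss hN h
  by_cases hp3 : p = 3
  · subst hp3
    rcases (reducible_three hss hN h hred).1 with h1 | h1
    · exact h19 ⟨h1, rfl⟩
    · exact h37 ⟨h1, rfl⟩
  by_cases hp5 : p = 5
  · subst hp5
    exact h5 ⟨(reducible_five hss hN h hred).1, rfl⟩
  have hle : p ≤ 5 := by
    refine H07.le_five_of_reducible hΔ hss hp (fun _ _ => hred) fun h2 => ?_
    have h2' : 2 ∣ N ^ m := by
      rw [← h]; exact Int.natCast_dvd.mp (by exact_mod_cast h2)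
    have hN2 := (Nat.prime_dvd_prime_iff_eq Nat.prime_two hN).mp (Nat.prime_two.dvd_of_dvd_pow h2')
    omega
  have := hp.two_le
  have h4 : p ≠ 4 := by rintro rfl; exact absurd hp (by decide)
  omega

/-- **The theorem of Mestre and Oesterlé**, odd part: let `W` be a semistable elliptic curve of prime conductor `N`,
`|Δ| = N ^ m`, and `p` an odd prime which divides `m`. Then `(N, m, p) = (11, 5, 5)`, `(19, 3, 3)` or `(37, 3, 3)`. -/
theorem of_dvd_exponent (hss : W.IsSemistableModel) (hN : N.Prime) (h : W.Δ.natAbs = N ^ m)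
    {p : ℕ} (hp : p.Prime) (hp2 : p ≠ 2) (hpm : p ∣ m) :
    (N = 11 ∧ m = 5 ∧ p = 5) ∨ ((N = 19 ∨ N = 37) ∧ m = 3 ∧ p = 3) := by
  have : Fact p.Prime := ⟨hp⟩
  have hΔ := disc_ne_zero hN h
  have hred : ¬ W.ModRepIsIrreducible p := by
    refine H07.reducible hΔ hss hp2 fun q hq => ?_
    have : Fact q.Prime := ⟨hq⟩
    rw [padicValInt, h, padicValNat.pow]
    exact hpm.mul_right _
  have hle := H07.le_five_of_prime_conductor hss hN h hp hpm
  have h2 := hp.two_le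
  have h4 : p ≠ 4 := by rintro rfl; exact absurd hp (by decide)
  rcases (show p = 3 ∨ p = 5 by omega) with rfl | rfl
  · obtain ⟨h1, h3⟩ := reducible_three hss hN h hred
    refine Or.inr ⟨h1, ?_, rfl⟩
    rcases h3 with h3 | h3
    · rw [h3] at hpm
      exact absurd hpm (by norm_num)
    · exact h3
  · obtain ⟨h1, h3⟩ := reducible_five hss hN h hred
    refine Or.inl ⟨h1, ?_, rfl⟩
    rcases h3 with h3 | h3
    · rw [h3] at hpm
      exact absurd hpm (by norm_num)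
    · exact h3

/-- **The theorem of Mestre and Oesterlé**, odd part: the discriminant of a semistable elliptic curve of prime
conductor `N` is `± N ^ (2 ^ k)`, or `± 11 ^ 5`, `± 19 ^ 3`, `± 37 ^ 3`. -/
theorem mestre_oesterle (hss : W.IsSemistableModel) (hN : N.Prime) (h : W.Δ.natAbs = N ^ m) :
    (∃ k, m = 2 ^ k) ∨ (N = 11 ∧ m = 5) ∨ ((N = 19 ∨ N = 37) ∧ m = 3) := by
  rcases Nat.eq_two_pow_or_exists_odd_prime_and_dvd m with h1 | ⟨p, hp, hpm, hodd⟩
  · exact Or.inl h1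
  · rcases of_dvd_exponent hss hN h hp (fun h2 => by rw [h2] at hodd; exact absurd hodd (by decide))
      hpm with h1 | h1
    · exact Or.inr (Or.inl ⟨h1.1, h1.2.1⟩)
    · exact Or.inr (Or.inr ⟨h1.1, h1.2.1⟩)

/-- the discriminant of a semistable curve of prime conductor is a power of the conductor up to sign -/
theorem exists_exponent (hΔ : W.Δ ≠ 0) {N : ℕ} (hN : N.Prime) (h : W.conductorLevel = N) :
    ∃ m : ℕ, W.Δ.natAbs = N ^ m := by
  refine ⟨W.Δ.natAbs.factorization N, ?_⟩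
  have h0 : W.Δ.natAbs ≠ 0 := Int.natAbs_ne_zero.mpr hΔ
  refine Nat.eq_of_factorization_eq h0 (pow_ne_zero _ hN.ne_zero) fun q => ?_
  rw [hN.factorization_pow]
  by_cases hq : q = N
  · subst hq
    simp
  · rw [Finsupp.single_eq_of_ne (by simpa using hq)]
    by_cases hqp : q.Prime
    · apply Nat.factorization_eq_zero_of_not_dvd
      intro hd
      have h1 := (W.prime_dvd_conductorLevel_iff hΔ hqp).mpr (Int.natCast_dvd.mpr hd)
      rw [h] at h1
      exact hq ((Nat.prime_dvd_prime_iff_eq hqp hN).mp h1)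
    · exact Nat.factorization_eq_zero_of_not_prime _ hqp

/-- the same, in terms of the conductor -/
theorem mestre_oesterle_conductor (hΔ : W.Δ ≠ 0) (hss : W.IsSemistableModel)
    (hN : W.conductorLevel.Prime) :
    (∃ k, W.Δ.natAbs = W.conductorLevel ^ 2 ^ k) ∨
      (W.conductorLevel = 11 ∧ W.Δ.natAbs = 11 ^ 5) ∨
      (W.conductorLevel = 19 ∧ W.Δ.natAbs = 19 ^ 3) ∨
      (W.conductorLevel = 37 ∧ W.Δ.natAbs = 37 ^ 3) := by
  obtain ⟨m, hm⟩ := exists_exponent hΔ hN rfl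
  rcases mestre_oesterle hss hN hm with ⟨k, rfl⟩ | ⟨h1, rfl⟩ | ⟨h1 | h1, rfl⟩
  · exact Or.inl ⟨k, hm⟩
  · exact Or.inr (Or.inl ⟨h1, by rw [hm, h1]⟩)
  · exact Or.inr (Or.inr (Or.inl ⟨h1, by rw [hm, h1]⟩))
  · exact Or.inr (Or.inr (Or.inr ⟨h1, by rw [hm, h1]⟩))

end

end Fermat.Agent.Cor.H18MO
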