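import Mathlib

/-!
# The ring `ℤ[√3]` and the equation `p² - 3 q² = c³`

This file is not used by any of the statement files.
-/

set_option autoImplicit false

namespace Fermat.Agent.Cor.H18MO.R3

open Zsqrtd Pell

lemma nonsquare (n : ℤ) : (3 : ℤ) ≠ n * n := by
  intro h
  have h1 : n ≤ 2 := by nlinarith
  have h2 : -2 ≤ n := by nlinarith
  interval_cases n <;> omega

lemma norm_eq_zero' {x : ℤ√3} : x.norm = 0 ↔ x = 0 := Zsqrtd.norm_eq_zero nonsquare x

instance instND : NoZeroDivisors (ℤ√3) where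
  eq_zero_or_eq_zero_of_mul_eq_zero := by
    intro a b h
    have h1 : a.norm * b.norm = 0 := by rw [← Zsqrtd.norm_mul, h, Zsqrtd.norm_zero]
    rcases mul_eq_zero.mp h1 with h2 | h2
    · exact Or.inl (norm_eq_zero'.mp h2)
    · exact Or.inr (norm_eq_zero'.mp h2)

instance instDom : IsDomain (ℤ√3) := NoZeroDivisors.to_isDomain _

lemma exists_round (A n : ℤ) (hn : n ≠ 0) : ∃ q : ℤ, 2 * |A - n * q| ≤ |n| := by
  refine ⟨round ((A : ℚ) / n), ?_⟩
  have h := abs_sub_round ((A : ℚ) / n)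
  have hn' : (n : ℚ) ≠ 0 := by exact_mod_cast hn
  have h1 : |(A : ℚ) - n * round ((A : ℚ) / n)| ≤ |(n : ℚ)| * (1 / 2) := by
    have e : (A : ℚ) - n * round ((A : ℚ) / n) = n * ((A : ℚ) / n - round ((A : ℚ) / n)) := by
      field_simp
    rw [e, abs_mul]
    exact mul_le_mul_of_nonneg_left h (abs_nonneg _)
  have h2 : 2 * |(A : ℚ) - n * round ((A : ℚ) / n)| ≤ |(n : ℚ)| := by linarith
  exact_mod_cast h2

/-- **Division with remainder** in `ℤ[√3]`. -/
theorem exists_div (x y : ℤ√3) (hy : y ≠ 0) : ∃ q : ℤ√3, |(x - y * q).norm| < |y.norm| := by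
  have hn : y.norm ≠ 0 := fun h => hy (norm_eq_zero'.mp h)
  obtain ⟨q₁, h1⟩ := exists_round (x * star y).re y.norm hn
  obtain ⟨q₂, h2⟩ := exists_round (x * star y).im y.norm hn
  refine ⟨⟨q₁, q₂⟩, ?_⟩
  have key : (x - y * ⟨q₁, q₂⟩).norm * y.norm =
      ((x * star y).re - y.norm * q₁) ^ 2 - 3 * ((x * star y).im - y.norm * q₂) ^ 2 := by
    simp only [Zsqrtd.norm_def, Zsqrtd.re_mul, Zsqrtd.im_mul, Zsqrtd.re_sub, Zsqrtd.im_sub,
      Zsqrtd.re_star, Zsqrtd.im_star]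
    ring
  generalize (x * star y).re - y.norm * q₁ = a at h1 key
  generalize (x * star y).im - y.norm * q₂ = b at h2 key
  have ha : 4 * a ^ 2 ≤ y.norm ^ 2 := by
    rw [← sq_abs a, ← sq_abs y.norm]
    nlinarith [abs_nonneg a, abs_nonneg y.norm]
  have hb : 4 * b ^ 2 ≤ y.norm ^ 2 := by
    rw [← sq_abs b, ← sq_abs y.norm]
    nlinarith [abs_nonneg b, abs_nonneg y.norm]
  have hpos : 0 < |y.norm| := abs_pos.mpr hn
  have h3 : |(x - y * ⟨q₁, q₂⟩).norm| * |y.norm| < |y.norm| * |y.norm| := by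
    rw [← abs_mul, key, ← pow_two, sq_abs, abs_lt]
    have : 0 < y.norm ^ 2 := by positivity
    constructor <;> nlinarith [sq_nonneg a, sq_nonneg b]
  exact lt_of_mul_lt_mul_right h3 hpos.le

instance instPIR : IsPrincipalIdealRing (ℤ√3) where
  principal I := by
    by_cases hI : I = ⊥
    · rw [hI]; infer_instance
    obtain ⟨z, hz, hz0⟩ := Submodule.exists_mem_ne_zero_of_ne_bot hI
    have hex : ∃ n : ℕ, ∃ y ∈ I, y ≠ 0 ∧ y.norm.natAbs = n := ⟨_, z, hz, hz0, rfl⟩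
    classical
    obtain ⟨y, hy, hy0, hyn⟩ := Nat.find_spec hex
    refine ⟨⟨y, le_antisymm (fun x hx => ?_) ?_⟩⟩
    · obtain ⟨q, hq⟩ := exists_div x y hy0
      have hr : x - y * q ∈ I := I.sub_mem hx (I.mul_mem_right _ hy)
      by_cases hr0 : x - y * q = 0
      · rw [sub_eq_zero] at hr0
        rw [Submodule.mem_span_singleton]
        exact ⟨q, by rw [smul_eq_mul, mul_comm, hr0]⟩
      · exfalso
        refine Nat.find_min hex (m := (x - y * q).norm.natAbs) ?_ ⟨_, hr, hr0, rfl⟩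
        rw [← hyn]
        have := hq
        rw [Int.abs_eq_natAbs, Int.abs_eq_natAbs] at this
        exact_mod_cast this
    · rw [Submodule.span_singleton_le_iff_mem]
      exact hy

/-! ### units -/

/-- the fundamental unit `2 + √3` -/
def eps : Solution₁ 3 := Solution₁.mk 2 1 (by norm_num)

theorem eps_fund : IsFundamental eps := by
  refine ⟨by norm_num [eps], by norm_num [eps], fun {b} hb => ?_⟩
  have : eps.x = 2 := rfl
  rw [this]
  omega

lemma cube_y (b : Solution₁ 3) : (3 : ℤ) ∣ (b ^ 3).y ∧ ¬ (3 : ℤ) ∣ (b ^ 3).x := by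
  have hprop := b.prop
  have e : b ^ 3 = b * b * b := by rw [pow_succ, pow_two]
  have ex : (b ^ 3).x = b.x ^ 3 + 9 * b.x * b.y ^ 2 := by
    rw [e]; simp only [Solution₁.x_mul, Solution₁.y_mul]; ring
  have ey : (b ^ 3).y = 3 * (b.x ^ 2 * b.y + b.y ^ 3) := by
    rw [e]; simp only [Solution₁.x_mul, Solution₁.y_mul]; ring
  refine ⟨⟨_, ey⟩, fun h => ?_⟩
  rw [ex] at h
  have h1 : (3 : ℤ) ∣ b.x ^ 3 := by
    have : b.x ^ 3 = (b.x ^ 3 + 9 * b.x * b.y ^ 2) - 3 * (3 * b.x * b.y ^ 2) := by ring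
    rw [this]
    exact dvd_sub h (dvd_mul_right _ _)
  obtain ⟨k, hk⟩ := Int.prime_three.dvd_of_dvd_pow h1
  rw [hk] at hprop
  have : 3 * (3 * k ^ 2 - b.y ^ 2) = 1 := by linarith [hprop]
  omega

/-- a unit `x + y √3` with `3 ∣ y` is a cube -/
theorem unit_cube {u : ℤ√3} (hu : IsUnit u) (h3 : (3 : ℤ) ∣ u.im) : ∃ w : ℤ√3, u = w ^ 3 := by
  have h1 : u.norm = 1 := by
    have h2 := Zsqrtd.norm_eq_one_iff.mpr hu
    rcases Int.natAbs_eq_iff.mp h2 with h | h
    · exact_mod_cast h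
    · exfalso
      rw [Zsqrtd.norm_def] at h
      push_cast at h
      have h4 : (u.re * u.re + 1) % 3 = 0 := by
        have : u.re * u.re + 1 = 3 * (u.im * u.im) := by linarith
        rw [this]; omega
      rcases (show u.re % 3 = 0 ∨ u.re % 3 = 1 ∨ u.re % 3 = 2 by omega) with h5 | h5 | h5 <;>
        rw [Int.add_emod, Int.mul_emod, h5] at h4 <;> norm_num at h4
  let a : Solution₁ 3 := Solution₁.mk u.re u.im (by
    rw [Zsqrtd.norm_def] at h1
    linarith)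
  have ha : (a : ℤ√3) = u := rfl
  obtain ⟨n, hn⟩ := eps_fund.eq_zpow_or_neg_zpow a
  have hy : (3 : ℤ) ∣ a.y := h3
  -- write `n = 3 k + r`
  have key : (3 : ℤ) ∣ (eps ^ n).y → ∃ b : Solution₁ 3, eps ^ n = b ^ 3 := by
    intro hd
    obtain ⟨k, r, hnr, hr0, hr3⟩ : ∃ k r : ℤ, n = k * 3 + r ∧ 0 ≤ r ∧ r < 3 :=
      ⟨n / 3, n % 3, by omega, by omega, by omega⟩
    obtain ⟨h4, h5⟩ := cube_y (eps ^ k)
    have e1 : eps ^ n = (eps ^ k) ^ 3 * eps ^ r := by
      rw [hnr, zpow_add, zpow_mul]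
      rfl
    interval_cases r
    · exact ⟨eps ^ k, by rw [e1, zpow_zero, mul_one]⟩
    · exfalso
      rw [e1, zpow_one, Solution₁.y_mul] at hd
      have e2 : eps.x = 2 := rfl
      have e3 : eps.y = 1 := rfl
      rw [e2, e3] at hd
      apply h5
      have : ((eps ^ k) ^ 3).x = (((eps ^ k) ^ 3).x * 1 + ((eps ^ k) ^ 3).y * 2) -
          ((eps ^ k) ^ 3).y * 2 := by ring
      rw [this]
      exact dvd_sub hd (Dvd.dvd.mul_right h4 _)
    · exfalso
      have e4 : eps ^ (2 : ℤ) = eps * eps := by rw [zpow_two]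
      rw [e1, e4, Solution₁.y_mul, Solution₁.x_mul, Solution₁.y_mul] at hd
      have e2 : eps.x = 2 := rfl
      have e3 : eps.y = 1 := rfl
      rw [e2, e3] at hd
      apply h5
      have : ((eps ^ k) ^ 3).x = (((eps ^ k) ^ 3).x * (2 * 1 + 1 * 2) +
          ((eps ^ k) ^ 3).y * (2 * 2 + 3 * (1 * 1))) - (3 * ((eps ^ k) ^ 3).x +
          ((eps ^ k) ^ 3).y * (2 * 2 + 3 * (1 * 1))) := by ring
      rw [this]
      exact dvd_sub hd (dvd_add (dvd_mul_right _ _) (Dvd.dvd.mul_right h4 _))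
  rcases hn with hn | hn
  · obtain ⟨b, hb⟩ := key (by rw [← hn]; exact hy)
    refine ⟨(b : ℤ√3), ?_⟩
    rw [← ha, hn, hb]
    rfl
  · obtain ⟨b, hb⟩ := key (by
      have : a.y = -(eps ^ n).y := by rw [hn]; exact Solution₁.y_neg _
      rw [this] at hy
      exact (dvd_neg).mp hy)
    refine ⟨-(b : ℤ√3), ?_⟩
    rw [← ha, hn, hb]
    have : (-(b : ℤ√3)) ^ 3 = -((b : ℤ√3) ^ 3) := by ring
    rw [this]
    rfl

/-- **The equation `p² - 3 q² = c³`.** -/
theorem eq_cube {p q c : ℤ} (hpq : IsCoprime p q) (hpar : ¬ (2 : ℤ) ∣ p ^ 2 - 3 * q ^ 2)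
    (h3 : (3 : ℤ) ∣ q) (h : p ^ 2 - 3 * q ^ 2 = c ^ 3) :
    ∃ u v : ℤ, p = u ^ 3 + 9 * u * v ^ 2 ∧ q = 3 * u ^ 2 * v + 3 * v ^ 3 ∧ c = u ^ 2 - 3 * v ^ 2 := by
  have h3p : ¬ (3 : ℤ) ∣ p := fun hd => Int.prime_three.not_isUnit (hpq.isUnit_of_dvd' hd h3)
  let π : ℤ√3 := ⟨p, q⟩
  have hππ : π * star π = ((c : ℤ) : ℤ√3) ^ 3 := by
    rw [← Zsqrtd.norm_eq_mul_conj]
    have : π.norm = c ^ 3 := by
      rw [← h, Zsqrtd.norm_def]
      change p * p - 3 * q * q = _
      ring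
    rw [this]
    push_cast
    rfl
  have hcop : IsCoprime π (star π) := by
    have h1 : IsCoprime (2 * p) (p ^ 2 - 3 * q ^ 2) := by
      have k1 : IsCoprime (2 : ℤ) (p ^ 2 - 3 * q ^ 2) :=
        (Int.prime_two.coprime_iff_not_dvd).mpr hpar
      have k2 : IsCoprime p (p ^ 2 - 3 * q ^ 2) := by
        have k3 : IsCoprime p (-(3 * q ^ 2)) := by
          refine IsCoprime.neg_right (IsCoprime.mul_right ?_ (hpq.pow_right (n := 2)))
          exact ((Int.prime_three.coprime_iff_not_dvd).mpr h3p).symm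
        have k4 := k3.add_mul_left_right p
        have e : -(3 * q ^ 2) + p * p = p ^ 2 - 3 * q ^ 2 := by ring
        rwa [e] at k4
      exact k1.mul_left k2
    obtain ⟨x, y, hxy⟩ := h1
    refine ⟨(x : ℤ√3), (x : ℤ√3) + (y : ℤ√3) * π, ?_⟩
    have e1 : π + star π = ((2 * p : ℤ) : ℤ√3) := by
      ext
      · simp only [Zsqrtd.re_add, Zsqrtd.re_star, Zsqrtd.re_intCast]
        change p + p = 2 * p
        ring
      · simp only [Zsqrtd.im_add, Zsqrtd.im_star, Zsqrtd.im_intCast]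
        change q + -q = 0
        ring
    have e2 : π * star π = ((p ^ 2 - 3 * q ^ 2 : ℤ) : ℤ√3) := by
      rw [hππ, h]; push_cast; rfl
    have e3 : (x : ℤ√3) * π + ((x : ℤ√3) + (y : ℤ√3) * π) * star π =
        (x : ℤ√3) * (π + star π) + (y : ℤ√3) * (π * star π) := by ring
    rw [e3, e1, e2, ← Int.cast_mul, ← Int.cast_mul, ← Int.cast_add, hxy, Int.cast_one]
  obtain ⟨d, u, hu⟩ := exists_associated_pow_of_mul_eq_pow' hcop hππ
  have hdim : (d ^ 3).im = 3 * (d.re ^ 2 * d.im + d.im ^ 3) := by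
    rw [pow_succ, pow_two]
    simp only [Zsqrtd.re_mul, Zsqrtd.im_mul]
    ring
  have hre : ¬ (3 : ℤ) ∣ (d ^ 3).re := by
    intro h4
    apply h3p
    have h5 : p = (d ^ 3).re * (u : ℤ√3).re + 3 * (d ^ 3).im * (u : ℤ√3).im := by
      have := congrArg Zsqrtd.re hu
      rw [Zsqrtd.re_mul] at this
      exact this.symm
    rw [h5]
    exact dvd_add (Dvd.dvd.mul_right h4 _) (Dvd.dvd.mul_right (dvd_mul_right _ _) _)
  have him : (3 : ℤ) ∣ (u : ℤ√3).im := by
    have h5 : q = (d ^ 3).re * (u : ℤ√3).im + (d ^ 3).im * (u : ℤ√3).re := by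
      have := congrArg Zsqrtd.im hu
      rw [Zsqrtd.im_mul] at this
      exact this.symm
    have h6 : (3 : ℤ) ∣ (d ^ 3).re * (u : ℤ√3).im := by
      have : (d ^ 3).re * (u : ℤ√3).im = q - (d ^ 3).im * (u : ℤ√3).re := by linarith
      rw [this, hdim]
      exact dvd_sub h3 ⟨(d.re ^ 2 * d.im + d.im ^ 3) * (u : ℤ√3).re, by ring⟩
    rcases Int.prime_three.dvd_or_dvd h6 with h7 | h7
    · exact absurd h7 hre
    · exact h7
  obtain ⟨w, hw⟩ := unit_cube u.isUnit him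
  have hπ : π = (d * w) ^ 3 := by rw [← hu, hw, mul_pow]
  obtain ⟨e, he⟩ : ∃ e, e = d * w := ⟨_, rfl⟩
  rw [← he] at hπ
  refine ⟨e.re, e.im, ?_, ?_, ?_⟩
  · have := congrArg Zsqrtd.re hπ
    rw [pow_succ, pow_two] at this
    simp only [Zsqrtd.re_mul, Zsqrtd.im_mul] at this
    change p = _ at this
    rw [this]; ring
  · have := congrArg Zsqrtd.im hπ
    rw [pow_succ, pow_two] at this
    simp only [Zsqrtd.re_mul, Zsqrtd.im_mul] at this
    change q = _ at this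
    rw [this]; ring
  · have h8 : c ^ 3 = (e.norm) ^ 3 := by
      rw [← h]
      have h9 : π.norm = (e.norm) ^ 3 := by
        rw [hπ, pow_succ, pow_two, Zsqrtd.norm_mul, Zsqrtd.norm_mul]; ring
      rw [← h9, Zsqrtd.norm_def]
      change _ = p * p - 3 * q * q
      ring
    have h10 : c = e.norm := (Odd.strictMono_pow (by decide : Odd 3)).injective h8
    rw [h10, Zsqrtd.norm_def]
    ring

end Fermat.Agent.Cor.H18MO.R3
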