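import Mathlib

/-!
# The Eisenstein integers and the equation `p² + 3 q² = c³`

This file is not used by any of the statement files.
-/

set_option autoImplicit false

namespace Fermat.Agent.Cor.H18MO.E3

open NumberField IsCyclotomicExtension.Rat.Three

variable {K : Type*} [Field K] [NumberField K] [IsCyclotomicExtension {3} ℚ K] {ζ : K}
  (hζ : IsPrimitiveRoot ζ 3)

include hζ

omit [NumberField K] [IsCyclotomicExtension {3} ℚ K] in
theorem w_sq : (hζ.toInteger : 𝓞 K) ^ 2 = -hζ.toInteger - 1 := by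
  have := eta_sq hζ
  exact this

/-- every Eisenstein integer is `a + b w` -/
theorem exists_coord (x : 𝓞 K) : ∃ a b : ℤ, x = (a : 𝓞 K) + (b : 𝓞 K) * hζ.toInteger := by
  have h1 : x ∈ Algebra.adjoin ℤ ({hζ.toInteger} : Set (𝓞 K)) := by
    have h2 := hζ.integralPowerBasis.adjoin_gen_eq_top
    rw [hζ.integralPowerBasis_gen] at h2
    rw [h2]
    exact Algebra.mem_top
  induction h1 using Algebra.adjoin_induction with
  | mem y hy =>
    rw [Set.mem_singleton_iff] at hy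
    exact ⟨0, 1, by rw [hy]; push_cast; ring⟩
  | algebraMap r => exact ⟨r, 0, by simp⟩
  | add y z _ _ hy hz =>
    obtain ⟨a, b, rfl⟩ := hy
    obtain ⟨a', b', rfl⟩ := hz
    exact ⟨a + a', b + b', by push_cast; ring⟩
  | mul y z _ _ hy hz =>
    obtain ⟨a, b, rfl⟩ := hy
    obtain ⟨a', b', rfl⟩ := hz
    refine ⟨a * a' - b * b', a * b' + b * a' - b * b', ?_⟩
    have h3 := w_sq hζ
    push_cast
    linear_combination (b : 𝓞 K) * b' * h3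

omit [IsCyclotomicExtension {3} ℚ K] in
/-- the coordinates are unique -/
theorem coord_inj {a b a' b' : ℤ} (h : (a : 𝓞 K) + (b : 𝓞 K) * hζ.toInteger =
    (a' : 𝓞 K) + (b' : 𝓞 K) * hζ.toInteger) : a = a' ∧ b = b' := by
  have h3 := w_sq hζ
  obtain ⟨m, hm⟩ : ∃ m : ℤ, m = a - a' := ⟨_, rfl⟩
  obtain ⟨n, hn⟩ : ∃ n : ℤ, n = b' - b := ⟨_, rfl⟩
  have h4 : (n : 𝓞 K) * hζ.toInteger = (m : 𝓞 K) := by
    rw [hm, hn]
    push_cast
    linear_combination -h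
  have h5 : ((m ^ 2 + m * n + n ^ 2 : ℤ) : 𝓞 K) = 0 := by
    push_cast
    rw [← h4]
    linear_combination (n : 𝓞 K) ^ 2 * h3
  have h6 : m ^ 2 + m * n + n ^ 2 = 0 := by exact_mod_cast h5
  have hn0 : n = 0 := by nlinarith [sq_nonneg (2 * m + n), sq_nonneg n]
  have hm0 : m = 0 := by
    rw [hn0] at h6
    have : m ^ 2 = 0 := by linarith
    exact pow_eq_zero_iff (two_ne_zero) |>.1 this
  omega

/-- **The equation `p² + 3 q² = c³`**, first form. -/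
theorem eq_cube_aux {p q c : ℤ} (hpq : IsCoprime p q) (hpar : ¬ (2 : ℤ) ∣ p ^ 2 + 3 * q ^ 2)
    (h3 : (3 : ℤ) ∣ q) (h : p ^ 2 + 3 * q ^ 2 = c ^ 3) :
    ∃ a b : ℤ, p + q = a ^ 3 + b ^ 3 - 3 * a * b ^ 2 ∧ 2 * q = 3 * a ^ 2 * b - 3 * a * b ^ 2 ∧
      c = a ^ 2 - a * b + b ^ 2 := by
  have : IsPrincipalIdealRing (𝓞 K) := IsCyclotomicExtension.Rat.three_pid K
  have h3p : ¬ (3 : ℤ) ∣ p := fun hd => Int.prime_three.not_isUnit (hpq.isUnit_of_dvd' hd h3)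
  have hw := w_sq hζ
  obtain ⟨w, hw'⟩ : ∃ w : 𝓞 K, w = hζ.toInteger := ⟨_, rfl⟩
  rw [← hw'] at hw
  obtain ⟨π, hπ⟩ : ∃ π : 𝓞 K, π = ((p + q : ℤ) : 𝓞 K) + ((2 * q : ℤ) : 𝓞 K) * w := ⟨_, rfl⟩
  obtain ⟨π', hπ'⟩ : ∃ π' : 𝓞 K, π' = ((p - q : ℤ) : 𝓞 K) - ((2 * q : ℤ) : 𝓞 K) * w := ⟨_, rfl⟩
  have e1 : π + π' = ((2 * p : ℤ) : 𝓞 K) := by
    rw [hπ, hπ']; push_cast; ring
  have e2 : π * π' = ((p ^ 2 + 3 * q ^ 2 : ℤ) : 𝓞 K) := by
    rw [hπ, hπ']; push_cast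
    linear_combination (-4 * (q : 𝓞 K) ^ 2) * hw
  have hππ : π * π' = ((c : ℤ) : 𝓞 K) ^ 3 := by rw [e2, h]; push_cast; rfl
  have hcop : IsCoprime π π' := by
    have h1 : IsCoprime (2 * p) (p ^ 2 + 3 * q ^ 2) := by
      have k1 : IsCoprime (2 : ℤ) (p ^ 2 + 3 * q ^ 2) :=
        (Int.prime_two.coprime_iff_not_dvd).mpr hpar
      have k2 : IsCoprime p (p ^ 2 + 3 * q ^ 2) := by
        have k3 : IsCoprime p (3 * q ^ 2) := by
          refine IsCoprime.mul_right ?_ (hpq.pow_right (n := 2))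
          exact ((Int.prime_three.coprime_iff_not_dvd).mpr h3p).symm
        have k4 := k3.add_mul_left_right p
        have e : 3 * q ^ 2 + p * p = p ^ 2 + 3 * q ^ 2 := by ring
        rwa [e] at k4
      exact k1.mul_left k2
    obtain ⟨x, y, hxy⟩ := h1
    refine ⟨(x : 𝓞 K), (x : 𝓞 K) + (y : 𝓞 K) * π, ?_⟩
    have e3 : (x : 𝓞 K) * π + ((x : 𝓞 K) + (y : 𝓞 K) * π) * π' =
        (x : 𝓞 K) * (π + π') + (y : 𝓞 K) * (π * π') := by ring
    rw [e3, e1, e2, ← Int.cast_mul, ← Int.cast_mul, ← Int.cast_add, hxy, Int.cast_one]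
  obtain ⟨d, u, hu⟩ := exists_associated_pow_of_mul_eq_pow' hcop hππ
  obtain ⟨a, b, hd⟩ := exists_coord hζ d
  rw [← hw'] at hd
  obtain ⟨A, hA⟩ : ∃ A : ℤ, A = a ^ 3 + b ^ 3 - 3 * a * b ^ 2 := ⟨_, rfl⟩
  obtain ⟨B, hB⟩ : ∃ B : ℤ, B = 3 * (a ^ 2 * b - a * b ^ 2) := ⟨_, rfl⟩
  have hd3 : d ^ 3 = (A : 𝓞 K) + (B : 𝓞 K) * w := by
    rw [hd, hA, hB]
    push_cast
    linear_combination ((b : 𝓞 K) ^ 3 * w + 3 * (a : 𝓞 K) * (b : 𝓞 K) ^ 2 - (b : 𝓞 K) ^ 3) * hw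
  have hcase : ∀ {X Y : ℤ}, (X : 𝓞 K) + (Y : 𝓞 K) * w = π → X = p + q ∧ Y = 2 * q := by
    intro X Y hXY
    rw [hπ, hw'] at hXY
    exact coord_inj hζ hXY
  -- the final step for the units `1` and `-1`
  have hfin : (d ^ 3 = π ∨ d ^ 3 = -π) → ∃ a b : ℤ, p + q = a ^ 3 + b ^ 3 - 3 * a * b ^ 2 ∧
      2 * q = 3 * a ^ 2 * b - 3 * a * b ^ 2 ∧ c = a ^ 2 - a * b + b ^ 2 := by
    intro hor
    have key : ∀ a b : ℤ, p + q = a ^ 3 + b ^ 3 - 3 * a * b ^ 2 →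
        2 * q = 3 * a ^ 2 * b - 3 * a * b ^ 2 → c = a ^ 2 - a * b + b ^ 2 := by
      intro a b h1 h2
      have h4 : c ^ 3 = (a ^ 2 - a * b + b ^ 2) ^ 3 := by
        rw [← h]
        have e : p ^ 2 + 3 * q ^ 2 = (p + q) ^ 2 - (p + q) * (2 * q) + (2 * q) ^ 2 := by ring
        rw [e, h1, h2]
        ring
      exact (Odd.strictMono_pow (by decide : Odd 3)).injective h4
    rcases hor with h1 | h1
    · obtain ⟨h4, h5⟩ := hcase (X := A) (Y := B) (by rw [← hd3, h1])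
      have h6 : p + q = a ^ 3 + b ^ 3 - 3 * a * b ^ 2 := by rw [← h4, hA]
      have h7 : 2 * q = 3 * a ^ 2 * b - 3 * a * b ^ 2 := by rw [← h5, hB]; ring
      exact ⟨a, b, h6, h7, key a b h6 h7⟩
    · obtain ⟨h4, h5⟩ := hcase (X := -A) (Y := -B) (by
        have : π = -(d ^ 3) := by rw [h1, neg_neg]
        rw [this, hd3]; push_cast; ring)
      have h6 : p + q = (-a) ^ 3 + (-b) ^ 3 - 3 * (-a) * (-b) ^ 2 := by rw [← h4, hA]; ring
      have h7 : 2 * q = 3 * (-a) ^ 2 * (-b) - 3 * (-a) * (-b) ^ 2 := by rw [← h5, hB]; ring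
      exact ⟨-a, -b, h6, h7, key _ _ h6 h7⟩
  -- the other units
  have hbad : ∀ {X Y : ℤ}, (X : 𝓞 K) + (Y : 𝓞 K) * w = π → (3 : ℤ) ∣ X → False := by
    intro X Y hXY hX
    obtain ⟨h4, -⟩ := hcase hXY
    apply h3p
    have : p = X - q := by rw [h4]; ring
    rw [this]
    exact dvd_sub hX h3
  have hB3 : (3 : ℤ) ∣ B := ⟨_, hB⟩
  have hmem := Units.mem hζ u
  have hη : (((IsPrimitiveRoot.isUnit (hζ.toInteger_isPrimitiveRoot) (by decide)).unit : (𝓞 K)ˣ) :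
      𝓞 K) = w := by rw [hw']; rfl
  simp only [List.mem_cons, List.not_mem_nil, or_false] at hmem
  rcases hmem with h1 | h1 | h1 | h1 | h1 | h1
  · apply hfin
    left
    rw [← hu, h1]
    push_cast
    ring
  · apply hfin
    right
    rw [← hu, h1]
    push_cast
    ring
  · exfalso
    have hX : ((-B : ℤ) : 𝓞 K) + ((A - B : ℤ) : 𝓞 K) * w = π := by
      rw [← hu, h1, hη, hd3]
      push_cast
      linear_combination -(B : 𝓞 K) * hw
    exact hbad hX ((dvd_neg).mpr hB3)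
  · exfalso
    have hX : ((B : ℤ) : 𝓞 K) + ((B - A : ℤ) : 𝓞 K) * w = π := by
      rw [← hu, h1, Units.val_neg, hη, hd3]
      push_cast
      linear_combination (B : 𝓞 K) * hw
    exact hbad hX hB3
  · exfalso
    have hX : ((B - A : ℤ) : 𝓞 K) + ((-A : ℤ) : 𝓞 K) * w = π := by
      rw [← hu, h1, Units.val_pow_eq_pow_val, hη, hd3]
      push_cast
      linear_combination (-(A : 𝓞 K) - (B : 𝓞 K) * w + (B : 𝓞 K)) * hw
    have h5 := (hcase hX).2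
    refine hbad hX (dvd_sub hB3 ?_)
    have : A = -(2 * q) := by linarith
    rw [this]
    exact (dvd_neg).mpr (Dvd.dvd.mul_left h3 2)
  · exfalso
    have hX : ((A - B : ℤ) : 𝓞 K) + ((A : ℤ) : 𝓞 K) * w = π := by
      rw [← hu, h1, Units.val_neg, Units.val_pow_eq_pow_val, hη, hd3]
      push_cast
      linear_combination ((A : 𝓞 K) + (B : 𝓞 K) * w - (B : 𝓞 K)) * hw
    have h5 := (hcase hX).2
    refine hbad hX (dvd_sub ?_ hB3)
    have : A = 2 * q := by linarith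
    rw [this]
    exact Dvd.dvd.mul_left h3 2

end Fermat.Agent.Cor.H18MO.E3

namespace Fermat.Agent.Cor.H18MO.E3

/-- **The equation `p² + 3 q² = c³`.** -/
theorem eq_cube {p q c : ℤ} (hpq : IsCoprime p q) (hpar : ¬ (2 : ℤ) ∣ p ^ 2 + 3 * q ^ 2)
    (h3 : (3 : ℤ) ∣ q) (h : p ^ 2 + 3 * q ^ 2 = c ^ 3) :
    ∃ a b : ℤ, p + q = a ^ 3 + b ^ 3 - 3 * a * b ^ 2 ∧ 2 * q = 3 * a ^ 2 * b - 3 * a * b ^ 2 ∧
      c = a ^ 2 - a * b + b ^ 2 := by
  have : IsCyclotomicExtension {3} ℚ (CyclotomicField 3 ℚ) :=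
    CyclotomicField.isCyclotomicExtension 3 ℚ
  have : NumberField (CyclotomicField 3 ℚ) := IsCyclotomicExtension.numberField {3} ℚ _
  exact eq_cube_aux (IsCyclotomicExtension.zeta_spec 3 ℚ (CyclotomicField 3 ℚ)) hpq hpar h3 h

end Fermat.Agent.Cor.H18MO.E3
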