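import Fermat.Agent.Cor.H18MO5
import Fermat.Agent.Cor.H18MO6
import Fermat.Agent.Cor.H18MO7

/-!
# The theorem of Mestre and Oesterlé

Let `W` be a semistable elliptic curve over `ℚ` of prime conductor `N`, `|Δ| = N ^ m`.

* `two_torsion_of_even`: if `m` is even, then `W` has a rational point of order two;
* `disc_exponent`: `m = 1`; or `m = 2` and `N = 17` or `N = u² + 64`; or `(N, m) = (17, 4)`, `(11, 5)`, `(19, 3)`,
  `(37, 3)`.

The second statement is the theorem of Mestre and Oesterlé (Courbes de Weil semi-stables de discriminant une puissance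
`m`-ième, J. reine angew. Math. 400 (1989)), which was conditional on the modularity of `W`.

This file is not used by any of the statement files.
-/

set_option autoImplicit false

namespace Fermat.Agent.Cor.H18MO

open WeierstrassCurve

variable {W : WeierstrassCurve ℤ} {N m : ℕ}

/-- a root of `x³ - 27 c₄ x - 54 c₆` -/
theorem two_torsion_of_root {x : ℤ} (h : x ^ 3 - 27 * W.c₄ * x - 54 * W.c₆ = 0) :
    HasTwoTorsion W := by
  refine ⟨((x : ℚ) - 3 * W.b₂) / 36, ?_⟩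
  have h1 : ((x ^ 3 - 27 * W.c₄ * x - 54 * W.c₆ : ℤ) : ℚ) = 0 := by rw [h]; norm_num
  rw [WeierstrassCurve.c₄, WeierstrassCurve.c₆] at h1
  push_cast at h1
  linear_combination (1 / 11664) * h1

lemma sq_mod_eight {n : ℤ} (h : ¬ (2 : ℤ) ∣ n) : ∃ k, n ^ 2 = 8 * k + 1 := by
  obtain ⟨c, hc⟩ : ∃ c, n = 2 * c + 1 := by
    rcases Int.even_or_odd' n with ⟨c, hc | hc⟩
    · exact absurd ⟨c, hc⟩ h
    · exact ⟨c, hc⟩
  obtain ⟨e, he⟩ : (2 : ℤ) ∣ c * (c + 1) := by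
    rcases Int.even_or_odd' c with ⟨f, hf | hf⟩
    · rw [hf]; exact ⟨f * (2 * f + 1), by ring⟩
    · rw [hf]; exact ⟨(2 * f + 1) * (f + 1), by ring⟩
  refine ⟨e, ?_⟩
  rw [hc]
  linear_combination 4 * he

/-- if `± Δ` is an odd square, then `c₄` is odd -/
theorem c₄_odd {M : ℤ} (hM : ¬ (2 : ℤ) ∣ M) (h : W.Δ = M ^ 2 ∨ W.Δ = -M ^ 2) :
    ¬ (2 : ℤ) ∣ W.c₄ := by
  have hc : W.c₄ = (W.a₁ ^ 2 + 4 * W.a₂) ^ 2 - 24 * (2 * W.a₄ + W.a₁ * W.a₃) := rfl
  obtain ⟨k, hk⟩ := sq_mod_eight hM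
  rcases Int.even_or_odd' W.a₁ with ⟨c, hc' | hc'⟩
  · exfalso
    have hΔ : W.Δ = -W.b₂ ^ 2 * W.b₈ - 8 * W.b₄ ^ 3 - 27 * W.b₆ ^ 2 + 9 * W.b₂ * W.b₄ * W.b₆ := rfl
    have hb₂ : W.b₂ = 4 * (c ^ 2 + W.a₂) := by
      change W.a₁ ^ 2 + 4 * W.a₂ = _
      rw [hc']; ring
    have hb₄ : W.b₄ = 2 * (W.a₄ + c * W.a₃) := by
      change 2 * W.a₄ + W.a₁ * W.a₃ = _
      rw [hc']; ring
    have h1 : W.Δ = 8 * (-2 * (c ^ 2 + W.a₂) ^ 2 * W.b₈ - 8 * (W.a₄ + c * W.a₃) ^ 3 +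
        9 * (c ^ 2 + W.a₂) * (W.a₄ + c * W.a₃) * W.b₆) - 27 * W.b₆ ^ 2 := by
      rw [hΔ, hb₂, hb₄]; ring
    generalize -2 * (c ^ 2 + W.a₂) ^ 2 * W.b₈ - 8 * (W.a₄ + c * W.a₃) ^ 3 +
        9 * (c ^ 2 + W.a₂) * (W.a₄ + c * W.a₃) * W.b₆ = T at h1
    have hb6 : ¬ (2 : ℤ) ∣ W.b₆ := by
      rintro ⟨e, he⟩
      rw [he] at h1
      have h2 : W.Δ = 2 * (4 * T - 54 * e ^ 2) := by rw [h1]; ring
      rcases h with h | h
      · rw [h, hk] at h2; omega
      · rw [h, hk] at h2; omega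
    obtain ⟨l, hl⟩ := sq_mod_eight hb6
    rw [hl] at h1
    rcases h with h | h
    · rw [h, hk] at h1; omega
    · rw [h, hk] at h1; omega
  · rw [hc, hc']
    rintro ⟨d, hd⟩
    have : 2 * (d + 12 * (2 * W.a₄ + (2 * c + 1) * W.a₃) - 8 * (c ^ 2 + c + W.a₂) ^ 2 -
      4 * (c ^ 2 + c + W.a₂)) = 1 := by linarith [hd]
    omega

/-- **Even exponents**: a semistable curve of prime conductor `N` with `|Δ| = N ^ m`, `m` even, has a rational point of
order two. -/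
theorem two_torsion_of_even (hss : W.IsSemistableModel) (hN : N.Prime) (h : W.Δ.natAbs = N ^ m)
    (hm : Even m) : HasTwoTorsion W := by
  have h11 := eleven_le hss hN h
  have hNN : Prime (N : ℤ) := Nat.prime_iff_prime_int.mp hN
  have hNc₄ := not_dvd_c₄ hss hN h
  obtain ⟨j, hj⟩ := hm
  obtain ⟨M, hM⟩ : ∃ M : ℤ, M = (N : ℤ) ^ j := ⟨_, rfl⟩
  have hΔ : W.Δ = M ^ 2 ∨ W.Δ = -M ^ 2 := by
    have h1 : ((N ^ m : ℕ) : ℤ) = M ^ 2 := by
      rw [hM, hj]; push_cast; ring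
    rcases Int.natAbs_eq W.Δ with h2 | h2
    · left; rw [h2, h, h1]
    · right; rw [h2, h, h1]
  have hcopM : ∀ {z : ℤ}, ¬ (N : ℤ) ∣ z → IsCoprime M z := by
    intro z hz
    rw [hM]
    exact ((hNN.coprime_iff_not_dvd).mpr hz).pow_left
  have hn2 : ¬ (N : ℤ) ∣ 2 := fun hd => by
    have := Int.le_of_dvd (by norm_num) hd
    omega
  have hn3 : ¬ (N : ℤ) ∣ 3 := fun hd => by
    have := Int.le_of_dvd (by norm_num) hd
    omega
  have hM2 : ¬ (2 : ℤ) ∣ M := fun hd =>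
    Int.prime_two.not_isUnit ((hcopM hn2).isUnit_of_dvd' hd dvd_rfl)
  have hM3 : ¬ (3 : ℤ) ∣ M := fun hd =>
    Int.prime_three.not_isUnit ((hcopM hn3).isUnit_of_dvd' hd dvd_rfl)
  have hc₄ := c₄_odd hM2 hΔ
  have hrel := W.c_relation
  have hNΔ : (N : ℤ) ∣ W.Δ := by
    rw [← Int.natAbs_dvd_natAbs, h, Int.natAbs_natCast]
    exact dvd_pow_self N (exponent_ne_zero h)
  have hNc₆ : ¬ (N : ℤ) ∣ W.c₆ := by
    intro hd
    apply hNc₄
    apply hNN.dvd_of_dvd_pow (n := 3)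
    have e : W.c₄ ^ 3 = 1728 * W.Δ + W.c₆ ^ 2 := by rw [hrel]; ring
    rw [e]
    exact dvd_add (Dvd.dvd.mul_left hNΔ _) (dvd_pow hd two_ne_zero)
  have hc₆ : ¬ (2 : ℤ) ∣ W.c₆ := by
    intro hd
    apply hc₄
    apply Int.prime_two.dvd_of_dvd_pow (n := 3)
    have e : W.c₄ ^ 3 = 2 * (864 * W.Δ) + W.c₆ ^ 2 := by linear_combination -hrel
    rw [e]
    exact dvd_add (dvd_mul_right _ _) (dvd_pow hd two_ne_zero)
  by_cases h3 : (3 : ℤ) ∣ W.c₄
  · -- `3 ∣ c₄`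
    obtain ⟨c, hc⟩ := h3
    obtain ⟨d₀, hd₀⟩ : (3 : ℤ) ∣ W.b₂ := by
      apply Int.prime_three.dvd_of_dvd_pow (n := 2)
      have e : W.b₂ ^ 2 = 3 * (c + 8 * W.b₄) := by
        have : W.c₄ = W.b₂ ^ 2 - 24 * W.b₄ := rfl
        rw [this] at hc
        linear_combination hc
      exact ⟨_, e⟩
    obtain ⟨d, hd⟩ : ∃ d, W.c₆ = 27 * d := ⟨-d₀ ^ 3 + 4 * d₀ * W.b₄ - 8 * W.b₆, by
      rw [WeierstrassCurve.c₆, hd₀]; ring⟩
    have hcd : c ^ 3 - 27 * d ^ 2 = 64 * W.Δ := by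
      rw [hc, hd] at hrel
      have e : (27 : ℤ) * (c ^ 3 - 27 * d ^ 2) = 27 * (64 * W.Δ) := by linear_combination -hrel
      exact mul_left_cancel₀ (by norm_num) e
    have hd2 : ¬ (2 : ℤ) ∣ 3 * d := by
      intro h1
      apply hc₆
      rw [hd]
      have : (27 : ℤ) * d = 9 * (3 * d) := by ring
      rw [this]
      exact Dvd.dvd.mul_left h1 9
    have hdN : ¬ (N : ℤ) ∣ 3 * d := by
      intro h1
      apply hNc₆
      rw [hd]
      have : (27 : ℤ) * d = 9 * (3 * d) := by ring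
      rw [this]
      exact Dvd.dvd.mul_left h1 9
    have hcop : IsCoprime (8 * M) (3 * d) := by
      refine IsCoprime.mul_left ?_ (hcopM hdN)
      have h1 : IsCoprime (2 : ℤ) (3 * d) := (Int.prime_two.coprime_iff_not_dvd).mpr hd2
      have h2 := h1.pow_left (m := 3)
      norm_num at h2
      exact h2
    have hc2 : ¬ (2 : ℤ) ∣ c := by
      intro h1
      apply hc₄
      rw [hc]
      exact Dvd.dvd.mul_left h1 3
    rcases hΔ with hΔ | hΔ
    · -- `Δ = M²`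
      have h1 : (8 * M) ^ 2 + 3 * (3 * d) ^ 2 = c ^ 3 := by
        rw [hΔ] at hcd
        linear_combination -hcd
      obtain ⟨a, b, h2, h4, h5⟩ := E3.eq_cube hcop (by
        rw [h1]; exact fun h2 => hc2 (Int.prime_two.dvd_of_dvd_pow h2)) (dvd_mul_right _ _) h1
      refine two_torsion_of_root (x := -9 * b) ?_
      rw [hc, hd]
      have h6 : 2 * d = a ^ 2 * b - a * b ^ 2 := by
        have : (3 : ℤ) * (2 * d) = 3 * (a ^ 2 * b - a * b ^ 2) := by linear_combination h4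
        exact mul_left_cancel₀ (by norm_num) this
      rw [h5]
      linear_combination (-729) * h6
    · -- `Δ = -M²`
      have h1 : (8 * M) ^ 2 - 3 * (3 * d) ^ 2 = (-c) ^ 3 := by
        rw [hΔ] at hcd
        linear_combination hcd
      obtain ⟨u, v, h2, h4, h5⟩ := R3.eq_cube hcop (by
        rw [h1]
        exact fun h2 => hc2 ((dvd_neg).mp (Int.prime_two.dvd_of_dvd_pow h2)))
        (dvd_mul_right _ _) h1
      refine two_torsion_of_root (x := 18 * v) ?_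
      rw [hc, hd]
      have h6 : d = u ^ 2 * v + v ^ 3 := by
        have : (3 : ℤ) * d = 3 * (u ^ 2 * v + v ^ 3) := by linear_combination h4
        exact mul_left_cancel₀ (by norm_num) this
      have h7 : c = 3 * v ^ 2 - u ^ 2 := by linarith
      rw [h7, h6]
      ring
  · -- `3 ∤ c₄`
    have h3c₆ : ¬ (3 : ℤ) ∣ W.c₆ := by
      intro hd
      apply h3
      apply Int.prime_three.dvd_of_dvd_pow (n := 3)
      have e : W.c₄ ^ 3 = 3 * (576 * W.Δ) + W.c₆ ^ 2 := by linear_combination -hrel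
      rw [e]
      exact dvd_add (dvd_mul_right _ _) (dvd_pow hd two_ne_zero)
    have hcop : IsCoprime W.c₆ (24 * M) := by
      refine IsCoprime.mul_right ?_ (hcopM hNc₆).symm
      have h1 : IsCoprime (2 : ℤ) W.c₆ := (Int.prime_two.coprime_iff_not_dvd).mpr hc₆
      have h2 : IsCoprime (3 : ℤ) W.c₆ := (Int.prime_three.coprime_iff_not_dvd).mpr h3c₆
      have h4 := (h1.pow_left (m := 3)).mul_left h2
      norm_num at h4
      exact h4.symm
    have hodd3 : ¬ (2 : ℤ) ∣ W.c₄ ^ 3 := fun h2 => hc₄ (Int.prime_two.dvd_of_dvd_pow h2)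
    rcases hΔ with hΔ | hΔ
    · have h1 : W.c₆ ^ 2 + 3 * (24 * M) ^ 2 = W.c₄ ^ 3 := by
        rw [hΔ] at hrel
        linear_combination hrel
      obtain ⟨a, b, h2, h4, h5⟩ := E3.eq_cube hcop (by rw [h1]; exact hodd3)
        ⟨8 * M, by ring⟩ h1
      refine two_torsion_of_root (x := 3 * (2 * a - b)) ?_
      rw [h5]
      linear_combination (-54) * h2 + 27 * h4
    · have h1 : W.c₆ ^ 2 - 3 * (24 * M) ^ 2 = W.c₄ ^ 3 := by
        rw [hΔ] at hrel
        linear_combination hrel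
      obtain ⟨u, v, h2, h4, h5⟩ := R3.eq_cube hcop (by rw [h1]; exact hodd3)
        ⟨8 * M, by ring⟩ h1
      refine two_torsion_of_root (x := 6 * u) ?_
      rw [h5, h2]
      ring

/-- **The theorem of Mestre and Oesterlé.** Let `W` be a semistable elliptic curve over `ℚ` of prime conductor `N`, and
`|Δ| = N ^ m`. Then `m = 1`; or `m = 2` and `N = 17` or `N = u² + 64`; or `(N, m)` is one of `(17, 4)`, `(11, 5)`,
`(19, 3)`, `(37, 3)`. -/
theorem disc_exponent (hss : W.IsSemistableModel) (hN : N.Prime) (h : W.Δ.natAbs = N ^ m) :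
    m = 1 ∨ (m = 2 ∧ (N = 17 ∨ ∃ u : ℤ, (N : ℤ) = u ^ 2 + 64)) ∨ (N = 17 ∧ m = 4) ∨
      (N = 11 ∧ m = 5) ∨ ((N = 19 ∨ N = 37) ∧ m = 3) := by
  rcases mestre_oesterle hss hN h with ⟨k, hk⟩ | h1 | h1
  · rcases Nat.eq_zero_or_pos k with rfl | hk0
    · left; rw [hk, pow_zero]
    · have hev : Even m := by
        rw [hk]
        exact (Nat.even_pow' hk0.ne').mpr even_two
      rcases setzer_neumann hss hN h (two_torsion_of_even hss hN h hev) with ⟨h2, h3⟩ | ⟨h2, h3⟩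
      · rcases h3 with h3 | h3
        · exact Or.inl h3
        · exact Or.inr (Or.inl ⟨h3, Or.inr h2⟩)
      · rcases h3 with h3 | h3 | h3
        · exact Or.inl h3
        · exact Or.inr (Or.inl ⟨h3, Or.inl h2⟩)
        · exact Or.inr (Or.inr (Or.inl ⟨h2, h3⟩))
  · exact Or.inr (Or.inr (Or.inr (Or.inl h1)))
  · exact Or.inr (Or.inr (Or.inr (Or.inr h1)))

/-- **The theorem of Mestre and Oesterlé**, in terms of the conductor: if the conductor `N` of a semistable elliptic curve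
is a prime `N ≠ 11, 17, 19, 37`, then `|Δ| = N`, or `N = u² + 64` and `|Δ| = N²`. -/
theorem disc_eq (hΔ : W.Δ ≠ 0) (hss : W.IsSemistableModel) (hN : W.conductorLevel.Prime)
    (h : W.conductorLevel ∉ ({11, 17, 19, 37} : Finset ℕ)) :
    W.Δ.natAbs = W.conductorLevel ∨
      (W.Δ.natAbs = W.conductorLevel ^ 2 ∧ ∃ u : ℤ, (W.conductorLevel : ℤ) = u ^ 2 + 64) := by
  obtain ⟨m, hm⟩ := exists_exponent hΔ hN rfl
  simp only [Finset.mem_insert, Finset.mem_singleton, not_or] at h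
  rcases disc_exponent hss hN hm with h1 | ⟨h1, h2⟩ | ⟨h1, -⟩ | ⟨h1, -⟩ | ⟨h1, -⟩
  · left; rw [hm, h1, pow_one]
  · rcases h2 with h2 | h2
    · exact absurd h2 h.2.1
    · right; exact ⟨by rw [hm, h1], h2⟩
  · exact absurd h1 h.2.1
  · exact absurd h1 h.1
  · rcases h1 with h1 | h1
    · exact absurd h1 h.2.2.1
    · exact absurd h1 h.2.2.2

end Fermat.Agent.Cor.H18MO
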