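import Fermat.Agent.Cor.H18MO8
import Fermat.Agent.Cor.GenusOne

/-!
# The theorem of Mestre and Oesterlé: all exceptional discriminants occur

This file is not used by any of the statement files.
-/

set_option autoImplicit false

namespace Fermat.Agent.Cor.H18MO

open WeierstrassCurve Fermat.Agent.Cor.GenusOne

/-- a curve with given discriminant and `c₄` -/
theorem example_of {W : WeierstrassCurve ℤ} {D c : ℤ} {N m : ℕ} (hD : W.Δ = D) (hc : W.c₄ = c)
    (hg : Int.gcd D c = 1) (hDN : D.natAbs = N ^ m) :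
    W.IsSemistableModel ∧ W.Δ.natAbs = N ^ m :=
  ⟨isSemistableModel_of_gcd (by rw [hD, hc]; exact hg), by rw [hD]; exact hDN⟩

/-- `(N, m) = (11, 5)` occurs -/
theorem example_eleven : ∃ W : WeierstrassCurve ℤ, W.IsSemistableModel ∧ W.Δ.natAbs = 11 ^ 5 :=
  ⟨⟨0, -1, 1, -10, -20⟩, example_of (D := -161051) (c := 496) (by decide) (by decide)
    (by decide) (by norm_num)⟩

/-- `(N, m) = (19, 3)` occurs -/
theorem example_nineteen : ∃ W : WeierstrassCurve ℤ, W.IsSemistableModel ∧ W.Δ.natAbs = 19 ^ 3 :=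
  ⟨⟨0, 1, 1, -9, -15⟩, example_of (D := -6859) (c := 448) (by decide) (by decide)
    (by decide) (by norm_num)⟩

/-- `(N, m) = (37, 3)` occurs -/
theorem example_thirtyseven : ∃ W : WeierstrassCurve ℤ, W.IsSemistableModel ∧
    W.Δ.natAbs = 37 ^ 3 :=
  ⟨⟨0, 1, 1, -23, -50⟩, example_of (D := 50653) (c := 1120) (by decide) (by decide)
    (by decide) (by norm_num)⟩

/-- `(N, m) = (17, 2)` occurs -/
theorem example_seventeen_two : ∃ W : WeierstrassCurve ℤ, W.IsSemistableModel ∧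
    W.Δ.natAbs = 17 ^ 2 :=
  ⟨⟨1, -1, 1, -6, -4⟩, example_of (D := 289) (c := 273) (by decide) (by decide)
    (by decide) (by norm_num)⟩

/-- `(N, m) = (17, 4)` occurs -/
theorem example_seventeen_four : ∃ W : WeierstrassCurve ℤ, W.IsSemistableModel ∧
    W.Δ.natAbs = 17 ^ 4 :=
  ⟨⟨1, -1, 1, -1, -14⟩, example_of (D := -83521) (c := 33) (by decide) (by decide)
    (by decide) (by norm_num)⟩

/-- an odd square root, with the right sign -/
theorem exists_sign {N : ℕ} (hN : N.Prime) {u : ℤ} (h : (N : ℤ) = u ^ 2 + 64) :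
    64 < N ∧ ∃ t : ℤ, (N : ℤ) = (4 * t + 1) ^ 2 + 64 := by
  have hN64 : 64 < N := by
    have h1 : u ≠ 0 := by
      rintro rfl
      have : N = 64 := by exact_mod_cast h
      rw [this] at hN
      exact absurd hN (by norm_num)
    have : 0 < u ^ 2 := by positivity
    omega
  refine ⟨hN64, ?_⟩
  have hodd : u % 2 = 1 := by
    by_contra hcon
    obtain ⟨k, hk⟩ : (2 : ℤ) ∣ u := by omega
    rw [hk] at h
    have h2 : 2 ∣ N := by
      have : (2 : ℤ) ∣ (N : ℤ) := ⟨2 * k ^ 2 + 32, by rw [h]; ring⟩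
      exact_mod_cast this
    have := (Nat.prime_dvd_prime_iff_eq Nat.prime_two hN).mp h2
    omega
  rcases (show u % 4 = 1 ∨ u % 4 = 3 by omega) with h1 | h1
  · exact ⟨u / 4, by rw [h]; congr 2; omega⟩
  · refine ⟨(-u) / 4, ?_⟩
    have : 4 * (-u / 4) + 1 = -u := by omega
    rw [this, h]
    ring

/-- the Setzer–Neumann curves: for every prime `N = u² + 64` there is a semistable curve with `|Δ| = N²` -/
theorem example_setzer {N : ℕ} (hN : N.Prime) {u : ℤ} (h : (N : ℤ) = u ^ 2 + 64) :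
    ∃ W : WeierstrassCurve ℤ, W.IsSemistableModel ∧ W.Δ.natAbs = N ^ 2 := by
  obtain ⟨hN64, t, ht⟩ := exists_sign hN h
  -- `y² + x y = x³ + t x² + 4 x + (4 t + 1)`
  refine ⟨⟨1, t, 0, 4, 4 * t + 1⟩, ?_⟩
  have hΔ : (⟨1, t, 0, 4, 4 * t + 1⟩ : WeierstrassCurve ℤ).Δ = -(N : ℤ) ^ 2 := by
    rw [ht]
    simp only [WeierstrassCurve.Δ, WeierstrassCurve.b₂, WeierstrassCurve.b₄, WeierstrassCurve.b₆,
      WeierstrassCurve.b₈]
    ring
  have hc₄ : (⟨1, t, 0, 4, 4 * t + 1⟩ : WeierstrassCurve ℤ).c₄ = (N : ℤ) - 256 := by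
    rw [ht]
    simp only [WeierstrassCurve.c₄, WeierstrassCurve.b₂, WeierstrassCurve.b₄]
    ring
  refine ⟨?_, ?_⟩
  · intro q hq hqΔ hqc
    rw [hΔ] at hqΔ
    have hqN : (q : ℤ) ∣ (N : ℤ) :=
      (Nat.prime_iff_prime_int.mp hq).dvd_of_dvd_pow ((dvd_neg).mp hqΔ)
    have hqN' : q = N := (Nat.prime_dvd_prime_iff_eq hq hN).mp (by exact_mod_cast hqN)
    rw [hc₄] at hqc
    have h256 : (q : ℤ) ∣ 2 ^ 8 := by
      have := dvd_sub hqN hqc
      have e : (N : ℤ) - (N - 256) = 2 ^ 8 := by ring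
      rwa [e] at this
    have hq2 := (Nat.prime_iff_prime_int.mp hq).dvd_of_dvd_pow h256
    have := Int.le_of_dvd (by norm_num) hq2
    omega
  · rw [hΔ, Int.natAbs_neg, Int.natAbs_pow, Int.natAbs_natCast]

/-- the Setzer–Neumann curves: for every prime `N = u² + 64` there is a semistable curve with `Δ = N` -/
theorem example_setzer_one {N : ℕ} (hN : N.Prime) {u : ℤ} (h : (N : ℤ) = u ^ 2 + 64) :
    ∃ W : WeierstrassCurve ℤ, W.IsSemistableModel ∧ W.Δ.natAbs = N ^ 1 := by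
  obtain ⟨hN64, t, ht⟩ := exists_sign hN h
  -- `y² + x y = x³ + t x² - x`
  refine ⟨⟨1, t, 0, -1, 0⟩, ?_⟩
  have hΔ : (⟨1, t, 0, -1, 0⟩ : WeierstrassCurve ℤ).Δ = (N : ℤ) := by
    rw [ht]
    simp only [WeierstrassCurve.Δ, WeierstrassCurve.b₂, WeierstrassCurve.b₄, WeierstrassCurve.b₆,
      WeierstrassCurve.b₈]
    ring
  have hc₄ : (⟨1, t, 0, -1, 0⟩ : WeierstrassCurve ℤ).c₄ = (N : ℤ) - 16 := by
    rw [ht]
    simp only [WeierstrassCurve.c₄, WeierstrassCurve.b₂, WeierstrassCurve.b₄]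
    ring
  refine ⟨?_, ?_⟩
  · intro q hq hqΔ hqc
    rw [hΔ] at hqΔ
    have hqN' : q = N := (Nat.prime_dvd_prime_iff_eq hq hN).mp (by exact_mod_cast hqΔ)
    rw [hc₄] at hqc
    have h256 : (q : ℤ) ∣ 2 ^ 4 := by
      have := dvd_sub hqΔ hqc
      have e : (N : ℤ) - (N - 16) = 2 ^ 4 := by ring
      rwa [e] at this
    have hq2 := (Nat.prime_iff_prime_int.mp hq).dvd_of_dvd_pow h256
    have := Int.le_of_dvd (by norm_num) hq2
    omega
  · rw [hΔ, Int.natAbs_natCast, pow_one]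

end Fermat.Agent.Cor.H18MO
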