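import Fermat.Agent.Cor.H18Ser
import Fermat.Agent.Cor.NewformCount
import Fermat.Agent.Cor.H07Conv

/-!
# Serre's equations when all newforms of level `2 L` come from elliptic curves

Let `L` be an odd prime and `W` a Frey curve for which `W[p]` arises at level `2 L`.

* `exists_newform_two_mul`: as `W[p]` is ramified at `2`, it arises from a newform of level exactly `2 L`;
* `newform_eq_curve`: if `ν(N)` pairwise non isogenous semistable elliptic curves of conductor `N` are known, `ν(N)` the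
  number of newforms of level `N`, then every newform of level `N` is the newform of one of these curves;
* `noSol_of_newforms`: the equations have no solutions if for every newform of level `2 L` the coefficient `a₃` or `a₅`
  is an integer which excludes the congruence.

This file is not used by any of the statement files.
-/

set_option autoImplicit false

namespace Fermat.Agent.Cor.H18

open WeierstrassCurve Fermat.Agent.H12.LL ModularCurve Fermat.Agent.Cor.H11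
open Fermat.Agent.Cor.NewformCount CongruenceSubgroup
open ModularFormClass (qCoeff)

/-! ### newforms of level `2 L` -/

/-- `W[p]` arises from a newform of level exactly `2 L` -/
theorem exists_newform_two_mul {W : WeierstrassCurve ℤ} {p L : ℕ} [hp : Fact p.Prime] (hΔ : W.Δ ≠ 0)
    (hirr : W.ModRepIsIrreducible p) (hp2 : p ≠ 2) (hL : L.Prime) (hL2 : L ≠ 2)
    (h2 : (2 : ℤ) ∣ W.Δ) (hram : ¬ UnrAt W p 2)
    (h : W.IsResiduallyModularOfLevel p (2 * L)) :
    ∃ (f : CuspForm (Gamma0 (2 * L)) 2) (𝔪 : Ideal (integralClosure ℤ ℂ)),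
      f.IsNewform ∧ 𝔪.IsMaximal ∧ (p : integralClosure ℤ ℂ) ∈ 𝔪 ∧
      ∀ ℓ : ℕ, ℓ.Prime → W.IsGoodPrimeFor ℓ → ¬ ℓ ∣ 2 * L → ℓ ≠ p →
      ∃ a : integralClosure ℤ ℂ, (a : ℂ) = qCoeff f ℓ ∧
        a - ((W.apOfModel ℓ : ℤ) : integralClosure ℤ ℂ) ∈ 𝔪 := by
  obtain ⟨f, 𝔪, hf, h𝔪, hp𝔪, hres⟩ := h
  refine ⟨f, 𝔪, ⟨hf, ?_⟩, h𝔪, hp𝔪, hres⟩
  rintro M hM hM2 ⟨g, hg, hgf⟩
  have hM3 : M = 1 ∨ M = 2 ∨ M = L := by
    obtain ⟨a, b, ha, hb, hab⟩ := (Nat.dvd_mul).mp hM
    rcases (Nat.dvd_prime Nat.prime_two).mp ha with rfl | rfl <;>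
      rcases (Nat.dvd_prime hL).mp hb with rfl | rfl
    · left; omega
    · right; right; omega
    · right; left; omega
    · exact absurd hab.symm hM2
  rcases hM3 with rfl | rfl | rfl
  · exact Fermat.Agent.Main.not_isNormalizedEigenform Fermat.Agent.Main.genus_one g hg
  · exact Fermat.Agent.Main.not_isNormalizedEigenform Fermat.Agent.Main.genus_two g hg
  · refine hram (H11N.unrAt_of_residual hΔ hirr hp2 hL.ne_zero
      ⟨g, 𝔪, hg, h𝔪, hp𝔪, fun ℓ hℓ hgood hℓL hℓp => ?_⟩ Nat.prime_two ?_ (Ne.symm hp2))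
    · have hℓ2 : ¬ ℓ ∣ 2 * M := by
        intro hd
        rcases (Nat.Prime.dvd_mul hℓ).mp hd with h3 | h3
        · have h4 := (Nat.prime_dvd_prime_iff_eq hℓ Nat.prime_two).mp h3
          subst h4
          exact hgood h2
        · exact hℓL h3
      obtain ⟨a, ha, ha'⟩ := hres ℓ hℓ hgood hℓ2 hℓp
      exact ⟨a, ha.trans (hgf ℓ hℓ hℓ2).symm, ha'⟩
    · intro h3
      exact hL2 ((Nat.prime_dvd_prime_iff_eq Nat.prime_two hL).mp h3).symm

/-- **Newforms and curves.** If there are as many isogeny classes of elliptic curves of conductor `N` as newforms of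
level `N`, then every newform comes from a curve. -/
theorem newform_eq_curve {N k : ℕ} [NeZero N] (hk : newformCount N = k)
    (E : Fin k → WeierstrassCurve ℤ) (hΔ : ∀ i, (E i).Δ ≠ 0) (hss : ∀ i, (E i).IsSemistableModel)
    (hN : ∀ i, (E i).conductorLevel = N)
    (hne : ∀ i j, i ≠ j → ∃ ℓ : ℕ, ℓ.Prime ∧ ¬ ℓ ∣ N ∧ (E i).apOfModel ℓ ≠ (E j).apOfModel ℓ)
    {g : CuspForm (Gamma0 N) 2} (hg : g.IsNewform) :
    ∃ i, ∀ ℓ : ℕ, ℓ.Prime → ¬ ℓ ∣ N → qCoeff g ℓ = ((E i).apOfModel ℓ : ℂ) := by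
  have key : ∀ i, ∃ f : CuspForm (Gamma0 N) 2, f.IsNewform ∧
      ∀ ℓ : ℕ, ℓ.Prime → ¬ ℓ ∣ N → qCoeff f ℓ = ((E i).apOfModel ℓ : ℂ) := by
    intro i
    have h := SmallConductor.exists_newform (E i) (hΔ i) (hss i)
    rw [hN i] at h
    exact h
  choose F hF hFa using key
  let Φ : Fin k → {g : CuspForm (Gamma0 N) 2 // g.IsNewform} := fun i => ⟨F i, hF i⟩
  have hinj : Function.Injective Φ := by
    intro i j hij
    by_contra hne'
    obtain ⟨ℓ, hℓ, hℓN, h⟩ := hne i j hne'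
    apply h
    have h1 : F i = F j := congrArg Subtype.val hij
    have h2 := hFa i ℓ hℓ hℓN
    rw [h1, hFa j ℓ hℓ hℓN] at h2
    exact_mod_cast h2.symm
  have : Finite {g : CuspForm (Gamma0 N) 2 // g.IsNewform} := finite_newforms N
  have hbij : Function.Bijective Φ := by
    refine (Nat.bijective_iff_injective_and_card Φ).mpr ⟨hinj, ?_⟩
    rw [Nat.card_eq_fintype_card, Fintype.card_fin]
    exact hk.symm
  obtain ⟨i, hi⟩ := hbij.2 ⟨g, hg⟩
  refine ⟨i, fun ℓ hℓ hℓN => ?_⟩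
  have h1 : F i = g := congrArg Subtype.val hi
  rw [← h1]
  exact hFa i ℓ hℓ hℓN

/-! ### the traces of Frobenius of the Frey curves at `5` -/

theorem cnt_five : ∀ a b : ZMod 5, a * b * (a + b) ≠ 0 →
    ((5 : ℤ) - (EigenTable.cnt 5 1 (-(b - a - 1)) 0 (-(a * b)) 0 : ℤ) = 2 ∨
      (5 : ℤ) - (EigenTable.cnt 5 1 (-(b - a - 1)) 0 (-(a * b)) 0 : ℤ) = -2) := by
  decide +kernel

/-- the trace of Frobenius at `5` of a Frey curve with good reduction at `5` is `± 2` -/
theorem freyAB_ap_five {A B : ℤ} (hA : A % 4 = 3) (hB : (16 : ℤ) ∣ B)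
    (h0 : (FreyAB A B).IsGoodPrimeFor 5) :
    (FreyAB A B).apOfModel 5 = 2 ∨ (FreyAB A B).apOfModel 5 = -2 := by
  have : Fact (Nat.Prime 5) := ⟨Nat.prime_five⟩
  have h1 := EigenTable.apOfModel_eq (FreyAB A B) 5 h0
  have h5 : ¬ (5 : ℤ) ∣ A * B * (A + B) := by
    intro h
    apply h0
    have h6 : (5 : ℤ) ∣ 256 * (FreyAB A B).Δ := by
      rw [frey_disc hA hB]
      exact dvd_pow h two_ne_zero
    rcases (Int.prime_iff_natAbs_prime.mpr (by norm_num : (Int.natAbs 5).Prime)).dvd_or_dvd h6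
      with h | h
    · omega
    · exact_mod_cast h
  have e2 : (((FreyAB A B).a₂ : ℤ) : ZMod 5) = -((B : ZMod 5) - (A : ZMod 5) - 1) := by
    have h2 := congrArg (fun z : ℤ => (z : ZMod 5)) (four_a₂ hA hB)
    push_cast at h2
    have h3 : (4 : ZMod 5) = -1 := rfl
    rw [h3] at h2
    linear_combination (-1) * h2
  have e4 : (((FreyAB A B).a₄ : ℤ) : ZMod 5) = -((A : ZMod 5) * (B : ZMod 5)) := by
    have h2 := congrArg (fun z : ℤ => (z : ZMod 5)) (sixteen_a₄ (A := A) hB)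
    push_cast at h2
    have h3 : (16 : ZMod 5) = 1 := rfl
    rw [h3, one_mul] at h2
    exact h2
  have e1 : (((FreyAB A B).a₁ : ℤ) : ZMod 5) = 1 := by
    change (((1 : ℤ)) : ZMod 5) = 1
    norm_num
  have e3 : (((FreyAB A B).a₃ : ℤ) : ZMod 5) = 0 := by
    change (((0 : ℤ)) : ZMod 5) = 0
    norm_num
  have e6 : (((FreyAB A B).a₆ : ℤ) : ZMod 5) = 0 := by
    change (((0 : ℤ)) : ZMod 5) = 0
    norm_num
  rw [e1, e2, e3, e4, e6] at h1
  rw [h1]
  refine cnt_five _ _ ?_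
  intro h
  apply h5
  rw [← Int.cast_mul, ← Int.cast_add, ← Int.cast_mul] at h
  exact (ZMod.intCast_zmod_eq_zero_iff_dvd _ 5).mp h

/-! ### the criterion -/

/-- an integer `c = a_ℓ(f)`, `ℓ = 3` or `5`, which is not congruent modulo `p` to the trace of Frobenius at `ℓ` of a
Frey curve -/
def Excl (p ℓ : ℕ) (c : ℤ) : Prop :=
  (ℓ = 3 ∧ ¬ (p : ℤ) ∣ c ∧ ¬ (p : ℤ) ∣ c - 4 ∧ ¬ (p : ℤ) ∣ c + 4) ∨
  (ℓ = 5 ∧ ¬ (p : ℤ) ∣ c - 2 ∧ ¬ (p : ℤ) ∣ c + 2 ∧ ¬ (p : ℤ) ∣ c - 6 ∧ ¬ (p : ℤ) ∣ c + 6)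

/-- **The criterion**: no solutions from the coefficients of the newforms of level `2 L`. -/
theorem noSol_of_newforms {p L : ℕ} (hp : p.Prime) (hp7 : 7 ≤ p) (hL : L.Prime) (hL2 : L ≠ 2)
    (H : IrrAB p)
    (hS : ∀ f : CuspForm (Gamma0 (2 * L)) 2, f.IsNewform →
      ∃ (ℓ : ℕ) (c : ℤ), ¬ ℓ ∣ 2 * L ∧ qCoeff f ℓ = (c : ℂ) ∧ Excl p ℓ c) :
    NoSol p L := by
  intro A B hcop hA hB hB0 h0 h2 hv
  have : Fact p.Prime := ⟨hp⟩
  have : NeZero (2 * L) := ⟨mul_ne_zero two_ne_zero hL.ne_zero⟩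
  have hB' : (16 : ℤ) ∣ B := (by norm_num : (16 : ℤ) ∣ 32).trans hB
  have hirr := H A B hcop hA hB h0 h2
  have hΔ := frey_disc_ne hA hB' h0
  have hss := frey_semistable hA hB' hcop
  have hp2 : p ≠ 2 := by omega
  -- the valuation of the discriminant at `2`
  have hAodd : ¬ ((2 : ℕ) : ℤ) ∣ A := by push_cast; omega
  have hCodd : ¬ ((2 : ℕ) : ℤ) ∣ A + B := by push_cast; omega
  have hA0 : A ≠ 0 := by rintro rfl; simp at hAodd
  have hC0 : A + B ≠ 0 := by intro h; rw [h] at hCodd; simp at hCodd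
  have hv2 : 8 + padicValInt 2 (FreyAB A B).Δ = 2 * padicValInt 2 B := by
    have h3 := congrArg (padicValInt 2) (frey_disc hA hB')
    rw [padicValInt.mul (by norm_num) hΔ, padicValInt_pow', padicValInt.mul (mul_ne_zero hA0 hB0)
      hC0, padicValInt.mul hA0 hB0, padicValInt.eq_zero_of_not_dvd hAodd,
      padicValInt.eq_zero_of_not_dvd hCodd] at h3
    have h4 : padicValInt 2 256 = 8 := by
      have : (256 : ℤ) = 2 ^ 8 := by norm_num
      rw [this, padicValInt_pow']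
      have h5 : padicValInt 2 2 = 1 := by
        have := padicValInt.self (p := 2) (by norm_num)
        exact_mod_cast this
      rw [h5]
    omega
  have hvB : 5 ≤ padicValInt 2 B := by
    have := (padicValInt_dvd_iff (p := 2) 5 B).mp (by exact_mod_cast hB)
    exact this.resolve_left hB0
  have h2Δ : ((2 : ℕ) : ℤ) ∣ (FreyAB A B).Δ := by
    by_contra h
    rw [padicValInt.eq_zero_of_not_dvd h] at hv2
    omega
  have hram : ¬ UnrAt (FreyAB A B) p 2 := by
    refine H07.not_unrAt hΔ hp hp2 Nat.prime_two (Ne.symm hp2) h2Δ (hss 2 Nat.prime_two h2Δ) ?_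
    intro h
    have h3 : (p : ℤ) ∣ 2 * ((padicValInt 2 B : ℤ) - 4) := by
      have h4 : (2 * ((padicValInt 2 B : ℤ) - 4)) = (padicValInt 2 (FreyAB A B).Δ : ℤ) := by
        omega
      rw [h4]
      exact_mod_cast h
    rcases (Nat.prime_iff_prime_int.mp hp).dvd_or_dvd h3 with h4 | h4
    · have h5 : p ∣ 2 := by exact_mod_cast h4
      exact hp2 ((Nat.prime_dvd_prime_iff_eq hp Nat.prime_two).mp h5)
    · exact h2 h4
  obtain ⟨f, 𝔪, hf, h𝔪, hp𝔪, hres⟩ := exists_newform_two_mul hΔ hirr hp2 hL hL2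
    (by exact_mod_cast h2Δ) hram (rm_two_mul (by omega) hL hcop hA hB h0 hv hirr)
  obtain ⟨ℓ, c, hℓN, hc, hex⟩ := hS f hf
  have hℓ : ℓ.Prime := by
    rcases hex with h | h
    · rw [h.1]; norm_num
    · rw [h.1]; norm_num
  have hℓp : ℓ ≠ p := by
    rcases hex with h | h
    · rw [h.1]; omega
    · rw [h.1]; omega
  by_cases hgood : (FreyAB A B).IsGoodPrimeFor ℓ
  · have h4 := dvd_of_good h𝔪 hp𝔪 hres hℓ hℓN hℓp hc hgood
    rcases hex with ⟨rfl, h5, -, -⟩ | ⟨rfl, h5, h6, -, -⟩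
    · rw [freyAB_ap_three hA hB', sub_zero] at h4
      · exact h5 h4
      · intro h5
        apply hgood
        have h6 : (3 : ℤ) ∣ 256 * (FreyAB A B).Δ := by
          rw [frey_disc hA hB']
          exact dvd_pow h5 two_ne_zero
        have h7 : (3 : ℤ) ∣ (FreyAB A B).Δ := by
          rcases (Int.prime_three).dvd_or_dvd h6 with h | h
          · omega
          · exact h
        exact_mod_cast h7
    · rcases freyAB_ap_five hA hB' hgood with h7 | h7
      · rw [h7] at h4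
        exact h5 h4
      · rw [h7, sub_neg_eq_add] at h4
        exact h6 h4
  · have hℓΔ : (ℓ : ℤ) ∣ (FreyAB A B).Δ := by
      by_contra h
      exact hgood h
    have hb : ∃ b : integralClosure ℤ ℂ, (b : ℂ) = qCoeff f ℓ ∧
        b - (c : integralClosure ℤ ℂ) ∈ 𝔪 :=
      ⟨(c : integralClosure ℤ ℂ), by rw [hc]; simp, by rw [sub_self]; exact zero_mem _⟩
    have h4 := dvd_of_mult hΔ hirr hp2 hf.1 h𝔪 hp𝔪 hres hℓ hℓN hℓp hb hℓΔ (hss ℓ hℓ hℓΔ)
    rcases hex with ⟨rfl, -, h5, h6⟩ | ⟨rfl, -, -, h5, h6⟩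
    · rcases h4 with h | h
      · apply h5
        have e : c - ((3 : ℕ) + 1 : ℤ) = c - 4 := by push_cast; ring
        rwa [e] at h
      · apply h6
        have e : c + ((3 : ℕ) + 1 : ℤ) = c + 4 := by push_cast; ring
        rwa [e] at h
    · rcases h4 with h | h
      · apply h5
        have e : c - ((5 : ℕ) + 1 : ℤ) = c - 6 := by push_cast; ring
        rwa [e] at h
      · apply h6
        have e : c + ((5 : ℕ) + 1 : ℤ) = c + 6 := by push_cast; ring
        rwa [e] at h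

end Fermat.Agent.Cor.H18
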