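import Fermat.Agent.H11N.Unr

/-!
# The trace of Frobenius of `W[p]` at all primes outside the level

If `W[p]` is irreducible and arises from a normalised eigenform `f` of level `N`, then for every prime `q ∤ N p`,
also of bad reduction, the trace of Frobenius at `q` on `W[p]` is `a_q(f)`. In particular `a_q(f) ≡ ± (q + 1)` if `W`
has multiplicative reduction at `q`.
-/

set_option autoImplicit false
set_option linter.style.haveILetI false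
set_option linter.unusedSectionVars false
set_option maxSynthPendingDepth 3

noncomputable section

namespace Fermat.Agent.Cor.H18

open ModularCurve AlgebraicCurve Fermat.Agent.Ell Fermat.Agent.H12.LL Fermat.Agent.H11N Matrix
open ModularFormClass (qCoeff)

local notation "Qb" => AlgebraicClosure ℚ
local notation "Γq" => AlgebraicClosure ℚ ≃ₐ[ℚ] AlgebraicClosure ℚ

variable {W : WeierstrassCurve ℤ} {p : ℕ} [hp : Fact p.Prime]

theorem coe_nat_smul {N m D : ℕ} [NeZero N] {a : ℕ → ℤ} (c : ℕ) (x : EigSub N m D a) :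
    ((((c : ZMod m) • x : EigSub N m D a)) : JZero N) = (c : ℤ) • (x : JZero N) := by
  rw [← coe_zmod_smul, Int.cast_natCast]

set_option maxHeartbeats 1600000 in
/-- comparison of the relations attached to two systems -/
theorem trace_of_eig {D D' : ℕ} {a a' : ℕ → ℤ} {N : ℕ} [NeZero N] (P : MRep p D a) (hD : D ≠ 0)
    (hND : N ∣ D) (hpD : p ∣ D) (hND' : N ∣ D') (hpD' : p ∣ D') {x : JZero N}
    (hx : x ∈ EigSub N p D' a') (hxD : x ∈ EigSub N p D a) (hx0 : x ≠ 0) {q : ℕ} (hq : q.Prime)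
    (hqD' : ¬ q ∣ D') {A : ValuationSubring Qb} (hA : A.LiesOverPrime q) {φ : Γq}
    (hφ : A.IsFrobeniusAt φ q) (hdet : (P.ρ φ).det = (q : ZMod p)) :
    (P.ρ φ).trace = (a' q : ZMod p) := by
  obtain ⟨t, ht⟩ : ∃ t : ℤ, (t : ZMod p) = (P.ρ φ).trace := ZMod.intCast_surjective _
  have hrel := P.rel (N := N) hp.out.ne_zero hD hND hpD φ
  rw [hdet, ← ht] at hrel
  have h1 : φ • φ • x - t • (φ • x) + (q : ℤ) • x = 0 := by
    have e := congrArg Subtype.val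
      (congrArg (fun F : Module.End (ZMod p) (EigSub N p D a) => F ⟨x, hxD⟩) hrel)
    change φ • φ • x - (((t : ZMod p) • galEig N p D a φ ⟨x, hxD⟩ : EigSub N p D a) : JZero N) +
      (((q : ZMod p) • (⟨x, hxD⟩ : EigSub N p D a) : EigSub N p D a) : JZero N) = 0 at e
    rw [coe_zmod_smul, coe_nat_smul, coe_galEig] at e
    exact e
  have h2 : φ • φ • x - (a' q) • (φ • x) + (q : ℤ) • x = 0 := by
    have hf := galEig_frob (N := N) (m := p) (D := D') (a := a') hND' hpD' hq hqD' hA hφ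
    have e := congrArg Subtype.val
      (congrArg (fun F : Module.End (ZMod p) (EigSub N p D' a') => F ⟨x, hx⟩) hf)
    change φ • φ • x - (((a' q : ZMod p) • galEig N p D' a' φ ⟨x, hx⟩ : EigSub N p D' a') :
      JZero N) + (((q : ZMod p) • (⟨x, hx⟩ : EigSub N p D' a') : EigSub N p D' a') :
        JZero N) = 0 at e
    rw [coe_zmod_smul, coe_nat_smul, coe_galEig] at e
    exact e
  have h3 : (t - a' q) • (φ • x) = 0 := by
    have e3 : (t - a' q) • (φ • x) = (φ • φ • x - (a' q) • (φ • x) + (q : ℤ) • x) -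
        (φ • φ • x - t • (φ • x) + (q : ℤ) • x) := by
      rw [sub_smul]
      abel
    rw [e3, h1, h2, sub_zero]
  have h4 : (p : ℤ) ∣ t - a' q := by
    by_contra hnd
    have hcop : IsCoprime (p : ℤ) (t - a' q) :=
      ((Nat.prime_iff_prime_int.mp hp.out).coprime_iff_not_dvd).mpr hnd
    obtain ⟨u, v, huv⟩ := hcop
    have hpx : (p : ℤ) • (φ • x) = 0 := by
      rw [smul_comm, natCast_zsmul, hx.1, smul_zero]
    have h6 : φ • x = 0 := by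
      have : (1 : ℤ) • (φ • x) = 0 := by
        rw [← huv, add_smul, mul_smul, mul_smul, hpx, h3, smul_zero, smul_zero, add_zero]
      rwa [one_smul] at this
    apply hx0
    have h7 : φ⁻¹ • φ • x = 0 := by rw [h6, smul_zero]
    rwa [inv_smul_smul] at h7
  rw [← ht, ← sub_eq_zero, ← Int.cast_sub]
  exact (ZMod.intCast_zmod_eq_zero_iff_dvd _ _).mpr h4

/-- **Trace of Frobenius outside the level.** -/
theorem trace_frob_eq (hΔ : W.Δ ≠ 0) (hirr : W.ModRepIsIrreducible p) (hp2 : p ≠ 2)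
    {N : ℕ} [NeZero N] {f : CuspForm (CongruenceSubgroup.Gamma0 N) 2} (hf : f.IsNormalizedEigenform)
    {𝔪 : Ideal (integralClosure ℤ ℂ)} (h𝔪 : 𝔪.IsMaximal) (hp𝔪 : (p : integralClosure ℤ ℂ) ∈ 𝔪)
    (hres : ∀ ℓ : ℕ, ℓ.Prime → W.IsGoodPrimeFor ℓ → ¬ ℓ ∣ N → ℓ ≠ p →
      ∃ a : integralClosure ℤ ℂ, (a : ℂ) = qCoeff f ℓ ∧
        a - ((W.apOfModel ℓ : ℤ) : integralClosure ℤ ℂ) ∈ 𝔪)
    {q : ℕ} (hq : q.Prime) (hqN : ¬ q ∣ N) (hqp : q ≠ p) {c : ℤ}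
    (hc : ∃ b : integralClosure ℤ ℂ, (b : ℂ) = qCoeff f q ∧ b - (c : integralClosure ℤ ℂ) ∈ 𝔪)
    {A : ValuationSubring Qb} (hA : A.LiesOverPrime q) {φ : Γq} (hφ : A.IsFrobeniusAt φ q) :
    (MR (tB (p := p) hΔ) (PadicInt.toZMod (p := p)) φ).trace = (c : ZMod p) := by
  haveI := isElliptic_WQ hΔ
  have hN0 : N ≠ 0 := NeZero.ne N
  have hΔ0 : W.Δ.natAbs ≠ 0 := Int.natAbs_ne_zero.2 hΔ
  obtain ⟨D, hDdef⟩ : ∃ D : ℕ, D = N * p * W.Δ.natAbs * q := ⟨_, rfl⟩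
  have hD : D ≠ 0 := by
    rw [hDdef]
    exact mul_ne_zero (mul_ne_zero (mul_ne_zero hN0 hp.out.ne_zero) hΔ0) hq.ne_zero
  have hND : N ∣ D := ⟨p * W.Δ.natAbs * q, by rw [hDdef]; ring⟩
  have hpD : p ∣ D := ⟨N * W.Δ.natAbs * q, by rw [hDdef]; ring⟩
  have hΔD : W.Δ.natAbs ∣ D := ⟨N * p * q, by rw [hDdef]; ring⟩
  have hqD : q ∣ D := by rw [hDdef]; exact Dvd.intro_left _ rfl
  -- the part of `D` prime to `q`
  obtain ⟨D', hD'⟩ : ∃ D' : ℕ, D' = ordCompl[q] D := ⟨_, rfl⟩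
  have hD'D : D' ∣ D := hD' ▸ Nat.ordCompl_dvd D q
  have hqD' : ¬ q ∣ D' := hD' ▸ Nat.not_dvd_ordCompl hq hD
  have hcop : ∀ {m : ℕ}, m ∣ D → ¬ q ∣ m → m ∣ D' := by
    intro m hm hqm
    have h1 : m ∣ q ^ D.factorization q * D' := by
      rw [hD', Nat.ordProj_mul_ordCompl_eq_self]; exact hm
    exact (Nat.Coprime.dvd_of_dvd_mul_left
      ((Nat.Coprime.pow_right _ ((Nat.Prime.coprime_iff_not_dvd hq).2 hqm).symm)) h1)
  have hND' : N ∣ D' := hcop hND hqN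
  have hpD' : p ∣ D' := hcop hpD fun h => hqp ((Nat.prime_dvd_prime_iff_eq hq hp.out).1 h)
  have hprime : ∀ {ℓ : ℕ}, ℓ.Prime → ¬ ℓ ∣ D' → ℓ ≠ q → ¬ ℓ ∣ D := by
    intro ℓ hℓ hℓD' hℓq hℓD
    exact hℓD' (hcop hℓD fun h => hℓq ((Nat.prime_dvd_prime_iff_eq hq hℓ).1 h).symm)
  -- the modified system
  obtain ⟨a', haq, han⟩ : ∃ a' : ℕ → ℤ, a' q = c ∧ ∀ ℓ, ℓ ≠ q → a' ℓ = W.apOfModel ℓ :=
    ⟨fun ℓ => if ℓ = q then c else W.apOfModel ℓ, if_pos rfl, fun ℓ h => if_neg h⟩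
  obtain ⟨x, hx, hx0⟩ := exists_mem_EigSub (N := N) hp.out hND' a' hf h𝔪 hp𝔪 (by
    intro ℓ hℓ hℓD'
    by_cases hℓq : ℓ = q
    · subst hℓq
      rw [haq]; exact hc
    · have h1 := hprime hℓ hℓD' hℓq
      rw [han ℓ hℓq]
      exact hres ℓ hℓ (fun h => h1 ((Int.natCast_dvd.1 h).trans hΔD)) (fun h => h1 (h.trans hND))
        (fun h => h1 (h ▸ hpD)))
  have hxD : x ∈ EigSub N p D W.apOfModel := by
    refine ⟨hx.1, fun l hl => ?_⟩
    have hlq : (l : ℕ) ≠ q := fun h => hl (h ▸ hqD)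
    have h1 := hx.2 l (fun h => hl (h.trans hD'D))
    rw [h1, han _ hlq]
  rw [← haq]
  exact trace_of_eig (mrepCurve hΔ hirr hp2 hpD hΔD) hD hND hpD hND' hpD' hx hxD hx0 hq hqD' hA hφ
    (det_MR_frob hΔ hirr hq hqp hA hφ)

/-- **The congruence at the multiplicative primes outside the level** (Ribet). -/
theorem dvd_of_mult (hΔ : W.Δ ≠ 0) (hirr : W.ModRepIsIrreducible p) (hp2 : p ≠ 2)
    {N : ℕ} [NeZero N] {f : CuspForm (CongruenceSubgroup.Gamma0 N) 2} (hf : f.IsNormalizedEigenform)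
    {𝔪 : Ideal (integralClosure ℤ ℂ)} (h𝔪 : 𝔪.IsMaximal) (hp𝔪 : (p : integralClosure ℤ ℂ) ∈ 𝔪)
    (hres : ∀ ℓ : ℕ, ℓ.Prime → W.IsGoodPrimeFor ℓ → ¬ ℓ ∣ N → ℓ ≠ p →
      ∃ a : integralClosure ℤ ℂ, (a : ℂ) = qCoeff f ℓ ∧
        a - ((W.apOfModel ℓ : ℤ) : integralClosure ℤ ℂ) ∈ 𝔪)
    {q : ℕ} (hq : q.Prime) (hqN : ¬ q ∣ N) (hqp : q ≠ p) {c : ℤ}
    (hc : ∃ b : integralClosure ℤ ℂ, (b : ℂ) = qCoeff f q ∧ b - (c : integralClosure ℤ ℂ) ∈ 𝔪)
    (hqΔ : (q : ℤ) ∣ W.Δ) (hqc₄ : ¬ (q : ℤ) ∣ W.c₄) :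
    (p : ℤ) ∣ c - (q + 1) ∨ (p : ℤ) ∣ c + (q + 1) := by
  haveI := isElliptic_WQ hΔ
  obtain ⟨A, hA⟩ := H05.exists_liesOverPrime Qb hq
  obtain ⟨φ, hφ⟩ := H05.exists_isFrobeniusAt hq hA
  have h1 := trace_frob_eq hΔ hirr hp2 hf h𝔪 hp𝔪 hres hq hqN hqp hc hA hφ
  have h2 : (MR (tB (p := p) hΔ) (PadicInt.toZMod (p := p)) φ).trace =
      PadicInt.toZMod ((zRep W hΔ p).trace φ) := trace_MR _ _ _
  rw [h1] at h2
  rcases zRep_mult_frob hΔ hirr hq hqp hqΔ hqc₄ hA hφ with h3 | h3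
  · left
    rw [h3, map_add, map_natCast, map_one] at h2
    rw [← ZMod.intCast_zmod_eq_zero_iff_dvd]
    push_cast
    rw [h2]
    ring
  · right
    rw [h3, map_neg, map_add, map_natCast, map_one] at h2
    rw [← ZMod.intCast_zmod_eq_zero_iff_dvd]
    push_cast
    rw [h2]
    ring

/-- the congruence at the good primes, for an integral eigenvalue -/
theorem dvd_of_good {N : ℕ} {f : CuspForm (CongruenceSubgroup.Gamma0 N) 2}
    {𝔪 : Ideal (integralClosure ℤ ℂ)} (h𝔪 : 𝔪.IsMaximal) (hp𝔪 : (p : integralClosure ℤ ℂ) ∈ 𝔪)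
    (hres : ∀ ℓ : ℕ, ℓ.Prime → W.IsGoodPrimeFor ℓ → ¬ ℓ ∣ N → ℓ ≠ p →
      ∃ a : integralClosure ℤ ℂ, (a : ℂ) = qCoeff f ℓ ∧
        a - ((W.apOfModel ℓ : ℤ) : integralClosure ℤ ℂ) ∈ 𝔪)
    {q : ℕ} (hq : q.Prime) (hqN : ¬ q ∣ N) (hqp : q ≠ p) {c : ℤ} (hc : qCoeff f q = (c : ℂ))
    (hqΔ : W.IsGoodPrimeFor q) : (p : ℤ) ∣ c - W.apOfModel q := by
  obtain ⟨a, ha, ha'⟩ := hres q hq hqΔ hqN hqp
  have h1 : a = (c : integralClosure ℤ ℂ) := by
    apply Subtype.ext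
    rw [ha, hc]
    simp
  rw [h1, ← Int.cast_sub] at ha'
  by_contra hnd
  have hcop : IsCoprime (p : ℤ) (c - W.apOfModel q) :=
    ((Nat.prime_iff_prime_int.mp hp.out).coprime_iff_not_dvd).mpr hnd
  obtain ⟨u, v, huv⟩ := hcop
  apply h𝔪.ne_top
  rw [Ideal.eq_top_iff_one]
  have h2 : (1 : integralClosure ℤ ℂ) = (u : integralClosure ℤ ℂ) * (p : integralClosure ℤ ℂ) +
      (v : integralClosure ℤ ℂ) * ((c - W.apOfModel q : ℤ) : integralClosure ℤ ℂ) := by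
    have := congrArg (fun z : ℤ => (z : integralClosure ℤ ℂ)) huv
    push_cast at this ⊢
    exact this.symm
  rw [h2]
  exact Ideal.add_mem _ (Ideal.mul_mem_left _ _ hp𝔪) (Ideal.mul_mem_left _ _ ha')

end Fermat.Agent.Cor.H18
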