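import Fermat.Agent.Cor.H22GenSeven
import Fermat.Agent.Cor.H11Raise
import Fermat.Agent.Cor.H14Small
import Fermat.Agent.Cor.Conductor23
import Fermat.Agent.H19.HeckeBound2

/-!
# Asymptotic results (Serre, Mazur)

Let `N ≥ 1` and `B` be given. For all sufficiently large primes `p`, every semistable elliptic curve `W` over `ℚ` whose
minimal discriminant is a `p`-th power away from `N` has good reduction at all primes `q ≤ B`, `q ∤ N`, and
`a_q(W) = a_q(f)` for these primes, where `f` is a normalised eigenform of weight `2` and level `N` (`asymptotic`).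

* `asymptotic_int`, `asymptotic_23p`: if every normalised eigenform of level `N` has a non-integral eigenvalue `a_q`,
  `q ∤ N`, there are no such curves for `p` large, and `u ^ 3 - v ^ 2 = 1728 A w ^ p` has no coprime solutions with
  `A w ≠ 0`, the prime factors of `A` dividing `N`; this holds for `N = 23, 29` (`cube_sub_sq_asymptotic`);
* `asymptotic_pp2`, `asymptotic_pp3`: signatures `(p, p, 2)` and `(p, p, 3)`: it is enough that every normalised
  eigenform of level `N` has an eigenvalue `a_q`, `q ∤ N`, which is not an even integer (`N` even), resp. not an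
  integer `≡ q + 1 mod 3`; the underlying curves have a rational point of order `2`, resp. `3` (`two_dvd_ap`,
  `three_dvd_ap`).

This file is not used by any of the statement files.
-/

set_option autoImplicit false

namespace Fermat.Agent.Cor.H22G

open ModularCurve ModularFormClass CongruenceSubgroup WeierstrassCurve
open Fermat.Agent.Cor.GenusOne

/-- a nonzero algebraic integer lies in maximal ideals over finitely many primes only -/
theorem exists_bound_of_ne_zero {α : integralClosure ℤ ℂ} (hα : α ≠ 0) : ∃ n : ℕ, ∀ p : ℕ,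
    p.Prime → n < p → ∀ 𝔪 : Ideal (integralClosure ℤ ℂ), 𝔪.IsMaximal →
      (p : integralClosure ℤ ℂ) ∈ 𝔪 → α ∉ 𝔪 := by
  have h1 : (Ideal.span {α}).comap (algebraMap ℤ (integralClosure ℤ ℂ)) ≠ ⊥ :=
    Ideal.comap_ne_bot_of_integral_mem hα (Ideal.mem_span_singleton_self α)
      (Algebra.IsIntegral.isIntegral α)
  obtain ⟨n, hn, hn0⟩ := Submodule.exists_mem_ne_zero_of_ne_bot h1
  refine ⟨n.natAbs, fun p hp hlt 𝔪 h𝔪 hp𝔪 hα𝔪 => ?_⟩
  have hn𝔪 : ((n : ℤ) : integralClosure ℤ ℂ) ∈ 𝔪 := by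
    have h2 : algebraMap ℤ (integralClosure ℤ ℂ) n ∈ Ideal.span {α} := hn
    have h3 : Ideal.span {α} ≤ 𝔪 := by
      rw [Ideal.span_le]
      exact Set.singleton_subset_iff.mpr hα𝔪
    have h4 := h3 h2
    rwa [eq_intCast] at h4
  have hnd : ¬ (p : ℤ) ∣ n := by
    intro hd
    have := Nat.le_of_dvd (Int.natAbs_pos.mpr hn0) (Int.natCast_dvd.mp hd)
    omega
  obtain ⟨u, v, huv⟩ := ((Nat.prime_iff_prime_int.mp hp).coprime_iff_not_dvd).mpr hnd
  apply h𝔪.ne_top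
  rw [Ideal.eq_top_iff_one]
  have h2 : (1 : integralClosure ℤ ℂ) = (u : integralClosure ℤ ℂ) * (p : integralClosure ℤ ℂ) +
      (v : integralClosure ℤ ℂ) * (n : integralClosure ℤ ℂ) := by
    have := congrArg (fun z : ℤ => (z : integralClosure ℤ ℂ)) huv
    push_cast at this ⊢
    exact this.symm
  rw [h2]
  exact Ideal.add_mem _ (Ideal.mul_mem_left _ _ hp𝔪) (Ideal.mul_mem_left _ _ hn𝔪)

/-- for `p` large, a congruence modulo `p` between the `q`-th coefficient of `f` and `t` is an equality -/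
theorem exists_bound_coeff {N : ℕ} [NeZero N] {f : CuspForm (Gamma0 N) 2}
    (hf : f.IsNormalizedEigenform) (q : ℕ) (t : ℤ) : ∃ n : ℕ, ∀ p : ℕ,
    p.Prime → n < p → ∀ 𝔪 : Ideal (integralClosure ℤ ℂ), 𝔪.IsMaximal →
      (p : integralClosure ℤ ℂ) ∈ 𝔪 → ∀ a : integralClosure ℤ ℂ, q.Prime → (a : ℂ) = qCoeff f q →
        a - (t : integralClosure ℤ ℂ) ∈ 𝔪 → qCoeff f q = (t : ℂ) := by
  by_cases hq : q.Prime
  · obtain ⟨a, ha⟩ : ∃ a : integralClosure ℤ ℂ, (a : ℂ) = qCoeff f q :=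
      ⟨⟨_, H22.isIntegral_qCoeff_prime hf hq⟩, rfl⟩
    by_cases h : a - (t : integralClosure ℤ ℂ) = 0
    · refine ⟨0, fun p _ _ 𝔪 _ _ a' _ ha' _ => ?_⟩
      rw [← ha, sub_eq_zero.mp h]
      simp
    · obtain ⟨n, hn⟩ := exists_bound_of_ne_zero h
      refine ⟨n, fun p hp hlt 𝔪 h𝔪 hp𝔪 a' _ ha' hmem => ?_⟩
      have e : a' = a := Subtype.ext (ha'.trans ha.symm)
      rw [e] at hmem
      exact absurd hmem (hn p hp hlt 𝔪 h𝔪 hp𝔪)
  · exact ⟨0, fun _ _ _ _ _ _ _ hq' => absurd hq' hq⟩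

/-- **The asymptotic theorem.** -/
theorem asymptotic {N : ℕ} (hN : N ≠ 0) (B : ℕ) : ∃ C : ℕ, ∀ p : ℕ, p.Prime → C < p →
    ∀ W : WeierstrassCurve ℤ, W.Δ ≠ 0 → W.IsSemistableModel → Pw p N W.Δ →
      ∃ f : CuspForm (Gamma0 N) 2, f.IsNormalizedEigenform ∧ ∀ q : ℕ, q.Prime → q ≤ B →
        ¬ q ∣ N → ¬ (q : ℤ) ∣ W.Δ ∧ qCoeff f q = (W.apOfModel q : ℂ) := by
  have : NeZero N := ⟨hN⟩
  let ι := {f : CuspForm (Gamma0 N) 2 // f.IsNormalizedEigenform} × (Finset.range (B + 1)) ×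
    (Finset.Icc (-(B + 1 : ℤ)) (B + 1))
  have hfin : Finite ι := inferInstance
  choose n hn using fun i : ι => exists_bound_coeff i.1.2 (i.2.1 : ℕ) (i.2.2 : ℤ)
  obtain ⟨M, hM⟩ := (Set.finite_range n).bddAbove
  have hM' : ∀ i : ι, n i ≤ M := fun i => hM (Set.mem_range_self i)
  refine ⟨M + B + 13, fun p hp hlt W hΔ hss hP => ?_⟩
  have : Fact p.Prime := ⟨hp⟩
  have hirr : W.ModRepIsIrreducible p := Mazur.modRep_irreducible hΔ hss hp (by omega) (by omega)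
  obtain ⟨f, 𝔪, hf, h𝔪, hp𝔪, hgood, hmult⟩ :=
    H11.exists_form hΔ hss hirr hN (rm_of_pw hp (by omega) hΔ hss hirr hN hP)
  refine ⟨f, hf, fun q hq hqB hqN => ?_⟩
  have hqp : q ≠ p := by omega
  have key : ∀ t : ℤ, -(B + 1 : ℤ) ≤ t → t ≤ B + 1 → ∀ a : integralClosure ℤ ℂ,
      (a : ℂ) = qCoeff f q → a - (t : integralClosure ℤ ℂ) ∈ 𝔪 → qCoeff f q = (t : ℂ) := by
    intro t h1 h2 a ha hmem
    let i : ι := ⟨⟨f, hf⟩, ⟨q, Finset.mem_range.mpr (by omega)⟩, ⟨t, Finset.mem_Icc.mpr ⟨h1, h2⟩⟩⟩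
    exact hn i p hp (by have := hM' i; omega) 𝔪 h𝔪 hp𝔪 a hq ha hmem
  have hlt' := H19.norm_qCoeff_lt hf hq hqN
  have hqB' : (q : ℤ) ≤ B := by exact_mod_cast hqB
  by_cases hd : (q : ℤ) ∣ W.Δ
  · exfalso
    have hneg : ∀ t : ℤ, (t = q + 1 ∨ t = -(q + 1)) → qCoeff f q = (t : ℂ) → False := by
      intro t ht h
      rw [h, Complex.norm_intCast] at hlt'
      have h0 : (0 : ℝ) ≤ (q : ℝ) + 1 := by positivity
      rcases ht with rfl | rfl
      · push_cast at hlt'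
        rw [abs_of_nonneg h0] at hlt'
        exact lt_irrefl _ hlt'
      · push_cast at hlt'
        rw [abs_neg, abs_of_nonneg h0] at hlt'
        exact lt_irrefl _ hlt'
    obtain ⟨a, ha, h | h⟩ := hmult q hq hqN hqp hd
    · refine hneg (q + 1) (Or.inl rfl) (key (q + 1) (by omega) (by omega) a ha ?_)
      push_cast
      exact h
    · refine hneg (-(q + 1)) (Or.inr rfl) (key (-(q + 1)) (by omega) (by omega) a ha ?_)
      push_cast
      have e : a - -((q : integralClosure ℤ ℂ) + 1) = a + ((q : integralClosure ℤ ℂ) + 1) := by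
        ring
      rw [e]
      exact h
  · refine ⟨hd, ?_⟩
    obtain ⟨a, ha, h⟩ := hgood q hq hqN hqp hd
    have h4 := Bounds.apOfModel_sq_lt W hq hd
    have hq2 : (2 : ℤ) ≤ q := by exact_mod_cast hq.two_le
    refine key (W.apOfModel q) ?_ ?_ a ha h
    · nlinarith [sq_nonneg ((q : ℤ) - 1)]
    · nlinarith [sq_nonneg ((q : ℤ) - 1)]

/-! ### Levels without suitable eigenforms -/

/-- If `a_q(W) ∈ S q` for the good primes `q ∤ N`, and every normalised eigenform of level `N` has an eigenvalue `a_q`,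
`q ∤ N`, outside `S q`, the discriminant of `W` is not a `p`-th power away from `N`, for `p` large. -/
theorem asymptotic_set {N : ℕ} (hN : N ≠ 0) (S : ℕ → Set ℤ)
    (hf : ∀ f : CuspForm (Gamma0 N) 2, f.IsNormalizedEigenform → ∃ q : ℕ, q.Prime ∧ ¬ q ∣ N ∧
      ∀ a ∈ S q, qCoeff f q ≠ (a : ℂ)) : ∃ C : ℕ, ∀ p : ℕ, p.Prime → C < p →
    ∀ W : WeierstrassCurve ℤ, W.Δ ≠ 0 → W.IsSemistableModel →
      (∀ q : ℕ, q.Prime → ¬ q ∣ N → ¬ (q : ℤ) ∣ W.Δ → W.apOfModel q ∈ S q) → ¬ Pw p N W.Δ := by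
  have : NeZero N := ⟨hN⟩
  let ι := {f : CuspForm (Gamma0 N) 2 // f.IsNormalizedEigenform}
  have hfin : Finite ι := inferInstance
  choose q hq using fun i : ι => hf i.1 i.2
  obtain ⟨B, hB⟩ := (Set.finite_range q).bddAbove
  obtain ⟨C, hC⟩ := asymptotic hN B
  refine ⟨C, fun p hp hlt W hΔ hss hS hP => ?_⟩
  obtain ⟨f, hf, h⟩ := hC p hp hlt W hΔ hss hP
  obtain ⟨h1, h2, h3⟩ := hq ⟨f, hf⟩
  obtain ⟨h4, h5⟩ := h _ h1 (hB (Set.mem_range_self (⟨f, hf⟩ : ι))) h2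
  exact h3 _ (hS _ h1 h2 h4) h5

/-- If every normalised eigenform of level `N` has a non-integral eigenvalue, there is no semistable elliptic curve whose
discriminant is a `p`-th power away from `N`, for `p` large. -/
theorem asymptotic_int {N : ℕ} (hN : N ≠ 0)
    (hf : ∀ f : CuspForm (Gamma0 N) 2, f.IsNormalizedEigenform → ∃ q : ℕ, q.Prime ∧ ¬ q ∣ N ∧
      ∀ a : ℤ, qCoeff f q ≠ (a : ℂ)) : ∃ C : ℕ, ∀ p : ℕ, p.Prime → C < p →
    ∀ W : WeierstrassCurve ℤ, W.Δ ≠ 0 → W.IsSemistableModel → ¬ Pw p N W.Δ := by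
  obtain ⟨C, hC⟩ := asymptotic_set hN (fun _ => Set.univ) fun f h => by
    obtain ⟨q, h1, h2, h3⟩ := hf f h
    exact ⟨q, h1, h2, fun a _ => h3 a⟩
  exact ⟨C, fun p hp hlt W hΔ hss => hC p hp hlt W hΔ hss fun _ _ _ _ => Set.mem_univ _⟩

/-- **Signature `(2, 3, p)`, `p` large, for a level without integral eigenforms** -/
theorem asymptotic_23p {N : ℕ} (hN : N ≠ 0)
    (hf : ∀ f : CuspForm (Gamma0 N) 2, f.IsNormalizedEigenform → ∃ q : ℕ, q.Prime ∧ ¬ q ∣ N ∧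
      ∀ a : ℤ, qCoeff f q ≠ (a : ℂ)) : ∃ C : ℕ, ∀ p : ℕ, p.Prime → C < p →
    ∀ A u v w : ℤ, Supp N A → A * w ≠ 0 → IsCoprime u v → u ^ 3 - v ^ 2 ≠ 1728 * (A * w ^ p) := by
  obtain ⟨C, hC⟩ := asymptotic_int hN hf
  refine ⟨C, fun p hp hlt A u v w hA h0 hcop h => ?_⟩
  obtain ⟨W, hΔ, hss⟩ := curve_23p h hcop
  have hw : w ^ p ≠ 0 := pow_ne_zero _ (right_ne_zero_of_mul h0)
  refine hC p hp hlt W ?_ hss ?_
  · rw [hΔ]
    exact mul_ne_zero (left_ne_zero_of_mul h0) hw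
  · rw [hΔ]
    exact (pw_of_supp hA).mul (pw_pow p N w) (left_ne_zero_of_mul h0) hw

/-- **`x ^ 3 - y ^ 2 = 1728 A z ^ p` has no coprime solution, `z ≠ 0`, for `p` large, if the prime factors of `A` are
all `23`, or all `29`.** -/
theorem cube_sub_sq_asymptotic {L : ℕ} (hL : L = 23 ∨ L = 29) : ∃ C : ℕ, ∀ p : ℕ, p.Prime →
    C < p → ∀ A u v w : ℤ, Supp L A → A * w ≠ 0 → IsCoprime u v →
      u ^ 3 - v ^ 2 ≠ 1728 * (A * w ^ p) := by
  rcases hL with rfl | rfl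
  · exact asymptotic_23p (by norm_num) fun f hf =>
      ⟨2, by norm_num, by norm_num, Conductor23.coeff_two_ne_23 hf⟩
  · exact asymptotic_23p (by norm_num) fun f hf =>
      ⟨2, by norm_num, by norm_num, Conductor23.coeff_two_ne_29 hf⟩

/-! ### Rational points of order `2` and `3` -/

theorem apOfModel_eq {W : WeierstrassCurve ℤ} {q : ℕ} :
    W.apOfModel q = q + 1 - ((W.reductionMod q).card : ℤ) := by
  simp only [apOfModel, traceOfFrobenius, Nat.card_zmod]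

/-- `q + 1 - a_q` is even for a curve with a rational point of order `2` -/
theorem two_dvd_ap {k Y : ℤ} {q : ℕ} (hq : q.Prime)
    (h : ¬ (q : ℤ) ∣ (⟨1, k, 0, Y, 0⟩ : WeierstrassCurve ℤ).Δ) :
    (2 : ℤ) ∣ q + 1 - (⟨1, k, 0, Y, 0⟩ : WeierstrassCurve ℤ).apOfModel q := by
  have : Fact q.Prime := ⟨hq⟩
  have hA : ((⟨1, k, 0, Y, 0⟩ : WeierstrassCurve ℤ).reductionMod q).toAffine.Nonsingular 0 0 :=
    nonsingular_of h (by simp)
  have h1 : Affine.Point.some _ _ hA + Affine.Point.some _ _ hA = 0 := by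
    refine add_eq_zero hA hA ?_
    simp [reductionMod]
  have h2 : 2 ∣ ((⟨1, k, 0, Y, 0⟩ : WeierstrassCurve ℤ).reductionMod q).card :=
    dvd_card_of_addOrderOf (Affine.Point.some _ _ hA)
      (addOrderOf_eq_prime (p := 2) (by rw [two_nsmul, h1]) (Affine.Point.some_ne_zero _))
  rw [apOfModel_eq]
  have h3 := Int.natCast_dvd_natCast.mpr h2
  push_cast at h3
  rwa [sub_sub_cancel]

/-- `q + 1 - a_q` is divisible by `3` for a curve with a rational point of order `3` -/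
theorem three_dvd_ap {z Y : ℤ} {q : ℕ} (hq : q.Prime)
    (h : ¬ (q : ℤ) ∣ (⟨z, 0, Y, 0, 0⟩ : WeierstrassCurve ℤ).Δ) :
    (3 : ℤ) ∣ q + 1 - (⟨z, 0, Y, 0, 0⟩ : WeierstrassCurve ℤ).apOfModel q := by
  have : Fact q.Prime := ⟨hq⟩
  have hY : (Y : ZMod q) ≠ 0 := by
    intro h0
    refine cast_Δ_ne h ?_
    simp only [WeierstrassCurve.Δ, b₂, b₄, b₆, b₈]
    push_cast
    rw [h0]
    ring
  have hA : ((⟨z, 0, Y, 0, 0⟩ : WeierstrassCurve ℤ).reductionMod q).toAffine.Nonsingular 0 0 :=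
    nonsingular_of h (by simp)
  have hB : ((⟨z, 0, Y, 0, 0⟩ : WeierstrassCurve ℤ).reductionMod q).toAffine.Nonsingular 0
      (-(Y : ZMod q)) :=
    nonsingular_of h (by simp; ring)
  have h1 : Affine.Point.some _ _ hA + Affine.Point.some _ _ hA = Affine.Point.some _ _ hB := by
    refine add_self_eq hA hB 0 ?_ ?_ ?_ ?_ <;> simp [reductionMod, hY]
  have h2 : Affine.Point.some _ _ hA + Affine.Point.some _ _ hB = 0 := by
    refine add_eq_zero hA hB ?_
    simp [reductionMod]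
  have h3 : 3 ∣ ((⟨z, 0, Y, 0, 0⟩ : WeierstrassCurve ℤ).reductionMod q).card :=
    dvd_card_of_addOrderOf (Affine.Point.some _ _ hA)
      (addOrderOf_eq_three h1 h2 (Affine.Point.some_ne_zero _))
  rw [apOfModel_eq]
  have h4 := Int.natCast_dvd_natCast.mpr h3
  push_cast at h4
  rwa [sub_sub_cancel]

/-- **Signature `(p, p, 2)`, `p` large.** Let `N` be even, such that every normalised eigenform of level `N` has an
eigenvalue `a_q`, `q ∤ N`, which is not an even integer. Then `A x ^ p + 64 B y ^ p` is not the square of an odd integer,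
if the prime factors of `A` and `B` divide `N` and `A x`, `B y` are coprime, for `p` large. -/
theorem asymptotic_pp2 {N : ℕ} (hN : N ≠ 0) (h2N : 2 ∣ N)
    (hf : ∀ f : CuspForm (Gamma0 N) 2, f.IsNormalizedEigenform → ∃ q : ℕ, q.Prime ∧ ¬ q ∣ N ∧
      ∀ a : ℤ, qCoeff f q ≠ 2 * (a : ℂ)) : ∃ C : ℕ, ∀ p : ℕ, p.Prime → C < p →
    ∀ A B x y z : ℤ, Supp N A → Supp N B → A * B * x * y ≠ 0 → IsCoprime (A * x) (B * y) →
      Odd z → A * x ^ p + 64 * (B * y ^ p) ≠ z ^ 2 := by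
  obtain ⟨C, hC⟩ := asymptotic_set hN (fun _ => {a : ℤ | (2 : ℤ) ∣ a}) fun f h => by
    obtain ⟨q, h1, h2, h3⟩ := hf f h
    refine ⟨q, h1, h2, ?_⟩
    rintro a ⟨b, rfl⟩
    have := h3 b
    push_cast
    exact this
  refine ⟨C, fun p hp hlt A B x y z hA hB h0 hcop hz h => ?_⟩
  have hy : y ≠ 0 := right_ne_zero_of_mul h0
  have hx : x ≠ 0 := right_ne_zero_of_mul (left_ne_zero_of_mul h0)
  have hB0 : B ≠ 0 := right_ne_zero_of_mul (left_ne_zero_of_mul (left_ne_zero_of_mul h0))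
  have hA0 : A ≠ 0 := left_ne_zero_of_mul (left_ne_zero_of_mul (left_ne_zero_of_mul h0))
  have hX : A * x ^ p ≠ 0 := mul_ne_zero hA0 (pow_ne_zero _ hx)
  have hY : B * y ^ p ≠ 0 := mul_ne_zero hB0 (pow_ne_zero _ hy)
  have hPX : Pw p N (A * x ^ p) := (pw_of_supp hA).mul (pw_pow p _ x) hA0 (pow_ne_zero _ hx)
  have hPY : Pw p N (B * y ^ p) := (pw_of_supp hB).mul (pw_pow p _ y) hB0 (pow_ne_zero _ hy)
  obtain ⟨k, hΔ, hss⟩ := curve_pp2_form h.symm hz (cop_pow hcop p)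
  refine hC p hp hlt _ ?_ hss (fun q hq hqN hqΔ => ?_) ?_
  · rw [hΔ]
    exact mul_ne_zero hX (pow_ne_zero 2 hY)
  · have h5 := two_dvd_ap hq hqΔ
    have h6 : q % 2 = 1 := by
      rcases hq.eq_two_or_odd with h7 | h7
      · exact absurd (h7 ▸ h2N) hqN
      · exact h7
    change (2 : ℤ) ∣ _
    omega
  · rw [hΔ]
    exact hPX.mul (hPY.pow 2) hX (pow_ne_zero 2 hY)

/-- **Signature `(p, p, 3)`, `p` large.** Suppose that every normalised eigenform of level `N` has an eigenvalue `a_q`,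
`q ∤ N`, which is not an integer congruent to `q + 1` modulo `3`. Then `A x ^ p + 27 B y ^ p` is not a cube, if the prime
factors of `A` and `B` divide `N`, `A x` and `B y` are coprime and `3 ∤ A x`, for `p` large. -/
theorem asymptotic_pp3 {N : ℕ} (hN : N ≠ 0)
    (hf : ∀ f : CuspForm (Gamma0 N) 2, f.IsNormalizedEigenform → ∃ q : ℕ, q.Prime ∧ ¬ q ∣ N ∧
      ∀ a : ℤ, (3 : ℤ) ∣ q + 1 - a → qCoeff f q ≠ (a : ℂ)) : ∃ C : ℕ, ∀ p : ℕ, p.Prime → C < p →
    ∀ A B x y z : ℤ, Supp N A → Supp N B → A * B * x * y ≠ 0 → IsCoprime (A * x) (B * y) →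
      ¬ (3 : ℤ) ∣ A * x → A * x ^ p + 27 * (B * y ^ p) ≠ z ^ 3 := by
  obtain ⟨C, hC⟩ := asymptotic_set hN (fun q => {a : ℤ | (3 : ℤ) ∣ q + 1 - a}) hf
  refine ⟨C, fun p hp hlt A B x y z hA hB h0 hcop h3 h => ?_⟩
  have hy : y ≠ 0 := right_ne_zero_of_mul h0
  have hx : x ≠ 0 := right_ne_zero_of_mul (left_ne_zero_of_mul h0)
  have hB0 : B ≠ 0 := right_ne_zero_of_mul (left_ne_zero_of_mul (left_ne_zero_of_mul h0))
  have hA0 : A ≠ 0 := left_ne_zero_of_mul (left_ne_zero_of_mul (left_ne_zero_of_mul h0))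
  have hX : A * x ^ p ≠ 0 := mul_ne_zero hA0 (pow_ne_zero _ hx)
  have hY : B * y ^ p ≠ 0 := mul_ne_zero hB0 (pow_ne_zero _ hy)
  have hPX : Pw p N (A * x ^ p) := (pw_of_supp hA).mul (pw_pow p _ x) hA0 (pow_ne_zero _ hx)
  have hPY : Pw p N (B * y ^ p) := (pw_of_supp hB).mul (pw_pow p _ y) hB0 (pow_ne_zero _ hy)
  have h3' : ¬ (3 : ℤ) ∣ A * x ^ p := by
    intro hd
    rcases Int.prime_three.dvd_or_dvd hd with hd | hd
    · exact h3 (Dvd.dvd.mul_right hd _)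
    · exact h3 (Dvd.dvd.mul_left (Int.prime_three.dvd_of_dvd_pow hd) _)
  obtain ⟨hΔ, hss⟩ := curve_pp3_form h.symm h3' (cop_pow hcop p)
  refine hC p hp hlt _ ?_ hss (fun q hq hqN hqΔ => three_dvd_ap hq hqΔ) ?_
  · rw [hΔ]
    exact mul_ne_zero hX (pow_ne_zero 3 hY)
  · rw [hΔ]
    exact hPX.mul (hPY.pow 3) hX (pow_ne_zero 3 hY)

end Fermat.Agent.Cor.H22G
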