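import Fermat.Agent.Cor.H22TorsFam

/-!
# Signature `(p, p, 3)`: the levels `11`, `15`, `17`, `21`, `22`, `33`

`A x ^ p + 27 B y ^ p` is not a cube for primes `p ≥ 11`, `p ≠ 13`, if `3 ∤ A x`, `A x` and `B y` are coprime and the
prime factors of `A`, `B` divide `N = 11, 15, 17, 21, 22, 33` (`twentyseven_cube_level`): the eigenvalues `a₂` (`a₃` for
`N = 22`) of the eigenforms of level `N` are integers which are not congruent to `q + 1` modulo `3`. For example
(`cube_sub_ne_pow`) `z ^ 3 ± 27 L ^ b` is not a `p`-th power for `L = 11, 17` and `z` prime to `3 L`.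

This file is not used by any of the statement files.
-/

set_option autoImplicit false

namespace Fermat.Agent.Cor.H22G

open ModularCurve ModularFormClass CongruenceSubgroup WeierstrassCurve
open Fermat.Agent.Cor.EigenTable

/-- the eigenforms excluded by a rational point of order `3` -/
def Not3 {N : ℕ} (f : CuspForm (Gamma0 N) 2) : Prop :=
  (∃ c : ℤ, ¬ 2 ∣ N ∧ qCoeff f 2 = (c : ℂ) ∧ ¬ (3 : ℤ) ∣ 3 - c ∧ c.natAbs ≤ 2) ∨
  (∃ c : ℤ, ¬ 3 ∣ N ∧ qCoeff f 3 = (c : ℂ) ∧ ¬ (3 : ℤ) ∣ 4 - c ∧ c.natAbs ≤ 3)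

theorem false_of_pp3_not3 {p N : ℕ} [NeZero N] (hp : p.Prime) (hp11 : 11 ≤ p) (hp13 : p ≠ 13)
    (hN : ∀ f : CuspForm (Gamma0 N) 2, f.IsNormalizedEigenform → Not3 f) {X Y z : ℤ}
    (hz : z ^ 3 = X + 27 * Y) (h3 : ¬ (3 : ℤ) ∣ X) (hcop : IsCoprime X Y) (hX : X ≠ 0)
    (hY : Y ≠ 0) (hPX : Pw p N X) (hPY : Pw p N Y) : False := by
  obtain ⟨hΔ, hss⟩ := curve_pp3_form hz h3 hcop
  set W : WeierstrassCurve ℤ := ⟨z, 0, Y, 0, 0⟩ with hW
  have hΔ0 : W.Δ ≠ 0 := by
    rw [hΔ]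
    exact mul_ne_zero hX (pow_ne_zero 3 hY)
  have hI : W.ModRepIsIrreducible p := irrAll hp hp11 hp13 _ hΔ0 _ rfl hss
  obtain ⟨f, 𝔪, hf, h𝔪, hp𝔪, hres⟩ := rm_of_pw hp (by omega) hΔ0 hss hI (NeZero.ne N)
    (by rw [hΔ]; exact hPX.mul (hPY.pow 3) hX (pow_ne_zero 3 hY))
  rcases hN f hf with ⟨c, h2N, hc, hc2, hc3⟩ | ⟨c, h3N, hc, hc2, hc3⟩
  · rcases exists_trace hp (by omega) hΔ0 hss hI hf h𝔪 hp𝔪 hres Nat.prime_two h2N (by omega) hc
      with ⟨hg, h⟩ | h | h
    · have h4 := three_dvd_ap (z := z) (Y := Y) Nat.prime_two hg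
      have h5 := Bounds.apOfModel_sq_lt W Nat.prime_two hg
      rw [← hW] at h4
      push_cast at h4 h5
      have h6 : W.apOfModel 2 < 3 := by nlinarith
      have h7 : -3 < W.apOfModel 2 := by nlinarith
      exact not_dvd_of_lt (by omega) (by omega) h
    · exact not_dvd_of_lt (by push_cast; omega) (by push_cast; omega) h
    · exact not_dvd_of_lt (by push_cast; omega) (by push_cast; omega) h
  · rcases exists_trace hp (by omega) hΔ0 hss hI hf h𝔪 hp𝔪 hres Nat.prime_three h3N (by omega) hc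
      with ⟨hg, h⟩ | h | h
    · have h4 := three_dvd_ap (z := z) (Y := Y) Nat.prime_three hg
      have h5 := Bounds.apOfModel_sq_lt W Nat.prime_three hg
      rw [← hW] at h4
      push_cast at h4 h5
      have h6 : W.apOfModel 3 < 4 := by nlinarith
      have h7 : -4 < W.apOfModel 3 := by nlinarith
      exact not_dvd_of_lt (by omega) (by omega) h
    · exact not_dvd_of_lt (by push_cast; omega) (by push_cast; omega) h
    · exact not_dvd_of_lt (by push_cast; omega) (by push_cast; omega) h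

section

variable {p : ℕ} (hp : p.Prime) (hp11 : 11 ≤ p) (hp13 : p ≠ 13)

include hp hp11 hp13

/-- **`A x ^ p + 27 B y ^ p = z ^ 3`** at the levels `11`, `15`, `17`, `21`, `22`, `33` -/
theorem twentyseven_cube_level {N : ℕ} (hN : N ∈ ({11, 15, 17, 21, 22, 33} : Finset ℕ))
    {A B x y z : ℤ} (hA : Supp N A) (hB : Supp N B) (h0 : A * B * x * y ≠ 0)
    (h3 : ¬ (3 : ℤ) ∣ A * x) (hcop : IsCoprime (A * x) (B * y)) :
    A * x ^ p + 27 * (B * y ^ p) ≠ z ^ 3 := by
  intro h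
  have hy : y ≠ 0 := right_ne_zero_of_mul h0
  have hx : x ≠ 0 := right_ne_zero_of_mul (left_ne_zero_of_mul h0)
  have hB0 : B ≠ 0 := right_ne_zero_of_mul (left_ne_zero_of_mul (left_ne_zero_of_mul h0))
  have hA0 : A ≠ 0 := left_ne_zero_of_mul (left_ne_zero_of_mul (left_ne_zero_of_mul h0))
  have hX : A * x ^ p ≠ 0 := mul_ne_zero hA0 (pow_ne_zero _ hx)
  have hY : B * y ^ p ≠ 0 := mul_ne_zero hB0 (pow_ne_zero _ hy)
  have hPX : Pw p N (A * x ^ p) := (pw_of_supp hA).mul (pw_pow p _ x) hA0 (pow_ne_zero _ hx)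
  have hPY : Pw p N (B * y ^ p) := (pw_of_supp hB).mul (pw_pow p _ y) hB0 (pow_ne_zero _ hy)
  have h3' : ¬ (3 : ℤ) ∣ A * x ^ p := by
    intro hd
    rcases Int.prime_three.dvd_or_dvd hd with hd | hd
    · exact h3 (Dvd.dvd.mul_right hd _)
    · exact h3 (Dvd.dvd.mul_left (Int.prime_three.dvd_of_dvd_pow hd) _)
  simp only [Finset.mem_insert, Finset.mem_singleton] at hN
  rcases hN with rfl | rfl | rfl | rfl | rfl | rfl
  · exact false_of_pp3_not3 hp hp11 hp13 (fun f hf => Or.inl ⟨-2, by norm_num, by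
      rw [a2_eleven hf]; norm_num, by norm_num, by norm_num⟩) h.symm h3' (cop_pow hcop p) hX hY hPX
      hPY
  · exact false_of_pp3_not3 hp hp11 hp13 (fun f hf => Or.inl ⟨-1, by norm_num, by
      rw [a2_fifteen hf]; norm_num, by norm_num, by norm_num⟩) h.symm h3' (cop_pow hcop p) hX hY
      hPX hPY
  · exact false_of_pp3_not3 hp hp11 hp13 (fun f hf => Or.inl ⟨-1, by norm_num, by
      rw [a2_seventeen hf]; norm_num, by norm_num, by norm_num⟩) h.symm h3' (cop_pow hcop p) hX hY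
      hPX hPY
  · exact false_of_pp3_not3 hp hp11 hp13 (fun f hf => Or.inl ⟨-1, by norm_num, by
      rw [a2_twentyone hf]; norm_num, by norm_num, by norm_num⟩) h.symm h3' (cop_pow hcop p) hX hY
      hPX hPY
  · exact false_of_pp3_not3 hp hp11 hp13 (fun f hf => Or.inr ⟨-1, by norm_num, by
      rw [a3_twentytwo hf]; norm_num, by norm_num, by norm_num⟩) h.symm h3' (cop_pow hcop p) hX hY
      hPX hPY
  · refine false_of_pp3_not3 hp hp11 hp13 (fun f hf => Or.inl ?_) h.symm h3' (cop_pow hcop p) hX hY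
      hPX hPY
    rcases a2_thirtythree hf with h | h
    · exact ⟨-2, by norm_num, by rw [h]; norm_num, by norm_num, by norm_num⟩
    · exact ⟨1, by norm_num, by rw [h]; norm_num, by norm_num, by norm_num⟩

/-- `z ^ 3 - 27 B` is not a `p`-th power, if the prime factors of `B` divide `N = 11, 15, 17, 21, 22, 33` and `z` is
prime to `3 B` -/
theorem cube_sub_ne_pow {N : ℕ} (hN : N ∈ ({11, 15, 17, 21, 22, 33} : Finset ℕ)) {B x z : ℤ}
    (hB : Supp N B) (hB0 : B ≠ 0) (h3 : ¬ (3 : ℤ) ∣ z) (hcop : IsCoprime z B) (hx : x ≠ 0) :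
    z ^ 3 - 27 * B ≠ x ^ p := by
  intro h
  have h3x : ¬ (3 : ℤ) ∣ x := by
    intro hd
    apply h3
    refine Int.prime_three.dvd_of_dvd_pow (n := 3) ?_
    have e : z ^ 3 = x ^ p + 3 * (9 * B) := by linear_combination h
    rw [e]
    exact dvd_add (dvd_pow hd hp.ne_zero) (dvd_mul_right _ _)
  have hcx : IsCoprime x B := by
    have h1 : IsCoprime (z ^ 3) B := hcop.pow_left
    have h2 : IsCoprime (x ^ p) B := by
      rw [← h, sub_eq_add_neg, show -(27 * B) = (-27) * B by ring]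
      exact IsCoprime.add_mul_right_left h1 (-27)
    exact (IsCoprime.pow_left_iff hp.pos).mp h2
  refine twentyseven_cube_level hp hp11 hp13 hN (A := 1) (B := B) (x := x) (y := 1) (z := z)
    (supp_one N) hB (by simp [hB0, hx]) (by simpa using h3x) (by simpa using hcx) ?_
  rw [one_pow, one_mul, mul_one]
  linear_combination -h

end

end Fermat.Agent.Cor.H22G
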