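import Fermat.Agent.Cor.H22Asymp
import Fermat.Agent.Cor.Shimura

/-!
# An effective form of the asymptotic theorem (Kraus)

Let `N ≥ 1`, `g` the genus of `X₀(N)` and `p ≥ 11`, `p ≠ 13` a prime. For every semistable elliptic curve `W` over `ℚ`
whose minimal discriminant is a `p`-th power away from `N` there is a normalised eigenform `f` of level `N` such that
`W` has good reduction at `q` and `a_q(W) = a_q(f)` for all primes `q ∤ N` with `(2 (q + 1)) ^ g ≤ p` (`effective`).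

The proof uses the norm of `a_q(f) - t` from the field of coefficients of `f`, whose degree is at most `g`
(`lt_of_congr`).

* `cube_sub_sq_effective`: `u ^ 3 - v ^ 2 ≠ 1728 A w ^ p` for `p ≥ 37`, if `u`, `v` are coprime and the prime
  factors of `A` are all `23`, or all `29`.

This file is not used by any of the statement files.
-/

set_option autoImplicit false

namespace Fermat.Agent.Cor.H22G

open ModularCurve ModularFormClass CongruenceSubgroup WeierstrassCurve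
open Fermat.Agent.Cor.Shimura

/-- **The norm of `a_q(f) - t`** is divisible by `p` if `a_q(f) ≡ t` modulo a prime above `p`. -/
theorem lt_of_congr {N : ℕ} [NeZero N] {f : CuspForm (Gamma0 N) 2}
    (hf : f.IsNormalizedEigenform) {q : ℕ} (hq : q.Prime) (hqN : ¬ q ∣ N) {t : ℤ}
    (ht : t.natAbs ≤ q + 1) {p : ℕ} (hp : p.Prime) {𝔪 : Ideal (integralClosure ℤ ℂ)}
    (h𝔪 : 𝔪.IsMaximal) (hp𝔪 : (p : integralClosure ℤ ℂ) ∈ 𝔪) {a : integralClosure ℤ ℂ}
    (ha : (a : ℂ) = qCoeff f q) (hmem : a - (t : integralClosure ℤ ℂ) ∈ 𝔪)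
    (hne : qCoeff f q ≠ (t : ℂ)) {g : ℕ} (hg : genusFormula N ≤ g) : p < (2 * (q + 1)) ^ g := by
  have hfd : FiniteDimensional ℚ (coeffField f) := finiteDimensional hf
  set x : coeffField f := ⟨qCoeff f q, qCoeff_mem f q⟩ - (t : coeffField f) with hx
  have hx0 : x ≠ 0 := by
    intro h0
    apply hne
    have h1 := congrArg (fun z : coeffField f => (z : ℂ)) h0
    simp only [hx] at h1
    push_cast at h1
    exact sub_eq_zero.mp h1
  have hσ : ∀ σ : coeffField f →ₐ[ℚ] ℂ, IsIntegral ℤ (σ x) ∧ ‖σ x‖ < 2 * (q + 1) := by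
    intro σ
    obtain ⟨G, hG, h⟩ := exists_conj hf (qCoeff_mem f) (σ : coeffField f →+* ℂ)
    have e : σ x = qCoeff G q - (t : ℂ) := by
      rw [hx, map_sub, map_intCast, h q]
      rfl
    rw [e]
    refine ⟨(isIntegral_qCoeff hG q).sub (isIntegral_algebraMap (R := ℤ) (x := t)), ?_⟩
    have h1 := H19.norm_qCoeff_lt hG hq hqN
    have h2 : ‖(t : ℂ)‖ ≤ q + 1 := by
      rw [Complex.norm_intCast, ← Int.cast_abs, ← Int.natCast_natAbs]
      exact_mod_cast ht
    calc ‖qCoeff G q - (t : ℂ)‖ ≤ ‖qCoeff G q‖ + ‖(t : ℂ)‖ := norm_sub_le _ _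
      _ < (q + 1) + (q + 1) := add_lt_add_of_lt_of_le h1 h2
      _ = 2 * (q + 1) := by ring
  have hnorm : algebraMap ℚ ℂ (Algebra.norm ℚ x) = ∏ σ : coeffField f →ₐ[ℚ] ℂ, σ x :=
    Algebra.norm_eq_prod_embeddings ℚ ℂ x
  have hint : IsIntegral ℤ (algebraMap ℚ ℂ (Algebra.norm ℚ x)) := by
    rw [hnorm]
    exact IsIntegral.prod _ fun σ _ => (hσ σ).1
  obtain ⟨n, hn⟩ := IsIntegrallyClosed.isIntegral_iff.mp
    ((isIntegral_algebraMap_iff (algebraMap ℚ ℂ).injective).mp hint)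
  have hn' : (n : ℂ) = ∏ σ : coeffField f →ₐ[ℚ] ℂ, σ x := by
    rw [← hnorm, ← hn]
    simp
  have hn0 : n ≠ 0 := by
    rintro rfl
    rw [Int.cast_zero] at hn'
    obtain ⟨σ, -, h⟩ := Finset.prod_eq_zero_iff.mp hn'.symm
    exact hx0 ((map_eq_zero σ).mp h)
  -- `n` is in `𝔪`
  have hn𝔪 : (n : integralClosure ℤ ℂ) ∈ 𝔪 := by
    have e : (n : integralClosure ℤ ℂ) =
        ∏ σ : coeffField f →ₐ[ℚ] ℂ, (⟨σ x, (hσ σ).1⟩ : integralClosure ℤ ℂ) := by
      apply Subtype.ext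
      push_cast
      exact hn'
    obtain ⟨ι, hι⟩ : ∃ ι : coeffField f →ₐ[ℚ] ℂ, ∀ y, ι y = (y : ℂ) :=
      ⟨((coeffField f).val : coeffField f →+* ℂ).toRatAlgHom, fun _ => rfl⟩
    have e2 : (⟨ι x, (hσ ι).1⟩ : integralClosure ℤ ℂ) = a - (t : integralClosure ℤ ℂ) := by
      apply Subtype.ext
      push_cast
      rw [ha, hι]
      simp [hx]
    rw [e]
    refine Ideal.mem_of_dvd _ (Finset.dvd_prod_of_mem _ (Finset.mem_univ ι)) ?_
    rw [e2]
    exact hmem
  have hpn : (p : ℤ) ∣ n := by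
    by_contra hnd
    obtain ⟨u, v, huv⟩ := ((Nat.prime_iff_prime_int.mp hp).coprime_iff_not_dvd).mpr hnd
    apply h𝔪.ne_top
    rw [Ideal.eq_top_iff_one]
    have h2 : (1 : integralClosure ℤ ℂ) = (u : integralClosure ℤ ℂ) * (p : integralClosure ℤ ℂ) +
        (v : integralClosure ℤ ℂ) * (n : integralClosure ℤ ℂ) := by
      have := congrArg (fun z : ℤ => (z : integralClosure ℤ ℂ)) huv
      push_cast at this ⊢
      exact this.symm
    rw [h2]
    exact Ideal.add_mem _ (Ideal.mul_mem_left _ _ hp𝔪) (Ideal.mul_mem_left _ _ hn𝔪)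
  have h1 : p ≤ n.natAbs := Nat.le_of_dvd (Int.natAbs_pos.mpr hn0) (Int.natCast_dvd.mp hpn)
  have hne' : Nonempty (coeffField f →ₐ[ℚ] ℂ) := ⟨(coeffField f).val⟩
  have h2 : ‖(n : ℂ)‖ < (2 * ((q : ℝ) + 1)) ^ Module.finrank ℚ (coeffField f) := by
    rw [hn', norm_prod, ← AlgHom.card ℚ (coeffField f) ℂ, ← Finset.card_univ,
      ← Finset.prod_const]
    refine Finset.prod_lt_prod_of_nonempty (fun σ _ => ?_) (fun σ _ => (hσ σ).2)
      Finset.univ_nonempty
    rw [norm_pos_iff]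
    intro h0
    exact hx0 ((map_eq_zero σ).mp h0)
  have h3 : Module.finrank ℚ (coeffField f) ≤ g := by
    have := (finrank_le hf).trans hg
    exact_mod_cast this
  have h4 : (2 * ((q : ℝ) + 1)) ^ Module.finrank ℚ (coeffField f) ≤ (2 * ((q : ℝ) + 1)) ^ g := by
    refine pow_le_pow_right₀ ?_ h3
    have : (0 : ℝ) ≤ q := Nat.cast_nonneg q
    linarith
  rw [Complex.norm_intCast, ← Int.cast_abs, ← Int.natCast_natAbs] at h2
  have h5 : (n.natAbs : ℝ) < (2 * ((q : ℝ) + 1)) ^ g := by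
    refine lt_of_lt_of_le ?_ h4
    exact_mod_cast h2
  have h6 : n.natAbs < (2 * (q + 1)) ^ g := by exact_mod_cast h5
  omega

/-- **The effective asymptotic theorem.** -/
theorem effective {N : ℕ} [NeZero N] {g : ℕ} (hg : genusFormula N ≤ g) {p : ℕ} (hp : p.Prime)
    (hp11 : 11 ≤ p) (hp13 : p ≠ 13) {W : WeierstrassCurve ℤ} (hΔ : W.Δ ≠ 0)
    (hss : W.IsSemistableModel) (hP : Pw p N W.Δ) :
    ∃ f : CuspForm (Gamma0 N) 2, f.IsNormalizedEigenform ∧ ∀ q : ℕ, q.Prime → ¬ q ∣ N →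
      (2 * (q + 1)) ^ g ≤ p → ¬ (q : ℤ) ∣ W.Δ ∧ qCoeff f q = (W.apOfModel q : ℂ) := by
  have : Fact p.Prime := ⟨hp⟩
  have hirr : W.ModRepIsIrreducible p := irrAll hp hp11 hp13 _ hΔ _ rfl hss
  obtain ⟨f, 𝔪, hf, h𝔪, hp𝔪, hgood, hmult⟩ :=
    H11.exists_form hΔ hss hirr (NeZero.ne N) (rm_of_pw hp (by omega) hΔ hss hirr (NeZero.ne N) hP)
  have hfd : FiniteDimensional ℚ (coeffField f) := finiteDimensional hf
  have hg0 : g ≠ 0 := by
    rintro rfl
    have h1 := (finrank_le hf).trans hg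
    have h2 : 0 < Module.finrank ℚ (coeffField f) := Module.finrank_pos
    have h3 : Module.finrank ℚ (coeffField f) ≤ 0 := by exact_mod_cast h1
    omega
  refine ⟨f, hf, fun q hq hqN hle => ?_⟩
  have hqp : q ≠ p := by
    rintro rfl
    have h1 : 2 * (q + 1) ≤ (2 * (q + 1)) ^ g := Nat.le_self_pow hg0 _
    omega
  have key : ∀ t : ℤ, t.natAbs ≤ q + 1 → ∀ a : integralClosure ℤ ℂ, (a : ℂ) = qCoeff f q →
      a - (t : integralClosure ℤ ℂ) ∈ 𝔪 → qCoeff f q = (t : ℂ) := by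
    intro t ht a ha hmem
    by_contra hne
    have := lt_of_congr hf hq hqN ht hp h𝔪 hp𝔪 ha hmem hne hg
    omega
  have hlt' := H19.norm_qCoeff_lt hf hq hqN
  by_cases hd : (q : ℤ) ∣ W.Δ
  · exfalso
    have hneg : ∀ t : ℤ, (t = q + 1 ∨ t = -(q + 1)) → qCoeff f q = (t : ℂ) → False := by
      intro t ht h
      rw [h, Complex.norm_intCast] at hlt'
      have h0 : (0 : ℝ) ≤ (q : ℝ) + 1 := by positivity
      rcases ht with rfl | rfl
      · push_cast at hlt'
        rw [abs_of_nonneg h0] at hlt'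
        exact lt_irrefl _ hlt'
      · push_cast at hlt'
        rw [abs_neg, abs_of_nonneg h0] at hlt'
        exact lt_irrefl _ hlt'
    obtain ⟨a, ha, h | h⟩ := hmult q hq hqN hqp hd
    · refine hneg (q + 1) (Or.inl rfl) (key (q + 1) (by omega) a ha ?_)
      push_cast
      exact h
    · refine hneg (-(q + 1)) (Or.inr rfl) (key (-(q + 1)) (by omega) a ha ?_)
      push_cast
      have e : a - -((q : integralClosure ℤ ℂ) + 1) = a + ((q : integralClosure ℤ ℂ) + 1) := by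
        ring
      rw [e]
      exact h
  · refine ⟨hd, ?_⟩
    obtain ⟨a, ha, h⟩ := hgood q hq hqN hqp hd
    have h4 := Bounds.apOfModel_sq_lt W hq hd
    refine key (W.apOfModel q) ?_ a ha h
    zify
    rw [abs_le]
    constructor <;> nlinarith [sq_nonneg ((q : ℤ) - 1)]

/-- **`u ^ 3 - v ^ 2 = 1728 A w ^ p` has no coprime solution, `A w ≠ 0`, for `p ≥ 37`, if the prime factors of `A` are
all `23`, or all `29`.** -/
theorem cube_sub_sq_effective {L : ℕ} (hL : L = 23 ∨ L = 29) {p : ℕ} (hp : p.Prime)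
    (hp37 : 37 ≤ p) {A u v w : ℤ} (hA : Supp L A) (h0 : A * w ≠ 0) (hcop : IsCoprime u v) :
    u ^ 3 - v ^ 2 ≠ 1728 * (A * w ^ p) := by
  intro h
  obtain ⟨W, hΔ, hss⟩ := curve_23p h hcop
  have hw : w ^ p ≠ 0 := pow_ne_zero _ (right_ne_zero_of_mul h0)
  have hΔ0 : W.Δ ≠ 0 := by
    rw [hΔ]
    exact mul_ne_zero (left_ne_zero_of_mul h0) hw
  have hP : Pw p L W.Δ := by
    rw [hΔ]
    exact (pw_of_supp hA).mul (pw_pow p L w) (left_ne_zero_of_mul h0) hw
  rcases hL with rfl | rfl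
  · obtain ⟨f, hf, h1⟩ := effective (N := 23) (g := 2) (by rw [Conductor23.genus_twentythree]; norm_num)
      hp (by omega) (by omega) hΔ0 hss hP
    exact Conductor23.coeff_two_ne_23 hf _ (h1 2 (by norm_num) (by norm_num) (by omega)).2
  · obtain ⟨f, hf, h1⟩ := effective (N := 29) (g := 2) (by rw [Conductor23.genus_twentynine]; norm_num)
      hp (by omega) (by omega) hΔ0 hss hP
    exact Conductor23.coeff_two_ne_29 hf _ (h1 2 (by norm_num) (by norm_num) (by omega)).2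

end Fermat.Agent.Cor.H22G
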