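import Fermat.Agent.Cor.H22GenSeven

/-!
# Perfect powers among the even Fibonacci numbers, and Pell equations

Let `p ≥ 7` be a prime, `p ≠ 13`.

* `fib_ne`: if `n > 0` and `16 ∣ F_n` (i.e. `12 ∣ n`), then `F_n ≠ 2 ^ i 5 ^ j y ^ p`;
* `fib_ne_pow`: if `n > 0` and `3 ∣ n` (i.e. `F_n` is even), then `F_n` is not a `p`-th power, nor `5 ^ j` times a
  `p`-th power; `fib_ne_pow_exponent`: the same for all exponents divisible by `p`;
* `pell_ne`: `x ^ 2 - D w ^ p ≠ ± 1` for `w ≠ 0` even, if the prime factors of `D ≠ 0` are in `{2, 3}`, `{2, 5}` or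
  `{2, 11}`; in particular (`pell_ne_sq`) `x ^ 2 - D (w ^ p) ^ 2 ≠ ± 1`.

If `F_n = 16 c` then `(F_{n+1} - 8 c) ^ 2 = (-1) ^ n + 64 · 5 c ^ 2`, an equation of signature `(p, p, 2)` and level
`10` (see `Cor/H22GenSeven.lean`), and there are no cusp forms of level `10`.

This file is not used by any of the statement files.
-/

set_option autoImplicit false

namespace Fermat.Agent.Cor.H22G

/-- Cassini's identity -/
theorem cassini (n : ℕ) : (Nat.fib (n + 1) : ℤ) ^ 2 - Nat.fib (n + 1) * Nat.fib n -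
    (Nat.fib n : ℤ) ^ 2 = (-1) ^ n := by
  induction n with
  | zero => simp
  | succ n ih =>
    rw [Nat.fib_add_two, pow_succ]
    push_cast
    linear_combination -ih

theorem supp_neg_one_pow (N n : ℕ) : Supp N ((-1) ^ n) := (supp_neg (supp_one N)).pow n

section

variable {p : ℕ} (hp : p.Prime) (h7 : 7 ≤ p) (h13 : p ≠ 13)

include hp h7 h13

/-- **Fibonacci numbers divisible by `16`**: they are not of the form `2 ^ i 5 ^ j y ^ p`, `p ≥ 7` a prime, `p ≠ 13`. -/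
theorem fib_ne {n : ℕ} (hn : 0 < n) (h16 : 16 ∣ Nat.fib n) (i j y : ℕ) :
    Nat.fib n ≠ 2 ^ i * 5 ^ j * y ^ p := by
  intro h
  obtain ⟨c, hc⟩ := h16
  have hF0 : Nat.fib n ≠ 0 := (Nat.fib_pos.mpr hn).ne'
  have hc0 : c ≠ 0 := by
    rintro rfl
    exact hF0 (by rw [hc])
  have hy0 : y ≠ 0 := by
    rintro rfl
    apply hF0
    rw [h, zero_pow hp.ne_zero, mul_zero]
  have hcas := cassini n
  have hcZ : (Nat.fib n : ℤ) = 16 * c := by exact_mod_cast hc
  -- the equation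
  have hz : ((Nat.fib (n + 1) : ℤ) - 8 * c) ^ 2 = (-1) ^ n + 64 * (5 * (c : ℤ) ^ 2) := by
    rw [← hcas, hcZ]
    ring
  have hodd : Odd ((Nat.fib (n + 1) : ℤ) - 8 * c) := by
    have h1 : Odd (((Nat.fib (n + 1) : ℤ) - 8 * c) ^ 2) := by
      rw [hz]
      exact ((by decide : Odd (-1 : ℤ)).pow).add_even ⟨32 * (5 * (c : ℤ) ^ 2), by ring⟩
    exact (Int.odd_pow' two_ne_zero).mp h1
  have hcop : IsCoprime ((-1 : ℤ) ^ n) (5 * (c : ℤ) ^ 2) :=
    IsCoprime.pow_left (isCoprime_one_left.neg_left)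
  have hcZ0 : (c : ℤ) ≠ 0 := by exact_mod_cast hc0
  have hPc : Pw p 10 (c : ℤ) := by
    intro q hq hq10
    have : Fact q.Prime := ⟨hq⟩
    have e : (16 : ℤ) * c = 2 ^ i * 5 ^ j * (y : ℤ) ^ p := by
      rw [← hcZ, h]
      push_cast
      ring
    have hS16 : Pw p 10 (16 : ℤ) := by
      have : Supp 10 ((2 : ℤ) ^ 4) := (supp_prime Nat.prime_two (by norm_num)).pow 4
      norm_num at this
      exact pw_of_supp this
    have hq2 : ¬ (q : ℤ) ∣ 16 := by
      intro hd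
      have h2 : q = 2 := (Nat.prime_dvd_prime_iff_eq hq Nat.prime_two).mp
        (hq.dvd_of_dvd_pow (n := 4) (by exact_mod_cast hd))
      exact hq10 (h2 ▸ by norm_num)
    have e2 := congrArg (padicValInt q) e
    rw [padicValInt.mul (by norm_num) hcZ0, padicValInt.eq_zero_of_not_dvd hq2, zero_add] at e2
    rw [e2]
    have hS : Supp 10 ((2 : ℤ) ^ i * 5 ^ j) :=
      ((supp_prime Nat.prime_two (by norm_num)).pow i).mul
        ((supp_prime Nat.prime_five (by norm_num)).pow j)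
    exact (pw_of_supp hS).mul (pw_pow p 10 (y : ℤ))
      (mul_ne_zero (pow_ne_zero _ two_ne_zero) (pow_ne_zero _ (by norm_num)))
      (pow_ne_zero _ (by exact_mod_cast hy0)) q hq hq10
  have hP5 : Pw p 10 (5 : ℤ) := pw_of_supp (supp_prime Nat.prime_five (by norm_num))
  exact false_of_pp2_seven_le hp h7 h13 (N := 10) (by decide) hz hodd hcop
    (pow_ne_zero _ (by norm_num)) (mul_ne_zero (by norm_num) (pow_ne_zero _ hcZ0))
    (pw_of_supp (supp_neg_one_pow 10 n)) (hP5.mul (hPc.pow 2) (by norm_num) (pow_ne_zero _ hcZ0))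

/-- **Even Fibonacci numbers are not perfect `p`-th powers** (`p ≥ 7` a prime, `p ≠ 13`): for `n > 0` divisible by `3`,
`F_n ≠ 5 ^ j y ^ p`. -/
theorem fib_ne_five_pow {n : ℕ} (hn : 0 < n) (h3 : 3 ∣ n) (j y : ℕ) :
    Nat.fib n ≠ 5 ^ j * y ^ p := by
  intro h
  have h2 : 2 ∣ Nat.fib n := Nat.fib_dvd 3 n h3
  have h2y : 2 ∣ y := by
    rw [h] at h2
    rcases (Nat.Prime.dvd_mul Nat.prime_two).mp h2 with h4 | h4
    · have := Nat.prime_two.dvd_of_dvd_pow h4
      norm_num at this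
    · exact Nat.prime_two.dvd_of_dvd_pow h4
  have h16 : 16 ∣ Nat.fib n := by
    rw [h]
    refine Dvd.dvd.mul_left ?_ _
    have h5 : 2 ^ 4 ∣ y ^ p := (pow_dvd_pow 2 (by omega)).trans (pow_dvd_pow_of_dvd h2y p)
    exact (by norm_num : (16 : ℕ) = 2 ^ 4) ▸ h5
  exact fib_ne hp h7 h13 hn h16 0 j y (by rw [h, pow_zero, one_mul])

/-- **Even Fibonacci numbers are not perfect `p`-th powers.** -/
theorem fib_ne_pow {n : ℕ} (hn : 0 < n) (h3 : 3 ∣ n) (y : ℕ) : Nat.fib n ≠ y ^ p := by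
  have := fib_ne_five_pow hp h7 h13 hn h3 0 y
  rwa [pow_zero, one_mul] at this

/-- the same for all exponents divisible by `p` -/
theorem fib_ne_pow_exponent {n m : ℕ} (hn : 0 < n) (h3 : 3 ∣ n) (hm : p ∣ m) (y : ℕ) :
    Nat.fib n ≠ y ^ m := by
  obtain ⟨k, rfl⟩ := hm
  rw [mul_comm p k, pow_mul]
  exact fib_ne_pow hp h7 h13 hn h3 (y ^ k)

/-- **Pell equations**: `x ^ 2 - D w ^ p = ± 1` has no solutions with `w ≠ 0` even, if the prime factors of `D ≠ 0`
divide `N = 2, 6, 10, 22`. -/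
theorem pell_ne {N : ℕ} (hN : N ∈ ({2, 6, 10, 22} : Finset ℕ)) {D x w : ℤ} (hD : Supp N D)
    (hD0 : D ≠ 0) (hw : w ≠ 0) (hw2 : (2 : ℤ) ∣ w) :
    x ^ 2 - D * w ^ p ≠ 1 ∧ x ^ 2 - D * w ^ p ≠ -1 := by
  obtain ⟨t, rfl⟩ := hw2
  have ht : t ≠ 0 := right_ne_zero_of_mul hw
  have hpodd : Odd p := hp.odd_of_ne_two (by omega)
  constructor
  · intro h
    refine sq_ne_two_pow hp h7 h13 hN (A := 1) (B := D) (x := 1) (y := t) (z := x) (supp_one N) hD
      ?_ (by decide) (by rw [one_mul]; exact isCoprime_one_left) (a := p) (by omega) ?_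
    · rw [one_mul, mul_one]
      exact mul_ne_zero hD0 ht
    · rw [mul_pow] at h
      rw [one_pow, mul_one]
      linear_combination -h
  · intro h
    refine sq_ne_two_pow hp h7 h13 hN (A := 1) (B := D) (x := -1) (y := t) (z := x) (supp_one N)
      hD ?_ (by decide) (by rw [one_mul]; exact isCoprime_one_left.neg_left) (a := p)
      (by omega) ?_
    · rw [one_mul]
      exact mul_ne_zero (mul_ne_zero hD0 (by norm_num)) ht
    · rw [mul_pow] at h
      rw [hpodd.neg_one_pow, one_mul]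
      linear_combination -h

/-- `x ^ 2 - D (w ^ p) ^ 2 = ± 1` has no solutions with `w ≠ 0` even: in the solutions of the Pell equations for `D`
the even second coordinates are not `p`-th powers. -/
theorem pell_ne_sq {N : ℕ} (hN : N ∈ ({2, 6, 10, 22} : Finset ℕ)) {D x w : ℤ} (hD : Supp N D)
    (hD0 : D ≠ 0) (hw : w ≠ 0) (hw2 : (2 : ℤ) ∣ w) :
    x ^ 2 - D * (w ^ p) ^ 2 ≠ 1 ∧ x ^ 2 - D * (w ^ p) ^ 2 ≠ -1 := by
  have h := pell_ne hp h7 h13 hN (x := x) hD hD0 (pow_ne_zero 2 hw) (dvd_pow hw2 two_ne_zero)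
  have e : (w ^ 2) ^ p = (w ^ p) ^ 2 := by rw [← pow_mul, ← pow_mul, mul_comm]
  rwa [e] at h

end

end Fermat.Agent.Cor.H22G
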