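import Fermat.Agent.Cor.H22GenSeven

/-!
# Perfect powers in Lucas sequences

Let `p ≥ 7` be a prime, `p ≠ 13`, and `N ∈ {2, 6, 10, 22}`.

* `lucas_pair`: if `V ^ 2 - D U ^ 2 = ± 4`, `16 ∣ U ≠ 0`, and the prime factors of `D ≠ 0` divide `N`, then `U` is not a
  `p`-th power away from `N`;
* `lucasU_ne`, `lucasU_ne_pow`: let `U_0 = 0`, `U_1 = 1`, `U_{n+2} = P U_{n+1} - Q U_n`, `Q = ± 1`, be a Lucas sequence
  such that the prime factors of `D = P ^ 2 - 4 Q ≠ 0` are in `{2, 3}`, `{2, 5}` or `{2, 11}`. Then no term `U_n ≠ 0`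
  divisible by `16` is of the form `A y ^ p` with `A` composed of the same primes, and no even term `U_n ≠ 0` is a
  `p`-th power;
* `pell_seq_ne_pow`: the Pell numbers `0, 1, 2, 5, 12, 29, 70, …` of even index `n > 0` are not `p`-th powers.

This file is not used by any of the statement files.
-/

set_option autoImplicit false

namespace Fermat.Agent.Cor.H22G

/-- the Lucas sequence `U_n(P, Q)` -/
def lucasU (P Q : ℤ) : ℕ → ℤ
  | 0 => 0
  | 1 => 1
  | n + 2 => P * lucasU P Q (n + 1) - Q * lucasU P Q n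

theorem lucasU_norm (P Q : ℤ) (n : ℕ) : lucasU P Q (n + 1) ^ 2 -
    P * lucasU P Q (n + 1) * lucasU P Q n + Q * lucasU P Q n ^ 2 = Q ^ n := by
  induction n with
  | zero => simp [lucasU]
  | succ n ih =>
    have e : lucasU P Q (n + 2) = P * lucasU P Q (n + 1) - Q * lucasU P Q n := rfl
    rw [e, pow_succ]
    linear_combination Q * ih

theorem lucasU_pair (P Q : ℤ) (n : ℕ) : (2 * lucasU P Q (n + 1) - P * lucasU P Q n) ^ 2 -
    (P ^ 2 - 4 * Q) * lucasU P Q n ^ 2 = 4 * Q ^ n := by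
  linear_combination 4 * lucasU_norm P Q n

theorem pow_eq_or {Q : ℤ} (hQ : Q = 1 ∨ Q = -1) (n : ℕ) : Q ^ n = 1 ∨ Q ^ n = -1 := by
  rcases hQ with rfl | rfl
  · left; exact one_pow n
  · exact neg_one_pow_eq_or ℤ n

section

variable {p : ℕ} (hp : p.Prime) (h7 : 7 ≤ p) (h13 : p ≠ 13)

include hp h7 h13

/-- **Solutions of `V ^ 2 - D U ^ 2 = ± 4` with `16 ∣ U`.** -/
theorem lucas_pair {N : ℕ} (hN : N ∈ ({2, 6, 10, 22} : Finset ℕ)) {D U V e : ℤ}
    (he : e = 1 ∨ e = -1) (h : V ^ 2 - D * U ^ 2 = 4 * e) (hD : Supp N D) (hD0 : D ≠ 0)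
    (h16 : (16 : ℤ) ∣ U) (hU : U ≠ 0) : ¬ Pw p N U := by
  intro hPU
  obtain ⟨c, rfl⟩ := h16
  have hc0 : c ≠ 0 := right_ne_zero_of_mul hU
  have hN' : N ∈ insert 22 levels ∧ 2 ∣ N := by
    simp only [Finset.mem_insert, Finset.mem_singleton] at hN
    rcases hN with rfl | rfl | rfl | rfl <;> decide
  have heodd : Odd e := by rcases he with rfl | rfl <;> decide
  have h2V : (2 : ℤ) ∣ V := by
    refine Int.prime_two.dvd_of_dvd_pow (n := 2) ?_
    have e1 : V ^ 2 = 2 * (2 * e + 128 * (D * c ^ 2)) := by linear_combination h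
    rw [e1]
    exact dvd_mul_right _ _
  obtain ⟨z, rfl⟩ := h2V
  have hz : z ^ 2 = e + 64 * (D * c ^ 2) := by linarith
  have hodd : Odd z := by
    have h1 : Odd (z ^ 2) := by
      rw [hz]
      exact heodd.add_even ⟨32 * (D * c ^ 2), by ring⟩
    exact (Int.odd_pow' two_ne_zero).mp h1
  have hcop : IsCoprime e (D * c ^ 2) := by
    rcases he with rfl | rfl
    · exact isCoprime_one_left
    · exact isCoprime_one_left.neg_left
  have hPe : Pw p N e := by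
    rcases he with rfl | rfl
    · exact pw_of_supp (supp_one N)
    · exact pw_of_supp (supp_neg (supp_one N))
  have he0 : e ≠ 0 := by rcases he with rfl | rfl <;> norm_num
  have hPc : Pw p N c := by
    intro q hq hqN
    have : Fact q.Prime := ⟨hq⟩
    have h1 := hPU q hq hqN
    have hq2 : ¬ (q : ℤ) ∣ 16 := by
      intro hd
      have h2 : q = 2 := (Nat.prime_dvd_prime_iff_eq hq Nat.prime_two).mp
        (hq.dvd_of_dvd_pow (n := 4) (by exact_mod_cast hd))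
      exact hqN (h2 ▸ hN'.2)
    rwa [padicValInt.mul (by norm_num) hc0, padicValInt.eq_zero_of_not_dvd hq2, zero_add] at h1
  exact false_of_pp2_seven_le hp h7 h13 hN'.1 hz hodd hcop he0
    (mul_ne_zero hD0 (pow_ne_zero _ hc0)) hPe
    ((pw_of_supp hD).mul (hPc.pow 2) hD0 (pow_ne_zero _ hc0))

/-- **Lucas sequences**, terms divisible by `16`. -/
theorem lucasU_ne {N : ℕ} (hN : N ∈ ({2, 6, 10, 22} : Finset ℕ)) {P Q : ℤ}
    (hQ : Q = 1 ∨ Q = -1) (hD : Supp N (P ^ 2 - 4 * Q)) (hD0 : P ^ 2 - 4 * Q ≠ 0) {n : ℕ}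
    (h16 : (16 : ℤ) ∣ lucasU P Q n) (h0 : lucasU P Q n ≠ 0) {A y : ℤ} (hA : Supp N A) :
    lucasU P Q n ≠ A * y ^ p := by
  intro h
  refine lucas_pair hp h7 h13 hN (pow_eq_or hQ n) (lucasU_pair P Q n) hD hD0 h16 h0 ?_
  rw [h] at h0 ⊢
  exact (pw_of_supp hA).mul (pw_pow p N y) (left_ne_zero_of_mul h0) (right_ne_zero_of_mul h0)

/-- **Lucas sequences**: the even terms are not `p`-th powers. -/
theorem lucasU_ne_pow {N : ℕ} (hN : N ∈ ({2, 6, 10, 22} : Finset ℕ)) {P Q : ℤ}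
    (hQ : Q = 1 ∨ Q = -1) (hD : Supp N (P ^ 2 - 4 * Q)) (hD0 : P ^ 2 - 4 * Q ≠ 0) {n : ℕ}
    (h2 : (2 : ℤ) ∣ lucasU P Q n) (h0 : lucasU P Q n ≠ 0) (y : ℤ) :
    lucasU P Q n ≠ y ^ p := by
  intro h
  have h2y : (2 : ℤ) ∣ y := Int.prime_two.dvd_of_dvd_pow (by rw [← h]; exact h2)
  have h16 : (16 : ℤ) ∣ lucasU P Q n := by
    rw [h]
    have h5 : (2 : ℤ) ^ 4 ∣ y ^ p := (pow_dvd_pow 2 (by omega)).trans (pow_dvd_pow_of_dvd h2y p)
    exact (by norm_num : (16 : ℤ) = 2 ^ 4) ▸ h5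
  exact lucasU_ne hp h7 h13 hN hQ hD hD0 h16 h0 (supp_one N) (y := y) (by rw [h, one_mul])

/-- **Pell numbers** `P_n` (`0, 1, 2, 5, 12, 29, 70, …`): for even `n > 0`, `P_n` is not a `p`-th power. -/
theorem pell_seq_ne_pow {n : ℕ} (hn : 0 < n) (h2 : 2 ∣ n) (y : ℤ) : lucasU 2 (-1) n ≠ y ^ p := by
  have hpos : ∀ n : ℕ, 0 ≤ lucasU 2 (-1) n ∧ 0 < lucasU 2 (-1) (n + 1) := by
    intro n
    induction n with
    | zero => simp [lucasU]
    | succ n ih =>
      refine ⟨ih.2.le, ?_⟩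
      have e : lucasU 2 (-1) (n + 1 + 1) = 2 * lucasU 2 (-1) (n + 1) - -1 * lucasU 2 (-1) n := rfl
      rw [e]
      linarith [ih.1, ih.2]
  have heven : ∀ k : ℕ, (2 : ℤ) ∣ lucasU 2 (-1) (2 * k) := by
    intro k
    induction k with
    | zero => simp [lucasU]
    | succ k ih =>
      have e : lucasU 2 (-1) (2 * (k + 1)) =
        2 * lucasU 2 (-1) (2 * k + 1) - -1 * lucasU 2 (-1) (2 * k) := rfl
      rw [e]
      have : (2 : ℤ) ∣ 2 * lucasU 2 (-1) (2 * k + 1) := dvd_mul_right _ _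
      omega
  obtain ⟨k, rfl⟩ := h2
  obtain ⟨m, hm⟩ : ∃ m, 2 * k = m + 1 := ⟨2 * k - 1, by omega⟩
  have h0 : lucasU 2 (-1) (2 * k) ≠ 0 := by
    rw [hm]
    exact (hpos m).2.ne'
  have hS : Supp 2 ((2 : ℤ) ^ 2 - 4 * (-1)) := by
    have : Supp 2 ((2 : ℤ) ^ 3) := (supp_prime Nat.prime_two dvd_rfl).pow 3
    norm_num at this ⊢
    exact this
  exact lucasU_ne_pow hp h7 h13 (N := 2) (by decide) (Or.inr rfl) hS (by norm_num) (heven k) h0 y

end

end Fermat.Agent.Cor.H22G
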