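import Fermat.Agent.Cor.H07All
import Fermat.Agent.Cor.H22Fib
import Fermat.Agent.Cor.H22Lucas

/-!
# Perfect powers in Lucas sequences, for all primes `p ≥ 5`

For the terms `U_n` of a Lucas sequence with `V_n ^ 2 - D U_n ^ 2 = 4` (i.e. `Q = 1`, or `Q = -1` and `n` even) the
Frey curve has full rational `2`-torsion. With the theorem of `Cor/H07All.lean` on the product of two consecutive
integers the results of `Cor/H22Fib.lean` and `Cor/H22Lucas.lean` hold for all primes `p ≥ 5`.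

* `lucas_pair_all`: `V ^ 2 - 2 ^ i L ^ j (L ^ l y ^ p) ^ 2 ≠ 4` for `y ≠ 0` even, `L = 3, 5`, `p ≥ 5` prime;
* `fib_ne_all`, `fib_ne_exponent_all`: for `n > 0` divisible by `6` and `p ≥ 5` prime, the Fibonacci number `F_n` is not
  a `p`-th power, nor `5 ^ l` times a `p`-th power (`F_6 = 2 ^ 3`, `F_12 = 12 ^ 2`);
* `lucasU_ne_all`: the even terms `U_n ≠ 0`, `n` even, of a Lucas sequence with `Q = ± 1`, `P ^ 2 - 4 Q = 2 ^ i L ^ j`,
  `L = 3, 5`, are not `p`-th powers, for all primes `p ≥ 5`;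
* `pell_seq_ne_all`: the Pell numbers of even index `n > 0` are not `p`-th powers, for all primes `p ≥ 5`.

This file is not used by any of the statement files.
-/

set_option autoImplicit false

namespace Fermat.Agent.Cor.H22G

section

variable {p : ℕ} (hp : p.Prime) (hp5 : 5 ≤ p)

include hp hp5

/-- **`V ^ 2 - D U ^ 2 = 4`**, `D = 2 ^ i L ^ j`, `U = L ^ l y ^ p`, `y` even -/
theorem lucas_pair_all {L : ℕ} (hL : L = 3 ∨ L = 5) (i j l : ℕ) {V y : ℤ} (hy : y ≠ 0)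
    (h2 : (2 : ℤ) ∣ y) : V ^ 2 - 2 ^ i * (L : ℤ) ^ j * ((L : ℤ) ^ l * y ^ p) ^ 2 ≠ 4 := by
  intro h
  obtain ⟨y, rfl⟩ := h2
  have hy0 : y ≠ 0 := by
    rintro rfl
    exact hy (mul_zero 2)
  obtain ⟨m, rfl⟩ : ∃ m, p = m + 5 := ⟨p - 5, by omega⟩
  -- `D U ^ 2 = 2 ^ 10 T`
  set T : ℤ := 2 ^ (i + 2 * m) * (L : ℤ) ^ (j + 2 * l) * (y ^ 2) ^ (m + 5) with hT
  have e : 2 ^ i * (L : ℤ) ^ j * ((L : ℤ) ^ l * (2 * y) ^ (m + 5)) ^ 2 = 1024 * T := by
    rw [hT, mul_pow 2 y, mul_pow, mul_pow, ← pow_mul, ← pow_mul, ← pow_mul, ← pow_mul, pow_add,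
      pow_add]
    have e1 : (2 : ℤ) ^ ((m + 5) * 2) = 1024 * 2 ^ (2 * m) := by
      rw [show (m + 5) * 2 = 10 + 2 * m by ring, pow_add]
      norm_num
    rw [e1, mul_comm l 2, mul_comm 2 (m + 5)]
    ring
  rw [e] at h
  have h2V : (2 : ℤ) ∣ V := by
    refine Int.prime_two.dvd_of_dvd_pow (n := 2) ?_
    have e1 : V ^ 2 = 2 * (2 + 512 * T) := by linear_combination h
    rw [e1]
    exact dvd_mul_right _ _
  obtain ⟨v, rfl⟩ := h2V
  have hv : v ^ 2 = 1 + 256 * T := by linarith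
  have hodd : Odd v := by
    have h1 : Odd (v ^ 2) := by
      rw [hv]
      exact odd_one.add_even ⟨128 * T, by ring⟩
    exact (Int.odd_pow' two_ne_zero).mp h1
  obtain ⟨a, rfl⟩ := hodd
  have ha : a * (a + 1) = 64 * T := by linarith
  have hL0 : (L : ℤ) ≠ 0 := by rcases hL with rfl | rfl <;> norm_num
  have hT0 : T ≠ 0 := mul_ne_zero (mul_ne_zero (pow_ne_zero _ two_ne_zero) (pow_ne_zero _ hL0))
    (pow_ne_zero _ (pow_ne_zero _ hy0))
  refine H07.two_consecutive_all hp hp5 hL (a := a) ?_ ?_ (6 + (i + 2 * m)) (j + 2 * l) (y ^ 2) ?_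
  · rw [ha]
    exact mul_ne_zero (by norm_num) hT0
  · rw [ha]
    exact ⟨4 * T, by ring⟩
  · rw [ha, hT, pow_add 2 6]
    ring

/-- **Fibonacci numbers**: for `n > 0` divisible by `6`, `F_n ≠ 5 ^ l y ^ p` for all primes `p ≥ 5`. -/
theorem fib_ne_all {n : ℕ} (hn : 0 < n) (h6 : 6 ∣ n) (l y : ℕ) : Nat.fib n ≠ 5 ^ l * y ^ p := by
  intro h
  have h2 : 2 ∣ Nat.fib n := Nat.fib_dvd 3 n ((by norm_num : 3 ∣ 6).trans h6)
  have h2y : 2 ∣ y := by
    rw [h] at h2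
    rcases (Nat.Prime.dvd_mul Nat.prime_two).mp h2 with h4 | h4
    · have := Nat.prime_two.dvd_of_dvd_pow h4
      norm_num at this
    · exact Nat.prime_two.dvd_of_dvd_pow h4
  have hpos : 0 < Nat.fib n := Nat.fib_pos.mpr hn
  have hy0 : y ≠ 0 := by
    rintro rfl
    rw [zero_pow hp.ne_zero, mul_zero] at h
    omega
  have hc := cassini n
  have he : Even n := even_iff_two_dvd.mpr ((by norm_num : 2 ∣ 6).trans h6)
  rw [he.neg_one_pow] at hc
  refine lucas_pair_all hp hp5 (Or.inr rfl) 0 1 l (V := 2 * Nat.fib (n + 1) - Nat.fib n)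
    (y := (y : ℤ)) (by exact_mod_cast hy0) (by exact_mod_cast h2y) ?_
  have h' : ((5 : ℕ) : ℤ) ^ l * (y : ℤ) ^ p = Nat.fib n := by
    rw [h]
    push_cast
    ring
  rw [h']
  push_cast
  linear_combination 4 * hc

/-- the same for all exponents divisible by `p` -/
theorem fib_ne_exponent_all {n m : ℕ} (hn : 0 < n) (h6 : 6 ∣ n) (hm : p ∣ m) (y : ℕ) :
    Nat.fib n ≠ y ^ m := by
  obtain ⟨k, rfl⟩ := hm
  rw [mul_comm p k, pow_mul]
  have := fib_ne_all hp hp5 hn h6 0 (y ^ k)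
  rwa [pow_zero, one_mul] at this

/-- **Lucas sequences**: the even terms of even index are not `p`-th powers, for all primes `p ≥ 5`, if
`P ^ 2 - 4 Q = 2 ^ i L ^ j`, `L = 3, 5`. -/
theorem lucasU_ne_all {L : ℕ} (hL : L = 3 ∨ L = 5) {P Q : ℤ} (hQ : Q = 1 ∨ Q = -1) {i j : ℕ}
    (hD : P ^ 2 - 4 * Q = 2 ^ i * (L : ℤ) ^ j) {n : ℕ} (hn : Q = 1 ∨ Even n)
    (h2 : (2 : ℤ) ∣ lucasU P Q n) (h0 : lucasU P Q n ≠ 0) (l : ℕ) (y : ℤ) :
    lucasU P Q n ≠ (L : ℤ) ^ l * y ^ p := by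
  intro h
  have hQn : Q ^ n = 1 := by
    rcases hn with rfl | hn
    · exact one_pow n
    · rcases hQ with rfl | rfl
      · exact one_pow n
      · exact hn.neg_one_pow
  have hy0 : y ≠ 0 := by
    rintro rfl
    rw [zero_pow hp.ne_zero, mul_zero] at h
    exact h0 h
  have h2y : (2 : ℤ) ∣ y := by
    rw [h] at h2
    rcases Int.prime_two.dvd_or_dvd h2 with h4 | h4
    · have h5 := Int.prime_two.dvd_of_dvd_pow h4
      rcases hL with rfl | rfl <;> norm_num at h5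
    · exact Int.prime_two.dvd_of_dvd_pow h4
  have hc := lucasU_norm P Q n
  rw [hQn] at hc
  refine lucas_pair_all hp hp5 hL i j l (V := 2 * lucasU P Q (n + 1) - P * lucasU P Q n)
    (y := y) hy0 h2y ?_
  rw [← hD, ← h]
  linear_combination 4 * hc

/-- **Pell numbers**: for even `n > 0`, `P_n` is not a `p`-th power, for all primes `p ≥ 5`. -/
theorem pell_seq_ne_all {n : ℕ} (hn : 0 < n) (h2 : 2 ∣ n) (y : ℤ) : lucasU 2 (-1) n ≠ y ^ p := by
  have hpos : ∀ n : ℕ, 0 ≤ lucasU 2 (-1) n ∧ 0 < lucasU 2 (-1) (n + 1) := by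
    intro n
    induction n with
    | zero => simp [lucasU]
    | succ n ih =>
      refine ⟨ih.2.le, ?_⟩
      have e : lucasU 2 (-1) (n + 1 + 1) = 2 * lucasU 2 (-1) (n + 1) - -1 * lucasU 2 (-1) n := rfl
      rw [e]
      linarith [ih.1, ih.2]
  have heven : ∀ k : ℕ, (2 : ℤ) ∣ lucasU 2 (-1) (2 * k) := by
    intro k
    induction k with
    | zero => simp [lucasU]
    | succ k ih =>
      have e : lucasU 2 (-1) (2 * (k + 1)) =
        2 * lucasU 2 (-1) (2 * k + 1) - -1 * lucasU 2 (-1) (2 * k) := rfl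
      rw [e]
      have : (2 : ℤ) ∣ 2 * lucasU 2 (-1) (2 * k + 1) := dvd_mul_right _ _
      omega
  obtain ⟨k, rfl⟩ := h2
  obtain ⟨m, hm⟩ : ∃ m, 2 * k = m + 1 := ⟨2 * k - 1, by omega⟩
  have h0 : lucasU 2 (-1) (2 * k) ≠ 0 := by
    rw [hm]
    exact (hpos m).2.ne'
  have := lucasU_ne_all hp hp5 (L := 3) (Or.inl rfl) (P := 2) (Q := -1) (Or.inr rfl) (i := 3)
    (j := 0) (by norm_num) (n := 2 * k) (Or.inr (even_two_mul k)) (heven k) h0 0 y
  rwa [pow_zero, one_mul] at this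

end

end Fermat.Agent.Cor.H22G
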