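import Fermat.Agent.Cor.H22GenLevel

/-!
# Frey curves with a rational point of order `5`

The curve `y² + (b - a) x y - a b² y = x³ - a b x²` has the rational point `(0, 0)` of order `5`, and its discriminant is
`a ^ 5 b ^ 5 (a ^ 2 - 11 a b - b ^ 2)`. For `a = A x ^ p`, `b = B y ^ p` this is a Frey curve for the equation
`(A x ^ p) ^ 2 - 11 A x ^ p B y ^ p - (B y ^ p) ^ 2 = C z ^ p`: it is semistable if `5 ∤ C z`. Here `a₂ = -2` and
`a₃ = -1` if the reduction is good, so the equation has no solutions, for `p ≥ 11`, `p ≠ 13`, if the prime factors of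
`A`, `B`, `C` divide `N`, where `X₀(N)` has genus `0` or `N = 14, 15, 17, 19, 21, 26` (`five_ne`). (For `N = 11` there
is the solution `1 + 11 - 1 = 11`.)

* `sq_sub_eleven_ne`: `x ^ (2 p) - 11 x ^ p y ^ p - y ^ (2 p) ≠ z ^ p` if `x`, `y` are coprime, `x y z ≠ 0`, `5 ∤ z`;
* `units_five`: `A ^ 2 - 11 A B - B ^ 2` is not an `N`-unit prime to `5`, for coprime `N`-units `A`, `B`.

This file is not used by any of the statement files.
-/

set_option autoImplicit false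

namespace Fermat.Agent.Cor.H22G

open ModularCurve ModularFormClass CongruenceSubgroup WeierstrassCurve
open Fermat.Agent.Cor.GenusOne Fermat.Agent.Cor.SmallConductor Fermat.Agent.Cor.EigenTable

/-- the curve with the point `(0, 0)` of order `5` -/
def E5 (a b : ℤ) : WeierstrassCurve ℤ := ⟨b - a, -(a * b), -(a * b ^ 2), 0, 0⟩

theorem E5_Δ (a b : ℤ) : (E5 a b).Δ = a ^ 5 * b ^ 5 * (a ^ 2 - 11 * a * b - b ^ 2) := by
  simp only [E5, WeierstrassCurve.Δ, b₂, b₄, b₆, b₈]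
  ring

theorem E5_c₄ (a b : ℤ) : (E5 a b).c₄ =
    a ^ 4 - 12 * a ^ 3 * b + 14 * a ^ 2 * b ^ 2 + 12 * a * b ^ 3 + b ^ 4 := by
  simp only [E5, WeierstrassCurve.c₄, b₂, b₄]
  ring

theorem E5_semistable {a b : ℤ} (hcop : IsCoprime a b)
    (h5 : ¬ (5 : ℤ) ∣ a ^ 2 - 11 * a * b - b ^ 2) : (E5 a b).IsSemistableModel := by
  intro q hq hqΔ hqc
  rw [E5_Δ] at hqΔ
  rw [E5_c₄] at hqc
  have hqq : Prime (q : ℤ) := Nat.prime_iff_prime_int.mp hq
  have key : (q : ℤ) ∣ a → (q : ℤ) ∣ b → False := fun h h' =>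
    hqq.not_isUnit (hcop.isUnit_of_dvd' h h')
  have ha : (q : ℤ) ∣ a → False := by
    intro h
    refine key h (hqq.dvd_of_dvd_pow (n := 4) ?_)
    have e : b ^ 4 = (a ^ 4 - 12 * a ^ 3 * b + 14 * a ^ 2 * b ^ 2 + 12 * a * b ^ 3 + b ^ 4) -
        a * (a ^ 3 - 12 * a ^ 2 * b + 14 * a * b ^ 2 + 12 * b ^ 3) := by ring
    rw [e]
    exact dvd_sub hqc (Dvd.dvd.mul_right h _)
  have hb : (q : ℤ) ∣ b → False := by
    intro h
    refine key (hqq.dvd_of_dvd_pow (n := 4) ?_) h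
    have e : a ^ 4 = (a ^ 4 - 12 * a ^ 3 * b + 14 * a ^ 2 * b ^ 2 + 12 * a * b ^ 3 + b ^ 4) -
        b * (-12 * a ^ 3 + 14 * a ^ 2 * b + 12 * a * b ^ 2 + b ^ 3) := by ring
    rw [e]
    exact dvd_sub hqc (Dvd.dvd.mul_right h _)
  rcases hqq.dvd_or_dvd hqΔ with h | h
  · rcases hqq.dvd_or_dvd h with h | h
    · exact ha (hqq.dvd_of_dvd_pow h)
    · exact hb (hqq.dvd_of_dvd_pow h)
  · have h1 : (q : ℤ) ∣ 5 * (a ^ 2 * b ^ 2) := by
      have e : 5 * (a ^ 2 * b ^ 2) =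
          (a ^ 4 - 12 * a ^ 3 * b + 14 * a ^ 2 * b ^ 2 + 12 * a * b ^ 3 + b ^ 4) -
          (a ^ 2 - 11 * a * b - b ^ 2) * (a ^ 2 - a * b - b ^ 2) := by ring
      rw [e]
      exact dvd_sub hqc (Dvd.dvd.mul_right h _)
    rcases hqq.dvd_or_dvd h1 with h2 | h2
    · have h4 : q = 5 := (Nat.prime_dvd_prime_iff_eq hq Nat.prime_five).mp (by exact_mod_cast h2)
      subst h4
      exact h5 (by exact_mod_cast h)
    · rcases hqq.dvd_or_dvd h2 with h3 | h3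
      · exact ha (hqq.dvd_of_dvd_pow h3)
      · exact hb (hqq.dvd_of_dvd_pow h3)

/-- `a₂ = -2` -/
theorem E5_ap_two {a b : ℤ} (h : ¬ (2 : ℤ) ∣ (E5 a b).Δ) : (E5 a b).apOfModel 2 = -2 := by
  have h1 : ((a : ZMod 2) ^ 5 * b ^ 5 * (a ^ 2 - 11 * a * b - b ^ 2)) ≠ 0 := by
    have := cast_Δ_ne (q := 2) (by exact_mod_cast h)
    rw [E5_Δ] at this
    push_cast at this
    exact this
  have key : ∀ a b : ZMod 2, a ^ 5 * b ^ 5 * (a ^ 2 - 11 * a * b - b ^ 2) ≠ 0 →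
      (2 : ℤ) - (cnt 2 (b - a) (-(a * b)) (-(a * b ^ 2)) 0 0 : ℤ) = -2 := by decide +kernel
  have h2 := key _ _ h1
  refine apOfModel_of_cnt Nat.prime_two rfl (by exact_mod_cast h) ?_
  simpa [E5] using h2

/-- `a₃ = -1` -/
theorem E5_ap_three {a b : ℤ} (h : ¬ (3 : ℤ) ∣ (E5 a b).Δ) : (E5 a b).apOfModel 3 = -1 := by
  have h1 : ((a : ZMod 3) ^ 5 * b ^ 5 * (a ^ 2 - 11 * a * b - b ^ 2)) ≠ 0 := by
    have := cast_Δ_ne (q := 3) (by exact_mod_cast h)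
    rw [E5_Δ] at this
    push_cast at this
    exact this
  have key : ∀ a b : ZMod 3, a ^ 5 * b ^ 5 * (a ^ 2 - 11 * a * b - b ^ 2) ≠ 0 →
      (3 : ℤ) - (cnt 3 (b - a) (-(a * b)) (-(a * b ^ 2)) 0 0 : ℤ) = -1 := by decide +kernel
  have h2 := key _ _ h1
  refine apOfModel_of_cnt Nat.prime_three rfl (by exact_mod_cast h) ?_
  simpa [E5] using h2

/-- the eigenforms excluded by a rational point of order `5` -/
def Not5 {N : ℕ} (f : CuspForm (Gamma0 N) 2) : Prop :=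
  (∃ c : ℤ, ¬ 2 ∣ N ∧ qCoeff f 2 = (c : ℂ) ∧ c ≠ -2 ∧ c.natAbs ≤ 2) ∨
  (∃ c : ℤ, ¬ 3 ∣ N ∧ qCoeff f 3 = (c : ℂ) ∧ c ≠ -1 ∧ c.natAbs ≤ 3)

theorem false_of_E5 {p N : ℕ} [NeZero N] (hp : p.Prime) (hp11 : 11 ≤ p)
    (hN : ∀ f : CuspForm (Gamma0 N) 2, f.IsNormalizedEigenform → Not5 f) {a b : ℤ}
    (hcop : IsCoprime a b) (h5 : ¬ (5 : ℤ) ∣ a ^ 2 - 11 * a * b - b ^ 2)
    (h0 : (E5 a b).Δ ≠ 0) (hP : Pw p N (E5 a b).Δ) (hirr : (E5 a b).ModRepIsIrreducible p) :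
    False := by
  have hss := E5_semistable hcop h5
  obtain ⟨f, 𝔪, hf, h𝔪, hp𝔪, hres⟩ := rm_of_pw hp (by omega) h0 hss hirr (NeZero.ne N) hP
  rcases hN f hf with ⟨c, h2N, hc, hc2, hc3⟩ | ⟨c, h3N, hc, hc2, hc3⟩
  · rcases exists_trace hp (by omega) h0 hss hirr hf h𝔪 hp𝔪 hres Nat.prime_two h2N (by omega) hc
      with ⟨hg, h⟩ | h | h
    · rw [E5_ap_two (by exact_mod_cast hg)] at h
      exact not_dvd_of_lt (by omega) (by omega) h
    · exact not_dvd_of_lt (by push_cast; omega) (by push_cast; omega) h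
    · exact not_dvd_of_lt (by push_cast; omega) (by push_cast; omega) h
  · rcases exists_trace hp (by omega) h0 hss hirr hf h𝔪 hp𝔪 hres Nat.prime_three h3N (by omega) hc
      with ⟨hg, h⟩ | h | h
    · rw [E5_ap_three (by exact_mod_cast hg)] at h
      exact not_dvd_of_lt (by omega) (by omega) h
    · exact not_dvd_of_lt (by push_cast; omega) (by push_cast; omega) h
    · exact not_dvd_of_lt (by push_cast; omega) (by push_cast; omega) h

/-- the levels -/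
def levels5 : Finset ℕ := {1, 2, 3, 5, 6, 7, 10, 13, 14, 15, 17, 19, 21, 26}

section

variable {p : ℕ} (hp : p.Prime) (hp11 : 11 ≤ p) (hp13 : p ≠ 13)

include hp hp11 hp13

/-- **The equation `(A x ^ p) ^ 2 - 11 A x ^ p B y ^ p - (B y ^ p) ^ 2 = C z ^ p`** has no solutions with `A x`, `B y`
coprime, `5 ∤ C z`, if `p ≥ 11`, `p ≠ 13` is a prime and the prime factors of `A`, `B`, `C` divide `N`, `N ∈ levels5`. -/
theorem five_ne {N : ℕ} (hN : N ∈ levels5) {A B C x y z : ℤ} (hA : Supp N A) (hB : Supp N B)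
    (hC : Supp N C) (h0 : A * B * x * y ≠ 0) (h0' : C * z ≠ 0)
    (hcop : IsCoprime (A * x) (B * y)) (h5 : ¬ (5 : ℤ) ∣ C * z) :
    (A * x ^ p) ^ 2 - 11 * (A * x ^ p) * (B * y ^ p) - (B * y ^ p) ^ 2 ≠ C * z ^ p := by
  intro h
  have hy : y ≠ 0 := right_ne_zero_of_mul h0
  have hx : x ≠ 0 := right_ne_zero_of_mul (left_ne_zero_of_mul h0)
  have hB0 : B ≠ 0 := right_ne_zero_of_mul (left_ne_zero_of_mul (left_ne_zero_of_mul h0))
  have hA0 : A ≠ 0 := left_ne_zero_of_mul (left_ne_zero_of_mul (left_ne_zero_of_mul h0))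
  have hC0 : C ≠ 0 := left_ne_zero_of_mul h0'
  have hz : z ≠ 0 := right_ne_zero_of_mul h0'
  have hX : A * x ^ p ≠ 0 := mul_ne_zero hA0 (pow_ne_zero _ hx)
  have hY : B * y ^ p ≠ 0 := mul_ne_zero hB0 (pow_ne_zero _ hy)
  have hZ : C * z ^ p ≠ 0 := mul_ne_zero hC0 (pow_ne_zero _ hz)
  have hPX : Pw p N (A * x ^ p) := (pw_of_supp hA).mul (pw_pow p _ x) hA0 (pow_ne_zero _ hx)
  have hPY : Pw p N (B * y ^ p) := (pw_of_supp hB).mul (pw_pow p _ y) hB0 (pow_ne_zero _ hy)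
  have hPZ : Pw p N (C * z ^ p) := (pw_of_supp hC).mul (pw_pow p _ z) hC0 (pow_ne_zero _ hz)
  have hcop' : IsCoprime (A * x ^ p) (B * y ^ p) := cop_pow hcop p
  have h5' : ¬ (5 : ℤ) ∣ (A * x ^ p) ^ 2 - 11 * (A * x ^ p) * (B * y ^ p) - (B * y ^ p) ^ 2 := by
    rw [h]
    have h5p : Prime (5 : ℤ) := by norm_num
    intro hd
    rcases h5p.dvd_or_dvd hd with hd | hd
    · exact h5 (Dvd.dvd.mul_right hd _)
    · exact h5 (Dvd.dvd.mul_left (h5p.dvd_of_dvd_pow hd) _)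
  have hΔ : (E5 (A * x ^ p) (B * y ^ p)).Δ = (A * x ^ p) ^ 5 * (B * y ^ p) ^ 5 * (C * z ^ p) := by
    rw [E5_Δ, h]
  have hΔ0 : (E5 (A * x ^ p) (B * y ^ p)).Δ ≠ 0 := by
    rw [hΔ]
    exact mul_ne_zero (mul_ne_zero (pow_ne_zero 5 hX) (pow_ne_zero 5 hY)) hZ
  have hP : Pw p N (E5 (A * x ^ p) (B * y ^ p)).Δ := by
    rw [hΔ]
    exact ((hPX.pow 5).mul (hPY.pow 5) (pow_ne_zero 5 hX) (pow_ne_zero 5 hY)).mul hPZ
      (mul_ne_zero (pow_ne_zero 5 hX) (pow_ne_zero 5 hY)) hZ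
  have hss := E5_semistable hcop' h5'
  have hirr : (E5 (A * x ^ p) (B * y ^ p)).ModRepIsIrreducible p :=
    irrAll hp hp11 hp13 _ hΔ0 _ rfl hss
  have h1 : ∀ M ∈ levels, N = M → False := fun M hM e =>
    false_of_level hp (by omega) hΔ0 hss hirr (e ▸ hM) hP
  simp only [levels5, Finset.mem_insert, Finset.mem_singleton] at hN
  rcases hN with rfl | rfl | rfl | rfl | rfl | rfl | rfl | rfl | rfl | rfl | rfl | rfl | rfl | rfl
  · exact h1 1 (by decide) rfl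
  · exact h1 2 (by decide) rfl
  · exact h1 3 (by decide) rfl
  · exact h1 5 (by decide) rfl
  · exact h1 6 (by decide) rfl
  · exact h1 7 (by decide) rfl
  · exact h1 10 (by decide) rfl
  · exact h1 13 (by decide) rfl
  · exact false_of_E5 hp hp11 (fun f hf => Or.inr ⟨-2, by norm_num, by
      rw [a3_fourteen hf]; norm_num, by norm_num, by norm_num⟩) hcop' h5' hΔ0 hP hirr
  · exact false_of_E5 hp hp11 (fun f hf => Or.inl ⟨-1, by norm_num, by
      rw [a2_fifteen hf]; norm_num, by norm_num, by norm_num⟩) hcop' h5' hΔ0 hP hirr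
  · exact false_of_E5 hp hp11 (fun f hf => Or.inl ⟨-1, by norm_num, by
      rw [a2_seventeen hf]; norm_num, by norm_num, by norm_num⟩) hcop' h5' hΔ0 hP hirr
  · exact false_of_E5 hp hp11 (fun f hf => Or.inl ⟨0, by norm_num, by
      rw [a2_nineteen hf]; norm_num, by norm_num, by norm_num⟩) hcop' h5' hΔ0 hP hirr
  · exact false_of_E5 hp hp11 (fun f hf => Or.inl ⟨-1, by norm_num, by
      rw [a2_twentyone hf]; norm_num, by norm_num, by norm_num⟩) hcop' h5' hΔ0 hP hirr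
  · refine false_of_E5 hp hp11 (fun f hf => Or.inr ?_) hcop' h5' hΔ0 hP hirr
    rcases coeff_twentysix hf with ⟨h, -⟩ | ⟨h, -⟩
    · exact ⟨1, by norm_num, by rw [h]; norm_num, by norm_num, by norm_num⟩
    · exact ⟨-3, by norm_num, by rw [h]; norm_num, by norm_num, by norm_num⟩

/-- **`x ^ (2 p) - 11 x ^ p y ^ p - y ^ (2 p) ≠ z ^ p`**, `p ≥ 11`, `p ≠ 13` -/
theorem sq_sub_eleven_ne {x y z : ℤ} (hcop : IsCoprime x y) (h0 : x * y ≠ 0) (hz : z ≠ 0)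
    (h5 : ¬ (5 : ℤ) ∣ z) : x ^ (2 * p) - 11 * (x * y) ^ p - y ^ (2 * p) ≠ z ^ p := by
  intro h
  refine five_ne hp hp11 hp13 (N := 1) (by decide) (A := 1) (B := 1) (C := 1) (x := x) (y := y)
    (z := z) (supp_one 1) (supp_one 1) (supp_one 1) (by simpa using h0) (by simpa using hz)
    (by simpa using hcop) (by simpa using h5) ?_
  rw [one_mul, one_mul, one_mul, ← h, mul_comm 2 p, pow_mul, pow_mul, mul_pow]
  ring

end

/-- coprime `N`-units `A`, `B` such that `A ^ 2 - 11 A B - B ^ 2` is an `N`-unit prime to `5` do not exist, for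
`N ∈ levels5` -/
theorem units_five {N : ℕ} (hN : N ∈ levels5) {A B : ℤ} (hA : Supp N A) (hB : Supp N B)
    (hC : Supp N (A ^ 2 - 11 * A * B - B ^ 2)) (h0 : A * B ≠ 0) (hcop : IsCoprime A B) :
    (5 : ℤ) ∣ A ^ 2 - 11 * A * B - B ^ 2 := by
  by_contra h5
  refine five_ne (p := 11) (by norm_num) le_rfl (by norm_num) hN hA hB hC (x := 1) (y := 1)
    (z := 1) (by simpa using h0) ?_ (by simpa using hcop) (by simpa using h5) (by ring)
  rw [mul_one]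
  intro h
  rw [h] at h5
  exact h5 (dvd_zero 5)

end Fermat.Agent.Cor.H22G
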