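import Fermat.Agent.Cor.H22Five

/-!
# Frey curves with a rational point of order `5`, all primes `p ≥ 7`

If `a`, `b` are odd, the semistable curve `E5 a b` has good reduction at `2` and five points over `𝔽₂`, so `W[p]` is
irreducible for all primes `p ≥ 7`. So the theorem of `Cor/H22Five.lean` holds for all primes `p ≥ 7` if `A x`, `B y` are
odd, `N = 1, 3, 5, 7, 13, 15, 17, 19, 21` (`five_ne_odd`); e.g. `x ^ (2 p) - 11 x ^ p y ^ p - y ^ (2 p) ≠ z ^ p` for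
coprime odd `x`, `y` and `5 ∤ z` (`sq_sub_eleven_ne_odd`), also for all exponents divisible by a prime `p ≥ 7`
(`sq_sub_eleven_ne_exponent`).

This file is not used by any of the statement files.
-/

set_option autoImplicit false

namespace Fermat.Agent.Cor.H22G

open ModularCurve ModularFormClass CongruenceSubgroup WeierstrassCurve
open Fermat.Agent.Cor.EigenTable

theorem false_of_E5_seven {p N : ℕ} [NeZero N] (hp : p.Prime) (hp7 : 7 ≤ p) (h2N : ¬ 2 ∣ N)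
    (hN : ∀ f : CuspForm (Gamma0 N) 2, f.IsNormalizedEigenform →
      ∃ c : ℤ, qCoeff f 2 = (c : ℂ) ∧ c ≠ -2 ∧ c.natAbs ≤ 2) {a b : ℤ}
    (hcop : IsCoprime a b) (h5 : ¬ (5 : ℤ) ∣ a ^ 2 - 11 * a * b - b ^ 2)
    (h0 : (E5 a b).Δ ≠ 0) (hP : Pw p N (E5 a b).Δ) (hirr : (E5 a b).ModRepIsIrreducible p) :
    False := by
  have hss := E5_semistable hcop h5
  obtain ⟨f, 𝔪, hf, h𝔪, hp𝔪, hres⟩ := rm_of_pw hp (by omega) h0 hss hirr (NeZero.ne N) hP
  obtain ⟨c, hc, hc2, hc3⟩ := hN f hf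
  rcases exists_trace hp (by omega) h0 hss hirr hf h𝔪 hp𝔪 hres Nat.prime_two h2N (by omega) hc
    with ⟨hg, h⟩ | h | h
  · rw [E5_ap_two (by exact_mod_cast hg)] at h
    exact not_dvd_of_lt (by omega) (by omega) h
  · exact not_dvd_of_lt (by push_cast; omega) (by push_cast; omega) h
  · exact not_dvd_of_lt (by push_cast; omega) (by push_cast; omega) h

/-- the odd levels -/
def levels5odd : Finset ℕ := {1, 3, 5, 7, 13, 15, 17, 19, 21}

section

variable {p : ℕ} (hp : p.Prime) (hp7 : 7 ≤ p)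

include hp hp7

/-- **`(A x ^ p) ^ 2 - 11 A x ^ p B y ^ p - (B y ^ p) ^ 2 ≠ C z ^ p`**, `A x`, `B y` odd, for all primes `p ≥ 7` -/
theorem five_ne_odd {N : ℕ} (hN : N ∈ levels5odd) {A B C x y z : ℤ} (hA : Supp N A)
    (hB : Supp N B) (hC : Supp N C) (h0 : A * B * x * y ≠ 0) (h0' : C * z ≠ 0)
    (hcop : IsCoprime (A * x) (B * y)) (hx2 : Odd (A * x)) (hy2 : Odd (B * y))
    (h5 : ¬ (5 : ℤ) ∣ C * z) :
    (A * x ^ p) ^ 2 - 11 * (A * x ^ p) * (B * y ^ p) - (B * y ^ p) ^ 2 ≠ C * z ^ p := by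
  intro h
  have hy : y ≠ 0 := right_ne_zero_of_mul h0
  have hx : x ≠ 0 := right_ne_zero_of_mul (left_ne_zero_of_mul h0)
  have hB0 : B ≠ 0 := right_ne_zero_of_mul (left_ne_zero_of_mul (left_ne_zero_of_mul h0))
  have hA0 : A ≠ 0 := left_ne_zero_of_mul (left_ne_zero_of_mul (left_ne_zero_of_mul h0))
  have hC0 : C ≠ 0 := left_ne_zero_of_mul h0'
  have hz : z ≠ 0 := right_ne_zero_of_mul h0'
  have hX : A * x ^ p ≠ 0 := mul_ne_zero hA0 (pow_ne_zero _ hx)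
  have hY : B * y ^ p ≠ 0 := mul_ne_zero hB0 (pow_ne_zero _ hy)
  have hZ : C * z ^ p ≠ 0 := mul_ne_zero hC0 (pow_ne_zero _ hz)
  have hPX : Pw p N (A * x ^ p) := (pw_of_supp hA).mul (pw_pow p _ x) hA0 (pow_ne_zero _ hx)
  have hPY : Pw p N (B * y ^ p) := (pw_of_supp hB).mul (pw_pow p _ y) hB0 (pow_ne_zero _ hy)
  have hPZ : Pw p N (C * z ^ p) := (pw_of_supp hC).mul (pw_pow p _ z) hC0 (pow_ne_zero _ hz)
  have hcop' : IsCoprime (A * x ^ p) (B * y ^ p) := cop_pow hcop p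
  have h5' : ¬ (5 : ℤ) ∣ (A * x ^ p) ^ 2 - 11 * (A * x ^ p) * (B * y ^ p) - (B * y ^ p) ^ 2 := by
    rw [h]
    have h5p : Prime (5 : ℤ) := by norm_num
    intro hd
    rcases h5p.dvd_or_dvd hd with hd | hd
    · exact h5 (Dvd.dvd.mul_right hd _)
    · exact h5 (Dvd.dvd.mul_left (h5p.dvd_of_dvd_pow hd) _)
  rw [Int.odd_mul] at hx2 hy2
  have hXo : Odd (A * x ^ p) := hx2.1.mul hx2.2.pow
  have hYo : Odd (B * y ^ p) := hy2.1.mul hy2.2.pow
  have hΔ : (E5 (A * x ^ p) (B * y ^ p)).Δ = (A * x ^ p) ^ 5 * (B * y ^ p) ^ 5 * (C * z ^ p) := by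
    rw [E5_Δ, h]
  have hΔ2 : ¬ (2 : ℤ) ∣ (E5 (A * x ^ p) (B * y ^ p)).Δ := by
    rw [E5_Δ]
    generalize A * x ^ p = X at hXo
    generalize B * y ^ p = Y at hYo
    have h1 : Odd (X ^ 5 * Y ^ 5 * (X ^ 2 - 11 * X * Y - Y ^ 2)) := by
      refine (hXo.pow.mul hYo.pow).mul ?_
      obtain ⟨r, rfl⟩ := hXo
      obtain ⟨s, rfl⟩ := hYo
      exact ⟨2 * r ^ 2 - 22 * r * s - 2 * s ^ 2 - 9 * r - 13 * s - 6, by ring⟩
    intro h2
    exact Int.not_even_iff_odd.mpr h1 (even_iff_two_dvd.mpr h2)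
  have hΔ0 : (E5 (A * x ^ p) (B * y ^ p)).Δ ≠ 0 := by
    rw [hΔ]
    exact mul_ne_zero (mul_ne_zero (pow_ne_zero 5 hX) (pow_ne_zero 5 hY)) hZ
  have hP : Pw p N (E5 (A * x ^ p) (B * y ^ p)).Δ := by
    rw [hΔ]
    exact ((hPX.pow 5).mul (hPY.pow 5) (pow_ne_zero 5 hX) (pow_ne_zero 5 hY)).mul hPZ
      (mul_ne_zero (pow_ne_zero 5 hX) (pow_ne_zero 5 hY)) hZ
  have hss := E5_semistable hcop' h5'
  have hirr : (E5 (A * x ^ p) (B * y ^ p)).ModRepIsIrreducible p :=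
    H07.irreducible_of_good_two hΔ0 hss (by exact_mod_cast hΔ2) hp hp7
  have h1 : ∀ M ∈ levels, N = M → False := fun M hM e =>
    false_of_level hp (by omega) hΔ0 hss hirr (e ▸ hM) hP
  simp only [levels5odd, Finset.mem_insert, Finset.mem_singleton] at hN
  rcases hN with rfl | rfl | rfl | rfl | rfl | rfl | rfl | rfl | rfl
  · exact h1 1 (by decide) rfl
  · exact h1 3 (by decide) rfl
  · exact h1 5 (by decide) rfl
  · exact h1 7 (by decide) rfl
  · exact h1 13 (by decide) rfl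
  · exact false_of_E5_seven hp hp7 (by norm_num) (fun f hf => ⟨-1, by
      rw [a2_fifteen hf]; norm_num, by norm_num, by norm_num⟩) hcop' h5' hΔ0 hP hirr
  · exact false_of_E5_seven hp hp7 (by norm_num) (fun f hf => ⟨-1, by
      rw [a2_seventeen hf]; norm_num, by norm_num, by norm_num⟩) hcop' h5' hΔ0 hP hirr
  · exact false_of_E5_seven hp hp7 (by norm_num) (fun f hf => ⟨0, by
      rw [a2_nineteen hf]; norm_num, by norm_num, by norm_num⟩) hcop' h5' hΔ0 hP hirr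
  · exact false_of_E5_seven hp hp7 (by norm_num) (fun f hf => ⟨-1, by
      rw [a2_twentyone hf]; norm_num, by norm_num, by norm_num⟩) hcop' h5' hΔ0 hP hirr

/-- **`x ^ (2 p) - 11 x ^ p y ^ p - y ^ (2 p) ≠ z ^ p`** for `x`, `y` odd, all primes `p ≥ 7` -/
theorem sq_sub_eleven_ne_odd {x y z : ℤ} (hcop : IsCoprime x y) (hx : Odd x) (hy : Odd y)
    (h5 : ¬ (5 : ℤ) ∣ z) : x ^ (2 * p) - 11 * (x * y) ^ p - y ^ (2 * p) ≠ z ^ p := by
  intro h
  have hx0 : x ≠ 0 := by rintro rfl; exact absurd hx (by decide)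
  have hy0 : y ≠ 0 := by rintro rfl; exact absurd hy (by decide)
  have hz0 : z ≠ 0 := by rintro rfl; exact h5 (dvd_zero 5)
  refine five_ne_odd hp hp7 (N := 1) (by decide) (A := 1) (B := 1) (C := 1) (x := x) (y := y)
    (z := z) (supp_one 1) (supp_one 1) (supp_one 1) (by simp [hx0, hy0]) (by simpa using hz0)
    (by simpa using hcop) (by simpa using hx) (by simpa using hy) (by simpa using h5) ?_
  rw [one_mul, one_mul, one_mul, ← h, mul_comm 2 p, pow_mul, pow_mul, mul_pow]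
  ring

/-- the same for all exponents divisible by `p` -/
theorem sq_sub_eleven_ne_exponent {n : ℕ} (hn : p ∣ n) {x y z : ℤ} (hcop : IsCoprime x y)
    (hx : Odd x) (hy : Odd y) (h5 : ¬ (5 : ℤ) ∣ z) :
    x ^ (2 * n) - 11 * (x * y) ^ n - y ^ (2 * n) ≠ z ^ n := by
  intro h
  obtain ⟨m, rfl⟩ := hn
  refine sq_sub_eleven_ne_odd hp hp7 (x := x ^ m) (y := y ^ m) (z := z ^ m) (hcop.pow) hx.pow
    hy.pow (fun hd => h5 ((by norm_num : Prime (5 : ℤ)).dvd_of_dvd_pow hd)) ?_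
  rw [← mul_pow, ← pow_mul, ← pow_mul, ← pow_mul, ← pow_mul, show m * (2 * p) = 2 * (p * m) by ring,
    show m * p = p * m by ring]
  exact h

end

end Fermat.Agent.Cor.H22G
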