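import Fermat.Agent.Cor.H07Serre

/-!
# Generalised Fermat equations of signature `(p, p, 2)`, `(p, p, 3)` and `(2, 3, p)`: the curves

Let `N` be a squarefree integer such that `X₀(N)` has genus `0` (`N = 1, 2, 3, 5, 6, 7, 10, 13`) and `p` an odd prime.
By Ribet's theorem (`Cor/H07Serre.lean`) there is no semistable elliptic curve `W` over `ℚ` with `W[p]` irreducible
whose minimal discriminant is a `p`-th power away from the primes dividing `N`. We apply this to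

* `y² + x y = x³ + ((z - 1) / 4) x² + Y x`, `Δ = X Y²`, if `z² = X + 64 Y` (signature `(p, p, 2)`);
* `y² + z x y + Y y = x³`, `Δ = X Y³`, if `z³ = X + 27 Y` (signature `(p, p, 3)`);
* the curve with `c₄ = u`, `c₆ = v`, `Δ = D`, if `u³ - v² = 1728 D` (signature `(2, 3, p)`).

The irreducibility of `W[p]` is a hypothesis here; see `Cor/H22GenFin.lean`.

This file is not used by any of the statement files.
-/

set_option autoImplicit false

namespace Fermat.Agent.Cor.H22G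

open WeierstrassCurve

/-- the squarefree levels `N` such that `X₀(N)` has genus `0` -/
def levels : Finset ℕ := {1, 2, 3, 5, 6, 7, 10, 13}

theorem dvd_cases {N M : ℕ} (hN : N ∈ levels) (h : M ∣ N) : M ≤ 10 ∨ M = 13 := by
  simp only [levels, Finset.mem_insert, Finset.mem_singleton] at hN
  by_cases h13 : N = 13
  · subst h13
    rcases (Nat.dvd_prime (by norm_num)).mp h with h | h
    · left; omega
    · right; exact h
  · left
    exact (Nat.le_of_dvd (by omega) h).trans (by omega)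

/-- `x` is, up to sign, a `p`-th power away from the primes dividing `N` -/
def Pw (p N : ℕ) (x : ℤ) : Prop := ∀ q : ℕ, q.Prime → ¬ q ∣ N → p ∣ padicValInt q x

theorem Pw.mul {p N : ℕ} {x y : ℤ} (hx : Pw p N x) (hy : Pw p N y) (hx0 : x ≠ 0) (hy0 : y ≠ 0) :
    Pw p N (x * y) := by
  intro q hq hqN
  have : Fact q.Prime := ⟨hq⟩
  rw [padicValInt.mul hx0 hy0]
  exact dvd_add (hx q hq hqN) (hy q hq hqN)

theorem padicValInt_pow (q : ℕ) [Fact q.Prime] (n : ℕ) (z : ℤ) :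
    padicValInt q (z ^ n) = n * padicValInt q z := by
  rw [padicValInt, Int.natAbs_pow, padicValNat.pow, padicValInt]

theorem Pw.pow {p N : ℕ} {x : ℤ} (hx : Pw p N x) (n : ℕ) : Pw p N (x ^ n) := by
  intro q hq hqN
  have : Fact q.Prime := ⟨hq⟩
  rw [padicValInt_pow]
  exact Dvd.dvd.mul_left (hx q hq hqN) _

theorem pw_pow (p N : ℕ) (x : ℤ) : Pw p N (x ^ p) := by
  intro q hq _
  have : Fact q.Prime := ⟨hq⟩
  rw [padicValInt_pow]
  exact dvd_mul_right _ _

theorem pw_of_supp {p N : ℕ} {A : ℤ} (hA : ∀ q : ℕ, q.Prime → (q : ℤ) ∣ A → q ∣ N) : Pw p N A := by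
  intro q hq hqN
  rw [padicValInt.eq_zero_of_not_dvd fun h => hqN (hA q hq h)]
  exact dvd_zero _

/-- **No semistable curves of level `N`.** -/
theorem false_of_level {W : WeierstrassCurve ℤ} {p N : ℕ} (hp : p.Prime) (hp2 : p ≠ 2)
    (hΔ : W.Δ ≠ 0) (hss : W.IsSemistableModel) (hirr : W.ModRepIsIrreducible p)
    (hN : N ∈ levels) (h : Pw p N W.Δ) : False := by
  have : Fact p.Prime := ⟨hp⟩
  refine H07.reducible_of_serreLevel hΔ hss hp2 (dvd_cases hN ?_) hirr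
  rw [← Nat.prod_primeFactors_of_squarefree (H07.squarefree_serreLevel W p)]
  refine Finset.prod_primes_dvd _ (fun ℓ hℓ => (Nat.prime_of_mem_primeFactors hℓ).prime)
    fun ℓ hℓ => ?_
  have hℓp := Nat.prime_of_mem_primeFactors hℓ
  have h1 := (H07.dvd_serreLevel_iff hΔ hℓp).mp (Nat.dvd_of_mem_primeFactors hℓ)
  by_contra hℓN
  exact h1 (h ℓ hℓp hℓN)

/-- irreducibility of `W[p]` for the semistable curves of discriminant `D` -/
def Irr (p : ℕ) (D : ℤ) : Prop :=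
  ∀ W : WeierstrassCurve ℤ, W.Δ = D → W.IsSemistableModel → W.ModRepIsIrreducible p

/-! ### Signature `(p, p, 2)` -/

/-- **The curve of signature `(p, p, 2)`** -/
theorem curve_pp2 {X Y z : ℤ} (hz : z ^ 2 = X + 64 * Y) (hodd : Odd z) (hcop : IsCoprime X Y) :
    ∃ W : WeierstrassCurve ℤ, W.Δ = X * Y ^ 2 ∧ W.IsSemistableModel := by
  -- the sign of `z`
  obtain ⟨k, hk⟩ : ∃ k : ℤ, (4 * k + 1) ^ 2 = X + 64 * Y := by
    obtain ⟨m, hm⟩ := hodd
    rcases Int.even_or_odd m with ⟨n, hn⟩ | ⟨n, hn⟩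
    · exact ⟨n, by rw [← hz, hm, hn]; ring⟩
    · exact ⟨-n - 1, by rw [← hz, hm, hn]; ring⟩
  have hXodd : ¬ (2 : ℤ) ∣ X := by
    intro h
    have h1 : (2 : ℤ) ∣ (4 * k + 1) ^ 2 := by
      rw [hk]
      exact dvd_add h ⟨32 * Y, by ring⟩
    have := Int.prime_two.dvd_of_dvd_pow h1
    omega
  have hΔ : (⟨1, k, 0, Y, 0⟩ : WeierstrassCurve ℤ).Δ = X * Y ^ 2 := by
    simp only [WeierstrassCurve.Δ, b₂, b₄, b₆, b₈]
    linear_combination Y ^ 2 * hk
  have hc : (⟨1, k, 0, Y, 0⟩ : WeierstrassCurve ℤ).c₄ = X + 16 * Y := by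
    simp only [WeierstrassCurve.c₄, b₂, b₄]
    linear_combination hk
  have hss : (⟨1, k, 0, Y, 0⟩ : WeierstrassCurve ℤ).IsSemistableModel := by
    intro q hq hqΔ hqc
    rw [hΔ] at hqΔ
    rw [hc] at hqc
    have hqq : Prime (q : ℤ) := Nat.prime_iff_prime_int.mp hq
    have key : (q : ℤ) ∣ X → (q : ℤ) ∣ Y → False := fun h h' =>
      hqq.not_isUnit (hcop.isUnit_of_dvd' h h')
    rcases hqq.dvd_or_dvd hqΔ with h | h
    · have h1 : (q : ℤ) ∣ 16 * Y := by
        have := dvd_sub hqc h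
        rwa [add_sub_cancel_left] at this
      rcases hqq.dvd_or_dvd h1 with h2 | h2
      · have h3 : (q : ℤ) ∣ 2 := hqq.dvd_of_dvd_pow (n := 4) (by norm_num; exact h2)
        have h4 : q = 2 := (Nat.prime_dvd_prime_iff_eq hq Nat.prime_two).mp (by exact_mod_cast h3)
        subst h4
        exact hXodd (by exact_mod_cast h)
      · exact key h h2
    · have h1 := hqq.dvd_of_dvd_pow h
      refine key ?_ h1
      have := dvd_sub hqc (Dvd.dvd.mul_left h1 16)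
      rwa [add_sub_cancel_right] at this
  exact ⟨_, hΔ, hss⟩

theorem false_of_pp2 {p N : ℕ} (hp : p.Prime) (hp2 : p ≠ 2) (hN : N ∈ levels) {X Y z : ℤ}
    (hz : z ^ 2 = X + 64 * Y) (hodd : Odd z) (hcop : IsCoprime X Y) (hX : X ≠ 0) (hY : Y ≠ 0)
    (hPX : Pw p N X) (hPY : Pw p N Y) (hirr : Irr p (X * Y ^ 2)) : False := by
  obtain ⟨W, hΔ, hss⟩ := curve_pp2 hz hodd hcop
  refine false_of_level hp hp2 ?_ hss (hirr _ hΔ hss) hN ?_
  · rw [hΔ]
    exact mul_ne_zero hX (pow_ne_zero 2 hY)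
  · rw [hΔ]
    exact hPX.mul (hPY.pow 2) hX (pow_ne_zero 2 hY)

/-! ### Signature `(p, p, 3)` -/

/-- **The curve of signature `(p, p, 3)`** -/
theorem curve_pp3 {X Y z : ℤ} (hz : z ^ 3 = X + 27 * Y) (h3 : ¬ (3 : ℤ) ∣ X)
    (hcop : IsCoprime X Y) : ∃ W : WeierstrassCurve ℤ, W.Δ = X * Y ^ 3 ∧ W.IsSemistableModel := by
  have hΔ : (⟨z, 0, Y, 0, 0⟩ : WeierstrassCurve ℤ).Δ = X * Y ^ 3 := by
    simp only [WeierstrassCurve.Δ, b₂, b₄, b₆, b₈]
    linear_combination Y ^ 3 * hz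
  have hc : (⟨z, 0, Y, 0, 0⟩ : WeierstrassCurve ℤ).c₄ = z * (X + 3 * Y) := by
    simp only [WeierstrassCurve.c₄, b₂, b₄]
    linear_combination z * hz
  have hss : (⟨z, 0, Y, 0, 0⟩ : WeierstrassCurve ℤ).IsSemistableModel := by
    intro q hq hqΔ hqc
    rw [hΔ] at hqΔ
    rw [hc] at hqc
    have hqq : Prime (q : ℤ) := Nat.prime_iff_prime_int.mp hq
    have key : (q : ℤ) ∣ X → (q : ℤ) ∣ Y → False := fun h h' =>
      hqq.not_isUnit (hcop.isUnit_of_dvd' h h')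
    have key3 : ∀ n : ℕ, (q : ℤ) ∣ 3 ^ n → (q : ℤ) ∣ X → False := by
      intro n hn hqX
      have h4 := hqq.dvd_of_dvd_pow hn
      have h5 : q = 3 := (Nat.prime_dvd_prime_iff_eq hq Nat.prime_three).mp (by exact_mod_cast h4)
      subst h5
      exact h3 (by exact_mod_cast hqX)
    rcases hqq.dvd_or_dvd hqΔ with h | h
    · have h1 : (q : ℤ) ∣ 3 ^ 3 * Y ∨ (q : ℤ) ∣ 3 ^ 1 * Y := by
        rcases hqq.dvd_or_dvd hqc with hc' | hc'
        · left
          have h5 : (q : ℤ) ∣ z ^ 3 := dvd_pow hc' (by norm_num)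
          rw [hz] at h5
          have := dvd_sub h5 h
          rw [add_sub_cancel_left] at this
          norm_num
          exact this
        · right
          have := dvd_sub hc' h
          rw [add_sub_cancel_left] at this
          norm_num
          exact this
      rcases h1 with h1 | h1
      · rcases hqq.dvd_or_dvd h1 with h2 | h2
        · exact key3 3 h2 h
        · exact key h h2
      · rcases hqq.dvd_or_dvd h1 with h2 | h2
        · exact key3 1 h2 h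
        · exact key h h2
    · have h1 := hqq.dvd_of_dvd_pow h
      refine key ?_ h1
      rcases hqq.dvd_or_dvd hqc with hc' | hc'
      · have h5 : (q : ℤ) ∣ z ^ 3 := dvd_pow hc' (by norm_num)
        rw [hz] at h5
        have := dvd_sub h5 (Dvd.dvd.mul_left h1 27)
        rwa [add_sub_cancel_right] at this
      · have := dvd_sub hc' (Dvd.dvd.mul_left h1 3)
        rwa [add_sub_cancel_right] at this
  exact ⟨_, hΔ, hss⟩

theorem false_of_pp3 {p N : ℕ} (hp : p.Prime) (hp2 : p ≠ 2) (hN : N ∈ levels) {X Y z : ℤ}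
    (hz : z ^ 3 = X + 27 * Y) (h3 : ¬ (3 : ℤ) ∣ X) (hcop : IsCoprime X Y) (hX : X ≠ 0)
    (hY : Y ≠ 0) (hPX : Pw p N X) (hPY : Pw p N Y) (hirr : Irr p (X * Y ^ 3)) : False := by
  obtain ⟨W, hΔ, hss⟩ := curve_pp3 hz h3 hcop
  refine false_of_level hp hp2 ?_ hss (hirr _ hΔ hss) hN ?_
  · rw [hΔ]
    exact mul_ne_zero hX (pow_ne_zero 3 hY)
  · rw [hΔ]
    exact hPX.mul (hPY.pow 3) hX (pow_ne_zero 3 hY)

/-! ### Signature `(2, 3, p)` -/

/-- a semistable model with given coprime invariants `c₄`, `c₆` (a case of Kraus' theorem) -/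
theorem exists_model {u v D : ℤ} (h : u ^ 3 - v ^ 2 = 1728 * D) (hcop : IsCoprime u v)
    (hv4 : v % 4 = 3) : ∃ W : WeierstrassCurve ℤ, W.c₄ = u ∧ W.c₆ = v ∧ W.Δ = D := by
  have h2u : ¬ (2 : ℤ) ∣ u := by
    intro h2
    have h3 : (2 : ℤ) ∣ v ^ 2 := by
      have e : v ^ 2 = u ^ 3 - 1728 * D := by linear_combination -h
      rw [e]
      exact dvd_sub (dvd_pow h2 (by norm_num)) ⟨864 * D, by ring⟩
    exact Int.prime_two.not_isUnit (hcop.isUnit_of_dvd' h2 (Int.prime_two.dvd_of_dvd_pow h3))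
  have h3u : ¬ (3 : ℤ) ∣ u := by
    intro h2
    have h3 : (3 : ℤ) ∣ v ^ 2 := by
      have e : v ^ 2 = u ^ 3 - 1728 * D := by linear_combination -h
      rw [e]
      exact dvd_sub (dvd_pow h2 (by norm_num)) ⟨576 * D, by ring⟩
    exact Int.prime_three.not_isUnit (hcop.isUnit_of_dvd' h2 (Int.prime_three.dvd_of_dvd_pow h3))
  have hc6 : IsCoprime u (1728 : ℤ) := by
    have h2 : IsCoprime u (2 : ℤ) := ((Int.prime_two.coprime_iff_not_dvd).mpr h2u).symm
    have h3 : IsCoprime u (3 : ℤ) := ((Int.prime_three.coprime_iff_not_dvd).mpr h3u).symm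
    have e : (1728 : ℤ) = 2 ^ 6 * 3 ^ 3 := by norm_num
    rw [e]
    exact (h2.pow_right).mul_right (h3.pow_right)
  obtain ⟨r, s, hrs⟩ := id hc6
  -- `b` with `b u ≡ - v mod 1728`
  obtain ⟨b, k, hb⟩ : ∃ b k : ℤ, b * u = -v + 1728 * k :=
    ⟨-v * r, v * s, by linear_combination (-v) * hrs⟩
  obtain ⟨a4, ha4⟩ : (1728 : ℤ) ∣ b ^ 2 - u := by
    refine (hc6.pow_left (m := 2)).symm.dvd_of_dvd_mul_left (?_ : (1728 : ℤ) ∣ u ^ 2 * (b ^ 2 - u))
    refine ⟨-(2 * v * k) + 1728 * k ^ 2 - D, ?_⟩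
    linear_combination (b * u + (-v + 1728 * k)) * hb - h
  obtain ⟨a6, ha6⟩ : (1728 : ℤ) ∣ b ^ 3 - 3 * b * u - 2 * v := by
    refine (hc6.pow_left (m := 3)).symm.dvd_of_dvd_mul_left
      (?_ : (1728 : ℤ) ∣ u ^ 3 * (b ^ 3 - 3 * b * u - 2 * v))
    refine ⟨v * D + 3 * v ^ 2 * k - 3 * v * (1728 * k ^ 2) + 1728 ^ 2 * k ^ 3 - 3 * k * u ^ 3, ?_⟩
    linear_combination ((b * u) ^ 2 + b * u * (-v + 1728 * k) + (-v + 1728 * k) ^ 2 - 3 * u ^ 3) * hb
      + v * h
  have hu4 : u % 4 = 1 := by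
    have h5 : (u ^ 3 - v ^ 2) % 4 = 0 := by rw [h]; omega
    have h6 : v ^ 2 % 4 = 1 := by
      rw [pow_two, Int.mul_emod, hv4]; norm_num
    have h7 : u % 4 = 0 ∨ u % 4 = 1 ∨ u % 4 = 2 ∨ u % 4 = 3 := by omega
    have h8 : u ^ 3 % 4 = 1 := by omega
    rcases h7 with h7 | h7 | h7 | h7
    · exfalso; omega
    · exact h7
    · exfalso; omega
    · exfalso
      have : u ^ 3 % 4 = 3 := by
        rw [pow_succ, pow_two, Int.mul_emod, Int.mul_emod u u, h7]; norm_num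
      omega
  have hb4 : b % 4 = 1 := by
    have h5 : (b * u) % 4 = 1 := by rw [hb]; omega
    rw [Int.mul_emod, hu4] at h5
    omega
  obtain ⟨a2, ha2⟩ : ∃ a2 : ℤ, b = 4 * a2 + 1 := ⟨b / 4, by omega⟩
  have e4 : (⟨1, a2, 0, 36 * a4, a6⟩ : WeierstrassCurve ℤ).c₄ = u := by
    simp only [WeierstrassCurve.c₄, b₂, b₄]
    rw [ha2] at ha4
    linear_combination ha4
  have e6 : (⟨1, a2, 0, 36 * a4, a6⟩ : WeierstrassCurve ℤ).c₆ = v := by
    simp only [WeierstrassCurve.c₆, b₂, b₄, b₆]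
    have h2 : 2 * (-(4 * a2 + 1) ^ 3 + 36 * (4 * a2 + 1) * (2 * (36 * a4)) - 216 * (4 * a6)) =
        2 * v := by
      rw [ha2] at ha4 ha6
      linear_combination -3 * (4 * a2 + 1) * ha4 + ha6
    linarith
  refine ⟨_, e4, e6, ?_⟩
  have h9 := (⟨1, a2, 0, 36 * a4, a6⟩ : WeierstrassCurve ℤ).c_relation
  rw [e4, e6, h] at h9
  linarith

/-- **The curve of signature `(2, 3, p)`** -/
theorem curve_23p {u v D : ℤ} (h : u ^ 3 - v ^ 2 = 1728 * D) (hcop : IsCoprime u v) :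
    ∃ W : WeierstrassCurve ℤ, W.Δ = D ∧ W.IsSemistableModel := by
  have key : ∀ v : ℤ, u ^ 3 - v ^ 2 = 1728 * D → IsCoprime u v → v % 4 = 3 →
      ∃ W : WeierstrassCurve ℤ, W.Δ = D ∧ W.IsSemistableModel := by
    intro v h hcop hv4
    obtain ⟨W, h4, h6, hΔ⟩ := exists_model h hcop hv4
    refine ⟨W, hΔ, ?_⟩
    intro q hq hqΔ hqc
    have hqq : Prime (q : ℤ) := Nat.prime_iff_prime_int.mp hq
    rw [hΔ] at hqΔ
    rw [h4] at hqc
    have h1 : (q : ℤ) ∣ v ^ 2 := by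
      have e : v ^ 2 = u ^ 3 - 1728 * D := by linear_combination -h
      rw [e]
      exact dvd_sub (dvd_pow hqc (by norm_num)) (Dvd.dvd.mul_left hqΔ _)
    exact hqq.not_isUnit (hcop.isUnit_of_dvd' hqc (hqq.dvd_of_dvd_pow h1))
  have hvodd : ¬ (2 : ℤ) ∣ v := by
    intro h2
    have h3 : (2 : ℤ) ∣ u ^ 3 := by
      have e : u ^ 3 = v ^ 2 + 1728 * D := by linear_combination h
      rw [e]
      exact dvd_add (dvd_pow h2 (by norm_num)) ⟨864 * D, by ring⟩
    exact Int.prime_two.not_isUnit (hcop.isUnit_of_dvd' (Int.prime_two.dvd_of_dvd_pow h3) h2)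
  rcases (show v % 4 = 3 ∨ (-v) % 4 = 3 by omega) with h4 | h4
  · exact key v h hcop h4
  · exact key (-v) (by rw [neg_pow_two]; exact h) (IsCoprime.neg_right_iff u v |>.mpr hcop) h4

theorem false_of_23p {p N : ℕ} (hp : p.Prime) (hp2 : p ≠ 2) (hN : N ∈ levels) {u v D : ℤ}
    (h : u ^ 3 - v ^ 2 = 1728 * D) (hcop : IsCoprime u v) (hD : D ≠ 0) (hPD : Pw p N D)
    (hirr : Irr p D) : False := by
  obtain ⟨W, hΔ, hss⟩ := curve_23p h hcop
  refine false_of_level hp hp2 ?_ hss (hirr _ hΔ hss) hN ?_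
  · rw [hΔ]
    exact hD
  · rw [hΔ]
    exact hPD

/-! ### `N`-units -/

/-- all prime factors of `A` divide `N` -/
def Supp (N : ℕ) (A : ℤ) : Prop := ∀ q : ℕ, q.Prime → (q : ℤ) ∣ A → q ∣ N

theorem Supp.mul {N : ℕ} {A B : ℤ} (hA : Supp N A) (hB : Supp N B) : Supp N (A * B) := by
  intro q hq h
  rcases (Nat.prime_iff_prime_int.mp hq).dvd_or_dvd h with h | h
  · exact hA q hq h
  · exact hB q hq h

theorem Supp.pow {N : ℕ} {A : ℤ} (hA : Supp N A) (n : ℕ) : Supp N (A ^ n) := fun q hq h =>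
  hA q hq ((Nat.prime_iff_prime_int.mp hq).dvd_of_dvd_pow h)

theorem supp_prime {N L : ℕ} (hL : L.Prime) (hLN : L ∣ N) : Supp N (L : ℤ) := by
  intro q hq h
  have h1 : q = L := (Nat.prime_dvd_prime_iff_eq hq hL).mp (by exact_mod_cast h)
  rwa [h1]

theorem supp_one (N : ℕ) : Supp N 1 := by
  intro q hq h
  exact absurd (isUnit_of_dvd_one h) (Nat.prime_iff_prime_int.mp hq).not_isUnit

theorem supp_neg {N : ℕ} {A : ℤ} (hA : Supp N A) : Supp N (-A) := fun q hq h =>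
  hA q hq ((dvd_neg).mp h)

/-- there is no semistable curve all of whose bad primes divide `N` -/
theorem false_of_supp {N : ℕ} (hN : N ∈ levels) {W : WeierstrassCurve ℤ} (hΔ : W.Δ ≠ 0)
    (hss : W.IsSemistableModel) (h : Supp N W.Δ) : False := by
  obtain ⟨h1, h2⟩ := Fermat.Agent.Main.eleven_le_conductor W hΔ hss
  have h3 : ∏ q ∈ W.Δ.natAbs.primeFactors, q ∣ N := by
    refine Finset.prod_primes_dvd _ (fun ℓ hℓ => (Nat.prime_of_mem_primeFactors hℓ).prime)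
      fun ℓ hℓ => ?_
    exact h ℓ (Nat.prime_of_mem_primeFactors hℓ)
      (Int.natCast_dvd.mpr (Nat.dvd_of_mem_primeFactors hℓ))
  rcases dvd_cases hN h3 with h4 | h4
  · omega
  · exact h2 h4

end Fermat.Agent.Cor.H22G
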