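import Fermat.Agent.Cor.H22Gen
import Fermat.Agent.Cor.H07Irr

/-!
# Generalised Fermat equations of signature `(p, p, 2)`, `(p, p, 3)` and `(2, 3, p)`

Let `N ∈ {1, 2, 3, 5, 6, 7, 10, 13}`, let `A`, `B` be nonzero integers all of whose prime factors divide `N`, and `p` an
odd prime such that `W[p]` is irreducible for the semistable curves `W` in question (`Irr`, `IrrAll`). Then

* `pp2_ne`: `A x ^ p + 64 B y ^ p ≠ z ^ 2` if `A x` is odd, `A x` and `B y` are coprime;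
  in particular (`two_pow_ne`) `A x ^ p + 2 ^ a B y ^ p ≠ z ^ 2` for `a ≥ 6`, `2 ∣ N`, and (`add_pow_ne_sq`)
  `x ^ p + y ^ p ≠ z ^ 2` if `x y` is even (Darmon–Merel, Bennett–Skinner);
* `pp3_ne`: `A x ^ p + 27 B y ^ p ≠ z ^ 3` if `3 ∤ A x`, `A x` and `B y` are coprime; in particular (`three_pow_ne`)
  `A x ^ p + 3 ^ a B y ^ p ≠ z ^ 3` for `a ≥ 3`, `3 ∣ N`, and (`add_pow_ne_cube`) `x ^ p + y ^ p ≠ z ^ 3` if `3 ∣ x y`;
* `e23p_ne`: `u ^ 3 - v ^ 2 ≠ 1728 A w ^ p` if `u`, `v` are coprime.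

The hypothesis of irreducibility holds for all `p ≥ 7` if the discriminant is odd (`pp2_ne_odd`, `pp3_ne_odd`,
`e23p_ne_odd`); for `p ≥ 11`, `p ≠ 13` it always holds, by Mazur's theorem for semistable curves.

* `units_pp2`, `units_pp3`, `units_23`: the analogous statements for `N`-units (no hypothesis at all).

This file is not used by any of the statement files.
-/

set_option autoImplicit false

namespace Fermat.Agent.Cor.H22G

open WeierstrassCurve

/-! ### Irreducibility -/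

theorem irr_of_odd {p : ℕ} (hp : p.Prime) (hp7 : 7 ≤ p) {D : ℤ} (hD : D ≠ 0)
    (h2 : ¬ (2 : ℤ) ∣ D) : Irr p D := by
  intro W hW hss
  exact H07.irreducible_of_good_two (by rw [hW]; exact hD) hss (by rw [hW]; exact h2) hp hp7

theorem irr_of_three_or_five {p : ℕ} (hp : p.Prime) (hp11 : 11 ≤ p) {D : ℤ} (hD : D ≠ 0)
    (h : ¬ (3 : ℤ) ∣ D ∨ ¬ (5 : ℤ) ∣ D) : Irr p D := by
  intro W hW hss
  exact H07.irreducible_of_good_three_or_five (by rw [hW]; exact hD) hss (by rw [hW]; exact h) hp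
    hp11

/-- `W[p]` is irreducible for all semistable curves `W` -/
def IrrAll (p : ℕ) : Prop := ∀ D : ℤ, D ≠ 0 → Irr p D

/-! ### The general equations -/

theorem cop_pow {A B x y : ℤ} (h : IsCoprime (A * x) (B * y)) (n : ℕ) :
    IsCoprime (A * x ^ n) (B * y ^ n) := by
  have h1 := h.of_mul_left_left
  have h2 := h.of_mul_left_right
  refine IsCoprime.mul_left ?_ (IsCoprime.pow_left ?_)
  · exact IsCoprime.mul_right h1.of_mul_right_left h1.of_mul_right_right.pow_right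
  · exact IsCoprime.mul_right h2.of_mul_right_left h2.of_mul_right_right.pow_right

/-- **Signature `(p, p, 2)`.** -/
theorem pp2_ne {p N : ℕ} (hp : p.Prime) (hp2 : p ≠ 2) (hN : N ∈ levels) {A B x y z : ℤ}
    (hA : Supp N A) (hB : Supp N B) (h0 : A * B * x * y ≠ 0) (hodd : Odd (A * x))
    (hcop : IsCoprime (A * x) (B * y)) (hirr : Irr p (A * x ^ p * (B * y ^ p) ^ 2)) :
    A * x ^ p + 64 * (B * y ^ p) ≠ z ^ 2 := by
  intro h
  have hy : y ≠ 0 := right_ne_zero_of_mul h0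
  have hx : x ≠ 0 := right_ne_zero_of_mul (left_ne_zero_of_mul h0)
  have hB0 : B ≠ 0 := right_ne_zero_of_mul (left_ne_zero_of_mul (left_ne_zero_of_mul h0))
  have hA0 : A ≠ 0 := left_ne_zero_of_mul (left_ne_zero_of_mul (left_ne_zero_of_mul h0))
  rw [Int.odd_mul] at hodd
  have hz : Odd z := by
    have h1 : Odd (z ^ 2) := by
      rw [← h]
      exact (hodd.1.mul (hodd.2.pow)).add_even ⟨32 * (B * y ^ p), by ring⟩
    exact (Int.odd_pow' two_ne_zero).mp h1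
  exact false_of_pp2 hp hp2 hN h.symm hz (cop_pow hcop p) (mul_ne_zero hA0 (pow_ne_zero _ hx))
    (mul_ne_zero hB0 (pow_ne_zero _ hy))
    ((pw_of_supp hA).mul (pw_pow p N x) hA0 (pow_ne_zero _ hx))
    ((pw_of_supp hB).mul (pw_pow p N y) hB0 (pow_ne_zero _ hy)) hirr

/-- **Signature `(p, p, 3)`.** -/
theorem pp3_ne {p N : ℕ} (hp : p.Prime) (hp2 : p ≠ 2) (hN : N ∈ levels) {A B x y z : ℤ}
    (hA : Supp N A) (hB : Supp N B) (h0 : A * B * x * y ≠ 0) (h3 : ¬ (3 : ℤ) ∣ A * x)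
    (hcop : IsCoprime (A * x) (B * y)) (hirr : Irr p (A * x ^ p * (B * y ^ p) ^ 3)) :
    A * x ^ p + 27 * (B * y ^ p) ≠ z ^ 3 := by
  intro h
  have hy : y ≠ 0 := right_ne_zero_of_mul h0
  have hx : x ≠ 0 := right_ne_zero_of_mul (left_ne_zero_of_mul h0)
  have hB0 : B ≠ 0 := right_ne_zero_of_mul (left_ne_zero_of_mul (left_ne_zero_of_mul h0))
  have hA0 : A ≠ 0 := left_ne_zero_of_mul (left_ne_zero_of_mul (left_ne_zero_of_mul h0))
  have h3' : ¬ (3 : ℤ) ∣ A * x ^ p := by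
    intro hd
    rcases Int.prime_three.dvd_or_dvd hd with hd | hd
    · exact h3 (Dvd.dvd.mul_right hd _)
    · exact h3 (Dvd.dvd.mul_left (Int.prime_three.dvd_of_dvd_pow hd) _)
  exact false_of_pp3 hp hp2 hN h.symm h3' (cop_pow hcop p) (mul_ne_zero hA0 (pow_ne_zero _ hx))
    (mul_ne_zero hB0 (pow_ne_zero _ hy))
    ((pw_of_supp hA).mul (pw_pow p N x) hA0 (pow_ne_zero _ hx))
    ((pw_of_supp hB).mul (pw_pow p N y) hB0 (pow_ne_zero _ hy)) hirr

/-- **Signature `(2, 3, p)`.** -/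
theorem e23p_ne {p N : ℕ} (hp : p.Prime) (hp2 : p ≠ 2) (hN : N ∈ levels) {A u v w : ℤ}
    (hA : Supp N A) (h0 : A * w ≠ 0) (hcop : IsCoprime u v) (hirr : Irr p (A * w ^ p)) :
    u ^ 3 - v ^ 2 ≠ 1728 * (A * w ^ p) := by
  intro h
  have hw : w ≠ 0 := right_ne_zero_of_mul h0
  have hA0 : A ≠ 0 := left_ne_zero_of_mul h0
  exact false_of_23p hp hp2 hN h hcop (mul_ne_zero hA0 (pow_ne_zero _ hw))
    ((pw_of_supp hA).mul (pw_pow p N w) hA0 (pow_ne_zero _ hw)) hirr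

/-! ### Odd discriminants: all primes `p ≥ 7` -/

/-- **Signature `(p, p, 2)`, `p ≥ 7`, `x y` odd**: `A x ^ p + 64 B y ^ p` is not a square. -/
theorem pp2_ne_odd {p N : ℕ} (hp : p.Prime) (hp7 : 7 ≤ p) (hN : N ∈ levels) {A B x y z : ℤ}
    (hA : Supp N A) (hB : Supp N B) (hx : Odd (A * x)) (hy : Odd (B * y))
    (hcop : IsCoprime (A * x) (B * y)) : A * x ^ p + 64 * (B * y ^ p) ≠ z ^ 2 := by
  have hx' := hx
  have hy' := hy
  rw [Int.odd_mul] at hx' hy'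
  have hne : ∀ {a : ℤ}, Odd a → a ≠ 0 := by
    rintro a ha rfl
    exact absurd ha (by decide)
  have hodd : Odd (A * x ^ p * (B * y ^ p) ^ 2) :=
    (hx'.1.mul hx'.2.pow).mul (hy'.1.mul hy'.2.pow).pow
  refine pp2_ne hp (by omega) hN hA hB ?_ hx hcop (irr_of_odd hp hp7 (hne hodd) ?_)
  · exact mul_ne_zero (mul_ne_zero (mul_ne_zero (hne hx'.1) (hne hy'.1)) (hne hx'.2)) (hne hy'.2)
  · intro h
    exact (Int.not_even_iff_odd.mpr hodd) (even_iff_two_dvd.mpr h)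

/-- **Signature `(p, p, 3)`, `p ≥ 7`, `x y` odd**: `A x ^ p + 27 B y ^ p` is not a cube. -/
theorem pp3_ne_odd {p N : ℕ} (hp : p.Prime) (hp7 : 7 ≤ p) (hN : N ∈ levels) {A B x y z : ℤ}
    (hA : Supp N A) (hB : Supp N B) (hx : Odd (A * x)) (hy : Odd (B * y))
    (h3 : ¬ (3 : ℤ) ∣ A * x) (hcop : IsCoprime (A * x) (B * y)) :
    A * x ^ p + 27 * (B * y ^ p) ≠ z ^ 3 := by
  have hx' := hx
  have hy' := hy
  rw [Int.odd_mul] at hx' hy'
  have hne : ∀ {a : ℤ}, Odd a → a ≠ 0 := by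
    rintro a ha rfl
    exact absurd ha (by decide)
  have hodd : Odd (A * x ^ p * (B * y ^ p) ^ 3) :=
    (hx'.1.mul hx'.2.pow).mul (hy'.1.mul hy'.2.pow).pow
  refine pp3_ne hp (by omega) hN hA hB ?_ h3 hcop (irr_of_odd hp hp7 (hne hodd) ?_)
  · exact mul_ne_zero (mul_ne_zero (mul_ne_zero (hne hx'.1) (hne hy'.1)) (hne hx'.2)) (hne hy'.2)
  · intro h
    exact (Int.not_even_iff_odd.mpr hodd) (even_iff_two_dvd.mpr h)

/-- **Signature `(2, 3, p)`, `p ≥ 7`, `w` odd.** -/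
theorem e23p_ne_odd {p N : ℕ} (hp : p.Prime) (hp7 : 7 ≤ p) (hN : N ∈ levels) {A u v w : ℤ}
    (hA : Supp N A) (hw : Odd (A * w)) (hcop : IsCoprime u v) :
    u ^ 3 - v ^ 2 ≠ 1728 * (A * w ^ p) := by
  have hw' := hw
  rw [Int.odd_mul] at hw'
  have hne : ∀ {a : ℤ}, Odd a → a ≠ 0 := by
    rintro a ha rfl
    exact absurd ha (by decide)
  have hodd : Odd (A * w ^ p) := hw'.1.mul hw'.2.pow
  refine e23p_ne hp (by omega) hN hA (hne hw) hcop (irr_of_odd hp hp7 (hne hodd) ?_)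
  intro h
  exact (Int.not_even_iff_odd.mpr hodd) (even_iff_two_dvd.mpr h)

/-- For every prime `p ≥ 7` and coprime odd integers `x`, `y`, the integer `x ^ p + 64 y ^ p` is not a square. -/
theorem add_sixtyfour_ne_sq {p : ℕ} (hp : p.Prime) (hp7 : 7 ≤ p) {x y z : ℤ} (hx : Odd x)
    (hy : Odd y) (hcop : IsCoprime x y) : x ^ p + 64 * y ^ p ≠ z ^ 2 := by
  have := pp2_ne_odd (A := 1) (B := 1) (x := x) (y := y) (z := z) hp hp7 (N := 1) (by decide) (supp_one 1)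
    (supp_one 1) (by rwa [one_mul]) (by rwa [one_mul]) (by rwa [one_mul, one_mul])
  rwa [one_mul, one_mul] at this

/-- For every prime `p ≥ 7`, `a ≥ 3`, and coprime odd integers `x`, `y` with `3 ∤ x`, the integer `x ^ p + 3 ^ a y ^ p`
is not a cube. -/
theorem add_three_pow_ne_cube_odd {p : ℕ} (hp : p.Prime) (hp7 : 7 ≤ p) {x y z : ℤ} {a : ℕ}
    (ha : 3 ≤ a) (hx : Odd x) (hy : Odd y) (h3 : ¬ (3 : ℤ) ∣ x) (hcop : IsCoprime x y) :
    x ^ p + 3 ^ a * y ^ p ≠ z ^ 3 := by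
  obtain ⟨b, rfl⟩ := Nat.exists_eq_add_of_le ha
  have hs : Supp 3 ((3 : ℤ) ^ b) := (supp_prime Nat.prime_three dvd_rfl).pow b
  have := pp3_ne_odd (A := 1) (B := 3 ^ b) (x := x) (y := y) (z := z) hp hp7 (N := 3) (by decide)
    (supp_one 3) hs (by rwa [one_mul]) ((Odd.pow (by decide)).mul hy) (by rwa [one_mul])
    (by
      rw [one_mul]
      exact IsCoprime.mul_right ((Int.prime_three.coprime_iff_not_dvd.mpr h3).symm.pow_right) hcop)
  intro h
  apply this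
  rw [← h]
  ring

/-- For every prime `p ≥ 7`, coprime integers `u`, `v` and every odd integer `w`: `u ^ 3 - v ^ 2 ≠ 1728 w ^ p`. -/
theorem cube_sub_sq_ne_odd {p : ℕ} (hp : p.Prime) (hp7 : 7 ≤ p) {u v w : ℤ} (hw : Odd w)
    (hcop : IsCoprime u v) : u ^ 3 - v ^ 2 ≠ 1728 * w ^ p := by
  have := e23p_ne_odd (A := 1) hp hp7 (N := 1) (by decide) (supp_one 1) (w := w)
    (by rwa [one_mul]) hcop
  rwa [one_mul] at this

/-! ### All discriminants: primes with irreducibility for all semistable curves -/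

section All

variable {p : ℕ} (hp : p.Prime) (hp7 : 7 ≤ p) (hI : IrrAll p)

include hp hp7 hI

/-- **`A x ^ p + 2 ^ a B y ^ p = z ^ 2`, `a ≥ 6`** (the prime factors of `A`, `B` divide `N`, `N = 2, 6, 10`). -/
theorem two_pow_ne {N : ℕ} (hN : N ∈ ({2, 6, 10} : Finset ℕ)) {A B x y z : ℤ} (hA : Supp N A)
    (hB : Supp N B) (h0 : A * B * x * y ≠ 0) (hodd : Odd (A * x))
    (hcop : IsCoprime (A * x) (B * y)) {a : ℕ} (ha : 6 ≤ a) :
    A * x ^ p + 2 ^ a * (B * y ^ p) ≠ z ^ 2 := by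
  obtain ⟨b, rfl⟩ := Nat.exists_eq_add_of_le ha
  have hN' : N ∈ levels ∧ 2 ∣ N := by
    simp only [Finset.mem_insert, Finset.mem_singleton] at hN
    rcases hN with rfl | rfl | rfl <;> decide
  have hs : Supp N ((2 : ℤ) ^ b * B) := ((supp_prime Nat.prime_two hN'.2).pow b).mul hB
  have hc2 : IsCoprime (A * x) (2 : ℤ) := (Int.prime_two.coprime_iff_not_dvd.mpr fun h =>
    (Int.not_even_iff_odd.mpr hodd) (even_iff_two_dvd.mpr h)).symm
  have h0' : A * (2 ^ b * B) * x * y ≠ 0 := by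
    have e : A * (2 ^ b * B) * x * y = 2 ^ b * (A * B * x * y) := by ring
    rw [e]
    exact mul_ne_zero (pow_ne_zero _ two_ne_zero) h0
  have := pp2_ne (z := z) hp (by omega) hN'.1 hA hs h0' hodd (by
    rw [mul_assoc]
    exact IsCoprime.mul_right hc2.pow_right hcop) (hI _ (by
      have hy : y ≠ 0 := right_ne_zero_of_mul h0'
      have hx : x ≠ 0 := right_ne_zero_of_mul (left_ne_zero_of_mul h0')
      have hB0 := right_ne_zero_of_mul (left_ne_zero_of_mul (left_ne_zero_of_mul h0'))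
      have hA0 : A ≠ 0 := left_ne_zero_of_mul (left_ne_zero_of_mul (left_ne_zero_of_mul h0'))
      exact mul_ne_zero (mul_ne_zero hA0 (pow_ne_zero _ hx))
        (pow_ne_zero _ (mul_ne_zero hB0 (pow_ne_zero _ hy)))))
  intro h
  apply this
  rw [← h]
  ring

/-- **`A x ^ p + 3 ^ a B y ^ p = z ^ 3`, `a ≥ 3`** (the prime factors of `A`, `B` divide `N`, `N = 3, 6`). -/
theorem three_pow_ne {N : ℕ} (hN : N ∈ ({3, 6} : Finset ℕ)) {A B x y z : ℤ} (hA : Supp N A)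
    (hB : Supp N B) (h0 : A * B * x * y ≠ 0) (h3 : ¬ (3 : ℤ) ∣ A * x)
    (hcop : IsCoprime (A * x) (B * y)) {a : ℕ} (ha : 3 ≤ a) :
    A * x ^ p + 3 ^ a * (B * y ^ p) ≠ z ^ 3 := by
  obtain ⟨b, rfl⟩ := Nat.exists_eq_add_of_le ha
  have hN' : N ∈ levels ∧ 3 ∣ N := by
    simp only [Finset.mem_insert, Finset.mem_singleton] at hN
    rcases hN with rfl | rfl <;> decide
  have hs : Supp N ((3 : ℤ) ^ b * B) := ((supp_prime Nat.prime_three hN'.2).pow b).mul hB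
  have hc3 : IsCoprime (A * x) (3 : ℤ) := (Int.prime_three.coprime_iff_not_dvd.mpr h3).symm
  have h0' : A * (3 ^ b * B) * x * y ≠ 0 := by
    have e : A * (3 ^ b * B) * x * y = 3 ^ b * (A * B * x * y) := by ring
    rw [e]
    exact mul_ne_zero (pow_ne_zero _ three_ne_zero) h0
  have := pp3_ne (z := z) hp (by omega) hN'.1 hA hs h0' h3 (by
    rw [mul_assoc]
    exact IsCoprime.mul_right hc3.pow_right hcop) (hI _ (by
      have hy : y ≠ 0 := right_ne_zero_of_mul h0'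
      have hx : x ≠ 0 := right_ne_zero_of_mul (left_ne_zero_of_mul h0')
      have hB0 := right_ne_zero_of_mul (left_ne_zero_of_mul (left_ne_zero_of_mul h0'))
      have hA0 : A ≠ 0 := left_ne_zero_of_mul (left_ne_zero_of_mul (left_ne_zero_of_mul h0'))
      exact mul_ne_zero (mul_ne_zero hA0 (pow_ne_zero _ hx))
        (pow_ne_zero _ (mul_ne_zero hB0 (pow_ne_zero _ hy)))))
  intro h
  apply this
  rw [← h]
  ring

/-- `x ^ p + 2 ^ a y ^ p = z ^ 2`, `a ≥ 6`, `x` odd -/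
theorem add_two_pow_ne_sq {x y z : ℤ} (hx : Odd x) (hy : y ≠ 0) (hcop : IsCoprime x y) {a : ℕ}
    (ha : 6 ≤ a) : x ^ p + 2 ^ a * y ^ p ≠ z ^ 2 := by
  have hx0 : x ≠ 0 := by
    rintro rfl
    exact absurd hx (by decide)
  have := two_pow_ne hp hp7 hI (N := 2) (by decide) (A := 1) (B := 1) (x := x) (y := y) (z := z)
    (supp_one 2) (supp_one 2) (by
      rw [one_mul, one_mul]
      exact mul_ne_zero hx0 hy) (by rwa [one_mul]) (by rwa [one_mul, one_mul]) ha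
  rwa [one_mul, one_mul] at this

/-- `x ^ p + 3 ^ a y ^ p = z ^ 3`, `a ≥ 3`, `3 ∤ x` -/
theorem add_three_pow_ne_cube {x y z : ℤ} (hx : ¬ (3 : ℤ) ∣ x) (hy : y ≠ 0)
    (hcop : IsCoprime x y) {a : ℕ} (ha : 3 ≤ a) : x ^ p + 3 ^ a * y ^ p ≠ z ^ 3 := by
  have hx0 : x ≠ 0 := by
    rintro rfl
    exact hx (dvd_zero _)
  have := three_pow_ne hp hp7 hI (N := 3) (by decide) (A := 1) (B := 1) (x := x) (y := y) (z := z)
    (supp_one 3) (supp_one 3) (by
      rw [one_mul, one_mul]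
      exact mul_ne_zero hx0 hy) (by rwa [one_mul]) (by rwa [one_mul, one_mul]) ha
  rwa [one_mul, one_mul] at this

/-- **`x ^ p + y ^ p = z ^ 2`, `x y` even** (a case of the theorem of Darmon and Merel). -/
theorem add_pow_ne_sq {x y z : ℤ} (hcop : IsCoprime x y) (h0 : x * y ≠ 0)
    (h2 : (2 : ℤ) ∣ x * y) : x ^ p + y ^ p ≠ z ^ 2 := by
  have key : ∀ x y : ℤ, IsCoprime x y → y ≠ 0 → (2 : ℤ) ∣ y → x ^ p + y ^ p ≠ z ^ 2 := by
    intro x y hcop hy h2
    obtain ⟨t, rfl⟩ := h2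
    have hx : Odd x := by
      rw [← Int.not_even_iff_odd, even_iff_two_dvd]
      intro h
      exact Int.prime_two.not_isUnit (hcop.isUnit_of_dvd' h (dvd_mul_right 2 t))
    rw [mul_pow]
    exact add_two_pow_ne_sq hp hp7 hI hx (right_ne_zero_of_mul hy) hcop.of_mul_right_right
      (by omega)
  rcases Int.prime_two.dvd_or_dvd h2 with h | h
  · rw [add_comm]
    exact key y x hcop.symm (left_ne_zero_of_mul h0) h
  · exact key x y hcop (right_ne_zero_of_mul h0) h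

/-- **`x ^ p + y ^ p = z ^ 3`, `3 ∣ x y`** (a case of the theorem of Darmon and Merel). -/
theorem add_pow_ne_cube {x y z : ℤ} (hcop : IsCoprime x y) (h0 : x * y ≠ 0)
    (h3 : (3 : ℤ) ∣ x * y) : x ^ p + y ^ p ≠ z ^ 3 := by
  have key : ∀ x y : ℤ, IsCoprime x y → y ≠ 0 → (3 : ℤ) ∣ y → x ^ p + y ^ p ≠ z ^ 3 := by
    intro x y hcop hy h2
    obtain ⟨t, rfl⟩ := h2
    have hx : ¬ (3 : ℤ) ∣ x := by
      intro h
      exact Int.prime_three.not_isUnit (hcop.isUnit_of_dvd' h (dvd_mul_right 3 t))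
    rw [mul_pow]
    exact add_three_pow_ne_cube hp hp7 hI hx (right_ne_zero_of_mul hy) hcop.of_mul_right_right
      (by omega)
  rcases Int.prime_three.dvd_or_dvd h3 with h | h
  · rw [add_comm]
    exact key y x hcop.symm (left_ne_zero_of_mul h0) h
  · exact key x y hcop (right_ne_zero_of_mul h0) h

/-- **Equations of Lebesgue–Nagell type**: for `m ≥ 6` and odd `z`, `z ^ 2 + 2 ^ m` and `z ^ 2 - 2 ^ m` are not `p`-th
powers. -/
theorem sq_add_two_pow_ne {x z : ℤ} {m : ℕ} (hm : 6 ≤ m) (hz : Odd z) :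
    z ^ 2 + 2 ^ m ≠ x ^ p ∧ z ^ 2 - 2 ^ m ≠ x ^ p := by
  have hpodd : Odd p := hp.odd_of_ne_two (by omega)
  have h2m : Even ((2 : ℤ) ^ m) := (by decide : Even (2 : ℤ)).pow_of_ne_zero (by omega)
  constructor
  · intro h
    have hx : Odd x := by
      have h1 : Odd (x ^ p) := by
        rw [← h]
        exact hz.pow.add_even h2m
      exact (Int.odd_pow' hp.ne_zero).mp h1
    refine add_two_pow_ne_sq hp hp7 hI (z := z) hx (y := -1) (by norm_num)
      (isCoprime_one_right.neg_right) hm ?_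
    rw [hpodd.neg_one_pow]
    linear_combination -h
  · intro h
    have hx : Odd x := by
      have h1 : Odd (x ^ p) := by
        rw [← h]
        exact hz.pow.sub_even h2m
      exact (Int.odd_pow' hp.ne_zero).mp h1
    refine add_two_pow_ne_sq hp hp7 hI (z := z) hx (y := 1) one_ne_zero isCoprime_one_right hm ?_
    rw [one_pow]
    linear_combination -h

/-- for `m ≥ 3` and `3 ∤ z`, `z ^ 3 + 3 ^ m` and `z ^ 3 - 3 ^ m` are not `p`-th powers -/
theorem cube_add_three_pow_ne {x z : ℤ} {m : ℕ} (hm : 3 ≤ m) (hz : ¬ (3 : ℤ) ∣ z) :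
    z ^ 3 + 3 ^ m ≠ x ^ p ∧ z ^ 3 - 3 ^ m ≠ x ^ p := by
  have hpodd : Odd p := hp.odd_of_ne_two (by omega)
  have h3m : (3 : ℤ) ∣ 3 ^ m := dvd_pow_self 3 (by omega)
  constructor
  · intro h
    have hx : ¬ (3 : ℤ) ∣ x := by
      intro hd
      have h1 : (3 : ℤ) ∣ z ^ 3 := by
        have e : z ^ 3 = x ^ p - 3 ^ m := by linear_combination h
        rw [e]
        exact dvd_sub (dvd_pow hd hp.ne_zero) h3m
      exact hz (Int.prime_three.dvd_of_dvd_pow h1)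
    refine add_three_pow_ne_cube hp hp7 hI (z := z) hx (y := -1) (by norm_num)
      (isCoprime_one_right.neg_right) hm ?_
    rw [hpodd.neg_one_pow]
    linear_combination -h
  · intro h
    have hx : ¬ (3 : ℤ) ∣ x := by
      intro hd
      have h1 : (3 : ℤ) ∣ z ^ 3 := by
        have e : z ^ 3 = x ^ p + 3 ^ m := by linear_combination h
        rw [e]
        exact dvd_add (dvd_pow hd hp.ne_zero) h3m
      exact hz (Int.prime_three.dvd_of_dvd_pow h1)
    refine add_three_pow_ne_cube hp hp7 hI (z := z) hx (y := 1) one_ne_zero isCoprime_one_right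
      hm ?_
    rw [one_pow]
    linear_combination -h

/-- **`u ^ 3 - v ^ 2 = 2 ^ a 3 ^ b w ^ p`, `a ≥ 6`, `b ≥ 3`**: no solutions in coprime `u`, `v` and nonzero `w`. -/
theorem cube_sub_sq_ne {u v w : ℤ} (hcop : IsCoprime u v) (hw : w ≠ 0) {a b : ℕ} (ha : 6 ≤ a)
    (hb : 3 ≤ b) : u ^ 3 - v ^ 2 ≠ 2 ^ a * 3 ^ b * w ^ p := by
  obtain ⟨a, rfl⟩ := Nat.exists_eq_add_of_le ha
  obtain ⟨b, rfl⟩ := Nat.exists_eq_add_of_le hb
  have hA0 : (2 : ℤ) ^ a * 3 ^ b ≠ 0 :=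
    mul_ne_zero (pow_ne_zero _ two_ne_zero) (pow_ne_zero _ three_ne_zero)
  have hA : Supp 6 ((2 : ℤ) ^ a * 3 ^ b) :=
    ((supp_prime Nat.prime_two (by decide)).pow a).mul ((supp_prime Nat.prime_three (by decide)).pow b)
  have := e23p_ne hp (by omega) (N := 6) (by decide) hA (mul_ne_zero hA0 hw) hcop
    (hI _ (mul_ne_zero hA0 (pow_ne_zero _ hw)))
  intro h
  apply this
  rw [h]
  ring

end All

/-! ### Units -/

/-- **`N`-units, signature `(·, ·, 2)`**: `A + 64 B` is not a square, if the prime factors of `A`, `B` divide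
`N ∈ {1, 2, 3, 5, 6, 7, 10, 13}`, `A` is odd, and `A`, `B` are coprime. -/
theorem units_pp2 {N : ℕ} (hN : N ∈ levels) {A B z : ℤ} (hA : Supp N A) (hB : Supp N B)
    (h0 : A * B ≠ 0) (hodd : Odd A) (hcop : IsCoprime A B) : A + 64 * B ≠ z ^ 2 := by
  intro h
  have hz : Odd z := by
    have h1 : Odd (z ^ 2) := by
      rw [← h]
      exact hodd.add_even ⟨32 * B, by ring⟩
    exact (Int.odd_pow' two_ne_zero).mp h1
  obtain ⟨W, hΔ, hss⟩ := curve_pp2 h.symm hz hcop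
  refine false_of_supp hN (W := W) ?_ hss ?_
  · rw [hΔ]
    exact mul_ne_zero (left_ne_zero_of_mul h0) (pow_ne_zero _ (right_ne_zero_of_mul h0))
  · rw [hΔ]
    exact hA.mul (hB.pow 2)

/-- **`N`-units, signature `(·, ·, 3)`**: `A + 27 B` is not a cube, if the prime factors of `A`, `B` divide
`N ∈ {1, 2, 3, 5, 6, 7, 10, 13}`, `3 ∤ A`, and `A`, `B` are coprime. -/
theorem units_pp3 {N : ℕ} (hN : N ∈ levels) {A B z : ℤ} (hA : Supp N A) (hB : Supp N B)
    (h0 : A * B ≠ 0) (h3 : ¬ (3 : ℤ) ∣ A) (hcop : IsCoprime A B) : A + 27 * B ≠ z ^ 3 := by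
  intro h
  obtain ⟨W, hΔ, hss⟩ := curve_pp3 h.symm h3 hcop
  refine false_of_supp hN (W := W) ?_ hss ?_
  · rw [hΔ]
    exact mul_ne_zero (left_ne_zero_of_mul h0) (pow_ne_zero _ (right_ne_zero_of_mul h0))
  · rw [hΔ]
    exact hA.mul (hB.pow 3)

/-- **`N`-units, signature `(2, 3, ·)`**: `u ^ 3 - v ^ 2 = 1728 A` has no solutions in coprime `u`, `v`, if the prime
factors of `A` divide `N ∈ {1, 2, 3, 5, 6, 7, 10, 13}`. -/
theorem units_23 {N : ℕ} (hN : N ∈ levels) {A u v : ℤ} (hA : Supp N A) (h0 : A ≠ 0)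
    (hcop : IsCoprime u v) : u ^ 3 - v ^ 2 ≠ 1728 * A := by
  intro h
  obtain ⟨W, hΔ, hss⟩ := curve_23p h hcop
  exact false_of_supp hN (W := W) (by rw [hΔ]; exact h0) hss (by rw [hΔ]; exact hA)

/-- coprime integers `u`, `v` with `u ^ 3 - v ^ 2 = ± 2 ^ a 3 ^ b` have `a < 6` or `b < 3` -/
theorem cube_sub_sq_ne_unit {u v : ℤ} (hcop : IsCoprime u v) {a b : ℕ} (ha : 6 ≤ a)
    (hb : 3 ≤ b) : u ^ 3 - v ^ 2 ≠ 2 ^ a * 3 ^ b ∧ u ^ 3 - v ^ 2 ≠ -(2 ^ a * 3 ^ b) := by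
  obtain ⟨a, rfl⟩ := Nat.exists_eq_add_of_le ha
  obtain ⟨b, rfl⟩ := Nat.exists_eq_add_of_le hb
  have hA0 : (2 : ℤ) ^ a * 3 ^ b ≠ 0 :=
    mul_ne_zero (pow_ne_zero _ two_ne_zero) (pow_ne_zero _ three_ne_zero)
  have hA : Supp 6 ((2 : ℤ) ^ a * 3 ^ b) :=
    ((supp_prime Nat.prime_two (by decide)).pow a).mul ((supp_prime Nat.prime_three (by decide)).pow b)
  constructor
  · intro h
    refine units_23 (N := 6) (by decide) hA hA0 hcop ?_
    rw [h]
    ring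
  · intro h
    refine units_23 (N := 6) (by decide) (supp_neg hA) (neg_ne_zero.mpr hA0) hcop ?_
    rw [h]
    ring

end Fermat.Agent.Cor.H22G
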