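import Fermat.Agent.Cor.H22GenMazur
import Fermat.Agent.Cor.H22Nineteen

/-!
# Generalised Fermat equations of signature `(p, p, 2)` and `(p, p, 3)` at levels with cusp forms

The curve `y² + x y = x³ + k x² + Y x` has a rational point of order `2`, so `a_q` is even for the odd good primes `q`;
the curve `y² + z x y + Y y = x³` has a rational point of order `3`, so `a_q ≡ q + 1 mod 3`. This excludes the levels
`22, 26, 38` (signature `(p, p, 2)`; `a₃ = -1` resp. `1, -3` resp. `-2, 1, -1`, and `a₅ = 3` in the third case if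
`a₃ = -2`) and `15, 21, 33` (signature `(p, p, 3)`; `a₂ = -1, -1` resp. `-2, 1`). Let `p ≥ 11`, `p ≠ 13`.

* `two_pow_sq_level`: `A x ^ p + 2 ^ a B y ^ p` is not a square for `a ≥ 6`, if `A x` is odd, `A x` and `B y` are
  coprime, and the prime factors of `A`, `B` are in `{2, L}`, `L = 11, 13, 19`;
* `three_pow_cube_level`: `A x ^ p + 3 ^ a B y ^ p` is not a cube for `a ≥ 3`, if `3 ∤ A x`, `A x` and `B y` are
  coprime, and the prime factors of `A`, `B` are in `{3, L}`, `L = 5, 7, 11`;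
* `lebesgue_nagell_level`, `lebesgue_nagell_cube_level`: `z ^ 2 ± 2 ^ a L ^ b` and `z ^ 3 ± 3 ^ a L ^ b` are not `p`-th
  powers.

This file is not used by any of the statement files.
-/

set_option autoImplicit false

namespace Fermat.Agent.Cor.H22G

open ModularCurve ModularFormClass CongruenceSubgroup WeierstrassCurve
open Fermat.Agent.Cor.GenusOne Fermat.Agent.Cor.SmallConductor Fermat.Agent.Cor.EigenTable

/-! ### Tables -/

/-- **Level `38`**: `a₃ = 1`, or `a₃ = -1`, or `(a₃, a₅) = (-2, 3)`. -/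
theorem a35_thirtyeight {f : CuspForm (Gamma0 38) 2} (hf : f.IsNormalizedEigenform) :
    (qCoeff f 3 = -2 ∧ qCoeff f 5 = 3) ∨ qCoeff f 3 = 1 ∨ qCoeff f 3 = -1 := by
  rcases H22L19.a3_thirtyeight hf with hf3 | hf3
  swap
  · exact Or.inr hf3
  refine Or.inl ⟨hf3, ?_⟩
  obtain ⟨h, hh, k⟩ := exists_form E19_Δ (by norm_num) E19_semistable conductorLevel_E19
  obtain ⟨g₁, hg₁, k₁⟩ := exists_form E38a_Δ (by norm_num) E38a_semistable conductorLevel_E38a
  obtain ⟨g₂, hg₂, k₂⟩ := exists_form E38b_Δ (by norm_num) E38b_semistable conductorLevel_E38b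
  have h3 := k 3 _ (by norm_num) (by norm_num) E19_a3
  have a3 := k₁ 3 _ (by norm_num) (by norm_num) E38a_a3
  have b3 := k₂ 3 _ (by norm_num) (by norm_num) E38b_a3
  have h5 := k 5 _ (by norm_num) (by norm_num) E19_a5
  have a5 := k₁ 5 _ (by norm_num) (by norm_num) E38a_a5
  have b5 := k₂ 5 _ (by norm_num) (by norm_num) E38b_a5
  push_cast at h3 a3 b3 h5 a5 b5
  obtain ⟨h9, h27⟩ := H22L19.coeff_nine (by norm_num) hh
  obtain ⟨a9, a27⟩ := H22L19.coeff_nine (by norm_num) hg₁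
  obtain ⟨b9, b27⟩ := H22L19.coeff_nine (by norm_num) hg₂
  obtain ⟨f9, f27⟩ := H22L19.coeff_nine (by norm_num) hf
  rw [h3] at h9
  rw [a3] at a9
  rw [b3] at b9
  rw [hf3] at f9
  obtain ⟨h₁, e1⟩ : ∃ g : CuspForm (Gamma0 38) 2, ∀ n, qCoeff g n = qCoeff h n :=
    ⟨AL.degen (M := 19) (N := 38) (d := 1) one_pos (by norm_num) 2 h, fun n => by
      rw [AL.qCoeff_degen, if_pos (one_dvd n), Nat.div_one]⟩
  obtain ⟨h₂, e2⟩ : ∃ g : CuspForm (Gamma0 38) 2,
      ∀ n, qCoeff g n = if 2 ∣ n then qCoeff h (n / 2) else 0 :=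
    ⟨AL.degen (M := 19) (N := 38) (d := 2) two_pos (by norm_num) 2 h, AL.qCoeff_degen _ _ _⟩
  obtain ⟨c, hc⟩ := exists_combination (r := 4) (by exact_mod_cast genus_thirtyeight)
    (F := ![h₁, h₂, g₁, g₂]) (by
      intro c hc
      simp only [Fin.sum_univ_four, Matrix.cons_val_zero, Matrix.cons_val_one, Matrix.cons_val] at hc
      have k1 := hc 1
      rw [e1, e2, if_neg (by norm_num), hh.qCoeff_one, hg₁.qCoeff_one, hg₂.qCoeff_one] at k1
      have k3 := hc 3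
      rw [e1, e2, if_neg (by norm_num), h3, a3, b3] at k3
      have k9 := hc 9
      rw [e1, e2, if_neg (by norm_num), h9, a9, b9] at k9
      have c0 : c 0 = 0 := by linear_combination (2 * k1 + k9) / 3
      have c2 : c 2 = 0 := by
        rw [c0] at k1 k3
        linear_combination (k1 + k3) / 2
      have c3 : c 3 = 0 := by
        rw [c0, c2] at k1
        linear_combination k1
      have k2 := hc 2
      rw [e1, e2, if_pos dvd_rfl, Nat.div_self two_pos, hh.qCoeff_one, c0, c2, c3] at k2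
      have c1 : c 1 = 0 := by linear_combination k2
      intro i
      fin_cases i
      · exact c0
      · exact c1
      · exact c2
      · exact c3) f
  simp only [Fin.sum_univ_four, Matrix.cons_val_zero, Matrix.cons_val_one, Matrix.cons_val] at hc
  have k1 := hc 1
  rw [e1, e2, if_neg (by norm_num), hh.qCoeff_one, hg₁.qCoeff_one, hg₂.qCoeff_one,
    hf.qCoeff_one] at k1
  have k3 := hc 3
  rw [e1, e2, if_neg (by norm_num), h3, a3, b3, hf3] at k3
  have k9 := hc 9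
  rw [e1, e2, if_neg (by norm_num), h9, a9, b9, f9] at k9
  have k5 := hc 5
  rw [e1, e2, if_neg (by norm_num), h5, a5, b5] at k5
  have c0 : c 0 = 1 := by linear_combination -(2 * k1 + k9) / 3
  have c2 : c 2 = 0 := by
    rw [c0] at k1 k3
    linear_combination -(k1 + k3) / 2
  have c3 : c 3 = 0 := by
    rw [c0, c2] at k1
    linear_combination -k1
  rw [k5, c0, c2, c3]
  ring

/-- `y² + xy = x³ + x² - 11x`, of conductor `33` -/
def E33 : WeierstrassCurve ℤ := ⟨1, 1, 0, -11, 0⟩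

theorem E33_Δ : E33.Δ = 88209 := by norm_num [E33, WeierstrassCurve.Δ, b₂, b₄, b₆, b₈]
theorem E33_c₄ : E33.c₄ = 553 := by norm_num [E33, WeierstrassCurve.c₄, b₂, b₄]
theorem E33_semistable : E33.IsSemistableModel :=
  isSemistableModel_of_gcd (by rw [E33_Δ, E33_c₄]; decide)
theorem conductorLevel_E33 : E33.conductorLevel = 33 := by
  rw [conductorLevel_eq _ (by rw [E33_Δ]; norm_num), E33_Δ]; decide +kernel
theorem E33_a2 : E33.apOfModel 2 = 1 :=
  apOfModel_of_cnt (by norm_num) E33_Δ (by norm_num) (by decide)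

theorem genus_thirtythree : genusFormula 33 = 3 :=
  SmallConductor.genus_eq (a := 48) (b := 0) (c := 0) (d := 4) (by decide +kernel) (by decide)
    (by decide) (by decide +kernel) (by norm_num)

/-- **Level `33`**: `a₂ = -2` or `a₂ = 1` for every normalised eigenform. -/
theorem a2_thirtythree {f : CuspForm (Gamma0 33) 2} (hf : f.IsNormalizedEigenform) :
    qCoeff f 2 = -2 ∨ qCoeff f 2 = 1 := by
  obtain ⟨h, hh, k⟩ := exists_form E11_Δ (by norm_num) E11_semistable conductorLevel_E11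
  obtain ⟨g, hg, k₁⟩ := exists_form E33_Δ (by norm_num) E33_semistable conductorLevel_E33
  have h2 := k 2 _ (by norm_num) (by norm_num) E11_a2
  have a2 := k₁ 2 _ (by norm_num) (by norm_num) E33_a2
  push_cast at h2 a2
  have r4 := hf.qCoeff_prime_pow_of_not_dvd 2 0 (by norm_num) (by norm_num)
  have h4 := hh.qCoeff_prime_pow_of_not_dvd 2 0 (by norm_num) (by norm_num)
  have a4 := hg.qCoeff_prime_pow_of_not_dvd 2 0 (by norm_num) (by norm_num)
  simp only [zero_add, pow_one, pow_zero, hf.qCoeff_one, hh.qCoeff_one, hg.qCoeff_one,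
    Nat.cast_ofNat, mul_one] at r4 h4 a4
  norm_num at r4 h4 a4
  rw [h2] at h4
  rw [a2] at a4
  obtain ⟨h₁, e1⟩ : ∃ g : CuspForm (Gamma0 33) 2, ∀ n, qCoeff g n = qCoeff h n :=
    ⟨AL.degen (M := 11) (N := 33) (d := 1) one_pos (by norm_num) 2 h, fun n => by
      rw [AL.qCoeff_degen, if_pos (one_dvd n), Nat.div_one]⟩
  obtain ⟨h₂, e2⟩ : ∃ g : CuspForm (Gamma0 33) 2,
      ∀ n, qCoeff g n = if 3 ∣ n then qCoeff h (n / 3) else 0 :=
    ⟨AL.degen (M := 11) (N := 33) (d := 3) three_pos (by norm_num) 2 h, AL.qCoeff_degen _ _ _⟩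
  obtain ⟨c, hc⟩ := exists_combination (r := 3) (by exact_mod_cast genus_thirtythree)
    (F := ![h₁, h₂, g]) (by
      intro c hc
      simp only [Fin.sum_univ_three, Matrix.cons_val_zero, Matrix.cons_val_one, Matrix.cons_val] at hc
      have k1 := hc 1
      rw [e1, e2, if_neg (by norm_num), hh.qCoeff_one, hg.qCoeff_one] at k1
      have k2 := hc 2
      rw [e1, e2, if_neg (by norm_num), h2, a2] at k2
      have c0 : c 0 = 0 := by linear_combination (k1 - k2) / 3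
      have c2 : c 2 = 0 := by
        rw [c0] at k1
        linear_combination k1
      have k3 := hc 3
      rw [e1, e2, if_pos dvd_rfl, Nat.div_self three_pos, hh.qCoeff_one, c0, c2] at k3
      have c1 : c 1 = 0 := by linear_combination k3
      intro i
      fin_cases i
      · exact c0
      · exact c1
      · exact c2) f
  simp only [Fin.sum_univ_three, Matrix.cons_val_zero, Matrix.cons_val_one, Matrix.cons_val] at hc
  have k1 := hc 1
  rw [e1, e2, if_neg (by norm_num), hh.qCoeff_one, hg.qCoeff_one, hf.qCoeff_one] at k1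
  have k2 := hc 2
  rw [e1, e2, if_neg (by norm_num), h2, a2] at k2
  have k4 := hc 4
  rw [e1, e2, if_neg (by norm_num), h4, a4, r4] at k4
  have key : (qCoeff f 2 + 2) * (qCoeff f 2 - 1) = 0 := by
    linear_combination k4 + k2
  rcases mul_eq_zero.mp key with h0 | h0
  · left
    linear_combination h0
  · right
    linear_combination h0

/-! ### Level lowering -/

/-- **Level lowering**: `W` is modular of level `N` modulo `p` if its discriminant is a `p`-th power away from `N`. -/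
theorem rm_of_pw {W : WeierstrassCurve ℤ} {p N : ℕ} (hp : p.Prime) (hp2 : p ≠ 2)
    (hΔ : W.Δ ≠ 0) (hss : W.IsSemistableModel) (hirr : W.ModRepIsIrreducible p)
    (hN : N ≠ 0) (h : Pw p N W.Δ) : W.IsResiduallyModularOfLevel p N := by
  have : Fact p.Prime := ⟨hp⟩
  refine H18R.isResiduallyModular_mono hΔ hirr (H07.ribet hΔ hss hirr hp2) ?_ hN
  rw [← Nat.prod_primeFactors_of_squarefree (H07.squarefree_serreLevel W p)]
  refine Finset.prod_primes_dvd _ (fun ℓ hℓ => (Nat.prime_of_mem_primeFactors hℓ).prime)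
    fun ℓ hℓ => ?_
  have hℓp := Nat.prime_of_mem_primeFactors hℓ
  have h1 := (H07.dvd_serreLevel_iff hΔ hℓp).mp (Nat.dvd_of_mem_primeFactors hℓ)
  by_contra hℓN
  exact h1 (h ℓ hℓp hℓN)

/-- the comparison of the eigenvalues at one prime `q`: `c` is congruent to one of the possible traces -/
theorem exists_trace {W : WeierstrassCurve ℤ} {p N : ℕ} (hp : p.Prime) (hp2 : p ≠ 2)
    (hΔ : W.Δ ≠ 0) (hss : W.IsSemistableModel) (hirr : W.ModRepIsIrreducible p) [NeZero N]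
    {f : CuspForm (Gamma0 N) 2} (hf : f.IsNormalizedEigenform) {𝔪 : Ideal (integralClosure ℤ ℂ)}
    (h𝔪 : 𝔪.IsMaximal) (hp𝔪 : (p : integralClosure ℤ ℂ) ∈ 𝔪)
    (hres : ∀ ℓ : ℕ, ℓ.Prime → W.IsGoodPrimeFor ℓ → ¬ ℓ ∣ N → ℓ ≠ p →
      ∃ a : integralClosure ℤ ℂ, (a : ℂ) = qCoeff f ℓ ∧
        a - ((W.apOfModel ℓ : ℤ) : integralClosure ℤ ℂ) ∈ 𝔪)
    {q : ℕ} (hq : q.Prime) (hqN : ¬ q ∣ N) (hqp : q ≠ p) {c : ℤ} (hc : qCoeff f q = (c : ℂ)) :
    (¬ (q : ℤ) ∣ W.Δ ∧ (p : ℤ) ∣ c - W.apOfModel q) ∨ (p : ℤ) ∣ c - (q + 1) ∨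
      (p : ℤ) ∣ c + (q + 1) := by
  have : Fact p.Prime := ⟨hp⟩
  by_cases h3 : (q : ℤ) ∣ W.Δ
  · right
    exact H18.dvd_of_mult hΔ hirr hp2 hf h𝔪 hp𝔪 hres hq hqN hqp
      ⟨(c : integralClosure ℤ ℂ), by rw [hc]; simp, by rw [sub_self]; exact zero_mem _⟩ h3
      (hss q hq h3)
  · left
    exact ⟨h3, H18.dvd_of_good h𝔪 hp𝔪 hres hq hqN hqp hc h3⟩

/-- a prime `p > 7` does not divide the small nonzero integers -/
theorem not_dvd_of_lt {p : ℕ} {c : ℤ} (hc : c ≠ 0) (h : c.natAbs < p) : ¬ (p : ℤ) ∣ c :=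
  H18.not_dvd_of_abs hc h

/-! ### Signature `(p, p, 2)` -/

theorem curve_pp2_form {X Y z : ℤ} (hz : z ^ 2 = X + 64 * Y) (hodd : Odd z)
    (hcop : IsCoprime X Y) : ∃ k : ℤ, (⟨1, k, 0, Y, 0⟩ : WeierstrassCurve ℤ).Δ = X * Y ^ 2 ∧
      (⟨1, k, 0, Y, 0⟩ : WeierstrassCurve ℤ).IsSemistableModel := by
  obtain ⟨k, hk⟩ : ∃ k : ℤ, (4 * k + 1) ^ 2 = X + 64 * Y := by
    obtain ⟨m, hm⟩ := hodd
    rcases Int.even_or_odd m with ⟨n, hn⟩ | ⟨n, hn⟩
    · exact ⟨n, by rw [← hz, hm, hn]; ring⟩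
    · exact ⟨-n - 1, by rw [← hz, hm, hn]; ring⟩
  have hXodd : ¬ (2 : ℤ) ∣ X := by
    intro h
    have h1 : (2 : ℤ) ∣ (4 * k + 1) ^ 2 := by
      rw [hk]
      exact dvd_add h ⟨32 * Y, by ring⟩
    have := Int.prime_two.dvd_of_dvd_pow h1
    omega
  have hΔ : (⟨1, k, 0, Y, 0⟩ : WeierstrassCurve ℤ).Δ = X * Y ^ 2 := by
    simp only [WeierstrassCurve.Δ, b₂, b₄, b₆, b₈]
    linear_combination Y ^ 2 * hk
  have hc : (⟨1, k, 0, Y, 0⟩ : WeierstrassCurve ℤ).c₄ = X + 16 * Y := by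
    simp only [WeierstrassCurve.c₄, b₂, b₄]
    linear_combination hk
  refine ⟨k, hΔ, ?_⟩
  intro q hq hqΔ hqc
  rw [hΔ] at hqΔ
  rw [hc] at hqc
  have hqq : Prime (q : ℤ) := Nat.prime_iff_prime_int.mp hq
  have key : (q : ℤ) ∣ X → (q : ℤ) ∣ Y → False := fun h h' =>
    hqq.not_isUnit (hcop.isUnit_of_dvd' h h')
  rcases hqq.dvd_or_dvd hqΔ with h | h
  · have h1 : (q : ℤ) ∣ 16 * Y := by
      have := dvd_sub hqc h
      rwa [add_sub_cancel_left] at this
    rcases hqq.dvd_or_dvd h1 with h2 | h2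
    · have h3 : (q : ℤ) ∣ 2 := hqq.dvd_of_dvd_pow (n := 4) (by norm_num; exact h2)
      have h4 : q = 2 := (Nat.prime_dvd_prime_iff_eq hq Nat.prime_two).mp (by exact_mod_cast h3)
      subst h4
      exact hXodd (by exact_mod_cast h)
    · exact key h h2
  · have h1 := hqq.dvd_of_dvd_pow h
    refine key ?_ h1
    have := dvd_sub hqc (Dvd.dvd.mul_left h1 16)
    rwa [add_sub_cancel_right] at this

theorem cast_Δ_ne {W : WeierstrassCurve ℤ} {q : ℕ} (h : ¬ (q : ℤ) ∣ W.Δ) :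
    ((W.Δ : ℤ) : ZMod q) ≠ 0 := fun h' => h ((ZMod.intCast_zmod_eq_zero_iff_dvd _ q).mp h')

/-- `a₃ ∈ {0, 2, -2}` for a curve with a rational point of order `2` -/
theorem ap_three_two {k Y : ℤ} (h : ¬ (3 : ℤ) ∣ (⟨1, k, 0, Y, 0⟩ : WeierstrassCurve ℤ).Δ) :
    (⟨1, k, 0, Y, 0⟩ : WeierstrassCurve ℤ).apOfModel 3 ∈ ({0, 2, -2} : Finset ℤ) := by
  have h1 : ((Y : ZMod 3) ^ 2 * ((1 + 4 * k) ^ 2 - 64 * Y)) ≠ 0 := by
    have := cast_Δ_ne (q := 3) (by exact_mod_cast h)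
    intro h2
    apply this
    simp only [WeierstrassCurve.Δ, b₂, b₄, b₆, b₈]
    push_cast
    linear_combination h2
  have key : ∀ k y : ZMod 3, y ^ 2 * ((1 + 4 * k) ^ 2 - 64 * y) ≠ 0 →
      (3 : ℤ) - (cnt 3 1 k 0 y 0 : ℤ) ∈ ({0, 2, -2} : Finset ℤ) := by decide +kernel
  have h2 := key _ _ h1
  have h3 : (⟨1, k, 0, Y, 0⟩ : WeierstrassCurve ℤ).apOfModel 3 =
      (3 : ℤ) - (cnt 3 1 (k : ZMod 3) 0 (Y : ZMod 3) 0 : ℤ) := by
    refine apOfModel_of_cnt Nat.prime_three rfl (by exact_mod_cast h) ?_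
    simp
  rw [h3]
  exact h2

/-- `a₅ ∈ {0, ± 2, ± 4}` for a curve with a rational point of order `2` -/
theorem ap_five_two {k Y : ℤ} (h : ¬ (5 : ℤ) ∣ (⟨1, k, 0, Y, 0⟩ : WeierstrassCurve ℤ).Δ) :
    (⟨1, k, 0, Y, 0⟩ : WeierstrassCurve ℤ).apOfModel 5 ∈ ({0, 2, -2, 4, -4} : Finset ℤ) := by
  have h1 : ((Y : ZMod 5) ^ 2 * ((1 + 4 * k) ^ 2 - 64 * Y)) ≠ 0 := by
    have := cast_Δ_ne (q := 5) (by exact_mod_cast h)
    intro h2
    apply this
    simp only [WeierstrassCurve.Δ, b₂, b₄, b₆, b₈]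
    push_cast
    linear_combination h2
  have key : ∀ k y : ZMod 5, y ^ 2 * ((1 + 4 * k) ^ 2 - 64 * y) ≠ 0 →
      (5 : ℤ) - (cnt 5 1 k 0 y 0 : ℤ) ∈ ({0, 2, -2, 4, -4} : Finset ℤ) := by decide +kernel
  have h2 := key _ _ h1
  have h3 : (⟨1, k, 0, Y, 0⟩ : WeierstrassCurve ℤ).apOfModel 5 =
      (5 : ℤ) - (cnt 5 1 (k : ZMod 5) 0 (Y : ZMod 5) 0 : ℤ) := by
    refine apOfModel_of_cnt Nat.prime_five rfl (by exact_mod_cast h) ?_
    simp
  rw [h3]
  exact h2

/-- the eigenforms excluded by a rational point of order `2` -/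
def Odd2 {N : ℕ} (f : CuspForm (Gamma0 N) 2) : Prop :=
  (∃ c : ℤ, ¬ 3 ∣ N ∧ qCoeff f 3 = (c : ℂ) ∧ c % 2 = 1 ∧ c.natAbs ≤ 3) ∨
  (∃ c : ℤ, ¬ 5 ∣ N ∧ qCoeff f 5 = (c : ℂ) ∧ c % 2 = 1 ∧ c.natAbs ≤ 4)

theorem false_of_pp2_level {p N : ℕ} [NeZero N] (hp : p.Prime) (hp11 : 11 ≤ p)
    (hN : ∀ f : CuspForm (Gamma0 N) 2, f.IsNormalizedEigenform → Odd2 f) {X Y z : ℤ}
    (hz : z ^ 2 = X + 64 * Y) (hodd : Odd z) (hcop : IsCoprime X Y) (hX : X ≠ 0) (hY : Y ≠ 0)
    (hPX : Pw p N X) (hPY : Pw p N Y) (hirr : Irr p (X * Y ^ 2)) : False := by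
  obtain ⟨k, hΔ, hss⟩ := curve_pp2_form hz hodd hcop
  set W : WeierstrassCurve ℤ := ⟨1, k, 0, Y, 0⟩ with hW
  have hΔ0 : W.Δ ≠ 0 := by
    rw [hΔ]
    exact mul_ne_zero hX (pow_ne_zero 2 hY)
  have hI := hirr W hΔ hss
  obtain ⟨f, 𝔪, hf, h𝔪, hp𝔪, hres⟩ := rm_of_pw hp (by omega) hΔ0 hss hI (NeZero.ne N)
    (by rw [hΔ]; exact hPX.mul (hPY.pow 2) hX (pow_ne_zero 2 hY))
  rcases hN f hf with ⟨c, h3N, hc, hc2, hc3⟩ | ⟨c, h5N, hc, hc2, hc3⟩
  · rcases exists_trace hp (by omega) hΔ0 hss hI hf h𝔪 hp𝔪 hres Nat.prime_three h3N (by omega) hc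
      with ⟨hg, h⟩ | h | h
    · have h4 := ap_three_two (k := k) (Y := Y) (by exact_mod_cast hg)
      simp only [Finset.mem_insert, Finset.mem_singleton] at h4
      rw [← hW] at h4
      exact not_dvd_of_lt (by omega) (by omega) h
    · exact not_dvd_of_lt (by push_cast; omega) (by push_cast; omega) h
    · exact not_dvd_of_lt (by push_cast; omega) (by push_cast; omega) h
  · rcases exists_trace hp (by omega) hΔ0 hss hI hf h𝔪 hp𝔪 hres Nat.prime_five h5N (by omega) hc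
      with ⟨hg, h⟩ | h | h
    · have h4 := ap_five_two (k := k) (Y := Y) (by exact_mod_cast hg)
      simp only [Finset.mem_insert, Finset.mem_singleton] at h4
      rw [← hW] at h4
      exact not_dvd_of_lt (by omega) (by omega) h
    · exact not_dvd_of_lt (by push_cast; omega) (by push_cast; omega) h
    · exact not_dvd_of_lt (by push_cast; omega) (by push_cast; omega) h

/-! ### Signature `(p, p, 3)` -/

theorem curve_pp3_form {X Y z : ℤ} (hz : z ^ 3 = X + 27 * Y) (h3 : ¬ (3 : ℤ) ∣ X)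
    (hcop : IsCoprime X Y) : (⟨z, 0, Y, 0, 0⟩ : WeierstrassCurve ℤ).Δ = X * Y ^ 3 ∧
      (⟨z, 0, Y, 0, 0⟩ : WeierstrassCurve ℤ).IsSemistableModel := by
  have hΔ : (⟨z, 0, Y, 0, 0⟩ : WeierstrassCurve ℤ).Δ = X * Y ^ 3 := by
    simp only [WeierstrassCurve.Δ, b₂, b₄, b₆, b₈]
    linear_combination Y ^ 3 * hz
  have hc : (⟨z, 0, Y, 0, 0⟩ : WeierstrassCurve ℤ).c₄ = z * (X + 3 * Y) := by
    simp only [WeierstrassCurve.c₄, b₂, b₄]
    linear_combination z * hz
  refine ⟨hΔ, ?_⟩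
  intro q hq hqΔ hqc
  rw [hΔ] at hqΔ
  rw [hc] at hqc
  have hqq : Prime (q : ℤ) := Nat.prime_iff_prime_int.mp hq
  have key : (q : ℤ) ∣ X → (q : ℤ) ∣ Y → False := fun h h' =>
    hqq.not_isUnit (hcop.isUnit_of_dvd' h h')
  have key3 : ∀ n : ℕ, (q : ℤ) ∣ 3 ^ n → (q : ℤ) ∣ X → False := by
    intro n hn hqX
    have h4 := hqq.dvd_of_dvd_pow hn
    have h5 : q = 3 := (Nat.prime_dvd_prime_iff_eq hq Nat.prime_three).mp (by exact_mod_cast h4)
    subst h5
    exact h3 (by exact_mod_cast hqX)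
  rcases hqq.dvd_or_dvd hqΔ with h | h
  · have h1 : (q : ℤ) ∣ 3 ^ 3 * Y ∨ (q : ℤ) ∣ 3 ^ 1 * Y := by
      rcases hqq.dvd_or_dvd hqc with hc' | hc'
      · left
        have h5 : (q : ℤ) ∣ z ^ 3 := dvd_pow hc' (by norm_num)
        rw [hz] at h5
        have := dvd_sub h5 h
        rw [add_sub_cancel_left] at this
        norm_num
        exact this
      · right
        have := dvd_sub hc' h
        rw [add_sub_cancel_left] at this
        norm_num
        exact this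
    rcases h1 with h1 | h1
    · rcases hqq.dvd_or_dvd h1 with h2 | h2
      · exact key3 3 h2 h
      · exact key h h2
    · rcases hqq.dvd_or_dvd h1 with h2 | h2
      · exact key3 1 h2 h
      · exact key h h2
  · have h1 := hqq.dvd_of_dvd_pow h
    refine key ?_ h1
    rcases hqq.dvd_or_dvd hqc with hc' | hc'
    · have h5 : (q : ℤ) ∣ z ^ 3 := dvd_pow hc' (by norm_num)
      rw [hz] at h5
      have := dvd_sub h5 (Dvd.dvd.mul_left h1 27)
      rwa [add_sub_cancel_right] at this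
    · have := dvd_sub hc' (Dvd.dvd.mul_left h1 3)
      rwa [add_sub_cancel_right] at this

/-- `a₂ = 0` for a curve with a rational point of order `3` -/
theorem ap_two_three {z Y : ℤ} (h : ¬ (2 : ℤ) ∣ (⟨z, 0, Y, 0, 0⟩ : WeierstrassCurve ℤ).Δ) :
    (⟨z, 0, Y, 0, 0⟩ : WeierstrassCurve ℤ).apOfModel 2 = 0 := by
  have h1 : ((Y : ZMod 2) ^ 3 * (z ^ 3 - 27 * Y)) ≠ 0 := by
    have := cast_Δ_ne (q := 2) (by exact_mod_cast h)
    intro h2
    apply this
    simp only [WeierstrassCurve.Δ, b₂, b₄, b₆, b₈]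
    push_cast
    linear_combination h2
  have key : ∀ z y : ZMod 2, y ^ 3 * (z ^ 3 - 27 * y) ≠ 0 →
      (2 : ℤ) - (cnt 2 z 0 y 0 0 : ℤ) = 0 := by decide +kernel
  have h2 := key _ _ h1
  refine apOfModel_of_cnt Nat.prime_two rfl (by exact_mod_cast h) ?_
  simpa using h2

theorem false_of_pp3_level {p N : ℕ} [NeZero N] (hp : p.Prime) (hp7 : 7 ≤ p) (h2N : ¬ 2 ∣ N)
    (hN : ∀ f : CuspForm (Gamma0 N) 2, f.IsNormalizedEigenform →
      qCoeff f 2 = -2 ∨ qCoeff f 2 = -1 ∨ qCoeff f 2 = 1) {X Y z : ℤ}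
    (hz : z ^ 3 = X + 27 * Y) (h3 : ¬ (3 : ℤ) ∣ X) (hcop : IsCoprime X Y) (hX : X ≠ 0)
    (hY : Y ≠ 0) (hPX : Pw p N X) (hPY : Pw p N Y) (hirr : Irr p (X * Y ^ 3)) : False := by
  obtain ⟨hΔ, hss⟩ := curve_pp3_form hz h3 hcop
  set W : WeierstrassCurve ℤ := ⟨z, 0, Y, 0, 0⟩ with hW
  have hΔ0 : W.Δ ≠ 0 := by
    rw [hΔ]
    exact mul_ne_zero hX (pow_ne_zero 3 hY)
  have hI := hirr W hΔ hss
  obtain ⟨f, 𝔪, hf, h𝔪, hp𝔪, hres⟩ := rm_of_pw hp (by omega) hΔ0 hss hI (NeZero.ne N)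
    (by rw [hΔ]; exact hPX.mul (hPY.pow 3) hX (pow_ne_zero 3 hY))
  obtain ⟨c, hc, hc'⟩ : ∃ c : ℤ, qCoeff f 2 = (c : ℂ) ∧ (c = -2 ∨ c = -1 ∨ c = 1) := by
    rcases hN f hf with h | h | h
    · exact ⟨-2, by rw [h]; norm_num, Or.inl rfl⟩
    · exact ⟨-1, by rw [h]; norm_num, Or.inr (Or.inl rfl)⟩
    · exact ⟨1, by rw [h]; norm_num, Or.inr (Or.inr rfl)⟩
  rcases exists_trace hp (by omega) hΔ0 hss hI hf h𝔪 hp𝔪 hres Nat.prime_two h2N (by omega) hc
    with ⟨hg, h⟩ | h | h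
  · have h4 := ap_two_three (z := z) (Y := Y) (by exact_mod_cast hg)
    rw [← hW] at h4
    exact not_dvd_of_lt (by omega) (by omega) h
  · exact not_dvd_of_lt (by push_cast; omega) (by push_cast; omega) h
  · exact not_dvd_of_lt (by push_cast; omega) (by push_cast; omega) h

/-! ### The levels -/

theorem odd2_22 (f : CuspForm (Gamma0 22) 2) (hf : f.IsNormalizedEigenform) : Odd2 f :=
  Or.inl ⟨-1, by norm_num, by rw [a3_twentytwo hf]; norm_num, by norm_num, by norm_num⟩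

theorem odd2_26 (f : CuspForm (Gamma0 26) 2) (hf : f.IsNormalizedEigenform) : Odd2 f := by
  rcases coeff_twentysix hf with ⟨h, -⟩ | ⟨h, -⟩
  · exact Or.inl ⟨1, by norm_num, by rw [h]; norm_num, by norm_num, by norm_num⟩
  · exact Or.inl ⟨-3, by norm_num, by rw [h]; norm_num, by norm_num, by norm_num⟩

theorem odd2_38 (f : CuspForm (Gamma0 38) 2) (hf : f.IsNormalizedEigenform) : Odd2 f := by
  rcases a35_thirtyeight hf with ⟨-, h⟩ | h | h
  · exact Or.inr ⟨3, by norm_num, by rw [h]; norm_num, by norm_num, by norm_num⟩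
  · exact Or.inl ⟨1, by norm_num, by rw [h]; norm_num, by norm_num, by norm_num⟩
  · exact Or.inl ⟨-1, by norm_num, by rw [h]; norm_num, by norm_num, by norm_num⟩

section

variable {p : ℕ} (hp : p.Prime) (hp11 : 11 ≤ p) (hp13 : p ≠ 13)

include hp hp11 hp13

/-- **`A x ^ p + 2 ^ a B y ^ p = z ^ 2`, `a ≥ 6`**, the prime factors of `A` and `B` in `{2, L}`, `L = 11, 13, 19`. -/
theorem two_pow_sq_level {L : ℕ} (hL : L ∈ ({11, 13, 19} : Finset ℕ)) {A B x y z : ℤ}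
    (hA : Supp (2 * L) A) (hB : Supp (2 * L) B) (h0 : A * B * x * y ≠ 0) (hodd : Odd (A * x))
    (hcop : IsCoprime (A * x) (B * y)) {a : ℕ} (ha : 6 ≤ a) :
    A * x ^ p + 2 ^ a * (B * y ^ p) ≠ z ^ 2 := by
  intro h
  obtain ⟨b, rfl⟩ := Nat.exists_eq_add_of_le ha
  have hy : y ≠ 0 := right_ne_zero_of_mul h0
  have hx : x ≠ 0 := right_ne_zero_of_mul (left_ne_zero_of_mul h0)
  have hB0 : B ≠ 0 := right_ne_zero_of_mul (left_ne_zero_of_mul (left_ne_zero_of_mul h0))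
  have hA0 : A ≠ 0 := left_ne_zero_of_mul (left_ne_zero_of_mul (left_ne_zero_of_mul h0))
  have hs : Supp (2 * L) ((2 : ℤ) ^ b * B) :=
    ((supp_prime Nat.prime_two (dvd_mul_right 2 L)).pow b).mul hB
  have hc2 : IsCoprime (A * x) (2 : ℤ) := (Int.prime_two.coprime_iff_not_dvd.mpr fun h =>
    (Int.not_even_iff_odd.mpr hodd) (even_iff_two_dvd.mpr h)).symm
  have hcop' : IsCoprime (A * x ^ p) ((2 ^ b * B) * y ^ p) := by
    refine cop_pow ?_ p
    rw [mul_assoc]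
    exact IsCoprime.mul_right hc2.pow_right hcop
  rw [Int.odd_mul] at hodd
  have hz : Odd z := by
    have h1 : Odd (z ^ 2) := by
      rw [← h]
      exact (hodd.1.mul (hodd.2.pow)).add_even ⟨32 * (2 ^ b * (B * y ^ p)), by ring⟩
    exact (Int.odd_pow' two_ne_zero).mp h1
  have hX : A * x ^ p ≠ 0 := mul_ne_zero hA0 (pow_ne_zero _ hx)
  have hs0 : (2 : ℤ) ^ b * B ≠ 0 := mul_ne_zero (pow_ne_zero _ two_ne_zero) hB0
  have hY : (2 : ℤ) ^ b * B * y ^ p ≠ 0 := mul_ne_zero hs0 (pow_ne_zero _ hy)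
  have hPX : Pw p (2 * L) (A * x ^ p) := (pw_of_supp hA).mul (pw_pow p _ x) hA0 (pow_ne_zero _ hx)
  have hPY : Pw p (2 * L) (2 ^ b * B * y ^ p) :=
    (pw_of_supp hs).mul (pw_pow p _ y) hs0 (pow_ne_zero _ hy)
  have hz2 : z ^ 2 = A * x ^ p + 64 * (2 ^ b * B * y ^ p) := by rw [← h]; ring
  have hI : Irr p (A * x ^ p * (2 ^ b * B * y ^ p) ^ 2) :=
    irrAll hp hp11 hp13 _ (mul_ne_zero hX (pow_ne_zero _ hY))
  simp only [Finset.mem_insert, Finset.mem_singleton] at hL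
  rcases hL with rfl | rfl | rfl
  · exact false_of_pp2_level hp hp11 odd2_22 hz2 hz hcop' hX hY hPX hPY hI
  · exact false_of_pp2_level hp hp11 odd2_26 hz2 hz hcop' hX hY hPX hPY hI
  · exact false_of_pp2_level hp hp11 odd2_38 hz2 hz hcop' hX hY hPX hPY hI

/-- **`A x ^ p + 3 ^ a B y ^ p = z ^ 3`, `a ≥ 3`**, the prime factors of `A` and `B` in `{3, L}`, `L = 5, 7, 11`. -/
theorem three_pow_cube_level {L : ℕ} (hL : L ∈ ({5, 7, 11} : Finset ℕ)) {A B x y z : ℤ}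
    (hA : Supp (3 * L) A) (hB : Supp (3 * L) B) (h0 : A * B * x * y ≠ 0)
    (h3 : ¬ (3 : ℤ) ∣ A * x) (hcop : IsCoprime (A * x) (B * y)) {a : ℕ} (ha : 3 ≤ a) :
    A * x ^ p + 3 ^ a * (B * y ^ p) ≠ z ^ 3 := by
  intro h
  obtain ⟨b, rfl⟩ := Nat.exists_eq_add_of_le ha
  have hy : y ≠ 0 := right_ne_zero_of_mul h0
  have hx : x ≠ 0 := right_ne_zero_of_mul (left_ne_zero_of_mul h0)
  have hB0 : B ≠ 0 := right_ne_zero_of_mul (left_ne_zero_of_mul (left_ne_zero_of_mul h0))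
  have hA0 : A ≠ 0 := left_ne_zero_of_mul (left_ne_zero_of_mul (left_ne_zero_of_mul h0))
  have hs : Supp (3 * L) ((3 : ℤ) ^ b * B) :=
    ((supp_prime Nat.prime_three (dvd_mul_right 3 L)).pow b).mul hB
  have hc3 : IsCoprime (A * x) (3 : ℤ) := (Int.prime_three.coprime_iff_not_dvd.mpr h3).symm
  have hcop' : IsCoprime (A * x ^ p) ((3 ^ b * B) * y ^ p) := by
    refine cop_pow ?_ p
    rw [mul_assoc]
    exact IsCoprime.mul_right hc3.pow_right hcop
  have h3' : ¬ (3 : ℤ) ∣ A * x ^ p := by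
    intro hd
    rcases Int.prime_three.dvd_or_dvd hd with hd | hd
    · exact h3 (Dvd.dvd.mul_right hd _)
    · exact h3 (Dvd.dvd.mul_left (Int.prime_three.dvd_of_dvd_pow hd) _)
  have hX : A * x ^ p ≠ 0 := mul_ne_zero hA0 (pow_ne_zero _ hx)
  have hs0 : (3 : ℤ) ^ b * B ≠ 0 := mul_ne_zero (pow_ne_zero _ three_ne_zero) hB0
  have hY : (3 : ℤ) ^ b * B * y ^ p ≠ 0 := mul_ne_zero hs0 (pow_ne_zero _ hy)
  have hPX : Pw p (3 * L) (A * x ^ p) := (pw_of_supp hA).mul (pw_pow p _ x) hA0 (pow_ne_zero _ hx)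
  have hPY : Pw p (3 * L) (3 ^ b * B * y ^ p) :=
    (pw_of_supp hs).mul (pw_pow p _ y) hs0 (pow_ne_zero _ hy)
  have hz2 : z ^ 3 = A * x ^ p + 27 * (3 ^ b * B * y ^ p) := by rw [← h]; ring
  have hI : Irr p (A * x ^ p * (3 ^ b * B * y ^ p) ^ 3) :=
    irrAll hp hp11 hp13 _ (mul_ne_zero hX (pow_ne_zero _ hY))
  simp only [Finset.mem_insert, Finset.mem_singleton] at hL
  rcases hL with rfl | rfl | rfl
  · exact false_of_pp3_level (N := 15) hp (by omega) (by norm_num)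
      (fun f hf => Or.inr (Or.inl (a2_fifteen hf))) hz2 h3' hcop' hX hY hPX hPY hI
  · exact false_of_pp3_level (N := 21) hp (by omega) (by norm_num)
      (fun f hf => Or.inr (Or.inl (a2_twentyone hf))) hz2 h3' hcop' hX hY hPX hPY hI
  · exact false_of_pp3_level (N := 33) hp (by omega) (by norm_num)
      (fun f hf => by
        rcases a2_thirtythree hf with h | h
        · exact Or.inl h
        · exact Or.inr (Or.inr h)) hz2 h3' hcop' hX hY hPX hPY hI

/-- **Equations of Lebesgue–Nagell type**: for `L = 3, 5, 11, 13, 19`, `a ≥ 6` and `z` prime to `2 L`,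
`z ^ 2 ± 2 ^ a L ^ b` is not a `p`-th power. -/
theorem lebesgue_nagell_level {L : ℕ} (hL : L ∈ ({3, 5, 11, 13, 19} : Finset ℕ)) {a b : ℕ}
    (ha : 6 ≤ a) {x z : ℤ} (hz : Odd z) (hLz : ¬ (L : ℤ) ∣ z) :
    z ^ 2 + 2 ^ a * (L : ℤ) ^ b ≠ x ^ p ∧ z ^ 2 - 2 ^ a * (L : ℤ) ^ b ≠ x ^ p := by
  have hLp : L.Prime := by
    simp only [Finset.mem_insert, Finset.mem_singleton] at hL
    rcases hL with rfl | rfl | rfl | rfl | rfl <;> norm_num
  have hLp' : Prime (L : ℤ) := Nat.prime_iff_prime_int.mp hLp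
  have key : ∀ B : ℤ, Supp (2 * L) B → B ≠ 0 → (∀ t : ℤ, ¬ (L : ℤ) ∣ t → IsCoprime t B) →
      (b = 0 ∨ (L : ℤ) ∣ B) → z ^ 2 ≠ x ^ p + 2 ^ a * B := by
    intro B hB hB0 hcop hb h
    have hxodd : Odd x := by
      have h1 : Odd (x ^ p) := by
        have e : x ^ p = z ^ 2 - 2 ^ a * B := by rw [h]; ring
        rw [e]
        exact hz.pow.sub_even (((by decide : Even (2 : ℤ)).pow_of_ne_zero (by omega)).mul_right B)
      exact (Int.odd_pow' hp.ne_zero).mp h1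
    have hxB : IsCoprime x B := by
      by_cases hLx : (L : ℤ) ∣ x
      · rcases hb with hb | hb
        · -- `b = 0`
          by_cases hLB : (L : ℤ) ∣ B
          · exfalso
            exact hLz (hLp'.dvd_of_dvd_pow (n := 2) (by
              rw [h]
              exact dvd_add (dvd_pow hLx hp.ne_zero) (Dvd.dvd.mul_left hLB _)))
          · exact (Int.isCoprime_iff_gcd_eq_one.mpr (by
              by_contra hg
              obtain ⟨q, hq, hqd⟩ := Nat.exists_prime_and_dvd hg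
              have hqx : (q : ℤ) ∣ x := (Int.natCast_dvd_natCast.mpr hqd).trans (Int.gcd_dvd_left ..)
              have hqB : (q : ℤ) ∣ B := (Int.natCast_dvd_natCast.mpr hqd).trans (Int.gcd_dvd_right ..)
              rcases (Nat.Prime.dvd_mul hq).mp (hB q hq hqB) with h2 | h2
              · rw [(Nat.prime_dvd_prime_iff_eq hq Nat.prime_two).mp h2] at hqx
                exact (Int.not_even_iff_odd.mpr hxodd) (even_iff_two_dvd.mpr (by exact_mod_cast hqx))
              · rw [(Nat.prime_dvd_prime_iff_eq hq hLp).mp h2] at hqB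
                exact hLB hqB))
        · exfalso
          exact hLz (hLp'.dvd_of_dvd_pow (n := 2) (by
            rw [h]
            exact dvd_add (dvd_pow hLx hp.ne_zero) (Dvd.dvd.mul_left hb _)))
      · exact hcop x hLx
    have hx0 : x ≠ 0 := by
      rintro rfl
      exact absurd hxodd (by decide)
    have h0 : (1 : ℤ) * B * x * 1 ≠ 0 := by
      rw [one_mul, mul_one]
      exact mul_ne_zero hB0 hx0
    have hodd1 : Odd (1 * x) := by rwa [one_mul]
    have hc1 : IsCoprime (1 * x) (B * 1) := by rwa [one_mul, mul_one]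
    have hL' := hL
    simp only [Finset.mem_insert, Finset.mem_singleton] at hL'
    have hfin : z ^ 2 = 1 * x ^ p + 2 ^ a * (B * 1 ^ p) := by
      rw [h, one_pow]
      ring
    rcases hL' with rfl | rfl | rfl | rfl | rfl
    · exact two_pow_sq hp hp11 hp13 (N := 2 * 3) (by decide) (supp_one _) hB h0 hodd1 hc1 ha
        hfin.symm
    · exact two_pow_sq hp hp11 hp13 (N := 2 * 5) (by decide) (supp_one _) hB h0 hodd1 hc1 ha
        hfin.symm
    · exact two_pow_sq_level hp hp11 hp13 (by decide) (supp_one _) hB h0 hodd1 hc1 ha hfin.symm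
    · exact two_pow_sq_level hp hp11 hp13 (by decide) (supp_one _) hB h0 hodd1 hc1 ha hfin.symm
    · exact two_pow_sq_level hp hp11 hp13 (by decide) (supp_one _) hB h0 hodd1 hc1 ha hfin.symm
  have hS : Supp (2 * L) ((L : ℤ) ^ b) := (supp_prime hLp (dvd_mul_left L 2)).pow b
  have hS0 : (L : ℤ) ^ b ≠ 0 := pow_ne_zero _ hLp'.ne_zero
  have hcop : ∀ t : ℤ, ¬ (L : ℤ) ∣ t → IsCoprime t ((L : ℤ) ^ b) := fun t ht =>
    ((hLp'.coprime_iff_not_dvd.mpr ht).symm).pow_right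
  have hb : b = 0 ∨ (L : ℤ) ∣ (L : ℤ) ^ b := by
    rcases Nat.eq_zero_or_pos b with h | h
    · exact Or.inl h
    · exact Or.inr (dvd_pow_self _ h.ne')
  constructor
  · intro h
    refine key (-(L : ℤ) ^ b) (supp_neg hS) (neg_ne_zero.mpr hS0)
      (fun t ht => (hcop t ht).neg_right) (hb.imp_right fun h => (dvd_neg).mpr h) ?_
    rw [← h]
    ring
  · intro h
    refine key ((L : ℤ) ^ b) hS hS0 hcop hb ?_
    rw [← h]
    ring

/-- for `L = 2, 5, 7, 11`, `a ≥ 3` and `z` prime to `3 L`, `z ^ 3 ± 3 ^ a L ^ b` is not a `p`-th power -/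
theorem lebesgue_nagell_cube_level {L : ℕ} (hL : L ∈ ({2, 5, 7, 11} : Finset ℕ)) {a b : ℕ}
    (ha : 3 ≤ a) {x z : ℤ} (hz : ¬ (3 : ℤ) ∣ z) (hLz : ¬ (L : ℤ) ∣ z) :
    z ^ 3 + 3 ^ a * (L : ℤ) ^ b ≠ x ^ p ∧ z ^ 3 - 3 ^ a * (L : ℤ) ^ b ≠ x ^ p := by
  have hLp : L.Prime := by
    simp only [Finset.mem_insert, Finset.mem_singleton] at hL
    rcases hL with rfl | rfl | rfl | rfl <;> norm_num
  have hLp' : Prime (L : ℤ) := Nat.prime_iff_prime_int.mp hLp
  have key : ∀ B : ℤ, Supp (3 * L) B → B ≠ 0 → (∀ t : ℤ, ¬ (L : ℤ) ∣ t → IsCoprime t B) →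
      (b = 0 ∨ (L : ℤ) ∣ B) → z ^ 3 ≠ x ^ p + 3 ^ a * B := by
    intro B hB hB0 hcop hb h
    have hx3 : ¬ (3 : ℤ) ∣ x := by
      intro hd
      refine hz (Int.prime_three.dvd_of_dvd_pow (n := 3) ?_)
      rw [h]
      exact dvd_add (dvd_pow hd hp.ne_zero) (Dvd.dvd.mul_right (dvd_pow_self 3 (by omega)) B)
    have hxB : IsCoprime x B := by
      by_cases hLx : (L : ℤ) ∣ x
      · rcases hb with hb | hb
        · by_cases hLB : (L : ℤ) ∣ B
          · exfalso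
            exact hLz (hLp'.dvd_of_dvd_pow (n := 3) (by
              rw [h]
              exact dvd_add (dvd_pow hLx hp.ne_zero) (Dvd.dvd.mul_left hLB _)))
          · exact (Int.isCoprime_iff_gcd_eq_one.mpr (by
              by_contra hg
              obtain ⟨q, hq, hqd⟩ := Nat.exists_prime_and_dvd hg
              have hqx : (q : ℤ) ∣ x := (Int.natCast_dvd_natCast.mpr hqd).trans (Int.gcd_dvd_left ..)
              have hqB : (q : ℤ) ∣ B := (Int.natCast_dvd_natCast.mpr hqd).trans (Int.gcd_dvd_right ..)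
              rcases (Nat.Prime.dvd_mul hq).mp (hB q hq hqB) with h2 | h2
              · rw [(Nat.prime_dvd_prime_iff_eq hq Nat.prime_three).mp h2] at hqx
                exact hx3 (by exact_mod_cast hqx)
              · rw [(Nat.prime_dvd_prime_iff_eq hq hLp).mp h2] at hqB
                exact hLB hqB))
        · exfalso
          exact hLz (hLp'.dvd_of_dvd_pow (n := 3) (by
            rw [h]
            exact dvd_add (dvd_pow hLx hp.ne_zero) (Dvd.dvd.mul_left hb _)))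
      · exact hcop x hLx
    have hx0 : x ≠ 0 := by
      rintro rfl
      exact hx3 (dvd_zero _)
    have h0 : (1 : ℤ) * B * x * 1 ≠ 0 := by
      rw [one_mul, mul_one]
      exact mul_ne_zero hB0 hx0
    have h31 : ¬ (3 : ℤ) ∣ 1 * x := by rwa [one_mul]
    have hc1 : IsCoprime (1 * x) (B * 1) := by rwa [one_mul, mul_one]
    have hL' := hL
    simp only [Finset.mem_insert, Finset.mem_singleton] at hL'
    have hfin : z ^ 3 = 1 * x ^ p + 3 ^ a * (B * 1 ^ p) := by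
      rw [h, one_pow]
      ring
    rcases hL' with rfl | rfl | rfl | rfl
    · exact three_pow_cube hp hp11 hp13 (N := 3 * 2) (by decide) (supp_one _) hB h0 h31 hc1 ha
        hfin.symm
    · exact three_pow_cube_level hp hp11 hp13 (by decide) (supp_one _) hB h0 h31 hc1 ha hfin.symm
    · exact three_pow_cube_level hp hp11 hp13 (by decide) (supp_one _) hB h0 h31 hc1 ha hfin.symm
    · exact three_pow_cube_level hp hp11 hp13 (by decide) (supp_one _) hB h0 h31 hc1 ha hfin.symm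
  have hS : Supp (3 * L) ((L : ℤ) ^ b) := (supp_prime hLp (dvd_mul_left L 3)).pow b
  have hS0 : (L : ℤ) ^ b ≠ 0 := pow_ne_zero _ hLp'.ne_zero
  have hcop : ∀ t : ℤ, ¬ (L : ℤ) ∣ t → IsCoprime t ((L : ℤ) ^ b) := fun t ht =>
    ((hLp'.coprime_iff_not_dvd.mpr ht).symm).pow_right
  have hb : b = 0 ∨ (L : ℤ) ∣ (L : ℤ) ^ b := by
    rcases Nat.eq_zero_or_pos b with h | h
    · exact Or.inl h
    · exact Or.inr (dvd_pow_self _ h.ne')
  constructor
  · intro h
    refine key (-(L : ℤ) ^ b) (supp_neg hS) (neg_ne_zero.mpr hS0)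
      (fun t ht => (hcop t ht).neg_right) (hb.imp_right fun h => (dvd_neg).mpr h) ?_
    rw [← h]
    ring
  · intro h
    refine key ((L : ℤ) ^ b) hS hS0 hcop hb ?_
    rw [← h]
    ring

end

end Fermat.Agent.Cor.H22G
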