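import Fermat.Agent.Cor.H22GenFin
import Fermat.Agent.Cor.Mazur

/-!
# Generalised Fermat equations of signature `(p, p, 2)`, `(p, p, 3)` and `(2, 3, p)`, `p ≥ 11`, `p ≠ 13`

The theorems of `Cor/H22GenFin.lean` for all primes `p ≥ 11`, `p ≠ 13`, by Mazur's theorem for semistable elliptic
curves (`Cor/Mazur.lean`). Let `x`, `y` be coprime nonzero integers.

* `darmon_merel_sq`: `x ^ p + y ^ p` is not a square if `x y` is even;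
* `darmon_merel_cube`: `x ^ p + y ^ p` is not a cube if `3 ∣ x y`;
* `two_pow_sq`: `A x ^ p + 2 ^ a B y ^ p` is not a square, `a ≥ 6`, for `A`, `B` with prime factors in `{2, 3}` or
  in `{2, 5}`, `A x` odd and prime to `B y`;
* `three_pow_cube`: `A x ^ p + 3 ^ a B y ^ p` is not a cube, `a ≥ 3`, for `A`, `B` with prime factors in `{2, 3}`,
  `A x` prime to `3 B y`;
* `lebesgue_nagell`: `z ^ 2 ± 2 ^ m` (`m ≥ 6`, `z` odd) and `z ^ 3 ± 3 ^ m` (`m ≥ 3`, `3 ∤ z`) are not `p`-th powers;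
* `cube_sub_sq`: `u ^ 3 - v ^ 2 ≠ 1728 A w ^ p` for coprime `u`, `v`, if the prime factors of `A` divide
  `N ∈ {1, 2, 3, 5, 6, 7, 10, 13}`; in particular `u ^ 3 - v ^ 2 ≠ 2 ^ a 3 ^ b w ^ p`, `a ≥ 6`, `b ≥ 3`.

This file is not used by any of the statement files.
-/

set_option autoImplicit false

namespace Fermat.Agent.Cor.H22G

open WeierstrassCurve

/-- Mazur's theorem for semistable curves -/
theorem irrAll {p : ℕ} (hp : p.Prime) (hp11 : 11 ≤ p) (hp13 : p ≠ 13) : IrrAll p := by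
  intro D hD W hW hss
  exact Mazur.modRep_irreducible (by rw [hW]; exact hD) hss hp hp11 hp13

section

variable {p : ℕ} (hp : p.Prime) (hp11 : 11 ≤ p) (hp13 : p ≠ 13)

include hp hp11 hp13

/-- **`x ^ p + y ^ p = z ^ 2`, `x y` even**: no solutions in coprime nonzero integers `x`, `y`. -/
theorem darmon_merel_sq {x y z : ℤ} (hcop : IsCoprime x y) (h0 : x * y ≠ 0)
    (h2 : (2 : ℤ) ∣ x * y) : x ^ p + y ^ p ≠ z ^ 2 :=
  add_pow_ne_sq hp (by omega) (irrAll hp hp11 hp13) hcop h0 h2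

/-- **`x ^ p + y ^ p = z ^ 3`, `3 ∣ x y`**: no solutions in coprime nonzero integers `x`, `y`. -/
theorem darmon_merel_cube {x y z : ℤ} (hcop : IsCoprime x y) (h0 : x * y ≠ 0)
    (h3 : (3 : ℤ) ∣ x * y) : x ^ p + y ^ p ≠ z ^ 3 :=
  add_pow_ne_cube hp (by omega) (irrAll hp hp11 hp13) hcop h0 h3

/-- `x ^ n + y ^ n = z ^ 2`, `x y` even, for all exponents `n` divisible by `p` -/
theorem darmon_merel_sq_exponent {n : ℕ} (hn : p ∣ n) (hn0 : n ≠ 0) {x y z : ℤ}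
    (hcop : IsCoprime x y) (h0 : x * y ≠ 0) (h2 : (2 : ℤ) ∣ x * y) : x ^ n + y ^ n ≠ z ^ 2 := by
  obtain ⟨k, rfl⟩ := hn
  have hk : k ≠ 0 := right_ne_zero_of_mul hn0
  rw [mul_comm p k, pow_mul, pow_mul]
  refine darmon_merel_sq hp hp11 hp13 (hcop.pow) ?_ ?_
  · rw [← mul_pow]
    exact pow_ne_zero _ h0
  · rw [← mul_pow]
    exact dvd_pow h2 hk

/-- `x ^ n + y ^ n = z ^ 3`, `3 ∣ x y`, for all exponents `n` divisible by `p` -/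
theorem darmon_merel_cube_exponent {n : ℕ} (hn : p ∣ n) (hn0 : n ≠ 0) {x y z : ℤ}
    (hcop : IsCoprime x y) (h0 : x * y ≠ 0) (h3 : (3 : ℤ) ∣ x * y) : x ^ n + y ^ n ≠ z ^ 3 := by
  obtain ⟨k, rfl⟩ := hn
  have hk : k ≠ 0 := right_ne_zero_of_mul hn0
  rw [mul_comm p k, pow_mul, pow_mul]
  refine darmon_merel_cube hp hp11 hp13 (hcop.pow) ?_ ?_
  · rw [← mul_pow]
    exact pow_ne_zero _ h0
  · rw [← mul_pow]
    exact dvd_pow h3 hk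

/-- **`A x ^ p + 2 ^ a B y ^ p = z ^ 2`, `a ≥ 6`.** -/
theorem two_pow_sq {N : ℕ} (hN : N ∈ ({2, 6, 10} : Finset ℕ)) {A B x y z : ℤ} (hA : Supp N A)
    (hB : Supp N B) (h0 : A * B * x * y ≠ 0) (hodd : Odd (A * x))
    (hcop : IsCoprime (A * x) (B * y)) {a : ℕ} (ha : 6 ≤ a) :
    A * x ^ p + 2 ^ a * (B * y ^ p) ≠ z ^ 2 :=
  two_pow_ne hp (by omega) (irrAll hp hp11 hp13) hN hA hB h0 hodd hcop ha

/-- **`x ^ p + 2 ^ a y ^ p = z ^ 2`, `a ≥ 6`, `x` odd** -/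
theorem two_pow_sq' {x y z : ℤ} (hx : Odd x) (hy : y ≠ 0) (hcop : IsCoprime x y) {a : ℕ}
    (ha : 6 ≤ a) : x ^ p + 2 ^ a * y ^ p ≠ z ^ 2 :=
  add_two_pow_ne_sq hp (by omega) (irrAll hp hp11 hp13) hx hy hcop ha

/-- **`A x ^ p + 64 B y ^ p = z ^ 2`** for `A`, `B` with prime factors dividing `N ∈ {1, 2, 3, 5, 6, 7, 10, 13}` -/
theorem sixtyfour_sq {N : ℕ} (hN : N ∈ levels) {A B x y z : ℤ} (hA : Supp N A) (hB : Supp N B)
    (h0 : A * B * x * y ≠ 0) (hodd : Odd (A * x)) (hcop : IsCoprime (A * x) (B * y)) :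
    A * x ^ p + 64 * (B * y ^ p) ≠ z ^ 2 :=
  pp2_ne hp (by omega) hN hA hB h0 hodd hcop (irrAll hp hp11 hp13 _ (by
    have hy : y ≠ 0 := right_ne_zero_of_mul h0
    have hx : x ≠ 0 := right_ne_zero_of_mul (left_ne_zero_of_mul h0)
    have hB0 : B ≠ 0 := right_ne_zero_of_mul (left_ne_zero_of_mul (left_ne_zero_of_mul h0))
    have hA0 : A ≠ 0 := left_ne_zero_of_mul (left_ne_zero_of_mul (left_ne_zero_of_mul h0))
    exact mul_ne_zero (mul_ne_zero hA0 (pow_ne_zero _ hx))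
      (pow_ne_zero _ (mul_ne_zero hB0 (pow_ne_zero _ hy)))))

/-- **`A x ^ p + 3 ^ a B y ^ p = z ^ 3`, `a ≥ 3`.** -/
theorem three_pow_cube {N : ℕ} (hN : N ∈ ({3, 6} : Finset ℕ)) {A B x y z : ℤ} (hA : Supp N A)
    (hB : Supp N B) (h0 : A * B * x * y ≠ 0) (h3 : ¬ (3 : ℤ) ∣ A * x)
    (hcop : IsCoprime (A * x) (B * y)) {a : ℕ} (ha : 3 ≤ a) :
    A * x ^ p + 3 ^ a * (B * y ^ p) ≠ z ^ 3 :=
  three_pow_ne hp (by omega) (irrAll hp hp11 hp13) hN hA hB h0 h3 hcop ha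

/-- **`x ^ p + 3 ^ a y ^ p = z ^ 3`, `a ≥ 3`, `3 ∤ x`** -/
theorem three_pow_cube' {x y z : ℤ} (hx : ¬ (3 : ℤ) ∣ x) (hy : y ≠ 0) (hcop : IsCoprime x y)
    {a : ℕ} (ha : 3 ≤ a) : x ^ p + 3 ^ a * y ^ p ≠ z ^ 3 :=
  add_three_pow_ne_cube hp (by omega) (irrAll hp hp11 hp13) hx hy hcop ha

/-- **`A x ^ p + 27 B y ^ p = z ^ 3`** for `A`, `B` with prime factors dividing `N ∈ {1, 2, 3, 5, 6, 7, 10, 13}` -/
theorem twentyseven_cube {N : ℕ} (hN : N ∈ levels) {A B x y z : ℤ} (hA : Supp N A)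
    (hB : Supp N B) (h0 : A * B * x * y ≠ 0) (h3 : ¬ (3 : ℤ) ∣ A * x)
    (hcop : IsCoprime (A * x) (B * y)) : A * x ^ p + 27 * (B * y ^ p) ≠ z ^ 3 :=
  pp3_ne hp (by omega) hN hA hB h0 h3 hcop (irrAll hp hp11 hp13 _ (by
    have hy : y ≠ 0 := right_ne_zero_of_mul h0
    have hx : x ≠ 0 := right_ne_zero_of_mul (left_ne_zero_of_mul h0)
    have hB0 : B ≠ 0 := right_ne_zero_of_mul (left_ne_zero_of_mul (left_ne_zero_of_mul h0))
    have hA0 : A ≠ 0 := left_ne_zero_of_mul (left_ne_zero_of_mul (left_ne_zero_of_mul h0))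
    exact mul_ne_zero (mul_ne_zero hA0 (pow_ne_zero _ hx))
      (pow_ne_zero _ (mul_ne_zero hB0 (pow_ne_zero _ hy)))))

/-- **Equations of Lebesgue–Nagell type**: for `m ≥ 6` and `z` odd, `z ^ 2 ± 2 ^ m` is not a `p`-th power. -/
theorem lebesgue_nagell {x z : ℤ} {m : ℕ} (hm : 6 ≤ m) (hz : Odd z) :
    z ^ 2 + 2 ^ m ≠ x ^ p ∧ z ^ 2 - 2 ^ m ≠ x ^ p :=
  sq_add_two_pow_ne hp (by omega) (irrAll hp hp11 hp13) hm hz

/-- for `m ≥ 3` and `3 ∤ z`, `z ^ 3 ± 3 ^ m` is not a `p`-th power -/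
theorem lebesgue_nagell_cube {x z : ℤ} {m : ℕ} (hm : 3 ≤ m) (hz : ¬ (3 : ℤ) ∣ z) :
    z ^ 3 + 3 ^ m ≠ x ^ p ∧ z ^ 3 - 3 ^ m ≠ x ^ p :=
  cube_add_three_pow_ne hp (by omega) (irrAll hp hp11 hp13) hm hz

/-- **`u ^ 3 - v ^ 2 = 1728 A w ^ p`**: no solutions in coprime `u`, `v` and nonzero `w`, if the prime factors of
`A ≠ 0` divide `N ∈ {1, 2, 3, 5, 6, 7, 10, 13}`. -/
theorem cube_sub_sq {N : ℕ} (hN : N ∈ levels) {A u v w : ℤ} (hA : Supp N A) (h0 : A * w ≠ 0)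
    (hcop : IsCoprime u v) : u ^ 3 - v ^ 2 ≠ 1728 * (A * w ^ p) :=
  e23p_ne hp (by omega) hN hA h0 hcop (irrAll hp hp11 hp13 _
    (mul_ne_zero (left_ne_zero_of_mul h0) (pow_ne_zero _ (right_ne_zero_of_mul h0))))

/-- **`u ^ 3 - v ^ 2 = 2 ^ a 3 ^ b w ^ p`, `a ≥ 6`, `b ≥ 3`**: no solutions in coprime `u`, `v` and nonzero `w`. -/
theorem cube_sub_sq' {u v w : ℤ} (hcop : IsCoprime u v) (hw : w ≠ 0) {a b : ℕ} (ha : 6 ≤ a)
    (hb : 3 ≤ b) : u ^ 3 - v ^ 2 ≠ 2 ^ a * 3 ^ b * w ^ p :=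
  cube_sub_sq_ne hp (by omega) (irrAll hp hp11 hp13) hcop hw ha hb

end

end Fermat.Agent.Cor.H22G
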