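import Fermat.Agent.H23.K1.Descent

/-!
# The rational points of `y² = x (x² + 181 x + 8192)` and `y² = x (x² + 13 x + 128)`

These are the elliptic curves `14a3` and `14a1 = X₀(14)`. The first has two rational points, the second six.
The proof is a `2`-descent on the first curve and uses the `3`-isogeny `x ↦ x (x - 32)² / (x - 4)²` from the second
curve to the first.

This file is not used by any of the statement files.
-/

set_option autoImplicit false

namespace Fermat.Agent.Cor.Seven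

open Fermat.Agent.H23.K1

/-- The equation `r⁴ + 181 r² e² + 8192 e⁴ = z²`. -/
def Quartic (r e z : ℤ) : Prop := r ^ 4 + 181 * r ^ 2 * e ^ 2 + 8192 * e ^ 4 = z ^ 2

theorem odd_prime_of_dvd {z n : ℤ} (hz : Prime z) (hn : Odd n) (h : z ∣ n) : ¬ z ∣ 2 := by
  intro h6
  have h7 : (2 : ℤ) ∣ n := ((hz.associated_of_dvd Int.prime_two h6).symm.dvd).trans h
  rw [← Int.not_even_iff_odd] at hn
  exact hn (even_iff_two_dvd.2 h7)

theorem prime7 : Prime (7 : ℤ) := by
  have := Nat.prime_iff_prime_int.1 (by norm_num : Nat.Prime 7)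
  exact_mod_cast this

/-- from `7 k⁴ = α β` with `α, β` coprime positive -/
theorem split7 {a b k : ℤ} (hab : IsCoprime a b) (ha : 0 < a) (hb : 0 < b)
    (h : a * b = 7 * k ^ 4) :
    ∃ u v : ℤ, IsCoprime u v ∧ u ^ 2 * v ^ 2 = k ^ 2 ∧
      ((a = 7 * u ^ 4 ∧ b = v ^ 4) ∨ (a = u ^ 4 ∧ b = 7 * v ^ 4)) := by
  have h7 : ∀ a b : ℤ, IsCoprime a b → 0 < a → 0 < b → a * b = 7 * k ^ 4 → (7 : ℤ) ∣ b →
      ∃ r s : ℤ, IsCoprime r s ∧ r ^ 2 * s ^ 2 = k ^ 2 ∧ a = r ^ 4 ∧ b = 7 * s ^ 4 := by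
    intro a b hab ha hb h h5b
    obtain ⟨b', rfl⟩ := h5b
    have hb' : 0 < b' := by omega
    have h' : a * b' = k ^ 4 := by linarith
    have hab' : IsCoprime a b' := hab.of_isCoprime_of_dvd_right (Dvd.intro_left _ rfl)
    obtain ⟨r, hr⟩ := fourth_of_mul hab' ha h'
    obtain ⟨s, hs⟩ := fourth_of_mul hab'.symm hb' (by rw [mul_comm]; exact h')
    refine ⟨r, s, ?_, ?_, hr, by rw [hs]⟩
    · rw [hr, hs] at hab'
      exact (IsCoprime.pow_iff (by norm_num) (by norm_num)).1 hab'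
    · rw [hr, hs] at h'
      have h1 : (r ^ 2 * s ^ 2) ^ 2 = (k ^ 2) ^ 2 := by linear_combination h'
      exact (pow_left_inj₀ (by positivity) (by positivity) (by norm_num)).1 h1
  have hdvd : (7 : ℤ) ∣ a * b := ⟨k ^ 4, h⟩
  rcases prime7.dvd_or_dvd hdvd with h1 | h1
  · obtain ⟨r, s, hrs, h2, h3, h4⟩ := h7 b a hab.symm hb ha (by rw [mul_comm]; exact h) h1
    exact ⟨s, r, hrs.symm, by rw [← h2]; ring, Or.inl ⟨h4, h3⟩⟩
  · obtain ⟨r, s, hrs, h2, h3, h4⟩ := h7 a b hab ha hb h h1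
    exact ⟨r, s, hrs, h2, Or.inr ⟨h3, h4⟩⟩

/-- from `2 ^ n k⁴ = α β` with `α, β` coprime positive -/
theorem split2 {a b k : ℤ} {n : ℕ} (hab : IsCoprime a b) (ha : 0 < a) (hb : 0 < b) (hn : n ≠ 0)
    (h : a * b = 2 ^ n * k ^ 4) :
    ∃ r s : ℤ, IsCoprime r s ∧ r ^ 2 * s ^ 2 = k ^ 2 ∧ a + b = r ^ 4 + 2 ^ n * s ^ 4 ∧
      IsCoprime r 2 := by
  have h2 : ∀ a b : ℤ, IsCoprime a b → 0 < a → 0 < b → a * b = 2 ^ n * k ^ 4 → (2 : ℤ) ∣ b →
      ∃ r s : ℤ, IsCoprime r s ∧ r ^ 2 * s ^ 2 = k ^ 2 ∧ a + b = r ^ 4 + 2 ^ n * s ^ 4 ∧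
        IsCoprime r 2 := by
    intro a b hab ha hb h h2b
    have h2a : IsCoprime (2 : ℤ) a := by
      rw [Int.prime_two.coprime_iff_not_dvd]
      intro h2a
      exact cop_false hab Int.prime_two h2a h2b
    obtain ⟨b', rfl⟩ : (2 : ℤ) ^ n ∣ b := (h2a.pow_left (m := n)).dvd_of_dvd_mul_left
      (Dvd.intro _ h.symm)
    have h2n : (0 : ℤ) < 2 ^ n := by positivity
    have hb' : 0 < b' := (pos_iff_pos_of_mul_pos hb).1 h2n
    have h' : a * b' = k ^ 4 := by
      have h3 : (2 : ℤ) ^ n * (a * b') = 2 ^ n * k ^ 4 := by rw [← h]; ring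
      exact mul_left_cancel₀ h2n.ne' h3
    have hab' : IsCoprime a b' := hab.of_isCoprime_of_dvd_right (Dvd.intro_left _ rfl)
    obtain ⟨r, hr⟩ := fourth_of_mul hab' ha h'
    obtain ⟨s, hs⟩ := fourth_of_mul hab'.symm hb' (by rw [mul_comm]; exact h')
    refine ⟨r, s, ?_, ?_, by rw [hr, hs], ?_⟩
    · rw [hr, hs] at hab'
      exact (IsCoprime.pow_iff (by norm_num) (by norm_num)).1 hab'
    · rw [hr, hs] at h'
      have h1 : (r ^ 2 * s ^ 2) ^ 2 = (k ^ 2) ^ 2 := by linear_combination h'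
      exact (pow_left_inj₀ (by positivity) (by positivity) (by norm_num)).1 h1
    · rw [hr] at h2a
      exact ((IsCoprime.pow_right_iff (by norm_num)).1 h2a).symm
  have hdvd : (2 : ℤ) ∣ a * b := by
    rw [h]
    exact dvd_mul_of_dvd_left (dvd_pow_self 2 hn) _
  rcases Int.prime_two.dvd_or_dvd hdvd with h1 | h1
  · obtain ⟨r, s, hrs, h3, h4, h5⟩ := h2 b a hab.symm hb ha (by rw [mul_comm]; exact h) h1
    exact ⟨r, s, hrs, h3, by rw [add_comm]; exact h4, h5⟩
  · exact h2 a b hab ha hb h h1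

/-- First half of the descent. -/
theorem step1 {r e z : ℤ} (hre : IsCoprime r e) (he : e ≠ 0) (h : Quartic r e z) :
    ∃ u v w : ℤ, IsCoprime u v ∧ u ≠ 0 ∧ u ^ 2 * v ^ 2 ≤ e ^ 2 ∧
      w ^ 2 = v ^ 4 - 362 * u ^ 2 * v ^ 2 - 7 * u ^ 4 := by
  unfold Quartic at h
  wlog hz : 0 ≤ z generalizing z with H
  · exact H (z := -z) (by rw [h]; ring) (by omega)
  have he2 : 0 < e ^ 2 := by positivity
  have he4 : 0 < e ^ 4 := by positivity
  rcases Int.even_or_odd e with hee | heo
  · -- `e` even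
    obtain ⟨e', rfl⟩ := hee.two_dvd
    have he'0 : e' ≠ 0 := by
      rintro rfl
      exact he (mul_zero 2)
    have he'2 : 0 < e' ^ 2 := by positivity
    have he'4 : 0 < e' ^ 4 := by positivity
    have hro : Odd r := by
      rw [← Int.not_even_iff_odd]
      intro hr
      exact cop_false hre Int.prime_two hr.two_dvd (dvd_mul_right 2 e')
    have hre' : IsCoprime r e' := hre.of_isCoprime_of_dvd_right (dvd_mul_left _ _)
    have hzo : Odd z := by
      have h1 : Odd (z ^ 2) := by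
        rw [← h]
        have h2 : r ^ 4 + 181 * r ^ 2 * (2 * e') ^ 2 + 8192 * (2 * e') ^ 4 =
            r ^ 4 + 2 * (362 * r ^ 2 * e' ^ 2 + 65536 * e' ^ 4) := by ring
        rw [h2]
        exact hro.pow.add_even (even_two_mul _)
      rwa [Int.odd_pow' two_ne_zero] at h1
    have hPo : Odd (r ^ 2 + 362 * e' ^ 2) := by
      have h2 : r ^ 2 + 362 * e' ^ 2 = r ^ 2 + 2 * (181 * e' ^ 2) := by ring
      rw [h2]
      exact hro.pow.add_even (even_two_mul _)
    obtain ⟨a, ha⟩ := (hzo.sub_odd hPo).two_dvd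
    obtain ⟨b, hb⟩ := (hzo.add_odd hPo).two_dvd
    have hab : a * b = 7 * e' ^ 4 := by
      have h1 : (2 * a) * (2 * b) = 4 * (7 * e' ^ 4) := by
        rw [← ha, ← hb]
        linear_combination -h
      linarith
    have hdiff : b - a = r ^ 2 + 362 * e' ^ 2 := by linarith
    have hsum : a + b = z := by linarith
    have hpos : 0 < a ∧ 0 < b := by
      have h1 : 0 < a * b := by rw [hab]; positivity
      rcases pos_and_pos_or_neg_and_neg_of_mul_pos h1 with h2 | h2
      · exact h2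
      · exfalso
        omega
    have hcop : IsCoprime a b := by
      apply cop hpos.1.ne'
      intro z' hz' h1 h2
      have h3 : z' ∣ r ^ 2 + 362 * e' ^ 2 := by rw [← hdiff]; exact dvd_sub h2 h1
      have h5 : z' ∣ e' := by
        have h4 : z' ^ 2 ∣ 7 * e' ^ 4 := by
          rw [← hab, sq]
          exact mul_dvd_mul h1 h2
        by_contra hcon
        have h6 : IsCoprime (z' ^ 2) (e' ^ 4) := by
          have h7 : IsCoprime z' e' := (hz'.coprime_iff_not_dvd).2 hcon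
          exact h7.pow
        have h8 : z' ^ 2 ∣ 7 := h6.dvd_of_dvd_mul_right h4
        have h9 : z' ∣ 7 := (dvd_pow_self z' two_ne_zero).trans h8
        have h10 := (hz'.associated_of_dvd prime7 h9)
        have h11 : (7 : ℤ) ^ 2 ∣ 7 := ((h10.pow_pow (n := 2)).symm.dvd).trans h8
        norm_num at h11
      have h6 : z' ∣ r ^ 2 := by
        have := dvd_sub h3 (dvd_mul_of_dvd_right (dvd_pow h5 two_ne_zero) 362)
        rwa [add_sub_cancel_right] at this
      exact cop_false hre' hz' (hz'.dvd_of_dvd_pow h6) h5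
    obtain ⟨u, v, huv, h1, h2⟩ := split7 hcop hpos.1 hpos.2 hab
    rcases h2 with ⟨h2, h3⟩ | ⟨h2, h3⟩
    · refine ⟨u, v, r, huv, ?_, ?_, ?_⟩
      · rintro rfl
        rw [h2] at hpos
        norm_num at hpos
      · rw [h1]
        nlinarith
      · rw [h2, h3] at hdiff
        linear_combination -hdiff + 362 * h1
    · exfalso
      rw [h2, h3] at hdiff
      have h4 : r ^ 2 = 7 * v ^ 4 - u ^ 4 - 362 * (u ^ 2 * v ^ 2) := by
        linear_combination -hdiff + 362 * h1
      have hodd : Odd (u ^ 4 + 7 * v ^ 4) := by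
        rw [← h2, ← h3, hsum]
        exact hzo
      rcases Int.even_or_odd u with hu | hu <;> rcases Int.even_or_odd v with hv | hv
      · exact cop_false huv Int.prime_two hu.two_dvd hv.two_dvd
      · obtain ⟨c, hc⟩ := hu
        obtain ⟨d, hd⟩ := hv
        have key : ∀ c d r : ZMod 4, r ^ 2 ≠ 7 * (2 * d + 1) ^ 4 - (c + c) ^ 4 -
            362 * ((c + c) ^ 2 * (2 * d + 1) ^ 2) := by decide
        apply key (c : ZMod 4) (d : ZMod 4) (r : ZMod 4)
        have h5 := congrArg (Int.cast : ℤ → ZMod 4) h4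
        rw [hc, hd] at h5
        push_cast at h5
        exact h5
      · obtain ⟨c, hc⟩ := hu
        obtain ⟨d, hd⟩ := hv
        have key : ∀ c d r : ZMod 4, r ^ 2 ≠ 7 * (d + d) ^ 4 - (2 * c + 1) ^ 4 -
            362 * ((2 * c + 1) ^ 2 * (d + d) ^ 2) := by decide
        apply key (c : ZMod 4) (d : ZMod 4) (r : ZMod 4)
        have h5 := congrArg (Int.cast : ℤ → ZMod 4) h4
        rw [hc, hd] at h5
        push_cast at h5
        exact h5
      · rw [← Int.not_even_iff_odd] at hodd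
        exact hodd (hu.pow.add_odd (Odd.mul (by decide) hv.pow))
  · -- `e` odd
    obtain ⟨a, ha⟩ : ∃ a, a = 2 * z - (2 * r ^ 2 + 181 * e ^ 2) := ⟨_, rfl⟩
    obtain ⟨b, hb⟩ : ∃ b, b = 2 * z + (2 * r ^ 2 + 181 * e ^ 2) := ⟨_, rfl⟩
    have hab : a * b = 7 * e ^ 4 := by
      rw [ha, hb]
      linear_combination -4 * h
    have hdiff : b - a = 2 * (2 * r ^ 2 + 181 * e ^ 2) := by rw [ha, hb]; ring
    have hPo : Odd (2 * r ^ 2 + 181 * e ^ 2) :=
      (even_two_mul _).add_odd (Odd.mul (by decide) heo.pow)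
    have hao : Odd a := by
      rw [ha]
      exact (even_two_mul _).sub_odd hPo
    have hpos : 0 < a ∧ 0 < b := by
      have h1 : 0 < a * b := by rw [hab]; positivity
      rcases pos_and_pos_or_neg_and_neg_of_mul_pos h1 with h2 | h2
      · exact h2
      · exfalso
        have h3 : 0 < b := by rw [hb]; positivity
        omega
    have hcop : IsCoprime a b := by
      apply cop hpos.1.ne'
      intro z' hz' h1 h2
      have hz2 := odd_prime_of_dvd hz' hao h1
      have h3 : z' ∣ 2 * r ^ 2 + 181 * e ^ 2 := by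
        have := dvd_sub h2 h1
        rw [hdiff] at this
        exact (hz'.dvd_or_dvd this).resolve_left hz2
      have h5 : z' ∣ e := by
        have h4 : z' ^ 2 ∣ 7 * e ^ 4 := by
          rw [← hab, sq]
          exact mul_dvd_mul h1 h2
        by_contra hcon
        have h6 : IsCoprime (z' ^ 2) (e ^ 4) := by
          have h7 : IsCoprime z' e := (hz'.coprime_iff_not_dvd).2 hcon
          exact h7.pow
        have h8 : z' ^ 2 ∣ 7 := h6.dvd_of_dvd_mul_right h4
        have h9 : z' ∣ 7 := (dvd_pow_self z' two_ne_zero).trans h8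
        have h10 := (hz'.associated_of_dvd prime7 h9)
        have h11 : (7 : ℤ) ^ 2 ∣ 7 := ((h10.pow_pow (n := 2)).symm.dvd).trans h8
        norm_num at h11
      have h6 : z' ∣ 2 * r ^ 2 := by
        have := dvd_sub h3 (dvd_mul_of_dvd_right (dvd_pow h5 two_ne_zero) 181)
        rwa [add_sub_cancel_right] at this
      exact cop_false hre hz' (hz'.dvd_of_dvd_pow ((hz'.dvd_or_dvd h6).resolve_left hz2)) h5
    obtain ⟨u, v, huv, h1, h2⟩ := split7 hcop hpos.1 hpos.2 hab
    have huo : Odd u ∧ Odd v := by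
      have h3 : Odd (u ^ 2 * v ^ 2) := by rw [h1]; exact heo.pow
      obtain ⟨h4, h5⟩ := Int.odd_mul.1 h3
      exact ⟨(Int.odd_pow' two_ne_zero).1 h4, (Int.odd_pow' two_ne_zero).1 h5⟩
    rcases h2 with ⟨h2, h3⟩ | ⟨h2, h3⟩
    · refine ⟨u, v, 2 * r, huv, ?_, h1.le, ?_⟩
      · rintro rfl
        rw [h2] at hpos
        norm_num at hpos
      · rw [h2, h3] at hdiff
        linear_combination -hdiff + 362 * h1
    · exfalso
      rw [h2, h3] at hdiff
      have h4 : 4 * r ^ 2 = 7 * v ^ 4 - u ^ 4 - 362 * (u ^ 2 * v ^ 2) := by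
        linear_combination -hdiff + 362 * h1
      obtain ⟨⟨c, hc⟩, ⟨d, hd⟩⟩ := huo
      have key : ∀ c d r : ZMod 16, 4 * r ^ 2 ≠ 7 * (2 * d + 1) ^ 4 - (2 * c + 1) ^ 4 -
          362 * ((2 * c + 1) ^ 2 * (2 * d + 1) ^ 2) := by decide +kernel
      apply key (c : ZMod 16) (d : ZMod 16) (r : ZMod 16)
      have h5 := congrArg (Int.cast : ℤ → ZMod 16) h4
      rw [hc, hd] at h5
      push_cast at h5
      exact h5

/-- Second half of the descent. -/
theorem step2 {u v w : ℤ} (huv : IsCoprime u v) (hu : u ≠ 0)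
    (h : w ^ 2 = v ^ 4 - 362 * u ^ 2 * v ^ 2 - 7 * u ^ 4) :
    ∃ r e z : ℤ, IsCoprime r e ∧ e ≠ 0 ∧ e ^ 2 ≤ u ^ 2 ∧ Quartic r e z := by
  have hu2 : 0 < u ^ 2 := by positivity
  have hu4 : 0 < u ^ 4 := by positivity
  have hv2 : 0 ≤ v ^ 2 := sq_nonneg v
  have hbig : 362 * u ^ 2 < v ^ 2 := by
    by_contra hcon
    push Not at hcon
    nlinarith [sq_nonneg w, mul_nonneg hv2 (sub_nonneg.2 hcon)]
  have hsle : ∀ r s k : ℤ, k ≠ 0 → r ^ 2 * s ^ 2 = k ^ 2 → s ≠ 0 ∧ s ^ 2 ≤ k ^ 2 := by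
    intro r s k hk hrs
    have hk2 : 0 < k ^ 2 := by positivity
    have hs : s ≠ 0 := by
      rintro rfl
      rw [← hrs] at hk2
      simp at hk2
    have hr : r ≠ 0 := by
      rintro rfl
      rw [← hrs] at hk2
      simp at hk2
    refine ⟨hs, ?_⟩
    rw [← hrs]
    have h1 : 1 ≤ r ^ 2 := by
      have : 0 < r ^ 2 := by positivity
      omega
    nlinarith [sq_nonneg s]
  have hPpos : 0 < v ^ 2 - 181 * u ^ 2 := by omega
  have hfac : (v ^ 2 - 181 * u ^ 2) ^ 2 - w ^ 2 = 2 ^ 15 * u ^ 4 := by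
    rw [h]
    ring
  by_cases hpar : Odd u ∧ Odd v
  · -- both odd
    obtain ⟨⟨c, hc⟩, ⟨d, hd⟩⟩ := id hpar
    obtain ⟨p, hp, hpo⟩ : ∃ p, v ^ 2 - 181 * u ^ 2 = 4 * p ∧ Odd p := by
      -- `v² ≡ u² ≡ 1 mod 8`
      obtain ⟨m, hm⟩ : ∃ m, d * (d + 1) = 2 * m := (Int.even_mul_succ_self d).two_dvd
      obtain ⟨n, hn⟩ : ∃ n, c * (c + 1) = 2 * n := (Int.even_mul_succ_self c).two_dvd
      refine ⟨2 * (m - 181 * n - 23) + 1, ?_, odd_two_mul_add_one _⟩
      rw [hc, hd]
      linear_combination 4 * hm - 724 * hn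
    obtain ⟨w', hw'⟩ : (4 : ℤ) ∣ w := by
      have h1 : (4 : ℤ) ^ 2 ∣ w ^ 2 := by
        refine ⟨p ^ 2 - 2 ^ 11 * u ^ 4, ?_⟩
        rw [hp] at hfac
        linear_combination -hfac
      exact (Int.pow_dvd_pow_iff two_ne_zero).1 h1
    have h1 : p ^ 2 - w' ^ 2 = 2 ^ 11 * u ^ 4 := by
      rw [hp, hw'] at hfac
      have : 16 * (p ^ 2 - w' ^ 2) = 16 * (2 ^ 11 * u ^ 4) := by linear_combination hfac
      linarith
    have hw'o : Odd w' := by
      have h2 : Odd (w' ^ 2) := by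
        have h3 : w' ^ 2 = p ^ 2 - 2 * (2 ^ 10 * u ^ 4) := by linear_combination -h1
        rw [h3]
        exact hpo.pow.sub_even (even_two_mul _)
      rwa [Int.odd_pow' two_ne_zero] at h2
    obtain ⟨a, ha⟩ := (hpo.sub_odd hw'o).two_dvd
    obtain ⟨b, hb⟩ := (hpo.add_odd hw'o).two_dvd
    have hab : a * b = 2 ^ 9 * u ^ 4 := by
      have h2 : (2 * a) * (2 * b) = 4 * (2 ^ 9 * u ^ 4) := by
        rw [← ha, ← hb]
        linear_combination h1
      linarith
    have hsum : a + b = p := by linarith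
    have hppos : 0 < p := by omega
    have hpos : 0 < a ∧ 0 < b := by
      have h2 : 0 < a * b := by rw [hab]; positivity
      rcases pos_and_pos_or_neg_and_neg_of_mul_pos h2 with h3 | h3
      · exact h3
      · exfalso
        omega
    have hcop : IsCoprime a b := by
      apply cop hpos.1.ne'
      intro z hz h2 h3
      have h4 : z ∣ p := by rw [← hsum]; exact dvd_add h2 h3
      have hz2 := odd_prime_of_dvd hz hpo h4
      have h5 : z ∣ u := by
        have h6 : z ∣ 2 ^ 9 * u ^ 4 := by rw [← hab]; exact dvd_mul_of_dvd_left h2 _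
        exact hz.dvd_of_dvd_pow ((hz.dvd_or_dvd h6).resolve_left
          fun h7 => hz2 (hz.dvd_of_dvd_pow h7))
      have h6 : z ∣ v ^ 2 := by
        have h7 : z ∣ v ^ 2 - 181 * u ^ 2 := by rw [hp]; exact dvd_mul_of_dvd_right h4 _
        have := dvd_add h7 (dvd_mul_of_dvd_right (dvd_pow h5 two_ne_zero) 181)
        rwa [sub_add_cancel] at this
      exact cop_false huv hz h5 (hz.dvd_of_dvd_pow h6)
    obtain ⟨s, t, hst, h2, h3, -⟩ := split2 hcop hpos.1 hpos.2 (by norm_num) hab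
    obtain ⟨ht0, htu⟩ := hsle s t u hu h2
    have hto : Odd t := by
      have h4 : Odd (s ^ 2 * t ^ 2) := by rw [h2]; exact hpar.1.pow
      exact (Int.odd_pow' two_ne_zero).1 (Int.odd_mul.1 h4).2
    refine ⟨2 * s, t, 2 * v, ?_, ht0, htu, ?_⟩
    · refine IsCoprime.mul_left ?_ hst
      rw [Int.prime_two.coprime_iff_not_dvd]
      intro h4
      rw [← Int.not_even_iff_odd] at hto
      exact hto (even_iff_two_dvd.2 h4)
    · unfold Quartic
      rw [hsum] at h3
      rw [h3] at hp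
      linear_combination -4 * hp + 724 * h2
  · -- `u v` even
    have huvo : Odd (v ^ 2 - 181 * u ^ 2) := by
      rcases Int.even_or_odd u with hu' | hu'
      · rcases Int.even_or_odd v with hv' | hv'
        · exact absurd (cop_false huv Int.prime_two hu'.two_dvd hv'.two_dvd) id
        · exact hv'.pow.sub_even ((hu'.pow_of_ne_zero two_ne_zero).mul_left _)
      · rcases Int.even_or_odd v with hv' | hv'
        · exact (hv'.pow_of_ne_zero two_ne_zero).sub_odd (Odd.mul (by decide) hu'.pow)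
        · exact absurd ⟨hu', hv'⟩ hpar
    have hwo : Odd w := by
      have h2 : Odd (w ^ 2) := by
        have h3 : w ^ 2 = (v ^ 2 - 181 * u ^ 2) ^ 2 - 2 * (2 ^ 14 * u ^ 4) := by
          linear_combination -hfac
        rw [h3]
        exact huvo.pow.sub_even (even_two_mul _)
      rwa [Int.odd_pow' two_ne_zero] at h2
    obtain ⟨a, ha⟩ := (huvo.sub_odd hwo).two_dvd
    obtain ⟨b, hb⟩ := (huvo.add_odd hwo).two_dvd
    have hab : a * b = 2 ^ 13 * u ^ 4 := by
      have h2 : (2 * a) * (2 * b) = 4 * (2 ^ 13 * u ^ 4) := by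
        rw [← ha, ← hb]
        linear_combination hfac
      linarith
    have hsum : a + b = v ^ 2 - 181 * u ^ 2 := by linarith
    have hpos : 0 < a ∧ 0 < b := by
      have h2 : 0 < a * b := by rw [hab]; positivity
      rcases pos_and_pos_or_neg_and_neg_of_mul_pos h2 with h3 | h3
      · exact h3
      · exfalso
        omega
    have hcop : IsCoprime a b := by
      apply cop hpos.1.ne'
      intro z hz h2 h3
      have h4 : z ∣ v ^ 2 - 181 * u ^ 2 := by rw [← hsum]; exact dvd_add h2 h3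
      have hz2 := odd_prime_of_dvd hz huvo h4
      have h5 : z ∣ u := by
        have h6 : z ∣ 2 ^ 13 * u ^ 4 := by rw [← hab]; exact dvd_mul_of_dvd_left h2 _
        exact hz.dvd_of_dvd_pow ((hz.dvd_or_dvd h6).resolve_left
          fun h7 => hz2 (hz.dvd_of_dvd_pow h7))
      have h6 : z ∣ v ^ 2 := by
        have := dvd_add h4 (dvd_mul_of_dvd_right (dvd_pow h5 two_ne_zero) 181)
        rwa [sub_add_cancel] at this
      exact cop_false huv hz h5 (hz.dvd_of_dvd_pow h6)
    obtain ⟨s, t, hst, h2, h3, -⟩ := split2 hcop hpos.1 hpos.2 (by norm_num) hab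
    obtain ⟨ht0, htu⟩ := hsle s t u hu h2
    refine ⟨s, t, v, hst, ht0, htu, ?_⟩
    unfold Quartic
    linear_combination hsum - h3 + 181 * h2

/-- The quartic `r⁴ + 181 r² e² + 8192 e⁴ = z²` has only the trivial solution. -/
theorem quartic_eq (n : ℕ) : ∀ {r e z : ℤ}, e.natAbs = n → IsCoprime r e → Quartic r e z →
    e = 0 := by
  induction n using Nat.strong_induction_on with
  | _ n ih =>
    intro r e z hn hre h
    by_contra he
    obtain ⟨u, v, w, huv, hu, h1, h2⟩ := step1 hre he h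
    obtain ⟨r', e', z', hre', he', h3, h4⟩ := step2 huv hu h2
    have hu2 : 0 < u ^ 2 := by positivity
    have hv : 1 < v ^ 2 := by
      by_contra hcon
      push Not at hcon
      have h5 : 0 < u ^ 4 := by positivity
      nlinarith [sq_nonneg w, sq_nonneg v, mul_nonneg hu2.le (sq_nonneg v)]
    have hlt : e' ^ 2 < e ^ 2 := by nlinarith
    have hlt' : e'.natAbs < n := by
      rw [← hn]
      exact Int.natAbs_lt_iff_sq_lt.2 hlt
    exact he' (ih _ hlt' rfl hre' h4)

/-- A factor of a square whose gcd with the cofactor is a power of two is a square or twice a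
square. -/
theorem sq_or_two {a b k : ℕ} (ha : a ≠ 0) (hb : b ≠ 0) (h : a * b = k ^ 2)
    (hg : ∀ l : ℕ, l.Prime → l ∣ a → l ∣ b → l = 2) : ∃ r : ℕ, a = r ^ 2 ∨ a = 2 * r ^ 2 := by
  obtain ⟨c, r, hcr, hc⟩ := Nat.sq_mul_squarefree a
  have hc0 : c ≠ 0 := hc.ne_zero
  have hr0 : r ≠ 0 := by
    rintro rfl
    apply ha
    rw [← hcr]
    ring
  have hk0 : k ≠ 0 := by
    rintro rfl
    exact mul_ne_zero ha hb (by rw [h]; ring)
  have h2 : ∀ {l : ℕ}, l.Prime → l ∣ c → l = 2 := by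
    intro l hl hlc
    refine hg l hl (hlc.trans (Dvd.intro_left _ hcr)) ?_
    have := Fact.mk hl
    have e1 : padicValNat l a = 2 * padicValNat l r + 1 := by
      rw [← hcr, padicValNat.mul (pow_ne_zero 2 hr0) hc0, padicValNat.pow]
      congr 1
      have h3 : padicValNat l c ≤ 1 := by
        rw [← Nat.factorization_def _ hl]
        exact hc.natFactorization_le_one l
      have h4 : 1 ≤ padicValNat l c := one_le_padicValNat_of_dvd hc0 hlc
      omega
    have e2 : padicValNat l a + padicValNat l b = 2 * padicValNat l k := by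
      rw [← padicValNat.mul ha hb, h, padicValNat.pow]
    have h5 : padicValNat l b ≠ 0 := by omega
    exact dvd_of_one_le_padicValNat (Nat.one_le_iff_ne_zero.2 h5)
  have h3 := Nat.eq_prime_pow_of_unique_prime_dvd hc0 (fun {d} hd hdc => h2 hd hdc)
  generalize c.primeFactorsList.length = m at h3
  subst h3
  rcases Nat.lt_or_ge m 2 with hm | hm
  · interval_cases m
    · exact ⟨r, Or.inl (by rw [← hcr]; ring)⟩
    · exact ⟨r, Or.inr (by rw [← hcr]; ring)⟩
  · exfalso
    have h4 : 2 * 2 ∣ 2 ^ m := by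
      rw [← sq]
      exact pow_dvd_pow 2 hm
    have := hc 2 h4
    rw [Nat.isUnit_iff] at this
    omega

/-- The points of `y² = x (x² + 181 x + 8192)` whose first coordinate is a square. -/
theorem false_of_sq {x y t : ℚ} (h : x * (x ^ 2 + 181 * x + 8192) = y ^ 2) (hx : x = t ^ 2)
    (ht : t ≠ 0) : False := by
  have hD0 : (t.den : ℚ) ≠ 0 := by exact_mod_cast t.den_pos.ne'
  have htt : t * t.den = t.num := Rat.mul_den_eq_num t
  have hsq : IsSquare (((t.num ^ 4 + 181 * t.num ^ 2 * t.den ^ 2 + 8192 * t.den ^ 4 : ℤ)) : ℚ) := by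
    refine ⟨y / t * t.den ^ 2, ?_⟩
    have e : y / t * (t.den : ℚ) ^ 2 * (y / t * (t.den : ℚ) ^ 2) =
        (y ^ 2 / t ^ 2) * (t.den : ℚ) ^ 4 := by
      field_simp
    rw [e, ← h, hx]
    push_cast
    rw [← htt]
    field_simp
  rw [Rat.isSquare_intCast_iff] at hsq
  obtain ⟨k, hk⟩ := hsq
  have hcop : IsCoprime t.num (t.den : ℤ) := by
    rw [Int.isCoprime_iff_gcd_eq_one]
    exact t.reduced
  have h1 := quartic_eq _ (z := k) rfl hcop (by unfold Quartic; rw [hk, sq])
  exact t.den_pos.ne' (by exact_mod_cast h1)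

/-- The rational points of `y² = x (x² + 181 x + 8192)`. -/
theorem rat_b {x y : ℚ} (h : x * (x ^ 2 + 181 * x + 8192) = y ^ 2) : x = 0 := by
  by_contra hx0
  have hD : (0 : ℤ) < x.den := by exact_mod_cast x.den_pos
  have hD0 : (x.den : ℚ) ≠ 0 := by exact_mod_cast x.den_pos.ne'
  have hh : x * x.den = x.num := Rat.mul_den_eq_num x
  have hsq : IsSquare (((x.num * x.den * (x.num ^ 2 + 181 * (x.num * x.den) +
      8192 * x.den ^ 2) : ℤ)) : ℚ) := by
    refine ⟨y * x.den ^ 2, ?_⟩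
    push_cast
    rw [← hh]
    linear_combination (x.den : ℚ) ^ 4 * h
  rw [Rat.isSquare_intCast_iff] at hsq
  obtain ⟨k, hk⟩ := hsq
  have hND : IsCoprime x.num (x.den : ℤ) := by
    rw [Int.isCoprime_iff_gcd_eq_one]
    exact x.reduced
  have hN0 : x.num ≠ 0 := fun h1 => hx0 (Rat.num_eq_zero.1 h1)
  obtain ⟨N, hN⟩ : ∃ N, N = x.num := ⟨_, rfl⟩
  obtain ⟨D, hD'⟩ : ∃ D : ℤ, D = x.den := ⟨_, rfl⟩
  rw [← hN, ← hD'] at hk hND
  rw [← hN] at hN0
  rw [← hD'] at hD
  have hQpos : 0 < N ^ 2 + 181 * (N * D) + 8192 * D ^ 2 := by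
    have h1 : 4 * (N ^ 2 + 181 * (N * D) + 8192 * D ^ 2) = (2 * N + 181 * D) ^ 2 + 7 * D ^ 2 := by
      ring
    have h2 : 0 < (2 * N + 181 * D) ^ 2 + 7 * D ^ 2 := by positivity
    omega
  have hDc : IsCoprime D (N * (N ^ 2 + 181 * (N * D) + 8192 * D ^ 2)) := by
    refine hND.symm.mul_right ?_
    have h1 : N ^ 2 + 181 * (N * D) + 8192 * D ^ 2 = N ^ 2 + D * (181 * N + 8192 * D) := by ring
    rw [h1, IsCoprime.add_mul_left_right_iff]
    exact hND.symm.pow_right
  have hk0 : 0 < N * (N ^ 2 + 181 * (N * D) + 8192 * D ^ 2) := by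
    have h1 : 0 < D * (N * (N ^ 2 + 181 * (N * D) + 8192 * D ^ 2)) := by
      have h2 : D * (N * (N ^ 2 + 181 * (N * D) + 8192 * D ^ 2)) = k * k := by rw [← hk]; ring
      rw [h2]
      have hk : k ≠ 0 := by
        rintro rfl
        have h3 : N * D * (N ^ 2 + 181 * (N * D) + 8192 * D ^ 2) = 0 := by rw [hk]; ring
        rcases mul_eq_zero.1 h3 with h4 | h4
        · rcases mul_eq_zero.1 h4 with h5 | h5
          · exact hN0 h5
          · omega
        · omega
      exact mul_self_pos.2 hk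
    exact (pos_iff_pos_of_mul_pos h1).1 hD
  have hNpos : 0 < N := (pos_iff_pos_of_mul_pos hk0).2 hQpos
  obtain ⟨e, k₁, he, hk₁⟩ := sq_sq_of_mul hDc hD hk0 (k := k)
    (by linear_combination hk)
  have he0 : (e : ℚ) ≠ 0 := by
    rintro h1
    have h2 : e = 0 := by exact_mod_cast h1
    rw [he, h2] at hD
    norm_num at hD
  -- `N` is a square or twice a square
  obtain ⟨r, hr⟩ : ∃ r : ℕ, N.natAbs = r ^ 2 ∨ N.natAbs = 2 * r ^ 2 := by
    refine sq_or_two (b := (N ^ 2 + 181 * (N * D) + 8192 * D ^ 2).natAbs) (k := k₁.natAbs)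
      (Int.natAbs_ne_zero.2 hN0) (Int.natAbs_ne_zero.2 hQpos.ne') ?_ ?_
    · rw [← Int.natAbs_mul, hk₁, Int.natAbs_pow]
    · intro l hl h1 h2
      have hlp : Prime (l : ℤ) := Nat.prime_iff_prime_int.1 hl
      have h3 : (l : ℤ) ∣ N := Int.natCast_dvd.2 h1
      have h4 : (l : ℤ) ∣ N ^ 2 + 181 * (N * D) + 8192 * D ^ 2 := Int.natCast_dvd.2 h2
      have h5 : (l : ℤ) ∣ 2 ^ 13 * D ^ 2 := by
        have h6 : (2 : ℤ) ^ 13 * D ^ 2 = (N ^ 2 + 181 * (N * D) + 8192 * D ^ 2) -
            N * (N + 181 * D) := by ring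
        rw [h6]
        exact dvd_sub h4 (dvd_mul_of_dvd_left h3 _)
      rcases hlp.dvd_or_dvd h5 with h6 | h6
      · have h7 : (l : ℤ) ∣ 2 := hlp.dvd_of_dvd_pow h6
        have h8 : l ∣ 2 := by exact_mod_cast h7
        exact (Nat.prime_dvd_prime_iff_eq hl Nat.prime_two).1 h8
      · exact absurd (cop_false hND hlp h3 (hlp.dvd_of_dvd_pow h6)) id
  have hN' : (N : ℚ) = N.natAbs := by
    rw [← Int.cast_natCast, Int.natAbs_of_nonneg hNpos.le]
  have hxN : x * (e : ℚ) ^ 2 = N := by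
    have h1 : ((x.den : ℤ) : ℚ) = (e : ℚ) ^ 2 := by
      rw [← hD', he]
      push_cast
      ring
    rw [← h1, hN, ← hh]
    push_cast
    ring
  have hNq : (N : ℚ) ≠ 0 := by exact_mod_cast hN0
  rcases hr with hr | hr
  · have hr0 : (r : ℚ) ≠ 0 := by
      intro h1
      apply hNq
      rw [hN', hr]
      push_cast
      rw [h1]
      ring
    refine false_of_sq h (t := (r : ℚ) / e) ?_ (div_ne_zero hr0 he0)
    rw [div_pow, eq_div_iff (pow_ne_zero 2 he0), hxN, hN', hr]
    push_cast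
    ring
  · have hr0 : (r : ℚ) ≠ 0 := by
      intro h1
      apply hNq
      rw [hN', hr]
      push_cast
      rw [h1]
      ring
    refine false_of_sq (x := 8192 / x) (y := 8192 * y / x ^ 2) (t := 64 * e / r) ?_ ?_
      (div_ne_zero (mul_ne_zero (by norm_num) he0) hr0)
    · have e1 : (8192 * y / x ^ 2) ^ 2 = 8192 ^ 2 * y ^ 2 / x ^ 4 := by
        field_simp
      rw [e1, ← h]
      field_simp
      ring
    · have h1 : x * (e : ℚ) ^ 2 = 2 * (r : ℚ) ^ 2 := by
        rw [hxN, hN', hr]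
        push_cast
        ring
      rw [div_pow, div_eq_div_iff hx0 (pow_ne_zero 2 hr0)]
      linear_combination (-4096) * h1

/-- The rational points of `y² = x (x² + 13 x + 128)` (the curve `X₀(14)`). -/
theorem rat_a {x y : ℚ} (h : x * (x ^ 2 + 13 * x + 128) = y ^ 2) : x = 0 ∨ x = 4 ∨ x = 32 := by
  by_cases h4 : x = 4
  · exact Or.inr (Or.inl h4)
  have h4' : x - 4 ≠ 0 := sub_ne_zero.2 h4
  have h1 : x * (x - 32) ^ 2 / (x - 4) ^ 2 = 0 := by
    apply rat_b (y := y * (x - 32) * (x ^ 2 + 20 * x + 128) / (x - 4) ^ 3)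
    have e1 : (y * (x - 32) * (x ^ 2 + 20 * x + 128) / (x - 4) ^ 3) ^ 2 =
        y ^ 2 * ((x - 32) * (x ^ 2 + 20 * x + 128) / (x - 4) ^ 3) ^ 2 := by ring
    rw [e1, ← h]
    field_simp
    ring
  rcases div_eq_zero_iff.1 h1 with h2 | h2
  · rcases mul_eq_zero.1 h2 with h3 | h3
    · exact Or.inl h3
    · exact Or.inr (Or.inr (sub_eq_zero.1 (pow_eq_zero_iff (by norm_num) |>.1 h3)))
  · exact absurd (pow_eq_zero_iff (by norm_num) |>.1 h2) h4'

/-- The noncuspidal rational points of `X₀(14)`. -/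
theorem rat_T {V T : ℚ} (h : V * T ^ 2 + V * (2 * V + 9) * T + (V + 1) ^ 2 * (V + 8) = 0)
    (hT : T ≠ 0) : (V = -1 ∧ T = -7) ∨ (V = -8 ∧ T = 7) := by
  have h1 : (-4 * V) * ((-4 * V) ^ 2 + 13 * (-4 * V) + 128) =
      (4 * (2 * V * T + V * (2 * V + 9))) ^ 2 := by
    linear_combination (-64 * V) * h
  rcases rat_a h1 with h2 | h2 | h2
  · have h3 : V = 0 := by linarith
    rw [h3] at h
    norm_num at h
  · have h3 : V = -1 := by linarith
    refine Or.inl ⟨h3, ?_⟩
    rw [h3] at h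
    have h4 : T * (T + 7) = 0 := by linear_combination -h
    rcases mul_eq_zero.1 h4 with h5 | h5
    · exact absurd h5 hT
    · linarith
  · have h3 : V = -8 := by linarith
    refine Or.inr ⟨h3, ?_⟩
    rw [h3] at h
    have h4 : T * (T - 7) = 0 := by linear_combination (-1 / 8) * h
    rcases mul_eq_zero.1 h4 with h5 | h5
    · exact absurd h5 hT
    · linarith

end Fermat.Agent.Cor.Seven
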