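import Mathlib

/-!
# The modular curve `X₀(7)`: algebra

Let `x₁, x₂, x₃` be the first coordinates of `P, 2P, 4P` for a point `P` of order `7` of an elliptic curve
`y² + … = x³ + …`, and put `a = x₁ - x₂`, `b = x₂ - x₃`, `c = x₃ - x₁`. The addition formulas for the pairs
`(P, 2P)`, `(2P, 4P)`, `(4P, P)` are linear equations for `b₂, b₄, b₆`, whose solution is
`D (4 x³ + b₂ x² + 2 b₄ x + b₆) = 4 D (x - x₁) (x - x₂) (x - x₃) + (q x + e)²` with `D = - a b c`,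
`q = a² + a b + b²`, `e = a c² - q x₁`. The quantities `q, e, D` and `w = (a - b) (b - c) (c - a)` are invariant
under cyclic permutations of `x₁, x₂, x₃`.

This file is not used by any of the statement files.
-/

set_option autoImplicit false

namespace Fermat.Agent.Cor.Seven

variable {K : Type*} [Field K]

/-- `D = - (x₁ - x₂) (x₂ - x₃) (x₃ - x₁)` -/
def fD (x₁ x₂ x₃ : K) : K := -((x₁ - x₂) * (x₂ - x₃) * (x₃ - x₁))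

/-- `q = a² + a b + b²` -/
def fq (x₁ x₂ x₃ : K) : K := (x₁ - x₂) ^ 2 + (x₁ - x₂) * (x₂ - x₃) + (x₂ - x₃) ^ 2

/-- `e = a c² - q x₁` -/
def fe (x₁ x₂ x₃ : K) : K := (x₁ - x₂) * (x₃ - x₁) ^ 2 - fq x₁ x₂ x₃ * x₁

/-- `w = (a - b) (b - c) (c - a)` -/
def fw (x₁ x₂ x₃ : K) : K :=
  ((x₁ - x₂) - (x₂ - x₃)) * ((x₂ - x₃) - (x₃ - x₁)) * ((x₃ - x₁) - (x₁ - x₂))

theorem fD_cyc (x₁ x₂ x₃ : K) : fD x₂ x₃ x₁ = fD x₁ x₂ x₃ := by unfold fD; ring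
theorem fq_cyc (x₁ x₂ x₃ : K) : fq x₂ x₃ x₁ = fq x₁ x₂ x₃ := by unfold fq; ring
theorem fe_cyc (x₁ x₂ x₃ : K) : fe x₂ x₃ x₁ = fe x₁ x₂ x₃ := by unfold fe fq; ring
theorem fw_cyc (x₁ x₂ x₃ : K) : fw x₂ x₃ x₁ = fw x₁ x₂ x₃ := by unfold fw; ring

theorem four_q (x₁ x₂ x₃ : K) :
    4 * fq x₁ x₂ x₃ ^ 3 = 27 * fD x₁ x₂ x₃ ^ 2 + fw x₁ x₂ x₃ ^ 2 := by
  unfold fq fD fw; ring

/-- The addition formula for one pair. -/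
def Sum (b₂ b₄ b₆ x y z : K) : Prop :=
  (z + x) * (x - y) ^ 2 = 2 * x * y * (x + y) + b₂ * (x * y) + b₄ * (x + y) + b₆

variable {b₂ b₄ b₆ x₁ x₂ x₃ : K}

theorem fund (h1 : Sum b₂ b₄ b₆ x₁ x₂ x₃) (h2 : Sum b₂ b₄ b₆ x₂ x₃ x₁)
    (h3 : Sum b₂ b₄ b₆ x₃ x₁ x₂) (t : K) :
    fD x₁ x₂ x₃ * (4 * t ^ 3 + b₂ * t ^ 2 + 2 * b₄ * t + b₆) =
      4 * fD x₁ x₂ x₃ * ((t - x₁) * (t - x₂) * (t - x₃)) +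
        (fq x₁ x₂ x₃ * t + fe x₁ x₂ x₃) ^ 2 := by
  unfold Sum at h1 h2 h3
  unfold fe fD fq
  linear_combination (-((x₁ - x₂) * (t - x₃) ^ 2)) * h1 - ((x₂ - x₃) * (t - x₁) ^ 2) * h2 -
    ((x₃ - x₁) * (t - x₂) ^ 2) * h3

theorem sextic (x₁ x₂ x₃ t : K) :
    16 * fD x₁ x₂ x₃ * (fq x₁ x₂ x₃ * t + fe x₁ x₂ x₃) ^ 3 +
      (fw x₁ x₂ x₃ ^ 2 + 8 * fD x₁ x₂ x₃ * fw x₁ x₂ x₃ + 3 * fD x₁ x₂ x₃ ^ 2) *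
        (fq x₁ x₂ x₃ * t + fe x₁ x₂ x₃) ^ 2 -
      8 * fD x₁ x₂ x₃ ^ 2 * (fw x₁ x₂ x₃ + 3 * fD x₁ x₂ x₃) *
        (fq x₁ x₂ x₃ * t + fe x₁ x₂ x₃) + 16 * fD x₁ x₂ x₃ ^ 4 =
    4 * fq x₁ x₂ x₃ ^ 3 * (4 * fD x₁ x₂ x₃ * ((t - x₁) * (t - x₂) * (t - x₃)) +
      (fq x₁ x₂ x₃ * t + fe x₁ x₂ x₃) ^ 2) := by
  unfold fe fD fq fw
  obtain ⟨a, rfl⟩ : ∃ a, x₁ = x₂ + a := ⟨x₁ - x₂, by ring⟩
  obtain ⟨b, rfl⟩ : ∃ b, x₃ = x₂ - b := ⟨x₂ - x₃, by ring⟩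
  obtain ⟨s, rfl⟩ : ∃ s, t = x₂ + s := ⟨t - x₂, by ring⟩
  ring

theorem root_eq (h1 : Sum b₂ b₄ b₆ x₁ x₂ x₃) (h2 : Sum b₂ b₄ b₆ x₂ x₃ x₁)
    (h3 : Sum b₂ b₄ b₆ x₃ x₁ x₂) {t : K} (ht : 4 * t ^ 3 + b₂ * t ^ 2 + 2 * b₄ * t + b₆ = 0) :
    16 * fD x₁ x₂ x₃ * (fq x₁ x₂ x₃ * t + fe x₁ x₂ x₃) ^ 3 +
      (fw x₁ x₂ x₃ ^ 2 + 8 * fD x₁ x₂ x₃ * fw x₁ x₂ x₃ + 3 * fD x₁ x₂ x₃ ^ 2) *
        (fq x₁ x₂ x₃ * t + fe x₁ x₂ x₃) ^ 2 -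
      8 * fD x₁ x₂ x₃ ^ 2 * (fw x₁ x₂ x₃ + 3 * fD x₁ x₂ x₃) *
        (fq x₁ x₂ x₃ * t + fe x₁ x₂ x₃) + 16 * fD x₁ x₂ x₃ ^ 4 = 0 := by
  rw [sextic, ← fund h1 h2 h3, ht, mul_zero, mul_zero]

theorem root_ne (h1 : Sum b₂ b₄ b₆ x₁ x₂ x₃) (h2 : Sum b₂ b₄ b₆ x₂ x₃ x₁)
    (h3 : Sum b₂ b₄ b₆ x₃ x₁ x₂) {t : K} (ht : 4 * t ^ 3 + b₂ * t ^ 2 + 2 * b₄ * t + b₆ = 0)
    (h4 : (4 : K) ≠ 0) (hD : fD x₁ x₂ x₃ ≠ 0) : fq x₁ x₂ x₃ * t + fe x₁ x₂ x₃ ≠ 0 := by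
  intro h
  have e := fund h1 h2 h3 t
  rw [ht, h] at e
  have hD' := neg_ne_zero.1 (show -((x₁ - x₂) * (x₂ - x₃) * (x₃ - x₁)) ≠ 0 from hD)
  have ha : x₁ - x₂ ≠ 0 := left_ne_zero_of_mul (left_ne_zero_of_mul hD')
  have hb : x₂ - x₃ ≠ 0 := right_ne_zero_of_mul (left_ne_zero_of_mul hD')
  have hc : x₃ - x₁ ≠ 0 := right_ne_zero_of_mul hD'
  have h5 : (t - x₁) * (t - x₂) * (t - x₃) = 0 := by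
    have h6 : 4 * fD x₁ x₂ x₃ * ((t - x₁) * (t - x₂) * (t - x₃)) = 0 := by
      linear_combination -e
    exact (mul_eq_zero.1 h6).resolve_left (mul_ne_zero h4 hD)
  rcases mul_eq_zero.1 h5 with h6 | h6
  · rcases mul_eq_zero.1 h6 with h7 | h7
    · obtain rfl := sub_eq_zero.1 h7
      refine mul_ne_zero ha (pow_ne_zero 2 hc) ?_
      rw [← h]
      unfold fe
      ring
    · obtain rfl := sub_eq_zero.1 h7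
      refine mul_ne_zero hb (pow_ne_zero 2 ha) ?_
      rw [← h]
      unfold fe fq
      ring
  · obtain rfl := sub_eq_zero.1 h6
    refine mul_ne_zero hc (pow_ne_zero 2 hb) ?_
    rw [← h]
    unfold fe fq
    ring

/-- The discriminant. -/
theorem disc_eq (h1 : Sum b₂ b₄ b₆ x₁ x₂ x₃) (h2 : Sum b₂ b₄ b₆ x₂ x₃ x₁)
    (h3 : Sum b₂ b₄ b₆ x₃ x₁ x₂) (hD : fD x₁ x₂ x₃ ≠ 0) :
    -b₂ ^ 2 * (b₂ * b₆ - b₄ ^ 2) - 32 * b₄ ^ 3 - 108 * b₆ ^ 2 + 36 * b₂ * b₄ * b₆ =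
      -2 * fD x₁ x₂ x₃ * (fw x₁ x₂ x₃ + 13 * fD x₁ x₂ x₃) := by
  obtain ⟨a, ha⟩ : ∃ a, x₂ = x₁ - a := ⟨x₁ - x₂, by ring⟩
  obtain ⟨c, hc⟩ : ∃ c, x₃ = x₁ + c := ⟨x₃ - x₁, by ring⟩
  subst ha hc
  obtain ⟨B, hB⟩ : ∃ B, B = b₂ + 12 * x₁ := ⟨_, rfl⟩
  obtain ⟨C, hC⟩ : ∃ C, C = b₄ + b₂ * x₁ + 6 * x₁ ^ 2 := ⟨_, rfl⟩
  obtain ⟨G, hG⟩ : ∃ G, G = b₆ + 2 * b₄ * x₁ + b₂ * x₁ ^ 2 + 4 * x₁ ^ 3 := ⟨_, rfl⟩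
  have e0 : -b₂ ^ 2 * (b₂ * b₆ - b₄ ^ 2) - 32 * b₄ ^ 3 - 108 * b₆ ^ 2 + 36 * b₂ * b₄ * b₆ =
      -B ^ 2 * (B * G - C ^ 2) - 32 * C ^ 3 - 108 * G ^ 2 + 36 * B * C * G := by
    rw [hB, hC, hG]
    ring
  obtain ⟨D, hDd⟩ : ∃ D, D = a * c * (a + c) := ⟨_, rfl⟩
  have eD : fD x₁ (x₁ - a) (x₁ + c) = D := by rw [hDd]; unfold fD; ring
  have ew : fw x₁ (x₁ - a) (x₁ + c) = (2 * a + c) * (-a - 2 * c) * (c - a) := by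
    unfold fw; ring
  rw [e0, eD, ew]
  rw [eD] at hD
  unfold Sum at h1 h2 h3
  have e1 : D * B = 4 * D * (a - c) + (a ^ 2 + a * c + c ^ 2) ^ 2 := by
    rw [hB, hDd]
    linear_combination (-a) * h1 + (a + c) * h2 - c * h3
  have e2 : D * C = -2 * a * c * D + (a ^ 2 + a * c + c ^ 2) * (a * c ^ 2) := by
    rw [hC, hDd]
    linear_combination (a * c) * h1 - (a * c) * h3
  have e3 : D * G = a ^ 2 * c ^ 4 := by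
    rw [hG, hDd]
    linear_combination (-(a * c ^ 2)) * h1 - (a ^ 2 * c) * h3
  have e4 : D ^ 4 * (-B ^ 2 * (B * G - C ^ 2) - 32 * C ^ 3 - 108 * G ^ 2 + 36 * B * C * G) =
      -(D * B) ^ 2 * ((D * B) * (D * G) - (D * C) ^ 2) - 32 * D * (D * C) ^ 3 -
        108 * D ^ 2 * (D * G) ^ 2 + 36 * D * (D * B) * (D * C) * (D * G) := by ring
  apply mul_left_cancel₀ (pow_ne_zero 4 hD)
  rw [e4, e1, e2, e3, hDd]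
  ring

/-- The invariant `c₄`. -/
theorem c4_eq (h1 : Sum b₂ b₄ b₆ x₁ x₂ x₃) (h2 : Sum b₂ b₄ b₆ x₂ x₃ x₁)
    (h3 : Sum b₂ b₄ b₆ x₃ x₁ x₂) :
    4 * fD x₁ x₂ x₃ ^ 2 * (b₂ ^ 2 - 24 * b₄) = fq x₁ x₂ x₃ *
      (fw x₁ x₂ x₃ ^ 2 + 16 * fD x₁ x₂ x₃ * fw x₁ x₂ x₃ + 43 * fD x₁ x₂ x₃ ^ 2) := by
  obtain ⟨a, ha⟩ : ∃ a, x₂ = x₁ - a := ⟨x₁ - x₂, by ring⟩
  obtain ⟨c, hc⟩ : ∃ c, x₃ = x₁ + c := ⟨x₃ - x₁, by ring⟩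
  subst ha hc
  obtain ⟨B, hB⟩ : ∃ B, B = b₂ + 12 * x₁ := ⟨_, rfl⟩
  obtain ⟨C, hC⟩ : ∃ C, C = b₄ + b₂ * x₁ + 6 * x₁ ^ 2 := ⟨_, rfl⟩
  have e0 : b₂ ^ 2 - 24 * b₄ = B ^ 2 - 24 * C := by
    rw [hB, hC]
    ring
  obtain ⟨D, hDd⟩ : ∃ D, D = a * c * (a + c) := ⟨_, rfl⟩
  have eD : fD x₁ (x₁ - a) (x₁ + c) = D := by rw [hDd]; unfold fD; ring
  have ew : fw x₁ (x₁ - a) (x₁ + c) = (2 * a + c) * (-a - 2 * c) * (c - a) := by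
    unfold fw; ring
  have eq : fq x₁ (x₁ - a) (x₁ + c) = a ^ 2 + a * c + c ^ 2 := by
    unfold fq; ring
  rw [e0, eD, ew, eq]
  unfold Sum at h1 h2 h3
  have e1 : D * B = 4 * D * (a - c) + (a ^ 2 + a * c + c ^ 2) ^ 2 := by
    rw [hB, hDd]
    linear_combination (-a) * h1 + (a + c) * h2 - c * h3
  have e2 : D * C = -2 * a * c * D + (a ^ 2 + a * c + c ^ 2) * (a * c ^ 2) := by
    rw [hC, hDd]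
    linear_combination (a * c) * h1 - (a * c) * h3
  have e4 : 4 * D ^ 2 * (B ^ 2 - 24 * C) = 4 * (D * B) ^ 2 - 96 * D * (D * C) := by ring
  rw [e4, e1, e2, hDd]
  ring

end Fermat.Agent.Cor.Seven
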