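import Fermat.Agent.S51
import Fermat.Agent.Frob.Torsion
import Fermat.Agent.Cor.SevenDescent
import Fermat.Agent.Cor.SevenKey

/-!
# Rational isogenies of degree `7`

* `hauptmodul`: the parametrisation of `X₀(7)`: `Δ = D² T`, `c₄ = q (T² + 5 T + 1)`, `q³ = D² (T² + 13 T + 49)`;
* `irreducible_of_full`: an elliptic curve over `ℚ` with full rational `2`-torsion has no rational
  isogeny of degree `7`;
* `j_of_reducible`: an elliptic curve over `ℚ` with a rational point of order `2` and a rational isogeny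
  of degree `7` has `j = -3375` or `j = 255³` (the rational points of `X₀(14)`);
* `modRepIsIrreducible_seven`: a semistable elliptic curve over `ℚ` with a rational point of order `2` has
  irreducible `7`-torsion.

This file is not used by any of the statement files.
-/

set_option autoImplicit false

namespace Fermat.Agent.Cor.Seven

open WeierstrassCurve WeierstrassCurve.Affine WeierstrassCurve.Affine.Point
open Fermat.Agent.H51 Fermat.Agent.S51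

variable {E : WeierstrassCurve.Affine ℚ}

local notation "Kbar" => AlgebraicClosure ℚ

/-- `E[7]` reducible: the first coordinates of `P, 2P, 4P`. -/
theorem seven_reducible (hΔ : E.Δ ≠ 0) (h : ¬ GaloisRepIsIrreducible (K := Kbar) ℚ E 7) :
    ∃ x₁ x₂ x₃ : Kbar, fD x₁ x₂ x₃ ≠ 0 ∧
      Sum (E⁄Kbar).b₂ (E⁄Kbar).b₄ (E⁄Kbar).b₆ x₁ x₂ x₃ ∧
      Sum (E⁄Kbar).b₂ (E⁄Kbar).b₄ (E⁄Kbar).b₆ x₂ x₃ x₁ ∧
      Sum (E⁄Kbar).b₂ (E⁄Kbar).b₄ (E⁄Kbar).b₆ x₃ x₁ x₂ ∧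
      ∀ σ : Kbar ≃ₐ[ℚ] Kbar, (σ x₁ = x₁ ∧ σ x₂ = x₂ ∧ σ x₃ = x₃) ∨
        (σ x₁ = x₂ ∧ σ x₂ = x₃ ∧ σ x₃ = x₁) ∨ (σ x₁ = x₃ ∧ σ x₂ = x₁ ∧ σ x₃ = x₂) := by
  have hfact : Fact (Nat.Prime 7) := ⟨by norm_num⟩
  have hE : E.IsElliptic := ⟨isUnit_iff_ne_zero.2 hΔ⟩
  have hfin := Fermat.Agent.Frob.finite_torsionBy Kbar E (n := 7) (by norm_num)
  have hcard := Fermat.Agent.Frob.card_torsionBy Kbar E (n := 7) (by norm_num)
  have hnt : Nontrivial (Submodule.torsionBy ℤ (E⁄Kbar).Point (7 : ℕ)) := by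
    apply (Finite.one_lt_card_iff_nontrivial).1
    rw [hcard]
    norm_num
  unfold GaloisRepIsIrreducible at h
  push Not at h
  obtain ⟨N, hN, hbot, htop⟩ := h hnt
  obtain ⟨v, hv, hv0, hall⟩ := line_of_card (p := 7) hfin (by rw [hcard]; norm_num) N hbot htop
  obtain ⟨P, hP⟩ : ∃ P, P = (v : (E⁄Kbar).Point) := ⟨_, rfl⟩
  have hP0 : P ≠ 0 := by rw [hP]; exact fun h => hv0 (Subtype.ext h)
  have h7 : (7 : ℕ) • P = 0 := by
    have := v.2
    rw [Submodule.mem_torsionBy_iff] at this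
    rw [hP]
    exact_mod_cast this
  have hord : addOrderOf P = 7 := addOrderOf_eq_prime h7 hP0
  have hne : ∀ m : ℕ, ¬ 7 ∣ m → m • P ≠ 0 := by
    intro m hm h0
    rw [← hord] at hm
    exact hm (addOrderOf_dvd_iff_nsmul_eq_zero.2 h0)
  have hmod : ∀ m n : ℕ, m % 7 = n → m • P = n • P := by
    intro m n hmn
    conv_lhs => rw [← Nat.mod_add_div m 7, add_nsmul, mul_nsmul, h7, nsmul_zero, add_zero, hmn]
  have hng : ∀ m n : ℕ, (m + n) % 7 = 0 → m • P = -(n • P) := by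
    intro m n hmn
    rw [eq_neg_iff_add_eq_zero, ← add_nsmul, hmod _ 0 hmn, zero_nsmul]
  have hx : ∀ m n : ℕ, ((m + n) % 7 = 0 ∨ m % 7 = n % 7) → xc (m • P) = xc (n • P) := by
    rintro m n (hmn | hmn)
    · rw [hng m n hmn, xc_neg]
    · rw [hmod m _ hmn, ← hmod n _ rfl]
  have hdist : ∀ m n : ℕ, ¬ 7 ∣ m → ¬ 7 ∣ n → (m + n) % 7 ≠ 0 → m % 7 ≠ n % 7 →
      xc (m • P) ≠ xc (n • P) := by
    intro m n hm hn h1 h2 h3
    rcases (xc_eq_iff (hne m hm) (hne n hn)).1 h3 with h4 | h4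
    · apply h2
      have := (nsmul_eq_nsmul_iff_modEq (x := P) (m := n) (n := m)).1 h4
      rw [hord] at this
      exact this
    · rw [eq_neg_iff_add_eq_zero, ← add_nsmul] at h4
      exact hne (m + n) (fun h5 => h1 (Nat.mod_eq_zero_of_dvd h5)) h4
  have hsub : ∀ m n : ℕ, ∀ k : ℕ, (n + k) % 7 = m % 7 → m • P - n • P = k • P := by
    intro m n k hk
    rw [sub_eq_iff_eq_add, ← add_nsmul, hmod m _ rfl, hmod (k + n) (m % 7) (by
      rw [add_comm, hk])]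
  have hS : ∀ m n k l : ℕ, ¬ 7 ∣ m → ¬ 7 ∣ n → (m + n) % 7 ≠ 0 → m % 7 ≠ n % 7 →
      ((m + n + k) % 7 = 0 ∨ (m + n) % 7 = k % 7) → (n + l) % 7 = m % 7 →
      ((l + m) % 7 = 0 ∨ l % 7 = m % 7) →
      Sum (E⁄Kbar).b₂ (E⁄Kbar).b₄ (E⁄Kbar).b₆ (xc (m • P)) (xc (n • P)) (xc (k • P)) := by
    intro m n k l hm hn h1 h2 h3 h4 h5
    have := xc_add_sub_sum (hne m hm) (hne n hn) (hdist m n hm hn h1 h2)
    rw [← add_nsmul, hx (m + n) k h3, hsub m n l h4, hx l m h5] at this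
    exact this
  refine ⟨xc ((1 : ℕ) • P), xc ((2 : ℕ) • P), xc ((4 : ℕ) • P), ?_, ?_, ?_, ?_, ?_⟩
  · unfold fD
    refine neg_ne_zero.2 (mul_ne_zero (mul_ne_zero ?_ ?_) ?_)
    · exact sub_ne_zero.2 (hdist 1 2 (by norm_num) (by norm_num) (by norm_num) (by norm_num))
    · exact sub_ne_zero.2 (hdist 2 4 (by norm_num) (by norm_num) (by norm_num) (by norm_num))
    · exact sub_ne_zero.2 (hdist 4 1 (by norm_num) (by norm_num) (by norm_num) (by norm_num))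
  · exact hS 1 2 4 6 (by norm_num) (by norm_num) (by norm_num) (by norm_num) (by norm_num)
      (by norm_num) (by norm_num)
  · exact hS 2 4 1 5 (by norm_num) (by norm_num) (by norm_num) (by norm_num) (by norm_num)
      (by norm_num) (by norm_num)
  · exact hS 4 1 2 3 (by norm_num) (by norm_num) (by norm_num) (by norm_num) (by norm_num)
      (by norm_num) (by norm_num)
  · intro σ
    obtain ⟨c, hc⟩ := hall (σ • v) (hN σ v hv)
    have hc' : σ • P =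
        ((c • v : Submodule.torsionBy ℤ (E⁄Kbar).Point (7 : ℕ)) : (E⁄Kbar).Point) := by
      rw [hP]
      exact congrArg Subtype.val hc
    have hcn : ((c • v : Submodule.torsionBy ℤ (E⁄Kbar).Point (7 : ℕ)) : (E⁄Kbar).Point) =
        c.val • P := by
      have : c • v = c.val • v := by
        conv_lhs => rw [← ZMod.natCast_zmod_val c]
        exact Nat.cast_smul_eq_nsmul _ _ _
      rw [this, hP]
      rfl
    rw [hcn] at hc'
    have hne' : σ • P ≠ 0 := by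
      intro h
      apply hP0
      have := congrArg (fun P => σ⁻¹ • P) h
      simpa using this
    have hlt := ZMod.val_lt c
    generalize c.val = m at hlt hc'
    have hσ : ∀ n : ℕ, σ (xc (n • P)) = xc ((m * n) • P) := by
      intro n
      rw [← xc_galois, nsmul_galois, hc', ← mul_nsmul]
    rw [hσ 1, hσ 2, hσ 4]
    interval_cases m
    · rw [zero_nsmul] at hc'
      exact absurd hc' hne'
    · exact Or.inl ⟨hx _ _ (by norm_num), hx _ _ (by norm_num), hx _ _ (by norm_num)⟩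
    · exact Or.inr (Or.inl ⟨hx _ _ (by norm_num), hx _ _ (by norm_num), hx _ _ (by norm_num)⟩)
    · exact Or.inr (Or.inr ⟨hx _ _ (by norm_num), hx _ _ (by norm_num), hx _ _ (by norm_num)⟩)
    · exact Or.inr (Or.inr ⟨hx _ _ (by norm_num), hx _ _ (by norm_num), hx _ _ (by norm_num)⟩)
    · exact Or.inr (Or.inl ⟨hx _ _ (by norm_num), hx _ _ (by norm_num), hx _ _ (by norm_num)⟩)
    · exact Or.inl ⟨hx _ _ (by norm_num), hx _ _ (by norm_num), hx _ _ (by norm_num)⟩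

/-- A cyclic invariant is rational. -/
theorem rational_of_cyc {x₁ x₂ x₃ : Kbar}
    (hG : ∀ σ : Kbar ≃ₐ[ℚ] Kbar, (σ x₁ = x₁ ∧ σ x₂ = x₂ ∧ σ x₃ = x₃) ∨
        (σ x₁ = x₂ ∧ σ x₂ = x₃ ∧ σ x₃ = x₁) ∨ (σ x₁ = x₃ ∧ σ x₂ = x₁ ∧ σ x₃ = x₂))
    {f : Kbar → Kbar → Kbar → Kbar} (hf : ∀ x y z, f y z x = f x y z)
    (hσ : ∀ (σ : Kbar ≃ₐ[ℚ] Kbar) (x y z : Kbar), σ (f x y z) = f (σ x) (σ y) (σ z)) :
    ∃ r : ℚ, algebraMap ℚ Kbar r = f x₁ x₂ x₃ := by
  apply rational_of_fixed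
  intro σ
  rcases hG σ with ⟨h1, h2, h3⟩ | ⟨h1, h2, h3⟩ | ⟨h1, h2, h3⟩
  · rw [hσ, h1, h2, h3]
  · rw [hσ, h1, h2, h3, hf]
  · rw [hσ, h1, h2, h3, ← hf]

/-- The rational parameters of a rational subgroup of order `7`. -/
theorem rational_data (hΔ : E.Δ ≠ 0) (h : ¬ GaloisRepIsIrreducible (K := Kbar) ℚ E 7) :
    ∃ q e D w : ℚ, D ≠ 0 ∧ 4 * q ^ 3 = 27 * D ^ 2 + w ^ 2 ∧ 2 * E.Δ = -D * (w + 13 * D) ∧
      4 * D ^ 2 * E.c₄ = q * (w ^ 2 + 16 * D * w + 43 * D ^ 2) ∧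
      (∀ t : ℚ, D * (4 * t ^ 3 + E.b₂ * t ^ 2 + 2 * E.b₄ * t + E.b₆) * (4 * q ^ 3) =
        16 * D * (q * t + e) ^ 3 + (w ^ 2 + 8 * D * w + 3 * D ^ 2) * (q * t + e) ^ 2 -
          8 * D ^ 2 * (w + 3 * D) * (q * t + e) + 16 * D ^ 4) ∧
      ∀ t : ℚ, 4 * t ^ 3 + E.b₂ * t ^ 2 + 2 * E.b₄ * t + E.b₆ = 0 → q * t + e ≠ 0 := by
  obtain ⟨x₁, x₂, x₃, hD, h1, h2, h3, hG⟩ := seven_reducible hΔ h
  obtain ⟨q, hq⟩ := rational_of_cyc hG (f := fq) (fun x y z => fq_cyc x y z)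
    (fun σ x y z => by unfold fq; simp only [map_add, map_sub, map_mul, map_pow])
  obtain ⟨D, hD'⟩ := rational_of_cyc hG (f := fD) (fun x y z => fD_cyc x y z)
    (fun σ x y z => by unfold fD; simp only [map_neg, map_sub, map_mul])
  obtain ⟨e, he⟩ := rational_of_cyc hG (f := fe) (fun x y z => fe_cyc x y z)
    (fun σ x y z => by unfold fe fq; simp only [map_add, map_sub, map_mul, map_pow])
  obtain ⟨w, hw⟩ := rational_of_cyc hG (f := fw) (fun x y z => fw_cyc x y z)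
    (fun σ x y z => by unfold fw; simp only [map_sub, map_mul])
  have hb2 : (E⁄Kbar).b₂ = algebraMap ℚ Kbar E.b₂ := WeierstrassCurve.map_b₂ ..
  have hb4 : (E⁄Kbar).b₄ = algebraMap ℚ Kbar E.b₄ := WeierstrassCurve.map_b₄ ..
  have hb6 : (E⁄Kbar).b₆ = algebraMap ℚ Kbar E.b₆ := WeierstrassCurve.map_b₆ ..
  rw [hb2, hb4, hb6] at h1 h2 h3
  have hinj := (algebraMap ℚ Kbar).injective
  refine ⟨q, e, D, w, ?_, ?_, ?_, ?_, ?_, ?_⟩
  · rintro rfl
    apply hD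
    rw [← hD', _root_.map_zero]
  · apply hinj
    simp only [map_add, map_mul, map_pow, map_ofNat]
    rw [hq, hD', hw]
    exact four_q x₁ x₂ x₃
  · apply hinj
    have e1 := disc_eq h1 h2 h3 hD
    have hb8 : 4 * E.b₈ = E.b₂ * E.b₆ - E.b₄ ^ 2 := E.b_relation
    have e2 : 4 * E.Δ = -E.b₂ ^ 2 * (E.b₂ * E.b₆ - E.b₄ ^ 2) - 32 * E.b₄ ^ 3 -
        108 * E.b₆ ^ 2 + 36 * E.b₂ * E.b₄ * E.b₆ := by
      rw [WeierstrassCurve.Δ, ← hb8]
      ring
    have e3 := congrArg (algebraMap ℚ Kbar) e2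
    simp only [map_add, map_sub, map_neg, map_mul, map_pow, map_ofNat] at e3 ⊢
    rw [hD', hw]
    have h22 : (2 : Kbar) ≠ 0 := by norm_num
    apply mul_left_cancel₀ h22
    linear_combination e3 + e1
  · apply hinj
    rw [WeierstrassCurve.c₄]
    simp only [map_add, map_sub, map_mul, map_pow, map_ofNat]
    rw [hq, hD', hw]
    exact c4_eq h1 h2 h3
  · intro t
    apply hinj
    simp only [map_add, map_sub, map_mul, map_pow, map_ofNat]
    rw [hq, hD', hw, he, sextic, ← fund h1 h2 h3]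
    ring
  · intro t ht h0
    have ht' : 4 * (algebraMap ℚ Kbar t) ^ 3 + algebraMap ℚ Kbar E.b₂ * (algebraMap ℚ Kbar t) ^ 2 +
        2 * algebraMap ℚ Kbar E.b₄ * algebraMap ℚ Kbar t + algebraMap ℚ Kbar E.b₆ = 0 := by
      have := congrArg (algebraMap ℚ Kbar) ht
      simpa only [map_add, map_mul, map_pow, map_ofNat, _root_.map_zero] using this
    apply root_ne h1 h2 h3 ht' (by norm_num) hD
    have := congrArg (algebraMap ℚ Kbar) h0
    rw [← hq, ← he]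
    simpa only [map_add, map_mul, _root_.map_zero] using this

/-- The Hauptmodul of `X₀(7)`: if `E[7]` is reducible, there are rational numbers `T ≠ 0`, `q`, `D ≠ 0` with
`Δ = D² T`, `c₄ = q (T² + 5 T + 1)` and `q³ = D² (T² + 13 T + 49)`; if moreover `4 t³ + b₂ t² + 2 b₄ t + b₆ = 0`
then `(V, T)` with `V = 2 D / (q t + e)` is a point of `X₀(14)`. -/
theorem hauptmodul (hΔ : E.Δ ≠ 0) (h : ¬ GaloisRepIsIrreducible (K := Kbar) ℚ E 7) :
    ∃ q e D T : ℚ, D ≠ 0 ∧ q ≠ 0 ∧ T ≠ 0 ∧ E.Δ = D ^ 2 * T ∧ E.c₄ = q * (T ^ 2 + 5 * T + 1) ∧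
      q ^ 3 = D ^ 2 * (T ^ 2 + 13 * T + 49) ∧
      ∀ t : ℚ, 4 * t ^ 3 + E.b₂ * t ^ 2 + 2 * E.b₄ * t + E.b₆ = 0 → ∃ V : ℚ,
        V * (q * t + e) = 2 * D ∧
        V * T ^ 2 + V * (2 * V + 9) * T + (V + 1) ^ 2 * (V + 8) = 0 := by
  obtain ⟨q, e, D, w, hD, h4, hΔ', hc4, hr, hr0⟩ := rational_data hΔ h
  obtain ⟨T, hT⟩ : ∃ T, T = -(w + 13 * D) / (2 * D) := ⟨_, rfl⟩
  have hw : w = -D * (2 * T + 13) := by
    rw [hT]
    field_simp
    ring
  subst hw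
  have hΔT : E.Δ = D ^ 2 * T := by
    have h2 : (2 : ℚ) ≠ 0 := by norm_num
    apply mul_left_cancel₀ h2
    rw [hΔ']
    ring
  have hq0 : q ≠ 0 := by
    rintro rfl
    have : 0 < 27 * D ^ 2 + (-D * (2 * T + 13)) ^ 2 := by positivity
    rw [← h4] at this
    norm_num at this
  refine ⟨q, e, D, T, hD, hq0, ?_, hΔT, ?_, ?_, ?_⟩
  · rintro rfl
    apply hΔ
    rw [hΔT, mul_zero]
  · have h4D : 4 * D ^ 2 ≠ 0 := mul_ne_zero (by norm_num) (pow_ne_zero 2 hD)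
    apply mul_left_cancel₀ h4D
    rw [hc4]
    ring
  · linear_combination (1 / 4) * h4
  · intro t ht
    have hX := hr0 t ht
    refine ⟨2 * D / (q * t + e), div_mul_cancel₀ _ hX, ?_⟩
    have e1 := hr t
    rw [ht, mul_zero, zero_mul] at e1
    generalize q * t + e = X at hX e1
    field_simp
    apply mul_left_cancel₀ hD
    linear_combination -e1 / 2

/-- **An elliptic curve over `ℚ` with full rational `2`-torsion has irreducible `7`-torsion.** -/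
theorem irreducible_of_full (hΔ : E.Δ ≠ 0) {t₁ t₂ : ℚ} (h12 : t₁ ≠ t₂)
    (h1 : 4 * t₁ ^ 3 + E.b₂ * t₁ ^ 2 + 2 * E.b₄ * t₁ + E.b₆ = 0)
    (h2 : 4 * t₂ ^ 3 + E.b₂ * t₂ ^ 2 + 2 * E.b₄ * t₂ + E.b₆ = 0) :
    GaloisRepIsIrreducible (K := Kbar) ℚ E 7 := by
  by_contra hcon
  obtain ⟨q, e, D, T, hD, hq, hT, -, -, -, hV⟩ := hauptmodul hΔ hcon
  obtain ⟨V₁, e1, r1⟩ := hV t₁ h1
  obtain ⟨V₂, e2, r2⟩ := hV t₂ h2
  have hne : V₁ ≠ V₂ := by
    rintro rfl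
    have hV0 : V₁ ≠ 0 := by
      rintro rfl
      rw [zero_mul] at e1
      exact mul_ne_zero (by norm_num) hD e1.symm
    have h5 : V₁ * (q * (t₁ - t₂)) = 0 := by linear_combination e1 - e2
    exact mul_ne_zero hV0 (mul_ne_zero hq (sub_ne_zero.2 h12)) h5
  rcases rat_T r1 hT with ⟨h5, h6⟩ | ⟨h5, h6⟩ <;> rcases rat_T r2 hT with ⟨h7, h8⟩ | ⟨h7, h8⟩
  · exact hne (h5.trans h7.symm)
  · linarith
  · linarith
  · exact hne (h5.trans h7.symm)

/-- **The rational points of `X₀(14)`**: an elliptic curve over `ℚ` with a rational point of order two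
and a rational isogeny of degree `7` has `j`-invariant `- 3375 = - 15³` or `16581375 = 255³`. -/
theorem c4_of_reducible (hΔ : E.Δ ≠ 0) (h : ¬ GaloisRepIsIrreducible (K := Kbar) ℚ E 7)
    {t : ℚ} (ht : 4 * t ^ 3 + E.b₂ * t ^ 2 + 2 * E.b₄ * t + E.b₆ = 0) :
    E.c₄ ^ 3 = -15 ^ 3 * E.Δ ∨ E.c₄ ^ 3 = 255 ^ 3 * E.Δ := by
  obtain ⟨q, e, D, T, hD, hq, hT, hΔ', hc4, hq3, hV⟩ := hauptmodul hΔ h
  obtain ⟨V, -, r⟩ := hV t ht
  have h1 : E.c₄ ^ 3 = D ^ 2 * (T ^ 2 + 13 * T + 49) * (T ^ 2 + 5 * T + 1) ^ 3 := by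
    rw [hc4, ← hq3]
    ring
  rcases rat_T r hT with ⟨-, h6⟩ | ⟨-, h6⟩
  · left
    rw [h1, hΔ', h6]
    ring
  · right
    rw [h1, hΔ', h6]
    ring

/-- The same in terms of the `j`-invariant. -/
theorem j_of_reducible [E.IsElliptic] (h : ¬ GaloisRepIsIrreducible (K := Kbar) ℚ E 7)
    {t : ℚ} (ht : 4 * t ^ 3 + E.b₂ * t ^ 2 + 2 * E.b₄ * t + E.b₆ = 0) :
    E.j = -3375 ∨ E.j = 16581375 := by
  have hΔ : E.Δ ≠ 0 := E.isUnit_Δ.ne_zero
  have hj : E.j * E.Δ = E.c₄ ^ 3 := by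
    rw [WeierstrassCurve.j, mul_right_comm, ← WeierstrassCurve.coe_Δ', Units.inv_mul, one_mul]
  rcases c4_of_reducible hΔ h ht with h1 | h1
  · left
    apply mul_right_cancel₀ hΔ
    rw [hj, h1]
    norm_num
  · right
    apply mul_right_cancel₀ hΔ
    rw [hj, h1]
    norm_num

/-- **A semistable elliptic curve over `ℚ` with a rational point of order two has irreducible
`7`-torsion.** -/
theorem modRepIsIrreducible_seven {W : WeierstrassCurve ℤ} (hΔ : W.Δ ≠ 0)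
    (hss : W.IsSemistableModel) {t : ℚ}
    (ht : 4 * t ^ 3 + W.b₂ * t ^ 2 + 2 * W.b₄ * t + W.b₆ = 0) : W.ModRepIsIrreducible 7 := by
  by_contra hcon
  have hΔQ : (W.map (Int.castRingHom ℚ)).Δ ≠ 0 := by
    rw [map_Δ]
    simpa using hΔ
  have h1 := c4_of_reducible (E := W.map (Int.castRingHom ℚ)) hΔQ hcon (t := t) (by
    rw [map_b₂, map_b₄, map_b₆]
    simpa using ht)
  rw [map_c₄, map_Δ] at h1
  have h2 : W.c₄ ^ 3 = -15 ^ 3 * W.Δ ∨ W.c₄ ^ 3 = 255 ^ 3 * W.Δ := by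
    rcases h1 with h1 | h1
    · left
      simp only [eq_intCast] at h1
      exact_mod_cast h1
    · right
      simp only [eq_intCast] at h1
      exact_mod_cast h1
  have h3 : IsUnit W.Δ := by
    by_contra hu
    obtain ⟨l, hl, hlΔ⟩ := Int.exists_prime_and_dvd (n := W.Δ) (by
      rwa [Int.isUnit_iff_natAbs_eq] at hu)
    have hl' : (l.natAbs).Prime := Int.prime_iff_natAbs_prime.1 hl
    have h4 : (l.natAbs : ℤ) ∣ W.Δ := Int.natAbs_dvd.2 hlΔ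
    refine hss _ hl' h4 ?_
    have h5 : (l.natAbs : ℤ) ∣ W.c₄ ^ 3 := by
      rcases h2 with h2 | h2 <;> rw [h2] <;> exact dvd_mul_of_dvd_right h4 _
    exact (Nat.prime_iff_prime_int.1 hl').dvd_of_dvd_pow h5
  have h6 := W.c_relation
  rcases Int.isUnit_iff.1 h3 with h7 | h7 <;> rcases h2 with h2 | h2 <;> rw [h7] at h6 h2 <;>
    rw [h2] at h6
  · nlinarith [sq_nonneg W.c₆]
  · have h8 : W.c₆ ^ 2 = 16579647 := by linarith
    have h9 : |W.c₆| < 4072 := by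
      apply abs_lt_of_sq_lt_sq _ (by norm_num)
      rw [h8]
      norm_num
    have h10 : 4071 < |W.c₆| := by
      apply lt_of_pow_lt_pow_left₀ 2 (abs_nonneg _)
      rw [sq_abs, h8]
      norm_num
    omega
  · have h8 : W.c₆ ^ 2 = 5103 := by linarith
    have h9 : |W.c₆| < 72 := by
      apply abs_lt_of_sq_lt_sq _ (by norm_num)
      rw [h8]
      norm_num
    have h10 : 71 < |W.c₆| := by
      apply lt_of_pow_lt_pow_left₀ 2 (abs_nonneg _)
      rw [sq_abs, h8]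
      norm_num
    omega
  · nlinarith [sq_nonneg W.c₆]

end Fermat.Agent.Cor.Seven
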