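import Fermat.Agent.Cor.H22GenLevel
import Fermat.Agent.Cor.Seven

/-!
# Generalised Fermat equations of signature `(p, p, 2)`, `p ≥ 7`, `p ≠ 13`

The curves `y² + x y = x³ + k x² + Y x` have a rational point of order `2`; if they are semistable, `W[7]` is irreducible
(`Cor/Seven.lean`: the rational points of `X₀(14)`). So the theorems of `Cor/H22GenMazur.lean` and
`Cor/H22GenLevel.lean` on the signature `(p, p, 2)` hold for all primes `p ≥ 7`, `p ≠ 13`:

* `sq_ne`: `A x ^ p + 64 B y ^ p` is not a square, if `A x` is odd, `A x` and `B y` are coprime, and the prime factors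
  of `A`, `B` divide `N ∈ {1, 2, 3, 5, 6, 7, 10, 13, 22}`;
* `sq_ne_two_pow`: `A x ^ p + 2 ^ a B y ^ p` is not a square for `a ≥ 6` and `N ∈ {2, 6, 10, 22}`;
* `add_pow_ne_sq_seven_le`: `x ^ p + y ^ p` is not a square, if `x`, `y` are coprime, `x y ≠ 0` is even;
* `add_pow_ne_sq_exponent`: the same for all exponents divisible by a prime `p ≥ 7`, `p ≠ 13`;
* `sq_add_two_pow_ne_pow`: `z ^ 2 ± 2 ^ a L ^ b`, `a ≥ 6`, `L = 3, 5, 11`, `z` prime to `2 L`, is not a `p`-th power.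

This file is not used by any of the statement files.
-/

set_option autoImplicit false

namespace Fermat.Agent.Cor.H22G

open ModularCurve ModularFormClass CongruenceSubgroup WeierstrassCurve
open Fermat.Agent.Cor.GenusOne Fermat.Agent.Cor.SmallConductor Fermat.Agent.Cor.EigenTable

/-- irreducibility for the semistable curves `y² + x y = x³ + k x² + Y x` -/
theorem irr_form {p : ℕ} (hp : p.Prime) (h7 : 7 ≤ p) (h13 : p ≠ 13) {k Y : ℤ}
    (hΔ : (⟨1, k, 0, Y, 0⟩ : WeierstrassCurve ℤ).Δ ≠ 0)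
    (hss : (⟨1, k, 0, Y, 0⟩ : WeierstrassCurve ℤ).IsSemistableModel) :
    (⟨1, k, 0, Y, 0⟩ : WeierstrassCurve ℤ).ModRepIsIrreducible p := by
  by_cases h : p = 7
  · subst h
    refine Seven.modRepIsIrreducible_seven hΔ hss (t := 0) ?_
    simp [WeierstrassCurve.b₆]
  · have h11 : 11 ≤ p := by
      by_contra hlt
      have h8 : p = 8 ∨ p = 9 ∨ p = 10 := by omega
      rcases h8 with rfl | rfl | rfl <;> revert hp <;> norm_num
    exact Mazur.modRep_irreducible hΔ hss hp h11 h13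

/-- the levels of signature `(p, p, 2)` -/
theorem false_of_pp2_seven_le {p N : ℕ} (hp : p.Prime) (h7 : 7 ≤ p) (h13 : p ≠ 13)
    (hN : N ∈ insert 22 levels) {X Y z : ℤ} (hz : z ^ 2 = X + 64 * Y) (hodd : Odd z)
    (hcop : IsCoprime X Y) (hX : X ≠ 0) (hY : Y ≠ 0) (hPX : Pw p N X) (hPY : Pw p N Y) :
    False := by
  obtain ⟨k, hΔ, hss⟩ := curve_pp2_form hz hodd hcop
  have hΔ0 : (⟨1, k, 0, Y, 0⟩ : WeierstrassCurve ℤ).Δ ≠ 0 := by
    rw [hΔ]
    exact mul_ne_zero hX (pow_ne_zero 2 hY)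
  have hI := irr_form hp h7 h13 hΔ0 hss
  have hP : Pw p N (⟨1, k, 0, Y, 0⟩ : WeierstrassCurve ℤ).Δ := by
    rw [hΔ]
    exact hPX.mul (hPY.pow 2) hX (pow_ne_zero 2 hY)
  rcases Finset.mem_insert.mp hN with rfl | hN'
  · obtain ⟨f, 𝔪, hf, h𝔪, hp𝔪, hres⟩ := rm_of_pw hp (by omega) hΔ0 hss hI (by norm_num) hP
    have hc : qCoeff f 3 = ((-1 : ℤ) : ℂ) := by rw [a3_twentytwo hf]; norm_num
    rcases exists_trace hp (by omega) hΔ0 hss hI hf h𝔪 hp𝔪 hres Nat.prime_three (by norm_num)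
      (by omega) hc with ⟨hg, h⟩ | h | h
    · have h4 := ap_three_two (k := k) (Y := Y) (by exact_mod_cast hg)
      simp only [Finset.mem_insert, Finset.mem_singleton] at h4
      exact not_dvd_of_lt (by omega) (by omega) h
    · exact not_dvd_of_lt (by norm_num) (by norm_num; omega) h
    · exact not_dvd_of_lt (by norm_num) (by norm_num; omega) h
  · exact false_of_level hp (by omega) hΔ0 hss hI hN' hP

section

variable {p : ℕ} (hp : p.Prime) (h7 : 7 ≤ p) (h13 : p ≠ 13)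

include hp h7 h13

/-- **Signature `(p, p, 2)`, `p ≥ 7`, `p ≠ 13`**: `A x ^ p + 64 B y ^ p` is not a square, if `A x` is odd, `A x` and
`B y` are coprime, and the prime factors of `A`, `B` divide `N ∈ {1, 2, 3, 5, 6, 7, 10, 13, 22}`. -/
theorem sq_ne {N : ℕ} (hN : N ∈ insert 22 levels) {A B x y z : ℤ} (hA : Supp N A)
    (hB : Supp N B) (h0 : A * B * x * y ≠ 0) (hodd : Odd (A * x))
    (hcop : IsCoprime (A * x) (B * y)) : A * x ^ p + 64 * (B * y ^ p) ≠ z ^ 2 := by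
  intro h
  have hy : y ≠ 0 := right_ne_zero_of_mul h0
  have hx : x ≠ 0 := right_ne_zero_of_mul (left_ne_zero_of_mul h0)
  have hB0 : B ≠ 0 := right_ne_zero_of_mul (left_ne_zero_of_mul (left_ne_zero_of_mul h0))
  have hA0 : A ≠ 0 := left_ne_zero_of_mul (left_ne_zero_of_mul (left_ne_zero_of_mul h0))
  rw [Int.odd_mul] at hodd
  have hz : Odd z := by
    have h1 : Odd (z ^ 2) := by
      rw [← h]
      exact (hodd.1.mul (hodd.2.pow)).add_even ⟨32 * (B * y ^ p), by ring⟩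
    exact (Int.odd_pow' two_ne_zero).mp h1
  exact false_of_pp2_seven_le hp h7 h13 hN h.symm hz (cop_pow hcop p)
    (mul_ne_zero hA0 (pow_ne_zero _ hx)) (mul_ne_zero hB0 (pow_ne_zero _ hy))
    ((pw_of_supp hA).mul (pw_pow p N x) hA0 (pow_ne_zero _ hx))
    ((pw_of_supp hB).mul (pw_pow p N y) hB0 (pow_ne_zero _ hy))

/-- **`A x ^ p + 2 ^ a B y ^ p = z ^ 2`, `a ≥ 6`**, the prime factors of `A`, `B` in `{2}`, `{2, 3}`, `{2, 5}` or
`{2, 11}`. -/
theorem sq_ne_two_pow {N : ℕ} (hN : N ∈ ({2, 6, 10, 22} : Finset ℕ)) {A B x y z : ℤ}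
    (hA : Supp N A) (hB : Supp N B) (h0 : A * B * x * y ≠ 0) (hodd : Odd (A * x))
    (hcop : IsCoprime (A * x) (B * y)) {a : ℕ} (ha : 6 ≤ a) :
    A * x ^ p + 2 ^ a * (B * y ^ p) ≠ z ^ 2 := by
  obtain ⟨b, rfl⟩ := Nat.exists_eq_add_of_le ha
  have hN' : N ∈ insert 22 levels ∧ 2 ∣ N := by
    simp only [Finset.mem_insert, Finset.mem_singleton] at hN
    rcases hN with rfl | rfl | rfl | rfl <;> decide
  have hs : Supp N ((2 : ℤ) ^ b * B) := ((supp_prime Nat.prime_two hN'.2).pow b).mul hB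
  have hc2 : IsCoprime (A * x) (2 : ℤ) := (Int.prime_two.coprime_iff_not_dvd.mpr fun h =>
    (Int.not_even_iff_odd.mpr hodd) (even_iff_two_dvd.mpr h)).symm
  have h0' : A * (2 ^ b * B) * x * y ≠ 0 := by
    have e : A * (2 ^ b * B) * x * y = 2 ^ b * (A * B * x * y) := by ring
    rw [e]
    exact mul_ne_zero (pow_ne_zero _ two_ne_zero) h0
  have := sq_ne hp h7 h13 (z := z) hN'.1 hA hs h0' hodd (by
    rw [mul_assoc]
    exact IsCoprime.mul_right hc2.pow_right hcop)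
  intro h
  apply this
  rw [← h]
  ring

/-- **`x ^ p + 2 ^ a y ^ p = z ^ 2`, `a ≥ 6`, `x` odd** -/
theorem add_two_pow_ne_sq_seven_le {x y z : ℤ} (hx : Odd x) (hy : y ≠ 0) (hcop : IsCoprime x y)
    {a : ℕ} (ha : 6 ≤ a) : x ^ p + 2 ^ a * y ^ p ≠ z ^ 2 := by
  have hx0 : x ≠ 0 := by
    rintro rfl
    exact absurd hx (by decide)
  have := sq_ne_two_pow hp h7 h13 (N := 2) (by decide) (A := 1) (B := 1) (x := x) (y := y)
    (z := z) (supp_one 2) (supp_one 2) (by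
      rw [one_mul, one_mul]
      exact mul_ne_zero hx0 hy) (by rwa [one_mul]) (by rwa [one_mul, one_mul]) ha
  rwa [one_mul, one_mul] at this

/-- **`x ^ p + y ^ p = z ^ 2`, `x y` even, `p ≥ 7`, `p ≠ 13`**: no solutions in coprime nonzero integers `x`, `y`
(a case of the theorem of Darmon and Merel). -/
theorem add_pow_ne_sq_seven_le {x y z : ℤ} (hcop : IsCoprime x y) (h0 : x * y ≠ 0)
    (h2 : (2 : ℤ) ∣ x * y) : x ^ p + y ^ p ≠ z ^ 2 := by
  have key : ∀ x y : ℤ, IsCoprime x y → y ≠ 0 → (2 : ℤ) ∣ y → x ^ p + y ^ p ≠ z ^ 2 := by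
    intro x y hcop hy h2
    obtain ⟨t, rfl⟩ := h2
    have hx : Odd x := by
      rw [← Int.not_even_iff_odd, even_iff_two_dvd]
      intro h
      exact Int.prime_two.not_isUnit (hcop.isUnit_of_dvd' h (dvd_mul_right 2 t))
    rw [mul_pow]
    exact add_two_pow_ne_sq_seven_le hp h7 h13 hx (right_ne_zero_of_mul hy)
      hcop.of_mul_right_right (by omega)
  rcases Int.prime_two.dvd_or_dvd h2 with h | h
  · rw [add_comm]
    exact key y x hcop.symm (left_ne_zero_of_mul h0) h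
  · exact key x y hcop (right_ne_zero_of_mul h0) h

/-- **`x ^ n + y ^ n = z ^ 2`, `x y` even**, for all exponents `n` divisible by a prime `p ≥ 7`, `p ≠ 13` -/
theorem add_pow_ne_sq_exponent {n : ℕ} (hn : p ∣ n) (hn0 : n ≠ 0) {x y z : ℤ}
    (hcop : IsCoprime x y) (h0 : x * y ≠ 0) (h2 : (2 : ℤ) ∣ x * y) : x ^ n + y ^ n ≠ z ^ 2 := by
  obtain ⟨k, rfl⟩ := hn
  have hk : k ≠ 0 := right_ne_zero_of_mul hn0
  rw [mul_comm p k, pow_mul, pow_mul]
  refine add_pow_ne_sq_seven_le hp h7 h13 (hcop.pow) ?_ ?_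
  · rw [← mul_pow]
    exact pow_ne_zero _ h0
  · rw [← mul_pow]
    exact dvd_pow h2 hk

/-- `x ^ n - y ^ n = z ^ 2`, `x y` even, for all exponents `n` divisible by a prime `p ≥ 7`, `p ≠ 13` -/
theorem sub_pow_ne_sq_exponent {n : ℕ} (hn : p ∣ n) (hn0 : n ≠ 0) {x y z : ℤ}
    (hcop : IsCoprime x y) (h0 : x * y ≠ 0) (h2 : (2 : ℤ) ∣ x * y) : x ^ n - y ^ n ≠ z ^ 2 := by
  obtain ⟨k, rfl⟩ := hn
  have hk : k ≠ 0 := right_ne_zero_of_mul hn0
  have hpodd : Odd p := hp.odd_of_ne_two (by omega)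
  have e : x ^ (p * k) - y ^ (p * k) = (x ^ k) ^ p + (-(y ^ k)) ^ p := by
    rw [hpodd.neg_pow, mul_comm p k, pow_mul, pow_mul]
    ring
  rw [e]
  refine add_pow_ne_sq_seven_le hp h7 h13 (hcop.pow).neg_right ?_ ?_
  · rw [mul_neg, neg_ne_zero, ← mul_pow]
    exact pow_ne_zero _ h0
  · rw [mul_neg, dvd_neg, ← mul_pow]
    exact dvd_pow h2 hk

/-- **Equations of Lebesgue–Nagell type**: for `a ≥ 6`, `L = 3, 5, 11` and `z` prime to `2 L`, the integers
`z ^ 2 ± 2 ^ a L ^ b` are not `p`-th powers. -/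
theorem sq_add_two_pow_ne_pow {L : ℕ} (hL : L ∈ ({3, 5, 11} : Finset ℕ)) {a b : ℕ}
    (ha : 6 ≤ a) {x z : ℤ} (hz : Odd z) (hLz : ¬ (L : ℤ) ∣ z) :
    z ^ 2 + 2 ^ a * (L : ℤ) ^ b ≠ x ^ p ∧ z ^ 2 - 2 ^ a * (L : ℤ) ^ b ≠ x ^ p := by
  have hLp : L.Prime := by
    simp only [Finset.mem_insert, Finset.mem_singleton] at hL
    rcases hL with rfl | rfl | rfl <;> norm_num
  have hLp' : Prime (L : ℤ) := Nat.prime_iff_prime_int.mp hLp
  have hN : 2 * L ∈ ({2, 6, 10, 22} : Finset ℕ) := by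
    simp only [Finset.mem_insert, Finset.mem_singleton] at hL
    rcases hL with rfl | rfl | rfl <;> decide
  have key : ∀ B : ℤ, Supp (2 * L) B → B ≠ 0 → z ^ 2 ≠ x ^ p + 2 ^ a * B := by
    intro B hB hB0 h
    have hxodd : Odd x := by
      have h1 : Odd (x ^ p) := by
        have e : x ^ p = z ^ 2 - 2 ^ a * B := by rw [h]; ring
        rw [e]
        exact hz.pow.sub_even (((by decide : Even (2 : ℤ)).pow_of_ne_zero (by omega)).mul_right B)
      exact (Int.odd_pow' hp.ne_zero).mp h1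
    have hxB : IsCoprime x B := Int.isCoprime_iff_gcd_eq_one.mpr (by
      by_contra hg
      obtain ⟨q, hq, hqd⟩ := Nat.exists_prime_and_dvd hg
      have hqx : (q : ℤ) ∣ x := (Int.natCast_dvd_natCast.mpr hqd).trans (Int.gcd_dvd_left ..)
      have hqB : (q : ℤ) ∣ B := (Int.natCast_dvd_natCast.mpr hqd).trans (Int.gcd_dvd_right ..)
      rcases (Nat.Prime.dvd_mul hq).mp (hB q hq hqB) with h2 | h2
      · rw [(Nat.prime_dvd_prime_iff_eq hq Nat.prime_two).mp h2] at hqx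
        exact (Int.not_even_iff_odd.mpr hxodd) (even_iff_two_dvd.mpr (by exact_mod_cast hqx))
      · rw [(Nat.prime_dvd_prime_iff_eq hq hLp).mp h2] at hqB hqx
        exact hLz (hLp'.dvd_of_dvd_pow (n := 2) (by
          rw [h]
          exact dvd_add (dvd_pow hqx hp.ne_zero) (Dvd.dvd.mul_left hqB _))))
    have hx0 : x ≠ 0 := by
      rintro rfl
      exact absurd hxodd (by decide)
    exact sq_ne_two_pow hp h7 h13 hN (A := 1) (B := B) (x := x) (y := 1) (z := z) (supp_one _) hB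
      (by rw [one_mul, mul_one]; exact mul_ne_zero hB0 hx0) (by rwa [one_mul])
      (by rwa [one_mul, mul_one]) ha (by rw [h, one_pow]; ring)
  have hS : Supp (2 * L) ((L : ℤ) ^ b) := (supp_prime hLp (dvd_mul_left L 2)).pow b
  have hS0 : (L : ℤ) ^ b ≠ 0 := pow_ne_zero _ hLp'.ne_zero
  constructor
  · intro h
    refine key (-(L : ℤ) ^ b) (supp_neg hS) (neg_ne_zero.mpr hS0) ?_
    rw [← h]
    ring
  · intro h
    refine key ((L : ℤ) ^ b) hS hS0 ?_
    rw [← h]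
    ring

end

end Fermat.Agent.Cor.H22G
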