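import Fermat.Agent.Cor.H22Effective
import Fermat.Agent.Cor.H22Five
import Fermat.Agent.Cor.Level23

/-!
# The levels `23` and `29`

Let `L = 23` and `p ≥ 17`, or `L = 29` and `p ≥ 11`, `p ≠ 13`, be primes. No semistable elliptic curve over `ℚ` has a
minimal discriminant which is a `p`-th power away from `L` (`false_of_23`, `false_of_29`). For `L = 23` the eigenvalue
`a = a₂` satisfies `a ^ 2 + a - 1 = 0`; for `L = 29` it satisfies one of the equations `a ^ 2 + a - 5 = 0`,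
`a ^ 2 - 2 = 0`, `a ^ 2 + 2 a - 1 = 0` (in fact the last one), by the congruence with the Eisenstein series modulo `7`
(`exists_quadratic_29`).

Let the prime factors of `A`, `B`, `C` be all equal to `L`. Then (with the usual conditions)

* `cube_sub_sq_2329`: `u ^ 3 - v ^ 2 ≠ 1728 A w ^ p`;
* `sixtyfour_sq_2329`: `A x ^ p + 64 B y ^ p ≠ z ^ 2`;
* `twentyseven_cube_2329`: `A x ^ p + 27 B y ^ p ≠ z ^ 3`;
* `five_ne_2329`: `(A x ^ p) ^ 2 - 11 A x ^ p B y ^ p - (B y ^ p) ^ 2 ≠ C z ^ p`.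

This file is not used by any of the statement files.
-/

set_option autoImplicit false

namespace Fermat.Agent.Cor.H22G

open ModularCurve ModularFormClass CongruenceSubgroup WeierstrassCurve

/-- the integers in a maximal ideal above `p` are the multiples of `p` -/
theorem dvd_of_mem {p : ℕ} (hp : p.Prime) {𝔪 : Ideal (integralClosure ℤ ℂ)}
    (h𝔪 : 𝔪.IsMaximal) (hp𝔪 : (p : integralClosure ℤ ℂ) ∈ 𝔪) {n : ℤ}
    (hn : (n : integralClosure ℤ ℂ) ∈ 𝔪) : (p : ℤ) ∣ n := by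
  by_contra hnd
  obtain ⟨u, v, huv⟩ := ((Nat.prime_iff_prime_int.mp hp).coprime_iff_not_dvd).mpr hnd
  apply h𝔪.ne_top
  rw [Ideal.eq_top_iff_one]
  have h2 : (1 : integralClosure ℤ ℂ) = (u : integralClosure ℤ ℂ) * (p : integralClosure ℤ ℂ) +
      (v : integralClosure ℤ ℂ) * (n : integralClosure ℤ ℂ) := by
    have := congrArg (fun z : ℤ => (z : integralClosure ℤ ℂ)) huv
    push_cast at this ⊢
    exact this.symm
  rw [h2]
  exact Ideal.add_mem _ (Ideal.mul_mem_left _ _ hp𝔪) (Ideal.mul_mem_left _ _ hn)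

/-- **Level `29`**: the eigenvalue of `T₂` -/
theorem exists_quadratic_29 {f : CuspForm (Gamma0 29) 2} (hf : f.IsNormalizedEigenform) :
    ∃ u v : ℤ, ((u = 1 ∧ v = -5) ∨ (u = 0 ∧ v = -2) ∨ (u = 2 ∧ v = -1)) ∧
      qCoeff f 2 ^ 2 + u * qCoeff f 2 + v = 0 := by
  have : Fact (Nat.Prime 29) := ⟨by norm_num⟩
  have hfd : FiniteDimensional ℂ (CuspForm (Gamma0 29) 2) :=
    Fermat.Agent.H22.finiteDimensional_cuspForm 29 2
  have hp2 : (2 : ℕ).Prime := by norm_num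
  have hN : ¬ 2 ∣ 29 := by norm_num
  have hroot : (CuspForm.heckeTLin (N := 29) 2 hp2 hN).charpoly.IsRoot (qCoeff f 2) := by
    refine (Module.End.hasEigenvalue_iff_isRoot_charpoly _ _).mp ?_
    refine Module.End.hasEigenvalue_of_hasEigenvector (x := f) ⟨?_, hf.ne_zero⟩
    rw [Module.End.mem_eigenspace_iff]
    exact H23.heckeTLin_eigen hf hp2 hN
  obtain ⟨u, v, x, y, hP, hx, hy, h1, h2, hr⟩ := Level23.exists_charpoly (N := 29)
    Conductor23.genus_twentynine (ℓ := 2) (by norm_num) (by norm_num)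
  have h3 := Conductor23.eisenstein_dvd (N := 29)
    (by rw [Conductor23.numerator_twentynine]; norm_num) (ℓ := 2) (by norm_num) (by norm_num)
  rw [hP, Conductor23.numerator_twentynine] at h3
  simp only [Polynomial.eval_add, Polynomial.eval_mul, Polynomial.eval_pow, Polynomial.eval_X,
    Polynomial.eval_C] at h3
  norm_num at h3 hx hy
  rw [abs_lt] at hx hy
  obtain ⟨hx1, hx2⟩ := hx
  obtain ⟨hy1, hy2⟩ := hy
  have k1 : (-6 : ℝ) < u := by linarith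
  have k2 : (u : ℝ) < 6 := by linarith
  have k3 : 0 < 9 + 3 * u + (v : ℝ) := by
    have : 0 < (3 - x) * (3 - y) := mul_pos (by linarith) (by linarith)
    nlinarith
  have k4 : 0 < 9 - 3 * u + (v : ℝ) := by
    have : 0 < (3 + x) * (3 + y) := mul_pos (by linarith) (by linarith)
    nlinarith
  have k5 : 0 ≤ (u : ℝ) ^ 2 - 4 * v := by
    have : 0 ≤ (x - y) ^ 2 := sq_nonneg _
    have h4 : (u : ℝ) = -(x + y) := by linarith
    rw [h4, ← h2]
    nlinarith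
  have m1 : -6 < u := by exact_mod_cast k1
  have m2 : u < 6 := by exact_mod_cast k2
  have m3 : 0 < 9 + 3 * u + v := by exact_mod_cast k3
  have m4 : 0 < 9 - 3 * u + v := by exact_mod_cast k4
  have m5 : 0 ≤ u ^ 2 - 4 * v := by exact_mod_cast k5
  refine ⟨u, v, ?_, ?_⟩
  · interval_cases u <;> omega
  · have e1 : (x : ℂ) + y = -u := by exact_mod_cast h1
    have e2 : (x : ℂ) * y = v := by exact_mod_cast h2
    rcases (hr _).mp hroot with h | h
    · rw [h]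
      linear_combination (x : ℂ) * e1 - e2
    · rw [h]
      linear_combination (y : ℂ) * e1 - e2

/-- an eigenvalue `a₂` satisfying `a ^ 2 + u a + v = 0` is not congruent to `a₂(W)` modulo `p` if `p` does not divide
the values of the polynomial at the possible traces -/
theorem false_of_quadratic {N : ℕ} [NeZero N] (h2N : ¬ 2 ∣ N)
    {p : ℕ} (hp : p.Prime) (hp11 : 11 ≤ p) (hp13 : p ≠ 13)
    (hN : ∀ f : CuspForm (Gamma0 N) 2, f.IsNormalizedEigenform → ∃ u v : ℤ,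
      qCoeff f 2 ^ 2 + u * qCoeff f 2 + v = 0 ∧
      ∀ t : ℤ, -3 ≤ t → t ≤ 3 → ¬ (p : ℤ) ∣ t ^ 2 + u * t + v)
    {W : WeierstrassCurve ℤ} (hΔ : W.Δ ≠ 0) (hss : W.IsSemistableModel) (hP : Pw p N W.Δ) :
    False := by
  have : Fact p.Prime := ⟨hp⟩
  have hirr : W.ModRepIsIrreducible p := irrAll hp hp11 hp13 _ hΔ _ rfl hss
  obtain ⟨f, 𝔪, hf, h𝔪, hp𝔪, hgood, hmult⟩ :=
    H11.exists_form hΔ hss hirr (NeZero.ne N) (rm_of_pw hp (by omega) hΔ hss hirr (NeZero.ne N) hP)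
  obtain ⟨u, v, hq, hv⟩ := hN f hf
  have key : ∀ t : ℤ, -3 ≤ t → t ≤ 3 → ∀ a : integralClosure ℤ ℂ, (a : ℂ) = qCoeff f 2 →
      a - (t : integralClosure ℤ ℂ) ∈ 𝔪 → False := by
    intro t h1 h2 a ha hmem
    apply hv t h1 h2
    refine dvd_of_mem hp h𝔪 hp𝔪 ?_
    have h3 : a ^ 2 + (u : integralClosure ℤ ℂ) * a + (v : integralClosure ℤ ℂ) = 0 := by
      apply Subtype.ext
      push_cast
      rw [ha]
      exact hq
    have e : (((t ^ 2 + u * t + v : ℤ)) : integralClosure ℤ ℂ) =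
        -((a + t + u) * (a - (t : integralClosure ℤ ℂ))) := by
      push_cast
      linear_combination h3
    rw [e]
    exact neg_mem (Ideal.mul_mem_left _ _ hmem)
  have hp2 : 2 ≠ p := by omega
  by_cases hd : ((2 : ℕ) : ℤ) ∣ W.Δ
  · obtain ⟨a, ha, h | h⟩ := hmult 2 Nat.prime_two h2N hp2 hd
    · refine key 3 (by norm_num) le_rfl a ha ?_
      have e : ((3 : ℤ) : integralClosure ℤ ℂ) = ((2 : ℕ) : integralClosure ℤ ℂ) + 1 := by
        push_cast
        ring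
      rw [e]
      exact h
    · refine key (-3) le_rfl (by norm_num) a ha ?_
      have e : a - ((-3 : ℤ) : integralClosure ℤ ℂ) = a + (((2 : ℕ) : integralClosure ℤ ℂ) + 1) := by
        push_cast
        ring
      rw [e]
      exact h
  · obtain ⟨a, ha, h⟩ := hgood 2 Nat.prime_two h2N hp2 hd
    have h4 := Bounds.apOfModel_sq_lt W Nat.prime_two hd
    push_cast at h4
    refine key _ ?_ ?_ a ha h <;> nlinarith

/-- **Level `23`** -/
theorem false_of_23 {p : ℕ} (hp : p.Prime) (hp17 : 17 ≤ p) {W : WeierstrassCurve ℤ}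
    (hΔ : W.Δ ≠ 0) (hss : W.IsSemistableModel) (hP : Pw p 23 W.Δ) : False := by
  refine false_of_quadratic (N := 23) (by norm_num) hp (by omega) (by omega)
    (fun f hf => ⟨1, -1, ?_, fun t h1 h2 => ?_⟩) hΔ hss hP
  · have := Level23.coeff_two hf
    push_cast
    linear_combination this
  · refine not_dvd_of_lt ?_ ?_ <;> interval_cases t <;> norm_num <;> omega

/-- **Level `29`** -/
theorem false_of_29 {p : ℕ} (hp : p.Prime) (hp11 : 11 ≤ p) (hp13 : p ≠ 13)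
    {W : WeierstrassCurve ℤ} (hΔ : W.Δ ≠ 0) (hss : W.IsSemistableModel) (hP : Pw p 29 W.Δ) :
    False := by
  refine false_of_quadratic (N := 29) (by norm_num) hp hp11 hp13 (fun f hf => ?_) hΔ hss hP
  obtain ⟨u, v, huv, h⟩ := exists_quadratic_29 hf
  refine ⟨u, v, h, fun t h1 h2 => ?_⟩
  have h17 : p = 11 ∨ 17 ≤ p := by
    by_contra hc
    push Not at hc
    have h12 : p = 12 ∨ p = 14 ∨ p = 15 ∨ p = 16 := by omega
    rcases h12 with rfl | rfl | rfl | rfl <;> norm_num at hp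
  rcases h17 with rfl | h17
  · rcases huv with ⟨rfl, rfl⟩ | ⟨rfl, rfl⟩ | ⟨rfl, rfl⟩ <;> interval_cases t <;> norm_num
  · refine not_dvd_of_lt ?_ ?_ <;>
      rcases huv with ⟨rfl, rfl⟩ | ⟨rfl, rfl⟩ | ⟨rfl, rfl⟩ <;> interval_cases t <;> norm_num <;>
      omega

theorem false_of_2329 {L p : ℕ} (hp : p.Prime) (hL : L = 23 ∧ 17 ≤ p ∨ L = 29 ∧ 11 ≤ p ∧ p ≠ 13)
    {W : WeierstrassCurve ℤ} (hΔ : W.Δ ≠ 0) (hss : W.IsSemistableModel) (hP : Pw p L W.Δ) :
    False := by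
  rcases hL with ⟨rfl, h⟩ | ⟨rfl, h, h'⟩
  · exact false_of_23 hp h hΔ hss hP
  · exact false_of_29 hp h h' hΔ hss hP

section

variable {L p : ℕ} (hp : p.Prime) (hL : L = 23 ∧ 17 ≤ p ∨ L = 29 ∧ 11 ≤ p ∧ p ≠ 13)

include hp hL

/-- **Signature `(2, 3, p)`** -/
theorem cube_sub_sq_2329 {A u v w : ℤ} (hA : Supp L A) (h0 : A * w ≠ 0) (hcop : IsCoprime u v) :
    u ^ 3 - v ^ 2 ≠ 1728 * (A * w ^ p) := by
  intro h
  obtain ⟨W, hΔ, hss⟩ := curve_23p h hcop
  have hw : w ^ p ≠ 0 := pow_ne_zero _ (right_ne_zero_of_mul h0)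
  refine false_of_2329 hp hL (W := W) ?_ hss ?_
  · rw [hΔ]
    exact mul_ne_zero (left_ne_zero_of_mul h0) hw
  · rw [hΔ]
    exact (pw_of_supp hA).mul (pw_pow p L w) (left_ne_zero_of_mul h0) hw

/-- **Signature `(p, p, 2)`** -/
theorem sixtyfour_sq_2329 {A B x y z : ℤ} (hA : Supp L A) (hB : Supp L B)
    (h0 : A * B * x * y ≠ 0) (hcop : IsCoprime (A * x) (B * y)) (hz : Odd z) :
    A * x ^ p + 64 * (B * y ^ p) ≠ z ^ 2 := by
  intro h
  have hy : y ≠ 0 := right_ne_zero_of_mul h0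
  have hx : x ≠ 0 := right_ne_zero_of_mul (left_ne_zero_of_mul h0)
  have hB0 : B ≠ 0 := right_ne_zero_of_mul (left_ne_zero_of_mul (left_ne_zero_of_mul h0))
  have hA0 : A ≠ 0 := left_ne_zero_of_mul (left_ne_zero_of_mul (left_ne_zero_of_mul h0))
  have hX : A * x ^ p ≠ 0 := mul_ne_zero hA0 (pow_ne_zero _ hx)
  have hY : B * y ^ p ≠ 0 := mul_ne_zero hB0 (pow_ne_zero _ hy)
  have hPX : Pw p L (A * x ^ p) := (pw_of_supp hA).mul (pw_pow p _ x) hA0 (pow_ne_zero _ hx)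
  have hPY : Pw p L (B * y ^ p) := (pw_of_supp hB).mul (pw_pow p _ y) hB0 (pow_ne_zero _ hy)
  obtain ⟨k, hΔ, hss⟩ := curve_pp2_form h.symm hz (cop_pow hcop p)
  refine false_of_2329 hp hL ?_ hss ?_
  · rw [hΔ]
    exact mul_ne_zero hX (pow_ne_zero 2 hY)
  · rw [hΔ]
    exact hPX.mul (hPY.pow 2) hX (pow_ne_zero 2 hY)

/-- **Signature `(p, p, 3)`** -/
theorem twentyseven_cube_2329 {A B x y z : ℤ} (hA : Supp L A) (hB : Supp L B)
    (h0 : A * B * x * y ≠ 0) (hcop : IsCoprime (A * x) (B * y)) (h3 : ¬ (3 : ℤ) ∣ A * x) :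
    A * x ^ p + 27 * (B * y ^ p) ≠ z ^ 3 := by
  intro h
  have hy : y ≠ 0 := right_ne_zero_of_mul h0
  have hx : x ≠ 0 := right_ne_zero_of_mul (left_ne_zero_of_mul h0)
  have hB0 : B ≠ 0 := right_ne_zero_of_mul (left_ne_zero_of_mul (left_ne_zero_of_mul h0))
  have hA0 : A ≠ 0 := left_ne_zero_of_mul (left_ne_zero_of_mul (left_ne_zero_of_mul h0))
  have hX : A * x ^ p ≠ 0 := mul_ne_zero hA0 (pow_ne_zero _ hx)
  have hY : B * y ^ p ≠ 0 := mul_ne_zero hB0 (pow_ne_zero _ hy)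
  have hPX : Pw p L (A * x ^ p) := (pw_of_supp hA).mul (pw_pow p _ x) hA0 (pow_ne_zero _ hx)
  have hPY : Pw p L (B * y ^ p) := (pw_of_supp hB).mul (pw_pow p _ y) hB0 (pow_ne_zero _ hy)
  have h3' : ¬ (3 : ℤ) ∣ A * x ^ p := by
    intro hd
    rcases Int.prime_three.dvd_or_dvd hd with hd | hd
    · exact h3 (Dvd.dvd.mul_right hd _)
    · exact h3 (Dvd.dvd.mul_left (Int.prime_three.dvd_of_dvd_pow hd) _)
  obtain ⟨hΔ, hss⟩ := curve_pp3_form h.symm h3' (cop_pow hcop p)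
  refine false_of_2329 hp hL ?_ hss ?_
  · rw [hΔ]
    exact mul_ne_zero hX (pow_ne_zero 3 hY)
  · rw [hΔ]
    exact hPX.mul (hPY.pow 3) hX (pow_ne_zero 3 hY)

/-- **The family with a rational point of order `5`** -/
theorem five_ne_2329 {A B C x y z : ℤ} (hA : Supp L A) (hB : Supp L B) (hC : Supp L C)
    (h0 : A * B * x * y ≠ 0) (h0' : C * z ≠ 0) (hcop : IsCoprime (A * x) (B * y))
    (h5 : ¬ (5 : ℤ) ∣ C * z) :
    (A * x ^ p) ^ 2 - 11 * (A * x ^ p) * (B * y ^ p) - (B * y ^ p) ^ 2 ≠ C * z ^ p := by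
  intro h
  have hy : y ≠ 0 := right_ne_zero_of_mul h0
  have hx : x ≠ 0 := right_ne_zero_of_mul (left_ne_zero_of_mul h0)
  have hB0 : B ≠ 0 := right_ne_zero_of_mul (left_ne_zero_of_mul (left_ne_zero_of_mul h0))
  have hA0 : A ≠ 0 := left_ne_zero_of_mul (left_ne_zero_of_mul (left_ne_zero_of_mul h0))
  have hC0 : C ≠ 0 := left_ne_zero_of_mul h0'
  have hz : z ≠ 0 := right_ne_zero_of_mul h0'
  have hX : A * x ^ p ≠ 0 := mul_ne_zero hA0 (pow_ne_zero _ hx)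
  have hY : B * y ^ p ≠ 0 := mul_ne_zero hB0 (pow_ne_zero _ hy)
  have hZ : C * z ^ p ≠ 0 := mul_ne_zero hC0 (pow_ne_zero _ hz)
  have hPX : Pw p L (A * x ^ p) := (pw_of_supp hA).mul (pw_pow p _ x) hA0 (pow_ne_zero _ hx)
  have hPY : Pw p L (B * y ^ p) := (pw_of_supp hB).mul (pw_pow p _ y) hB0 (pow_ne_zero _ hy)
  have hPZ : Pw p L (C * z ^ p) := (pw_of_supp hC).mul (pw_pow p _ z) hC0 (pow_ne_zero _ hz)
  have h5' : ¬ (5 : ℤ) ∣ (A * x ^ p) ^ 2 - 11 * (A * x ^ p) * (B * y ^ p) - (B * y ^ p) ^ 2 := by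
    rw [h]
    have h5p : Prime (5 : ℤ) := by norm_num
    intro hd
    rcases h5p.dvd_or_dvd hd with hd | hd
    · exact h5 (Dvd.dvd.mul_right hd _)
    · exact h5 (Dvd.dvd.mul_left (h5p.dvd_of_dvd_pow hd) _)
  have hΔ : (E5 (A * x ^ p) (B * y ^ p)).Δ = (A * x ^ p) ^ 5 * (B * y ^ p) ^ 5 * (C * z ^ p) := by
    rw [E5_Δ, h]
  refine false_of_2329 hp hL (W := E5 (A * x ^ p) (B * y ^ p)) ?_
    (E5_semistable (cop_pow hcop p) h5') ?_
  · rw [hΔ]
    exact mul_ne_zero (mul_ne_zero (pow_ne_zero 5 hX) (pow_ne_zero 5 hY)) hZ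
  · rw [hΔ]
    exact ((hPX.pow 5).mul (hPY.pow 5) (pow_ne_zero 5 hX) (pow_ne_zero 5 hY)).mul hPZ
      (mul_ne_zero (pow_ne_zero 5 hX) (pow_ne_zero 5 hY)) hZ

end

end Fermat.Agent.Cor.H22G
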