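import Fermat.Agent.Cor.H22FibAll

/-!
# Perfect powers in the solutions of Pell equations

Let `p ≥ 5` be a prime, `L = 3, 5`.

* `sq_sub_one_ne`: `x ^ 2 - 1 ≠ 2 ^ i L ^ j w ^ p` if `x ≠ ± 1`, `64 ∣ x ^ 2 - 1`, and `i ≥ 2` or `w` is even;
* `pell_pos_all`: `x ^ 2 - 2 ^ i L ^ j (L ^ l y ^ p) ^ 2 ≠ 1` for `y ≠ 0` even;
* `pell_two_mod_four`: `x ^ 2 - D (L ^ l y ^ p) ^ 2 = 1`, `D = 2 L ^ j`, only for `y = 0`; so in the non-trivial solutions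
  `(x, y)` of the Pell equation for `D = 2, 6, 10, 18, 50, …` the number `y` is not a `p`-th power (`solution_ne`,
  `solution_ne_exponent`).

This file is not used by any of the statement files.
-/

set_option autoImplicit false

namespace Fermat.Agent.Cor.H22G

section

variable {p : ℕ} (hp : p.Prime) (hp5 : 5 ≤ p)

include hp hp5

/-- **`x ^ 2 - 1 = 2 ^ i L ^ j w ^ p`** -/
theorem sq_sub_one_ne {L : ℕ} (hL : L = 3 ∨ L = 5) {i : ℕ} (j : ℕ) {x w : ℤ}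
    (hx : x ^ 2 ≠ 1) (h64 : (64 : ℤ) ∣ x ^ 2 - 1) (hi : 2 ≤ i ∨ (2 : ℤ) ∣ w) :
    x ^ 2 - 1 ≠ 2 ^ i * (L : ℤ) ^ j * w ^ p := by
  intro h
  have hodd : Odd x := by
    obtain ⟨c, hc⟩ := h64
    have h1 : Odd (x ^ 2) := ⟨32 * c, by linear_combination hc⟩
    exact (Int.odd_pow' two_ne_zero).mp h1
  obtain ⟨a, rfl⟩ := hodd
  have e1 : (2 * a + 1) ^ 2 - 1 = 4 * (a * (a + 1)) := by ring
  rw [e1] at h h64
  have h16 : (16 : ℤ) ∣ a * (a + 1) := by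
    obtain ⟨c, hc⟩ := h64
    exact ⟨c, by linarith⟩
  have h0 : a * (a + 1) ≠ 0 := by
    intro h0
    rw [h0, mul_zero] at e1
    exact hx (by linarith)
  rcases hi with hi | hw
  · obtain ⟨k, rfl⟩ := Nat.exists_eq_add_of_le hi
    refine H07.two_consecutive_all hp hp5 hL h0 h16 k j w ?_
    rw [pow_add] at h
    linarith
  · obtain ⟨v, rfl⟩ := hw
    obtain ⟨m, rfl⟩ : ∃ m, p = m + 2 := ⟨p - 2, by omega⟩
    refine H07.two_consecutive_all hp hp5 hL h0 h16 (i + m) j v ?_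
    rw [mul_pow, pow_add 2 m 2] at h
    rw [pow_add]
    linarith

/-- **Pell equations**, `y` even -/
theorem pell_pos_all {L : ℕ} (hL : L = 3 ∨ L = 5) (i j l : ℕ) {x y : ℤ} (hy : y ≠ 0)
    (h2 : (2 : ℤ) ∣ y) : x ^ 2 - 2 ^ i * (L : ℤ) ^ j * ((L : ℤ) ^ l * y ^ p) ^ 2 ≠ 1 := by
  intro h
  refine lucas_pair_all hp hp5 hL (i + 2) j l (V := 2 * x) hy h2 ?_
  rw [pow_add]
  linear_combination 4 * h

/-- **Pell equations**, `D = 2 L ^ j` -/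
theorem pell_two_mod_four {L : ℕ} (hL : L = 3 ∨ L = 5) (j l : ℕ) {x y : ℤ}
    (h : x ^ 2 - 2 * (L : ℤ) ^ j * ((L : ℤ) ^ l * y ^ p) ^ 2 = 1) : y = 0 := by
  by_contra hy
  refine pell_pos_all hp hp5 hL 1 j l hy ?_ (by rw [pow_one]; exact h)
  have hLo : Odd (L : ℤ) := by rcases hL with rfl | rfl <;> decide
  have hx : Odd x := by
    have h1 : Odd (x ^ 2) :=
      ⟨(L : ℤ) ^ j * ((L : ℤ) ^ l * y ^ p) ^ 2, by linear_combination h⟩
    exact (Int.odd_pow' two_ne_zero).mp h1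
  by_contra h2
  have hyo : Odd y := by
    rw [← Int.not_even_iff_odd, even_iff_two_dvd]
    exact h2
  obtain ⟨r, rfl⟩ := hx
  obtain ⟨s, hs⟩ : Odd ((L : ℤ) ^ j * ((L : ℤ) ^ l * y ^ p) ^ 2) :=
    (hLo.pow).mul ((hLo.pow.mul hyo.pow).pow)
  have h3 : 4 * (r * r + r) = 2 * (2 * s + 1) := by linear_combination h + 2 * hs
  omega

/-- **The solutions of the Pell equation** for `D = 2 L ^ j` -/
theorem solution_ne {L : ℕ} (hL : L = 3 ∨ L = 5) (j l : ℕ)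
    (a : Pell.Solution₁ (2 * (L : ℤ) ^ j)) (ha : a.y ≠ 0) (z : ℤ) :
    a.y ≠ (L : ℤ) ^ l * z ^ p := by
  intro h
  have h1 := a.prop
  rw [h] at h1
  have h2 := pell_two_mod_four hp hp5 hL j l h1
  rw [h2, zero_pow hp.ne_zero, mul_zero] at h
  exact ha h

/-- the same for all exponents divisible by `p` -/
theorem solution_ne_exponent {L : ℕ} (hL : L = 3 ∨ L = 5) (j : ℕ)
    (a : Pell.Solution₁ (2 * (L : ℤ) ^ j)) (ha : a.y ≠ 0) {n : ℕ} (hn : p ∣ n) (z : ℤ) :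
    a.y ≠ z ^ n := by
  obtain ⟨m, rfl⟩ := hn
  have := solution_ne hp hp5 hL j 0 a ha (z ^ m)
  rwa [pow_zero, one_mul, ← pow_mul, mul_comm m p] at this

end

end Fermat.Agent.Cor.H22G
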