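import Fermat.Agent.Cor.H22SerreNew

/-!
# The newforms of level 46, 58, 106, 118, and Serre's equations for `L = 23, 29, 53, 59`

All newforms of weight `2` and level `46`, `58`, `106`, `118` are attached to elliptic curves: there are `1`, `2`, `4`,
`4` of them, with `(a₃, a₅)` equal to

* level `46`: `(0, 4)`;
* level `58`: `(-3, -3)`, `(-1, 1)`;
* level `106`: `(-2, 3)`, `(-1, -4)`, `(1, 0)`, `(2, 1)`;
* level `118`: `(-1, -3)`, `(2, 2)`, `(-1, 1)`, `(2, -2)`.

None of them is congruent to a Frey curve modulo a prime `p ≥ 11`.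

This file is not used by any of the statement files.
-/

set_option autoImplicit false

namespace Fermat.Agent.Cor.H22S

open ModularCurve ModularFormClass CongruenceSubgroup WeierstrassCurve
open Fermat.Agent.Cor.GenusOne Fermat.Agent.Cor.SmallConductor Fermat.Agent.Cor.EigenTable
open Fermat.Agent.Cor.NewformCount Fermat.Agent.Cor.H11 Fermat.Agent.Cor.H18

/-! ### The curves -/

/-- `y² + xy = x³ - x² - 10x - 12`, of conductor `46` -/
def E46 : WeierstrassCurve ℤ := ⟨1, -1, 0, -10, -12⟩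

theorem E46_Δ : E46.Δ = -23552 := by norm_num [E46, WeierstrassCurve.Δ, b₂, b₄, b₆, b₈]
theorem E46_c₄ : E46.c₄ = 489 := by norm_num [E46, WeierstrassCurve.c₄, b₂, b₄]
theorem E46_semistable : E46.IsSemistableModel :=
  isSemistableModel_of_gcd (by rw [E46_Δ, E46_c₄]; decide)
theorem conductorLevel_E46 : E46.conductorLevel = 46 := by
  rw [conductorLevel_eq _ (by rw [E46_Δ]; norm_num), E46_Δ]; decide +kernel
theorem E46_a3 : E46.apOfModel 3 = 0 :=
  apOfModel_of_cnt (by norm_num) E46_Δ (by norm_num) (by decide)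
theorem E46_a5 : E46.apOfModel 5 = 4 :=
  apOfModel_of_cnt (by norm_num) E46_Δ (by norm_num) (by decide)

/-- `y² + xy = x³ - x² - x + 1`, of conductor `58` -/
def E58a : WeierstrassCurve ℤ := ⟨1, -1, 0, -1, 1⟩

theorem E58a_Δ : E58a.Δ = -116 := by norm_num [E58a, WeierstrassCurve.Δ, b₂, b₄, b₆, b₈]
theorem E58a_c₄ : E58a.c₄ = 57 := by norm_num [E58a, WeierstrassCurve.c₄, b₂, b₄]
theorem E58a_semistable : E58a.IsSemistableModel :=
  isSemistableModel_of_gcd (by rw [E58a_Δ, E58a_c₄]; decide)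
theorem conductorLevel_E58a : E58a.conductorLevel = 58 := by
  rw [conductorLevel_eq _ (by rw [E58a_Δ]; norm_num), E58a_Δ]; decide +kernel
theorem E58a_a3 : E58a.apOfModel 3 = -3 :=
  apOfModel_of_cnt (by norm_num) E58a_Δ (by norm_num) (by decide)
theorem E58a_a5 : E58a.apOfModel 5 = -3 :=
  apOfModel_of_cnt (by norm_num) E58a_Δ (by norm_num) (by decide)

/-- `y² + xy + y = x³ + x² + 5x + 9`, of conductor `58` -/
def E58b : WeierstrassCurve ℤ := ⟨1, 1, 1, 5, 9⟩

theorem E58b_Δ : E58b.Δ = -29696 := by norm_num [E58b, WeierstrassCurve.Δ, b₂, b₄, b₆, b₈]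
theorem E58b_c₄ : E58b.c₄ = -239 := by norm_num [E58b, WeierstrassCurve.c₄, b₂, b₄]
theorem E58b_semistable : E58b.IsSemistableModel :=
  isSemistableModel_of_gcd (by rw [E58b_Δ, E58b_c₄]; decide)
theorem conductorLevel_E58b : E58b.conductorLevel = 58 := by
  rw [conductorLevel_eq _ (by rw [E58b_Δ]; norm_num), E58b_Δ]; decide +kernel
theorem E58b_a3 : E58b.apOfModel 3 = -1 :=
  apOfModel_of_cnt (by norm_num) E58b_Δ (by norm_num) (by decide)
theorem E58b_a5 : E58b.apOfModel 5 = 1 :=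
  apOfModel_of_cnt (by norm_num) E58b_Δ (by norm_num) (by decide)

/-- `y² + xy = x³ + x + 1`, of conductor `106` -/
def E106a : WeierstrassCurve ℤ := ⟨1, 0, 0, 1, 1⟩

theorem E106a_Δ : E106a.Δ = -424 := by norm_num [E106a, WeierstrassCurve.Δ, b₂, b₄, b₆, b₈]
theorem E106a_c₄ : E106a.c₄ = -47 := by norm_num [E106a, WeierstrassCurve.c₄, b₂, b₄]
theorem E106a_semistable : E106a.IsSemistableModel :=
  isSemistableModel_of_gcd (by rw [E106a_Δ, E106a_c₄]; decide)
theorem conductorLevel_E106a : E106a.conductorLevel = 106 := by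
  rw [conductorLevel_eq _ (by rw [E106a_Δ]; norm_num), E106a_Δ]; decide +kernel
theorem E106a_a3 : E106a.apOfModel 3 = -2 :=
  apOfModel_of_cnt (by norm_num) E106a_Δ (by norm_num) (by decide)
theorem E106a_a5 : E106a.apOfModel 5 = 3 :=
  apOfModel_of_cnt (by norm_num) E106a_Δ (by norm_num) (by decide)

/-- `y² + xy = x³ + x² - 7x + 5`, of conductor `106` -/
def E106b : WeierstrassCurve ℤ := ⟨1, 1, 0, -7, 5⟩

theorem E106b_Δ : E106b.Δ = -848 := by norm_num [E106b, WeierstrassCurve.Δ, b₂, b₄, b₆, b₈]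
theorem E106b_c₄ : E106b.c₄ = 361 := by norm_num [E106b, WeierstrassCurve.c₄, b₂, b₄]
theorem E106b_semistable : E106b.IsSemistableModel :=
  isSemistableModel_of_gcd (by rw [E106b_Δ, E106b_c₄]; decide)
theorem conductorLevel_E106b : E106b.conductorLevel = 106 := by
  rw [conductorLevel_eq _ (by rw [E106b_Δ]; norm_num), E106b_Δ]; decide +kernel
theorem E106b_a3 : E106b.apOfModel 3 = -1 :=
  apOfModel_of_cnt (by norm_num) E106b_Δ (by norm_num) (by decide)
theorem E106b_a5 : E106b.apOfModel 5 = -4 :=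
  apOfModel_of_cnt (by norm_num) E106b_Δ (by norm_num) (by decide)

/-- `y² + xy = x³ - 283x - 2351`, of conductor `106` -/
def E106c : WeierstrassCurve ℤ := ⟨1, 0, 0, -283, -2351⟩

theorem E106c_Δ : E106c.Δ = -889192448 := by norm_num [E106c, WeierstrassCurve.Δ, b₂, b₄, b₆, b₈]
theorem E106c_c₄ : E106c.c₄ = 13585 := by norm_num [E106c, WeierstrassCurve.c₄, b₂, b₄]
theorem E106c_semistable : E106c.IsSemistableModel :=
  isSemistableModel_of_gcd (by rw [E106c_Δ, E106c_c₄]; decide)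
theorem conductorLevel_E106c : E106c.conductorLevel = 106 := by
  rw [conductorLevel_eq _ (by rw [E106c_Δ]; norm_num), E106c_Δ]; decide +kernel
theorem E106c_a3 : E106c.apOfModel 3 = 1 :=
  apOfModel_of_cnt (by norm_num) E106c_Δ (by norm_num) (by decide)
theorem E106c_a5 : E106c.apOfModel 5 = 0 :=
  apOfModel_of_cnt (by norm_num) E106c_Δ (by norm_num) (by decide)

/-- `y² + xy = x³ + x² - 27x - 67`, of conductor `106` -/
def E106d : WeierstrassCurve ℤ := ⟨1, 1, 0, -27, -67⟩

theorem E106d_Δ : E106d.Δ = -1696 := by norm_num [E106d, WeierstrassCurve.Δ, b₂, b₄, b₆, b₈]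
theorem E106d_c₄ : E106d.c₄ = 1321 := by norm_num [E106d, WeierstrassCurve.c₄, b₂, b₄]
theorem E106d_semistable : E106d.IsSemistableModel :=
  isSemistableModel_of_gcd (by rw [E106d_Δ, E106d_c₄]; decide)
theorem conductorLevel_E106d : E106d.conductorLevel = 106 := by
  rw [conductorLevel_eq _ (by rw [E106d_Δ]; norm_num), E106d_Δ]; decide +kernel
theorem E106d_a3 : E106d.apOfModel 3 = 2 :=
  apOfModel_of_cnt (by norm_num) E106d_Δ (by norm_num) (by decide)
theorem E106d_a5 : E106d.apOfModel 5 = 1 :=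
  apOfModel_of_cnt (by norm_num) E106d_Δ (by norm_num) (by decide)

/-- `y² + xy = x³ + x² + x + 1`, of conductor `118` -/
def E118a : WeierstrassCurve ℤ := ⟨1, 1, 0, 1, 1⟩

theorem E118a_Δ : E118a.Δ = -236 := by norm_num [E118a, WeierstrassCurve.Δ, b₂, b₄, b₆, b₈]
theorem E118a_c₄ : E118a.c₄ = -23 := by norm_num [E118a, WeierstrassCurve.c₄, b₂, b₄]
theorem E118a_semistable : E118a.IsSemistableModel :=
  isSemistableModel_of_gcd (by rw [E118a_Δ, E118a_c₄]; decide)
theorem conductorLevel_E118a : E118a.conductorLevel = 118 := by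
  rw [conductorLevel_eq _ (by rw [E118a_Δ]; norm_num), E118a_Δ]; decide +kernel
theorem E118a_a3 : E118a.apOfModel 3 = -1 :=
  apOfModel_of_cnt (by norm_num) E118a_Δ (by norm_num) (by decide)
theorem E118a_a5 : E118a.apOfModel 5 = -3 :=
  apOfModel_of_cnt (by norm_num) E118a_Δ (by norm_num) (by decide)

/-- `y² + xy = x³ + x² + 56x - 192`, of conductor `118` -/
def E118b : WeierstrassCurve ℤ := ⟨1, 1, 0, 56, -192⟩

theorem E118b_Δ : E118b.Δ = -30932992 := by norm_num [E118b, WeierstrassCurve.Δ, b₂, b₄, b₆, b₈]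
theorem E118b_c₄ : E118b.c₄ = -2663 := by norm_num [E118b, WeierstrassCurve.c₄, b₂, b₄]
theorem E118b_semistable : E118b.IsSemistableModel :=
  isSemistableModel_of_gcd (by rw [E118b_Δ, E118b_c₄]; decide)
theorem conductorLevel_E118b : E118b.conductorLevel = 118 := by
  rw [conductorLevel_eq _ (by rw [E118b_Δ]; norm_num), E118b_Δ]; decide +kernel
theorem E118b_a3 : E118b.apOfModel 3 = 2 :=
  apOfModel_of_cnt (by norm_num) E118b_Δ (by norm_num) (by decide)
theorem E118b_a5 : E118b.apOfModel 5 = 2 :=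
  apOfModel_of_cnt (by norm_num) E118b_Δ (by norm_num) (by decide)

/-- `y² + xy + y = x³ + x² - 25x + 39`, of conductor `118` -/
def E118c : WeierstrassCurve ℤ := ⟨1, 1, 1, -25, 39⟩

theorem E118c_Δ : E118c.Δ = -60416 := by norm_num [E118c, WeierstrassCurve.Δ, b₂, b₄, b₆, b₈]
theorem E118c_c₄ : E118c.c₄ = 1201 := by norm_num [E118c, WeierstrassCurve.c₄, b₂, b₄]
theorem E118c_semistable : E118c.IsSemistableModel :=
  isSemistableModel_of_gcd (by rw [E118c_Δ, E118c_c₄]; decide)
theorem conductorLevel_E118c : E118c.conductorLevel = 118 := by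
  rw [conductorLevel_eq _ (by rw [E118c_Δ]; norm_num), E118c_Δ]; decide +kernel
theorem E118c_a3 : E118c.apOfModel 3 = -1 :=
  apOfModel_of_cnt (by norm_num) E118c_Δ (by norm_num) (by decide)
theorem E118c_a5 : E118c.apOfModel 5 = 1 :=
  apOfModel_of_cnt (by norm_num) E118c_Δ (by norm_num) (by decide)

/-- `y² + xy + y = x³ + x² - 4x - 5`, of conductor `118` -/
def E118d : WeierstrassCurve ℤ := ⟨1, 1, 1, -4, -5⟩

theorem E118d_Δ : E118d.Δ = -118 := by norm_num [E118d, WeierstrassCurve.Δ, b₂, b₄, b₆, b₈]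
theorem E118d_c₄ : E118d.c₄ = 193 := by norm_num [E118d, WeierstrassCurve.c₄, b₂, b₄]
theorem E118d_semistable : E118d.IsSemistableModel :=
  isSemistableModel_of_gcd (by rw [E118d_Δ, E118d_c₄]; decide)
theorem conductorLevel_E118d : E118d.conductorLevel = 118 := by
  rw [conductorLevel_eq _ (by rw [E118d_Δ]; norm_num), E118d_Δ]; decide +kernel
theorem E118d_a3 : E118d.apOfModel 3 = 2 :=
  apOfModel_of_cnt (by norm_num) E118d_Δ (by norm_num) (by decide)
theorem E118d_a5 : E118d.apOfModel 5 = -2 :=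
  apOfModel_of_cnt (by norm_num) E118d_Δ (by norm_num) (by decide)

/-! ### The newforms -/

theorem count_46 : newformCount 46 = 1 := newformCount_eq_of (by decide +kernel)
theorem count_58 : newformCount 58 = 2 := newformCount_eq_of (by decide +kernel)
theorem count_106 : newformCount 106 = 4 := newformCount_eq_of (by decide +kernel)
theorem count_118 : newformCount 118 = 4 := newformCount_eq_of (by decide +kernel)

/-- **Level `46`**: the only newform has `a₃ = 0`, `a₅ = 4`. -/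
theorem newform_46 {f : CuspForm (Gamma0 46) 2} (hf : f.IsNewform) :
    qCoeff f 3 = 0 ∧ qCoeff f 5 = 4 := by
  obtain ⟨g, hg, k⟩ := newform_of_curve E46_Δ (by norm_num) E46_semistable conductorLevel_E46
  have a3 := k 3 _ (by norm_num) (by norm_num) E46_a3
  have a5 := k 5 _ (by norm_num) (by norm_num) E46_a5
  push_cast at a3 a5
  obtain ⟨i, hi⟩ := newform_eq_of_count count_46 (g := ![g]) (fun i => by fin_cases i; exact hg)
    (fun i j _ => Subsingleton.elim i j) hf
  fin_cases i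
  have e : g = f := hi
  rw [← e]
  exact ⟨a3, a5⟩

/-- **Level `58`**: the newforms have `(a₃, a₅) = (-3, -3)`, `(-1, 1)`. -/
theorem newform_58 {f : CuspForm (Gamma0 58) 2} (hf : f.IsNewform) :
    (qCoeff f 3 = -3 ∧ qCoeff f 5 = -3) ∨ (qCoeff f 3 = -1 ∧ qCoeff f 5 = 1) := by
  obtain ⟨g₁, hg₁, k₁⟩ :=
    newform_of_curve E58a_Δ (by norm_num) E58a_semistable conductorLevel_E58a
  obtain ⟨g₂, hg₂, k₂⟩ :=
    newform_of_curve E58b_Δ (by norm_num) E58b_semistable conductorLevel_E58b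
  have a3 := k₁ 3 _ (by norm_num) (by norm_num) E58a_a3
  have a5 := k₁ 5 _ (by norm_num) (by norm_num) E58a_a5
  have b3 := k₂ 3 _ (by norm_num) (by norm_num) E58b_a3
  have b5 := k₂ 5 _ (by norm_num) (by norm_num) E58b_a5
  push_cast at a3 a5 b3 b5
  have h12 : g₁ ≠ g₂ := by
    intro h
    rw [h, b3] at a3
    norm_num at a3
  obtain ⟨i, hi⟩ := newform_eq_of_count count_58 (g := ![g₁, g₂]) (fun i => by
    fin_cases i
    · exact hg₁
    · exact hg₂) (fun i j hij => by
    fin_cases i <;> fin_cases j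
    · rfl
    · exact absurd hij h12
    · exact absurd hij.symm h12
    · rfl) hf
  fin_cases i
  · left
    have e : g₁ = f := hi
    rw [← e]
    exact ⟨a3, a5⟩
  · right
    have e : g₂ = f := hi
    rw [← e]
    exact ⟨b3, b5⟩

/-- four functions -/
theorem injective_four {α : Type*} {x : Fin 4 → α} (h01 : x 0 ≠ x 1) (h02 : x 0 ≠ x 2)
    (h03 : x 0 ≠ x 3) (h12 : x 1 ≠ x 2) (h13 : x 1 ≠ x 3) (h23 : x 2 ≠ x 3) :
    Function.Injective x := by
  intro i j hij
  fin_cases i <;> fin_cases j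
  · rfl
  · exact absurd hij h01
  · exact absurd hij h02
  · exact absurd hij h03
  · exact absurd hij.symm h01
  · rfl
  · exact absurd hij h12
  · exact absurd hij h13
  · exact absurd hij.symm h02
  · exact absurd hij.symm h12
  · rfl
  · exact absurd hij h23
  · exact absurd hij.symm h03
  · exact absurd hij.symm h13
  · exact absurd hij.symm h23
  · rfl

/-- **Level `106`**: the newforms have `(a₃, a₅) = (-2, 3)`, `(-1, -4)`, `(1, 0)`, `(2, 1)`. -/
theorem newform_106 {f : CuspForm (Gamma0 106) 2} (hf : f.IsNewform) :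
    (qCoeff f 3 = -2 ∧ qCoeff f 5 = 3) ∨ (qCoeff f 3 = -1 ∧ qCoeff f 5 = -4) ∨
      (qCoeff f 3 = 1 ∧ qCoeff f 5 = 0) ∨ (qCoeff f 3 = 2 ∧ qCoeff f 5 = 1) := by
  obtain ⟨g₁, hg₁, k₁⟩ :=
    newform_of_curve E106a_Δ (by norm_num) E106a_semistable conductorLevel_E106a
  obtain ⟨g₂, hg₂, k₂⟩ :=
    newform_of_curve E106b_Δ (by norm_num) E106b_semistable conductorLevel_E106b
  obtain ⟨g₃, hg₃, k₃⟩ :=
    newform_of_curve E106c_Δ (by norm_num) E106c_semistable conductorLevel_E106c
  obtain ⟨g₄, hg₄, k₄⟩ :=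
    newform_of_curve E106d_Δ (by norm_num) E106d_semistable conductorLevel_E106d
  have a3 := k₁ 3 _ (by norm_num) (by norm_num) E106a_a3
  have a5 := k₁ 5 _ (by norm_num) (by norm_num) E106a_a5
  have b3 := k₂ 3 _ (by norm_num) (by norm_num) E106b_a3
  have b5 := k₂ 5 _ (by norm_num) (by norm_num) E106b_a5
  have c3 := k₃ 3 _ (by norm_num) (by norm_num) E106c_a3
  have c5 := k₃ 5 _ (by norm_num) (by norm_num) E106c_a5
  have d3 := k₄ 3 _ (by norm_num) (by norm_num) E106d_a3
  have d5 := k₄ 5 _ (by norm_num) (by norm_num) E106d_a5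
  push_cast at a3 a5 b3 b5 c3 c5 d3 d5
  obtain ⟨i, hi⟩ := newform_eq_of_count count_106 (g := ![g₁, g₂, g₃, g₄]) (fun i => by
    fin_cases i
    · exact hg₁
    · exact hg₂
    · exact hg₃
    · exact hg₄) (injective_four
      (by intro h; have e : g₁ = g₂ := h; rw [e, b3] at a3; norm_num at a3)
      (by intro h; have e : g₁ = g₃ := h; rw [e, c3] at a3; norm_num at a3)
      (by intro h; have e : g₁ = g₄ := h; rw [e, d3] at a3; norm_num at a3)
      (by intro h; have e : g₂ = g₃ := h; rw [e, c3] at b3; norm_num at b3)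
      (by intro h; have e : g₂ = g₄ := h; rw [e, d3] at b3; norm_num at b3)
      (by intro h; have e : g₃ = g₄ := h; rw [e, d3] at c3; norm_num at c3)) hf
  fin_cases i
  · left
    have e : g₁ = f := hi
    rw [← e]
    exact ⟨a3, a5⟩
  · right; left
    have e : g₂ = f := hi
    rw [← e]
    exact ⟨b3, b5⟩
  · right; right; left
    have e : g₃ = f := hi
    rw [← e]
    exact ⟨c3, c5⟩
  · right; right; right
    have e : g₄ = f := hi
    rw [← e]
    exact ⟨d3, d5⟩

/-- **Level `118`**: the newforms have `(a₃, a₅) = (-1, -3)`, `(2, 2)`, `(-1, 1)`, `(2, -2)`. -/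
theorem newform_118 {f : CuspForm (Gamma0 118) 2} (hf : f.IsNewform) :
    (qCoeff f 3 = -1 ∧ qCoeff f 5 = -3) ∨ (qCoeff f 3 = 2 ∧ qCoeff f 5 = 2) ∨
      (qCoeff f 3 = -1 ∧ qCoeff f 5 = 1) ∨ (qCoeff f 3 = 2 ∧ qCoeff f 5 = -2) := by
  obtain ⟨g₁, hg₁, k₁⟩ :=
    newform_of_curve E118a_Δ (by norm_num) E118a_semistable conductorLevel_E118a
  obtain ⟨g₂, hg₂, k₂⟩ :=
    newform_of_curve E118b_Δ (by norm_num) E118b_semistable conductorLevel_E118b
  obtain ⟨g₃, hg₃, k₃⟩ :=
    newform_of_curve E118c_Δ (by norm_num) E118c_semistable conductorLevel_E118c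
  obtain ⟨g₄, hg₄, k₄⟩ :=
    newform_of_curve E118d_Δ (by norm_num) E118d_semistable conductorLevel_E118d
  have a3 := k₁ 3 _ (by norm_num) (by norm_num) E118a_a3
  have a5 := k₁ 5 _ (by norm_num) (by norm_num) E118a_a5
  have b3 := k₂ 3 _ (by norm_num) (by norm_num) E118b_a3
  have b5 := k₂ 5 _ (by norm_num) (by norm_num) E118b_a5
  have c3 := k₃ 3 _ (by norm_num) (by norm_num) E118c_a3
  have c5 := k₃ 5 _ (by norm_num) (by norm_num) E118c_a5
  have d3 := k₄ 3 _ (by norm_num) (by norm_num) E118d_a3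
  have d5 := k₄ 5 _ (by norm_num) (by norm_num) E118d_a5
  push_cast at a3 a5 b3 b5 c3 c5 d3 d5
  obtain ⟨i, hi⟩ := newform_eq_of_count count_118 (g := ![g₁, g₂, g₃, g₄]) (fun i => by
    fin_cases i
    · exact hg₁
    · exact hg₂
    · exact hg₃
    · exact hg₄) (injective_four
      (by intro h; have e : g₁ = g₂ := h; rw [e, b5] at a5; norm_num at a5)
      (by intro h; have e : g₁ = g₃ := h; rw [e, c5] at a5; norm_num at a5)
      (by intro h; have e : g₁ = g₄ := h; rw [e, d5] at a5; norm_num at a5)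
      (by intro h; have e : g₂ = g₃ := h; rw [e, c5] at b5; norm_num at b5)
      (by intro h; have e : g₂ = g₄ := h; rw [e, d5] at b5; norm_num at b5)
      (by intro h; have e : g₃ = g₄ := h; rw [e, d5] at c5; norm_num at c5)) hf
  fin_cases i
  · left
    have e : g₁ = f := hi
    rw [← e]
    exact ⟨a3, a5⟩
  · right; left
    have e : g₂ = f := hi
    rw [← e]
    exact ⟨b3, b5⟩
  · right; right; left
    have e : g₃ = f := hi
    rw [← e]
    exact ⟨c3, c5⟩
  · right; right; right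
    have e : g₄ = f := hi
    rw [← e]
    exact ⟨d3, d5⟩

/-! ### Serre's equations -/

/-- exclusion by the third coefficient -/
theorem excluded_three {p L : ℕ} (hp : 11 ≤ p) (hL : L ≠ 3) {f : CuspForm (Gamma0 (2 * L)) 2}
    (c : ℤ) (hc : qCoeff f 3 = (c : ℂ)) (hc0 : c ≠ 0) (hc3 : c.natAbs ≤ 3) : Excluded p L f :=
  Or.inl ⟨c, hL, hc, not_dvd_of_abs hc0 (by omega), not_dvd_of_abs (by omega) (by omega),
    not_dvd_of_abs (by omega) (by omega)⟩

theorem noSol_23 {p : ℕ} (hp : p.Prime) (h : 11 ≤ p) (h13 : p ≠ 13) : NoSol p 23 := by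
  refine noSol_of_newforms hp (by omega) (by norm_num) (irrAB_of hp (Or.inr ⟨h, h13⟩))
    fun f hf => ?_
  refine Or.inr ⟨4, by norm_num, by omega, ?_, not_dvd_of_abs (by norm_num) (by norm_num; omega),
    not_dvd_of_abs (by norm_num) (by norm_num; omega),
    not_dvd_of_abs (by norm_num) (by norm_num; omega),
    not_dvd_of_abs (by norm_num) (by norm_num; omega)⟩
  rw [(newform_46 hf).2]
  norm_num

theorem noSol_29 {p : ℕ} (hp : p.Prime) (h : 11 ≤ p) (h13 : p ≠ 13) : NoSol p 29 := by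
  refine noSol_of_newforms hp (by omega) (by norm_num) (irrAB_of hp (Or.inr ⟨h, h13⟩))
    fun f hf => ?_
  rcases newform_58 hf with ⟨k, -⟩ | ⟨k, -⟩
  · exact excluded_three h (by norm_num) (-3) (by rw [k]; norm_num) (by norm_num) (by norm_num)
  · exact excluded_three h (by norm_num) (-1) (by rw [k]; norm_num) (by norm_num) (by norm_num)

theorem noSol_53 {p : ℕ} (hp : p.Prime) (h : 11 ≤ p) (h13 : p ≠ 13) : NoSol p 53 := by
  refine noSol_of_newforms hp (by omega) (by norm_num) (irrAB_of hp (Or.inr ⟨h, h13⟩))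
    fun f hf => ?_
  rcases newform_106 hf with ⟨k, -⟩ | ⟨k, -⟩ | ⟨k, -⟩ | ⟨k, -⟩
  · exact excluded_three h (by norm_num) (-2) (by rw [k]; norm_num) (by norm_num) (by norm_num)
  · exact excluded_three h (by norm_num) (-1) (by rw [k]; norm_num) (by norm_num) (by norm_num)
  · exact excluded_three h (by norm_num) 1 (by rw [k]; norm_num) (by norm_num) (by norm_num)
  · exact excluded_three h (by norm_num) 2 (by rw [k]; norm_num) (by norm_num) (by norm_num)

theorem noSol_59 {p : ℕ} (hp : p.Prime) (h : 11 ≤ p) (h13 : p ≠ 13) : NoSol p 59 := by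
  refine noSol_of_newforms hp (by omega) (by norm_num) (irrAB_of hp (Or.inr ⟨h, h13⟩))
    fun f hf => ?_
  rcases newform_118 hf with ⟨k, -⟩ | ⟨k, -⟩ | ⟨k, -⟩ | ⟨k, -⟩
  · exact excluded_three h (by norm_num) (-1) (by rw [k]; norm_num) (by norm_num) (by norm_num)
  · exact excluded_three h (by norm_num) 2 (by rw [k]; norm_num) (by norm_num) (by norm_num)
  · exact excluded_three h (by norm_num) (-1) (by rw [k]; norm_num) (by norm_num) (by norm_num)
  · exact excluded_three h (by norm_num) 2 (by rw [k]; norm_num) (by norm_num) (by norm_num)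

/-- **Serre's theorem for `L = 23, 29, 53, 59`**, symmetric form: `p ≥ 11` a prime, `p ≠ 13` (the cases `p = L` are
included). -/
theorem serre_symmetric {p L : ℕ} (hp : p.Prime) (h : 11 ≤ p) (h13 : p ≠ 13)
    (hL : L ∈ ({23, 29, 53, 59} : Finset ℕ)) (α β γ : ℕ) {x y z : ℤ} (hx : x ≠ 0) (hy : y ≠ 0)
    (hz : z ≠ 0) : (L : ℤ) ^ α * x ^ p + (L : ℤ) ^ β * y ^ p + (L : ℤ) ^ γ * z ^ p ≠ 0 := by
  have hp5 : 5 ≤ p := by omega
  simp only [Finset.mem_insert, Finset.mem_singleton] at hL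
  rcases hL with rfl | rfl | rfl | rfl
  · exact serre_sym hp5 (by norm_num) (by norm_num) (noSol_23 hp h h13) α β γ hx hy hz
  · exact serre_sym hp5 (by norm_num) (by norm_num) (noSol_29 hp h h13) α β γ hx hy hz
  · exact serre_sym hp5 (by norm_num) (by norm_num) (noSol_53 hp h h13) α β γ hx hy hz
  · exact serre_sym hp5 (by norm_num) (by norm_num) (noSol_59 hp h h13) α β γ hx hy hz

/-- **Serre's theorem for `L = 23, 29, 53, 59`.** Let `p ≥ 11` be a prime, `p ≠ 13`. Then
`x ^ p + y ^ p = L ^ α z ^ p` has no solutions in nonzero integers. -/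
theorem serre_equation {p L : ℕ} (hp : p.Prime) (h : 11 ≤ p) (h13 : p ≠ 13)
    (hL : L ∈ ({23, 29, 53, 59} : Finset ℕ)) (α : ℕ) {x y z : ℤ} (hx : x ≠ 0) (hy : y ≠ 0)
    (hz : z ≠ 0) : x ^ p + y ^ p ≠ (L : ℤ) ^ α * z ^ p := by
  intro he
  have hodd : Odd p := hp.odd_of_ne_two (by omega)
  refine serre_symmetric hp h h13 hL 0 0 α hx hy (neg_ne_zero.mpr hz) ?_
  rw [hodd.neg_pow]
  linear_combination he

end Fermat.Agent.Cor.H22S
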