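import Fermat.Agent.Cor.H22Nineteen
import Fermat.Agent.Cor.NewformCount
import Fermat.Agent.Cor.H07Conv

/-!
# Serre's criterion: the newforms of level `2 L`

Let `L` be an odd prime and `p ≥ 5` a prime. A Frey curve `W` of level `2 L` modulo `p` is multiplicative at `2`, with
`p ∤ v₂(Δ)`; so `W[p]` is ramified at `2`, and the eigenform of level `2 L` congruent to `W` is a newform: there are no
cusp forms of level `1` and `2`, and the representations attached to the forms of level `L` are unramified at `2`.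
Hence only the newforms of level exactly `2 L` have to be considered. If `newformCount (2 L)` of them are attached to
elliptic curves, there are no others.

* `exists_newform_AB`: a Frey curve of level `2 L` modulo `p` is congruent to a newform of level exactly `2 L`;
* `noSol_of_newforms`: the criterion at the primes `3` and `5` (`a₃(W) = 0` or multiplicative reduction at `3`;
  `a₅(W) = ± 2` or multiplicative reduction at `5`);
* `newform_eq_of_count`: the list of all newforms, by the count.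

This file is not used by any of the statement files.
-/

set_option autoImplicit false

namespace Fermat.Agent.Cor.H22S

open ModularCurve ModularFormClass CongruenceSubgroup WeierstrassCurve
open Fermat.Agent.Cor.GenusOne Fermat.Agent.Cor.SmallConductor Fermat.Agent.Cor.EigenTable
open Fermat.Agent.Cor.NewformCount Fermat.Agent.Cor.H11 Fermat.Agent.Cor.H18

/-! ### The trace of Frobenius at `5` of a Frey curve -/

/-- `a₅ = ± 2` for a Frey curve with good reduction at `5` -/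
theorem freyAB_ap_five {A B : ℤ} (hA : A % 4 = 3) (hB : (16 : ℤ) ∣ B)
    (h5 : ¬ (5 : ℤ) ∣ (FreyAB A B).Δ) :
    (FreyAB A B).apOfModel 5 = 2 ∨ (FreyAB A B).apOfModel 5 = -2 := by
  have hΔ := frey_disc hA hB
  have h5' : ((A : ZMod 5) * B * (A + B)) ≠ 0 := by
    intro h
    apply h5
    have h1 : (((A * B * (A + B)) ^ 2 : ℤ) : ZMod 5) = 0 := by push_cast; rw [h]; ring
    rw [← hΔ] at h1
    have h2 := (ZMod.intCast_zmod_eq_zero_iff_dvd _ 5).mp h1
    have h4 : (5 : ℤ) ∣ 256 * (FreyAB A B).Δ := by exact_mod_cast h2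
    omega
  have e2 : ((FreyAB A B).a₂ : ZMod 5) = (A : ZMod 5) - B + 1 := by
    have h := congrArg (Int.cast : ℤ → ZMod 5) (four_a₂ hA hB)
    push_cast at h
    have h4 : (4 : ZMod 5) = -1 := by decide
    rw [h4] at h
    linear_combination -h
  have e4 : ((FreyAB A B).a₄ : ZMod 5) = -((A : ZMod 5) * B) := by
    have h := congrArg (Int.cast : ℤ → ZMod 5) (sixteen_a₄ (A := A) hB)
    push_cast at h
    have h4 : (16 : ZMod 5) = 1 := by decide
    rwa [h4, one_mul] at h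
  have e1 : ((FreyAB A B).a₁ : ZMod 5) = 1 := by
    change ((1 : ℤ) : ZMod 5) = 1
    norm_num
  have e3 : ((FreyAB A B).a₃ : ZMod 5) = 0 := by
    change ((0 : ℤ) : ZMod 5) = 0
    norm_num
  have e6 : ((FreyAB A B).a₆ : ZMod 5) = 0 := by
    change ((0 : ℤ) : ZMod 5) = 0
    norm_num
  have key : ∀ a b : ZMod 5, a * b * (a + b) ≠ 0 →
      (5 : ℤ) - (cnt 5 1 (a - b + 1) 0 (-(a * b)) 0 : ℤ) = 2 ∨
      (5 : ℤ) - (cnt 5 1 (a - b + 1) 0 (-(a * b)) 0 : ℤ) = -2 := by decide +kernel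
  rcases key _ _ h5' with h | h
  · left
    refine apOfModel_of_cnt Nat.prime_five rfl (by exact_mod_cast h5) ?_
    rw [e1, e2, e3, e4, e6]
    exact_mod_cast h
  · right
    refine apOfModel_of_cnt Nat.prime_five rfl (by exact_mod_cast h5) ?_
    rw [e1, e2, e3, e4, e6]
    exact_mod_cast h

/-! ### The newform of level exactly `2 L` -/

/-- **A Frey curve of level `2 L` modulo `p` is congruent to a newform of level exactly `2 L`.** -/
theorem exists_newform_AB {A B : ℤ} {p L : ℕ} [hp : Fact p.Prime] (hp5 : 5 ≤ p) (hL : L.Prime)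
    (hcop : IsCoprime A B) (hA : A % 4 = 3) (hB : (32 : ℤ) ∣ B) (h0 : A * B * (A + B) ≠ 0)
    (h2 : ¬ (p : ℤ) ∣ (padicValInt 2 B : ℤ) - 4)
    (hv : ∀ ℓ : ℕ, ℓ.Prime → ℓ ≠ 2 → ℓ ≠ L → p ∣ padicValInt ℓ (A * B * (A + B)))
    (hirr : (FreyAB A B).ModRepIsIrreducible p) :
    ∃ (f : CuspForm (Gamma0 (2 * L)) 2) (𝔪 : Ideal (integralClosure ℤ ℂ)), f.IsNewform ∧
      𝔪.IsMaximal ∧ (p : integralClosure ℤ ℂ) ∈ 𝔪 ∧
      ∀ ℓ : ℕ, ℓ.Prime → (FreyAB A B).IsGoodPrimeFor ℓ → ¬ ℓ ∣ 2 * L → ℓ ≠ p →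
        ∃ a : integralClosure ℤ ℂ, (a : ℂ) = qCoeff f ℓ ∧
          a - (((FreyAB A B).apOfModel ℓ : ℤ) : integralClosure ℤ ℂ) ∈ 𝔪 := by
  have hB' : (16 : ℤ) ∣ B := (by norm_num : (16 : ℤ) ∣ 32).trans hB
  have hΔ := frey_disc_ne hA hB' h0
  have hss := frey_semistable hA hB' hcop
  have hp2 : p ≠ 2 := by omega
  have hdisc := frey_disc hA hB'
  have hB0 : B ≠ 0 := right_ne_zero_of_mul (left_ne_zero_of_mul h0)
  have hAB0 : A + B ≠ 0 := right_ne_zero_of_mul h0
  have hA0 : A ≠ 0 := left_ne_zero_of_mul (left_ne_zero_of_mul h0)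
  -- the valuation at `2` of the discriminant
  have hval : (padicValInt 2 (FreyAB A B).Δ : ℤ) = 2 * ((padicValInt 2 B : ℤ) - 4) := by
    have h1 := congrArg (padicValInt 2) hdisc
    rw [padicValInt.mul (by norm_num) hΔ, padicValInt_pow', padicValInt.mul
      (mul_ne_zero hA0 hB0) hAB0, padicValInt.mul hA0 hB0,
      padicValInt.eq_zero_of_not_dvd (z := A) (by norm_num; omega),
      padicValInt.eq_zero_of_not_dvd (z := A + B) (by norm_num; omega)] at h1
    have h2 : padicValInt 2 256 = 8 := by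
      have : (256 : ℤ) = 2 ^ 8 := by norm_num
      rw [this, padicValInt_pow']
      have : padicValInt 2 2 = 1 := by
        exact_mod_cast padicValInt.self (p := 2) (by norm_num)
      rw [this]
    rw [h2] at h1
    omega
  have hv5 : 5 ≤ padicValInt 2 B := by
    have := (padicValInt_dvd_iff (p := 2) 5 B).mp (by exact_mod_cast hB)
    rcases this with h | h
    · exact absurd h hB0
    · exact h
  have h2Δ : ((2 : ℕ) : ℤ) ∣ (FreyAB A B).Δ := by
    by_contra h
    have := padicValInt.eq_zero_of_not_dvd h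
    omega
  have hram : ¬ H12.LL.UnrAt (FreyAB A B) p 2 := by
    refine H07.not_unrAt hΔ hp.out hp2 Nat.prime_two (Ne.symm hp2) h2Δ
      (hss 2 Nat.prime_two h2Δ) fun h => h2 ?_
    have h3 : (p : ℤ) ∣ 2 * ((padicValInt 2 B : ℤ) - 4) := by
      rw [← hval]
      exact_mod_cast h
    rcases (Nat.prime_iff_prime_int.mp hp.out).dvd_or_dvd h3 with h4 | h4
    · exfalso
      have := Int.le_of_dvd (by norm_num) h4
      omega
    · exact h4
  obtain ⟨f, 𝔪, hf, h𝔪, hp𝔪, hres⟩ := rm_two_mul hp5 hL hcop hA hB h0 hv hirr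
  refine ⟨f, 𝔪, ⟨hf, ?_⟩, h𝔪, hp𝔪, hres⟩
  rintro M hM hMN ⟨g, hg, hgf⟩
  have hM' : M = 1 ∨ M = 2 ∨ M = L := by
    rcases (Nat.dvd_mul.mp hM) with ⟨a, b, ha, hb, rfl⟩
    rcases (Nat.dvd_prime Nat.prime_two).mp ha with rfl | rfl <;>
      rcases (Nat.dvd_prime hL).mp hb with rfl | rfl
    · left; rfl
    · right; right; rw [one_mul]
    · right; left; rfl
    · exact absurd rfl hMN
  rcases hM' with rfl | rfl | rfl
  · exact Fermat.Agent.Main.not_isNormalizedEigenform Fermat.Agent.Main.genus_one g hg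
  · exact Fermat.Agent.Main.not_isNormalizedEigenform Fermat.Agent.Main.genus_two g hg
  · have hML : M ≠ 0 := hL.ne_zero
    have hM2 : M ≠ 2 := by
      rintro rfl
      exact Fermat.Agent.Main.not_isNormalizedEigenform Fermat.Agent.Main.genus_two g hg
    refine hram (H11N.unrAt_of_residual hΔ hirr hp2 hML ⟨g, 𝔪, hg, h𝔪, hp𝔪, ?_⟩ Nat.prime_two
      (fun h => hM2 ((Nat.prime_dvd_prime_iff_eq Nat.prime_two hL).mp h).symm) (Ne.symm hp2))
    intro ℓ hℓ hgood hℓM hℓp
    have hℓ2 : ℓ ≠ 2 := by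
      rintro rfl
      exact hgood h2Δ
    have hℓN : ¬ ℓ ∣ 2 * M := by
      intro h
      rcases (Nat.Prime.dvd_mul hℓ).mp h with h | h
      · exact hℓ2 ((Nat.prime_dvd_prime_iff_eq hℓ Nat.prime_two).mp h)
      · exact hℓM h
    obtain ⟨a, ha, ha'⟩ := hres ℓ hℓ hgood hℓN hℓp
    exact ⟨a, by rw [ha, hgf ℓ hℓ hℓN], ha'⟩

/-- the condition on the third and the fifth coefficient of a newform -/
def Excluded (p L : ℕ) (f : CuspForm (Gamma0 (2 * L)) 2) : Prop :=
  (∃ c : ℤ, L ≠ 3 ∧ qCoeff f 3 = (c : ℂ) ∧ ¬ (p : ℤ) ∣ c ∧ ¬ (p : ℤ) ∣ c - 4 ∧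
    ¬ (p : ℤ) ∣ c + 4) ∨
  (∃ c : ℤ, L ≠ 5 ∧ p ≠ 5 ∧ qCoeff f 5 = (c : ℂ) ∧ ¬ (p : ℤ) ∣ c - 2 ∧ ¬ (p : ℤ) ∣ c + 2 ∧
    ¬ (p : ℤ) ∣ c - 6 ∧ ¬ (p : ℤ) ∣ c + 6)

/-- **Serre's criterion.** If all newforms of level exactly `2 L` are excluded by their third or their fifth
coefficient, there are no Frey curves of level `2 L` modulo `p`. -/
theorem noSol_of_newforms {p L : ℕ} (hp : p.Prime) (hp5 : 5 ≤ p) (hL : L.Prime)
    (hirr : IrrAB p) (H : ∀ f : CuspForm (Gamma0 (2 * L)) 2, f.IsNewform → Excluded p L f) :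
    NoSol p L := by
  intro A B hcop hA hB32 _ h0 h2 hv
  have : Fact p.Prime := ⟨hp⟩
  have : NeZero (2 * L) := ⟨mul_ne_zero two_ne_zero hL.ne_zero⟩
  have hB : (16 : ℤ) ∣ B := (by norm_num : (16 : ℤ) ∣ 32).trans hB32
  have hI := hirr A B hcop hA hB32 h0 h2
  have hΔ := frey_disc_ne hA hB h0
  have hss := frey_semistable hA hB hcop
  have hp2 : p ≠ 2 := by omega
  obtain ⟨f, 𝔪, hf, h𝔪, hp𝔪, hres⟩ := exists_newform_AB hp5 hL hcop hA hB32 h0 h2 hv hI
  have hcc : ∀ (q : ℕ) (c : ℤ), qCoeff f q = (c : ℂ) → ∃ b : integralClosure ℤ ℂ,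
      (b : ℂ) = qCoeff f q ∧ b - (c : integralClosure ℤ ℂ) ∈ 𝔪 := fun q c hc =>
    ⟨(c : integralClosure ℤ ℂ), by rw [hc]; simp, by rw [sub_self]; exact zero_mem _⟩
  have hN : ∀ q : ℕ, q.Prime → q ≠ 2 → L ≠ q → ¬ q ∣ 2 * L := by
    intro q hq hq2 hLq h
    rcases (Nat.Prime.dvd_mul hq).mp h with h | h
    · exact hq2 ((Nat.prime_dvd_prime_iff_eq hq Nat.prime_two).mp h)
    · exact hLq ((Nat.prime_dvd_prime_iff_eq hq hL).mp h).symm
  rcases H f hf with ⟨c, hL3, hc, k0, k1, k2⟩ | ⟨c, hL5, hp5', hc, k0, k1, k2, k3⟩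
  · have h3N := hN 3 Nat.prime_three (by norm_num) hL3
    have h3p : 3 ≠ p := by omega
    by_cases h3 : ((3 : ℕ) : ℤ) ∣ (FreyAB A B).Δ
    · rcases dvd_of_mult hΔ hI hp2 hf.1 h𝔪 hp𝔪 hres Nat.prime_three h3N h3p (hcc 3 c hc) h3
        (hss 3 Nat.prime_three h3) with h | h
      · exact k1 (by norm_num at h; exact h)
      · exact k2 (by norm_num at h; exact h)
    · have h := dvd_of_good h𝔪 hp𝔪 hres Nat.prime_three h3N h3p hc h3
      rw [freyAB_ap_three hA hB, sub_zero] at h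
      · exact k0 h
      · intro h'
        apply h3
        have h6 : (3 : ℤ) ∣ 256 * (FreyAB A B).Δ := by
          rw [frey_disc hA hB]
          exact dvd_pow h' two_ne_zero
        rcases (Int.prime_three).dvd_or_dvd h6 with h | h
        · omega
        · exact_mod_cast h
  · have h5N := hN 5 Nat.prime_five (by norm_num) hL5
    by_cases h3 : ((5 : ℕ) : ℤ) ∣ (FreyAB A B).Δ
    · rcases dvd_of_mult hΔ hI hp2 hf.1 h𝔪 hp𝔪 hres Nat.prime_five h5N (Ne.symm hp5')
        (hcc 5 c hc) h3 (hss 5 Nat.prime_five h3) with h | h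
      · exact k2 (by norm_num at h; exact h)
      · exact k3 (by norm_num at h; exact h)
    · have h := dvd_of_good h𝔪 hp𝔪 hres Nat.prime_five h5N (Ne.symm hp5') hc h3
      rcases freyAB_ap_five hA hB (by exact_mod_cast h3) with h4 | h4
      · rw [h4] at h
        exact k0 h
      · rw [h4, sub_neg_eq_add] at h
        exact k1 h

/-! ### The list of all newforms -/

/-- if `r` pairwise distinct newforms of level `N` are known and `newformCount N = r`, then there are no others -/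
theorem newform_eq_of_count {N r : ℕ} [NeZero N] (hc : newformCount N = r)
    {g : Fin r → CuspForm (Gamma0 N) 2} (hg : ∀ i, (g i).IsNewform) (hinj : Function.Injective g)
    {f : CuspForm (Gamma0 N) 2} (hf : f.IsNewform) : ∃ i, g i = f := by
  have : Finite {g : CuspForm (Gamma0 N) 2 // g.IsNewform} := finite_newforms N
  have h1 : Function.Bijective
      (fun i => (⟨g i, hg i⟩ : {g : CuspForm (Gamma0 N) 2 // g.IsNewform})) := by
    refine Function.Injective.bijective_of_nat_card_le (fun i j hij => hinj ?_) ?_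
    · exact congrArg Subtype.val hij
    · rw [Nat.card_fin]
      exact hc.le
  obtain ⟨i, hi⟩ := h1.2 ⟨f, hf⟩
  exact ⟨i, congrArg Subtype.val hi⟩

/-- the newform of a semistable elliptic curve, with the level and the discriminant prescribed -/
theorem newform_of_curve {W : WeierstrassCurve ℤ} {N : ℕ} {D : ℤ} (hD : W.Δ = D) (hD0 : D ≠ 0)
    (hW : W.IsSemistableModel) (hN : W.conductorLevel = N) :
    ∃ g : CuspForm (Gamma0 N) 2, g.IsNewform ∧
      ∀ (ℓ : ℕ) (n : ℤ), ℓ.Prime → ¬ ℓ ∣ N → W.apOfModel ℓ = n → qCoeff g ℓ = (n : ℂ) := by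
  subst hN
  obtain ⟨g, hg, h⟩ := exists_newform W (by rw [hD]; exact hD0) hW
  exact ⟨g, hg, fun ℓ n hℓ hℓN hn => by rw [h ℓ hℓ hℓN, hn]⟩

end Fermat.Agent.Cor.H22S
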