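import Fermat.Agent.Cor.H22Effective
import Fermat.Agent.Cor.H22Five

/-!
# The families with a rational point of order `2`, `3`, `5`: effective and asymptotic theorems

* `five_dvd_ap`: the point `(0, 0)` of the curve `E5 a b` has order `5`, so `5 ∣ q + 1 - a_q` for the good primes `q`;
* `effective_set`: let `g` be the genus of `X₀(N)`, `p ≥ 11`, `p ≠ 13` a prime, and suppose that for every normalised
  eigenform `f` of level `N` there is a prime `q ∤ N` with `(2 (q + 1)) ^ g ≤ p` such that `a_q(f)` is not in a set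
  `S q` of integers. If `a_q(W) ∈ S q` for all good primes `q ∤ N` of the semistable curve `W`, then the discriminant
  of `W` is not a `p`-th power away from `N`;
* `effective_pp2`, `effective_pp3`, `effective_five`: the signatures `(p, p, 2)`, `(p, p, 3)` and the family with a point
  of order `5`; `S q` is given by the congruence `a ≡ q + 1` modulo `2`, `3`, `5`;
* `asymptotic_five`: the asymptotic theorem for the last family.

This file is not used by any of the statement files.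
-/

set_option autoImplicit false

namespace Fermat.Agent.Cor.H22G

open ModularCurve ModularFormClass CongruenceSubgroup WeierstrassCurve
open Fermat.Agent.Cor.GenusOne

/-- `q + 1 - a_q` is divisible by `5` for a curve with a rational point of order `5` -/
theorem five_dvd_ap {a b : ℤ} {q : ℕ} (hq : q.Prime) (h : ¬ (q : ℤ) ∣ (E5 a b).Δ) :
    (5 : ℤ) ∣ q + 1 - (E5 a b).apOfModel q := by
  have : Fact q.Prime := ⟨hq⟩
  have h0 := cast_Δ_ne h
  rw [E5_Δ] at h0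
  push_cast at h0
  have ha : (a : ZMod q) ≠ 0 := by
    intro ha
    apply h0
    rw [ha]
    ring
  have hb : (b : ZMod q) ≠ 0 := by
    intro hb
    apply h0
    rw [hb]
    ring
  have hA : ((E5 a b).reductionMod q).toAffine.Nonsingular 0 0 :=
    nonsingular_of h (by simp [E5])
  have hB : ((E5 a b).reductionMod q).toAffine.Nonsingular ((a : ZMod q) * b) ((a : ZMod q) ^ 2 * b) :=
    nonsingular_of h (by simp [E5]; ring)
  have hC : ((E5 a b).reductionMod q).toAffine.Nonsingular ((a : ZMod q) * b) 0 :=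
    nonsingular_of h (by simp [E5]; ring)
  have h1 : Affine.Point.some _ _ hA + Affine.Point.some _ _ hA = Affine.Point.some _ _ hB := by
    refine add_self_eq hA hB 0 ?_ ?_ ?_ ?_
    · simp [reductionMod, E5, ha, hb]
    · simp [reductionMod, E5]
    · simp [reductionMod, E5]
    · simp [reductionMod, E5]
      ring
  have h2 : Affine.Point.some _ _ hA + Affine.Point.some _ _ hB = Affine.Point.some _ _ hC := by
    refine add_eq hA hB hC a ?_ ?_ ?_ ?_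
    · exact (mul_ne_zero ha hb).symm
    · ring
    · simp [reductionMod, E5]
      ring
    · simp [reductionMod, E5]
      ring
  have h3 : Affine.Point.some _ _ hB + Affine.Point.some _ _ hC = 0 := by
    refine add_eq_zero hB hC ?_
    simp [reductionMod, E5]
    ring
  have h5 : (5 : ℕ) = 2 + (1 + 2) := rfl
  have : Fact (Nat.Prime 5) := ⟨by norm_num⟩
  have h4 : 5 ∣ ((E5 a b).reductionMod q).card :=
    dvd_card_of_addOrderOf (Affine.Point.some _ _ hA) (addOrderOf_eq_prime (p := 5) (by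
      rw [h5, add_nsmul, add_nsmul, one_nsmul, two_nsmul, h1, h2, h3])
    (Affine.Point.some_ne_zero _))
  rw [apOfModel_eq]
  have h6 := Int.natCast_dvd_natCast.mpr h4
  push_cast at h6
  rwa [sub_sub_cancel]

/-- **The effective theorem for eigenvalues in given sets** -/
theorem effective_set {N : ℕ} [NeZero N] {g : ℕ} (hg : genusFormula N ≤ g) {p : ℕ} (hp : p.Prime)
    (hp11 : 11 ≤ p) (hp13 : p ≠ 13) (S : ℕ → Set ℤ)
    (hf : ∀ f : CuspForm (Gamma0 N) 2, f.IsNormalizedEigenform → ∃ q : ℕ, q.Prime ∧ ¬ q ∣ N ∧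
      (2 * (q + 1)) ^ g ≤ p ∧ ∀ a ∈ S q, qCoeff f q ≠ (a : ℂ))
    {W : WeierstrassCurve ℤ} (hΔ : W.Δ ≠ 0) (hss : W.IsSemistableModel)
    (hS : ∀ q : ℕ, q.Prime → ¬ q ∣ N → ¬ (q : ℤ) ∣ W.Δ → W.apOfModel q ∈ S q) :
    ¬ Pw p N W.Δ := by
  intro hP
  obtain ⟨f, hf', h⟩ := effective hg hp hp11 hp13 hΔ hss hP
  obtain ⟨q, h1, h2, h3, h4⟩ := hf f hf'
  obtain ⟨h5, h6⟩ := h q h1 h2 h3
  exact h4 _ (hS q h1 h2 h5) h6

section

variable {N : ℕ} [NeZero N] {g : ℕ} (hg : genusFormula N ≤ g) {p : ℕ} (hp : p.Prime)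
  (hp11 : 11 ≤ p) (hp13 : p ≠ 13)

include hg hp hp11 hp13

/-- **Signature `(p, p, 2)`**, effective -/
theorem effective_pp2 (hf : ∀ f : CuspForm (Gamma0 N) 2, f.IsNormalizedEigenform → ∃ q : ℕ,
      q.Prime ∧ ¬ q ∣ N ∧ (2 * (q + 1)) ^ g ≤ p ∧ ∀ a : ℤ, (2 : ℤ) ∣ q + 1 - a →
        qCoeff f q ≠ (a : ℂ))
    {A B x y z : ℤ} (hA : Supp N A) (hB : Supp N B) (h0 : A * B * x * y ≠ 0)
    (hcop : IsCoprime (A * x) (B * y)) (hz : Odd z) : A * x ^ p + 64 * (B * y ^ p) ≠ z ^ 2 := by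
  intro h
  have hy : y ≠ 0 := right_ne_zero_of_mul h0
  have hx : x ≠ 0 := right_ne_zero_of_mul (left_ne_zero_of_mul h0)
  have hB0 : B ≠ 0 := right_ne_zero_of_mul (left_ne_zero_of_mul (left_ne_zero_of_mul h0))
  have hA0 : A ≠ 0 := left_ne_zero_of_mul (left_ne_zero_of_mul (left_ne_zero_of_mul h0))
  have hX : A * x ^ p ≠ 0 := mul_ne_zero hA0 (pow_ne_zero _ hx)
  have hY : B * y ^ p ≠ 0 := mul_ne_zero hB0 (pow_ne_zero _ hy)
  have hPX : Pw p N (A * x ^ p) := (pw_of_supp hA).mul (pw_pow p _ x) hA0 (pow_ne_zero _ hx)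
  have hPY : Pw p N (B * y ^ p) := (pw_of_supp hB).mul (pw_pow p _ y) hB0 (pow_ne_zero _ hy)
  obtain ⟨k, hΔ, hss⟩ := curve_pp2_form h.symm hz (cop_pow hcop p)
  refine effective_set hg hp hp11 hp13 (fun q => {a : ℤ | (2 : ℤ) ∣ q + 1 - a}) hf
    (W := ⟨1, k, 0, B * y ^ p, 0⟩) ?_ hss (fun q hq _ hqΔ => two_dvd_ap hq hqΔ) ?_
  · rw [hΔ]
    exact mul_ne_zero hX (pow_ne_zero 2 hY)
  · rw [hΔ]
    exact hPX.mul (hPY.pow 2) hX (pow_ne_zero 2 hY)

/-- **Signature `(p, p, 3)`**, effective -/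
theorem effective_pp3 (hf : ∀ f : CuspForm (Gamma0 N) 2, f.IsNormalizedEigenform → ∃ q : ℕ,
      q.Prime ∧ ¬ q ∣ N ∧ (2 * (q + 1)) ^ g ≤ p ∧ ∀ a : ℤ, (3 : ℤ) ∣ q + 1 - a →
        qCoeff f q ≠ (a : ℂ))
    {A B x y z : ℤ} (hA : Supp N A) (hB : Supp N B) (h0 : A * B * x * y ≠ 0)
    (hcop : IsCoprime (A * x) (B * y)) (h3 : ¬ (3 : ℤ) ∣ A * x) :
    A * x ^ p + 27 * (B * y ^ p) ≠ z ^ 3 := by
  intro h
  have hy : y ≠ 0 := right_ne_zero_of_mul h0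
  have hx : x ≠ 0 := right_ne_zero_of_mul (left_ne_zero_of_mul h0)
  have hB0 : B ≠ 0 := right_ne_zero_of_mul (left_ne_zero_of_mul (left_ne_zero_of_mul h0))
  have hA0 : A ≠ 0 := left_ne_zero_of_mul (left_ne_zero_of_mul (left_ne_zero_of_mul h0))
  have hX : A * x ^ p ≠ 0 := mul_ne_zero hA0 (pow_ne_zero _ hx)
  have hY : B * y ^ p ≠ 0 := mul_ne_zero hB0 (pow_ne_zero _ hy)
  have hPX : Pw p N (A * x ^ p) := (pw_of_supp hA).mul (pw_pow p _ x) hA0 (pow_ne_zero _ hx)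
  have hPY : Pw p N (B * y ^ p) := (pw_of_supp hB).mul (pw_pow p _ y) hB0 (pow_ne_zero _ hy)
  have h3' : ¬ (3 : ℤ) ∣ A * x ^ p := by
    intro hd
    rcases Int.prime_three.dvd_or_dvd hd with hd | hd
    · exact h3 (Dvd.dvd.mul_right hd _)
    · exact h3 (Dvd.dvd.mul_left (Int.prime_three.dvd_of_dvd_pow hd) _)
  obtain ⟨hΔ, hss⟩ := curve_pp3_form h.symm h3' (cop_pow hcop p)
  refine effective_set hg hp hp11 hp13 (fun q => {a : ℤ | (3 : ℤ) ∣ q + 1 - a}) hf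
    (W := ⟨z, 0, B * y ^ p, 0, 0⟩) ?_ hss (fun q hq _ hqΔ => three_dvd_ap hq hqΔ) ?_
  · rw [hΔ]
    exact mul_ne_zero hX (pow_ne_zero 3 hY)
  · rw [hΔ]
    exact hPX.mul (hPY.pow 3) hX (pow_ne_zero 3 hY)

end

/-- the curve `E5` of a solution -/
theorem E5_of_solution {p N : ℕ} {A B C x y z : ℤ} (hA : Supp N A) (hB : Supp N B)
    (hC : Supp N C) (h0 : A * B * x * y ≠ 0) (h0' : C * z ≠ 0)
    (hcop : IsCoprime (A * x) (B * y)) (h5 : ¬ (5 : ℤ) ∣ C * z)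
    (h : (A * x ^ p) ^ 2 - 11 * (A * x ^ p) * (B * y ^ p) - (B * y ^ p) ^ 2 = C * z ^ p) :
    (E5 (A * x ^ p) (B * y ^ p)).Δ ≠ 0 ∧ (E5 (A * x ^ p) (B * y ^ p)).IsSemistableModel ∧
      Pw p N (E5 (A * x ^ p) (B * y ^ p)).Δ := by
  have hy : y ≠ 0 := right_ne_zero_of_mul h0
  have hx : x ≠ 0 := right_ne_zero_of_mul (left_ne_zero_of_mul h0)
  have hB0 : B ≠ 0 := right_ne_zero_of_mul (left_ne_zero_of_mul (left_ne_zero_of_mul h0))
  have hA0 : A ≠ 0 := left_ne_zero_of_mul (left_ne_zero_of_mul (left_ne_zero_of_mul h0))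
  have hC0 : C ≠ 0 := left_ne_zero_of_mul h0'
  have hz : z ≠ 0 := right_ne_zero_of_mul h0'
  have hX : A * x ^ p ≠ 0 := mul_ne_zero hA0 (pow_ne_zero _ hx)
  have hY : B * y ^ p ≠ 0 := mul_ne_zero hB0 (pow_ne_zero _ hy)
  have hZ : C * z ^ p ≠ 0 := mul_ne_zero hC0 (pow_ne_zero _ hz)
  have hPX : Pw p N (A * x ^ p) := (pw_of_supp hA).mul (pw_pow p _ x) hA0 (pow_ne_zero _ hx)
  have hPY : Pw p N (B * y ^ p) := (pw_of_supp hB).mul (pw_pow p _ y) hB0 (pow_ne_zero _ hy)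
  have hPZ : Pw p N (C * z ^ p) := (pw_of_supp hC).mul (pw_pow p _ z) hC0 (pow_ne_zero _ hz)
  have h5' : ¬ (5 : ℤ) ∣ (A * x ^ p) ^ 2 - 11 * (A * x ^ p) * (B * y ^ p) - (B * y ^ p) ^ 2 := by
    rw [h]
    have h5p : Prime (5 : ℤ) := by norm_num
    intro hd
    rcases h5p.dvd_or_dvd hd with hd | hd
    · exact h5 (Dvd.dvd.mul_right hd _)
    · exact h5 (Dvd.dvd.mul_left (h5p.dvd_of_dvd_pow hd) _)
  have hΔ : (E5 (A * x ^ p) (B * y ^ p)).Δ = (A * x ^ p) ^ 5 * (B * y ^ p) ^ 5 * (C * z ^ p) := by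
    rw [E5_Δ, h]
  refine ⟨?_, E5_semistable (cop_pow hcop p) h5', ?_⟩
  · rw [hΔ]
    exact mul_ne_zero (mul_ne_zero (pow_ne_zero 5 hX) (pow_ne_zero 5 hY)) hZ
  · rw [hΔ]
    exact ((hPX.pow 5).mul (hPY.pow 5) (pow_ne_zero 5 hX) (pow_ne_zero 5 hY)).mul hPZ
      (mul_ne_zero (pow_ne_zero 5 hX) (pow_ne_zero 5 hY)) hZ

/-- **The family with a rational point of order `5`**, effective -/
theorem effective_five {N : ℕ} [NeZero N] {g : ℕ} (hg : genusFormula N ≤ g) {p : ℕ} (hp : p.Prime)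
    (hp11 : 11 ≤ p) (hp13 : p ≠ 13)
    (hf : ∀ f : CuspForm (Gamma0 N) 2, f.IsNormalizedEigenform → ∃ q : ℕ,
      q.Prime ∧ ¬ q ∣ N ∧ (2 * (q + 1)) ^ g ≤ p ∧ ∀ a : ℤ, (5 : ℤ) ∣ q + 1 - a →
        qCoeff f q ≠ (a : ℂ))
    {A B C x y z : ℤ} (hA : Supp N A) (hB : Supp N B) (hC : Supp N C) (h0 : A * B * x * y ≠ 0)
    (h0' : C * z ≠ 0) (hcop : IsCoprime (A * x) (B * y)) (h5 : ¬ (5 : ℤ) ∣ C * z) :
    (A * x ^ p) ^ 2 - 11 * (A * x ^ p) * (B * y ^ p) - (B * y ^ p) ^ 2 ≠ C * z ^ p := by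
  intro h
  obtain ⟨hΔ, hss, hP⟩ := E5_of_solution hA hB hC h0 h0' hcop h5 h
  exact effective_set hg hp hp11 hp13 (fun q => {a : ℤ | (5 : ℤ) ∣ q + 1 - a}) hf hΔ hss
    (fun q hq _ hqΔ => five_dvd_ap hq hqΔ) hP

/-- **The family with a rational point of order `5`**, asymptotic -/
theorem asymptotic_five {N : ℕ} (hN : N ≠ 0)
    (hf : ∀ f : CuspForm (Gamma0 N) 2, f.IsNormalizedEigenform → ∃ q : ℕ, q.Prime ∧ ¬ q ∣ N ∧
      ∀ a : ℤ, (5 : ℤ) ∣ q + 1 - a → qCoeff f q ≠ (a : ℂ)) : ∃ C₀ : ℕ, ∀ p : ℕ, p.Prime →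
    C₀ < p → ∀ A B C x y z : ℤ, Supp N A → Supp N B → Supp N C → A * B * x * y ≠ 0 →
      C * z ≠ 0 → IsCoprime (A * x) (B * y) → ¬ (5 : ℤ) ∣ C * z →
      (A * x ^ p) ^ 2 - 11 * (A * x ^ p) * (B * y ^ p) - (B * y ^ p) ^ 2 ≠ C * z ^ p := by
  obtain ⟨C₀, hC₀⟩ := asymptotic_set hN (fun q => {a : ℤ | (5 : ℤ) ∣ q + 1 - a}) hf
  refine ⟨C₀, fun p hp hlt A B C x y z hA hB hC h0 h0' hcop h5 h => ?_⟩
  obtain ⟨hΔ, hss, hP⟩ := E5_of_solution hA hB hC h0 h0' hcop h5 h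
  exact hC₀ p hp hlt _ hΔ hss (fun q hq _ hqΔ => five_dvd_ap hq hqΔ) hP

end Fermat.Agent.Cor.H22G
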