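import Mathlib
import Fermat.Agent.H11N.Unr
import Fermat.Agent.LM.ERep

/-!
# Congruences at the bad primes

Let `W` be an elliptic curve over `ℚ` with `W[p]` irreducible, `p` odd, and `f` a normalised eigenform of level
`N` whose Hecke eigenvalues are congruent to those of `W` modulo `𝔪 ∣ p` at the good primes. Then for every
prime `q ∤ N p` the eigenvalue `a_q(f)` is congruent to the trace of Frobenius at `q` on `W[p]`; in particular
`a_q(f) ≡ ± (q + 1)` if `W` has multiplicative reduction at `q`.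

The files in `Fermat/Agent/Cor` are not used by any of the statement files.
-/

set_option autoImplicit false
set_option linter.style.haveILetI false
set_option linter.unusedSectionVars false
set_option maxSynthPendingDepth 3

noncomputable section

namespace Fermat.Agent.Cor.H22

open ModularCurve AlgebraicCurve CongruenceSubgroup
open Fermat.Agent Fermat.Agent.H11N Fermat.Agent.Ell Fermat.Agent.H12.LL Fermat.Agent.H25
open ModularFormClass (qCoeff)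

local notation "Qb" => AlgebraicClosure ℚ
local notation "Γq" => AlgebraicClosure ℚ ≃ₐ[ℚ] AlgebraicClosure ℚ

section Eig

variable {N : ℕ} [NeZero N]

/-- **A mod `p` eigenform occurs in `J₀(N)[p]`**, with its whole eigensystem. -/
theorem exists_eigvec {p : ℕ} (hp : p.Prime) {D : ℕ} (hND : N ∣ D) (a : ℕ → ℤ)
    {f : CuspForm (Gamma0 N) 2} (hf : f.IsNormalizedEigenform)
    {𝔪 : Ideal (integralClosure ℤ ℂ)} (h𝔪 : 𝔪.IsMaximal)
    (hp𝔪 : (p : integralClosure ℤ ℂ) ∈ 𝔪)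
    (ha : ∀ ℓ : ℕ, ℓ.Prime → ¬ ℓ ∣ D → ∃ b : integralClosure ℤ ℂ, (b : ℂ) = qCoeff f ℓ ∧
      b - (a ℓ : integralClosure ℤ ℂ) ∈ 𝔪) :
    ∃ x ∈ EigSub N p D a, x ≠ 0 ∧ ∀ q : Nat.Primes, ¬ (q : ℕ) ∣ N → ∀ c : ℤ,
      heckeOperatorBar N q x = c • x →
      ∃ b : integralClosure ℤ ℂ, (b : ℂ) = qCoeff f q ∧ b - (c : integralClosure ℤ ℂ) ∈ 𝔪 := by
  letI : Algebra Qb ℂ := (IsAlgClosed.lift : Qb →ₐ[ℚ] ℂ).toRingHom.toAlgebra
  letI : Field (integralClosure ℤ ℂ ⧸ 𝔪) := Ideal.Quotient.field 𝔪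
  haveI : CharP (integralClosure ℤ ℂ ⧸ 𝔪) p := by
    haveI := Fact.mk hp
    refine (CharP.charP_iff_prime_eq_zero hp).2 ?_
    rw [← map_natCast (Ideal.Quotient.mk 𝔪), Ideal.Quotient.eq_zero_iff_mem]
    exact hp𝔪
  let χ : CuspForm.heckeAlgebra N 2 ∅ →+* (integralClosure ℤ ℂ ⧸ 𝔪) :=
    (Ideal.Quotient.mk 𝔪).comp (H23.eigenChar hf ∅)
  haveI hmax := isMaximal_comap hp χ
  have hpm : p ≠ 0 := hp.ne_zero
  haveI : NeZero p := ⟨hpm⟩
  let ζ : ℂˣ := (Complex.isPrimitiveRoot_exp p hpm).isUnit hpm |>.unit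
  have hζ : IsPrimitiveRoot ζ p := by
    have := Complex.isPrimitiveRoot_exp p hpm
    exact IsPrimitiveRoot.coe_units_iff.mp this
  obtain ⟨w, hw, hw'⟩ := exists_torsion_of_isMaximal (N := N) hp (H26.torAct N p)
    (H26.zetaHom ζ) (fun k => by
      rw [← hζ.zpow_eq_one_iff_dvd k]
      exact Iff.rfl) (H26.kappa N p) H26.kappa_injective
    (fun ℓ w => by rw [H26.torAct_heckeGen, H26.kappa_heckeTor])
    (fun ψ hψ => H26.exists_kappa_eq (H26.surjC N hpm) hζ hψ)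
    (RingHom.ker (χ.comp (CuspForm.heckeEvalForms N 2)))
    (by
      rw [RingHom.mem_ker, map_natCast, CharP.cast_eq_zero])
    (fun t ht => by
      rw [RingHom.mem_ker] at ht ⊢
      rw [RingHom.comp_apply, ht, map_zero])
  have hval : ∀ (l : Nat.Primes) (hlN : ¬ (l : ℕ) ∣ N),
      (χ.comp (CuspForm.heckeEvalForms N 2)) (heckeGen l) = Ideal.Quotient.mk 𝔪
        (H23.eigenChar hf ∅ (CuspForm.heckeAlgebra.T l.2 hlN (Set.notMem_empty _))) := by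
    intro l hlN
    rw [RingHom.comp_apply, CuspForm.heckeEvalForms_heckeGen_of_not_dvd hlN]
    rfl
  have hop : ∀ (l : Nat.Primes) (c : ℤ),
      ((H26.torAct N p (heckeGen l - ((c : ℤ) : HeckeAlg)) w : H26.Tor N p) : JZero N) =
        heckeOperatorBar N l (w : JZero N) - c • (w : JZero N) := by
    intro l c
    have h6 := coe_torAct_eq (N := N) (m := p) (heckeGen l - ((c : ℤ) : HeckeAlg)) w
    rw [h6, map_sub, map_intCast, LinearMap.sub_apply, heckeJ_gen]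
    rfl
  refine ⟨w, ⟨H26.tor_nsmul w, fun l hl => ?_⟩, fun h => hw (Subtype.ext h), ?_⟩
  · have hlN : ¬ (l : ℕ) ∣ N := fun h => hl (h.trans hND)
    have h1 : heckeGen l - ((a l : ℤ) : HeckeAlg) ∈
        RingHom.ker (χ.comp (CuspForm.heckeEvalForms N 2)) := by
      obtain ⟨b, hb, hb'⟩ := ha l l.2 hl
      have h2 : H23.eigenChar hf ∅ (CuspForm.heckeAlgebra.T l.2 hlN (Set.notMem_empty _)) = b := by
        apply Subtype.ext
        rw [H23.coe_eigenChar_T, hb]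
      rw [RingHom.mem_ker, map_sub, map_intCast, hval l hlN, h2, ← map_intCast (Ideal.Quotient.mk 𝔪), ← map_sub,
        Ideal.Quotient.eq_zero_iff_mem]
      exact hb'
    have h4 := congrArg (fun z : H26.Tor N p => (z : JZero N)) (hw' _ h1)
    have h5 := hop l (a l)
    change ((H26.torAct N p (heckeGen l - ((a l : ℤ) : HeckeAlg)) w :
      H26.Tor N p) : JZero N) = 0 at h4
    rw [h5, sub_eq_zero] at h4
    exact h4
  · intro q hqN c hc
    refine ⟨H23.eigenChar hf ∅ (CuspForm.heckeAlgebra.T q.2 hqN (Set.notMem_empty _)),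
      H23.coe_eigenChar_T hf q.2 hqN _, ?_⟩
    rw [← Ideal.Quotient.eq_zero_iff_mem, map_sub, ← hval q hqN, map_intCast,
      ← map_intCast (χ.comp (CuspForm.heckeEvalForms N 2)), ← map_sub, ← RingHom.mem_ker]
    by_contra hcon
    have h1 : (heckeGen q - ((c : ℤ) : HeckeAlg)) ∉
      RingHom.ker (χ.comp (CuspForm.heckeEvalForms N 2)) := hcon
    obtain ⟨s, i, hi, hs⟩ := hmax.exists_inv h1
    have h2 : H26.torAct N p (heckeGen q - ((c : ℤ) : HeckeAlg)) w = 0 := by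
      apply Subtype.ext
      rw [hop q c, hc, sub_self]
      rfl
    apply hw
    have h3 := congrArg (fun t => H26.torAct N p t w) hs
    simp only [map_add, map_mul, map_one, Module.End.one_apply, Module.End.mul_apply,
      LinearMap.add_apply, h2, hw' i hi, map_zero, add_zero] at h3
    exact h3.symm

/-- the quadratic relation on the eigenspace -/
theorem rel_apply {m D : ℕ} {a : ℕ → ℤ} {y : JZero N} (hy : y ∈ EigSub N m D a) {q : ℕ} {φ : Γq}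
    {c : ℤ} {t d : ZMod m} (ht : t = (c : ZMod m)) (hd : d = ((q : ℤ) : ZMod m))
    (hrel : galEig N m D a φ * galEig N m D a φ - t • galEig N m D a φ +
      d • (1 : Module.End (ZMod m) (EigSub N m D a)) = 0) :
    φ • φ • y - c • (φ • y) + (q : ℤ) • y = 0 := by
  subst ht hd
  have h0 := congrArg (fun e : Module.End (ZMod m) (EigSub N m D a) =>
    ((e ⟨y, hy⟩ : EigSub N m D a) : JZero N)) hrel
  change φ • φ • y - (((c : ZMod m) • galEig N m D a φ ⟨y, hy⟩ : EigSub N m D a) : JZero N) +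
    ((((q : ℤ) : ZMod m) • (⟨y, hy⟩ : EigSub N m D a) : EigSub N m D a) : JZero N) = 0 at h0
  rw [coe_zmod_smul, coe_zmod_smul, coe_galEig] at h0
  exact h0

end Eig

section Curve

variable {W : WeierstrassCurve ℤ} {p : ℕ} [hp : Fact p.Prime] {N : ℕ} [NeZero N]

/-- on the eigenspace `T_q` is multiplication by the trace of Frobenius -/
theorem hecke_eq_of_mrep {D : ℕ} {a : ℕ → ℤ} (P : MRep p D a) (hD : D ≠ 0) (hND : N ∣ D)
    (hpD : p ∣ D) {x : JZero N} (hx : x ∈ EigSub N p D a) {q : ℕ} (hq : q.Prime) (hqN : ¬ q ∣ N)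
    (hqp : q ≠ p) {A : ValuationSubring Qb} (hA : A.LiesOverPrime q) {φ : Γq}
    (hφ : A.IsFrobeniusAt φ q) {c : ℤ} (htr : (P.ρ φ).trace = (c : ZMod p))
    (hdet : (P.ρ φ).det = (q : ZMod p)) : heckeOperatorBar N ⟨q, hq⟩ x = c • x := by
  have hy : φ⁻¹ • x ∈ EigSub N p D a := smul_mem_EigSub _ hx
  have h1 := rel_apply hy htr (hdet.trans (by push_cast; rfl))
    (P.rel (N := N) hp.out.ne_zero hD hND hpD φ)
  have hlm : ¬ q ∣ p := fun h => hqp ((Nat.prime_dvd_prime_iff_eq hq hp.out).1 h)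
  have h2 := H28.frobenius_torsion N hq hqN A hA hlm hφ (φ⁻¹ • x) hy.1
  rw [smul_inv_smul] at h1 h2
  rw [natCast_zsmul] at h1
  exact (sub_right_inj.mp (add_right_cancel (h1.trans h2.symm))).symm

/-- **The eigenvalue at every prime `q ∤ N p` is the trace of Frobenius on `W[p]`.** -/
theorem congr_trace (hΔ : W.Δ ≠ 0) (hirr : W.ModRepIsIrreducible p) (hp2 : p ≠ 2)
    {f : CuspForm (Gamma0 N) 2} (hf : f.IsNormalizedEigenform)
    {𝔪 : Ideal (integralClosure ℤ ℂ)} (h𝔪 : 𝔪.IsMaximal) (hp𝔪 : (p : integralClosure ℤ ℂ) ∈ 𝔪)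
    (hcong : ∀ ℓ : ℕ, ℓ.Prime → W.IsGoodPrimeFor ℓ → ¬ ℓ ∣ N → ℓ ≠ p →
      ∃ b : integralClosure ℤ ℂ, (b : ℂ) = qCoeff f ℓ ∧
        b - (W.apOfModel ℓ : integralClosure ℤ ℂ) ∈ 𝔪)
    {q : ℕ} (hq : q.Prime) (hqN : ¬ q ∣ N) (hqp : q ≠ p) {A : ValuationSubring Qb}
    (hA : A.LiesOverPrime q) {φ : Γq} (hφ : A.IsFrobeniusAt φ q) {c : ℤ}
    (hc : (MR (tB (p := p) hΔ) (PadicInt.toZMod (p := p)) φ).trace = (c : ZMod p)) :
    ∃ b : integralClosure ℤ ℂ, (b : ℂ) = qCoeff f q ∧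
      b - (c : integralClosure ℤ ℂ) ∈ 𝔪 := by
  haveI := isElliptic_WQ hΔ
  have hN : N ≠ 0 := NeZero.ne N
  have hD : N * p * W.Δ.natAbs ≠ 0 :=
    mul_ne_zero (mul_ne_zero hN hp.out.ne_zero) (Int.natAbs_ne_zero.2 hΔ)
  have hND : N ∣ N * p * W.Δ.natAbs := Dvd.intro _ (mul_assoc _ _ _).symm
  have hpD : p ∣ N * p * W.Δ.natAbs := ⟨N * W.Δ.natAbs, by ring⟩
  have hΔD : W.Δ.natAbs ∣ N * p * W.Δ.natAbs := dvd_mul_left _ _
  obtain ⟨x, hx, hx0, hx'⟩ := exists_eigvec hp.out hND W.apOfModel hf h𝔪 hp𝔪 fun ℓ hℓ hℓD =>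
    hcong ℓ hℓ (fun h => hℓD ((Int.natCast_dvd.1 h).trans hΔD)) (fun h => hℓD (h.trans hND))
      (fun h => hℓD (h ▸ hpD))
  refine hx' ⟨q, hq⟩ hqN c ?_
  exact hecke_eq_of_mrep (mrepCurve hΔ hirr hp2 hpD hΔD) hD hND hpD hx hq hqN hqp hA hφ
    (by rw [mrepCurve_ρ]; exact hc)
    (by rw [mrepCurve_ρ]; exact det_MR_frob hΔ hirr hq hqp hA hφ)

/-- **Congruences at the multiplicative primes**: `a_q(f) ≡ ± (q + 1)`. -/
theorem congr_at_mult (hΔ : W.Δ ≠ 0) (hirr : W.ModRepIsIrreducible p) (hp2 : p ≠ 2)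
    {f : CuspForm (Gamma0 N) 2} (hf : f.IsNormalizedEigenform)
    {𝔪 : Ideal (integralClosure ℤ ℂ)} (h𝔪 : 𝔪.IsMaximal) (hp𝔪 : (p : integralClosure ℤ ℂ) ∈ 𝔪)
    (hcong : ∀ ℓ : ℕ, ℓ.Prime → W.IsGoodPrimeFor ℓ → ¬ ℓ ∣ N → ℓ ≠ p →
      ∃ b : integralClosure ℤ ℂ, (b : ℂ) = qCoeff f ℓ ∧
        b - (W.apOfModel ℓ : integralClosure ℤ ℂ) ∈ 𝔪)
    {q : ℕ} (hq : q.Prime) (hqN : ¬ q ∣ N) (hqp : q ≠ p) (hqΔ : (q : ℤ) ∣ W.Δ)
    (hc₄ : ¬ (q : ℤ) ∣ W.c₄) :
    ∃ b : integralClosure ℤ ℂ, (b : ℂ) = qCoeff f q ∧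
      (b - ((q : integralClosure ℤ ℂ) + 1) ∈ 𝔪 ∨ b + ((q : integralClosure ℤ ℂ) + 1) ∈ 𝔪) := by
  haveI := isElliptic_WQ hΔ
  obtain ⟨A, hA⟩ := H05.exists_liesOverPrime Qb hq
  obtain ⟨φ, hφ⟩ := Fermat.Agent.H05.exists_isFrobeniusAt hq hA
  have hns := exists_nonscalar_of_irr hΔ hirr
  have htr : (MR (tB (p := p) hΔ) (PadicInt.toZMod (p := p)) φ).trace =
      PadicInt.toZMod (LinearMap.trace ℤ_[p] (zRep W hΔ p).V ((zRep W hΔ p).ρ φ)) :=
    trace_MR _ _ _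
  rcases LM.zRep_mult_of_ns hΔ hns hq hqp hqΔ hc₄ hA hφ with h | h
  · rw [h] at htr
    obtain ⟨b, hb, hb'⟩ := congr_trace hΔ hirr hp2 hf h𝔪 hp𝔪 hcong hq hqN hqp hA hφ
      (c := (q : ℤ) + 1) (by rw [htr]; push_cast; simp)
    exact ⟨b, hb, Or.inl (by push_cast at hb'; exact hb')⟩
  · rw [h] at htr
    obtain ⟨b, hb, hb'⟩ := congr_trace hΔ hirr hp2 hf h𝔪 hp𝔪 hcong hq hqN hqp hA hφ
      (c := -((q : ℤ) + 1)) (by rw [htr]; push_cast; simp)
    refine ⟨b, hb, Or.inr ?_⟩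
    push_cast at hb'
    have e : b + ((q : integralClosure ℤ ℂ) + 1) = b - -((q : integralClosure ℤ ℂ) + 1) := by ring
    rw [e]
    convert hb' using 2

end Curve

end Fermat.Agent.Cor.H22
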