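import Fermat.Agent.Cor.H25Z5

/-!
# Dedekind zeta functions VI : analytic continuation and class number formula for subfields of cyclotomic fields
-/

set_option autoImplicit false
set_option linter.style.haveILetI false
set_option linter.unusedSectionVars false

noncomputable section

namespace Fermat.Agent.Cor.H25Z

open NumberField Ideal DirichletCharacter IsCyclotomicExtension.Rat Filter Topology

section Congr

variable {K K' : Type*} [Field K] [NumberField K] [Field K'] [NumberField K']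

theorem absNorm_comap (e : 𝓞 K ≃+* 𝓞 K') (I : Ideal (𝓞 K')) :
    absNorm (I.comap (e : 𝓞 K →+* 𝓞 K')) = absNorm I := by
  rw [absNorm_apply, absNorm_apply, Submodule.cardQuot_apply, Submodule.cardQuot_apply]
  refine Nat.card_congr (Ideal.quotientEquiv _ _ e ?_).toEquiv
  exact (Ideal.map_comap_of_surjective (e : 𝓞 K →+* 𝓞 K') e.surjective I).symm

theorem aK_congr (e : K ≃+* K') (n : ℕ) : aK K n = aK K' n := by
  let e' := RingOfIntegers.mapRingEquiv e
  refine Nat.card_congr ((e'.symm.idealComapOrderIso.toEquiv).subtypeEquiv fun I => ?_)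
  have h1 : absNorm (I.comap (e'.symm : 𝓞 K' →+* 𝓞 K)) = absNorm I := absNorm_comap e'.symm I
  have h2 : e'.symm.idealComapOrderIso.toEquiv I = I.comap (e'.symm : 𝓞 K' →+* 𝓞 K) := rfl
  rw [h2, h1]

theorem dedekindZeta_congr (e : K ≃+* K') (s : ℂ) : dedekindZeta K s = dedekindZeta K' s := by
  rw [dedekindZeta_eq, dedekindZeta_eq]
  simp_rw [aK_congr e]

end Congr

section Lprim

variable {n : ℕ} [NeZero n]

/-- the `L`-function of the primitive character attached to `χ` -/
def Lprim (χ : DirichletCharacter ℂ n) (s : ℂ) : ℂ :=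
  haveI : NeZero χ.conductor := ⟨conductor_ne_zero χ⟩
  LFunction χ.primitiveCharacter s

theorem Lprim_eq_LSeries (χ : DirichletCharacter ℂ n) {s : ℂ} (hs : 1 < s.re) :
    Lprim χ s = LSeries (χ.primitiveCharacter ·) s :=
  haveI : NeZero χ.conductor := ⟨conductor_ne_zero χ⟩
  LFunction_eq_LSeries χ.primitiveCharacter hs

theorem primitiveCharacter_ne_one {χ : DirichletCharacter ℂ n} (hχ : χ ≠ 1) :
    χ.primitiveCharacter ≠ 1 := by
  intro h
  apply hχ
  rw [← changeLevel_primitiveCharacter χ, h, map_one]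

theorem Lprim_differentiable {χ : DirichletCharacter ℂ n} (hχ : χ ≠ 1) :
    Differentiable ℂ (Lprim χ) :=
  haveI : NeZero χ.conductor := ⟨conductor_ne_zero χ⟩
  differentiable_LFunction (primitiveCharacter_ne_one hχ)

theorem Lprim_differentiableAt (χ : DirichletCharacter ℂ n) {s : ℂ} (hs : s ≠ 1) :
    DifferentiableAt ℂ (Lprim χ) s :=
  haveI : NeZero χ.conductor := ⟨conductor_ne_zero χ⟩
  differentiableAt_LFunction _ s (Or.inl hs)

theorem Lprim_ne_zero (χ : DirichletCharacter ℂ n) {s : ℂ} (h : χ ≠ 1 ∨ s ≠ 1) (hs : 1 ≤ s.re) :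
    Lprim χ s ≠ 0 :=
  haveI : NeZero χ.conductor := ⟨conductor_ne_zero χ⟩
  LFunction_ne_zero_of_one_le_re χ.primitiveCharacter
    (h.imp primitiveCharacter_ne_one id) hs

theorem Lprim_one_residue :
    Tendsto (fun s => (s - 1) * Lprim (1 : DirichletCharacter ℂ n) s) (𝓝[≠] 1) (𝓝 1) := by
  haveI : NeZero (conductor (1 : DirichletCharacter ℂ n)) := ⟨conductor_ne_zero _⟩
  have h1 := LFunctionTrivChar_residue_one (N := conductor (1 : DirichletCharacter ℂ n))
  have h2 : (conductor (1 : DirichletCharacter ℂ n)).primeFactors = ∅ := by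
    rw [conductor_one]
    exact Nat.primeFactors_one
  rw [h2, Finset.prod_empty] at h1
  refine h1.congr fun s => ?_
  rw [Lprim, primitiveCharacter_one, LFunctionTrivChar]

end Lprim

variable {n : ℕ} [NeZero n] {L : Type*} [Field L] [NumberField L]
  [IsCyclotomicExtension {n} ℚ L] [IsAbelianGalois ℚ L] (F : IntermediateField ℚ L)

/-- the product of the `L`-functions of the characters in `X` -/
def zetaX (X : Subgroup (DirichletCharacter ℂ n)) (s : ℂ) : ℂ := ∏ᶠ χ : X, Lprim χ.1 s

/-- the product of the `L`-functions of the non trivial characters in `X` -/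
def zetaX' (X : Subgroup (DirichletCharacter ℂ n)) (s : ℂ) : ℂ :=
  ∏ᶠ (χ : X) (_ : χ ≠ 1), Lprim χ.1 s

open Classical in
theorem zetaX'_eq (X : Subgroup (DirichletCharacter ℂ n)) [Fintype X] (s : ℂ) :
    zetaX' X s = ∏ χ ∈ Finset.univ.filter (fun χ : X => χ ≠ 1), Lprim χ.1 s := by
  rw [zetaX', finprod_eq_prod_of_fintype]
  rw [Finset.prod_filter]
  refine Finset.prod_congr rfl fun χ _ => ?_
  split_ifs with h
  · exact finprod_true (fun _ => Lprim χ.1 s) |>.symm ▸ (by simp [h])
  · simp [h]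

theorem zetaX_eq (X : Subgroup (DirichletCharacter ℂ n)) (s : ℂ) :
    zetaX X s = Lprim (1 : DirichletCharacter ℂ n) s * zetaX' X s := by
  classical
  letI : Fintype X := Fintype.ofFinite X
  rw [zetaX, finprod_eq_prod_of_fintype, zetaX'_eq]
  rw [← Finset.mul_prod_erase Finset.univ (fun χ : X => Lprim χ.1 s) (Finset.mem_univ 1)]
  congr 1
  refine Finset.prod_congr ?_ fun _ _ => rfl
  ext χ
  simp

theorem dedekindZeta_eq_zetaX {s : ℂ} (hs : 1 < s.re) :
    dedekindZeta F s = zetaX (intermediateFieldEquivSubgroupChar n L ℂ F) s := by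
  letI : Fintype (intermediateFieldEquivSubgroupChar n L ℂ F) := Fintype.ofFinite _
  rw [dedekindZeta_eq_prod (n := n) F hs, zetaX, finprod_eq_prod_of_fintype]
  exact Finset.prod_congr rfl fun χ _ => (Lprim_eq_LSeries χ.1 hs).symm

theorem zetaX'_differentiable (X : Subgroup (DirichletCharacter ℂ n)) :
    Differentiable ℂ (zetaX' X) := by
  classical
  letI : Fintype X := Fintype.ofFinite X
  have h1 : zetaX' X = fun s => ∏ χ ∈ Finset.univ.filter (fun χ : X => χ ≠ 1), Lprim χ.1 s := by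
    ext s
    exact zetaX'_eq X s
  rw [h1]
  refine Differentiable.fun_finsetProd fun χ hχ => Lprim_differentiable ?_
  intro h
  exact (Finset.mem_filter.mp hχ).2 (Subtype.ext h)

theorem zetaX_differentiableAt (X : Subgroup (DirichletCharacter ℂ n)) {s : ℂ} (hs : s ≠ 1) :
    DifferentiableAt ℂ (zetaX X) s := by
  have h1 : zetaX X = fun s => Lprim (1 : DirichletCharacter ℂ n) s * zetaX' X s := by
    ext s
    exact zetaX_eq X s
  rw [h1]
  exact (Lprim_differentiableAt _ hs).mul (zetaX'_differentiable X s)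

theorem zetaX_residue (X : Subgroup (DirichletCharacter ℂ n)) :
    Tendsto (fun s => (s - 1) * zetaX X s) (𝓝[≠] 1) (𝓝 (zetaX' X 1)) := by
  have h1 : Tendsto (zetaX' X) (𝓝[≠] 1) (𝓝 (zetaX' X 1)) :=
    ((zetaX'_differentiable X).continuous.tendsto 1).mono_left nhdsWithin_le_nhds
  have h2 := Lprim_one_residue (n := n) |>.mul h1
  rw [one_mul] at h2
  refine h2.congr fun s => ?_
  rw [zetaX_eq, mul_assoc]

theorem zetaX'_ne_zero (X : Subgroup (DirichletCharacter ℂ n)) {s : ℂ} (hs : 1 ≤ s.re) :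
    zetaX' X s ≠ 0 := by
  classical
  letI : Fintype X := Fintype.ofFinite X
  rw [zetaX'_eq, Finset.prod_ne_zero_iff]
  intro χ hχ
  refine Lprim_ne_zero _ (Or.inl fun h => ?_) hs
  exact (Finset.mem_filter.mp hχ).2 (Subtype.ext h)

theorem zetaX_ne_zero (X : Subgroup (DirichletCharacter ℂ n)) {s : ℂ} (hs : 1 ≤ s.re)
    (hs1 : s ≠ 1) : zetaX X s ≠ 0 := by
  rw [zetaX_eq]
  exact mul_ne_zero (Lprim_ne_zero _ (Or.inr hs1) hs) (zetaX'_ne_zero X hs)

/-- if `ζ_K = ∏ L(χ)` for `Re s > 1`, then `∏_{χ ≠ 1} L(1, χ)` is the residue of `ζ_K` -/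
theorem residue_eq {K : Type*} [Field K] [NumberField K] {X : Subgroup (DirichletCharacter ℂ n)}
    (h : ∀ s : ℂ, 1 < s.re → dedekindZeta K s = zetaX X s) :
    zetaX' X 1 = (dedekindZeta_residue K : ℂ) := by
  have h1 := tendsto_sub_one_mul_dedekindZeta_nhdsGT K
  have h2 : Tendsto (fun s : ℝ => (s : ℂ)) (𝓝[>] (1 : ℝ)) (𝓝[≠] (1 : ℂ)) := by
    refine tendsto_nhdsWithin_iff.mpr ⟨?_, ?_⟩
    · exact (Complex.continuous_ofReal.tendsto' 1 1 Complex.ofReal_one).mono_left nhdsWithin_le_nhds
    · filter_upwards [self_mem_nhdsWithin] with s hs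
      simp only [Set.mem_compl_iff, Set.mem_singleton_iff]
      exact_mod_cast (ne_of_gt hs)
  have h3 := (zetaX_residue X).comp h2
  refine tendsto_nhds_unique h3 (h1.congr' ?_)
  filter_upwards [self_mem_nhdsWithin] with s hs
  rw [Function.comp_apply, h s (by simpa using hs)]

end Fermat.Agent.Cor.H25Z
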