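import Fermat.Agent.Cor.KroneckerWeber
import Fermat.Agent.Cor.H25Z6

/-!
# The Dedekind zeta function of an abelian number field

Let `K` be an abelian number field. By the Kronecker–Weber theorem (`Fermat.Agent.Cor.KroneckerWeber`), `K` is a subfield
of a cyclotomic field `ℚ(ζ_n)`; let `X` be the corresponding group of Dirichlet characters modulo `n` (the characters of
`(ℤ/n)ˣ = Gal(ℚ(ζ_n)/ℚ)` that are trivial on `Gal(ℚ(ζ_n)/K)`). For `χ ∈ X` we write `Lprim χ` for the Dirichlet
`L`-function of the primitive character attached to `χ`. We prove: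

* `exists_isCharGroup` : the group `X` exists; it has order `[K : ℚ]` (`IsCharGroup.card`);
* `IsCharGroup.dedekindZeta_eq` : `ζ_K(s) = ∏_{χ ∈ X} L(s, χ)` for `Re s > 1`;
* `IsCharGroup.classNumberFormula` : the analytic class number formula
  `∏_{χ ∈ X, χ ≠ 1} L(1, χ) = 2^r₁ (2π)^r₂ R h / (w √|d|)`;
* `exists_continuation` : `ζ_K` extends to a holomorphic function on `ℂ \ {1}` with a simple pole at `1` of the known
  residue, without zeros on `Re s ≥ 1`.

No statement file imports this file.
-/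

set_option autoImplicit false
set_option linter.style.haveILetI false

noncomputable section

namespace Fermat.Agent.Cor.H25Z

open NumberField DirichletCharacter IsCyclotomicExtension.Rat Filter Topology
open NumberField.InfinitePlace NumberField.Units
open scoped Real

/-- `X` is the group of Dirichlet characters modulo `n` attached to `K`, seen as a subfield of `ℚ(ζ_n)` -/
def IsCharGroup (K : Type*) [Field K] [NumberField K] {n : ℕ} [NeZero n]
    (X : Subgroup (DirichletCharacter ℂ n)) : Prop :=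
  ∃ (L : Type) (_ : Field L) (_ : NumberField L) (_ : IsCyclotomicExtension {n} ℚ L)
    (_ : IsAbelianGalois ℚ L) (F : IntermediateField ℚ L),
    Nonempty (K ≃+* F) ∧ X = intermediateFieldEquivSubgroupChar n L ℂ F

/-- **Kronecker–Weber**, in terms of Dirichlet characters -/
theorem exists_isCharGroup (K : Type*) [Field K] [NumberField K] [IsAbelianGalois ℚ K] :
    ∃ (n : ℕ) (_ : NeZero n) (X : Subgroup (DirichletCharacter ℂ n)), IsCharGroup K X := by
  obtain ⟨n, hn, ⟨f⟩⟩ := KW.kroneckerWeber K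
  haveI hn0 : NeZero n := ⟨hn.ne'⟩
  haveI : NeZero ((n : ℕ) : ℚ) := ⟨Nat.cast_ne_zero.mpr (NeZero.ne n)⟩
  haveI hcyc : @IsCyclotomicExtension {n} ℚ (CyclotomicField n ℚ) _ _
      (DivisionRing.toRatAlgebra) := by
    have h := CyclotomicField.isCyclotomicExtension n ℚ
    have he : (CyclotomicField.algebra n ℚ : Algebra ℚ (CyclotomicField n ℚ)) =
        DivisionRing.toRatAlgebra := Subsingleton.elim _ _
    rwa [he] at h
  haveI : NumberField (CyclotomicField n ℚ) := inferInstance
  haveI : @IsAbelianGalois ℚ (CyclotomicField n ℚ) _ _ (DivisionRing.toRatAlgebra) :=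
    @IsCyclotomicExtension.isAbelianGalois {n} ℚ (CyclotomicField n ℚ) _ _
      DivisionRing.toRatAlgebra hcyc
  let g : @AlgHom ℚ K (CyclotomicField n ℚ) _ _ _ _ DivisionRing.toRatAlgebra :=
    @RingHom.toRatAlgHom K (CyclotomicField n ℚ) _ _ _ DivisionRing.toRatAlgebra f.toRingHom
  let F : @IntermediateField ℚ (CyclotomicField n ℚ) _ _ DivisionRing.toRatAlgebra :=
    @AlgHom.fieldRange ℚ K (CyclotomicField n ℚ) _ _ _ _ DivisionRing.toRatAlgebra g
  exact ⟨n, hn0, _, CyclotomicField n ℚ, inferInstance, inferInstance, hcyc, inferInstance, F,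
    ⟨(AlgEquiv.ofInjectiveField g).toRingEquiv⟩, rfl⟩

section

variable {K : Type*} [Field K] [NumberField K] {n : ℕ} [NeZero n]
  {X : Subgroup (DirichletCharacter ℂ n)}

/-- `X` has order `[K : ℚ]` -/
theorem IsCharGroup.card (h : IsCharGroup K X) : Nat.card X = Module.finrank ℚ K := by
  obtain ⟨L, _, _, _, _, F, ⟨e⟩, rfl⟩ := h
  rw [card_intermediateFieldEquivSubgroupChar]
  let e' : K →ₐ[ℚ] F := (e : K →+* F).toRatAlgHom
  exact (AlgEquiv.ofBijective e' e.bijective).toLinearEquiv.finrank_eq.symm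

/-- **Factorisation of the Dedekind zeta function** of an abelian number field:
`ζ_K(s) = ∏_{χ ∈ X} L(s, χ)` for `Re s > 1`. -/
theorem IsCharGroup.dedekindZeta_eq (h : IsCharGroup K X) {s : ℂ} (hs : 1 < s.re) :
    dedekindZeta K s = ∏ᶠ χ : X, Lprim χ.1 s := by
  obtain ⟨L, _, _, _, _, F, ⟨e⟩, rfl⟩ := h
  rw [dedekindZeta_congr e]
  exact dedekindZeta_eq_zetaX F hs

/-- **The analytic class number formula for abelian number fields**:
`∏_{χ ∈ X, χ ≠ 1} L(1, χ) = 2^r₁ (2π)^r₂ R h / (w √|d|)`. -/
theorem IsCharGroup.classNumberFormula (h : IsCharGroup K X) :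
    ∏ᶠ (χ : X) (_ : χ ≠ 1), Lprim χ.1 1 =
      (((2 ^ nrRealPlaces K * (2 * π) ^ nrComplexPlaces K * regulator K * classNumber K) /
        (torsionOrder K * Real.sqrt |discr K|) : ℝ) : ℂ) :=
  residue_eq fun _ hs => h.dedekindZeta_eq hs

end

/-- **Analytic continuation** of the Dedekind zeta function of an abelian number field `K`: a holomorphic function on
`ℂ \ {1}` with a simple pole at `1`, whose residue is given by the class number formula, and which does not vanish for
`Re s ≥ 1`. -/
theorem exists_continuation (K : Type*) [Field K] [NumberField K] [IsAbelianGalois ℚ K] :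
    ∃ Z : ℂ → ℂ, (∀ s, 1 < s.re → Z s = dedekindZeta K s) ∧
      (∀ s, s ≠ 1 → DifferentiableAt ℂ Z s) ∧
      Tendsto (fun s => (s - 1) * Z s) (𝓝[≠] 1) (𝓝 (dedekindZeta_residue K : ℂ)) ∧
      ∀ s, 1 ≤ s.re → s ≠ 1 → Z s ≠ 0 := by
  obtain ⟨n, _, X, h⟩ := exists_isCharGroup K
  have h1 : zetaX' X 1 = (dedekindZeta_residue K : ℂ) :=
    residue_eq fun _ hs => h.dedekindZeta_eq hs
  refine ⟨zetaX X, fun s hs => (h.dedekindZeta_eq hs).symm, fun s hs => zetaX_differentiableAt X hs,
    ?_, fun s hs hs1 => zetaX_ne_zero X hs hs1⟩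
  rw [← h1]
  exact zetaX_residue X

end Fermat.Agent.Cor.H25Z
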