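import Fermat.Agent.Cor.H25ZetaIso

/-!
# Arithmetically equivalent number fields

Let `K` be a number field (not necessarily Galois) and `L` a Galois number field that contains a copy of `K`.

* `card_eq_fixed` : for all but finitely many primes `p`, the number of ideals of `𝓞 K` of norm `p` is the number of
  embeddings `K → L` that are fixed by a Frobenius element at `p`;
* `ArithEquiv.finrank_eq`, `finrank_eq_of_dedekindZeta_eq` : arithmetically equivalent number fields (in particular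
  number fields with the same Dedekind zeta function) have the same degree;
* `ArithEquiv.iso`, `iso_galois_of_dedekindZeta_eq` : a number field with the same Dedekind zeta function as a Galois
  number field `K` is isomorphic to `K`.

No statement file imports this file.
-/

set_option autoImplicit false
set_option linter.style.haveILetI false
set_option linter.unusedSectionVars false

noncomputable section

namespace Fermat.Agent.Cor.H25Z

open NumberField Ideal
open scoped Pointwise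

section One

variable {K : Type*} [Field K] [NumberField K]

/-- modulo an ideal of norm `p` every element is congruent to an integer -/
theorem exists_int_sub_mem {p : ℕ} (hp : p.Prime) {I : Ideal (𝓞 K)} (hI : absNorm I = p) (x : 𝓞 K) :
    (∃ n : ℤ, x - (n : 𝓞 K) ∈ I) ∧ x - x ^ p ∈ I := by
  haveI : Fact p.Prime := ⟨hp⟩
  have hcard : Nat.card (𝓞 K ⧸ I) = p := by
    rw [← hI, absNorm_apply, Submodule.cardQuot_apply]
  haveI : Finite (𝓞 K ⧸ I) := Nat.finite_of_card_ne_zero (by rw [hcard]; exact hp.ne_zero)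
  letI : Fintype (𝓞 K ⧸ I) := Fintype.ofFinite _
  let e : ZMod p ≃+* (𝓞 K ⧸ I) := ZMod.ringEquivOfPrime _ hp (by
    rw [← Nat.card_eq_fintype_card, hcard])
  constructor
  · obtain ⟨n, hn⟩ := ZMod.intCast_surjective (e.symm (Ideal.Quotient.mk I x))
    refine ⟨n, Ideal.Quotient.eq.mp (e.symm.injective ?_)⟩
    rw [← hn, map_intCast, map_intCast]
  · refine Ideal.Quotient.eq.mp (e.symm.injective ?_)
    rw [map_pow, map_pow, ZMod.pow_card]

variable {L : Type*} [Field L] [NumberField L]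

/-- the map on the rings of integers -/
def oMap (j : K →ₐ[ℚ] L) : 𝓞 K →+* 𝓞 L := RingOfIntegers.mapRingHom (j : K →+* L)

theorem oMap_coe (j : K →ₐ[ℚ] L) (x : 𝓞 K) : algebraMap (𝓞 L) L (oMap j x) = j (x : K) := rfl

theorem ext_of_oMap {j j' : K →ₐ[ℚ] L} (h : ∀ x : 𝓞 K, oMap j x = oMap j' x) : j = j' := by
  refine AlgHom.ext fun y => ?_
  obtain ⟨a, b, hb, rfl⟩ := IsFractionRing.div_surjective (A := 𝓞 K) y
  have h1 : ∀ x : 𝓞 K, j (algebraMap (𝓞 K) K x) = j' (algebraMap (𝓞 K) K x) := fun x =>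
    congrArg (algebraMap (𝓞 L) L) (h x)
  rw [map_div₀, map_div₀, h1, h1]

theorem dvd_absNorm_of_mem {p : ℕ} (hp : p.Prime) {P : Ideal (𝓞 L)} (hP : P.IsPrime)
    (hpP : (p : 𝓞 L) ∈ P) : p ∣ absNorm P := by
  have hP0 : P ≠ ⊥ := by
    rintro rfl
    rw [Ideal.mem_bot] at hpP
    exact hp.ne_zero (by exact_mod_cast hpP)
  haveI : P.IsMaximal := hP.isMaximal hP0
  haveI : Finite (𝓞 L ⧸ P) := Ring.HasFiniteQuotients.finiteQuotient hP0
  obtain ⟨q, k, hk, hq, hqp, hN⟩ := Ideal.exists_prime_and_absNorm_eq_pow P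
  have h8 : q = p := by
    by_contra hne
    have hcop : IsCoprime (q : ℤ) (p : ℤ) :=
      Nat.isCoprime_iff_coprime.mpr ((Nat.coprime_primes hqp hp).mpr hne)
    obtain ⟨a, b, hab⟩ := hcop
    apply hP.ne_top
    rw [Ideal.eq_top_iff_one]
    have h9 : (1 : 𝓞 L) = (a : 𝓞 L) * (q : 𝓞 L) + (b : 𝓞 L) * (p : 𝓞 L) := by
      exact_mod_cast (congrArg (Int.cast : ℤ → 𝓞 L) hab).symm
    rw [h9]
    exact add_mem (Ideal.mul_mem_left _ _ hq) (Ideal.mul_mem_left _ _ hpP)
  rw [hN, h8]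
  exact dvd_pow_self p hk.ne'

variable (K L)

/-- for all but finitely many `p`, different embeddings `K → L` are different modulo the primes above `p` -/
theorem exists_bad_pairs : ∃ D : ℕ, D ≠ 0 ∧ ∀ p : ℕ, p.Prime → ¬ p ∣ D → ∀ P : Ideal (𝓞 L),
    P.IsPrime → (p : 𝓞 L) ∈ P → ∀ j j' : K →ₐ[ℚ] L, (∀ x : 𝓞 K, oMap j x - oMap j' x ∈ P) →
      j = j' := by
  classical
  have h0 : ∀ c : (K →ₐ[ℚ] L) × (K →ₐ[ℚ] L), ∃ x : 𝓞 K, c.1 ≠ c.2 → oMap c.1 x - oMap c.2 x ≠ 0 := by
    intro c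
    by_contra! hcon
    exact (hcon 0).1 (ext_of_oMap fun x => sub_eq_zero.mp (hcon x).2)
  choose x hx using h0
  obtain ⟨f, hf⟩ : ∃ f : (K →ₐ[ℚ] L) × (K →ₐ[ℚ] L) → ℕ, ∀ c, f c =
    absNorm (span {oMap c.1 (x c) - oMap c.2 (x c)}) := ⟨_, fun _ => rfl⟩
  refine ⟨∏ c ∈ (Finset.univ : Finset ((K →ₐ[ℚ] L) × (K →ₐ[ℚ] L))).filter (fun c => c.1 ≠ c.2), f c,
    ?_, ?_⟩
  · rw [Finset.prod_ne_zero_iff]
    intro c hc
    rw [hf, Ne, absNorm_eq_zero_iff, Ideal.span_singleton_eq_bot]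
    exact hx c (Finset.mem_filter.mp hc).2
  · intro p hp hpD P hP hpP j j' h
    by_contra hne
    apply hpD
    have h2 : absNorm P ∣ f (j, j') := by
      rw [hf]
      exact absNorm_dvd_absNorm_of_le ((Ideal.span_singleton_le_iff_mem P).mpr (h _))
    have h3 : (j, j') ∈ (Finset.univ : Finset ((K →ₐ[ℚ] L) × (K →ₐ[ℚ] L))).filter
      (fun c => c.1 ≠ c.2) := Finset.mem_filter.mpr ⟨Finset.mem_univ (j, j'), hne⟩
    exact ((dvd_absNorm_of_mem hp hP hpP).trans h2).trans (Finset.dvd_prod_of_mem f h3)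

end One

section Fixed

variable {K L : Type*} [Field K] [NumberField K] [Field L] [NumberField L] [IsGalois ℚ L]

theorem smul_oMap (g : Gal(L/ℚ)) (j : K →ₐ[ℚ] L) (x : 𝓞 K) :
    g • oMap j x = oMap ((g : L →ₐ[ℚ] L).comp j) x :=
  RingOfIntegers.coe_injective rfl

/-- **The number of ideals of norm `p` is the number of embeddings `K → L` fixed by Frobenius** -/
theorem card_eq_fixed {D : ℕ} (hD : ∀ p : ℕ, p.Prime → ¬ p ∣ D → ∀ P : Ideal (𝓞 L),
      P.IsPrime → (p : 𝓞 L) ∈ P → ∀ j j' : K →ₐ[ℚ] L, (∀ x : 𝓞 K, oMap j x - oMap j' x ∈ P) →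
        j = j')
    (j₀ : K →ₐ[ℚ] L) {p : ℕ} (hp : p.Prime) (hpD : ¬ p ∣ D) {P : Ideal (𝓞 L)} (hP : P.IsPrime)
    (hpP : (p : 𝓞 L) ∈ P) {g : Gal(L/ℚ)} (hg : ∀ y : 𝓞 L, g • y - y ^ p ∈ P) :
    Nat.card {I : Ideal (𝓞 K) // absNorm I = p} =
      Nat.card {j : K →ₐ[ℚ] L // (g : L →ₐ[ℚ] L).comp j = j} := by
  have hnorm : ∀ j : K →ₐ[ℚ] L, (g : L →ₐ[ℚ] L).comp j = j → absNorm (P.comap (oMap j)) = p := by
    intro j hj
    haveI := hP
    refine absNorm_eq_of_pow hp (Ideal.comap_isPrime (oMap j) P) ?_ fun x => ?_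
    · rw [Ideal.mem_comap, map_natCast]
      exact hpP
    · rw [Ideal.mem_comap, map_sub, map_pow]
      have h1 := hg (oMap j x)
      rwa [smul_oMap, hj] at h1
  let Φ : {j : K →ₐ[ℚ] L // (g : L →ₐ[ℚ] L).comp j = j} → {I : Ideal (𝓞 K) // absNorm I = p} :=
    fun j => ⟨P.comap (oMap j.1), hnorm j.1 j.2⟩
  refine (Nat.card_eq_of_bijective Φ ⟨?_, ?_⟩).symm
  · rintro ⟨j, hj⟩ ⟨j', hj'⟩ h
    have h1 : P.comap (oMap j) = P.comap (oMap j') := congrArg Subtype.val h
    apply Subtype.ext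
    refine hD p hp hpD P hP hpP j j' fun x => ?_
    obtain ⟨⟨n, hn⟩, -⟩ := exists_int_sub_mem hp (hnorm j hj) x
    have h2 : oMap j x - (n : 𝓞 L) ∈ P := by
      have h3 := Ideal.mem_comap.mp hn
      rwa [map_sub, map_intCast] at h3
    have h4 : oMap j' x - (n : 𝓞 L) ∈ P := by
      rw [h1] at hn
      have h3 := Ideal.mem_comap.mp hn
      rwa [map_sub, map_intCast] at h3
    have h5 : oMap j x - oMap j' x = (oMap j x - n) - (oMap j' x - n) := by ring
    rw [h5]
    exact sub_mem h2 h4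
  · rintro ⟨I, hI⟩
    obtain ⟨hIp, hpI⟩ := isPrime_of_absNorm hp hI
    -- a prime of `L` above `I`
    obtain ⟨Q, hQ, hQI⟩ : ∃ Q : Ideal (𝓞 L), Q.IsPrime ∧ Q.comap (oMap j₀) = I := by
      letI : Algebra K L := j₀.toRingHom.toAlgebra
      obtain ⟨⟨Q, hQ⟩⟩ := (inferInstance : Nonempty (primesOver I (𝓞 L)))
      exact ⟨Q, hQ.1, hQ.2.over.symm⟩
    have hpQ : (p : 𝓞 L) ∈ Q := by
      rw [← hQI, Ideal.mem_comap, map_natCast] at hpI
      exact hpI
    obtain ⟨τ, hτ⟩ := exists_smul_eq_of_mem hp hQ hP hpQ hpP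
    have hcomap : P.comap (oMap ((τ : L →ₐ[ℚ] L).comp j₀)) = I := by
      ext x
      rw [Ideal.mem_comap, ← smul_oMap, ← hτ, Ideal.smul_mem_pointwise_smul_iff, ← Ideal.mem_comap,
        hQI]
    have hfix : (g : L →ₐ[ℚ] L).comp ((τ : L →ₐ[ℚ] L).comp j₀) = (τ : L →ₐ[ℚ] L).comp j₀ := by
      refine hD p hp hpD P hP hpP _ _ fun x => ?_
      have h1 := hg (oMap ((τ : L →ₐ[ℚ] L).comp j₀) x)
      rw [smul_oMap] at h1
      have h2 : x - x ^ p ∈ P.comap (oMap ((τ : L →ₐ[ℚ] L).comp j₀)) := by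
        rw [hcomap]
        exact (exists_int_sub_mem hp hI x).2
      rw [Ideal.mem_comap, map_sub, map_pow] at h2
      have h3 := sub_mem h1 h2
      rwa [sub_sub_sub_cancel_right] at h3
    exact ⟨⟨(τ : L →ₐ[ℚ] L).comp j₀, hfix⟩, Subtype.ext hcomap⟩

end Fixed

/-- `K` and `K'` have the same number of ideals of norm `p`, for all but finitely many primes `p` -/
def ArithEquiv (K K' : Type*) [Field K] [NumberField K] [Field K'] [NumberField K'] : Prop :=
  {p : ℕ | p.Prime ∧ Nat.card {I : Ideal (𝓞 K) // absNorm I = p} ≠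
    Nat.card {I : Ideal (𝓞 K') // absNorm I = p}}.Finite

theorem mem_fieldRange_of_normal {k K L : Type*} [Field k] [Field K] [Field L] [Algebra k K]
    [Algebra k L] [Normal k K] (j j₀ : K →ₐ[k] L) (x : K) : j₀ x ∈ j.fieldRange := by
  let e : K ≃ₐ[k] j.fieldRange := AlgEquiv.ofInjectiveField j
  haveI : Normal k j.fieldRange := Normal.of_algEquiv e
  have h3 : (j₀.comp (e.symm : j.fieldRange →ₐ[k] K)).fieldRange = j.fieldRange :=
    AlgHom.fieldRange_of_normal _
  rw [← h3]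
  exact ⟨e x, by simp⟩

section Main

variable {K K' L : Type*} [Field K] [NumberField K] [Field K'] [NumberField K'] [Field L]
  [NumberField L] [IsGalois ℚ L]

theorem ArithEquiv.card_fixed_eq (h : ArithEquiv K K') (j₀ : K →ₐ[ℚ] L) (j₀' : K' →ₐ[ℚ] L)
    (g : Gal(L/ℚ)) : Nat.card {j : K →ₐ[ℚ] L // (g : L →ₐ[ℚ] L).comp j = j} =
      Nat.card {j : K' →ₐ[ℚ] L // (g : L →ₐ[ℚ] L).comp j = j} := by
  obtain ⟨D, hD0, hD⟩ := exists_bad_pairs K L
  obtain ⟨D', hD0', hD'⟩ := exists_bad_pairs K' L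
  have hfin : {p : ℕ | p ∣ D}.Finite := (Set.finite_le_nat D).subset fun p hp =>
    Nat.le_of_dvd (Nat.pos_of_ne_zero hD0) hp
  have hfin' : {p : ℕ | p ∣ D'}.Finite := (Set.finite_le_nat D').subset fun p hp =>
    Nat.le_of_dvd (Nat.pos_of_ne_zero hD0') hp
  obtain ⟨p, ⟨hp, P, hP, hPo, hfrob⟩, hp2⟩ := ((Cheb.infinite_frobenius L g).sdiff
    ((Set.Finite.union h hfin).union hfin')).nonempty
  have hpP := mem_of_liesOver hPo
  have hg : ∀ y : 𝓞 L, g • y - y ^ p ∈ P := by
    intro y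
    have h2 := hfrob y
    rwa [card_quotient_under hPo] at h2
  rw [← card_eq_fixed hD j₀ hp (fun hd => hp2 (Or.inl (Or.inr hd))) hP hpP hg,
    ← card_eq_fixed hD' j₀' hp (fun hd => hp2 (Or.inr hd)) hP hpP hg]
  by_contra hne
  exact hp2 (Or.inl (Or.inl ⟨hp, hne⟩))

theorem card_fixed_one (j₀ : K →ₐ[ℚ] L) :
    Nat.card {j : K →ₐ[ℚ] L // ((1 : Gal(L/ℚ)) : L →ₐ[ℚ] L).comp j = j} = Module.finrank ℚ K := by
  rw [← AlgHom.natCard_of_splits ℚ K L]
  · exact Nat.card_congr (Equiv.subtypeUnivEquiv fun j => AlgHom.ext fun x => rfl)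
  · intro x
    rw [← minpoly.algHom_eq j₀ j₀.injective x]
    exact Normal.splits inferInstance (j₀ x)

theorem ArithEquiv.fieldRange_le [IsGalois ℚ K] (h : ArithEquiv K K') (j₀ : K →ₐ[ℚ] L)
    (j₀' : K' →ₐ[ℚ] L) : j₀.fieldRange ≤ j₀'.fieldRange := by
  rintro _ ⟨x, rfl⟩
  rw [← IsGalois.fixedField_fixingSubgroup j₀'.fieldRange]
  rintro ⟨g, hg⟩
  have h1 : (g : L →ₐ[ℚ] L).comp j₀' = j₀' := AlgHom.ext fun y =>
    (IntermediateField.mem_fixingSubgroup_iff _ g).mp hg (j₀' y) ⟨y, rfl⟩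
  have h2 : 0 < Nat.card {j : K' →ₐ[ℚ] L // (g : L →ₐ[ℚ] L).comp j = j} :=
    Nat.card_pos_iff.mpr ⟨⟨⟨j₀', h1⟩⟩, inferInstance⟩
  rw [← h.card_fixed_eq j₀ j₀' g] at h2
  obtain ⟨⟨⟨j, hj⟩⟩, -⟩ := Nat.card_pos_iff.mp h2
  -- `K` is Galois: the images of `j` and `j₀` agree
  obtain ⟨y, hy⟩ := mem_fieldRange_of_normal j j₀ x
  have h5 : j₀ x = j y := hy.symm
  change g (j₀ x) = j₀ x
  rw [h5]
  exact DFunLike.congr_fun hj y

end Main

theorem exists_common_galois {k K K' : Type*} [Field k] [CharZero k] [Field K] [Field K']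
    [Algebra k K] [Algebra k K'] [FiniteDimensional k K] [FiniteDimensional k K'] :
    ∃ L : IntermediateField k (AlgebraicClosure k), FiniteDimensional k L ∧ IsGalois k L ∧
      Nonempty (K →ₐ[k] L) ∧ Nonempty (K' →ₐ[k] L) := by
  let i : K →ₐ[k] AlgebraicClosure k := IsAlgClosed.lift
  let i' : K' →ₐ[k] AlgebraicClosure k := IsAlgClosed.lift
  let e : K ≃ₐ[k] i.fieldRange := AlgEquiv.ofInjectiveField i
  let e' : K' ≃ₐ[k] i'.fieldRange := AlgEquiv.ofInjectiveField i'
  haveI : FiniteDimensional k i.fieldRange := Module.Finite.equiv e.toLinearEquiv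
  haveI : FiniteDimensional k i'.fieldRange := Module.Finite.equiv e'.toLinearEquiv
  have hle := IntermediateField.le_normalClosure (i.fieldRange ⊔ i'.fieldRange)
  haveI : FiniteDimensional k (IntermediateField.normalClosure k
    (i.fieldRange ⊔ i'.fieldRange : IntermediateField k (AlgebraicClosure k))
      (AlgebraicClosure k)) := normalClosure.is_finiteDimensional _ _ _
  exact ⟨IntermediateField.normalClosure k
    (i.fieldRange ⊔ i'.fieldRange : IntermediateField k (AlgebraicClosure k))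
      (AlgebraicClosure k), inferInstance, { to_isSeparable := inferInstance, to_normal := inferInstance },
    ⟨(IntermediateField.inclusion (le_sup_left.trans hle)).comp (e : K →ₐ[k] i.fieldRange)⟩,
    ⟨(IntermediateField.inclusion (le_sup_right.trans hle)).comp (e' : K' →ₐ[k] i'.fieldRange)⟩⟩

theorem exists_common_numberField (K K' : Type*) [Field K] [NumberField K] [Field K'] [NumberField K'] :
    ∃ (L : IntermediateField ℚ (AlgebraicClosure ℚ)) (_ : NumberField L) (_ : IsGalois ℚ L),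
      Nonempty (K →ₐ[ℚ] L) ∧ Nonempty (K' →ₐ[ℚ] L) := by
  obtain ⟨L, aL, _, _, hj⟩ : ∃ (L : IntermediateField ℚ (AlgebraicClosure ℚ))
      (aL : Algebra ℚ L), FiniteDimensional ℚ L ∧ IsGalois ℚ L ∧ Nonempty (K →ₐ[ℚ] L) ∧
        Nonempty (K' →ₐ[ℚ] L) := by
    obtain ⟨L, h⟩ := exists_common_galois (k := ℚ) (K := K) (K' := K')
    exact ⟨L, _, h⟩
  obtain rfl : aL = DivisionRing.toRatAlgebra := Subsingleton.elim _ _
  exact ⟨L, { to_charZero := inferInstance, to_finiteDimensional := inferInstance }, inferInstance, hj⟩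

/-- **Arithmetically equivalent number fields have the same degree** -/
theorem ArithEquiv.finrank_eq {K K' : Type*} [Field K] [NumberField K] [Field K'] [NumberField K']
    (h : ArithEquiv K K') : Module.finrank ℚ K = Module.finrank ℚ K' := by
  obtain ⟨L, _, _, ⟨j⟩, ⟨j'⟩⟩ := exists_common_numberField K K'
  rw [← card_fixed_one j, ← card_fixed_one j', h.card_fixed_eq j j' 1]

/-- **A number field that is arithmetically equivalent to a Galois number field `K` is isomorphic to `K`** -/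
theorem ArithEquiv.iso {K K' : Type*} [Field K] [NumberField K] [IsGalois ℚ K] [Field K']
    [NumberField K'] (h : ArithEquiv K K') : Nonempty (K ≃+* K') := by
  obtain ⟨L, _, _, ⟨j⟩, ⟨j'⟩⟩ := exists_common_numberField K K'
  have hle := h.fieldRange_le j j'
  let e : K ≃ₐ[ℚ] j.fieldRange := AlgEquiv.ofInjectiveField j
  let e' : K' ≃ₐ[ℚ] j'.fieldRange := AlgEquiv.ofInjectiveField j'
  refine ringEquiv_of_finrank_eq (e'.symm.toRingEquiv.toRingHom.comp
    ((IntermediateField.inclusion hle).toRingHom.comp e.toRingEquiv.toRingHom)) ?_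
  rw [h.finrank_eq]

theorem arithEquiv_of_dedekindZeta_eq {K K' : Type*} [Field K] [NumberField K] [Field K']
    [NumberField K'] (h : ∀ s : ℂ, 1 < s.re → dedekindZeta K s = dedekindZeta K' s) :
    ArithEquiv K K' := by
  refine Set.Finite.subset Set.finite_empty ?_
  rintro p ⟨hp, hne⟩
  apply hne
  have h1 : LSeries.abscissaOfAbsConv (fun k => (aK K k : ℂ)) < ⊤ := by
    refine lt_of_le_of_lt (LSeriesSummable.abscissaOfAbsConv_le
      (lSeriesSummable_aK (K := K) (s := 2) (by norm_num))) ?_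
    exact EReal.coe_lt_top _
  have h2 : LSeries.abscissaOfAbsConv (fun k => (aK K' k : ℂ)) < ⊤ := by
    refine lt_of_le_of_lt (LSeriesSummable.abscissaOfAbsConv_le
      (lSeriesSummable_aK (K := K') (s := 2) (by norm_num))) ?_
    exact EReal.coe_lt_top _
  have h4 := LSeries.eq_of_LSeries_eventually_eq h1 h2 (by
    filter_upwards [Filter.eventually_gt_atTop 1] with x hx
    exact h x (by simpa using hx)) hp.ne_zero
  exact_mod_cast h4

/-- **Number fields with the same Dedekind zeta function have the same degree** -/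
theorem finrank_eq_of_dedekindZeta_eq {K K' : Type*} [Field K] [NumberField K] [Field K']
    [NumberField K'] (h : ∀ s : ℂ, 1 < s.re → dedekindZeta K s = dedekindZeta K' s) :
    Module.finrank ℚ K = Module.finrank ℚ K' :=
  (arithEquiv_of_dedekindZeta_eq h).finrank_eq

/-- **A number field with the same Dedekind zeta function as a Galois number field `K` is isomorphic to `K`** -/
theorem iso_galois_of_dedekindZeta_eq {K K' : Type*} [Field K] [NumberField K] [IsGalois ℚ K] [Field K']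
    [NumberField K'] (h : ∀ s : ℂ, 1 < s.re → dedekindZeta K s = dedekindZeta K' s) :
    Nonempty (K ≃+* K') :=
  (arithEquiv_of_dedekindZeta_eq h).iso

end Fermat.Agent.Cor.H25Z
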