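import Fermat.Agent.Cor.H25Z5

/-!
# The conductor-discriminant formula I : discriminants of subfields of cyclotomic fields

Let `F ⊆ L = ℚ(ζ_n)`, `G = Gal(L/ℚ)`, `H = Gal(L/F)`. Then `|d_F|^|H| = ∏_{σ ∈ G, σ ∉ H} N(σ)` with
`N(σ) = |N_{L/ℚ}(ζ - σ ζ)|`.
-/

set_option autoImplicit false
set_option linter.style.haveILetI false
set_option linter.unusedSectionVars false

noncomputable section

namespace Fermat.Agent.Cor.H25Z

open NumberField Ideal Polynomial
open scoped Pointwise

variable {n : ℕ} [NeZero n] {L : Type*} [Field L] [NumberField L]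
  [IsCyclotomicExtension {n} ℚ L] [IsAbelianGalois ℚ L] (F : IntermediateField ℚ L)

/-- a primitive `n`-th root of unity, as an algebraic integer -/
def zt (n : ℕ) [NeZero n] (L : Type*) [Field L] [NumberField L] [IsCyclotomicExtension {n} ℚ L] :
    𝓞 L := (IsCyclotomicExtension.zeta_spec n ℚ L).toInteger

theorem zt_primitive : IsPrimitiveRoot (zt n L) n :=
  (IsCyclotomicExtension.zeta_spec n ℚ L).toInteger_isPrimitiveRoot

theorem adjoin_zt : Algebra.adjoin ℤ {zt n L} = ⊤ :=
  IsCyclotomicExtension.Rat.adjoin_singleton_eq_top (IsCyclotomicExtension.zeta_spec n ℚ L)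

theorem adjoin_zt_F : Algebra.adjoin (𝓞 F) {zt n L} = ⊤ := by
  rw [eq_top_iff]
  intro x _
  have h1 : x ∈ Algebra.adjoin ℤ {zt n L} := by rw [adjoin_zt]; trivial
  have h2 : Algebra.adjoin ℤ {zt n L} ≤ (Algebra.adjoin (𝓞 F) {zt n L}).restrictScalars ℤ :=
    Algebra.adjoin_le (Algebra.subset_adjoin)
  exact h2 h1

theorem adjoin_zt_field : Algebra.adjoin F {algebraMap (𝓞 L) L (zt n L)} = ⊤ := by
  have h : IsPrimitiveRoot (algebraMap (𝓞 L) L (zt n L)) n :=
    zt_primitive.map_of_injective (RingOfIntegers.coe_injective)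
  have h1 := IsCyclotomicExtension.adjoin_primitive_root_eq_top (A := ℚ) (B := L) h
  rw [eq_top_iff]
  intro x _
  have h2 : x ∈ Algebra.adjoin ℚ {algebraMap (𝓞 L) L (zt n L)} := by rw [h1]; trivial
  have h3 : Algebra.adjoin ℚ {algebraMap (𝓞 L) L (zt n L)} ≤
      (Algebra.adjoin F {algebraMap (𝓞 L) L (zt n L)}).restrictScalars ℚ :=
    Algebra.adjoin_le (Algebra.subset_adjoin)
  exact h3 h2

theorem smul_zt_injective {σ τ : Gal(L/ℚ)} (h : σ • zt n L = τ • zt n L) : σ = τ := by
  have hz : IsPrimitiveRoot (algebraMap (𝓞 L) L (zt n L)) n :=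
    zt_primitive.map_of_injective (RingOfIntegers.coe_injective)
  have h1 : σ (algebraMap (𝓞 L) L (zt n L)) = τ (algebraMap (𝓞 L) L (zt n L)) :=
    congrArg (algebraMap (𝓞 L) L) h
  have h2 := IsCyclotomicExtension.adjoin_primitive_root_eq_top (A := ℚ) (B := L) hz
  have h3 : (σ : L →ₐ[ℚ] L) = τ := by
    refine AlgHom.ext_of_adjoin_eq_top h2 ?_
    rintro x hx
    rw [Set.mem_singleton_iff] at hx
    subst hx
    exact h1
  ext x
  exact congrArg (fun f : L →ₐ[ℚ] L => f x) h3

/-- the minimal polynomial of `ζ` over `𝓞 F` -/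
theorem minpoly_zt [Fintype F.fixingSubgroup] :
    (minpoly (𝓞 F) (zt n L)).map (algebraMap (𝓞 F) (𝓞 L)) =
      ∏ σ : F.fixingSubgroup, (X - C (σ • zt n L)) := by
  haveI := isGaloisGroup_fixing' F
  haveI := isGaloisGroup_fixing F
  haveI : Algebra.IsInvariant (𝓞 F) (𝓞 L) F.fixingSubgroup := IsGaloisGroup.isInvariant
  have hint : IsIntegral (𝓞 F) (zt n L) := Algebra.IsIntegral.isIntegral _
  obtain ⟨P, hP⟩ := (Polynomial.mem_lifts _).mp
    (Algebra.IsInvariant.charpoly_mem_lifts (𝓞 F) (𝓞 L) F.fixingSubgroup (zt n L))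
  have hinj : Function.Injective (algebraMap (𝓞 F) (𝓞 L)) := FaithfulSMul.algebraMap_injective _ _
  have hchar : MulSemiringAction.charpoly F.fixingSubgroup (zt n L) =
      ∏ σ : F.fixingSubgroup, (X - C (σ • zt n L)) := rfl
  have hmonic : P.Monic := by
    have h1 := MulSemiringAction.monic_charpoly F.fixingSubgroup (zt n L)
    rw [← hP] at h1
    exact Polynomial.monic_of_injective hinj h1
  have hroot : aeval (zt n L) P = 0 := by
    rw [← Polynomial.eval_map_algebraMap, hP, hchar, Polynomial.eval_prod]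
    refine Finset.prod_eq_zero (Finset.mem_univ 1) ?_
    rw [one_smul]
    simp
  have hdvd := minpoly.isIntegrallyClosed_dvd hint hroot
  have hdeg : P.natDegree ≤ (minpoly (𝓞 F) (zt n L)).natDegree := by
    have h1 : P.natDegree = Nat.card F.fixingSubgroup := by
      rw [← Polynomial.natDegree_map_eq_of_injective hinj, hP, hchar,
        Polynomial.natDegree_prod_of_monic _ _ fun σ _ => monic_X_sub_C _]
      simp only [natDegree_X_sub_C, Finset.sum_const, Finset.card_univ, smul_eq_mul, mul_one,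
        Nat.card_eq_fintype_card]
    have h2 : (minpoly (𝓞 F) (zt n L)).natDegree = Module.finrank F L := by
      have h3 := minpoly.isIntegrallyClosed_eq_field_fractions F L hint
      have h4 : (minpoly F (algebraMap (𝓞 L) L (zt n L))).natDegree =
          (minpoly (𝓞 F) (zt n L)).natDegree := by
        rw [h3, Polynomial.natDegree_map_eq_of_injective (FaithfulSMul.algebraMap_injective _ _)]
      rw [← h4]
      have h5 : IntermediateField.adjoin F {algebraMap (𝓞 L) L (zt n L)} = ⊤ := by
        rw [← IntermediateField.toSubalgebra_injective.eq_iff]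
        rw [IntermediateField.adjoin_simple_toSubalgebra_of_isAlgebraic
          (Algebra.IsAlgebraic.isAlgebraic _), IntermediateField.top_toSubalgebra]
        exact adjoin_zt_field F
      have h6 := IntermediateField.adjoin.finrank (K := F) (L := L)
        (x := algebraMap (𝓞 L) L (zt n L)) (Algebra.IsIntegral.isIntegral _)
      rw [← h6, h5, IntermediateField.finrank_top']
    rw [h1, h2, IsGaloisGroup.card_eq_finrank F.fixingSubgroup F L]
  have heq := Polynomial.eq_of_monic_of_dvd_of_natDegree_le (minpoly.monic hint) hmonic hdvd hdeg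
  rw [← heq, hP, hchar]

theorem aeval_derivative_zt [Fintype F.fixingSubgroup] [DecidableEq F.fixingSubgroup] :
    aeval (zt n L) (derivative (minpoly (𝓞 F) (zt n L))) =
      ∏ σ ∈ Finset.univ.erase (1 : F.fixingSubgroup), (zt n L - σ • zt n L) := by
  rw [← Polynomial.eval_map_algebraMap, ← Polynomial.derivative_map, minpoly_zt,
    Polynomial.derivative_prod_finset, Polynomial.eval_finsetSum]
  rw [Finset.sum_eq_single (1 : F.fixingSubgroup)]
  · simp [Polynomial.eval_prod]
  · intro σ _ hσ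
    rw [Polynomial.eval_mul, Polynomial.eval_prod,
      Finset.prod_eq_zero (Finset.mem_erase.mpr ⟨hσ.symm, Finset.mem_univ 1⟩) (by simp), zero_mul]
  · intro h
    exact absurd (Finset.mem_univ _) h

/-- `N(σ) = |N_{L/ℚ}(ζ - σ ζ)|` -/
def NN (σ : Gal(L/ℚ)) : ℕ := absNorm (span {zt n L - σ • zt n L})

theorem absNorm_different [Fintype F.fixingSubgroup] [DecidableEq F.fixingSubgroup] :
    absNorm (differentIdeal (𝓞 F) (𝓞 L)) =
      ∏ σ ∈ Finset.univ.erase (1 : F.fixingSubgroup), NN (n := n) (σ : Gal(L/ℚ)) := by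
  have h1 := conductor_mul_differentIdeal (𝓞 F) F L (B := 𝓞 L) (zt n L) (adjoin_zt_field F)
  rw [conductor_eq_top_iff_adjoin_eq_top.mpr (adjoin_zt_F F), Ideal.top_mul,
    aeval_derivative_zt] at h1
  rw [h1, ← Ideal.prod_span_singleton, map_prod]
  rfl

end Fermat.Agent.Cor.H25Z
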