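import Fermat.Agent.Cor.H25AbelianZeta
import Fermat.Agent.Cor.H25CD1

/-!
# Artin reciprocity for abelian extensions of `ℚ`

Let `K` be an abelian number field.

* `artin_map` : there are `n ≥ 1` and a surjective homomorphism `φ : (ℤ/n)ˣ → Gal(K/ℚ)` (the Artin map) such that for
  every prime `p` not dividing `n`, `φ(p)` is the Frobenius automorphism at `p`: `φ(p)(x) ≡ x^p` modulo `p 𝓞_K` for all
  `x ∈ 𝓞_K`. In particular the Frobenius automorphism at `p`, hence the decomposition of `p` in `K`, only depends on the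
  class of `p` modulo `n`.
* `infinite_frobenius` (Chebotarev's theorem for abelian extensions of `ℚ`): every `σ ∈ Gal(K/ℚ)` is the Frobenius
  automorphism at infinitely many primes `p`.
* `infinite_split` : there are infinitely many primes `p` such that all the primes of `K` above `p` have norm `p`.

No statement file imports this file.
-/

set_option autoImplicit false
set_option linter.style.haveILetI false

noncomputable section

namespace Fermat.Agent.Cor.H25Z

open NumberField Ideal IsCyclotomicExtension.Rat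

section Cyclotomic

variable {n : ℕ} [NeZero n] {L : Type*} [Field L] [NumberField L]
  [IsCyclotomicExtension {n} ℚ L] [IsAbelianGalois ℚ L]

/-- the Frobenius automorphism of a cyclotomic field -/
theorem frob_cyclotomic {p : ℕ} (hp : p.Prime) (hc : p.Coprime n) {σ : Gal(L/ℚ)}
    (hσ : galEquivZMod n L σ = ZMod.unitOfCoprime p hc) (x : 𝓞 L) :
    σ • x - x ^ p ∈ span {(p : 𝓞 L)} := by
  haveI : Fact p.Prime := ⟨hp⟩
  have hx : x ∈ Algebra.adjoin ℤ {zt n L} := by rw [adjoin_zt]; trivial
  induction hx using Algebra.adjoin_induction with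
  | mem y hy =>
    rw [Set.mem_singleton_iff] at hy
    subst hy
    have h1 : σ • zt n L = zt n L ^ (galEquivZMod n L σ).val.val :=
      galEquivZMod_smul_of_pow_eq n L σ zt_primitive.pow_eq_one
    rw [h1, hσ, ZMod.coe_unitOfCoprime, ZMod.val_natCast,
      ← pow_eq_pow_mod p (zt_primitive (n := n) (L := L)).pow_eq_one, sub_self]
    exact zero_mem _
  | algebraMap a =>
    have h1 : σ • (algebraMap ℤ (𝓞 L) a) = algebraMap ℤ (𝓞 L) a := by
      have h0 : algebraMap ℤ (𝓞 L) a = ((a : ℤ) : 𝓞 L) := by simp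
      rw [h0]
      exact map_intCast (MulSemiringAction.toRingHom Gal(L/ℚ) (𝓞 L) σ) a
    rw [h1, ← map_pow, ← map_sub, Ideal.mem_span_singleton]
    have h2 : (p : ℤ) ∣ a - a ^ p := by
      rw [← ZMod.intCast_zmod_eq_zero_iff_dvd]
      push_cast
      rw [ZMod.pow_card, sub_self]
    obtain ⟨c, hc'⟩ := h2
    exact ⟨algebraMap ℤ (𝓞 L) c, by rw [hc', map_mul]; simp⟩
  | add y z _ _ hy hz =>
    obtain ⟨r, hr⟩ := exists_add_pow_prime_eq hp y z
    have h1 : σ • (y + z) - (y + z) ^ p = (σ • y - y ^ p) + (σ • z - z ^ p) -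
        (p : 𝓞 L) * (y * z * r) := by
      rw [smul_add, hr]
      ring
    rw [h1]
    exact sub_mem (add_mem hy hz) (Ideal.mul_mem_right _ _ (Ideal.mem_span_singleton_self _))
  | mul y z _ _ hy hz =>
    have h1 : σ • (y * z) - (y * z) ^ p = (σ • y - y ^ p) * σ • z + y ^ p * (σ • z - z ^ p) := by
      rw [smul_mul']
      ring
    rw [h1]
    exact add_mem (Ideal.mul_mem_right _ _ hy) (Ideal.mul_mem_left _ _ hz)

end Cyclotomic

/-- **Artin reciprocity over `ℚ`** (from the Kronecker–Weber theorem): for an abelian number field `K` there are `n` and a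
surjective homomorphism `φ : (ℤ/n)ˣ → Gal(K/ℚ)` such that `φ(p)` is the Frobenius automorphism at `p` for every prime `p`
not dividing `n`. -/
theorem artin_map (K : Type*) [Field K] [NumberField K] [IsAbelianGalois ℚ K] :
    ∃ (n : ℕ) (_ : NeZero n) (φ : (ZMod n)ˣ →* Gal(K/ℚ)), Function.Surjective φ ∧
      ∀ (p : ℕ) (_ : p.Prime) (hc : p.Coprime n) (x : 𝓞 K),
        φ (ZMod.unitOfCoprime p hc) • x - x ^ p ∈ span {(p : 𝓞 K)} := by
  obtain ⟨n, hn, X, L, _, _, _, _, F, ⟨e⟩, -⟩ := exists_isCharGroup K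
  let i : K →+* L := (algebraMap F L).comp (e : K →+* F)
  letI : Algebra K L := i.toAlgebra
  haveI : IsScalarTower ℚ K L := IsScalarTower.of_algebraMap_eq fun x => by
    have h1 : algebraMap K L (algebraMap ℚ K x) = i (algebraMap ℚ K x) := rfl
    rw [h1]
    simp
  let ρ : Gal(L/ℚ) →* Gal(K/ℚ) := AlgEquiv.restrictNormalHom K
  have hρ : ∀ (g : Gal(L/ℚ)) (x : K), i (ρ g x) = g (i x) := fun g x =>
    AlgEquiv.restrictNormal_commutes g K x
  refine ⟨n, hn, ρ.comp (galEquivZMod n L).symm.toMonoidHom, ?_, ?_⟩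
  · exact (AlgEquiv.restrictNormalHom_surjective L).comp (galEquivZMod n L).symm.surjective
  · intro p hp hc x
    set σ := (galEquivZMod n L).symm (ZMod.unitOfCoprime p hc) with hσ
    have hσ' : galEquivZMod n L σ = ZMod.unitOfCoprime p hc := by rw [hσ, MulEquiv.apply_symm_apply]
    have hint : IsIntegral ℤ (i (x : K)) := map_isIntegral_int i (RingOfIntegers.isIntegral_coe x)
    let x' : 𝓞 L := ⟨i (x : K), hint⟩
    have h1 := frob_cyclotomic hp hc hσ' x'
    obtain ⟨z, hz⟩ := Ideal.mem_span_singleton.mp h1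
    have hz' : σ (i (x : K)) - (i (x : K)) ^ p = (p : L) * (z : L) := by
      have h2 := congrArg (algebraMap (𝓞 L) L) hz
      rw [map_sub, map_pow, map_mul, map_natCast] at h2
      exact h2
    have hp0 : (p : K) ≠ 0 := Nat.cast_ne_zero.mpr hp.ne_zero
    -- `y / p` is integral
    let y : K := (ρ σ (x : K) - (x : K) ^ p) / p
    have hy : i y = z := by
      have hp0' : (p : L) ≠ 0 := Nat.cast_ne_zero.mpr hp.ne_zero
      simp only [y]
      rw [map_div₀, map_sub, map_pow, hρ, hz', map_natCast, mul_div_cancel_left₀ _ hp0']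
    have hyint : IsIntegral ℤ y := by
      have h3 : IsIntegral ℤ (i y) := by
        rw [hy]
        exact RingOfIntegers.isIntegral_coe z
      exact (isIntegral_algHom_iff i.toIntAlgHom i.injective).mp h3
    rw [Ideal.mem_span_singleton]
    let y' : 𝓞 K := ⟨y, hyint⟩
    refine ⟨y', ?_⟩
    apply RingOfIntegers.coe_injective
    have h4 : (ρ σ (x : K) - (x : K) ^ p) = p * y := by
      simp only [y]
      field_simp
    have h5 : algebraMap (𝓞 K) K (ρ σ • x - x ^ p) = ρ σ (x : K) - (x : K) ^ p := by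
      rw [map_sub, map_pow]
      rfl
    have h6 : algebraMap (𝓞 K) K ((p : 𝓞 K) * y') = p * y := by
      rw [map_mul, map_natCast]
      rfl
    exact h5.trans (h4.trans h6.symm)

/-- **Chebotarev's theorem for abelian extensions of `ℚ`**: every element of the Galois group is the Frobenius automorphism
at infinitely many primes. -/
theorem infinite_frobenius (K : Type*) [Field K] [NumberField K] [IsAbelianGalois ℚ K]
    (σ : Gal(K/ℚ)) :
    {p : ℕ | p.Prime ∧ ∀ x : 𝓞 K, σ • x - x ^ p ∈ span {(p : 𝓞 K)}}.Infinite := by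
  obtain ⟨n, _, φ, hφ, h⟩ := artin_map K
  obtain ⟨u, rfl⟩ := hφ σ
  refine (Nat.infinite_setOfPred_prime_and_eq_mod (q := n) (a := (u : ZMod n)) u.isUnit).mono ?_
  rintro p ⟨hp, hpu⟩
  have hc : p.Coprime n := by
    rw [← ZMod.isUnit_iff_coprime, hpu]
    exact u.isUnit
  have hu : u = ZMod.unitOfCoprime p hc := by
    ext
    rw [ZMod.coe_unitOfCoprime, hpu]
  refine ⟨hp, fun x => ?_⟩
  rw [hu]
  exact h p hp hc x

/-- infinitely many primes split into primes of degree one in an abelian number field -/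
theorem infinite_split (K : Type*) [Field K] [NumberField K] [IsAbelianGalois ℚ K] :
    {p : ℕ | p.Prime ∧ ∀ P : Ideal (𝓞 K), P.IsPrime → (p : 𝓞 K) ∈ P → absNorm P = p}.Infinite := by
  refine (infinite_frobenius K 1).mono ?_
  rintro p ⟨hp, h⟩
  refine ⟨hp, fun P hP hpP => ?_⟩
  haveI : Fact p.Prime := ⟨hp⟩
  have hP0 : P ≠ ⊥ := by
    rintro rfl
    rw [Ideal.mem_bot] at hpP
    exact hp.ne_zero (by exact_mod_cast hpP)
  haveI : P.IsMaximal := hP.isMaximal hP0
  letI : Field (𝓞 K ⧸ P) := Ideal.Quotient.field P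
  haveI : Finite (𝓞 K ⧸ P) := Ring.HasFiniteQuotients.finiteQuotient hP0
  letI : Fintype (𝓞 K ⧸ P) := Fintype.ofFinite _
  -- all elements are roots of `X ^ p - X`
  have h1 : ∀ z : 𝓞 K ⧸ P, z ^ p = z := by
    intro z
    obtain ⟨x, rfl⟩ := Ideal.Quotient.mk_surjective z
    have h2 := h x
    rw [one_smul] at h2
    have h3 : x - x ^ p ∈ P :=
      (Ideal.span_singleton_le_iff_mem P).mpr hpP h2
    rw [← map_pow]
    exact (Ideal.Quotient.eq.mpr h3).symm
  have h4 : absNorm P = Fintype.card (𝓞 K ⧸ P) := by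
    rw [absNorm_apply, Submodule.cardQuot_apply, Nat.card_eq_fintype_card]
  have h5 : Fintype.card (𝓞 K ⧸ P) ≤ p := by
    classical
    have h6 : (Finset.univ : Finset (𝓞 K ⧸ P)) ⊆
        (Polynomial.X ^ p - Polynomial.X : Polynomial (𝓞 K ⧸ P)).roots.toFinset := by
      intro z _
      rw [Multiset.mem_toFinset, Polynomial.mem_roots (FiniteField.X_pow_card_sub_X_ne_zero _ hp.one_lt)]
      simp [h1 z]
    refine (Finset.card_le_card h6).trans ((Multiset.toFinset_card_le _).trans ?_)
    refine (Polynomial.card_roots' _).trans ?_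
    rw [FiniteField.X_pow_card_sub_X_natDegree_eq _ hp.one_lt]
  have h7 : p ∣ absNorm P := by
    obtain ⟨q, k, hk, hq, hqp, hN⟩ := Ideal.exists_prime_and_absNorm_eq_pow P
    have h8 : q = p := by
      by_contra hne
      have hcop : IsCoprime (q : ℤ) (p : ℤ) :=
        Nat.isCoprime_iff_coprime.mpr ((Nat.coprime_primes hqp hp).mpr hne)
      obtain ⟨a, b, hab⟩ := hcop
      apply hP.ne_top
      rw [Ideal.eq_top_iff_one]
      have h9 : (1 : 𝓞 K) = (a : 𝓞 K) * (q : 𝓞 K) + (b : 𝓞 K) * (p : 𝓞 K) := by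
        exact_mod_cast (congrArg (Int.cast : ℤ → 𝓞 K) hab).symm
      rw [h9]
      exact add_mem (Ideal.mul_mem_left _ _ hq) (Ideal.mul_mem_left _ _ hpP)
    rw [hN, h8]
    exact dvd_pow_self p hk.ne'
  rw [h4] at h7 ⊢
  exact le_antisymm h5 (Nat.le_of_dvd Fintype.card_pos h7)

end Fermat.Agent.Cor.H25Z
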