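import Fermat.Agent.Cor.H25CD1

/-!
# The conductor-discriminant formula II : the norms of `1 - ξ`
-/

set_option autoImplicit false
set_option linter.style.haveILetI false
set_option linter.unusedSectionVars false

noncomputable section

namespace Fermat.Agent.Cor.H25Z

open NumberField Ideal Polynomial
open scoped Pointwise

variable {n : ℕ} [NeZero n] {L : Type*} [Field L] [NumberField L]
  [IsCyclotomicExtension {n} ℚ L] [IsAbelianGalois ℚ L] (F : IntermediateField ℚ L)

theorem NN_ne_zero {σ : Gal(L/ℚ)} (hσ : σ ≠ 1) : NN (n := n) σ ≠ 0 := by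
  rw [NN, Ne, absNorm_eq_zero_iff, Ideal.span_singleton_eq_bot, sub_eq_zero]
  intro h
  apply hσ
  refine smul_zt_injective (n := n) ?_
  rw [one_smul, ← h]

section Classical

open Classical in
theorem discr_mul [Fintype Gal(L/ℚ)] :
    (NumberField.discr L).natAbs =
      (∏ σ ∈ (Finset.univ : Finset Gal(L/ℚ)).filter (fun σ => σ ∈ F.fixingSubgroup ∧ σ ≠ 1),
        NN (n := n) σ) * (NumberField.discr F).natAbs ^ Nat.card F.fixingSubgroup := by
  letI : Fintype F.fixingSubgroup := Fintype.ofFinite _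
  haveI := isGaloisGroup_fixing F
  rw [natAbs_discr_eq_absNorm_differentIdeal_mul_natAbs_discr_pow F (𝓞 F) L (𝓞 L),
    absNorm_different (n := n) F, ← IsGaloisGroup.card_eq_finrank F.fixingSubgroup F L]
  congr 1
  refine Finset.prod_bij (fun σ _ => (σ : Gal(L/ℚ))) ?_ ?_ ?_ ?_
  · intro σ hσ
    rw [Finset.mem_erase] at hσ
    rw [Finset.mem_filter]
    exact ⟨Finset.mem_univ _, σ.2, fun h => hσ.1 (Subtype.ext h)⟩
  · intro σ _ τ _ h
    exact Subtype.ext h
  · intro σ hσ
    rw [Finset.mem_filter] at hσ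
    exact ⟨⟨σ, hσ.2.1⟩, Finset.mem_erase.mpr ⟨fun h => hσ.2.2 (congrArg Subtype.val h),
      Finset.mem_univ _⟩, rfl⟩
  · intro σ _
    rfl

open Classical in
theorem discr_L [Fintype Gal(L/ℚ)] :
    (NumberField.discr L).natAbs =
      ∏ σ ∈ (Finset.univ : Finset Gal(L/ℚ)).filter (fun σ => σ ≠ 1), NN (n := n) σ := by
  rw [discr_mul (n := n) (⊥ : IntermediateField ℚ L)]
  have h1 : NumberField.discr (⊥ : IntermediateField ℚ L) = 1 := by
    have h2 : NumberField.discr (⊥ : IntermediateField ℚ L) = NumberField.discr ℚ :=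
      NumberField.discr_eq_discr_of_algEquiv _ (IntermediateField.botEquiv ℚ L)
    rw [h2, NumberField.discr_rat]
  rw [h1, Int.natAbs_one, one_pow, mul_one]
  refine Finset.prod_congr ?_ fun _ _ => rfl
  ext σ
  simp [IntermediateField.fixingSubgroup_bot]

open Classical in
/-- `|d_F|^|H| = ∏_{σ ∉ H} N(σ)` -/
theorem discr_pow [Fintype Gal(L/ℚ)] :
    (NumberField.discr F).natAbs ^ Nat.card F.fixingSubgroup =
      ∏ σ ∈ (Finset.univ : Finset Gal(L/ℚ)).filter (fun σ => σ ∉ F.fixingSubgroup),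
        NN (n := n) σ := by
  have h1 := discr_mul (n := n) F
  rw [discr_L (n := n)] at h1
  have h2 := Finset.prod_filter_mul_prod_filter_not
    ((Finset.univ : Finset Gal(L/ℚ)).filter (fun σ => σ ≠ 1)) (fun σ => σ ∈ F.fixingSubgroup)
    (fun σ => NN (n := n) σ)
  rw [Finset.filter_filter, Finset.filter_filter] at h2
  have h3 : (Finset.univ : Finset Gal(L/ℚ)).filter (fun σ => σ ≠ 1 ∧ σ ∈ F.fixingSubgroup) =
      Finset.univ.filter (fun σ => σ ∈ F.fixingSubgroup ∧ σ ≠ 1) := by
    ext σ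
    simp [and_comm]
  have h4 : (Finset.univ : Finset Gal(L/ℚ)).filter (fun σ => σ ≠ 1 ∧ ¬ σ ∈ F.fixingSubgroup) =
      Finset.univ.filter (fun σ => σ ∉ F.fixingSubgroup) := by
    ext σ
    simp only [Finset.mem_filter, Finset.mem_univ, true_and, and_iff_right_iff_imp]
    rintro h rfl
    exact h (one_mem _)
  rw [h3, h4, h1] at h2
  refine (Nat.eq_of_mul_eq_mul_left (Nat.pos_of_ne_zero ?_) h2).symm
  rw [Finset.prod_ne_zero_iff]
  intro σ hσ
  exact NN_ne_zero (Finset.mem_filter.mp hσ).2.2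

end Classical

/-- the norm of `ξ - 1` -/
theorem norm_sub_one {d : ℕ} (hd : 1 < d) {ξ : L} (hξ : IsPrimitiveRoot ξ d) :
    ∃ e : ℕ, Nat.totient d * e = Nat.totient n ∧
      |Algebra.norm ℚ (ξ - 1)| = ((|(cyclotomic d ℤ).eval 1| : ℤ) : ℚ) ^ e := by
  haveI : NeZero d := ⟨by omega⟩
  let E : IntermediateField ℚ L := IntermediateField.adjoin ℚ {ξ}
  haveI hE : IsCyclotomicExtension {d} ℚ E := hξ.intermediateField_adjoin_isCyclotomicExtension ℚ
  refine ⟨Module.finrank E L, ?_, ?_⟩
  · have h1 := Module.finrank_mul_finrank ℚ E L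
    have h2 : Module.finrank ℚ E = Nat.totient d :=
      IsCyclotomicExtension.finrank E (Polynomial.cyclotomic.irreducible_rat (NeZero.pos d))
    have h3 : Module.finrank ℚ L = Nat.totient n :=
      IsCyclotomicExtension.finrank L (Polynomial.cyclotomic.irreducible_rat (NeZero.pos n))
    rw [← h2, ← h3, h1]
  · let g : E := IntermediateField.AdjoinSimple.gen ℚ ξ
    have hg : algebraMap E L g = ξ := IntermediateField.AdjoinSimple.algebraMap_gen ℚ ξ
    have hgp : IsPrimitiveRoot g d := by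
      apply IsPrimitiveRoot.of_map_of_injective (f := algebraMap E L)
      · rwa [hg]
      · exact (algebraMap E L).injective
    have h1 : Algebra.norm ℚ (ξ - 1) = (Algebra.norm ℚ (g - 1)) ^ Module.finrank E L := by
      rw [← hg, ← map_one (algebraMap E L), ← map_sub, ← Algebra.norm_norm (S := E),
        Algebra.norm_algebraMap, map_pow]
    rw [h1, abs_pow]
    congr 1
    rcases Nat.lt_or_ge 2 d with h2 | h2
    · rw [hgp.sub_one_norm_eq_eval_cyclotomic h2
        (Polynomial.cyclotomic.irreducible_rat (NeZero.pos d))]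
      push_cast
      rfl
    · obtain rfl : d = 2 := by omega
      have h3 : g = -1 := hgp.eq_neg_one_of_two_right
      have h4 : Module.finrank ℚ E = 1 := by
        rw [IsCyclotomicExtension.finrank E (Polynomial.cyclotomic.irreducible_rat (NeZero.pos 2))]
        exact Nat.totient_two
      have h5 : (-1 - 1 : E) = algebraMap ℚ E (-2) := by
        rw [map_neg]
        norm_num
      rw [h3, h5, Algebra.norm_algebraMap, h4, Polynomial.cyclotomic_two]
      norm_num

/-- the norm of `1 - ξ`, in terms of ideals -/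
theorem absNorm_one_sub {d : ℕ} (hd : 1 < d) {ξ : 𝓞 L} (hξ : IsPrimitiveRoot ξ d) :
    ∃ e : ℕ, Nat.totient d * e = Nat.totient n ∧
      absNorm (span {1 - ξ}) = ((cyclotomic d ℤ).eval 1).natAbs ^ e := by
  obtain ⟨e, he, h⟩ := norm_sub_one (n := n) hd
    (hξ.map_of_injective (f := algebraMap (𝓞 L) L) RingOfIntegers.coe_injective)
  refine ⟨e, he, ?_⟩
  rw [absNorm_span_singleton]
  have h1 : ((Algebra.norm ℤ (1 - ξ) : ℤ) : ℚ) = Algebra.norm ℚ ((1 - ξ : 𝓞 L) : L) :=
    Algebra.coe_norm_int _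
  have h2 : |Algebra.norm ℚ ((1 - ξ : 𝓞 L) : L)| = |Algebra.norm ℚ (algebraMap (𝓞 L) L ξ - 1)| := by
    have h3 : ((1 - ξ : 𝓞 L) : L) = (algebraMap ℚ L (-1)) * (algebraMap (𝓞 L) L ξ - 1) := by
      rw [map_neg, map_one]
      push_cast
      ring
    rw [h3, map_mul, abs_mul, Algebra.norm_algebraMap, abs_pow]
    norm_num
  rw [← h1, h] at h2
  have h4 : ((Algebra.norm ℤ (1 - ξ)).natAbs : ℤ) = ((((cyclotomic d ℤ).eval 1).natAbs ^ e : ℕ) : ℤ) := by
    rw [Int.natCast_natAbs, Nat.cast_pow, Int.natCast_natAbs]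
    exact_mod_cast h2
  exact_mod_cast h4

end Fermat.Agent.Cor.H25Z
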