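import Fermat.Agent.Cor.H25CD2

/-!
# The conductor-discriminant formula III : the `p`-adic valuation of `N(σ)`
-/

set_option autoImplicit false
set_option linter.style.haveILetI false
set_option linter.unusedSectionVars false

noncomputable section

namespace Fermat.Agent.Cor.H25Z

open NumberField Ideal Polynomial
open scoped Pointwise

theorem sum_totient_pow {p : ℕ} (hp : p.Prime) (b : ℕ) :
    ∑ j ∈ Finset.range (b + 1), Nat.totient (p ^ j) = p ^ b := by
  induction b with
  | zero => simp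
  | succ b ih =>
    rw [Finset.sum_range_succ, ih, Nat.totient_prime_pow_succ hp, pow_succ]
    obtain ⟨q, hq⟩ : ∃ q, p = q + 1 := ⟨p - 1, by have := hp.pos; omega⟩
    rw [hq, Nat.add_sub_cancel]
    ring

theorem totient_mul_pow {p m : ℕ} (hp : p.Prime) (hpm : ¬ p ∣ m) (j : ℕ) :
    Nat.totient (p ^ j * m) = Nat.totient (p ^ j) * Nat.totient m :=
  Nat.totient_mul (Nat.Coprime.pow_left _ ((Nat.Prime.coprime_iff_not_dvd hp).mpr hpm))

theorem factorization_eval {p a m k d e : ℕ} (hp : p.Prime) (hpm : ¬ p ∣ m) (hk0 : 0 < k)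
    (hkn : k < p ^ a * m) (hd : d * Nat.gcd (p ^ a * m) k = p ^ a * m)
    (he : Nat.totient d * e = Nat.totient (p ^ a * m)) :
    (((cyclotomic d ℤ).eval 1).natAbs ^ e).factorization p =
      ∑ j ∈ Finset.range a, if p ^ j * m ∣ k then Nat.totient (p ^ j * m) else 0 := by
  have hm : 0 < m := Nat.pos_of_ne_zero fun h => hpm (h ▸ dvd_zero p)
  have hn0 : 0 < p ^ a * m := Nat.mul_pos (pow_pos hp.pos a) hm
  have hg0 : 0 < Nat.gcd (p ^ a * m) k := Nat.gcd_pos_of_pos_left _ hn0
  have hgk : Nat.gcd (p ^ a * m) k ≤ k := Nat.le_of_dvd hk0 (Nat.gcd_dvd_right _ _)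
  have hd1 : 1 < d := by
    by_contra h
    have h1 : d ≤ 1 := by omega
    have h2 : d * Nat.gcd (p ^ a * m) k ≤ 1 * k := Nat.mul_le_mul h1 hgk
    omega
  by_cases hmk : m ∣ k
  · -- `d` is a power of `p`
    have h1 : m ∣ Nat.gcd (p ^ a * m) k := Nat.dvd_gcd (Dvd.intro_left _ rfl) hmk
    obtain ⟨c, hc⟩ := h1
    have hca : c ∣ p ^ a := by
      have h2 : m * c ∣ m * p ^ a := by
        rw [← hc, mul_comm m]
        exact Nat.gcd_dvd_left _ _
      exact (Nat.mul_dvd_mul_iff_left hm).mp h2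
    obtain ⟨b, hb, rfl⟩ := (Nat.dvd_prime_pow hp).mp hca
    have hba : b < a := by
      rcases Nat.lt_or_ge b a with h | h
      · exact h
      · obtain rfl : b = a := le_antisymm hb h
        rw [hc] at hgk
        rw [mul_comm] at hkn
        omega
    obtain ⟨i, rfl⟩ : ∃ i, a = b + (i + 1) := ⟨a - b - 1, by omega⟩
    have hdp : d = p ^ (i + 1) := by
      rw [hc, pow_add] at hd
      have h2 : d * (m * p ^ b) = p ^ (i + 1) * (m * p ^ b) := by
        rw [hd]
        ring
      exact Nat.eq_of_mul_eq_mul_right (Nat.mul_pos hm (pow_pos hp.pos b)) h2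
    haveI : Fact p.Prime := ⟨hp⟩
    have he' : e = p ^ b * Nat.totient m := by
      rw [hdp, totient_mul_pow hp hpm, ← add_assoc, Nat.totient_prime_pow_succ hp,
        Nat.totient_prime_pow_succ hp, pow_add] at he
      have h2 : 0 < p ^ i * (p - 1) := Nat.mul_pos (pow_pos hp.pos i) (by have := hp.two_le; omega)
      apply Nat.eq_of_mul_eq_mul_left h2
      rw [he]
      ring
    have hset : ∑ j ∈ Finset.range (b + (i + 1)),
        (if p ^ j * m ∣ k then Nat.totient (p ^ j * m) else 0) =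
        ∑ j ∈ Finset.range (b + 1), Nat.totient (p ^ j * m) := by
      have h3 : ∀ j ∈ Finset.range (b + (i + 1)), (p ^ j * m ∣ k ↔ j ∈ Finset.range (b + 1)) := by
        intro j hj
        rw [Finset.mem_range] at hj
        rw [Finset.mem_range]
        have h4 : p ^ j * m ∣ k ↔ p ^ j * m ∣ Nat.gcd (p ^ (b + (i + 1)) * m) k := by
          rw [Nat.dvd_gcd_iff]
          exact ⟨fun h => ⟨Nat.mul_dvd_mul_right (pow_dvd_pow p hj.le) m, h⟩, fun h => h.2⟩
        rw [h4, hc, mul_comm m, Nat.mul_dvd_mul_iff_right hm,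
          Nat.pow_dvd_pow_iff_le_right hp.one_lt]
        omega
      rw [← Finset.sum_filter]
      refine Finset.sum_congr ?_ fun _ _ => rfl
      ext j
      rw [Finset.mem_filter]
      constructor
      · rintro ⟨h5, h6⟩
        exact (h3 j h5).mp h6
      · intro h5
        have h6 : j ∈ Finset.range (b + (i + 1)) := by
          rw [Finset.mem_range] at h5 ⊢
          omega
        exact ⟨h6, (h3 j h6).mpr h5⟩
    rw [hset, hdp, Polynomial.eval_one_cyclotomic_prime_pow, Int.natAbs_natCast, hp.factorization_pow,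
      Finsupp.single_eq_same, he', ← sum_totient_pow hp b, Finset.sum_mul]
    exact Finset.sum_congr rfl fun j _ => (totient_mul_pow hp hpm j).symm
  · -- `d` is not a power of `p`
    have hR : ∑ j ∈ Finset.range a, (if p ^ j * m ∣ k then Nat.totient (p ^ j * m) else 0) = 0 := by
      refine Finset.sum_eq_zero fun j _ => ?_
      rw [if_neg]
      exact fun h => hmk ((Dvd.intro_left _ rfl).trans h)
    rw [hR]
    by_cases hq : ∃ q i : ℕ, q.Prime ∧ q ^ i = d
    · obtain ⟨q, i, hq, rfl⟩ := hq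
      have hi : i ≠ 0 := by
        rintro rfl
        simp at hd1
      obtain ⟨i, rfl⟩ := Nat.exists_eq_succ_of_ne_zero hi
      have hqp : q ≠ p := by
        rintro rfl
        apply hmk
        have h1 : m ∣ q ^ (i + 1) * Nat.gcd (q ^ a * m) k := by
          rw [hd]
          exact Dvd.intro_left _ rfl
        have h2 : m.Coprime (q ^ (i + 1)) :=
          (Nat.Coprime.pow_left _ ((Nat.Prime.coprime_iff_not_dvd hq).mpr hpm)).symm
        exact (h2.dvd_of_dvd_mul_left h1).trans (Nat.gcd_dvd_right _ _)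
      haveI : Fact q.Prime := ⟨hq⟩
      rw [Nat.succ_eq_add_one, Polynomial.eval_one_cyclotomic_prime_pow, Int.natAbs_natCast,
        hq.factorization_pow, Finsupp.single_eq_of_ne hqp.symm]
    · rw [Polynomial.eval_one_cyclotomic_not_prime_pow (fun {q} hq' i hi => hq ⟨q, i, hq', hi⟩)]
      simp

variable {n : ℕ} [NeZero n] {L : Type*} [Field L] [NumberField L]
  [IsCyclotomicExtension {n} ℚ L] [IsAbelianGalois ℚ L] (F : IntermediateField ℚ L)

open IsCyclotomicExtension.Rat

/-- `σ` acts trivially on the roots of unity of order `m` -/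
def EE (σ : Gal(L/ℚ)) (m : ℕ) : Prop := m ∣ (galEquivZMod n L σ).val.val - 1

theorem val_pos {σ : Gal(L/ℚ)} (hσ : σ ≠ 1) : 1 < (galEquivZMod n L σ).val.val := by
  have h1 : galEquivZMod n L σ ≠ 1 := fun h => hσ ((galEquivZMod n L).injective (by rw [h, map_one]))
  have hn : n ≠ 1 := by
    rintro rfl
    exact h1 (Subsingleton.elim _ _)
  by_contra h
  have h2 : (galEquivZMod n L σ).val.val = 0 ∨ (galEquivZMod n L σ).val.val = 1 := by omega
  rcases h2 with h2 | h2
  · have h3 := ZMod.val_coe_unit_coprime (galEquivZMod n L σ)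
    rw [h2, Nat.coprime_zero_left] at h3
    exact hn h3
  · apply h1
    ext
    have h3 : (((galEquivZMod n L σ).val.val : ℕ) : ZMod n) = (galEquivZMod n L σ).val :=
      ZMod.natCast_zmod_val _
    rw [← h3, h2]
    simp

theorem EE_iff {m : ℕ} [NeZero m] (hmn : m ∣ n) (σ : Gal(L/ℚ)) :
    EE (n := n) σ m ↔ σ ∈ (⊥ : Subgroup (ZMod m)ˣ).comap (rho hmn L) := by
  rw [Subgroup.mem_comap, Subgroup.mem_bot, Units.ext_iff, rho_apply, ZMod.unitsMap_val,
    Units.val_one, ZMod.cast_eq_val, EE]
  by_cases hσ : σ = 1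
  · subst hσ
    rw [map_one, Units.val_one]
    by_cases hn : n = 1
    · subst hn
      obtain rfl : m = 1 := Nat.dvd_one.mp hmn
      simp
    · haveI : Fact (1 < n) := ⟨by have := NeZero.ne n; omega⟩
      rw [ZMod.val_one]
      simp
  · have h1 := val_pos (n := n) hσ
    have h2 : (((galEquivZMod n L σ).val.val : ℕ) : ZMod m) = 1 ↔
        (galEquivZMod n L σ).val.val ≡ 1 [MOD m] := by
      rw [← ZMod.natCast_eq_natCast_iff, Nat.cast_one]
    rw [h2]
    constructor
    · intro h
      exact ((Nat.modEq_iff_dvd' h1.le).mpr h).symm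
    · intro h
      exact (Nat.modEq_iff_dvd' h1.le).mp h.symm

open Classical in
theorem factorization_NN {p a m : ℕ} (hp : p.Prime) (hpm : ¬ p ∣ m) (hn : n = p ^ a * m)
    {σ : Gal(L/ℚ)} (hσ : σ ≠ 1) :
    (NN (n := n) σ).factorization p =
      ∑ j ∈ Finset.range a, if EE (n := n) σ (p ^ j * m) then Nat.totient (p ^ j * m) else 0 := by
  have h1 := val_pos (n := n) hσ
  set u := (galEquivZMod n L σ).val.val with hu
  have hun : u < n := ZMod.val_lt _
  have hk : u = (u - 1) + 1 := by omega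
  have hσz : σ • zt n L = zt n L ^ u := galEquivZMod_smul_of_pow_eq n L σ zt_primitive.pow_eq_one
  have hunit : IsUnit (zt n L) := zt_primitive.isUnit (NeZero.ne n)
  have hNN : NN (n := n) σ = absNorm (span {1 - zt n L ^ (u - 1)}) := by
    rw [NN, hσz]
    congr 1
    rw [Ideal.span_singleton_eq_span_singleton]
    have h2 : zt n L - zt n L ^ u = (1 - zt n L ^ (u - 1)) * zt n L := by
      conv_lhs => rw [hk]
      ring
    rw [h2]
    exact associated_mul_unit_left _ _ hunit
  let d := orderOf (zt n L ^ (u - 1))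
  have hξ : IsPrimitiveRoot (zt n L ^ (u - 1)) d := IsPrimitiveRoot.orderOf _
  have hd : d * Nat.gcd n (u - 1) = n := by
    have h3 : d = n / Nat.gcd n (u - 1) := by
      change orderOf (zt n L ^ (u - 1)) = _
      rw [orderOf_pow' _ (by omega : u - 1 ≠ 0), ← zt_primitive.eq_orderOf]
    rw [h3]
    exact Nat.div_mul_cancel (Nat.gcd_dvd_left _ _)
  have hd1 : 1 < d := by
    have hgk : Nat.gcd n (u - 1) ≤ u - 1 := Nat.le_of_dvd (by omega) (Nat.gcd_dvd_right _ _)
    by_contra h
    have h3 : d ≤ 1 := by omega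
    have h4 : d * Nat.gcd n (u - 1) ≤ 1 * (u - 1) := Nat.mul_le_mul h3 hgk
    omega
  obtain ⟨e, he, hnorm⟩ := absNorm_one_sub (n := n) hd1 hξ
  rw [hNN, hnorm]
  have h5 := factorization_eval (p := p) (a := a) (m := m) (k := u - 1) (d := d) (e := e) hp hpm
    (by omega) (by rw [← hn]; omega) (by rw [← hn]; exact hd) (by rw [← hn]; exact he)
  rw [h5]
  exact Finset.sum_congr rfl fun j _ => if_congr Iff.rfl rfl rfl

end Fermat.Agent.Cor.H25Z
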