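import Fermat.Agent.Cor.H25CD3

/-!
# The conductor-discriminant formula IV

For `F ⊆ ℚ(ζ_n)` with group of Dirichlet characters `X`: `|d_F| = ∏_{χ ∈ X} f_χ`.
-/

set_option autoImplicit false
set_option linter.style.haveILetI false
set_option linter.unusedSectionVars false

noncomputable section

namespace Fermat.Agent.Cor.H25Z

open NumberField Ideal DirichletCharacter IsCyclotomicExtension.Rat
open scoped Pointwise

section Arith

theorem dvd_pow_mul_iff {p a m f j : ℕ} (hp : p.Prime) (hpm : ¬ p ∣ m) (hf : f ∣ p ^ a * m) :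
    f ∣ p ^ j * m ↔ f.factorization p ≤ j := by
  have hm : m ≠ 0 := fun h => hpm (h ▸ dvd_zero p)
  have hn : p ^ a * m ≠ 0 := Nat.mul_ne_zero (pow_ne_zero _ hp.ne_zero) hm
  have hf0 : f ≠ 0 := fun h => hn (by rw [h, zero_dvd_iff] at hf; exact hf)
  obtain ⟨v, f', hf', hfv⟩ := Nat.exists_eq_pow_mul_and_not_dvd hf0 p hp.ne_one
  have hv : f.factorization p = v := by
    rw [hfv, Nat.factorization_mul (pow_ne_zero _ hp.ne_zero) (by rintro rfl; exact hf' (dvd_zero p)),
      Finsupp.add_apply, hp.factorization_pow, Finsupp.single_eq_same,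
      Nat.factorization_eq_zero_of_not_dvd hf', add_zero]
  have hc : (p ^ v).Coprime m := Nat.Coprime.pow_left _ ((Nat.Prime.coprime_iff_not_dvd hp).mpr hpm)
  have hc' : ∀ i, f'.Coprime (p ^ i) := fun i =>
    (Nat.Coprime.pow_left _ ((Nat.Prime.coprime_iff_not_dvd hp).mpr hf')).symm
  have hf'm : f' ∣ m := (hc' a).dvd_of_dvd_mul_left ((Dvd.intro_left _ hfv.symm).trans hf)
  rw [hv]
  constructor
  · intro h
    have h1 : p ^ v ∣ p ^ j := hc.dvd_of_dvd_mul_right ((Dvd.intro _ hfv.symm).trans h)
    exact (Nat.pow_dvd_pow_iff_le_right hp.one_lt).mp h1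
  · intro h
    rw [hfv]
    exact Nat.mul_dvd_mul (pow_dvd_pow p h) hf'm

open Classical in
theorem factorization_eq_sum {p a m f : ℕ} (hp : p.Prime) (hpm : ¬ p ∣ m) (hf : f ∣ p ^ a * m) :
    f.factorization p = ∑ j ∈ Finset.range a, if ¬ f ∣ p ^ j * m then 1 else 0 := by
  have hm : m ≠ 0 := fun h => hpm (h ▸ dvd_zero p)
  have h1 : f.factorization p ≤ a := (dvd_pow_mul_iff hp hpm hf).mp hf
  have h2 : ∀ j, (¬ f ∣ p ^ j * m) ↔ j ∈ Finset.range (f.factorization p) := by
    intro j
    rw [dvd_pow_mul_iff hp hpm hf, not_le, Finset.mem_range]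
  rw [← Finset.sum_filter]
  have h3 : (Finset.range a).filter (fun j => ¬ f ∣ p ^ j * m) =
      Finset.range (f.factorization p) := by
    ext j
    rw [Finset.mem_filter, h2, Finset.mem_range, Finset.mem_range]
    constructor
    · exact fun h => h.2
    · exact fun h => ⟨by omega, h⟩
  rw [h3, Finset.sum_const, Finset.card_range, smul_eq_mul, mul_one]

end Arith

variable {n : ℕ} [NeZero n] {L : Type*} [Field L] [NumberField L]
  [IsCyclotomicExtension {n} ℚ L] [IsAbelianGalois ℚ L] (F : IntermediateField ℚ L)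

theorem card_conductor_dvd {m : ℕ} [NeZero m] (hmn : m ∣ n) :
    Nat.card {χ : intermediateFieldEquivSubgroupChar n L ℂ F // χ.1.conductor ∣ m} =
      (F.fixingSubgroup ⊔ (⊥ : Subgroup (ZMod m)ˣ).comap (rho hmn L)).index := by
  rw [← card_chars]
  have hmem : ∀ ψ : DirichletCharacter ℂ m, ψ ∈ chars F hmn ⊥ ↔
      changeLevel hmn ψ ∈ intermediateFieldEquivSubgroupChar n L ℂ F := by
    intro ψ
    rw [mem_intermediateFieldEquivSubgroupChar_iff, mem_chars]
    simp_rw [changeLevel_rho]
    refine ⟨fun h => h.1, fun h => ⟨h, fun z hz => ?_⟩⟩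
    rw [Subgroup.mem_bot] at hz
    rw [hz]
    simp
  refine (Nat.card_congr (Equiv.ofBijective
    (fun ψ : chars F hmn ⊥ => (⟨⟨changeLevel hmn ψ.1, (hmem ψ.1).mp ψ.2⟩, ?_⟩ :
      {χ : intermediateFieldEquivSubgroupChar n L ℂ F // χ.1.conductor ∣ m})) ⟨?_, ?_⟩)).symm
  · rw [conductor_changeLevel]
    exact ψ.1.conductor_dvd_level
  · intro ψ ψ' h
    exact Subtype.ext (changeLevel_injective hmn
      (congrArg (fun x : {χ : intermediateFieldEquivSubgroupChar n L ℂ F // χ.1.conductor ∣ m} =>
        x.1.1) h))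
  · rintro ⟨⟨χ, hχ⟩, hc⟩
    have hf : χ.FactorsThrough m := FactorsThrough.mono χ χ.factorsThrough_conductor hc hmn
    refine ⟨⟨hf.χ₀, ?_⟩, Subtype.ext (Subtype.ext hf.eq_changeLevel.symm)⟩
    rw [hmem, ← hf.eq_changeLevel]
    exact hχ

open Classical in
theorem key_count [Fintype Gal(L/ℚ)] [Fintype (intermediateFieldEquivSubgroupChar n L ℂ F)]
    {m : ℕ} [NeZero m] (hmn : m ∣ n) :
    Nat.totient m * ((Finset.univ : Finset Gal(L/ℚ)).filter
      (fun σ => σ ∉ F.fixingSubgroup ∧ EE (n := n) σ m)).card =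
    Nat.card F.fixingSubgroup * ((Finset.univ :
      Finset (intermediateFieldEquivSubgroupChar n L ℂ F)).filter
      (fun χ => ¬ χ.1.conductor ∣ m)).card := by
  haveI := normal_sub F
  set H := F.fixingSubgroup with hH
  set U := (⊥ : Subgroup (ZMod m)ˣ).comap (rho hmn L) with hU
  have hcardU : Nat.card U * Nat.totient m = Nat.totient n := by
    have h1 := card_comap_rho (L := L) hmn ⊥
    rwa [Subgroup.index_bot, Nat.card_eq_fintype_card (α := (ZMod m)ˣ),
      ZMod.card_units_eq_totient] at h1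
  have hG : Nat.card H * H.index = Nat.totient n := by rw [Subgroup.card_mul_index, card_gal n L]
  -- `y = |H ∩ U|`
  set y := Nat.card (U.subgroupOf H) with hy
  have h0 : Nat.card (H.subgroupOf U) = y :=
    Nat.card_congr
      { toFun := fun a => ⟨⟨a.1.1, a.2⟩, a.1.2⟩
        invFun := fun a => ⟨⟨a.1.1, a.2⟩, a.1.2⟩
        left_inv := fun _ => rfl
        right_inv := fun _ => rfl }
  obtain ⟨x, hx⟩ : ∃ x, Nat.card U = x * y :=
    ⟨(H.subgroupOf U).index, by rw [← (H.subgroupOf U).card_mul_index, h0, mul_comm]⟩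
  have hx0 : 0 < x := by
    rcases Nat.eq_zero_or_pos x with h | h
    · rw [h, zero_mul] at hx
      exact absurd hx Nat.card_pos.ne'
    · exact h
  have h1 := sup_index H U hx hy.symm
  have h2 : Nat.card H * (H ⊔ U).index = y * Nat.totient m := by
    apply Nat.eq_of_mul_eq_mul_right hx0
    rw [mul_assoc, h1, hG, ← hcardU, hx]
    ring
  -- the elements of `U`
  have h3 : ((Finset.univ : Finset Gal(L/ℚ)).filter (fun σ => σ ∉ H ∧ EE (n := n) σ m)).card + y =
      Nat.card U := by
    have h4 : Nat.card U = ((Finset.univ : Finset Gal(L/ℚ)).filter (fun σ => σ ∈ U)).card := by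
      rw [Nat.card_eq_fintype_card, Fintype.card_subtype]
    have h5 : y = ((Finset.univ : Finset Gal(L/ℚ)).filter (fun σ => σ ∈ U ∧ σ ∈ H)).card := by
      rw [hy, ← Fintype.card_subtype, ← Nat.card_eq_fintype_card]
      exact Nat.card_congr
        { toFun := fun a => ⟨a.1.1, a.2, a.1.2⟩
          invFun := fun a => ⟨⟨a.1, a.2.2⟩, a.2.1⟩
          left_inv := fun _ => rfl
          right_inv := fun _ => rfl }
    have h6 : (Finset.univ : Finset Gal(L/ℚ)).filter (fun σ => σ ∉ H ∧ EE (n := n) σ m) =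
        Finset.univ.filter (fun σ => σ ∈ U ∧ ¬ σ ∈ H) := by
      ext σ
      simp only [Finset.mem_filter, Finset.mem_univ, true_and]
      rw [EE_iff hmn, and_comm]
    have h7 := Finset.card_filter_add_card_filter_not (s := (Finset.univ : Finset Gal(L/ℚ)).filter (fun σ => σ ∈ U))
      (fun σ => σ ∈ H)
    rw [Finset.filter_filter, Finset.filter_filter] at h7
    rw [h6, h5, h4, ← h7, add_comm]
  -- the characters
  have h8 : ((Finset.univ : Finset (intermediateFieldEquivSubgroupChar n L ℂ F)).filter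
      (fun χ => ¬ χ.1.conductor ∣ m)).card + (H ⊔ U).index = H.index := by
    have h9 : H.index = Fintype.card (intermediateFieldEquivSubgroupChar n L ℂ F) := by
      rw [← Nat.card_eq_fintype_card, card_intermediateFieldEquivSubgroupChar,
        IntermediateField.finrank_eq_fixingSubgroup_index L F]
    have h10 : (H ⊔ U).index = ((Finset.univ :
        Finset (intermediateFieldEquivSubgroupChar n L ℂ F)).filter
        (fun χ => χ.1.conductor ∣ m)).card := by
      rw [← card_conductor_dvd F hmn, ← Fintype.card_subtype, ← Nat.card_eq_fintype_card]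
    rw [h9, h10, ← Finset.card_univ, add_comm]
    exact Finset.card_filter_add_card_filter_not _
  have h11 := congrArg (fun t => Nat.totient m * t) h3
  have h12 := congrArg (fun t => Nat.card H * t) h8
  simp only [mul_add] at h11 h12
  rw [mul_comm (Nat.totient m) (Nat.card U), hcardU] at h11
  rw [hG, h2] at h12
  rw [mul_comm (Nat.totient m) y] at h11
  exact Nat.add_right_cancel (h11.trans h12.symm)

open Classical in
/-- **The conductor-discriminant formula** for subfields of cyclotomic fields -/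
theorem natAbs_discr_eq_prod [Fintype (intermediateFieldEquivSubgroupChar n L ℂ F)] :
    (NumberField.discr F).natAbs =
      ∏ χ : intermediateFieldEquivSubgroupChar n L ℂ F, χ.1.conductor := by
  letI : Fintype Gal(L/ℚ) := Fintype.ofFinite _
  have hh : 0 < Nat.card F.fixingSubgroup := Nat.card_pos
  have hd0 : (NumberField.discr F).natAbs ≠ 0 := Int.natAbs_ne_zero.mpr (NumberField.discr_ne_zero F)
  have hc0 : ∀ χ : intermediateFieldEquivSubgroupChar n L ℂ F, χ.1.conductor ≠ 0 := fun χ =>
    conductor_ne_zero χ.1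
  refine Nat.eq_of_factorization_eq hd0 (Finset.prod_ne_zero_iff.mpr fun χ _ => hc0 χ) fun p => ?_
  by_cases hp : p.Prime
  swap
  · rw [Nat.factorization_eq_zero_of_not_prime _ hp, Nat.factorization_eq_zero_of_not_prime _ hp]
  obtain ⟨a, m, hpm, hn⟩ := Nat.exists_eq_pow_mul_and_not_dvd (NeZero.ne n) p hp.ne_one
  haveI : NeZero m := ⟨fun h => hpm (h ▸ dvd_zero p)⟩
  apply Nat.eq_of_mul_eq_mul_left hh
  -- left hand side
  have h1 : Nat.card F.fixingSubgroup * (NumberField.discr F).natAbs.factorization p =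
      ∑ j ∈ Finset.range a, Nat.totient (p ^ j * m) * ((Finset.univ : Finset Gal(L/ℚ)).filter
        (fun σ => σ ∉ F.fixingSubgroup ∧ EE (n := n) σ (p ^ j * m))).card := by
    have h2 := congrArg (fun t : ℕ => t.factorization p) (discr_pow (n := n) F)
    simp only [Nat.factorization_pow, Finsupp.smul_apply, smul_eq_mul] at h2
    rw [h2, Nat.factorization_prod (fun σ hσ => NN_ne_zero (n := n) (by
      rintro rfl
      exact (Finset.mem_filter.mp hσ).2 (one_mem _))), Finsupp.finsetSum_apply]
    rw [Finset.sum_congr rfl (fun σ hσ => factorization_NN (n := n) hp hpm hn (σ := σ) (by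
      rintro rfl
      exact (Finset.mem_filter.mp hσ).2 (one_mem _))), Finset.sum_comm]
    refine Finset.sum_congr rfl fun j _ => ?_
    rw [← Finset.sum_filter, Finset.sum_const, smul_eq_mul, Finset.filter_filter, mul_comm]
  -- right hand side
  have h3 : (∏ χ : intermediateFieldEquivSubgroupChar n L ℂ F, χ.1.conductor).factorization p =
      ∑ j ∈ Finset.range a, ((Finset.univ :
        Finset (intermediateFieldEquivSubgroupChar n L ℂ F)).filter
        (fun χ => ¬ χ.1.conductor ∣ p ^ j * m)).card := by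
    rw [Nat.factorization_prod (fun χ _ => hc0 χ), Finsupp.finsetSum_apply]
    rw [Finset.sum_congr rfl (fun χ _ => factorization_eq_sum (a := a) (m := m)
      (f := χ.1.conductor) hp hpm (hn ▸ χ.1.conductor_dvd_level)), Finset.sum_comm]
    refine Finset.sum_congr rfl fun j _ => ?_
    rw [← Finset.sum_filter, Finset.sum_const, smul_eq_mul, mul_one]
  rw [h1, h3, Finset.mul_sum]
  refine Finset.sum_congr rfl fun j hj => ?_
  haveI : NeZero (p ^ j * m) := ⟨Nat.mul_ne_zero (pow_ne_zero _ hp.ne_zero) (NeZero.ne m)⟩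
  exact key_count F (by
    rw [hn]
    exact Nat.mul_dvd_mul_right (pow_dvd_pow p (Finset.mem_range.mp hj).le) m)

end Fermat.Agent.Cor.H25Z
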