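import Fermat.Agent.Cor.H25AbelianZeta
import Fermat.Agent.Cor.H25CD4

/-!
# The conductor-discriminant formula for abelian number fields

Let `K` be an abelian number field and `X` its group of Dirichlet characters (`IsCharGroup K X`, see
`Fermat.Agent.Cor.H25AbelianZeta`). Then `|d_K| = ∏_{χ ∈ X} f_χ`, where `f_χ` is the conductor of `χ`
(`IsCharGroup.natAbs_discr`). In particular a prime `p` ramifies in `K` if and only if it divides the conductor of some
`χ ∈ X` (`IsCharGroup.dvd_discr_iff`).

Together with the analytic class number formula this gives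
`2^r₁ (2π)^r₂ R h = w ∏_{χ ∈ X} √f_χ ∏_{χ ∈ X, χ ≠ 1} L(1, χ)` (`IsCharGroup.classNumber_mul_regulator`).

No statement file imports this file.
-/

set_option autoImplicit false
set_option linter.style.haveILetI false

noncomputable section

namespace Fermat.Agent.Cor.H25Z

open NumberField DirichletCharacter IsCyclotomicExtension.Rat
open NumberField.InfinitePlace NumberField.Units
open scoped Real

variable {K : Type*} [Field K] [NumberField K] {n : ℕ} [NeZero n]
  {X : Subgroup (DirichletCharacter ℂ n)}

theorem discr_congr {K K' : Type*} [Field K] [NumberField K] [Field K'] [NumberField K']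
    (e : K ≃+* K') : NumberField.discr K = NumberField.discr K' :=
  NumberField.discr_eq_discr_of_algEquiv K
    (AlgEquiv.ofBijective (e : K →+* K').toRatAlgHom e.bijective)

/-- **The conductor-discriminant formula**: `|d_K| = ∏_{χ ∈ X} f_χ` -/
theorem IsCharGroup.natAbs_discr (h : IsCharGroup K X) :
    (NumberField.discr K).natAbs = ∏ᶠ χ : X, χ.1.conductor := by
  obtain ⟨L, _, _, _, _, F, ⟨e⟩, rfl⟩ := h
  letI : Fintype (intermediateFieldEquivSubgroupChar n L ℂ F) := Fintype.ofFinite _
  rw [discr_congr e, natAbs_discr_eq_prod (n := n) F, finprod_eq_prod_of_fintype]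

/-- a prime divides the discriminant of `K` if and only if it divides the conductor of a character of `K` -/
theorem IsCharGroup.dvd_discr_iff (h : IsCharGroup K X) {p : ℕ} (hp : p.Prime) :
    (p : ℤ) ∣ NumberField.discr K ↔ ∃ χ ∈ X, p ∣ conductor χ := by
  letI : Fintype X := Fintype.ofFinite X
  rw [Int.natCast_dvd, h.natAbs_discr, finprod_eq_prod_of_fintype, hp.prime.dvd_finsetProd_iff]
  simp

/-- the analytic class number formula, in terms of the conductors -/
theorem IsCharGroup.classNumber_mul_regulator (h : IsCharGroup K X) :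
    ((2 ^ nrRealPlaces K * (2 * π) ^ nrComplexPlaces K * regulator K * classNumber K : ℝ) : ℂ) =
      torsionOrder K * ((Real.sqrt (∏ᶠ χ : X, χ.1.conductor : ℕ) : ℝ) : ℂ) *
        ∏ᶠ (χ : X) (_ : χ ≠ 1), Lprim χ.1 1 := by
  rw [h.classNumberFormula, ← h.natAbs_discr]
  have h1 : (0 : ℝ) < torsionOrder K := Nat.cast_pos.mpr (torsionOrder_pos K)
  have h2 : (0 : ℝ) < Real.sqrt |(NumberField.discr K : ℝ)| :=
    Real.sqrt_pos_of_pos (abs_pos.mpr (Int.cast_ne_zero.mpr (NumberField.discr_ne_zero K)))
  have h3 : (((NumberField.discr K).natAbs : ℕ) : ℝ) = |(NumberField.discr K : ℝ)| :=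
    Nat.cast_natAbs _ |>.trans (by push_cast; rfl)
  rw [h3]
  have h4 : (2 ^ nrRealPlaces K * (2 * π) ^ nrComplexPlaces K * regulator K * classNumber K : ℝ) =
      torsionOrder K * Real.sqrt |(NumberField.discr K : ℝ)| *
      ((2 ^ nrRealPlaces K * (2 * π) ^ nrComplexPlaces K * regulator K * classNumber K) /
        (torsionOrder K * Real.sqrt |(NumberField.discr K : ℝ)|)) := by
    field_simp
  conv_lhs => rw [h4]
  push_cast
  rfl

end Fermat.Agent.Cor.H25Z
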