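import Fermat.Agent.Cor.H25AbelianZeta

/-!
# Dedekind's conjecture for abelian number fields

`exists_entire_quotient` : for an abelian number field `K` the quotient `ζ_K / ζ` is an entire function.

No statement file imports this file.
-/

set_option autoImplicit false
set_option linter.style.haveILetI false

noncomputable section

namespace Fermat.Agent.Cor.H25Z

open NumberField DirichletCharacter

theorem LFunction_of_level_one {m : ℕ} [NeZero m] (hm : m = 1) (χ : DirichletCharacter ℂ m) (s : ℂ) :
    LFunction χ s = riemannZeta s := by
  subst hm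
  rw [LFunction_modOne_eq]

theorem Lprim_trivial {n : ℕ} [NeZero n] (s : ℂ) :
    Lprim (1 : DirichletCharacter ℂ n) s = riemannZeta s := by
  haveI : NeZero (conductor (1 : DirichletCharacter ℂ n)) := ⟨conductor_ne_zero _⟩
  exact LFunction_of_level_one conductor_one _ s

/-- **Dedekind's conjecture for abelian number fields**: `ζ_K / ζ` is an entire function, with value at `1` the residue of
`ζ_K` -/
theorem exists_entire_quotient (K : Type*) [Field K] [NumberField K] [IsAbelianGalois ℚ K] :
    ∃ E : ℂ → ℂ, Differentiable ℂ E ∧ E 1 = (dedekindZeta_residue K : ℂ) ∧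
      ∀ s, 1 < s.re → dedekindZeta K s = riemannZeta s * E s := by
  obtain ⟨n, _, X, h⟩ := exists_isCharGroup K
  refine ⟨zetaX' X, zetaX'_differentiable X, residue_eq fun _ hs => h.dedekindZeta_eq hs,
    fun s hs => ?_⟩
  rw [h.dedekindZeta_eq hs]
  have h1 := zetaX_eq X s
  rw [Lprim_trivial] at h1
  exact h1

end Fermat.Agent.Cor.H25Z
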