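import Fermat.Agent.Cor.H25Dir1

/-!
# One-dimensional Galois representations are Dirichlet characters

Let `χ : Gal(ℚ̄/ℚ) → ℂˣ` be a continuous character.

* `cts_iff_continuous` : `χ` is continuous if and only if its kernel is open;
* `exists_dirichlet` : there are `n` and a primitive Dirichlet character `ψ` modulo `n` with `χ(σ) = ψ(cyc_n(σ))` for all
  `σ`; the primes dividing `n` are exactly the primes at which `χ` is ramified; at the other primes `q` one has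
  `χ(Frob_q) = ψ(q)`; and `(n, ψ)` is unique;
* `exists_of_dirichlet` : conversely every primitive Dirichlet character arises;
* `artin_entire` : the Artin `L`-function `L(s, χ) = ∏_q (1 - a_q q^(-s))⁻¹` of `χ ≠ 1` (with `a_q = χ(Frob_q)` if `χ` is
  unramified at `q`, and `a_q = 0` otherwise) extends to an entire function, without zeros on `Re s ≥ 1`;
* `artin_functional_equation` : its completion satisfies a functional equation `s ↔ 1 - s`.

No statement file imports this file.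
-/

set_option autoImplicit false
set_option linter.style.haveILetI false

noncomputable section

namespace Fermat.Agent.Cor.H25Dir

open Fermat.Agent.CC (Qb GQ)
open Fermat.Agent.Cor.KW
open DirichletCharacter Topology Filter

/-- `ℂˣ` has no small subgroups -/
theorem nss {z : ℂ} (h : ∀ k : ℕ, ‖z ^ (2 ^ k) - 1‖ < 1 / 2) : z = 1 := by
  by_contra hz
  have hz' : 0 < ‖z - 1‖ := norm_pos_iff.mpr (sub_ne_zero.mpr hz)
  have h1 : ∀ k : ℕ, (3 / 2 : ℝ) ^ k * ‖z - 1‖ ≤ ‖z ^ (2 ^ k) - 1‖ := by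
    intro k
    induction k with
    | zero => simp
    | succ k ih =>
      have h2 : z ^ (2 ^ (k + 1)) - 1 = (z ^ (2 ^ k) - 1) * (z ^ (2 ^ k) + 1) := by
        rw [pow_succ, pow_mul]
        ring
      have h3 : (3 / 2 : ℝ) ≤ ‖z ^ (2 ^ k) + 1‖ := by
        have h4 : (2 : ℂ) = (z ^ (2 ^ k) + 1) - (z ^ (2 ^ k) - 1) := by ring
        have h5 : ‖(2 : ℂ)‖ ≤ ‖z ^ (2 ^ k) + 1‖ + ‖z ^ (2 ^ k) - 1‖ := by
          conv_lhs => rw [h4]
          exact norm_sub_le _ _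
        have h6 := h k
        rw [Complex.norm_ofNat] at h5
        linarith
      rw [h2, norm_mul, pow_succ]
      calc (3 / 2 : ℝ) ^ k * (3 / 2) * ‖z - 1‖ = ((3 / 2 : ℝ) ^ k * ‖z - 1‖) * (3 / 2) := by ring
        _ ≤ ‖z ^ (2 ^ k) - 1‖ * ‖z ^ (2 ^ k) + 1‖ :=
          mul_le_mul ih h3 (by norm_num) (norm_nonneg _)
  obtain ⟨k, hk⟩ := pow_unbounded_of_one_lt (1 / 2 / ‖z - 1‖) (by norm_num : (1 : ℝ) < 3 / 2)
  have h2 := (div_lt_iff₀ hz').mp hk
  have h3 := h1 k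
  have h4 := h k
  linarith

/-- a character is continuous if and only if its kernel is open -/
theorem cts_iff_continuous (χ : GQ →* ℂˣ) : Cts χ ↔ Continuous χ := by
  constructor
  · intro h
    refine continuous_of_continuousAt_one χ ?_
    refine ContinuousAt.congr (f := fun _ => (1 : ℂˣ)) continuousAt_const ?_
    have h1 : (χ.ker : Set GQ) ∈ 𝓝 (1 : GQ) := h.mem_nhds (one_mem _)
    filter_upwards [h1] with g hg
    exact (show χ g = 1 from hg).symm
  · intro h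
    let V : Set ℂˣ := {u | ‖(u : ℂ) - 1‖ < 1 / 2}
    have hV : V ∈ 𝓝 (1 : ℂˣ) := by
      have h1 : IsOpen V :=
        isOpen_lt ((Units.continuous_val.sub continuous_const).norm) continuous_const
      refine h1.mem_nhds ?_
      simp [V]
    have h2 : χ ⁻¹' V ∈ 𝓝 (1 : GQ) := h.continuousAt.preimage_mem_nhds (by rwa [map_one])
    obtain ⟨E, hE, hEV⟩ := (krullTopology_mem_nhds_one_iff ℚ Qb _).mp h2
    haveI : FiniteDimensional ℚ E := hE
    refine Subgroup.isOpen_mono (H₁ := E.fixingSubgroup) ?_ (IntermediateField.fixingSubgroup_isOpen E)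
    intro g hg
    rw [MonoidHom.mem_ker]
    ext
    rw [Units.val_one]
    refine nss fun k => ?_
    have h3 : g ^ (2 ^ k) ∈ χ ⁻¹' V := hEV (pow_mem hg _)
    have h4 : ‖((χ (g ^ (2 ^ k)) : ℂˣ) : ℂ) - 1‖ < 1 / 2 := h3
    rwa [map_pow, Units.val_pow_eq_pow_val] at h4

/-- `χ` is the Galois character attached to the Dirichlet character `ψ` -/
def Corr (χ : GQ →* ℂˣ) {n : ℕ} [NeZero n] (ψ : DirichletCharacter ℂ n) : Prop :=
  ∀ σ : GQ, ((χ σ : ℂˣ) : ℂ) = ψ (DS.cyc n σ)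

theorem Corr.lev {χ : GQ →* ℂˣ} {n : ℕ} [NeZero n] {ψ : DirichletCharacter ℂ n} (h : Corr χ ψ) :
    Lev χ n :=
  ⟨Nat.pos_of_ne_zero (NeZero.ne n), fun g hg => Units.ext (by rw [h g, cyc_eq_one hg]; simp)⟩

theorem Corr.changeLevel {χ : GQ →* ℂˣ} {n m : ℕ} [NeZero n] [NeZero m]
    {ψ : DirichletCharacter ℂ n} (h : Corr χ ψ) (hnm : n ∣ m) :
    Corr χ (DirichletCharacter.changeLevel hnm ψ) := by
  intro σ
  rw [changeLevel_eq_cast_of_dvd, h σ]
  congr 1
  -- compatibility of the cyclotomic characters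
  obtain ⟨ζ, hζ⟩ := DS.exists_primitive m
  obtain ⟨k, rfl⟩ := hnm
  have hk : 0 < k := Nat.pos_of_ne_zero fun h0 => by
    subst h0
    exact NeZero.ne (n * 0) (mul_zero n)
  have hζ' : IsPrimitiveRoot (ζ ^ k) n := hζ.pow (Nat.pos_of_ne_zero (NeZero.ne _)) (mul_comm _ _)
  have h1 : σ (ζ ^ k) = (ζ ^ k) ^ ((DS.cyc (n * k) σ : (ZMod (n * k))ˣ) : ZMod (n * k)).val := by
    rw [map_pow, DS.cyc_spec σ hζ.pow_eq_one, ← pow_mul, ← pow_mul, mul_comm]
  have hc : ((DS.cyc (n * k) σ : (ZMod (n * k))ˣ) : ZMod (n * k)).val.Coprime n :=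
    (ZMod.val_coe_unit_coprime _).coprime_dvd_right (Dvd.intro _ rfl)
  rw [DS.cyc_eq_of hζ' hc h1, ZMod.coe_unitOfCoprime, ZMod.cast_eq_val]

theorem Corr.eq_of {χ : GQ →* ℂˣ} {n : ℕ} [NeZero n] {ψ ψ' : DirichletCharacter ℂ n}
    (h : Corr χ ψ) (h' : Corr χ ψ') : ψ = ψ' := by
  apply MulChar.ext
  intro u
  obtain ⟨σ, rfl⟩ := DS.cyc_surjective n u
  rw [← h σ, ← h' σ]

theorem lev_iff {χ : GQ →* ℂˣ} {n : ℕ} [NeZero n] :
    Lev χ n ↔ ∃ ψ : DirichletCharacter ℂ n, Corr χ ψ := by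
  constructor
  · intro h
    obtain ⟨θ, hθ⟩ := h.exists_factor
    refine ⟨MulChar.ofUnitHom θ, fun σ => ?_⟩
    rw [MulChar.ofUnitHom_coe, hθ]
    rfl
  · rintro ⟨ψ, h⟩
    exact h.lev

/-- **One-dimensional Galois representations are Dirichlet characters** (Kronecker–Weber): for every continuous
character `χ : Gal(ℚ̄/ℚ) → ℂˣ` there are `n` and a primitive Dirichlet character `ψ` modulo `n` with `χ(σ) = ψ(cyc_n(σ))`,
where `cyc_n(σ)` is given by the action of `σ` on the `n`-th roots of unity. The primes dividing `n` are exactly the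
primes at which `χ` is ramified. -/
theorem exists_dirichlet (χ : GQ →* ℂˣ) (hχ : Continuous χ) :
    ∃ (n : ℕ) (_ : NeZero n) (ψ : DirichletCharacter ℂ n), ψ.IsPrimitive ∧ Corr χ ψ ∧
      ∀ q : ℕ, q.Prime → (q ∣ n ↔ ¬ Unr χ q) := by
  have hc : Cts χ := (cts_iff_continuous χ).mpr hχ
  have hlev := lev_conductor hc
  haveI hn : NeZero (conductor χ) := ⟨hlev.1.ne'⟩
  obtain ⟨ψ, hψ⟩ := lev_iff.mp hlev
  refine ⟨conductor χ, hn, ψ, ?_, hψ, fun q hq => dvd_conductor_iff hc hq⟩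
  -- `ψ` is primitive
  haveI : NeZero ψ.conductor := ⟨conductor_ne_zero ψ⟩
  have hf := ψ.factorsThrough_conductor
  have h1 : Corr χ hf.χ₀ := by
    intro σ
    -- the Galois character attached to `χ₀`
    let χ' : GQ →* ℂˣ := (MulChar.toUnitHom hf.χ₀).comp (DS.cyc ψ.conductor)
    have h3 : Corr χ' hf.χ₀ := fun τ => MulChar.coe_toUnitHom _ _
    have h4 : Corr χ' ψ := by
      have h5 := h3.changeLevel hf.dvd
      rwa [← hf.eq_changeLevel] at h5
    have h6 : χ σ = χ' σ := Units.ext (by rw [hψ σ, h4 σ])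
    rw [h6]
    exact h3 σ
  exact le_antisymm (Nat.le_of_dvd hlev.1 ψ.conductor_dvd_level) (conductor_le h1.lev)

/-- uniqueness of the primitive Dirichlet character attached to `χ` -/
theorem corr_unique {χ : GQ →* ℂˣ} {n m : ℕ} [NeZero n] [NeZero m] {ψ : DirichletCharacter ℂ n}
    {ψ' : DirichletCharacter ℂ m} (h : Corr χ ψ) (h' : Corr χ ψ') (hψ : ψ.IsPrimitive)
    (hψ' : ψ'.IsPrimitive) : n = m ∧ ∀ a : ℤ, ψ a = ψ' a := by
  haveI : NeZero (n * m) := ⟨Nat.mul_ne_zero (NeZero.ne n) (NeZero.ne m)⟩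
  have h1 : DirichletCharacter.changeLevel (Dvd.intro _ rfl : n ∣ n * m) ψ =
      DirichletCharacter.changeLevel (Dvd.intro_left _ rfl : m ∣ n * m) ψ' :=
    (h.changeLevel _).eq_of (h'.changeLevel _)
  have h2 := conductor_changeLevel ψ (Dvd.intro _ rfl : n ∣ n * m)
  have h3 := conductor_changeLevel ψ' (Dvd.intro_left _ rfl : m ∣ n * m)
  rw [h1, h3, (isPrimitive_def ψ).mp hψ, (isPrimitive_def ψ').mp hψ'] at h2
  subst h2
  refine ⟨rfl, fun a => ?_⟩
  rw [h.eq_of h']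

/-- every Dirichlet character comes from a continuous Galois character -/
theorem exists_of_dirichlet {n : ℕ} [NeZero n] (ψ : DirichletCharacter ℂ n) :
    ∃ χ : GQ →* ℂˣ, Continuous χ ∧ Corr χ ψ := by
  let χ : GQ →* ℂˣ := (MulChar.toUnitHom ψ).comp (DS.cyc n)
  exact ⟨χ, (cts_iff_continuous χ).mp (cts_cyc.comp _), fun τ => MulChar.coe_toUnitHom _ _⟩

/-- value at the Frobenius elements -/
theorem Corr.frob {χ : GQ →* ℂˣ} {n : ℕ} [NeZero n] {ψ : DirichletCharacter ℂ n} (h : Corr χ ψ)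
    {q : ℕ} (hq : q.Prime) (hqn : ¬ q ∣ n) {A : ValuationSubring Qb} (hA : A.LiesOverPrime q)
    {σ : GQ} (hσ : A.IsFrobeniusAt σ q) : ((χ σ : ℂˣ) : ℂ) = ψ (q : ZMod n) := by
  have hc : q.Coprime n := (Nat.Prime.coprime_iff_not_dvd hq).mpr hqn
  rw [h σ, DS.cyc_frob hq hqn hA hσ hc, ZMod.coe_unitOfCoprime]

/-- `a` is the coefficient at `q` of the Artin `L`-function of `χ`: the value of `χ` at the Frobenius elements if `χ` is
unramified at `q`, and `0` otherwise -/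
def IsArtinCoeff (χ : GQ →* ℂˣ) (q : ℕ) (a : ℂ) : Prop :=
  (Unr χ q → ∀ A : ValuationSubring Qb, A.LiesOverPrime q → ∀ σ : GQ, A.IsFrobeniusAt σ q →
    ((χ σ : ℂˣ) : ℂ) = a) ∧ (¬ Unr χ q → a = 0)

theorem IsArtinCoeff.unique {χ : GQ →* ℂˣ} {q : ℕ} (hq : q.Prime) {a b : ℂ}
    (ha : IsArtinCoeff χ q a) (hb : IsArtinCoeff χ q b) : a = b := by
  by_cases hu : Unr χ q
  · haveI := H51.isGalois_Qbar
    obtain ⟨A, hA⟩ := H05.exists_liesOverPrime Qb hq
    obtain ⟨σ, hσ⟩ := H05.exists_isFrobeniusAt hq hA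
    rw [← ha.1 hu A hA σ hσ, ← hb.1 hu A hA σ hσ]
  · rw [ha.2 hu, hb.2 hu]

theorem isArtinCoeff_of {χ : GQ →* ℂˣ} {n : ℕ} [NeZero n] {ψ : DirichletCharacter ℂ n}
    (h : Corr χ ψ) (hr : ∀ q : ℕ, q.Prime → (q ∣ n ↔ ¬ Unr χ q)) {q : ℕ} (hq : q.Prime) :
    IsArtinCoeff χ q (ψ (q : ZMod n)) := by
  constructor
  · intro hu A hA σ hσ
    exact h.frob hq (fun hd => (hr q hq).mp hd hu) hA hσ
  · intro hu
    have hd := (hr q hq).mpr hu
    apply ψ.map_nonunit
    rw [ZMod.isUnit_iff_coprime]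
    exact fun hc => (Nat.Prime.coprime_iff_not_dvd hq).mp hc hd

/-- **Artin's conjecture for one-dimensional representations**: for a continuous character `χ ≠ 1` of `Gal(ℚ̄/ℚ)` the Artin
`L`-function `∏_q (1 - a_q q^(-s))⁻¹` converges for `Re s > 1` and extends to an entire function, without zeros on
`Re s ≥ 1`. -/
theorem artin_entire (χ : GQ →* ℂˣ) (hχ : Continuous χ) (h1 : χ ≠ 1) (a : ℕ → ℂ)
    (ha : ∀ q : ℕ, q.Prime → IsArtinCoeff χ q (a q)) :
    ∃ Λ : ℂ → ℂ, Differentiable ℂ Λ ∧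
      (∀ s : ℂ, 1 < s.re → HasProd (fun q : Nat.Primes => (1 - a q * (q : ℂ) ^ (-s))⁻¹) (Λ s)) ∧
      ∀ s : ℂ, 1 ≤ s.re → Λ s ≠ 0 := by
  obtain ⟨n, _, ψ, -, hψ, hr⟩ := exists_dirichlet χ hχ
  have hψ1 : ψ ≠ 1 := by
    rintro rfl
    apply h1
    ext σ
    rw [hψ σ]
    simp
  refine ⟨LFunction ψ, differentiable_LFunction hψ1, fun s hs => ?_,
    fun s hs => LFunction_ne_zero_of_one_le_re ψ (Or.inl hψ1) hs⟩
  rw [LFunction_eq_LSeries ψ hs]
  have h2 := DirichletCharacter.LSeries_eulerProduct_hasProd ψ hs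
  convert h2 using 2 with q
  rw [(ha q q.2).unique q.2 (isArtinCoeff_of hψ hr q.2)]

/-- the value at complex conjugation is the parity of the Dirichlet character -/
theorem Corr.conj {χ : GQ →* ℂˣ} {n : ℕ} [NeZero n] {ψ : DirichletCharacter ℂ n} (h : Corr χ ψ) :
    ((χ cc : ℂˣ) : ℂ) = ψ (-1) := by
  rw [h cc, cyc_cc, Units.val_neg, Units.val_one]

theorem Corr.inv {χ : GQ →* ℂˣ} {n : ℕ} [NeZero n] {ψ : DirichletCharacter ℂ n} (h : Corr χ ψ) :
    Corr χ⁻¹ ψ⁻¹ := by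
  intro σ
  have h1 : (ψ * ψ⁻¹) (DS.cyc n σ : ZMod n) = 1 := by
    rw [mul_inv_cancel]
    simp
  rw [MulChar.mul_apply, ← h σ] at h1
  rw [MonoidHom.inv_apply, Units.val_inv_eq_inv_val]
  exact (eq_inv_of_mul_eq_one_right h1).symm

/-- **The functional equation** of the Artin `L`-function of a one-dimensional representation `χ ≠ 1`. Let `n` be the
conductor of `χ` and `δ = 0` or `1` as `χ(c) = 1` or `-1` (`c` a complex conjugation). There are entire functions `L`,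
`L'` that are given by the Euler products of `χ` and `χ⁻¹` for `Re s > 1`, entire functions `Λ`, `Λ'` with
`Λ(s) = L(s) Γ_ℝ(s + δ)`, `Λ'(s) = L'(s) Γ_ℝ(s + δ)`, and a constant `W` with `Λ(1 - s) = n^(s - 1/2) W Λ'(s)`. -/
theorem artin_functional_equation (χ : GQ →* ℂˣ) (hχ : Continuous χ) (h1 : χ ≠ 1) (a a' : ℕ → ℂ)
    (ha : ∀ q : ℕ, q.Prime → IsArtinCoeff χ q (a q))
    (ha' : ∀ q : ℕ, q.Prime → IsArtinCoeff χ⁻¹ q (a' q)) :
    ∃ (W : ℂ) (L L' Λ Λ' : ℂ → ℂ), Differentiable ℂ L ∧ Differentiable ℂ L' ∧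
      Differentiable ℂ Λ ∧ Differentiable ℂ Λ' ∧
      (∀ s : ℂ, 1 < s.re → HasProd (fun q : Nat.Primes => (1 - a q * (q : ℂ) ^ (-s))⁻¹) (L s)) ∧
      (∀ s : ℂ, 1 < s.re → HasProd (fun q : Nat.Primes => (1 - a' q * (q : ℂ) ^ (-s))⁻¹) (L' s)) ∧
      (∀ s : ℂ, L s = Λ s / Complex.Gammaℝ (s + if χ cc = 1 then 0 else 1)) ∧
      (∀ s : ℂ, L' s = Λ' s / Complex.Gammaℝ (s + if χ cc = 1 then 0 else 1)) ∧
      ∀ s : ℂ, Λ (1 - s) = (conductor χ : ℂ) ^ (s - 1 / 2) * W * Λ' s := by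
  have hc : Cts χ := (cts_iff_continuous χ).mpr hχ
  obtain ⟨n, _, ψ, hp, hψ, hr⟩ := exists_dirichlet χ hχ
  have hψ1 : ψ ≠ 1 := by
    rintro rfl
    apply h1
    ext σ
    rw [hψ σ]
    simp
  have hψ1' : ψ⁻¹ ≠ 1 := fun h => hψ1 (inv_eq_one.mp h)
  have hn1 : n ≠ 1 := by
    rintro rfl
    exact hψ1 (level_one ψ)
  -- the conductor
  have hcond : conductor χ = n := by
    haveI : NeZero (conductor χ) := ⟨(lev_conductor hc).1.ne'⟩
    apply le_antisymm (conductor_le hψ.lev)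
    obtain ⟨ψ', hψ'⟩ := lev_iff.mp (lev_conductor hc)
    haveI : NeZero (n * conductor χ) := ⟨Nat.mul_ne_zero (NeZero.ne n) (NeZero.ne _)⟩
    have h2 : DirichletCharacter.changeLevel (Dvd.intro _ rfl : n ∣ n * conductor χ) ψ =
        DirichletCharacter.changeLevel (Dvd.intro_left _ rfl : conductor χ ∣ n * conductor χ) ψ' :=
      (hψ.changeLevel _).eq_of (hψ'.changeLevel _)
    have h3 := conductor_changeLevel ψ (Dvd.intro _ rfl : n ∣ n * conductor χ)
    have h4 := conductor_changeLevel ψ' (Dvd.intro_left _ rfl : conductor χ ∣ n * conductor χ)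
    rw [h2, h4, (isPrimitive_def ψ).mp hp] at h3
    rw [← h3]
    exact Nat.le_of_dvd (lev_conductor hc).1 ψ'.conductor_dvd_level
  have hunr : ∀ q : ℕ, Unr χ⁻¹ q ↔ Unr χ q := by
    intro q
    constructor <;> intro h A hA g hg <;> have h2 := h A hA hg <;>
      rw [MonoidHom.mem_ker] at h2 ⊢ <;> simpa using h2
  have hr' : ∀ q : ℕ, q.Prime → (q ∣ n ↔ ¬ Unr χ⁻¹ q) := fun q hq => by rw [hunr, hr q hq]
  have hg : ∀ (φ : DirichletCharacter ℂ n), φ (-1) = ψ (-1) → ∀ s : ℂ,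
      gammaFactor φ s = Complex.Gammaℝ (s + if χ cc = 1 then 0 else 1) := by
    intro φ hφ s
    have h2 : χ cc = 1 ↔ φ (-1) = 1 := by
      rw [hφ, ← hψ.conj]
      exact ⟨fun h => by rw [h, Units.val_one], fun h => Units.ext h⟩
    rcases φ.even_or_odd with he | ho
    · rw [he.gammaFactor_def, if_pos (h2.mpr he), add_zero]
    · have h3 : ¬ χ cc = 1 := by
        rw [h2]
        intro h
        rw [show φ (-1) = -1 from ho] at h
        norm_num at h
      rw [ho.gammaFactor_def, if_neg h3]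
  have hinv : ψ⁻¹ (-1) = ψ (-1) := by
    have h2 : (ψ * ψ⁻¹) (-1) = 1 := by
      rw [mul_inv_cancel, MulChar.one_apply isUnit_one.neg]
    rw [MulChar.mul_apply] at h2
    rcases ψ.even_or_odd with he | ho
    · rw [show ψ (-1) = 1 from he, one_mul] at h2
      rw [h2, show ψ (-1) = 1 from he]
    · rw [show ψ (-1) = -1 from ho] at h2 ⊢
      linear_combination -h2
  refine ⟨rootNumber ψ, LFunction ψ, LFunction ψ⁻¹, completedLFunction ψ, completedLFunction ψ⁻¹,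
    differentiable_LFunction hψ1, differentiable_LFunction hψ1',
    differentiable_completedLFunction hψ1, differentiable_completedLFunction hψ1',
    fun s hs => ?_, fun s hs => ?_, fun s => ?_, fun s => ?_, fun s => ?_⟩
  · rw [LFunction_eq_LSeries ψ hs]
    have h2 := DirichletCharacter.LSeries_eulerProduct_hasProd ψ hs
    convert h2 using 2 with q
    rw [(ha q q.2).unique q.2 (isArtinCoeff_of hψ hr q.2)]
  · rw [LFunction_eq_LSeries ψ⁻¹ hs]
    have h2 := DirichletCharacter.LSeries_eulerProduct_hasProd ψ⁻¹ hs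
    convert h2 using 2 with q
    rw [(ha' q q.2).unique q.2 (isArtinCoeff_of hψ.inv hr' q.2)]
  · rw [← hg ψ rfl]
    exact LFunction_eq_completed_div_gammaFactor ψ s (Or.inr hn1)
  · rw [← hg ψ⁻¹ hinv]
    exact LFunction_eq_completed_div_gammaFactor ψ⁻¹ s (Or.inr hn1)
  · rw [hcond]
    exact hp.completedLFunction_one_sub s

end Fermat.Agent.Cor.H25Dir
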