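import Fermat.Agent.Cor.H25Quadratic

/-!
# Quadratic fields: the quadratic character is the Kronecker symbol

Let `K` be a quadratic number field of discriminant `d`, with quadratic character `ψ` modulo `|d|`
(`IsQuadraticChar K ψ`, see `Fermat.Agent.Cor.H25Quadratic`).

* `IsQuadraticChar.aK_eq` : the number of ideals of norm `n` is `∑_{m ∣ n} ψ(m)`;
* `IsQuadraticChar.legendre` : `ψ(p) = (d / p)` for every odd prime `p`;
* `IsQuadraticChar.jacobi` : `ψ(k) = (d / k)` (Jacobi symbol) for every odd `k`;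
* `IsQuadraticChar.unique` : `ψ` is determined by `K`.

No statement file imports this file.
-/

set_option autoImplicit false
set_option linter.style.haveILetI false
set_option linter.unusedSectionVars false

noncomputable section

namespace Fermat.Agent.Cor.H25Z

open NumberField DirichletCharacter Ideal Filter

section Generic

variable {N : ℕ} [NeZero N] (χ : DirichletCharacter ℂ N)

theorem LSeries_zetaMul {s : ℂ} (hs : 1 < s.re) :
    LSeries (χ.zetaMul ·) s = riemannZeta s * LFunction χ s := by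
  rw [zetaMul, ← ArithmeticFunction.coe_mul, LSeries_convolution']
  · rw [LFunction_eq_LSeries χ hs]
    congr 1
    · simp_rw [← ArithmeticFunction.LSeries_zeta_eq_riemannZeta hs, ← ArithmeticFunction.natCoe_apply]
    · refine LSeries_congr ?_ s
      intro k hk
      simp [toArithmeticFunction, hk]
  · exact ArithmeticFunction.LSeriesSummable_zeta_iff.mpr hs
  · exact (LSeriesSummable_congr _ fun {k} hk => by simp [toArithmeticFunction, hk]).mpr
      (ZMod.LSeriesSummable_of_one_lt_re χ hs)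

theorem zetaMul_apply (n : ℕ) : χ.zetaMul n = ∑ m ∈ n.divisors, χ (m : ZMod N) := by
  rw [zetaMul, ArithmeticFunction.coe_zeta_mul_apply]
  refine Finset.sum_congr rfl fun m hm => ?_
  have hm0 : m ≠ 0 := (Nat.pos_of_mem_divisors hm).ne'
  simp [toArithmeticFunction, hm0]

theorem abscissa_zetaMul : LSeries.abscissaOfAbsConv (χ.zetaMul ·) < ⊤ := by
  refine lt_of_le_of_lt (LSeriesSummable.abscissaOfAbsConv_le
    (LSeriesSummable_zetaMul χ (s := 2) (by norm_num))) ?_
  exact EReal.coe_lt_top _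

end Generic

section Count

variable {K : Type*} [Field K] [NumberField K]
  {ψ : DirichletCharacter ℂ (NumberField.discr K).natAbs}

/-- **The number of ideals of norm `n`** in a quadratic field is `∑_{m ∣ n} ψ(m)` -/
theorem IsQuadraticChar.aK_eq (hψ : IsQuadraticChar K ψ) {n : ℕ} (hn : n ≠ 0) :
    (aK K n : ℂ) = ∑ m ∈ n.divisors, ψ (m : ZMod (NumberField.discr K).natAbs) := by
  have h1 : LSeries.abscissaOfAbsConv (fun k => (aK K k : ℂ)) < ⊤ := by
    refine lt_of_le_of_lt (LSeriesSummable.abscissaOfAbsConv_le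
      (lSeriesSummable_aK (K := K) (s := 2) (by norm_num))) ?_
    exact EReal.coe_lt_top _
  have h4 := LSeries.eq_of_LSeries_eventually_eq h1 (abscissa_zetaMul ψ) (by
    filter_upwards [eventually_gt_atTop 1] with x hx
    have hx' : 1 < (x : ℂ).re := by simpa using hx
    rw [LSeries_zetaMul ψ hx', ← hψ.zeta _ hx', dedekindZeta_eq]) hn
  rw [h4, zetaMul_apply]

/-- the quadratic character is unique -/
theorem IsQuadraticChar.unique {ψ' : DirichletCharacter ℂ (NumberField.discr K).natAbs}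
    (hψ : IsQuadraticChar K ψ) (hψ' : IsQuadraticChar K ψ') : ψ = ψ' := by
  have h1 : ∀ n : ℕ, n ≠ 0 → ψ (n : ZMod (NumberField.discr K).natAbs) =
      ψ' (n : ZMod (NumberField.discr K).natAbs) := by
    intro n
    induction n using Nat.strong_induction_on with
    | _ n ih =>
      intro hn
      have h2 := hψ.aK_eq hn
      rw [hψ'.aK_eq hn, ← Nat.insert_self_properDivisors hn,
        Finset.sum_insert Nat.self_notMem_properDivisors,
        Finset.sum_insert Nat.self_notMem_properDivisors] at h2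
      rw [Finset.sum_congr rfl fun m hm => ih m (Nat.mem_properDivisors.mp hm).2
        (Nat.pos_of_mem_properDivisors hm).ne'] at h2
      exact (add_right_cancel h2).symm
  apply MulChar.ext
  intro u
  have h3 : ((u : ZMod (NumberField.discr K).natAbs)) =
      (((u : ZMod (NumberField.discr K).natAbs).val + (NumberField.discr K).natAbs : ℕ) :
        ZMod (NumberField.discr K).natAbs) := by
    rw [Nat.cast_add, ZMod.natCast_self, add_zero, ZMod.natCast_zmod_val]
  rw [h3]
  exact h1 _ (by have := NeZero.ne (NumberField.discr K).natAbs; omega)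

theorem IsQuadraticChar.aK_prime (hψ : IsQuadraticChar K ψ) {p : ℕ} (hp : p.Prime) :
    (aK K p : ℂ) = 1 + ψ (p : ZMod (NumberField.discr K).natAbs) := by
  rw [hψ.aK_eq hp.ne_zero, hp.divisors, Finset.sum_pair hp.one_lt.ne, Nat.cast_one, map_one]

end Count

section Quad

variable {K : Type*} [Field K] [NumberField K]

theorem exists_sigma (hK : Module.finrank ℚ K = 2) : ∃ σ : Gal(K/ℚ), σ ≠ 1 ∧
    ∀ x : 𝓞 K, ((Algebra.trace ℤ (𝓞 K) x : ℤ) : 𝓞 K) = x + σ • x := by
  classical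
  haveI := isAbelianGalois_of_quadratic K hK
  have hcard : (Finset.univ : Finset Gal(K/ℚ)).card = 2 := by
    rw [Finset.card_univ, ← Nat.card_eq_fintype_card, IsGalois.card_aut_eq_finrank, hK]
  obtain ⟨σ, hu, hσ⟩ : ∃ σ : Gal(K/ℚ), (Finset.univ : Finset Gal(K/ℚ)) = {1, σ} ∧ σ ≠ 1 := by
    obtain ⟨a, b, hab, hu⟩ := Finset.card_eq_two.mp hcard
    have h1 : (1 : Gal(K/ℚ)) ∈ ({a, b} : Finset Gal(K/ℚ)) := by rw [← hu]; exact Finset.mem_univ _
    rw [Finset.mem_insert, Finset.mem_singleton] at h1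
    rcases h1 with rfl | rfl
    · exact ⟨b, hu, hab.symm⟩
    · refine ⟨a, ?_, hab⟩
      rw [hu, Finset.pair_comm]
  refine ⟨σ, hσ, fun x => ?_⟩
  apply RingOfIntegers.coe_injective
  have h1 : algebraMap ℚ K (Algebra.trace ℚ K (x : K)) = ∑ τ : Gal(K/ℚ), τ (x : K) :=
    trace_eq_sum_automorphisms (x : K)
  rw [hu, Finset.sum_pair hσ.symm, ← Algebra.coe_trace_int] at h1
  rw [map_add, map_intCast]
  rw [map_intCast] at h1
  exact h1

theorem sigma_sq (hK : Module.finrank ℚ K = 2) (σ : Gal(K/ℚ)) : σ * σ = 1 := by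
  haveI := isAbelianGalois_of_quadratic K hK
  have h1 : σ ^ Nat.card Gal(K/ℚ) = 1 := pow_card_eq_one'
  rwa [IsGalois.card_aut_eq_finrank, hK, pow_two] at h1

/-- the discriminant of a quadratic field is the square of an element `δ` of trace zero -/
theorem exists_sqrt_discr (hK : Module.finrank ℚ K = 2) : ∃ (δ : 𝓞 K),
    δ * δ = ((NumberField.discr K : ℤ) : 𝓞 K) ∧ Algebra.trace ℤ (𝓞 K) δ = 0 := by
  obtain ⟨σ, hσ, htr⟩ := exists_sigma hK
  have hfin : Module.finrank ℤ (𝓞 K) = 2 := by rw [RingOfIntegers.rank, hK]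
  let b : Module.Basis (Fin 2) ℤ (𝓞 K) := Module.finBasisOfFinrankEq ℤ (𝓞 K) hfin
  have hd : NumberField.discr K = Algebra.discr ℤ b := (NumberField.discr_eq_discr K b).symm
  have hss : ∀ x : 𝓞 K, σ • σ • x = x := fun x => by rw [← mul_smul, sigma_sq hK, one_smul]
  refine ⟨b 0 * σ • b 1 - b 1 * σ • b 0, ?_, ?_⟩
  · rw [hd, Algebra.discr_def, Matrix.det_fin_two]
    simp only [Algebra.traceMatrix_apply, Algebra.traceForm_apply]
    push_cast
    rw [htr, htr, htr, htr]
    simp only [smul_mul']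
    ring
  · have h1 := htr (b 0 * σ • b 1 - b 1 * σ • b 0)
    have h2 : σ • (b 0 * σ • b 1 - b 1 * σ • b 0) = -(b 0 * σ • b 1 - b 1 * σ • b 0) := by
      rw [smul_sub, smul_mul', smul_mul', hss, hss]
      ring
    rw [h2, add_neg_cancel] at h1
    exact_mod_cast h1

/-- `p ∣ δ - r` is impossible -/
theorem not_dvd_sub (hK : Module.finrank ℚ K = 2) {δ : 𝓞 K} (hδ : Algebra.trace ℤ (𝓞 K) δ = 0)
    {p : ℕ} (hp : p.Prime) (hp2 : p ≠ 2) {r : ℤ} (hr : ¬ (p : ℤ) ∣ r) (γ : 𝓞 K) :
    δ - (r : 𝓞 K) ≠ (p : 𝓞 K) * γ := by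
  intro h
  have h1 := congrArg (Algebra.trace ℤ (𝓞 K)) h
  have h2 : Algebra.trace ℤ (𝓞 K) (r : 𝓞 K) = 2 * r := by
    have h3 : (r : 𝓞 K) = algebraMap ℤ (𝓞 K) r := by simp
    rw [h3, Algebra.trace_algebraMap, RingOfIntegers.rank, hK]
    simp
  have h4 : Algebra.trace ℤ (𝓞 K) ((p : 𝓞 K) * γ) = (p : ℤ) * Algebra.trace ℤ (𝓞 K) γ := by
    have h5 : (p : 𝓞 K) * γ = (p : ℤ) • γ := by simp
    rw [h5, map_smul, smul_eq_mul]
  rw [map_sub, hδ, h2, h4] at h1
  have h5 : (p : ℤ) ∣ 2 * r := ⟨-Algebra.trace ℤ (𝓞 K) γ, by linear_combination -h1⟩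
  rcases (Nat.prime_iff_prime_int.mp hp).dvd_or_dvd h5 with h6 | h6
  · have h7 : p ∣ 2 := by exact_mod_cast h6
    exact hp2 ((Nat.prime_dvd_prime_iff_eq hp Nat.prime_two).mp h7)
  · exact hr h6

theorem isSquare_of_absNorm (hK : Module.finrank ℚ K = 2) {p : ℕ} (hp : p.Prime)
    {I : Ideal (𝓞 K)} (hI : absNorm I = p) :
    IsSquare ((NumberField.discr K : ℤ) : ZMod p) := by
  haveI : Fact p.Prime := ⟨hp⟩
  obtain ⟨δ, hδ, -⟩ := exists_sqrt_discr hK
  have hcard : Nat.card (𝓞 K ⧸ I) = p := by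
    rw [← hI, absNorm_apply, Submodule.cardQuot_apply]
  haveI : Finite (𝓞 K ⧸ I) := Nat.finite_of_card_ne_zero (by rw [hcard]; exact hp.ne_zero)
  letI : Fintype (𝓞 K ⧸ I) := Fintype.ofFinite _
  let e : ZMod p ≃+* (𝓞 K ⧸ I) := ZMod.ringEquivOfPrime _ hp (by
    rw [← Nat.card_eq_fintype_card, hcard])
  refine ⟨e.symm (Ideal.Quotient.mk I δ), ?_⟩
  rw [← map_mul, ← map_mul, hδ, map_intCast, map_intCast]

theorem exists_absNorm_of_isSquare (hK : Module.finrank ℚ K = 2) {p : ℕ} (hp : p.Prime)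
    (hp2 : p ≠ 2) (hpd : ¬ (p : ℤ) ∣ NumberField.discr K)
    (hsq : IsSquare ((NumberField.discr K : ℤ) : ZMod p)) :
    ∃ I : Ideal (𝓞 K), absNorm I = p := by
  haveI : Fact p.Prime := ⟨hp⟩
  obtain ⟨δ, hδ, htr⟩ := exists_sqrt_discr hK
  obtain ⟨u, hu⟩ := hsq
  obtain ⟨r, rfl⟩ := ZMod.intCast_surjective u
  have h1 : (p : ℤ) ∣ NumberField.discr K - r * r := by
    rw [← ZMod.intCast_zmod_eq_zero_iff_dvd] 
    push_cast
    rw [hu, sub_self]
  obtain ⟨t, ht⟩ := h1
  have hr : ¬ (p : ℤ) ∣ r := by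
    rintro ⟨c, rfl⟩
    apply hpd
    exact ⟨t + c * (p * c), by linear_combination ht⟩
  let I : Ideal (𝓞 K) := span {(p : 𝓞 K)} ⊔ span {δ - (r : 𝓞 K)}
  have hpI : span {(p : 𝓞 K)} ≤ I := le_sup_left
  have hNp : absNorm (span {(p : 𝓞 K)}) = p ^ 2 := by
    rw [absNorm_span_natCast, RingOfIntegers.rank, hK]
  have hdvd : absNorm I ∣ p ^ 2 := by
    rw [← hNp]
    exact absNorm_dvd_absNorm_of_le hpI
  obtain ⟨i, hi, hIi⟩ := (Nat.dvd_prime_pow hp).mp hdvd
  have hi0 : i ≠ 0 := by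
    rintro rfl
    rw [pow_zero, absNorm_eq_one_iff] at hIi
    have h2 : (1 : 𝓞 K) ∈ I := by rw [hIi]; trivial
    obtain ⟨x, hx, y, hy, hxy⟩ := Submodule.mem_sup.mp h2
    obtain ⟨a, rfl⟩ := Ideal.mem_span_singleton'.mp hx
    obtain ⟨b, rfl⟩ := Ideal.mem_span_singleton'.mp hy
    have hcast : ((NumberField.discr K : ℤ) : 𝓞 K) = (r : 𝓞 K) * r + (p : 𝓞 K) * t := by
      have h3 : NumberField.discr K = r * r + (p : ℤ) * t := by linear_combination ht
      rw [h3]
      push_cast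
      ring
    refine not_dvd_sub hK htr hp hp2 (r := -r) (fun h => hr ((dvd_neg).mp h))
      (a * (δ + r) + b * t) ?_
    push_cast
    linear_combination (-(δ + (r : 𝓞 K))) * hxy + b * hδ + b * hcast
  have hi2 : i ≠ 2 := by
    rintro rfl
    have hdv : I ∣ span {(p : 𝓞 K)} := Ideal.dvd_iff_le.mpr hpI
    obtain ⟨J, hJ⟩ := hdv
    have h2 : absNorm J = 1 := by
      have h3 := congrArg absNorm hJ
      rw [map_mul, hNp, hIi] at h3
      exact (Nat.eq_of_mul_eq_mul_left (pow_pos hp.pos 2) (by rw [mul_one]; exact h3)).symm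
    rw [absNorm_eq_one_iff] at h2
    rw [h2, Ideal.mul_top] at hJ
    have h4 : δ - (r : 𝓞 K) ∈ span {(p : 𝓞 K)} := by
      rw [hJ]
      exact (le_sup_right : span {δ - (r : 𝓞 K)} ≤ I) (Ideal.mem_span_singleton_self _)
    obtain ⟨γ, hγ⟩ := Ideal.mem_span_singleton.mp h4
    exact not_dvd_sub hK htr hp hp2 hr γ hγ
  have hi1 : i = 1 := by omega
  exact ⟨I, by rw [hIi, hi1, pow_one]⟩

theorem aK_pos_iff (n : ℕ) : aK K n ≠ 0 ↔ ∃ I : Ideal (𝓞 K), absNorm I = n := by
  haveI : Finite {I : Ideal (𝓞 K) // absNorm I = n} := finite_setOfPred_absNorm_eq (S := 𝓞 K) n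
  rw [aK, Nat.card_ne_zero]
  constructor
  · rintro ⟨⟨I, hI⟩, -⟩
    exact ⟨I, hI⟩
  · rintro ⟨I, hI⟩
    exact ⟨⟨⟨I, hI⟩⟩, inferInstance⟩

variable {ψ : DirichletCharacter ℂ (NumberField.discr K).natAbs}

/-- **`ψ(p)` is the Legendre symbol `(d / p)`** for every odd prime `p` -/
theorem IsQuadraticChar.legendre (hK : Module.finrank ℚ K = 2) (hψ : IsQuadraticChar K ψ)
    {p : ℕ} [Fact p.Prime] (hp2 : p ≠ 2) :
    ψ (p : ZMod (NumberField.discr K).natAbs) = ((legendreSym p (NumberField.discr K) : ℤ) : ℂ) := by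
  have hp : p.Prime := Fact.out
  by_cases hpd : (p : ℤ) ∣ NumberField.discr K
  · have h1 : ((NumberField.discr K : ℤ) : ZMod p) = 0 :=
      (ZMod.intCast_zmod_eq_zero_iff_dvd _ p).mpr hpd
    rw [(legendreSym.eq_zero_iff p _).mpr h1, Int.cast_zero]
    apply ψ.map_nonunit
    rw [ZMod.isUnit_iff_coprime, Nat.Prime.coprime_iff_not_dvd hp, not_not]
    exact Int.natCast_dvd.mp hpd
  · have h0 : ((NumberField.discr K : ℤ) : ZMod p) ≠ 0 := fun h =>
      hpd ((ZMod.intCast_zmod_eq_zero_iff_dvd _ p).mp h)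
    have hunit : IsUnit (p : ZMod (NumberField.discr K).natAbs) := by
      rw [ZMod.isUnit_iff_coprime, Nat.Prime.coprime_iff_not_dvd hp]
      exact fun h => hpd (Int.natCast_dvd.mpr h)
    have hval : ψ (p : ZMod (NumberField.discr K).natAbs) = 1 ∨
        ψ (p : ZMod (NumberField.discr K).natAbs) = -1 := by
      rcases MulChar.isQuadratic_iff_sq_eq_one.mpr hψ.sq
        (p : ZMod (NumberField.discr K).natAbs) with h | h | h
      · exact absurd h (hunit.map ψ).ne_zero
      · exact Or.inl h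
      · exact Or.inr h
    have ha := hψ.aK_prime hp
    by_cases hsq : IsSquare ((NumberField.discr K : ℤ) : ZMod p)
    · rw [(legendreSym.eq_one_iff p h0).mpr hsq, Int.cast_one]
      have h2 := (aK_pos_iff p).mpr (exists_absNorm_of_isSquare hK hp hp2 hpd hsq)
      rcases hval with h | h
      · exact h
      · rw [h, add_neg_cancel] at ha
        exact absurd (by exact_mod_cast ha) h2
    · rw [legendreSym.eq_neg_one_iff p |>.mpr hsq, Int.cast_neg, Int.cast_one]
      have h2 : aK K p = 0 := by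
        by_contra h
        obtain ⟨I, hI⟩ := (aK_pos_iff p).mp h
        exact hsq (isSquare_of_absNorm hK hp hI)
      rw [h2, Nat.cast_zero] at ha
      linear_combination -ha

/-- **`ψ` is the Kronecker symbol**: `ψ(k)` is the Jacobi symbol `(d / k)` for every odd `k` -/
theorem IsQuadraticChar.jacobi (hK : Module.finrank ℚ K = 2) (hψ : IsQuadraticChar K ψ)
    {k : ℕ} (hk : Odd k) :
    ψ (k : ZMod (NumberField.discr K).natAbs) = ((jacobiSym (NumberField.discr K) k : ℤ) : ℂ) := by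
  induction k using Nat.strong_induction_on with
  | _ k ih =>
    have hk0 : k ≠ 0 := fun h => by rw [h] at hk; exact absurd hk (by decide)
    rcases eq_or_ne k 1 with rfl | hk1
    · rw [jacobiSym.one_right, Nat.cast_one, map_one, Int.cast_one]
    · obtain ⟨p, hp, m, rfl⟩ := Nat.exists_prime_and_dvd hk1
      haveI : Fact p.Prime := ⟨hp⟩
      have hpo : Odd p := (Nat.odd_mul.mp hk).1
      have hmo : Odd m := (Nat.odd_mul.mp hk).2
      have hp2 : p ≠ 2 := fun h => by rw [h] at hpo; exact absurd hpo (by decide)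
      have hm0 : m ≠ 0 := fun h => hk0 (by rw [h, mul_zero])
      haveI : NeZero p := ⟨hp.ne_zero⟩
      haveI : NeZero m := ⟨hm0⟩
      have hlt : m < p * m := by
        have := hp.two_le
        nlinarith [Nat.pos_of_ne_zero hm0]
      rw [Nat.cast_mul, map_mul, hψ.legendre hK hp2, ih m hlt hmo, jacobiSym.mul_right,
        jacobiSym.legendreSym.to_jacobiSym]
      push_cast
      ring

end Quad

end Fermat.Agent.Cor.H25Z
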