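import Fermat.Agent.Cor.ChebotarevNF
import Fermat.Agent.Cor.ChebotarevGal

/-!
# Polynomials with roots modulo all primes

* `exists_not_mem_conj` (Jordan) : a finite group is not the union of the conjugates of a proper
  subgroup;
* `no_root_mod` : an irreducible monic polynomial with integral coefficients, of degree `> 1`, has no
  root modulo infinitely many primes.
-/

set_option autoImplicit false
set_option linter.unusedSectionVars false
set_option linter.style.haveILetI false

open scoped Classical nonZeroDivisors Topology Pointwise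

namespace Fermat.Agent.Cor.Cheb

open NumberField IsDedekindDomain Module IntermediateField Fermat.Agent.H25 Fermat.Agent.DS Ideal
  MulAction

noncomputable section

/-- **Jordan's theorem** -/
theorem exists_not_mem_conj {G : Type*} [Group G] [Finite G] {H : Subgroup G} (hH : H ≠ ⊤) :
    ∃ g : G, ∀ t : G, t⁻¹ * g * t ∉ H := by
  haveI := Fintype.ofFinite G
  haveI : Finite (G ⧸ H) := inferInstance
  haveI := Fintype.ofFinite (G ⧸ H)
  by_contra hcon
  push Not at hcon
  haveI : ∀ g : G, Fintype (fixedBy (G ⧸ H) g) := fun g => Fintype.ofFinite _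
  haveI : Fintype (Quotient (orbitRel G (G ⧸ H))) := Fintype.ofFinite _
  have hfix : ∀ g : G, 1 ≤ Fintype.card (fixedBy (G ⧸ H) g) := by
    intro g
    obtain ⟨t, ht⟩ := hcon g
    rw [Nat.succ_le_iff, Fintype.card_pos_iff]
    refine ⟨⟨(t : G ⧸ H), ?_⟩⟩
    rw [mem_fixedBy]
    change ((g * t : G) : G ⧸ H) = t
    rw [QuotientGroup.eq]
    have := H.inv_mem ht
    simpa [mul_assoc] using this
  have hB := sum_card_fixedBy_eq_card_orbits_mul_card_group G (G ⧸ H)
  have h1 : Fintype.card (Quotient (orbitRel G (G ⧸ H))) = 1 := by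
    rw [Fintype.card_eq_one_iff]
    refine ⟨Quotient.mk'' ((1 : G) : G ⧸ H), fun y => ?_⟩
    induction y using Quotient.inductionOn' with
    | h y =>
      rw [Quotient.eq'']
      obtain ⟨g, hg⟩ := MulAction.exists_smul_eq G ((1 : G) : G ⧸ H) y
      exact ⟨g, hg⟩
  rw [h1, one_mul] at hB
  have h2 : 1 < Fintype.card (fixedBy (G ⧸ H) (1 : G)) := by
    have e : Fintype.card (fixedBy (G ⧸ H) (1 : G)) = H.index := by
      rw [Subgroup.index, Nat.card_eq_fintype_card]
      refine Fintype.card_congr (Equiv.subtypeUnivEquiv fun y => ?_)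
      rw [mem_fixedBy, one_smul]
    rw [e]
    have h3 : H.index ≠ 1 := fun h => hH (Subgroup.index_eq_one.mp h)
    have h4 : H.index ≠ 0 := Subgroup.index_ne_zero_of_finite
    omega
  have h3 : ∑ _g : G, 1 < ∑ g : G, Fintype.card (fixedBy (G ⧸ H) g) :=
    Finset.sum_lt_sum (fun g _ => hfix g) ⟨1, Finset.mem_univ _, h2⟩
  rw [hB, Finset.sum_const, Finset.card_univ, smul_eq_mul, mul_one] at h3
  exact lt_irrefl _ h3

theorem no_root_mod_core (f : Polynomial ℤ) (hf : f.Monic)
    (hirr : Irreducible (f.map (Int.castRingHom ℚ))) (hdeg : 1 < f.natDegree) (L : Type*)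
    [Field L] [NumberField L] [IsGalois ℚ L] (x : L)
    (hx : f.eval₂ (Int.castRingHom L) x = 0) :
    {p : ℕ | p.Prime ∧ ∀ n : ℤ, ¬ (p : ℤ) ∣ f.eval n}.Infinite := by
  have hcomp : (algebraMap ℚ L).comp (Int.castRingHom ℚ) = Int.castRingHom L :=
    RingHom.ext_int _ _
  have hmin : f.map (Int.castRingHom ℚ) = minpoly ℚ x :=
    minpoly.eq_of_irreducible_of_monic hirr (by
      rw [Polynomial.aeval_def, Polynomial.eval₂_map, hcomp]
      exact hx) (hf.map _)
  set fL : Polynomial L := f.map (Int.castRingHom L) with hfL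
  have hfLm : fL.Monic := hf.map _
  have hspl : fL.Splits := by
    have h := Normal.splits (inferInstance : Normal ℚ L) x
    rw [← hmin, Polynomial.map_map, hcomp] at h
    exact h
  have hroot : ∀ y ∈ fL.roots, f.eval₂ (Int.castRingHom L) y = 0 := by
    intro y hy
    have := (Polynomial.mem_roots hfLm.ne_zero).mp hy
    rwa [Polynomial.IsRoot.def, hfL, Polynomial.eval_map] at this
  have hconj : ∀ y ∈ fL.roots, ∃ σ : Gal(L/ℚ), σ x = y := by
    intro y hy
    have h1 : Polynomial.aeval y (minpoly ℚ x) = 0 := by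
      rw [← hmin, Polynomial.aeval_def, Polynomial.eval₂_map, hcomp]
      exact hroot y hy
    exact minpoly.exists_algEquiv_of_root' (Algebra.IsAlgebraic.isAlgebraic x) h1
  let H : Subgroup Gal(L/ℚ) := MulAction.stabilizer Gal(L/ℚ) x
  have hH : H ≠ ⊤ := by
    intro h
    have h1 : x ∈ (⊥ : IntermediateField ℚ L) := by
      rw [IsGalois.mem_bot_iff_fixed]
      intro σ
      have : σ ∈ H := by rw [h]; trivial
      exact this
    obtain ⟨q, hq⟩ := IntermediateField.mem_bot.mp h1
    have h2 : (minpoly ℚ x).natDegree = 1 := by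
      rw [← hq, minpoly.eq_X_sub_C, Polynomial.natDegree_X_sub_C]
    rw [← hmin, hf.natDegree_map] at h2
    omega
  obtain ⟨g, hg⟩ := exists_not_mem_conj hH
  have hgne : ∀ y ∈ fL.roots, g y ≠ y := by
    intro y hy hgy
    obtain ⟨σ, rfl⟩ := hconj y hy
    apply hg σ
    change σ⁻¹ (g (σ x)) = x
    rw [hgy]
    exact σ.symm_apply_apply x
  have hint : ∀ y ∈ fL.roots, IsIntegral ℤ y := fun y hy => ⟨f, hf, by
    rw [algebraMap_int_eq]
    exact hroot y hy⟩
  let toO : {y // y ∈ fL.roots} → 𝓞 L := fun y => ⟨y.1, hint y.1 y.2⟩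
  obtain ⟨rt, hrt⟩ : ∃ rt : Multiset (𝓞 L), rt.map (fun r : 𝓞 L => (r : L)) = fL.roots := by
    refine ⟨fL.roots.attach.map toO, ?_⟩
    rw [Multiset.map_map]
    exact Multiset.attach_map_val _
  set D : 𝓞 L := (rt.map fun r => g • r - r).prod with hD
  have hD0 : D ≠ 0 := by
    rw [hD, Ne, Multiset.prod_eq_zero_iff, Multiset.mem_map]
    rintro ⟨r, hr, h0⟩
    have h1 : (r : L) ∈ fL.roots := by
      rw [← hrt]
      exact Multiset.mem_map_of_mem _ hr
    refine hgne _ h1 ?_
    exact congrArg (fun z : 𝓞 L => (z : L)) (sub_eq_zero.mp h0)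
  set N : ℕ := absNorm (span {D}) with hN
  have hN0 : N ≠ 0 := by
    rw [hN, Ne, absNorm_eq_zero_iff, span_singleton_eq_bot]
    exact hD0
  refine ((infinite_frobenius L g).sdiff N.divisors.finite_toSet).mono ?_
  rintro p ⟨⟨hp, P, hP, hPo, hφ⟩, hpN⟩
  refine ⟨hp, fun n hn => hpN ?_⟩
  have hfr := (isArith_iff (p := p) (P := P) g).mp hφ
  have hmemP : ∀ k : ℤ, (k : 𝓞 L) ∈ P ↔ (p : ℤ) ∣ k := by
    intro k
    rw [← Ideal.mem_span_singleton, hPo.over, Ideal.mem_comap]
    simp
  have h1 : ((f.eval n : ℤ) : 𝓞 L) ∈ P := (hmemP _).mpr hn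
  have h2 : ((f.eval n : ℤ) : 𝓞 L) = (rt.map fun r => (n : 𝓞 L) - r).prod := by
    apply RingOfIntegers.ext
    have h3 : (((rt.map fun r => (n : 𝓞 L) - r).prod : 𝓞 L) : L) =
        (fL.roots.map fun y => (n : L) - y).prod := by
      change algebraMap (𝓞 L) L _ = _
      rw [map_multiset_prod, Multiset.map_map, ← hrt, Multiset.map_map]
      congr 1
    rw [h3, ← hspl.eval_eq_prod_roots_of_monic hfLm, hfL, Polynomial.eval_intCast_map]
    simp
  rw [h2, hP.multiset_prod_mem_iff_exists_mem] at h1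
  obtain ⟨_, hmem, hr⟩ := h1
  obtain ⟨r, hr1, rfl⟩ := Multiset.mem_map.mp hmem
  have h3 : g • r - r ∈ P := by
    have e1 := hfr r
    have e2 : r ^ p - (n : 𝓞 L) ^ p ∈ P := by
      refine P.mem_of_dvd (sub_dvd_pow_sub_pow r (n : 𝓞 L) p) ?_
      rw [← neg_sub]
      exact P.neg_mem hr
    have e3 := hfr (n : 𝓞 L)
    have e4 : g • (n : 𝓞 L) = (n : 𝓞 L) := by
      apply RingOfIntegers.ext
      change g (((n : 𝓞 L)) : L) = ((n : 𝓞 L) : L)
      have : (((n : 𝓞 L)) : L) = (n : L) := by simp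
      rw [this, map_intCast]
    rw [e4] at e3
    have e5 := P.add_mem (P.add_mem e1 e2) (P.sub_mem hr e3)
    have e6 : g • r - r ^ p + (r ^ p - (n : 𝓞 L) ^ p) + ((n : 𝓞 L) - r - ((n : 𝓞 L) - (n : 𝓞 L) ^ p)) =
        g • r - r := by ring
    rwa [e6] at e5
  have h4 : D ∈ P := P.mem_of_dvd (Multiset.dvd_prod (Multiset.mem_map_of_mem _ hr1)) h3
  have h5 : ((N : ℕ) : 𝓞 L) ∈ P :=
    ((span_singleton_le_iff_mem _).mpr h4) (absNorm_mem _)
  have h6 : (p : ℤ) ∣ (N : ℤ) := (hmemP N).mp (by exact_mod_cast h5)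
  rw [Finset.mem_coe, Nat.mem_divisors]
  exact ⟨by exact_mod_cast h6, hN0⟩

/-- **an irreducible polynomial of degree `> 1` has no root modulo infinitely many primes** -/
theorem no_root_mod (f : Polynomial ℤ) (hf : f.Monic)
    (hirr : Irreducible (f.map (Int.castRingHom ℚ))) (hdeg : 1 < f.natDegree) :
    {p : ℕ | p.Prime ∧ ∀ n : ℤ, ¬ (p : ℤ) ∣ f.eval n}.Infinite := by
  obtain ⟨r, hr⟩ := IsAlgClosed.exists_root (f.map (Int.castRingHom Qb)) (by
    rw [hf.degree_map, Polynomial.degree_eq_natDegree hf.ne_zero]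
    exact_mod_cast (by omega : f.natDegree ≠ 0))
  rw [Polynomial.IsRoot.def, Polynomial.eval_map] at hr
  let F : IntermediateField ℚ Qb := IntermediateField.adjoin ℚ {r}
  haveI : FiniteDimensional ℚ F := IntermediateField.adjoin.finiteDimensional
    (Algebra.IsIntegral.isIntegral r)
  haveI : NumberField F := { to_charZero := inferInstance, to_finiteDimensional := inferInstance }
  obtain ⟨M, _, _, _, _⟩ := exists_galois_closure F
  have hrF : r ∈ F := IntermediateField.mem_adjoin_simple_self ℚ r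
  have h1 : f.eval₂ (Int.castRingHom F) (⟨r, hrF⟩ : F) = 0 := by
    apply (algebraMap F Qb).injective
    rw [Polynomial.hom_eval₂, map_zero,
      show (algebraMap F Qb).comp (Int.castRingHom F) = Int.castRingHom Qb from RingHom.ext_int _ _]
    exact hr
  refine no_root_mod_core f hf hirr hdeg M (algebraMap F M ⟨r, hrF⟩) ?_
  have h2 := congrArg (algebraMap F M) h1
  rw [Polynomial.hom_eval₂, map_zero,
    show (algebraMap F M).comp (Int.castRingHom F) = Int.castRingHom M from RingHom.ext_int _ _] at h2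
  exact h2

/-- an irreducible monic polynomial with a root modulo almost all primes is linear -/
theorem natDegree_eq_one_of_roots (f : Polynomial ℤ) (hf : f.Monic)
    (hirr : Irreducible (f.map (Int.castRingHom ℚ))) (Z : Finset ℕ)
    (h : ∀ p : ℕ, p.Prime → p ∉ Z → ∃ n : ℤ, (p : ℤ) ∣ f.eval n) : f.natDegree = 1 := by
  have h0 : f.natDegree ≠ 0 := by
    intro h0
    have h1 : f = 1 := hf.natDegree_eq_zero.mp h0
    apply hirr.not_isUnit
    rw [h1, Polynomial.map_one]
    exact isUnit_one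
  by_contra h1
  obtain ⟨p, ⟨hp, hn⟩, hpZ⟩ :=
    (no_root_mod f hf hirr (by omega)).exists_notMem_finset Z
  obtain ⟨n, hn'⟩ := h p hp hpZ
  exact hn n hn'

end

end Fermat.Agent.Cor.Cheb
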