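import Fermat.Agent.Cor.H25ZetaIso
import Fermat.Agent.Cor.RootsMod

/-!
# Primes that are not norms of ideals

`infinite_not_norm` : let `K ≠ ℚ` be a number field (not necessarily Galois over `ℚ`). There are infinitely many primes
`p` that are not the norm of an ideal of `𝓞 K`, i.e. such that `K` has no prime of degree one above `p`.
Hence (`finrank_eq_one_of_norm`) `ℚ` is the only number field for which almost all primes are norms of ideals, and
(`infinite_inert`) infinitely many primes are inert in a quadratic field.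

No statement file imports this file.
-/

set_option autoImplicit false
set_option linter.style.haveILetI false
set_option linter.unusedSectionVars false

noncomputable section

namespace Fermat.Agent.Cor.H25Z

open NumberField Ideal

variable (K : Type*) [Field K] [NumberField K]

/-- an integral primitive element -/
theorem exists_integral_primitive : ∃ a : 𝓞 K, (minpoly ℤ a).natDegree = Module.finrank ℚ K := by
  obtain ⟨x, hx⟩ := Field.exists_primitive_element ℚ K
  have halg : IsAlgebraic ℤ x := (IsFractionRing.isAlgebraic_iff ℤ ℚ K).mpr (Algebra.IsAlgebraic.isAlgebraic x)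
  obtain ⟨m, hm0, hm⟩ := halg.exists_integral_multiple
  let a : 𝓞 K := ⟨m • x, hm⟩
  have hm0' : (m : ℚ) ≠ 0 := Int.cast_ne_zero.mpr hm0
  have hax : (algebraMap (𝓞 K) K a) = (m : ℚ) • x := by
    change m • x = (m : ℚ) • x
    rw [Int.cast_smul_eq_zsmul]
  have htop : IntermediateField.adjoin ℚ {algebraMap (𝓞 K) K a} = ⊤ := by
    rw [eq_top_iff, ← hx, IntermediateField.adjoin_simple_le_iff]
    have h1 : x = (m : ℚ)⁻¹ • algebraMap (𝓞 K) K a := by
      rw [hax, smul_smul, inv_mul_cancel₀ hm0', one_smul]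
    rw [h1]
    exact IntermediateField.smul_mem _ (IntermediateField.mem_adjoin_simple_self ℚ _)
  have hdeg := (Field.primitive_element_iff_minpoly_natDegree_eq ℚ (algebraMap (𝓞 K) K a)).mp htop
  have hint : IsIntegral ℤ a := RingOfIntegers.isIntegral a
  rw [minpoly.isIntegrallyClosed_eq_field_fractions ℚ K hint,
    (minpoly.monic hint).natDegree_map] at hdeg
  exact ⟨a, hdeg⟩

/-- **If `K ≠ ℚ` then infinitely many primes are not norms of ideals of `K`** -/
theorem infinite_not_norm (hK : Module.finrank ℚ K ≠ 1) :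
    {p : ℕ | p.Prime ∧ ∀ I : Ideal (𝓞 K), absNorm I ≠ p}.Infinite := by
  obtain ⟨a, ha⟩ := exists_integral_primitive K
  have hint : IsIntegral ℤ a := RingOfIntegers.isIntegral a
  have hirr : Irreducible ((minpoly ℤ a).map (Int.castRingHom ℚ)) :=
    ((minpoly.monic hint).irreducible_iff_irreducible_map_fraction_map (K := ℚ)).mp
      (minpoly.irreducible hint)
  have hdeg : 1 < (minpoly ℤ a).natDegree := by
    have h1 : 0 < Module.finrank ℚ K := Module.finrank_pos
    omega
  refine (Cheb.no_root_mod (minpoly ℤ a) (minpoly.monic hint) hirr hdeg).mono ?_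
  rintro p ⟨hp, h⟩
  refine ⟨hp, fun I hI => ?_⟩
  haveI : Fact p.Prime := ⟨hp⟩
  have hcard : Nat.card (𝓞 K ⧸ I) = p := by
    rw [← hI, absNorm_apply, Submodule.cardQuot_apply]
  haveI : Finite (𝓞 K ⧸ I) := Nat.finite_of_card_ne_zero (by rw [hcard]; exact hp.ne_zero)
  letI : Fintype (𝓞 K ⧸ I) := Fintype.ofFinite _
  let e : ZMod p ≃+* (𝓞 K ⧸ I) := ZMod.ringEquivOfPrime _ hp (by
    rw [← Nat.card_eq_fintype_card, hcard])
  obtain ⟨n, hn⟩ := ZMod.intCast_surjective (e.symm (Ideal.Quotient.mk I a))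
  apply h n
  rw [← ZMod.intCast_zmod_eq_zero_iff_dvd]
  apply e.injective
  have h1 : Ideal.Quotient.mk I a = (n : 𝓞 K ⧸ I) := by
    apply e.symm.injective
    rw [← hn, map_intCast]
  have h2 : Ideal.Quotient.mk I (Polynomial.aeval a (minpoly ℤ a)) = 0 := by
    rw [minpoly.aeval, map_zero]
  rw [map_zero, map_intCast, ← h2, Polynomial.aeval_def, Polynomial.hom_eval₂, h1]
  have h3 : (Ideal.Quotient.mk I).comp (algebraMap ℤ (𝓞 K)) = Int.castRingHom (𝓞 K ⧸ I) :=
    RingHom.ext_int _ _
  rw [h3]
  exact (Polynomial.eval₂_at_intCast (Int.castRingHom (𝓞 K ⧸ I)) n).symm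

/-- `ℚ` is the only number field for which all but finitely many primes are norms of ideals -/
theorem finrank_eq_one_of_norm
    (h : {p : ℕ | p.Prime ∧ ∀ I : Ideal (𝓞 K), absNorm I ≠ p}.Finite) : Module.finrank ℚ K = 1 := by
  by_contra hK
  exact infinite_not_norm K hK h

/-- **Inert primes**: for a quadratic field there are infinitely many primes `p` such that `p 𝓞_K` is a prime ideal. -/
theorem infinite_inert (hK : Module.finrank ℚ K = 2) :
    {p : ℕ | p.Prime ∧ (span {(p : 𝓞 K)}).IsPrime}.Infinite := by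
  refine (infinite_not_norm K (by rw [hK]; norm_num)).mono ?_
  rintro p ⟨hp, h⟩
  refine ⟨hp, ?_⟩
  have hN : absNorm (span {(p : 𝓞 K)}) = p ^ 2 := by
    rw [absNorm_span_natCast, RingOfIntegers.rank, hK]
  have hne : span {(p : 𝓞 K)} ≠ ⊤ := by
    intro h1
    rw [h1, absNorm_top] at hN
    exact (Nat.one_lt_pow two_ne_zero hp.one_lt).ne hN
  obtain ⟨M, hM, hle⟩ := Ideal.exists_le_maximal _ hne
  have hd : absNorm M ∣ p ^ 2 := by
    rw [← hN]
    exact absNorm_dvd_absNorm_of_le hle
  obtain ⟨i, hi, hMi⟩ := (Nat.dvd_prime_pow hp).mp hd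
  have h0 : i ≠ 0 := by
    rintro rfl
    rw [pow_zero, absNorm_eq_one_iff] at hMi
    exact hM.ne_top hMi
  have h1 : i ≠ 1 := by
    rintro rfl
    exact h M (by rw [hMi, pow_one])
  have h2 : i = 2 := by omega
  obtain ⟨J, hJ⟩ := Ideal.dvd_iff_le.mpr hle
  have h3 : absNorm J = 1 := by
    have h4 := congrArg absNorm hJ
    rw [map_mul, hN, hMi, h2] at h4
    exact (Nat.eq_of_mul_eq_mul_left (pow_pos hp.pos 2) (by rw [mul_one]; exact h4)).symm
  rw [absNorm_eq_one_iff] at h3
  rw [h3, Ideal.mul_top] at hJ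
  rw [hJ]
  exact hM.isPrime

end Fermat.Agent.Cor.H25Z
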