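import Fermat.Agent.Cor.H25ConductorDiscriminant

/-!
# Quadratic fields: Dirichlet's class number formula

Let `K` be a quadratic number field, of discriminant `d`. There is a primitive quadratic Dirichlet character `ψ` modulo `|d|`
with `ζ_K(s) = ζ(s) L(s, ψ)` (`exists_quadraticChar`), and `L(1, ψ)` is given by Dirichlet's class number formula:

* `h = w √|d| L(1, ψ) / (2π)` if `K` is imaginary (`classNumber_imaginary`);
* `h R = √d L(1, ψ) / 2` if `K` is real (`classNumber_real`), with `R` the regulator.

No statement file imports this file.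
-/

set_option autoImplicit false
set_option linter.style.haveILetI false

noncomputable section

namespace Fermat.Agent.Cor.H25Z

open NumberField DirichletCharacter IsCyclotomicExtension.Rat
open NumberField.InfinitePlace NumberField.Units
open scoped Real

theorem isAbelianGalois_of_quadratic (K : Type*) [Field K] [NumberField K]
    (hK : Module.finrank ℚ K = 2) : IsAbelianGalois ℚ K := by
  haveI : Algebra.IsQuadraticExtension ℚ K := ⟨hK⟩
  exact IsAbelianGalois.of_isCyclic ℚ K

/-- `ψ` is the quadratic character attached to the quadratic field `K`: a primitive character modulo `|d_K|` with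
`ψ ≠ 1`, `ψ² = 1` and `ζ_K(s) = ζ(s) L(s, ψ)` for `Re s > 1`. -/
structure IsQuadraticChar (K : Type*) [Field K] [NumberField K] [NeZero (NumberField.discr K).natAbs]
    (ψ : DirichletCharacter ℂ (NumberField.discr K).natAbs) : Prop where
  primitive : ψ.IsPrimitive
  ne_one : ψ ≠ 1
  sq : ψ ^ 2 = 1
  zeta : ∀ s : ℂ, 1 < s.re → dedekindZeta K s = riemannZeta s * LFunction ψ s
  one : LFunction ψ 1 = (dedekindZeta_residue K : ℂ)

instance (K : Type*) [Field K] [NumberField K] : NeZero (NumberField.discr K).natAbs :=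
  ⟨Int.natAbs_ne_zero.mpr (NumberField.discr_ne_zero K)⟩

theorem Lprim_one_eq {n : ℕ} [NeZero n] {s : ℂ} (hs : 1 < s.re) :
    Lprim (1 : DirichletCharacter ℂ n) s = riemannZeta s := by
  rw [Lprim_eq_LSeries _ hs, ← LSeries_one_eq_riemannZeta hs]
  refine LSeries_congr (fun {k} hk => ?_) s
  rw [primitiveCharacter_one]
  have h : (conductor (1 : DirichletCharacter ℂ n)) = 1 := conductor_one
  rw [MulChar.one_apply, Pi.one_apply]
  rw [ZMod.isUnit_iff_coprime, h]
  exact Nat.coprime_one_right k

/-- **Existence of the quadratic character** of a quadratic field -/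
theorem exists_quadraticChar (K : Type*) [Field K] [NumberField K] (hK : Module.finrank ℚ K = 2) :
    ∃ ψ : DirichletCharacter ℂ (NumberField.discr K).natAbs, IsQuadraticChar K ψ := by
  classical
  haveI := isAbelianGalois_of_quadratic K hK
  obtain ⟨n, _, X, h⟩ := exists_isCharGroup K
  have hcard : Nat.card X = 2 := by rw [h.card, hK]
  letI : Fintype X := Fintype.ofFinite X
  have hcard' : (Finset.univ : Finset X).card = 2 := by
    rw [Finset.card_univ, ← Nat.card_eq_fintype_card, hcard]
  -- the nontrivial element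
  obtain ⟨χ, hχ⟩ : ∃ χ : X, (Finset.univ : Finset X) = {1, χ} ∧ χ ≠ 1 := by
    obtain ⟨a, b, hab, hu⟩ := Finset.card_eq_two.mp hcard'
    have h1 : (1 : X) ∈ ({a, b} : Finset X) := by rw [← hu]; exact Finset.mem_univ _
    rw [Finset.mem_insert, Finset.mem_singleton] at h1
    rcases h1 with rfl | rfl
    · exact ⟨b, hu, hab.symm⟩
    · refine ⟨a, ?_, hab⟩
      rw [hu, Finset.pair_comm]
  obtain ⟨hu, hχ1⟩ := hχ
  have hχ1' : χ.1 ≠ 1 := fun h' => hχ1 (Subtype.ext h')
  have hsq : χ.1 ^ 2 = 1 := by
    have h1 : χ ^ Nat.card X = 1 := pow_card_eq_one'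
    rw [hcard] at h1
    exact congrArg Subtype.val h1
  have hcond : χ.1.conductor = (NumberField.discr K).natAbs := by
    rw [h.natAbs_discr, finprod_eq_prod_of_fintype, hu, Finset.prod_pair hχ1.symm]
    have h2 : (1 : X).1.conductor = 1 := conductor_one
    rw [h2, one_mul]
  have hzeta : ∀ s : ℂ, 1 < s.re → dedekindZeta K s = riemannZeta s * Lprim χ.1 s := by
    intro s hs
    rw [h.dedekindZeta_eq hs, finprod_eq_prod_of_fintype, hu, Finset.prod_pair hχ1.symm]
    have h2 : Lprim (1 : X).1 s = riemannZeta s := Lprim_one_eq hs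
    rw [h2]
  have hone : Lprim χ.1 1 = (dedekindZeta_residue K : ℂ) := by
    have h2 : zetaX' X 1 = (dedekindZeta_residue K : ℂ) := residue_eq fun _ hs => h.dedekindZeta_eq hs
    rw [← h2, zetaX'_eq, hu]
    have h3 : Finset.filter (fun χ : X => χ ≠ 1) {1, χ} = {χ} := by
      ext y
      simp only [Finset.mem_filter, Finset.mem_insert, Finset.mem_singleton]
      constructor
      · rintro ⟨rfl | rfl, h4⟩
        · exact absurd rfl h4
        · rfl
      · rintro rfl
        exact ⟨Or.inr rfl, hχ1⟩
    rw [h3, Finset.prod_singleton]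
  -- transport to level `|d|`
  have key : ∀ (f : ℕ) (hf : NeZero f) (ψ : DirichletCharacter ℂ f), f = (NumberField.discr K).natAbs →
      ψ.IsPrimitive → ψ ≠ 1 → ψ ^ 2 = 1 →
      (∀ s : ℂ, 1 < s.re → dedekindZeta K s = riemannZeta s * LFunction ψ s) →
      LFunction ψ 1 = (dedekindZeta_residue K : ℂ) →
      ∃ ψ' : DirichletCharacter ℂ (NumberField.discr K).natAbs, IsQuadraticChar K ψ' := by
    intro f hf ψ hfd h1 h2 h3 h4 h5
    subst hfd
    exact ⟨ψ, h1, h2, h3, h4, h5⟩
  refine key χ.1.conductor ⟨conductor_ne_zero χ.1⟩ χ.1.primitiveCharacter hcond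
    χ.1.primitiveCharacter_isPrimitive (primitiveCharacter_ne_one hχ1') ?_ hzeta hone
  -- `χ'² = 1`
  have h5 : changeLevel χ.1.conductor_dvd_level (χ.1.primitiveCharacter ^ 2) =
      changeLevel χ.1.conductor_dvd_level 1 := by
    rw [map_pow, changeLevel_primitiveCharacter, hsq, map_one]
  exact changeLevel_injective _ h5

theorem exists_place_of_quadratic (K : Type*) [Field K] [NumberField K]
    (hK : Module.finrank ℚ K = 2) :
    (nrRealPlaces K = 2 ∧ nrComplexPlaces K = 0) ∨ (nrRealPlaces K = 0 ∧ nrComplexPlaces K = 1) := by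
  have h := card_add_two_mul_card_eq_rank K
  rw [hK] at h
  omega

open scoped Classical in
theorem regulator_eq_one {K : Type*} [Field K] [NumberField K] (h : rank K = 0) :
    regulator K = 1 := by
  obtain ⟨w'⟩ : Nonempty (InfinitePlace K) := inferInstance
  have hc : Fintype.card (InfinitePlace K) ≤ 1 := by
    rw [rank] at h
    omega
  haveI : Subsingleton (InfinitePlace K) := Fintype.card_le_one_iff_subsingleton.mp hc
  haveI : IsEmpty {w : InfinitePlace K // w ≠ w'} := ⟨fun w => w.2 (Subsingleton.elim _ _)⟩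
  haveI : IsEmpty (Fin (rank K)) := by rw [h]; infer_instance
  rw [regulator_eq_det K w' (Equiv.equivOfIsEmpty _ _), Matrix.det_isEmpty, abs_one]

set_option backward.isDefEq.respectTransparency false in
/-- a number field with a real place has only the roots of unity `1`, `-1` -/
theorem torsionOrder_eq_two {K : Type*} [Field K] [NumberField K] (h : nrRealPlaces K ≠ 0) :
    torsionOrder K = 2 := by
  classical
  have h1 : ∀ x : torsion K, (x : (𝓞 K)ˣ) = 1 ∨ (x : (𝓞 K)ˣ) = -1 := by
    intro x
    by_cases! hc : 2 < orderOf (x : (𝓞 K)ˣ)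
    · rw [← orderOf_units, ← orderOf_submonoid] at hc
      exact absurd (IsPrimitiveRoot.nrRealPlaces_eq_zero_of_two_lt hc
        (IsPrimitiveRoot.orderOf (x.1 : K))) h
    · interval_cases hi : orderOf (x : (𝓞 K)ˣ)
      · linarith [orderOf_pos_iff.2 ((CommGroup.mem_torsion x.1).1 x.2)]
      · exact Or.intro_left _ (orderOf_eq_one_iff.1 hi)
      · rw [← orderOf_units, CharP.orderOf_eq_two_iff 0 (by decide)] at hi
        simp [← Units.val_inj, ← Units.val_inj, Units.val_neg, Units.val_one, hi]
  let := Fintype.ofFinite (torsion K)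
  rw [torsionOrder, Nat.card_eq_fintype_card]
  refine (Finset.card_eq_two.2 ⟨1, ⟨-1, neg_one_mem_torsion⟩,
    by simp [← Subtype.coe_ne_coe], Finset.ext fun x ↦ ⟨fun _ ↦ ?_, fun _ ↦ Finset.mem_univ _⟩⟩)
  rw [Finset.mem_insert, Finset.mem_singleton, ← Subtype.val_inj, ← Subtype.val_inj]
  exact h1 x

/-- the value at `1` of the `L`-function of the quadratic character, imaginary case:
`L(1, ψ) = 2π h / (w √|d|)` (the regulator is `1`). -/
theorem LFunction_one_imaginary {K : Type*} [Field K] [NumberField K] (hK : Module.finrank ℚ K = 2)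
    (hc : nrComplexPlaces K ≠ 0) {ψ : DirichletCharacter ℂ (NumberField.discr K).natAbs}
    (hψ : IsQuadraticChar K ψ) :
    LFunction ψ 1 = ((2 * π * classNumber K / (torsionOrder K * Real.sqrt |NumberField.discr K|) : ℝ) : ℂ) := by
  rcases exists_place_of_quadratic K hK with ⟨_, h⟩ | ⟨h1, h2⟩
  · exact absurd h hc
  · have hrank : rank K = 0 := by
      rw [rank, card_eq_nrRealPlaces_add_nrComplexPlaces, h1, h2]
    have hreg : regulator K = 1 := regulator_eq_one hrank
    rw [hψ.one, dedekindZeta_residue_def, h1, h2, hreg]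
    norm_num

/-- **Dirichlet's class number formula** for imaginary quadratic fields: `h = w √|d| L(1, ψ) / (2π)` -/
theorem classNumber_imaginary {K : Type*} [Field K] [NumberField K] (hK : Module.finrank ℚ K = 2)
    (hc : nrComplexPlaces K ≠ 0) {ψ : DirichletCharacter ℂ (NumberField.discr K).natAbs}
    (hψ : IsQuadraticChar K ψ) :
    (classNumber K : ℂ) = torsionOrder K * (Real.sqrt |NumberField.discr K| : ℝ) * LFunction ψ 1 /
      (2 * π) := by
  rw [LFunction_one_imaginary hK hc hψ]
  have h1 : (0 : ℝ) < torsionOrder K := Nat.cast_pos.mpr (torsionOrder_pos K)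
  have h2 : (0 : ℝ) < Real.sqrt |(NumberField.discr K : ℝ)| :=
    Real.sqrt_pos_of_pos (abs_pos.mpr (Int.cast_ne_zero.mpr (NumberField.discr_ne_zero K)))
  have h3 : (classNumber K : ℝ) = torsionOrder K * Real.sqrt |(NumberField.discr K : ℝ)| *
      (2 * π * classNumber K / (torsionOrder K * Real.sqrt |(NumberField.discr K : ℝ)|)) / (2 * π) := by
    have := Real.pi_pos
    field_simp
  have h4 := congrArg (fun x : ℝ => (x : ℂ)) h3
  push_cast at h4 ⊢
  exact h4

/-- **Dirichlet's class number formula** for real quadratic fields: `h R = √d L(1, ψ) / 2` -/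
theorem classNumber_real {K : Type*} [Field K] [NumberField K] (hK : Module.finrank ℚ K = 2)
    (hc : nrRealPlaces K ≠ 0) {ψ : DirichletCharacter ℂ (NumberField.discr K).natAbs}
    (hψ : IsQuadraticChar K ψ) :
    (classNumber K : ℂ) * (regulator K : ℝ) =
      (Real.sqrt |NumberField.discr K| : ℝ) * LFunction ψ 1 / 2 := by
  rcases exists_place_of_quadratic K hK with ⟨h1, h2⟩ | ⟨h, _⟩
  swap
  · exact absurd h hc
  have hw : torsionOrder K = 2 := torsionOrder_eq_two hc
  have h3 : (0 : ℝ) < Real.sqrt |(NumberField.discr K : ℝ)| :=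
    Real.sqrt_pos_of_pos (abs_pos.mpr (Int.cast_ne_zero.mpr (NumberField.discr_ne_zero K)))
  rw [hψ.one, dedekindZeta_residue_def, h1, h2, hw]
  have h4 : (classNumber K : ℝ) * regulator K = Real.sqrt |(NumberField.discr K : ℝ)| *
      ((2 ^ 2 * (2 * π) ^ 0 * regulator K * classNumber K) /
        ((2 : ℕ) * Real.sqrt |(NumberField.discr K : ℝ)|)) / 2 := by
    push_cast
    field_simp
  have h5 := congrArg (fun x : ℝ => (x : ℂ)) h4
  push_cast at h5 ⊢
  exact h5

end Fermat.Agent.Cor.H25Z
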