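import Fermat.Agent.Cor.H25ArithEquiv

/-!
# Arithmetically equivalent number fields: Galois closure and signature

Let `K`, `K'` be arithmetically equivalent number fields (for example number fields with the same Dedekind zeta function).

* `ArithEquiv.fixes_iff` : `K` and `K'` have the same Galois closure: an automorphism of a Galois number field `L` that
  contains copies of `K` and `K'` fixes all the embeddings of `K` if and only if it fixes all the embeddings of `K'`;
* `ArithEquiv.nrRealPlaces_eq`, `ArithEquiv.nrComplexPlaces_eq` : `K` and `K'` have the same signature;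
* `invariants_eq_of_dedekindZeta_eq` : number fields with the same Dedekind zeta function have the same degree, the same
  signature and the same value of `h R / (w √|d|)`.

No statement file imports this file.
-/

set_option autoImplicit false
set_option linter.style.haveILetI false
set_option linter.unusedSectionVars false

noncomputable section

namespace Fermat.Agent.Cor.H25Z

open NumberField Ideal InfinitePlace ComplexEmbedding

section Closure

variable {K K' L : Type*} [Field K] [NumberField K] [Field K'] [NumberField K'] [Field L]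
  [NumberField L] [IsGalois ℚ L]

theorem natCard_embeddings (j₀ : K →ₐ[ℚ] L) : Nat.card (K →ₐ[ℚ] L) = Module.finrank ℚ K := by
  rw [← card_fixed_one j₀]
  exact (Nat.card_congr (Equiv.subtypeUnivEquiv fun j => AlgHom.ext fun x => rfl)).symm

theorem forall_fixed_iff (j₀ : K →ₐ[ℚ] L) (g : Gal(L/ℚ)) :
    (∀ j : K →ₐ[ℚ] L, (g : L →ₐ[ℚ] L).comp j = j) ↔
      Nat.card {j : K →ₐ[ℚ] L // (g : L →ₐ[ℚ] L).comp j = j} = Module.finrank ℚ K := by
  constructor
  · intro h
    rw [← natCard_embeddings j₀]
    exact Nat.card_congr (Equiv.subtypeUnivEquiv h)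
  · intro h j
    rw [← natCard_embeddings j₀] at h
    have hb : Function.Bijective (Subtype.val : {j : K →ₐ[ℚ] L // (g : L →ₐ[ℚ] L).comp j = j} → _) :=
      (Nat.bijective_iff_injective_and_card _).mpr ⟨Subtype.val_injective, h⟩
    obtain ⟨⟨j', hj'⟩, rfl⟩ := hb.2 j
    exact hj'

/-- **Arithmetically equivalent number fields have the same Galois closure** -/
theorem ArithEquiv.fixes_iff (h : ArithEquiv K K') (j₀ : K →ₐ[ℚ] L) (j₀' : K' →ₐ[ℚ] L)
    (g : Gal(L/ℚ)) : (∀ j : K →ₐ[ℚ] L, (g : L →ₐ[ℚ] L).comp j = j) ↔
      ∀ j : K' →ₐ[ℚ] L, (g : L →ₐ[ℚ] L).comp j = j := by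
  rw [forall_fixed_iff j₀, forall_fixed_iff j₀', h.card_fixed_eq j₀ j₀', h.finrank_eq]

open scoped Classical in
/-- the number of real places is the number of embeddings fixed by a complex conjugation -/
theorem nrRealPlaces_eq_fixed (j₀ : K →ₐ[ℚ] L) {φ : L →+* ℂ} {c : Gal(L/ℚ)}
    (hc : ∀ x : L, φ (c x) = (starRingEnd ℂ) (φ x)) :
    Nat.card {j : K →ₐ[ℚ] L // (c : L →ₐ[ℚ] L).comp j = j} = nrRealPlaces K := by
  have hinj : Function.Injective (fun j : K →ₐ[ℚ] L => φ.comp (j : K →+* L)) := fun j j' h =>
    AlgHom.ext fun x => φ.injective (RingHom.congr_fun h x)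
  have hb : Function.Bijective (fun j : K →ₐ[ℚ] L => φ.comp (j : K →+* L)) :=
    (Nat.bijective_iff_injective_and_card _).mpr ⟨hinj, by
      rw [natCard_embeddings j₀, Nat.card_eq_fintype_card, NumberField.Embeddings.card K ℂ]⟩
  have hiff : ∀ j : K →ₐ[ℚ] L, (c : L →ₐ[ℚ] L).comp j = j ↔ IsReal (φ.comp (j : K →+* L)) := by
    intro j
    rw [ComplexEmbedding.isReal_iff]
    constructor
    · intro h
      refine RingHom.ext fun x => ?_
      rw [ComplexEmbedding.conjugate_coe_eq]
      have h1 := DFunLike.congr_fun h x
      exact (hc (j x)).symm.trans (congrArg φ h1)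
    · intro h
      refine AlgHom.ext fun x => φ.injective ?_
      have h1 := RingHom.congr_fun h x
      rw [ComplexEmbedding.conjugate_coe_eq] at h1
      exact (hc (j x)).trans h1
  rw [← card_real_embeddings, ← Nat.card_eq_fintype_card]
  exact Nat.card_congr ((Equiv.ofBijective _ hb).subtypeEquiv hiff)

end Closure

/-- **Arithmetically equivalent number fields have the same number of real places** -/
theorem ArithEquiv.nrRealPlaces_eq {K K' : Type*} [Field K] [NumberField K] [Field K']
    [NumberField K'] (h : ArithEquiv K K') : nrRealPlaces K = nrRealPlaces K' := by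
  obtain ⟨L, _, _, ⟨j⟩, ⟨j'⟩⟩ := exists_common_numberField K K'
  obtain ⟨φ⟩ : Nonempty (L →+* ℂ) := inferInstance
  obtain ⟨σ, hσ⟩ := NumberField.ComplexEmbedding.exists_comp_symm_eq_of_comp_eq (k := ℚ) φ (conjugate φ)
    (RingHom.ext_rat _ _)
  have hc : ∀ x : L, φ (σ.symm x) = (starRingEnd ℂ) (φ x) := fun x => by
    have h1 := RingHom.congr_fun hσ x
    rw [ComplexEmbedding.conjugate_coe_eq] at h1
    exact h1
  rw [← nrRealPlaces_eq_fixed j hc, ← nrRealPlaces_eq_fixed j' hc, h.card_fixed_eq j j']

/-- **Arithmetically equivalent number fields have the same number of complex places** -/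
theorem ArithEquiv.nrComplexPlaces_eq {K K' : Type*} [Field K] [NumberField K] [Field K']
    [NumberField K'] (h : ArithEquiv K K') : nrComplexPlaces K = nrComplexPlaces K' := by
  have h1 := card_add_two_mul_card_eq_rank K
  have h2 := card_add_two_mul_card_eq_rank K'
  rw [h.nrRealPlaces_eq, h.finrank_eq, ← h2] at h1
  omega

open Filter Topology in
theorem residue_eq_of_dedekindZeta_eq {K K' : Type*} [Field K] [NumberField K] [Field K']
    [NumberField K'] (h : ∀ s : ℂ, 1 < s.re → dedekindZeta K s = dedekindZeta K' s) :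
    dedekindZeta_residue K = dedekindZeta_residue K' := by
  have h1 := tendsto_sub_one_mul_dedekindZeta_nhdsGT K
  have h2 := tendsto_sub_one_mul_dedekindZeta_nhdsGT K'
  have h3 := h1.congr' (f₂ := fun s : ℝ => (s - 1) * dedekindZeta K' s) (by
    filter_upwards [self_mem_nhdsWithin] with s hs
    rw [h s (by simpa using hs)])
  exact_mod_cast tendsto_nhds_unique h3 h2

/-- **Number fields with the same Dedekind zeta function**: the same degree, the same signature and the same value of
`h R / (w √|d|)`. -/
theorem invariants_eq_of_dedekindZeta_eq {K K' : Type*} [Field K] [NumberField K] [Field K']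
    [NumberField K'] (h : ∀ s : ℂ, 1 < s.re → dedekindZeta K s = dedekindZeta K' s) :
    Module.finrank ℚ K = Module.finrank ℚ K' ∧ nrRealPlaces K = nrRealPlaces K' ∧
      nrComplexPlaces K = nrComplexPlaces K' ∧
      Units.regulator K * classNumber K / (Units.torsionOrder K * Real.sqrt |discr K|) =
        Units.regulator K' * classNumber K' / (Units.torsionOrder K' * Real.sqrt |discr K'|) := by
  have h0 := arithEquiv_of_dedekindZeta_eq h
  refine ⟨h0.finrank_eq, h0.nrRealPlaces_eq, h0.nrComplexPlaces_eq, ?_⟩
  have h1 := residue_eq_of_dedekindZeta_eq h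
  rw [dedekindZeta_residue_def, dedekindZeta_residue_def, h0.nrRealPlaces_eq,
    h0.nrComplexPlaces_eq] at h1
  have hne : (2 : ℝ) ^ nrRealPlaces K' * (2 * Real.pi) ^ nrComplexPlaces K' ≠ 0 := by positivity
  exact mul_left_cancel₀ hne (by linear_combination h1)

end Fermat.Agent.Cor.H25Z
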