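import Fermat.Agent.Cor.H25Z6

/-!
# Primes that split completely in a Galois number field

`K` is a Galois number field. A prime `p` splits completely in `K` if there are `[K : ℚ]` ideals of norm `p`.

* `card_le_finrank` : there are at most `[K : ℚ]` ideals of norm `p`;
* `SplitsCompletely.eq_one` : if `p` splits completely then an automorphism that fixes a prime above `p` is trivial;
* `exists_bad` : for all but finitely many `p`, if there is a prime `P` above `p` with `x^p ≡ x` modulo `P` for all `x`,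
  then `p` splits completely.
-/

set_option autoImplicit false
set_option linter.style.haveILetI false
set_option linter.unusedSectionVars false

noncomputable section

namespace Fermat.Agent.Cor.H25Z

open NumberField Ideal
open scoped Pointwise

variable (K : Type*) [Field K] [NumberField K]

/-- `p` splits completely in `K`: there are `[K : ℚ]` ideals of norm `p` -/
def SplitsCompletely (p : ℕ) : Prop := Nat.card {I : Ideal (𝓞 K) // absNorm I = p} = Module.finrank ℚ K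

variable {K}

theorem liesOver_of_mem {p : ℕ} (hp : p.Prime) {P : Ideal (𝓞 K)} (hP : P.IsPrime)
    (hpP : (p : 𝓞 K) ∈ P) : P.LiesOver (span {(p : ℤ)}) := by
  have hmax : (span {(p : ℤ)}).IsMaximal :=
    PrincipalIdealRing.isMaximal_of_irreducible (Nat.prime_iff_prime_int.mp hp).irreducible
  refine ⟨?_⟩
  refine hmax.eq_of_le ?_ ?_
  · rw [Ideal.ne_top_iff_one, Ideal.under, Ideal.mem_comap, map_one]
    exact fun h => hP.ne_top ((Ideal.eq_top_iff_one P).mpr h)
  · rw [Ideal.span_singleton_le_iff_mem, Ideal.under, Ideal.mem_comap]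
    simpa using hpP

theorem exists_smul_eq_of_mem [IsGalois ℚ K] {p : ℕ} (hp : p.Prime) {P Q : Ideal (𝓞 K)}
    (hP : P.IsPrime) (hQ : Q.IsPrime) (hpP : (p : 𝓞 K) ∈ P) (hpQ : (p : 𝓞 K) ∈ Q) :
    ∃ σ : Gal(K/ℚ), σ • P = Q := by
  haveI := liesOver_of_mem hp hP hpP
  haveI := liesOver_of_mem hp hQ hpQ
  exact exists_smul_eq_of_isGaloisGroup (span {(p : ℤ)}) P Q Gal(K/ℚ)

theorem isPrime_of_absNorm {p : ℕ} (hp : p.Prime) {I : Ideal (𝓞 K)} (hI : absNorm I = p) :
    I.IsPrime ∧ (p : 𝓞 K) ∈ I :=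
  ⟨Ideal.isPrime_of_irreducible_absNorm (by rw [hI]; exact hp), by rw [← hI]; exact absNorm_mem I⟩

theorem absNorm_smul_eq (σ : Gal(K/ℚ)) (P : Ideal (𝓞 K)) : absNorm (σ • P) = absNorm P := by
  rw [Ideal.pointwise_smul_eq_comap]
  exact absNorm_comap (MulSemiringAction.toRingEquiv Gal(K/ℚ) (𝓞 K) σ⁻¹) P

/-- there are at most `[K : ℚ]` ideals of norm `p` -/
theorem card_le_finrank [IsGalois ℚ K] {p : ℕ} (hp : p.Prime) :
    Nat.card {I : Ideal (𝓞 K) // absNorm I = p} ≤ Module.finrank ℚ K := by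
  rcases isEmpty_or_nonempty {I : Ideal (𝓞 K) // absNorm I = p} with h | ⟨⟨P, hP⟩⟩
  · rw [Nat.card_of_isEmpty]
    exact Nat.zero_le _
  · rw [← IsGalois.card_aut_eq_finrank]
    obtain ⟨h1, h2⟩ := isPrime_of_absNorm hp hP
    let f : Gal(K/ℚ) → {I : Ideal (𝓞 K) // absNorm I = p} := fun σ =>
      ⟨σ • P, by rw [absNorm_smul_eq, hP]⟩
    refine Nat.card_le_card_of_surjective f ?_
    rintro ⟨Q, hQ⟩
    obtain ⟨h3, h4⟩ := isPrime_of_absNorm hp hQ
    obtain ⟨σ, hσ⟩ := exists_smul_eq_of_mem hp h1 h3 h2 h4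
    exact ⟨σ, Subtype.ext hσ⟩

/-- if `p` splits completely then an automorphism that fixes a prime above `p` is trivial -/
theorem SplitsCompletely.eq_one [IsGalois ℚ K] {p : ℕ} (hp : p.Prime) (h : SplitsCompletely K p)
    {P : Ideal (𝓞 K)} (hP : P.IsPrime) (hpP : (p : 𝓞 K) ∈ P) {σ : Gal(K/ℚ)} (hσ : σ • P = P) :
    σ = 1 := by
  have hn : 0 < Nat.card {I : Ideal (𝓞 K) // absNorm I = p} := by
    rw [h]
    exact Module.finrank_pos
  obtain ⟨⟨⟨Q, hQ⟩⟩, hfin⟩ := Nat.card_pos_iff.mp hn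
  obtain ⟨h3, h4⟩ := isPrime_of_absNorm hp hQ
  have hPN : absNorm P = p := by
    obtain ⟨τ, rfl⟩ := exists_smul_eq_of_mem hp h3 hP h4 hpP
    rw [absNorm_smul_eq, hQ]
  let f : Gal(K/ℚ) → {I : Ideal (𝓞 K) // absNorm I = p} := fun σ =>
    ⟨σ • P, by rw [absNorm_smul_eq, hPN]⟩
  have hf : Function.Surjective f := by
    rintro ⟨Q, hQ⟩
    obtain ⟨h5, h6⟩ := isPrime_of_absNorm hp hQ
    obtain ⟨σ, hσ⟩ := exists_smul_eq_of_mem hp hP h5 hpP h6
    exact ⟨σ, Subtype.ext hσ⟩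
  have hb : Function.Bijective f :=
    (Nat.bijective_iff_surjective_and_card f).mpr ⟨hf, by rw [h, IsGalois.card_aut_eq_finrank]⟩
  apply hb.1
  apply Subtype.ext
  change σ • P = (1 : Gal(K/ℚ)) • P
  rw [hσ, one_smul]

/-- if `x^p ≡ x` modulo the prime `P` above `p` then `P` has norm `p` -/
theorem absNorm_eq_of_pow {p : ℕ} (hp : p.Prime) {P : Ideal (𝓞 K)} (hP : P.IsPrime)
    (hpP : (p : 𝓞 K) ∈ P) (h : ∀ x : 𝓞 K, x - x ^ p ∈ P) : absNorm P = p := by
  haveI : Fact p.Prime := ⟨hp⟩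
  have hP0 : P ≠ ⊥ := by
    rintro rfl
    rw [Ideal.mem_bot] at hpP
    exact hp.ne_zero (by exact_mod_cast hpP)
  haveI : P.IsMaximal := hP.isMaximal hP0
  letI : Field (𝓞 K ⧸ P) := Ideal.Quotient.field P
  haveI : Finite (𝓞 K ⧸ P) := Ring.HasFiniteQuotients.finiteQuotient hP0
  letI : Fintype (𝓞 K ⧸ P) := Fintype.ofFinite _
  -- all elements are roots of `X ^ p - X`
  have h1 : ∀ z : 𝓞 K ⧸ P, z ^ p = z := by
    intro z
    obtain ⟨x, rfl⟩ := Ideal.Quotient.mk_surjective z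
    rw [← map_pow]
    exact (Ideal.Quotient.eq.mpr (h x)).symm
  have h4 : absNorm P = Fintype.card (𝓞 K ⧸ P) := by
    rw [absNorm_apply, Submodule.cardQuot_apply, Nat.card_eq_fintype_card]
  have h5 : Fintype.card (𝓞 K ⧸ P) ≤ p := by
    classical
    have h6 : (Finset.univ : Finset (𝓞 K ⧸ P)) ⊆
        (Polynomial.X ^ p - Polynomial.X : Polynomial (𝓞 K ⧸ P)).roots.toFinset := by
      intro z _
      rw [Multiset.mem_toFinset, Polynomial.mem_roots (FiniteField.X_pow_card_sub_X_ne_zero _ hp.one_lt)]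
      simp [h1 z]
    refine (Finset.card_le_card h6).trans ((Multiset.toFinset_card_le _).trans ?_)
    refine (Polynomial.card_roots' _).trans ?_
    rw [FiniteField.X_pow_card_sub_X_natDegree_eq _ hp.one_lt]
  have h7 : p ∣ absNorm P := by
    obtain ⟨q, k, hk, hq, hqp, hN⟩ := Ideal.exists_prime_and_absNorm_eq_pow P
    have h8 : q = p := by
      by_contra hne
      have hcop : IsCoprime (q : ℤ) (p : ℤ) :=
        Nat.isCoprime_iff_coprime.mpr ((Nat.coprime_primes hqp hp).mpr hne)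
      obtain ⟨a, b, hab⟩ := hcop
      apply hP.ne_top
      rw [Ideal.eq_top_iff_one]
      have h9 : (1 : 𝓞 K) = (a : 𝓞 K) * (q : 𝓞 K) + (b : 𝓞 K) * (p : 𝓞 K) := by
        exact_mod_cast (congrArg (Int.cast : ℤ → 𝓞 K) hab).symm
      rw [h9]
      exact add_mem (Ideal.mul_mem_left _ _ hq) (Ideal.mul_mem_left _ _ hpP)
    rw [hN, h8]
    exact dvd_pow_self p hk.ne'
  rw [h4] at h7 ⊢
  exact le_antisymm h5 (Nat.le_of_dvd Fintype.card_pos h7)

/-- an automorphism that fixes a prime of norm `p` acts trivially modulo this prime -/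
theorem smul_sub_mem {p : ℕ} (hp : p.Prime) {P : Ideal (𝓞 K)} (hPN : absNorm P = p)
    {σ : Gal(K/ℚ)} (hσ : σ • P = P) (x : 𝓞 K) : σ • x - x ∈ P := by
  haveI : Fact p.Prime := ⟨hp⟩
  have hcard : Nat.card (𝓞 K ⧸ P) = p := by
    rw [← hPN, absNorm_apply, Submodule.cardQuot_apply]
  haveI : Finite (𝓞 K ⧸ P) := Nat.finite_of_card_ne_zero (by rw [hcard]; exact hp.ne_zero)
  -- every element is congruent to an integer
  obtain ⟨n, hn⟩ : ∃ n : ℤ, x - (n : 𝓞 K) ∈ P := by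
    letI : Fintype (𝓞 K ⧸ P) := Fintype.ofFinite _
    let e : ZMod p ≃+* (𝓞 K ⧸ P) := ZMod.ringEquivOfPrime _ hp (by
      rw [← Nat.card_eq_fintype_card, hcard])
    obtain ⟨n, hn⟩ := ZMod.intCast_surjective (e.symm (Ideal.Quotient.mk P x))
    refine ⟨n, Ideal.Quotient.eq.mp (e.symm.injective ?_)⟩
    rw [← hn, map_intCast, map_intCast]
  have h2 : σ • (x - (n : 𝓞 K)) ∈ P := by
    rw [← hσ]
    exact Ideal.smul_mem_pointwise_smul σ _ P hn
  have h3 : σ • (n : 𝓞 K) = (n : 𝓞 K) := map_intCast (MulSemiringAction.toRingHom Gal(K/ℚ) (𝓞 K) σ) n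
  rw [smul_sub, h3] at h2
  have h4 : σ • x - x = (σ • x - n) - (x - n) := by ring
  rw [h4]
  exact sub_mem h2 hn

/-- for all but finitely many primes `p`: if `x^p ≡ x` modulo a prime above `p`, then `p` splits completely -/
theorem exists_bad (K : Type*) [Field K] [NumberField K] [IsGalois ℚ K] : ∃ D : ℕ, D ≠ 0 ∧
    ∀ p : ℕ, p.Prime → ¬ p ∣ D → ∀ P : Ideal (𝓞 K), P.IsPrime → (p : 𝓞 K) ∈ P →
      (∀ x : 𝓞 K, x - x ^ p ∈ P) → SplitsCompletely K p := by
  classical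
  have h0 : ∀ σ : Gal(K/ℚ), ∃ x : 𝓞 K, σ ≠ 1 → σ • x - x ≠ 0 := by
    intro σ
    by_contra! hcon
    have hσ : σ ≠ 1 := (hcon 0).1
    apply hσ
    refine AlgEquiv.ext fun y => ?_
    obtain ⟨a, b, hb, rfl⟩ := IsFractionRing.div_surjective (A := 𝓞 K) y
    have h1 : ∀ x : 𝓞 K, σ (algebraMap (𝓞 K) K x) = algebraMap (𝓞 K) K x := fun x =>
      congrArg (algebraMap (𝓞 K) K) (sub_eq_zero.mp (hcon x).2)
    rw [map_div₀, h1, h1]
    rfl
  choose x hx using h0
  refine ⟨∏ σ ∈ (Finset.univ : Finset Gal(K/ℚ)).filter (fun σ => σ ≠ 1),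
    absNorm (span {σ • x σ - x σ}), ?_, ?_⟩
  · rw [Finset.prod_ne_zero_iff]
    intro σ hσ
    rw [Ne, absNorm_eq_zero_iff, Ideal.span_singleton_eq_bot]
    exact hx σ (Finset.mem_filter.mp hσ).2
  · intro p hp hpD P hP hpP h
    have hPN := absNorm_eq_of_pow hp hP hpP h
    have hst : ∀ σ : Gal(K/ℚ), σ • P = P → σ = 1 := by
      intro σ hσ
      by_contra hne
      apply hpD
      have h1 : σ • x σ - x σ ∈ P := smul_sub_mem hp hPN hσ _
      have h2 : absNorm P ∣ absNorm (span {σ • x σ - x σ}) :=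
        absNorm_dvd_absNorm_of_le ((Ideal.span_singleton_le_iff_mem P).mpr h1)
      rw [hPN] at h2
      exact h2.trans (Finset.dvd_prod_of_mem _ (Finset.mem_filter.mpr ⟨Finset.mem_univ _, hne⟩))
    let f : Gal(K/ℚ) → {I : Ideal (𝓞 K) // absNorm I = p} := fun σ =>
      ⟨σ • P, by rw [absNorm_smul_eq, hPN]⟩
    have hf : Function.Bijective f := by
      constructor
      · intro σ τ hστ
        have h1 : σ • P = τ • P := congrArg Subtype.val hστ
        have h2 : (τ⁻¹ * σ) • P = P := by rw [mul_smul, h1, inv_smul_smul]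
        exact (inv_mul_eq_one.mp (hst _ h2)).symm
      · rintro ⟨Q, hQ⟩
        obtain ⟨h5, h6⟩ := isPrime_of_absNorm hp hQ
        obtain ⟨σ, hσ⟩ := exists_smul_eq_of_mem hp hP h5 hpP h6
        exact ⟨σ, Subtype.ext hσ⟩
    rw [SplitsCompletely, ← Nat.card_eq_of_bijective f hf, IsGalois.card_aut_eq_finrank]

end Fermat.Agent.Cor.H25Z
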