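import Mathlib

/-!
# Dedekind zeta functions I : the Euler product

`aK K n` is the number of ideals of norm `n` of the ring of integers of `K`. It is multiplicative, and for a Galois
extension `K` of `ℚ` one has `ζ_K(s) = ∏_p (1 - p^(-s f_p))^(-g_p)` for `Re s > 1`, with `g_p` the number and `f_p` the
inertia degree of the primes above `p`.
-/

set_option autoImplicit false

noncomputable section

namespace Fermat.Agent.Cor.H25Z

open NumberField Ideal Filter Topology

variable (K : Type*) [Field K] [NumberField K]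

/-- the number of ideals of norm `n` -/
def aK (n : ℕ) : ℕ := Nat.card {I : Ideal (𝓞 K) // absNorm I = n}

variable {K}

theorem sup_eq_top {m n : ℕ} (h : m.Coprime n) :
    (span {(m : 𝓞 K)} ⊔ span {(n : 𝓞 K)} : Ideal (𝓞 K)) = ⊤ := by
  rw [Ideal.eq_top_iff_one]
  obtain ⟨a, b, hab⟩ := Nat.isCoprime_iff_coprime.mpr h
  have h1 : (1 : 𝓞 K) = (a : 𝓞 K) * (m : 𝓞 K) + (b : 𝓞 K) * (n : 𝓞 K) := by
    exact_mod_cast (congrArg (Int.cast : ℤ → 𝓞 K) hab).symm
  rw [h1]
  exact Submodule.add_mem_sup (Ideal.mul_mem_left _ _ (Ideal.mem_span_singleton_self _))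
    (Ideal.mul_mem_left _ _ (Ideal.mem_span_singleton_self _))

theorem absNorm_coprime {m n : ℕ} (h : m.Coprime n) {A : Ideal (𝓞 K)}
    (hA : span {(m : 𝓞 K)} ≤ A) : (absNorm A).Coprime n := by
  have h1 : absNorm A ∣ absNorm (span {(m : 𝓞 K)}) := absNorm_dvd_absNorm_of_le hA
  have h2 : absNorm (span {(m : 𝓞 K)}) = m ^ Module.finrank ℤ (𝓞 K) := by
    have h3 : (m : 𝓞 K) = algebraMap ℤ (𝓞 K) (m : ℤ) := by simp
    rw [absNorm_span_singleton, h3, Algebra.norm_algebraMap, Int.natAbs_pow, Int.natAbs_natCast]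
  rw [h2] at h1
  exact (Nat.Coprime.pow_left _ h).coprime_dvd_left h1

theorem span_le_of_absNorm {A : Ideal (𝓞 K)} {m : ℕ} (h : absNorm A = m) :
    span {(m : 𝓞 K)} ≤ A := by
  rw [Ideal.span_singleton_le_iff_mem, ← h]
  exact absNorm_mem A

theorem mul_sup_eq {m n : ℕ} (h : m.Coprime n) {A B : Ideal (𝓞 K)}
    (hA : span {(m : 𝓞 K)} ≤ A) (hB : span {(n : 𝓞 K)} ≤ B) : A * B ⊔ span {(m : 𝓞 K)} = A := by
  apply le_antisymm (sup_le Ideal.mul_le_left hA)
  have h1 : B ⊔ span {(m : 𝓞 K)} = ⊤ := by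
    rw [eq_top_iff, ← sup_eq_top h]
    exact sup_le le_sup_right (hB.trans le_sup_left)
  calc A = A * (B ⊔ span {(m : 𝓞 K)}) := by rw [h1, Ideal.mul_top]
    _ = A * B ⊔ A * span {(m : 𝓞 K)} := Ideal.mul_sup _ _ _
    _ ≤ A * B ⊔ span {(m : 𝓞 K)} := sup_le_sup_left Ideal.mul_le_right _

theorem sup_mul_sup_eq {m n : ℕ} (h : m.Coprime n) {J : Ideal (𝓞 K)}
    (hJ : span {((m * n : ℕ) : 𝓞 K)} ≤ J) :
    (J ⊔ span {(m : 𝓞 K)}) * (J ⊔ span {(n : 𝓞 K)}) = J := by
  apply le_antisymm
  · rw [Ideal.sup_mul, Ideal.mul_sup, Ideal.mul_sup]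
    refine sup_le (sup_le Ideal.mul_le_left Ideal.mul_le_left) (sup_le Ideal.mul_le_right ?_)
    rw [Ideal.span_singleton_mul_span_singleton]
    rwa [Nat.cast_mul] at hJ
  · calc J = J * (span {(m : 𝓞 K)} ⊔ span {(n : 𝓞 K)}) := by rw [sup_eq_top h, Ideal.mul_top]
      _ = J * span {(m : 𝓞 K)} ⊔ J * span {(n : 𝓞 K)} := Ideal.mul_sup _ _ _
      _ ≤ _ := sup_le (by rw [mul_comm]; exact Ideal.mul_mono le_sup_right le_sup_left)
          (Ideal.mul_mono le_sup_left le_sup_right)

theorem absNorm_sup {m n : ℕ} (h : m.Coprime n) {J : Ideal (𝓞 K)} (hJ : absNorm J = m * n) :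
    absNorm (J ⊔ span {(m : 𝓞 K)}) = m ∧ absNorm (J ⊔ span {(n : 𝓞 K)}) = n := by
  have h1 := sup_mul_sup_eq h (span_le_of_absNorm hJ)
  have h2 : absNorm (J ⊔ span {(m : 𝓞 K)}) * absNorm (J ⊔ span {(n : 𝓞 K)}) = m * n := by
    rw [← map_mul, h1, hJ]
  have hA : (absNorm (J ⊔ span {(m : 𝓞 K)})).Coprime n := absNorm_coprime h le_sup_right
  have hB : (absNorm (J ⊔ span {(n : 𝓞 K)})).Coprime m := absNorm_coprime h.symm le_sup_right
  constructor
  · exact Nat.dvd_antisymm (hA.dvd_of_dvd_mul_right (Dvd.intro _ h2))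
      (hB.symm.dvd_of_dvd_mul_right (Dvd.intro _ h2.symm))
  · exact Nat.dvd_antisymm (hB.dvd_of_dvd_mul_left (Dvd.intro_left _ h2))
      (hA.symm.dvd_of_dvd_mul_left (Dvd.intro_left _ h2.symm))

theorem aK_mul {m n : ℕ} (h : m.Coprime n) : aK K (m * n) = aK K m * aK K n := by
  rw [aK, aK, aK, ← Nat.card_prod]
  refine Nat.card_congr
    { toFun := fun J => (⟨J.1 ⊔ span {(m : 𝓞 K)}, (absNorm_sup h J.2).1⟩,
        ⟨J.1 ⊔ span {(n : 𝓞 K)}, (absNorm_sup h J.2).2⟩)
      invFun := fun x => ⟨x.1.1 * x.2.1, by rw [map_mul, x.1.2, x.2.2]⟩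
      left_inv := fun J => Subtype.ext (sup_mul_sup_eq h (span_le_of_absNorm J.2))
      right_inv := fun x => Prod.ext
        (Subtype.ext (mul_sup_eq h (span_le_of_absNorm x.1.2) (span_le_of_absNorm x.2.2)))
        (Subtype.ext (by
          change x.1.1 * x.2.1 ⊔ span {(n : 𝓞 K)} = x.2.1
          rw [mul_comm]
          exact mul_sup_eq h.symm (span_le_of_absNorm x.2.2) (span_le_of_absNorm x.1.2))) }

theorem aK_one : aK K 1 = 1 := by
  rw [aK]
  have : Unique {I : Ideal (𝓞 K) // absNorm I = 1} :=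
    { default := ⟨⊤, by simp⟩
      uniq := fun I => Subtype.ext (absNorm_eq_one_iff.mp I.2) }
  exact Nat.card_unique

section Local

variable {p f : ℕ}

/-- ideals of norm `p ^ k` whose prime divisors lie in `S` -/
def setI (p : ℕ) (S : Finset (Ideal (𝓞 K))) (k : ℕ) : Set (Ideal (𝓞 K)) :=
  {I | absNorm I = p ^ k ∧ ∀ Q, Prime Q → Q ∣ I → Q ∈ S}

theorem finite_setI (p : ℕ) (S : Finset (Ideal (𝓞 K))) (k : ℕ) : (setI p S k).Finite :=
  (finite_setOfPred_absNorm_eq (S := 𝓞 K) (p ^ k)).subset fun _ h => h.1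

theorem ncard_setI_le (p : ℕ) (S : Finset (Ideal (𝓞 K))) (k : ℕ) :
    (setI p S k).ncard ≤ aK K (p ^ k) := by
  have h1 : aK K (p ^ k) = ({I | absNorm I = p ^ k} : Set (Ideal (𝓞 K))).ncard := rfl
  rw [h1]
  exact Set.ncard_le_ncard (fun _ h => h.1) (finite_setOfPred_absNorm_eq (S := 𝓞 K) (p ^ k))

theorem setI_insert (hp : p.Prime) {P : Ideal (𝓞 K)} (hP : Prime P) (hf : absNorm P = p ^ f)
    {S : Finset (Ideal (𝓞 K))} (hPS : P ∉ S) [DecidableEq (Ideal (𝓞 K))] (k : ℕ) :
    (setI p (insert P S) k).ncard =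
      (setI p S k).ncard + if f ≤ k then (setI p (insert P S) (k - f)).ncard else 0 := by
  have hone : ∀ I, I ∈ setI p (insert P S) k ↔ I ∈ setI p S k ∨ (P ∣ I ∧ I ∈ setI p (insert P S) k) := by
    intro I
    constructor
    · intro h
      by_cases hd : P ∣ I
      · exact Or.inr ⟨hd, h⟩
      · refine Or.inl ⟨h.1, fun Q hQ hQI => ?_⟩
        rcases Finset.mem_insert.mp (h.2 Q hQ hQI) with h' | h'
        · exact absurd (h' ▸ hQI) hd
        · exact h'
    · rintro (h | h)
      · exact ⟨h.1, fun Q hQ hQI => Finset.mem_insert_of_mem (h.2 Q hQ hQI)⟩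
      · exact h.2
  have hset : setI p (insert P S) k = setI p S k ∪ {I | P ∣ I ∧ I ∈ setI p (insert P S) k} :=
    Set.ext hone
  have hdisj : Disjoint (setI p S k) {I | P ∣ I ∧ I ∈ setI p (insert P S) k} := by
    rw [Set.disjoint_left]
    intro I h h'
    exact hPS (h.2 P hP h'.1)
  have hfin : ({I | P ∣ I ∧ I ∈ setI p (insert P S) k} : Set _).Finite :=
    (finite_setI p (insert P S) k).subset fun _ h => h.2
  rw [hset, Set.ncard_union_eq hdisj (finite_setI p S k) hfin]
  congr 1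
  split_ifs with hfk
  · have himg : {I | P ∣ I ∧ I ∈ setI p (insert P S) k} =
        (fun J => P * J) '' setI p (insert P S) (k - f) := by
      ext I
      constructor
      · rintro ⟨⟨J, rfl⟩, h1, h2⟩
        refine ⟨J, ⟨?_, fun Q hQ hQJ => h2 Q hQ (hQJ.mul_left P)⟩, rfl⟩
        rw [map_mul, hf] at h1
        have h3 : p ^ f * p ^ (k - f) = p ^ k := by rw [← pow_add, Nat.add_sub_cancel' hfk]
        rw [← h3] at h1
        exact Nat.eq_of_mul_eq_mul_left (pow_pos hp.pos f) h1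
      · rintro ⟨J, ⟨h1, h2⟩, rfl⟩
        refine ⟨Dvd.intro _ rfl, ?_, fun Q hQ hQJ => ?_⟩
        · rw [map_mul, hf, h1, ← pow_add, Nat.add_sub_cancel' hfk]
        · rcases hQ.dvd_or_dvd hQJ with h3 | h3
          · have h4 : Q = P := associated_iff_eq.mp (hQ.associated_of_dvd hP h3)
            rw [h4]
            exact Finset.mem_insert_self _ _
          · exact h2 Q hQ h3
    rw [himg, Set.ncard_image_of_injective _ (mul_right_injective₀ hP.ne_zero)]
  · rw [Set.ncard_eq_zero hfin]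
    ext I
    simp only [Set.mem_ofPred_eq, Set.mem_empty_iff_false, iff_false]
    rintro ⟨⟨J, rfl⟩, h1, -⟩
    rw [map_mul, hf] at h1
    have h3 : p ^ f ∣ p ^ k := Dvd.intro _ h1
    exact hfk ((Nat.pow_dvd_pow_iff_le_right hp.one_lt).mp h3)

theorem tsum_setI (hp : p.Prime) {x : ℂ}
    (hx : Summable fun k => (aK K (p ^ k) : ℝ) * ‖x‖ ^ k) [DecidableEq (Ideal (𝓞 K))]
    (S : Finset (Ideal (𝓞 K))) (hS : ∀ P ∈ S, Prime P ∧ absNorm P = p ^ f) :
    (∑' k, ((setI p S k).ncard : ℂ) * x ^ k) * (1 - x ^ f) ^ S.card = 1 := by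
  have hsum : ∀ S : Finset (Ideal (𝓞 K)),
      Summable fun k => ((setI p S k).ncard : ℂ) * x ^ k := by
    intro S
    refine Summable.of_norm_bounded hx fun k => ?_
    rw [norm_mul, norm_pow, Complex.norm_natCast]
    exact mul_le_mul_of_nonneg_right (by exact_mod_cast ncard_setI_le p S k)
      (pow_nonneg (norm_nonneg _) _)
  induction S using Finset.induction_on with
  | empty =>
    have h1 : ∀ k, k ≠ 0 → ((setI p (∅ : Finset (Ideal (𝓞 K))) k).ncard : ℂ) * x ^ k = 0 := by
      intro k hk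
      have h2 : setI p (∅ : Finset (Ideal (𝓞 K))) k = ∅ := by
        ext I
        simp only [Set.mem_empty_iff_false, iff_false]
        rintro ⟨h3, h4⟩
        have h5 : ¬ IsUnit I := by
          rw [Ideal.isUnit_iff]
          rintro rfl
          rw [absNorm_top] at h3
          have := Nat.one_lt_pow hk hp.one_lt
          omega
        have h6 : I ≠ 0 := by
          rintro rfl
          rw [Ideal.zero_eq_bot, absNorm_bot] at h3
          exact (pow_pos hp.pos k).ne h3
        obtain ⟨Q, hQ, hQI⟩ := WfDvdMonoid.exists_irreducible_factor h5 h6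
        exact absurd (h4 Q (UniqueFactorizationMonoid.irreducible_iff_prime.mp hQ) hQI)
          (Finset.notMem_empty _)
      rw [h2]
      simp
    rw [tsum_eq_single 0 h1, Finset.card_empty, pow_zero, mul_one, pow_zero, mul_one]
    have h2 : setI p (∅ : Finset (Ideal (𝓞 K))) 0 = {⊤} := by
      ext I
      simp only [Set.mem_singleton_iff]
      constructor
      · rintro ⟨h3, -⟩
        rw [pow_zero] at h3
        exact absNorm_eq_one_iff.mp h3
      · rintro rfl
        refine ⟨by simp, fun Q hQ hQI => ?_⟩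
        rw [← Ideal.one_eq_top] at hQI
        exact absurd (isUnit_of_dvd_one hQI) hQ.not_isUnit
    rw [h2, Set.ncard_singleton, Nat.cast_one]
  | insert P S hPS ih =>
    obtain ⟨hP, hPf⟩ := hS P (Finset.mem_insert_self _ _)
    have ih := ih fun Q hQ => hS Q (Finset.mem_insert_of_mem hQ)
    have h1 : ∑' k, ((setI p (insert P S) k).ncard : ℂ) * x ^ k =
        ∑' k, ((setI p S k).ncard : ℂ) * x ^ k +
          x ^ f * ∑' k, ((setI p (insert P S) k).ncard : ℂ) * x ^ k := by
      let g : ℕ → ℂ := fun k =>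
        (if f ≤ k then ((setI p (insert P S) (k - f)).ncard : ℂ) else 0) * x ^ k
      have hg : ∀ k, g (k + f) = x ^ f * (((setI p (insert P S) k).ncard : ℂ) * x ^ k) := by
        intro k
        simp only [g]
        rw [if_pos (Nat.le_add_left f k), Nat.add_sub_cancel, pow_add]
        ring
      have hgs : Summable g := by
        rw [← summable_nat_add_iff f]
        simp_rw [hg]
        exact (hsum _).mul_left _
      have h2 : ∑' k, g k = x ^ f * ∑' k, ((setI p (insert P S) k).ncard : ℂ) * x ^ k := by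
        rw [← hgs.sum_add_tsum_nat_add f, ← tsum_mul_left]
        simp_rw [hg]
        rw [Finset.sum_eq_zero, zero_add]
        intro k hk
        simp only [g]
        rw [if_neg (not_le.mpr (Finset.mem_range.mp hk)), zero_mul]
      rw [← h2, ← (hsum S).tsum_add hgs]
      refine tsum_congr fun k => ?_
      rw [setI_insert hp hP hPf hPS k, Nat.cast_add, add_mul]
      simp only [g]
      congr 2
      split_ifs <;> simp
    rw [Finset.card_insert_of_notMem hPS, pow_succ]
    have h3 : (∑' k, ((setI p (insert P S) k).ncard : ℂ) * x ^ k) * (1 - x ^ f) =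
        ∑' k, ((setI p S k).ncard : ℂ) * x ^ k := by
      rw [mul_sub, mul_one]
      linear_combination h1
    rw [mul_comm ((1 - x ^ f) ^ S.card), ← mul_assoc, h3, ih]

end Local

end Fermat.Agent.Cor.H25Z
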