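import Fermat.Agent.Cor.H25Z1

/-!
# Dedekind zeta functions II : the Euler product, continued
-/

set_option autoImplicit false
set_option linter.style.haveILetI false

noncomputable section

namespace Fermat.Agent.Cor.H25Z

open NumberField Ideal Filter Topology

variable {K : Type*} [Field K] [NumberField K]

theorem dedekindZeta_eq (s : ℂ) : dedekindZeta K s = LSeries (fun n => (aK K n : ℂ)) s := rfl

theorem lSeriesSummable_aK {s : ℂ} (hs : 1 < s.re) :
    LSeriesSummable (fun n => (aK K n : ℂ)) s := by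
  have h1 : Tendsto (fun n : ℕ => (∑ k ∈ Finset.Icc 1 n, (aK K k : ℝ)) / (n : ℝ)) atTop
      (𝓝 (dedekindZeta_residue K)) := by
    refine ((NumberField.Ideal.tendsto_norm_le_div_atTop₀ K).comp
      tendsto_natCast_atTop_atTop).congr fun n ↦ ?_
    simp only [Function.comp_apply, Nat.cast_le, ← Nat.cast_sum]
    congr
    unfold aK
    rw [← add_left_inj 1, ← card_norm_le_eq_card_norm_le_add_one,
      show Finset.Icc 1 n = Finset.Ioc 0 n from Finset.Icc_succ_left_eq_Ioc _ _,
      show 1 = Nat.card {I : Ideal (𝓞 K) // absNorm I = 0} by simp [Ideal.absNorm_eq_zero_iff],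
      Finset.sum_Ioc_add_eq_sum_Icc (n.zero_le),
      ← Finset.card_preimage_eq_sum_card_image_eq (fun k _ ↦ finite_setOfPred_absNorm_eq k)]
    simp [Set.coe_eq_subtype]
  have h2 := LSeriesSummable_of_sum_norm_bigO_and_nonneg (f := fun n => (aK K n : ℝ)) (r := 1)
    (s := s) (Asymptotics.isBigO_atTop_natCast_rpow_of_tendsto_div_rpow (𝕜 := ℝ) (a := dedekindZeta_residue K)
      (by simpa using h1))
    (fun n => Nat.cast_nonneg _) zero_le_one hs
  simpa using h2

theorem term_pow {s : ℂ} {p : ℕ} (hp : p.Prime) (e : ℕ) :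
    LSeries.term (fun n => (aK K n : ℂ)) s (p ^ e) = (aK K (p ^ e) : ℂ) * ((p : ℂ) ^ (-s)) ^ e := by
  rw [LSeries.term_of_ne_zero (pow_ne_zero _ hp.ne_zero), div_eq_mul_inv, Nat.cast_pow,
    Complex.cpow_neg, inv_pow]
  congr 2
  rw [← Complex.cpow_nat_mul, Complex.natCast_cpow_natCast_mul]

theorem summable_local {s : ℂ} (hs : 1 < s.re) {p : ℕ} (hp : p.Prime) :
    Summable fun k => (aK K (p ^ k) : ℝ) * ‖(p : ℂ) ^ (-s)‖ ^ k := by
  have h1 := (lSeriesSummable_aK (K := K) hs).norm
  have h2 := h1.comp_injective (Nat.pow_right_injective hp.two_le)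
  refine h2.congr fun k => ?_
  rw [Function.comp_apply, term_pow hp, norm_mul, norm_pow, Complex.norm_natCast]

/-- the set of primes above `p` -/
theorem primesOver_finite (p : ℕ) : ((span {(p : ℤ)}).primesOver (𝓞 K)).Finite :=
  Algebra.QuasiFinite.finite_primesOver _

theorem tsum_local [IsGalois ℚ K] {s : ℂ} (hs : 1 < s.re) {p : ℕ} (hp : p.Prime) :
    (∑' e, LSeries.term (fun n => (aK K n : ℂ)) s (p ^ e)) =
      ((1 - ((p : ℂ) ^ (-s)) ^ (span {(p : ℤ)}).inertiaDegIn (𝓞 K)) ^
        ((span {(p : ℤ)}).primesOver (𝓞 K)).ncard)⁻¹ := by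
  classical
  haveI : Fact p.Prime := ⟨hp⟩
  haveI hpp : (span {(p : ℤ)}).IsPrime := by
    rw [span_singleton_prime (by exact_mod_cast hp.ne_zero)]
    exact Nat.prime_iff_prime_int.mp hp
  have hbot : (span {(p : ℤ)}) ≠ ⊥ := by
    rw [Ne, Ideal.span_singleton_eq_bot]
    exact_mod_cast hp.ne_zero
  let S : Finset (Ideal (𝓞 K)) := (primesOver_finite (K := K) p).toFinset
  have hScard : S.card = ((span {(p : ℤ)}).primesOver (𝓞 K)).ncard :=
    (Set.ncard_eq_toFinset_card _ (primesOver_finite (K := K) p)).symm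
  have hS : ∀ P ∈ S, Prime P ∧ absNorm P = p ^ (span {(p : ℤ)}).inertiaDegIn (𝓞 K) := by
    intro P hP
    have hP' : P ∈ (span {(p : ℤ)}).primesOver (𝓞 K) := by simpa [S] using hP
    obtain ⟨h1, h2⟩ := hP'
    refine ⟨Ideal.prime_of_isPrime (ne_bot_of_mem_primesOver hbot ⟨h1, h2⟩) h1, ?_⟩
    rw [inertiaDegIn_eq_inertiaDeg (span {(p : ℤ)}) P Gal(K/ℚ), pow_inertiaDeg]
  have h1 := tsum_setI hp (summable_local (K := K) hs hp) S hS
  have h2 : ∀ k, (setI p S k).ncard = aK K (p ^ k) := by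
    intro k
    have h3 : setI p S k = {I | absNorm I = p ^ k} := by
      ext I
      refine ⟨fun h => h.1, fun h => ⟨h, fun Q hQ hQI => ?_⟩⟩
      have hQ0 : Q ≠ ⊥ := hQ.ne_zero
      haveI : Q.IsPrime := Ideal.isPrime_of_prime hQ
      haveI : Q.IsMaximal := Ideal.IsPrime.isMaximal inferInstance hQ0
      have h4 : (p : 𝓞 K) ∈ Q := by
        have h5 : ((p ^ k : ℕ) : 𝓞 K) ∈ I := by
          rw [← h]
          exact absNorm_mem I
        have h6 : ((p : 𝓞 K)) ^ k ∈ Q := by
          rw [← Nat.cast_pow]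
          exact Ideal.dvd_iff_le.mp hQI h5
        exact Ideal.IsPrime.mem_of_pow_mem inferInstance k h6
      have h7 : Q.LiesOver (span {(p : ℤ)}) := by
        rw [Ideal.liesOver_iff]
        refine (hpp.isMaximal hbot).eq_of_le ?_ ?_
        · exact Ideal.comap_ne_top _ (Ideal.IsPrime.ne_top inferInstance)
        · rw [Ideal.span_singleton_le_iff_mem, Ideal.under_def, Ideal.mem_comap]
          simpa using h4
      have h8 : Q ∈ (span {(p : ℤ)}).primesOver (𝓞 K) := ⟨inferInstance, h7⟩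
      simpa [S] using h8
    rw [h3]
    rfl
  simp_rw [h2] at h1
  simp_rw [term_pow hp]
  rw [← hScard]
  exact eq_inv_of_mul_eq_one_left h1

/-- **The Euler product** of the Dedekind zeta function of a Galois number field -/
theorem dedekindZeta_hasProd [IsGalois ℚ K] {s : ℂ} (hs : 1 < s.re) :
    HasProd (fun p : Nat.Primes => ((1 - ((p : ℂ) ^ (-s)) ^ (span {((p : ℕ) : ℤ)}).inertiaDegIn (𝓞 K)) ^
        ((span {((p : ℕ) : ℤ)}).primesOver (𝓞 K)).ncard)⁻¹) (dedekindZeta K s) := by
  have h1 := EulerProduct.eulerProduct_hasProd (f := LSeries.term (fun n => (aK K n : ℂ)) s)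
    (by rw [LSeries.term_of_ne_zero one_ne_zero, aK_one]; simp)
    (fun {m n} hmn => by
      rcases Nat.eq_zero_or_pos m with rfl | hm
      · simp
      rcases Nat.eq_zero_or_pos n with rfl | hn
      · simp
      rw [LSeries.term_of_ne_zero (Nat.mul_ne_zero hm.ne' hn.ne'), LSeries.term_of_ne_zero hm.ne',
        LSeries.term_of_ne_zero hn.ne', aK_mul hmn, Nat.cast_mul, Nat.cast_mul,
        Complex.natCast_mul_natCast_cpow]
      ring)
    (lSeriesSummable_aK (K := K) hs).norm (LSeries.term_zero _ _)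
  have h2 : (∑' n, LSeries.term (fun n => (aK K n : ℂ)) s n) = dedekindZeta K s := rfl
  rw [h2] at h1
  convert h1 using 2 with p
  exact (tsum_local hs p.2).symm

end Fermat.Agent.Cor.H25Z
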