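import Mathlib

/-!
# Dedekind zeta functions III : decomposition in cyclotomic fields

* `prod_one_sub` : `∏_y (1 - φ(y) T) = (1 - T^f)^g` for a homomorphism `φ : Y → ℂˣ` from a group of order `f g` with
  kernel of order `g`;
* `inertia_eq`, `stabilizer_eq` : the inertia and decomposition groups of `p` in `Gal(ℚ(ζ_n)/ℚ)`.
-/

set_option autoImplicit false
set_option linter.style.haveILetI false
set_option linter.unusedSectionVars false

noncomputable section

namespace Fermat.Agent.Cor.H25Z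

open NumberField Ideal
open scoped Pointwise

theorem prod_one_sub {Y : Type*} [CommGroup Y] [Fintype Y] (φ : Y →* ℂˣ) {f g : ℕ}
    (hY : Nat.card Y = f * g) (hk : Nat.card φ.ker = g) (T : ℂ) :
    ∏ y : Y, (1 - (φ y : ℂ) * T) = (1 - T ^ f) ^ g := by
  classical
  have hg : 0 < g := by rw [← hk]; exact Nat.card_pos
  have hf : 0 < f := by
    rcases Nat.eq_zero_or_pos f with rfl | h
    · rw [zero_mul] at hY
      exact absurd hY Nat.card_pos.ne'
    · exact h
  haveI : NeZero f := ⟨hf.ne'⟩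
  have hR : Nat.card φ.range = f := by
    have h1 := φ.ker.card_mul_index
    rw [Subgroup.index_ker, hk, hY, mul_comm] at h1
    exact Nat.eq_of_mul_eq_mul_right hg h1
  haveI : Finite φ.range := Nat.finite_of_card_ne_zero (by rw [hR]; exact hf.ne')
  have hle : φ.range ≤ rootsOfUnity f ℂ := by
    intro z hz
    rw [mem_rootsOfUnity]
    have h1 : (⟨z, hz⟩ : φ.range) ^ Nat.card φ.range = 1 := pow_card_eq_one'
    rw [hR] at h1
    exact congrArg Subtype.val h1
  have heq : φ.range = rootsOfUnity f ℂ :=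
    Subgroup.eq_of_le_of_card_ge hle (by rw [hR, Complex.card_rootsOfUnity])
  obtain ⟨ζ, hζ⟩ := HasEnoughRootsOfUnity.exists_primitiveRoot ℂ f
  have hval : ∀ y : Y, (φ y : ℂ) ∈ Polynomial.nthRootsFinset f (1 : ℂ) := by
    intro y
    rw [Polynomial.mem_nthRootsFinset hf]
    have h1 : φ y ∈ rootsOfUnity f ℂ := hle ⟨y, rfl⟩
    rw [mem_rootsOfUnity] at h1
    simpa using congrArg Units.val h1
  have h1 : ∏ y : Y, (1 - (φ y : ℂ) * T) =
      ∏ z ∈ Polynomial.nthRootsFinset f (1 : ℂ), ∏ y ∈ Finset.univ.filter (fun y => (φ y : ℂ) = z),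
        (1 - (φ y : ℂ) * T) :=
    (Finset.prod_fiberwise_of_maps_to (fun y _ => hval y) _).symm
  rw [h1]
  have h2 : ∀ z ∈ Polynomial.nthRootsFinset f (1 : ℂ),
      ∏ y ∈ Finset.univ.filter (fun y => (φ y : ℂ) = z), (1 - (φ y : ℂ) * T) = (1 - z * T) ^ g := by
    intro z hz
    have hz' : z ^ f = 1 := (Polynomial.mem_nthRootsFinset hf _).mp hz
    have hz0 : z ≠ 0 := by
      rintro rfl
      rw [zero_pow hf.ne'] at hz'
      exact zero_ne_one hz'
    have hzr : Units.mk0 z hz0 ∈ φ.range := by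
      rw [heq, mem_rootsOfUnity]
      ext
      simpa using hz'
    have h3 : (Finset.univ.filter (fun y => (φ y : ℂ) = z)).card = g := by
      have h4 : Finset.univ.filter (fun y => (φ y : ℂ) = z) =
          Finset.univ.filter (fun y => φ y = Units.mk0 z hz0) := by
        ext y
        simp only [Finset.mem_filter, Finset.mem_univ, true_and]
        constructor
        · intro h
          ext
          simpa using h
        · intro h
          rw [h]
          rfl
      rw [h4, MonoidHom.card_fiber_eq_of_mem_range φ (x := Units.mk0 z hz0) (y := 1) hzr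
        ⟨1, map_one _⟩, ← hk, Nat.card_eq_fintype_card, Fintype.card_subtype]
      congr 1
      ext y
      simp [MonoidHom.mem_ker]
    rw [← h3, ← Finset.prod_const]
    refine Finset.prod_congr rfl fun y hy => ?_
    rw [(Finset.mem_filter.mp hy).2]
  rw [Finset.prod_congr rfl h2, Finset.prod_pow]
  congr 1
  have h3 := hζ.pow_sub_pow_eq_prod_sub_mul (1 : ℂ) T hf
  rw [one_pow] at h3
  exact h3.symm

section Cyclo

variable {n m p : ℕ} [NeZero n] [NeZero m] [Fact p.Prime] {L : Type*} [Field L] [NumberField L]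
  [IsCyclotomicExtension {n} ℚ L]

open IsCyclotomicExtension.Rat

/-- the cyclotomic character of level `m` -/
def rho (hmn : m ∣ n) (L : Type*) [Field L] [NumberField L] [IsCyclotomicExtension {n} ℚ L] :
    Gal(L/ℚ) →* (ZMod m)ˣ :=
  (ZMod.unitsMap hmn).comp (galEquivZMod n L).toMonoidHom

theorem rho_apply (hmn : m ∣ n) (σ : Gal(L/ℚ)) :
    rho hmn L σ = ZMod.unitsMap hmn (galEquivZMod n L σ) := rfl

theorem rho_surjective (hmn : m ∣ n) : Function.Surjective (rho hmn L) := by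
  intro u
  obtain ⟨v, rfl⟩ := ZMod.unitsMap_surjective hmn u
  obtain ⟨σ, rfl⟩ := (galEquivZMod n L).surjective v
  exact ⟨σ, rfl⟩

variable (n L) in
theorem card_gal : Nat.card Gal(L/ℚ) = Nat.totient n := by
  rw [Nat.card_congr (galEquivZMod n L).toEquiv, Nat.card_eq_fintype_card, ZMod.card_units_eq_totient]

theorem card_comap_rho (hmn : m ∣ n) (Z : Subgroup (ZMod m)ˣ) :
    Nat.card (Z.comap (rho hmn L)) * Z.index = Nat.totient n := by
  rw [← Subgroup.index_comap_of_surjective Z (rho_surjective (L := L) hmn), Subgroup.card_mul_index,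
    card_gal n L]

theorem rho_smul (hmn : m ∣ n) (σ : Gal(L/ℚ)) {x : 𝓞 L} (hx : x ^ m = 1) :
    σ • x = x ^ ((rho hmn L σ : (ZMod m)ˣ) : ZMod m).val := by
  have hxn : x ^ n = 1 := by
    obtain ⟨k, rfl⟩ := hmn
    rw [pow_mul, hx, one_pow]
  rw [galEquivZMod_smul_of_pow_eq n L σ hxn, rho_apply]
  have h1 : ((ZMod.unitsMap hmn (galEquivZMod n L σ) : (ZMod m)ˣ) : ZMod m).val =
      (galEquivZMod n L σ).val.val % m := by
    rw [ZMod.unitsMap_val, ZMod.cast_eq_val, ZMod.val_natCast]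
  rw [h1]
  exact (pow_eq_pow_mod _ hx)

theorem exists_zeta (hmn : m ∣ n) : ∃ ζ : 𝓞 L, IsPrimitiveRoot ζ m := by
  obtain ⟨k, hk⟩ := hmn
  have hζ := IsCyclotomicExtension.zeta_spec n ℚ L
  exact ⟨hζ.toInteger ^ k, hζ.toInteger_isPrimitiveRoot.pow (NeZero.pos n) (by rw [hk, mul_comm])⟩

variable (P : Ideal (𝓞 L)) [P.IsMaximal] [P.LiesOver (span {(p : ℤ)})]

theorem primitive_mk (hpm : p.Coprime m) {ζ : 𝓞 L} (hζ : IsPrimitiveRoot ζ m) :
    IsPrimitiveRoot (Ideal.Quotient.mk P ζ) m := by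
  refine hζ.idealQuotient_mk (by simpa using IsMaximal.ne_top inferInstance) ?_
  rw [← pow_inertiaDeg p]
  exact Nat.Coprime.pow_left _ hpm

theorem inertia_le (hmn : m ∣ n) (hpm : p.Coprime m) :
    P.inertia Gal(L/ℚ) ≤ (⊥ : Subgroup (ZMod m)ˣ).comap (rho hmn L) := by
  intro σ hσ
  obtain ⟨ζ, hζ⟩ := exists_zeta (L := L) hmn
  have h0 := primitive_mk (p := p) P hpm hζ
  have h1 : Ideal.Quotient.mk P (σ • ζ) = Ideal.Quotient.mk P ζ := by
    rw [Ideal.Quotient.eq]
    exact AddSubgroup.mem_inertia.mp hσ ζ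
  rw [rho_smul hmn σ hζ.pow_eq_one, map_pow] at h1
  nth_rewrite 2 [← pow_one (Ideal.Quotient.mk P ζ)] at h1
  rw [(h0.isOfFinOrder (NeZero.ne _)).pow_inj_mod, ← h0.eq_orderOf, ← ZMod.natCast_eq_natCast_iff',
    ZMod.natCast_zmod_val, Nat.cast_one] at h1
  rw [Subgroup.mem_comap, Subgroup.mem_bot]
  exact Units.ext h1

attribute [local instance] Ideal.Quotient.field

open MulAction in
theorem stabilizer_le (hmn : m ∣ n) (hpm : p.Coprime m) :
    stabilizer Gal(L/ℚ) P ≤
      (Subgroup.zpowers (ZMod.unitOfCoprime p hpm)).comap (rho hmn L) := by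
  intro σ hσ
  obtain ⟨ζ, hζ⟩ := exists_zeta (L := L) hmn
  have h0 := primitive_mk (p := p) P hpm hζ
  let τ := IsFractionRing.stabilizerHom Gal(L/ℚ) (Ideal.span {(p : ℤ)}) P
     (ℤ ⧸ span {(p : ℤ)}) (𝓞 L ⧸ P) ⟨σ, hσ⟩
  have : CharP (ℤ ⧸ span {(p : ℤ)}) p := ringChar.of_eq <| Int.ringChar_idealQuot p
  have : Finite (𝓞 L ⧸ P) := Ring.HasFiniteQuotients.finiteQuotient (NeZero.ne P)
  obtain ⟨i, hi⟩ := FiniteField.exists_forall_apply_eq_pow (ℤ ⧸ span {(p : ℤ)}) p (𝓞 L ⧸ P) τ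
  refine ⟨i, ?_⟩
  have h₁ := IsFractionRing.stabilizerHom_apply_apply_mk Gal(L/ℚ) (Ideal.span {(p : ℤ)}) P
      (ℤ ⧸ span {(p : ℤ)}) (𝓞 L ⧸ P) ⟨σ, hσ⟩ ζ
  simp only [Algebra.algebraMap_self, RingHomCompTriple.comp_apply] at h₁
  specialize hi (Ideal.Quotient.mk P ζ)
  rwa [h₁, Int.card_ideal_quot, rho_smul hmn σ hζ.pow_eq_one, map_pow,
    (h0.isOfFinOrder (NeZero.ne _)).pow_inj_mod,
    ← h0.eq_orderOf, ← ZMod.natCast_eq_natCast_iff', Nat.cast_pow, ← ZMod.coe_unitOfCoprime p hpm,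
    ← Units.val_pow_eq_pow_val, ZMod.natCast_zmod_val, ← Units.ext_iff, eq_comm] at hi

end Cyclo

end Fermat.Agent.Cor.H25Z
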