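import Fermat.Agent.Cor.H25Z3

/-!
# Dedekind zeta functions IV : inertia and decomposition groups of subfields of cyclotomic fields
-/

set_option autoImplicit false
set_option linter.style.haveILetI false
set_option linter.unusedSectionVars false

noncomputable section

namespace Fermat.Agent.Cor.H25Z

open NumberField Ideal MulAction
open scoped Pointwise

section Groups

variable {G : Type*} [Group G] [Finite G]

theorem sup_index (H S : Subgroup G) [H.Normal] {x y : ℕ} (hS : Nat.card S = x * y)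
    (hSH : Nat.card (S.subgroupOf H) = y) : (H ⊔ S).index * x = H.index := by
  have h1 : Nat.card (H.subgroupOf S) = Nat.card (S.subgroupOf H) :=
    Nat.card_congr
      { toFun := fun a => ⟨⟨a.1.1, a.2⟩, a.1.2⟩
        invFun := fun a => ⟨⟨a.1.1, a.2⟩, a.1.2⟩
        left_inv := fun _ => rfl
        right_inv := fun _ => rfl }
  have hy : 0 < y := by rw [← hSH]; exact Nat.card_pos
  have h2 : H.relIndex S = x := by
    have h3 := (H.subgroupOf S).card_mul_index
    rw [h1, hSH, hS, mul_comm] at h3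
    exact Nat.eq_of_mul_eq_mul_right hy h3
  rw [← Subgroup.relIndex_mul_index (le_sup_left : H ≤ H ⊔ S), Subgroup.relIndex_sup_left, h2,
    mul_comm]

end Groups

variable {n m p : ℕ} [NeZero n] [NeZero m] [Fact p.Prime] {L : Type*} [Field L] [NumberField L]

section Cyclo

variable [IsCyclotomicExtension {n} ℚ L]

open IsCyclotomicExtension.Rat

variable (L) in
theorem ramification_mul {a : ℕ} (hn : n = p ^ a * m) (hpm : ¬ p ∣ m) :
    (span {(p : ℤ)}).ramificationIdxIn (𝓞 L) * Nat.totient m = Nat.totient n := by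
  rcases a with _ | k
  · obtain rfl : n = m := by simpa using hn
    rw [ramificationIdxIn_eq_of_not_dvd p L hpm, one_mul]
  · have hc : (p ^ (k + 1)).Coprime m :=
      Nat.Coprime.pow_left _ ((Nat.Prime.coprime_iff_not_dvd Fact.out).mpr hpm)
    rw [ramificationIdxIn_eq n L hn hpm, hn, Nat.totient_mul hc,
      Nat.totient_prime_pow_succ Fact.out]

variable (L) in
theorem inertiaDeg_eq' {a : ℕ} (hn : n = p ^ a * m) (hpm : ¬ p ∣ m) :
    (span {(p : ℤ)}).inertiaDegIn (𝓞 L) = orderOf (p : ZMod m) := by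
  rcases a with _ | k
  · obtain rfl : n = m := by simpa using hn
    exact inertiaDegIn_eq_of_not_dvd p L hpm
  · exact inertiaDegIn_eq n L hn hpm

variable (P : Ideal (𝓞 L)) [P.IsMaximal] [P.LiesOver (span {(p : ℤ)})]

theorem inertia_eq {a : ℕ} (hn : n = p ^ a * m) (hmn : m ∣ n) (hpm : ¬ p ∣ m) :
    P.inertia Gal(L/ℚ) = (⊥ : Subgroup (ZMod m)ˣ).comap (rho hmn L) := by
  haveI : IsGalois ℚ L := IsCyclotomicExtension.isGalois {n} ℚ L
  have hc : p.Coprime m := (Nat.Prime.coprime_iff_not_dvd Fact.out).mpr hpm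
  refine Subgroup.eq_of_le_of_card_ge (inertia_le P hmn hc) ?_
  rw [card_inertia_eq_ramificationIdxIn (G := Gal(L/ℚ)) (span {(p : ℤ)}) P]
  have h1 := card_comap_rho (L := L) hmn ⊥
  rw [Subgroup.index_bot, Nat.card_eq_fintype_card (α := (ZMod m)ˣ), ZMod.card_units_eq_totient,
    ← ramification_mul L hn hpm] at h1
  exact (Nat.eq_of_mul_eq_mul_right (Nat.totient_pos.mpr (Nat.pos_of_ne_zero (NeZero.ne m))) h1).le

theorem stabilizer_eq {a : ℕ} (hn : n = p ^ a * m) (hmn : m ∣ n) (hpm : ¬ p ∣ m)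
    (hc : p.Coprime m) :
    stabilizer Gal(L/ℚ) P =
      (Subgroup.zpowers (ZMod.unitOfCoprime p hc)).comap (rho hmn L) := by
  haveI : IsGalois ℚ L := IsCyclotomicExtension.isGalois {n} ℚ L
  refine Subgroup.eq_of_le_of_card_ge (stabilizer_le P hmn hc) ?_
  rw [card_stabilizer_eq (G := Gal(L/ℚ)) (span {(p : ℤ)}) P, inertiaDeg_eq' L hn hpm]
  have h1 := card_comap_rho (L := L) hmn (Subgroup.zpowers (ZMod.unitOfCoprime p hc))
  have h2 := (Subgroup.zpowers (ZMod.unitOfCoprime p hc)).card_mul_index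
  rw [Nat.card_eq_fintype_card (α := (ZMod m)ˣ), ZMod.card_units_eq_totient, Nat.card_zpowers,
    ← orderOf_injective _ Units.coeHom_injective, Units.coeHom_apply,
    ZMod.coe_unitOfCoprime] at h2
  rw [← ramification_mul L hn hpm, ← h2, ← mul_assoc] at h1
  have h3 : 0 < (Subgroup.zpowers (ZMod.unitOfCoprime p hc)).index := by
    have := Subgroup.index_ne_zero_of_finite (H := Subgroup.zpowers (ZMod.unitOfCoprime p hc))
    omega
  exact (Nat.eq_of_mul_eq_mul_right h3 h1).le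

end Cyclo

section Subfield

variable [IsAbelianGalois ℚ L] (F : IntermediateField ℚ L)

theorem isGaloisGroup_fixing : IsGaloisGroup F.fixingSubgroup F L :=
  inferInstanceAs (IsGaloisGroup (fixingSubgroup Gal(L/ℚ) (F : Set L)) F L)

set_option backward.isDefEq.respectTransparency false in
theorem isGaloisGroup_fixing' : IsGaloisGroup F.fixingSubgroup (𝓞 F) (𝓞 L) := by
  haveI := isGaloisGroup_fixing F
  infer_instance

theorem isGalois_sub : IsGalois ℚ F := by
  have h : IsAbelianGalois ℚ F := IsAbelianGalois.of_algHom F.val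
  exact h.toIsGalois

theorem normal_sub : F.fixingSubgroup.Normal :=
  Subgroup.normal_of_isMulCommutative _

variable (P : Ideal (𝓞 L)) [P.IsMaximal] [P.LiesOver (span {(p : ℤ)})]

theorem index_inertia :
    (F.fixingSubgroup ⊔ P.inertia Gal(L/ℚ)).index =
      (span {(p : ℤ)}).inertiaDegIn (𝓞 F) * ((span {(p : ℤ)}).primesOver (𝓞 F)).ncard := by
  haveI := isGaloisGroup_fixing' F
  haveI := isGalois_sub F
  haveI := normal_sub F
  have h1 : Nat.card (P.inertia Gal(L/ℚ)) = (span {(p : ℤ)}).ramificationIdxIn (𝓞 F) *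
      (P.under (𝓞 F)).ramificationIdxIn (𝓞 L) := by
    rw [ramificationIdxIn_mul_ramificationIdxIn (P.under (𝓞 F)) Gal(F/ℚ) _ Gal(L/ℚ) Gal(L/F)]
    exact card_inertia_eq_ramificationIdxIn (G := Gal(L/ℚ)) (span {(p : ℤ)}) P
  have h2 : Nat.card ((P.inertia Gal(L/ℚ)).subgroupOf F.fixingSubgroup) =
      (P.under (𝓞 F)).ramificationIdxIn (𝓞 L) := by
    rw [AddSubgroup.subgroupOf_inertia]
    exact card_inertia_eq_ramificationIdxIn (G := F.fixingSubgroup) (P.under (𝓞 F)) P
  have h3 := sup_index F.fixingSubgroup (P.inertia Gal(L/ℚ)) h1 h2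
  have h4 : F.fixingSubgroup.index = Module.finrank ℚ F :=
    (IntermediateField.finrank_eq_fixingSubgroup_index L F).symm
  rw [h4, ← IsGalois.card_aut_eq_finrank ℚ F,
    ← ncard_primesOver_mul_ramificationIdxIn_mul_inertiaDegIn (span {(p : ℤ)}) (𝓞 F) Gal(F/ℚ)] at h3
  have h5 : 0 < (span {(p : ℤ)}).ramificationIdxIn (𝓞 F) :=
    Nat.pos_of_ne_zero (ramificationIdxIn_ne_zero Gal(F/ℚ))
  apply Nat.eq_of_mul_eq_mul_right h5
  rw [h3]
  ring

theorem index_stabilizer :
    (F.fixingSubgroup ⊔ stabilizer Gal(L/ℚ) P).index =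
      ((span {(p : ℤ)}).primesOver (𝓞 F)).ncard := by
  haveI := isGaloisGroup_fixing' F
  haveI := isGalois_sub F
  haveI := normal_sub F
  have h1 : Nat.card (stabilizer Gal(L/ℚ) P) =
      ((span {(p : ℤ)}).ramificationIdxIn (𝓞 F) * (span {(p : ℤ)}).inertiaDegIn (𝓞 F)) *
      ((P.under (𝓞 F)).ramificationIdxIn (𝓞 L) * (P.under (𝓞 F)).inertiaDegIn (𝓞 L)) := by
    rw [mul_mul_mul_comm,
      ramificationIdxIn_mul_ramificationIdxIn (P.under (𝓞 F)) Gal(F/ℚ) _ Gal(L/ℚ) Gal(L/F),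
      inertiaDegIn_mul_inertiaDegIn (span {(p : ℤ)}) (P.under (𝓞 F)) Gal(F/ℚ) _ Gal(L/ℚ) Gal(L/F)]
    exact card_stabilizer_eq (G := Gal(L/ℚ)) (span {(p : ℤ)}) P
  have h2 : Nat.card ((stabilizer Gal(L/ℚ) P).subgroupOf F.fixingSubgroup) =
      (P.under (𝓞 F)).ramificationIdxIn (𝓞 L) * (P.under (𝓞 F)).inertiaDegIn (𝓞 L) := by
    have h0 : (stabilizer Gal(L/ℚ) P).subgroupOf F.fixingSubgroup =
        stabilizer F.fixingSubgroup P := by
      ext x
      rfl
    rw [h0]
    exact card_stabilizer_eq (G := F.fixingSubgroup) (P.under (𝓞 F)) P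
  have h3 := sup_index F.fixingSubgroup (stabilizer Gal(L/ℚ) P) h1 h2
  have h4 : F.fixingSubgroup.index = Module.finrank ℚ F :=
    (IntermediateField.finrank_eq_fixingSubgroup_index L F).symm
  rw [h4, ← IsGalois.card_aut_eq_finrank ℚ F,
    ← ncard_primesOver_mul_ramificationIdxIn_mul_inertiaDegIn (span {(p : ℤ)}) (𝓞 F) Gal(F/ℚ)] at h3
  have h5 : 0 < (span {(p : ℤ)}).ramificationIdxIn (𝓞 F) * (span {(p : ℤ)}).inertiaDegIn (𝓞 F) :=
    Nat.mul_pos (Nat.pos_of_ne_zero (ramificationIdxIn_ne_zero Gal(F/ℚ)))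
      (Nat.pos_of_ne_zero (inertiaDegIn_ne_zero Gal(F/ℚ)))
  exact Nat.eq_of_mul_eq_mul_right h5 h3

end Subfield

end Fermat.Agent.Cor.H25Z
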