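import Fermat.Agent.Cor.H25Z2
import Fermat.Agent.Cor.H25Z4

/-!
# Dedekind zeta functions V : subfields of cyclotomic fields

For `F ⊆ ℚ(ζ_n)`, with group of Dirichlet characters `X`, `ζ_F(s) = ∏_{χ ∈ X} L(χ', s)` for `Re s > 1`, where `χ'` is the
primitive character attached to `χ`.
-/

set_option autoImplicit false
set_option linter.style.haveILetI false
set_option linter.unusedSectionVars false

noncomputable section

namespace Fermat.Agent.Cor.H25Z

open NumberField Ideal MulAction DirichletCharacter IsCyclotomicExtension.Rat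
open scoped Pointwise

variable {n m p : ℕ} [NeZero n] [NeZero m] [Fact p.Prime] {L : Type*} [Field L] [NumberField L]
  [IsCyclotomicExtension {n} ℚ L] [IsAbelianGalois ℚ L] (F : IntermediateField ℚ L)

theorem changeLevel_rho (hmn : m ∣ n) (ψ : DirichletCharacter ℂ m) (σ : Gal(L/ℚ)) :
    changeLevel hmn ψ (galEquivZMod n L σ) = ψ (rho hmn L σ) := by
  rw [changeLevel_eq_cast_of_dvd, rho_apply, ZMod.unitsMap_val]

/-- characters of level `m` that are trivial on `Gal(L/F)` and on `Z` -/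
def chars (hmn : m ∣ n) (Z : Subgroup (ZMod m)ˣ) : Subgroup (DirichletCharacter ℂ m) where
  carrier := {ψ | (∀ σ ∈ F.fixingSubgroup, ψ (rho hmn L σ) = 1) ∧ ∀ z ∈ Z, ψ z = 1}
  mul_mem' := fun {a b} ha hb => ⟨fun σ hσ => by
      rw [MulChar.mul_apply, ha.1 σ hσ, hb.1 σ hσ, one_mul], fun z hz => by
      rw [MulChar.mul_apply, ha.2 z hz, hb.2 z hz, one_mul]⟩
  one_mem' := ⟨fun σ _ => by simp, fun z _ => by simp⟩
  inv_mem' := fun {a} ha => ⟨fun σ hσ => by
      have h1 : (a * a⁻¹) (rho hmn L σ : ZMod m) = 1 := by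
        rw [mul_inv_cancel]
        simp
      rwa [MulChar.mul_apply, ha.1 σ hσ, one_mul] at h1, fun z hz => by
      have h1 : (a * a⁻¹) (z : ZMod m) = 1 := by
        rw [mul_inv_cancel]
        simp
      rwa [MulChar.mul_apply, ha.2 z hz, one_mul] at h1⟩

theorem mem_chars {hmn : m ∣ n} {Z : Subgroup (ZMod m)ˣ} {ψ : DirichletCharacter ℂ m} :
    ψ ∈ chars F hmn Z ↔ (∀ σ ∈ F.fixingSubgroup, ψ (rho hmn L σ) = 1) ∧ ∀ z ∈ Z, ψ z = 1 := Iff.rfl

theorem card_chars (hmn : m ∣ n) (Z : Subgroup (ZMod m)ˣ) :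
    Nat.card (chars F hmn Z) = (F.fixingSubgroup ⊔ Z.comap (rho hmn L)).index := by
  have h1 := card_subgroupGalEquivSubgroupChar n L ℂ (F.fixingSubgroup ⊔ Z.comap (rho hmn L))
  rw [← Subgroup.index_eq_card] at h1
  rw [← h1]
  have hmem : ∀ ψ : DirichletCharacter ℂ m, ψ ∈ chars F hmn Z →
      changeLevel hmn ψ ∈ (subgroupGalEquivSubgroupChar n L ℂ
        (F.fixingSubgroup ⊔ Z.comap (rho hmn L))).ofDual := by
    intro ψ hψ
    rw [mem_subgroupGalEquivSubgroupChar_iff]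
    haveI := normal_sub F
    intro σ hσ
    obtain ⟨a, ha, b, hb, rfl⟩ := Subgroup.mem_sup_of_normal_left.mp hσ
    rw [changeLevel_rho, map_mul, Units.val_mul, map_mul, hψ.1 a ha, one_mul]
    exact hψ.2 _ hb
  refine Nat.card_congr (Equiv.ofBijective
    (fun ψ : chars F hmn Z => (⟨changeLevel hmn ψ.1, hmem ψ.1 ψ.2⟩ :
      ((subgroupGalEquivSubgroupChar n L ℂ
        (F.fixingSubgroup ⊔ Z.comap (rho hmn L))).ofDual))) ⟨?_, ?_⟩)
  · intro ψ ψ' h
    exact Subtype.ext (changeLevel_injective hmn (congrArg Subtype.val h))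
  · rintro ⟨χ, hχ⟩
    rw [mem_subgroupGalEquivSubgroupChar_iff] at hχ
    have hf : χ.FactorsThrough m := by
      rw [factorsThrough_iff_ker_unitsMap hmn]
      intro u hu
      obtain ⟨σ, rfl⟩ := (galEquivZMod n L).surjective u
      rw [MonoidHom.mem_ker]
      ext
      rw [MulChar.coe_toUnitHom, Units.val_one]
      refine hχ σ (Subgroup.mem_sup_right ?_)
      rw [Subgroup.mem_comap]
      have h2 : rho hmn L σ = 1 := hu
      rw [h2]
      exact one_mem _
    refine ⟨⟨hf.χ₀, ?_, ?_⟩, Subtype.ext hf.eq_changeLevel.symm⟩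
    · intro σ hσ
      rw [← changeLevel_rho, ← hf.eq_changeLevel]
      exact hχ σ (Subgroup.mem_sup_left hσ)
    · intro z hz
      obtain ⟨σ, rfl⟩ := rho_surjective (L := L) hmn z
      rw [← changeLevel_rho, ← hf.eq_changeLevel]
      exact hχ σ (Subgroup.mem_sup_right hz)

/-- **the local identity** -/
theorem local_identity [Fintype (intermediateFieldEquivSubgroupChar n L ℂ F)] (T : ℂ) :
    ∏ χ : intermediateFieldEquivSubgroupChar n L ℂ F, (1 - χ.1.primitiveCharacter p * T) =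
      (1 - T ^ (span {(p : ℤ)}).inertiaDegIn (𝓞 F)) ^ ((span {(p : ℤ)}).primesOver (𝓞 F)).ncard := by
  classical
  have hp : p.Prime := Fact.out
  obtain ⟨a, m, hpm, hn⟩ : ∃ a m : ℕ, ¬ p ∣ m ∧ n = p ^ a * m := by
    obtain ⟨a, m, h1, h2⟩ := Nat.exists_eq_pow_mul_and_not_dvd (NeZero.ne n) p hp.ne_one
    exact ⟨a, m, h1, h2⟩
  have hmn : m ∣ n := Dvd.intro_left _ hn.symm
  haveI : NeZero m := ⟨fun h => hpm (h ▸ dvd_zero p)⟩
  have hc : p.Coprime m := (Nat.Prime.coprime_iff_not_dvd hp).mpr hpm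
  -- a prime above `p`
  haveI hpp : (span {(p : ℤ)}).IsPrime := by
    rw [span_singleton_prime (by exact_mod_cast hp.ne_zero)]
    exact Nat.prime_iff_prime_int.mp hp
  haveI hpmax : (span {(p : ℤ)}).IsMaximal := hpp.isMaximal (by
    rw [Ne, Ideal.span_singleton_eq_bot]
    exact_mod_cast hp.ne_zero)
  obtain ⟨P, _, _⟩ := exists_maximal_ideal_liesOver_of_isIntegral (span {(p : ℤ)}) (S := 𝓞 L)
  let Y := chars F hmn ⊥
  haveI : Finite Y := inferInstance
  letI : Fintype Y := Fintype.ofFinite Y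
  have hY : Nat.card Y = (span {(p : ℤ)}).inertiaDegIn (𝓞 F) *
      ((span {(p : ℤ)}).primesOver (𝓞 F)).ncard := by
    rw [card_chars, ← inertia_eq (p := p) P hn hmn hpm, index_inertia (p := p) F P]
  let φ : Y →* ℂˣ := (MonoidHom.eval (ZMod.unitOfCoprime p hc)).comp
    ((MulChar.mulEquivToUnitHom (R := ZMod m) (R' := ℂ)).toMonoidHom.comp Y.subtype)
  have hφ : ∀ ψ : Y, (φ ψ : ℂ) = ψ.1 (p : ZMod m) := by
    intro ψ
    change ((MulChar.toUnitHom ψ.1 (ZMod.unitOfCoprime p hc) : ℂˣ) : ℂ) = _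
    rw [MulChar.coe_toUnitHom, ZMod.coe_unitOfCoprime]
  have hker : Nat.card φ.ker = ((span {(p : ℤ)}).primesOver (𝓞 F)).ncard := by
    rw [← index_stabilizer (p := p) F P, stabilizer_eq (p := p) P hn hmn hpm hc, ← card_chars]
    refine Nat.card_congr
      { toFun := fun ψ => ⟨ψ.1.1, ψ.1.2.1, fun z hz => ?_⟩
        invFun := fun ψ => ⟨⟨ψ.1, ψ.2.1, fun z hz => ?_⟩, ?_⟩
        left_inv := fun _ => rfl
        right_inv := fun _ => rfl }
    · obtain ⟨k, rfl⟩ := Subgroup.mem_zpowers_iff.mp hz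
      have h1 : (φ ψ.1) = 1 := ψ.2
      have h2 : ((MulChar.toUnitHom ψ.1.1 (ZMod.unitOfCoprime p hc ^ k) : ℂˣ) : ℂ) =
          ψ.1.1 ((ZMod.unitOfCoprime p hc ^ k : (ZMod m)ˣ) : ZMod m) := MulChar.coe_toUnitHom _ _
      rw [← h2, map_zpow]
      change ((φ ψ.1 ^ k : ℂˣ) : ℂ) = 1
      rw [h1, one_zpow, Units.val_one]
    · rw [Subgroup.mem_bot] at hz
      rw [hz]
      simp
    · refine Units.ext ((hφ _).trans ?_)
      have h1 := ψ.2.2 _ (Subgroup.mem_zpowers (ZMod.unitOfCoprime p hc))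
      rwa [ZMod.coe_unitOfCoprime] at h1
  rw [← prod_one_sub φ hY hker T]
  symm
  have hXmem : ∀ ψ : DirichletCharacter ℂ m, ψ ∈ Y ↔
      changeLevel hmn ψ ∈ intermediateFieldEquivSubgroupChar n L ℂ F := by
    intro ψ
    rw [mem_intermediateFieldEquivSubgroupChar_iff]
    simp_rw [changeLevel_rho]
    refine ⟨fun h => h.1, fun h => ⟨h, fun z hz => ?_⟩⟩
    rw [Subgroup.mem_bot] at hz
    rw [hz]
    simp
  refine Fintype.prod_of_injective (fun ψ : Y => (⟨changeLevel hmn ψ.1, (hXmem ψ.1).mp ψ.2⟩ :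
    intermediateFieldEquivSubgroupChar n L ℂ F)) ?_ _ _ ?_ ?_
  · intro ψ ψ' h
    exact Subtype.ext (changeLevel_injective hmn (congrArg Subtype.val h))
  · rintro ⟨χ, hχ⟩ hnot
    have h1 : p ∣ χ.conductor := by
      by_contra hpc
      apply hnot
      have h2 : χ.conductor ∣ m := by
        have h3 : χ.conductor ∣ p ^ a * m := hn ▸ χ.conductor_dvd_level
        exact (Nat.Coprime.pow_right a ((Nat.Prime.coprime_iff_not_dvd hp).mpr hpc).symm).dvd_of_dvd_mul_left h3
      have hf : χ.FactorsThrough m :=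
        FactorsThrough.mono χ χ.factorsThrough_conductor h2 hmn
      refine ⟨⟨hf.χ₀, ?_⟩, Subtype.ext hf.eq_changeLevel.symm⟩
      rw [hXmem, ← hf.eq_changeLevel]
      exact hχ
    have h2 : χ.primitiveCharacter ((p : ℤ) : ZMod χ.conductor) = 0 := by
      rw [apply_eq_zero_iff, Nat.isCoprime_iff_coprime, Nat.Prime.coprime_iff_not_dvd hp, not_not]
      exact h1
    rw [Int.cast_natCast] at h2
    rw [h2, zero_mul, sub_zero]
  · intro ψ
    have h1 := primitiveCharacter_changeLevel_apply hmn ψ.1 (p : ℤ)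
    rw [primitiveCharacter_apply_of_isCoprime ψ.1 (Nat.isCoprime_iff_coprime.mpr hc),
      Int.cast_natCast, Int.cast_natCast] at h1
    rw [hφ, h1]

/-- **Factorisation of the Dedekind zeta function** of a subfield of a cyclotomic field -/
theorem dedekindZeta_eq_prod [Fintype (intermediateFieldEquivSubgroupChar n L ℂ F)] {s : ℂ}
    (hs : 1 < s.re) :
    dedekindZeta F s = ∏ χ : intermediateFieldEquivSubgroupChar n L ℂ F,
      LSeries (χ.1.primitiveCharacter ·) s := by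
  haveI := isGalois_sub F
  have h1 := dedekindZeta_hasProd (K := F) hs
  have h2 : HasProd (fun q : Nat.Primes => ∏ χ : intermediateFieldEquivSubgroupChar n L ℂ F,
      (1 - χ.1.primitiveCharacter (q : ℕ) * ((q : ℕ) : ℂ) ^ (-s))⁻¹)
      (∏ χ : intermediateFieldEquivSubgroupChar n L ℂ F, LSeries (χ.1.primitiveCharacter ·) s) :=
    hasProd_prod fun χ _ => DirichletCharacter.LSeries_eulerProduct_hasProd χ.1.primitiveCharacter hs
  refine h1.unique ?_
  convert h2 using 2 with q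
  haveI : Fact (q : ℕ).Prime := ⟨q.2⟩
  rw [Finset.prod_inv_distrib, local_identity F]

end Fermat.Agent.Cor.H25Z
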