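import Fermat.Agent.Cor.H25Split
import Fermat.Agent.Cor.ChebotarevGal

/-!
# Galois number fields are determined by their zeta functions

For a Galois number field `K`, `SplitsCompletely K p` means that there are `[K : ℚ]` ideals of norm `p`.

* `iso_of_dedekindZeta_eq` : **Galois number fields with the same Dedekind zeta function are isomorphic**;
* `iso_of_card_eq` : Galois number fields with the same number of ideals of norm `p`, for all but finitely many primes
  `p`, are isomorphic;
* `embedding_of_splits`, `iso_of_splits` : Bauer's theorem over `ℚ`, in terms of `SplitsCompletely` (see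
  `Fermat.Agent.Cor.Bauer` for Bauer's theorem over number fields);
* `infinite_splitsCompletely` : infinitely many primes split completely.

No statement file imports this file.
-/

set_option autoImplicit false
set_option linter.style.haveILetI false
set_option linter.unusedSectionVars false

noncomputable section

namespace Fermat.Agent.Cor.H25Z

open NumberField Ideal
open scoped Pointwise

section Restrict

variable {K L : Type*} [Field K] [NumberField K] [Field L] [NumberField L] [IsGalois ℚ K]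
  [IsGalois ℚ L] [Algebra K L] [IsScalarTower ℚ K L]

/-- the restriction of automorphisms is compatible with the inclusion of the rings of integers -/
theorem algebraMap_restrict_smul (g : Gal(L/ℚ)) (x : 𝓞 K) :
    algebraMap (𝓞 K) (𝓞 L) ((AlgEquiv.restrictNormalHom K g : Gal(K/ℚ)) • x) =
      g • algebraMap (𝓞 K) (𝓞 L) x := by
  apply RingOfIntegers.coe_injective
  exact AlgEquiv.restrictNormal_commutes g K (x : K)

/-- the restriction of a Frobenius element is a Frobenius element -/
theorem restrict_frob {g : Gal(L/ℚ)} {P : Ideal (𝓞 L)} (h : IsArithFrobAt ℤ g P) :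
    IsArithFrobAt ℤ (AlgEquiv.restrictNormalHom K g : Gal(K/ℚ)) (P.under (𝓞 K)) := by
  intro x
  rw [Ideal.under_under, Ideal.under, Ideal.mem_comap, map_sub, map_pow]
  have h2 : algebraMap (𝓞 K) (𝓞 L)
      ((MulSemiringAction.toAlgHom ℤ (𝓞 K) (AlgEquiv.restrictNormalHom K g : Gal(K/ℚ))) x) =
      (MulSemiringAction.toAlgHom ℤ (𝓞 L) g) (algebraMap (𝓞 K) (𝓞 L) x) :=
    algebraMap_restrict_smul (K := K) g x
  rw [h2]
  exact h (algebraMap (𝓞 K) (𝓞 L) x)

theorem card_quotient_under {p : ℕ} {P : Ideal (𝓞 K)} (hP : P.LiesOver (span {(p : ℤ)})) :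
    Nat.card (ℤ ⧸ P.under ℤ) = p := by
  rw [← hP.over, Nat.card_congr (Int.quotientSpanNatEquivZMod p).toEquiv, Nat.card_zmod]

theorem mem_of_liesOver {p : ℕ} {P : Ideal (𝓞 K)} (hP : P.LiesOver (span {(p : ℤ)})) :
    (p : 𝓞 K) ∈ P := by
  have h1 : (p : ℤ) ∈ P.under ℤ := by
    rw [← hP.over]
    exact Ideal.mem_span_singleton_self _
  rw [Ideal.under, Ideal.mem_comap] at h1
  simpa using h1

/-- if a Frobenius element is trivial on `K` and `p` is not bad then `p` splits completely in `K` -/
theorem splits_of_restrict {D : ℕ} (hD : ∀ p : ℕ, p.Prime → ¬ p ∣ D → ∀ P : Ideal (𝓞 K), P.IsPrime →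
      (p : 𝓞 K) ∈ P → (∀ x : 𝓞 K, x - x ^ p ∈ P) → SplitsCompletely K p)
    {p : ℕ} (hp : p.Prime) (hpD : ¬ p ∣ D) {P : Ideal (𝓞 L)} [P.IsPrime]
    (hP : P.LiesOver (span {(p : ℤ)})) {g : Gal(L/ℚ)} (hg : IsArithFrobAt ℤ g P)
    (h1 : (AlgEquiv.restrictNormalHom K g : Gal(K/ℚ)) = 1) : SplitsCompletely K p := by
  have hPo : (P.under (𝓞 K)).LiesOver (span {(p : ℤ)}) := ⟨by rw [Ideal.under_under, hP.over]⟩
  refine hD p hp hpD (P.under (𝓞 K)) inferInstance (mem_of_liesOver hPo) fun x => ?_
  have h2 := restrict_frob (K := K) hg x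
  rw [card_quotient_under hPo, h1] at h2
  have h3 : (MulSemiringAction.toAlgHom ℤ (𝓞 K) (1 : Gal(K/ℚ))) x = x := one_smul _ x
  rwa [h3] at h2

/-- if `p` splits completely in `K` then the Frobenius elements are trivial on `K` -/
theorem restrict_of_splits {p : ℕ} (hp : p.Prime) {P : Ideal (𝓞 L)} [P.IsPrime]
    (hP : P.LiesOver (span {(p : ℤ)})) {g : Gal(L/ℚ)} (hg : IsArithFrobAt ℤ g P)
    (h : SplitsCompletely K p) : (AlgEquiv.restrictNormalHom K g : Gal(K/ℚ)) = 1 := by
  have hPo : (P.under (𝓞 K)).LiesOver (span {(p : ℤ)}) := ⟨by rw [Ideal.under_under, hP.over]⟩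
  exact h.eq_one hp inferInstance (mem_of_liesOver hPo) (restrict_frob (K := K) hg).mem_stabilizer

end Restrict

section Splits

variable {K K' L : Type*} [Field K] [NumberField K] [IsGalois ℚ K] [Field K'] [NumberField K']
  [IsGalois ℚ K'] [Field L] [NumberField L] [IsGalois ℚ L] [Algebra K L] [IsScalarTower ℚ K L]
  [Algebra K' L] [IsScalarTower ℚ K' L]

theorem fieldRange_le_of_splits (h : {p : ℕ | p.Prime ∧ SplitsCompletely K' p ∧ ¬ SplitsCompletely K p}.Finite) :
    (IsScalarTower.toAlgHom ℚ K L).fieldRange ≤ (IsScalarTower.toAlgHom ℚ K' L).fieldRange := by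
  obtain ⟨D, hD0, hD⟩ := exists_bad K'
  rintro _ ⟨x, rfl⟩
  rw [← IsGalois.fixedField_fixingSubgroup (IsScalarTower.toAlgHom ℚ K' L).fieldRange]
  rintro ⟨g, hg⟩
  -- `g` is trivial on `K'`
  have h1 : (AlgEquiv.restrictNormalHom K' g : Gal(K'/ℚ)) = 1 := by
    refine AlgEquiv.ext fun y => (algebraMap K' L).injective ?_
    have h2 : algebraMap K' L ((AlgEquiv.restrictNormalHom K' g : Gal(K'/ℚ)) y) =
      g (algebraMap K' L y) := AlgEquiv.restrictNormal_commutes g K' y
    rw [h2]
    exact (IntermediateField.mem_fixingSubgroup_iff _ g).mp hg (algebraMap K' L y) ⟨y, rfl⟩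
  have hfin : {p : ℕ | p ∣ D}.Finite := (Set.finite_le_nat D).subset fun p hp =>
    Nat.le_of_dvd (Nat.pos_of_ne_zero hD0) hp
  obtain ⟨p, ⟨hp, P, hP, hPo, hfrob⟩, hp2⟩ := ((Cheb.infinite_frobenius L g).sdiff
    (h.union hfin)).nonempty
  have hp3 : ¬ p ∣ D := fun hd => hp2 (Or.inr hd)
  have hp4 := splits_of_restrict hD hp hp3 hPo hfrob h1
  have hp5 : SplitsCompletely K p := by
    by_contra hn
    exact hp2 (Or.inl ⟨hp, hp4, hn⟩)
  have hp6 := restrict_of_splits (K := K) hp hPo hfrob hp5
  have h7 : algebraMap K L ((AlgEquiv.restrictNormalHom K g : Gal(K/ℚ)) x) =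
    g (algebraMap K L x) := AlgEquiv.restrictNormal_commutes g K x
  rw [hp6] at h7
  exact h7.symm

end Splits

theorem exists_compositum {k K K' : Type*} [Field k] [Field K] [Field K'] [Algebra k K] [Algebra k K']
    [FiniteDimensional k K] [FiniteDimensional k K'] [IsGalois k K] [IsGalois k K'] :
    ∃ L : IntermediateField k (AlgebraicClosure k), FiniteDimensional k L ∧ IsGalois k L ∧
      Nonempty (K →ₐ[k] L) ∧ Nonempty (K' →ₐ[k] L) := by
  let i : K →ₐ[k] AlgebraicClosure k := IsAlgClosed.lift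
  let i' : K' →ₐ[k] AlgebraicClosure k := IsAlgClosed.lift
  let e : K ≃ₐ[k] i.fieldRange := AlgEquiv.ofInjectiveField i
  let e' : K' ≃ₐ[k] i'.fieldRange := AlgEquiv.ofInjectiveField i'
  haveI : FiniteDimensional k i.fieldRange := Module.Finite.equiv e.toLinearEquiv
  haveI : FiniteDimensional k i'.fieldRange := Module.Finite.equiv e'.toLinearEquiv
  haveI : IsGalois k i.fieldRange := IsGalois.of_algEquiv e
  haveI : IsGalois k i'.fieldRange := IsGalois.of_algEquiv e'
  exact ⟨i.fieldRange ⊔ i'.fieldRange, inferInstance, inferInstance,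
    ⟨(IntermediateField.inclusion le_sup_left).comp (e : K →ₐ[k] i.fieldRange)⟩,
    ⟨(IntermediateField.inclusion le_sup_right).comp (e' : K' →ₐ[k] i'.fieldRange)⟩⟩

/-- **Bauer's theorem**: let `K`, `K'` be Galois number fields; if all but finitely many primes that split completely in
`K'` split completely in `K`, then `K` embeds into `K'`. -/
theorem embedding_of_splits (K K' : Type*) [Field K] [NumberField K] [IsGalois ℚ K] [Field K'] [NumberField K']
    [IsGalois ℚ K']
    (h : {p : ℕ | p.Prime ∧ SplitsCompletely K' p ∧ ¬ SplitsCompletely K p}.Finite) :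
    Nonempty (K →+* K') := by
  obtain ⟨L, aL, _, _, ⟨j⟩, ⟨j'⟩⟩ : ∃ (L : IntermediateField ℚ (AlgebraicClosure ℚ))
      (aL : Algebra ℚ L), FiniteDimensional ℚ L ∧ IsGalois ℚ L ∧ Nonempty (K →ₐ[ℚ] L) ∧
        Nonempty (K' →ₐ[ℚ] L) := by
    obtain ⟨L, h⟩ := exists_compositum (k := ℚ) (K := K) (K' := K')
    exact ⟨L, _, h⟩
  obtain rfl : aL = DivisionRing.toRatAlgebra := Subsingleton.elim _ _
  haveI : NumberField L := { to_charZero := inferInstance, to_finiteDimensional := inferInstance }
  letI : Algebra K L := j.toRingHom.toAlgebra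
  letI : Algebra K' L := j'.toRingHom.toAlgebra
  haveI : IsScalarTower ℚ K L := IsScalarTower.of_algebraMap_eq fun x => (j.commutes x).symm
  haveI : IsScalarTower ℚ K' L := IsScalarTower.of_algebraMap_eq fun x => (j'.commutes x).symm
  have hle := fieldRange_le_of_splits (L := L) h
  let k' : K' ≃ₐ[ℚ] (IsScalarTower.toAlgHom ℚ K' L).fieldRange :=
    AlgEquiv.ofInjectiveField (IsScalarTower.toAlgHom ℚ K' L)
  let k : K ≃ₐ[ℚ] (IsScalarTower.toAlgHom ℚ K L).fieldRange :=
    AlgEquiv.ofInjectiveField (IsScalarTower.toAlgHom ℚ K L)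
  exact ⟨k'.symm.toRingEquiv.toRingHom.comp ((IntermediateField.inclusion hle).toRingHom.comp
    k.toRingEquiv.toRingHom)⟩

theorem ringEquiv_of_finrank_eq {K K' : Type*} [Field K] [NumberField K] [Field K'] [NumberField K']
    (i : K →+* K') (h : Module.finrank ℚ K' ≤ Module.finrank ℚ K) : Nonempty (K ≃+* K') := by
  let j : K →ₐ[ℚ] K' := i.toRatAlgHom
  have hj : Function.Injective j.toLinearMap := i.injective
  have h1 : Module.finrank ℚ K ≤ Module.finrank ℚ K' :=
    LinearMap.finrank_le_finrank_of_injective hj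
  have h2 : Function.Surjective j.toLinearMap :=
    (LinearMap.injective_iff_surjective_of_finrank_eq_finrank (le_antisymm h1 h)).mp hj
  exact ⟨RingEquiv.ofBijective i ⟨i.injective, h2⟩⟩

/-- **Galois number fields are determined by the primes that split completely**, up to finitely many primes -/
theorem iso_of_splits (K K' : Type*) [Field K] [NumberField K] [IsGalois ℚ K] [Field K'] [NumberField K']
    [IsGalois ℚ K']
    (h : {p : ℕ | p.Prime ∧ ¬ (SplitsCompletely K p ↔ SplitsCompletely K' p)}.Finite) :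
    Nonempty (K ≃+* K') := by
  obtain ⟨i⟩ := embedding_of_splits K K' (h.subset fun p hp => ⟨hp.1, fun h' => hp.2.2 (h'.mpr hp.2.1)⟩)
  obtain ⟨i'⟩ := embedding_of_splits K' K (h.subset fun p hp => ⟨hp.1, fun h' => hp.2.2 (h'.mp hp.2.1)⟩)
  refine ringEquiv_of_finrank_eq i ?_
  have hj : Function.Injective i'.toRatAlgHom.toLinearMap := i'.injective
  exact LinearMap.finrank_le_finrank_of_injective hj

/-- infinitely many primes split completely in a Galois number field -/
theorem infinite_splitsCompletely (K : Type*) [Field K] [NumberField K] [IsGalois ℚ K] :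
    {p : ℕ | p.Prime ∧ SplitsCompletely K p}.Infinite := by
  obtain ⟨D, hD0, hD⟩ := exists_bad K
  have hfin : {p : ℕ | p ∣ D}.Finite := (Set.finite_le_nat D).subset fun p hp =>
    Nat.le_of_dvd (Nat.pos_of_ne_zero hD0) hp
  refine ((Cheb.infinite_frobenius K 1).sdiff hfin).mono ?_
  rintro p ⟨⟨hp, P, hP, hPo, hfrob⟩, hpD⟩
  refine ⟨hp, hD p hp hpD P hP (mem_of_liesOver hPo) fun x => ?_⟩
  have h2 := hfrob x
  rw [card_quotient_under hPo] at h2
  have h3 : (MulSemiringAction.toAlgHom ℤ (𝓞 K) (1 : Gal(K/ℚ))) x = x := one_smul _ x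
  rwa [h3] at h2

/-- Galois number fields with the same number of ideals of norm `p`, for all but finitely many primes `p`, are
isomorphic -/
theorem iso_of_card_eq (K K' : Type*) [Field K] [NumberField K] [IsGalois ℚ K] [Field K']
    [NumberField K'] [IsGalois ℚ K']
    (h : {p : ℕ | p.Prime ∧ Nat.card {I : Ideal (𝓞 K) // absNorm I = p} ≠
      Nat.card {I : Ideal (𝓞 K') // absNorm I = p}}.Finite) :
    Nonempty (K ≃+* K') := by
  have h1 : Module.finrank ℚ K ≤ Module.finrank ℚ K' := by
    obtain ⟨p, ⟨hp, hs⟩, hp2⟩ := ((infinite_splitsCompletely K).sdiff h).nonempty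
    have h3 : Nat.card {I : Ideal (𝓞 K) // absNorm I = p} =
        Nat.card {I : Ideal (𝓞 K') // absNorm I = p} := by
      by_contra hne
      exact hp2 ⟨hp, hne⟩
    rw [← hs, h3]
    exact card_le_finrank hp
  have h2 : Module.finrank ℚ K' ≤ Module.finrank ℚ K := by
    obtain ⟨p, ⟨hp, hs⟩, hp2⟩ := ((infinite_splitsCompletely K').sdiff h).nonempty
    have h3 : Nat.card {I : Ideal (𝓞 K) // absNorm I = p} =
        Nat.card {I : Ideal (𝓞 K') // absNorm I = p} := by
      by_contra hne
      exact hp2 ⟨hp, hne⟩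
    rw [← hs, ← h3]
    exact card_le_finrank hp
  refine iso_of_splits K K' (h.subset ?_)
  rintro p ⟨hp, hne⟩
  refine ⟨hp, fun heq => hne ?_⟩
  rw [SplitsCompletely, SplitsCompletely, heq, le_antisymm h1 h2]

/-- **Galois number fields with the same Dedekind zeta function are isomorphic** -/
theorem iso_of_dedekindZeta_eq (K K' : Type*) [Field K] [NumberField K] [IsGalois ℚ K] [Field K']
    [NumberField K'] [IsGalois ℚ K'] (h : ∀ s : ℂ, 1 < s.re → dedekindZeta K s = dedekindZeta K' s) :
    Nonempty (K ≃+* K') := by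
  refine iso_of_card_eq K K' (Set.Finite.subset Set.finite_empty ?_)
  rintro p ⟨hp, hne⟩
  apply hne
  have h1 : LSeries.abscissaOfAbsConv (fun k => (aK K k : ℂ)) < ⊤ := by
    refine lt_of_le_of_lt (LSeriesSummable.abscissaOfAbsConv_le
      (lSeriesSummable_aK (K := K) (s := 2) (by norm_num))) ?_
    exact EReal.coe_lt_top _
  have h2 : LSeries.abscissaOfAbsConv (fun k => (aK K' k : ℂ)) < ⊤ := by
    refine lt_of_le_of_lt (LSeriesSummable.abscissaOfAbsConv_le
      (lSeriesSummable_aK (K := K') (s := 2) (by norm_num))) ?_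
    exact EReal.coe_lt_top _
  have h4 := LSeries.eq_of_LSeries_eventually_eq h1 h2 (by
    filter_upwards [Filter.eventually_gt_atTop 1] with x hx
    exact h x (by simpa using hx)) hp.ne_zero
  exact_mod_cast h4

end Fermat.Agent.Cor.H25Z
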