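import Fermat.Agent.Cor.HeckeSpec
import Fermat.Agent.Cor.SemistableTable

/-!
# Semistable elliptic curves and homomorphisms from the Hecke algebra to `ℤ`

Let `T` be the Hecke algebra of weight two and level `N` (generated by all `T_ℓ` and `U_ℓ`).

* `exists_hom`: if `W` is a semistable elliptic curve over `ℚ` of conductor `N`, there is a ring homomorphism
  `χ : T → ℤ` with `χ(T_ℓ) = a_ℓ(W)` for all primes `ℓ ∤ N` and `χ(U_q) = ±1` for all primes `q ∣ N`;
* `hom_unique`: there is only one ring homomorphism `χ : T → ℂ` with `χ(T_ℓ) = a_ℓ(W)` for almost all `ℓ`;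
* `card_le`: semistable elliptic curves of conductor `N` with pairwise different traces of Frobenius are at most as
  many as ring homomorphisms `T → ℤ`.

This file is not used by any of the statement files.
-/

set_option autoImplicit false

noncomputable section

namespace Fermat.Agent.Cor.HeckeHom

open ModularCurve ModularFormClass CongruenceSubgroup WeierstrassCurve Shimura
open Fermat.Agent.Cor.SemistableTable

section Char

variable {N : ℕ} [NeZero N] {f : CuspForm (Gamma0 N) 2}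

/-- a subring which contains the eigenvalues `a_p` contains the values of the character -/
theorem char_mem (hf : f.IsNormalizedEigenform) (R : Subring ℂ)
    (h : ∀ q : ℕ, q.Prime → qCoeff f q ∈ R) (t : CuspForm.heckeAlgebra N 2 ∅) :
    H23.eigenCharC hf ∅ t ∈ R := by
  obtain ⟨P, rfl⟩ := H22.heckeEvalForms_surjective (N := N) t
  change ((H23.eigenCharC hf ∅).comp (CuspForm.heckeEvalForms N 2)) P ∈ _
  induction P using MvPolynomial.induction_on with
  | C n =>
    rw [show (MvPolynomial.C n : MvPolynomial Nat.Primes ℤ) = (n : MvPolynomial Nat.Primes ℤ) by simp,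
      map_intCast]
    exact intCast_mem _ n
  | add P Q hP hQ =>
    rw [map_add]
    exact add_mem hP hQ
  | mul_X P ℓ hP =>
    rw [map_mul]
    refine mul_mem hP ?_
    have h1 := eigenCharC_gen hf ℓ.2
    rw [H22.charEigenvalue, dif_pos ℓ.2] at h1
    have h3 := CuspForm.heckeEvalForms_heckeGen N 2 ℓ
    change H23.eigenCharC hf ∅ (CuspForm.heckeEvalForms N 2 (heckeGen ℓ)) ∈ _
    rw [h3]
    have h4 := h ℓ ℓ.2
    rw [← h1] at h4
    exact h4

theorem char_U (hf : f.IsNormalizedEigenform) {q : ℕ} (hq : q.Prime) (hqN : q ∣ N) :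
    H23.eigenCharC hf ∅ (CuspForm.heckeAlgebra.U hq hqN (Set.notMem_empty _)) = qCoeff f q := by
  rw [H23.eigenCharC_apply, CuspForm.heckeAlgebra.coe_U, H23.heckeULin_eigen hf hq hqN,
    H22.cusp_qCoeff_smul, hf.qCoeff_one, mul_one]

/-- an eigenform with integral coefficients gives a homomorphism to `ℤ` -/
theorem exists_hom_of (hf : f.IsNormalizedEigenform)
    (h : ∀ q : ℕ, q.Prime → ∃ a : ℤ, qCoeff f q = a) :
    ∃ χ : CuspForm.heckeAlgebra N 2 ∅ →+* ℤ, ∀ t, (χ t : ℂ) = H23.eigenCharC hf ∅ t := by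
  let R : Subring ℂ := (Int.castRingHom ℂ).range
  have h1 : ∀ t, H23.eigenCharC hf ∅ t ∈ R := char_mem hf R fun q hq => by
    obtain ⟨a, ha⟩ := h q hq
    exact ⟨a, ha.symm⟩
  let e : ℤ ≃+* R := RingEquiv.ofBijective (Int.castRingHom ℂ).rangeRestrict
    ⟨fun x y h => RingHom.injective_int (Int.castRingHom ℂ) (congrArg Subtype.val h),
      (Int.castRingHom ℂ).rangeRestrict_surjective⟩
  let ψ : CuspForm.heckeAlgebra N 2 ∅ →+* R := (H23.eigenCharC hf ∅).codRestrict R h1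
  refine ⟨(e.symm : R →+* ℤ).comp ψ, fun t => ?_⟩
  have h2 : e (((e.symm : R →+* ℤ).comp ψ) t) = ψ t := RingEquiv.apply_symm_apply _ _
  exact congrArg Subtype.val h2

end Char

/-- **The homomorphism of a semistable elliptic curve** -/
theorem exists_hom {W : WeierstrassCurve ℤ} (hΔ : W.Δ ≠ 0) (hW : W.IsSemistableModel) {N : ℕ}
    [NeZero N] (hN : W.conductorLevel = N) :
    ∃ χ : CuspForm.heckeAlgebra N 2 ∅ →+* ℤ,
      (∀ (ℓ : ℕ) (hℓ : ℓ.Prime) (hℓN : ¬ ℓ ∣ N),
        χ (CuspForm.heckeAlgebra.T hℓ hℓN (Set.notMem_empty _)) = W.apOfModel ℓ) ∧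
      ∀ (q : ℕ) (hq : q.Prime) (hqN : q ∣ N),
        χ (CuspForm.heckeAlgebra.U hq hqN (Set.notMem_empty _)) = 1 ∨
          χ (CuspForm.heckeAlgebra.U hq hqN (Set.notMem_empty _)) = -1 := by
  have hsq := W.squarefree_conductorLevel
  have h1 := SmallConductor.exists_newform W hΔ hW
  rw [hN] at h1 hsq
  obtain ⟨f, hf, h2⟩ := h1
  have h3 : ∀ q : ℕ, q.Prime → q ∣ N → qCoeff f q = 1 ∨ qCoeff f q = -1 := by
    intro q hq hqN
    have h4 := (RootNumber.newformBadPrimeCoeff' (NeZero.ne N) f hf q hq hqN).1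
      (Nat.squarefree_iff_prime_squarefree.mp hsq q hq ∘ fun h => by rwa [pow_two] at h)
    have h5 : (qCoeff f q - 1) * (qCoeff f q + 1) = 0 := by linear_combination h4
    rcases mul_eq_zero.1 h5 with h6 | h6
    · exact Or.inl (sub_eq_zero.1 h6)
    · exact Or.inr (eq_neg_of_add_eq_zero_left h6)
  obtain ⟨χ, hχ⟩ := exists_hom_of hf.1 fun q hq => by
    by_cases hqN : q ∣ N
    · rcases h3 q hq hqN with h | h
      · exact ⟨1, by rw [h]; simp⟩
      · exact ⟨-1, by rw [h]; simp⟩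
    · exact ⟨_, h2 q hq hqN⟩
  refine ⟨χ, fun ℓ hℓ hℓN => ?_, fun q hq hqN => ?_⟩
  · have h4 := hχ (CuspForm.heckeAlgebra.T hℓ hℓN (Set.notMem_empty _))
    rw [H23.eigenCharC_T hf.1 hℓ hℓN, h2 ℓ hℓ hℓN] at h4
    exact_mod_cast h4
  · have h4 := hχ (CuspForm.heckeAlgebra.U hq hqN (Set.notMem_empty _))
    rw [char_U hf.1 hq hqN] at h4
    rcases h3 q hq hqN with h | h
    · left
      rw [h] at h4
      exact_mod_cast h4
    · right
      rw [h] at h4
      exact_mod_cast h4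

/-- **The homomorphism of a semistable elliptic curve is unique**, by strong multiplicity one. -/
theorem hom_unique {W : WeierstrassCurve ℤ} (hΔ : W.Δ ≠ 0) (hW : W.IsSemistableModel) {N : ℕ}
    [NeZero N] (hN : W.conductorLevel = N) {D : ℕ} (hD : D ≠ 0)
    (χ χ' : CuspForm.heckeAlgebra N 2 ∅ →+* ℂ)
    (h : ∀ (ℓ : ℕ) (hℓ : ℓ.Prime) (hℓN : ¬ ℓ ∣ N), ¬ ℓ ∣ D →
      χ (CuspForm.heckeAlgebra.T hℓ hℓN (Set.notMem_empty _)) = W.apOfModel ℓ)
    (h' : ∀ (ℓ : ℕ) (hℓ : ℓ.Prime) (hℓN : ¬ ℓ ∣ N), ¬ ℓ ∣ D →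
      χ' (CuspForm.heckeAlgebra.T hℓ hℓN (Set.notMem_empty _)) = W.apOfModel ℓ) : χ = χ' := by
  have h1 := SmallConductor.exists_newform W hΔ hW
  rw [hN] at h1
  obtain ⟨g, hg, h2⟩ := h1
  have key : ∀ f : {f : CuspForm (Gamma0 N) 2 // f.IsNormalizedEigenform},
      (∀ (ℓ : ℕ) (hℓ : ℓ.Prime) (hℓN : ¬ ℓ ∣ N), ¬ ℓ ∣ D →
        Duality.eigenformEquiv N f (CuspForm.heckeAlgebra.T hℓ hℓN (Set.notMem_empty _)) =
          W.apOfModel ℓ) → f.1 = g := by
    intro f hf
    have h3 := AL.strong_multiplicity_one hg hD f.1 fun ℓ hℓ hℓN hℓD => by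
      have h4 : qCoeff f.1 ℓ = W.apOfModel ℓ := by
        rw [← hf ℓ hℓ hℓN hℓD]
        exact (H23.eigenCharC_T f.2 hℓ hℓN _).symm
      rw [H23.heckeTLin_eigen f.2 hℓ hℓN, h4, h2 ℓ hℓ hℓN]
    rw [h3, f.2.qCoeff_one, one_smul]
  obtain ⟨f, rfl⟩ := (Duality.eigenformEquiv N).surjective χ
  obtain ⟨f', rfl⟩ := (Duality.eigenformEquiv N).surjective χ'
  rw [Subtype.ext ((key f h).trans (key f' h').symm)]

/-- semistable elliptic curves of conductor `N` with different traces give different homomorphisms -/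
theorem card_le {N : ℕ} [NeZero N] {ι : Type} [Fintype ι] (W : ι → WeierstrassCurve ℤ)
    (hΔ : ∀ i, (W i).Δ ≠ 0) (hW : ∀ i, (W i).IsSemistableModel)
    (hN : ∀ i, (W i).conductorLevel = N) (hne : ∀ i j, i ≠ j → ¬ SameTraces (W i) (W j)) :
    Fintype.card ι ≤ Nat.card (CuspForm.heckeAlgebra N 2 ∅ →+* ℤ) ∧
      (Nat.card (CuspForm.heckeAlgebra N 2 ∅ →+* ℤ) : ℚ) ≤ genusFormula N := by
  have hinj : Function.Injective (fun χ : CuspForm.heckeAlgebra N 2 ∅ →+* ℤ =>
      (Int.castRingHom ℂ).comp χ) := fun χ χ' h => RingHom.ext fun t =>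
    RingHom.injective_int (Int.castRingHom ℂ) (DFunLike.congr_fun h t)
  have hfin' : Finite (CuspForm.heckeAlgebra N 2 ∅ →+* ℂ) :=
    Finite.of_equiv _ (Duality.eigenformEquiv N)
  have hfin : Finite (CuspForm.heckeAlgebra N 2 ∅ →+* ℤ) := Finite.of_injective _ hinj
  constructor
  · choose χ hχ using fun i => exists_hom (hΔ i) (hW i) (hN i)
    rw [← Nat.card_eq_fintype_card]
    refine Nat.card_le_card_of_injective χ fun i j hij => ?_
    by_contra hne'
    refine hne i j hne' ⟨(hN i).trans (hN j).symm, fun ℓ hℓ hℓN => ?_⟩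
    rw [hN i] at hℓN
    rw [← (hχ i).1 ℓ hℓ hℓN, ← (hχ j).1 ℓ hℓ hℓN, hij]
  · have h1 := Nat.card_le_card_of_injective _ hinj
    have h2 : Nat.card (CuspForm.heckeAlgebra N 2 ∅ →+* ℂ) =
        Nat.card {f : CuspForm (Gamma0 N) 2 // f.IsNormalizedEigenform} :=
      (Nat.card_congr (Duality.eigenformEquiv N)).symm
    have h3 := H14.card_eigenforms_le N
    rw [h2] at h1
    exact le_trans (by exact_mod_cast h1) h3

end Fermat.Agent.Cor.HeckeHom
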