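import Fermat.Agent.Cor.GenusOneHecke
import Fermat.Agent.Cor.HeckeHom

/-!
# When is the Hecke algebra at the conductor of an elliptic curve a domain?

`isDomain_iff`: let `W` be a semistable elliptic curve over `ℚ` of conductor `N`. The Hecke algebra of weight two and
level `N` (generated by all `T_ℓ` and `U_ℓ`) is a domain if and only if the genus of `X₀(N)` is one.

This file is not used by any of the statement files.
-/

set_option autoImplicit false

namespace Fermat.Agent.Cor.HeckeDomain

open ModularCurve CongruenceSubgroup WeierstrassCurve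

/-- **The Hecke algebra at the conductor of a semistable elliptic curve** is a domain if and only if the genus is one. -/
theorem isDomain_iff {W : WeierstrassCurve ℤ} (hΔ : W.Δ ≠ 0) (hW : W.IsSemistableModel) {N : ℕ}
    [NeZero N] (hN : W.conductorLevel = N) :
    IsDomain (CuspForm.heckeAlgebra N 2 ∅) ↔ genusFormula N = 1 := by
  constructor
  · intro h
    obtain ⟨χ, -⟩ := HeckeHom.exists_hom hΔ hW hN
    have h1 : RingHom.ker ((Int.castRingHom ℂ).comp χ) ∈
        minimalPrimes (CuspForm.heckeAlgebra N 2 ∅) := HeckeSpec.ker_mem_minimalPrimes _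
    rw [IsDomain.minimalPrimes_eq_singleton_bot, Set.mem_singleton_iff] at h1
    have hinj : Function.Injective χ := by
      rw [injective_iff_map_eq_zero]
      intro t ht
      have h2 : t ∈ RingHom.ker ((Int.castRingHom ℂ).comp χ) := by
        rw [RingHom.mem_ker, RingHom.comp_apply, ht, map_zero]
      rw [h1] at h2
      exact h2
    have h3 : Module.finrank ℤ (CuspForm.heckeAlgebra N 2 ∅) ≤ 1 := by
      have h4 := LinearMap.finrank_le_finrank_of_injective
        (f := χ.toAddMonoidHom.toIntLinearMap) hinj
      rwa [Module.finrank_self] at h4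
    have h5 : 0 < Module.finrank ℤ (CuspForm.heckeAlgebra N 2 ∅) := Module.finrank_pos
    rw [← GenusOneHecke.finrank_eq N, show Module.finrank ℤ (CuspForm.heckeAlgebra N 2 ∅) = 1 by omega]
    norm_num
  · intro h
    let e : ℤ ≃+* CuspForm.heckeAlgebra N 2 ∅ :=
      RingEquiv.ofBijective _ (GenusOneHecke.bijective_of_genus_one N h)
    exact e.symm.toMulEquiv.isDomain _

end Fermat.Agent.Cor.HeckeDomain
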