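import Fermat.Agent.Cor.LatticeBasis
import Fermat.Agent.Cor.Shimura

/-!
# The duality between Hecke algebras and cusp forms of weight two

Let `N` be any positive integer, `S` the lattice of cusp forms of weight two for `Γ₀(N)` with integral
`q`-coefficients and `T` the Hecke algebra, the subring of `End S` generated by all `T_ℓ` and `U_q`.

* `isPerfPair`: the pairing `S × T → ℤ`, `(g, t) ↦ a₁(t g)` is perfect; so `S ≅ Hom(T, ℤ)` and `T ≅ Hom(S, ℤ)`;
* `finrank_hecke`: the rank of `T` is the genus of `X₀(N)`;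
* `eigenformEquiv`: the normalised eigenforms of level `N` correspond bijectively to the ring homomorphisms
  `T → ℂ`.

This file is not used by any of the statement files.
-/

set_option autoImplicit false

noncomputable section

open ModularForm CongruenceSubgroup ModularFormClass ModularCurve
open Fermat.Agent.H22

namespace Fermat.Agent.Cor.Duality

open LatticeBasis
open H13 (coefL coefL_spec coefL_zero heckeOp)

variable (N : ℕ) [NeZero N]

/-- the Hecke algebra -/
abbrev TT := ↥(CuspForm.heckeLatticeAlgebra N ∅)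

theorem coefL_injective : Function.Injective (coefL N) := by
  rw [injective_iff_map_eq_zero]
  intro g hg
  apply Subtype.ext
  refine cusp_eq_zero_of_qCoeff g.1 fun n _ => ?_
  rw [coefL_spec, hg]
  simp

/-- the map from the abstract Hecke algebra -/
def piH : HeckeAlg →+* TT N :=
  (CuspForm.latticeRestrictHom N ∅).toRingHom.comp (CuspForm.heckeEvalForms N 2)

theorem coefL_gen (ℓ : Nat.Primes) (g : LL N) :
    coefL N ((piH N (heckeGen ℓ) : Module.End ℤ (LL N)) g) = heckeOp N ℓ (coefL N g) := by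
  funext k
  have h := coefL_spec N ((piH N (heckeGen ℓ) : Module.End ℤ (LL N)) g) k
  have e : (((piH N (heckeGen ℓ) : Module.End ℤ (LL N)) g : LL N) : CuspForm (Gamma0 N) 2) =
      ((CuspForm.heckeEvalForms N 2 (heckeGen ℓ) : CuspForm.heckeAlgebra N 2 ∅) :
        Module.End ℂ (CuspForm (Gamma0 N) 2)) (g : CuspForm (Gamma0 N) 2) := rfl
  rw [e] at h
  by_cases hd : (ℓ : ℕ) ∣ N
  · rw [CuspForm.heckeEvalForms_heckeGen_of_dvd hd, CuspForm.heckeAlgebra.coe_U,
      qCoeff_heckeULin, coeffHeckeU_apply, coefL_spec] at h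
    have h' : coefL N ((piH N (heckeGen ℓ) : Module.End ℤ (LL N)) g) k = coefL N g (k * ℓ) := by
      exact_mod_cast h.symm
    rw [h']
    simp [heckeOp, hd]
  · rw [CuspForm.heckeEvalForms_heckeGen_of_not_dvd hd, CuspForm.heckeAlgebra.coe_T,
      qCoeff_heckeTLin, coeffHeckeT_apply, coefL_spec, coefL_spec] at h
    simp only [heckeOp, LinearMap.coe_mk, AddHom.coe_mk, if_neg hd]
    have h2 : ((ℓ : ℕ) : ℂ) ^ ((2 : ℤ) - 1) = ((ℓ : ℕ) : ℂ) := by norm_num
    rw [h2] at h
    split_ifs at h ⊢ with hk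
    · exact_mod_cast h.symm
    · rw [add_zero] at h ⊢
      exact_mod_cast h.symm


/-- the operators `P_k` with `a_k = a_1 ∘ P_k` -/
theorem exists_P (k : ℕ) (hk : 1 ≤ k) : ∃ P : HeckeAlg,
    ∀ g : LL N, coefL N g k = coefL N ((piH N P : Module.End ℤ (LL N)) g) 1 := by
  induction k using Nat.strong_induction_on with
  | _ k ih =>
    rcases eq_or_ne k 1 with rfl | hk1
    · refine ⟨1, fun g => ?_⟩
      rw [map_one]; rfl
    · obtain ⟨ℓ, m, rfl⟩ : ∃ (ℓ : Nat.Primes) (m : ℕ), k = ℓ * m := by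
        obtain ⟨ℓ, hℓ, m, rfl⟩ := Nat.exists_prime_and_dvd hk1
        exact ⟨⟨ℓ, hℓ⟩, m, rfl⟩
      have hℓ := ℓ.2
      have hm : 1 ≤ m := Nat.one_le_iff_ne_zero.mpr (by rintro rfl; simp at hk)
      have hmlt : m < ℓ * m := by nlinarith [hℓ.one_lt]
      obtain ⟨P, hP⟩ := ih m hmlt hm
      have key : ∀ g : LL N, coefL N ((piH N (P * heckeGen ℓ) : Module.End ℤ (LL N)) g) 1 =
          heckeOp N ℓ (coefL N g) m := by
        intro g
        rw [map_mul]
        have : ((piH N P * piH N (heckeGen ℓ) : TT N) : Module.End ℤ (LL N)) g =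
          (piH N P : Module.End ℤ (LL N)) ((piH N (heckeGen ℓ) : Module.End ℤ (LL N)) g) := rfl
        rw [this, ← hP, coefL_gen]
      by_cases hd : (ℓ : ℕ) ∣ m
      · obtain ⟨m', rfl⟩ := hd
        have hm' : 1 ≤ m' := Nat.one_le_iff_ne_zero.mpr (by rintro rfl; simp at hm)
        have hmlt' : m' < ℓ * (ℓ * m') :=
          lt_of_le_of_lt (Nat.le_mul_of_pos_left m' hℓ.pos) hmlt
        obtain ⟨P', h1⟩ := ih m' hmlt' hm'
        obtain ⟨e, he⟩ : ∃ e : ℤ, e = if (ℓ : ℕ) ∣ N then 0 else ((ℓ : ℕ) : ℤ) := ⟨_, rfl⟩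
        have hop : ∀ a : ℕ → ℤ, heckeOp N ℓ a (ℓ * m') = a (ℓ * (ℓ * m')) + e * a m' := by
          intro a
          simp only [heckeOp, LinearMap.coe_mk, AddHom.coe_mk, dvd_mul_right, if_true,
            Nat.mul_div_cancel_left _ hℓ.pos, ← he]
          rw [mul_comm (ℓ : ℕ) (ℓ * m')]
        refine ⟨P * heckeGen ℓ - (e : HeckeAlg) * P', fun g => ?_⟩
        rw [map_sub, map_mul (piH N) _ P', map_intCast]
        have : ((piH N (P * heckeGen ℓ) - ((e : ℤ) : TT N) * piH N P' : TT N) :
            Module.End ℤ (LL N)) g =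
            (piH N (P * heckeGen ℓ) : Module.End ℤ (LL N)) g -
            e • ((piH N P' : Module.End ℤ (LL N)) g) := by
          simp
        rw [this, map_sub, map_smul, Pi.sub_apply, Pi.smul_apply, key, ← h1, hop, smul_eq_mul]
        ring
      · refine ⟨P * heckeGen ℓ, fun g => ?_⟩
        rw [key]
        simp only [heckeOp, LinearMap.coe_mk, AddHom.coe_mk, if_neg hd, add_zero]
        rw [mul_comm]

/-! ### Duality -/

/-- the pairing `(g, t) ↦ a_1(t g)` -/
def pairB : LL N →ₗ[ℤ] (TT N →ₗ[ℤ] ℤ) where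
  toFun g :=
    { toFun := fun t => coefL N ((t : Module.End ℤ (LL N)) g) 1
      map_add' := fun s t => by
        have : ((s + t : TT N) : Module.End ℤ (LL N)) g = (s : Module.End ℤ (LL N)) g +
          (t : Module.End ℤ (LL N)) g := rfl
        rw [this, map_add]; rfl
      map_smul' := fun c t => by
        have : ((c • t : TT N) : Module.End ℤ (LL N)) g = c • ((t : Module.End ℤ (LL N)) g) := rfl
        rw [this, map_smul]; rfl }
  map_add' g h := by
    ext t
    simp
  map_smul' c g := by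
    ext t
    simp

@[simp] theorem pairB_apply (g : LL N) (t : TT N) :
    pairB N g t = coefL N ((t : Module.End ℤ (LL N)) g) 1 := rfl

theorem pairB_injective : Function.Injective (pairB N) := by
  rw [injective_iff_map_eq_zero]
  intro g hg
  apply coefL_injective N
  rw [map_zero]
  funext k
  rcases Nat.eq_zero_or_pos k with rfl | hk
  · rw [coefL_zero]; rfl
  · obtain ⟨P, hP⟩ := exists_P N k hk
    rw [hP, ← pairB_apply, hg]; rfl

theorem pairB_flip_injective : Function.Injective (pairB N).flip := by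
  rw [injective_iff_map_eq_zero]
  intro t ht
  apply Subtype.ext
  apply LinearMap.ext
  intro g
  apply pairB_injective N
  ext s
  have h1 : pairB N ((t : Module.End ℤ (LL N)) g) s = pairB N g (s * t) := rfl
  have h2 : pairB N g (s * t) = pairB N g (t * s) := by rw [mul_comm]
  have h3 : pairB N g (t * s) = (pairB N).flip t ((s : Module.End ℤ (LL N)) g) := rfl
  rw [h1, h2, h3, ht]
  simp

theorem finrank_eq : Module.finrank ℤ (LL N) = Module.finrank ℤ (TT N) := by
  apply le_antisymm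
  · have h := LinearMap.finrank_le_finrank_of_injective (pairB_injective N)
    rwa [Module.finrank_linearMap_self] at h
  · have h := LinearMap.finrank_le_finrank_of_injective (pairB_flip_injective N)
    rwa [Module.finrank_linearMap_self] at h

theorem exists_smul_mem (ψ : TT N →ₗ[ℤ] ℤ) : ∃ (d : ℤ) (g : LL N), d ≠ 0 ∧ d • ψ = pairB N g := by
  have h1 : Module.finrank ℤ (LinearMap.range (pairB N)) = Module.finrank ℤ (TT N →ₗ[ℤ] ℤ) := by
    rw [LinearMap.finrank_range_of_inj (pairB_injective N), finrank_eq,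
      Module.finrank_linearMap_self]
  have h2 := Submodule.finrank_quotient_add_finrank (LinearMap.range (pairB N))
  have h3 : Module.finrank ℤ ((TT N →ₗ[ℤ] ℤ) ⧸ LinearMap.range (pairB N)) = 0 := by omega
  have h4 : Module.rank ℤ ((TT N →ₗ[ℤ] ℤ) ⧸ LinearMap.range (pairB N)) = 0 := by
    rw [← Module.finrank_eq_rank, h3]; rfl
  rw [rank_eq_zero_iff] at h4
  obtain ⟨d, hd, h5⟩ := h4 (Submodule.Quotient.mk ψ)
  rw [← Submodule.Quotient.mk_smul, Submodule.Quotient.mk_eq_zero] at h5
  obtain ⟨g, hg⟩ := h5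
  exact ⟨d, g, hd, hg.symm⟩

theorem pairB_surjective (ψ : TT N →ₗ[ℤ] ℤ) : ∃ f : LL N, pairB N f = ψ := by
  obtain ⟨d, g, hd, hg⟩ := exists_smul_mem N ψ
  have hdC : (d : ℂ) ≠ 0 := by exact_mod_cast hd
  -- all coefficients of `g` are divisible by `d`
  have h1 : ∀ k, ∃ b : ℤ, coefL N g k = d * b := by
    intro k
    rcases Nat.eq_zero_or_pos k with rfl | hk
    · exact ⟨0, by rw [coefL_zero, mul_zero]⟩
    · obtain ⟨P, hP⟩ := exists_P N k hk
      exact ⟨ψ (piH N P), by rw [hP, ← pairB_apply, ← hg]; rfl⟩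
  have hmem : ((d : ℂ)⁻¹ • (g : CuspForm (Gamma0 N) 2)) ∈ CuspForm.intLattice N 2 := by
    rw [mem_intLattice_iff]
    intro k
    obtain ⟨b, hb⟩ := h1 k
    refine ⟨b, ?_⟩
    rw [cusp_qCoeff_smul, coefL_spec, hb]
    push_cast
    field_simp
  refine ⟨⟨_, hmem⟩, ?_⟩
  have h2 : d • (⟨_, hmem⟩ : LL N) = g := by
    apply Subtype.ext
    change (d : ℤ) • ((d : ℂ)⁻¹ • (g : CuspForm (Gamma0 N) 2)) = g
    rw [← Int.cast_smul_eq_zsmul ℂ d, smul_smul, mul_inv_cancel₀ hdC, one_smul]
  have h3 : d • pairB N ⟨_, hmem⟩ = d • ψ := by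
    rw [← map_smul, h2, hg]
  ext t
  have h4 := LinearMap.congr_fun h3 t
  simp only [LinearMap.smul_apply, smul_eq_mul] at h4
  exact mul_left_cancel₀ hd h4

theorem pairB_bijective : Function.Bijective (pairB N) :=
  ⟨pairB_injective N, pairB_surjective N⟩

theorem pairB_flip_bijective : Function.Bijective (pairB N).flip := by
  let e : LL N ≃ₗ[ℤ] Module.Dual ℤ (TT N) := LinearEquiv.ofBijective (pairB N) (pairB_bijective N)
  let e' : TT N ≃ₗ[ℤ] Module.Dual ℤ (LL N) := (Module.evalEquiv ℤ (TT N)).trans e.dualMap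
  have h : ((pairB N).flip : TT N → (LL N →ₗ[ℤ] ℤ)) = e' := by
    funext t
    ext g
    rfl
  rw [h]
  exact e'.bijective

/-- **Duality**: the pairing `(g, t) ↦ a₁(t g)` between the cusp forms with integral coefficients and the Hecke algebra
is perfect. -/
theorem isPerfPair : (pairB N).IsPerfPair :=
  ⟨pairB_bijective N, pairB_flip_bijective N⟩

/-- **The rank of the Hecke algebra is the genus of `X₀(N)`.** -/
theorem finrank_hecke : (Module.finrank ℤ (TT N) : ℚ) = genusFormula N := by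
  rw [← finrank_eq, finrank_lattice]
  exact Fermat.Agent.S20.result N

/-- **Normalised eigenforms and characters of the Hecke algebra**: the normalised eigenforms `f` of level `N`
correspond bijectively to the ring homomorphisms `T → ℂ`; `T_ℓ` and `U_ℓ` go to `a_ℓ(f)`. -/
def eigenformEquiv : {f : CuspForm (Gamma0 N) 2 // f.IsNormalizedEigenform} ≃
    (CuspForm.heckeAlgebra N 2 ∅ →+* ℂ) :=
  Equiv.ofBijective (fun f => H23.eigenCharC f.2 ∅) ⟨fun _ _ h => H14.eigenCharC_injective
    (congrArg (fun χ : CuspForm.heckeAlgebra N 2 ∅ →+* ℂ =>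
      (χ : CuspForm.heckeAlgebra N 2 ∅ →* ℂ)) h), fun χ => by
    obtain ⟨g, hg, h⟩ := Shimura.exists_eigenform_of_char χ
    refine ⟨⟨g, hg⟩, ?_⟩
    ext t
    obtain ⟨P, rfl⟩ := H22.heckeEvalForms_surjective (N := N) t
    change ((H23.eigenCharC hg ∅).comp (CuspForm.heckeEvalForms N 2)) P =
      (χ.comp (CuspForm.heckeEvalForms N 2)) P
    congr 1
    apply MvPolynomial.ringHom_ext
    · intro n
      simp
    · intro ℓ
      have h1 := Shimura.eigenCharC_gen hg ℓ.2
      have h2 := h ℓ ℓ.2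
      rw [H22.charEigenvalue, dif_pos ℓ.2] at h1 h2
      have h3 := CuspForm.heckeEvalForms_heckeGen N 2 ℓ
      rw [RingHom.comp_apply, RingHom.comp_apply]
      change H23.eigenCharC hg ∅ (CuspForm.heckeEvalForms N 2 (heckeGen ℓ)) =
        χ (CuspForm.heckeEvalForms N 2 (heckeGen ℓ))
      rw [h3]
      exact h1.trans h2⟩

theorem eigenformEquiv_gen (f : {f : CuspForm (Gamma0 N) 2 // f.IsNormalizedEigenform})
    (ℓ : Nat.Primes) : eigenformEquiv N f (CuspForm.heckeFormsGen N 2 ℓ) = qCoeff f.1 ℓ := by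
  have h1 := Shimura.eigenCharC_gen f.2 ℓ.2
  rw [H22.charEigenvalue, dif_pos ℓ.2] at h1
  exact h1

end Fermat.Agent.Cor.Duality
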