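import Fermat.Agent.Cor.HeckeStructure

/-!
# The rational Hecke algebra of prime level

Let `N` be prime and `T` the Hecke algebra of weight two and level `N` (generated by all `T_ℓ` and `U_N`).

* `ratEquiv`: `ℚ ⊗ T` is isomorphic to the product of the fields of coefficients `K_f`, where `f` runs through
  representatives of the conjugacy classes of normalised eigenforms; `t` goes to its family of eigenvalues
  (`ratEquiv_tmul`).

This file is not used by any of the statement files.
-/

set_option autoImplicit false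

noncomputable section

namespace Fermat.Agent.Cor.HeckeRational

open ModularCurve ModularFormClass CongruenceSubgroup Shimura HeckeStructure
open scoped TensorProduct

/-- each element of `ℚ ⊗ A` has the form `(1 / m) ⊗ a` -/
theorem exists_tmul {A : Type*} [AddCommGroup A] (z : ℚ ⊗[ℤ] A) :
    ∃ (m : ℕ) (a : A), 0 < m ∧ z = (1 / (m : ℚ)) ⊗ₜ[ℤ] a := by
  induction z with
  | zero => exact ⟨1, 0, one_pos, by simp⟩
  | tmul q a =>
    refine ⟨q.den, q.num • a, q.pos, ?_⟩
    rw [← TensorProduct.smul_tmul]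
    congr 1
    rw [zsmul_eq_mul, mul_one_div, Rat.num_div_den]
  | add x y hx hy =>
    obtain ⟨m, a, hm, rfl⟩ := hx
    obtain ⟨n, b, hn, rfl⟩ := hy
    refine ⟨m * n, (n : ℤ) • a + (m : ℤ) • b, Nat.mul_pos hm hn, ?_⟩
    have hm' : (m : ℚ) ≠ 0 := by positivity
    have hn' : (n : ℚ) ≠ 0 := by positivity
    rw [TensorProduct.tmul_add, ← TensorProduct.smul_tmul, ← TensorProduct.smul_tmul]
    congr 2
    · rw [zsmul_eq_mul]
      push_cast
      field_simp
    · rw [zsmul_eq_mul]
      push_cast
      field_simp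

variable (N : ℕ) [hN : Fact N.Prime]

/-- the homomorphism to the product of the fields of coefficients -/
def PhiK : CuspForm.heckeAlgebra N 2 ∅ →+* ((ω : Orb N) → coeffField ω.out.1) :=
  RingHom.pi fun ω =>
    (algebraMap (NumberField.RingOfIntegers (coeffField ω.out.1)) (coeffField ω.out.1)).comp
      (chi ω.out)

theorem PhiK_injective : Function.Injective (PhiK N) := by
  rw [injective_iff_map_eq_zero]
  intro t ht
  refine (injective_iff_map_eq_zero _).mp (Phi_injective N) t ?_
  funext ω
  exact NumberField.RingOfIntegers.coe_eq_zero_iff.mp (congrFun ht ω)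

/-- the homomorphism from the rational Hecke algebra -/
def ratHom : ℚ ⊗[ℤ] CuspForm.heckeAlgebra N 2 ∅ →ₐ[ℚ] ((ω : Orb N) → coeffField ω.out.1) :=
  Algebra.TensorProduct.lift (Algebra.ofId ℚ _) (PhiK N).toIntAlgHom fun _ _ => Commute.all _ _

theorem ratHom_tmul (q : ℚ) (t : CuspForm.heckeAlgebra N 2 ∅) :
    ratHom N (q ⊗ₜ t) = q • PhiK N t := by
  rw [ratHom, Algebra.TensorProduct.lift_tmul, Algebra.smul_def]
  rfl

theorem ratHom_bijective : Function.Bijective (ratHom N) := by
  constructor
  · rw [injective_iff_map_eq_zero]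
    intro z hz
    obtain ⟨m, t, hm, rfl⟩ := exists_tmul z
    rw [ratHom_tmul] at hz
    have h1 : (1 / (m : ℚ)) ≠ 0 := by positivity
    have h2 : PhiK N t = 0 := (smul_eq_zero_iff_right h1).mp hz
    rw [(injective_iff_map_eq_zero _).mp (PhiK_injective N) t h2, TensorProduct.tmul_zero]
  · intro x
    obtain ⟨m, t, hm, h⟩ := exists_smul_eq N x
    refine ⟨(1 / (m : ℚ)) ⊗ₜ t, ?_⟩
    have hm' : (m : ℚ) ≠ 0 := by positivity
    have h1 : PhiK N t = (m : ℚ) • x := by
      funext ω
      rw [Pi.smul_apply, Nat.cast_smul_eq_nsmul]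
      exact h ω
    rw [ratHom_tmul, h1, smul_smul, one_div_mul_cancel hm', one_smul]

/-- **The rational Hecke algebra of prime level is the product of the fields of coefficients** of the conjugacy
classes of eigenforms. -/
def ratEquiv : ℚ ⊗[ℤ] CuspForm.heckeAlgebra N 2 ∅ ≃ₐ[ℚ] ((ω : Orb N) → coeffField ω.out.1) :=
  AlgEquiv.ofBijective (ratHom N) (ratHom_bijective N)

/-- the isomorphism is given by the eigenvalues -/
theorem ratEquiv_tmul (q : ℚ) (t : CuspForm.heckeAlgebra N 2 ∅) (ω : Orb N) :
    ((ratEquiv N (q ⊗ₜ t) ω : coeffField ω.out.1) : ℂ) =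
      q * H23.eigenCharC ω.out.2 ∅ t := by
  change ((ratHom N (q ⊗ₜ t) ω : coeffField ω.out.1) : ℂ) = _
  rw [ratHom_tmul, Pi.smul_apply, Algebra.smul_def]
  exact congrArg₂ (· * ·) (by simp) rfl

end Fermat.Agent.Cor.HeckeRational
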