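import Fermat.Agent.Cor.PrimeLevel

/-!
# The Hecke algebra of level 23

Let `T` be the Hecke algebra of weight two and level `23`, `f` one of the two normalised eigenforms and
`K = ℚ(√5)` its field of coefficients.

* `exists_int`: `T = ℤ + ℤ T₂`;
* `heckeEquiv`: `T` is isomorphic to the ring of integers of `K`.

This file is not used by any of the statement files.
-/

set_option autoImplicit false

namespace Fermat.Agent.Cor.HeckeRing23

open ModularCurve ModularFormClass CongruenceSubgroup Shimura

/-- `p + q a`, `a² + a - 1 = 0`, is integral only for integers `p`, `q` -/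
theorem int_of_trace_norm {p q : ℚ} {m n : ℤ} (h1 : 2 * p - q = m) (h2 : p ^ 2 - p * q - q ^ 2 = n) :
    ∃ r s : ℤ, p = r ∧ q = s := by
  -- `5 q² = m² - 4 n`
  have h3 : 5 * q ^ 2 = ((m ^ 2 - 4 * n : ℤ) : ℚ) := by
    push_cast
    rw [← h1, ← h2]
    ring
  have h4 : IsIntegral ℤ (5 * q) := by
    refine IsIntegral.of_pow (n := 2) (by norm_num) ?_
    have : (5 * q) ^ 2 = ((5 * (m ^ 2 - 4 * n) : ℤ) : ℚ) := by
      push_cast
      push_cast at h3
      rw [mul_pow, ← h3]
      ring
    rw [this]
    exact isIntegral_algebraMap (R := ℤ) (x := 5 * (m ^ 2 - 4 * n))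
  obtain ⟨s, hs⟩ := IsIntegrallyClosed.isIntegral_iff.mp h4
  have hs' : 5 * q = s := by rw [← hs]; simp
  have h5 : (s ^ 2 : ℤ) = 5 * (m ^ 2 - 4 * n) := by
    have : ((s ^ 2 : ℤ) : ℚ) = ((5 * (m ^ 2 - 4 * n) : ℤ) : ℚ) := by
      push_cast
      push_cast at h3
      rw [← hs', mul_pow, ← h3]
      ring
    exact_mod_cast this
  have h6 : (5 : ℤ) ∣ s := by
    have : (5 : ℤ) ∣ s ^ 2 := ⟨_, h5⟩
    exact Int.Prime.dvd_pow' (by norm_num) this
  obtain ⟨t, ht⟩ := h6
  have hq : q = t := by
    rw [ht] at hs'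
    push_cast at hs'
    linarith
  have h7 : m ^ 2 - 5 * t ^ 2 = 4 * n := by
    rw [ht] at h5
    nlinarith
  have h8 : (2 : ℤ) ∣ m + t := by
    have h9 : (m + t) % 2 = 0 := by
      have e1 : (m ^ 2 - 5 * t ^ 2) % 2 = 0 := by omega
      rcases Int.emod_two_eq_zero_or_one m with hm | hm <;>
        rcases Int.emod_two_eq_zero_or_one t with ht' | ht' <;>
        simp [pow_two, Int.sub_emod, Int.mul_emod, hm, ht'] at e1 <;> omega
    exact Int.dvd_of_emod_eq_zero h9
  obtain ⟨r, hr⟩ := h8
  refine ⟨r, t, ?_, hq⟩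
  have h10 : (m : ℚ) + t = 2 * r := by exact_mod_cast hr
  rw [hq] at h1
  linarith

variable {f : CuspForm (Gamma0 23) 2} (hf : f.IsNormalizedEigenform)

/-- the Hecke algebra of level `23` -/
abbrev T23 := CuspForm.heckeAlgebra 23 2 ∅

/-- the Hecke operator `T₂` -/
noncomputable def T2 : T23 :=
  CuspForm.heckeAlgebra.T (ℓ := 2) (by norm_num) (by norm_num) (Set.notMem_empty _)

/-- the eigenvalue `a₂` in the field of coefficients -/
noncomputable def a2 (f : CuspForm (Gamma0 23) 2) : coeffField f := ⟨qCoeff f 2, qCoeff_mem f 2⟩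

include hf in
theorem a2_sq : a2 f ^ 2 + a2 f - 1 = 0 := Subtype.ext (Level23.coeff_two hf)

include hf in
theorem a2_ne (q : ℚ) : a2 f ≠ q := by
  intro h
  have h1 : qCoeff f 2 = q := by
    have := congrArg Subtype.val h
    simpa [a2] using this
  have h4 : IsIntegral ℤ q := by
    have := isIntegral_qCoeff hf 2
    rw [h1] at this
    have h5 : ((q : ℚ) : ℂ) = algebraMap ℚ ℂ q := by simp
    rw [h5] at this
    exact (isIntegral_algebraMap_iff (algebraMap ℚ ℂ).injective).mp this
  obtain ⟨z, hz⟩ := IsIntegrallyClosed.isIntegral_iff.mp h4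
  refine Conductor23.coeff_two_ne_23 hf z ?_
  rw [h1, ← hz]
  simp

include hf in
/-- `K = ℚ + ℚ a₂` -/
theorem exists_rat (x : coeffField f) : ∃ p q : ℚ, x = (p : coeffField f) + q * a2 f := by
  have hfd := finiteDimensional hf
  have hli : LinearIndependent ℚ ![(1 : coeffField f), a2 f] := by
    rw [LinearIndependent.pair_iff]
    intro s t h
    have ht : t = 0 := by
      by_contra ht
      refine a2_ne hf (-s / t) ?_
      have ht' : (t : coeffField f) ≠ 0 := by exact_mod_cast ht
      push_cast
      rw [eq_div_iff ht']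
      have h' : (s : coeffField f) + t * a2 f = 0 := by
        rw [← h, Algebra.smul_def, Algebra.smul_def]
        simp
      linear_combination h'
    subst ht
    refine ⟨?_, rfl⟩
    rw [zero_smul, add_zero, Algebra.smul_def, mul_one] at h
    exact (map_eq_zero _).mp h
  have hsp := hli.span_eq_top_of_card_eq_finrank'
    (by rw [Fintype.card_fin, Level23.finrank_coeffField hf])
  have hx : x ∈ Submodule.span ℚ (Set.range ![(1 : coeffField f), a2 f]) := by
    rw [hsp]; trivial
  rw [Matrix.range_cons, Matrix.range_cons, Matrix.range_empty, Set.union_empty,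
    Set.singleton_union, Submodule.mem_span_pair] at hx
  obtain ⟨p, q, h⟩ := hx
  refine ⟨p, q, ?_⟩
  rw [← h, Algebra.smul_def, Algebra.smul_def]
  simp

include hf in
/-- an embedding of `K` is determined by the image of `a₂` -/
theorem embedding_ext' {τ τ' : coeffField f →+* ℂ} (h : τ (a2 f) = τ' (a2 f)) : τ = τ' := by
  ext x
  obtain ⟨p, q, rfl⟩ := exists_rat hf x
  rw [map_add, map_add, map_mul, map_mul, h, map_ratCast, map_ratCast, map_ratCast, map_ratCast]

include hf in
theorem card_embeddings : Nat.card (coeffField f →+* ℂ) = 2 := by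
  have hnf : NumberField (coeffField f) :=
    { to_charZero := inferInstance, to_finiteDimensional := finiteDimensional hf }
  rw [Nat.card_eq_fintype_card, NumberField.Embeddings.card, Level23.finrank_coeffField hf]

include hf in
/-- the second embedding -/
theorem exists_tau : ∃ τ : coeffField f →+* ℂ, τ (a2 f) = -1 - qCoeff f 2 := by
  have hnf : NumberField (coeffField f) :=
    { to_charZero := inferInstance, to_finiteDimensional := finiteDimensional hf }
  have h1 := card_embeddings hf
  rw [Nat.card_eq_fintype_card] at h1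
  have hnt : Nontrivial (coeffField f →+* ℂ) := by
    rw [← Fintype.one_lt_card_iff_nontrivial, h1]
    norm_num
  obtain ⟨τ, hτ⟩ := exists_ne ((coeffField f).val : coeffField f →+* ℂ)
  refine ⟨τ, ?_⟩
  have h2 := congrArg τ (a2_sq hf)
  rw [map_sub, map_add, map_pow, map_one, map_zero] at h2
  have h3 := Level23.coeff_two hf
  have h4 : (τ (a2 f) - qCoeff f 2) * (τ (a2 f) - (-1 - qCoeff f 2)) = 0 := by
    linear_combination h2 - h3
  rcases mul_eq_zero.mp h4 with h5 | h5
  · exact absurd (embedding_ext' hf (sub_eq_zero.mp h5)) hτ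
  · exact sub_eq_zero.mp h5

include hf in
/-- **The integers of `K`**: `𝓞 = ℤ + ℤ a₂` -/
theorem exists_int_of_isIntegral {x : coeffField f} (hx : IsIntegral ℤ x) :
    ∃ m n : ℤ, x = (m : coeffField f) + n * a2 f := by
  obtain ⟨p, q, rfl⟩ := exists_rat hf x
  obtain ⟨τ, hτ⟩ := exists_tau hf
  have e1 : (((p : coeffField f) + q * a2 f : coeffField f) : ℂ) = p + q * qCoeff f 2 := by
    simp [a2]
  have e2 : τ ((p : coeffField f) + q * a2 f) = p + q * (-1 - qCoeff f 2) := by
    rw [map_add, map_mul, hτ, map_ratCast, map_ratCast]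
  have i1 : IsIntegral ℤ ((p : ℂ) + q * qCoeff f 2) := by
    rw [← e1]
    exact hx.map ((coeffField f).val.restrictScalars ℤ)
  have i2 : IsIntegral ℤ ((p : ℂ) + q * (-1 - qCoeff f 2)) := by
    rw [← e2]
    exact hx.map τ.toIntAlgHom
  have key : ∀ r : ℚ, IsIntegral ℤ (r : ℂ) → ∃ z : ℤ, r = z := by
    intro r hr
    have h5 : ((r : ℚ) : ℂ) = algebraMap ℚ ℂ r := by simp
    rw [h5] at hr
    obtain ⟨z, hz⟩ := IsIntegrallyClosed.isIntegral_iff.mp
      ((isIntegral_algebraMap_iff (algebraMap ℚ ℂ).injective).mp hr)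
    exact ⟨z, by rw [← hz]; simp⟩
  obtain ⟨m, hm⟩ := key (2 * p - q) (by
    have : ((2 * p - q : ℚ) : ℂ) = ((p : ℂ) + q * qCoeff f 2) + (p + q * (-1 - qCoeff f 2)) := by
      push_cast
      ring
    rw [this]
    exact i1.add i2)
  obtain ⟨n, hn⟩ := key (p ^ 2 - p * q - q ^ 2) (by
    have : ((p ^ 2 - p * q - q ^ 2 : ℚ) : ℂ) =
        ((p : ℂ) + q * qCoeff f 2) * (p + q * (-1 - qCoeff f 2)) := by
      push_cast
      linear_combination (q : ℂ) ^ 2 * Level23.coeff_two hf
    rw [this]
    exact i1.mul i2)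
  obtain ⟨r, s, hr, hs⟩ := int_of_trace_norm hm hn
  refine ⟨r, s, ?_⟩
  rw [hr, hs]
  push_cast
  ring

/-- the character of `f` with values in `K` -/
noncomputable def chiK : T23 →+* coeffField f :=
  (H23.eigenCharC hf ∅).codRestrict (coeffField f).toSubfield
    (fun t => eigenCharC_mem hf (qCoeff_mem f) t)

theorem chiK_coe (t : T23) : (chiK hf t : ℂ) = H23.eigenCharC hf ∅ t := rfl

theorem chiK_T2 : chiK hf T2 = a2 f := Subtype.ext (H23.eigenCharC_T hf _ _ _)

/-- the character is injective -/
theorem chiK_injective : Function.Injective (chiK hf) := by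
  have hp : Fact (Nat.Prime 23) := ⟨by norm_num⟩
  have hnf : NumberField (coeffField f) :=
    { to_charZero := inferInstance, to_finiteDimensional := finiteDimensional hf }
  -- every character of the Hecke algebra factors through `chiK`
  have h1 : Function.Injective (fun τ : coeffField f →+* ℂ => τ.comp (chiK hf)) := by
    intro τ τ' h
    refine embedding_ext' hf ?_
    have := DFunLike.congr_fun h T2
    rwa [RingHom.comp_apply, RingHom.comp_apply, chiK_T2] at this
  have h2 : Nat.card (T23 →+* ℂ) = 2 := by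
    have := PrimeLevel.card_hom (N := 23)
    rw [Conductor23.genus_twentythree] at this
    exact_mod_cast this
  have hfin : Finite (T23 →+* ℂ) := Nat.finite_of_card_ne_zero (by rw [h2]; norm_num)
  have hfin' : Fintype (T23 →+* ℂ) := Fintype.ofFinite _
  have h3 : Function.Surjective (fun τ : coeffField f →+* ℂ => τ.comp (chiK hf)) := by
    refine ((Fintype.bijective_iff_injective_and_card _).mpr ⟨h1, ?_⟩).2
    rw [← Nat.card_eq_fintype_card, ← Nat.card_eq_fintype_card, card_embeddings hf, h2]
  rw [injective_iff_map_eq_zero]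
  intro t ht
  refine PrimeLevel.eq_zero_of_forall t fun g hg => ?_
  obtain ⟨τ, hτ⟩ := h3 (H23.eigenCharC hg ∅)
  have h4 := DFunLike.congr_fun hτ t
  rw [← h4]
  change τ (chiK hf t) = 0
  rw [ht, map_zero]

include hf in
/-- **The Hecke algebra of level `23`** is `ℤ + ℤ T₂`. -/
theorem exists_int (t : T23) : ∃ m n : ℤ, t = (m : T23) + n * T2 := by
  have h1 : IsIntegral ℤ (chiK hf t) := by
    have h2 := H23.isIntegral_eigenCharC hf ∅ t
    rw [← chiK_coe] at h2
    exact (isIntegral_algHom_iff ((coeffField f).val.restrictScalars ℤ)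
      Subtype.val_injective).mp h2
  obtain ⟨m, n, h⟩ := exists_int_of_isIntegral hf h1
  refine ⟨m, n, chiK_injective hf ?_⟩
  rw [h, map_add, map_mul, chiK_T2, map_intCast, map_intCast]

/-- the relation satisfied by `T₂` -/
theorem T2_sq : T2 ^ 2 + T2 - 1 = 0 := by
  obtain ⟨f, hf⟩ := Level23.exists_eigenform
  apply chiK_injective hf
  rw [map_sub, map_add, map_pow, map_one, map_zero, chiK_T2, a2_sq hf]

/-- **The Hecke algebra of level `23` is isomorphic to the ring of integers of `K = ℚ(√5)`.** -/
noncomputable def heckeEquiv : T23 ≃+* NumberField.RingOfIntegers (coeffField f) :=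
  RingEquiv.ofBijective
    ((chiK hf).codRestrict (integralClosure ℤ (coeffField f)).toSubring (fun t => by
      have h2 := H23.isIntegral_eigenCharC hf ∅ t
      rw [← chiK_coe] at h2
      exact (isIntegral_algHom_iff ((coeffField f).val.restrictScalars ℤ)
        Subtype.val_injective).mp h2))
    ⟨fun s t h => chiK_injective hf (congrArg Subtype.val h), fun x => by
      obtain ⟨m, n, h⟩ := exists_int_of_isIntegral hf (x := (x : coeffField f)) x.2
      refine ⟨(m : T23) + n * T2, Subtype.ext ?_⟩
      change chiK hf ((m : T23) + n * T2) = _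
      rw [map_add, map_mul, chiK_T2, map_intCast, map_intCast]
      exact h.symm⟩

end Fermat.Agent.Cor.HeckeRing23
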