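import Fermat.Agent.Cor.HeckeStructure
import Fermat.Agent.Cor.HeckeRing23

/-!
# The minimal primes of the Hecke algebra

Let `T` be the Hecke algebra of weight two and level `N` (generated by all `T_ℓ` and `U_ℓ`).

* `exists_conj_of_ker`: two ring homomorphisms with the same kernel from a commutative ring into an algebraic closure
  of `ℚ` are conjugate;
* `ker_eq_iff`: the characters of two normalised eigenforms of level `N` have the same kernel if and only if the
  eigenforms are conjugate;
* `minimalPrimes_eq`, `primeOf_bijective`: the minimal primes of `T` are the kernels of the characters of the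
  normalised eigenforms, and correspond to the conjugacy classes of eigenforms;
* `isDomain_iff`, `finrank_eq_of_isDomain`: for prime `N` the ring `T` is a domain if and only if all normalised
  eigenforms are conjugate, and then `[K_f : ℚ]` is the genus of `X₀(N)`;
* `card_orb_23`: this happens for `N = 23`.

This file is not used by any of the statement files.
-/

set_option autoImplicit false

noncomputable section

namespace Fermat.Agent.Cor.HeckeSpec

open ModularCurve ModularFormClass CongruenceSubgroup Shimura HeckeStructure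

/-! ### Algebra -/

section Algebra

theorem ext_aux {K L L' : Type*} [Field K] [Field L] [Field L'] [CharZero L] [CharZero L']
    [CharZero K] [IsAlgClosure ℚ L] [IsAlgClosure ℚ L']
    (i : K →+* L) (i' : K →+* L') : ∃ σ : L ≃+* L', ∀ x, σ (i x) = i' x := by
  let _ : Algebra K L := i.toAlgebra
  let _ : Algebra K L' := i'.toAlgebra
  have h1 : IsScalarTower ℚ K L := IsScalarTower.of_algebraMap_eq fun x => by simp
  have h2 : IsScalarTower ℚ K L' := IsScalarTower.of_algebraMap_eq fun x => by simp
  have h3 : IsAlgClosed L := IsAlgClosure.isAlgClosed ℚ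
  have h4 : IsAlgClosed L' := IsAlgClosure.isAlgClosed ℚ
  have h5 : Algebra.IsAlgebraic ℚ L := IsAlgClosure.isAlgebraic
  have h6 : Algebra.IsAlgebraic ℚ L' := IsAlgClosure.isAlgebraic
  have h7 : Algebra.IsAlgebraic K L := Algebra.IsAlgebraic.tower_top K (K := ℚ)
  have h8 : Algebra.IsAlgebraic K L' := Algebra.IsAlgebraic.tower_top K (K := ℚ)
  have h9 : IsAlgClosure K L := ⟨h3, h7⟩
  have h10 : IsAlgClosure K L' := ⟨h4, h8⟩
  exact ⟨(IsAlgClosure.equiv K L L').toRingEquiv, fun x => (IsAlgClosure.equiv K L L').commutes x⟩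

/-- **Two ring homomorphisms with the same kernel into an algebraic closure of `ℚ` are conjugate.** -/
theorem exists_conj_of_ker {A L : Type*} [CommRing A] [Field L] [CharZero L] [IsAlgClosure ℚ L]
    (χ χ' : A →+* L) (h : RingHom.ker χ = RingHom.ker χ') :
    ∃ σ : L ≃ₐ[ℚ] L, ∀ a, χ' a = σ (χ a) := by
  let P := RingHom.ker χ
  have hP : P.IsPrime := RingHom.ker_isPrime χ
  let j : A ⧸ P →+* L := Ideal.Quotient.lift P χ fun a ha => ha
  let j' : A ⧸ P →+* L := Ideal.Quotient.lift P χ' fun a ha => by
    have h1 : a ∈ RingHom.ker χ' := h ▸ ha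
    exact h1
  have hj : Function.Injective j := RingHom.lift_injective_of_ker_le_ideal P _ le_rfl
  have hj' : Function.Injective j' := RingHom.lift_injective_of_ker_le_ideal P _ h.ge
  let i : FractionRing (A ⧸ P) →+* L := IsFractionRing.lift hj
  let i' : FractionRing (A ⧸ P) →+* L := IsFractionRing.lift hj'
  have hc : CharZero (FractionRing (A ⧸ P)) := i.charZero_iff i.injective |>.mpr inferInstance
  obtain ⟨σ, hσ⟩ := ext_aux i i'
  refine ⟨AlgEquiv.ofRingEquiv (f := σ) fun x => by simp, fun a => ?_⟩
  have h1 := hσ (algebraMap (A ⧸ P) _ (Ideal.Quotient.mk P a))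
  have h2 : i (algebraMap (A ⧸ P) _ (Ideal.Quotient.mk P a)) = χ a :=
    (IsFractionRing.lift_algebraMap hj _).trans (Ideal.Quotient.lift_mk P χ _)
  have h3 : i' (algebraMap (A ⧸ P) _ (Ideal.Quotient.mk P a)) = χ' a :=
    (IsFractionRing.lift_algebraMap hj' _).trans (Ideal.Quotient.lift_mk P χ' _)
  rw [h2, h3] at h1
  exact h1.symm

/-- the kernel of a ring homomorphism from an integral ring to a field of characteristic zero is a minimal prime -/
theorem ker_mem_minimalPrimes {A L : Type*} [CommRing A] [Algebra.IsIntegral ℤ A] [Field L]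
    [CharZero L] (χ : A →+* L) : RingHom.ker χ ∈ minimalPrimes A := by
  have hP := RingHom.ker_isPrime χ
  refine ⟨⟨hP, bot_le⟩, fun Q hQ hle x hx => ?_⟩
  by_contra hxQ
  have hQ' : Q.IsPrime := hQ.1
  have h1 := Ideal.comap_lt_comap_of_integral_mem_sdiff (R := ℤ) hle ⟨hx, hxQ⟩
    (Algebra.IsIntegral.isIntegral x)
  have h2 : Ideal.comap (algebraMap ℤ A) (RingHom.ker χ) = ⊥ := by
    rw [RingHom.comap_ker, ← RingHom.injective_iff_ker_eq_bot]
    exact (RingHom.injective_int (χ.comp (algebraMap ℤ A)))
  rw [h2] at h1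
  exact not_lt_bot h1

/-- a domain of characteristic zero which is integral over `ℤ` embeds into each algebraically closed field of
characteristic zero -/
theorem exists_embedding (B K L : Type*) [CommRing B] [IsDomain B] [CharZero B]
    [Algebra.IsIntegral ℤ B] [Field K] [Algebra B K] [IsFractionRing B K] [Field L] [CharZero L]
    [IsAlgClosed L] : ∃ i : B →+* L, Function.Injective i := by
  have hBK : Function.Injective (algebraMap B K) := IsFractionRing.injective B K
  have hcK : CharZero K := charZero_of_injective_algebraMap hBK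
  have h3 : Algebra.IsAlgebraic B K := IsLocalization.isAlgebraic _ (nonZeroDivisors B)
  have h1 : Algebra.IsAlgebraic ℤ K := Algebra.IsAlgebraic.trans ℤ B K
  have h4 : Algebra.IsAlgebraic ℚ K := (IsFractionRing.comap_isAlgebraic_iff (A := ℤ) (K := ℚ)).mp h1
  let i : K →ₐ[ℚ] L := IsAlgClosed.lift
  exact ⟨i.toRingHom.comp (algebraMap B K), i.toRingHom.injective.comp hBK⟩

/-- a minimal prime of a torsion free integral ring is the kernel of a complex character -/
theorem exists_char_of_minimal {A L : Type*} [CommRing A] [Algebra.IsIntegral ℤ A]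
    [Module.IsTorsionFree ℤ A] [Field L] [CharZero L] [IsAlgClosed L] {P : Ideal A}
    (hP : P ∈ minimalPrimes A) : ∃ χ : A →+* L, RingHom.ker χ = P := by
  have hp : P.IsPrime := hP.1.1
  have hc : CharZero (A ⧸ P) := by
    refine charZero_of_injective_algebraMap (R := ℤ) ?_
    rw [injective_iff_map_eq_zero]
    intro n hn
    by_contra hn0
    have h1 : ((n : ℤ) : A) ∈ P := by
      rw [← Ideal.Quotient.eq_zero_iff_mem, map_intCast]
      simpa using hn
    refine Set.disjoint_left.mp (Ideal.disjoint_nonZeroDivisors_of_mem_minimalPrimes hP) h1 ?_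
    rw [SetLike.mem_coe, mem_nonZeroDivisors_iff_right]
    intro x hx
    have h2 : n • x = 0 := by
      rw [zsmul_eq_mul, mul_comm]
      exact hx
    exact (smul_eq_zero_iff_right hn0).mp h2
  have hI : @Algebra.IsIntegral ℤ (A ⧸ P) _ _ (Ring.toIntAlgebra (A ⧸ P)) := by
    refine @Algebra.IsIntegral.mk ℤ (A ⧸ P) _ _ (Ring.toIntAlgebra (A ⧸ P)) fun x => ?_
    obtain ⟨a, rfl⟩ := Ideal.Quotient.mk_surjective x
    exact (Algebra.IsIntegral.isIntegral (R := ℤ) a).map (Ideal.Quotient.mk P).toIntAlgHom
  obtain ⟨i, hi⟩ := exists_embedding (A ⧸ P) (FractionRing (A ⧸ P)) L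
  refine ⟨i.comp (Ideal.Quotient.mk P), ?_⟩
  rw [← RingHom.comap_ker, (RingHom.injective_iff_ker_eq_bot _).mp hi, ← RingHom.ker_eq_comap_bot,
    Ideal.mk_ker]

end Algebra

section Hecke

variable (N : ℕ) [NeZero N]

instance finite_heckeAlgebra : Module.Finite ℤ (CuspForm.heckeAlgebra N 2 ∅) := by
  let e : CuspForm.heckeAlgebra N 2 ∅ ≃+* CuspForm.heckeLatticeAlgebra N ∅ :=
    RingEquiv.ofBijective (CuspForm.latticeRestrictHom N ∅)
      (CuspForm.latticeRestrictHom_bijective N ∅ (S23.result N))
  have h1 : Module.Finite ℤ (CuspForm.heckeLatticeAlgebra N ∅) := inferInstance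
  exact Module.Finite.equiv e.symm.toAddEquiv.toIntLinearEquiv

instance : Algebra.IsIntegral ℤ (CuspForm.heckeAlgebra N 2 ∅) := inferInstance

instance : Module.IsTorsionFree ℤ (CuspForm.heckeAlgebra N 2 ∅) := inferInstance

variable {N}

/-- the character of an eigenform with values in the field of algebraic numbers -/
def chiQ (f : EF N) : CuspForm.heckeAlgebra N 2 ∅ →+* QA :=
  (H23.eigenCharC f.2 ∅).codRestrict QA.toSubfield
    (fun t => eigenCharC_mem f.2 (qCoeff_mem_QA f.2) t)

theorem chiQ_coe (f : EF N) (t : CuspForm.heckeAlgebra N 2 ∅) :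
    ((chiQ f t : QA) : ℂ) = H23.eigenCharC f.2 ∅ t := rfl

theorem ker_chiQ (f : EF N) : RingHom.ker (chiQ f) = RingHom.ker (H23.eigenCharC f.2 ∅) := by
  ext t
  rw [RingHom.mem_ker, RingHom.mem_ker, ← chiQ_coe]
  exact ZeroMemClass.coe_eq_zero.symm

/-- the character of a conjugate eigenform -/
theorem char_smul (σ : GA) (f : EF N) (t : CuspForm.heckeAlgebra N 2 ∅) :
    chiQ (σ • f) t = σ (chiQ f t) :=
  Subtype.ext (char_conj (f := f) (g := σ • f) (τ := res f σ) (fun n => res_apply f σ n) t)

theorem chiQ_injective {f g : EF N} (h : ∀ t, chiQ f t = chiQ g t) : f = g := by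
  apply (Duality.eigenformEquiv N).injective
  exact RingHom.ext fun t => congrArg Subtype.val (h t)

/-- **The characters of two eigenforms have the same kernel if and only if the eigenforms are conjugate.** -/
theorem ker_eq_iff (f g : EF N) :
    RingHom.ker (H23.eigenCharC f.2 ∅) = RingHom.ker (H23.eigenCharC g.2 ∅) ↔
      g ∈ MulAction.orbit GA f := by
  have hQ : IsAlgClosure ℚ QA := algebraicClosure.isAlgClosure ℚ ℂ
  rw [← ker_chiQ, ← ker_chiQ]
  constructor
  · intro h
    obtain ⟨σ, hσ⟩ := exists_conj_of_ker (chiQ f) (chiQ g) h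
    exact ⟨σ, chiQ_injective fun t => (char_smul σ f t).trans (hσ t).symm⟩
  · rintro ⟨σ, rfl⟩
    ext t
    rw [RingHom.mem_ker, RingHom.mem_ker]
    change _ ↔ chiQ (σ • f) t = 0
    rw [char_smul]
    exact (map_eq_zero σ).symm

/-- **The minimal primes of the Hecke algebra are the kernels of the characters of the eigenforms.** -/
theorem minimalPrimes_eq : minimalPrimes (CuspForm.heckeAlgebra N 2 ∅) =
    Set.range fun f : EF N => RingHom.ker (H23.eigenCharC f.2 ∅) := by
  ext P
  constructor
  · intro hP
    obtain ⟨χ, hχ⟩ := exists_char_of_minimal (L := ℂ) hP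
    obtain ⟨f, hf⟩ := (Duality.eigenformEquiv N).surjective χ
    refine ⟨f, ?_⟩
    rw [← hχ, ← hf]
    rfl
  · rintro ⟨f, rfl⟩
    exact ker_mem_minimalPrimes _

/-- the minimal prime attached to an orbit -/
def primeOf : Orb N → minimalPrimes (CuspForm.heckeAlgebra N 2 ∅) :=
  Quotient.lift (fun f : EF N => (⟨RingHom.ker (H23.eigenCharC f.2 ∅), ker_mem_minimalPrimes _⟩ :
    minimalPrimes (CuspForm.heckeAlgebra N 2 ∅))) fun f g h => Subtype.ext
      ((ker_eq_iff g f).mpr (MulAction.orbitRel_apply.mp h)).symm

/-- **The Galois orbits of eigenforms correspond to the minimal primes of the Hecke algebra.** -/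
theorem primeOf_bijective : Function.Bijective (primeOf (N := N)) := by
  constructor
  · intro ω ω' h
    induction ω using Quotient.inductionOn with | h f =>
    induction ω' using Quotient.inductionOn with | h g =>
    exact (Quotient.sound (MulAction.orbitRel_apply.mpr
      ((ker_eq_iff f g).mp (congrArg Subtype.val h)))).symm
  · rintro ⟨P, hP⟩
    rw [minimalPrimes_eq] at hP
    obtain ⟨f, rfl⟩ := hP
    exact ⟨Quotient.mk'' f, rfl⟩

variable (N)

/-- the number of minimal primes is the number of Galois orbits -/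
theorem card_minimalPrimes :
    Nat.card (minimalPrimes (CuspForm.heckeAlgebra N 2 ∅)) = Nat.card (Orb N) :=
  (Nat.card_congr (Equiv.ofBijective _ (primeOf_bijective (N := N)))).symm

end Hecke

section Prime

variable (N : ℕ) [hN : Fact N.Prime]

/-- **The Hecke algebra of prime level is a domain if and only if the eigenforms form one orbit.** -/
theorem isDomain_iff : IsDomain (CuspForm.heckeAlgebra N 2 ∅) ↔ Nat.card (Orb N) = 1 := by
  rw [← card_minimalPrimes]
  constructor
  · intro h
    rw [IsDomain.minimalPrimes_eq_singleton_bot]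
    exact Nat.card_unique
  · intro h
    rw [card_minimalPrimes, Nat.card_eq_one_iff_unique] at h
    obtain ⟨h1, ⟨ω⟩⟩ := h
    refine Function.Injective.isDomain (chi ω.out) ?_
    rw [injective_iff_map_eq_zero]
    intro t ht
    refine (injective_iff_map_eq_zero _).mp (Phi_injective N) t ?_
    funext ω'
    rw [Subsingleton.elim ω' ω]
    exact ht

/-- **If the Hecke algebra of prime level is a domain, the degree of the field of coefficients is the genus.** -/
theorem finrank_eq_of_isDomain (h : IsDomain (CuspForm.heckeAlgebra N 2 ∅)) (f : EF N) :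
    (Module.finrank ℚ (coeffField f.1) : ℚ) = genusFormula N := by
  have h1 := (isDomain_iff N).mp h
  rw [Nat.card_eq_one_iff_unique] at h1
  rw [← PrimeLevel.card_eigenforms, ← card_orbit]
  congr 1
  refine Nat.card_congr ((Equiv.setCongr ?_).trans (Equiv.Set.univ _))
  refine Set.eq_univ_of_forall fun g => ?_
  have h2 : (Quotient.mk'' g : Orb N) = Quotient.mk'' f := h1.1.elim _ _
  exact MulAction.orbitRel_apply.mp (Quotient.exact' h2)

/-- **All normalised eigenforms of level `23` are conjugate.** -/
theorem card_orb_23 : Nat.card (Orb 23) = 1 := by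
  have : Fact (Nat.Prime 23) := ⟨by norm_num⟩
  obtain ⟨f, hf⟩ := Level23.exists_eigenform
  exact (isDomain_iff 23).mp
    ((HeckeRing23.heckeEquiv hf).toMulEquiv.isDomain _)

end Prime

end Fermat.Agent.Cor.HeckeSpec
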