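import Fermat.Agent.Cor.PrimeLevel

/-!
# The structure of the Hecke algebra of prime level

Let `T` be the Hecke algebra of weight two and level `N` (generated by all `T_ℓ` and `U_ℓ`).

* `co_smul`: the group of automorphisms of the field of algebraic numbers acts on the normalised eigenforms
  of level `N` through their coefficients (Shimura);
* `exists_equiv`, `card_orbit`: the conjugates of a normalised eigenform `f` correspond to the embeddings of its
  field of coefficients `K_f` into `ℂ`, so there are `[K_f : ℚ]` of them;
* `sum_finrank`: the degrees `[K_f : ℚ]`, for `f` running through representatives of the orbits, add up to the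
  number of normalised eigenforms;
* `chi`: the eigenvalues give a ring homomorphism `T → O_f` to the ring of integers of `K_f`;
* `Phi_injective`, `finite_quotient`, `exists_smul_eq`: for prime `N` the ring `T` embeds with finite index into the
  product of the rings `O_f`, one for each orbit of eigenforms; so `T` is an order in the product of the `K_f`.

This file is not used by any of the statement files.
-/

set_option autoImplicit false

noncomputable section

namespace Fermat.Agent.Cor.HeckeStructure

open ModularCurve ModularFormClass CongruenceSubgroup Shimura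

/-! ### The Galois action on the eigenforms -/

section Action

variable (N : ℕ) [NeZero N]

/-- the set of normalised eigenforms of level `N` -/
abbrev EF := {f : CuspForm (Gamma0 N) 2 // f.IsNormalizedEigenform}

/-- the automorphism group of the field of algebraic numbers -/
abbrev GA := QA ≃ₐ[ℚ] QA

variable {N}

/-- the coefficients as algebraic numbers -/
def co (f : EF N) (n : ℕ) : QA := ⟨qCoeff f.1 n, qCoeff_mem_QA f.2 n⟩

theorem ext_co {f g : EF N} (h : ∀ n, co f n = co g n) : f = g :=
  Subtype.ext (H23.eq_of_qCoeff_eq fun n => congrArg Subtype.val (h n))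

theorem exists_smul (σ : GA) (f : EF N) : ∃ g : EF N, ∀ n, co g n = σ (co f n) := by
  obtain ⟨g, hg, h⟩ := exists_conj f.2 (K := QA) (qCoeff_mem_QA f.2)
    (QA.val.toRingHom.comp (σ : QA →+* QA))
  exact ⟨⟨g, hg⟩, fun n => Subtype.ext (h n)⟩

instance : SMul GA (EF N) := ⟨fun σ f => (exists_smul σ f).choose⟩

theorem co_smul (σ : GA) (f : EF N) (n : ℕ) : co (σ • f) n = σ (co f n) :=
  (exists_smul σ f).choose_spec n

/-- **The Galois action on the normalised eigenforms** -/
instance : MulAction GA (EF N) where
  one_smul f := ext_co fun n => by rw [co_smul]; rfl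
  mul_smul σ τ f := ext_co fun n => by rw [co_smul, co_smul, co_smul]; rfl

/-- the restriction of an automorphism to the field of coefficients -/
def res (f : EF N) (σ : GA) : coeffField f.1 →+* ℂ :=
  (QA.val.toRingHom.comp (σ : QA →+* QA)).comp
    (IntermediateField.inclusion (coeffField_le f.2)).toRingHom

theorem res_apply (f : EF N) (σ : GA) (n : ℕ) :
    res f σ ⟨qCoeff f.1 n, qCoeff_mem f.1 n⟩ = qCoeff (σ • f).1 n :=
  (congrArg Subtype.val (co_smul σ f n)).symm

/-- **The orbit of `f` corresponds to the embeddings of its field of coefficients.** -/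
theorem exists_equiv (f : EF N) : ∃ e : MulAction.orbit GA f ≃ (coeffField f.1 →+* ℂ),
    ∀ (g : MulAction.orbit GA f) (n : ℕ),
      e g ⟨qCoeff f.1 n, qCoeff_mem f.1 n⟩ = qCoeff g.1.1 n := by
  have h1 : ∀ g : MulAction.orbit GA f, ∃ τ : coeffField f.1 →+* ℂ,
      ∀ n, τ ⟨qCoeff f.1 n, qCoeff_mem f.1 n⟩ = qCoeff g.1.1 n := by
    rintro ⟨_, σ, rfl⟩
    exact ⟨res f σ, fun n => res_apply f σ n⟩
  choose F hF using h1
  refine ⟨Equiv.ofBijective F ⟨fun g g' h => ?_, fun τ => ?_⟩, hF⟩
  · apply Subtype.ext
    refine ext_co fun n => Subtype.ext ?_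
    change qCoeff g.1.1 n = qCoeff g'.1.1 n
    rw [← hF, ← hF, h]
  · obtain ⟨σ, hσ⟩ := exists_extension (coeffField_le f.2) τ
    refine ⟨⟨σ • f, σ, rfl⟩, embedding_ext fun n => ?_⟩
    rw [hF, ← hσ]
    exact congrArg Subtype.val (co_smul σ f n)

/-- the size of the orbit is the degree of the field of coefficients -/
theorem card_orbit (f : EF N) :
    Nat.card (MulAction.orbit GA f) = Module.finrank ℚ (coeffField f.1) := by
  obtain ⟨e, -⟩ := exists_equiv f
  have hnf : NumberField (coeffField f.1) :=
    { to_charZero := inferInstance, to_finiteDimensional := finiteDimensional f.2 }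
  rw [Nat.card_congr e, Nat.card_eq_fintype_card, NumberField.Embeddings.card]

end Action

section Char

variable {N : ℕ} [NeZero N]

instance (f : EF N) : NumberField (coeffField f.1) :=
  { to_charZero := inferInstance, to_finiteDimensional := finiteDimensional f.2 }

/-- the Galois orbits of normalised eigenforms -/
abbrev Orb (N : ℕ) [NeZero N] := MulAction.orbitRel.Quotient GA (EF N)

instance : Fintype (Orb N) := Fintype.ofFinite _

/-- **The degrees of the fields of coefficients of representatives of the Galois orbits** add up to the number of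
normalised eigenforms. -/
theorem sum_finrank : ∑ ω : Orb N, Module.finrank ℚ (coeffField ω.out.1) = Nat.card (EF N) := by
  rw [Nat.card_congr (MulAction.selfEquivSigmaOrbits GA (EF N)), Nat.card_sigma]
  exact Finset.sum_congr rfl fun ω _ => (card_orbit ω.out).symm

/-- the character of an eigenform with values in the integers of its field of coefficients -/
def chi (f : EF N) : CuspForm.heckeAlgebra N 2 ∅ →+* NumberField.RingOfIntegers (coeffField f.1) :=
  ((H23.eigenCharC f.2 ∅).codRestrict (coeffField f.1).toSubfield
    (fun t => eigenCharC_mem f.2 (qCoeff_mem f.1) t)).codRestrict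
    (integralClosure ℤ (coeffField f.1)).toSubring (fun t =>
      (isIntegral_algHom_iff ((coeffField f.1).val.restrictScalars ℤ) Subtype.val_injective).mp
        (H23.isIntegral_eigenCharC f.2 ∅ t))

theorem chi_coe (f : EF N) (t : CuspForm.heckeAlgebra N 2 ∅) :
    ((chi f t : coeffField f.1) : ℂ) = H23.eigenCharC f.2 ∅ t := rfl

/-- the characters of conjugate eigenforms are conjugate -/
theorem char_conj {f g : EF N} {τ : coeffField f.1 →+* ℂ}
    (h : ∀ n, τ ⟨qCoeff f.1 n, qCoeff_mem f.1 n⟩ = qCoeff g.1 n)
    (t : CuspForm.heckeAlgebra N 2 ∅) :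
    H23.eigenCharC g.2 ∅ t = τ (chi f t : coeffField f.1) := by
  obtain ⟨P, rfl⟩ := H22.heckeEvalForms_surjective (N := N) t
  change ((H23.eigenCharC g.2 ∅).comp (CuspForm.heckeEvalForms N 2)) P =
    ((τ.comp (algebraMap (NumberField.RingOfIntegers (coeffField f.1)) (coeffField f.1))).comp
      ((chi f).comp (CuspForm.heckeEvalForms N 2))) P
  congr 1
  apply MvPolynomial.ringHom_ext
  · intro n
    simp
  · intro ℓ
    have h1 := eigenCharC_gen g.2 ℓ.2
    have h2 := eigenCharC_gen f.2 ℓ.2
    rw [H22.charEigenvalue, dif_pos ℓ.2] at h1 h2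
    have h3 := CuspForm.heckeEvalForms_heckeGen N 2 ℓ
    rw [RingHom.comp_apply, RingHom.comp_apply, RingHom.comp_apply, RingHom.comp_apply]
    change H23.eigenCharC g.2 ∅ (CuspForm.heckeEvalForms N 2 (heckeGen ℓ)) =
      τ (chi f (CuspForm.heckeEvalForms N 2 (heckeGen ℓ)) : coeffField f.1)
    rw [h3]
    refine h1.trans ?_
    rw [← h]
    congr 1
    exact Subtype.ext h2.symm

/-- the homomorphism from the Hecke algebra to the product of the rings of integers -/
def Phi (N : ℕ) [NeZero N] : CuspForm.heckeAlgebra N 2 ∅ →+*
    ((ω : Orb N) → NumberField.RingOfIntegers (coeffField ω.out.1)) :=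
  RingHom.pi fun ω => chi ω.out

/-- an element of the kernel is killed by the characters of all eigenforms -/
theorem char_eq_zero {t : CuspForm.heckeAlgebra N 2 ∅} (ht : Phi N t = 0) (g : EF N) :
    H23.eigenCharC g.2 ∅ t = 0 := by
  let ω : Orb N := Quotient.mk'' g
  have h1 : g ∈ MulAction.orbit GA ω.out := by
    have h2 : (Quotient.mk'' ω.out : Orb N) = Quotient.mk'' g := Quotient.out_eq' ω
    exact MulAction.orbitRel_apply.mp (Quotient.exact' h2.symm)
  obtain ⟨σ, hσ⟩ := h1
  have h3 := char_conj (f := ω.out) (g := g) (τ := res ω.out σ) (fun n => by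
    rw [res_apply]
    exact congrArg (fun x : EF N => qCoeff x.1 n) hσ) t
  have h4 : chi ω.out t = 0 := congrFun ht ω
  rw [h3, h4]
  exact (congrArg (res ω.out σ) (map_zero (algebraMap (NumberField.RingOfIntegers (coeffField ω.out.1))
    (coeffField ω.out.1)))).trans (map_zero _)

end Char

section Prime

variable (N : ℕ) [hN : Fact N.Prime]

/-- the Hecke algebra of prime level embeds into the product of the rings of integers -/
theorem Phi_injective : Function.Injective (Phi N) := by
  rw [injective_iff_map_eq_zero]
  exact fun t ht => PrimeLevel.eq_zero_of_forall t fun f hf => char_eq_zero ht ⟨f, hf⟩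

/-- the degrees of the fields of coefficients add up to the genus -/
theorem sum_degrees :
    ((∑ ω : Orb N, Module.finrank ℚ (coeffField ω.out.1) : ℕ) : ℚ) = genusFormula N := by
  rw [sum_finrank, ← PrimeLevel.card_eigenforms]

/-- the rank of the Hecke algebra -/
theorem finrank_heckeAlgebra :
    (Module.finrank ℤ (CuspForm.heckeAlgebra N 2 ∅) : ℚ) = genusFormula N := by
  rw [← Duality.finrank_hecke N]
  let e : CuspForm.heckeAlgebra N 2 ∅ ≃+* CuspForm.heckeLatticeAlgebra N ∅ :=
    RingEquiv.ofBijective (CuspForm.latticeRestrictHom N ∅)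
      (CuspForm.latticeRestrictHom_bijective N ∅ (S23.result N))
  congr 1
  exact LinearEquiv.finrank_eq e.toAddEquiv.toIntLinearEquiv

/-- the Hecke algebra of prime level as a subgroup of the product of the rings of integers -/
def PhiL : CuspForm.heckeAlgebra N 2 ∅ →ₗ[ℤ]
    ((ω : Orb N) → NumberField.RingOfIntegers (coeffField ω.out.1)) :=
  (Phi N).toAddMonoidHom.toIntLinearMap

/-- **The Hecke algebra of prime level is an order**: it has finite index in the product of the rings of integers
of the fields of coefficients of the Galois orbits of eigenforms. -/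
theorem finite_quotient :
    Finite (((ω : Orb N) → NumberField.RingOfIntegers (coeffField ω.out.1)) ⧸
      LinearMap.range (PhiL N)) := by
  apply Submodule.finiteQuotientOfFreeOfRankEq
  rw [LinearMap.finrank_range_of_inj (Phi_injective N), Module.finrank_pi_fintype]
  have h1 := finrank_heckeAlgebra N
  rw [← sum_degrees N] at h1
  rw [Nat.cast_injective h1]
  exact Finset.sum_congr rfl fun ω _ => (NumberField.RingOfIntegers.rank _).symm

/-- a positive multiple of each family of algebraic integers comes from the Hecke algebra -/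
theorem exists_smul_integers :
    ∃ m : ℕ, 0 < m ∧ ∀ x : (ω : Orb N) → NumberField.RingOfIntegers (coeffField ω.out.1),
      ∃ t : CuspForm.heckeAlgebra N 2 ∅, Phi N t = m • x := by
  have hf := finite_quotient N
  refine ⟨Nat.card (((ω : Orb N) → NumberField.RingOfIntegers (coeffField ω.out.1)) ⧸
      LinearMap.range (PhiL N)), Nat.card_pos, fun x => ?_⟩
  have h1 : Nat.card (((ω : Orb N) → NumberField.RingOfIntegers (coeffField ω.out.1)) ⧸
      LinearMap.range (PhiL N)) • (Submodule.Quotient.mk x : _ ⧸ LinearMap.range (PhiL N)) = 0 :=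
    card_nsmul_eq_zero'
  rw [← Submodule.Quotient.mk_smul, Submodule.Quotient.mk_eq_zero] at h1
  exact h1

/-- **The Hecke algebra of prime level spans the product of the fields of coefficients**: a positive multiple of each
family of elements of the fields of coefficients is the family of eigenvalues of an element of `T`. -/
theorem exists_smul_eq (x : (ω : Orb N) → coeffField ω.out.1) :
    ∃ (m : ℕ) (t : CuspForm.heckeAlgebra N 2 ∅), 0 < m ∧
      ∀ ω : Orb N, (chi ω.out t : coeffField ω.out.1) = m • x ω := by
  classical
  have h1 : ∀ ω : Orb N, ∃ m : ℕ, 0 < m ∧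
      ∃ y : NumberField.RingOfIntegers (coeffField ω.out.1), (y : coeffField ω.out.1) = m • x ω := by
    intro ω
    have h2 : IsAlgebraic ℤ (x ω) :=
      (IsFractionRing.isAlgebraic_iff ℤ ℚ (coeffField ω.out.1)).mpr
        (Algebra.IsAlgebraic.isAlgebraic (x ω))
    obtain ⟨y, hy0, hy⟩ := h2.exists_integral_multiple
    refine ⟨y.natAbs, Int.natAbs_pos.mpr hy0, ?_⟩
    have h3 : IsIntegral ℤ (y.natAbs • x ω) := by
      rcases Int.natAbs_eq y with h | h
      · rw [h, natCast_zsmul] at hy
        exact hy
      · rw [h, neg_smul, natCast_zsmul] at hy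
        exact neg_neg (y.natAbs • x ω) ▸ hy.neg
    exact ⟨⟨_, h3⟩, rfl⟩
  choose m hm y hy using h1
  obtain ⟨k, hk, h⟩ := exists_smul_integers N
  obtain ⟨t, ht⟩ := h fun ω => (∏ ω' ∈ Finset.univ.erase ω, m ω') • y ω
  refine ⟨k * ∏ ω, m ω, t, Nat.mul_pos hk (Finset.prod_pos fun ω _ => hm ω), fun ω => ?_⟩
  have h4 : chi ω.out t = k • ((∏ ω' ∈ Finset.univ.erase ω, m ω') • y ω) := congrFun ht ω
  rw [h4, ← Finset.mul_prod_erase Finset.univ m (Finset.mem_univ ω)]
  have h5 (n : ℕ) (z : NumberField.RingOfIntegers (coeffField ω.out.1)) :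
      ((n • z : NumberField.RingOfIntegers (coeffField ω.out.1)) : coeffField ω.out.1) =
        n • (z : coeffField ω.out.1) :=
    map_nsmul (algebraMap (NumberField.RingOfIntegers (coeffField ω.out.1)) (coeffField ω.out.1)) n z
  rw [h5, h5, hy, smul_smul, smul_smul]
  congr 1
  ring

end Prime

end Fermat.Agent.Cor.HeckeStructure
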