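import Fermat.Agent.Cor.RankBound
import Fermat.Agent.LM.Bound
import Mathlib.NumberTheory.EulerProduct.DirichletLSeries

/-!
# An upper bound for the order of vanishing at the centre, for all newforms of weight two

Let `f` be a newform of weight two and level `Γ₀(N)`, and let `r` be the order of vanishing of `L(f, s)` at `s = 1`.
Then `2 ^ r < N`.

Proof: the Phragmén–Lindelöf principle for `Λ(s) / (s - 1) ^ r` in the strip `-3 ≤ Re s ≤ 5`. The Euler product and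
the elementary bound `|a_p| ≤ p + 1` give `|L(s)| ≤ ζ(4)²` for `Re s = 5` and `|L(3)| ≥ ζ(2)⁻²`; finally
`π¹⁰ < 97200`.

This file is not used by any of the statement files.
-/

set_option autoImplicit false

noncomputable section

namespace Fermat.Agent.Cor.RankBoundAll

open Complex CongruenceSubgroup Filter ModularFormClass Set Asymptotics
open Fermat.Agent.Cor.LFun Fermat.Agent.Cor.RankBound Fermat.Agent.Cor.EulerProd
open scoped Real Topology

theorem norm_le_of_hasProd {ι : Type*} {F G : ι → ℂ} {a b : ℂ} (hF : HasProd F a)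
    (hG : HasProd G b) (h : ∀ i, ‖F i‖ ≤ ‖G i‖) : ‖a‖ ≤ ‖b‖ := by
  refine le_of_tendsto_of_tendsto' (Tendsto.norm hF) (Tendsto.norm hG) fun s => ?_
  rw [norm_prod, norm_prod]
  exact Finset.prod_le_prod (fun _ _ => norm_nonneg _) fun i _ => h i

variable {N : ℕ} [NeZero N] {f : CuspForm (Gamma0 N) 2}

theorem norm_prime_le (hf : f.IsNewform) {p : ℕ} (hp : p.Prime) : ‖qCoeff f p‖ ≤ p + 1 := by
  by_cases hd : p ∣ N
  · have h1 : ‖qCoeff f p‖ ≤ 1 := by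
      by_cases h2 : p ^ 2 ∣ N
      · rw [(RootNumber.newformBadPrimeCoeff f hf p hp hd).2 h2, norm_zero]
        exact zero_le_one
      · have h3 := (RootNumber.newformBadPrimeCoeff f hf p hp hd).1 h2
        have h4 : ‖qCoeff f p‖ ^ 2 = 1 := by rw [← norm_pow, h3, norm_one]
        nlinarith [norm_nonneg (qCoeff f p)]
    have : (0 : ℝ) ≤ p := Nat.cast_nonneg p
    linarith
  · exact (LM.norm_qCoeff_lt hp hd hf.1).le

theorem norm_zetaFactor {p : ℕ} (hp : p.Prime) (k : ℕ) (hk : k ≠ 0) :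
    ‖(1 - (p : ℂ) ^ (-(k : ℂ)))⁻¹‖ = (1 - ((p : ℝ)⁻¹) ^ k)⁻¹ := by
  have hp1 : (1 : ℝ) < p := by exact_mod_cast hp.one_lt
  have h1 : (p : ℂ) ^ (-(k : ℂ)) = ((((p : ℝ)⁻¹) ^ k : ℝ) : ℂ) := by
    rw [Complex.cpow_neg, Complex.cpow_natCast]
    push_cast
    rw [inv_pow]
  have h2 : ((p : ℝ)⁻¹) ^ k < 1 := pow_lt_one₀ (by positivity) (inv_lt_one_of_one_lt₀ hp1) hk
  rw [h1, ← Complex.ofReal_one, ← Complex.ofReal_sub, ← Complex.ofReal_inv, Complex.norm_real,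
    Real.norm_of_nonneg (inv_nonneg.mpr (by linarith))]

theorem norm_natCast_cpow_neg {p : ℕ} (hp : p.Prime) {s : ℂ} {k : ℕ} (hs : s.re = k) :
    ‖(p : ℂ) ^ (-s)‖ = ((p : ℝ)⁻¹) ^ k := by
  rw [Complex.norm_natCast_cpow_of_pos hp.pos, Complex.neg_re, hs,
    Real.rpow_neg (Nat.cast_nonneg p), Real.rpow_natCast, inv_pow]

theorem norm_sub_one_le (hf : f.IsNewform) {p : ℕ} (hp : p.Prime) {s : ℂ} {k : ℕ} (hs : s.re = k) :
    ‖eulerPoly N (fun n => qCoeff f n) p ((p : ℂ) ^ (-s)) - 1‖ ≤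
      (p + 1) * ((p : ℝ)⁻¹) ^ k + p * (((p : ℝ)⁻¹) ^ k) ^ 2 := by
  have h1 : eulerPoly N (fun n => qCoeff f n) p ((p : ℂ) ^ (-s)) - 1 =
      -(qCoeff f p * (p : ℂ) ^ (-s)) + (if p ∣ N then 0 else (p : ℂ)) * ((p : ℂ) ^ (-s)) ^ 2 := by
    rw [eulerPoly]
    ring
  rw [h1]
  refine (norm_add_le _ _).trans (add_le_add ?_ ?_)
  · rw [norm_neg, norm_mul, norm_natCast_cpow_neg hp hs]
    exact mul_le_mul_of_nonneg_right (norm_prime_le hf hp) (by positivity)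
  · rw [norm_mul, norm_pow, norm_natCast_cpow_neg hp hs]
    refine mul_le_mul_of_nonneg_right ?_ (by positivity)
    split_ifs
    · rw [norm_zero]
      exact Nat.cast_nonneg p
    · rw [Complex.norm_natCast]

/-- `|L(f, s)| ≤ ζ(4)²` for `Re s = 5` -/
theorem norm_LF_le' (hf : f.IsNewform) {s : ℂ} (hs : s.re = 5) : ‖LF f s‖ ≤ (π ^ 4 / 90) ^ 2 := by
  have h2 : 2 < s.re := by rw [hs]; norm_num
  have h1 := lSeries_hasProd hf.1 h2
  rw [lSeries_eq f h2] at h1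
  have hz := riemannZeta_eulerProduct_hasProd (s := (4 : ℕ)) (by norm_num)
  have h3 := norm_le_of_hasProd h1 (hz.mul hz) fun p => by
    have hp := p.2
    have hp2 : (2 : ℝ) ≤ (p : ℕ) := by exact_mod_cast hp.two_le
    have h4 := norm_sub_one_le hf hp (s := s) (k := 5) (by rw [hs]; norm_num)
    obtain ⟨u, hu⟩ : ∃ u : ℝ, u = ((p : ℕ) : ℝ)⁻¹ := ⟨_, rfl⟩
    have hu0 : 0 < u := by rw [hu]; positivity
    have hu2 : u ≤ 1 / 2 := by
      rw [hu, one_div]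
      exact inv_anti₀ (by norm_num) hp2
    have hpu : ((p : ℕ) : ℝ) * u = 1 := by
      rw [hu]
      exact mul_inv_cancel₀ (by positivity)
    rw [norm_mul, norm_zetaFactor hp 4 (by norm_num), norm_inv, ← hu]
    rw [← hu] at h4
    have e1 : (((p : ℕ) : ℝ) + 1) * u ^ 5 + ((p : ℕ) : ℝ) * (u ^ 5) ^ 2 = u ^ 4 + u ^ 5 + u ^ 9 := by
      linear_combination (u ^ 4 + u ^ 9) * hpu
    rw [e1] at h4
    have q4 : 0 < u ^ 4 := by positivity
    have q4' : u ^ 4 ≤ 1 / 16 := by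
      calc u ^ 4 ≤ (1 / 2) ^ 4 := pow_le_pow_left₀ hu0.le hu2 4
        _ = 1 / 16 := by norm_num
    have h5 : (1 - u ^ 4) * (1 - u ^ 4) ≤ ‖eulerPoly N (fun n => qCoeff f n) p
        (((p : ℕ) : ℂ) ^ (-s))‖ := by
      have h6 : (1 : ℝ) ≤ ‖eulerPoly N (fun n => qCoeff f n) p (((p : ℕ) : ℂ) ^ (-s))‖ +
          ‖eulerPoly N (fun n => qCoeff f n) p (((p : ℕ) : ℂ) ^ (-s)) - 1‖ := by
        calc (1 : ℝ) = ‖eulerPoly N (fun n => qCoeff f n) p (((p : ℕ) : ℂ) ^ (-s)) -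
              (eulerPoly N (fun n => qCoeff f n) p (((p : ℕ) : ℂ) ^ (-s)) - 1)‖ := by
              rw [sub_sub_cancel, norm_one]
          _ ≤ _ := norm_sub_le _ _
      have h7 : 0 ≤ u ^ 4 * (1 - u - u ^ 4 - u * u ^ 4) := by
        have : 0 ≤ 1 - u - u ^ 4 - u * u ^ 4 := by nlinarith
        positivity
      nlinarith
    have h8 : 0 < 1 - u ^ 4 := by linarith
    rw [← mul_inv]
    exact inv_anti₀ (by positivity) h5
  refine h3.trans_eq ?_
  have e4 : riemannZeta ((4 : ℕ) : ℂ) = ((π ^ 4 / 90 : ℝ) : ℂ) := by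
    have h := riemannZeta_four
    push_cast
    exact h
  rw [e4, norm_mul, Complex.norm_real, Real.norm_of_nonneg (by positivity)]
  ring

/-- `|L(f, 3)| ≥ ζ(2)⁻²` -/
theorem le_norm_LF_three' (hf : f.IsNewform) : 36 / π ^ 4 ≤ ‖LF f 3‖ := by
  have h2 : 2 < (3 : ℂ).re := by norm_num
  have h1 := lSeries_hasProd hf.1 h2
  have hm := (multipliable_eulerPoly f h2).hasProd
  have h3 := h1.mul hm
  have h4 : (fun p : Nat.Primes ↦
      (eulerPoly N (fun n ↦ qCoeff f n) p (((p : ℕ) : ℂ) ^ (-(3 : ℂ))))⁻¹ *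
        eulerPoly N (fun n ↦ qCoeff f n) p (((p : ℕ) : ℂ) ^ (-(3 : ℂ)))) = fun _ ↦ 1 := by
    funext p
    exact inv_mul_cancel₀ (eulerPoly_ne_zero hf.1 p.2 h2)
  rw [h4] at h3
  have h5 := h3.unique hasProd_one
  rw [lSeries_eq f h2] at h5
  have hz := riemannZeta_eulerProduct_hasProd (s := (2 : ℕ)) (by norm_num)
  have h6 := norm_le_of_hasProd hm (hz.mul hz) fun p => by
    have hp := p.2
    have hp2 : (2 : ℝ) ≤ (p : ℕ) := by exact_mod_cast hp.two_le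
    have h7 := norm_sub_one_le hf hp (s := 3) (k := 3) (by norm_num)
    obtain ⟨u, hu⟩ : ∃ u : ℝ, u = ((p : ℕ) : ℝ)⁻¹ := ⟨_, rfl⟩
    have hu0 : 0 < u := by rw [hu]; positivity
    have hu2 : u ≤ 1 / 2 := by
      rw [hu, one_div]
      exact inv_anti₀ (by norm_num) hp2
    have hpu : ((p : ℕ) : ℝ) * u = 1 := by
      rw [hu]
      exact mul_inv_cancel₀ (by positivity)
    rw [norm_mul, norm_zetaFactor hp 2 (by norm_num), ← hu]
    rw [← hu] at h7
    have e1 : (((p : ℕ) : ℝ) + 1) * u ^ 3 + ((p : ℕ) : ℝ) * (u ^ 3) ^ 2 = u ^ 2 + u ^ 3 + u ^ 5 := by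
      linear_combination (u ^ 2 + u ^ 5) * hpu
    rw [e1] at h7
    have h8 : ‖eulerPoly N (fun n => qCoeff f n) p (((p : ℕ) : ℂ) ^ (-(3 : ℂ)))‖ ≤
        1 + (u ^ 2 + u ^ 3 + u ^ 5) := by
      calc ‖eulerPoly N (fun n => qCoeff f n) p (((p : ℕ) : ℂ) ^ (-(3 : ℂ)))‖
          = ‖1 + (eulerPoly N (fun n => qCoeff f n) p (((p : ℕ) : ℂ) ^ (-(3 : ℂ))) - 1)‖ := by
            rw [add_sub_cancel]
        _ ≤ ‖(1 : ℂ)‖ + ‖eulerPoly N (fun n => qCoeff f n) p (((p : ℕ) : ℂ) ^ (-(3 : ℂ))) - 1‖ :=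
            norm_add_le _ _
        _ ≤ _ := by rw [norm_one]; gcongr
    have q2 : 0 < u ^ 2 := by positivity
    have q2' : u ^ 2 ≤ 1 / 4 := by
      calc u ^ 2 ≤ (1 / 2) ^ 2 := pow_le_pow_left₀ hu0.le hu2 2
        _ = 1 / 4 := by norm_num
    have q3 : u ^ 3 ≤ 1 / 2 * u ^ 2 := by nlinarith
    have q5 : u ^ 5 ≤ 1 / 2 * u ^ 2 := by
      have : u ^ 5 = u ^ 2 * (u ^ 3) := by ring
      have h9 : u ^ 3 ≤ 1 / 2 := by nlinarith
      nlinarith
    have h10 : 1 + u ^ 2 ≤ (1 - u ^ 2)⁻¹ := by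
      rw [le_inv_comm₀ (by positivity) (by linarith), inv_eq_one_div,
        le_div_iff₀ (by positivity)]
      nlinarith
    have h11 : (1 + u ^ 2) * (1 + u ^ 2) ≤ (1 - u ^ 2)⁻¹ * (1 - u ^ 2)⁻¹ :=
      mul_le_mul h10 h10 (by positivity) (inv_nonneg.mpr (by linarith))
    nlinarith
  have e2 : riemannZeta ((2 : ℕ) : ℂ) = ((π ^ 2 / 6 : ℝ) : ℂ) := by
    have h := riemannZeta_two
    push_cast
    exact h
  rw [e2, norm_mul, Complex.norm_real, Real.norm_of_nonneg (by positivity)] at h6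
  have h12 := congrArg norm h5
  rw [norm_mul, norm_one] at h12
  have hpi := Real.pi_pos
  rw [div_le_iff₀ (by positivity)]
  have h13 : (1 : ℝ) ≤ ‖LF f 3‖ * (π ^ 2 / 6 * (π ^ 2 / 6)) := by
    rw [← h12]
    exact mul_le_mul_of_nonneg_left h6 (norm_nonneg _)
  nlinarith

/-- the bound for `Λ` on the lines `Re s = -3, 5` -/
def bd' (N : ℕ) : ℝ := (N : ℝ) ^ ((5 : ℝ) / 2) * (2 * π) ^ (-(5 : ℝ)) * 24 * (π ^ 4 / 90) ^ 2

theorem norm_Lam_le5 (hf : f.IsNewform) {s : ℂ} (hs : s.re = 5) : ‖Lam f s‖ ≤ bd' N := by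
  have h2 : (0 : ℝ) < 2 * π := by positivity
  rw [norm_Lam f (by rw [hs]; norm_num), bd', hs]
  have hG : ‖Complex.Gamma s‖ ≤ 24 := by
    have h := norm_Gamma_le (s := s) (by rw [hs]; norm_num)
    have e : Real.Gamma s.re = 24 := by
      rw [hs, show (5 : ℝ) = (4 : ℕ) + 1 by norm_num, Real.Gamma_nat_eq_factorial]
      norm_num [Nat.factorial]
    rwa [e] at h
  have hL := norm_LF_le' hf hs
  gcongr

theorem norm_Lam_le3 (hf : f.IsNewform) {s : ℂ} (hs : s.re = -3) : ‖Lam f s‖ ≤ bd' N := by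
  have h1 := Parity.functional_equation hf (2 - s)
  rw [sub_sub_cancel] at h1
  have h2 : ‖Parity.rootNumber f‖ = 1 := by
    rcases Parity.rootNumber_eq_one_or hf with hw | hw <;> rw [hw] <;> simp
  rw [h1, norm_mul, h2, one_mul]
  refine norm_Lam_le5 hf ?_
  rw [Complex.sub_re, hs]
  norm_num

theorem two_pow_mul_le' (hf : f.IsNewform) {r : ℕ}
    (hr : analyticOrderAt (LF f) 1 = r) : 2 ^ r * ‖Lam f 3‖ ≤ bd' N := by
  have hr' : analyticOrderAt (Lam f) 1 = r := by rw [Parity.order_Lam f (by norm_num), hr]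
  obtain ⟨g, hg, hgF⟩ := exists_quotient (differentiable_Lam f) hr'
  obtain ⟨B, hB⟩ := exists_bound_strip f
  have hbd : 0 ≤ bd' N := by unfold bd'; positivity
  have hside : ∀ z : ℂ, (4 : ℝ) ≤ |(z - 1).re| → ‖Lam f z‖ ≤ bd' N → ‖g z‖ ≤ bd' N / 4 ^ r := by
    intro z hz1 hz2
    have hz : z ≠ 1 := by
      rintro rfl
      norm_num at hz1
    have h4 : 4 ≤ ‖z - 1‖ := hz1.trans (Complex.abs_re_le_norm _)
    rw [hgF z hz, norm_div, norm_pow]
    exact div_le_div₀ hbd hz2 (by positivity) (pow_le_pow_left₀ (by norm_num) h4 r)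
  have key : ‖g 3‖ ≤ bd' N / 4 ^ r := by
    refine PhragmenLindelof.vertical_strip (a := -3) (b := 5) hg.diffContOnCl
      ⟨0, by norm_num; positivity, 0, ?_⟩ (fun z hz => hside z ?_ (norm_Lam_le3 hf hz))
      (fun z hz => hside z ?_ (norm_Lam_le5 hf hz)) (by norm_num) (by norm_num)
    · refine IsBigO.of_bound B ?_
      rw [eventually_inf_principal]
      filter_upwards [tendsto_comap.eventually (eventually_ge_atTop (1 : ℝ))] with z hz hzs
      have him : 1 ≤ |z.im| := hz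
      have hz1 : z ≠ 1 := by
        rintro rfl
        norm_num at him
      have h1 : 1 ≤ ‖z - 1‖ := by
        refine him.trans ?_
        have := Complex.abs_im_le_norm (z - 1)
        simpa using this
      have h2 : ‖Lam f z‖ ≤ B := hB z hzs.1 hzs.2
      have e : ‖Real.exp (0 * Real.exp (0 * |z.im|))‖ = 1 := by simp
      rw [e, mul_one, hgF z hz1, norm_div, norm_pow]
      calc ‖Lam f z‖ / ‖z - 1‖ ^ r ≤ ‖Lam f z‖ / 1 :=
            div_le_div_of_nonneg_left (norm_nonneg _) one_pos (one_le_pow₀ h1)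
        _ ≤ B := by rwa [div_one]
    · rw [Complex.sub_re, hz]
      norm_num
    · rw [Complex.sub_re, hz]
      norm_num
  have h3 : (3 : ℂ) ≠ 1 := by norm_num
  have e3 : ‖(3 : ℂ) - 1‖ = 2 := by norm_num
  rw [hgF 3 h3, norm_div, norm_pow, e3, div_le_div_iff₀ (by positivity) (by positivity)] at key
  have e4 : (4 : ℝ) ^ r = 2 ^ r * 2 ^ r := by rw [← mul_pow]; norm_num
  rw [e4, ← mul_assoc] at key
  have := le_of_mul_le_mul_right key (by positivity : (0 : ℝ) < 2 ^ r)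
  linarith

/-- **The order of vanishing at the centre for newforms of weight two and level `N`**: `2 ^ r < N`. -/
theorem two_pow_analyticRank_lt (hf : f.IsNewform) : 2 ^ Parity.analyticRank f < N := by
  obtain ⟨r, hr0⟩ : ∃ r, r = Parity.analyticRank f := ⟨_, rfl⟩
  have hr : analyticOrderAt (LF f) 1 = r := by
    have h1 := Parity.order_LF_ne_top hf.1 1
    rw [hr0, Parity.analyticRank, analyticOrderNatAt, ENat.natCast_toNat h1]
  rw [← hr0]
  have hN : (0 : ℝ) < N := by exact_mod_cast Nat.pos_of_ne_zero (NeZero.ne N)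
  have h1 := two_pow_mul_le' hf hr
  have h2 := le_norm_LF_three' hf
  have hpi2 : (0 : ℝ) < 2 * π := by positivity
  have e3 : (3 : ℂ).re = 3 := by norm_num
  rw [norm_Lam f (by rw [e3]; norm_num), e3] at h1
  have hG : ‖Complex.Gamma 3‖ = 2 := by
    have h : Complex.Gamma ((2 : ℕ) + 1) = (Nat.factorial 2 : ℂ) := Complex.Gamma_nat_eq_factorial 2
    have e : ((2 : ℕ) : ℂ) + 1 = 3 := by norm_num
    rw [e] at h
    rw [h]
    norm_num [Nat.factorial]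
  rw [hG, bd'] at h1
  obtain ⟨A, hA⟩ : ∃ A : ℝ, A = (N : ℝ) ^ ((3 : ℝ) / 2) * (2 * π) ^ (-(3 : ℝ)) := ⟨_, rfl⟩
  have hA0 : 0 < A := by rw [hA]; positivity
  have e5 : (N : ℝ) ^ ((5 : ℝ) / 2) * (2 * π) ^ (-(5 : ℝ)) = A * (N / (2 * π) ^ 2) := by
    rw [hA, show (5 : ℝ) / 2 = 3 / 2 + 1 by norm_num, Real.rpow_add hN, Real.rpow_one,
      show (-(5 : ℝ)) = -3 - (2 : ℕ) by norm_num, Real.rpow_sub hpi2, Real.rpow_natCast]
    ring
  rw [e5, ← hA] at h1
  have h3 : 2 ^ r * (2 * ‖LF f 3‖) ≤ N / (2 * π) ^ 2 * 24 * (π ^ 4 / 90) ^ 2 := by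
    refine le_of_mul_le_mul_left ?_ hA0
    calc A * (2 ^ r * (2 * ‖LF f 3‖)) = 2 ^ r * (A * 2 * ‖LF f 3‖) := by ring
      _ ≤ A * (N / (2 * π) ^ 2) * 24 * (π ^ 4 / 90) ^ 2 := h1
      _ = _ := by ring
  have hpi := Real.pi_pos
  have e6 : (N : ℝ) / (2 * π) ^ 2 * 24 * (π ^ 4 / 90) ^ 2 = N * π ^ 6 / 1350 := by
    field_simp
    ring
  rw [e6] at h3
  have h10 : π ^ 10 < 97200 := by
    calc π ^ 10 < 3.15 ^ 10 := pow_lt_pow_left₀ Real.pi_lt_d2 hpi.le (by norm_num)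
      _ < 97200 := by norm_num
  have hr0 : (0 : ℝ) < 2 ^ r := by positivity
  have h4 : (2 : ℝ) ^ r * (72 / π ^ 4) ≤ N * π ^ 6 / 1350 := by
    refine le_trans ?_ h3
    have : 72 / π ^ 4 = 2 * (36 / π ^ 4) := by ring
    rw [this]
    gcongr
  have h5 : (2 : ℝ) ^ r * 97200 ≤ N * π ^ 10 := by
    have h6 := mul_le_mul_of_nonneg_right h4 (by positivity : (0 : ℝ) ≤ π ^ 4 * 1350)
    have e7 : (2 : ℝ) ^ r * (72 / π ^ 4) * (π ^ 4 * 1350) = 2 ^ r * 97200 := by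
      field_simp
      ring
    have e8 : (N : ℝ) * π ^ 6 / 1350 * (π ^ 4 * 1350) = N * π ^ 10 := by
      field_simp
    rwa [e7, e8] at h6
  have h6 : (N : ℝ) * π ^ 10 < N * 97200 := by gcongr
  have h7 : (2 : ℝ) ^ r < N := by linarith
  exact_mod_cast h7

end Fermat.Agent.Cor.RankBoundAll
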