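import Fermat.Agent.Cor.EntireOrder
import Fermat.Agent.Cor.RankBoundAll

/-!
# The L-function of an elliptic curve has infinitely many zeros in the critical strip

* for every newform `f` of weight two (any level) the completed L-function `Λ(f, s)` has infinitely many zeros;
* for every semistable elliptic curve over `ℚ` the L-function `L(W, s)` has infinitely many zeros in the critical
  strip `1/2 ≤ Re s ≤ 3/2`.

Proof: `|Λ(f, s)| ≤ exp(A (1 + |s|) ^ (3 / 2))` by the bound for the Gamma function and the functional equation. If there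
were only finitely many zeros then `Λ(f, s) = P(s) exp(a + b s)` (`Cor/EntireOrder`), and this does not tend to zero
in one of the two directions of the line `Re s = 1`; but `Λ(f, 1 + iy) → 0` for `y → ±∞` by the lemma of Riemann and
Lebesgue.

This file is not used by any of the statement files.
-/

set_option autoImplicit false

noncomputable section

namespace Fermat.Agent.Cor.InfiniteZeros

open Complex CongruenceSubgroup Filter MeasureTheory ModularFormClass Set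
open Fermat.Agent.Cor.LFun Fermat.Agent.Cor.CentralSeries
open scoped Real Topology FourierTransform Nat

theorem Gamma_le {σ : ℝ} (hσ : 2 ≤ σ) :
    Real.Gamma σ ≤ Real.exp (2 * (1 + σ) ^ (3 / 2 : ℝ)) := by
  have hc1 : (⌈σ⌉₊ : ℝ) ≤ 1 + σ := by
    have := (Nat.ceil_lt_add_one (show 0 ≤ σ by linarith)).le
    linarith
  have hc2 : σ ≤ (⌈σ⌉₊ : ℝ) := Nat.le_ceil σ
  have h1 : Real.Gamma σ ≤ Real.Gamma ((⌈σ⌉₊ : ℝ) + 1) :=
    Real.Gamma_strictMonoOn_Ici.monotoneOn hσ (show (2 : ℝ) ≤ _ by linarith) (by linarith)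
  rw [Real.Gamma_nat_eq_factorial] at h1
  have h2 : ((⌈σ⌉₊)! : ℝ) ≤ (⌈σ⌉₊ : ℝ) ^ ⌈σ⌉₊ := by exact_mod_cast Nat.factorial_le_pow _
  have h4 : (⌈σ⌉₊ : ℝ) ^ ⌈σ⌉₊ ≤ (1 + σ) ^ ⌈σ⌉₊ := pow_le_pow_left₀ (by positivity) hc1 _
  have hpos : 0 < 1 + σ := by linarith
  have h5 : (1 + σ) ^ ⌈σ⌉₊ = Real.exp (⌈σ⌉₊ * Real.log (1 + σ)) := by
    rw [Real.exp_nat_mul, Real.exp_log hpos]
  have h6 : Real.log (1 + σ) ≤ (1 + σ) ^ (1 / 2 : ℝ) / (1 / 2) :=
    Real.log_le_rpow_div hpos.le (by norm_num)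
  have h7 : 0 ≤ Real.log (1 + σ) := Real.log_nonneg (by linarith)
  refine (h1.trans (h2.trans h4)).trans ?_
  rw [h5]
  refine Real.exp_le_exp.mpr ?_
  calc (⌈σ⌉₊ : ℝ) * Real.log (1 + σ) ≤ (1 + σ) * ((1 + σ) ^ (1 / 2 : ℝ) / (1 / 2)) :=
        mul_le_mul hc1 h6 h7 hpos.le
    _ = 2 * ((1 + σ) ^ (1 : ℝ) * (1 + σ) ^ (1 / 2 : ℝ)) := by rw [Real.rpow_one]; ring
    _ = 2 * (1 + σ) ^ (3 / 2 : ℝ) := by
        rw [← Real.rpow_add hpos]
        norm_num

variable {N : ℕ} [NeZero N]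

theorem exists_bound_LF (f : CuspForm (Gamma0 N) 2) :
    ∃ B : ℝ, ∀ s : ℂ, 5 ≤ s.re → ‖LF f s‖ ≤ B := by
  have h5 : LSeriesSummable (fun n => qCoeff f n) 5 :=
    (lSeriesHasSum f (s := 5) (by norm_num)).summable
  refine ⟨∑' n, ‖LSeries.term (fun n => qCoeff f n) 5 n‖, fun s hs => ?_⟩
  have h1 := lSeriesHasSum f (s := s) (by linarith)
  refine h1.norm_le_of_bounded h5.norm.hasSum fun n => ?_
  exact LSeries.norm_term_le_of_re_le_re _ (by simpa using hs) n

theorem le_rpow {x : ℝ} (hx : 0 ≤ x) : x ≤ (1 + x) ^ (3 / 2 : ℝ) := by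
  have h1 : (1 + x) ^ (1 : ℝ) ≤ (1 + x) ^ (3 / 2 : ℝ) :=
    Real.rpow_le_rpow_of_exponent_le (by linarith) (by norm_num)
  rw [Real.rpow_one] at h1
  linarith

theorem one_le_rpow' {x : ℝ} (hx : 0 ≤ x) : 1 ≤ (1 + x) ^ (3 / 2 : ℝ) :=
  Real.one_le_rpow (by linarith) (by norm_num)

theorem exists_bound_right (f : CuspForm (Gamma0 N) 2) :
    ∃ A : ℝ, 0 ≤ A ∧ ∀ s : ℂ, 5 ≤ s.re → ‖Lam f s‖ ≤ Real.exp (A * (1 + ‖s‖) ^ (3 / 2 : ℝ)) := by
  obtain ⟨B, hB⟩ := exists_bound_LF f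
  have hN : (1 : ℝ) ≤ N := by exact_mod_cast Nat.pos_of_ne_zero (NeZero.ne N)
  have hlog : 0 ≤ Real.log N := Real.log_nonneg hN
  refine ⟨Real.log N + 2 + |B|, by positivity, fun s hs => ?_⟩
  have hs0 : 0 < s.re := by linarith
  have hle : s.re ≤ ‖s‖ := Complex.re_le_norm s
  rw [RankBound.norm_Lam f hs0]
  have e1 : (N : ℝ) ^ (s.re / 2) ≤ Real.exp (Real.log N * (1 + ‖s‖) ^ (3 / 2 : ℝ)) := by
    rw [Real.rpow_def_of_pos (by linarith)]
    refine Real.exp_le_exp.mpr (mul_le_mul_of_nonneg_left ?_ hlog)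
    have := le_rpow (norm_nonneg s)
    linarith
  have e2 : (2 * π) ^ (-s.re) ≤ 1 :=
    Real.rpow_le_one_of_one_le_of_nonpos (by linarith [Real.pi_gt_three]) (by linarith)
  have e3 : ‖Complex.Gamma s‖ ≤ Real.exp (2 * (1 + ‖s‖) ^ (3 / 2 : ℝ)) := by
    refine (RankBound.norm_Gamma_le hs0).trans ((Gamma_le (by linarith)).trans ?_)
    refine Real.exp_le_exp.mpr (mul_le_mul_of_nonneg_left ?_ (by norm_num))
    exact Real.rpow_le_rpow (by linarith) (by linarith) (by norm_num)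
  have e4 : ‖LF f s‖ ≤ Real.exp (|B| * (1 + ‖s‖) ^ (3 / 2 : ℝ)) := by
    refine (hB s hs).trans ((le_abs_self B).trans ?_)
    have h1 := Real.add_one_le_exp (|B| * (1 + ‖s‖) ^ (3 / 2 : ℝ))
    have h2 := one_le_rpow' (norm_nonneg s)
    have h3 := abs_nonneg B
    nlinarith
  have h1 : (N : ℝ) ^ (s.re / 2) * (2 * π) ^ (-s.re) ≤
      Real.exp (Real.log N * (1 + ‖s‖) ^ (3 / 2 : ℝ)) * 1 :=
    mul_le_mul e1 e2 (by positivity) (by positivity)
  have h2 := mul_le_mul h1 e3 (norm_nonneg _) (by positivity)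
  have h3 := mul_le_mul h2 e4 (norm_nonneg _) (by positivity)
  refine h3.trans (le_of_eq ?_)
  rw [mul_one, ← Real.exp_add, ← Real.exp_add]
  congr 1
  ring

/-- **the growth of the completed L-function** -/
theorem exists_growth (f : CuspForm (Gamma0 N) 2) :
    ∃ A : ℝ, ∀ s : ℂ, ‖Lam f s‖ ≤ Real.exp (A * (1 + ‖s‖) ^ (3 / 2 : ℝ)) := by
  obtain ⟨A1, hA1, h1⟩ := exists_bound_right f
  obtain ⟨A2, hA2, h2⟩ := exists_bound_right (wN f)
  obtain ⟨B, hB⟩ := RankBound.exists_bound_strip f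
  refine ⟨A1 + A2 * 3 ^ (3 / 2 : ℝ) + |B|, fun s => ?_⟩
  have hX := one_le_rpow' (norm_nonneg s)
  set X := (1 + ‖s‖) ^ (3 / 2 : ℝ) with hXdef
  have h3 : (0 : ℝ) < 3 ^ (3 / 2 : ℝ) := by positivity
  have hB0 := abs_nonneg B
  rcases le_or_gt 5 s.re with hs | hs
  · refine (h1 s hs).trans (Real.exp_le_exp.mpr ?_)
    have : 0 ≤ A2 * 3 ^ (3 / 2 : ℝ) := by positivity
    exact mul_le_mul_of_nonneg_right (by linarith) (by linarith)
  rcases lt_or_ge (-3) s.re with hs' | hs'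
  · refine (hB s hs' hs).trans ((le_abs_self B).trans ?_)
    have h4 := Real.add_one_le_exp ((A1 + A2 * 3 ^ (3 / 2 : ℝ) + |B|) * X)
    have h5 : 0 ≤ A2 * 3 ^ (3 / 2 : ℝ) := by positivity
    have h6 : |B| * 1 ≤ (A1 + A2 * 3 ^ (3 / 2 : ℝ) + |B|) * X :=
      mul_le_mul (by linarith) hX (by norm_num) (by positivity)
    linarith
  · have h4 := functional_equation f (2 - s)
    rw [sub_sub_cancel] at h4
    rw [h4, norm_neg]
    refine (h2 (2 - s) (by rw [Complex.sub_re]; norm_num; linarith)).trans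
      (Real.exp_le_exp.mpr ?_)
    have h5 : ‖2 - s‖ ≤ 2 + ‖s‖ := by
      refine (norm_sub_le _ _).trans ?_
      norm_num
    have h6 : (1 + ‖2 - s‖) ^ (3 / 2 : ℝ) ≤ 3 ^ (3 / 2 : ℝ) * X := by
      rw [hXdef, ← Real.mul_rpow (by norm_num) (by positivity)]
      refine Real.rpow_le_rpow (by positivity) ?_ (by norm_num)
      have := norm_nonneg s
      linarith
    calc A2 * (1 + ‖2 - s‖) ^ (3 / 2 : ℝ) ≤ A2 * (3 ^ (3 / 2 : ℝ) * X) :=
          mul_le_mul_of_nonneg_left h6 hA2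
      _ = (A2 * 3 ^ (3 / 2 : ℝ)) * X := by ring
      _ ≤ (A1 + A2 * 3 ^ (3 / 2 : ℝ) + |B|) * X :=
          mul_le_mul_of_nonneg_right (by linarith) (by linarith)

/-- **the lemma of Riemann and Lebesgue** on the line `Re s = 1` -/
theorem tendsto_Lam (f : CuspForm (Gamma0 N) 2) {ε : ℝ} (hε : ε = 1 ∨ ε = -1) :
    Tendsto (fun y : ℝ => ‖Lam f (1 + (ε * y : ℝ) * I)‖) atTop (𝓝 0) := by
  have h1 := Real.zero_at_infty_fourier
    (fun u : ℝ => Real.exp (-(1 : ℝ) * u) • phi f (Real.exp (-u)))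
  have h2 : Tendsto (fun y : ℝ => ε * y / (2 * π)) atTop (cocompact ℝ) := by
    rcases hε with rfl | rfl
    · refine Tendsto.mono_right ?_ atTop_le_cocompact
      simp only [one_mul]
      exact tendsto_id.atTop_div_const (by positivity)
    · refine Tendsto.mono_right ?_ atBot_le_cocompact
      simp only [neg_mul, one_mul]
      exact (tendsto_neg_atTop_atBot).atBot_div_const (by positivity)
  have h3 := ((h1.comp h2).norm).const_mul ((N : ℝ) ^ ((1 : ℝ) / 2))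
  rw [norm_zero, mul_zero] at h3
  refine h3.congr fun y => ?_
  have hre : (1 + ((ε * y : ℝ) : ℂ) * I).re = 1 := by simp
  have him : (1 + ((ε * y : ℝ) : ℂ) * I).im = ε * y := by simp
  have hre2 : ((1 + ((ε * y : ℝ) : ℂ) * I) / 2).re = 1 / 2 := by
    have : ((1 + ((ε * y : ℝ) : ℂ) * I) / 2).re = (1 + ((ε * y : ℝ) : ℂ) * I).re / 2 := by simp
    rw [this, hre]
  rw [Lam, Λ_eq, norm_mul, Complex.norm_natCast_cpow_of_pos (Nat.pos_of_ne_zero (NeZero.ne N)),
    mellin_eq_fourier, hre, him, hre2]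
  rfl

variable {f : CuspForm (Gamma0 N) 2}

/-- **The completed L-function of a newform of weight two has infinitely many zeros.** -/
theorem infinite_zeros_Lam (hf : f.IsNewform) : {s | Lam f s = 0}.Infinite := by
  intro hfin
  obtain ⟨A, hA⟩ := exists_growth f
  have hne : ∃ z, Lam f z ≠ 0 := by
    refine ⟨3, fun h => ?_⟩
    have h1 := RankBound.norm_Lam f (s := 3) (by norm_num)
    have h2 := RankBoundAll.le_norm_LF_three' hf
    have h3 : 0 < ‖LF f 3‖ := lt_of_lt_of_le (by positivity) h2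
    have h4 : Complex.Gamma 3 ≠ 0 := Complex.Gamma_ne_zero (Parity.ne_neg_nat_of_re_pos (by norm_num))
    have h5 : 0 < ‖Complex.Gamma 3‖ := norm_pos_iff.mpr h4
    have hN : (0 : ℝ) < N := by exact_mod_cast Nat.pos_of_ne_zero (NeZero.ne N)
    rw [h, norm_zero] at h1
    have : 0 < (N : ℝ) ^ ((3 : ℂ).re / 2) * (2 * π) ^ (-(3 : ℂ).re) * ‖Complex.Gamma 3‖ * ‖LF f 3‖ := by
      positivity
    linarith
  obtain ⟨P, a, b, hP, hF⟩ :=
    EntireOrder.exists_eq_poly_mul_exp (differentiable_Lam f) hne hfin hA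
  obtain ⟨R, hR⟩ := EntireOrder.exists_one_le hP
  obtain ⟨ε, hε, hεb⟩ : ∃ ε : ℝ, (ε = 1 ∨ ε = -1) ∧ 0 ≤ -(ε * b.im) := by
    rcases le_total b.im 0 with h | h
    · exact ⟨1, Or.inl rfl, by linarith⟩
    · exact ⟨-1, Or.inr rfl, by linarith⟩
  have h1 := tendsto_Lam f hε
  have h2 : ∀ᶠ y : ℝ in atTop, Real.exp (a.re + b.re) ≤ ‖Lam f (1 + (ε * y : ℝ) * I)‖ := by
    filter_upwards [eventually_ge_atTop (|R| + 1), eventually_ge_atTop 0] with y hy hy0
    have hnorm : R ≤ ‖(1 : ℂ) + ((ε * y : ℝ) : ℂ) * I‖ := by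
      have h3 : |(1 + ((ε * y : ℝ) : ℂ) * I).im| ≤ ‖(1 : ℂ) + ((ε * y : ℝ) : ℂ) * I‖ :=
        Complex.abs_im_le_norm _
      have h4 : (1 + ((ε * y : ℝ) : ℂ) * I).im = ε * y := by simp
      have h5 : |ε * y| = y := by
        rcases hε with rfl | rfl <;> simp [abs_of_nonneg hy0]
      rw [h4, h5] at h3
      have := le_abs_self R
      linarith
    rw [hF, norm_mul, Complex.norm_exp]
    have h6 : (a + b * (1 + ((ε * y : ℝ) : ℂ) * I)).re = a.re + b.re - ε * y * b.im := by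
      simp
      ring
    rw [h6]
    have h7 : Real.exp (a.re + b.re) ≤ Real.exp (a.re + b.re - ε * y * b.im) := by
      refine Real.exp_le_exp.mpr ?_
      nlinarith
    exact h7.trans (le_mul_of_one_le_left (Real.exp_pos _).le (hR _ hnorm))
  exact absurd (ge_of_tendsto h1 h2) (not_le.mpr (Real.exp_pos _))

theorem LF_eq_zero {z : ℂ} (hz : 0 < z.re) (h0 : Lam f z = 0) : LF f z = 0 := by
  have h1 := RankBound.norm_Lam f hz
  rw [h0, norm_zero] at h1
  have hN : (0 : ℝ) < N := by exact_mod_cast Nat.pos_of_ne_zero (NeZero.ne N)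
  have hG : 0 < ‖Complex.Gamma z‖ :=
    norm_pos_iff.mpr (Complex.Gamma_ne_zero (Parity.ne_neg_nat_of_re_pos hz))
  by_contra hne
  have hL : 0 < ‖LF f z‖ := norm_pos_iff.mpr hne
  have : 0 < (N : ℝ) ^ (z.re / 2) * (2 * π) ^ (-z.re) * ‖Complex.Gamma z‖ * ‖LF f z‖ := by
    positivity
  linarith

/-- **The L-function of a newform of weight two has infinitely many zeros with positive real part** (the trivial
zeros are `0, -1, -2, …`). -/
theorem infinite_zeros_LF (hf : f.IsNewform) : {s | 0 < s.re ∧ LF f s = 0}.Infinite := by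
  intro hfin
  have h1 : {s | Lam f s = 0} ⊆ {s | 0 < s.re ∧ LF f s = 0} ∪
      (fun s => 2 - s) '' {s | 0 < s.re ∧ LF f s = 0} := by
    intro s (hs : Lam f s = 0)
    rcases lt_or_ge 0 s.re with h0 | h0
    · exact Or.inl ⟨h0, LF_eq_zero h0 hs⟩
    · have h2 : Lam f (2 - s) = 0 := by rw [Parity.functional_equation hf, hs, mul_zero]
      have h3 : 0 < (2 - s).re := by
        rw [Complex.sub_re]
        norm_num
        linarith
      exact Or.inr ⟨2 - s, ⟨h3, LF_eq_zero h3 h2⟩, by ring⟩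
  exact infinite_zeros_Lam hf ((hfin.union (hfin.image _)).subset h1)

/-! ### Semistable elliptic curves -/

open Fermat.Agent.Cor.LWeil Fermat.Agent.Cor.AffCount

variable {W : WeierstrassCurve ℤ} {L Λ : ℂ → ℂ}

/-- **The L-function of a semistable elliptic curve over `ℚ` has infinitely many zeros in the critical strip.** -/
theorem infinite_zeros (h : IsHasseWeil W L Λ) (hΔ : W.Δ ≠ 0) (hW : W.IsSemistableModel) :
    {s : ℂ | L s = 0 ∧ 1 / 2 ≤ s.re ∧ s.re ≤ 3 / 2}.Infinite := by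
  obtain ⟨f, hf, hfW⟩ := exists_newform hΔ hW
  have h' := isHasseWeil_of_newform hΔ hf hfW
  rw [h.unique h']
  have key : ∀ z : ℂ, 0 < z.re → Lam f z = 0 → LF f z = 0 ∧ 1 / 2 ≤ z.re ∧ z.re ≤ 3 / 2 := by
    intro z hz h0
    have hL := LF_eq_zero hz h0
    refine ⟨hL, ?_⟩
    rcases h'.strip z hL with ⟨n, hn⟩ | h2
    · exact absurd hn (Parity.ne_neg_nat_of_re_pos hz n)
    · exact h2
  refine (infinite_zeros_Lam hf).mono fun s (hs : Lam f s = 0) => ?_
  rcases lt_or_ge 0 s.re with h0 | h0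
  · exact key s h0 hs
  · have h1 : Lam f (2 - s) = 0 := by rw [h'.functional_equation, hs, mul_zero]
    have e : (2 - s).re = 2 - s.re := by simp
    have h2 := (key (2 - s) (by rw [e]; linarith) h1).2.2
    rw [e] at h2
    linarith

/-- The zeros in the critical strip have unbounded imaginary parts. -/
theorem exists_zero_im_gt (h : IsHasseWeil W L Λ) (hΔ : W.Δ ≠ 0) (hW : W.IsSemistableModel) (T : ℝ) :
    ∃ s : ℂ, L s = 0 ∧ 1 / 2 ≤ s.re ∧ s.re ≤ 3 / 2 ∧ T < |s.im| := by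
  by_contra hcon
  push Not at hcon
  have hsub : {s : ℂ | L s = 0 ∧ 1 / 2 ≤ s.re ∧ s.re ≤ 3 / 2} ⊆
      Metric.closedBall 0 (3 / 2 + |T|) := by
    rintro s ⟨h1, h2, h3⟩
    rw [mem_closedBall_zero_iff]
    have h4 := hcon s h1 h2 h3
    have h5 := Complex.norm_le_abs_re_add_abs_im s
    have h6 : |s.re| = s.re := abs_of_nonneg (by linarith)
    have h7 := le_abs_self T
    linarith
  obtain ⟨x, -, hacc⟩ := (infinite_zeros h hΔ hW).exists_accPt_of_subset_isCompact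
    (isCompact_closedBall 0 _) hsub
  have h1 : AnalyticOnNhd ℂ L univ := fun z _ => h.differentiable_L.analyticAt z
  have h2 : AnalyticOnNhd ℂ (fun _ : ℂ => (0 : ℂ)) univ := fun z _ => analyticAt_const
  have h3 : ∃ᶠ z in 𝓝[≠] x, L z = (fun _ : ℂ => (0 : ℂ)) z := by
    rw [accPt_iff_frequently_nhdsNE] at hacc
    exact hacc.mono fun z hz => hz.1
  have h4 := h1.eq_of_frequently_eq h2 h3
  rcases h.strip 2 (by rw [h4]) with ⟨n, hn⟩ | ⟨-, h5⟩
  · exact Parity.ne_neg_nat_of_re_pos (s := 2) (by norm_num) n hn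
  · norm_num at h5

end Fermat.Agent.Cor.InfiniteZeros
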