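import Fermat.Agent.Cor.MordellEq

/-!
# Integral points on elliptic curves

`integral_points_finite`: for integers `A, B` with `4A³ + 27B² ≠ 0` the equation
`y² = x³ + Ax + B` has only finitely many solutions in integers (Mordell 1922);
`weierstrass_integral_points_finite`: every Weierstrass equation with integral coefficients and
`Δ ≠ 0` has only finitely many integral points.

Proof: an integral point `(x, y)` gives the quartic form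
`X⁴ - 6xX²Y² + 8yXY³ - (4A + 3x²)Y⁴`; its invariants depend only on `A`, `B`. Reduction theory makes
it equivalent to one of finitely many forms `G`, and the equivalence is given by a solution of the
Thue equation `G(u, v) = 1`.
-/

open Polynomial

namespace Fermat.Agent.Cor.Thue

open ComplexConjugate in
theorem sum_im_eq_zero (S : Finset ℂ) (hS : ∀ θ ∈ S, conj θ ∈ S) :
    ∑ θ ∈ S, (∏ η ∈ S, if η = θ then (1 : ℝ) else ‖θ - η‖⁻¹) * θ.im = 0 := by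
  have hW : ∀ θ ∈ S, (∏ η ∈ S, if η = conj θ then (1 : ℝ) else ‖conj θ - η‖⁻¹) =
      ∏ η ∈ S, if η = θ then (1 : ℝ) else ‖θ - η‖⁻¹ := by
    intro θ hθ
    refine Finset.prod_nbij' (fun η ↦ conj η) (fun η ↦ conj η) (fun η hη ↦ hS η hη)
      (fun η hη ↦ hS η hη) (fun η _ ↦ Complex.conj_conj η) (fun η _ ↦ Complex.conj_conj η) ?_
    intro η _
    by_cases h : η = conj θ
    · subst h; simp
    · have h' : conj η ≠ θ := by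
        intro h2; exact h (by rw [← h2, Complex.conj_conj])
      rw [if_neg h, if_neg h', ← Complex.norm_conj (conj θ - η), map_sub, Complex.conj_conj]
  have h1 : ∑ θ ∈ S, (∏ η ∈ S, if η = θ then (1 : ℝ) else ‖θ - η‖⁻¹) * θ.im =
      ∑ θ ∈ S, (∏ η ∈ S, if η = conj θ then (1 : ℝ) else ‖conj θ - η‖⁻¹) * (conj θ).im := by
    refine Finset.sum_nbij' (fun η ↦ conj η) (fun η ↦ conj η) (fun η hη ↦ hS η hη)
      (fun η hη ↦ hS η hη) (fun η _ ↦ Complex.conj_conj η) (fun η _ ↦ Complex.conj_conj η) ?_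
    intro η _
    simp only [Complex.conj_conj]
  have h2 : ∑ θ ∈ S, (∏ η ∈ S, if η = conj θ then (1 : ℝ) else ‖conj θ - η‖⁻¹) * (conj θ).im =
      -∑ θ ∈ S, (∏ η ∈ S, if η = θ then (1 : ℝ) else ‖θ - η‖⁻¹) * θ.im := by
    rw [← Finset.sum_neg_distrib]
    exact Finset.sum_congr rfl fun θ hθ ↦ by rw [hW θ hθ, Complex.conj_im, mul_neg]
  linarith

open ComplexConjugate in
theorem im_covariant4 {θ₁ θ₂ θ₃ θ₄ : ℂ} (h12 : θ₁ ≠ θ₂) (h13 : θ₁ ≠ θ₃) (h14 : θ₁ ≠ θ₄)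
    (h23 : θ₂ ≠ θ₃) (h24 : θ₂ ≠ θ₄) (h34 : θ₃ ≠ θ₄)
    (hS : ∀ θ ∈ ({θ₁, θ₂, θ₃, θ₄} : Finset ℂ), conj θ ∈ ({θ₁, θ₂, θ₃, θ₄} : Finset ℂ)) :
    (‖θ₂ - θ₃‖ * ‖θ₂ - θ₄‖ * ‖θ₃ - θ₄‖) * θ₁.im + (‖θ₁ - θ₃‖ * ‖θ₁ - θ₄‖ * ‖θ₃ - θ₄‖) * θ₂.im +
      (‖θ₁ - θ₂‖ * ‖θ₁ - θ₄‖ * ‖θ₂ - θ₄‖) * θ₃.im +
      (‖θ₁ - θ₂‖ * ‖θ₁ - θ₃‖ * ‖θ₂ - θ₃‖) * θ₄.im = 0 := by
  have h := sum_im_eq_zero _ hS
  have m1 : θ₁ ∉ ({θ₂, θ₃, θ₄} : Finset ℂ) := by simp [h12, h13, h14]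
  have m2 : θ₂ ∉ ({θ₃, θ₄} : Finset ℂ) := by simp [h23, h24]
  have m3 : θ₃ ∉ ({θ₄} : Finset ℂ) := by simp [h34]
  rw [Finset.sum_insert m1, Finset.sum_insert m2, Finset.sum_insert m3, Finset.sum_singleton] at h
  simp only [Finset.prod_insert m1, Finset.prod_insert m2, Finset.prod_insert m3,
    Finset.prod_singleton, if_pos, if_neg h12, if_neg h12.symm, if_neg h13, if_neg h13.symm,
    if_neg h14, if_neg h14.symm, if_neg h23, if_neg h23.symm, if_neg h24, if_neg h24.symm,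
    if_neg h34, if_neg h34.symm, one_mul, mul_one] at h
  rw [norm_sub_rev θ₂ θ₁, norm_sub_rev θ₃ θ₁, norm_sub_rev θ₃ θ₂, norm_sub_rev θ₄ θ₁,
    norm_sub_rev θ₄ θ₂, norm_sub_rev θ₄ θ₃] at h
  have n12 : ‖θ₁ - θ₂‖ ≠ 0 := norm_ne_zero_iff.2 (sub_ne_zero.2 h12)
  have n13 : ‖θ₁ - θ₃‖ ≠ 0 := norm_ne_zero_iff.2 (sub_ne_zero.2 h13)
  have n14 : ‖θ₁ - θ₄‖ ≠ 0 := norm_ne_zero_iff.2 (sub_ne_zero.2 h14)
  have n23 : ‖θ₂ - θ₃‖ ≠ 0 := norm_ne_zero_iff.2 (sub_ne_zero.2 h23)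
  have n24 : ‖θ₂ - θ₄‖ ≠ 0 := norm_ne_zero_iff.2 (sub_ne_zero.2 h24)
  have n34 : ‖θ₃ - θ₄‖ ≠ 0 := norm_ne_zero_iff.2 (sub_ne_zero.2 h34)
  have h' := congrArg (fun t ↦ ‖θ₁ - θ₂‖ * ‖θ₁ - θ₃‖ * ‖θ₁ - θ₄‖ * ‖θ₂ - θ₃‖ * ‖θ₂ - θ₄‖ *
    ‖θ₃ - θ₄‖ * t) h
  simp only [mul_zero] at h'
  rw [← h']
  field_simp
  ring

/-- Products of four bounded factors. -/
theorem prod_le4 {w₁ w₂ w₃ w₄ x y z t X Y Z T : ℝ} (h₁ : 0 ≤ w₁) (h₂ : 0 ≤ w₂) (h₃ : 0 ≤ w₃)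
    (h₄ : 0 ≤ w₄) (hx : 0 ≤ x) (hy : 0 ≤ y) (hz : 0 ≤ z) (ht : 0 ≤ t) (hX : w₁ * x ≤ X)
    (hY : w₂ * y ≤ Y) (hZ : w₃ * z ≤ Z) (hT : w₄ * t ≤ T) :
    w₁ * w₂ * w₃ * w₄ * (x * y * z * t) ≤ X * Y * Z * T := by
  have h1 : 0 ≤ w₁ * x := by positivity
  have h2 : 0 ≤ w₂ * y := by positivity
  have h3 : 0 ≤ w₃ * z := by positivity
  have h4 : 0 ≤ w₄ * t := by positivity
  calc w₁ * w₂ * w₃ * w₄ * (x * y * z * t) = (w₁ * x) * (w₂ * y) * (w₃ * z) * (w₄ * t) := by ring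
    _ ≤ X * Y * Z * T := mul_le_mul (mul_le_mul (mul_le_mul hX hY h2 (h1.trans hX)) hZ h3
        (mul_nonneg (h1.trans hX) (h2.trans hY))) hT h4
        (mul_nonneg (mul_nonneg (h1.trans hX) (h2.trans hY)) (h3.trans hZ))

theorem normSq_add_four (x y z t : ℂ) : Complex.normSq (x + y + z + t) ≤
    4 * (Complex.normSq x + Complex.normSq y + Complex.normSq z + Complex.normSq t) := by
  simp only [Complex.normSq_apply, Complex.add_re, Complex.add_im]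
  nlinarith [sq_nonneg (x.re - y.re), sq_nonneg (x.re - z.re), sq_nonneg (y.re - z.re),
    sq_nonneg (x.im - y.im), sq_nonneg (x.im - z.im), sq_nonneg (y.im - z.im),
    sq_nonneg (x.re - t.re), sq_nonneg (y.re - t.re), sq_nonneg (z.re - t.re),
    sq_nonneg (x.im - t.im), sq_nonneg (y.im - t.im), sq_nonneg (z.im - t.im)]

theorem normSq_add_six (x y z t u v : ℂ) : Complex.normSq (x + y + z + t + u + v) ≤
    6 * (Complex.normSq x + Complex.normSq y + Complex.normSq z + Complex.normSq t +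
      Complex.normSq u + Complex.normSq v) := by
  have h1 := normSq_add_three x y z
  have h2 := normSq_add_three t u v
  have h3 : Complex.normSq (x + y + z + t + u + v) ≤
      2 * (Complex.normSq (x + y + z) + Complex.normSq (t + u + v)) := by
    simp only [Complex.normSq_apply, Complex.add_re, Complex.add_im]
    nlinarith [sq_nonneg (x.re + y.re + z.re - (t.re + u.re + v.re)),
      sq_nonneg (x.im + y.im + z.im - (t.im + u.im + v.im))]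
  linarith

set_option maxHeartbeats 2000000 in
/-- The coefficients of a reduced quartic form are bounded. -/
theorem coeff_bound4 {w₁ w₂ w₃ w₄ A C D M ε : ℝ} (h₁ : 0 ≤ w₁) (h₂ : 0 ≤ w₂) (h₃ : 0 ≤ w₃)
    (h₄ : 0 ≤ w₄) {α₁ α₂ α₃ α₄ β₁ β₂ β₃ β₄ : ℂ} (hD : w₁ * w₂ * w₃ * w₄ = D) (hD0 : 0 < D)
    (hA : w₁ * Complex.normSq α₁ + w₂ * Complex.normSq α₂ + w₃ * Complex.normSq α₃ +
      w₄ * Complex.normSq α₄ = A)
    (hC : w₁ * Complex.normSq β₁ + w₂ * Complex.normSq β₂ + w₃ * Complex.normSq β₃ +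
      w₄ * Complex.normSq β₄ = C)
    (hAC : A * C ≤ M) (hε0 : 0 < ε) (hε1 : ε ≤ 1) (hεD : ε ≤ D) (hεM : 16 * M * ε ≤ D)
    {a b c d e : ℤ} (ha : (a : ℂ) = α₁ * α₂ * α₃ * α₄)
    (hb : (b : ℂ) = α₁ * α₂ * α₃ * β₄ + α₁ * α₂ * β₃ * α₄ + α₁ * β₂ * α₃ * α₄ +
      β₁ * α₂ * α₃ * α₄)
    (hc : (c : ℂ) = α₁ * α₂ * β₃ * β₄ + α₁ * β₂ * α₃ * β₄ + β₁ * α₂ * α₃ * β₄ +
      α₁ * β₂ * β₃ * α₄ + β₁ * α₂ * β₃ * α₄ + β₁ * β₂ * α₃ * α₄)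
    (hd : (d : ℂ) = α₁ * β₂ * β₃ * β₄ + β₁ * α₂ * β₃ * β₄ + β₁ * β₂ * α₃ * β₄ +
      β₁ * β₂ * β₃ * α₄)
    (he : (e : ℂ) = β₁ * β₂ * β₃ * β₄) (hab : ¬ (a = 0 ∧ b = 0)) (hde : ¬ (d = 0 ∧ e = 0)) :
    D * (a : ℝ) ^ 2 ≤ 36 * (M / ε) ^ 4 ∧ D * (b : ℝ) ^ 2 ≤ 36 * (M / ε) ^ 4 ∧
      D * (c : ℝ) ^ 2 ≤ 36 * (M / ε) ^ 4 ∧ D * (d : ℝ) ^ 2 ≤ 36 * (M / ε) ^ 4 ∧
      D * (e : ℝ) ^ 2 ≤ 36 * (M / ε) ^ 4 := by
  have n1 := Complex.normSq_nonneg α₁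
  have n2 := Complex.normSq_nonneg α₂
  have n3 := Complex.normSq_nonneg α₃
  have n4 := Complex.normSq_nonneg α₄
  have m1 := Complex.normSq_nonneg β₁
  have m2 := Complex.normSq_nonneg β₂
  have m3 := Complex.normSq_nonneg β₃
  have m4 := Complex.normSq_nonneg β₄
  have wa1 : 0 ≤ w₁ * Complex.normSq α₁ := by positivity
  have wa2 : 0 ≤ w₂ * Complex.normSq α₂ := by positivity
  have wa3 : 0 ≤ w₃ * Complex.normSq α₃ := by positivity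
  have wa4 : 0 ≤ w₄ * Complex.normSq α₄ := by positivity
  have wb1 : 0 ≤ w₁ * Complex.normSq β₁ := by positivity
  have wb2 : 0 ≤ w₂ * Complex.normSq β₂ := by positivity
  have wb3 : 0 ≤ w₃ * Complex.normSq β₃ := by positivity
  have wb4 : 0 ≤ w₄ * Complex.normSq β₄ := by positivity
  have a1 : w₁ * Complex.normSq α₁ ≤ A := by linarith
  have a2 : w₂ * Complex.normSq α₂ ≤ A := by linarith
  have a3 : w₃ * Complex.normSq α₃ ≤ A := by linarith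
  have a4 : w₄ * Complex.normSq α₄ ≤ A := by linarith
  have b1 : w₁ * Complex.normSq β₁ ≤ C := by linarith
  have b2 : w₂ * Complex.normSq β₂ ≤ C := by linarith
  have b3 : w₃ * Complex.normSq β₃ ≤ C := by linarith
  have b4 : w₄ * Complex.normSq β₄ ≤ C := by linarith
  have hA0 : 0 ≤ A := by linarith
  have hC0 : 0 ≤ C := by linarith
  have sq : ∀ n : ℤ, (n : ℝ) ^ 2 = Complex.normSq (n : ℂ) := by
    intro n; rw [Complex.normSq_intCast]; ring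
  have haA : D * (a : ℝ) ^ 2 ≤ A * A * A * A := by
    rw [sq, ha, map_mul, map_mul, map_mul, ← hD]
    exact prod_le4 h₁ h₂ h₃ h₄ n1 n2 n3 n4 a1 a2 a3 a4
  have heC : D * (e : ℝ) ^ 2 ≤ C * C * C * C := by
    rw [sq, he, map_mul, map_mul, map_mul, ← hD]
    exact prod_le4 h₁ h₂ h₃ h₄ m1 m2 m3 m4 b1 b2 b3 b4
  have hbA : D * (b : ℝ) ^ 2 ≤ 16 * (A * A * A * C) := by
    have q := normSq_add_four (α₁ * α₂ * α₃ * β₄) (α₁ * α₂ * β₃ * α₄) (α₁ * β₂ * α₃ * α₄)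
      (β₁ * α₂ * α₃ * α₄)
    rw [← hb, ← sq] at q
    simp only [map_mul] at q
    have e1 := prod_le4 h₁ h₂ h₃ h₄ n1 n2 n3 m4 a1 a2 a3 b4
    have e2 := prod_le4 h₁ h₂ h₃ h₄ n1 n2 m3 n4 a1 a2 b3 a4
    have e3 := prod_le4 h₁ h₂ h₃ h₄ n1 m2 n3 n4 a1 b2 a3 a4
    have e4 := prod_le4 h₁ h₂ h₃ h₄ m1 n2 n3 n4 b1 a2 a3 a4
    rw [hD] at e1 e2 e3 e4
    have e5 := mul_le_mul_of_nonneg_left q hD0.le
    linarith
  have hdC : D * (d : ℝ) ^ 2 ≤ 16 * (A * C * C * C) := by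
    have q := normSq_add_four (α₁ * β₂ * β₃ * β₄) (β₁ * α₂ * β₃ * β₄) (β₁ * β₂ * α₃ * β₄)
      (β₁ * β₂ * β₃ * α₄)
    rw [← hd, ← sq] at q
    simp only [map_mul] at q
    have e1 := prod_le4 h₁ h₂ h₃ h₄ n1 m2 m3 m4 a1 b2 b3 b4
    have e2 := prod_le4 h₁ h₂ h₃ h₄ m1 n2 m3 m4 b1 a2 b3 b4
    have e3 := prod_le4 h₁ h₂ h₃ h₄ m1 m2 n3 m4 b1 b2 a3 b4
    have e4 := prod_le4 h₁ h₂ h₃ h₄ m1 m2 m3 n4 b1 b2 b3 a4
    rw [hD] at e1 e2 e3 e4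
    have e5 := mul_le_mul_of_nonneg_left q hD0.le
    linarith
  have hcC : D * (c : ℝ) ^ 2 ≤ 36 * (A * A * C * C) := by
    have q := normSq_add_six (α₁ * α₂ * β₃ * β₄) (α₁ * β₂ * α₃ * β₄) (β₁ * α₂ * α₃ * β₄)
      (α₁ * β₂ * β₃ * α₄) (β₁ * α₂ * β₃ * α₄) (β₁ * β₂ * α₃ * α₄)
    rw [← hc, ← sq] at q
    simp only [map_mul] at q
    have e1 := prod_le4 h₁ h₂ h₃ h₄ n1 n2 m3 m4 a1 a2 b3 b4
    have e2 := prod_le4 h₁ h₂ h₃ h₄ n1 m2 n3 m4 a1 b2 a3 b4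
    have e3 := prod_le4 h₁ h₂ h₃ h₄ m1 n2 n3 m4 b1 a2 a3 b4
    have e4 := prod_le4 h₁ h₂ h₃ h₄ n1 m2 m3 n4 a1 b2 b3 a4
    have e6 := prod_le4 h₁ h₂ h₃ h₄ m1 n2 m3 n4 b1 a2 b3 a4
    have e7 := prod_le4 h₁ h₂ h₃ h₄ m1 m2 n3 n4 b1 b2 a3 a4
    rw [hD] at e1 e2 e3 e4 e6 e7
    have e5 := mul_le_mul_of_nonneg_left q hD0.le
    linarith
  have one : ∀ n : ℤ, n ≠ 0 → (1 : ℝ) ≤ (n : ℝ) ^ 2 := by
    intro n hn
    have : (1 : ℤ) ≤ n ^ 2 := by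
      have := Int.one_le_abs hn
      nlinarith [sq_abs n]
    exact_mod_cast this
  have hM0 : 0 ≤ M := (mul_nonneg hA0 hC0).trans hAC
  have hU : ∀ Z : ℝ, 0 ≤ Z → Z < ε → Z * Z * Z * Z < D := by
    intro Z hZ hZε
    have h1 : Z ≤ 1 := by linarith
    have h2 : Z * Z ≤ 1 := mul_le_one₀ h1 hZ h1
    have h3 : Z * Z * Z ≤ 1 := mul_le_one₀ h2 hZ h1
    calc Z * Z * Z * Z ≤ 1 * Z := mul_le_mul_of_nonneg_right h3 hZ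
      _ < D := by linarith
  have hAl : ε ≤ A := by
    by_contra hcon
    rw [not_le] at hcon
    by_cases h0 : a = 0
    · have hb0 : b ≠ 0 := fun h ↦ hab ⟨h0, h⟩
      have h1 : D ≤ 16 * (A * A * A * C) := (le_mul_of_one_le_right hD0.le (one b hb0)).trans hbA
      have h2 : A * A * (A * C) ≤ A * A * M := mul_le_mul_of_nonneg_left hAC (by positivity)
      have h3 : A * A * M ≤ A * M := by
        have : A * A ≤ 1 * A := mul_le_mul_of_nonneg_right (by linarith) hA0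
        calc A * A * M ≤ 1 * A * M := mul_le_mul_of_nonneg_right this hM0
          _ = _ := by ring
      rcases hM0.eq_or_lt with h4 | h4
      · rw [← h4] at h3 h2; linarith
      · have h5 : A * M < ε * M := mul_lt_mul_of_pos_right hcon h4
        linarith
    · have h1 : D ≤ A * A * A * A := (le_mul_of_one_le_right hD0.le (one a h0)).trans haA
      have := hU A hA0 hcon
      linarith
  have hCl : ε ≤ C := by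
    by_contra hcon
    rw [not_le] at hcon
    by_cases h0 : e = 0
    · have hb0 : d ≠ 0 := fun h ↦ hde ⟨h, h0⟩
      have h1 : D ≤ 16 * (A * C * C * C) := (le_mul_of_one_le_right hD0.le (one d hb0)).trans hdC
      have h2 : A * C * (C * C) ≤ M * (C * C) := mul_le_mul_of_nonneg_right hAC (by positivity)
      have h3 : M * (C * C) ≤ M * C := by
        refine mul_le_mul_of_nonneg_left ?_ hM0
        have : C * C ≤ 1 * C := mul_le_mul_of_nonneg_right (by linarith) hC0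
        linarith
      rcases hM0.eq_or_lt with h4 | h4
      · rw [← h4] at h3 h2; linarith
      · have h5 : M * C < M * ε := mul_lt_mul_of_pos_left hcon h4
        linarith
    · have h1 : D ≤ C * C * C * C := (le_mul_of_one_le_right hD0.le (one e h0)).trans heC
      have := hU C hC0 hcon
      linarith
  have hAu : A ≤ M / ε := by
    rw [le_div_iff₀ hε0]
    exact (mul_le_mul_of_nonneg_left hCl hA0).trans hAC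
  have hCu : C ≤ M / ε := by
    rw [le_div_iff₀ hε0, mul_comm]
    exact (mul_le_mul_of_nonneg_right hAl hC0).trans hAC
  have hU0 : 0 ≤ M / ε := by positivity
  set U := M / ε
  have p1 : A * A * A * A ≤ U ^ 4 := by
    rw [show U ^ 4 = U * U * U * U by ring]; gcongr
  have p2 : A * A * A * C ≤ U ^ 4 := by
    rw [show U ^ 4 = U * U * U * U by ring]; gcongr
  have p3 : A * A * C * C ≤ U ^ 4 := by
    rw [show U ^ 4 = U * U * U * U by ring]; gcongr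
  have p4 : A * C * C * C ≤ U ^ 4 := by
    rw [show U ^ 4 = U * U * U * U by ring]; gcongr
  have p5 : C * C * C * C ≤ U ^ 4 := by
    rw [show U ^ 4 = U * U * U * U by ring]; gcongr
  have hU4 : 0 ≤ U ^ 4 := by positivity
  exact ⟨by linarith, by linarith, by linarith, by linarith, by linarith⟩

theorem lin_sep {a b : ℂ} (ha : a ≠ 0) : (C a * X + C b : ℂ[X]).Separable := by
  rw [separable_def']
  refine ⟨0, C a⁻¹, ?_⟩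
  rw [derivative_add, derivative_C_mul, derivative_X, derivative_C, zero_mul, zero_add, add_zero,
    mul_one, ← C_mul, inv_mul_cancel₀ ha, C_1]

theorem lin_cop {a b c d : ℂ} (h : a * d - b * c ≠ 0) :
    IsCoprime (C a * X + C b : ℂ[X]) (C c * X + C d) := by
  refine ⟨C (-c * (a * d - b * c)⁻¹), C (a * (a * d - b * c)⁻¹), ?_⟩
  calc _ = C (a * d - b * c)⁻¹ * (C a * C d - C b * C c) := by
        simp only [C_mul, C_neg]; ring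
    _ = 1 := by rw [← C_mul, ← C_mul, ← C_sub, ← C_mul, inv_mul_cancel₀ h, C_1]

theorem not_both {α₁ α₂ α₃ α₄ β₁ β₂ β₃ β₄ : ℂ} (h12 : α₁ * β₂ - β₁ * α₂ ≠ 0)
    (h13 : α₁ * β₃ - β₁ * α₃ ≠ 0) (h14 : α₁ * β₄ - β₁ * α₄ ≠ 0) (h23 : α₂ * β₃ - β₂ * α₃ ≠ 0)
    (h24 : α₂ * β₄ - β₂ * α₄ ≠ 0) (h34 : α₃ * β₄ - β₃ * α₄ ≠ 0)
    (h : α₁ * α₂ * α₃ * α₄ = 0)
    (h' : α₁ * α₂ * α₃ * β₄ + α₁ * α₂ * β₃ * α₄ + α₁ * β₂ * α₃ * α₄ +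
      β₁ * α₂ * α₃ * α₄ = 0) : False := by
  rcases mul_eq_zero.1 h with h | h
  · rcases mul_eq_zero.1 h with h | h
    · rcases mul_eq_zero.1 h with h | h
      · simp only [h, zero_mul, zero_sub, zero_add, ne_eq, neg_eq_zero, mul_eq_zero,
          not_or] at *
        tauto
      · simp only [h, zero_mul, mul_zero, sub_zero, zero_sub, zero_add, add_zero, ne_eq,
          neg_eq_zero, mul_eq_zero, not_or] at *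
        tauto
    · simp only [h, zero_mul, mul_zero, sub_zero, zero_sub, zero_add, add_zero, ne_eq,
        neg_eq_zero, mul_eq_zero, not_or] at *
      tauto
  · simp only [h, mul_zero, sub_zero, add_zero, ne_eq,
      mul_eq_zero, not_or] at *
    tauto

theorem quartic_finite {α₁ α₂ α₃ α₄ β₁ β₂ β₃ β₄ : ℂ} (h12 : α₁ * β₂ - β₁ * α₂ ≠ 0)
    (h13 : α₁ * β₃ - β₁ * α₃ ≠ 0) (h14 : α₁ * β₄ - β₁ * α₄ ≠ 0) (h23 : α₂ * β₃ - β₂ * α₃ ≠ 0)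
    (h24 : α₂ * β₄ - β₂ * α₄ ≠ 0) (h34 : α₃ * β₄ - β₃ * α₄ ≠ 0)
    {a b c d e : ℤ} (ha : (a : ℂ) = α₁ * α₂ * α₃ * α₄)
    (hb : (b : ℂ) = α₁ * α₂ * α₃ * β₄ + α₁ * α₂ * β₃ * α₄ + α₁ * β₂ * α₃ * α₄ +
      β₁ * α₂ * α₃ * α₄)
    (hc : (c : ℂ) = α₁ * α₂ * β₃ * β₄ + α₁ * β₂ * α₃ * β₄ + β₁ * α₂ * α₃ * β₄ +
      α₁ * β₂ * β₃ * α₄ + β₁ * α₂ * β₃ * α₄ + β₁ * β₂ * α₃ * α₄)
    (hd : (d : ℂ) = α₁ * β₂ * β₃ * β₄ + β₁ * α₂ * β₃ * β₄ + β₁ * β₂ * α₃ * β₄ +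
      β₁ * β₂ * β₃ * α₄)
    (he : (e : ℂ) = β₁ * β₂ * β₃ * β₄) :
    {x : ℤ × ℤ | a * x.1 ^ 4 + b * x.1 ^ 3 * x.2 + c * x.1 ^ 2 * x.2 ^ 2 + d * x.1 * x.2 ^ 3 +
      e * x.2 ^ 4 = 1}.Finite := by
  by_cases ha0 : a = 0
  · have hb0 : b ≠ 0 := by
      intro hb0
      refine not_both h12 h13 h14 h23 h24 h34 (by rw [← ha, ha0]; simp) (by rw [← hb, hb0]; simp)
    have hcub : ∀ e' f' g' : ℤ, {x : ℤ | b * x ^ 3 + e' * x ^ 2 + f' * x + g' = 0}.Finite := by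
      intro e' f' g'
      set g : ℤ[X] := C b * X ^ 3 + C e' * X ^ 2 + C f' * X + C g' with hg
      have hg0 : g ≠ 0 := by
        intro h
        have := natDegree_cubic (b := e') (c := f') (d := g') hb0
        rw [← hg, h, natDegree_zero] at this
        omega
      refine (g.roots.toFinset.finite_toSet).subset ?_
      intro x hx
      rw [Finset.mem_coe, Multiset.mem_toFinset, mem_roots hg0, IsRoot.def, hg]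
      simp only [eval_add, eval_mul, eval_C, eval_pow, eval_X]
      exact hx
    refine (((hcub c d (e - 1)).prod (Set.finite_singleton (1 : ℤ))).union
      ((hcub (-c) d (-e + 1)).prod (Set.finite_singleton (-1 : ℤ)))).subset ?_
    rintro ⟨x, y⟩ hxy
    simp only [Set.mem_ofPred_eq] at hxy
    rw [ha0] at hxy
    have h1 : y * (b * x ^ 3 + c * x ^ 2 * y + d * x * y ^ 2 + e * y ^ 3) = 1 := by
      linear_combination hxy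
    rcases Int.isUnit_iff.1 (IsUnit.of_mul_eq_one _ h1) with rfl | rfl
    · left
      refine ⟨?_, rfl⟩
      show b * x ^ 3 + c * x ^ 2 + d * x + (e - 1) = 0
      linear_combination h1
    · right
      refine ⟨?_, rfl⟩
      show b * x ^ 3 + (-c) * x ^ 2 + d * x + (-e + 1) = 0
      linear_combination -h1
  · set f : ℤ[X] := C a * X ^ 4 + C b * X ^ 3 + C c * X ^ 2 + C d * X + C e with hf
    have hnd : f.natDegree = 4 := by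
      rw [hf]; compute_degree!
    have hac : α₁ * α₂ * α₃ * α₄ ≠ 0 := by rw [← ha]; exact_mod_cast ha0
    have hsep : (f.map (Int.castRingHom ℚ)).Separable := by
      rw [← separable_map (algebraMap ℚ ℂ), Polynomial.map_map]
      have hcomp : (algebraMap ℚ ℂ).comp (Int.castRingHom ℚ) = Int.castRingHom ℂ :=
        RingHom.ext_int _ _
      rw [hcomp]
      have hmap : f.map (Int.castRingHom ℂ) = (C α₁ * X + C β₁) * (C α₂ * X + C β₂) *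
          (C α₃ * X + C β₃) * (C α₄ * X + C β₄) := by
        rw [hf]
        simp only [Polynomial.map_add, Polynomial.map_mul, Polynomial.map_pow, map_C, map_X,
          Int.coe_castRingHom]
        rw [ha, hb, hc, hd, he]
        simp only [C_mul, C_add]
        ring
      rw [hmap]
      have n4 : α₄ ≠ 0 := right_ne_zero_of_mul hac
      have n3 : α₃ ≠ 0 := right_ne_zero_of_mul (left_ne_zero_of_mul hac)
      have n12 := left_ne_zero_of_mul (left_ne_zero_of_mul hac)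
      have n2 : α₂ ≠ 0 := right_ne_zero_of_mul n12
      have n1 : α₁ ≠ 0 := left_ne_zero_of_mul n12
      refine (((lin_sep n1).mul (lin_sep n2) (lin_cop h12)).mul (lin_sep n3) ?_).mul
        (lin_sep n4) ?_
      · exact (lin_cop h13).mul_left (lin_cop h23)
      · exact ((lin_cop h14).mul_left (lin_cop h24)).mul_left (lin_cop h34)
    have h := thue_equation' hsep (by rw [hnd]; norm_num) one_ne_zero
    refine h.subset ?_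
    rintro ⟨x, y⟩ hxy
    simp only [Set.mem_ofPred_eq] at hxy ⊢
    rw [form, hnd, ← hxy]
    have hcoef : ∀ i, f.coeff i = (if i = 4 then a else 0) + (if i = 3 then b else 0) +
        (if i = 2 then c else 0) + (if i = 1 then d else 0) + (if i = 0 then e else 0) := by
      intro i
      rw [hf]
      simp only [coeff_add, coeff_C_mul_X_pow, coeff_C_mul_X, coeff_C]
    have c0 : f.coeff 0 = e := by rw [hcoef]; norm_num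
    have c1 : f.coeff 1 = d := by rw [hcoef]; norm_num
    have c2 : f.coeff 2 = c := by rw [hcoef]; norm_num
    have c3 : f.coeff 3 = b := by rw [hcoef]; norm_num
    have c4 : f.coeff 4 = a := by rw [hcoef]; norm_num
    simp only [Finset.sum_range_succ, Finset.sum_range_zero, c0, c1, c2, c3, c4]
    ring

/-- The quartic form, the first column and the vanishing of the `X³Y` coefficient determine the
point. -/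
theorem rel_unique4 {a b c d e u v w₁ w₂ x y w₁' w₂' x' y' : ℤ}
    (hG : a * u ^ 4 + b * u ^ 3 * v + c * u ^ 2 * v ^ 2 + d * u * v ^ 3 + e * v ^ 4 = 1)
    (hw : u * w₂ - v * w₁ = 1) (hw' : u * w₂' - v * w₁' = 1)
    (hB : 4 * a * u ^ 3 * w₁ + b * (u ^ 3 * w₂ + 3 * u ^ 2 * v * w₁) +
      c * (2 * u ^ 2 * v * w₂ + 2 * u * v ^ 2 * w₁) + d * (3 * u * v ^ 2 * w₂ + v ^ 3 * w₁) +
      4 * e * v ^ 3 * w₂ = 0)
    (hB' : 4 * a * u ^ 3 * w₁' + b * (u ^ 3 * w₂' + 3 * u ^ 2 * v * w₁') +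
      c * (2 * u ^ 2 * v * w₂' + 2 * u * v ^ 2 * w₁') + d * (3 * u * v ^ 2 * w₂' + v ^ 3 * w₁') +
      4 * e * v ^ 3 * w₂' = 0)
    (hC : 6 * a * u ^ 2 * w₁ ^ 2 + b * (3 * u ^ 2 * w₁ * w₂ + 3 * u * v * w₁ ^ 2) +
      c * (u ^ 2 * w₂ ^ 2 + 4 * u * v * w₁ * w₂ + v ^ 2 * w₁ ^ 2) +
      d * (3 * u * v * w₂ ^ 2 + 3 * v ^ 2 * w₁ * w₂) + 6 * e * v ^ 2 * w₂ ^ 2 = -6 * x)
    (hC' : 6 * a * u ^ 2 * w₁' ^ 2 + b * (3 * u ^ 2 * w₁' * w₂' + 3 * u * v * w₁' ^ 2) +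
      c * (u ^ 2 * w₂' ^ 2 + 4 * u * v * w₁' * w₂' + v ^ 2 * w₁' ^ 2) +
      d * (3 * u * v * w₂' ^ 2 + 3 * v ^ 2 * w₁' * w₂') + 6 * e * v ^ 2 * w₂' ^ 2 = -6 * x')
    (hD : 4 * a * u * w₁ ^ 3 + b * (3 * u * w₁ ^ 2 * w₂ + v * w₁ ^ 3) +
      c * (2 * u * w₁ * w₂ ^ 2 + 2 * v * w₁ ^ 2 * w₂) + d * (u * w₂ ^ 3 + 3 * v * w₁ * w₂ ^ 2) +
      4 * e * v * w₂ ^ 3 = 8 * y)
    (hD' : 4 * a * u * w₁' ^ 3 + b * (3 * u * w₁' ^ 2 * w₂' + v * w₁' ^ 3) +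
      c * (2 * u * w₁' * w₂' ^ 2 + 2 * v * w₁' ^ 2 * w₂') +
      d * (u * w₂' ^ 3 + 3 * v * w₁' * w₂' ^ 2) + 4 * e * v * w₂' ^ 3 = 8 * y') :
    x = x' ∧ y = y' := by
  obtain ⟨n, hn⟩ : ∃ n, n = w₁' * w₂ - w₂' * w₁ := ⟨_, rfl⟩
  have h1 : w₁' = w₁ + n * u := by
    rw [hn]; linear_combination w₁ * hw' - w₁' * hw
  have h2 : w₂' = w₂ + n * v := by
    rw [hn]; linear_combination w₂ * hw' - w₂' * hw
  have h3 : 4 * n = 0 := by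
    rw [h1, h2] at hB'
    linear_combination hB' - hB - 4 * n * hG
  have h4 : n = 0 := by omega
  rw [h4, zero_mul, add_zero] at h1 h2
  rw [h1, h2] at hC' hD'
  rw [hC] at hC'
  rw [hD] at hD'
  constructor <;> omega

set_option maxHeartbeats 2000000 in
/-- **Reduction** of the quartic form `X⁴ - 6xX²Y² + 8yXY³ - (4A + 3x²)Y⁴` attached to a solution
of `y² = x³ + Ax + B`. -/
theorem exists_reduced_quartic {A B x y : ℤ} {e₁ e₂ e₃ : ℂ} (s1 : e₁ + e₂ + e₃ = 0)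
    (s2 : e₁ * e₂ + e₁ * e₃ + e₂ * e₃ = A) (s3 : e₁ * e₂ * e₃ = -B)
    (h12 : e₁ ≠ e₂) (h13 : e₁ ≠ e₃) (h23 : e₂ ≠ e₃) {D M ε : ℝ}
    (hD : D = ((4 * ‖e₂ - e₃‖) * (4 * ‖e₁ - e₃‖) * (4 * ‖e₁ - e₂‖)) ^ 2)
    (hM : M = 4 / 3 * (2 * ((4 * ‖e₂ - e₃‖) * (4 * ‖e₁ - e₃‖) * (4 * ‖e₁ - e₂‖)) *
      (4 * ‖e₂ - e₃‖ + 4 * ‖e₁ - e₃‖ + 4 * ‖e₁ - e₂‖)))
    (hε0 : 0 < ε) (hε1 : ε ≤ 1) (hεD : ε ≤ D) (hεM : 16 * M * ε ≤ D)
    (hxy : y ^ 2 = x ^ 3 + A * x + B) :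
    ∃ p q r s a b c d e : ℤ, p * s - q * r = 1 ∧
      a = p ^ 4 - 6 * x * (p ^ 2 * r ^ 2) + 8 * y * (p * r ^ 3) + (-4 * A - 3 * x ^ 2) * r ^ 4 ∧
      b = 4 * p ^ 3 * q - 6 * x * (2 * p * q * r ^ 2 + 2 * p ^ 2 * r * s) +
        8 * y * (q * r ^ 3 + 3 * p * r ^ 2 * s) + (-4 * A - 3 * x ^ 2) * (4 * r ^ 3 * s) ∧
      c = 6 * p ^ 2 * q ^ 2 - 6 * x * (q ^ 2 * r ^ 2 + 4 * p * q * r * s + p ^ 2 * s ^ 2) +
        8 * y * (3 * q * r ^ 2 * s + 3 * p * r * s ^ 2) +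
        (-4 * A - 3 * x ^ 2) * (6 * r ^ 2 * s ^ 2) ∧
      d = 4 * p * q ^ 3 - 6 * x * (2 * q ^ 2 * r * s + 2 * p * q * s ^ 2) +
        8 * y * (3 * q * r * s ^ 2 + p * s ^ 3) + (-4 * A - 3 * x ^ 2) * (4 * r * s ^ 3) ∧
      e = q ^ 4 - 6 * x * (q ^ 2 * s ^ 2) + 8 * y * (q * s ^ 3) + (-4 * A - 3 * x ^ 2) * s ^ 4 ∧
      {z : ℤ × ℤ | a * z.1 ^ 4 + b * z.1 ^ 3 * z.2 + c * z.1 ^ 2 * z.2 ^ 2 +
        d * z.1 * z.2 ^ 3 + e * z.2 ^ 4 = 1}.Finite ∧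
      D * (a : ℝ) ^ 2 ≤ 36 * (M / ε) ^ 4 ∧ D * (b : ℝ) ^ 2 ≤ 36 * (M / ε) ^ 4 ∧
      D * (c : ℝ) ^ 2 ≤ 36 * (M / ε) ^ 4 ∧ D * (d : ℝ) ^ 2 ≤ 36 * (M / ε) ^ 4 ∧
      D * (e : ℝ) ^ 2 ≤ 36 * (M / ε) ^ 4 := by
  have hxy' : (y : ℂ) ^ 2 = (x : ℂ) ^ 3 + A * x + B := by exact_mod_cast hxy
  obtain ⟨z₂, hz₂⟩ : ∃ z : ℂ, z ^ 2 = x - e₂ := IsAlgClosed.exists_pow_nat_eq _ two_pos
  obtain ⟨z₃, hz₃⟩ : ∃ z : ℂ, z ^ 2 = x - e₃ := IsAlgClosed.exists_pow_nat_eq _ two_pos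
  obtain ⟨z₁, hz₁, hz⟩ : ∃ z : ℂ, z ^ 2 = x - e₁ ∧ z * z₂ * z₃ = -y := by
    obtain ⟨z, hz1⟩ : ∃ z : ℂ, z ^ 2 = x - e₁ := IsAlgClosed.exists_pow_nat_eq _ two_pos
    have h1 : (z * z₂ * z₃) ^ 2 = (y : ℂ) ^ 2 := by
      rw [mul_pow, mul_pow, hz1, hz₂, hz₃, hxy']
      linear_combination (-(x : ℂ) ^ 2) * s1 + x * s2 - s3
    rcases sq_eq_sq_iff_eq_or_eq_neg.1 h1 with h | h
    · exact ⟨-z, by rw [neg_sq, hz1], by rw [← h]; ring⟩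
    · exact ⟨z, hz1, h⟩
  obtain ⟨θ₁, hθ₁⟩ : ∃ t, t = z₁ + z₂ + z₃ := ⟨_, rfl⟩
  obtain ⟨θ₂, hθ₂⟩ : ∃ t, t = z₁ - z₂ - z₃ := ⟨_, rfl⟩
  obtain ⟨θ₃, hθ₃⟩ : ∃ t, t = -z₁ + z₂ - z₃ := ⟨_, rfl⟩
  obtain ⟨θ₄, hθ₄⟩ : ∃ t, t = -z₁ - z₂ + z₃ := ⟨_, rfl⟩
  have E1 : θ₁ + θ₂ + θ₃ + θ₄ = 0 := by rw [hθ₁, hθ₂, hθ₃, hθ₄]; ring
  have E2 : θ₁ * θ₂ + θ₁ * θ₃ + θ₁ * θ₄ + θ₂ * θ₃ + θ₂ * θ₄ + θ₃ * θ₄ = -6 * x := by
    have : θ₁ * θ₂ + θ₁ * θ₃ + θ₁ * θ₄ + θ₂ * θ₃ + θ₂ * θ₄ + θ₃ * θ₄ =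
      -2 * (z₁ ^ 2 + z₂ ^ 2 + z₃ ^ 2) := by rw [hθ₁, hθ₂, hθ₃, hθ₄]; ring
    rw [this, hz₁, hz₂, hz₃]; linear_combination 2 * s1
  have E3 : θ₁ * θ₂ * θ₃ + θ₁ * θ₂ * θ₄ + θ₁ * θ₃ * θ₄ + θ₂ * θ₃ * θ₄ = -8 * y := by
    have : θ₁ * θ₂ * θ₃ + θ₁ * θ₂ * θ₄ + θ₁ * θ₃ * θ₄ + θ₂ * θ₃ * θ₄ = 8 * (z₁ * z₂ * z₃) := by
      rw [hθ₁, hθ₂, hθ₃, hθ₄]; ring
    rw [this, hz]; ring
  have E4 : θ₁ * θ₂ * θ₃ * θ₄ = -4 * A - 3 * (x : ℂ) ^ 2 := by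
    have : θ₁ * θ₂ * θ₃ * θ₄ = (z₁ ^ 2) ^ 2 + (z₂ ^ 2) ^ 2 + (z₃ ^ 2) ^ 2 -
        2 * (z₁ ^ 2 * z₂ ^ 2 + z₁ ^ 2 * z₃ ^ 2 + z₂ ^ 2 * z₃ ^ 2) := by
      rw [hθ₁, hθ₂, hθ₃, hθ₄]; ring
    rw [this, hz₁, hz₂, hz₃]
    linear_combination (2 * x + (e₁ + e₂ + e₃)) * s1 - 4 * s2
  have p1 : (θ₁ - θ₂) * (θ₃ - θ₄) = 4 * (e₃ - e₂) := by
    have : (θ₁ - θ₂) * (θ₃ - θ₄) = 4 * (z₂ ^ 2 - z₃ ^ 2) := by rw [hθ₁, hθ₂, hθ₃, hθ₄]; ring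
    rw [this, hz₂, hz₃]; ring
  have p2 : (θ₁ - θ₃) * (θ₂ - θ₄) = 4 * (e₃ - e₁) := by
    have : (θ₁ - θ₃) * (θ₂ - θ₄) = 4 * (z₁ ^ 2 - z₃ ^ 2) := by rw [hθ₁, hθ₂, hθ₃, hθ₄]; ring
    rw [this, hz₁, hz₃]; ring
  have p3 : (θ₁ - θ₄) * (θ₂ - θ₃) = 4 * (e₂ - e₁) := by
    have : (θ₁ - θ₄) * (θ₂ - θ₃) = 4 * (z₁ ^ 2 - z₂ ^ 2) := by rw [hθ₁, hθ₂, hθ₃, hθ₄]; ring
    rw [this, hz₁, hz₂]; ring
  have q1 : (θ₁ - θ₂) * (θ₃ - θ₄) ≠ 0 := by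
    rw [p1]; exact mul_ne_zero (by norm_num) (sub_ne_zero.2 h23.symm)
  have q2 : (θ₁ - θ₃) * (θ₂ - θ₄) ≠ 0 := by
    rw [p2]; exact mul_ne_zero (by norm_num) (sub_ne_zero.2 h13.symm)
  have q3 : (θ₁ - θ₄) * (θ₂ - θ₃) ≠ 0 := by
    rw [p3]; exact mul_ne_zero (by norm_num) (sub_ne_zero.2 h12.symm)
  have t12 : θ₁ ≠ θ₂ := sub_ne_zero.1 (left_ne_zero_of_mul q1)
  have t34 : θ₃ ≠ θ₄ := sub_ne_zero.1 (right_ne_zero_of_mul q1)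
  have t13 : θ₁ ≠ θ₃ := sub_ne_zero.1 (left_ne_zero_of_mul q2)
  have t24 : θ₂ ≠ θ₄ := sub_ne_zero.1 (right_ne_zero_of_mul q2)
  have t14 : θ₁ ≠ θ₄ := sub_ne_zero.1 (left_ne_zero_of_mul q3)
  have t23 : θ₂ ≠ θ₃ := sub_ne_zero.1 (right_ne_zero_of_mul q3)
  have r1 : ‖θ₁ - θ₂‖ * ‖θ₃ - θ₄‖ = 4 * ‖e₂ - e₃‖ := by
    rw [← norm_mul, p1, norm_mul, norm_sub_rev]; norm_num
  have r2 : ‖θ₁ - θ₃‖ * ‖θ₂ - θ₄‖ = 4 * ‖e₁ - e₃‖ := by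
    rw [← norm_mul, p2, norm_mul, norm_sub_rev]; norm_num
  have r3 : ‖θ₁ - θ₄‖ * ‖θ₂ - θ₃‖ = 4 * ‖e₁ - e₂‖ := by
    rw [← norm_mul, p3, norm_mul, norm_sub_rev]; norm_num
  -- conjugation
  have hroot : ∀ t : ℂ, (t - θ₁) * (t - θ₂) * (t - θ₃) * (t - θ₄) =
      t ^ 4 - 6 * x * t ^ 2 + 8 * y * t + (-4 * A - 3 * (x : ℂ) ^ 2) := by
    intro t
    linear_combination (-t ^ 3) * E1 + t ^ 2 * E2 - t * E3 + E4
  have hS : ∀ θ ∈ ({θ₁, θ₂, θ₃, θ₄} : Finset ℂ),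
      starRingEnd ℂ θ ∈ ({θ₁, θ₂, θ₃, θ₄} : Finset ℂ) := by
    intro θ hθ
    have h0 : (θ - θ₁) * (θ - θ₂) * (θ - θ₃) * (θ - θ₄) = 0 := by
      simp only [Finset.mem_insert, Finset.mem_singleton] at hθ
      rcases hθ with rfl | rfl | rfl | rfl <;> ring
    have h1 : (starRingEnd ℂ θ - θ₁) * (starRingEnd ℂ θ - θ₂) * (starRingEnd ℂ θ - θ₃) *
        (starRingEnd ℂ θ - θ₄) = 0 := by
      rw [hroot] at h0 ⊢
      have := congrArg (starRingEnd ℂ) h0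
      simp only [map_add, map_sub, map_mul, map_pow, map_neg, map_ofNat, map_intCast,
        map_zero] at this
      exact this
    simp only [Finset.mem_insert, Finset.mem_singleton]
    rcases mul_eq_zero.1 h1 with h | h
    · rcases mul_eq_zero.1 h with h | h
      · rcases mul_eq_zero.1 h with h | h
        · exact Or.inl (sub_eq_zero.1 h)
        · exact Or.inr (Or.inl (sub_eq_zero.1 h))
      · exact Or.inr (Or.inr (Or.inl (sub_eq_zero.1 h)))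
    · exact Or.inr (Or.inr (Or.inr (sub_eq_zero.1 h)))
  have him := im_covariant4 t12 t13 t14 t23 t24 t34 hS
  -- weights
  obtain ⟨n12, hn12⟩ : ∃ w, w = ‖θ₁ - θ₂‖ := ⟨_, rfl⟩
  obtain ⟨n13, hn13⟩ : ∃ w, w = ‖θ₁ - θ₃‖ := ⟨_, rfl⟩
  obtain ⟨n14, hn14⟩ : ∃ w, w = ‖θ₁ - θ₄‖ := ⟨_, rfl⟩
  obtain ⟨n23, hn23⟩ : ∃ w, w = ‖θ₂ - θ₃‖ := ⟨_, rfl⟩
  obtain ⟨n24, hn24⟩ : ∃ w, w = ‖θ₂ - θ₄‖ := ⟨_, rfl⟩
  obtain ⟨n34, hn34⟩ : ∃ w, w = ‖θ₃ - θ₄‖ := ⟨_, rfl⟩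
  have o12 : 0 < n12 := by rw [hn12]; exact norm_pos_iff.2 (sub_ne_zero.2 t12)
  have o13 : 0 < n13 := by rw [hn13]; exact norm_pos_iff.2 (sub_ne_zero.2 t13)
  have o14 : 0 < n14 := by rw [hn14]; exact norm_pos_iff.2 (sub_ne_zero.2 t14)
  have o23 : 0 < n23 := by rw [hn23]; exact norm_pos_iff.2 (sub_ne_zero.2 t23)
  have o24 : 0 < n24 := by rw [hn24]; exact norm_pos_iff.2 (sub_ne_zero.2 t24)
  have o34 : 0 < n34 := by rw [hn34]; exact norm_pos_iff.2 (sub_ne_zero.2 t34)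
  have k12 : Complex.normSq (θ₁ - θ₂) = n12 ^ 2 := by rw [Complex.normSq_eq_norm_sq, hn12]
  have k13 : Complex.normSq (θ₁ - θ₃) = n13 ^ 2 := by rw [Complex.normSq_eq_norm_sq, hn13]
  have k14 : Complex.normSq (θ₁ - θ₄) = n14 ^ 2 := by rw [Complex.normSq_eq_norm_sq, hn14]
  have k23 : Complex.normSq (θ₂ - θ₃) = n23 ^ 2 := by rw [Complex.normSq_eq_norm_sq, hn23]
  have k24 : Complex.normSq (θ₂ - θ₄) = n24 ^ 2 := by rw [Complex.normSq_eq_norm_sq, hn24]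
  have k34 : Complex.normSq (θ₃ - θ₄) = n34 ^ 2 := by rw [Complex.normSq_eq_norm_sq, hn34]
  rw [← hn12, ← hn13, ← hn14, ← hn23, ← hn24, ← hn34] at him
  rw [← hn12, ← hn34] at r1
  rw [← hn13, ← hn24] at r2
  rw [← hn14, ← hn23] at r3
  rw [← r1, ← r2, ← r3] at hD hM
  obtain ⟨w₁, hw₁⟩ : ∃ w, w = n23 * n24 * n34 := ⟨_, rfl⟩
  obtain ⟨w₂, hw₂⟩ : ∃ w, w = n13 * n14 * n34 := ⟨_, rfl⟩
  obtain ⟨w₃, hw₃⟩ : ∃ w, w = n12 * n14 * n24 := ⟨_, rfl⟩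
  obtain ⟨w₄, hw₄⟩ : ∃ w, w = n12 * n13 * n23 := ⟨_, rfl⟩
  have w1 : 0 < w₁ := by rw [hw₁]; positivity
  have w2 : 0 < w₂ := by rw [hw₂]; positivity
  have w3 : 0 < w₃ := by rw [hw₃]; positivity
  have w4 : 0 < w₄ := by rw [hw₄]; positivity
  have hΔ : w₁ * w₂ * w₃ * w₄ = D := by rw [hw₁, hw₂, hw₃, hw₄, hD]; ring
  have hD0 : 0 < D := by rw [← hΔ]; positivity
  have hM0 : 0 < M := by rw [hM]; positivity
  rw [← hw₁, ← hw₂, ← hw₃, ← hw₄] at him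
  set P : ℝ := w₁ + w₂ + w₃ + w₄ with hP
  set Q : ℝ := w₁ * θ₁.re + w₂ * θ₂.re + w₃ * θ₃.re + w₄ * θ₄.re with hQ
  set R : ℝ := w₁ * Complex.normSq θ₁ + w₂ * Complex.normSq θ₂ + w₃ * Complex.normSq θ₃ +
    w₄ * Complex.normSq θ₄ with hR
  have hdet : 4 / 3 * (P * R - Q ^ 2) = M := by
    have h1 : P * R - Q ^ 2 - (w₁ * θ₁.im + w₂ * θ₂.im + w₃ * θ₃.im + w₄ * θ₄.im) ^ 2 =
        w₁ * w₂ * Complex.normSq (θ₁ - θ₂) + w₁ * w₃ * Complex.normSq (θ₁ - θ₃) +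
        w₁ * w₄ * Complex.normSq (θ₁ - θ₄) + w₂ * w₃ * Complex.normSq (θ₂ - θ₃) +
        w₂ * w₄ * Complex.normSq (θ₂ - θ₄) + w₃ * w₄ * Complex.normSq (θ₃ - θ₄) := by
      rw [hP, hQ, hR]
      simp only [Complex.normSq_apply, Complex.sub_re, Complex.sub_im]
      ring
    rw [him, k12, k13, k14, k23, k24, k34] at h1
    have h2 : P * R - Q ^ 2 = w₁ * w₂ * n12 ^ 2 + w₁ * w₃ * n13 ^ 2 + w₁ * w₄ * n14 ^ 2 +
        w₂ * w₃ * n23 ^ 2 + w₂ * w₄ * n24 ^ 2 + w₃ * w₄ * n34 ^ 2 := by linarith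
    rw [h2, hM, hw₁, hw₂, hw₃, hw₄]; ring
  obtain ⟨p, q, r, s, hps, hAC⟩ := exists_reduced (P := P) (Q := Q) (R := R) (by positivity)
    (by linarith)
  rw [hdet] at hAC
  obtain ⟨a, ha⟩ : ∃ a, a = p ^ 4 - 6 * x * (p ^ 2 * r ^ 2) + 8 * y * (p * r ^ 3) +
    (-4 * A - 3 * x ^ 2) * r ^ 4 := ⟨_, rfl⟩
  obtain ⟨b, hb⟩ : ∃ b, b = 4 * p ^ 3 * q - 6 * x * (2 * p * q * r ^ 2 + 2 * p ^ 2 * r * s) +
        8 * y * (q * r ^ 3 + 3 * p * r ^ 2 * s) + (-4 * A - 3 * x ^ 2) * (4 * r ^ 3 * s) :=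
    ⟨_, rfl⟩
  obtain ⟨c, hc⟩ : ∃ c, c = 6 * p ^ 2 * q ^ 2 -
        6 * x * (q ^ 2 * r ^ 2 + 4 * p * q * r * s + p ^ 2 * s ^ 2) +
        8 * y * (3 * q * r ^ 2 * s + 3 * p * r * s ^ 2) +
        (-4 * A - 3 * x ^ 2) * (6 * r ^ 2 * s ^ 2) := ⟨_, rfl⟩
  obtain ⟨d, hd⟩ : ∃ d, d = 4 * p * q ^ 3 - 6 * x * (2 * q ^ 2 * r * s + 2 * p * q * s ^ 2) +
        8 * y * (3 * q * r * s ^ 2 + p * s ^ 3) + (-4 * A - 3 * x ^ 2) * (4 * r * s ^ 3) :=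
    ⟨_, rfl⟩
  obtain ⟨e, he⟩ : ∃ e, e = q ^ 4 - 6 * x * (q ^ 2 * s ^ 2) + 8 * y * (q * s ^ 3) +
    (-4 * A - 3 * x ^ 2) * s ^ 4 := ⟨_, rfl⟩
  have hpsC : (p : ℂ) * s - q * r = 1 := by exact_mod_cast hps
  have haC : (a : ℂ) = (p - θ₁ * r) * (p - θ₂ * r) * (p - θ₃ * r) * (p - θ₄ * r) := by
    rw [ha]; push_cast
    linear_combination (p : ℂ) ^ 3 * r * E1 - (p : ℂ) ^ 2 * r ^ 2 * E2 + p * (r : ℂ) ^ 3 * E3 -
      (r : ℂ) ^ 4 * E4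
  have hbC : (b : ℂ) = (p - θ₁ * r) * (p - θ₂ * r) * (p - θ₃ * r) * (q - θ₄ * s) +
      (p - θ₁ * r) * (p - θ₂ * r) * (q - θ₃ * s) * (p - θ₄ * r) +
      (p - θ₁ * r) * (q - θ₂ * s) * (p - θ₃ * r) * (p - θ₄ * r) +
      (q - θ₁ * s) * (p - θ₂ * r) * (p - θ₃ * r) * (p - θ₄ * r) := by
    rw [hb]; push_cast
    linear_combination (3 * (p : ℂ) ^ 2 * q * r + p ^ 3 * s) * E1 -
      (2 * p * q * (r : ℂ) ^ 2 + 2 * p ^ 2 * r * s) * E2 +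
      (q * (r : ℂ) ^ 3 + 3 * p * r ^ 2 * s) * E3 - (4 * (r : ℂ) ^ 3 * s) * E4
  have hcC : (c : ℂ) = (p - θ₁ * r) * (p - θ₂ * r) * (q - θ₃ * s) * (q - θ₄ * s) +
      (p - θ₁ * r) * (q - θ₂ * s) * (p - θ₃ * r) * (q - θ₄ * s) +
      (q - θ₁ * s) * (p - θ₂ * r) * (p - θ₃ * r) * (q - θ₄ * s) +
      (p - θ₁ * r) * (q - θ₂ * s) * (q - θ₃ * s) * (p - θ₄ * r) +
      (q - θ₁ * s) * (p - θ₂ * r) * (q - θ₃ * s) * (p - θ₄ * r) +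
      (q - θ₁ * s) * (q - θ₂ * s) * (p - θ₃ * r) * (p - θ₄ * r) := by
    rw [hc]; push_cast
    linear_combination (3 * (p : ℂ) * q ^ 2 * r + 3 * p ^ 2 * q * s) * E1 -
      ((q : ℂ) ^ 2 * r ^ 2 + 4 * p * q * r * s + p ^ 2 * s ^ 2) * E2 +
      (3 * q * (r : ℂ) ^ 2 * s + 3 * p * r * s ^ 2) * E3 - (6 * (r : ℂ) ^ 2 * s ^ 2) * E4
  have hdC : (d : ℂ) = (p - θ₁ * r) * (q - θ₂ * s) * (q - θ₃ * s) * (q - θ₄ * s) +
      (q - θ₁ * s) * (p - θ₂ * r) * (q - θ₃ * s) * (q - θ₄ * s) +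
      (q - θ₁ * s) * (q - θ₂ * s) * (p - θ₃ * r) * (q - θ₄ * s) +
      (q - θ₁ * s) * (q - θ₂ * s) * (q - θ₃ * s) * (p - θ₄ * r) := by
    rw [hd]; push_cast
    linear_combination ((q : ℂ) ^ 3 * r + 3 * p * q ^ 2 * s) * E1 -
      (2 * (q : ℂ) ^ 2 * r * s + 2 * p * q * s ^ 2) * E2 +
      (3 * q * r * (s : ℂ) ^ 2 + p * s ^ 3) * E3 - (4 * r * (s : ℂ) ^ 3) * E4
  have heC : (e : ℂ) = (q - θ₁ * s) * (q - θ₂ * s) * (q - θ₃ * s) * (q - θ₄ * s) := by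
    rw [he]; push_cast
    linear_combination (q : ℂ) ^ 3 * s * E1 - (q : ℂ) ^ 2 * s ^ 2 * E2 + q * (s : ℂ) ^ 3 * E3 -
      (s : ℂ) ^ 4 * E4
  have hcross : ∀ θ η : ℂ, θ ≠ η →
      ((p : ℂ) - θ * r) * (q - η * s) - (q - θ * s) * (p - η * r) ≠ 0 := by
    intro θ η h h0
    apply h
    have : ((p : ℂ) - θ * r) * (q - η * s) - (q - θ * s) * (p - η * r) =
      (p * s - q * r) * (θ - η) := by ring
    rw [this, hpsC, one_mul] at h0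
    exact sub_eq_zero.1 h0
  have hcross' : ∀ θ η : ℂ, θ ≠ η →
      ((q : ℂ) - θ * s) * (p - η * r) - (p - θ * r) * (q - η * s) ≠ 0 := by
    intro θ η h h0
    apply hcross θ η h
    linear_combination -h0
  have hfin := quartic_finite (hcross _ _ t12) (hcross _ _ t13) (hcross _ _ t14) (hcross _ _ t23)
    (hcross _ _ t24) (hcross _ _ t34) haC hbC hcC hdC heC
  have hφ : ∀ u v : ℤ, w₁ * Complex.normSq ((u : ℂ) - θ₁ * v) +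
      w₂ * Complex.normSq ((u : ℂ) - θ₂ * v) + w₃ * Complex.normSq ((u : ℂ) - θ₃ * v) +
      w₄ * Complex.normSq ((u : ℂ) - θ₄ * v) =
      P * u ^ 2 - 2 * Q * u * v + R * v ^ 2 := by
    intro u v
    rw [hP, hQ, hR]
    simp only [Complex.normSq_apply, Complex.sub_re, Complex.sub_im, Complex.mul_re,
      Complex.mul_im, Complex.intCast_re, Complex.intCast_im, mul_zero, sub_zero, zero_add,
      zero_sub]
    ring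
  refine ⟨p, q, r, s, a, b, c, d, e, hps, ha, hb, hc, hd, he, hfin, ?_⟩
  refine coeff_bound4 w1.le w2.le w3.le w4.le hΔ hD0 (hφ p r) (hφ q s) hAC hε0 hε1 hεD hεM
    haC hbC hcC hdC heC ?_ ?_
  · rintro ⟨h1, h2⟩
    exact not_both (hcross _ _ t12) (hcross _ _ t13) (hcross _ _ t14) (hcross _ _ t23)
      (hcross _ _ t24) (hcross _ _ t34) (by rw [← haC, h1]; simp) (by rw [← hbC, h2]; simp)
  · rintro ⟨h1, h2⟩
    refine not_both (hcross' _ _ t12) (hcross' _ _ t13) (hcross' _ _ t14) (hcross' _ _ t23)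
      (hcross' _ _ t24) (hcross' _ _ t34) (by rw [← heC, h2]; simp) ?_
    rw [h1] at hdC
    rw [Int.cast_zero] at hdC
    linear_combination -hdC

/-- **Mordell's theorem** (1922): for `4A³ + 27B² ≠ 0` the equation `y² = x³ + Ax + B` has only
finitely many solutions in integers. -/
theorem integral_points_finite {A B : ℤ} (hAB : 4 * A ^ 3 + 27 * B ^ 2 ≠ 0) :
    {z : ℤ × ℤ | z.2 ^ 2 = z.1 ^ 3 + A * z.1 + B}.Finite := by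
  obtain ⟨e₁, e₂, e₃, s1, s2, s3⟩ := exists_three_roots (-(A : ℂ) / 3) ((B : ℂ) / 2)
  have s2' : e₁ * e₂ + e₁ * e₃ + e₂ * e₃ = A := by rw [s2]; ring
  have s3' : e₁ * e₂ * e₃ = -B := by rw [s3]; ring
  have hdisc : ((e₁ - e₂) * (e₁ - e₃) * (e₂ - e₃)) ^ 2 =
      -(4 * (A : ℂ) ^ 3 + 27 * (B : ℂ) ^ 2) := by
    have h3 : e₃ = -e₁ - e₂ := by linear_combination s1
    have hB : (B : ℂ) = -(e₁ * e₂ * e₃) := by rw [s3']; ring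
    rw [← s2', hB, h3]; ring
  have hne : (e₁ - e₂) * (e₁ - e₃) * (e₂ - e₃) ≠ 0 := by
    intro h
    rw [h] at hdisc
    have h1 : 4 * (A : ℂ) ^ 3 + 27 * (B : ℂ) ^ 2 = 0 := by linear_combination hdisc
    exact hAB (by exact_mod_cast h1)
  have h12 : e₁ ≠ e₂ := by intro h; rw [h] at hne; simp at hne
  have h13 : e₁ ≠ e₃ := by intro h; rw [h] at hne; simp at hne
  have h23 : e₂ ≠ e₃ := by intro h; rw [h] at hne; simp at hne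
  have l12 : 0 < ‖e₁ - e₂‖ := norm_pos_iff.2 (sub_ne_zero.2 h12)
  have l13 : 0 < ‖e₁ - e₃‖ := norm_pos_iff.2 (sub_ne_zero.2 h13)
  have l23 : 0 < ‖e₂ - e₃‖ := norm_pos_iff.2 (sub_ne_zero.2 h23)
  obtain ⟨D, hD⟩ : ∃ D, D = ((4 * ‖e₂ - e₃‖) * (4 * ‖e₁ - e₃‖) * (4 * ‖e₁ - e₂‖)) ^ 2 := ⟨_, rfl⟩
  obtain ⟨M, hM⟩ : ∃ M, M = 4 / 3 * (2 * ((4 * ‖e₂ - e₃‖) * (4 * ‖e₁ - e₃‖) * (4 * ‖e₁ - e₂‖)) *
      (4 * ‖e₂ - e₃‖ + 4 * ‖e₁ - e₃‖ + 4 * ‖e₁ - e₂‖)) := ⟨_, rfl⟩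
  have hD0 : 0 < D := by rw [hD]; positivity
  have hM0 : 0 < M := by rw [hM]; positivity
  obtain ⟨ε, hε⟩ : ∃ ε, ε = min 1 (min D (D / (16 * M))) := ⟨_, rfl⟩
  have hε0 : 0 < ε := by
    rw [hε]; exact lt_min one_pos (lt_min hD0 (by positivity))
  have hε1 : ε ≤ 1 := by rw [hε]; exact min_le_left _ _
  have hεD : ε ≤ D := by rw [hε]; exact (min_le_right _ _).trans (min_le_left _ _)
  have hεM : 16 * M * ε ≤ D := by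
    have h1 : ε ≤ D / (16 * M) := by rw [hε]; exact (min_le_right _ _).trans (min_le_right _ _)
    rw [le_div_iff₀ (by positivity)] at h1
    linarith
  set N : ℤ := ⌈36 * (M / ε) ^ 4 / D⌉ with hN
  have hbd : ∀ n : ℤ, D * (n : ℝ) ^ 2 ≤ 36 * (M / ε) ^ 4 → n ∈ Set.Icc (-N) N := by
    intro n hn
    have h1 : (n : ℝ) ^ 2 ≤ N := by
      refine le_trans ?_ (Int.le_ceil _)
      rw [le_div_iff₀ hD0, mul_comm]; exact hn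
    have h2 : n ^ 2 ≤ N := by exact_mod_cast h1
    have h3 : |n| ≤ n ^ 2 := by
      rw [← sq_abs]
      rcases eq_or_ne n 0 with rfl | h0
      · simp
      · nlinarith [Int.one_le_abs h0]
    exact abs_le.1 (h3.trans h2)
  set T : Set (ℤ × ℤ × ℤ × ℤ × ℤ) := {t | {e : ℤ × ℤ | t.1 * e.1 ^ 4 + t.2.1 * e.1 ^ 3 * e.2 +
    t.2.2.1 * e.1 ^ 2 * e.2 ^ 2 + t.2.2.2.1 * e.1 * e.2 ^ 3 + t.2.2.2.2 * e.2 ^ 4 = 1}.Finite ∧
    t.1 ∈ Set.Icc (-N) N ∧ t.2.1 ∈ Set.Icc (-N) N ∧ t.2.2.1 ∈ Set.Icc (-N) N ∧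
    t.2.2.2.1 ∈ Set.Icc (-N) N ∧ t.2.2.2.2 ∈ Set.Icc (-N) N} with hT
  have hTfin : T.Finite := by
    refine ((Set.finite_Icc (-N) N).prod ((Set.finite_Icc (-N) N).prod
      ((Set.finite_Icc (-N) N).prod ((Set.finite_Icc (-N) N).prod
        (Set.finite_Icc (-N) N))))).subset ?_
    rintro ⟨a, b, c, d, e⟩ ⟨-, h1, h2, h3, h4, h5⟩
    exact ⟨h1, h2, h3, h4, h5⟩
  have hfin : (⋃ t ∈ T, ⋃ e ∈ {e : ℤ × ℤ | t.1 * e.1 ^ 4 + t.2.1 * e.1 ^ 3 * e.2 +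
    t.2.2.1 * e.1 ^ 2 * e.2 ^ 2 + t.2.2.2.1 * e.1 * e.2 ^ 3 + t.2.2.2.2 * e.2 ^ 4 = 1},
      {z : ℤ × ℤ | ∃ w₁ w₂ : ℤ, e.1 * w₂ - e.2 * w₁ = 1 ∧
        4 * t.1 * e.1 ^ 3 * w₁ + t.2.1 * (e.1 ^ 3 * w₂ + 3 * e.1 ^ 2 * e.2 * w₁) +
          t.2.2.1 * (2 * e.1 ^ 2 * e.2 * w₂ + 2 * e.1 * e.2 ^ 2 * w₁) +
          t.2.2.2.1 * (3 * e.1 * e.2 ^ 2 * w₂ + e.2 ^ 3 * w₁) +
          4 * t.2.2.2.2 * e.2 ^ 3 * w₂ = 0 ∧
        6 * t.1 * e.1 ^ 2 * w₁ ^ 2 + t.2.1 * (3 * e.1 ^ 2 * w₁ * w₂ + 3 * e.1 * e.2 * w₁ ^ 2) +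
          t.2.2.1 * (e.1 ^ 2 * w₂ ^ 2 + 4 * e.1 * e.2 * w₁ * w₂ + e.2 ^ 2 * w₁ ^ 2) +
          t.2.2.2.1 * (3 * e.1 * e.2 * w₂ ^ 2 + 3 * e.2 ^ 2 * w₁ * w₂) +
          6 * t.2.2.2.2 * e.2 ^ 2 * w₂ ^ 2 = -6 * z.1 ∧
        4 * t.1 * e.1 * w₁ ^ 3 + t.2.1 * (3 * e.1 * w₁ ^ 2 * w₂ + e.2 * w₁ ^ 3) +
          t.2.2.1 * (2 * e.1 * w₁ * w₂ ^ 2 + 2 * e.2 * w₁ ^ 2 * w₂) +
          t.2.2.2.1 * (e.1 * w₂ ^ 3 + 3 * e.2 * w₁ * w₂ ^ 2) +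
          4 * t.2.2.2.2 * e.2 * w₂ ^ 3 = 8 * z.2}).Finite := by
    refine hTfin.biUnion fun t ht ↦ ht.1.biUnion fun e he ↦ ?_
    refine Set.Subsingleton.finite ?_
    rintro ⟨x, y⟩ ⟨w₁, w₂, h1, h2, h3, h4⟩ ⟨x', y'⟩ ⟨w₁', w₂', h1', h2', h3', h4'⟩
    obtain ⟨e1, e2⟩ := rel_unique4 he h1 h1' h2 h2' h3 h3' h4 h4'
    exact Prod.ext e1 e2
  refine hfin.subset ?_
  rintro ⟨x, y⟩ hxy
  obtain ⟨p, q, r, s, a, b, c, d, e, hps, ha, hb, hc, hd, he, hG, n1, n2, n3, n4, n5⟩ :=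
    exists_reduced_quartic s1 s2' s3' h12 h13 h23 hD hM hε0 hε1 hεD hεM hxy
  simp only [Set.mem_iUnion]
  refine ⟨(a, b, c, d, e), ⟨hG, hbd _ n1, hbd _ n2, hbd _ n3, hbd _ n4, hbd _ n5⟩, (s, -r), ?_,
    -q, p, ?_, ?_, ?_, ?_⟩
  · show a * s ^ 4 + b * s ^ 3 * (-r) + c * s ^ 2 * (-r) ^ 2 + d * s * (-r) ^ 3 +
      e * (-r) ^ 4 = 1
    have : a * s ^ 4 + b * s ^ 3 * (-r) + c * s ^ 2 * (-r) ^ 2 + d * s * (-r) ^ 3 +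
      e * (-r) ^ 4 = (p * s - q * r) ^ 4 := by rw [ha, hb, hc, hd, he]; ring
    rw [this, hps]; ring
  · show s * p - (-r) * (-q) = 1
    linarith
  · show 4 * a * s ^ 3 * (-q) + b * (s ^ 3 * p + 3 * s ^ 2 * (-r) * (-q)) +
          c * (2 * s ^ 2 * (-r) * p + 2 * s * (-r) ^ 2 * (-q)) +
          d * (3 * s * (-r) ^ 2 * p + (-r) ^ 3 * (-q)) + 4 * e * (-r) ^ 3 * p = 0
    rw [ha, hb, hc, hd, he]; ring
  · show 6 * a * s ^ 2 * (-q) ^ 2 + b * (3 * s ^ 2 * (-q) * p + 3 * s * (-r) * (-q) ^ 2) +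
          c * (s ^ 2 * p ^ 2 + 4 * s * (-r) * (-q) * p + (-r) ^ 2 * (-q) ^ 2) +
          d * (3 * s * (-r) * p ^ 2 + 3 * (-r) ^ 2 * (-q) * p) +
          6 * e * (-r) ^ 2 * p ^ 2 = -6 * x
    have : 6 * a * s ^ 2 * (-q) ^ 2 + b * (3 * s ^ 2 * (-q) * p + 3 * s * (-r) * (-q) ^ 2) +
          c * (s ^ 2 * p ^ 2 + 4 * s * (-r) * (-q) * p + (-r) ^ 2 * (-q) ^ 2) +
          d * (3 * s * (-r) * p ^ 2 + 3 * (-r) ^ 2 * (-q) * p) +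
          6 * e * (-r) ^ 2 * p ^ 2 = -6 * x * (p * s - q * r) ^ 4 := by
      rw [ha, hb, hc, hd, he]; ring
    rw [this, hps]; ring
  · show 4 * a * s * (-q) ^ 3 + b * (3 * s * (-q) ^ 2 * p + (-r) * (-q) ^ 3) +
          c * (2 * s * (-q) * p ^ 2 + 2 * (-r) * (-q) ^ 2 * p) +
          d * (s * p ^ 3 + 3 * (-r) * (-q) * p ^ 2) + 4 * e * (-r) * p ^ 3 = 8 * y
    have : 4 * a * s * (-q) ^ 3 + b * (3 * s * (-q) ^ 2 * p + (-r) * (-q) ^ 3) +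
          c * (2 * s * (-q) * p ^ 2 + 2 * (-r) * (-q) ^ 2 * p) +
          d * (s * p ^ 3 + 3 * (-r) * (-q) * p ^ 2) + 4 * e * (-r) * p ^ 3 =
          8 * y * (p * s - q * r) ^ 4 := by rw [ha, hb, hc, hd, he]; ring
    rw [this, hps]; ring

/-- **Finiteness of integral points**: a Weierstrass equation with integral coefficients and
`Δ ≠ 0` has only finitely many solutions in integers. -/
theorem weierstrass_integral_points_finite (W : WeierstrassCurve ℤ) (hΔ : W.Δ ≠ 0) :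
    {z : ℤ × ℤ | W.toAffine.Equation z.1 z.2}.Finite := by
  have h1 : 4 * (-27 * W.c₄) ^ 3 + 27 * (-54 * W.c₆) ^ 2 ≠ 0 := by
    have h2 : 4 * (-27 * W.c₄) ^ 3 + 27 * (-54 * W.c₆) ^ 2 = -78732 * (1728 * W.Δ) := by
      rw [W.c_relation]; ring
    rw [h2]
    exact mul_ne_zero (by norm_num) (mul_ne_zero (by norm_num) hΔ)
  have h3 := integral_points_finite h1
  set φ : ℤ × ℤ → ℤ × ℤ := fun z ↦ (36 * z.1 + 3 * W.b₂, 108 * (2 * z.2 + W.a₁ * z.1 + W.a₃))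
    with hφ
  have hinj : Function.Injective φ := by
    rintro ⟨x, y⟩ ⟨x', y'⟩ h
    simp only [hφ, Prod.mk.injEq] at h
    have hx : x = x' := by omega
    subst hx
    have hy : y = y' := by omega
    rw [hy]
  refine (h3.preimage (f := φ) hinj.injOn).subset ?_
  rintro ⟨x, y⟩ hxy
  have hxy' := (W.toAffine.equation_iff x y).1 hxy
  show (108 * (2 * y + W.a₁ * x + W.a₃)) ^ 2 = (36 * x + 3 * W.b₂) ^ 3 +
    (-27 * W.c₄) * (36 * x + 3 * W.b₂) + (-54 * W.c₆)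
  simp only [WeierstrassCurve.c₄, WeierstrassCurve.c₆, WeierstrassCurve.b₂, WeierstrassCurve.b₄,
    WeierstrassCurve.b₆]
  linear_combination 46656 * hxy'

end Fermat.Agent.Cor.Thue
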