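import Fermat.Agent.Cor.ProP1
import Fermat.Agent.Ell.TameIn

/-!
# The inverse Galois problem for finite abelian groups

Every finite abelian group `G` is the Galois group of a Galois extension `K` of `ℚ`; the field `K` can be chosen inside a
cyclotomic field `ℚ(ζ_m)` with `m` squarefree, fixed by complex conjugation, and unramified at any given finite set of
primes (`inverse_galois_abelian`; in terms of homomorphisms `G_ℚ → G`: `exists_surjective`).

This file is not used by any of the statement files.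
-/

set_option autoImplicit false
set_option linter.unusedSectionVars false
set_option linter.style.haveILetI false
set_option maxHeartbeats 400000

noncomputable section

namespace Fermat.Agent.Cor.InverseAb

open Fermat.Agent.CC
open Fermat.Agent.Cor.ProP
open scoped Pointwise

/-- a surjection from the units modulo a prime `q ≡ 1 mod 2n` to the cyclic group of order `n`, trivial at `-1` -/
theorem exists_psi {q n : ℕ} (hq : q.Prime) (h : 2 * n ∣ q - 1) :
    ∃ ψ : (ZMod q)ˣ →* Multiplicative (ZMod n), Function.Surjective ψ ∧ ψ (-1) = 1 := by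
  haveI : Fact q.Prime := ⟨hq⟩
  have hcyc : IsCyclic (ZMod q)ˣ := inferInstance
  have hcard : Nat.card (ZMod q)ˣ = q - 1 := by rw [Nat.card_eq_fintype_card, ZMod.card_units]
  have hn : n ∣ Nat.card (ZMod q)ˣ := by
    rw [hcard]; exact (Dvd.intro_left 2 rfl).trans h
  let e := (zmodCyclicMulEquiv hcyc).symm
  let r : Multiplicative (ZMod (Nat.card (ZMod q)ˣ)) →* Multiplicative (ZMod n) :=
    AddMonoidHom.toMultiplicative (ZMod.castHom hn (ZMod n)).toAddMonoidHom
  refine ⟨r.comp e.toMonoidHom, ?_, ?_⟩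
  · have hr : Function.Surjective r := fun x => by
      obtain ⟨y, hy⟩ := ZMod.castHom_surjective hn (Multiplicative.toAdd x)
      exact ⟨Multiplicative.ofAdd y, congrArg Multiplicative.ofAdd hy⟩
    exact hr.comp e.surjective
  · have h1 : e (-1) * e (-1) = 1 := by rw [← map_mul, neg_mul_neg, one_mul, map_one]
    set x : ZMod (Nat.card (ZMod q)ˣ) := Multiplicative.toAdd (e (-1)) with hx
    have h2 : x + x = 0 := h1
    haveI : NeZero (Nat.card (ZMod q)ˣ) := ⟨Nat.card_pos.ne'⟩
    have h3 : Nat.card (ZMod q)ˣ ∣ 2 * x.val := by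
      rw [← ZMod.natCast_eq_zero_iff, Nat.cast_mul, ZMod.natCast_zmod_val, Nat.cast_ofNat, two_mul]
      exact h2
    have h4 : n ∣ x.val := by
      exact Nat.dvd_of_mul_dvd_mul_left two_pos ((h.trans (dvd_of_eq hcard.symm)).trans h3)
    have h5 : ZMod.castHom hn (ZMod n) x = 0 := by
      rw [ZMod.castHom_apply, ZMod.cast_eq_val]
      exact (ZMod.natCast_eq_zero_iff _ _).mpr h4
    exact congrArg Multiplicative.ofAdd h5

/-- a cyclic extension of degree `n` which is unramified outside `q ≡ 1 mod 2n` and totally ramified at `q` -/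
theorem exists_cyclic {q n : ℕ} (hq : q.Prime) (h : 2 * n ∣ q - 1) :
    ∃ f : GQ →* Multiplicative (ZMod n), cyc q ≤ f.ker ∧ f cj = 1 ∧
      ∀ A : ValuationSubring Qb, A.LiesOverPrime q → ∀ x, ∃ σ ∈ A.inertiaSubgroupIn ℚ, f σ = x := by
  obtain ⟨ψ, hψ, hψ1⟩ := exists_psi hq h
  obtain ⟨c, hc⟩ := exists_char q hq.ne_zero
  haveI : NeZero q := ⟨hq.ne_zero⟩
  refine ⟨ψ.comp c, fun g hg => ?_, ?_, fun A hA x => ?_⟩
  · rw [MonoidHom.mem_ker, MonoidHom.comp_apply, (char_eq_one hc g).mpr hg, map_one]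
  · have h1 : c cj = -1 := by
      apply Units.ext
      have h2 : ((c cj : (ZMod q)ˣ) : ZMod q) = ((q - 1 : ℕ) : ZMod q) := by
        rw [hc]
        intro x hx
        rw [cj_root hq.ne_zero hx]
        exact inv_eq_of_mul_eq_one_right (by
          rw [← pow_succ', Nat.sub_add_cancel hq.one_lt.le, hx])
      rw [h2, Nat.cast_sub hq.one_lt.le, ZMod.natCast_self, Nat.cast_one, zero_sub, Units.val_neg,
        Units.val_one]
    rw [MonoidHom.comp_apply, h1, hψ1]
  · obtain ⟨a, rfl⟩ := hψ x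
    have ha : ¬ q ∣ (a : ZMod q).val := fun hd =>
      Nat.not_coprime_of_dvd_of_dvd hq.one_lt hd dvd_rfl (ZMod.val_coe_unit_coprime a)
    obtain ⟨σ, hσ, hσ1⟩ := Ell.TameIn.exists_inertia_pow hq hA ha
    refine ⟨σ, hσ, ?_⟩
    have h1 : c σ = a := by
      apply Units.ext
      rw [← ZMod.natCast_zmod_val (a : ZMod q)]
      exact (hc σ _).mpr hσ1
    rw [MonoidHom.comp_apply, h1]

/-- **Every finite abelian group is a quotient of `G_ℚ`** by an open subgroup containing complex conjugation, unramified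
at a given finite set `B` of primes, and containing `Gal(ℚ̄/ℚ(ζ_m))` for some squarefree `m`. -/
theorem exists_surjective (G : Type*) [CommGroup G] [Finite G] (B : Finset ℕ) :
    ∃ (f : GQ →* G) (m : ℕ), Function.Surjective f ∧ Squarefree m ∧ cyc m ≤ f.ker ∧ f cj = 1 ∧
      ∀ q ∈ B, q.Prime → Unr q f.ker := by
  classical
  obtain ⟨ι, hι, n, hn, ⟨e⟩⟩ := CommGroup.equiv_prod_multiplicative_zmod_of_finite G
  have hN : 2 * ∏ i, n i ≠ 0 := mul_ne_zero two_ne_zero
    (Finset.prod_ne_zero_iff.mpr fun i _ => by have := hn i; omega)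
  have hinf : ({p : ℕ | p.Prime ∧ p ≡ 1 [MOD 2 * ∏ i, n i]} \ (B : Set ℕ)).Infinite :=
    (Nat.infinite_setOfPred_prime_modEq_one hN).sdiff B.finite_toSet
  let em := hinf.natEmbedding
  let ei : ι ↪ ℕ := (Fintype.equivFin ι).toEmbedding.trans Fin.valEmbedding
  let q : ι → ℕ := fun i => (em (ei i)).1
  have hqinj : Function.Injective q := fun i j hij => ei.injective (em.injective (Subtype.ext hij))
  have hq : ∀ i, (q i).Prime := fun i => (em (ei i)).2.1.1
  have hqB : ∀ i, q i ∉ B := fun i => (em (ei i)).2.2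
  have hq1 : ∀ i, 2 * n i ∣ q i - 1 := fun i =>
    (mul_dvd_mul_left 2 (Finset.dvd_prod_of_mem n (Finset.mem_univ i))).trans
      ((Nat.modEq_iff_dvd' (hq i).one_lt.le).mp (em (ei i)).2.1.2.symm)
  choose f hf1 hf2 hf3 using fun i => exists_cyclic (hq i) (hq1 i)
  have hm : cyc (∏ i, q i) ≤ (MonoidHom.pi f).ker := fun g hg => by
    rw [MonoidHom.mem_ker]
    funext i
    exact hf1 i (cyc_le (Finset.dvd_prod_of_mem q (Finset.mem_univ i)) hg)
  have hunr : ∀ ℓ : ℕ, ℓ.Prime → ∀ i, ℓ ≠ q i → Unr ℓ (f i).ker := fun ℓ hℓ i hne A hA σ hσ =>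
    hf1 i (unr_cyc hℓ (fun hd => hne ((Nat.prime_dvd_prime_iff_eq hℓ (hq i)).mp hd)) A hA hσ)
  have hsurj : Function.Surjective (MonoidHom.pi f) := by
    rw [← MonoidHom.range_eq_top, eq_top_iff]
    intro x _
    refine Submonoid.pi_mem_of_mulSingle_mem x fun i => ?_
    obtain ⟨A, hA⟩ := H05.exists_liesOverPrime Qb (hq i)
    obtain ⟨σ, hσ, hσ1⟩ := hf3 i A hA (x i)
    refine ⟨σ, funext fun j => ?_⟩
    rw [MonoidHom.pi_apply]
    rcases eq_or_ne j i with rfl | hne
    · rw [hσ1, Pi.mulSingle_eq_same]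
    · rw [Pi.mulSingle_eq_of_ne hne]
      exact hunr _ (hq i) j (fun h => hne (hqinj h.symm)) A hA hσ
  refine ⟨e.symm.toMonoidHom.comp (MonoidHom.pi f), ∏ i, q i, e.symm.surjective.comp hsurj, ?_,
    fun g hg => ?_, ?_, fun ℓ hℓB hℓ A hA σ hσ => ?_⟩
  · refine Finset.squarefree_prod_of_pairwise_isCoprime ?_ fun i _ => (hq i).squarefree
    intro i _ j _ hne
    exact Nat.coprime_iff_isRelPrime.mp ((Nat.coprime_primes (hq i) (hq j)).mpr fun h =>
      hne (hqinj h))
  · rw [MonoidHom.mem_ker, MonoidHom.comp_apply, MonoidHom.mem_ker.mp (hm hg), map_one]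
  · rw [MonoidHom.comp_apply, show MonoidHom.pi f cj = 1 from funext fun i => hf2 i, map_one]
  · rw [MonoidHom.mem_ker, MonoidHom.comp_apply, show MonoidHom.pi f σ = 1 from funext fun i =>
      hunr ℓ hℓ i (fun h => hqB i (h ▸ hℓB)) A hA hσ, map_one]

/-- **The inverse Galois problem for finite abelian groups**: every finite abelian group `G` is the Galois group of a finite
Galois extension `K ⊂ ℚ̄` of `ℚ`. Moreover one can choose `K ⊂ ℚ(ζ_m)`, `m` squarefree, fixed by complex conjugation, and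
unramified at the primes of a given finite set `B`. -/
theorem inverse_galois_abelian (G : Type*) [CommGroup G] [Finite G] (B : Finset ℕ) :
    ∃ K : IntermediateField ℚ (AlgebraicClosure ℚ), FiniteDimensional ℚ K ∧ IsGalois ℚ K ∧
      Nonempty ((K ≃ₐ[ℚ] K) ≃* G) ∧ (∀ x ∈ K, complexConjugation x = x) ∧
      (∀ q ∈ B, q.Prime → ∀ A : ValuationSubring (AlgebraicClosure ℚ), A.LiesOverPrime q →
        A.inertiaSubgroupIn ℚ ≤ K.fixingSubgroup) ∧
      ∃ m : ℕ, Squarefree m ∧
        K ≤ IntermediateField.adjoin ℚ {ζ : AlgebraicClosure ℚ | ζ ^ m = 1} := by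
  haveI := H51.isGalois_Qbar
  obtain ⟨f, m, hf, hmS, hm, hcj, hB⟩ := exists_surjective G B
  have ho : IsOpen (f.ker : Set GQ) := Subgroup.isOpen_mono hm (isOpen_cyc hmS.ne_zero)
  let H : ClosedSubgroup GQ := ⟨f.ker, Subgroup.isClosed_of_isOpen _ ho⟩
  have hK : (IntermediateField.fixedField H.1).fixingSubgroup = f.ker :=
    InfiniteGalois.fixingSubgroup_fixedField H
  haveI : H.Normal := inferInstanceAs f.ker.Normal
  have h1 : FiniteDimensional ℚ (IntermediateField.fixedField H.1) ∧
      IsGalois ℚ (IntermediateField.fixedField H.1) := by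
    refine (InfiniteGalois.isOpen_and_normal_iff_finite_and_isGalois _).mp ?_
    rw [hK]
    exact ⟨ho, inferInstanceAs f.ker.Normal⟩
  refine ⟨IntermediateField.fixedField H.1, h1.1, h1.2,
    ⟨(InfiniteGalois.normalAutEquivQuotient H).symm.trans
      (QuotientGroup.quotientKerEquivOfSurjective f hf)⟩, fun x hx => ?_, fun q hq hqp A hA => ?_,
    m, hmS, ?_⟩
  · exact (IntermediateField.mem_fixedField_iff _ _).mp hx cj hcj
  · rw [hK]
    exact hB q hq hqp A hA
  · rw [← InfiniteGalois.fixedField_fixingSubgroup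
      (IntermediateField.adjoin ℚ {ζ : AlgebraicClosure ℚ | ζ ^ m = 1})]
    refine IntermediateField.fixedField_antitone ?_
    intro g hg
    refine hm fun x hx => ?_
    exact (IntermediateField.mem_fixingSubgroup_iff _ _).mp hg x
      (IntermediateField.subset_adjoin _ _ hx)

end Fermat.Agent.Cor.InverseAb
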