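import Fermat.Agent.Cor.SingularModuli
import Fermat.Agent.H24.Unif5

/-!
# The modular invariant is a bijection from `SL₂(ℤ)\ℍ` to `ℂ`

This file is not used by any of the statement files.

* `j_surjective`: every complex number is `j(τ)` for some `τ`;
* `j_eq_iff`: `j(τ') = j(τ)` if and only if `τ' = γ τ` for some `γ ∈ SL₂(ℤ)`;
* `jEquiv`: the resulting bijection.
-/

set_option autoImplicit false

noncomputable section

namespace Fermat.Agent.Cor.CM

open UpperHalfPlane MatrixGroups ModularForm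
open Fermat.Agent.H14 (pp)
open Fermat.Agent.H24

/-- **Every complex number is the invariant of a point of the upper half plane.** -/
theorem j_surjective : Function.Surjective j := fun c => by
  obtain ⟨τ, hτ⟩ := H18.jfun_surjective c
  exact ⟨τ, hτ⟩

theorem mem_pp {τ : ℍ} {l : ℂ} {hl : l ≠ 0} {z : ℂ} :
    z ∈ (pp τ l hl).lattice ↔ ∃ m n : ℤ, z = l * (m * τ + n) := by
  rw [PeriodPair.mem_lattice]
  show (∃ m n : ℤ, m * (l * (τ : ℂ)) + n * l = z) ↔ _
  constructor
  · rintro ⟨m, n, rfl⟩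
    exact ⟨m, n, by ring⟩
  · rintro ⟨m, n, rfl⟩
    exact ⟨m, n, by ring⟩

/-- an inclusion of lattices in coordinates -/
theorem pp_le_iff {τ τ' : ℍ} {l l' : ℂ} {hl : l ≠ 0} {hl' : l' ≠ 0} :
    (pp τ l hl).lattice ≤ (pp τ' l' hl').lattice ↔
      ∃ p q s t : ℤ, l * τ = l' * (p * τ' + q) ∧ l = l' * (s * τ' + t) := by
  constructor
  · intro h
    obtain ⟨p, q, h1⟩ := mem_pp.mp (h (mem_pp.mpr ⟨1, 0, rfl⟩ : l * (((1 : ℤ) : ℂ) * τ + ((0 : ℤ) : ℂ)) ∈ _))
    obtain ⟨s, t, h2⟩ := mem_pp.mp (h (mem_pp.mpr ⟨0, 1, rfl⟩ : l * (((0 : ℤ) : ℂ) * τ + ((1 : ℤ) : ℂ)) ∈ _))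
    refine ⟨p, q, s, t, ?_, ?_⟩
    · rw [← h1]; push_cast; ring
    · rw [← h2]; push_cast; ring
  · rintro ⟨p, q, s, t, h1, h2⟩ z hz
    obtain ⟨m, n, rfl⟩ := mem_pp.mp hz
    refine mem_pp.mpr ⟨m * p + n * s, m * q + n * t, ?_⟩
    push_cast
    linear_combination (m : ℂ) * h1 + n * h2

/-- `1, τ` are linearly independent over `ℤ`. -/
theorem eq_zero_of_lin {τ : ℍ} {m n : ℤ} (h : (m : ℂ) * τ + n = 0) : m = 0 ∧ n = 0 := by
  have h1 := congrArg Complex.im h
  simp only [Complex.add_im, Complex.mul_im, Complex.intCast_re, Complex.intCast_im, zero_mul,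
    add_zero, Complex.zero_im] at h1
  rcases mul_eq_zero.mp h1 with hs | hs
  · have hs' : m = 0 := by exact_mod_cast hs
    subst hs'
    refine ⟨rfl, ?_⟩
    rw [Int.cast_zero, zero_mul, zero_add] at h
    exact_mod_cast h
  · exact absurd hs τ.im_pos.ne'

/-- the imaginary part of a quotient -/
theorem im_pos_det {τ τ' : ℍ} {p q s t : ℤ} (h : (τ' : ℂ) * (s * τ + t) = p * τ + q)
    (h0 : (s : ℂ) * τ + t ≠ 0) : 0 < p * t - q * s := by
  have h2 : (τ'.im : ℝ) * Complex.normSq ((s : ℂ) * τ + t) = (p * t - q * s) * τ.im := by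
    have hre := congrArg Complex.re h
    have him := congrArg Complex.im h
    simp only [Complex.add_re, Complex.mul_re, Complex.add_im, Complex.mul_im,
      Complex.intCast_re, Complex.intCast_im, zero_mul, sub_zero, add_zero] at hre him
    have e : Complex.normSq ((s : ℂ) * τ + t) = (s * τ.re + t) ^ 2 + (s * τ.im) ^ 2 := by
      rw [Complex.normSq_apply]
      simp only [Complex.add_re, Complex.mul_re, Complex.add_im, Complex.mul_im,
        Complex.intCast_re, Complex.intCast_im, zero_mul, sub_zero, add_zero]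
      show (s * τ.re + t) * (s * τ.re + t) + (s * τ.im) * (s * τ.im) = _
      ring
    rw [e]
    change τ'.re * (s * τ.re + t) - τ'.im * (s * τ.im) = p * τ.re + q at hre
    change τ'.re * (s * τ.im) + τ'.im * (s * τ.re + t) = p * τ.im at him
    linear_combination (s * τ.re + t) * him - (s * τ.im) * hre
  have h3 : 0 < ((p * t - q * s : ℤ) : ℝ) * τ.im := by
    push_cast
    rw [← h2]
    exact mul_pos τ'.im_pos (Complex.normSq_pos.mpr h0)
  have h4 := pos_of_mul_pos_left h3 τ.im_pos.le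
  exact_mod_cast h4

/-- lattices which coincide differ by an element of `SL₂(ℤ)`. -/
theorem exists_smul_of_lattice_eq {τ τ' : ℍ} {l l' : ℂ} {hl : l ≠ 0} {hl' : l' ≠ 0}
    (h : (pp τ l hl).lattice = (pp τ' l' hl').lattice) : ∃ γ : SL(2, ℤ), τ' = γ • τ := by
  obtain ⟨p, q, s, t, h1, h2⟩ := pp_le_iff.mp h.ge
  obtain ⟨p', q', s', t', h3, h4⟩ := pp_le_iff.mp h.le
  have hst : (s : ℂ) * τ + t ≠ 0 := by
    intro h0
    rw [h0, mul_zero] at h2
    exact hl' h2
  have h5 : (τ' : ℂ) * (s * τ + t) = p * τ + q := by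
    apply mul_left_cancel₀ hl
    rw [← h1, h2]; ring
  have hdet := im_pos_det h5 hst
  -- the determinant
  have e1 : (p' * p + q' * s - 1 : ℂ) * τ + (p' * q + q' * t) = 0 := by
    apply mul_left_cancel₀ hl
    linear_combination -h3 - (p' : ℂ) * h1 - (q' : ℂ) * h2
  have e2 : (s' * p + t' * s : ℂ) * τ + (s' * q + t' * t - 1) = 0 := by
    apply mul_left_cancel₀ hl
    linear_combination -h4 - (s' : ℂ) * h1 - (t' : ℂ) * h2
  have f1 := eq_zero_of_lin (m := p' * p + q' * s - 1) (n := p' * q + q' * t) (by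
    push_cast; exact e1)
  have f2 := eq_zero_of_lin (m := s' * p + t' * s) (n := s' * q + t' * t - 1) (by
    push_cast; exact e2)
  have hprod : (p' * t' - q' * s') * (p * t - q * s) = 1 := by
    obtain ⟨a1, a2⟩ := f1
    obtain ⟨a3, a4⟩ := f2
    have b1 : p' * p + q' * s = 1 := by linarith
    have b4 : s' * q + t' * t = 1 := by linarith
    linear_combination b1 * (s' * q + t' * t) + b4 - a2 * (s' * p + t' * s)
  have hd1 : p * t - q * s = 1 := by
    have : p * t - q * s ∣ 1 := ⟨p' * t' - q' * s', by linarith⟩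
    rcases Int.isUnit_iff.mp (isUnit_of_dvd_one this) with h | h <;> omega
  let γ : SL(2, ℤ) := ⟨!![p, q; s, t], by rw [Matrix.det_fin_two_of]; linarith⟩
  refine ⟨γ, ?_⟩
  apply UpperHalfPlane.ext
  rw [UpperHalfPlane.coe_specialLinearGroup_apply]
  simp only [γ, Matrix.of_apply, Matrix.cons_val', Matrix.cons_val_zero,
    Matrix.cons_val_fin_one, Matrix.cons_val_one, eq_intCast, Complex.ofReal_intCast,
    algebraMap_int_eq]
  rw [eq_div_iff hst, h5]

/-- two pairs of invariants with the same `j` differ by a scaling. -/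
theorem exists_scale {a b c d : ℂ} (h1 : a ^ 3 - b ^ 2 ≠ 0) (h2 : c ^ 3 - d ^ 2 ≠ 0)
    (hrel : c ^ 3 * b ^ 2 = d ^ 2 * a ^ 3) : ∃ t : ℂ, t ≠ 0 ∧ t ^ 2 * a = c ∧ t ^ 3 * b = d := by
  by_cases ha : a = 0
  · have hb : b ≠ 0 := by
      rintro rfl; apply h1; rw [ha]; ring
    have hc : c = 0 := by
      rw [ha] at hrel
      have : c ^ 3 * b ^ 2 = 0 := by rw [hrel]; ring
      rcases mul_eq_zero.mp this with h | h
      · exact pow_eq_zero_iff (by norm_num) |>.mp h
      · exact absurd (pow_eq_zero_iff (by norm_num) |>.mp h) hb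
    have hd : d ≠ 0 := by
      rintro rfl
      apply h2; rw [hc]; ring
    obtain ⟨t, ht⟩ := IsAlgClosed.exists_pow_nat_eq (d / b) (n := 3) (by norm_num)
    refine ⟨t, ?_, ?_, ?_⟩
    · rintro rfl
      have : d / b = 0 := by rw [← ht]; ring
      exact (div_ne_zero hd hb) this
    · rw [ha, hc, mul_zero]
    · rw [ht]; field_simp
  · by_cases hb : b = 0
    · have hd : d = 0 := by
        rw [hb] at hrel
        have : d ^ 2 * a ^ 3 = 0 := by rw [← hrel]; ring
        rcases mul_eq_zero.mp this with h | h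
        · exact pow_eq_zero_iff (by norm_num) |>.mp h
        · exact absurd (pow_eq_zero_iff (by norm_num) |>.mp h) ha
      have hc : c ≠ 0 := by
        rintro rfl
        apply h2; rw [hd]; ring
      obtain ⟨t, ht⟩ := IsAlgClosed.exists_pow_nat_eq (c / a) (n := 2) (by norm_num)
      refine ⟨t, ?_, ?_, ?_⟩
      · rintro rfl
        have : c / a = 0 := by rw [← ht]; ring
        exact (div_ne_zero hc ha) this
      · rw [ht]; field_simp
      · rw [hb, hd, mul_zero]
    · have hc : c ≠ 0 := by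
        rintro rfl
        have h1 : d ^ 2 * a ^ 3 = 0 := by rw [← hrel]; ring
        rcases mul_eq_zero.mp h1 with h3 | h3
        · apply h2
          rw [pow_eq_zero_iff (by norm_num)] at h3
          rw [h3]; ring
        · exact ha (pow_eq_zero_iff (by norm_num) |>.mp h3)
      have hd : d ≠ 0 := by
        rintro rfl
        have h1 : c ^ 3 * b ^ 2 = 0 := by rw [hrel]; ring
        rcases mul_eq_zero.mp h1 with h2 | h2
        · exact hc (pow_eq_zero_iff (by norm_num) |>.mp h2)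
        · exact hb (pow_eq_zero_iff (by norm_num) |>.mp h2)
      refine ⟨d * a / (c * b), ?_, ?_, ?_⟩
      · exact div_ne_zero (mul_ne_zero hd ha) (mul_ne_zero hc hb)
      · field_simp
        linear_combination -hrel
      · field_simp
        linear_combination -hrel

/-- **Two points of the upper half plane have the same invariant if and only if they are
equivalent under `SL₂(ℤ)`.** -/
theorem j_eq_iff {τ τ' : ℍ} : j τ' = j τ ↔ ∃ γ : SL(2, ℤ), τ' = γ • τ := by
  constructor
  swap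
  · rintro ⟨γ, rfl⟩
    exact j_smul γ τ
  intro h
  have hD : discriminant τ ≠ 0 := discriminant_ne_zero τ
  have hD' : discriminant τ' ≠ 0 := discriminant_ne_zero τ'
  have hE := H18.E4_cube_eq τ
  have hE' := H18.E4_cube_eq τ'
  rw [j, j, div_eq_div_iff hD' hD] at h
  obtain ⟨t, ht0, ht4, ht6⟩ := exists_scale (a := E₄ τ) (b := E₆ τ) (c := E₄ τ') (d := E₆ τ')
    (by rw [hE]; intro h0; apply hD; linear_combination h0 / 1728)
    (by rw [hE']; intro h0; apply hD'; linear_combination h0 / 1728)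
    (by linear_combination (-1728) * h - E₄ τ' ^ 3 * hE + E₄ τ ^ 3 * hE')
  obtain ⟨s, hs⟩ := IsAlgClosed.exists_pow_nat_eq t (n := 2) (by norm_num)
  have hs0 : s ≠ 0 := by
    rintro rfl
    apply ht0; rw [← hs]; ring
  have hpi : (Real.pi : ℂ) ≠ 0 := by exact_mod_cast Real.pi_ne_zero
  have hl1 : (2 * Real.pi / s : ℂ) ≠ 0 := div_ne_zero (mul_ne_zero two_ne_zero hpi) hs0
  have hl2 : (2 * Real.pi : ℂ) ≠ 0 := mul_ne_zero two_ne_zero hpi
  have a1 : 2 * (Real.pi : ℂ) / (2 * Real.pi / s) = s := by field_simp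
  have a2 : 2 * (Real.pi : ℂ) / (2 * Real.pi) = 1 := div_self hl2
  refine exists_smul_of_lattice_eq (l := 2 * Real.pi / s) (l' := 2 * Real.pi) (hl := hl1)
    (hl' := hl2) (H14.lattice_eq ?_ ?_)
  · have b1 := c4_pp τ _ hl1
    have b2 := c4_pp τ' _ hl2
    rw [a1] at b1
    rw [a2] at b2
    have : s ^ 4 * E₄ τ = E₄ τ' := by rw [← ht4, ← hs]; ring
    linear_combination (b1 - b2 + this) / 12
  · have b1 := c6_pp τ _ hl1
    have b2 := c6_pp τ' _ hl2
    rw [a1] at b1
    rw [a2] at b2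
    have : s ^ 6 * E₆ τ = E₆ τ' := by rw [← ht6, ← hs]; ring
    linear_combination (b1 - b2 + this) / 216

/-- **The bijection** `SL₂(ℤ)\ℍ ≃ ℂ` given by `j`. -/
def jEquiv : MulAction.orbitRel.Quotient SL(2, ℤ) ℍ ≃ ℂ :=
  Equiv.ofBijective (Quotient.lift (s := MulAction.orbitRel SL(2, ℤ) ℍ) j fun τ τ' h => by
    obtain ⟨γ, hγ⟩ := h
    exact j_eq_iff.mpr ⟨γ, hγ.symm⟩) (by
    constructor
    · intro a b
      refine Quotient.inductionOn₂ a b fun τ τ' h => Quotient.sound ?_
      obtain ⟨γ, hγ⟩ := j_eq_iff.mp (h : j τ = j τ')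
      exact ⟨γ, hγ.symm⟩
    · intro c
      obtain ⟨τ, hτ⟩ := j_surjective c
      exact ⟨Quotient.mk _ τ, hτ⟩)

@[simp]
theorem jEquiv_mk (τ : ℍ) : jEquiv (Quotient.mk (MulAction.orbitRel SL(2, ℤ) ℍ) τ) = j τ := rfl

end Fermat.Agent.Cor.CM
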