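import Mathlib
import Fermat.Agent.S25
import Fermat.Agent.S26

/-!
# The Picard variety of a curve as a commutative group scheme

* `pic0 a`: for a scheme `A` over an algebraically closed field `K`, the subgroup of `Pic A` of the
  classes which are algebraically equivalent to zero.
* `eqv`: the points of a scheme which represents the functor of statement S25, as a group.
* `law`: the relative group law on this scheme; it is commutative.
-/

set_option autoImplicit false

universe u

open CategoryTheory CategoryTheory.Limits AlgebraicGeometry TopologicalSpace Opposite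
open AlgebraicGeometry.RelPicard NeronModelInfra GoodReductionJacobian
open Fermat.Agent.J25 Fermat.Agent.J25.Cut

noncomputable section

namespace Fermat.Agent.Cor.Jac

section pic0

theorem AEZ_one {K : Type u} [Field K] {A : Scheme.{u}} (a : A ⟶ Spec (CommRingCat.of K)) :
    AEZ a 1 :=
  ⟨Spec (CommRingCat.of K), 𝟙 _, inferInstance, geometricallyIntegral_id_Spec K, 1,
    ⟨𝟙 _, Category.comp_id _⟩, ⟨𝟙 _, Category.comp_id _⟩, map_one _, by rw [map_one, map_one]⟩

theorem AEZ_inv {K : Type u} [Field K] {A : Scheme.{u}} {a : A ⟶ Spec (CommRingCat.of K)}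
    {l : PicC A} (h : AEZ a l) : AEZ a l⁻¹ := by
  obtain ⟨T, t, ht1, ht2, m, t₀, t₁, h0, h1⟩ := h
  refine ⟨T, t, ht1, ht2, m⁻¹, t₀, t₁, ?_, ?_⟩
  · rw [map_inv, h0, inv_one]
  · rw [map_inv, h1, map_inv]

theorem AEZ_mul {K : Type u} [Field K] [IsAlgClosed K] {A : Scheme.{u}}
    {a : A ⟶ Spec (CommRingCat.of K)} {l l' : PicC A} (h : AEZ a l) (h' : AEZ a l') :
    AEZ a (l * l') := by
  obtain ⟨T, t, ht1, ht2, m, t₀, t₁, h0, h1⟩ := h
  obtain ⟨T', t', ht1', ht2', m', t₀', t₁', h0', h1'⟩ := h'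
  have hT : IsIntegral T := GeometricallyIntegral.isIntegral_of_subsingleton t
  have hT' : IsIntegral T' := GeometricallyIntegral.isIntegral_of_subsingleton t'
  have hp : pullback.snd t t' ≫ t' = pullback.fst t t' ≫ t := pullback.condition.symm
  have hint : IsIntegral (pullback t t') := by
    let _ : H20.KSch K T := ⟨t⟩
    let _ : H20.KSch K T' := ⟨t'⟩
    exact H20.kprod_integral K T T'
  let φ : SchemeHomOver (pullback.fst t t' ≫ t) t := ⟨pullback.fst t t', rfl⟩
  let φ' : SchemeHomOver (pullback.fst t t' ≫ t) t' := ⟨pullback.snd t t', hp⟩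
  have key : ∀ (τ : SchemeHomOver (𝟙 (Spec (CommRingCat.of K))) t)
      (τ' : SchemeHomOver (𝟙 (Spec (CommRingCat.of K))) t'),
      ∃ ρ : SchemeHomOver (𝟙 (Spec (CommRingCat.of K))) (pullback.fst t t' ≫ t),
        postComp φ ρ = τ ∧ postComp φ' ρ = τ' := by
    intro τ τ'
    refine ⟨⟨pullback.lift τ.1 τ'.1 (by rw [τ.2, τ'.2]), ?_⟩, ?_, ?_⟩
    · rw [pullback.lift_fst_assoc, τ.2]
    · exact Subtype.ext (pullback.lift_fst _ _ _)
    · exact Subtype.ext (pullback.lift_snd _ _ _)
  obtain ⟨ρ₀, e₀, e₀'⟩ := key t₀ t₀'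
  obtain ⟨ρ₁, e₁, e₁'⟩ := key t₁ t₁'
  refine ⟨pullback t t', pullback.fst t t' ≫ t, inferInstance,
    Glb.geometricallyIntegral_of_isAlgClosed _, rst a φ m * rst a φ' m', ρ₀, ρ₁, ?_, ?_⟩
  · change rst a ρ₀ (rst a φ m * rst a φ' m') = 1
    rw [map_mul, rst_rst, rst_rst, e₀, e₀']
    change PicC.map (baseChangeSnd a t₀) m * PicC.map (baseChangeSnd a t₀') m' = 1
    rw [h0, h0', mul_one]
  · change rst a ρ₁ (rst a φ m * rst a φ' m') = _
    rw [map_mul, rst_rst, rst_rst, e₁, e₁']
    change PicC.map (baseChangeSnd a t₁) m * PicC.map (baseChangeSnd a t₁') m' = _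
    rw [h1, h1', map_mul]

theorem AEZ_pull {K : Type u} [Field K] {A A' : Scheme.{u}} {a : A ⟶ Spec (CommRingCat.of K)}
    {a' : A' ⟶ Spec (CommRingCat.of K)} (e : A' ⟶ A) (he : e ≫ a = a') {l : PicC A}
    (h : AEZ a l) : AEZ a' (PicC.map e l) := by
  obtain ⟨L, hL, rfl⟩ := cls_surj l
  rw [← cls_pullback _ hL (hL.pullback _), ← isAlgEquivZero_iff]
  exact ((isAlgEquivZero_iff a hL).mpr h).pullback e he

/-- the classes of line bundles which are algebraically equivalent to zero -/
def pic0 {K : Type u} [Field K] [IsAlgClosed K] {A : Scheme.{u}}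
    (a : A ⟶ Spec (CommRingCat.of K)) : Subgroup (PicC A) where
  carrier := {l | AEZ a l}
  mul_mem' := fun h h' => AEZ_mul h h'
  one_mem' := AEZ_one a
  inv_mem' := fun h => AEZ_inv h

theorem mem_pic0 {K : Type u} [Field K] [IsAlgClosed K] {A : Scheme.{u}}
    {a : A ⟶ Spec (CommRingCat.of K)} {l : PicC A} : l ∈ pic0 a ↔ AEZ a l := Iff.rfl

end pic0

section functor

variable {R : Type u} [CommRing R] {C : Scheme.{u}} (c : C ⟶ Spec (CommRingCat.of R))
  (ε : SchemeHomOver (𝟙 (Spec (CommRingCat.of R))) c)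

/-- the rigidified classes on `C_T` which are fibrewise algebraically equivalent to zero -/
def fib {T : Scheme.{u}} (t : T ⟶ Spec (CommRingCat.of R)) : Subgroup (PicC (pullback c t)) where
  carrier := {l | PicC.map (rigSection c t ε) l = 1 ∧
    ∀ (K : Type u) [Field K] [IsAlgClosed K] (s : Spec (CommRingCat.of K) ⟶ T),
      AEZ (fibreAt c t s) (PicC.map (pullback.fst (pullback.snd c t) s) l)}
  mul_mem' := by
    rintro l l' ⟨h1, h2⟩ ⟨h1', h2'⟩
    refine ⟨by rw [map_mul, h1, h1', mul_one], fun K _ _ s => ?_⟩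
    rw [map_mul]
    exact AEZ_mul (h2 K s) (h2' K s)
  one_mem' := by
    refine ⟨map_one _, fun K _ _ s => ?_⟩
    rw [map_one]
    exact AEZ_one _
  inv_mem' := by
    rintro l ⟨h1, h2⟩
    refine ⟨by rw [map_inv, h1, inv_one], fun K _ _ s => ?_⟩
    rw [map_inv]
    exact AEZ_inv (h2 K s)

theorem rcls_mem_fib_iff {T : Scheme.{u}} {t : T ⟶ Spec (CommRingCat.of R)}
    (M : RigidifiedLineBundle c ε t) : rcls M ∈ fib c ε t ↔ FibrewiseAlgEquivZero M := by
  rw [fibrewise_iff]
  exact ⟨fun h => h.2, fun h => ⟨rcls_rig M, h⟩⟩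

variable {c ε} {D : RelativePic0Designation R c}
  (h : RepresentsRelSubPic c ε (algEquivZeroCut c ε) D)

theorem rst_mem_fib {T : Scheme.{u}} {t : T ⟶ Spec (CommRingCat.of R)}
    (g : SchemeHomOver t D.toBase) : rst c g (rcls h.poincare) ∈ fib c ε t := by
  rw [rst, ← rcls_pullbackAlong, rcls_mem_fib_iff]
  exact (algEquivZeroCut c ε).pullback_mem _ _ g _ h.poincare_mem

/-- the points of the representing scheme are the rigidified classes which are fibrewise
algebraically equivalent to zero -/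
def eqv {T : Scheme.{u}} (t : T ⟶ Spec (CommRingCat.of R)) :
    SchemeHomOver t D.toBase ≃ fib c ε t :=
  Equiv.ofBijective (fun g => ⟨rst c g (rcls h.poincare), rst_mem_fib h g⟩) (by
    constructor
    · intro g g' hg
      have h1 : rst c g (rcls h.poincare) = rst c g' (rcls h.poincare) :=
        congrArg Subtype.val hg
      rw [rst, rst, ← rcls_pullbackAlong, ← rcls_pullbackAlong, rcls_eq_iff] at h1
      exact h.ext_of_iso t g g' h1
    · rintro ⟨l, hl⟩
      obtain ⟨M, rfl⟩ := exists_rcls l hl.1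
      have hM : FibrewiseAlgEquivZero M := (rcls_mem_fib_iff c ε M).mp hl
      obtain ⟨g, hg, -⟩ := h.univ t M hM
      refine ⟨g, Subtype.ext ?_⟩
      change rst c g (rcls h.poincare) = rcls M
      rw [rst, ← rcls_pullbackAlong, rcls_eq_iff]
      exact hg)

theorem eqv_coe {T : Scheme.{u}} (t : T ⟶ Spec (CommRingCat.of R))
    (g : SchemeHomOver t D.toBase) : (eqv h t g : PicC (pullback c t)) =
      rst c g (rcls h.poincare) := rfl

theorem eqv_comp {T T' : Scheme.{u}} (t : T ⟶ Spec (CommRingCat.of R))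
    (t' : T' ⟶ Spec (CommRingCat.of R)) (ψ : T' ⟶ T) (hψ : ψ ≫ t = t')
    (x : SchemeHomOver t D.toBase) :
    (eqv h t' (schemeHomOverComp ψ hψ x) : PicC (pullback c t')) =
      rst c (⟨ψ, hψ⟩ : SchemeHomOver t' t) (eqv h t x : PicC (pullback c t)) := by
  rw [eqv_coe, eqv_coe, rst_rst]
  rfl

/-- **the group law of the Picard scheme** -/
def law : RelativeGroupLaw R D.toBase where
  mul t x y := (eqv h t).symm (eqv h t x * eqv h t y)
  one t := (eqv h t).symm 1
  inv t x := (eqv h t).symm (eqv h t x)⁻¹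
  mul_assoc t x y z := by
    rw [Equiv.apply_symm_apply, Equiv.apply_symm_apply, mul_assoc]
  one_mul t x := by
    rw [Equiv.apply_symm_apply, one_mul, Equiv.symm_apply_apply]
  mul_one t x := by
    rw [Equiv.apply_symm_apply, mul_one, Equiv.symm_apply_apply]
  inv_mul_cancel t x := by
    rw [Equiv.apply_symm_apply, inv_mul_cancel]
  mul_natural t t' ψ hψ x y := by
    apply (eqv h t').injective
    apply Subtype.ext
    rw [eqv_comp, Equiv.apply_symm_apply, Equiv.apply_symm_apply, Subgroup.coe_mul,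
      Subgroup.coe_mul, map_mul, eqv_comp, eqv_comp]

theorem eqv_mul {T : Scheme.{u}} (t : T ⟶ Spec (CommRingCat.of R))
    (x y : SchemeHomOver t D.toBase) :
    eqv h t ((law h).mul t x y) = eqv h t x * eqv h t y := Equiv.apply_symm_apply _ _

theorem eqv_one {T : Scheme.{u}} (t : T ⟶ Spec (CommRingCat.of R)) :
    eqv h t ((law h).one t) = 1 := Equiv.apply_symm_apply _ _

theorem isCommutative_law : (law h).IsCommutative := fun t x y =>
  congrArg (eqv h t).symm (mul_comm _ _)

theorem eqv_nsmul {T : Scheme.{u}} (t : T ⟶ Spec (CommRingCat.of R)) (n : ℕ)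
    (x : SchemeHomOver t D.toBase) : eqv h t ((law h).nsmul t n x) = eqv h t x ^ n := by
  induction n with
  | zero => rw [RelativeGroupLaw.nsmul_zero, eqv_one, pow_zero]
  | succ n ih => rw [RelativeGroupLaw.nsmul_succ, eqv_mul, ih, pow_succ]

theorem isTorsionPoint_iff {T : Scheme.{u}} (t : T ⟶ Spec (CommRingCat.of R)) (n : ℕ)
    (x : SchemeHomOver t D.toBase) : (law h).IsTorsionPoint t n x ↔ eqv h t x ^ n = 1 := by
  rw [RelativeGroupLaw.isTorsionPoint_def, ← (eqv h t).injective.eq_iff, eqv_nsmul, eqv_one]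

/-- the zero section is the neutral element -/
theorem law_one_eq : ((law h).one (𝟙 _)).1 = D.zeroSection := by
  have h1 : eqv h (𝟙 _) ⟨D.zeroSection, D.zeroSection_toBase⟩ = 1 := by
    apply Subtype.ext
    rw [eqv_coe, rst, ← rcls_pullbackAlong, Subgroup.coe_one, ← rcls_unit (c := c) (ε := ε),
      rcls_eq_iff]
    exact h.zero
  rw [← eqv_one h, (eqv h _).injective.eq_iff] at h1
  exact (congrArg Subtype.val h1).symm

end functor

end Fermat.Agent.Cor.Jac
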