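import Mathlib
import Fermat.Agent.Cor.JacGroup
import Fermat.Agent.J25.GA10

/-!
# The number of `n`-torsion points of the Picard variety of a curve
-/

set_option autoImplicit false

universe u

open CategoryTheory CategoryTheory.Limits AlgebraicGeometry TopologicalSpace Opposite
open AlgebraicGeometry.RelPicard NeronModelInfra GoodReductionJacobian
open Fermat.Agent.J25 Fermat.Agent.J25.Cut

noncomputable section

namespace Fermat.Agent.Cor.Jac

section dim

theorem relDim_unique {K : Type u} [Field K] {X : Scheme.{u}} [IsIntegral X]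
    (f : X ⟶ Spec (CommRingCat.of K)) {V W : X.Opens} (hV : (V : Set X).Nonempty)
    (hW : (W : Set X).Nonempty) {n m : ℕ} (hn : SmoothOfRelativeDimension n (V.ι ≫ f))
    (hm : SmoothOfRelativeDimension m (W.ι ≫ f)) : n = m := by
  have hne : ((V ⊓ W : X.Opens) : Set X).Nonempty :=
    nonempty_preirreducible_inter V.isOpen W.isOpen hV hW
  have hne' : Nonempty (V ⊓ W : X.Opens).toScheme := hne.to_subtype
  have hint : IsIntegral (V ⊓ W : X.Opens).toScheme := isIntegral_of_isOpenImmersion (V ⊓ W).ι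
  have h1 : SmoothOfRelativeDimension (0 + n) ((V ⊓ W).ι ≫ f) := by
    rw [← X.homOfLE_ι (inf_le_left : V ⊓ W ≤ V), Category.assoc]
    infer_instance
  have h2 : SmoothOfRelativeDimension (0 + m) ((V ⊓ W).ι ≫ f) := by
    rw [← X.homOfLE_ι (inf_le_right : V ⊓ W ≤ W), Category.assoc]
    infer_instance
  rw [zero_add] at h1 h2
  let _ : H20.KSch K (V ⊓ W : X.Opens).toScheme := ⟨(V ⊓ W).ι ≫ f⟩
  have h3 := H20.trdeg_functionField K (V ⊓ W : X.Opens).toScheme n (hs := h1)
  have h4 := H20.trdeg_functionField K (V ⊓ W : X.Opens).toScheme m (hs := h2)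
  rw [h3] at h4
  exact_mod_cast h4

/-- a smooth integral scheme over a field is smooth of some relative dimension -/
theorem exists_relDim {K : Type u} [Field K] {X : Scheme.{u}} [IsIntegral X]
    (f : X ⟶ Spec (CommRingCat.of K)) [Smooth f] : ∃ g : ℕ, SmoothOfRelativeDimension g f := by
  choose V hV n hn using fun x => exists_smoothOfRelativeDimension f x
  refine ⟨n (genericPoint X), ?_⟩
  have hloc : IsZariskiLocalAtSource (@SmoothOfRelativeDimension.{u} (n (genericPoint X))) :=
    HasRingHomProperty.instIsZariskiLocalAtSource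
      (Q := RingHom.Locally (RingHom.IsStandardSmoothOfRelativeDimension (n (genericPoint X))))
  refine (IsZariskiLocalAtSource.iff_of_iSup_eq_top
    (P := @SmoothOfRelativeDimension.{u} (n (genericPoint X))) V
    (top_unique fun x _ => Opens.mem_iSup.mpr ⟨x, hV x⟩)).mpr fun x => ?_
  rw [relDim_unique f ⟨_, hV (genericPoint X)⟩ ⟨_, hV x⟩ (hn _) (hn x)]
  exact hn x

end dim

section points

variable {k : Type u} [Field k] [IsAlgClosed k] {C : Scheme.{u}} {c : C ⟶ Spec (CommRingCat.of k)}
  {ε : SchemeHomOver (𝟙 (Spec (CommRingCat.of k))) c}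

theorem mem_fib_iff (l : PicC C) :
    PicC.map (pullback.fst c (𝟙 (Spec (CommRingCat.of k)))) l ∈ fib c ε (𝟙 _) ↔
      l ∈ pic0 c := by
  constructor
  · rintro ⟨-, h⟩
    have h1 := h k (𝟙 _)
    let e : C ⟶ pullback (pullback.snd c (𝟙 (Spec (CommRingCat.of k)))) (𝟙 _) :=
      pullback.lift (pullback.lift (𝟙 C) c (by simp)) c (by rw [pullback.lift_snd]; simp)
    have he : e ≫ fibreAt c (𝟙 _) (𝟙 _) = c := pullback.lift_snd _ _ _
    have h2 := AEZ_pull e he h1
    rw [← PicC.map_comp_apply, ← PicC.map_comp_apply] at h2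
    have h3 : (e ≫ pullback.fst _ _) ≫ pullback.fst c (𝟙 (Spec (CommRingCat.of k))) = 𝟙 C := by
      rw [pullback.lift_fst, pullback.lift_fst]
    rw [h3, PicC.map_id_apply] at h2
    exact h2
  · rintro ⟨T, t, ht1, ht2, m, t₀, t₁, h0, h1⟩
    refine ⟨PicC.eq_one_of_subsingleton _, fun K _ _ s => ?_⟩
    refine AEZ_of_deg0 T t t₀ m h0 _ K s
      ⟨s ≫ t₁.1, by rw [Category.assoc, t₁.2]⟩ ?_
    rw [← h1]
    exact (rst_rst c t₁ (⟨s, rfl⟩ : SchemeHomOver (s ≫ 𝟙 _) (𝟙 _)) m).symm

/-- the rational points of the Picard variety -/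
def fibEquiv : pic0 c ≃* fib c ε (𝟙 _) :=
  MulEquiv.ofBijective
    (((PicC.map (pullback.fst c (𝟙 (Spec (CommRingCat.of k))))).comp (pic0 c).subtype).codRestrict
      (fib c ε (𝟙 _)) fun l => (mem_fib_iff l.1).mpr l.2) (by
    constructor
    · intro l l' hl
      apply Subtype.ext
      exact (PicC.mapEquiv (asIso (pullback.fst c (𝟙 (Spec (CommRingCat.of k)))))).injective
        (congrArg Subtype.val hl)
    · rintro ⟨l, hl⟩
      obtain ⟨m, rfl⟩ :=
        (PicC.mapEquiv (asIso (pullback.fst c (𝟙 (Spec (CommRingCat.of k)))))).surjective l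
      exact ⟨⟨m, (mem_fib_iff m).mp hl⟩, rfl⟩)

/-- the group of rational points of the Picard variety is `Pic⁰` -/
theorem card_torsion_eq {D : RelativePic0Designation k c}
    (h : RepresentsRelSubPic c ε (algEquivZeroCut c ε) D) (n : ℕ) :
    Nat.card {x : SchemeHomOver (𝟙 (Spec (CommRingCat.of k))) D.toBase //
      (law h).IsTorsionPoint (𝟙 (Spec (CommRingCat.of k))) n x} =
    Nat.card {l : pic0 c // l ^ n = 1} := by
  refine (Nat.card_congr (Equiv.subtypeEquiv ((fibEquiv (c := c) (ε := ε)).toEquiv.trans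
    (eqv h (𝟙 _)).symm) fun l => ?_)).symm
  rw [isTorsionPoint_iff]
  change _ ↔ (eqv h (𝟙 _)) ((eqv h (𝟙 _)).symm (fibEquiv l)) ^ n = 1
  rw [Equiv.apply_symm_apply, ← map_pow, map_eq_one_iff _ fibEquiv.injective]

theorem exists_section (c : C ⟶ Spec (CommRingCat.of k)) [LocallyOfFiniteType c] [Nonempty C] :
    Nonempty (SchemeHomOver (𝟙 (Spec (CommRingCat.of k))) c) := by
  have hJ : JacobsonSpace C := LocallyOfFiniteType.jacobsonSpace c
  obtain ⟨x, -, hx⟩ := nonempty_inter_closedPoints (Z := (Set.univ : Set C)) Set.univ_nonempty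
    isClosed_univ.isLocallyClosed
  exact ⟨⟨pointOfClosedPoint c x hx, pointOfClosedPoint_comp c x hx⟩⟩

end points

/-- **The Picard variety of a curve**: it is a commutative group scheme whose points are the
rigidified classes which are fibrewise algebraically equivalent to zero, and an abelian scheme. -/
theorem exists_picardVariety (k : Type u) [Field k] [IsAlgClosed k] {C : Scheme.{u}}
    (c : C ⟶ Spec (CommRingCat.of k)) [IsProper c] [SmoothOfRelativeDimension 1 c] [IsIntegral C]
    (ε : SchemeHomOver (𝟙 (Spec (CommRingCat.of k))) c) :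
    ∃ (D : RelativePic0Designation k c) (h : RepresentsRelSubPic c ε (algEquivZeroCut c ε) D)
      (g : ℕ), (law h).IsCommutative ∧ AbelianSchemePropertyBundle k D.toBase ∧
        SmoothOfRelativeDimension g D.toBase := by
  obtain ⟨D, ⟨h⟩, hsm, hpr, hgc⟩ := Fermat.Agent.S25.result k c ε
  have hint : IsIntegral D.P := isIntegral_of_smooth D.toBase
  obtain ⟨g, hg⟩ := exists_relDim D.toBase
  refine ⟨D, h, g, isCommutative_law h, ⟨hsm, hpr, fun s => ?_, ⟨law h⟩⟩, hg⟩
  have h2 : (D.toBase.base ⁻¹' {s} : Set D.P) = Set.univ := by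
    ext x
    simp only [Set.mem_preimage, Set.mem_singleton_iff, Set.mem_univ, iff_true]
    exact Subsingleton.elim _ _
  rw [h2]
  exact isConnected_univ

/-- **Torsion of the Picard variety of a curve**: there is `g` with `#Pic⁰(C)[n] = n ^ (2 * g)` for
all `n` which are invertible in `k`. -/
theorem card_pic0_torsion (k : Type u) [Field k] [IsAlgClosed k] {C : Scheme.{u}}
    (c : C ⟶ Spec (CommRingCat.of k)) [IsProper c] [SmoothOfRelativeDimension 1 c]
    [IsIntegral C] :
    ∃ g : ℕ, ∀ n : ℕ, (n : k) ≠ 0 → Nat.card {l : pic0 c // l ^ n = 1} = n ^ (2 * g) := by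
  obtain ⟨ε⟩ := exists_section c
  obtain ⟨D, h, g, h1, h2, h3⟩ := exists_picardVariety k c ε
  refine ⟨g, fun n hn => ?_⟩
  rw [← card_torsion_eq h n]
  exact Fermat.Agent.S26.result k D.toBase (law h) h1 h2 g n hn

end Fermat.Agent.Cor.Jac
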