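import Mathlib

/-!
# Tangent spaces at rational points

`TS χ` is the space of tangent vectors of the `k`-algebra `B` at the rational point `χ : B → k`.
It does not change under formally étale morphisms; for a smooth algebra of relative dimension `n`
its dimension is `n`.
-/

set_option autoImplicit false

noncomputable section

namespace Fermat.Agent.Cor.Jac

open TrivSqZeroExt

section TS

variable {k : Type*} [Field k] {B : Type*} [CommRing B] [Algebra k B] (χ : B →ₐ[k] k)

/-- the tangent vectors at a rational point -/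
def TS : Submodule k (B →ₗ[k] k) where
  carrier := {δ | ∀ x y, δ (x * y) = χ x * δ y + χ y * δ x}
  add_mem' {δ δ'} h h' x y := by
    simp only [LinearMap.add_apply, h x y, h' x y]
    ring
  zero_mem' x y := by simp
  smul_mem' r δ h x y := by
    simp only [LinearMap.smul_apply, h x y, smul_eq_mul]
    ring

variable {χ}

theorem TS_one {δ : B →ₗ[k] k} (h : δ ∈ TS χ) : δ 1 = 0 := by
  have h1 : δ (1 * 1) = χ 1 * δ 1 + χ 1 * δ 1 := h 1 1
  rw [mul_one, map_one χ, one_mul] at h1
  simpa using h1

/-- the point with values in the dual numbers -/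
def toHom (δ : B →ₗ[k] k) (h : δ ∈ TS χ) : B →ₐ[k] TrivSqZeroExt k k :=
  AlgHom.ofLinearMap ((inlAlgHom k k k).toLinearMap ∘ₗ χ.toLinearMap + inrHom k k ∘ₗ δ)
    (by
      ext
      · simp
      · simp [TS_one h])
    (fun x y => by
      ext
      · simp
      · simp [h x y]
        ring)

theorem fst_toHom (δ : B →ₗ[k] k) (h : δ ∈ TS χ) (x : B) : (toHom δ h x).fst = χ x := by
  simp [toHom]

theorem snd_toHom (δ : B →ₗ[k] k) (h : δ ∈ TS χ) (x : B) : (toHom δ h x).snd = δ x := by
  simp [toHom]

/-- the tangent vector of a point with values in the dual numbers -/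
def ofHom (F : B →ₐ[k] TrivSqZeroExt k k) : B →ₗ[k] k := sndHom k k ∘ₗ F.toLinearMap

theorem ofHom_apply (F : B →ₐ[k] TrivSqZeroExt k k) (x : B) : ofHom F x = (F x).snd := rfl

theorem ofHom_mem (F : B →ₐ[k] TrivSqZeroExt k k) (hF : ∀ x, (F x).fst = χ x) :
    ofHom F ∈ TS χ := fun x y => by
  simp [ofHom_apply, hF]
  ring

theorem isNilpotent_ker : IsNilpotent (RingHom.ker (fstHom k k k : TrivSqZeroExt k k →+* k)) := by
  exact ⟨2, kerIdeal_sq k k⟩

end TS

section res

variable {k : Type*} [Field k] {B : Type*} [CommRing B] [Algebra k B]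
  {B' : Type*} [CommRing B'] [Algebra k B'] (g : B →ₐ[k] B') (χ' : B' →ₐ[k] k)

/-- restriction of tangent vectors -/
def TSres : TS χ' →ₗ[k] TS (χ'.comp g) where
  toFun δ := ⟨δ.1 ∘ₗ g.toLinearMap, fun x y => by
    simp only [LinearMap.comp_apply, AlgHom.toLinearMap_apply, map_mul, AlgHom.comp_apply]
    exact δ.2 _ _⟩
  map_add' _ _ := rfl
  map_smul' _ _ := rfl

theorem TSres_apply (δ : TS χ') (x : B) : (TSres g χ' δ).1 x = δ.1 (g x) := rfl

variable {g}

theorem TSres_bijective (hg : (g : B →+* B').FormallyEtale) :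
    Function.Bijective (TSres g χ') := by
  let _ : Algebra B B' := (g : B →+* B').toAlgebra
  have het : Algebra.FormallyEtale B B' := hg
  constructor
  · intro δ₁ δ₂ h
    let F : B →ₐ[k] TrivSqZeroExt k k := (toHom δ₁.1 δ₁.2).comp g
    let _ : Algebra B (TrivSqZeroExt k k) := (F : B →+* TrivSqZeroExt k k).toAlgebra
    have hc₁ : ∀ x, toHom δ₁.1 δ₁.2 (g x) = F x := fun x => rfl
    have hc₂ : ∀ x, toHom δ₂.1 δ₂.2 (g x) = F x := fun x => by
      rw [← hc₁]
      ext
      · rw [fst_toHom, fst_toHom]
      · rw [snd_toHom, snd_toHom]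
        exact (DFunLike.congr_fun (congrArg Subtype.val h) x).symm
    let G₁ : B' →ₐ[B] TrivSqZeroExt k k :=
      { (toHom δ₁.1 δ₁.2 : B' →+* TrivSqZeroExt k k) with commutes' := hc₁ }
    let G₂ : B' →ₐ[B] TrivSqZeroExt k k :=
      { (toHom δ₂.1 δ₂.2 : B' →+* TrivSqZeroExt k k) with commutes' := hc₂ }
    have h1 : G₁ = G₂ := by
      refine Algebra.FormallyUnramified.lift_unique_of_ringHom
        (fstHom k k k : TrivSqZeroExt k k →+* k) isNilpotent_ker G₁ G₂ ?_
      ext x
      change (toHom δ₁.1 δ₁.2 x).fst = (toHom δ₂.1 δ₂.2 x).fst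
      rw [fst_toHom, fst_toHom]
    apply Subtype.ext
    ext x
    rw [← snd_toHom δ₁.1 δ₁.2, ← snd_toHom δ₂.1 δ₂.2]
    exact congrArg TrivSqZeroExt.snd (DFunLike.congr_fun h1 x)
  · rintro ⟨δ, hδ⟩
    let F : B →ₐ[k] TrivSqZeroExt k k := toHom δ hδ
    let _ : Algebra B (TrivSqZeroExt k k) := (F : B →+* TrivSqZeroExt k k).toAlgebra
    let _ : Algebra B k := ((χ'.comp g : B →ₐ[k] k) : B →+* k).toAlgebra
    let p : TrivSqZeroExt k k →ₐ[B] k :=
      { (fstHom k k k : TrivSqZeroExt k k →+* k) with commutes' := fun x => fst_toHom δ hδ x }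
    let q : B' →ₐ[B] k := { (χ' : B' →+* k) with commutes' := fun x => rfl }
    have hp : Function.Surjective p := fun x => ⟨inl x, rfl⟩
    have hn : IsNilpotent (RingHom.ker (p : TrivSqZeroExt k k →+* k)) := isNilpotent_ker
    let G := Algebra.FormallySmooth.liftOfSurjective q p hp hn
    have hG : ∀ x, (G x).fst = χ' x := fun x =>
      Algebra.FormallySmooth.liftOfSurjective_apply q p hp hn x
    have hG' : ∀ x : B, G (g x) = toHom δ hδ x := fun x => G.commutes x
    let G' : B' →ₐ[k] TrivSqZeroExt k k :=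
      { (G : B' →+* TrivSqZeroExt k k) with
        commutes' := fun r => by
          change G (algebraMap k B' r) = _
          rw [← g.commutes r, hG', AlgHom.commutes] }
    refine ⟨⟨ofHom G', ofHom_mem G' hG⟩, ?_⟩
    apply Subtype.ext
    ext x
    rw [TSres_apply, ofHom_apply]
    change (G (g x)).snd = _
    rw [hG', snd_toHom]

end res

section poly

variable {k : Type*} [Field k] {n : ℕ} (χ : MvPolynomial (Fin n) k →ₐ[k] k)

/-- the tangent vectors of the affine space -/
def TSpoly : TS χ →ₗ[k] (Fin n → k) where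
  toFun δ i := δ.1 (MvPolynomial.X i)
  map_add' _ _ := rfl
  map_smul' _ _ := rfl

theorem TSpoly_bijective : Function.Bijective (TSpoly χ) := by
  constructor
  · intro δ δ' h
    have h1 : toHom δ.1 δ.2 = toHom δ'.1 δ'.2 := by
      apply MvPolynomial.algHom_ext
      intro i
      ext
      · rw [fst_toHom, fst_toHom]
      · rw [snd_toHom, snd_toHom]
        exact congrFun h i
    refine Subtype.ext (LinearMap.ext fun x => ?_)
    rw [← snd_toHom δ.1 δ.2, ← snd_toHom δ'.1 δ'.2, h1]
  · intro a
    let F : MvPolynomial (Fin n) k →ₐ[k] TrivSqZeroExt k k :=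
      MvPolynomial.aeval fun i => inl (χ (MvPolynomial.X i)) + inr (a i)
    have hF : ∀ x, (F x).fst = χ x := by
      intro x
      have h1 : (fstHom k k k).comp F = χ := by
        apply MvPolynomial.algHom_ext
        intro i
        simp [F]
      exact DFunLike.congr_fun h1 x
    refine ⟨⟨ofHom F, ofHom_mem F hF⟩, ?_⟩
    funext i
    change (F (MvPolynomial.X i)).snd = a i
    simp [F]

theorem finrank_TS_poly : Module.Finite k (TS χ) ∧ Module.finrank k (TS χ) = n := by
  let E := LinearEquiv.ofBijective (TSpoly χ) (TSpoly_bijective χ)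
  exact ⟨Module.Finite.equiv E.symm, by rw [E.finrank_eq, Module.finrank_fin_fun]⟩

end poly

section smooth

variable {k : Type*} [Field k] {B : Type*} [CommRing B] [Algebra k B]

theorem finrank_TS_of_formallyEtale {B' : Type*} [CommRing B'] [Algebra k B'] (g : B →ₐ[k] B')
    (χ' : B' →ₐ[k] k) (hg : (g : B →+* B').FormallyEtale) :
    (Module.Finite k (TS χ') ↔ Module.Finite k (TS (χ'.comp g))) ∧
      Module.finrank k (TS χ') = Module.finrank k (TS (χ'.comp g)) := by
  let E := LinearEquiv.ofBijective (TSres g χ') (TSres_bijective χ' hg)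
  exact ⟨⟨fun _ => Module.Finite.equiv E, fun _ => Module.Finite.equiv E.symm⟩, E.finrank_eq⟩

/-- **the dimension of the tangent space of a smooth algebra** -/
theorem finrank_TS_of_smooth (n : ℕ) (f : B)
    [Algebra.IsStandardSmoothOfRelativeDimension n k (Localization.Away f)] (χ : B →ₐ[k] k)
    (hf : χ f ≠ 0) : Module.Finite k (TS χ) ∧ Module.finrank k (TS χ) = n := by
  obtain ⟨γ, hγ⟩ := Algebra.IsStandardSmoothOfRelativeDimension.exists_etale_mvPolynomial n k
    (Localization.Away f)
  let l : B →ₐ[k] Localization.Away f := IsScalarTower.toAlgHom k B (Localization.Away f)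
  have hl : (l : B →+* Localization.Away f).FormallyEtale := by
    have h1 : Algebra.FormallyEtale B (Localization.Away f) :=
      Algebra.FormallyEtale.of_isLocalization (Submonoid.powers f)
    have h2 : (l : B →+* Localization.Away f).toAlgebra =
        (inferInstance : Algebra B (Localization.Away f)) := Algebra.algebra_ext _ _ fun r => rfl
    change @Algebra.FormallyEtale _ _ _ _ (l : B →+* Localization.Away f).toAlgebra
    rw [h2]
    exact h1
  let χ₁ : Localization.Away f →+* k := IsLocalization.Away.lift f (g := (χ : B →+* k))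
    (isUnit_iff_ne_zero.mpr hf)
  have hχ₁ : ∀ x, χ₁ (algebraMap B _ x) = χ x := fun x => IsLocalization.Away.lift_eq f _ x
  let χ' : Localization.Away f →ₐ[k] k :=
    { χ₁ with
      commutes' := fun r => by
        change χ₁ (algebraMap k _ r) = _
        rw [IsScalarTower.algebraMap_apply k B (Localization.Away f), hχ₁, AlgHom.commutes] }
  have hχ' : χ'.comp l = χ := AlgHom.ext hχ₁
  have h1 := finrank_TS_of_formallyEtale l χ' hl
  rw [hχ'] at h1
  have hγ' : (γ : MvPolynomial (Fin n) k →+* Localization.Away f).FormallyEtale :=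
    (show (γ : MvPolynomial (Fin n) k →+* Localization.Away f).Etale from hγ).formallyEtale
  have h2 := finrank_TS_of_formallyEtale γ χ' hγ'
  have h3 := finrank_TS_poly (χ'.comp γ)
  exact ⟨h1.1.mp (h2.1.mpr h3.1), by rw [← h1.2, h2.2, h3.2]⟩

end smooth

end Fermat.Agent.Cor.Jac
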