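import Mathlib
import Fermat.Agent.Cor.JacTan
import Fermat.Agent.H02J.GeoHyp
import Fermat.Agent.J25.Lat6

/-!
# The tangent spaces of the chart of the Picard functor

The tangent space of the chart at a rational point is `k((z)) / (A + z k[[z]]) = H¹(C, O)`.
-/

set_option autoImplicit false

noncomputable section

universe u

namespace Fermat.Agent.Cor.Jac

open HahnSeries TrivSqZeroExt Fermat.Agent.J25
open scoped TensorProduct

attribute [-instance] HahnSeries.powerSeriesAlgebra

section dual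

variable (k : Type u) [Field k]

/-- the dual numbers -/
def Dn : Type u := TrivSqZeroExt k k

instance : CommRing (Dn k) := inferInstanceAs (CommRing (TrivSqZeroExt k k))

instance : Algebra k (Dn k) := inferInstanceAs (Algebra k (TrivSqZeroExt k k))

variable {k}

/-- the constant component -/
def dfst : Dn k →ₐ[k] k := (fstHom k k k : TrivSqZeroExt k k →ₐ[k] k)

/-- the nilpotent component -/
def dsnd : Dn k →ₗ[k] k := (sndHom k k : TrivSqZeroExt k k →ₗ[k] k)

/-- the element `ε` -/
def deps : Dn k := (inr 1 : TrivSqZeroExt k k)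

theorem dn_ext {x y : Dn k} (h1 : dfst x = dfst y) (h2 : dsnd x = dsnd y) : x = y :=
  TrivSqZeroExt.ext h1 h2

theorem dfst_deps : dfst (deps : Dn k) = 0 := rfl

theorem dsnd_deps : dsnd (deps : Dn k) = 1 := rfl

theorem dfst_algebraMap (r : k) : dfst (algebraMap k (Dn k) r) = r := rfl

theorem dsnd_algebraMap (r : k) : dsnd (algebraMap k (Dn k) r) = 0 := rfl

theorem dsnd_mul (x y : Dn k) : dsnd (x * y) = dfst x * dsnd y + dsnd x * dfst y := by
  have h : ∀ x y : TrivSqZeroExt k k, (x * y).snd = x.fst * y.snd + x.snd * y.fst := by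
    intro x y
    simp [mul_comm]
  exact h x y

theorem deps_mul_deps : (deps : Dn k) * deps = 0 := by
  apply dn_ext
  · rw [map_mul, dfst_deps, mul_zero, map_zero]
  · rw [dsnd_mul, dfst_deps, dsnd_deps, map_zero]
    ring

/-- the constant component of a Laurent series over the dual numbers -/
def fstL : LaurentSeries (Dn k) →+* LaurentSeries k := lmap ((dfst : Dn k →ₐ[k] k) : Dn k →+* k)

/-- the nilpotent component of a Laurent series over the dual numbers -/
def sndL : LaurentSeries (Dn k) →+ LaurentSeries k where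
  toFun x := HahnSeries.map x dsnd
  map_zero' := by ext i; simp
  map_add' x y := by ext i; simp

/-- constant Laurent series over the dual numbers -/
def inlL : LaurentSeries k →+* LaurentSeries (Dn k) := lmap (algebraMap k (Dn k))

theorem fstL_coeff (x : LaurentSeries (Dn k)) (i : ℤ) :
    (fstL x).coeff i = dfst (x.coeff i) := rfl

theorem sndL_coeff (x : LaurentSeries (Dn k)) (i : ℤ) :
    (sndL x).coeff i = dsnd (x.coeff i) := rfl

theorem inlL_coeff (x : LaurentSeries k) (i : ℤ) :
    (inlL x).coeff i = algebraMap k (Dn k) (x.coeff i) := rfl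

theorem ext_L {x y : LaurentSeries (Dn k)} (h1 : fstL x = fstL y)
    (h2 : sndL x = sndL y) : x = y := by
  ext i
  exact dn_ext (congrArg (fun z => z.coeff i) h1) (congrArg (fun z => z.coeff i) h2)

theorem fstL_inlL (x : LaurentSeries k) : fstL (inlL x) = x := by
  ext i
  rw [fstL_coeff, inlL_coeff, dfst_algebraMap]

theorem sndL_inlL (x : LaurentSeries k) : sndL (inlL x) = 0 := by
  ext i
  rw [sndL_coeff, inlL_coeff, dsnd_algebraMap]
  rfl

theorem fstL_smul (r : Dn k) (x : LaurentSeries (Dn k)) :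
    fstL (r • x) = dfst r • fstL x := by
  ext i
  rw [fstL_coeff, HahnSeries.coeff_smul, HahnSeries.coeff_smul, fstL_coeff, smul_eq_mul,
    smul_eq_mul, map_mul]

theorem sndL_smul (r : Dn k) (x : LaurentSeries (Dn k)) :
    sndL (r • x) = dfst r • sndL x + dsnd r • fstL x := by
  ext i
  rw [sndL_coeff, HahnSeries.coeff_smul, HahnSeries.coeff_add, HahnSeries.coeff_smul,
    HahnSeries.coeff_smul, sndL_coeff, fstL_coeff, smul_eq_mul, smul_eq_mul, smul_eq_mul, dsnd_mul]

theorem sndL_eps (x : LaurentSeries k) : sndL ((deps : Dn k) • inlL x) = x := by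
  rw [sndL_smul, dfst_deps, zero_smul, dsnd_deps, one_smul, fstL_inlL, zero_add]

theorem fstL_eps (x : LaurentSeries k) : fstL ((deps : Dn k) • inlL x) = 0 := by
  rw [fstL_smul, dfst_deps, zero_smul]

theorem decomp (x : LaurentSeries (Dn k)) :
    x = inlL (fstL x) + (deps : Dn k) • inlL (sndL x) := by
  apply ext_L
  · rw [map_add, fstL_inlL, fstL_eps, add_zero]
  · rw [map_add, sndL_inlL, sndL_eps, zero_add]

theorem sndL_mul (x y : LaurentSeries (Dn k)) :
    sndL (x * y) = fstL x * sndL y + sndL x * fstL y := by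
  have h1 : x * y = inlL (fstL x * fstL y) +
      (deps : Dn k) • inlL (fstL x * sndL y + sndL x * fstL y) := by
    have h2 : x * y = (inlL (fstL x) + (deps : Dn k) • inlL (sndL x)) *
        (inlL (fstL y) + (deps : Dn k) • inlL (sndL y)) := by
      rw [← decomp x, ← decomp y]
    rw [h2, add_mul, mul_add, mul_add, smul_mul_assoc, smul_mul_assoc, mul_smul_comm,
      mul_smul_comm, smul_smul, deps_mul_deps, zero_smul, add_zero, map_mul, map_add, map_mul,
      map_mul, smul_add]
    abel
  rw [h1, map_add, sndL_inlL, sndL_eps, zero_add]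

theorem sndL_mem {n : ℤ} {x : LaurentSeries (Dn k)} (hx : x ∈ LV (Dn k) n) :
    sndL x ∈ LV k n := by
  intro i hi
  rw [sndL_coeff, hx i hi, map_zero]

theorem inlL_mem {n : ℤ} {x : LaurentSeries k} (hx : x ∈ LV k n) : inlL x ∈ LV (Dn k) n :=
  lmap_mem_LV _ hx

end dual

section chart

variable {k : Type u} [Field k] {A : Type u} [CommRing A] [Algebra k A]
  {e : A →ₐ[k] LaurentSeries k}

theorem fstL_ex (b : A) : fstL (ex e (Dn k) b) = e b := fstL_inlL (e b)

theorem sndL_ex (b : A) : sndL (ex e (Dn k) b) = 0 := sndL_inlL (e b)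

theorem fstL_dif (m : ℕ → LaurentSeries (Dn k)) (b : A) (j : ℕ) :
    fstL (dif e m b j) = dif e (fun l => fstL (m l)) b j :=
  lmap_dif e dfst m b j

/-- the nilpotent component of the defect of stability -/
theorem sndL_dif (m : ℕ → LaurentSeries (Dn k)) (b : A) (j : ℕ) :
    sndL (dif e m b j) = e b * sndL (m j) - ∑ l ∈ Finset.range (pbd e b + j + 1),
      ((e b * fstL (m j)).coeff (-(l : ℤ)) • sndL (m l) +
        (e b * sndL (m j)).coeff (-(l : ℤ)) • fstL (m l)) := by
  have h1 : sndL (ex e (Dn k) b * m j) = e b * sndL (m j) := by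
    rw [sndL_mul, fstL_ex, sndL_ex, zero_mul, add_zero]
  have h2 : fstL (ex e (Dn k) b * m j) = e b * fstL (m j) := by
    rw [map_mul, fstL_ex]
  rw [dif, redm, map_sub, map_sum, h1]
  congr 1
  refine Finset.sum_congr rfl fun l _ => ?_
  rw [sndL_smul, ← fstL_coeff, ← sndL_coeff, h1, h2]

variable (P : WPt e k)

/-- the derivatives of the basis in a tangent direction -/
def vv : TS P.cl →ₗ[k] (ℕ → LaurentSeries k) where
  toFun δ j := mkP fun i => δ.1 ((uniW e).cf j i)
  map_add' δ δ' := by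
    funext j
    ext i
    rw [Pi.add_apply, HahnSeries.coeff_add, mkP_coeff, mkP_coeff, mkP_coeff]
    split_ifs
    · rfl
    · rw [add_zero]
  map_smul' r δ := by
    funext j
    ext i
    rw [Pi.smul_apply, HahnSeries.coeff_smul, mkP_coeff, RingHom.id_apply, mkP_coeff]
    split_ifs
    · rfl
    · rw [smul_zero]

theorem vv_apply (δ : TS P.cl) (j : ℕ) : vv P δ j = mkP fun i => δ.1 ((uniW e).cf j i) := rfl

theorem vv_mem (δ : TS P.cl) (j : ℕ) : vv P δ j ∈ LV k 1 := by
  rw [vv_apply]
  exact mkP_mem _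

/-- the homomorphism to the dual numbers defined by a tangent vector -/
def hT (δ : TS P.cl) : Buniv e →ₐ[k] Dn k := (toHom δ.1 δ.2 : Buniv e →ₐ[k] TrivSqZeroExt k k)

theorem dfst_hT (δ : TS P.cl) (x : Buniv e) : dfst (hT P δ x) = P.cl x := fst_toHom δ.1 δ.2 x

theorem dsnd_hT (δ : TS P.cl) (x : Buniv e) : dsnd (hT P δ x) = δ.1 x := snd_toHom δ.1 δ.2 x

/-- the point with values in the dual numbers defined by a tangent vector -/
def ptT (δ : TS P.cl) : WPt e (Dn k) := (uniW e).map (hT P δ)

theorem ptT_cf (δ : TS P.cl) (j i : ℕ) : (ptT P δ).cf j i = hT P δ ((uniW e).cf j i) :=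
  (uniW e).map_cf (hT P δ) j i

theorem fstL_mser (c : ℕ → ℕ → Dn k) (j : ℕ) :
    fstL (mser c j) = mser (fun j i => dfst (c j i)) j := lmap_mser _ c j

theorem sndL_mser (c : ℕ → ℕ → Dn k) (j : ℕ) :
    sndL (mser c j) = mkP fun i => dsnd (c j i) := by
  have h1 : sndL (single (-(j : ℤ)) (1 : Dn k)) = 0 := by
    ext i
    rw [sndL_coeff, coeff_single]
    split_ifs <;> rfl
  rw [mser, map_add, h1, zero_add]
  ext i
  rw [sndL_coeff, mkP_coeff, mkP_coeff]
  split_ifs
  · rfl
  · rw [map_zero]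

theorem fstL_ptT (δ : TS P.cl) (j : ℕ) : fstL ((ptT P δ).wb j) = P.wb j := by
  rw [(ptT P δ).wb_eq_mser, P.wb_eq_mser, fstL_mser]
  congr 1
  funext j i
  rw [ptT_cf, dfst_hT, P.cl_cf]

theorem sndL_ptT (δ : TS P.cl) (j : ℕ) : sndL ((ptT P δ).wb j) = vv P δ j := by
  rw [(ptT P δ).wb_eq_mser, sndL_mser, vv_apply]
  congr 1
  funext i
  rw [ptT_cf, dsnd_hT]

theorem vv_zero (δ : TS P.cl) : vv P δ 0 = 0 := by
  rw [← sndL_ptT, (ptT P δ).wb_zero]
  have : (1 : LaurentSeries (Dn k)) = inlL 1 := (map_one _).symm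
  rw [this, sndL_inlL]

/-- the infinitesimal stability -/
theorem vv_stab (δ : TS P.cl) (b : A) (j : ℕ) :
    e b * vv P δ j - ∑ l ∈ Finset.range (pbd e b + j + 1),
      (e b * P.wb j).coeff (-(l : ℤ)) • vv P δ l ∈ P.M := by
  have h1 := WPt.dif_wb e (ptT P δ) b j
  have h2 := sndL_dif (e := e) (ptT P δ).wb b j
  rw [h1, map_zero] at h2
  simp only [sndL_ptT, fstL_ptT] at h2
  rw [Finset.sum_add_distrib, ← sub_sub, eq_comm, sub_eq_zero] at h2
  rw [h2]
  exact Submodule.sum_mem _ fun l _ => P.M.smul_mem _ (P.wb_mem l)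

/-- the derivation of the lattice in a tangent direction -/
def phi : TS P.cl →ₗ[k] (P.Carrier →ₗ[k] LaurentSeries k) :=
  (P.basis.constr k).toLinearMap ∘ₗ vv P

theorem phi_basis (δ : TS P.cl) (j : ℕ) : phi P δ (P.basis j) = vv P δ j :=
  P.basis.constr_basis k (vv P δ) j

theorem phi_smul (δ : TS P.cl) (b : A) (x : P.Carrier) :
    e b * phi P δ x - phi P δ (((1 : k) ⊗ₜ[k] b : k ⊗[k] A) • x) ∈ P.M := by
  have hx : x ∈ Submodule.span k (Set.range P.basis) := by
    rw [P.basis.span_eq]
    trivial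
  induction hx using Submodule.span_induction with
  | mem x h =>
    obtain ⟨j, rfl⟩ := h
    have h1 : ((1 : k) ⊗ₜ[k] b : k ⊗[k] A) • P.basis j =
        ∑ l ∈ Finset.range (pbd e b + j + 1), (e b * P.wb j).coeff (-(l : ℤ)) • P.basis l := by
      apply P.incl_injective
      rw [P.incl_smul, exR_tmul, one_smul, P.incl_basis, map_sum]
      simp only [map_smul, P.incl_basis]
      have h2 : ex e k b * P.wb j ∈ LV k (-((pbd e b + j : ℕ) : ℤ)) := by
        have h := mul_mem_LV (ex_mem_LV e (R := k) (pbd_spec e b)) (P.wb_mem_LV j)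
        have e1 : -((pbd e b + j : ℕ) : ℤ) = -(pbd e b : ℤ) + -(j : ℤ) := by push_cast; ring
        rw [e1]
        exact h
      have h3 := P.eq_sum (P.stab b _ (P.wb_mem j)) h2
      rw [Lat.ex_self] at h3 ⊢
      exact h3
    rw [h1, map_sum, phi_basis]
    simp only [map_smul, phi_basis]
    exact vv_stab P δ b j
  | zero =>
    rw [map_zero, mul_zero, smul_zero, map_zero, sub_zero]
    exact zero_mem _
  | add x y _ _ hx hy =>
    rw [map_add, mul_add, smul_add, map_add, add_sub_add_comm]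
    exact add_mem hx hy
  | smul r x _ hx =>
    have h1 : ((1 : k) ⊗ₜ[k] b : k ⊗[k] A) • r • x = r • ((1 : k) ⊗ₜ[k] b : k ⊗[k] A) • x := by
      apply P.incl_injective
      rw [P.incl_smul, map_smul, map_smul, P.incl_smul, mul_smul_comm]
    rw [h1, map_smul, map_smul, mul_smul_comm, ← smul_sub]
    exact P.M.smul_mem _ hx

/-- the invertibility of the lattice -/
structure InvData (P : WPt e k) where
  /-- the number of generators -/
  n : ℕ
  /-- elements of the inverse -/
  q : Fin n → LaurentSeries k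
  /-- elements of the lattice -/
  w : Fin n → LaurentSeries k
  hw : ∀ i, w i ∈ P.M
  hq : ∀ i, ∀ m ∈ P.M, ∃ b : A, e b = q i * m
  h1 : ∑ i, q i * w i = 1

theorem exists_invData {a : A} {d : ℕ} (H : I.Hyp e a d) (P : WPt e k) :
    Nonempty (InvData P) := by
  have h1 := (I.module_props H P).1
  have h2 := (I.module_props H P).2.1
  obtain ⟨n, y, w, hw, hy, h1⟩ :=
    (I.exists_inv_carrier P H.inj H.pos H.mem H.coeff H.H1).2
  refine ⟨⟨n, fun i => exR e k (y i), w, hw, fun i m hm => ?_, h1⟩⟩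
  obtain ⟨s, hs⟩ := hy i m hm
  have h3 : exR e k s ∈ LinearMap.range e.toLinearMap := Lat.mem_AR_self.mp ⟨s, rfl⟩
  rw [← hs]
  exact h3

variable {P} (J : InvData P)

/-- the class of a tangent vector -/
def psi : TS P.cl →ₗ[k] LaurentSeries k where
  toFun δ := ∑ i, J.q i * phi P δ (P.elt (J.w i) (J.hw i))
  map_add' δ δ' := by
    rw [← Finset.sum_add_distrib]
    refine Finset.sum_congr rfl fun i _ => ?_
    rw [map_add, LinearMap.add_apply, mul_add]
  map_smul' r δ := by
    rw [RingHom.id_apply, Finset.smul_sum]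
    refine Finset.sum_congr rfl fun i _ => ?_
    rw [map_smul, LinearMap.smul_apply, mul_smul_comm]

theorem psi_apply (δ : TS P.cl) :
    psi J δ = ∑ i, J.q i * phi P δ (P.elt (J.w i) (J.hw i)) := rfl

theorem psi_mul (δ : TS P.cl) (x : P.Carrier) :
    psi J δ * P.incl x - phi P δ x ∈ P.M := by
  choose b hb using fun i => J.hq i (P.incl x) (P.incl_mem x)
  have h1 : x = ∑ i, ((1 : k) ⊗ₜ[k] b i : k ⊗[k] A) • P.elt (J.w i) (J.hw i) := by
    apply P.incl_injective
    rw [map_sum]
    have h2 : ∀ i, P.incl (((1 : k) ⊗ₜ[k] b i : k ⊗[k] A) • P.elt (J.w i) (J.hw i)) =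
        P.incl x * (J.q i * J.w i) := by
      intro i
      rw [P.incl_smul, exR_tmul, one_smul, Lat.ex_self, hb, P.incl_elt]
      ring
    simp only [h2]
    rw [← Finset.mul_sum, J.h1, mul_one]
  have h3 : psi J δ * P.incl x - phi P δ x =
      ∑ i, (e (b i) * phi P δ (P.elt (J.w i) (J.hw i)) -
        phi P δ (((1 : k) ⊗ₜ[k] b i : k ⊗[k] A) • P.elt (J.w i) (J.hw i))) := by
    rw [Finset.sum_sub_distrib, ← map_sum, ← h1, psi_apply, Finset.sum_mul]
    congr 1
    refine Finset.sum_congr rfl fun i _ => ?_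
    rw [hb]
    ring
  rw [h3]
  exact Submodule.sum_mem _ fun i _ => phi_smul P δ (b i) _

theorem eq_zero_of_mem {v : LaurentSeries k} (h1 : v ∈ P.M) (h2 : v ∈ LV k 1) : v = 0 :=
  P.eq_of_sub_mem h1 P.M.zero_mem (by rwa [sub_zero])

theorem ex_mem_M (b : A) : e b ∈ P.M := by
  have h := P.stab b 1 P.one_mem
  rwa [mul_one, Lat.ex_self] at h

theorem psi_injective (δ : TS P.cl) (h : psi J δ ∈ LinearMap.range e.toLinearMap ⊔ LV k 1) :
    δ = 0 := by
  obtain ⟨x, ⟨b, rfl⟩, v, hv, hxv⟩ := Submodule.mem_sup.mp h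
  change e b + v = psi J δ at hxv
  -- the class belongs to the lattice
  have h1 : psi J δ ∈ P.M := by
    have h2 := psi_mul J δ (P.basis 0)
    rwa [P.incl_basis, P.wb_zero, mul_one, phi_basis, vv_zero, sub_zero] at h2
  have hv0 : v = 0 := by
    refine eq_zero_of_mem (P := P) ?_ hv
    have : v = psi J δ - e b := by rw [← hxv]; ring
    rw [this]
    exact P.M.sub_mem h1 (ex_mem_M b)
  rw [hv0, add_zero] at hxv
  -- so the lattice is not deformed
  have h3 : ∀ j, vv P δ j = 0 := by
    intro j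
    refine eq_zero_of_mem (P := P) ?_ (vv_mem P δ j)
    have h4 := psi_mul J δ (P.basis j)
    rw [P.incl_basis, phi_basis, ← hxv] at h4
    have h5 : e b * P.wb j ∈ P.M := by
      have h := P.stab b _ (P.wb_mem j)
      rwa [Lat.ex_self] at h
    have h6 := P.M.sub_mem h5 h4
    rwa [sub_sub_cancel] at h6
  have h4 : ∀ j i, δ.1 ((uniW e).cf j i) = 0 := by
    intro j i
    have h5 := congrArg (fun z => z.coeff (i + 1 : ℤ)) (h3 j)
    beta_reduce at h5
    rw [vv_apply, mkP_coeff_succ] at h5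
    exact h5
  have h5 : hT P δ = hT P 0 := by
    apply uniW_hom_ext
    intro j i
    apply dn_ext
    · rw [dfst_hT, dfst_hT]
    · rw [dsnd_hT, dsnd_hT, h4]
      rfl
  apply Subtype.ext
  ext x
  have h6 := congrArg dsnd (DFunLike.congr_fun h5 x)
  rw [dsnd_hT, dsnd_hT] at h6
  exact h6

variable (P)

theorem exists_delta (f : LaurentSeries k) (hf : f ∈ P.M) :
    ∃ δ : TS P.cl, ∀ j, f * P.wb j - vv P δ j ∈ P.M := by
  choose y hy hy' using fun j => P.exists_basis (f * P.wb j)
  let v : ℕ → LaurentSeries k := fun j => f * P.wb j - y j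
  have hv : ∀ j, v j ∈ LV k 1 := fun j => by
    have h := (LV k 1).neg_mem (hy' j)
    rwa [neg_sub] at h
  have hv0 : v 0 = 0 := by
    have h1 : y 0 = f * P.wb 0 := by
      refine P.eq_of_sub_mem (hy 0) ?_ (hy' 0)
      rw [P.wb_zero, mul_one]
      exact hf
    change f * P.wb 0 - y 0 = 0
    rw [h1, sub_self]
  let m : ℕ → LaurentSeries (Dn k) := fun j => inlL (P.wb j) + (deps : Dn k) • inlL (v j)
  have hf1 : ∀ j, fstL (m j) = P.wb j := fun j => by
    change fstL (inlL _ + (deps : Dn k) • inlL _) = _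
    rw [map_add, fstL_inlL, fstL_eps, add_zero]
  have hs1 : ∀ j, sndL (m j) = v j := fun j => by
    change sndL (inlL _ + (deps : Dn k) • inlL _) = _
    rw [map_add, sndL_inlL, sndL_eps, zero_add]
  have hm : ∀ j, m j - single (-(j : ℤ)) 1 ∈ LV (Dn k) 1 := by
    intro j
    have h1 : m j - single (-(j : ℤ)) 1 =
        inlL (P.wb j - single (-(j : ℤ)) 1) + (deps : Dn k) • inlL (v j) := by
      have h2 : inlL (single (-(j : ℤ)) (1 : k)) = single (-(j : ℤ)) (1 : Dn k) := by
        rw [inlL, lmap_single, map_one]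
      have h3 : inlL (P.wb j - single (-(j : ℤ)) 1) = inlL (P.wb j) - single (-(j : ℤ)) 1 := by
        rw [map_sub, h2]
      rw [h3]
      change inlL _ + (deps : Dn k) • inlL _ - _ = _
      abel
    rw [h1]
    exact add_mem (inlL_mem (P.wb_sub j)) ((LV (Dn k) 1).smul_mem _ (inlL_mem (hv j)))
  have h0 : m 0 = 1 := by
    change inlL _ + (deps : Dn k) • inlL _ = _
    rw [hv0, P.wb_zero, map_one, map_zero, smul_zero, add_zero]
  have hd : ∀ (b : A) (j : ℕ), dif e m b j = 0 := by
    intro b j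
    apply ext_L
    · rw [fstL_dif, map_zero, funext hf1]
      exact WPt.dif_wb e P b j
    · rw [map_zero]
      refine eq_zero_of_mem (P := P) ?_ (sndL_mem (dif_mem e hm b j))
      rw [sndL_dif]
      simp only [hf1, hs1]
      have h2 : ex e k b * P.wb j ∈ LV k (-((pbd e b + j : ℕ) : ℤ)) := by
        have h := mul_mem_LV (ex_mem_LV e (R := k) (pbd_spec e b)) (P.wb_mem_LV j)
        have e1 : -((pbd e b + j : ℕ) : ℤ) = -(pbd e b : ℤ) + -(j : ℤ) := by push_cast; ring
        rw [e1]
        exact h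
      have h3 := P.eq_sum (P.stab b _ (P.wb_mem j)) h2
      rw [Lat.ex_self] at h3
      have h4 : e b * v j = f * (e b * P.wb j) - e b * y j := by
        change e b * (f * P.wb j - y j) = _
        ring
      have h5 : f * (e b * P.wb j) = ∑ l ∈ Finset.range (pbd e b + j + 1),
          ((e b * P.wb j).coeff (-(l : ℤ)) • v l + (e b * P.wb j).coeff (-(l : ℤ)) • y l) := by
        conv_lhs => rw [h3]
        rw [Finset.mul_sum]
        refine Finset.sum_congr rfl fun l _ => ?_
        rw [← smul_add, mul_smul_comm]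
        congr 1
        change _ = f * P.wb l - y l + y l
        ring
      have h6 : e b * v j - ∑ l ∈ Finset.range (pbd e b + j + 1),
          ((e b * P.wb j).coeff (-(l : ℤ)) • v l + (e b * v j).coeff (-(l : ℤ)) • P.wb l) =
          ∑ l ∈ Finset.range (pbd e b + j + 1), ((e b * P.wb j).coeff (-(l : ℤ)) • y l -
            (e b * v j).coeff (-(l : ℤ)) • P.wb l) - e b * y j := by
        have key : ∀ t₁ t₂ t₃ x z : LaurentSeries k, x = t₁ + t₂ - z →
            x - (t₁ + t₃) = t₂ - t₃ - z := by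
          intro t₁ t₂ t₃ x z hx
          rw [hx]
          abel
        rw [Finset.sum_sub_distrib, Finset.sum_add_distrib]
        refine key _ _ _ _ _ ?_
        rw [h4, h5, Finset.sum_add_distrib]
      rw [h6]
      refine P.M.sub_mem (Submodule.sum_mem _ fun l _ => P.M.sub_mem (P.M.smul_mem _ (hy l))
        (P.M.smul_mem _ (P.wb_mem l))) ?_
      have h := P.stab b _ (hy j)
      rwa [Lat.ex_self] at h
  let Q : WPt e (Dn k) := WPt.ofFam e m hm h0 hd
  have hQ : ∀ j, Q.wb j = m j := WPt.ofFam_wb e m hm h0 hd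
  have hF : ∀ x, dfst (Q.cl x) = P.cl x := by
    intro x
    have h1 : (dfst : Dn k →ₐ[k] k).comp Q.cl = P.cl := by
      apply uniW_hom_ext
      intro j i
      change dfst (Q.cl _) = _
      rw [Q.cl_cf, P.cl_cf]
      change dfst ((Q.wb j).coeff _) = _
      rw [hQ, ← fstL_coeff, hf1]
      rfl
    exact DFunLike.congr_fun h1 x
  let δ : TS P.cl := ⟨ofHom (B := Buniv e) (k := k) (Q.cl : Buniv e →ₐ[k] TrivSqZeroExt k k),
    ofHom_mem (B := Buniv e) (k := k) (Q.cl : Buniv e →ₐ[k] TrivSqZeroExt k k) hF⟩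
  have hδ : ∀ x, δ.1 x = dsnd (Q.cl x) := fun x => rfl
  refine ⟨δ, fun j => ?_⟩
  have h1 : vv P δ j = v j := by
    rw [vv_apply, eq_mkP (hv j)]
    congr 1
    funext i
    rw [hδ, Q.cl_cf]
    change dsnd ((Q.wb j).coeff _) = _
    rw [hQ, ← sndL_coeff, hs1]
  rw [h1]
  change f * P.wb j - (f * P.wb j - y j) ∈ P.M
  rw [sub_sub_cancel]
  exact hy j

variable {P}

theorem psi_surjective (f : LaurentSeries k) : ∃ δ : TS P.cl,
    psi J δ - f ∈ LinearMap.range e.toLinearMap ⊔ LV k 1 := by
  obtain ⟨m, hm, hmf⟩ := P.exists_basis f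
  obtain ⟨δ, hδ⟩ := exists_delta P m hm
  refine ⟨δ, ?_⟩
  have h1 : ∀ x : P.Carrier, phi P δ x - m * P.incl x ∈ P.M := by
    intro x
    have hx : x ∈ Submodule.span k (Set.range P.basis) := by
      rw [P.basis.span_eq]
      trivial
    induction hx using Submodule.span_induction with
    | mem x h =>
      obtain ⟨j, rfl⟩ := h
      rw [phi_basis, P.incl_basis]
      have h := P.M.neg_mem (hδ j)
      rwa [neg_sub] at h
    | zero =>
      rw [map_zero, map_zero, mul_zero, sub_zero]
      exact zero_mem _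
    | add x y _ _ hx hy =>
      rw [map_add, map_add, mul_add, add_sub_add_comm]
      exact add_mem hx hy
    | smul r x _ hx =>
      rw [map_smul, map_smul, mul_smul_comm, ← smul_sub]
      exact P.M.smul_mem _ hx
  have h2 : psi J δ - m ∈ LinearMap.range e.toLinearMap := by
    have h3 : psi J δ - m = ∑ i, J.q i * (phi P δ (P.elt (J.w i) (J.hw i)) -
        m * P.incl (P.elt (J.w i) (J.hw i))) := by
      have h4 : m = ∑ i, J.q i * (m * P.incl (P.elt (J.w i) (J.hw i))) := by
        have h5 : ∀ i, J.q i * (m * P.incl (P.elt (J.w i) (J.hw i))) =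
            m * (J.q i * J.w i) := by
          intro i
          rw [P.incl_elt]
          ring
        simp only [h5]
        rw [← Finset.mul_sum, J.h1, mul_one]
      conv_lhs => rw [h4]
      rw [psi_apply, ← Finset.sum_sub_distrib]
      refine Finset.sum_congr rfl fun i _ => ?_
      rw [mul_sub]
    rw [h3]
    refine Submodule.sum_mem _ fun i _ => ?_
    obtain ⟨b, hb⟩ := J.hq i _ (h1 (P.elt (J.w i) (J.hw i)))
    exact ⟨b, hb⟩
  have h6 : psi J δ - f = (psi J δ - m) + (m - f) := by ring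
  rw [h6]
  exact Submodule.add_mem_sup h2 hmf

/-- **the tangent space of the chart is `H¹(C, O)`** -/
theorem finrank_TS_chart (J : InvData P) : Module.finrank k (TS P.cl) =
    Module.finrank k (LaurentSeries k ⧸ (LinearMap.range e.toLinearMap ⊔ LV k 1)) := by
  refine LinearEquiv.finrank_eq (LinearEquiv.ofBijective
    ((LinearMap.range e.toLinearMap ⊔ LV k 1).mkQ ∘ₗ psi J) ⟨?_, ?_⟩)
  · rw [injective_iff_map_eq_zero]
    intro δ hδ
    rw [LinearMap.comp_apply, Submodule.mkQ_apply, Submodule.Quotient.mk_eq_zero] at hδ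
    exact psi_injective J δ hδ
  · intro x
    obtain ⟨f, rfl⟩ := Submodule.Quotient.mk_surjective _ x
    obtain ⟨δ, hδ⟩ := psi_surjective J f
    refine ⟨δ, ?_⟩
    rw [LinearMap.comp_apply, Submodule.mkQ_apply, Submodule.Quotient.eq]
    exact hδ

end chart

end Fermat.Agent.Cor.Jac
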