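import Mathlib
import Fermat.Agent.Cor.JacCard
import Fermat.Agent.Cor.JacChart

/-!
# The dimension of the Picard variety of a curve

The relative dimension of the Picard variety is `dim k((z)) / (A + z k[[z]]) = dim H¹(C, O)`.
-/

set_option autoImplicit false

universe u

open CategoryTheory CategoryTheory.Limits AlgebraicGeometry TopologicalSpace Opposite
open AlgebraicGeometry.RelPicard NeronModelInfra GoodReductionJacobian
open Fermat.Agent.J25 Fermat.Agent.J25.Cut

noncomputable section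

namespace Fermat.Agent.Cor.Jac

attribute [-instance] HahnSeries.powerSeriesAlgebra

section rep

variable {k : Type u} [Field k] [IsAlgClosed k] {C : Scheme.{u}} {c : C ⟶ Spec (CommRingCat.of k)}
  {ε : SchemeHomOver (𝟙 (Spec (CommRingCat.of k))) c}

/-- `Cut.exists_represents`, with the representing scheme in the conclusion -/
theorem exists_represents'
    (Dg : ∀ {T : Scheme.{u}} (t : T ⟶ Spec (CommRingCat.of k)), PicC (pullback c t) → Prop)
    (hone : ∀ {T : Scheme.{u}} (t : T ⟶ Spec (CommRingCat.of k)), Dg t 1)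
    (hres : ∀ {T T' : Scheme.{u}} {t : T ⟶ Spec (CommRingCat.of k)}
      {t' : T' ⟶ Spec (CommRingCat.of k)} (φ : SchemeHomOver t' t) (l : PicC (pullback c t)),
      Dg t l → Dg t' (rst c φ l))
    (hgeom : ∀ {T : Scheme.{u}} (t : T ⟶ Spec (CommRingCat.of k)) (l : PicC (pullback c t)),
      (∀ (K : Type u) [Field K] [IsAlgClosed K] (s : Spec (CommRingCat.of K) ⟶ T),
        Dg (s ≫ t) (rst c (⟨s, rfl⟩ : SchemeHomOver (s ≫ t) t) l)) → Dg t l)
    (hconn : ∀ (T : Scheme.{u}) [ConnectedSpace T] (t : T ⟶ Spec (CommRingCat.of k))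
      (l : PicC (pullback c t)) (K : Type u) [Field K] [IsAlgClosed K]
      (σ : Spec (CommRingCat.of K) ⟶ Spec (CommRingCat.of k)) (s₀ s₁ : SchemeHomOver σ t),
      Dg σ (rst c s₀ l) → Dg σ (rst c s₁ l))
    (P : Scheme.{u}) (p : P ⟶ Spec (CommRingCat.of k)) (hsm : Smooth p) (hpr : IsProper p)
    (hgc : GeometricallyConnected p) (u : PicC (pullback c p))
    (hu : PicC.map (rigSection c p ε) u = 1) (huD : Dg p u)
    (huniv : ∀ {T : Scheme.{u}} (t : T ⟶ Spec (CommRingCat.of k)) (l : PicC (pullback c t)),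
      PicC.map (rigSection c t ε) l = 1 → Dg t l → ∃! g : SchemeHomOver t p, rst c g u = l) :
    ∃ e : SchemeHomOver (𝟙 (Spec (CommRingCat.of k))) p,
      Nonempty (RepresentsRelSubPic c ε (algEquivZeroCut c ε) ⟨P, p, e.1, e.2⟩) := by
  have hint : IsIntegral P := isIntegral_of_smooth p
  have hgi : GeometricallyIntegral p := Glb.geometricallyIntegral_of_isAlgClosed p
  obtain ⟨e, he, -⟩ := huniv (𝟙 (Spec (CommRingCat.of k))) 1 (map_one _) (hone _)
  have hcut : ∀ {T : Scheme.{u}} {t : T ⟶ Spec (CommRingCat.of k)}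
      (M : RigidifiedLineBundle c ε t), FibrewiseAlgEquivZero M ↔ Dg t (rcls M) := by
    intro T t M
    rw [fibrewiseAlgEquivZero_iff (fun K _ _ σ l => Dg σ l) (fun K _ _ σ => hone σ)
      hconn P p e u he (fun K _ _ σ l hl => (huniv σ l (PicC.eq_one_of_subsingleton _) hl).exists) M]
    exact ⟨fun h => hgeom t _ h, fun h K _ _ s => hres _ _ h⟩
  obtain ⟨Mu, hMu⟩ := exists_rcls (ε := ε) u hu
  refine ⟨e, ⟨?_⟩⟩
  exact
    { poincare := Mu
      poincare_mem := (hcut Mu).mpr (by rw [hMu]; exact huD)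
      univ := by
        intro T t M hM
        have hM' : Dg t (rcls M) := (hcut M).mp hM
        obtain ⟨g, hg, hg'⟩ := huniv t (rcls M) (rcls_rig M) hM'
        refine ⟨g, ?_, fun g' hgg => hg' g' ?_⟩
        · change Nonempty _
          rw [← rcls_eq_iff, rcls_pullbackAlong, hMu]
          exact hg
        · have h1 : rcls (Mu.pullbackAlong g') = rcls M := rcls_eq_iff.mpr hgg
          rw [rcls_pullbackAlong, hMu] at h1
          exact h1
      zero := by
        rw [← rcls_eq_iff, rcls_pullbackAlong, hMu, rcls_unit]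
        exact he }

/-- `Cut.s25_of_rep`, with the representing scheme in the conclusion -/
theorem s25_of_rep' {g : Geo c ε} (D : PicData g) (h6 : H6b g) {P : Scheme.{u}}
    (x : PicData.FPt D P)
    (huniv : ∀ (T : Scheme.{u}) (y : PicData.FPt D T), ∃! φ : T ⟶ P, x.map φ = y)
    (hP : Smooth x.t ∧ IsProper x.t ∧ GeometricallyConnected x.t) :
    ∃ e : SchemeHomOver (𝟙 (Spec (CommRingCat.of k))) x.t,
      Nonempty (RepresentsRelSubPic c ε (algEquivZeroCut c ε) ⟨P, x.t, e.1, e.2⟩) := by
  refine exists_represents' (ε := ε) (fun t l => D.Deg0 t l) (fun t => deg0_one D t)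
    (fun φ l h => h.pullback D φ) (fun t l h => deg0_of_geometric D t l h)
    (fun T _ t l K _ _ σ s₀ s₁ h => deg0_conn D h6 T t l K σ s₀ s₁ h) P x.t hP.1 hP.2.1 hP.2.2
    x.l x.rig x.deg ?_
  intro T t l h1 h2
  obtain ⟨φ, hφ⟩ := AJ.exists_of_univ D x huniv t l h1 h2
  exact ⟨φ, hφ, fun ψ hψ => AJ.eq_of_univ D x huniv ψ φ (hψ.trans hφ.symm)⟩

/-- the Picard variety with one of its charts -/
theorem exists_picard_chart [IsIntegral C] [IsProper c] [SmoothOfRelativeDimension 1 c]
    (g : Geo c ε) :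
    ∃ D : RelativePic0Designation k c,
      Nonempty (RepresentsRelSubPic c ε (algEquivZeroCut c ε) D) ∧
        (Smooth D.toBase ∧ IsProper D.toBase ∧ GeometricallyConnected D.toBase) ∧
        ∃ j : Spec (CommRingCat.of (Buniv g.e)) ⟶ D.P, IsOpenImmersion j ∧
          j ≫ D.toBase = sS k (Buniv g.e) ∧ Nonempty (Spec (CommRingCat.of (Buniv g.e))) := by
  have h6 : Cut.H6b g := KF.h6b g
  obtain ⟨P, x, huniv, ι, j, hj, ht, hcov, hpair⟩ := CF.wp7 g.picData
  obtain ⟨N, η, h3b⟩ := g.picData.h3b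
  have hP := AJ.smooth_proper_connected_of_charts g.picData (I.formallySmooth_geo g) x huniv
      (fun t h1 l h2 s h3 => Cut.hcon g.picData h6 t h1 l h2 s h3) g.delta
      (fun y => DX.picData_delta g k y) N η h3b j hj ht hcov hpair
  obtain ⟨e, he⟩ := s25_of_rep' g.picData h6 x huniv hP
  obtain ⟨i, y, hy⟩ := hcov (e.1 (IsLocalRing.closedPoint k : PrimeSpectrum k))
  exact ⟨⟨P, x.t, e.1, e.2⟩, he, hP, j i, hj i, ht i, ⟨y⟩⟩

end rep

section dim

variable {k : Type u} [Field k] [IsAlgClosed k]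

theorem exists_point (B : Type u) [CommRing B] [Algebra k B]
    [LocallyOfFiniteType (sS k B)] [Nonempty (Spec (CommRingCat.of B))] :
    Nonempty (B →ₐ[k] k) := by
  obtain ⟨s⟩ := exists_section (sS k B)
  obtain ⟨φ, hφ⟩ := Spec.map_surjective s.1
  have h1 := s.2
  rw [← hφ, ← Spec.map_comp] at h1
  have h2 : CommRingCat.ofHom (algebraMap k B) ≫ φ = 𝟙 (CommRingCat.of k) :=
    Spec.map_injective (h1.trans (Spec.map_id _).symm)
  exact ⟨{ φ.hom with commutes' := fun r => congrArg (fun f => f.hom r) h2 }⟩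

/-- the tangent spaces of a smooth affine scheme -/
theorem finrank_TS_of_relDim (B : Type u) [CommRing B] [Algebra k B] (r : ℕ)
    (h : SmoothOfRelativeDimension r (sS k B)) (χ : B →ₐ[k] k) :
    Module.finrank k (TS χ) = r := by
  have h1 : RingHom.Locally (RingHom.IsStandardSmoothOfRelativeDimension r)
      (CommRingCat.ofHom (algebraMap k B)).hom :=
    (HasRingHomProperty.Spec_iff (P := @SmoothOfRelativeDimension r)).mp h
  obtain ⟨s, hs, h2⟩ := h1
  obtain ⟨f, hf, hfχ⟩ : ∃ f ∈ s, χ f ≠ 0 := by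
    by_contra hcon
    push Not at hcon
    have h3 : s ⊆ RingHom.ker (χ : B →+* k) := hcon
    have h4 : (1 : B) ∈ RingHom.ker (χ : B →+* k) := by
      have h5 := Ideal.span_le.mpr h3
      rw [hs] at h5
      exact h5 trivial
    exact one_ne_zero ((map_one χ).symm.trans h4)
  have h3 := h2 f hf
  have h4 : Algebra.IsStandardSmoothOfRelativeDimension r k (Localization.Away f) := by
    refine (RingHom.isStandardSmoothOfRelativeDimension_algebraMap r).mp ?_
    rw [IsScalarTower.algebraMap_eq k B (Localization.Away f)]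
    exact h3
  exact (finrank_TS_of_smooth r f χ hfχ).2

end dim

section main

variable {k : Type u} [Field k] [IsAlgClosed k] {C : Scheme.{u}} {c : C ⟶ Spec (CommRingCat.of k)}
  {ε : SchemeHomOver (𝟙 (Spec (CommRingCat.of k))) c}

/-- **the relative dimension of the Picard variety is `dim H¹(C, O)`** -/
theorem exists_picardVariety_dim [IsIntegral C] [IsProper c] [SmoothOfRelativeDimension 1 c]
    (g : Geo c ε) :
    ∃ (D : RelativePic0Designation k c) (h : RepresentsRelSubPic c ε (algEquivZeroCut c ε) D),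
      (law h).IsCommutative ∧ AbelianSchemePropertyBundle k D.toBase ∧
        SmoothOfRelativeDimension (Module.finrank k (LaurentSeries k ⧸
          (LinearMap.range g.e.toLinearMap ⊔ LV k 1))) D.toBase := by
  obtain ⟨D, ⟨h⟩, ⟨hsm, hpr, hgc⟩, j, hj, hjt, hne⟩ := exists_picard_chart g
  have hint : IsIntegral D.P := isIntegral_of_smooth D.toBase
  obtain ⟨r, hr⟩ := exists_relDim D.toBase
  have h1 : SmoothOfRelativeDimension r (sS k (Buniv g.e)) := by
    have h2 : SmoothOfRelativeDimension (0 + r) (j ≫ D.toBase) := inferInstance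
    rwa [zero_add, hjt] at h2
  have hft : LocallyOfFiniteType (sS k (Buniv g.e)) := by
    rw [← hjt]
    infer_instance
  obtain ⟨χ⟩ := exists_point (k := k) (Buniv g.e)
  obtain ⟨J⟩ := exists_invData (I.hypGeo g) ((uniW g.e).map χ)
  have h3 := finrank_TS_chart J
  rw [finrank_TS_of_relDim (Buniv g.e) r h1] at h3
  rw [← h3]
  refine ⟨D, h, isCommutative_law h, ⟨hsm, hpr, fun s => ?_, ⟨law h⟩⟩, hr⟩
  have h2 : (D.toBase.base ⁻¹' {s} : Set D.P) = Set.univ := by
    ext x
    simp only [Set.mem_preimage, Set.mem_singleton_iff, Set.mem_univ, iff_true]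
    exact Subsingleton.elim _ _
  rw [h2]
  exact isConnected_univ

/-- **Torsion of the Picard variety of a curve** -/
theorem card_pic0_torsion_geo [IsIntegral C] [IsProper c] [SmoothOfRelativeDimension 1 c]
    (g : Geo c ε) (n : ℕ) (hn : (n : k) ≠ 0) :
    Nat.card {l : pic0 c // l ^ n = 1} = n ^ (2 * Module.finrank k (LaurentSeries k ⧸
      (LinearMap.range g.e.toLinearMap ⊔ LV k 1))) := by
  obtain ⟨D, h, h1, h2, h3⟩ := exists_picardVariety_dim g
  rw [← card_torsion_eq h n]
  exact Fermat.Agent.S26.result k D.toBase (law h) h1 h2 _ n hn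

end main

end Fermat.Agent.Cor.Jac
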