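import Mathlib
import Fermat.Agent.Cor.JacGeo
import Fermat.Agent.FF.T8

/-!
# The dimension of the Picard variety is the genus

`genusFF k F = dim H¹(C, O)` (repartitions, Riemann–Roch) for the function field `F` of a proper
smooth curve `C`; so `#Pic⁰(C)[n] = n ^ (2 * genusFF k F)`.
-/

set_option autoImplicit false

universe u

open AlgebraicGeometry CategoryTheory CategoryTheory.Limits TopologicalSpace TensorProduct
open AlgebraicGeometry.RelPicard NeronModelInfra
open Fermat.Agent.H20 Fermat.Agent.J25 Fermat.Agent.J25.G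
open AlgebraicCurve WithZero

namespace Fermat.Agent.Cor.Jac

attribute [-instance] HahnSeries.powerSeriesAlgebra

noncomputable section

section ff

variable {K F : Type*} [Field K] [Field F] [Algebra K F] [IsAlgClosed K] [FF.FunField K F]

/-- the class map of a place is surjective -/
theorem cls_surjective (v : Place K F) : Function.Surjective (FF.cls v) := by
  intro ξ
  obtain ⟨α, rfl⟩ := Submodule.Quotient.mk_surjective _ ξ
  let D : Divisor K F := Finsupp.single v (2 * (genusFF K F : ℤ))
  have hD : 2 * (genusFF K F : ℤ) ≤ Divisor.degree D := by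
    rw [Divisor.degree_single, FF.deg_eq_one]
    simp
  have h1 := FF.hh_eq_zero_iff.mp (FF.hh_eq_zero_of_degree_ge hD)
  have h2 : α ∈ FF.MM D := by
    rw [h1]
    trivial
  obtain ⟨β, hβ, γ, hγ, hαβ⟩ := Submodule.mem_sup.mp h2
  refine ⟨(β : Place K F → F) v, ?_⟩
  change Submodule.Quotient.mk (FF.pt v ((β : Place K F → F) v)) = Submodule.Quotient.mk α
  rw [eq_comm, Submodule.Quotient.eq, ← hαβ, add_sub_right_comm]
  refine add_mem (Submodule.mem_sup_left ?_) (Submodule.mem_sup_right hγ)
  intro w
  by_cases hw : w = v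
  · subst hw
    change w.adicValuation ((β : Place K F → F) w - (FF.pt w _ : Place K F → F) w) ≤ _
    rw [FF.pt_apply_self, sub_self, map_zero]
    exact zero_le
  · change w.adicValuation ((β : Place K F → F) w - (FF.pt v _ : Place K F → F) w) ≤ _
    rw [FF.pt_apply_ne hw, sub_zero]
    have h3 := hβ w
    have h4 : D w = 0 := Finsupp.single_eq_of_ne hw
    rw [h4] at h3
    exact h3

/-- the kernel of the class map -/
theorem cls_eq_zero_iff (v : Place K F) (f : F) : FF.cls v f = 0 ↔
    ∃ h : F, (∀ w : Place K F, w ≠ v → w.adicValuation h ≤ 1) ∧ v.adicValuation (f - h) ≤ 1 := by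
  change Submodule.Quotient.mk (FF.pt v f) = (0 : H1 (0 : Divisor K F)) ↔ _
  rw [Submodule.Quotient.mk_eq_zero]
  constructor
  · intro h
    obtain ⟨β, hβ, γ, hγ, hβγ⟩ := Submodule.mem_sup.mp h
    obtain ⟨h, rfl⟩ := FF.mem_P_iff.mp hγ
    have h1 : ∀ w : Place K F, (β : Place K F → F) w + h = (FF.pt v f : Place K F → F) w := by
      intro w
      rw [← hβγ]
      rfl
    refine ⟨h, fun w hw => ?_, ?_⟩
    · have h2 := h1 w
      rw [FF.pt_apply_ne hw] at h2
      have h3 : h = -(β : Place K F → F) w := (neg_eq_of_add_eq_zero_right h2).symm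
      rw [h3, Valuation.map_neg]
      exact hβ w
    · have h2 := h1 v
      rw [FF.pt_apply_self] at h2
      rw [← h2, add_sub_cancel_right]
      exact hβ v
  · rintro ⟨h, h1, h2⟩
    refine Submodule.mem_sup.mpr ⟨FF.pt v f - FF.pr h, ?_, FF.pr h, FF.pr_mem h,
      sub_add_cancel _ _⟩
    intro w
    by_cases hw : w = v
    · subst hw
      change w.adicValuation ((FF.pt w f : Place K F → F) w - h) ≤ _
      rw [FF.pt_apply_self]
      exact h2
    · change w.adicValuation ((FF.pt v f : Place K F → F) w - h) ≤ _
      rw [FF.pt_apply_ne hw, zero_sub, Valuation.map_neg]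
      exact h1 w hw

end ff

section places

variable (K : Type u) [Field K] {X : Scheme.{u}} [KSch K X] [IsIntegral X]
  [IsAlgClosed K] [hs : SmoothOfRelativeDimension 1 (pK K X)]

include hs in
/-- the function field of a curve -/
theorem funField {a : X.functionField} (ha : ∀ c : K, a ≠ algebraMap K X.functionField c) :
    FF.FunField K X.functionField := by
  have hft : LocallyOfFiniteType (pK K X) := locallyOfFiniteType_pK K X
  obtain ⟨U, hU, hxU, -, -⟩ := exists_coords K X 1 (genericPoint X)
  have hne : Nonempty U := ⟨⟨_, hxU⟩⟩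
  have h1 : Algebra.FiniteType K Γ(X, U) := H20.finiteType_sec K X hU
  have hfr : IsFractionRing Γ(X, U) X.functionField :=
    functionField_isFractionRing_of_isAffineOpen X U hU
  have htow : IsScalarTower K Γ(X, U) X.functionField :=
    IsScalarTower.of_algebraMap_eq fun c => algebraMap_fun' K U c
  have h2 : Algebra.EssFiniteType Γ(X, U) X.functionField :=
    Algebra.EssFiniteType.of_isLocalization _ (nonZeroDivisors Γ(X, U))
  have h3 : Algebra.EssFiniteType K X.functionField :=
    Algebra.EssFiniteType.comp K Γ(X, U) X.functionField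
  have htr : Transcendental K a :=
    FF.transcendental_of_not_mem_range (by rintro ⟨c, hc⟩; exact ha c hc.symm)
  refine ⟨a, htr, ?_⟩
  have hind : AlgebraicIndependent K (fun _ : Unit => a) := by
    rwa [algebraicIndependent_unique_type_iff]
  have hbas : IsTranscendenceBasis K (fun _ : Unit => a) := by
    apply AlgebraicIndependent.isTranscendenceBasis_of_lift_trdeg_le_of_finite hind
    rw [trdeg_functionField K X 1]
    simp
  have h4 := hbas.isAlgebraic_field
  rw [Set.range_const] at h4
  have h5 : Algebra.EssFiniteType (IntermediateField.adjoin K {a}) X.functionField :=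
    Algebra.EssFiniteType.of_comp K _ _
  obtain ⟨S, hS⟩ := IntermediateField.fg_top (IntermediateField.adjoin K {a}) X.functionField
  have h6 : FiniteDimensional (IntermediateField.adjoin K {a})
      (IntermediateField.adjoin (IntermediateField.adjoin K {a}) (S : Set X.functionField)) :=
    IntermediateField.finiteDimensional_adjoin fun x _ =>
      (Algebra.IsAlgebraic.isAlgebraic x).isIntegral
  rw [hS] at h6
  exact Module.Finite.equiv (IntermediateField.topEquiv
    (F := IntermediateField.adjoin K {a}) (E := X.functionField)).toLinearEquiv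

/-- the local ring of a point as a valuation subring -/
def vr (x : X) : ValuationSubring X.functionField :=
  { stk X x with mem_or_inv_mem' := mem_or_inv_mem K x }

theorem mem_vr {x : X} {f : X.functionField} : f ∈ vr K x ↔ f ∈ stk X x := Iff.rfl

variable [IsProper (pK K X)]

/-- the place of a closed point -/
def plx [FF.FunField K X.functionField] (x : X) (hx : x ≠ genericPoint X) :
    Place K X.functionField :=
  FF.placeOf (vr K x) (fun c => algebraMap_mem_stk K x c) (by
    intro h
    obtain ⟨a, ha⟩ := exists_one_pole K hx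
    have h1 : a ∈ vr K x := by
      rw [h]
      trivial
    exact (ha x).1 h1 rfl)

theorem plx_le_one [FF.FunField K X.functionField] {x : X} (hx : x ≠ genericPoint X)
    (f : X.functionField) : (plx K x hx).adicValuation f ≤ 1 ↔ f ∈ stk X x := by
  rw [← FF.mem_iff_val_le_one]
  rfl

/-- the places of the function field are the closed points -/
theorem exists_plx [FF.FunField K X.functionField] (w : Place K X.functionField) :
    ∃ (x : X) (hx : x ≠ genericPoint X), w = plx K x hx := by
  obtain ⟨x, hx⟩ := exists_stk_le K X w.toValuationSubring w.algebraMap_mem'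
  have hxg : x ≠ genericPoint X := by
    rintro rfl
    apply w.ne_top'
    rw [eq_top_iff]
    intro f _
    exact hx f (stk_genericPoint f)
  refine ⟨x, hxg, ?_⟩
  by_contra hne
  obtain ⟨a, h1, h2⟩ := FF.exists_not_mem_of_ne (Ne.symm hne)
  rw [plx_le_one] at h1
  have h3 := hx a h1
  rw [FF.mem_iff_val_le_one] at h3
  exact absurd h3 (not_le.mpr h2)

end places

section main

variable (K : Type u) [Field K]

theorem pow_mem_LV {x : LaurentSeries K} {n : ℤ} (hx : x ∈ LV K n) (m : ℕ) :
    x ^ m ∈ LV K (m * n) := by
  induction m with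
  | zero =>
    rw [pow_zero, Nat.cast_zero, zero_mul]
    exact one_mem_LV
  | succ m ih =>
    rw [pow_succ, Nat.cast_succ, add_mul, one_mul]
    exact mul_mem_LV ih hx

theorem sub_const_mem {x : LaurentSeries K} (hx : x ∈ LV K 0) :
    x - algebraMap K (LaurentSeries K) (x.coeff 0) ∈ LV K 1 := by
  have h0 : algebraMap K (LaurentSeries K) (x.coeff 0) =
      (HahnSeries.single 0 (x.coeff 0) : LaurentSeries K) := rfl
  intro i hi
  rw [HahnSeries.coeff_sub, h0, HahnSeries.coeff_single]
  by_cases h : i = 0
  · rw [if_pos h, h, sub_self]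
  · rw [if_neg h, hx i (by omega), sub_zero]

variable [IsAlgClosed K] {X : Scheme.{u}} [KSch K X] [IsIntegral X]
  [hs : SmoothOfRelativeDimension 1 (pK K X)] [IsProper (pK K X)]

/-- **`dim H¹(C, O)` is the genus of the function field.** -/
theorem exists_geo_genus (ε : SchemeHomOver (𝟙 (Spec (CommRingCat.of K))) (pK K X)) :
    ∃ g : Geo (pK K X) ε, Module.finrank K (LaurentSeries K ⧸
      (LinearMap.range g.e.toLinearMap ⊔ LV K 1)) = genusFF K X.functionField := by
  obtain ⟨g, a, ι, d, hne, ha, hd, had, had1, hι, happ, hrange⟩ := exists_geo' K ε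
  set x₀ : X := ε.1 (ptK K) with hx₀
  have hax : a ∉ stk X x₀ := fun h => (ha x₀).1 h rfl
  have hnc : ∀ c : K, a ≠ algebraMap K X.functionField c := nonconst_of_notMem K hax
  have ha0 : a ≠ 0 := ne_zero_of_nonconst K hnc
  have hff : FF.FunField K X.functionField := funField K hnc
  refine ⟨g, ?_⟩
  let v : Place K X.functionField := plx K x₀ hne
  let Φ : X.functionField →ₗ[K] (LaurentSeries K ⧸
      (LinearMap.range g.e.toLinearMap ⊔ LV K 1)) :=
    (LinearMap.range g.e.toLinearMap ⊔ LV K 1).mkQ ∘ₗ ι.toLinearMap
  have hΦ0 : ∀ f, Φ f = 0 ↔ ι f ∈ LinearMap.range g.e.toLinearMap ⊔ LV K 1 := fun f =>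
    Submodule.Quotient.mk_eq_zero _
  -- density
  have hdens : ∀ y : LaurentSeries K, ∃ f, y - ι f ∈ LV K 1 := by
    intro y
    obtain ⟨m, hm⟩ := exists_mem_LV y
    have hι0 : ι a ≠ 0 := (map_ne_zero ι).2 ha0
    have ho : (ι a).order = -(d : ℤ) := by
      apply le_antisymm
      · apply HahnSeries.order_le_of_coeff_ne_zero
        rw [had1]
        exact one_ne_zero
      · exact (mem_LV_iff_order hι0).1 had
    have hw : (ι a)⁻¹ ∈ LV K (d : ℤ) := by
      rw [mem_LV_iff_order (inv_ne_zero hι0), order_inv' hι0, ho, neg_neg]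
    have h1 : y * (ι a)⁻¹ ^ m ∈ LV K 0 := by
      have h2 := mul_mem_LV hm (pow_mem_LV K hw m)
      refine LV_mono ?_ h2
      have : (m : ℤ) ≤ m * d := le_mul_of_one_le_right (by positivity) (by omega)
      omega
    obtain ⟨b, hb⟩ := happ (1 + m * d) _ h1
    refine ⟨b * a ^ m, ?_⟩
    have h3 := mul_mem_LV hb (pow_mem_LV K had m)
    have h4 : (1 + (m : ℤ) * d + m * -(d : ℤ)) = 1 := by ring
    rw [h4] at h3
    have h5 : y - ι (b * a ^ m) = (y * (ι a)⁻¹ ^ m - ι b) * ι a ^ m := by
      rw [_root_.sub_mul, mul_assoc, ← mul_pow, inv_mul_cancel₀ hι0, one_pow, mul_one, map_mul, map_pow]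
    rw [h5]
    exact h3
  have hΦ : Function.Surjective Φ := by
    intro y
    obtain ⟨y, rfl⟩ := Submodule.Quotient.mk_surjective _ y
    obtain ⟨f, hf⟩ := hdens y
    refine ⟨f, ?_⟩
    change Submodule.Quotient.mk (ι f) = Submodule.Quotient.mk y
    rw [eq_comm, Submodule.Quotient.eq]
    exact Submodule.mem_sup_right hf
  -- the places different from `v`
  have hreg : ∀ h : X.functionField, (∀ x : X, x ≠ x₀ → h ∈ stk X x) ↔
      ∀ w : Place K X.functionField, w ≠ v → w.adicValuation h ≤ 1 := by
    intro h
    constructor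
    · intro hh w hw
      obtain ⟨x, hx, rfl⟩ := exists_plx K w
      rw [plx_le_one]
      apply hh
      rintro rfl
      exact hw rfl
    · intro hh x hx
      by_cases hxg : x = genericPoint X
      · rw [hxg]
        exact stk_genericPoint h
      · rw [← plx_le_one K hxg]
        apply hh
        intro hcon
        apply hax
        rw [← plx_le_one K hne]
        change v.adicValuation a ≤ 1
        rw [← hcon, plx_le_one]
        exact (ha x).2 hx
  have hker : LinearMap.ker Φ = LinearMap.ker (FF.cls v) := by
    ext f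
    rw [LinearMap.mem_ker, LinearMap.mem_ker, hΦ0, cls_eq_zero_iff]
    constructor
    · intro hf
      obtain ⟨y, hy, u, hu, hyu⟩ := Submodule.mem_sup.mp hf
      obtain ⟨h, hh, rfl⟩ := (hrange y).mp hy
      refine ⟨h, (hreg h).mp hh, ?_⟩
      rw [plx_le_one, ← hι, map_sub, ← hyu, add_sub_cancel_left]
      exact LV_mono (by omega) hu
    · rintro ⟨h, hh, hfh⟩
      rw [plx_le_one, ← hι] at hfh
      have h1 := sub_const_mem K hfh
      refine Submodule.mem_sup.mpr ⟨ι (h + algebraMap K X.functionField ((ι (f - h)).coeff 0)),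
        (hrange _).mpr ⟨_, fun x hx => ?_, rfl⟩, _, h1, ?_⟩
      · exact add_mem ((hreg h).mpr hh x hx) (algebraMap_mem_stk K x _)
      · rw [map_add, AlgHom.commutes, map_sub]
        ring
  have e1 := (Φ.quotKerEquivOfSurjective hΦ).finrank_eq
  have e2 := ((FF.cls v).quotKerEquivOfSurjective (cls_surjective v)).finrank_eq
  have e3 := (Submodule.quotEquivOfEq _ _ hker).finrank_eq
  rw [← e1, e3, e2]
  rfl

end main

/-- **Torsion of the Picard variety of a curve.** `C` is a proper smooth curve over an algebraically
closed field `k` and `n` is invertible in `k`: the group `Pic⁰(C)` of the classes of line bundles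
which are algebraically equivalent to zero has `n ^ (2 * g)` elements killed by `n`, where `g` is
the genus of the function field of `C`. -/
theorem card_pic0_torsion_genus (k : Type u) [Field k] [IsAlgClosed k] {C : Scheme.{u}}
    (c : C ⟶ Spec (CommRingCat.of k)) [hp : IsProper c] [hs : SmoothOfRelativeDimension 1 c]
    [IsIntegral C] (n : ℕ) (hn : (n : k) ≠ 0) :
    letI : KSch k C := ⟨c⟩
    Nat.card {l : pic0 c // l ^ n = 1} = n ^ (2 * genusFF k C.functionField) := by
  let _ : KSch k C := ⟨c⟩
  have _ : IsProper (pK k C) := hp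
  have _ : SmoothOfRelativeDimension 1 (pK k C) := hs
  obtain ⟨ε⟩ := exists_section c
  obtain ⟨g, hg⟩ := exists_geo_genus k (X := C) ε
  have h := card_pic0_torsion_geo (c := c) (ε := ε) g n hn
  rw [hg] at h
  exact h

/-- **The Picard variety of a curve**: an abelian scheme of relative dimension the genus. -/
theorem exists_picardVariety_genus (k : Type u) [Field k] [IsAlgClosed k] {C : Scheme.{u}}
    (c : C ⟶ Spec (CommRingCat.of k)) [hp : IsProper c] [hs : SmoothOfRelativeDimension 1 c]
    [IsIntegral C] (ε : SchemeHomOver (𝟙 (Spec (CommRingCat.of k))) c) :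
    letI : KSch k C := ⟨c⟩
    ∃ (D : GoodReductionJacobian.RelativePic0Designation k c)
      (h : RepresentsRelSubPic c ε (algEquivZeroCut c ε) D),
      (law h).IsCommutative ∧ GoodReductionJacobian.AbelianSchemePropertyBundle k D.toBase ∧
        SmoothOfRelativeDimension (genusFF k C.functionField) D.toBase := by
  let _ : KSch k C := ⟨c⟩
  have _ : IsProper (pK k C) := hp
  have _ : SmoothOfRelativeDimension 1 (pK k C) := hs
  obtain ⟨g, hg⟩ := exists_geo_genus k (X := C) ε
  have h := exists_picardVariety_dim (c := c) (ε := ε) g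
  rw [hg] at h
  exact h

end

end Fermat.Agent.Cor.Jac
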