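import Mathlib
import Fermat.Agent.Cor.JacGenus
import Fermat.Agent.Cor.TorsionStr

/-!
# The degree on the Picard group of a curve

* `exists_deg`: there is a homomorphism `Pic C → ℤ` with kernel `Pic⁰(C)`; so the torsion of `Pic C`
  lies in `Pic⁰(C)`.
* `nonempty_torsion_equiv`: `Pic⁰(C)[n] ≃ (ℤ/n)^(2g)`.
-/

set_option autoImplicit false

universe u

open CategoryTheory CategoryTheory.Limits AlgebraicGeometry TopologicalSpace Opposite
open AlgebraicGeometry.RelPicard NeronModelInfra GoodReductionJacobian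
open Fermat.Agent.J25 Fermat.Agent.J25.Cut

noncomputable section

namespace Fermat.Agent.Cor.Jac

attribute [-instance] HahnSeries.powerSeriesAlgebra

section chi

open Fermat.Agent.J25.Lat

variable {K : Type u} [Field K] {A : Type u} [CommRing A] [Algebra K A]
  [Algebra A (LaurentSeries K)] [IsScalarTower K A (LaurentSeries K)]

theorem chi_prod_pp_mul (hinj : Function.Injective (algebraMap A (LaurentSeries K)))
    (h1 : Ad (LV K 0) (rs (1 : Submodule A (LaurentSeries K))))
    (hpp : ∀ φ : A →ₐ[K] K, ∃ U : (Submodule A (LaurentSeries K))ˣ,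
      (U : Submodule A (LaurentSeries K)) = pp φ) (n : ℤ)
    (L : (Submodule A (LaurentSeries K))ˣ) (m : ℕ) (φ : Fin m → (A →ₐ[K] K)) :
    chi (LV K n) (rs ((∏ i, pp (φ i)) * (L : Submodule A (LaurentSeries K)))) =
      chi (LV K n) (rs (L : Submodule A (LaurentSeries K))) - m := by
  induction m with
  | zero =>
    rw [Fin.prod_univ_zero, one_mul]
    simp
  | succ m ih =>
    choose U hU using hpp
    have h2 : (((∏ i, U (φ (Fin.succ i))) * L : (Submodule A (LaurentSeries K))ˣ) :
        Submodule A (LaurentSeries K)) =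
        (∏ i, pp (φ (Fin.succ i))) * (L : Submodule A (LaurentSeries K)) := by
      rw [Units.val_mul, Units.coe_prod]
      congr 1
      exact Finset.prod_congr rfl fun i _ => hU _
    rw [Fin.prod_univ_succ, mul_assoc, ← h2, chi_pp_mul hinj h1, h2, ih]
    push_cast
    ring

/-- **the index is multiplicative** -/
theorem chi_unit_mul [IsAlgClosed K]
    (hinj : Function.Injective (algebraMap A (LaurentSeries K)))
    (h1 : Ad (LV K 0) (rs (1 : Submodule A (LaurentSeries K))))
    (hpp : ∀ φ : A →ₐ[K] K, ∃ U : (Submodule A (LaurentSeries K))ˣ,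
      (U : Submodule A (LaurentSeries K)) = pp φ) (n : ℤ)
    (L L' : (Submodule A (LaurentSeries K))ˣ) :
    chi (LV K n) (rs ((L * L' : (Submodule A (LaurentSeries K))ˣ) :
      Submodule A (LaurentSeries K))) +
      chi (LV K n) (rs (1 : Submodule A (LaurentSeries K))) =
    chi (LV K n) (rs (L : Submodule A (LaurentSeries K))) +
      chi (LV K n) (rs (L' : Submodule A (LaurentSeries K))) := by
  obtain ⟨s, hs, hs0⟩ := unit_exists_ne L
  obtain ⟨φ, hφ⟩ := exists_chain hinj h1 hpp _ L s hs hs0 rfl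
  have e1 := chi_sp_mul (ad_unit (n := n) h1 L') hs0
  have e2 := chi_sp_mul (h1.shift (m := n)) hs0
  rw [mul_one] at e2
  have e3 := chi_prod_pp_mul hinj h1 hpp n (L * L') _ φ
  have e4 := chi_prod_pp_mul hinj h1 hpp n L _ φ
  rw [← hφ] at e4
  rw [Units.val_mul, ← mul_assoc, ← hφ, ← Units.val_mul] at e3
  omega

end chi

section geo

variable {k : Type u} [Field k] [IsAlgClosed k] {C : Scheme.{u}} {c : C ⟶ Spec (CommRingCat.of k)}
  {ε : SchemeHomOver (𝟙 (Spec (CommRingCat.of k))) c}

theorem chi_G_mul (g : Geo c ε) (M N : G g.e (R := k) g.a) :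
    J25.chi (G.sub (M * N)) + J25.chi (G.sub (1 : G g.e (R := k) g.a)) =
      J25.chi (G.sub M) + J25.chi (G.sub N) := by
  have h := chi_unit_mul (A := AR g.e k) Pts.hinj g.ad_self
    (fun φ => by
      obtain ⟨x, rfl⟩ := exists_eq_phiX g.mxH φ
      exact ⟨_, (Pts.pp_phiX g.mxH x).symm⟩) 1
    (M : (Submodule (AR g.e k) (LaurentSeries k))ˣ) (N : (Submodule (AR g.e k) (LaurentSeries k))ˣ)
  exact h

/-- the cut of statement S25 is the degree zero part -/
theorem fibrewise_iff_deg0 [IsIntegral C] [IsProper c] [SmoothOfRelativeDimension 1 c]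
    (g : Geo c ε) {T : Scheme.{u}} {t : T ⟶ Spec (CommRingCat.of k)}
    (M : RigidifiedLineBundle c ε t) :
    FibrewiseAlgEquivZero M ↔ g.picData.Deg0 t (rcls M) := by
  have h6 : Cut.H6b g := KF.h6b g
  obtain ⟨P, x, huniv, ι, j, hj, ht, hcov, hpair⟩ := CF.wp7 g.picData
  obtain ⟨N, η, h3b⟩ := g.picData.h3b
  have hP := AJ.smooth_proper_connected_of_charts g.picData (I.formallySmooth_geo g) x huniv
      (fun t h1 l h2 s h3 => Cut.hcon g.picData h6 t h1 l h2 s h3) g.delta
      (fun y => DX.picData_delta g k y) N η h3b j hj ht hcov hpair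
  have hsm := hP.1
  have hpr := hP.2.1
  have hgc := hP.2.2
  have hint : IsIntegral P := isIntegral_of_smooth x.t
  have hgi : GeometricallyIntegral x.t := Glb.geometricallyIntegral_of_isAlgClosed x.t
  have huniv' : ∀ {T : Scheme.{u}} (t : T ⟶ Spec (CommRingCat.of k)) (l : PicC (pullback c t)),
      PicC.map (rigSection c t ε) l = 1 → g.picData.Deg0 t l →
        ∃! φ : SchemeHomOver t x.t, rst c φ x.l = l := by
    intro T t l h1 h2
    obtain ⟨φ, hφ⟩ := AJ.exists_of_univ g.picData x huniv t l h1 h2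
    exact ⟨φ, hφ, fun ψ hψ => AJ.eq_of_univ g.picData x huniv ψ φ (hψ.trans hφ.symm)⟩
  obtain ⟨e, he, -⟩ := huniv' (𝟙 (Spec (CommRingCat.of k))) 1 (map_one _) (deg0_one g.picData _)
  rw [fibrewiseAlgEquivZero_iff (fun K _ _ σ l => g.picData.Deg0 σ l)
      (fun K _ _ σ => deg0_one g.picData σ)
      (fun T _ t l K _ _ σ s₀ s₁ h => deg0_conn g.picData h6 T t l K σ s₀ s₁ h) P x.t e x.l he
      (fun K _ _ σ l hl => (huniv' σ l (PicC.eq_one_of_subsingleton _) hl).exists) M]
  exact ⟨fun h => deg0_of_geometric g.picData t _ h, fun h K _ _ s => h.pullback g.picData _⟩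

instance isIso_sS : IsIso (sS k k) := by
  have h : sS k k = 𝟙 _ := Spec.map_id _
  rw [h]
  infer_instance

omit [IsAlgClosed k] in
theorem exists_lift (g : Geo c ε) (l : PicC C) : ∃ M : G g.e (R := k) g.a,
    g.picData.toPic k M = PicC.map (pullback.fst c (sS k k)) l :=
  g.picData.surj k _ (PicC.eq_one_of_subsingleton _)

/-- the degree of a class -/
def degL (g : Geo c ε) (l : PicC C) : ℤ :=
  J25.chi (G.sub (exists_lift g l).choose) - J25.chi (G.sub (1 : G g.e (R := k) g.a))

omit [IsAlgClosed k] in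
theorem degL_eq (g : Geo c ε) {l : PicC C} {M : G g.e (R := k) g.a}
    (h : g.picData.toPic k M = PicC.map (pullback.fst c (sS k k)) l) :
    degL g l = J25.chi (G.sub M) - J25.chi (G.sub (1 : G g.e (R := k) g.a)) := by
  rw [degL, g.picData.chi_eq ((exists_lift g l).choose_spec.trans h.symm)]

theorem degL_mul (g : Geo c ε) (l l' : PicC C) : degL g (l * l') = degL g l + degL g l' := by
  obtain ⟨M, hM⟩ := exists_lift g l
  obtain ⟨M', hM'⟩ := exists_lift g l'
  have h : g.picData.toPic k (M * M') = PicC.map (pullback.fst c (sS k k)) (l * l') := by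
    rw [map_mul, map_mul, hM, hM']
  rw [degL_eq g hM, degL_eq g hM', degL_eq g h]
  have := chi_G_mul g M M'
  omega

theorem degL_one (g : Geo c ε) : degL g 1 = 0 := by
  have := degL_mul g 1 1
  rw [mul_one] at this
  omega

theorem degL_pow (g : Geo c ε) (l : PicC C) (n : ℕ) : degL g (l ^ n) = n * degL g l := by
  induction n with
  | zero => rw [pow_zero, degL_one, Nat.cast_zero, zero_mul]
  | succ n ih =>
    rw [pow_succ, degL_mul, ih]
    push_cast
    ring

omit [IsAlgClosed k] in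
theorem baseChangeSnd_fst {T T' : Scheme.{u}} {t : T ⟶ Spec (CommRingCat.of k)}
    {t' : T' ⟶ Spec (CommRingCat.of k)} (s : SchemeHomOver t' t) :
    baseChangeSnd c s ≫ pullback.fst c t = pullback.fst c t' := by
  rw [baseChangeSnd, pullback.map, pullback.lift_fst, Category.comp_id]

/-- the classes which are algebraically equivalent to zero are those of degree zero -/
theorem mem_pic0_iff_degL [IsIntegral C] [IsProper c] [SmoothOfRelativeDimension 1 c]
    (g : Geo c ε) (l : PicC C) : l ∈ pic0 c ↔ degL g l = 0 := by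
  obtain ⟨M, hM⟩ := exists_rcls (ε := ε)
    (PicC.map (pullback.fst c (𝟙 (Spec (CommRingCat.of k)))) l) (PicC.eq_one_of_subsingleton _)
  rw [← mem_fib_iff (ε := ε), ← hM, rcls_mem_fib_iff, fibrewise_iff_deg0 g M, hM]
  constructor
  · intro h
    obtain ⟨N, hN, hN'⟩ := h k ⟨sS k k, Category.comp_id _⟩
    rw [← PicC.map_comp_apply, baseChangeSnd_fst] at hN
    rw [degL_eq g hN, sub_eq_zero]
    exact hN'
  · intro h K _ _ _ s
    obtain ⟨N, hN⟩ := exists_lift g l
    rw [degL_eq g hN, sub_eq_zero] at h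
    refine ⟨bc (Algebra.ofId k K) N, ?_, ?_⟩
    · rw [g.picData.nat, hN, ← PicC.map_comp_apply, ← PicC.map_comp_apply, baseChangeSnd_fst,
        baseChangeSnd_fst]
    · rw [isDegZero_bc]
      exact h

/-- **the degree**: a homomorphism `Pic C → ℤ` with kernel `Pic⁰(C)` -/
theorem exists_deg [IsIntegral C] [hp : IsProper c] [hs : SmoothOfRelativeDimension 1 c] :
    ∃ δ : PicC C →* Multiplicative ℤ, δ.ker = pic0 c := by
  let _ : H20.KSch k C := ⟨c⟩
  have _ : IsProper (H20.pK k C) := hp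
  have _ : SmoothOfRelativeDimension 1 (H20.pK k C) := hs
  obtain ⟨ε⟩ := exists_section c
  obtain ⟨g, hg⟩ := exists_geo_genus k (X := C) ε
  have _ : IsProper c := hp
  have _ : SmoothOfRelativeDimension 1 c := hs
  refine ⟨MonoidHom.mk' (fun l => Multiplicative.ofAdd (degL (c := c) g l)) fun l l' => ?_, ?_⟩
  · rw [degL_mul]
    rfl
  · ext l
    rw [MonoidHom.mem_ker, mem_pic0_iff_degL (c := c) g]
    exact Iff.rfl

/-- the torsion of `Pic C` lies in `Pic⁰(C)` -/
theorem mem_pic0_of_pow_eq_one [IsIntegral C] [hp : IsProper c] [hs : SmoothOfRelativeDimension 1 c]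
    {n : ℕ} (hn : n ≠ 0) {l : PicC C} (hl : l ^ n = 1) : l ∈ pic0 c := by
  obtain ⟨δ, hδ⟩ := exists_deg (c := c)
  rw [← hδ, MonoidHom.mem_ker]
  have h1 : δ l ^ n = 1 := by rw [← map_pow, hl, map_one]
  have h2 : (n : ℤ) * Multiplicative.toAdd (δ l) = 0 := by
    have h3 := congrArg Multiplicative.toAdd h1
    rw [toAdd_pow, toAdd_one, nsmul_eq_mul] at h3
    exact h3
  have h3 : Multiplicative.toAdd (δ l) = 0 := by
    rcases mul_eq_zero.mp h2 with h | h
    · exact absurd (by exact_mod_cast h) hn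
    · exact h
  exact h3

end geo

/-- **Torsion of the Picard group of a curve**: `#Pic(C)[n] = n ^ (2 * g)` for a proper smooth curve
over an algebraically closed field in which `n` is invertible. -/
theorem card_pic_torsion (k : Type u) [Field k] [IsAlgClosed k] {C : Scheme.{u}}
    (c : C ⟶ Spec (CommRingCat.of k)) [hp : IsProper c] [hs : SmoothOfRelativeDimension 1 c]
    [IsIntegral C] (n : ℕ) (hn : (n : k) ≠ 0) :
    letI : H20.KSch k C := ⟨c⟩
    Nat.card {l : PicC C // l ^ n = 1} = n ^ (2 * AlgebraicCurve.genusFF k C.functionField) := by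
  let _ : H20.KSch k C := ⟨c⟩
  have hn0 : n ≠ 0 := by
    rintro rfl
    exact hn Nat.cast_zero
  rw [← card_pic0_torsion_genus k c n hn]
  refine Nat.card_congr ⟨fun l => ⟨⟨l.1, mem_pic0_of_pow_eq_one (c := c) hn0 l.2⟩,
    Subtype.ext l.2⟩, fun l => ⟨l.1.1, congrArg Subtype.val l.2⟩, fun _ => rfl, fun _ => rfl⟩

/-- **The structure of the torsion**: `Pic(C)[n] ≃ (ℤ/n) ^ (2 * g)`. -/
theorem nonempty_pic_torsion_equiv (k : Type u) [Field k] [IsAlgClosed k] {C : Scheme.{u}}
    (c : C ⟶ Spec (CommRingCat.of k)) [hp : IsProper c] [hs : SmoothOfRelativeDimension 1 c]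
    [IsIntegral C] (n : ℕ) (hn : (n : k) ≠ 0) :
    letI : H20.KSch k C := ⟨c⟩
    Nonempty ((nsmulAddMonoidHom n : Additive (PicC C) →+ Additive (PicC C)).ker ≃+
      (Fin (2 * AlgebraicCurve.genusFF k C.functionField) → ZMod n)) := by
  let _ : H20.KSch k C := ⟨c⟩
  have hn0 : n ≠ 0 := by
    rintro rfl
    exact hn Nat.cast_zero
  refine Tors.nonempty_equiv_ker hn0 (fun d hd => ?_) _ fun x => Iff.rfl
  have hd' : (d : k) ≠ 0 := by
    rintro h
    obtain ⟨e, rfl⟩ := hd
    apply hn
    rw [Nat.cast_mul, h, zero_mul]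
  exact card_pic_torsion k c d hd'

/-- `Pic⁰(C)[n] ≃ (ℤ/n) ^ (2 * g)`. -/
theorem nonempty_pic0_torsion_equiv (k : Type u) [Field k] [IsAlgClosed k] {C : Scheme.{u}}
    (c : C ⟶ Spec (CommRingCat.of k)) [hp : IsProper c] [hs : SmoothOfRelativeDimension 1 c]
    [IsIntegral C] (n : ℕ) (hn : (n : k) ≠ 0) :
    letI : H20.KSch k C := ⟨c⟩
    Nonempty ((nsmulAddMonoidHom n : Additive (pic0 c) →+ Additive (pic0 c)).ker ≃+
      (Fin (2 * AlgebraicCurve.genusFF k C.functionField) → ZMod n)) := by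
  let _ : H20.KSch k C := ⟨c⟩
  have hn0 : n ≠ 0 := by
    rintro rfl
    exact hn Nat.cast_zero
  refine Tors.nonempty_equiv_ker hn0 (fun d hd => ?_) _ fun x => Iff.rfl
  have hd' : (d : k) ≠ 0 := by
    rintro h
    obtain ⟨e, rfl⟩ := hd
    apply hn
    rw [Nat.cast_mul, h, zero_mul]
  exact card_pic0_torsion_genus k c d hd'

end Fermat.Agent.Cor.Jac
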