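import Mathlib
import Fermat.Agent.Cor.JacDeg
import Fermat.Agent.H20.CDiv

/-!
# Cartier divisors and classes of cocycles of units

`cartEquiv`: for an integral scheme `X`, the group of Cartier divisors modulo the principal ones is
the group of classes of Čech cocycles of units.
-/

set_option autoImplicit false

universe u

open CategoryTheory CategoryTheory.Limits AlgebraicGeometry TopologicalSpace Opposite
open Fermat.Agent.J25 Fermat.Agent.H20

noncomputable section

namespace Fermat.Agent.Cor.Jac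

variable {X : Scheme.{u}} [IsIntegral X]

/-- the rational function defined by an invertible section -/
def gu (U : X.Opens) [Nonempty U] : Γ(X, U)ˣ →* X.functionFieldˣ :=
  Units.map (X.germToFunctionField U).hom.toMonoidHom

theorem coe_gu (U : X.Opens) [Nonempty U] (a : Γ(X, U)ˣ) :
    (gu U a : X.functionField) = X.germToFunctionField U (a : Γ(X, U)) := rfl

theorem gu_ru {U V : X.Opens} [Nonempty U] [Nonempty V] (h : V ≤ U) (a : Γ(X, U)ˣ) :
    gu V (ru h a) = gu U a := by
  apply Units.ext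
  rw [coe_gu, coe_gu]
  exact germToFunctionField_res (homOfLE h) (a : Γ(X, U))

theorem gu_injective (U : X.Opens) [Nonempty U] : Function.Injective (gu U) := by
  intro a b h
  apply Units.ext
  exact X.germToFunctionField_injective U (congrArg Units.val h)

theorem gu_mem (U : X.Opens) [Nonempty U] (a : Γ(X, U)ˣ) {x : X} (hx : x ∈ U) :
    gu U a ∈ UG X x := by
  refine ⟨germ_mem_stk hx _, ?_⟩
  rw [← map_inv]
  exact germ_mem_stk hx _

theorem exists_gu (U : X.Opens) [Nonempty U] {a : X.functionFieldˣ}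
    (h : ∀ x ∈ U, a ∈ UG X x) : ∃ s : Γ(X, U)ˣ, gu U s = a := by
  obtain ⟨s, hs⟩ := exists_section_of_forall_mem_stk (U := U) (f := (a : X.functionField))
    fun x hx => (h x hx).1
  obtain ⟨t, ht⟩ := exists_section_of_forall_mem_stk (U := U)
    (f := ((a⁻¹ : X.functionFieldˣ) : X.functionField)) fun x hx => (h x hx).2
  have h1 : s * t = 1 := by
    apply X.germToFunctionField_injective U
    rw [map_mul, map_one, hs, ht, Units.mul_inv]
  exact ⟨⟨s, t, h1, (mul_comm _ _).trans h1⟩, Units.ext hs⟩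

/-- invertible sections are determined by their rational functions -/
theorem uext {V : X.Opens} {a b : Γ(X, V)ˣ} (h : ∀ [Nonempty V], gu V a = gu V b) : a = b := by
  by_cases hV : Nonempty V
  · exact gu_injective V h
  · refine unit_ext (ι := Empty) (fun i => i.elim) (fun i => i.elim) (fun x hx => ?_)
      fun i => i.elim
    exact absurd ⟨⟨x, hx⟩⟩ hV

/-- the cocycle of a Cartier divisor -/
def Fits (c : Coc X) (D : X → X.functionFieldˣ) : Prop :=
  ∀ (x y : X) (V : X.Opens) [Nonempty V] (hx : V ≤ c.U x) (hy : V ≤ c.U y),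
    gu V (c.gg x y hx hy) = D y / D x

theorem nonempty_inf {U V : X.Opens} {x y : X} (hx : x ∈ U) (hy : y ∈ V) :
    Nonempty (U ⊓ V : X.Opens) :=
  ⟨⟨genericPoint X, generic_mem ⟨x, hx⟩, generic_mem ⟨y, hy⟩⟩⟩

theorem exists_fits_of_mem {D : X → X.functionFieldˣ} (hD : D ∈ CDiv X) :
    ∃ c : Coc X, Fits c D := by
  rw [mem_CDiv_iff] at hD
  choose U hU h using hD
  have hne : ∀ x y : X, Nonempty (U x ⊓ U y : X.Opens) := fun x y => nonempty_inf (hU x) (hU y)
  choose g hg using fun x y => exists_gu (U x ⊓ U y) (a := D y / D x) (fun z hz => by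
    have h1 := div_mem (h x z hz.1) (h y z hz.2)
    rwa [div_div_div_cancel_left] at h1)
  refine ⟨⟨U, hU, g, ?_⟩, ?_⟩
  · intro x y z V hx hy hz
    apply uext
    intro _
    rw [map_mul, gu_ru, gu_ru, gu_ru, hg, hg, hg, mul_comm, div_mul_div_cancel]
  · intro x y V _ hx hy
    exact (gu_ru (le_inf hx hy) (g x y)).trans (hg x y)

theorem exists_fits (c : Coc X) : ∃ D ∈ CDiv X, Fits c D := by
  have hne : ∀ x y : X, Nonempty (c.U x ⊓ c.U y : X.Opens) :=
    fun x y => nonempty_inf (c.mem x) (c.mem y)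
  let D : X → X.functionFieldˣ := fun x =>
    gu (c.U (genericPoint X) ⊓ c.U x) (c.gg (genericPoint X) x inf_le_left inf_le_right)
  have hD : Fits c D := by
    intro x y V _ hx hy
    have hη : genericPoint X ∈ V := generic_mem (Set.nonempty_coe_sort.mp ‹_›)
    have hne' : Nonempty (c.U (genericPoint X) ⊓ V : X.Opens) :=
      ⟨⟨_, c.mem _, hη⟩⟩
    have h1 := c.gg_mul (genericPoint X) x y (V := c.U (genericPoint X) ⊓ V) inf_le_left
      (inf_le_right.trans hx) (inf_le_right.trans hy)
    have h2 := congrArg (gu (c.U (genericPoint X) ⊓ V)) h1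
    have e1 : gu (c.U (genericPoint X) ⊓ V) (c.gg (genericPoint X) x (V :=
        c.U (genericPoint X) ⊓ V) inf_le_left (inf_le_right.trans hx)) = D x := by
      rw [← c.ru_gg (genericPoint X) x (V := c.U (genericPoint X) ⊓ c.U x) inf_le_left
        inf_le_right (inf_le_inf_left _ hx), gu_ru]
    have e2 : gu (c.U (genericPoint X) ⊓ V) (c.gg (genericPoint X) y (V :=
        c.U (genericPoint X) ⊓ V) inf_le_left (inf_le_right.trans hy)) = D y := by
      rw [← c.ru_gg (genericPoint X) y (V := c.U (genericPoint X) ⊓ c.U y) inf_le_left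
        inf_le_right (inf_le_inf_left _ hy), gu_ru]
    have e3 : gu (c.U (genericPoint X) ⊓ V) (c.gg x y (V :=
        c.U (genericPoint X) ⊓ V) (inf_le_right.trans hx) (inf_le_right.trans hy)) =
        gu V (c.gg x y hx hy) := by
      rw [← c.ru_gg x y hx hy inf_le_right, gu_ru]
    rw [map_mul, e1, e2, e3] at h2
    rw [← h2, mul_div_cancel_left]
  refine ⟨D, fun x => ⟨c.U x, c.mem x, fun y hy => ?_⟩, hD⟩
  have h1 := hD x y (c.U x ⊓ c.U y) inf_le_left inf_le_right
  rw [← h1]
  exact gu_mem _ _ ⟨hy, c.mem y⟩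

theorem Fits.mk_eq_one_iff {c : Coc X} {D : X → X.functionFieldˣ} (h : Fits c D) :
    PicC.mk c = 1 ↔ D ∈ Triv X := by
  have hne : ∀ x y : X, Nonempty (c.U x ⊓ c.U y : X.Opens) :=
    fun x y => nonempty_inf (c.mem x) (c.mem y)
  have hne' : ∀ x, Nonempty (c.U x) := fun x => ⟨⟨x, c.mem x⟩⟩
  constructor
  · intro h1
    obtain ⟨f, hf⟩ := PicC.mk_eq_one.mp h1
    have key : ∀ x y : X, D y / D x = gu (c.U y) (f y) / gu (c.U x) (f x) := by
      intro x y
      rw [← h x y (c.U x ⊓ c.U y) inf_le_left inf_le_right, hf x y (c.U x ⊓ c.U y) inf_le_left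
        inf_le_right, map_mul, map_inv, gu_ru, gu_ru, mul_comm, div_eq_mul_inv]
    refine ⟨D (genericPoint X) / gu (c.U (genericPoint X)) (f (genericPoint X)), fun x => ?_⟩
    have h2 := key (genericPoint X) x
    have h3 : D x / (D (genericPoint X) / gu (c.U (genericPoint X)) (f (genericPoint X))) =
        gu (c.U x) (f x) := by
      rw [div_div_eq_mul_div, mul_comm, mul_div_assoc, h2, mul_div_cancel]
    rw [h3]
    exact gu_mem _ _ (c.mem x)
  · rintro ⟨t, ht⟩
    have hW : ∀ x : X, x ∈ (c.U x ⊓ ⟨_, isOpen_mem_UG (D x / t)⟩ : X.Opens) :=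
      fun x => ⟨c.mem x, ht x⟩
    have hW' : ∀ x : X, Nonempty (c.U x ⊓ ⟨_, isOpen_mem_UG (D x / t)⟩ : X.Opens) :=
      fun x => ⟨⟨x, hW x⟩⟩
    choose f hf using fun x => exists_gu (c.U x ⊓ ⟨_, isOpen_mem_UG (D x / t)⟩ : X.Opens)
      (a := D x / t) (fun z hz => hz.2)
    refine PicC.mk_eq_one_of (fun x => c.U x ⊓ ⟨_, isOpen_mem_UG (D x / t)⟩) hW
      (fun x => inf_le_left) f fun x y V hx hy => ?_
    apply uext
    intro _
    rw [h, map_mul, map_inv, gu_ru, gu_ru, hf, hf, mul_comm, ← div_eq_mul_inv,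
      div_div_div_cancel_right]

theorem Fits.mul {c c' : Coc X} {D D' : X → X.functionFieldˣ} (h : Fits c D) (h' : Fits c' D') :
    Fits (c.mul c') (D * D') := by
  intro x y V _ hx hy
  rw [Coc.mul_gg, map_mul, h, h', Pi.mul_apply, Pi.mul_apply, div_mul_div_comm]

theorem Fits.inv {c : Coc X} {D : X → X.functionFieldˣ} (h : Fits c D) : Fits c.inv D⁻¹ := by
  intro x y V _ hx hy
  rw [Coc.inv_gg, map_inv]
  refine (congrArg (fun t => t⁻¹) (h x y V hx hy)).trans ?_
  rw [Pi.inv_apply, Pi.inv_apply, inv_div_inv, inv_div]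

theorem Fits.mk_eq {c c' : Coc X} {D D' : X → X.functionFieldˣ} (h : Fits c D) (h' : Fits c' D')
    (hD : D / D' ∈ Triv X) : PicC.mk c = PicC.mk c' := by
  have h1 := (h.mul h'.inv).mk_eq_one_iff.mpr (by rwa [← div_eq_mul_inv])
  rw [PicC.mk_mul, PicC.mk_inv] at h1
  exact mul_inv_eq_one.mp h1

/-- the class of a Cartier divisor -/
def cartHom (X : Scheme.{u}) [IsIntegral X] : CDiv X →* PicC X :=
  MonoidHom.mk' (fun D => PicC.mk (exists_fits_of_mem D.2).choose) fun D D' => by
    rw [← PicC.mk_mul]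
    refine Fits.mk_eq (exists_fits_of_mem (D * D').2).choose_spec
      ((exists_fits_of_mem D.2).choose_spec.mul (exists_fits_of_mem D'.2).choose_spec) ?_
    rw [Subgroup.coe_mul, div_self']
    exact one_mem _

theorem cartHom_eq {D : CDiv X} {c : Coc X} (h : Fits c D.1) : cartHom X D = PicC.mk c :=
  Fits.mk_eq (exists_fits_of_mem D.2).choose_spec h (by
    rw [div_self']
    exact one_mem _)

theorem ker_cartHom : (cartHom X).ker = (Triv X).subgroupOf (CDiv X) := by
  ext D
  rw [MonoidHom.mem_ker, Subgroup.mem_subgroupOf]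
  exact (exists_fits_of_mem D.2).choose_spec.mk_eq_one_iff

theorem cartHom_surjective : Function.Surjective (cartHom X) := by
  intro l
  obtain ⟨c, rfl⟩ := PicC.mk_surjective l
  obtain ⟨D, hD, h⟩ := exists_fits c
  exact ⟨⟨D, hD⟩, cartHom_eq h⟩

/-- **Cartier divisor classes are line bundle classes.** -/
def cartEquiv (X : Scheme.{u}) [IsIntegral X] :
    CDiv X ⧸ (Triv X).subgroupOf (CDiv X) ≃* PicC X :=
  (QuotientGroup.quotientMulEquivOfEq ker_cartHom.symm).trans
    (QuotientGroup.quotientKerEquivOfSurjective (cartHom X) cartHom_surjective)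

end Fermat.Agent.Cor.Jac
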