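import Mathlib
import Fermat.Agent.Cor.JacCartier

/-!
# Line bundles on a curve and divisor classes of the function field

* `picEquiv`: for a proper smooth curve `C` over an algebraically closed field, the group of line
  bundle classes is the divisor class group of the function field.
* `card_torsion_pow`: `#Pic⁰(F)[n] = n ^ (2 * g)` for the function field `F` of a curve, in every
  characteristic not dividing `n`.
-/

set_option autoImplicit false

universe u

open AlgebraicGeometry CategoryTheory CategoryTheory.Limits TopologicalSpace TensorProduct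
open AlgebraicGeometry.RelPicard NeronModelInfra
open Fermat.Agent.H20 Fermat.Agent.J25 Fermat.Agent.J25.G
open AlgebraicCurve WithZero

namespace Fermat.Agent.Cor.Jac

noncomputable section

section weil

variable (K : Type u) [Field K] {X : Scheme.{u}} [KSch K X] [IsIntegral X]
  [IsAlgClosed K] [hs : SmoothOfRelativeDimension 1 (pK K X)] [IsProper (pK K X)]
  [FF.FunField K X.functionField]

theorem plx_inj {x y : X} (hx : x ≠ genericPoint X) (hy : y ≠ genericPoint X)
    (h : plx K x hx = plx K y hy) : x = y := by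
  obtain ⟨a, ha⟩ := exists_one_pole K hx
  by_contra hne
  have h1 : a ∈ stk X y := (ha y).2 (Ne.symm hne)
  rw [← plx_le_one K hy, ← h, plx_le_one] at h1
  exact (ha x).1 h1 rfl

/-- the closed point of a place -/
def ptw (w : Place K X.functionField) : X := (exists_plx K w).choose

theorem ptw_ne (w : Place K X.functionField) : ptw K w ≠ genericPoint X :=
  (exists_plx K w).choose_spec.choose

theorem plx_ptw (w : Place K X.functionField) : plx K (ptw K w) (ptw_ne K w) = w :=
  (exists_plx K w).choose_spec.choose_spec.symm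

theorem ptw_plx {x : X} (hx : x ≠ genericPoint X) : ptw K (plx K x hx) = x :=
  plx_inj K _ hx (plx_ptw K (plx K x hx))

theorem ptw_injective : Function.Injective (ptw K (X := X)) := by
  intro w w' h
  rw [← plx_ptw K w, ← plx_ptw K w']
  congr 1

theorem ord_eq_zero_iff {x : X} (hx : x ≠ genericPoint X) (f : X.functionFieldˣ) :
    (plx K x hx).ord (f : X.functionField) = 0 ↔ f ∈ UG X x := by
  set v := plx K x hx with hv
  have h0 : v.adicValuation (f : X.functionField) ≠ 0 := v.adicValuation_ne_zero f.ne_zero
  have h1 : f ∈ UG X x ↔ v.adicValuation (f : X.functionField) ≤ 1 ∧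
      (v.adicValuation (f : X.functionField))⁻¹ ≤ 1 := by
    rw [mem_UG_iff, ← plx_le_one K hx, ← plx_le_one K hx, Units.val_inv_eq_inv_val, map_inv₀]
  rw [h1]
  have h2 : v.ord (f : X.functionField) = 0 ↔ v.adicValuation (f : X.functionField) = 1 := by
    rw [Place.ord, neg_eq_zero]
    constructor
    · intro h
      rw [← WithZero.exp_log h0, h, WithZero.exp_zero]
    · intro h
      rw [h, WithZero.log_one]
  rw [h2]
  constructor
  · intro h
    rw [h, inv_one]
    exact ⟨le_rfl, le_rfl⟩
  · rintro ⟨h3, h4⟩
    exact le_antisymm h3 ((inv_le_one₀ (zero_lt_iff.mpr h0)).mp h4)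

omit [IsAlgClosed K] hs [IsProper (pK K X)] [FF.FunField K X.functionField] in
theorem ord_div (w : Place K X.functionField) (f g : X.functionFieldˣ) :
    w.ord ((f / g : X.functionFieldˣ) : X.functionField) =
      w.ord (f : X.functionField) - w.ord (g : X.functionField) := by
  rw [Units.val_div_eq_div_val, div_eq_mul_inv, w.ord_mul f.ne_zero (inv_ne_zero g.ne_zero),
    w.ord_inv, sub_eq_add_neg]

include K in
omit [IsAlgClosed K] hs [FF.FunField K X.functionField] [IsIntegral X] in
theorem compactSpace_of_proper : CompactSpace X :=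
  QuasiCompact.compactSpace_of_compactSpace (pK K X)

theorem finite_ord {D : X → X.functionFieldˣ} (hD : D ∈ CDiv X) :
    {w : Place K X.functionField | w.ord (D (ptw K w) : X.functionField) ≠ 0}.Finite := by
  have := compactSpace_of_proper K (X := X)
  obtain ⟨U, hU, h⟩ := hD (genericPoint X)
  have hZ : IsClosed ((U ⊓ ⟨_, isOpen_mem_UG (D (genericPoint X))⟩ : X.Opens) : Set X)ᶜ :=
    (U ⊓ ⟨_, isOpen_mem_UG (D (genericPoint X))⟩ : X.Opens).2.isClosed_compl
  have hfin := finite_of_isClosed K X hZ (by
    intro h1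
    exact h1 ⟨hU, mem_UG_generic _⟩)
  refine (hfin.preimage (ptw_injective K).injOn).subset fun w hw hw' => hw ?_
  have h1 := mul_mem (h _ hw'.1) hw'.2
  rw [div_mul_cancel, ← ord_eq_zero_iff K (ptw_ne K w), plx_ptw] at h1
  exact h1

/-- the Weil divisor of a Cartier divisor -/
def wdiv : CDiv X →* Multiplicative (Divisor K X.functionField) :=
  MonoidHom.mk' (fun D => Multiplicative.ofAdd (Finsupp.ofSupportFinite
    (fun w : Place K X.functionField => w.ord (D.1 (ptw K w) : X.functionField))
      (finite_ord K D.2))) fun D D' => by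
    apply Multiplicative.toAdd.injective
    rw [toAdd_mul]
    ext w
    exact w.ord_mul (Units.ne_zero _) (Units.ne_zero _)

theorem wdiv_apply (D : CDiv X) (w : Place K X.functionField) :
    (Multiplicative.toAdd (wdiv K D)) w = w.ord (D.1 (ptw K w) : X.functionField) := rfl

theorem wdiv_mem_principal_iff (D : CDiv X) :
    Multiplicative.toAdd (wdiv K D) ∈ Divisor.principal (K := K) (F := X.functionField) ↔
      D.1 ∈ Triv X := by
  rw [Divisor.mem_principal]
  constructor
  · rintro ⟨f, hf, h⟩
    refine ⟨Units.mk0 f hf, fun x => ?_⟩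
    by_cases hx : x = genericPoint X
    · rw [hx]
      exact mem_UG_generic _
    · have h1 := h (plx K x hx)
      rw [wdiv_apply, ptw_plx K hx] at h1
      rw [← ord_eq_zero_iff K hx, ord_div, h1, Units.val_mk0, sub_self]
  · rintro ⟨f, hf⟩
    refine ⟨f, f.ne_zero, fun w => ?_⟩
    have h1 := hf (ptw K w)
    rw [← ord_eq_zero_iff K (ptw_ne K w), plx_ptw, ord_div, sub_eq_zero] at h1
    exact h1

omit [IsAlgClosed K] hs [IsProper (pK K X)] [FF.FunField K X.functionField] in
theorem exists_unif (w : Place K X.functionField) :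
    ∃ π : X.functionFieldˣ, w.ord (π : X.functionField) = 1 := by
  obtain ⟨π, hπ⟩ := IsDiscreteValuationRing.exists_irreducible w.toValuationSubring
  have h0 : (π : X.functionField) ≠ 0 := by
    simpa [ne_eq, ZeroMemClass.coe_eq_zero] using hπ.ne_zero
  exact ⟨Units.mk0 π h0, w.ord_coe_irreducible hπ⟩

include K hs in
omit [IsAlgClosed K] [IsProper (pK K X)] [FF.FunField K X.functionField] in
theorem isClosed_finite {T : Set X} (hT : T.Finite) (h : ∀ x ∈ T, x ≠ genericPoint X) :
    IsClosed T := by
  rw [← Set.biUnion_of_singleton T]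
  exact hT.isClosed_biUnion fun x hx => isClosed_of_ne K X (h x hx)

theorem wdiv_surjective : Function.Surjective (wdiv K (X := X)) := by
  intro E'
  have := compactSpace_of_proper K (X := X)
  set E := Multiplicative.toAdd E' with hE
  choose π hπ using exists_unif K (X := X)
  classical
  let D : X → X.functionFieldˣ := fun x =>
    if hx : x = genericPoint X then 1 else π (plx K x hx) ^ (E (plx K x hx))
  have hD1 : ∀ x : X, (∀ hx : x ≠ genericPoint X, E (plx K x hx) = 0) → D x = 1 := by
    intro x h
    by_cases hx : x = genericPoint X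
    · simp only [D, dif_pos hx]
    · simp only [D, dif_neg hx, h hx, zpow_zero]
  have hD : D ∈ CDiv X := by
    intro x
    have hf1 : ({y : X | D x ∈ UG X y}ᶜ : Set X).Finite :=
      finite_of_isClosed K X (isOpen_mem_UG (D x)).isClosed_compl fun h => h (mem_UG_generic _)
    have hf2 : (ptw K '' (E.support : Set (Place K X.functionField))).Finite :=
      (Finset.finite_toSet _).image _
    have hT : IsClosed ((({y : X | D x ∈ UG X y}ᶜ : Set X) ∪
        ptw K '' (E.support : Set (Place K X.functionField))) \ {x}) := by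
      refine isClosed_finite K ((hf1.union hf2).subset Set.sdiff_subset) ?_
      rintro y ⟨hy | ⟨w, hw, rfl⟩, -⟩
      · rintro rfl
        exact hy (mem_UG_generic _)
      · exact ptw_ne K w
    refine ⟨⟨_, hT.isOpen_compl⟩, fun h => h.2 rfl, fun y hy => ?_⟩
    by_cases hyx : y = x
    · rw [hyx, div_self']
      exact one_mem _
    · have h1 : y ∉ ({y : X | D x ∈ UG X y}ᶜ : Set X) ∪
          ptw K '' (E.support : Set (Place K X.functionField)) := fun h => hy ⟨h, hyx⟩
      have h2 : D x ∈ UG X y := by
        by_contra hcon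
        exact h1 (Or.inl hcon)
      have h3 : D y = 1 := by
        refine hD1 y fun hy' => ?_
        by_contra hcon
        refine h1 (Or.inr ⟨plx K y hy', ?_, ptw_plx K hy'⟩)
        exact Finsupp.mem_support_iff.mpr hcon
      rw [h3]
      exact div_mem (one_mem _) h2
  refine ⟨⟨D, hD⟩, ?_⟩
  apply Multiplicative.toAdd.injective
  ext w
  rw [wdiv_apply]
  change w.ord (D (ptw K w) : X.functionField) = E w
  have h1 : D (ptw K w) = π w ^ (E w) := by
    simp only [D, dif_neg (ptw_ne K w)]
    rw [plx_ptw]
  rw [h1, Units.val_zpow_eq_zpow_val, w.ord_zpow, hπ, mul_one]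

/-- the divisor class of a Cartier divisor -/
def wcl : CDiv X →* Multiplicative (Pic K X.functionField) :=
  (AddMonoidHom.toMultiplicative (QuotientAddGroup.mk'
    (Divisor.principal (K := K) (F := X.functionField)))).comp (wdiv K)

theorem wcl_surjective : Function.Surjective (wcl K (X := X)) := by
  intro y
  obtain ⟨E, hE⟩ := QuotientAddGroup.mk_surjective (Multiplicative.toAdd y)
  obtain ⟨D, hD⟩ := wdiv_surjective K (X := X) (Multiplicative.ofAdd E)
  refine ⟨D, ?_⟩
  apply Multiplicative.toAdd.injective
  rw [← hE]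
  change QuotientAddGroup.mk (Multiplicative.toAdd (wdiv K D)) = _
  rw [hD]
  rfl

theorem ker_wcl : (wcl K (X := X)).ker = (Triv X).subgroupOf (CDiv X) := by
  ext D
  rw [MonoidHom.mem_ker, Subgroup.mem_subgroupOf, ← wdiv_mem_principal_iff K D,
    ← QuotientAddGroup.eq_zero_iff]
  exact Iff.rfl

/-- **Line bundle classes on a curve are divisor classes of its function field.** -/
def picEquiv : PicC X ≃* Multiplicative (Pic K X.functionField) :=
  ((cartEquiv X).symm.trans (QuotientGroup.quotientMulEquivOfEq (ker_wcl K).symm)).trans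
    (QuotientGroup.quotientKerEquivOfSurjective (wcl K) (wcl_surjective K))

end weil

section pic0

variable {K F : Type*} [Field K] [Field F] [Algebra K F]

/-- the map `Pic⁰ → Pic` -/
def picIncl : Pic0 K F →+ Pic K F :=
  QuotientAddGroup.map _ _ (Divisor.degZero (K := K) (F := F)).subtype le_rfl

theorem picIncl_injective : Function.Injective (picIncl (K := K) (F := F)) := by
  rw [injective_iff_map_eq_zero]
  intro x hx
  obtain ⟨D, rfl⟩ := QuotientAddGroup.mk_surjective x
  change (QuotientAddGroup.mk (D : Divisor K F) : Pic K F) = 0 at hx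
  rw [QuotientAddGroup.eq_zero_iff] at hx ⊢
  exact hx

theorem degree_of_mem_principal [HasPrincipalDivisors K F] {D : Divisor K F}
    (hD : D ∈ Divisor.principal (K := K) (F := F)) : Divisor.degree D = 0 := by
  obtain ⟨f, hf, h⟩ := hD
  obtain ⟨E, hE, hE'⟩ := HasPrincipalDivisors.exists_divisor (K := K) f hf
  have h1 : D = E := by
    ext v
    rw [h, hE]
  rw [h1, hE']

theorem torsion_mem_range [HasPrincipalDivisors K F] {n : ℕ} (hn : n ≠ 0) {x : Pic K F}
    (hx : n • x = 0) : ∃ y : Pic0 K F, picIncl y = x := by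
  obtain ⟨D, rfl⟩ := QuotientAddGroup.mk_surjective x
  rw [← QuotientAddGroup.mk_nsmul, QuotientAddGroup.eq_zero_iff] at hx
  have h1 := degree_of_mem_principal hx
  rw [map_nsmul, smul_eq_zero] at h1
  exact ⟨QuotientAddGroup.mk ⟨D, h1.resolve_left hn⟩, rfl⟩

/-- the torsion of the divisor class group has degree zero -/
theorem card_torsion_pic [HasPrincipalDivisors K F] {n : ℕ} (hn : n ≠ 0) :
    Nat.card (Pic0.torsion K F n) = Nat.card {x : Pic K F // n • x = 0} := by
  refine Nat.card_congr (Equiv.ofBijective (fun x => ⟨picIncl x.1, ?_⟩) ⟨?_, ?_⟩)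
  · have h1 := Pic0.mem_torsion.mp x.2
    rw [← map_nsmul, ← natCast_zsmul, h1, map_zero]
  · intro x y h
    exact Subtype.ext (picIncl_injective (congrArg Subtype.val h))
  · rintro ⟨x, hx⟩
    obtain ⟨y, rfl⟩ := torsion_mem_range hn hx
    refine ⟨⟨y, ?_⟩, rfl⟩
    rw [Pic0.mem_torsion, natCast_zsmul]
    apply picIncl_injective
    rw [map_nsmul, hx, map_zero]

end pic0

/-- **Torsion of the divisor class group of the function field of a curve**, in every
characteristic: `#Pic⁰(F)[n] = n ^ (2 * g)`. -/
theorem card_pic0_torsion_functionField (k : Type u) [Field k] [IsAlgClosed k] {C : Scheme.{u}}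
    (c : C ⟶ Spec (CommRingCat.of k)) [hp : IsProper c] [hs : SmoothOfRelativeDimension 1 c]
    [IsIntegral C] (n : ℕ) (hn : (n : k) ≠ 0) :
    letI : KSch k C := ⟨c⟩
    Nat.card (Pic0.torsion k C.functionField n) = n ^ (2 * genusFF k C.functionField) := by
  let _ : KSch k C := ⟨c⟩
  have _ : IsProper (pK k C) := hp
  have _ : SmoothOfRelativeDimension 1 (pK k C) := hs
  have hn0 : n ≠ 0 := by
    rintro rfl
    exact hn Nat.cast_zero
  obtain ⟨ε⟩ : Nonempty (SchemeHomOver (𝟙 (Spec (CommRingCat.of k))) (pK k C)) :=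
    exists_section c
  obtain ⟨a, ha⟩ := exists_one_pole k (ne_generic k ε.1 (by
    unfold IsKHom
    rw [ε.2, pK_spec]
    exact (Spec.map_id _).symm) : ε.1 (ptK k) ≠ genericPoint C)
  have hff : FF.FunField k C.functionField :=
    funField k (nonconst_of_notMem k fun h => (ha (ε.1 (ptK k))).1 h rfl)
  rw [card_torsion_pic hn0, ← card_pic_torsion k c n hn]
  refine Nat.card_congr (Equiv.subtypeEquiv ((picEquiv k (X := C)).toEquiv.trans
    Multiplicative.toAdd).symm fun x => ?_)
  obtain ⟨l, rfl⟩ := ((picEquiv k (X := C)).toEquiv.trans Multiplicative.toAdd).surjective x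
  rw [Equiv.symm_apply_apply]
  change n • Multiplicative.toAdd (picEquiv k l) = 0 ↔ _
  rw [← toAdd_pow, ← map_pow, toAdd_eq_zero, map_eq_one_iff _ (picEquiv k (X := C)).injective]

/-- **The structure of the torsion of the divisor class group**: `Pic⁰(F)[n] ≃ (ℤ/n) ^ (2 * g)`. -/
theorem nonempty_pic0_torsion_functionField (k : Type u) [Field k] [IsAlgClosed k] {C : Scheme.{u}}
    (c : C ⟶ Spec (CommRingCat.of k)) [hp : IsProper c] [hs : SmoothOfRelativeDimension 1 c]
    [IsIntegral C] (n : ℕ) (hn : (n : k) ≠ 0) :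
    letI : KSch k C := ⟨c⟩
    Nonempty (Pic0.torsion k C.functionField n ≃+
      (Fin (2 * genusFF k C.functionField) → ZMod n)) := by
  let _ : KSch k C := ⟨c⟩
  have hn0 : n ≠ 0 := by
    rintro rfl
    exact hn Nat.cast_zero
  refine Tors.nonempty_equiv_ker hn0 (fun d hd => ?_) _ fun x => by
    rw [Pic0.mem_torsion, natCast_zsmul]
  have hd' : (d : k) ≠ 0 := by
    rintro h
    obtain ⟨e, rfl⟩ := hd
    apply hn
    rw [Nat.cast_mul, h, zero_mul]
  rw [← card_pic0_torsion_functionField k c d hd']
  refine Nat.card_congr (Equiv.subtypeEquivRight fun x => ?_)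
  rw [Pic0.mem_torsion, natCast_zsmul]

end

end Fermat.Agent.Cor.Jac
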