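import Mathlib

/-!
# Affine Dedekind curves over an algebraically closed field are smooth
-/

set_option autoImplicit false

universe u

open Polynomial IsLocalRing

noncomputable section

namespace Fermat.Agent.Cor.Jac

variable (K : Type u) [Field K] [IsAlgClosed K] (A : Type u) [CommRing A] [IsDedekindDomain A]
  [Algebra K A] [hft : Algebra.FiniteType K A]

include hft in
omit [IsAlgClosed K] [IsDedekindDomain A] in
theorem finite_residueField (q : Ideal A) [hq : q.IsMaximal] : Module.Finite K q.ResidueField := by
  let _ : Field (A ⧸ q) := Ideal.Quotient.field q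
  have h0 : Algebra.FiniteType K (A ⧸ q) := inferInstance
  have h1 : Module.Finite K (A ⧸ q) := finite_of_finite_type_of_isJacobsonRing K (A ⧸ q)
  have h2 := (Ideal.bijective_algebraMap_quotient_residueField q).2
  exact Module.Finite.of_surjective (IsScalarTower.toAlgHom K (A ⧸ q) q.ResidueField).toLinearMap h2

omit hft in
theorem aeval_injective_of_mem {q : Ideal A} [hq : q.IsMaximal] {t : A} (ht : t ∈ q)
    (ht0 : t ≠ 0) : Function.Injective (Polynomial.aeval (R := K) t) := by
  rw [injective_iff_map_eq_zero]
  intro P hP
  by_contra hne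
  have h1 := IsAlgClosed.splits P
  have h2 : ∀ s : Multiset K, (Polynomial.aeval (R := K) t)
      (s.map fun a => (X - C a : K[X])).prod ≠ 0 := by
    intro s
    rw [map_multiset_prod, Multiset.map_map]
    apply Multiset.prod_ne_zero
    rw [Multiset.mem_map]
    rintro ⟨a, -, ha⟩
    rw [Function.comp_apply, map_sub, aeval_X, aeval_C, sub_eq_zero] at ha
    by_cases ha0 : a = 0
    · rw [ha, ha0, map_zero] at ht0
      exact ht0 rfl
    · apply hq.ne_top
      rw [ha] at ht
      exact Ideal.eq_top_of_isUnit_mem _ ht ((IsUnit.mk0 a ha0).map (algebraMap K A))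
  rw [h1.eq_prod_roots, map_mul, aeval_C] at hP
  rcases mul_eq_zero.mp hP with h | h
  · have h3 : P.leadingCoeff ≠ 0 := leadingCoeff_ne_zero.mpr hne
    exact ((IsUnit.mk0 _ h3).map (algebraMap K A)).ne_zero h
  · exact h2 _ h

theorem isSmoothAt_of_isMaximal (hA : ¬ IsField A) (q : Ideal A) [hq : q.IsMaximal] :
    Algebra.IsSmoothAt K q := by
  have hq0 : q ≠ ⊥ := Ring.ne_bot_of_isMaximal_of_not_isField hq hA
  have hdvr : IsDiscreteValuationRing (Localization.AtPrime q) :=
    IsLocalization.AtPrime.isDiscreteValuationRing_of_dedekind_domain A hq0 _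
  obtain ⟨π, hπ⟩ := IsDiscreteValuationRing.exists_irreducible (Localization.AtPrime q)
  obtain ⟨t, s, rfl⟩ := IsLocalization.exists_mk'_eq q.primeCompl π
  have hspan : maximalIdeal (Localization.AtPrime q) =
      Ideal.span {algebraMap A (Localization.AtPrime q) t} := by
    rw [hπ.maximalIdeal_eq]
    have h1 : algebraMap A (Localization.AtPrime q) t =
        IsLocalization.mk' (Localization.AtPrime q) t s *
          algebraMap A (Localization.AtPrime q) s := (IsLocalization.mk'_spec _ t s).symm
    rw [h1]
    exact (Ideal.span_singleton_mul_right_unit (IsLocalization.map_units _ s) _).symm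
  have htq : t ∈ q := by
    rw [← IsLocalization.AtPrime.to_map_mem_maximal_iff (Localization.AtPrime q) q, hspan]
    exact Ideal.mem_span_singleton_self _
  have ht0 : t ≠ 0 := by
    rintro rfl
    rw [IsLocalization.mk'_zero] at hπ
    exact hπ.ne_zero rfl
  have hinj := aeval_injective_of_mem K A htq ht0
  let _ : Algebra K[X] A := (Polynomial.aeval (R := K) t).toRingHom.toAlgebra
  have hX : algebraMap K[X] A X = t := aeval_X t
  have htow : IsScalarTower K K[X] A :=
    .of_algebraMap_eq' (Polynomial.aeval (R := K) t).comp_algebraMap.symm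
  have hfl : Module.Flat K[X] A := by
    have : FaithfulSMul K[X] A := (faithfulSMul_iff_algebraMap_injective _ _).mpr hinj
    have : Module.IsTorsionFree K[X] A := inferInstance
    infer_instance
  have hft' : Algebra.FiniteType K[X] A := Algebra.FiniteType.of_restrictScalars_finiteType K K[X] A
  have hfp : Algebra.FinitePresentation K[X] A := Algebra.FinitePresentation.of_finiteType.mp hft'
  let _ := Localization.AtPrime.algebraOfLiesOver (q.under K[X]) q
  have hur : Algebra.IsUnramifiedAt K[X] q := by
    rw [Algebra.isUnramifiedAt_iff_map_eq K[X] (q.under K[X]) q]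
    constructor
    · have h1 := finite_residueField K A q
      have h2 : IsScalarTower K (q.under K[X]).ResidueField q.ResidueField := inferInstance
      exact Algebra.isSeparable_tower_top_of_isSeparable K (q.under K[X]).ResidueField
        q.ResidueField
    · apply le_antisymm
      · rw [Ideal.map_le_iff_le_comap]
        intro P hP
        rw [Ideal.mem_comap, IsScalarTower.algebraMap_apply K[X] A (Localization.AtPrime q),
          IsLocalization.AtPrime.to_map_mem_maximal_iff (Localization.AtPrime q) q]
        exact hP
      · rw [hspan, Ideal.span_singleton_le_iff_mem, ← hX,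
          ← IsScalarTower.algebraMap_apply K[X] A (Localization.AtPrime q)]
        refine Ideal.mem_map_of_mem _ ?_
        rw [Ideal.under_def, Ideal.mem_comap, hX]
        exact htq
  have het : Algebra.IsEtaleAt K[X] q := Algebra.IsEtaleAt.of_isUnramifiedAt_of_flat q
  have h3 : Algebra.FormallySmooth K[X] (Localization.AtPrime q) := inferInstance
  have h4 : Algebra.FormallySmooth K K[X] := inferInstance
  exact Algebra.FormallySmooth.comp K K[X] (Localization.AtPrime q)

/-- **An affine Dedekind curve over an algebraically closed field is smooth.** -/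
theorem smooth_of_isDedekindDomain (hA : ¬ IsField A) : Algebra.Smooth K A := by
  have hfp : Algebra.FinitePresentation K A := Algebra.FinitePresentation.of_finiteType.mp hft
  refine ⟨Algebra.smoothLocus_eq_univ_iff.mp (Set.eq_univ_iff_forall.mpr fun p => ?_), hfp⟩
  obtain ⟨m, hm, hpm⟩ := Ideal.exists_le_maximal p.asIdeal p.isPrime.ne_top
  have h1 : (⟨m, hm.isPrime⟩ : PrimeSpectrum A) ∈ Algebra.smoothLocus K A :=
    isSmoothAt_of_isMaximal K A hA m
  have h2 : p ⤳ (⟨m, hm.isPrime⟩ : PrimeSpectrum A) :=
    (PrimeSpectrum.le_iff_specializes p _).mp hpm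
  exact h2.mem_open Algebra.isOpen_smoothLocus h1

end Fermat.Agent.Cor.Jac
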