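import Mathlib
import Fermat.Agent.FF.T8
import Fermat.Agent.Cor.ModelSmooth

/-!
# The two affine charts of the model of a function field
-/

set_option autoImplicit false

universe u

open scoped IntermediateField IntermediateField.algebraAdjoinAdjoin

noncomputable section

namespace Fermat.Agent.Cor.Jac

open Fermat.Agent

section away

variable {K F : Type u} [Field K] [Field F] [Algebra K F]

/-- the subalgebra `R[1/y]` -/
def away (R : Subalgebra K F) (y : F) (hy : y ∈ R) : Subalgebra K F where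
  carrier := {z | ∃ n : ℕ, z * y ^ n ∈ R}
  mul_mem' := by
    rintro z z' ⟨n, hn⟩ ⟨m, hm⟩
    refine ⟨n + m, ?_⟩
    have h := mul_mem hn hm
    rw [pow_add]
    have e : z * y ^ n * (z' * y ^ m) = z * z' * (y ^ n * y ^ m) := by ring
    rwa [e] at h
  add_mem' := by
    rintro z z' ⟨n, hn⟩ ⟨m, hm⟩
    refine ⟨n + m, ?_⟩
    have h := add_mem (mul_mem hn (pow_mem hy m)) (mul_mem hm (pow_mem hy n))
    rw [pow_add]
    have e : z * y ^ n * y ^ m + z' * y ^ m * y ^ n = (z + z') * (y ^ n * y ^ m) := by ring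
    rwa [e] at h
  algebraMap_mem' := fun c => ⟨0, by
    rw [pow_zero, mul_one]
    exact R.algebraMap_mem c⟩

theorem mem_away {R : Subalgebra K F} {y : F} {hy : y ∈ R} {z : F} :
    z ∈ away R y hy ↔ ∃ n : ℕ, z * y ^ n ∈ R := Iff.rfl

theorem le_away (R : Subalgebra K F) (y : F) (hy : y ∈ R) : R ≤ away R y hy :=
  fun z hz => ⟨0, by rwa [pow_zero, mul_one]⟩

theorem inv_mem_away (R : Subalgebra K F) (y : F) (hy : y ∈ R) (hy0 : y ≠ 0) :
    y⁻¹ ∈ away R y hy := ⟨1, by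
  rw [pow_one, inv_mul_cancel₀ hy0]
  exact one_mem R⟩

theorem isLocalization_away {R D : Subalgebra K F} (hRD : R ≤ D) {y : F} (hy : y ∈ R)
    (hy0 : y ≠ 0) (h : ∀ z ∈ D, ∃ n : ℕ, z * y ^ n ∈ R) (hyi : y⁻¹ ∈ D) :
    letI := (Subalgebra.inclusion hRD).toAlgebra
    IsLocalization.Away (⟨y, hy⟩ : R) D := by
  let _ := (Subalgebra.inclusion hRD).toAlgebra
  change IsLocalization (Submonoid.powers (⟨y, hy⟩ : R)) D
  rw [isLocalization_iff]
  refine ⟨?_, ?_, ?_⟩
  · rintro ⟨_, n, rfl⟩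
    rw [map_pow]
    refine IsUnit.pow n ?_
    refine IsUnit.of_mul_eq_one (⟨y⁻¹, hyi⟩ : D) (Subtype.ext ?_)
    exact mul_inv_cancel₀ hy0
  · rintro ⟨z, hz⟩
    obtain ⟨n, hn⟩ := h z hz
    exact ⟨⟨⟨_, hn⟩, ⟨_, n, rfl⟩⟩, Subtype.ext rfl⟩
  · intro a b hab
    refine ⟨1, ?_⟩
    have h1 : (a : F) = b := congrArg (fun t : D => (t : F)) hab
    rw [Subtype.ext h1]

/-- the integral closure of `K[x]` as a `K`-subalgebra -/
def Ax (K : Type u) {F : Type u} [Field K] [Field F] [Algebra K F] (x : F) : Subalgebra K F :=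
  (FF.Bx K x).restrictScalars K

theorem mem_Ax {x z : F} : z ∈ Ax K x ↔ IsIntegral (Algebra.adjoin K {x}) z := Iff.rfl

theorem self_mem_Ax (x : F) : x ∈ Ax K x :=
  isIntegral_algebraMap (R := Algebra.adjoin K {x}) (A := F)
    (x := ⟨x, Algebra.self_mem_adjoin_singleton K x⟩)

/-- an element integral over `K[x]` becomes integral over `K[x⁻¹]` after multiplication by a power
of `x⁻¹` -/
theorem exists_mul_mem_Ax {x : F} (hx : x ≠ 0) {a : F} (ha : a ∈ Ax K x) :
    ∃ n : ℕ, a * x⁻¹ ^ n ∈ Ax K x⁻¹ := by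
  have hxi : x⁻¹ ∈ Algebra.adjoin K {x⁻¹} := Algebra.self_mem_adjoin_singleton K x⁻¹
  have hxi0 : x⁻¹ ≠ 0 := inv_ne_zero hx
  let D := away (Algebra.adjoin K {x⁻¹}) x⁻¹ hxi
  have hRD : Algebra.adjoin K {x⁻¹} ≤ D := le_away _ _ _
  let _ := (Subalgebra.inclusion hRD).toAlgebra
  have hloc : IsLocalization.Away (⟨x⁻¹, hxi⟩ : Algebra.adjoin K {x⁻¹}) D :=
    isLocalization_away hRD hxi hxi0 (fun z hz => hz) (inv_mem_away _ _ _ hxi0)
  have hRD' : Algebra.adjoin K {x} ≤ D := by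
    apply Algebra.adjoin_le
    rintro _ rfl
    have h := inv_mem_away _ _ hxi hxi0
    rwa [inv_inv] at h
  have htow : IsScalarTower (Algebra.adjoin K {x⁻¹}) D F := IsScalarTower.of_algebraMap_eq fun _ => rfl
  have h1 : IsIntegral D a := by
    obtain ⟨p, hp, hpa⟩ := (mem_Ax.mp ha : IsIntegral (Algebra.adjoin K {x}) a)
    refine ⟨p.map (Subalgebra.inclusion hRD' : Algebra.adjoin K {x} →+* D), hp.map _, ?_⟩
    rw [Polynomial.eval₂_map]
    exact hpa
  obtain ⟨⟨_, n, rfl⟩, hm⟩ := IsIntegral.exists_multiple_integral_of_isLocalization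
    (Submonoid.powers (⟨x⁻¹, hxi⟩ : Algebra.adjoin K {x⁻¹})) a h1
  refine ⟨n, ?_⟩
  rw [mem_Ax, mul_comm]
  exact hm

/-- the coordinate ring of the intersection of the charts -/
def Dx (K : Type u) {F : Type u} [Field K] [Field F] [Algebra K F] (x : F) : Subalgebra K F :=
  away (Ax K x) x (self_mem_Ax x)

theorem Ax_le_Dx (x : F) : Ax K x ≤ Dx K x := le_away _ _ _

theorem mem_Dx_inv {x : F} (hx : x ≠ 0) {z : F} (hz : z ∈ Dx K x) : z ∈ Dx K x⁻¹ := by
  obtain ⟨n, hn⟩ := hz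
  obtain ⟨m, hm⟩ := exists_mul_mem_Ax hx hn
  refine ⟨m, ?_⟩
  have h := mul_mem hm (pow_mem (self_mem_Ax (K := K) x⁻¹) n)
  have e : z * x ^ n * x⁻¹ ^ m * x⁻¹ ^ n = z * x⁻¹ ^ m * (x * x⁻¹) ^ n := by
    rw [mul_pow]
    ring
  rwa [e, mul_inv_cancel₀ hx, one_pow, mul_one] at h

theorem Dx_inv {x : F} (hx : x ≠ 0) : Dx K x⁻¹ = Dx K x := by
  ext z
  refine ⟨fun h => ?_, mem_Dx_inv hx⟩
  have h1 := mem_Dx_inv (inv_ne_zero hx) h
  rwa [inv_inv] at h1

theorem Ax_inv_le_Dx {x : F} (hx : x ≠ 0) : Ax K x⁻¹ ≤ Dx K x := by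
  rw [← Dx_inv hx]
  exact Ax_le_Dx _

theorem isLocalization_Dx {x : F} (hx : x ≠ 0) :
    letI := (Subalgebra.inclusion (Ax_le_Dx (K := K) x)).toAlgebra
    IsLocalization.Away (⟨x, self_mem_Ax x⟩ : Ax K x) (Dx K x) :=
  isLocalization_away _ _ hx (fun z hz => hz) (inv_mem_away _ _ _ hx)

theorem isLocalization_Dx_inv {x : F} (hx : x ≠ 0) :
    letI := (Subalgebra.inclusion (Ax_inv_le_Dx (K := K) hx)).toAlgebra
    IsLocalization.Away (⟨x⁻¹, self_mem_Ax x⁻¹⟩ : Ax K x⁻¹) (Dx K x) :=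
  isLocalization_away _ _ (inv_ne_zero hx) (fun _ hz => by
    rw [← Dx_inv hx] at hz
    exact hz) (by
    rw [← Dx_inv hx]
    exact inv_mem_away _ _ _ (inv_ne_zero hx))

end away

section chart

variable {K F : Type u} [Field K] [Field F] [Algebra K F] (x : F) [hx : FF.IsParam K x]
  [Algebra.IsSeparable K⟮x⟯ F]

instance isDedekindDomain_Ax : IsDedekindDomain (Ax K x) :=
  inferInstanceAs (IsDedekindDomain (FF.Bx K x))

instance isFractionRing_Ax : IsFractionRing (Ax K x) F :=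
  inferInstanceAs (IsFractionRing (FF.Bx K x) F)

instance finiteType_Ax : Algebra.FiniteType K (Ax K x) := by
  have h1 : Algebra.FiniteType K (Algebra.adjoin K {x}) :=
    (Subalgebra.fg_iff_finiteType _).mp ⟨{x}, by simp⟩
  have h2 : Module.Finite (Algebra.adjoin K {x}) (FF.Bx K x) := inferInstance
  have h3 : Algebra.FiniteType K (FF.Bx K x) :=
    Algebra.FiniteType.trans h1 inferInstance
  exact h3

theorem not_isField_Ax : ¬ IsField (Ax K x) := by
  intro h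
  have h1 : Function.Surjective (algebraMap (Ax K x) F) :=
    IsFractionRing.surjective_iff_isField.mpr h
  obtain ⟨z, hz⟩ := h1 x⁻¹
  have hx0 : x ≠ 0 := by
    rintro rfl
    exact hx.tr isAlgebraic_zero
  have h2 : IsIntegral (Algebra.adjoin K {x}) x⁻¹ := hz ▸ z.2
  have h3 : IsIntegrallyClosed (Algebra.adjoin K {x}) := inferInstance
  have h4 : IsIntegral (Algebra.adjoin K {x}) (⟨x⁻¹, inv_mem
    (IntermediateField.mem_adjoin_simple_self K x)⟩ : K⟮x⟯) :=
    (isIntegral_algHom_iff (IsScalarTower.toAlgHom (Algebra.adjoin K {x}) K⟮x⟯ F)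
      (algebraMap K⟮x⟯ F).injective).mp h2
  obtain ⟨y, hy⟩ := IsIntegrallyClosed.isIntegral_iff.mp h4
  have hy' : (y : F) = x⁻¹ := congrArg Subtype.val hy
  have h5 := y.2
  rw [hy', Algebra.adjoin_singleton_eq_range_aeval] at h5
  obtain ⟨P, hP⟩ := h5
  have h6 : Polynomial.aeval x (Polynomial.X * P - 1) = 0 := by
    rw [map_sub, map_mul, Polynomial.aeval_X, map_one]
    change x * (Polynomial.aeval x P) - 1 = 0
    have hP' : Polynomial.aeval x P = x⁻¹ := hP
    rw [hP', mul_inv_cancel₀ hx0, sub_self]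
  have h7 : (Polynomial.X * P - 1 : Polynomial K) = 0 := by
    by_contra hne
    exact hx.tr ⟨_, hne, h6⟩
  have h8 := congrArg (Polynomial.eval 0) h7
  simp at h8

instance smooth_Ax [IsAlgClosed K] : Algebra.Smooth K (Ax K x) :=
  smooth_of_isDedekindDomain K (Ax K x) (not_isField_Ax x)

end chart

end Fermat.Agent.Cor.Jac
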