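import Mathlib

/-!
# Gluing two schemes along an open subscheme
-/

set_option autoImplicit false

universe u

open CategoryTheory CategoryTheory.Limits AlgebraicGeometry TopologicalSpace

noncomputable section

namespace Fermat.Agent.Cor.Jac

section glue

variable {U V W : Scheme.{u}} (f : W ⟶ U) (g : W ⟶ V) [IsOpenImmersion f] [IsOpenImmersion g]

instance isOpenImmersion_span {i j : WalkingSpan} (φ : i ⟶ j) :
    IsOpenImmersion ((span f g).map φ) := by
  match i, j, φ with
  | _, _, WidePushoutShape.Hom.id i =>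
    have h : (span f g).map (WidePushoutShape.Hom.id i) = 𝟙 _ := (span f g).map_id i
    rw [h]
    infer_instance
  | _, _, WidePushoutShape.Hom.init WalkingPair.left =>
    exact inferInstanceAs (IsOpenImmersion f)
  | _, _, WidePushoutShape.Hom.init WalkingPair.right =>
    exact inferInstanceAs (IsOpenImmersion g)

theorem exists_glue : ∃ (C : Scheme.{u}) (jU : U ⟶ C) (jV : V ⟶ C),
    IsOpenImmersion jU ∧ IsOpenImmersion jV ∧ f ≫ jU = g ≫ jV ∧
    (∀ x : C, x ∈ Set.range jU ∨ x ∈ Set.range jV) ∧
    (∀ (T : Scheme.{u}) (a : U ⟶ T) (b : V ⟶ T), f ≫ a = g ≫ b →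
      ∃ c : C ⟶ T, jU ≫ c = a ∧ jV ≫ c = b) ∧
    (∀ (x : U) (y : V), jU x = jV y → ∃ z : W, f z = x ∧ g z = y) := by
  have h1 : HasPushout f g := inferInstanceAs (HasColimit (span f g))
  refine ⟨pushout f g, pushout.inl f g, pushout.inr f g, ?_, ?_, pushout.condition, ?_, ?_, ?_⟩
  · exact inferInstanceAs (IsOpenImmersion (colimit.ι (span f g) WalkingSpan.left))
  · exact inferInstanceAs (IsOpenImmersion (colimit.ι (span f g) WalkingSpan.right))
  · intro x
    obtain ⟨i, y, hy⟩ := Scheme.IsLocallyDirected.ι_jointly_surjective (span f g) x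
    rcases i with _ | i | i
    · left
      have h2 : f ≫ pushout.inl f g = colimit.ι (span f g) WalkingSpan.zero :=
        colimit.w (span f g) WalkingSpan.Hom.fst
      have h3 : ∀ w : W, (pushout.inl f g) (f w) = colimit.ι (span f g) WalkingSpan.zero w :=
        fun w => by
          rw [← Scheme.Hom.comp_apply, h2]
          rfl
      exact ⟨f (show W from y), (h3 _).trans hy⟩
    · left
      exact ⟨y, hy⟩
    · right
      exact ⟨y, hy⟩
  · intro T a b h
    exact ⟨pushout.desc a b h, pushout.inl_desc _ _ _, pushout.inr_desc _ _ _⟩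
  · intro x y h
    obtain ⟨k, fi, fj, z, hz, hz'⟩ := (Scheme.IsLocallyDirected.ι_eq_ι_iff (span f g)
      (i := WalkingSpan.left) (j := WalkingSpan.right) (xi := x) (xj := y)).mp h
    rcases k with _ | k | k
    · refine ⟨z, ?_, ?_⟩
      · have h3 : fi = WalkingSpan.Hom.fst := Subsingleton.elim _ _
        rw [h3] at hz
        exact hz
      · have h3 : fj = WalkingSpan.Hom.snd := Subsingleton.elim _ _
        rw [h3] at hz'
        exact hz'
    · exact nomatch fj
    · exact nomatch fi

end glue

end Fermat.Agent.Cor.Jac
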