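import Mathlib
import Fermat.Agent.Cor.ModelGlue

/-!
# The valuative criterion for two affine charts glued along `a ↔ 1/a`
-/

set_option autoImplicit false

universe u

open CategoryTheory CategoryTheory.Limits AlgebraicGeometry TopologicalSpace IsLocalRing

noncomputable section

namespace Fermat.Agent.Cor.Jac

theorem exists_factor {A R L : Type*} [CommRing A] [CommRing R] [CommRing L] (i : R →+* L)
    (hi : Function.Injective i) (φ : A →+* L) (h : ∀ z, φ z ∈ i.range) :
    ∃ φ' : A →+* R, i.comp φ' = φ := by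
  let e : R ≃+* i.range := RingEquiv.ofBijective i.rangeRestrict
    ⟨fun a b hab => hi (congrArg Subtype.val hab), i.rangeRestrict_surjective⟩
  refine ⟨e.symm.toRingHom.comp (φ.codRestrict i.range h), ?_⟩
  ext z
  have h1 : e (e.symm (φ.codRestrict i.range h z)) = φ.codRestrict i.range h z :=
    e.apply_symm_apply _
  exact congrArg Subtype.val h1

/-- the image of an integral extension of `K[a]` is contained in the valuation ring -/
theorem range_le {K A R L : Type*} [Field K] [CommRing A] [Algebra K A] [CommRing R] [IsDomain R]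
    [ValuationRing R] [Field L] [Algebra R L] [IsFractionRing R L] (φ : A →+* L) (ψ : K →+* R)
    (hφ : φ.comp (algebraMap K A) = (algebraMap R L).comp ψ) {a : A}
    (ha : φ a ∈ (algebraMap R L).range) (hA : ∀ z : A, IsIntegral (Algebra.adjoin K {a}) z)
    (z : A) : φ z ∈ (algebraMap R L).range := by
  let S : Subalgebra K A :=
    { (algebraMap R L).range.comap φ with
      algebraMap_mem' := fun c => ⟨ψ c, (congrArg (fun g => g c) hφ).symm⟩ }
  have hS : Algebra.adjoin K {a} ≤ S := by
    apply Algebra.adjoin_le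
    rintro _ rfl
    exact ha
  obtain ⟨τ, hτ⟩ := exists_factor (algebraMap R L) (IsFractionRing.injective R L)
    (φ.comp (algebraMap (Algebra.adjoin K {a}) A)) fun y => hS y.2
  have h1 := (hA z).map_of_comp_eq τ φ hτ
  exact IsIntegrallyClosed.isIntegral_iff.mp h1

section lift

variable {K A B D : Type u} [Field K] [CommRing A] [CommRing B] [CommRing D] [Algebra K A]
  [Algebra K B] [Algebra A D] [Algebra B D] {a : A} {w : B}
  [IsLocalization.Away a D] (haw : algebraMap A D a * algebraMap B D w = 1)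
  (hA : ∀ z : A, IsIntegral (Algebra.adjoin K {a}) z)
  (hB : ∀ z : B, IsIntegral (Algebra.adjoin K {w}) z)
  (hK : (algebraMap A D).comp (algebraMap K A) = (algebraMap B D).comp (algebraMap K B))
  {C : Scheme.{u}} {c : C ⟶ Spec (CommRingCat.of K)} {jA : Spec (CommRingCat.of A) ⟶ C}
  {jB : Spec (CommRingCat.of B) ⟶ C}
  (hcomm : Spec.map (CommRingCat.ofHom (algebraMap A D)) ≫ jA =
    Spec.map (CommRingCat.ofHom (algebraMap B D)) ≫ jB)
  (hcA : jA ≫ c = Spec.map (CommRingCat.ofHom (algebraMap K A)))
  (hcB : jB ≫ c = Spec.map (CommRingCat.ofHom (algebraMap K B)))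

include haw hA hB hK hcomm hcA hcB in
/-- the existence part, for points of the first chart -/
theorem exists_lift_chart [IsOpenImmersion jA] {R L : Type u} [CommRing R] [IsDomain R]
    [ValuationRing R] [Field L] [Algebra R L] [IsFractionRing R L]
    (i₁ : Spec (CommRingCat.of L) ⟶ C) (i₂ : Spec (CommRingCat.of R) ⟶ Spec (CommRingCat.of K))
    (hw : i₁ ≫ c = Spec.map (CommRingCat.ofHom (algebraMap R L)) ≫ i₂)
    (h : i₁ (closedPoint L) ∈ Set.range jA) :
    ∃ l : Spec (CommRingCat.of R) ⟶ C,
      Spec.map (CommRingCat.ofHom (algebraMap R L)) ≫ l = i₁ ∧ l ≫ c = i₂ := by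
  have hrange : Set.range i₁ ⊆ Set.range jA := by
    rintro _ ⟨y, rfl⟩
    have hy : y = closedPoint L := Subsingleton.elim _ _
    rw [hy]
    exact h
  obtain ⟨φ, hφ⟩ := Spec.map_surjective (IsOpenImmersion.lift jA i₁ hrange)
  have hφi : Spec.map φ ≫ jA = i₁ := by
    rw [hφ]
    exact IsOpenImmersion.lift_fac _ _ _
  obtain ⟨ψ, hψ⟩ := Spec.map_surjective i₂
  have e1 : CommRingCat.ofHom (algebraMap K A) ≫ φ = ψ ≫ CommRingCat.ofHom (algebraMap R L) := by
    apply Spec.map_injective
    rw [Spec.map_comp, Spec.map_comp, ← hcA, hψ, ← hw, ← hφi, Category.assoc]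
  have e2 : φ.hom.comp (algebraMap K A) = (algebraMap R L).comp ψ.hom :=
    congrArg (fun g => g.hom) e1
  rcases ValuationRing.isInteger_or_isInteger R (φ.hom a) with hx | hx
  · obtain ⟨φ', hφ'⟩ := exists_factor (algebraMap R L) (IsFractionRing.injective R L) φ.hom
      (range_le φ.hom ψ.hom e2 hx hA)
    have e3 : CommRingCat.ofHom φ' ≫ CommRingCat.ofHom (algebraMap R L) = φ :=
      CommRingCat.hom_ext hφ'
    refine ⟨Spec.map (CommRingCat.ofHom φ') ≫ jA, ?_, ?_⟩
    · rw [← Category.assoc, ← Spec.map_comp, e3, hφi]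
    · rw [Category.assoc, hcA, ← Spec.map_comp, ← hψ]
      congr 1
      apply CommRingCat.hom_ext
      apply RingHom.ext
      intro r
      apply IsFractionRing.injective R L
      have h1 := congrArg (fun g => g r) e2
      have h2 := congrArg (fun g => g (algebraMap K A r)) hφ'
      exact h2.trans h1
  · have hx0 : φ.hom a ≠ 0 ∨ φ.hom a = 0 := (em _).symm
    by_cases h0 : φ.hom a = 0
    · obtain ⟨φ', hφ'⟩ := exists_factor (algebraMap R L) (IsFractionRing.injective R L) φ.hom
        (range_le φ.hom ψ.hom e2 (by rw [h0]; exact zero_mem _) hA)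
      have e3 : CommRingCat.ofHom φ' ≫ CommRingCat.ofHom (algebraMap R L) = φ :=
        CommRingCat.hom_ext hφ'
      refine ⟨Spec.map (CommRingCat.ofHom φ') ≫ jA, ?_, ?_⟩
      · rw [← Category.assoc, ← Spec.map_comp, e3, hφi]
      · rw [Category.assoc, hcA, ← Spec.map_comp, ← hψ]
        congr 1
        apply CommRingCat.hom_ext
        apply RingHom.ext
        intro r
        apply IsFractionRing.injective R L
        have h1 := congrArg (fun g => g r) e2
        have h2 := congrArg (fun g => g (algebraMap K A r)) hφ'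
        exact h2.trans h1
    · let χ : D →+* L := IsLocalization.Away.lift a (IsUnit.mk0 _ h0)
      have hχ : χ.comp (algebraMap A D) = φ.hom := IsLocalization.Away.lift_comp a _
      have e4 : φ.hom a * χ (algebraMap B D w) = 1 := by
        rw [← hχ, RingHom.comp_apply, ← map_mul, haw, map_one]
      have e5 : χ (algebraMap B D w) = (φ.hom a)⁻¹ := eq_inv_of_mul_eq_one_right e4
      have e6 : (χ.comp (algebraMap B D)).comp (algebraMap K B) = (algebraMap R L).comp ψ.hom := by
        rw [RingHom.comp_assoc, ← hK, ← RingHom.comp_assoc, hχ, e2]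
      obtain ⟨φ', hφ'⟩ := exists_factor (algebraMap R L) (IsFractionRing.injective R L)
        (χ.comp (algebraMap B D)) (range_le (χ.comp (algebraMap B D)) ψ.hom e6 (by
          rw [RingHom.comp_apply, e5]
          exact hx) hB)
      have e3 : CommRingCat.ofHom φ' ≫ CommRingCat.ofHom (algebraMap R L) =
          CommRingCat.ofHom (algebraMap B D) ≫ CommRingCat.ofHom χ := CommRingCat.hom_ext hφ'
      refine ⟨Spec.map (CommRingCat.ofHom φ') ≫ jB, ?_, ?_⟩
      · rw [← Category.assoc, ← Spec.map_comp, e3, Spec.map_comp, Category.assoc, ← hcomm,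
          ← Category.assoc, ← Spec.map_comp]
        have e7 : CommRingCat.ofHom (algebraMap A D) ≫ CommRingCat.ofHom χ = φ :=
          CommRingCat.hom_ext hχ
        rw [e7, hφi]
      · rw [Category.assoc, hcB, ← Spec.map_comp, ← hψ]
        congr 1
        apply CommRingCat.hom_ext
        apply RingHom.ext
        intro r
        apply IsFractionRing.injective R L
        have h1 := congrArg (fun g => g r) e6
        have h2 := congrArg (fun g => g (algebraMap K B r)) hφ'
        exact h2.trans h1

end lift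

section unique

/-- a morphism from a local scheme whose closed point lies in an affine chart factors through it -/
theorem exists_factor_chart {A R : Type u} [CommRing A] [CommRing R] [IsLocalRing R]
    {C : Scheme.{u}} (jA : Spec (CommRingCat.of A) ⟶ C) [IsOpenImmersion jA]
    (l : Spec (CommRingCat.of R) ⟶ C) (h : l (closedPoint R) ∈ Set.range jA) :
    ∃ φ : A →+* R, Spec.map (CommRingCat.ofHom φ) ≫ jA = l := by
  have hrange : Set.range l ⊆ Set.range jA := by
    rintro _ ⟨y, rfl⟩
    exact (specializes_closedPoint y).mem_open (l ⁻¹ᵁ jA.opensRange).isOpen h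
  obtain ⟨φ, hφ⟩ := Spec.map_surjective (IsOpenImmersion.lift jA l hrange)
  refine ⟨φ.hom, ?_⟩
  have h1 : CommRingCat.ofHom φ.hom = φ := rfl
  rw [h1, hφ]
  exact IsOpenImmersion.lift_fac _ _ _

theorem unique_same {A R L : Type u} [CommRing A] [CommRing R] [CommRing L] [Algebra R L]
    (hi : Function.Injective (algebraMap R L)) {C : Scheme.{u}}
    (jA : Spec (CommRingCat.of A) ⟶ C) [IsOpenImmersion jA] (φ₁ φ₂ : A →+* R)
    (h : Spec.map (CommRingCat.ofHom (algebraMap R L)) ≫ Spec.map (CommRingCat.ofHom φ₁) ≫ jA =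
      Spec.map (CommRingCat.ofHom (algebraMap R L)) ≫ Spec.map (CommRingCat.ofHom φ₂) ≫ jA) :
    φ₁ = φ₂ := by
  rw [← Category.assoc, ← Category.assoc, cancel_mono, ← Spec.map_comp, ← Spec.map_comp] at h
  have h1 := congrArg (fun g => g.hom) (Spec.map_injective h)
  apply RingHom.ext
  intro z
  exact hi (congrArg (fun g => g z) h1)

theorem unique_mixed {A B D R L : Type u} [CommRing A] [CommRing B] [CommRing D] [Algebra A D]
    [Algebra B D] {a : A} {w : B} [IsLocalization.Away a D]
    (haw : algebraMap A D a * algebraMap B D w = 1) [CommRing R] [Field L] [Algebra R L]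
    (hi : Function.Injective (algebraMap R L)) {C : Scheme.{u}}
    {jA : Spec (CommRingCat.of A) ⟶ C} {jB : Spec (CommRingCat.of B) ⟶ C} [IsOpenImmersion jA]
    [IsOpenImmersion jB]
    (hcomm : Spec.map (CommRingCat.ofHom (algebraMap A D)) ≫ jA =
      Spec.map (CommRingCat.ofHom (algebraMap B D)) ≫ jB)
    (hglue : ∀ (p : Spec (CommRingCat.of A)) (q : Spec (CommRingCat.of B)), jA p = jB q →
      ∃ z : Spec (CommRingCat.of D), Spec.map (CommRingCat.ofHom (algebraMap A D)) z = p ∧
        Spec.map (CommRingCat.ofHom (algebraMap B D)) z = q)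
    (φ₁ : A →+* R) (φ₂ : B →+* R)
    (h : Spec.map (CommRingCat.ofHom (algebraMap R L)) ≫ Spec.map (CommRingCat.ofHom φ₁) ≫ jA =
      Spec.map (CommRingCat.ofHom (algebraMap R L)) ≫ Spec.map (CommRingCat.ofHom φ₂) ≫ jB) :
    Spec.map (CommRingCat.ofHom φ₁) ≫ jA = Spec.map (CommRingCat.ofHom φ₂) ≫ jB := by
  have hoi : IsOpenImmersion (Spec.map (CommRingCat.ofHom (algebraMap A D))) :=
    IsOpenImmersion.of_isLocalization a
  set P := Spec.map (CommRingCat.ofHom (algebraMap R L)) ≫ Spec.map (CommRingCat.ofHom φ₁)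
    with hP
  set Q := Spec.map (CommRingCat.ofHom (algebraMap R L)) ≫ Spec.map (CommRingCat.ofHom φ₂)
    with hQ
  have h' : P ≫ jA = Q ≫ jB := by rw [hP, hQ, Category.assoc, Category.assoc, h]
  have h1 : jA (P (closedPoint L)) = jB (Q (closedPoint L)) :=
    congrArg (fun m : Spec (CommRingCat.of L) ⟶ C => m (closedPoint L)) h'
  obtain ⟨z, hz, -⟩ := hglue _ _ h1
  obtain ⟨χ, hχ⟩ := exists_factor_chart (Spec.map (CommRingCat.ofHom (algebraMap A D))) P
    ⟨z, hz⟩
  have h2 : Spec.map (CommRingCat.ofHom χ) ≫ Spec.map (CommRingCat.ofHom (algebraMap B D)) =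
      Q := by
    rw [← cancel_mono jB, Category.assoc, ← hcomm, ← Category.assoc, hχ, h']
  have e1 : χ.comp (algebraMap A D) = (algebraMap R L).comp φ₁ := by
    rw [hP, ← Spec.map_comp, ← Spec.map_comp] at hχ
    exact congrArg (fun g => g.hom) (Spec.map_injective hχ)
  have e2 : χ.comp (algebraMap B D) = (algebraMap R L).comp φ₂ := by
    rw [hQ, ← Spec.map_comp, ← Spec.map_comp] at h2
    exact congrArg (fun g => g.hom) (Spec.map_injective h2)
  have e3 : φ₁ a * φ₂ w = 1 := by
    apply hi
    have h3 := congrArg (fun g => g a) e1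
    have h4 := congrArg (fun g => g w) e2
    simp only [RingHom.comp_apply] at h3 h4
    rw [map_mul, ← h3, ← h4, ← map_mul, haw, map_one, map_one]
  let χ' : D →+* R := IsLocalization.Away.lift a (IsUnit.of_mul_eq_one _ e3)
  have hχ' : χ'.comp (algebraMap A D) = φ₁ := IsLocalization.Away.lift_comp a _
  have e4 : (algebraMap R L).comp χ' = χ := by
    apply IsLocalization.ringHom_ext (Submonoid.powers a)
    rw [RingHom.comp_assoc, hχ', e1]
  have e5 : χ'.comp (algebraMap B D) = φ₂ := by
    apply RingHom.ext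
    intro z
    apply hi
    have h3 := congrArg (fun g => g z) e2
    rw [← e4] at h3
    exact h3
  rw [← hχ', ← e5]
  have e6 : CommRingCat.ofHom (χ'.comp (algebraMap A D)) =
      CommRingCat.ofHom (algebraMap A D) ≫ CommRingCat.ofHom χ' := rfl
  have e7 : CommRingCat.ofHom (χ'.comp (algebraMap B D)) =
      CommRingCat.ofHom (algebraMap B D) ≫ CommRingCat.ofHom χ' := rfl
  rw [e6, e7, Spec.map_comp, Spec.map_comp, Category.assoc, Category.assoc, hcomm]

end unique

section main

variable {K A B D : Type u} [Field K] [CommRing A] [CommRing B] [CommRing D] [Algebra K A]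
  [Algebra K B] [Algebra A D] [Algebra B D] {a : A} {w : B}
  [IsLocalization.Away a D] [IsLocalization.Away w D]

/-- **the valuative criterion** for the glued curve -/
theorem valuativeCriterion_glued (haw : algebraMap A D a * algebraMap B D w = 1)
    (hA : ∀ z : A, IsIntegral (Algebra.adjoin K {a}) z)
    (hB : ∀ z : B, IsIntegral (Algebra.adjoin K {w}) z)
    (hK : (algebraMap A D).comp (algebraMap K A) = (algebraMap B D).comp (algebraMap K B))
    {C : Scheme.{u}} {c : C ⟶ Spec (CommRingCat.of K)} {jA : Spec (CommRingCat.of A) ⟶ C}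
    {jB : Spec (CommRingCat.of B) ⟶ C} [IsOpenImmersion jA] [IsOpenImmersion jB]
    (hcomm : Spec.map (CommRingCat.ofHom (algebraMap A D)) ≫ jA =
      Spec.map (CommRingCat.ofHom (algebraMap B D)) ≫ jB)
    (hcov : ∀ x : C, x ∈ Set.range jA ∨ x ∈ Set.range jB)
    (hcA : jA ≫ c = Spec.map (CommRingCat.ofHom (algebraMap K A)))
    (hcB : jB ≫ c = Spec.map (CommRingCat.ofHom (algebraMap K B)))
    (hglue : ∀ (p : Spec (CommRingCat.of A)) (q : Spec (CommRingCat.of B)), jA p = jB q →
      ∃ z : Spec (CommRingCat.of D), Spec.map (CommRingCat.ofHom (algebraMap A D)) z = p ∧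
        Spec.map (CommRingCat.ofHom (algebraMap B D)) z = q) :
    ValuativeCriterion c := by
  rw [ValuativeCriterion.iff]
  constructor
  · intro S
    have hw := S.commSq.w
    rw [CommSq.HasLift.iff]
    rcases hcov (S.i₁ (closedPoint S.K)) with h | h
    · obtain ⟨l, hl, hl'⟩ := exists_lift_chart haw hA hB hK hcomm hcA hcB S.i₁ S.i₂ hw h
      exact ⟨⟨l, hl, hl'⟩⟩
    · obtain ⟨l, hl, hl'⟩ := exists_lift_chart (a := w) (w := a) ((mul_comm _ _).trans haw) hB hA
        hK.symm hcomm.symm hcB hcA S.i₁ S.i₂ hw h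
      exact ⟨⟨l, hl, hl'⟩⟩
  · intro S
    constructor
    rintro ⟨l₁, hl₁, -⟩ ⟨l₂, hl₂, -⟩
    have hi := IsFractionRing.injective S.R S.K
    have hll : Spec.map (CommRingCat.ofHom (algebraMap S.R S.K)) ≫ l₁ =
        Spec.map (CommRingCat.ofHom (algebraMap S.R S.K)) ≫ l₂ := hl₁.trans hl₂.symm
    have key : l₁ = l₂ := by
      rcases hcov (l₁ (closedPoint S.R)) with h1 | h1 <;>
        rcases hcov (l₂ (closedPoint S.R)) with h2 | h2 <;>
        obtain ⟨φ₁, rfl⟩ := exists_factor_chart _ l₁ h1 <;>
        obtain ⟨φ₂, rfl⟩ := exists_factor_chart _ l₂ h2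
      · rw [unique_same hi jA φ₁ φ₂ hll]
      · exact unique_mixed haw hi hcomm hglue φ₁ φ₂ hll
      · exact (unique_mixed haw hi hcomm hglue φ₂ φ₁ hll.symm).symm
      · rw [unique_same hi jB φ₁ φ₂ hll]
    subst key
    rfl

end main

end Fermat.Agent.Cor.Jac
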