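import Mathlib
import Fermat.Agent.Cor.ModelAlg
import Fermat.Agent.Cor.ModelProper
import Fermat.Agent.Cor.JacWeil

/-!
# The proper smooth model of a function field
-/

set_option autoImplicit false

universe u

open CategoryTheory CategoryTheory.Limits AlgebraicGeometry TopologicalSpace IsLocalRing
open Fermat.Agent.H20
open scoped IntermediateField IntermediateField.algebraAdjoinAdjoin

noncomputable section

namespace Fermat.Agent.Cor.Jac

section two

variable {C U V : Scheme.{u}} (jU : U ⟶ C) (jV : V ⟶ C) [IsOpenImmersion jU] [IsOpenImmersion jV]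
  (hcov : ∀ x : C, x ∈ Set.range jU ∨ x ∈ Set.range jV)

include hcov in
/-- a property which is local at the source can be checked on two charts -/
theorem local_of_two (P : MorphismProperty Scheme.{u}) [hP : IsZariskiLocalAtSource P]
    {T : Scheme.{u}} (c : C ⟶ T) (hU : P (jU ≫ c)) (hV : P (jV ≫ c)) : P c := by
  have hcov' : ∀ x : C, ∃ (j : Bool) (y : (Bool.rec V U j : Scheme.{u})),
      (Bool.rec (motive := fun j => (Bool.rec V U j : Scheme.{u}) ⟶ C) jV jU j) y = x := by
    intro x
    rcases hcov x with ⟨y, hy⟩ | ⟨y, hy⟩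
    · exact ⟨true, y, hy⟩
    · exact ⟨false, y, hy⟩
  let 𝒰 : C.OpenCover := Scheme.Cover.mkOfCovers (P := @IsOpenImmersion) Bool
    (fun j => (Bool.rec V U j : Scheme.{u}))
    (fun j => Bool.rec (motive := fun j => (Bool.rec V U j : Scheme.{u}) ⟶ C) jV jU j) hcov'
    (by
      intro j
      cases j
      · exact inferInstanceAs (IsOpenImmersion jV)
      · exact inferInstanceAs (IsOpenImmersion jU))
  rw [IsZariskiLocalAtSource.iff_of_openCover (P := P) 𝒰]
  intro j
  cases j
  · exact hV
  · exact hU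

include jU jV hcov in
omit [IsOpenImmersion jU] [IsOpenImmersion jV] in
theorem compactSpace_of_two [CompactSpace U] [CompactSpace V] : CompactSpace C := by
  refine ⟨?_⟩
  have h1 : (Set.univ : Set C) = Set.range jU ∪ Set.range jV := by
    ext x
    simpa using hcov x
  rw [h1]
  exact (isCompact_range jU.continuous).union (isCompact_range jV.continuous)

include jU jV hcov in
theorem isReduced_of_two [IsReduced U] [IsReduced V] : IsReduced C := by
  have h : ∀ x : C, _root_.IsReduced (C.presheaf.stalk x) := by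
    intro x
    rcases hcov x with ⟨y, rfl⟩ | ⟨y, rfl⟩
    · exact isReduced_of_injective (jU.stalkMap y).hom
        (ConcreteCategory.bijective_of_isIso (jU.stalkMap y)).1
    · exact isReduced_of_injective (jV.stalkMap y).hom
        (ConcreteCategory.bijective_of_isIso (jV.stalkMap y)).1
  exact isReduced_of_isReduced_stalk C

theorem isIntegral_of_two [IsIntegral U] [IsIntegral V] {W : Scheme.{u}} (f : W ⟶ U) (g : W ⟶ V)
    [IsOpenImmersion f] [IsOpenImmersion g] [IsIntegral W] (h : f ≫ jU = g ≫ jV)
    (hcov : ∀ x : C, x ∈ Set.range jU ∨ x ∈ Set.range jV) : IsIntegral C := by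
  have hred := isReduced_of_two jU jV hcov
  set η := (f ≫ jU) (genericPoint W) with hη
  have h1 : η = jU (genericPoint U) := by
    have h2 : f (genericPoint W) = genericPoint U := genericPoint_eq_of_isOpenImmersion f
    rw [hη, ← h2]
    rfl
  have h1' : η = jV (genericPoint V) := by
    have h2 : g (genericPoint W) = genericPoint V := genericPoint_eq_of_isOpenImmersion g
    rw [hη, h, ← h2]
    rfl
  have h2 : closure {η} = (Set.univ : Set C) := by
    apply Set.eq_univ_of_forall
    intro x
    rw [← specializes_iff_mem_closure]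
    rcases hcov x with ⟨y, rfl⟩ | ⟨y, rfl⟩
    · rw [h1]
      exact ((genericPoint_spec U).specializes trivial).map jU.continuous
    · rw [h1']
      exact ((genericPoint_spec V).specializes trivial).map jV.continuous
  have h3 : IrreducibleSpace C := by
    have h4 : IsIrreducible (Set.univ : Set C) := by
      rw [← h2]
      exact isIrreducible_singleton.closure
    have h5 : Nonempty C := ⟨η⟩
    exact { isPreirreducible_univ := h4.2, toNonempty := h5 }
  exact isIntegral_of_irreducibleSpace_of_isReduced C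

end two

section functionField

variable (K : Type u) [Field K] {A F : Type u} [CommRing A] [IsDomain A] [Algebra K A] [Field F]
  [Algebra K F] [Algebra A F] [IsScalarTower K A F] [IsFractionRing A F]

/-- the function field of an affine scheme -/
theorem nonempty_equiv_spec :
    Nonempty (F ≃ₐ[K] (Spec (CommRingCat.of A)).functionField) := by
  let φ : F →ₐ[K] (Spec (CommRingCat.of A)).functionField :=
    IsFractionRing.liftAlgHom (K := F) (g := specFun K A) (specFun_injective K A)
  have hφ : ∀ a : A, φ (algebraMap A F a) = specFun K A a := fun a =>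
    IsFractionRing.lift_algebraMap (specFun_injective K A) a
  refine ⟨AlgEquiv.ofBijective φ ⟨φ.toRingHom.injective, fun f => ?_⟩⟩
  obtain ⟨a, b, ha, hb, hb0, -, rfl⟩ := exists_div_of_mem_stk
    (isAffineOpen_top (Spec (CommRingCat.of A))) (x := genericPoint _) trivial
    (stk_genericPoint f)
  obtain ⟨a', rfl⟩ := (mem_sec_top_spec_iff K A a).mp ha
  obtain ⟨b', rfl⟩ := (mem_sec_top_spec_iff K A b).mp hb
  exact ⟨algebraMap A F a' / algebraMap A F b', by rw [map_div₀, hφ, hφ]⟩

end functionField

section aux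

/-- two smooth affine curves glued along `a ↔ 1/a` -/
theorem exists_model_aux {K A B D F : Type u} [Field K] [IsAlgClosed K] [CommRing A] [IsDomain A]
    [CommRing B] [IsDomain B] [CommRing D] [IsDomain D] [Algebra K A] [Algebra K B] [Algebra A D]
    [Algebra B D] {a : A} {w : B} [IsLocalization.Away a D] [IsLocalization.Away w D]
    (haw : algebraMap A D a * algebraMap B D w = 1)
    (hA : ∀ z : A, IsIntegral (Algebra.adjoin K {a}) z)
    (hB : ∀ z : B, IsIntegral (Algebra.adjoin K {w}) z)
    (hK : (algebraMap A D).comp (algebraMap K A) = (algebraMap B D).comp (algebraMap K B))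
    [Algebra.Smooth K A] [Algebra.Smooth K B] [Field F] [Algebra K F] [Algebra A F]
    [IsScalarTower K A F] [IsFractionRing A F] (htr : Algebra.trdeg K F = 1) :
    ∃ (C : Scheme.{u}) (c : C ⟶ Spec (CommRingCat.of K)) (_ : IsProper c)
      (_ : SmoothOfRelativeDimension 1 c) (_ : IsIntegral C),
      letI : KSch K C := ⟨c⟩
      Nonempty (F ≃ₐ[K] C.functionField) := by
  have hf : IsOpenImmersion (Spec.map (CommRingCat.ofHom (algebraMap A D))) :=
    IsOpenImmersion.of_isLocalization a
  have hg : IsOpenImmersion (Spec.map (CommRingCat.ofHom (algebraMap B D))) :=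
    IsOpenImmersion.of_isLocalization w
  obtain ⟨C, jA, jB, hjA, hjB, hcomm, hcov, hdesc, hglue⟩ :=
    exists_glue (Spec.map (CommRingCat.ofHom (algebraMap A D)))
      (Spec.map (CommRingCat.ofHom (algebraMap B D)))
  obtain ⟨c, hcA, hcB⟩ := hdesc _ (Spec.map (CommRingCat.ofHom (algebraMap K A)))
    (Spec.map (CommRingCat.ofHom (algebraMap K B))) (by
      rw [← Spec.map_comp, ← Spec.map_comp]
      congr 1
      exact CommRingCat.hom_ext hK)
  have hint : IsIntegral C := isIntegral_of_two jA jB _ _ hcomm hcov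
  have hsm : ∀ (E : Type u) [CommRing E] [Algebra K E] [Algebra.Smooth K E],
      Smooth (Spec.map (CommRingCat.ofHom (algebraMap K E))) := by
    intro E _ _ _
    refine (HasRingHomProperty.Spec_iff (P := @Smooth)).mpr ?_
    exact RingHom.smooth_algebraMap.mpr inferInstance
  have hloc : IsZariskiLocalAtSource @Smooth.{u} :=
    HasRingHomProperty.instIsZariskiLocalAtSource (Q := RingHom.Smooth)
  have hsmooth : Smooth c := local_of_two jA jB hcov @Smooth c (by rw [hcA]; exact hsm A)
    (by rw [hcB]; exact hsm B)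
  have hcpt : CompactSpace C := compactSpace_of_two jA jB hcov
  have hln : IsLocallyNoetherian C := LocallyOfFiniteType.isLocallyNoetherian c
  have hqc : QuasiCompact c := (quasiCompact_iff_compactSpace c).mpr hcpt
  have hqs : QuasiSeparated c := inferInstance
  have hprop : IsProper c := IsProper.of_valuativeCriterion c
    (valuativeCriterion_glued haw hA hB hK hcomm hcov hcA hcB hglue)
  obtain ⟨n, hn⟩ := exists_relDim c
  let _ : KSch K C := ⟨c⟩
  have hkh : IsKHom K jA := hcA
  have hn' : SmoothOfRelativeDimension n (pK K C) := hn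
  obtain ⟨e₁⟩ := nonempty_equiv_spec K (A := A) (F := F)
  let e₂ : C.functionField ≃ₐ[K] (Spec (CommRingCat.of A)).functionField :=
    AlgEquiv.ofBijective (pullK K jA hkh (isDom_of_isOpenImmersion jA))
      (pull_bijective_of_isOpenImmersion jA)
  have e : F ≃ₐ[K] C.functionField := e₁.trans e₂.symm
  have h1 := trdeg_functionField K C n
  rw [← e.trdeg_eq, htr] at h1
  have h2 : n = 1 := by exact_mod_cast h1.symm
  subst h2
  exact ⟨C, c, hprop, hn, hint, ⟨e⟩⟩

end aux

theorem trdeg_eq_one {K F : Type u} [Field K] [Field F] [Algebra K F] (x : F)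
    [hx : Fermat.Agent.FF.IsParam K x] : Algebra.trdeg K F = 1 := by
  have hind : AlgebraicIndependent K (fun _ : Unit => x) := by
    rw [algebraicIndependent_unique_type_iff]
    exact hx.tr
  have halg : Algebra.IsAlgebraic (Algebra.adjoin K {x}) F :=
    Algebra.IsAlgebraic.trans (Algebra.adjoin K {x}) K⟮x⟯ F
  have hbas : IsTranscendenceBasis K (fun _ : Unit => x) := by
    rw [isTranscendenceBasis_iff_algebraicIndependent_isAlgebraic]
    refine ⟨hind, ?_⟩
    rw [Set.range_const]
    exact halg
  have h := hbas.lift_cardinalMk_eq_trdeg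
  simpa using h.symm

/-- `A` is integral over `K[x]` -/
theorem isIntegral_Ax {K F : Type u} [Field K] [Field F] [Algebra K F] (y : F) (z : Ax K y) :
    IsIntegral (Algebra.adjoin K {(⟨y, self_mem_Ax y⟩ : Ax K y)}) z := by
  obtain ⟨p, hp, hpz⟩ := z.2
  have h2 : ∀ t ∈ Algebra.adjoin K {y},
      ∃ s ∈ Algebra.adjoin K {(⟨y, self_mem_Ax y⟩ : Ax K y)}, (s : F) = t := by
    intro t ht
    have h3 : Algebra.adjoin K {y} ≤
        (Algebra.adjoin K {(⟨y, self_mem_Ax y⟩ : Ax K y)}).map (Ax K y).val := by
      apply Algebra.adjoin_le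
      rintro _ rfl
      exact ⟨_, Algebra.self_mem_adjoin_singleton K _, rfl⟩
    exact h3 ht
  let i : Algebra.adjoin K {(⟨y, self_mem_Ax y⟩ : Ax K y)} →+* F :=
    ((Ax K y).val : Ax K y →+* F).comp
      (algebraMap (Algebra.adjoin K {(⟨y, self_mem_Ax y⟩ : Ax K y)}) (Ax K y))
  obtain ⟨τ, hτ⟩ := exists_factor i (fun a b hab => Subtype.ext (Subtype.ext hab))
    (Subalgebra.val (Algebra.adjoin K {y}) : Algebra.adjoin K {y} →+* F) (fun t => by
      obtain ⟨s, hs, hs'⟩ := h2 t.1 t.2
      exact ⟨⟨s, hs⟩, hs'⟩)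
  refine ⟨p.map τ, hp.map _, ?_⟩
  rw [Polynomial.eval₂_map]
  have h5 : Function.Injective ((Ax K y).val : Ax K y →+* F) := Subtype.val_injective
  apply h5
  rw [map_zero, Polynomial.hom_eval₂]
  have h6 : ((Ax K y).val : Ax K y →+* F).comp ((algebraMap
      (Algebra.adjoin K {(⟨y, self_mem_Ax y⟩ : Ax K y)}) (Ax K y)).comp τ) =
      algebraMap (Algebra.adjoin K {y}) F := hτ
  rw [h6]
  exact hpz

theorem isSeparable_inv {K F : Type u} [Field K] [Field F] [Algebra K F] (x : F)
    [hsep : Algebra.IsSeparable K⟮x⟯ F] : Algebra.IsSeparable K⟮x⁻¹⟯ F := by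
  have hinv : K⟮x⁻¹⟯ = K⟮x⟯ := by
    apply le_antisymm
    · rw [IntermediateField.adjoin_simple_le_iff]
      exact inv_mem (IntermediateField.mem_adjoin_simple_self K x)
    · rw [IntermediateField.adjoin_simple_le_iff]
      have := inv_mem (IntermediateField.mem_adjoin_simple_self K x⁻¹)
      rwa [inv_inv] at this
  rw [hinv]
  exact hsep


theorem incl_algebraMap {K F : Type u} [Field K] [Field F] [Algebra K F] {R D : Subalgebra K F}
    (h : R ≤ D) (r : K) :
    ((Subalgebra.inclusion h (algebraMap K R r) : D) : F) = algebraMap K F r := rfl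

theorem incl_comp {K F : Type u} [Field K] [Field F] [Algebra K F] {R R' D : Subalgebra K F}
    (h : R ≤ D) (h' : R' ≤ D) :
    (Subalgebra.inclusion h : R →+* D).comp (algebraMap K R) =
      (Subalgebra.inclusion h' : R' →+* D).comp (algebraMap K R') :=
  RingHom.ext fun r => Subtype.ext ((incl_algebraMap h r).trans (incl_algebraMap h' r).symm)

/-- **The proper smooth model of a function field** over an algebraically closed field. -/
theorem exists_model (K F : Type u) [Field K] [IsAlgClosed K] [Field F] [Algebra K F]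
    [hF : Fermat.Agent.FF.FunField K F] :
    ∃ (C : Scheme.{u}) (c : C ⟶ Spec (CommRingCat.of K)) (_ : IsProper c)
      (_ : SmoothOfRelativeDimension 1 c) (_ : IsIntegral C),
      letI : KSch K C := ⟨c⟩
      Nonempty (F ≃ₐ[K] C.functionField) := by
  obtain ⟨x, htr, hfin, hsep⟩ := Fermat.Agent.FF.exists_sepParam K F
  have hx : Fermat.Agent.FF.IsParam K x := ⟨htr, hfin⟩
  have hx0 : x ≠ 0 := by
    rintro rfl
    exact htr isAlgebraic_zero
  have hx' : Fermat.Agent.FF.IsParam K x⁻¹ := Fermat.Agent.FF.isParam_inv x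
  have hsep' : Algebra.IsSeparable K⟮x⁻¹⟯ F := isSeparable_inv x
  let _ : Algebra (Ax K x) (Dx K x) := (Subalgebra.inclusion (Ax_le_Dx (K := K) x)).toAlgebra
  let _ : Algebra (Ax K x⁻¹) (Dx K x) :=
    (Subalgebra.inclusion (Ax_inv_le_Dx (K := K) hx0)).toAlgebra
  have hl : IsLocalization.Away (⟨x, self_mem_Ax x⟩ : Ax K x) (Dx K x) := isLocalization_Dx hx0
  have hl' : IsLocalization.Away (⟨x⁻¹, self_mem_Ax x⁻¹⟩ : Ax K x⁻¹) (Dx K x) :=
    isLocalization_Dx_inv hx0
  have e1 : algebraMap (Ax K x) (Dx K x) ⟨x, self_mem_Ax x⟩ *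
      algebraMap (Ax K x⁻¹) (Dx K x) ⟨x⁻¹, self_mem_Ax x⁻¹⟩ = 1 :=
    Subtype.ext (mul_inv_cancel₀ hx0)
  exact exists_model_aux (K := K) (A := Ax K x) (B := Ax K x⁻¹) (D := Dx K x) (F := F)
    (a := ⟨x, self_mem_Ax x⟩) (w := ⟨x⁻¹, self_mem_Ax x⁻¹⟩)
    e1 (isIntegral_Ax x) (isIntegral_Ax x⁻¹)
    (incl_comp (Ax_le_Dx x) (Ax_inv_le_Dx hx0)) (trdeg_eq_one x)

end Fermat.Agent.Cor.Jac
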