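import Mathlib
import Fermat.Agent.Cor.ModelCurve

/-!
# Transport of places, divisor classes and of the genus along an isomorphism of function fields
-/

set_option autoImplicit false

universe u

open AlgebraicCurve WithZero

noncomputable section

namespace Fermat.Agent.Cor.Jac

open Fermat.Agent

section places

variable {K F F' : Type*} [Field K] [Field F] [Field F'] [Algebra K F] [Algebra K F']
  (e : F ≃ₐ[K] F')

/-- the valuation rings of corresponding places -/
def vrEquiv (v : Place K F) :
    v.toValuationSubring ≃+* v.toValuationSubring.comap (e.symm : F' →+* F) where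
  toFun x := ⟨e x, by
    rw [ValuationSubring.mem_comap]
    change e.symm (e x) ∈ _
    rw [AlgEquiv.symm_apply_apply]
    exact x.2⟩
  invFun y := ⟨e.symm y, y.2⟩
  left_inv x := Subtype.ext (e.symm_apply_apply x)
  right_inv y := Subtype.ext (e.apply_symm_apply y)
  map_mul' x y := Subtype.ext (map_mul e (x : F) y)
  map_add' x y := Subtype.ext (map_add e (x : F) y)

theorem coe_vrEquiv (v : Place K F) (x : v.toValuationSubring) :
    (vrEquiv e v x : F') = e x := rfl

/-- transport of places -/
def mapPl (v : Place K F) : Place K F' where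
  toValuationSubring := v.toValuationSubring.comap (e.symm : F' →+* F)
  algebraMap_mem' a := by
    rw [ValuationSubring.mem_comap]
    change e.symm (algebraMap K F' a) ∈ _
    rw [AlgEquiv.commutes]
    exact v.algebraMap_mem' a
  ne_top' h := v.ne_top' (by
    rw [eq_top_iff]
    intro x _
    have h1 : e x ∈ v.toValuationSubring.comap (e.symm : F' →+* F) := by
      rw [h]
      trivial
    rw [ValuationSubring.mem_comap] at h1
    change e.symm (e x) ∈ _ at h1
    rwa [AlgEquiv.symm_apply_apply] at h1)
  isPrincipalIdealRing' := IsPrincipalIdealRing.of_surjective (vrEquiv e v : _ ≃+* _)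
    (vrEquiv e v).surjective

theorem mem_mapPl (v : Place K F) (y : F') :
    y ∈ (mapPl e v).toValuationSubring ↔ e.symm y ∈ v.toValuationSubring := Iff.rfl

theorem ord_mapPl (v : Place K F) (f : F) : (mapPl e v).ord (e f) = v.ord f := by
  rcases eq_or_ne f 0 with rfl | hf
  · simp
  obtain ⟨π, hπ⟩ := IsDiscreteValuationRing.exists_irreducible v.toValuationSubring
  obtain ⟨u, hu⟩ := v.exists_unit_mul_zpow hf hπ
  set n := v.ord f with hn
  let E : v.toValuationSubring ≃+* (mapPl e v).toValuationSubring := vrEquiv e v
  have hπ' : Irreducible (E π) := (MulEquiv.irreducible_iff E).mpr hπ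
  have hu' : IsUnit (E (u : v.toValuationSubring)) := u.isUnit.map E
  have key : e f = ((hu'.unit : (mapPl e v).toValuationSubring) : F') *
      (((E π : (mapPl e v).toValuationSubring) : F') ^ n) := by
    rw [IsUnit.unit_spec, hu, map_mul, map_zpow₀]
    rfl
  rw [key, (mapPl e v).ord_unit_smul_zpow hu'.unit hπ' n]

/-- the bijection of places -/
def plEquiv : Place K F ≃ Place K F' where
  toFun := mapPl e
  invFun := mapPl e.symm
  left_inv v := by
    ext x
    rw [mem_mapPl, mem_mapPl, AlgEquiv.symm_symm, AlgEquiv.symm_apply_apply]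
  right_inv v := by
    ext x
    rw [mem_mapPl, mem_mapPl, AlgEquiv.symm_symm, AlgEquiv.apply_symm_apply]

theorem plEquiv_apply (v : Place K F) : plEquiv e v = mapPl e v := rfl

/-- transport of divisors -/
def divEquiv : Divisor K F ≃+ Divisor K F' := Finsupp.domCongr (plEquiv e)

theorem divEquiv_apply (D : Divisor K F) (v : Place K F) :
    divEquiv e D (plEquiv e v) = D v := by
  rw [divEquiv, Finsupp.domCongr_apply, Finsupp.equivMapDomain_apply, Equiv.symm_apply_apply]

theorem divEquiv_mem_principal (D : Divisor K F) :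
    divEquiv e D ∈ Divisor.principal (K := K) (F := F') ↔
      D ∈ Divisor.principal (K := K) (F := F) := by
  rw [Divisor.mem_principal, Divisor.mem_principal]
  constructor
  · rintro ⟨f, hf, h⟩
    refine ⟨e.symm f, by simpa using hf, fun v => ?_⟩
    rw [← divEquiv_apply e D v, h, ← ord_mapPl e v, AlgEquiv.apply_symm_apply, plEquiv_apply]
  · rintro ⟨f, hf, h⟩
    refine ⟨e f, by simpa using hf, fun w => ?_⟩
    obtain ⟨v, rfl⟩ := (plEquiv e).surjective w
    rw [divEquiv_apply, h, plEquiv_apply, ord_mapPl]

/-- transport of divisor classes -/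
def picFEquiv : Pic K F ≃+ Pic K F' :=
  QuotientAddGroup.congr _ _ (divEquiv e) (by
    ext D
    constructor
    · rintro ⟨E, hE, rfl⟩
      exact (divEquiv_mem_principal e E).mpr hE
    · intro hD
      refine ⟨(divEquiv e).symm D, ?_, (divEquiv e).apply_symm_apply D⟩
      have h1 := divEquiv_mem_principal e ((divEquiv e).symm D)
      rw [AddEquiv.apply_symm_apply] at h1
      exact h1.mp hD)

include e in
theorem card_torsion_congr [HasPrincipalDivisors K F] [HasPrincipalDivisors K F'] {n : ℕ}
    (hn : n ≠ 0) : Nat.card (Pic0.torsion K F n) = Nat.card (Pic0.torsion K F' n) := by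
  rw [card_torsion_pic hn, card_torsion_pic hn]
  refine Nat.card_congr (Equiv.subtypeEquiv (picFEquiv e).toEquiv fun x => ?_)
  change n • x = 0 ↔ n • picFEquiv e x = 0
  rw [← map_nsmul, EmbeddingLike.map_eq_zero_iff]

/-- transport of Riemann–Roch spaces -/
def rrEquiv (D : Divisor K F) : riemannRochSpace D ≃ₗ[K] riemannRochSpace (divEquiv e D) :=
  LinearEquiv.ofSubmodules e.toLinearEquiv _ _ (by
    have h : ∀ f : F, f ∈ riemannRochSpace D ↔ e f ∈ riemannRochSpace (divEquiv e D) := by
      intro f
      change (∀ v : Place K F, v.adicValuation f ≤ exp (D v)) ↔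
        ∀ w : Place K F', w.adicValuation (e f) ≤ exp (divEquiv e D w)
      rw [← (plEquiv e).forall_congr_right]
      refine forall_congr' fun v => ?_
      rw [divEquiv_apply, v.adicValuation_le_exp_iff, (plEquiv e v).adicValuation_le_exp_iff,
        plEquiv_apply, ord_mapPl, EmbeddingLike.map_eq_zero_iff]
    ext y
    constructor
    · rintro ⟨f, hf, rfl⟩
      exact (h f).mp hf
    · intro hy
      refine ⟨e.symm y, (h _).mpr ?_, e.apply_symm_apply y⟩
      rw [AlgEquiv.apply_symm_apply]
      exact hy)

theorem ell_congr (D : Divisor K F) : FF.ell (divEquiv e D) = FF.ell D :=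
  (rrEquiv e D).finrank_eq.symm

include e in
theorem genus_congr [IsAlgClosed K] [FF.FunField K F] [FF.FunField K F'] :
    genusFF K F = genusFF K F' := by
  obtain ⟨v⟩ := FF.nonempty_place (K := K) (F := F)
  let N : ℤ := 2 * (genusFF K F : ℤ) + 2 * (genusFF K F' : ℤ)
  have h1 : FF.hh (Finsupp.single v N : Divisor K F) = 0 := FF.hh_eq_zero_of_degree_ge (by
    rw [Divisor.degree_single, FF.deg_eq_one]
    simp only [N]
    omega)
  have h2 : divEquiv e (Finsupp.single v N) = Finsupp.single (plEquiv e v) N := by
    rw [divEquiv, Finsupp.domCongr_apply, Finsupp.equivMapDomain_single]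
  have h3 : FF.hh (Finsupp.single (plEquiv e v) N : Divisor K F') = 0 :=
    FF.hh_eq_zero_of_degree_ge (by
      rw [Divisor.degree_single, FF.deg_eq_one]
      simp only [N]
      omega)
  have h4 := FF.ell_of_hh_zero h1
  have h5 := FF.ell_of_hh_zero h3
  rw [← h2, ell_congr, h4, h2, Divisor.degree_single, Divisor.degree_single, FF.deg_eq_one,
    FF.deg_eq_one] at h5
  omega

end places

end Fermat.Agent.Cor.Jac
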