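import Mathlib
import Fermat.Agent.Cor.ModelTransport

/-!
# Torsion of the divisor class group of a function field, in every characteristic

`card_pic0_torsion_funField`: `#Pic⁰(F)[n] = n ^ (2 * g)` for every function field `F` of genus `g`
over an algebraically closed field in which `n` is invertible.
-/

set_option autoImplicit false

universe u

open CategoryTheory AlgebraicGeometry AlgebraicCurve
open Fermat.Agent.H20

noncomputable section

namespace Fermat.Agent.Cor.Jac

open Fermat.Agent

/-- **Torsion of the divisor class group**: `#Pic⁰(F)[n] = n ^ (2 * g)`. -/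
theorem card_pic0_torsion_funField (K F : Type u) [Field K] [IsAlgClosed K] [Field F]
    [Algebra K F] [hF : FF.FunField K F] (n : ℕ) (hn : (n : K) ≠ 0) :
    Nat.card (Pic0.torsion K F n) = n ^ (2 * genusFF K F) := by
  obtain ⟨C, c, hp, hs, hint, e⟩ := exists_model K F
  let _ : KSch K C := ⟨c⟩
  have _ : SmoothOfRelativeDimension 1 (pK K C) := hs
  obtain ⟨e⟩ : Nonempty (F ≃ₐ[K] C.functionField) := e
  obtain ⟨x, htr, -⟩ := hF.exists_finite
  have hff : FF.FunField K C.functionField := funField K (a := e x) fun a ha => by
    have h1 : x = algebraMap K F a := by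
      apply e.injective
      rw [ha, AlgEquiv.commutes]
    rw [h1] at htr
    exact htr (isAlgebraic_algebraMap a)
  have hn0 : n ≠ 0 := by
    rintro rfl
    exact hn Nat.cast_zero
  rw [card_torsion_congr e hn0, genus_congr e]
  exact card_pic0_torsion_functionField K c n hn

/-- **The structure of the torsion of the divisor class group**: `Pic⁰(F)[n] ≃ (ℤ/n) ^ (2 * g)`. -/
theorem nonempty_pic0_torsion_funField (K F : Type u) [Field K] [IsAlgClosed K] [Field F]
    [Algebra K F] [hF : FF.FunField K F] (n : ℕ) (hn : (n : K) ≠ 0) :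
    Nonempty (Pic0.torsion K F n ≃+ (Fin (2 * genusFF K F) → ZMod n)) := by
  have hn0 : n ≠ 0 := by
    rintro rfl
    exact hn Nat.cast_zero
  refine Tors.nonempty_equiv_ker hn0 (fun d hd => ?_) _ fun x => by
    rw [Pic0.mem_torsion, natCast_zsmul]
  have hd' : (d : K) ≠ 0 := by
    rintro h
    obtain ⟨e, rfl⟩ := hd
    apply hn
    rw [Nat.cast_mul, h, zero_mul]
  rw [← card_pic0_torsion_funField K F d hd']
  refine Nat.card_congr (Equiv.subtypeEquivRight fun x => ?_)
  rw [Pic0.mem_torsion, natCast_zsmul]

end Fermat.Agent.Cor.Jac
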