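import Mathlib
import Fermat.Agent.Cor.ModelMain

/-!
# The Jacobian variety of a function field

* `mem_pic0_iff_deg`: the line bundles on a curve which are algebraically equivalent to zero are
  those of degree zero.
* `exists_nsmul_eq`: the group of points of an abelian variety over an algebraically closed field is
  divisible by the integers which are invertible in the field.
* `exists_jacobian`: the group `Pic⁰(F)` of divisor classes of degree zero of a function field of
  genus `g` is the group of rational points of an abelian variety of dimension `g`.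
-/

set_option autoImplicit false

universe u

open CategoryTheory CategoryTheory.Limits AlgebraicGeometry TopologicalSpace Opposite
open AlgebraicGeometry.RelPicard NeronModelInfra GoodReductionJacobian
open Fermat.Agent.J25 Fermat.Agent.J25.Cut Fermat.Agent.J25.G Fermat.Agent.H20
open AlgebraicCurve

noncomputable section

namespace Fermat.Agent.Cor.Jac

open Fermat.Agent

section divisible

variable {k : Type u} [Field k] [IsAlgClosed k]

/-- **the points of an abelian variety are divisible** by the integers which are invertible in the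
ground field -/
theorem exists_nsmul_eq {A : Scheme.{u}} (f : A ⟶ Spec (CommRingCat.of k))
    (L : RelativeGroupLaw k f) (hc : L.IsCommutative) (hA : AbelianSchemePropertyBundle k f)
    (n : ℕ) (hn : (n : k) ≠ 0) (y : SchemeHomOver (𝟙 (Spec (CommRingCat.of k))) f) :
    ∃ x : SchemeHomOver (𝟙 (Spec (CommRingCat.of k))) f, L.nsmul (𝟙 _) n x = y := by
  obtain ⟨hfin, hsurj⟩ := Fermat.Agent.H07.NMul.M1c f L hc hA n hn
  have hpr := hA.proper
  have hJ : JacobsonSpace A := LocallyOfFiniteType.jacobsonSpace f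
  have hcl := (pointEquivClosedPoint f ⟨y.1, y.2⟩).2
  set p : A := y.1 (IsLocalRing.closedPoint k) with hp
  have hZ : IsClosed ((L.schemeNsmul n) ⁻¹' {p} : Set A) :=
    IsClosed.preimage (L.schemeNsmul n).continuous hcl
  obtain ⟨q, hq⟩ := (L.schemeNsmul n).surjective p
  obtain ⟨x, hx, hxc⟩ := nonempty_inter_closedPoints
    (Z := ((L.schemeNsmul n) ⁻¹' {p} : Set A)) ⟨q, hq⟩ hZ.isLocallyClosed
  refine ⟨⟨pointOfClosedPoint f x hxc, pointOfClosedPoint_comp f x hxc⟩, ?_⟩
  have h1 := L.nsmul_natural f (𝟙 _) (pointOfClosedPoint f x hxc)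
    (pointOfClosedPoint_comp f x hxc) n RelativeGroupLaw.idPoint
  have h2 : schemeHomOverComp (pointOfClosedPoint f x hxc) (pointOfClosedPoint_comp f x hxc)
      (RelativeGroupLaw.idPoint : SchemeHomOver f f) =
      ⟨pointOfClosedPoint f x hxc, pointOfClosedPoint_comp f x hxc⟩ :=
    Subtype.ext (Category.comp_id _)
  rw [h2] at h1
  rw [← h1]
  apply Subtype.ext
  refine ext_of_apply_closedPoint_eq f (schemeHomOverComp _ _ _).2 y.2 ?_
  change (L.schemeNsmul n) (pointOfClosedPoint f x hxc (IsLocalRing.closedPoint k)) = p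
  exact (congrArg (L.schemeNsmul n) (pointOfClosedPoint_apply f x hxc _)).trans hx

/-- `Pic⁰(C)` is divisible by the integers which are invertible in the ground field -/
theorem pic0_divisible {C : Scheme.{u}} (c : C ⟶ Spec (CommRingCat.of k)) [IsProper c]
    [SmoothOfRelativeDimension 1 c] [IsIntegral C] (n : ℕ) (hn : (n : k) ≠ 0) (l : pic0 c) :
    ∃ m : pic0 c, m ^ n = l := by
  obtain ⟨ε⟩ := exists_section c
  obtain ⟨D, h, g, h1, h2, h3⟩ := exists_picardVariety k c ε
  obtain ⟨x, hx⟩ := exists_nsmul_eq D.toBase (law h) h1 h2 n hn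
    ((eqv h (𝟙 _)).symm (fibEquiv (c := c) (ε := ε) l))
  refine ⟨(fibEquiv (c := c) (ε := ε)).symm (eqv h (𝟙 _) x), ?_⟩
  apply (fibEquiv (c := c) (ε := ε)).injective
  rw [map_pow, MulEquiv.apply_symm_apply, ← eqv_nsmul, hx, Equiv.apply_symm_apply]

end divisible

section deg

variable {K F : Type*} [Field K] [Field F] [Algebra K F]

/-- the degree of a divisor class -/
def picDeg [HasPrincipalDivisors K F] : Pic K F →+ ℤ :=
  QuotientAddGroup.lift _ Divisor.degree fun _ hD => degree_of_mem_principal hD

theorem picDeg_mk [HasPrincipalDivisors K F] (D : Divisor K F) :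
    picDeg (QuotientAddGroup.mk D : Pic K F) = Divisor.degree D := rfl

theorem picDeg_eq_zero_iff [HasPrincipalDivisors K F] (x : Pic K F) :
    picDeg x = 0 ↔ ∃ y : Pic0 K F, picIncl y = x := by
  constructor
  · obtain ⟨D, rfl⟩ := QuotientAddGroup.mk_surjective x
    intro h
    exact ⟨QuotientAddGroup.mk ⟨D, h⟩, rfl⟩
  · rintro ⟨y, rfl⟩
    obtain ⟨D, rfl⟩ := QuotientAddGroup.mk_surjective y
    exact D.2

end deg

section main

variable (k : Type u) [Field k] [IsAlgClosed k] {C : Scheme.{u}}
  (c : C ⟶ Spec (CommRingCat.of k)) [hp : IsProper c] [hs : SmoothOfRelativeDimension 1 c]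
  [hint : IsIntegral C]

include hp hs hint in
theorem funField_curve : letI : KSch k C := ⟨c⟩; FF.FunField k C.functionField := by
  let _ : KSch k C := ⟨c⟩
  have _ : IsProper (pK k C) := hp
  have _ : SmoothOfRelativeDimension 1 (pK k C) := hs
  obtain ⟨ε⟩ : Nonempty (SchemeHomOver (𝟙 (Spec (CommRingCat.of k))) (pK k C)) :=
    exists_section c
  obtain ⟨a, ha⟩ := exists_one_pole k (ne_generic k ε.1 (by
    unfold IsKHom
    rw [ε.2, pK_spec]
    exact (Spec.map_id _).symm) : ε.1 (ptK k) ≠ genericPoint C)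
  exact funField k (nonconst_of_notMem k fun h => (ha (ε.1 (ptK k))).1 h rfl)

/-- a homomorphism to `ℤ` vanishes on `Pic⁰(C)` -/
theorem hom_pic0_eq_zero (δ : PicC C →* Multiplicative ℤ) {l : PicC C} (hl : l ∈ pic0 c) :
    δ l = 1 := by
  obtain ⟨n, hn2, hn⟩ : ∃ n : ℕ, 2 ≤ n ∧ (n : k) ≠ 0 := by
    by_cases h2 : (2 : k) = 0
    · refine ⟨3, by norm_num, ?_⟩
      have h3 : ((3 : ℕ) : k) = 2 + 1 := by norm_num
      rw [h3, h2, zero_add]
      exact one_ne_zero
    · exact ⟨2, le_rfl, by exact_mod_cast h2⟩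
  have key : ∀ (N : ℕ) (l : PicC C), l ∈ pic0 c → (Multiplicative.toAdd (δ l)).natAbs ≤ N →
      Multiplicative.toAdd (δ l) = 0 := by
    intro N
    induction N with
    | zero =>
      intro l _ h
      omega
    | succ N ih =>
      intro l hl h
      obtain ⟨m, hm⟩ := pic0_divisible c n hn ⟨l, hl⟩
      have h1 : (m : PicC C) ^ n = l := congrArg Subtype.val hm
      have h2 : Multiplicative.toAdd (δ l) = n * Multiplicative.toAdd (δ m) := by
        rw [← h1, map_pow, toAdd_pow, nsmul_eq_mul]
      by_contra hne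
      have h3 : Multiplicative.toAdd (δ m) ≠ 0 := by
        intro h0
        rw [h0, mul_zero] at h2
        exact hne h2
      have h4 : (Multiplicative.toAdd (δ l)).natAbs =
          n * (Multiplicative.toAdd (δ m)).natAbs := by
        rw [h2, Int.natAbs_mul, Int.natAbs_natCast]
      have h5 : 0 < (Multiplicative.toAdd (δ m)).natAbs := Int.natAbs_pos.mpr h3
      have h6 : (Multiplicative.toAdd (δ m)).natAbs ≤ N := by nlinarith
      exact h3 (ih _ m.2 h6)
  exact key _ l hl le_rfl

/-- **algebraic equivalence on a curve**: a line bundle on a curve is algebraically equivalent to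
zero exactly if its degree as a divisor is zero -/
theorem mem_pic0_iff_deg (l : PicC C) :
    letI : KSch k C := ⟨c⟩
    letI : FF.FunField k C.functionField := funField_curve k c
    l ∈ pic0 c ↔ picDeg (Multiplicative.toAdd (picEquiv k (X := C) l)) = 0 := by
  let _ : KSch k C := ⟨c⟩
  let _ : FF.FunField k C.functionField := funField_curve k c
  have _ : IsProper (pK k C) := hp
  have _ : SmoothOfRelativeDimension 1 (pK k C) := hs
  set D : PicC C →* Multiplicative ℤ :=
    (AddMonoidHom.toMultiplicative (picDeg (K := k) (F := C.functionField))).comp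
      (picEquiv k (X := C)).toMonoidHom with hD
  have hDl : ∀ l, D l = Multiplicative.ofAdd
      (picDeg (Multiplicative.toAdd (picEquiv k (X := C) l))) := fun _ => rfl
  have h0 : ∀ {l : PicC C}, l ∈ pic0 c → D l = 1 := fun h => hom_pic0_eq_zero k c D h
  change _ ↔ Multiplicative.toAdd (D l) = 0
  rw [toAdd_eq_zero]
  refine ⟨h0, fun h => ?_⟩
  obtain ⟨δ, hδ⟩ := exists_deg (c := c)
  obtain ⟨w⟩ : Nonempty (Place k C.functionField) := FF.nonempty_place
  obtain ⟨t, ht⟩ : ∃ t : PicC C, Multiplicative.toAdd (D t) = 1 := by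
    refine ⟨(picEquiv k (X := C)).symm
      (Multiplicative.ofAdd (QuotientAddGroup.mk (Finsupp.single w 1))), ?_⟩
    rw [hDl, MulEquiv.apply_symm_apply]
    change Divisor.degree (Finsupp.single w 1) = 1
    rw [Divisor.degree_single, FF.deg_eq_one, Nat.cast_one, one_mul]
  set a : ℤ := Multiplicative.toAdd (δ t) with ha
  set b : ℤ := Multiplicative.toAdd (δ l) with hb
  have h1 : l ^ a * (t ^ b)⁻¹ ∈ pic0 c := by
    rw [← hδ, MonoidHom.mem_ker, map_mul, map_inv, map_zpow, map_zpow, ← toAdd_eq_zero, toAdd_mul,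
      toAdd_inv, toAdd_zpow, toAdd_zpow, ← ha, ← hb, smul_eq_mul, smul_eq_mul]
    ring
  have h2 := h0 h1
  rw [map_mul, map_inv, map_zpow, map_zpow, h, one_zpow, one_mul, ← toAdd_eq_zero,
    toAdd_inv, toAdd_zpow, ht, smul_eq_mul, mul_one, neg_eq_zero] at h2
  rw [← hδ, MonoidHom.mem_ker, ← toAdd_eq_zero]
  exact h2

/-- the line bundles algebraically equivalent to zero are the divisor classes of degree zero -/
theorem exists_pic0Equiv : letI : KSch k C := ⟨c⟩
    Nonempty (pic0 c ≃* Multiplicative (Pic0 k C.functionField)) := by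
  let _ : KSch k C := ⟨c⟩
  let _ : FF.FunField k C.functionField := funField_curve k c
  have _ : IsProper (pK k C) := hp
  have _ : SmoothOfRelativeDimension 1 (pK k C) := hs
  have h1 : ∀ x : Pic0 k C.functionField,
      (picEquiv k (X := C)).symm (Multiplicative.ofAdd (picIncl x)) ∈ pic0 c := by
    intro x
    rw [mem_pic0_iff_deg k c, MulEquiv.apply_symm_apply]
    exact (picDeg_eq_zero_iff _).mpr ⟨x, rfl⟩
  refine ⟨(MulEquiv.ofBijective (MonoidHom.mk' (fun x : Multiplicative (Pic0 k C.functionField) =>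
    (⟨_, h1 (Multiplicative.toAdd x)⟩ : pic0 c)) fun x y => ?_) ⟨?_, ?_⟩).symm⟩
  · apply Subtype.ext
    change (picEquiv k (X := C)).symm (Multiplicative.ofAdd (picIncl
      (Multiplicative.toAdd x + Multiplicative.toAdd y))) = _
    rw [map_add, ofAdd_add, map_mul]
    rfl
  · intro x y h
    have h2 := (picEquiv k (X := C)).symm.injective (congrArg Subtype.val h)
    exact picIncl_injective h2
  · rintro ⟨l, hl⟩
    obtain ⟨y, hy⟩ := (picDeg_eq_zero_iff _).mp ((mem_pic0_iff_deg k c l).mp hl)
    refine ⟨Multiplicative.ofAdd y, Subtype.ext ?_⟩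
    change (picEquiv k (X := C)).symm (Multiplicative.ofAdd (picIncl y)) = l
    rw [hy, ofAdd_toAdd, MulEquiv.symm_apply_apply]

end main

section field

variable {K F F' : Type*} [Field K] [IsAlgClosed K] [Field F] [Field F'] [Algebra K F]
  [Algebra K F'] [FF.FunField K F] [FF.FunField K F'] (e : F ≃ₐ[K] F')

theorem degree_divEquiv (D : Divisor K F) :
    Divisor.degree (divEquiv e D) = Divisor.degree D := by
  induction D using Finsupp.induction_linear with
  | zero => simp
  | add D E hD hE => rw [map_add, map_add, map_add, hD, hE]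
  | single v n =>
    have h1 : divEquiv e (Finsupp.single v n) = Finsupp.single (plEquiv e v) n :=
      Finsupp.equivMapDomain_single _ _ _
    rw [h1, Divisor.degree_single, Divisor.degree_single, FF.deg_eq_one, FF.deg_eq_one]

theorem picDeg_picFEquiv (x : Pic K F) : picDeg (picFEquiv e x) = picDeg x := by
  obtain ⟨D, rfl⟩ := QuotientAddGroup.mk_surjective x
  exact degree_divEquiv e D

include e in
theorem nonempty_pic0FEquiv : Nonempty (Pic0 K F ≃+ Pic0 K F') := by
  have h1 : ∀ x : Pic0 K F, ∃ y : Pic0 K F', picIncl y = picFEquiv e (picIncl x) := by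
    intro x
    rw [← picDeg_eq_zero_iff, picDeg_picFEquiv]
    exact (picDeg_eq_zero_iff _).mpr ⟨x, rfl⟩
  choose f hf using h1
  refine ⟨AddEquiv.ofBijective (AddMonoidHom.mk' f fun x y => ?_) ⟨?_, ?_⟩⟩
  · apply picIncl_injective
    rw [hf, map_add, map_add, map_add, hf, hf]
  · intro x y h
    have h2 := congrArg (picIncl (K := K) (F := F')) (show f x = f y from h)
    rw [hf, hf] at h2
    exact picIncl_injective ((picFEquiv e).injective h2)
  · intro y
    obtain ⟨x, hx⟩ := (picDeg_eq_zero_iff ((picFEquiv e).symm (picIncl y))).mp (by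
      rw [← picDeg_picFEquiv e, AddEquiv.apply_symm_apply]
      exact (picDeg_eq_zero_iff _).mpr ⟨y, rfl⟩)
    refine ⟨x, picIncl_injective ?_⟩
    change picIncl (f x) = _
    rw [hf, hx, AddEquiv.apply_symm_apply]

end field

/-- **The Jacobian variety**: the group of divisor classes of degree zero of a function field of
genus `g` is the group of rational points of an abelian variety of dimension `g`. -/
theorem exists_jacobian (K F : Type u) [Field K] [IsAlgClosed K] [Field F] [Algebra K F]
    [hF : FF.FunField K F] :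
    ∃ (J : Scheme.{u}) (f : J ⟶ Spec (CommRingCat.of K)) (L : RelativeGroupLaw K f),
      L.IsCommutative ∧ AbelianSchemePropertyBundle K f ∧
      SmoothOfRelativeDimension (genusFF K F) f ∧
      ∃ e : SchemeHomOver (𝟙 (Spec (CommRingCat.of K))) f ≃ Pic0 K F,
        ∀ x y, e (L.mul (𝟙 _) x y) = e x + e y := by
  obtain ⟨C, c, hp, hs, hint, e⟩ := exists_model K F
  let _ : KSch K C := ⟨c⟩
  have _ : SmoothOfRelativeDimension 1 (pK K C) := hs
  obtain ⟨e⟩ : Nonempty (F ≃ₐ[K] C.functionField) := e
  have hff : FF.FunField K C.functionField := funField_curve K c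
  obtain ⟨ε⟩ := exists_section c
  obtain ⟨D, h, h1, h2, h3⟩ := exists_picardVariety_genus K c ε
  obtain ⟨e1⟩ := exists_pic0Equiv K c
  obtain ⟨e2⟩ := nonempty_pic0FEquiv e
  rw [genus_congr e]
  refine ⟨D.P, D.toBase, law h, h1, h2, h3,
    (((eqv h (𝟙 _)).trans (fibEquiv (c := c) (ε := ε)).symm.toEquiv).trans
      (e1.toEquiv.trans Multiplicative.toAdd)).trans e2.symm.toEquiv, fun x y => ?_⟩
  change e2.symm (Multiplicative.toAdd (e1 ((fibEquiv (c := c) (ε := ε)).symm
    (eqv h (𝟙 _) ((law h).mul (𝟙 _) x y))))) = e2.symm (Multiplicative.toAdd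
      (e1 ((fibEquiv (c := c) (ε := ε)).symm (eqv h (𝟙 _) x)))) + e2.symm (Multiplicative.toAdd
      (e1 ((fibEquiv (c := c) (ε := ε)).symm (eqv h (𝟙 _) y))))
  rw [eqv_mul, map_mul, map_mul, toAdd_mul, map_add]

/-- the group of divisor classes of degree zero is divisible by the integers which are invertible
in the ground field -/
theorem exists_nsmul_eq_pic0 (K F : Type u) [Field K] [IsAlgClosed K] [Field F] [Algebra K F]
    [hF : FF.FunField K F] (n : ℕ) (hn : (n : K) ≠ 0) (x : Pic0 K F) : ∃ y, n • y = x := by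
  obtain ⟨J, f, L, hL, hA, -, e, he⟩ := exists_jacobian K F
  have h0 : e (L.one (𝟙 _)) = 0 := by
    have h1 := he (L.one (𝟙 _)) (L.one (𝟙 _))
    rw [L.one_mul] at h1
    exact left_eq_add.mp h1
  have hn' : ∀ (m : ℕ) z, e (L.nsmul (𝟙 _) m z) = m • e z := by
    intro m z
    induction m with
    | zero => rw [RelativeGroupLaw.nsmul_zero, h0, zero_nsmul]
    | succ m ih => rw [RelativeGroupLaw.nsmul_succ, he, ih, succ_nsmul]
  obtain ⟨z, hz⟩ := exists_nsmul_eq f L hL hA n hn (e.symm x)
  exact ⟨e z, by rw [← hn', hz, Equiv.apply_symm_apply]⟩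

end Fermat.Agent.Cor.Jac
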