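import Mathlib
import Fermat.Agent.Cor.JacPic0
import Fermat.Agent.H05.NormFormula

/-!
# Pullback of divisor classes and the genus of subfields

* `picPull`: pullback of divisor classes along a finite extension of function fields; its kernel is
  a torsion group.
* `genus_le_of_finite`: the genus of a function field is at least the genus of every function
  subfield, in every characteristic and also for inseparable extensions.
* `genus_le_of_transcendental`: the same for arbitrary subfields which are not algebraic over the
  ground field.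
* `genus_eq_zero_iff_exists_top`, `genus_eq_zero_iff_subsingleton`: the genus is zero exactly if
  `F = K(x)`, and exactly if `Pic⁰(F) = 0`.
-/

set_option autoImplicit false

universe u

open AlgebraicCurve
open scoped IntermediateField

noncomputable section

namespace Fermat.Agent.Cor.Jac

open Fermat.Agent

section onePole

variable {K F : Type*} [Field K] [IsAlgClosed K] [Field F] [Algebra K F] [FF.FunField K F]

/-- there is a function with poles only at a given place -/
theorem exists_pole_only (v : Place K F) :
    ∃ f : F, Transcendental K f ∧ ∀ w : Place K F, w.ord f < 0 → w = v := by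
  classical
  set D : Divisor K F := Finsupp.single v (2 * genusFF K F + 1 : ℤ) with hD
  have hdeg : Divisor.degree D = 2 * genusFF K F + 1 := by
    rw [hD, Divisor.degree_single, FF.deg_eq_one]
    push_cast
    ring
  have h1 := FF.ell_of_hh_zero (FF.hh_eq_zero_of_degree_ge (D := D) (by rw [hdeg]; omega))
  rw [hdeg] at h1
  obtain ⟨f, hfD, hf⟩ : ∃ f ∈ riemannRochSpace D, f ∉ Set.range (algebraMap K F) := by
    by_contra hcon
    push Not at hcon
    have h2 : riemannRochSpace D ≤ Submodule.span K {(1 : F)} := by
      intro f hf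
      obtain ⟨c, rfl⟩ := hcon f hf
      exact Submodule.mem_span_singleton.mpr ⟨c, by rw [Algebra.smul_def, mul_one]⟩
    have h3 := Submodule.finrank_mono h2
    rw [finrank_span_singleton one_ne_zero] at h3
    have h4 : FF.ell D = Module.finrank K (riemannRochSpace D) := rfl
    omega
  refine ⟨f, FF.transcendental_of_not_mem_range hf, fun w hw => ?_⟩
  by_contra hne
  have h4 := FF.mem_L_iff.mp hfD w
  rw [w.adicValuation_le_exp_iff, hD, Finsupp.single_eq_of_ne hne] at h4
  rcases h4 with h4 | h4
  · rw [h4, Place.ord_zero] at hw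
    omega
  · omega

end onePole

section pull

variable {K F F' : Type*} [Field K] [IsAlgClosed K] [Field F] [Field F'] [Algebra K F]
  [Algebra K F'] [Algebra F F'] [IsScalarTower K F F'] [FF.FunField K F] [FF.FunField K F']
  [FiniteDimensional F F']

/-- every place of a function field extends to every finite extension -/
theorem exists_restrict_eq (v : Place K F) : ∃ w : Place K F', w.restrict F = v := by
  obtain ⟨f, hf, hv⟩ := exists_pole_only v
  have h1 : Transcendental K (algebraMap F F' f) :=
    (transcendental_algebraMap_iff (algebraMap F F').injective).mpr hf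
  obtain ⟨w, hw⟩ := FF.exists_pole h1
  refine ⟨w, hv _ ?_⟩
  rw [Place.ord_restrict] at hw
  by_contra h2
  push Not at h2
  have h3 : (0 : ℤ) ≤ w.ramificationIndex F := Int.natCast_nonneg _
  have h4 := mul_nonneg h3 h2
  omega

/-- a divisor which becomes principal in a finite separable extension of degree `n` is principal
after multiplication with `n` -/
theorem smul_mem_principal_of_sep [Algebra.IsSeparable F F'] {D : Divisor K F}
    (hD : Divisor.pullback F' D ∈ Divisor.principal (K := K) (F := F')) :
    Module.finrank F F' • D ∈ Divisor.principal (K := K) (F := F) := by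
  classical
  rw [Divisor.mem_principal] at hD ⊢
  obtain ⟨f, hf, h⟩ := hD
  refine ⟨Algebra.norm F f, Algebra.norm_ne_zero_iff.mpr hf, fun v => ?_⟩
  obtain ⟨S, hS, hSum⟩ := H05.localNormFormula_of_inertiaDeg K F F' (fun w => by
    have h1 := w.deg_restrict_mul_inertiaDeg (F := F)
    rwa [FF.deg_eq_one, FF.deg_eq_one, one_mul] at h1) v
  obtain ⟨π, hπ⟩ := IsDiscreteValuationRing.exists_irreducible v.toValuationSubring
  have hπF : (π : F) ≠ 0 := by simpa [ne_eq, ZeroMemClass.coe_eq_zero] using hπ.ne_zero
  have hπF' : algebraMap F F' (π : F) ≠ 0 := by simpa using hπF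
  have h1 := hSum _ hπF'
  rw [Algebra.norm_algebraMap, H18.ord_pow, v.ord_coe_irreducible hπ, mul_one] at h1
  rw [← hSum f hf, Finsupp.smul_apply, nsmul_eq_mul, ← h1, Finset.sum_mul]
  refine Finset.sum_congr rfl fun w hw => ?_
  have h2 := (hS w).mp hw
  have h3 := h w
  rw [Divisor.pullback_apply, h2] at h3
  rw [← h3, Place.ord_restrict, h2, v.ord_coe_irreducible hπ]
  ring

/-- a divisor which becomes principal in a finite purely inseparable extension is principal after
multiplication with a power of the characteristic -/
theorem exists_smul_mem_principal_of_insep [IsPurelyInseparable F F'] {D : Divisor K F}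
    (hD : Divisor.pullback F' D ∈ Divisor.principal (K := K) (F := F')) :
    ∃ n : ℕ, ringExpChar F ^ n • D ∈ Divisor.principal (K := K) (F := F) := by
  rw [Divisor.mem_principal] at hD
  obtain ⟨f, hf, h⟩ := hD
  obtain ⟨n, g, hg⟩ := IsPurelyInseparable.pow_mem F (ringExpChar F) f
  refine ⟨n, ?_⟩
  rw [Divisor.mem_principal]
  refine ⟨g, ?_, fun v => ?_⟩
  · rintro rfl
    rw [map_zero] at hg
    exact pow_ne_zero _ hf hg.symm
  obtain ⟨w, rfl⟩ := exists_restrict_eq (F' := F') v
  have h1 := congrArg w.ord hg
  rw [H18.ord_pow, Place.ord_restrict, ← h w, Divisor.pullback_apply] at h1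
  have h2 : (w.ramificationIndex F : ℤ) ≠ 0 :=
    Int.natCast_ne_zero.mpr (w.ramificationIndex_pos (F := F)).ne'
  apply mul_left_cancel₀ h2
  rw [h1, Finsupp.smul_apply, nsmul_eq_mul]
  push_cast
  ring

variable (K F F') in
/-- pullback of divisor classes -/
def picPull : Pic K F →+ Pic K F' :=
  QuotientAddGroup.map _ _ (Divisor.pullback F') fun _ hD => Divisor.pullback_mem_principal hD

theorem smul_eq_zero_of_picPull_sep [Algebra.IsSeparable F F'] {x : Pic K F}
    (hx : picPull K F F' x = 0) : Module.finrank F F' • x = 0 := by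
  obtain ⟨D, rfl⟩ := QuotientAddGroup.mk_surjective x
  have h1 := (QuotientAddGroup.eq_zero_iff _).mp hx
  rw [← QuotientAddGroup.mk_nsmul]
  exact (QuotientAddGroup.eq_zero_iff _).mpr (smul_mem_principal_of_sep h1)

theorem exists_smul_eq_zero_of_picPull_insep [IsPurelyInseparable F F'] {x : Pic K F}
    (hx : picPull K F F' x = 0) : ∃ n : ℕ, ringExpChar F ^ n • x = 0 := by
  obtain ⟨D, rfl⟩ := QuotientAddGroup.mk_surjective x
  have h1 := (QuotientAddGroup.eq_zero_iff _).mp hx
  obtain ⟨n, hn⟩ := exists_smul_mem_principal_of_insep h1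
  exact ⟨n, by
    rw [← QuotientAddGroup.mk_nsmul]
    exact (QuotientAddGroup.eq_zero_iff _).mpr hn⟩

end pull

section genus

/-- if pullback of divisor classes is injective on the `ℓ`-torsion then the genus grows -/
theorem genus_le_of_injective {K F F' : Type u} [Field K] [IsAlgClosed K] [Field F] [Field F']
    [Algebra K F] [Algebra K F'] [FF.FunField K F] [FF.FunField K F'] (φ : Pic K F →+ Pic K F')
    {ℓ : ℕ} (hℓ : ℓ.Prime) (hℓK : (ℓ : K) ≠ 0)
    (hinj : ∀ x : Pic K F, ℓ • x = 0 → φ x = 0 → x = 0) : genusFF K F ≤ genusFF K F' := by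
  have h1 := card_pic0_torsion_funField K F ℓ hℓK
  have h2 := card_pic0_torsion_funField K F' ℓ hℓK
  rw [card_torsion_pic hℓ.ne_zero] at h1 h2
  have hfin : Finite {x : Pic K F' // ℓ • x = 0} := by
    apply Nat.finite_of_card_ne_zero
    rw [h2]
    exact pow_ne_zero _ hℓ.ne_zero
  have h3 : Nat.card {x : Pic K F // ℓ • x = 0} ≤ Nat.card {x : Pic K F' // ℓ • x = 0} := by
    refine Nat.card_le_card_of_injective
      (fun x => (⟨φ x.1, by rw [← map_nsmul, x.2, map_zero]⟩ : {x : Pic K F' // ℓ • x = 0})) ?_
    intro x y h
    have h4 : φ x.1 = φ y.1 := congrArg Subtype.val h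
    have h5 : φ (x.1 - y.1) = 0 := by rw [map_sub, h4, sub_self]
    exact Subtype.ext (sub_eq_zero.mp
      (hinj _ (by rw [nsmul_sub, x.2, y.2, sub_self]) h5))
  rw [h1, h2] at h3
  have h5 := (Nat.pow_le_pow_iff_right hℓ.one_lt).mp h3
  omega

theorem eq_zero_of_coprime_nsmul {A : Type*} [AddCommGroup A] {a b : ℕ} (h : a.Coprime b) {x : A}
    (ha : a • x = 0) (hb : b • x = 0) : x = 0 := by
  have h1 : addOrderOf x ∣ Nat.gcd a b :=
    Nat.dvd_gcd (addOrderOf_dvd_of_nsmul_eq_zero ha) (addOrderOf_dvd_of_nsmul_eq_zero hb)
  rw [h] at h1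
  exact AddMonoid.addOrderOf_eq_one_iff.mp (Nat.dvd_one.mp h1)

theorem exists_prime_gt (K : Type*) [Field K] (N : ℕ) :
    ∃ ℓ : ℕ, ℓ.Prime ∧ N < ℓ ∧ (ℓ : K) ≠ 0 := by
  obtain ⟨ℓ, h1, h2⟩ := Nat.exists_infinite_primes (N + ringChar K + 1)
  refine ⟨ℓ, h2, by omega, fun h => ?_⟩
  rw [CharP.cast_eq_zero_iff K (ringChar K) ℓ, Nat.dvd_prime h2] at h
  rcases h with h | h
  · exact CharP.ringChar_ne_one h
  · omega

variable {K F F' : Type u} [Field K] [IsAlgClosed K] [Field F] [Field F'] [Algebra K F]
  [Algebra K F'] [Algebra F F'] [IsScalarTower K F F'] [FF.FunField K F] [FF.FunField K F']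
  [FiniteDimensional F F']

theorem genus_le_of_sep [Algebra.IsSeparable F F'] : genusFF K F ≤ genusFF K F' := by
  obtain ⟨ℓ, h1, h2, h3⟩ := exists_prime_gt K (Module.finrank F F')
  refine genus_le_of_injective (picPull K F F') h1 h3 fun x hx h => ?_
  refine eq_zero_of_coprime_nsmul ?_ hx (smul_eq_zero_of_picPull_sep h)
  exact h1.coprime_iff_not_dvd.mpr fun h4 =>
    absurd (Nat.le_of_dvd Module.finrank_pos h4) (not_le.mpr h2)

theorem genus_le_of_insep [IsPurelyInseparable F F'] : genusFF K F ≤ genusFF K F' := by
  obtain ⟨ℓ, h1, h2, h3⟩ := exists_prime_gt K (ringExpChar F)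
  refine genus_le_of_injective (picPull K F F') h1 h3 fun x hx h => ?_
  obtain ⟨n, hn⟩ := exists_smul_eq_zero_of_picPull_insep h
  refine eq_zero_of_coprime_nsmul ?_ hx hn
  refine Nat.Coprime.pow_right n (h1.coprime_iff_not_dvd.mpr fun h4 => ?_)
  exact absurd (Nat.le_of_dvd (expChar_pos F (ringExpChar F)) h4) (not_le.mpr h2)

omit [FF.FunField K F'] in
/-- a finite extension of a function field is a function field -/
theorem funField_of_finite {K F F' : Type*} [Field K] [Field F] [Field F'] [Algebra K F]
    [Algebra K F'] [Algebra F F'] [IsScalarTower K F F'] [hF : FF.FunField K F]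
    [FiniteDimensional F F'] : FF.FunField K F' := by
  obtain ⟨x, htr, hfin⟩ := hF.exists_finite
  have h1 : Transcendental K (algebraMap F F' x) :=
    (transcendental_algebraMap_iff (algebraMap F F').injective).mpr htr
  refine ⟨algebraMap F F' x, h1, ?_⟩
  have h2 : Algebra.EssFiniteType K F := FF.essFiniteType_of_funField
  have h3 : Algebra.EssFiniteType K F' := Algebra.EssFiniteType.comp K F F'
  have h4 : Algebra.EssFiniteType K⟮algebraMap F F' x⟯ F' :=
    Algebra.EssFiniteType.of_comp K K⟮algebraMap F F' x⟯ F'
  have h5 : Algebra.IsAlgebraic K⟮x⟯ F' := Algebra.IsAlgebraic.trans K⟮x⟯ F F'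
  have h6 : K⟮x⟯.map (IsScalarTower.toAlgHom K F F') = K⟮algebraMap F F' x⟯ := by
    rw [IntermediateField.adjoin_map, Set.image_singleton]
    rfl
  have h7 : Algebra.IsAlgebraic K⟮algebraMap F F' x⟯ F' := by
    rw [← h6]
    exact Algebra.IsAlgebraic.ringHom_of_comp_eq (R := K⟮x⟯) (A := F')
      (IntermediateField.equivMap K⟮x⟯ (IsScalarTower.toAlgHom K F F')) (RingHom.id F')
      (IntermediateField.equivMap _ _).injective Function.surjective_id rfl
  exact Algebra.finite_of_essFiniteType_of_isAlgebraic

omit [FF.FunField K F'] in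
/-- **The genus of subfields**: the genus of a function field is at most the genus of every finite
extension, in every characteristic and also for inseparable extensions -/
theorem genus_le_of_finite : genusFF K F ≤ genusFF K F' := by
  have h0 : IsScalarTower K (separableClosure F F') F' := IsScalarTower.of_algebraMap_eq fun _ => rfl
  have h1 : FF.FunField K (separableClosure F F') := funField_of_finite (F := F)
  have h2 : FF.FunField K F' := funField_of_finite (F := F)
  exact (genus_le_of_sep (F := F) (F' := separableClosure F F')).trans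
    (genus_le_of_insep (F := separableClosure F F') (F' := F'))

end genus

section rational

variable {K F : Type*} [Field K] [IsAlgClosed K] [Field F] [Algebra K F] [FF.FunField K F]

theorem eq_zero_of_nonneg {D : Divisor K F} (h : 0 ≤ D) (h0 : Divisor.degree D = 0) : D = 0 := by
  rw [FF.degree_eq_sum (fun v => FF.deg_eq_one v), Finsupp.sum,
    Finset.sum_eq_zero_iff_of_nonneg fun v _ => h v] at h0
  ext v
  by_cases hv : v ∈ D.support
  · exact h0 v hv
  · exact Finsupp.notMem_support_iff.mp hv

theorem degree_nonneg_of_nonneg {D : Divisor K F} (h : 0 ≤ D) : 0 ≤ Divisor.degree D := by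
  rw [FF.degree_eq_sum (fun v => FF.deg_eq_one v), Finsupp.sum]
  exact Finset.sum_nonneg fun v _ => h v

/-- a function field of genus zero has no nontrivial divisor classes of degree zero -/
theorem subsingleton_of_genus_eq_zero (h : genusFF K F = 0) : Subsingleton (Pic0 K F) := by
  refine subsingleton_of_forall_eq 0 fun x => ?_
  obtain ⟨D, rfl⟩ := QuotientAddGroup.mk_surjective x
  rw [QuotientAddGroup.eq_zero_iff]
  have h1 : Divisor.degree (D : Divisor K F) = 0 := D.2
  obtain ⟨f, hf, h2⟩ := FF.exists_effective (D := (D : Divisor K F)) (by rw [h, h1]; rfl)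
  have h3 := eq_zero_of_nonneg h2 (by rw [map_add, h1, FF.degree_div, add_zero])
  refine ⟨f⁻¹, inv_ne_zero hf, fun v => ?_⟩
  have h4 := congrArg (fun E : Divisor K F => E v) h3
  change (D : Divisor K F) v + (FF.div f : Divisor K F) v = 0 at h4
  rw [FF.div_apply] at h4
  change (D : Divisor K F) v = _
  rw [Place.ord_inv]
  omega

/-- the genus is zero exactly if the function field is rational -/
theorem genus_eq_zero_iff_exists_top : genusFF K F = 0 ↔ ∃ x : F, K⟮x⟯ = ⊤ := by
  classical
  constructor
  · intro h
    obtain ⟨v⟩ : Nonempty (Place K F) := FF.nonempty_place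
    have hdeg : Divisor.degree (Finsupp.single v 1 : Divisor K F) = 1 := by
      rw [Divisor.degree_single, FF.deg_eq_one]
      rfl
    have h1 := FF.ell_of_hh_zero (FF.hh_eq_zero_of_degree_ge
      (D := (Finsupp.single v 1 : Divisor K F)) (by rw [hdeg, h]; norm_num))
    rw [hdeg, h] at h1
    obtain ⟨f, hfD, hf⟩ : ∃ f ∈ riemannRochSpace (Finsupp.single v 1 : Divisor K F),
        f ∉ Set.range (algebraMap K F) := by
      by_contra hcon
      push Not at hcon
      have h2 : riemannRochSpace (Finsupp.single v 1 : Divisor K F) ≤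
          Submodule.span K {(1 : F)} := by
        intro f hf
        obtain ⟨c, rfl⟩ := hcon f hf
        exact Submodule.mem_span_singleton.mpr ⟨c, by rw [Algebra.smul_def, mul_one]⟩
      have h3 := Submodule.finrank_mono h2
      rw [finrank_span_singleton one_ne_zero] at h3
      have h4 : FF.ell (Finsupp.single v 1 : Divisor K F) =
        Module.finrank K (riemannRochSpace (Finsupp.single v 1 : Divisor K F)) := rfl
      omega
    have htr := FF.transcendental_of_not_mem_range hf
    refine ⟨f, IntermediateField.finrank_eq_one_iff_eq_top.mp ?_⟩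
    have h5 := FF.degree_poles f htr
    have hfin : FiniteDimensional K⟮f⟯ F := (FF.isParam_of_transcendental htr).fin
    have hpos : 0 < Module.finrank K⟮f⟯ F := Module.finrank_pos
    have h6 : (0 : Divisor K F) ≤ Finsupp.single v 1 - FF.poles f := by
      intro w
      have h7 := FF.mem_L_iff.mp hfD w
      have h8 : (0 : ℤ) ≤ (Finsupp.single v 1 : Divisor K F) w := by
        rw [Finsupp.single_apply]
        split_ifs
        · exact zero_le_one
        · exact le_rfl
      rw [w.adicValuation_le_exp_iff] at h7
      rw [Finsupp.sub_apply, FF.poles_apply, Finsupp.zero_apply]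
      rcases h7 with h7 | h7
      · rw [h7, Place.ord_zero, neg_zero, max_self, sub_zero]
        exact h8
      · have h9 : max (-w.ord f) 0 ≤ (Finsupp.single v 1 : Divisor K F) w :=
          max_le (by omega) h8
        omega
    have h7 := degree_nonneg_of_nonneg h6
    rw [map_sub, hdeg, h5] at h7
    omega
  · rintro ⟨x, hx⟩
    have htr : Transcendental K x := by
      obtain ⟨y, hy, -⟩ := FF.FunField.exists_finite (K := K) (F := F)
      apply FF.transcendental_of_not_mem_range
      rintro ⟨a, rfl⟩
      have h1 : K⟮algebraMap K F a⟯ = ⊥ := by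
        rw [IntermediateField.adjoin_simple_eq_bot_iff]
        exact (⊥ : IntermediateField K F).algebraMap_mem a
      rw [h1] at hx
      have h2 : y ∈ (⊥ : IntermediateField K F) := by
        rw [hx]
        exact IntermediateField.mem_top
      obtain ⟨b, rfl⟩ := IntermediateField.mem_bot.mp h2
      exact hy (isAlgebraic_algebraMap b)
    have h5 := FF.degree_poles x htr
    rw [IntermediateField.finrank_eq_one_iff_eq_top.mpr hx, Nat.cast_one] at h5
    set P : Divisor K F := FF.poles x with hP
    set g := genusFF K F with hg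
    have h0 : ∀ v, 0 ≤ P v := fun v => by rw [hP, FF.poles_apply]; exact le_max_right _ _
    have h6 : Divisor.degree ((2 * g) • P) = 2 * g := by
      rw [map_nsmul, h5, nsmul_eq_mul, mul_one]
      push_cast
      ring
    have h7 := FF.ell_of_hh_zero (FF.hh_eq_zero_of_degree_ge (D := (2 * g) • P)
      (by rw [h6]))
    rw [h6] at h7
    have hmem : ∀ j : Fin (2 * g + 1), x ^ (j : ℕ) ∈ riemannRochSpace ((2 * g) • P) := by
      intro j
      refine FF.L_mono ?_ (FF.pow_mem_L (FF.mem_L_poles (K := K) x) (j : ℕ))
      intro v
      rw [← hP, Finsupp.smul_apply, Finsupp.smul_apply, nsmul_eq_mul, nsmul_eq_mul]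
      refine mul_le_mul_of_nonneg_right ?_ (h0 v)
      have hj := j.2
      have hj' : (j : ℕ) ≤ 2 * g := by omega
      exact_mod_cast hj'
    have hind : LinearIndependent K (fun j : Fin (2 * g + 1) =>
        (⟨_, hmem j⟩ : riemannRochSpace ((2 * g) • P))) := by
      refine LinearIndependent.of_comp (riemannRochSpace ((2 * g) • P)).subtype ?_
      have h8 := (FF.linearIndependent_pow_gen htr).map' K⟮x⟯.val.toLinearMap
        (LinearMap.ker_eq_bot.mpr K⟮x⟯.val.injective)
      have h9 := h8.comp (fun j : Fin (2 * g + 1) => (j : ℕ)) Fin.val_injective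
      exact h9
    have hfin : Module.Finite K (riemannRochSpace ((2 * g) • P)) := by
      by_contra hcon
      have h8 : FF.ell ((2 * g) • P) = 0 := Module.finrank_of_not_finite hcon
      rw [h8] at h7
      push_cast at h7
      omega
    have hcard := hind.fintype_card_le_finrank
    rw [Fintype.card_fin] at hcard
    have h10 : FF.ell ((2 * g) • P) = Module.finrank K (riemannRochSpace ((2 * g) • P)) := rfl
    omega

end rational

/-- the genus is zero exactly if there are no nontrivial divisor classes of degree zero -/
theorem genus_eq_zero_iff_subsingleton (K F : Type u) [Field K] [IsAlgClosed K] [Field F]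
    [Algebra K F] [hF : FF.FunField K F] : genusFF K F = 0 ↔ Subsingleton (Pic0 K F) := by
  refine ⟨fun h => subsingleton_of_genus_eq_zero h, fun h => ?_⟩
  obtain ⟨ℓ, h1, h2, h3⟩ := exists_prime_gt K 0
  have h4 := card_pic0_torsion_funField K F ℓ h3
  have h5 : Nat.card (Pic0.torsion K F ℓ) = 1 := Nat.card_of_subsingleton 0
  rw [h5] at h4
  have h6 := Nat.pow_right_injective h1.two_le ((pow_zero ℓ).trans h4)
  omega

/-- a subfield of a function field which is not algebraic over the ground field is a function
field, and the extension is finite -/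
theorem funField_of_subfield {K F F' : Type*} [Field K] [Field F] [Field F'] [Algebra K F]
    [Algebra K F'] [Algebra F F'] [IsScalarTower K F F'] [hF' : FF.FunField K F'] {x : F}
    (hx : Transcendental K x) : FF.FunField K F ∧ FiniteDimensional F F' := by
  have h3 : Transcendental K (algebraMap F F' x) :=
    (transcendental_algebraMap_iff (algebraMap F F').injective).mpr hx
  have h4 : FiniteDimensional K⟮algebraMap F F' x⟯ F' := (FF.isParam_of_transcendental h3).fin
  have h5 : Algebra.EssFiniteType K F' := FF.essFiniteType_of_funField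
  have h6 : Algebra.EssFiniteType F F' := Algebra.EssFiniteType.of_comp K F F'
  have h7 : Algebra.IsAlgebraic K⟮x⟯ F' := by
    have h8 : K⟮x⟯.map (IsScalarTower.toAlgHom K F F') = K⟮algebraMap F F' x⟯ := by
      rw [IntermediateField.adjoin_map, Set.image_singleton]
      rfl
    have h9 : Algebra.IsAlgebraic K⟮algebraMap F F' x⟯ F' := inferInstance
    rw [← h8] at h9
    exact Algebra.IsAlgebraic.of_ringHom_of_comp_eq (S := K⟮x⟯.map
      (IsScalarTower.toAlgHom K F F')) (B := F')
      (IntermediateField.equivMap K⟮x⟯ (IsScalarTower.toAlgHom K F F')) (RingHom.id F')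
      (IntermediateField.equivMap _ _).surjective Function.injective_id rfl
  have h8 : Algebra.IsAlgebraic F F' := Algebra.IsAlgebraic.tower_top (K := K⟮x⟯) F
  refine ⟨⟨x, hx, ?_⟩, Algebra.finite_of_essFiniteType_of_isAlgebraic⟩
  have h9 : IsScalarTower K K⟮x⟯ F' := IsScalarTower.of_algebraMap_eq fun a => by
    rw [IsScalarTower.algebraMap_apply K F F']
    rfl
  have h10 : Algebra.EssFiniteType K⟮x⟯ F' := Algebra.EssFiniteType.of_comp K K⟮x⟯ F'
  have h11 : FiniteDimensional K⟮x⟯ F' := Algebra.finite_of_essFiniteType_of_isAlgebraic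
  exact Module.Finite.of_injective (IsScalarTower.toAlgHom K⟮x⟯ F F').toLinearMap
    (algebraMap F F').injective

/-- **The genus of subfields**: every subfield of a function field which is not algebraic over the
ground field is a function field whose genus is at most the genus of the given field -/
theorem genus_le_of_transcendental {K F F' : Type u} [Field K] [IsAlgClosed K] [Field F]
    [Field F'] [Algebra K F] [Algebra K F'] [hF' : FF.FunField K F'] (φ : F →ₐ[K] F') {x : F}
    (hx : Transcendental K x) : FF.FunField K F ∧ genusFF K F ≤ genusFF K F' := by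
  let _ : Algebra F F' := φ.toRingHom.toAlgebra
  have h1 : IsScalarTower K F F' := IsScalarTower.of_algebraMap_eq fun a => (φ.commutes a).symm
  obtain ⟨h2, h3⟩ := funField_of_subfield (F' := F') hx
  exact ⟨h2, genus_le_of_finite⟩

/-- **The genus of subfields**: if there is an embedding `F → F'` of function fields then the genus
of `F` is at most the genus of `F'` -/
theorem genus_le_of_algHom {K F F' : Type u} [Field K] [IsAlgClosed K] [Field F] [Field F']
    [Algebra K F] [Algebra K F'] [hF : FF.FunField K F] [hF' : FF.FunField K F']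
    (φ : F →ₐ[K] F') : genusFF K F ≤ genusFF K F' := by
  obtain ⟨x, hx, -⟩ := hF.exists_finite
  exact (genus_le_of_transcendental φ hx).2

end Fermat.Agent.Cor.Jac
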