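import Mathlib
import Fermat.Agent.Cor.JacPull

/-!
# Semilinear isomorphisms of function fields

Places, divisor classes and the genus only depend on the pair `K ⊂ F` up to isomorphism of pairs.

* `card_pic0_torsion_univ`: `#Pic⁰(F)[n] = n ^ (2 * g)` in every characteristic, for fields `K` and
  `F` in arbitrary universes.
* `natCard_torsion_pow`: the statement S27 in every characteristic.
* `genus_le_of_semilinear`: the genus of subfields, for semilinear embeddings.
* `genus_eq_of_insep`: the genus does not change in purely inseparable extensions.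
-/

set_option autoImplicit false

universe u v

open AlgebraicCurve WithZero
open scoped IntermediateField

noncomputable section

namespace Fermat.Agent.Cor.Jac

open Fermat.Agent

/-- an isomorphism of the pair `K ⊂ F` with the pair `K' ⊂ F'` -/
structure SemiIso (K F K' F' : Type*) [Field K] [Field F] [Field K'] [Field F'] [Algebra K F]
    [Algebra K' F'] where
  σ : K ≃+* K'
  e : F ≃+* F'
  comm : ∀ a, e (algebraMap K F a) = algebraMap K' F' (σ a)

namespace SemiIso

variable {K F K' F' : Type*} [Field K] [Field F] [Field K'] [Field F'] [Algebra K F]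
  [Algebra K' F'] (s : SemiIso K F K' F')

/-- the inverse isomorphism -/
def symm : SemiIso K' F' K F where
  σ := s.σ.symm
  e := s.e.symm
  comm a := by
    rw [RingEquiv.symm_apply_eq, s.comm, RingEquiv.apply_symm_apply]

/-- the valuation rings of corresponding places -/
def vr (v : Place K F) :
    v.toValuationSubring ≃+* v.toValuationSubring.comap (s.e.symm : F' →+* F) where
  toFun x := ⟨s.e x, by
    rw [ValuationSubring.mem_comap]
    change s.e.symm (s.e x) ∈ _
    rw [RingEquiv.symm_apply_apply]
    exact x.2⟩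
  invFun y := ⟨s.e.symm y, y.2⟩
  left_inv x := Subtype.ext (s.e.symm_apply_apply x)
  right_inv y := Subtype.ext (s.e.apply_symm_apply y)
  map_mul' x y := Subtype.ext (map_mul s.e (x : F) y)
  map_add' x y := Subtype.ext (map_add s.e (x : F) y)

/-- transport of places -/
def mapPl (v : Place K F) : Place K' F' where
  toValuationSubring := v.toValuationSubring.comap (s.e.symm : F' →+* F)
  algebraMap_mem' a := by
    rw [ValuationSubring.mem_comap]
    change s.e.symm (algebraMap K' F' a) ∈ _
    rw [show s.e.symm (algebraMap K' F' a) = algebraMap K F (s.σ.symm a) from s.symm.comm a]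
    exact v.algebraMap_mem' _
  ne_top' h := v.ne_top' (by
    rw [eq_top_iff]
    intro x _
    have h1 : s.e x ∈ v.toValuationSubring.comap (s.e.symm : F' →+* F) := by
      rw [h]
      trivial
    rw [ValuationSubring.mem_comap] at h1
    change s.e.symm (s.e x) ∈ _ at h1
    rwa [RingEquiv.symm_apply_apply] at h1)
  isPrincipalIdealRing' := IsPrincipalIdealRing.of_surjective (s.vr v : _ ≃+* _)
    (s.vr v).surjective

theorem mem_mapPl (v : Place K F) (y : F') :
    y ∈ (s.mapPl v).toValuationSubring ↔ s.e.symm y ∈ v.toValuationSubring := Iff.rfl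

theorem ord_mapPl (v : Place K F) (f : F) : (s.mapPl v).ord (s.e f) = v.ord f := by
  rcases eq_or_ne f 0 with rfl | hf
  · simp
  obtain ⟨π, hπ⟩ := IsDiscreteValuationRing.exists_irreducible v.toValuationSubring
  obtain ⟨u, hu⟩ := v.exists_unit_mul_zpow hf hπ
  set n := v.ord f with hn
  let E : v.toValuationSubring ≃+* (s.mapPl v).toValuationSubring := s.vr v
  have hπ' : Irreducible (E π) := (MulEquiv.irreducible_iff E).mpr hπ
  have hu' : IsUnit (E (u : v.toValuationSubring)) := u.isUnit.map E
  have key : s.e f = ((hu'.unit : (s.mapPl v).toValuationSubring) : F') *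
      (((E π : (s.mapPl v).toValuationSubring) : F') ^ n) := by
    rw [IsUnit.unit_spec, hu, map_mul, map_zpow₀]
    rfl
  rw [key, (s.mapPl v).ord_unit_smul_zpow hu'.unit hπ' n]

/-- the bijection of places -/
def pl : Place K F ≃ Place K' F' where
  toFun := s.mapPl
  invFun := s.symm.mapPl
  left_inv v := by
    ext x
    rw [mem_mapPl, mem_mapPl]
    change s.e.symm (s.e x) ∈ _ ↔ _
    rw [RingEquiv.symm_apply_apply]
  right_inv v := by
    ext x
    rw [mem_mapPl, mem_mapPl]
    change s.e (s.e.symm x) ∈ _ ↔ _
    rw [RingEquiv.apply_symm_apply]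

theorem pl_apply (v : Place K F) : s.pl v = s.mapPl v := rfl

/-- transport of divisors -/
def dv : Divisor K F ≃+ Divisor K' F' := Finsupp.domCongr s.pl

theorem dv_apply (D : Divisor K F) (v : Place K F) : s.dv D (s.pl v) = D v := by
  rw [dv, Finsupp.domCongr_apply, Finsupp.equivMapDomain_apply, Equiv.symm_apply_apply]

theorem dv_mem_principal (D : Divisor K F) :
    s.dv D ∈ Divisor.principal (K := K') (F := F') ↔
      D ∈ Divisor.principal (K := K) (F := F) := by
  rw [Divisor.mem_principal, Divisor.mem_principal]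
  constructor
  · rintro ⟨f, hf, h⟩
    refine ⟨s.e.symm f, by simpa using hf, fun v => ?_⟩
    rw [← s.dv_apply D v, h, ← s.ord_mapPl v, RingEquiv.apply_symm_apply, pl_apply]
  · rintro ⟨f, hf, h⟩
    refine ⟨s.e f, by simpa using hf, fun w => ?_⟩
    obtain ⟨v, rfl⟩ := s.pl.surjective w
    rw [dv_apply, h, pl_apply, ord_mapPl]

/-- transport of divisor classes -/
def pc : Pic K F ≃+ Pic K' F' :=
  QuotientAddGroup.congr _ _ s.dv (by
    ext D
    constructor
    · rintro ⟨E, hE, rfl⟩
      exact (s.dv_mem_principal E).mpr hE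
    · intro hD
      refine ⟨s.dv.symm D, ?_, s.dv.apply_symm_apply D⟩
      have h1 := s.dv_mem_principal (s.dv.symm D)
      rw [AddEquiv.apply_symm_apply] at h1
      exact h1.mp hD)

include s in
theorem card_torsion [HasPrincipalDivisors K F] [HasPrincipalDivisors K' F'] {n : ℕ}
    (hn : n ≠ 0) : Nat.card (Pic0.torsion K F n) = Nat.card (Pic0.torsion K' F' n) := by
  rw [card_torsion_pic hn, card_torsion_pic hn]
  refine Nat.card_congr (Equiv.subtypeEquiv s.pc.toEquiv fun x => ?_)
  change n • x = 0 ↔ n • s.pc x = 0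
  rw [← map_nsmul, EmbeddingLike.map_eq_zero_iff]

theorem mem_rr (D : Divisor K F) (f : F) :
    s.e f ∈ riemannRochSpace (s.dv D) ↔ f ∈ riemannRochSpace D := by
  change (∀ w : Place K' F', w.adicValuation (s.e f) ≤ exp (s.dv D w)) ↔
    (∀ v : Place K F, v.adicValuation f ≤ exp (D v))
  rw [← s.pl.forall_congr_right]
  refine forall_congr' fun v => ?_
  rw [dv_apply, v.adicValuation_le_exp_iff, (s.pl v).adicValuation_le_exp_iff, pl_apply,
    ord_mapPl, EmbeddingLike.map_eq_zero_iff]

/-- transport of Riemann–Roch spaces -/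
def rr (D : Divisor K F) : riemannRochSpace D ≃+ riemannRochSpace (s.dv D) where
  toFun f := ⟨s.e f, (s.mem_rr D f).mpr f.2⟩
  invFun g := ⟨s.e.symm g, (s.mem_rr D _).mp (by
    rw [RingEquiv.apply_symm_apply]
    exact g.2)⟩
  left_inv f := Subtype.ext (s.e.symm_apply_apply f)
  right_inv g := Subtype.ext (s.e.apply_symm_apply g)
  map_add' f g := Subtype.ext (map_add s.e (f : F) g)

theorem ell_eq (D : Divisor K F) : FF.ell (s.dv D) = FF.ell D := by
  have h1 := lift_rank_eq_of_equiv_equiv (s.σ : K → K') (s.rr D) s.σ.bijective (fun a f => by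
    apply Subtype.ext
    change s.e (a • (f : F)) = s.σ a • s.e f
    rw [Algebra.smul_def, Algebra.smul_def, map_mul, s.comm])
  have h2 := congrArg Cardinal.toNat h1
  rw [Cardinal.toNat_lift, Cardinal.toNat_lift] at h2
  exact h2.symm

include s in
theorem genus_eq [IsAlgClosed K] [IsAlgClosed K'] [FF.FunField K F] [FF.FunField K' F'] :
    genusFF K F = genusFF K' F' := by
  obtain ⟨v⟩ := FF.nonempty_place (K := K) (F := F)
  let N : ℤ := 2 * (genusFF K F : ℤ) + 2 * (genusFF K' F' : ℤ)
  have h1 : FF.hh (Finsupp.single v N : Divisor K F) = 0 := FF.hh_eq_zero_of_degree_ge (by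
    rw [Divisor.degree_single, FF.deg_eq_one]
    simp only [N]
    omega)
  have h2 : s.dv (Finsupp.single v N) = Finsupp.single (s.pl v) N := by
    rw [dv, Finsupp.domCongr_apply, Finsupp.equivMapDomain_single]
  have h3 : FF.hh (Finsupp.single (s.pl v) N : Divisor K' F') = 0 :=
    FF.hh_eq_zero_of_degree_ge (by
      rw [Divisor.degree_single, FF.deg_eq_one]
      simp only [N]
      omega)
  have h4 := FF.ell_of_hh_zero h1
  have h5 := FF.ell_of_hh_zero h3
  rw [← h2, ell_eq, h4, h2, Divisor.degree_single, Divisor.degree_single, FF.deg_eq_one,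
    FF.deg_eq_one] at h5
  omega

theorem mem_adjoin (x : F) {c : F} (hc : c ∈ K⟮x⟯) : s.e c ∈ K'⟮s.e x⟯ := by
  induction hc using IntermediateField.adjoin_induction with
  | mem y hy =>
    rw [Set.mem_singleton_iff] at hy
    subst hy
    exact IntermediateField.mem_adjoin_simple_self K' _
  | algebraMap a =>
    rw [s.comm]
    exact IntermediateField.algebraMap_mem _ _
  | add y z _ _ hy hz =>
    rw [map_add]
    exact add_mem hy hz
  | inv y _ hy =>
    rw [map_inv₀]
    exact inv_mem hy
  | mul y z _ _ hy hz =>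
    rw [map_mul]
    exact mul_mem hy hz

theorem transcendental {x : F} (hx : Transcendental K x) : Transcendental K' (s.e x) := fun h =>
  hx (h.of_ringHom_of_comp_eq (s.σ : K →+* K') (s.e : F →+* F') s.σ.surjective s.e.injective
    (RingHom.ext fun a => (s.comm a).symm))

include s in
theorem funField [hF : FF.FunField K F] : FF.FunField K' F' := by
  obtain ⟨x, htr, hfin⟩ := hF.exists_finite
  refine ⟨s.e x, s.transcendental htr, ?_⟩
  obtain ⟨S, hS⟩ := hfin.fg_top
  classical
  refine ⟨⟨S.image s.e, ?_⟩⟩
  rw [eq_top_iff]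
  rintro y' -
  obtain ⟨y, rfl⟩ := s.e.surjective y'
  have hy : y ∈ Submodule.span K⟮x⟯ (S : Set F) := by
    rw [hS]
    trivial
  induction hy using Submodule.span_induction with
  | mem z hz =>
    exact Submodule.subset_span (by
      rw [Finset.coe_image]
      exact ⟨z, hz, rfl⟩)
  | zero =>
    rw [map_zero]
    exact zero_mem _
  | add z w _ _ hz hw =>
    rw [map_add]
    exact add_mem hz hw
  | smul c z _ hz =>
    have h1 : s.e (c • z) = (⟨s.e c, s.mem_adjoin x c.2⟩ : K'⟮s.e x⟯) • s.e z := by
      rw [Algebra.smul_def, Algebra.smul_def, map_mul]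
      rfl
    rw [h1]
    exact Submodule.smul_mem _ _ hz

end SemiIso

section univ

variable (K : Type u) (F : Type v) [Field K] [IsAlgClosed K] [Field F] [Algebra K F]

omit [IsAlgClosed K] in
/-- the pair `K ⊂ F` in a common universe -/
abbrev ulAlgebra : Algebra (ULift.{v} K) (ULift.{u} F) :=
  ((ULift.ringEquiv.symm : F ≃+* ULift.{u} F).toRingHom.comp
    ((algebraMap K F).comp (ULift.ringEquiv : ULift.{v} K ≃+* K).toRingHom)).toAlgebra

attribute [local instance] ulAlgebra

theorem isAlgClosed_of_equiv (K : Type u) (K' : Type v) [Field K] [Field K'] [IsAlgClosed K]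
    (e : K ≃+* K') : IsAlgClosed K' := by
  refine IsAlgClosed.of_exists_root _ fun p hm hp => ?_
  obtain ⟨x, hx⟩ := IsAlgClosed.exists_root (p.map (e.symm : K' →+* K)) (by
    rw [Polynomial.degree_map]
    exact (Polynomial.degree_pos_of_irreducible hp).ne')
  refine ⟨e x, ?_⟩
  rw [Polynomial.IsRoot.def, Polynomial.eval_map] at hx
  have h1 := congrArg e hx
  rw [map_zero, ← RingEquiv.coe_toRingHom, Polynomial.hom_eval₂] at h1
  have h2 : (e : K →+* K').comp (e.symm : K' →+* K) = RingHom.id K' :=
    RingHom.ext fun a => e.apply_symm_apply a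
  rw [h2] at h1
  exact h1

/-- the pair `K ⊂ F` in a common universe -/
def ulSemi : SemiIso K F (ULift.{v} K) (ULift.{u} F) where
  σ := ULift.ringEquiv.symm
  e := ULift.ringEquiv.symm
  comm _ := rfl

/-- **Torsion of the divisor class group in every characteristic**: `#Pic⁰(F)[n] = n ^ (2 * g)`. -/
theorem card_pic0_torsion_univ [hF : FF.FunField K F] (n : ℕ) (hn : (n : K) ≠ 0) :
    Nat.card (Pic0.torsion K F n) = n ^ (2 * genusFF K F) := by
  have hK : IsAlgClosed (ULift.{v} K) := isAlgClosed_of_equiv K _ ULift.ringEquiv.symm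
  have hF' : FF.FunField (ULift.{v} K) (ULift.{u} F) := (ulSemi K F).funField
  have hn0 : n ≠ 0 := by
    rintro rfl
    exact hn Nat.cast_zero
  rw [(ulSemi K F).card_torsion hn0, (ulSemi K F).genus_eq]
  refine card_pic0_torsion_funField (ULift.{v} K) (ULift.{u} F) n fun h => hn ?_
  have h1 := congrArg ULift.down h
  rwa [ULift.down_natCast] at h1

/-- **The structure of the torsion of the divisor class group**: `Pic⁰(F)[n] ≃ (ℤ/n) ^ (2 * g)`. -/
theorem nonempty_pic0_torsion_univ [hF : FF.FunField K F] (n : ℕ) (hn : (n : K) ≠ 0) :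
    Nonempty (Pic0.torsion K F n ≃+ (Fin (2 * genusFF K F) → ZMod n)) := by
  have hn0 : n ≠ 0 := by
    rintro rfl
    exact hn Nat.cast_zero
  refine Tors.nonempty_equiv_ker hn0 (fun d hd => ?_) _ fun x => by
    rw [Pic0.mem_torsion, natCast_zsmul]
  have hd' : (d : K) ≠ 0 := by
    rintro h
    obtain ⟨e, rfl⟩ := hd
    apply hn
    rw [Nat.cast_mul, h, zero_mul]
  rw [← card_pic0_torsion_univ K F d hd']
  refine Nat.card_congr (Equiv.subtypeEquivRight fun x => ?_)
  rw [Pic0.mem_torsion, natCast_zsmul]

/-- `IsCurveOver` function fields are function fields, in every characteristic -/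
theorem funField_of_isCurveOver [IsCurveOver K F] [Algebra.EssFiniteType K F] :
    FF.FunField K F := by
  obtain ⟨hfree, hrank⟩ := IsCurveOver.kaehler_free_rank_one (K := K) (F := F)
  obtain ⟨x, hx⟩ : ∃ x : F, KaehlerDifferential.D K F x ≠ 0 := by
    by_contra hcon
    push Not at hcon
    have hnt : Nontrivial Ω[F⁄K] := IsCurveOver.instNontrivialKaehler
    have hspan := KaehlerDifferential.span_range_derivation K F
    have : (⊤ : Submodule F Ω[F⁄K]) = ⊥ := by
      rw [← hspan, Submodule.span_eq_bot]
      rintro _ ⟨y, rfl⟩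
      exact hcon y
    exact (bot_ne_top (α := Submodule F Ω[F⁄K])) this.symm
  have htr : Transcendental K x := by
    apply FF.transcendental_of_not_mem_range
    rintro ⟨a, rfl⟩
    exact hx (by simp)
  refine ⟨x, htr, ?_⟩
  have hsub : Subsingleton Ω[F⁄K⟮x⟯] := by
    have hgen : ∀ ω : Ω[F⁄K], ∃ a : F, a • KaehlerDifferential.D K F x = ω :=
      (finrank_eq_one_iff_of_nonzero' (KaehlerDifferential.D K F x) hx).mp hrank
    have hD : ∀ y : F, KaehlerDifferential.D K⟮x⟯ F y = 0 := by
      intro y
      obtain ⟨a, ha⟩ := hgen (KaehlerDifferential.D K F y)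
      have h1 := congrArg (KaehlerDifferential.map K K⟮x⟯ F F) ha
      rw [map_smul, KaehlerDifferential.map_D, KaehlerDifferential.map_D] at h1
      have h2 : KaehlerDifferential.D K⟮x⟯ F (algebraMap F F x) = 0 := by
        have : algebraMap F F x =
            algebraMap K⟮x⟯ F (IntermediateField.AdjoinSimple.gen K x) := by
          simp
        rw [this]
        exact Derivation.map_algebraMap _ _
      rw [h2, smul_zero] at h1
      simpa using h1.symm
    have hspan := KaehlerDifferential.span_range_derivation K⟮x⟯ F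
    have : (⊤ : Submodule F Ω[F⁄K⟮x⟯]) = ⊥ := by
      rw [← hspan, Submodule.span_eq_bot]
      rintro _ ⟨y, rfl⟩
      exact hD y
    exact (Submodule.subsingleton_iff F).mp (subsingleton_of_bot_eq_top this.symm)
  have hess : Algebra.EssFiniteType K⟮x⟯ F := Algebra.EssFiniteType.of_comp K K⟮x⟯ F
  have hun : Algebra.FormallyUnramified K⟮x⟯ F := ⟨hsub⟩
  exact Algebra.FormallyUnramified.finite_of_free K⟮x⟯ F

/-- **The statement S27 in every characteristic**: `CharZero K` is replaced by `ℓ ≠ 0` in `K`. -/
theorem natCard_torsion_pow [IsCurveOver K F] [Algebra.EssFiniteType K F] (ℓ : ℕ)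
    (hℓ : (ℓ : K) ≠ 0) (k : ℕ) :
    Nat.card (Pic0.torsion K F (ℓ ^ k)) = ℓ ^ (2 * genusFF K F * k) := by
  have hF : FF.FunField K F := funField_of_isCurveOver K F
  have h1 := card_pic0_torsion_univ K F (ℓ ^ k) (by
    rw [Nat.cast_pow]
    exact pow_ne_zero _ hℓ)
  rw [h1, ← pow_mul]
  congr 1
  ring

end univ

section twist

/-- the field `F'` with the `K`-algebra structure given by `K ≃ K' → F'` -/
def Twist {K K' : Type*} [Field K] [Field K'] (_ : K ≃+* K') (F' : Type*) := F'

variable {K K' F' : Type*} [Field K] [Field K'] [Field F'] [Algebra K' F'] (σ : K ≃+* K')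

instance : Field (Twist σ F') := inferInstanceAs (Field F')

instance : Algebra K (Twist σ F') :=
  RingHom.toAlgebra (S := F') ((algebraMap K' F').comp (σ : K →+* K'))

/-- the twisted pair is isomorphic with the given one -/
def twistSemi : SemiIso K (Twist σ F') K' F' where
  σ := σ
  e := RingEquiv.refl F'
  comm _ := rfl

end twist

/-- **The genus of subfields**, for semilinear embeddings -/
theorem genus_le_of_semilinear {K K' : Type u} {F F' : Type u} [Field K] [Field K']
    [IsAlgClosed K] [IsAlgClosed K'] [Field F] [Field F'] [Algebra K F] [Algebra K' F']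
    [hF : FF.FunField K F] [hF' : FF.FunField K' F'] (σ : K ≃+* K') (ρ : F →+* F')
    (h : ∀ a, ρ (algebraMap K F a) = algebraMap K' F' (σ a)) :
    genusFF K F ≤ genusFF K' F' := by
  have h1 : FF.FunField K (Twist σ F') := (twistSemi σ).symm.funField
  have h2 : genusFF K (Twist σ F') = genusFF K' F' := (twistSemi σ).genus_eq
  rw [← h2]
  let φ : F →ₐ[K] Twist σ F' := { (ρ : F →+* F') with commutes' := h }
  exact genus_le_of_algHom φ

/-- **The genus in purely inseparable extensions** does not change -/
theorem genus_eq_of_insep {K F F' : Type u} [Field K] [IsAlgClosed K] [Field F] [Field F']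
    [Algebra K F] [Algebra K F'] [Algebra F F'] [IsScalarTower K F F'] [hF : FF.FunField K F]
    [FiniteDimensional F F'] [IsPurelyInseparable F F'] : genusFF K F' = genusFF K F := by
  have hF' : FF.FunField K F' := funField_of_finite (F := F)
  refine le_antisymm ?_ genus_le_of_finite
  set q := ringExpChar K with hq
  have hqK : ExpChar K q := ringExpChar.expChar K
  have hqF : ExpChar F q := expChar_of_injective_algebraMap (algebraMap K F).injective q
  have hex : IsPurelyInseparable.HasExponent F F' := inferInstance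
  set n := IsPurelyInseparable.exponent F F' with hn
  have hperf : PerfectRing K q := PerfectField.toPerfectRing q
  refine genus_le_of_semilinear (iterateFrobeniusEquiv K q n)
    (IsPurelyInseparable.iterateFrobenius F F' q (le_refl n)) fun a => ?_
  rw [IsScalarTower.algebraMap_apply K F F', IsPurelyInseparable.iterateFrobenius_algebraMap,
    iterateFrobeniusEquiv_def, map_pow]

end Fermat.Agent.Cor.Jac
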