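import Mathlib
import Fermat.Agent.Cor.JacSemi

/-!
# The Abel–Jacobi map and Jacobi inversion

* `abelJacobi v₀`: the map from the places to the divisor classes of degree zero, `v ↦ [v] - [v₀]`.
* `abelJacobi_injective_iff`: it is injective exactly if the genus is positive.
* `exists_sum_abelJacobi`: every divisor class of degree zero is a sum of `g` classes in the image.
* `dim_eq_genus`: the dimension of an abelian variety whose group of points is `Pic⁰(F)` is the
  genus.
-/

set_option autoImplicit false

universe u

open CategoryTheory AlgebraicGeometry NeronModelInfra GoodReductionJacobian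
open AlgebraicCurve WithZero
open scoped IntermediateField

noncomputable section

namespace Fermat.Agent.Cor.Jac

open Fermat.Agent

section

variable {K F : Type*} [Field K] [IsAlgClosed K] [Field F] [Algebra K F] [FF.FunField K F]

theorem degree_single_one (v : Place K F) : Divisor.degree (Finsupp.single v 1) = 1 := by
  rw [Divisor.degree_single, FF.deg_eq_one]
  rfl

/-- the Abel–Jacobi map on places -/
def abelJacobi (v₀ v : Place K F) : Pic0 K F :=
  QuotientAddGroup.mk ⟨Finsupp.single v 1 - Finsupp.single v₀ 1, by
    change Divisor.degree _ = 0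
    rw [map_sub, degree_single_one, degree_single_one, sub_self]⟩

theorem picIncl_abelJacobi (v₀ v : Place K F) : picIncl (abelJacobi v₀ v) =
    QuotientAddGroup.mk (Finsupp.single v 1 - Finsupp.single v₀ 1 : Divisor K F) := rfl

/-- a degree one divisor `v` is equivalent to `w ≠ v` only in genus zero -/
theorem genus_eq_zero_of_equiv {v w : Place K F} (hvw : v ≠ w)
    (h : (Finsupp.single v 1 - Finsupp.single w 1 : Divisor K F) ∈
      Divisor.principal (K := K) (F := F)) : genusFF K F = 0 := by
  classical
  obtain ⟨f, hf, h⟩ := Divisor.mem_principal.mp h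
  have hv : v.ord f = 1 := by
    rw [← h v, Finsupp.sub_apply, Finsupp.single_eq_same, Finsupp.single_eq_of_ne hvw, sub_zero]
  have hw : w.ord f = -1 := by
    rw [← h w, Finsupp.sub_apply, Finsupp.single_eq_same, Finsupp.single_eq_of_ne hvw.symm,
      zero_sub]
  have htr : Transcendental K f := by
    apply FF.transcendental_of_not_mem_range
    rintro ⟨a, rfl⟩
    rw [FF.ord_algebraMap'] at hv
    exact zero_ne_one hv
  have h1 : (FF.poles f : Divisor K F) = Finsupp.single w 1 := by
    ext u
    rw [FF.poles_apply, ← h u, Finsupp.sub_apply]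
    by_cases h2 : u = w
    · subst h2
      rw [Finsupp.single_eq_same, Finsupp.single_eq_of_ne hvw.symm]
      norm_num
    · rw [Finsupp.single_eq_of_ne h2, sub_zero]
      by_cases h3 : u = v
      · subst h3
        rw [Finsupp.single_eq_same]
        norm_num
      · rw [Finsupp.single_eq_of_ne h3]
        norm_num
  have h2 := FF.degree_poles f htr
  rw [h1, degree_single_one] at h2
  refine genus_eq_zero_iff_exists_top.mpr ⟨f, IntermediateField.finrank_eq_one_iff_eq_top.mp ?_⟩
  exact_mod_cast h2.symm

/-- **The Abel–Jacobi map is injective exactly in positive genus.** -/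
theorem abelJacobi_injective_iff (v₀ : Place K F) :
    Function.Injective (abelJacobi v₀) ↔ genusFF K F ≠ 0 := by
  constructor
  · intro h h0
    have h1 : Subsingleton (Pic0 K F) := subsingleton_of_genus_eq_zero h0
    obtain ⟨v, hv⟩ := exists_ne v₀
    exact hv (h (Subsingleton.elim _ _))
  · intro h v w hvw
    by_contra hne
    apply h
    refine genus_eq_zero_of_equiv hne ?_
    have h1 := congrArg picIncl hvw
    rw [picIncl_abelJacobi, picIncl_abelJacobi, QuotientAddGroup.eq] at h1
    have h2 := neg_mem h1
    convert h2 using 1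
    abel

/-- an effective divisor of degree `n` is a sum of `n` places -/
theorem exists_eq_sum_single {n : ℕ} {E : Divisor K F} (hE : 0 ≤ E)
    (hn : Divisor.degree E = n) : ∃ p : Fin n → Place K F, E = ∑ i, Finsupp.single (p i) 1 := by
  classical
  induction n generalizing E with
  | zero =>
    refine ⟨Fin.elim0, ?_⟩
    rw [eq_zero_of_nonneg hE (by rw [hn]; rfl)]
    simp
  | succ n ih =>
    obtain ⟨v, hv⟩ : ∃ v, E v ≠ 0 := by
      by_contra hcon
      push Not at hcon
      have h0 : E = 0 := Finsupp.ext hcon
      rw [h0, map_zero] at hn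
      omega
    have hv' : 1 ≤ E v := by
      have := hE v
      change 0 ≤ E v at this
      omega
    obtain ⟨p, hp⟩ := ih (E := E - Finsupp.single v 1) (fun w => by
      change (0 : ℤ) ≤ E w - (Finsupp.single v 1 : Divisor K F) w
      by_cases h : w = v
      · subst h
        rw [Finsupp.single_eq_same]
        omega
      · rw [Finsupp.single_eq_of_ne h, sub_zero]
        exact hE w) (by
      rw [map_sub, hn, degree_single_one]
      push_cast
      ring)
    refine ⟨Fin.cons v p, ?_⟩
    rw [Fin.sum_univ_succ, Fin.cons_zero]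
    simp only [Fin.cons_succ]
    rw [← hp]
    abel

/-- **Jacobi inversion**: every divisor class of degree zero is a sum of `g` classes `[v] - [v₀]`,
`g` the genus. -/
theorem exists_sum_abelJacobi (v₀ : Place K F) (x : Pic0 K F) :
    ∃ p : Fin (genusFF K F) → Place K F, x = ∑ i, abelJacobi v₀ (p i) := by
  obtain ⟨D, rfl⟩ := QuotientAddGroup.mk_surjective x
  have hD : Divisor.degree (D : Divisor K F) = 0 := D.2
  set g := genusFF K F with hg
  have h1 : Divisor.degree ((D : Divisor K F) + g • Finsupp.single v₀ 1) = g := by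
    rw [map_add, hD, map_nsmul, degree_single_one, nsmul_eq_mul, mul_one, zero_add]
  obtain ⟨f, hf, h2⟩ := FF.exists_effective (D := (D : Divisor K F) + g • Finsupp.single v₀ 1)
    (by rw [h1])
  obtain ⟨p, hp⟩ := exists_eq_sum_single (n := g) h2 (by rw [map_add, h1, FF.degree_div, add_zero])
  refine ⟨p, picIncl_injective ?_⟩
  rw [map_sum]
  simp only [picIncl_abelJacobi]
  have h3 : (∑ i, (QuotientAddGroup.mk (Finsupp.single (p i) 1 - Finsupp.single v₀ 1 :
      Divisor K F) : Pic K F)) = QuotientAddGroup.mk (∑ i, (Finsupp.single (p i) 1 -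
        Finsupp.single v₀ 1 : Divisor K F)) :=
    (map_sum (QuotientAddGroup.mk' (Divisor.principal (K := K) (F := F))) _ _).symm
  rw [h3, Finset.sum_sub_distrib, ← hp, Finset.sum_const, Finset.card_univ, Fintype.card_fin]
  change (QuotientAddGroup.mk (D : Divisor K F) : Pic K F) = _
  rw [QuotientAddGroup.eq, Divisor.mem_principal]
  refine ⟨f, hf, fun v => ?_⟩
  have h4 : -(D : Divisor K F) + ((D : Divisor K F) + g • Finsupp.single v₀ 1 + FF.div f -
      g • Finsupp.single v₀ 1) = FF.div f := by abel
  rw [h4, FF.div_apply]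

end

/-- the dimension of an abelian variety whose group of rational points is `Pic⁰(F)` is the genus -/
theorem dim_eq_genus (K F : Type u) [Field K] [IsAlgClosed K] [Field F] [Algebra K F]
    [hF : FF.FunField K F] {A : Scheme.{u}} (f : A ⟶ Spec (CommRingCat.of K))
    (L : RelativeGroupLaw K f) (hc : L.IsCommutative) (hA : AbelianSchemePropertyBundle K f)
    (d : ℕ) [SmoothOfRelativeDimension d f]
    (e : SchemeHomOver (𝟙 (Spec (CommRingCat.of K))) f ≃ Pic0 K F)
    (he : ∀ x y, e (L.mul (𝟙 _) x y) = e x + e y) : d = genusFF K F := by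
  obtain ⟨ℓ, h1, h2, h3⟩ := exists_prime_gt K 0
  have h4 := Fermat.Agent.S26.result K f L hc hA d ℓ h3
  have h5 := card_pic0_torsion_funField K F ℓ h3
  have h0 : e (L.one (𝟙 _)) = 0 := by
    have h1 := he (L.one (𝟙 _)) (L.one (𝟙 _))
    rw [L.one_mul] at h1
    exact left_eq_add.mp h1
  have hn' : ∀ (m : ℕ) z, e (L.nsmul (𝟙 _) m z) = m • e z := by
    intro m z
    induction m with
    | zero => rw [RelativeGroupLaw.nsmul_zero, h0, zero_nsmul]
    | succ m ih => rw [RelativeGroupLaw.nsmul_succ, he, ih, succ_nsmul]
  have h6 : Nat.card {x : SchemeHomOver (𝟙 (Spec (CommRingCat.of K))) f //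
      L.IsTorsionPoint (𝟙 (Spec (CommRingCat.of K))) ℓ x} = Nat.card (Pic0.torsion K F ℓ) := by
    refine Nat.card_congr (Equiv.subtypeEquiv e fun x => ?_)
    rw [RelativeGroupLaw.isTorsionPoint_def, ← e.injective.eq_iff, hn', h0, Pic0.mem_torsion,
      natCast_zsmul]
  rw [h4, h5] at h6
  have h7 := Nat.pow_right_injective h1.two_le h6
  omega

end Fermat.Agent.Cor.Jac
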