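import Mathlib
import Fermat.Agent.Cor.JacInv
import Fermat.Agent.Cor.Duality

/-!
# Automorphisms of a curve act faithfully on its Jacobian

* `eq_refl_of_picFEquiv`: an automorphism of a function field of genus `g ≥ 2` which acts trivially
  on the divisor classes of degree zero is the identity.
* `eq_of_picFEquiv_eq`: automorphisms with the same action are equal.
-/

set_option autoImplicit false

universe u

open AlgebraicCurve WithZero
open scoped IntermediateField

noncomputable section

namespace Fermat.Agent.Cor.Jac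

open Fermat.Agent

variable {K F : Type*} [Field K] [IsAlgClosed K] [Field F] [Algebra K F] [FF.FunField K F]

/-- in positive genus a single place is not the polar divisor of a function -/
theorem ell_single_le_one (hg : genusFF K F ≠ 0) (P : Place K F) :
    FF.ell (Finsupp.single P 1 : Divisor K F) ≤ 1 := by
  classical
  by_contra hcon
  push Not at hcon
  apply hg
  obtain ⟨f, hfD, hf⟩ : ∃ f ∈ riemannRochSpace (Finsupp.single P 1 : Divisor K F),
      f ∉ Set.range (algebraMap K F) := by
    by_contra hcon'
    push Not at hcon'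
    have h2 : riemannRochSpace (Finsupp.single P 1 : Divisor K F) ≤
        Submodule.span K {(1 : F)} := by
      intro f hf
      obtain ⟨c, rfl⟩ := hcon' f hf
      exact Submodule.mem_span_singleton.mpr ⟨c, by rw [Algebra.smul_def, mul_one]⟩
    have h3 := Submodule.finrank_mono h2
    rw [finrank_span_singleton one_ne_zero] at h3
    have h4 : FF.ell (Finsupp.single P 1 : Divisor K F) =
      Module.finrank K (riemannRochSpace (Finsupp.single P 1 : Divisor K F)) := rfl
    omega
  have htr := FF.transcendental_of_not_mem_range hf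
  refine genus_eq_zero_iff_exists_top.mpr ⟨f, IntermediateField.finrank_eq_one_iff_eq_top.mp ?_⟩
  have h5 := FF.degree_poles f htr
  have hfin : FiniteDimensional K⟮f⟯ F := (FF.isParam_of_transcendental htr).fin
  have hpos : 0 < Module.finrank K⟮f⟯ F := Module.finrank_pos
  have h6 : (0 : Divisor K F) ≤ Finsupp.single P 1 - FF.poles f := by
    intro w
    have h7 := FF.mem_L_iff.mp hfD w
    have h8 : (0 : ℤ) ≤ (Finsupp.single P 1 : Divisor K F) w := by
      rw [Finsupp.single_apply]
      split_ifs
      · exact zero_le_one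
      · exact le_rfl
    rw [w.adicValuation_le_exp_iff] at h7
    rw [Finsupp.sub_apply, FF.poles_apply, Finsupp.zero_apply]
    rcases h7 with h7 | h7
    · rw [h7, Place.ord_zero, neg_zero, max_self, sub_zero]
      exact h8
    · have h9 : max (-w.ord f) 0 ≤ (Finsupp.single P 1 : Divisor K F) w :=
        max_le (by omega) h8
      omega
  have h7 := degree_nonneg_of_nonneg h6
  rw [map_sub, degree_single_one, h5] at h7
  omega

/-- in genus at least two, for almost all places `w` the divisor `P + w` does not move -/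
theorem exists_finset_ell_le_one (hg : 2 ≤ genusFF K F) (P : Place K F) :
    ∃ S : Finset (Place K F), ∀ w ∉ S,
      FF.ell (Finsupp.single P 1 + Finsupp.single w 1 : Divisor K F) ≤ 1 := by
  classical
  obtain ⟨W, hW⟩ := RR.riemannRoch_canonical (K := K) (F := F)
  have h1 := hW (Finsupp.single P 1)
  have h2 := ell_single_le_one (by omega) P
  rw [degree_single_one] at h1
  have h2' : 0 < FF.ell (Finsupp.single P 1 : Divisor K F) := by
    by_contra hcon
    have h3 : (1 : F) ∈ riemannRochSpace (Finsupp.single P 1 : Divisor K F) := by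
      refine FF.L_mono (D := (0 : Divisor K F)) ?_ ?_
      · intro w
        rw [Finsupp.single_apply]
        split_ifs
        · exact zero_le_one
        · exact le_rfl
      · rw [FF.L_zero]
        exact Submodule.mem_span_singleton_self _
    have h4 : Nontrivial (riemannRochSpace (Finsupp.single P 1 : Divisor K F)) :=
      ⟨⟨⟨1, h3⟩, 0, fun h => one_ne_zero (congrArg Subtype.val h)⟩⟩
    have h5 : 0 < Module.finrank K (riemannRochSpace (Finsupp.single P 1 : Divisor K F)) :=
      Module.finrank_pos
    exact hcon h5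
  have h3 : 0 < FF.ell (W - Finsupp.single P 1 : Divisor K F) := by omega
  have hnt : Nontrivial (riemannRochSpace (W - Finsupp.single P 1 : Divisor K F)) :=
    Module.nontrivial_of_finrank_pos (R := K) h3
  obtain ⟨⟨h, hh⟩, hh0⟩ := exists_ne (0 : riemannRochSpace (W - Finsupp.single P 1 : Divisor K F))
  have hh0' : h ≠ 0 := fun e => hh0 (Subtype.ext e)
  refine ⟨insert P (W.support ∪ (FF.div h : Divisor K F).support), fun w hw => ?_⟩
  rw [Finset.mem_insert, Finset.mem_union, not_or, not_or, Finsupp.notMem_support_iff,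
    Finsupp.notMem_support_iff, FF.div_apply] at hw
  obtain ⟨hwP, hwW, hwh⟩ := hw
  by_contra hcon
  push Not at hcon
  have h4 := hW (Finsupp.single P 1 + Finsupp.single w 1)
  rw [map_add, degree_single_one, degree_single_one, ← sub_sub] at h4
  have hle : riemannRochSpace (W - Finsupp.single P 1 - Finsupp.single w 1 : Divisor K F) ≤
      riemannRochSpace (W - Finsupp.single P 1 : Divisor K F) := by
    refine FF.L_mono fun v => ?_
    have h8 : (0 : ℤ) ≤ (Finsupp.single w 1 : Divisor K F) v := by
      rw [Finsupp.single_apply]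
      split_ifs
      · exact zero_le_one
      · exact le_rfl
    rw [Finsupp.sub_apply _ (Finsupp.single w 1)]
    omega
  have h5 : riemannRochSpace (W - Finsupp.single P 1 - Finsupp.single w 1 : Divisor K F) =
      riemannRochSpace (W - Finsupp.single P 1 : Divisor K F) := by
    refine Submodule.eq_of_le_of_finrank_le hle ?_
    change FF.ell _ ≤ FF.ell _
    omega
  rw [← h5] at hh
  have h6 := FF.mem_L_iff.mp hh w
  rw [w.adicValuation_le_exp_iff, Finsupp.sub_apply, Finsupp.sub_apply, hwW,
    Finsupp.single_eq_same, Finsupp.single_eq_of_ne hwP] at h6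
  rcases h6 with h6 | h6
  · exact hh0' h6
  · omega

/-- an automorphism which fixes all places is the identity -/
theorem eq_refl_of_forall_place {σ : F ≃ₐ[K] F} (h : ∀ v : Place K F, plEquiv σ v = v) :
    σ = AlgEquiv.refl := by
  have h1 : ∀ (v : Place K F) (f : F), v.ord (σ f) = v.ord f := fun v f => by
    have h2 := ord_mapPl σ v f
    rw [← plEquiv_apply, h] at h2
    exact h2
  have h2 : ∀ f : F, f ≠ 0 → ∃ c : K, σ f = algebraMap K F c * f := by
    intro f hf
    obtain ⟨c, hc⟩ := FF.mem_range_of_forall_le (K := K) (f := σ f * f⁻¹) (fun v => by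
      rw [show (1 : ℤᵐ⁰) = exp 0 from rfl, v.adicValuation_le_exp_iff]
      right
      rw [v.ord_mul (by simpa using hf) (inv_ne_zero hf), v.ord_inv, h1]
      omega)
    refine ⟨c, ?_⟩
    rw [hc, mul_assoc, inv_mul_cancel₀ hf, mul_one]
  ext f
  change σ f = f
  by_cases hf : f ∈ Set.range (algebraMap K F)
  · obtain ⟨c, rfl⟩ := hf
    exact σ.commutes c
  have hf0 : f ≠ 0 := by
    rintro rfl
    exact hf ⟨0, map_zero _⟩
  have hf1 : f + 1 ≠ 0 := by
    intro h
    exact hf ⟨-1, by rw [map_neg, map_one]; exact (eq_neg_of_add_eq_zero_left h).symm⟩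
  obtain ⟨c, hc⟩ := h2 f hf0
  obtain ⟨c', hc'⟩ := h2 (f + 1) hf1
  rw [map_add, map_one, hc] at hc'
  by_cases hcc : c = c'
  · subst hcc
    have h3 : algebraMap K F c = 1 := by linear_combination -hc'
    rw [hc, h3, one_mul]
  · exfalso
    apply hf
    have h3 : algebraMap K F (c - c') * f = algebraMap K F (c' - 1) := by
      rw [map_sub, map_sub, map_one]
      linear_combination hc'
    have h4 : algebraMap K F (c - c') ≠ 0 := by
      rw [ne_eq, FaithfulSMul.algebraMap_eq_zero_iff, sub_eq_zero]
      exact hcc
    refine ⟨(c' - 1) / (c - c'), ?_⟩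
    rw [map_div₀, ← h3, mul_div_assoc, mul_comm, div_mul_cancel₀ _ h4]

/-- **Automorphisms act faithfully on the Jacobian**: an automorphism of a function field of genus at
least two which acts trivially on the divisor classes of degree zero is the identity. -/
theorem eq_refl_of_picFEquiv (hg : 2 ≤ genusFF K F) {σ : F ≃ₐ[K] F}
    (h : ∀ x : Pic0 K F, picFEquiv σ (picIncl x) = picIncl x) : σ = AlgEquiv.refl := by
  classical
  refine eq_refl_of_forall_place fun v => ?_
  by_contra hv
  set P := plEquiv σ v with hP
  obtain ⟨S, hS⟩ := exists_finset_ell_le_one hg P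
  obtain ⟨w, hw⟩ := Infinite.exists_notMem_finset (insert v S)
  rw [Finset.mem_insert, not_or] at hw
  obtain ⟨hwv, hwS⟩ := hw
  have h1 := h (abelJacobi v w)
  rw [picIncl_abelJacobi] at h1
  have h2 : picFEquiv σ (QuotientAddGroup.mk (Finsupp.single w 1 - Finsupp.single v 1 :
      Divisor K F)) = QuotientAddGroup.mk (divEquiv σ (Finsupp.single w 1 - Finsupp.single v 1)) :=
    rfl
  have h3 : ∀ u : Place K F, divEquiv σ (Finsupp.single u 1) = Finsupp.single (plEquiv σ u) 1 :=
    fun u => Finsupp.equivMapDomain_single _ _ _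
  rw [h2, map_sub, h3, h3, ← hP, QuotientAddGroup.eq, Divisor.mem_principal] at h1
  obtain ⟨f, hf, h4⟩ := h1
  have hs : ∀ a b : Place K F, (0 : ℤ) ≤ (Finsupp.single a 1 : Divisor K F) b := fun a b => by
    rw [Finsupp.single_apply]
    split_ifs
    · exact zero_le_one
    · exact le_rfl
  have h5 : ∀ u : Place K F, u.ord f⁻¹ = (Finsupp.single v 1 : Divisor K F) u +
      (Finsupp.single (plEquiv σ w) 1 : Divisor K F) u - (Finsupp.single w 1 : Divisor K F) u -
      (Finsupp.single P 1 : Divisor K F) u := fun u => by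
    rw [u.ord_inv, ← h4 u, Finsupp.add_apply, Finsupp.neg_apply, Finsupp.sub_apply,
      Finsupp.sub_apply]
    ring
  have h6 : f⁻¹ ∈ riemannRochSpace (Finsupp.single P 1 + Finsupp.single w 1 : Divisor K F) := by
    rw [FF.mem_L_iff]
    intro u
    rw [u.adicValuation_le_exp_iff]
    right
    rw [h5, Finsupp.add_apply]
    have h7 := hs v u
    have h8 := hs (plEquiv σ w) u
    omega
  have h7 : (1 : F) ∈ riemannRochSpace (Finsupp.single P 1 + Finsupp.single w 1 :
      Divisor K F) := by
    refine FF.L_mono (D := (0 : Divisor K F)) (fun u => ?_) ?_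
    · rw [Finsupp.add_apply]
      exact add_nonneg (hs P u) (hs w u)
    · rw [FF.L_zero]
      exact Submodule.mem_span_singleton_self _
  have h8 : Submodule.span K {(1 : F)} =
      riemannRochSpace (Finsupp.single P 1 + Finsupp.single w 1 : Divisor K F) := by
    refine Submodule.eq_of_le_of_finrank_le ((Submodule.span_singleton_le_iff_mem _ _).mpr h7) ?_
    rw [finrank_span_singleton one_ne_zero]
    exact hS w hwS
  rw [← h8, Submodule.mem_span_singleton] at h6
  obtain ⟨c, hc⟩ := h6
  rw [Algebra.smul_def, mul_one] at hc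
  have h9 := h5 v
  rw [← hc, FF.ord_algebraMap', Finsupp.single_eq_same, Finsupp.single_eq_of_ne (Ne.symm hwv),
    Finsupp.single_eq_of_ne (Ne.symm hv)] at h9
  have h10 := hs (plEquiv σ w) v
  omega

omit [IsAlgClosed K] [FF.FunField K F] in
theorem divEquiv_trans (σ τ : F ≃ₐ[K] F) (D : Divisor K F) :
    divEquiv (σ.trans τ) D = divEquiv τ (divEquiv σ D) := by
  ext w
  obtain ⟨w, rfl⟩ := (plEquiv τ).surjective w
  obtain ⟨v, rfl⟩ := (plEquiv σ).surjective w
  rw [divEquiv_apply, divEquiv_apply]
  have h1 : plEquiv τ (plEquiv σ v) = plEquiv (σ.trans τ) v := rfl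
  rw [h1, divEquiv_apply]

omit [IsAlgClosed K] [FF.FunField K F] in
theorem picFEquiv_trans (σ τ : F ≃ₐ[K] F) (x : Pic K F) :
    picFEquiv (σ.trans τ) x = picFEquiv τ (picFEquiv σ x) := by
  obtain ⟨D, rfl⟩ := QuotientAddGroup.mk_surjective x
  exact congrArg QuotientAddGroup.mk (divEquiv_trans σ τ D)

omit [IsAlgClosed K] [FF.FunField K F] in
theorem picFEquiv_refl (x : Pic K F) : picFEquiv (AlgEquiv.refl : F ≃ₐ[K] F) x = x := by
  obtain ⟨D, rfl⟩ := QuotientAddGroup.mk_surjective x
  refine congrArg QuotientAddGroup.mk ?_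
  ext v
  exact divEquiv_apply (AlgEquiv.refl : F ≃ₐ[K] F) D v

/-- **Torelli for automorphisms, injectivity**: two automorphisms of a function field of genus at
least two with the same action on the divisor classes of degree zero are equal. -/
theorem eq_of_picFEquiv_eq (hg : 2 ≤ genusFF K F) {σ τ : F ≃ₐ[K] F}
    (h : ∀ x : Pic0 K F, picFEquiv σ (picIncl x) = picFEquiv τ (picIncl x)) : σ = τ := by
  have h1 : σ.trans τ.symm = AlgEquiv.refl := by
    refine eq_refl_of_picFEquiv hg fun x => ?_
    rw [picFEquiv_trans, h, ← picFEquiv_trans]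
    have h2 : τ.trans τ.symm = AlgEquiv.refl := by
      ext f
      exact τ.symm_apply_apply f
    rw [h2, picFEquiv_refl]
  ext f
  have h2 := congrArg (fun e : F ≃ₐ[K] F => τ (e f)) h1
  change τ (τ.symm (σ f)) = τ f at h2
  rwa [AlgEquiv.apply_symm_apply] at h2

end Fermat.Agent.Cor.Jac
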