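import Mathlib
import Fermat.Agent.Cor.JacAut

/-!
# The hyperelliptic involution

* `finrank_eq_two_of_neg`: a function field of genus at least two with an automorphism which acts on
  the divisor classes of degree zero as `-1` is of degree two over a rational function field.
* `neg_unique`, `neg_involutive`, `neg_central`: such an automorphism is unique, it is an involution
  and it commutes with all automorphisms.
-/

set_option autoImplicit false

universe u

open AlgebraicCurve WithZero
open scoped IntermediateField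

noncomputable section

namespace Fermat.Agent.Cor.Jac

open Fermat.Agent

variable {K F : Type*} [Field K] [IsAlgClosed K] [Field F] [Algebra K F] [FF.FunField K F]

/-- the automorphism acts as `-1` on the divisor classes of degree zero -/
def ActsAsNeg (σ : F ≃ₐ[K] F) : Prop := ∀ x : Pic0 K F, picFEquiv σ (picIncl x) = -picIncl x

theorem finrank_eq_two_of_neg (hg : genusFF K F ≠ 0) {σ : F ≃ₐ[K] F} (h : ActsAsNeg σ) :
    ∃ f : F, Transcendental K f ∧ Module.finrank K⟮f⟯ F = 2 := by
  classical
  obtain ⟨v⟩ := FF.nonempty_place (K := K) (F := F)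
  set P := plEquiv σ v with hP
  obtain ⟨w, hw⟩ := Infinite.exists_notMem_finset ({v, P} : Finset (Place K F))
  rw [Finset.mem_insert, Finset.mem_singleton, not_or] at hw
  obtain ⟨hwv, hwP⟩ := hw
  have h1 := h (abelJacobi v w)
  rw [picIncl_abelJacobi] at h1
  have h2 : picFEquiv σ (QuotientAddGroup.mk (Finsupp.single w 1 - Finsupp.single v 1 :
      Divisor K F)) = QuotientAddGroup.mk (divEquiv σ (Finsupp.single w 1 - Finsupp.single v 1)) :=
    rfl
  have h3 : ∀ u : Place K F, divEquiv σ (Finsupp.single u 1) = Finsupp.single (plEquiv σ u) 1 :=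
    fun u => Finsupp.equivMapDomain_single _ _ _
  rw [h2, map_sub, h3, h3, ← hP, ← QuotientAddGroup.mk_neg, QuotientAddGroup.eq,
    Divisor.mem_principal] at h1
  obtain ⟨f, hf, h4⟩ := h1
  have hs : ∀ a b : Place K F, (0 : ℤ) ≤ (Finsupp.single a 1 : Divisor K F) b := fun a b => by
    rw [Finsupp.single_apply]
    split_ifs
    · exact zero_le_one
    · exact le_rfl
  have h5 : ∀ u : Place K F, u.ord f = (Finsupp.single v 1 : Divisor K F) u +
      (Finsupp.single P 1 : Divisor K F) u - (Finsupp.single w 1 : Divisor K F) u -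
      (Finsupp.single (plEquiv σ w) 1 : Divisor K F) u := fun u => by
    rw [← h4 u, Finsupp.add_apply, Finsupp.neg_apply, Finsupp.neg_apply, Finsupp.sub_apply,
      Finsupp.sub_apply]
    ring
  have h6 : w.ord f < 0 := by
    have h7 := h5 w
    rw [Finsupp.single_eq_same, Finsupp.single_eq_of_ne hwv, Finsupp.single_eq_of_ne hwP] at h7
    have h8 := hs (plEquiv σ w) w
    omega
  have htr : Transcendental K f := by
    apply FF.transcendental_of_not_mem_range
    rintro ⟨a, rfl⟩
    rw [FF.ord_algebraMap'] at h6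
    exact lt_irrefl _ h6
  have hfin : FiniteDimensional K⟮f⟯ F := (FF.isParam_of_transcendental htr).fin
  have hpos : 0 < Module.finrank K⟮f⟯ F := Module.finrank_pos
  have h7 : (0 : Divisor K F) ≤ Finsupp.single w 1 + Finsupp.single (plEquiv σ w) 1 -
      FF.poles f := by
    intro u
    rw [Finsupp.sub_apply, Finsupp.add_apply, FF.poles_apply, Finsupp.zero_apply, h5]
    have h8 := hs v u
    have h9 := hs P u
    have h10 := hs w u
    have h11 := hs (plEquiv σ w) u
    have h12 : max (-((Finsupp.single v 1 : Divisor K F) u + (Finsupp.single P 1 : Divisor K F) u -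
        (Finsupp.single w 1 : Divisor K F) u - (Finsupp.single (plEquiv σ w) 1 : Divisor K F) u)) 0
        ≤ (Finsupp.single w 1 : Divisor K F) u +
          (Finsupp.single (plEquiv σ w) 1 : Divisor K F) u := max_le (by omega) (by omega)
    omega
  have h8 := degree_nonneg_of_nonneg h7
  rw [map_sub, map_add, degree_single_one, degree_single_one, FF.degree_poles f htr] at h8
  refine ⟨f, htr, ?_⟩
  have h9 : Module.finrank K⟮f⟯ F ≠ 1 := fun h10 => hg (genus_eq_zero_iff_exists_top.mpr
    ⟨f, IntermediateField.finrank_eq_one_iff_eq_top.mp h10⟩)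
  omega

/-- there is at most one automorphism acting as `-1` -/
theorem neg_unique (hg : 2 ≤ genusFF K F) {σ τ : F ≃ₐ[K] F} (hσ : ActsAsNeg σ)
    (hτ : ActsAsNeg τ) : σ = τ :=
  eq_of_picFEquiv_eq hg fun x => (hσ x).trans (hτ x).symm

theorem exists_picIncl_eq (τ : F ≃ₐ[K] F) (x : Pic0 K F) :
    ∃ y : Pic0 K F, picIncl y = picFEquiv τ (picIncl x) := by
  rw [← picDeg_eq_zero_iff, picDeg_picFEquiv]
  exact (picDeg_eq_zero_iff _).mpr ⟨x, rfl⟩

/-- the hyperelliptic involution is an involution -/
theorem neg_involutive (hg : 2 ≤ genusFF K F) {σ : F ≃ₐ[K] F} (hσ : ActsAsNeg σ) (f : F) :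
    σ (σ f) = f := by
  have h1 : σ.trans σ = AlgEquiv.refl := eq_refl_of_picFEquiv hg fun x => by
    rw [picFEquiv_trans, hσ, map_neg, hσ, neg_neg]
  exact congrArg (fun e : F ≃ₐ[K] F => e f) h1

/-- **the hyperelliptic involution is central** in the group of automorphisms -/
theorem neg_central (hg : 2 ≤ genusFF K F) {σ : F ≃ₐ[K] F} (hσ : ActsAsNeg σ) (τ : F ≃ₐ[K] F) :
    σ * τ = τ * σ := by
  have h1 : τ.trans σ = σ.trans τ := eq_of_picFEquiv_eq hg fun x => by
    rw [picFEquiv_trans, picFEquiv_trans, hσ, map_neg]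
    obtain ⟨y, hy⟩ := exists_picIncl_eq τ x
    rw [← hy, hσ]
  exact h1

end Fermat.Agent.Cor.Jac
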