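import Mathlib
import Fermat.Agent.Cor.JacHyp

/-!
# Hyperelliptic function fields: the involution acts as `-1` on the Jacobian

* `exists_actsAsNeg`: a function field of positive genus which is of degree two over a rational
  function field has an automorphism acting as `-1` on the divisor classes of degree zero.
* `hyperelliptic_iff`: for genus at least one such an automorphism exists if and only if the function
  field is of degree two over a rational function field.
-/

set_option autoImplicit false

universe u

open AlgebraicCurve WithZero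
open scoped IntermediateField

noncomputable section

namespace Fermat.Agent.Cor.Jac

open Fermat.Agent

section

variable {K F : Type*} [Field K] [IsAlgClosed K] [Field F] [Algebra K F] [FF.FunField K F]

omit [IsAlgClosed K] [FF.FunField K F] in
theorem ord_place (τ : F ≃ₐ[K] F) (v : Place K F) (f : F) :
    (plEquiv τ v).ord (τ f) = v.ord f := ord_mapPl τ v f

/-- transport of the polar divisor of an invariant function -/
theorem poles_inv {τ : F ≃ₐ[K] F} {y : F} (hy : τ y = y) (v : Place K F) :
    (FF.poles y : Divisor K F) (plEquiv τ v) = (FF.poles y : Divisor K F) v := by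
  rw [FF.poles_apply, FF.poles_apply]
  have h1 := ord_place τ v y
  rw [hy] at h1
  rw [h1]

theorem poles_sub_const_le (f : F) (c : K) (w : Place K F) :
    (FF.poles (f - algebraMap K F c) : Divisor K F) w ≤ (FF.poles f : Divisor K F) w := by
  have h0 : ∀ v, 0 ≤ (FF.poles f : Divisor K F) v := fun v => by
    rw [FF.poles_apply]
    exact le_max_right _ _
  have h1 : f - algebraMap K F c ∈ riemannRochSpace (FF.poles f : Divisor K F) := by
    refine sub_mem (FF.mem_L_poles f) (FF.L_mono (D := (0 : Divisor K F)) h0 ?_)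
    rw [FF.L_zero]
    exact Submodule.mem_span_singleton.mpr ⟨c, by rw [Algebra.smul_def, mul_one]⟩
  have h2 := FF.mem_L_iff.mp h1 w
  rw [w.adicValuation_le_exp_iff] at h2
  rw [FF.poles_apply]
  rcases h2 with h2 | h2
  · rw [h2, Place.ord_zero, neg_zero, max_self]
    exact h0 w
  · exact max_le (by omega) (h0 w)

/-- there is only one place of `K(y)` which is a pole of `y` -/
theorem eq_of_pole {y : F} (hy : Transcendental K y) (htop : K⟮y⟯ = ⊤) {u u' : Place K F}
    (hu : u.ord y < 0) (hu' : u'.ord y < 0) : u = u' := by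
  classical
  have h1 := FF.degree_poles y hy
  rw [IntermediateField.finrank_eq_one_iff_eq_top.mpr htop] at h1
  obtain ⟨p, hp⟩ := exists_eq_sum_single (n := 1) (E := (FF.poles y : Divisor K F))
    (fun v => by
      rw [FF.poles_apply]
      exact le_max_right _ _) h1
  rw [Fin.sum_univ_one] at hp
  have h2 : ∀ w : Place K F, w.ord y < 0 → w = p 0 := by
    intro w hw
    by_contra hne
    have h3 := congrArg (fun D : Divisor K F => D w) hp
    change (FF.poles y : Divisor K F) w = (Finsupp.single (p 0) 1 : Divisor K F) w at h3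
    rw [FF.poles_apply, Finsupp.single_eq_of_ne hne] at h3
    have h4 := le_max_left (-w.ord y) 0
    omega
  rw [h2 u hu, h2 u' hu']

end

section

variable {K F : Type u} [Field K] [IsAlgClosed K] [Field F] [Algebra K F] [FF.FunField K F]

omit [IsAlgClosed K] [FF.FunField K F] in
theorem adjoin_gen_eq_top (x : F) : K⟮IntermediateField.AdjoinSimple.gen K x⟯ = ⊤ := by
  apply IntermediateField.lift_injective K⟮x⟯
  rw [IntermediateField.lift_adjoin_simple, IntermediateField.lift_top,
    IntermediateField.AdjoinSimple.coe_gen]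

/-- a quadratic extension of a rational function field of positive genus is separable -/
theorem isSeparable_of_finrank_eq_two (hg : genusFF K F ≠ 0) {x : F} (hx : Transcendental K x)
    (h2 : Module.finrank K⟮x⟯ F = 2) : Algebra.IsSeparable K⟮x⟯ F := by
  have hx' : Transcendental K (IntermediateField.AdjoinSimple.gen K x) := by
    rw [← transcendental_algebraMap_iff (algebraMap K⟮x⟯ F).injective]
    exact hx
  obtain ⟨hE, hfin⟩ := funField_of_subfield (F' := F) hx'
  rw [← separableClosure.eq_top_iff]
  by_contra hne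
  have h3 := Module.finrank_mul_finrank K⟮x⟯ (separableClosure K⟮x⟯ F) F
  have h4 : Module.finrank (separableClosure K⟮x⟯ F) F ≠ 1 := fun h =>
    hne (IntermediateField.finrank_eq_one_iff_eq_top.mp h)
  have h5 : Module.finrank K⟮x⟯ (separableClosure K⟮x⟯ F) = 1 := by
    rw [h2] at h3
    have h6 : Module.finrank (separableClosure K⟮x⟯ F) F ∣ 2 := ⟨_, by rw [mul_comm]; exact h3.symm⟩
    have h7 := (Nat.dvd_prime Nat.prime_two).mp h6
    rcases h7 with h7 | h7
    · exact absurd h7 h4
    · rw [h7] at h3
      omega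
  have h6 : separableClosure K⟮x⟯ F = ⊥ := IntermediateField.finrank_eq_one_iff.mp h5
  have h7 : IsPurelyInseparable K⟮x⟯ F := (separableClosure.eq_bot_iff).mp h6
  apply hg
  rw [genus_eq_of_insep (F := K⟮x⟯)]
  exact genus_eq_zero_iff_exists_top.mpr ⟨_, adjoin_gen_eq_top x⟩

/-- the fibre of a degree two function through a place -/
theorem poles_eq_of_quadratic {y : F} (hy : Transcendental K y)
    (h2 : Module.finrank K⟮y⟯ F = 2) {σ : F ≃ₐ[K⟮y⟯] F}
    (hσ : ∀ τ : F ≃ₐ[K⟮y⟯] F, τ = 1 ∨ τ = σ) (hgal : IsGalois K⟮y⟯ F) {v : Place K F}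
    (hv : v.ord y < 0) : (FF.poles y : Divisor K F) =
      Finsupp.single v 1 + Finsupp.single (plEquiv (σ.restrictScalars K) v) 1 := by
  classical
  set s : F ≃ₐ[K] F := σ.restrictScalars K with hs
  have hsy : s y = y := σ.commutes (IntermediateField.AdjoinSimple.gen K y)
  have hy' : Transcendental K (IntermediateField.AdjoinSimple.gen K y) := by
    rw [← transcendental_algebraMap_iff (algebraMap K⟮y⟯ F).injective]
    exact hy
  obtain ⟨hE, hfin⟩ := funField_of_subfield (F' := F) hy'
  have h1 := FF.degree_poles y hy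
  rw [h2] at h1
  obtain ⟨p, hp⟩ := exists_eq_sum_single (n := 2) (E := (FF.poles y : Divisor K F))
    (fun v => by
      rw [FF.poles_apply]
      exact le_max_right _ _) h1
  rw [Fin.sum_univ_two] at hp
  have hmem : ∀ w : Place K F, (FF.poles y : Divisor K F) w ≠ 0 ↔ w = p 0 ∨ w = p 1 := by
    intro w
    rw [hp, Finsupp.add_apply, Finsupp.single_apply, Finsupp.single_apply]
    constructor
    · intro h
      by_contra hcon
      push Not at hcon
      rw [if_neg (Ne.symm hcon.1), if_neg (Ne.symm hcon.2)] at h
      exact h rfl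
    · rintro (h | h)
      · rw [if_pos h.symm]
        split_ifs <;> norm_num
      · rw [if_pos h.symm]
        split_ifs <;> norm_num
  have hpole : ∀ w : Place K F, (FF.poles y : Divisor K F) w ≠ 0 ↔ w.ord y < 0 := by
    intro w
    rw [FF.poles_apply]
    rcases le_total (-w.ord y) 0 with h | h
    · rw [max_eq_right h]
      omega
    · rw [max_eq_left h]
      omega
  obtain ⟨v', hv'⟩ : ∃ v', (FF.poles y : Divisor K F) = Finsupp.single v 1 +
      Finsupp.single v' 1 := by
    rcases (hmem v).mp ((hpole v).mpr hv) with h | h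
    · exact ⟨p 1, by rw [hp, h]⟩
    · exact ⟨p 0, by rw [hp, h, add_comm]⟩
  have hv'mem : v'.ord y < 0 := by
    rw [← hpole, hv', Finsupp.add_apply, Finsupp.single_eq_same, Finsupp.single_apply]
    split_ifs <;> norm_num
  have hσv : plEquiv s v = v ∨ plEquiv s v = v' := by
    have h3 : (FF.poles y : Divisor K F) (plEquiv s v) ≠ 0 := by
      rw [poles_inv hsy, hpole]
      exact hv
    rw [hv', Finsupp.add_apply, Finsupp.single_apply, Finsupp.single_apply] at h3
    by_contra hcon
    push Not at hcon
    rw [if_neg (Ne.symm hcon.1), if_neg (Ne.symm hcon.2)] at h3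
    exact h3 rfl
  rcases hσv with hσv | hσv
  swap
  · rw [hv', hσv]
  rw [hσv, hv']
  suffices h : v' = v by rw [h]
  by_contra hne
  -- all elements of the Galois group fix `v`
  have hfix : ∀ τ : F ≃ₐ[K⟮y⟯] F, plEquiv (τ.restrictScalars K) v = v := by
    intro τ
    rcases hσ τ with rfl | rfl
    · ext u
      exact Iff.rfl
    · exact hσv
  obtain ⟨f, hf, hfv⟩ := exists_pole_only v
  have hf0 : f ≠ 0 := by
    rintro rfl
    exact hf isAlgebraic_zero
  have hfv' : v.ord f < 0 := by
    obtain ⟨w, hw⟩ := FF.exists_pole hf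
    rwa [hfv w hw] at hw
  set n := Algebra.norm K⟮y⟯ f with hn
  have hprod : algebraMap K⟮y⟯ F n = ∏ τ : F ≃ₐ[K⟮y⟯] F, τ f :=
    Algebra.norm_eq_prod_automorphisms K⟮y⟯ f
  have hordprod : ∀ w : Place K F, w.ord (algebraMap K⟮y⟯ F n) =
      ∑ τ : F ≃ₐ[K⟮y⟯] F, w.ord (τ f) := by
    intro w
    rw [hprod]
    have h3 : ∀ S : Finset (F ≃ₐ[K⟮y⟯] F), w.ord (∏ τ ∈ S, τ f) = ∑ τ ∈ S, w.ord (τ f) := by
      intro S
      induction S using Finset.induction_on with
      | empty => rw [Finset.prod_empty, Finset.sum_empty, w.ord_one]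
      | insert a S ha ih =>
        rw [Finset.prod_insert ha, Finset.sum_insert ha, w.ord_mul (by simpa using hf0)
          (Finset.prod_ne_zero_iff.mpr fun b _ => by simpa using hf0), ih]
    exact h3 _
  have h3 : v.ord (algebraMap K⟮y⟯ F n) < 0 := by
    rw [hordprod]
    refine Finset.sum_neg (fun τ _ => ?_) Finset.univ_nonempty
    have h4 := ord_place (τ.restrictScalars K) v f
    rw [hfix] at h4
    change v.ord (τ f) = v.ord f at h4
    rw [h4]
    exact hfv'
  have h4 : 0 ≤ v'.ord (algebraMap K⟮y⟯ F n) := by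
    rw [hordprod]
    refine Finset.sum_nonneg fun τ _ => ?_
    obtain ⟨w, rfl⟩ := (plEquiv (τ.restrictScalars K)).surjective v'
    have h5 := ord_place (τ.restrictScalars K) w f
    change (plEquiv (τ.restrictScalars K) w).ord (τ f) = w.ord f at h5
    rw [h5]
    by_contra h6
    push Not at h6
    have h7 := hfv w h6
    subst h7
    exact hne (hfix τ)
  have h5 : v.restrict K⟮y⟯ = v'.restrict K⟮y⟯ := by
    have h6 : ∀ w : Place K F, w.ord y < 0 →
        (w.restrict K⟮y⟯).ord (IntermediateField.AdjoinSimple.gen K y) < 0 := by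
      intro w hw
      have h7 := w.ord_restrict (F := K⟮y⟯) (IntermediateField.AdjoinSimple.gen K y)
      rw [IntermediateField.AdjoinSimple.algebraMap_gen] at h7
      rw [h7] at hw
      by_contra hcon
      push Not at hcon
      have h8 := mul_nonneg (Int.natCast_nonneg (w.ramificationIndex K⟮y⟯)) hcon
      omega
    exact eq_of_pole hy' (adjoin_gen_eq_top y) (h6 v hv) (h6 v' hv'mem)
  rw [Place.ord_restrict] at h3 h4
  rw [← h5] at h4
  have h6 : (0 : ℤ) < v'.ramificationIndex K⟮y⟯ :=
    Int.natCast_pos.mpr (v'.ramificationIndex_pos (F := K⟮y⟯))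
  have h7 : 0 ≤ (v.restrict K⟮y⟯).ord n := by
    by_contra hcon
    push Not at hcon
    have := mul_neg_of_pos_of_neg h6 hcon
    omega
  have h8 := mul_nonneg (Int.natCast_nonneg (v.ramificationIndex K⟮y⟯)) h7
  omega

theorem poles_eq_of_quadratic' {E : IntermediateField K F} {y : F} (hE : K⟮y⟯ = E)
    (hy : Transcendental K y) (h2 : Module.finrank E F = 2) {σ : F ≃ₐ[E] F}
    (hσ : ∀ τ : F ≃ₐ[E] F, τ = 1 ∨ τ = σ) (hgal : IsGalois E F) {v : Place K F}
    (hv : v.ord y < 0) : (FF.poles y : Divisor K F) =
      Finsupp.single v 1 + Finsupp.single (plEquiv (σ.restrictScalars K) v) 1 := by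
  subst hE
  exact poles_eq_of_quadratic hy h2 hσ hgal hv

/-- **the hyperelliptic involution acts as `-1`** -/
theorem exists_actsAsNeg (hg : genusFF K F ≠ 0) {x : F} (hx : Transcendental K x)
    (h2 : Module.finrank K⟮x⟯ F = 2) : ∃ σ : F ≃ₐ[K] F, ActsAsNeg σ := by
  classical
  have hsep := isSeparable_of_finrank_eq_two hg hx h2
  have hq : Algebra.IsQuadraticExtension K⟮x⟯ F := ⟨h2⟩
  have hfin : FiniteDimensional K⟮x⟯ F := (FF.isParam_of_transcendental hx).fin
  have hgal : IsGalois K⟮x⟯ F := inferInstance
  have hcard : Nat.card (F ≃ₐ[K⟮x⟯] F) = 2 := by rw [IsGalois.card_aut_eq_finrank, h2]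
  obtain ⟨σ, hσ1, hσ⟩ := (Nat.card_eq_two_iff' (1 : F ≃ₐ[K⟮x⟯] F)).mp hcard
  have hσ' : ∀ τ : F ≃ₐ[K⟮x⟯] F, τ = 1 ∨ τ = σ := fun τ => by
    by_cases h : τ = 1
    · exact Or.inl h
    · exact Or.inr (hσ τ h)
  have key : ∀ v : Place K F, (QuotientAddGroup.mk (Finsupp.single v 1 +
      Finsupp.single (plEquiv (σ.restrictScalars K) v) 1 : Divisor K F) : Pic K F) =
        QuotientAddGroup.mk (FF.poles x) := by
    intro v
    by_cases hv : v.ord x < 0
    · rw [poles_eq_of_quadratic' rfl hx h2 hσ' hgal hv]
    push Not at hv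
    obtain ⟨c, hc⟩ : ∃ c : K, 0 < v.ord (x - algebraMap K F c) := by
      obtain ⟨c, hc⟩ := FF.exists_val v x (by
        rw [show (1 : ℤᵐ⁰) = exp 0 from rfl, v.adicValuation_le_exp_iff]
        right
        omega)
      rw [show (1 : ℤᵐ⁰) = exp 0 from rfl, FF.val_lt_exp_iff] at hc
      rcases hc with hc | hc
      · exact (hx (by
          rw [sub_eq_zero.mp hc]
          exact isAlgebraic_algebraMap c)).elim
      · exact ⟨c, by omega⟩
    have hxc : Transcendental K (x - algebraMap K F c) := FF.transcendental_sub_const hx c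
    have hxc0 : x - algebraMap K F c ≠ 0 := by
      intro h
      rw [h] at hc
      simp at hc
    have h3 : K⟮(x - algebraMap K F c)⁻¹⟯ = K⟮x⟯ := by
      apply le_antisymm
      · rw [IntermediateField.adjoin_simple_le_iff]
        exact inv_mem (sub_mem (IntermediateField.mem_adjoin_simple_self K x)
          (IntermediateField.algebraMap_mem _ _))
      · rw [IntermediateField.adjoin_simple_le_iff]
        have h4 : x = ((x - algebraMap K F c)⁻¹)⁻¹ + algebraMap K F c := by
          rw [inv_inv, sub_add_cancel]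
        rw [h4]
        refine add_mem (inv_mem ?_) (IntermediateField.algebraMap_mem _ _)
        rw [← h4]
        exact IntermediateField.mem_adjoin_simple_self K _
    have h4 := poles_eq_of_quadratic' h3 (FF.transcendental_inv hxc) h2 hσ' hgal (v := v) (by
      rw [v.ord_inv]
      omega)
    rw [← h4, QuotientAddGroup.eq, Divisor.mem_principal]
    refine ⟨(x - algebraMap K F c)⁻¹, inv_ne_zero hxc0, fun w => ?_⟩
    have h5 := poles_sub_const_le x c w
    have h6 := poles_sub_const_le (x - algebraMap K F c) (-c) w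
    rw [map_neg, sub_neg_eq_add, sub_add_cancel] at h6
    have h7 := le_antisymm h5 h6
    rw [Finsupp.add_apply, Finsupp.neg_apply, ← h7, FF.poles_apply, FF.poles_apply, w.ord_inv,
      neg_neg]
    rcases le_total (w.ord (x - algebraMap K F c)) 0 with h | h
    · rw [max_eq_right h, max_eq_left (by omega)]
      omega
    · rw [max_eq_left h, max_eq_right (by omega)]
      omega
  refine ⟨σ.restrictScalars K, fun z => ?_⟩
  have h5 : ∀ D : Divisor K F, (QuotientAddGroup.mk D : Pic K F) +
      picFEquiv (σ.restrictScalars K) (QuotientAddGroup.mk D) =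
        Divisor.degree D • (QuotientAddGroup.mk (FF.poles x) : Pic K F) := by
    intro D
    induction D using Finsupp.induction_linear with
    | zero =>
      change (QuotientAddGroup.mk 0 : Pic K F) + picFEquiv _ (QuotientAddGroup.mk 0) = _
      rw [QuotientAddGroup.mk_zero, map_zero, map_zero, zero_zsmul, add_zero]
    | add D E hD hE =>
      rw [QuotientAddGroup.mk_add, map_add, map_add, add_zsmul, ← hD, ← hE]
      abel
    | single v n =>
      have h6 : (Finsupp.single v n : Divisor K F) = n • Finsupp.single v 1 := by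
        rw [Finsupp.smul_single, smul_eq_mul, mul_one]
      have h7 : picFEquiv (σ.restrictScalars K) (QuotientAddGroup.mk (Finsupp.single v 1)) =
          (QuotientAddGroup.mk (Finsupp.single (plEquiv (σ.restrictScalars K) v) 1) : Pic K F) :=
        congrArg QuotientAddGroup.mk (Finsupp.equivMapDomain_single _ _ _)
      rw [h6, QuotientAddGroup.mk_zsmul, map_zsmul, map_zsmul, h7, degree_single_one,
        ← zsmul_add, ← QuotientAddGroup.mk_add, key, smul_eq_mul, mul_one]
  obtain ⟨D, rfl⟩ := QuotientAddGroup.mk_surjective z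
  have h6 := h5 D
  rw [show Divisor.degree (D : Divisor K F) = 0 from D.2, zero_zsmul] at h6
  exact eq_neg_of_add_eq_zero_right h6

/-- **Hyperelliptic function fields**: for a function field of positive genus there is an
automorphism acting as `-1` on the divisor classes of degree zero if and only if the field is of
degree two over a rational function field. -/
theorem hyperelliptic_iff (hg : genusFF K F ≠ 0) :
    (∃ σ : F ≃ₐ[K] F, ActsAsNeg σ) ↔
      ∃ x : F, Transcendental K x ∧ Module.finrank K⟮x⟯ F = 2 :=
  ⟨fun ⟨_, hσ⟩ => finrank_eq_two_of_neg hg hσ, fun ⟨_, hx, h2⟩ => exists_actsAsNeg hg hx h2⟩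

end

end Fermat.Agent.Cor.Jac
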