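import Mathlib
import Fermat.Agent.Cor.JacHyp2

/-!
# Function fields of genus one and two are hyperelliptic

* `exists_deg_two`: a divisor of degree two which moves gives a function of degree two.
* `exists_actsAsNeg_of_genus_le_two`: a function field of genus one or two has an automorphism which
  acts as `-1` on the divisor classes of degree zero.
* `exists_central_involution`: the automorphism group in genus two has a canonical central involution.
-/

set_option autoImplicit false

universe u

open AlgebraicCurve WithZero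
open scoped IntermediateField

noncomputable section

namespace Fermat.Agent.Cor.Jac

open Fermat.Agent

section

variable {K F : Type*} [Field K] [IsAlgClosed K] [Field F] [Algebra K F] [FF.FunField K F]

theorem exists_deg_two (hg : genusFF K F ≠ 0) {D : Divisor K F} (hD : Divisor.degree D = 2)
    (h : 2 ≤ FF.ell D) : ∃ x : F, Transcendental K x ∧ Module.finrank K⟮x⟯ F = 2 := by
  have hnt : Nontrivial (riemannRochSpace D) := Module.nontrivial_of_finrank_pos (R := K) (by
    change 0 < FF.ell D
    omega)
  obtain ⟨⟨a, ha⟩, ha0⟩ := exists_ne (0 : riemannRochSpace D)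
  have ha0' : a ≠ 0 := fun e => ha0 (Subtype.ext e)
  obtain ⟨b, hb, hba⟩ : ∃ b ∈ riemannRochSpace D, b ∉ Submodule.span K {a} := by
    by_contra hcon
    push Not at hcon
    have h3 := Submodule.finrank_mono (show riemannRochSpace D ≤ Submodule.span K {a} from hcon)
    rw [finrank_span_singleton ha0'] at h3
    change FF.ell D ≤ 1 at h3
    omega
  have hb0 : b ≠ 0 := by
    rintro rfl
    exact hba (zero_mem _)
  have htr : Transcendental K (b * a⁻¹) := by
    apply FF.transcendental_of_not_mem_range
    rintro ⟨c, hc⟩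
    apply hba
    refine Submodule.mem_span_singleton.mpr ⟨c, ?_⟩
    rw [Algebra.smul_def, hc, mul_assoc, inv_mul_cancel₀ ha0', mul_one]
  have h7 : (0 : Divisor K F) ≤ D + FF.div a - FF.poles (b * a⁻¹) := by
    intro w
    have h8 := FF.mem_L_iff.mp ha w
    have h9 := FF.mem_L_iff.mp hb w
    rw [w.adicValuation_le_exp_iff] at h8 h9
    have h10 := h8.resolve_left ha0'
    have h11 := h9.resolve_left hb0
    have h12 : max (-w.ord (b * a⁻¹)) 0 ≤ D w + w.ord a := by
      refine max_le ?_ (by omega)
      rw [w.ord_mul hb0 (inv_ne_zero ha0'), w.ord_inv]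
      omega
    rw [Finsupp.sub_apply, Finsupp.add_apply, FF.div_apply, FF.poles_apply, Finsupp.zero_apply]
    omega
  have h8 := degree_nonneg_of_nonneg h7
  rw [map_sub, map_add, hD, FF.degree_div, FF.degree_poles _ htr] at h8
  refine ⟨_, htr, ?_⟩
  have hfin : FiniteDimensional K⟮b * a⁻¹⟯ F := (FF.isParam_of_transcendental htr).fin
  have hpos : 0 < Module.finrank K⟮b * a⁻¹⟯ F := Module.finrank_pos
  have h9 : Module.finrank K⟮b * a⁻¹⟯ F ≠ 1 := fun h10 => hg (genus_eq_zero_iff_exists_top.mpr
    ⟨_, IntermediateField.finrank_eq_one_iff_eq_top.mp h10⟩)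
  omega

theorem exists_deg_two_of_genus_le_two (hg : genusFF K F ≠ 0) (hg2 : genusFF K F ≤ 2) :
    ∃ x : F, Transcendental K x ∧ Module.finrank K⟮x⟯ F = 2 := by
  obtain ⟨v⟩ := FF.nonempty_place (K := K) (F := F)
  by_cases h1 : genusFF K F = 1
  · have h2 : Divisor.degree (2 • Finsupp.single v 1 : Divisor K F) = 2 := by
      rw [map_nsmul, degree_single_one]
      rfl
    refine exists_deg_two hg h2 ?_
    have h3 := RR.ell_ge (2 • Finsupp.single v 1 : Divisor K F)
    rw [h2, h1] at h3
    push_cast at h3
    omega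
  · have h3 : genusFF K F = 2 := by omega
    obtain ⟨W, hW⟩ := RR.exists_isCanonical (K := K) (F := F)
    refine exists_deg_two hg (D := W) ?_ ?_
    · rw [hW.degree_eq, h3]
      norm_num
    · rw [hW.ell_eq, h3]

end

section

variable {K F : Type u} [Field K] [IsAlgClosed K] [Field F] [Algebra K F] [FF.FunField K F]

/-- **function fields of genus one and two have an automorphism acting as `-1`** -/
theorem exists_actsAsNeg_of_genus_le_two (hg : genusFF K F ≠ 0) (hg2 : genusFF K F ≤ 2) :
    ∃ σ : F ≃ₐ[K] F, ActsAsNeg σ := by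
  obtain ⟨x, hx, h2⟩ := exists_deg_two_of_genus_le_two hg hg2
  exact exists_actsAsNeg hg hx h2

theorem actsAsNeg_ne_refl (hg : genusFF K F ≠ 0) {σ : F ≃ₐ[K] F} (hσ : ActsAsNeg σ) :
    σ ≠ AlgEquiv.refl := by
  rintro rfl
  apply hg
  rw [genus_eq_zero_iff_subsingleton]
  obtain ⟨ℓ, h1, h2, h3⟩ := exists_prime_gt K 2
  have h4 := card_pic0_torsion_funField K F ℓ h3
  have h5 : Subsingleton (Pic0.torsion K F ℓ) := by
    refine subsingleton_of_forall_eq 0 fun x => Subtype.ext ?_
    have h6 := Pic0.mem_torsion.mp x.2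
    rw [natCast_zsmul] at h6
    have h7 := hσ x.1
    rw [picFEquiv_refl] at h7
    have h8 : 2 • x.1 = 0 := by
      apply picIncl_injective
      rw [map_nsmul, map_zero, two_nsmul]
      nth_rewrite 1 [h7]
      exact neg_add_cancel _
    refine eq_zero_of_coprime_nsmul ?_ h6 h8
    exact h1.coprime_iff_not_dvd.mpr fun h9 => absurd (Nat.le_of_dvd two_pos h9) (by omega)
  have h6 : Nat.card (Pic0.torsion K F ℓ) = 1 := Nat.card_of_subsingleton 0
  rw [h6] at h4
  have h7 := Nat.pow_right_injective h1.two_le ((pow_zero ℓ).trans h4)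
  rw [← genus_eq_zero_iff_subsingleton]
  omega

/-- **the automorphism group in genus two** has a central element of order two -/
theorem exists_central_involution (hg : genusFF K F = 2) :
    ∃ σ : F ≃ₐ[K] F, orderOf σ = 2 ∧ ∀ τ : F ≃ₐ[K] F, σ * τ = τ * σ := by
  obtain ⟨σ, hσ⟩ := exists_actsAsNeg_of_genus_le_two (K := K) (F := F) (by omega) hg.le
  refine ⟨σ, ?_, neg_central hg.ge hσ⟩
  refine orderOf_eq_prime ?_ (actsAsNeg_ne_refl (by omega) hσ)
  ext f
  rw [pow_two]
  exact neg_involutive hg.ge hσ f

end

end Fermat.Agent.Cor.Jac
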