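import Mathlib
import Fermat.Agent.Cor.JacAut

/-!
# The Abel–Jacobi map is bijective exactly in genus one

* `abelJacobi_surjective_iff`: the Abel–Jacobi map is surjective exactly if the genus is at most one.
* `abelJacobi_bijective_iff`: it is bijective exactly if the genus is one.
-/

set_option autoImplicit false

universe u

open AlgebraicCurve WithZero
open scoped IntermediateField

noncomputable section

namespace Fermat.Agent.Cor.Jac

open Fermat.Agent

variable {K F : Type*} [Field K] [IsAlgClosed K] [Field F] [Algebra K F] [FF.FunField K F]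

/-- if `P + w` does not move then a divisor `u + v` with `v ≠ P, w` is not equivalent to it -/
theorem not_equiv_of_ell_le_one {P w u v : Place K F} (hvP : v ≠ P) (hvw : v ≠ w)
    (h : FF.ell (Finsupp.single P 1 + Finsupp.single w 1 : Divisor K F) ≤ 1) :
    (Finsupp.single u 1 + Finsupp.single v 1 - Finsupp.single P 1 - Finsupp.single w 1 :
      Divisor K F) ∉ Divisor.principal (K := K) (F := F) := by
  classical
  intro h1
  obtain ⟨f, hf, h4⟩ := Divisor.mem_principal.mp h1
  have hs : ∀ a b : Place K F, (0 : ℤ) ≤ (Finsupp.single a 1 : Divisor K F) b := fun a b => by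
    rw [Finsupp.single_apply]
    split_ifs
    · exact zero_le_one
    · exact le_rfl
  have h5 : ∀ t : Place K F, t.ord f = (Finsupp.single u 1 : Divisor K F) t +
      (Finsupp.single v 1 : Divisor K F) t - (Finsupp.single P 1 : Divisor K F) t -
      (Finsupp.single w 1 : Divisor K F) t := fun t => by
    rw [← h4 t, Finsupp.sub_apply, Finsupp.sub_apply, Finsupp.add_apply]
  have h6 : f ∈ riemannRochSpace (Finsupp.single P 1 + Finsupp.single w 1 : Divisor K F) := by
    rw [FF.mem_L_iff]
    intro t
    rw [t.adicValuation_le_exp_iff]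
    right
    rw [h5, Finsupp.add_apply]
    have h7 := hs u t
    have h8 := hs v t
    omega
  have h7 : (1 : F) ∈ riemannRochSpace (Finsupp.single P 1 + Finsupp.single w 1 :
      Divisor K F) := by
    refine FF.L_mono (D := (0 : Divisor K F)) (fun t => ?_) ?_
    · rw [Finsupp.add_apply]
      exact add_nonneg (hs P t) (hs w t)
    · rw [FF.L_zero]
      exact Submodule.mem_span_singleton_self _
  have h8 : Submodule.span K {(1 : F)} =
      riemannRochSpace (Finsupp.single P 1 + Finsupp.single w 1 : Divisor K F) := by
    refine Submodule.eq_of_le_of_finrank_le ((Submodule.span_singleton_le_iff_mem _ _).mpr h7) ?_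
    rw [finrank_span_singleton one_ne_zero]
    exact h
  rw [← h8, Submodule.mem_span_singleton] at h6
  obtain ⟨c, hc⟩ := h6
  rw [Algebra.smul_def, mul_one] at hc
  have h9 := h5 v
  rw [← hc, FF.ord_algebraMap', Finsupp.single_eq_same, Finsupp.single_eq_of_ne hvP,
    Finsupp.single_eq_of_ne hvw] at h9
  have h10 := hs u v
  omega

/-- **The Abel–Jacobi map is surjective exactly if the genus is at most one.** -/
theorem abelJacobi_surjective_iff (v₀ : Place K F) :
    Function.Surjective (abelJacobi v₀) ↔ genusFF K F ≤ 1 := by
  classical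
  constructor
  · intro h
    by_contra hg
    push Not at hg
    obtain ⟨P, hP⟩ := exists_ne v₀
    obtain ⟨S, hS⟩ := exists_finset_ell_le_one hg P
    obtain ⟨w, hw⟩ := Infinite.exists_notMem_finset (insert v₀ S)
    rw [Finset.mem_insert, not_or] at hw
    obtain ⟨u, hu⟩ := h (abelJacobi v₀ P + abelJacobi v₀ w)
    have h1 := congrArg picIncl hu
    rw [map_add, picIncl_abelJacobi, picIncl_abelJacobi, picIncl_abelJacobi,
      ← QuotientAddGroup.mk_add, QuotientAddGroup.eq] at h1
    refine not_equiv_of_ell_le_one (u := u) (v := v₀) hP.symm (Ne.symm hw.1) (hS w hw.2) ?_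
    have h2 := neg_mem h1
    convert h2 using 1
    abel
  · intro h x
    by_cases hg : genusFF K F = 0
    · have h1 : Subsingleton (Pic0 K F) := subsingleton_of_genus_eq_zero hg
      exact ⟨v₀, Subsingleton.elim _ _⟩
    · have hg1 : genusFF K F = 1 := by omega
      obtain ⟨p, hp⟩ := exists_sum_abelJacobi v₀ x
      refine ⟨p ⟨0, by omega⟩, ?_⟩
      rw [hp, Finset.sum_eq_single ⟨0, by omega⟩]
      · intro b _ hb
        exact absurd (Fin.ext (by have := b.2; simp only; omega)) hb
      · intro hb
        exact absurd (Finset.mem_univ _) hb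

/-- **The Abel–Jacobi map is bijective exactly if the genus is one.** -/
theorem abelJacobi_bijective_iff (v₀ : Place K F) :
    Function.Bijective (abelJacobi v₀) ↔ genusFF K F = 1 := by
  rw [Function.Bijective, abelJacobi_injective_iff, abelJacobi_surjective_iff]
  omega

end Fermat.Agent.Cor.Jac
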