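import Fermat.Agent.DS.Cyc
import Fermat.Agent.H12.InertiaConj
import Fermat.Agent.H12.Tame
import Fermat.Agent.TW.Local1
import Fermat.Agent.CFT.UnrFin

/-!
# The Kronecker–Weber theorem I : characters of `Gal(ℚ̄/ℚ)`, tame ramification

`Cts χ` : the kernel of `χ` is open; `Unr χ q` : `χ` is unramified at `q`; `Cyc χ` : `χ` is trivial on
the absolute Galois group of a cyclotomic field.  `exists_tame` : the ramification of a character with
values in a cyclic `r`-group at a prime `ℓ ≠ r` can be removed by a character of `Gal(ℚ(ζ_ℓ)/ℚ)`.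
-/

set_option autoImplicit false
set_option linter.style.haveILetI false

namespace Fermat.Agent.Cor.KW

open Fermat.Agent.CC (Qb GQ)
open scoped Pointwise

/-- the kernel is open -/
def Cts {M : Type} [Group M] (χ : GQ →* M) : Prop := IsOpen (χ.ker : Set GQ)

/-- unramified at `q` -/
def Unr {M : Type} [Group M] (χ : GQ →* M) (q : ℕ) : Prop :=
  ∀ A : ValuationSubring Qb, A.LiesOverPrime q → A.inertiaSubgroupIn ℚ ≤ χ.ker

/-- trivial on the absolute Galois group of a cyclotomic field -/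
def Cyc {M : Type} [Group M] (χ : GQ →* M) : Prop :=
  ∃ n : ℕ, 0 < n ∧ ∀ g : GQ, (∀ ζ : Qb, ζ ^ n = 1 → g ζ = ζ) → χ g = 1

section Basic

variable {M N : Type} [CommGroup M] [CommGroup N] {χ ψ : GQ →* M} {q : ℕ}

theorem Cts.mul (h : Cts χ) (h' : Cts ψ) : Cts (χ * ψ) := by
  refine Subgroup.isOpen_mono (H₁ := χ.ker ⊓ ψ.ker) ?_ (h.inter h')
  intro g hg
  have h1 : χ g = 1 := hg.1
  have h2 : ψ g = 1 := hg.2
  rw [MonoidHom.mem_ker, MonoidHom.mul_apply, h1, h2, one_mul]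

theorem Cts.comp (h : Cts χ) (f : M →* N) : Cts (f.comp χ) := by
  refine Subgroup.isOpen_mono (H₁ := χ.ker) ?_ h
  intro g hg
  have h1 : χ g = 1 := hg
  rw [MonoidHom.mem_ker, MonoidHom.comp_apply, h1, map_one]

theorem Unr.mul (h : Unr χ q) (h' : Unr ψ q) : Unr (χ * ψ) q := by
  intro A hA g hg
  have h1 : χ g = 1 := h A hA hg
  have h2 : ψ g = 1 := h' A hA hg
  rw [MonoidHom.mem_ker, MonoidHom.mul_apply, h1, h2, one_mul]

theorem Unr.comp (h : Unr χ q) (f : M →* N) : Unr (f.comp χ) q := by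
  intro A hA g hg
  have h1 : χ g = 1 := h A hA hg
  rw [MonoidHom.mem_ker, MonoidHom.comp_apply, h1, map_one]

theorem Cyc.mul (h : Cyc χ) (h' : Cyc ψ) : Cyc (χ * ψ) := by
  obtain ⟨n, hn, h⟩ := h
  obtain ⟨m, hm, h'⟩ := h'
  refine ⟨n * m, Nat.mul_pos hn hm, fun g hg => ?_⟩
  rw [MonoidHom.mul_apply, h g fun ζ hζ => hg ζ (by rw [pow_mul, hζ, one_pow]),
    h' g fun ζ hζ => hg ζ (by rw [mul_comm, pow_mul, hζ, one_pow]), one_mul]

theorem Cyc.comp (h : Cyc χ) (f : M →* N) : Cyc (f.comp χ) := by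
  obtain ⟨n, hn, h⟩ := h
  refine ⟨n, hn, fun g hg => ?_⟩
  rw [MonoidHom.comp_apply, h g hg, map_one]

theorem Cyc.of_comp (f : M →* N) (hf : Function.Injective f) (h : Cyc (f.comp χ)) : Cyc χ := by
  obtain ⟨n, hn, h⟩ := h
  exact ⟨n, hn, fun g hg => hf (by rw [map_one]; exact h g hg)⟩

/-- it is enough to look at one place above `q` -/
theorem unr_of (hq : q.Prime) {A : ValuationSubring Qb} (hA : A.LiesOverPrime q)
    (h : A.inertiaSubgroupIn ℚ ≤ χ.ker) : Unr χ q := by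
  have hg := H51.isGalois_Qbar
  intro A' hA' σ hσ
  obtain ⟨g, rfl⟩ := H05.exists_smul_eq hq hA hA'
  rw [H12.mem_inertia_conj hq hA] at hσ
  have h1 := h hσ
  rw [MonoidHom.mem_ker] at h1 ⊢
  have h2 : σ = g * (g⁻¹ * σ * g) * g⁻¹ := by group
  rw [h2, map_mul, map_mul, h1, mul_one, ← map_mul, mul_inv_cancel, map_one]

/-- the field cut out by an open subgroup -/
theorem exists_field {U : Subgroup GQ} (hU : IsOpen (U : Set GQ)) :
    ∃ F : IntermediateField ℚ Qb, FiniteDimensional ℚ F ∧ F.fixingSubgroup = U := by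
  have hg := H51.isGalois_Qbar
  let Hc : ClosedSubgroup GQ := ⟨U, U.isClosed_of_isOpen hU⟩
  have hfix : (IntermediateField.fixedField U).fixingSubgroup = U :=
    InfiniteGalois.fixingSubgroup_fixedField Hc
  refine ⟨IntermediateField.fixedField U, ?_, hfix⟩
  rw [← InfiniteGalois.isOpen_iff_finite, hfix]
  exact hU

/-- finiteness of ramification -/
theorem exists_ram (hχ : Cts χ) : ∃ S : Finset Nat.Primes, ∀ q : Nat.Primes, q ∉ S → Unr χ q := by
  obtain ⟨F, hF, hFU⟩ := exists_field hχ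
  obtain ⟨S, hS⟩ := CFT.exists_unramifiedOutside F
  exact ⟨S, fun q hq A hA => (hS.2 q hq A hA).trans hFU.le⟩

end Basic

section Cyclotomic

variable {n : ℕ} [NeZero n] {q : ℕ}

theorem cyc_eq_one {g : GQ} (h : ∀ ζ : Qb, ζ ^ n = 1 → g ζ = ζ) : DS.cyc n g = 1 := by
  obtain ⟨ζ, hζ⟩ := DS.exists_primitive n
  rw [DS.cyc_eq_of hζ (Nat.coprime_one_left n) (σ := g) (by rw [pow_one]; exact h ζ hζ.pow_eq_one)]
  ext
  simp

theorem Cyc_cyc : Cyc (DS.cyc n) := ⟨n, Nat.pos_of_ne_zero (NeZero.ne n), fun _ h => cyc_eq_one h⟩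

theorem cts_cyc : Cts (DS.cyc n) := by
  obtain ⟨ζ, hζ⟩ := DS.exists_primitive n
  haveI : FiniteDimensional ℚ (IntermediateField.adjoin ℚ {ζ}) :=
    IntermediateField.adjoin.finiteDimensional (Algebra.IsIntegral.isIntegral _)
  refine Subgroup.isOpen_mono (H₁ := (IntermediateField.adjoin ℚ {ζ}).fixingSubgroup) ?_
    (IntermediateField.fixingSubgroup_isOpen _)
  intro g hg
  have h1 : g ζ = ζ := (IntermediateField.mem_fixingSubgroup_iff _ g).mp hg _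
    (IntermediateField.subset_adjoin ℚ _ (Set.mem_singleton _))
  rw [MonoidHom.mem_ker, DS.cyc_eq_of hζ (Nat.coprime_one_left n) (σ := g) (by rw [pow_one, h1])]
  ext
  simp

theorem unr_cyc (hq : q.Prime) (hqn : ¬ q ∣ n) : Unr (DS.cyc n) q := fun _ hA _ hσ =>
  cyc_eq_one fun _ hζ => H05.inertia_apply_rootOfUnity hq hA hqn hσ hζ

/-- `ℚ(ζ_{q^k})` is totally ramified at `q` -/
theorem cyc_inertia (hq : q.Prime) (k : ℕ) [NeZero (q ^ k)] {A : ValuationSubring Qb}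
    (hA : A.LiesOverPrime q) (u : (ZMod (q ^ k))ˣ) :
    ∃ σ ∈ A.inertiaSubgroupIn ℚ, DS.cyc (q ^ k) σ = u := by
  have hg := H51.isGalois_Qbar
  let H : Subgroup GQ := ((A.inertiaSubgroupIn ℚ).map (DS.cyc (q ^ k))).comap (DS.cyc (q ^ k))
  have hle : (DS.cyc (q ^ k)).ker ≤ H := by
    intro g hg
    have h1 : DS.cyc (q ^ k) g = 1 := hg
    change DS.cyc (q ^ k) g ∈ (A.inertiaSubgroupIn ℚ).map (DS.cyc (q ^ k))
    rw [h1]
    exact one_mem _
  have hH : H = ⊤ := by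
    apply H12.minkowski' H
    · exact Subgroup.isOpen_mono hle cts_cyc
    · intro p hp
      by_cases hpq : p = q
      · subst hpq
        exact ⟨A, hA, fun σ hσ => ⟨σ, hσ, rfl⟩⟩
      · obtain ⟨A', hA'⟩ := H05.exists_liesOverPrime Qb hp
        refine ⟨A', hA', fun σ hσ => hle ?_⟩
        exact unr_cyc hp (fun h => hpq ((Nat.prime_dvd_prime_iff_eq hp hq).mp
          (hp.dvd_of_dvd_pow h))) A' hA' hσ
  obtain ⟨g, hg⟩ := DS.cyc_surjective _ u
  have h1 : g ∈ H := by rw [hH]; trivial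
  obtain ⟨σ, hσ, h⟩ := h1
  exact ⟨σ, hσ, h.trans hg⟩

end Cyclotomic

section Tame

variable {M : Type} [CommGroup M] [Finite M] [IsCyclic M] {r : ℕ}

/-- the restriction of a character to the inertia group -/
noncomputable def res (A : ValuationSubring Qb) (χ : GQ →* M) : A.inertiaSubgroupIn ℚ →* M :=
  χ.comp (A.inertiaSubgroupIn ℚ).subtype

/-- **the tame step** -/
theorem exists_tame (hr : r.Prime) (hM : IsPGroup r M) (χ : GQ →* M) (hχ : Cts χ) {ℓ : ℕ}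
    (hℓ : ℓ.Prime) (hℓr : r ≠ ℓ) :
    ∃ ψ : GQ →* M, Cyc ψ ∧ Cts ψ ∧ (∀ p : ℕ, p.Prime → p ≠ ℓ → Unr ψ p) ∧ Unr (χ * ψ) ℓ := by
  classical
  have hg := H51.isGalois_Qbar
  haveI : Fact ℓ.Prime := ⟨hℓ⟩
  obtain ⟨A, hA⟩ := H05.exists_liesOverPrime Qb hℓ
  obtain ⟨π, τ, hπ, hτI, hτ⟩ := TW.exists_pi_tau (A := A) hℓ hA hr
  have hti : ∀ ψ : GQ →* M, Cts ψ →
      (∀ σ : A.inertiaSubgroupIn ℚ, ∃ n : ℤ, ψ σ = ψ τ ^ n) := fun ψ hψ =>
    (H12.tame_inertia hℓ hA hr hℓr π hπ τ hτI hτ (res A ψ) (fun σ => hM _) ψ.ker hψ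
      (fun σ hσ => hσ)).1
  -- the image of inertia is killed by `ℓ - 1`
  have hkill : ∀ σ ∈ A.inertiaSubgroupIn ℚ, χ σ ^ (ℓ - 1) = 1 := by
    intro σ hσ
    obtain ⟨φ, hφ⟩ := H05.exists_isFrobeniusAt (L := Qb) hℓ hA
    have h1 : φ * σ * φ⁻¹ ∈ A.inertiaSubgroupIn ℚ :=
      TW.inertia_conj_mem hφ.mem_decompositionSubgroup hσ
    have h2 := (H12.tame_inertia hℓ hA hr hℓr π hπ τ hτI hτ (res A χ) (fun σ => hM _) χ.ker hχ
      (fun σ hσ => hσ)).2 φ hφ σ hσ h1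
    have h3 : χ (φ * σ * φ⁻¹) = χ σ ^ ℓ := h2
    rw [map_mul, map_mul, mul_comm (χ φ), mul_assoc, ← map_mul, mul_inv_cancel, map_one,
      mul_one] at h3
    have h4 : χ σ ^ (ℓ - 1) * χ σ = 1 * χ σ := by
      rw [← pow_succ, Nat.sub_add_cancel hℓ.one_le, one_mul]
      exact h3.symm
    exact mul_right_cancel h4
  -- a generator of the `ℓ - 1`-torsion of `M`
  obtain ⟨y, hy⟩ := IsCyclic.exists_generator (α := (powMonoidHom (α := M) (ℓ - 1)).ker)
  have hy1 : (y : M) ^ (ℓ - 1) = 1 := y.2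
  have hgen : ∀ x : M, x ^ (ℓ - 1) = 1 → ∃ m : ℤ, (y : M) ^ m = x := by
    intro x hx
    obtain ⟨m, hm⟩ := Subgroup.mem_zpowers_iff.mp (hy ⟨x, hx⟩)
    exact ⟨m, congrArg Subtype.val hm⟩
  -- a generator of `(ℤ/ℓ)ˣ`
  haveI : NeZero (ℓ ^ 1) := ⟨pow_ne_zero 1 hℓ.ne_zero⟩
  haveI : IsCyclic (ZMod (ℓ ^ 1))ˣ := by
    rw [pow_one]
    infer_instance
  obtain ⟨g, hgen'⟩ := IsCyclic.exists_generator (α := (ZMod (ℓ ^ 1))ˣ)
  have hord : orderOf (y : M) ∣ orderOf g := by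
    rw [orderOf_eq_card_of_forall_mem_zpowers hgen', Nat.card_eq_fintype_card,
      ZMod.card_units_eq_totient, Nat.totient_prime_pow hℓ one_pos]
    simp only [Nat.sub_self, pow_zero, one_mul]
    exact orderOf_dvd_of_pow_eq_one hy1
  let θ : (ZMod (ℓ ^ 1))ˣ →* M := monoidHomOfForallMemZpowers hgen' hord
  have hθ : θ g = y := monoidHomOfForallMemZpowers_apply_gen hgen' hord
  let ψ₀ : GQ →* M := θ.comp (DS.cyc (ℓ ^ 1))
  have hψ₀ : Cts ψ₀ := cts_cyc.comp θ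
  obtain ⟨σ₁, hσ₁, hσ₁g⟩ := cyc_inertia hℓ 1 hA g
  have e1 : ψ₀ σ₁ = y := by
    change θ (DS.cyc (ℓ ^ 1) σ₁) = y
    rw [hσ₁g, hθ]
  obtain ⟨n, hn⟩ := hti ψ₀ hψ₀ ⟨σ₁, hσ₁⟩
  obtain ⟨m, hm⟩ := hgen (χ τ) (hkill τ hτI)
  have e2 : χ τ = ψ₀ τ ^ (n * m) := by
    rw [← hm, ← e1, zpow_mul]
    congr 1
  refine ⟨(zpowGroupHom (-(n * m))).comp ψ₀, (Cyc_cyc.comp θ).comp _, hψ₀.comp _,
    fun p hp hpℓ => ((unr_cyc hp ?_).comp θ).comp _, ?_⟩
  · intro h
    exact hpℓ ((Nat.prime_dvd_prime_iff_eq hp hℓ).mp (hp.dvd_of_dvd_pow h))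
  · refine unr_of hℓ hA fun σ hσ => ?_
    obtain ⟨k, hk⟩ := hti (χ * (zpowGroupHom (-(n * m))).comp ψ₀) (hχ.mul (hψ₀.comp _)) ⟨σ, hσ⟩
    have e3 : (χ * (zpowGroupHom (-(n * m))).comp ψ₀) τ = 1 := by
      rw [MonoidHom.mul_apply, MonoidHom.comp_apply, zpowGroupHom_apply, e2, ← zpow_add]
      simp
    rw [MonoidHom.mem_ker]
    rw [e3, one_zpow] at hk
    exact hk

/-- **removing all tame ramification** -/
theorem exists_untame (hr : r.Prime) (hM : IsPGroup r M) (χ : GQ →* M) (hχ : Cts χ) :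
    ∃ ψ : GQ →* M, Cyc ψ ∧ Cts ψ ∧ ∀ p : ℕ, p.Prime → p ≠ r → Unr (χ * ψ) p := by
  classical
  obtain ⟨S, hS⟩ := exists_ram hχ
  have key : ∀ T : Finset Nat.Primes, ∃ ψ : GQ →* M, Cyc ψ ∧ Cts ψ ∧
      ∀ p : Nat.Primes, (p : ℕ) ≠ r → (p ∈ T ∨ p ∉ S) → Unr (χ * ψ) p := by
    intro T
    induction T using Finset.induction_on with
    | empty =>
      refine ⟨1, ⟨1, one_pos, fun _ _ => rfl⟩, ?_, fun p _ hp => ?_⟩
      · have : (1 : GQ →* M).ker = ⊤ := by ext; simp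
        rw [Cts, this]
        exact isOpen_univ
      · rw [mul_one]
        exact hS p (by simpa using hp)
    | insert ℓ T hℓT ih =>
      obtain ⟨ψ, h1, h2, h3⟩ := ih
      by_cases hℓr : (ℓ : ℕ) = r
      · refine ⟨ψ, h1, h2, fun p hp hpT => h3 p hp ?_⟩
        rcases hpT with hpT | hpT
        · rcases Finset.mem_insert.mp hpT with rfl | hpT
          · exact absurd hℓr hp
          · exact Or.inl hpT
        · exact Or.inr hpT
      · obtain ⟨ψ', h1', h2', h3', h4'⟩ := exists_tame hr hM (χ * ψ) (hχ.mul h2) ℓ.2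
          (Ne.symm hℓr)
        refine ⟨ψ * ψ', h1.mul h1', h2.mul h2', fun p hp hpT => ?_⟩
        rw [← mul_assoc]
        by_cases hpℓ : p = ℓ
        · rw [hpℓ]
          exact h4'
        · refine (h3 p hp ?_).mul (h3' p p.2 fun h => hpℓ (Subtype.ext h))
          rcases hpT with hpT | hpT
          · rcases Finset.mem_insert.mp hpT with h | hpT
            · exact absurd h hpℓ
            · exact Or.inl hpT
          · exact Or.inr hpT
  obtain ⟨ψ, h1, h2, h3⟩ := key S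
  exact ⟨ψ, h1, h2, fun p hp hpr => h3 ⟨p, hp⟩ hpr (Classical.em _)⟩

end Tame

end Fermat.Agent.Cor.KW
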