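import Fermat.Agent.Cor.KW1
import Fermat.Agent.EGal.Kummer

/-!
# The Kronecker–Weber theorem II : characters ramified only at `r`, from characters of order `r`

`wild` : if any two even characters of order `r` unramified outside `r` are proportional (`Core r`), then
every character with values in a cyclic `r`-group, unramified outside `r`, is cyclotomic.
-/

set_option autoImplicit false
set_option linter.style.haveILetI false
set_option linter.unusedSectionVars false

namespace Fermat.Agent.Cor.KW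

open Fermat.Agent.CC (Qb GQ)

/-- complex conjugation -/
noncomputable abbrev cc : GQ := complexConjugation

theorem cyc_cc (n : ℕ) [NeZero n] : DS.cyc n cc = -1 := by
  obtain ⟨ζ, hζ⟩ := DS.exists_primitive n
  have h1 := DS.cyc_spec (m := n) cc hζ.pow_eq_one
  have h2 : cc ζ = ζ⁻¹ := EGal.conj_mu (NeZero.ne n) hζ.pow_eq_one
  have hζ0 : ζ ≠ 0 := hζ.ne_zero (NeZero.ne n)
  rw [h2] at h1
  have h3 : ζ ^ (((DS.cyc n cc : (ZMod n)ˣ) : ZMod n).val + 1) = 1 := by
    rw [pow_succ, ← h1, inv_mul_cancel₀ hζ0]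
  have h4 := (hζ.pow_eq_one_iff_dvd _).mp h3
  have h5 : (((((DS.cyc n cc : (ZMod n)ˣ) : ZMod n).val + 1 : ℕ)) : ZMod n) = 0 :=
    (ZMod.natCast_eq_zero_iff _ _).mpr h4
  push_cast at h5
  rw [ZMod.natCast_zmod_val] at h5
  ext
  rw [Units.val_neg, Units.val_one]
  exact eq_neg_of_add_eq_zero_left h5

/-- two even characters of order `r`, unramified outside `r`, are proportional -/
def Core (r : ℕ) : Prop :=
  ∀ χ ψ : GQ →* Multiplicative (ZMod r), Cts χ → Cts ψ →
    (∀ p : ℕ, p.Prime → p ≠ r → Unr χ p) → (∀ p : ℕ, p.Prime → p ≠ r → Unr ψ p) →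
    χ cc = 1 → ψ cc = 1 → ψ ≠ 1 → ∃ m : ℤ, ∀ g, χ g = ψ g ^ m

section Theta

variable {M : Type} [CommGroup M] [Finite M] [IsCyclic M] {r : ℕ}

/-- a cyclic `2`-group is an even quotient of `(ℤ/2^k)ˣ` -/
theorem exists_theta_two {n : ℕ} (hM : Nat.card M = 2 ^ (n + 1)) :
    ∃ Θ : (ZMod (2 ^ (n + 3)))ˣ →* M, Function.Surjective Θ ∧ Θ (-1) = 1 := by
  classical
  haveI : NeZero (2 ^ (n + 3)) := ⟨by positivity⟩
  let Q := (ZMod (2 ^ (n + 3)))ˣ ⧸ Subgroup.zpowers (-1 : (ZMod (2 ^ (n + 3)))ˣ)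
  obtain ⟨u, hu⟩ : ∃ u : (ZMod (2 ^ (n + 3)))ˣ, (u : ZMod (2 ^ (n + 3))) = 5 :=
    ⟨ZMod.unitOfCoprime 5 (Nat.Coprime.pow_right _ (by norm_num)), by simp⟩
  have hou : orderOf u = 2 ^ (n + 1) := by
    rw [← orderOf_units, hu]
    exact ZMod.orderOf_five (n + 1)
  -- reduction modulo `4`
  have h4 : 4 ∣ 2 ^ (n + 3) := ⟨2 ^ (n + 1), by ring⟩
  let φ : ZMod (2 ^ (n + 3)) →+* ZMod 4 := ZMod.castHom h4 (ZMod 4)
  have hφu : ∀ j : ℕ, φ (((u ^ j : (ZMod (2 ^ (n + 3)))ˣ)) : ZMod (2 ^ (n + 3))) = 1 := by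
    intro j
    rw [Units.val_pow_eq_pow_val, hu, map_pow, map_ofNat, show (OfNat.ofNat 5 : ZMod 4) = 1 from rfl,
      one_pow]
  have hneg : ∀ x : (ZMod (2 ^ (n + 3)))ˣ,
      x ∈ Subgroup.zpowers (-1 : (ZMod (2 ^ (n + 3)))ˣ) → x = 1 ∨ x = -1 := by
    rintro _ ⟨j, rfl⟩
    beta_reduce
    rcases Int.even_or_odd j with h | h
    · exact Or.inl h.neg_one_zpow
    · exact Or.inr h.neg_one_zpow
  have hord1 : orderOf (-1 : (ZMod (2 ^ (n + 3)))ˣ) = 2 := by
    haveI : Fact (Nat.Prime 2) := ⟨Nat.prime_two⟩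
    refine orderOf_eq_prime (by simp) ?_
    intro h
    have h1 := congrArg (fun x : (ZMod (2 ^ (n + 3)))ˣ => φ (x : ZMod (2 ^ (n + 3)))) h
    simp only [Units.val_neg, Units.val_one, map_neg, map_one] at h1
    exact absurd h1 (by decide)
  have hcQ : Nat.card Q = 2 ^ (n + 1) := by
    have h1 := Subgroup.card_eq_card_quotient_mul_card_subgroup
      (Subgroup.zpowers (-1 : (ZMod (2 ^ (n + 3)))ˣ))
    rw [Nat.card_zpowers, hord1, Nat.card_eq_fintype_card, ZMod.card_units_eq_totient,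
      Nat.totient_prime_pow Nat.prime_two (by omega)] at h1
    have h2 : 2 ^ (n + 3 - 1) * (2 - 1) = 2 ^ (n + 1) * 2 := by
      rw [show n + 3 - 1 = n + 1 + 1 by omega, pow_succ, show 2 - 1 = 1 from rfl, mul_one]
    rw [h2] at h1
    exact (Nat.eq_of_mul_eq_mul_right two_pos h1).symm
  have hmk : orderOf (QuotientGroup.mk u : Q) = 2 ^ (n + 1) := by
    apply Nat.dvd_antisymm
    · rw [← hou]
      exact orderOf_map_dvd (QuotientGroup.mk' _) u
    · rw [← hou]
      apply orderOf_dvd_of_pow_eq_one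
      have h1 : (QuotientGroup.mk (u ^ orderOf (QuotientGroup.mk u : Q)) : Q) = 1 := by
        rw [QuotientGroup.mk_pow]
        exact pow_orderOf_eq_one _
      rw [QuotientGroup.eq_one_iff] at h1
      rcases hneg _ h1 with h2 | h2
      · exact h2
      · exfalso
        have h3 := hφu (orderOf (QuotientGroup.mk u : Q))
        rw [h2, Units.val_neg, Units.val_one, map_neg, map_one] at h3
        exact absurd h3 (by decide)
  have hgen : ∀ x : Q, x ∈ Subgroup.zpowers (QuotientGroup.mk u : Q) := by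
    have h1 : Subgroup.zpowers (QuotientGroup.mk u : Q) = ⊤ := by
      apply Subgroup.eq_top_of_card_eq
      rw [Nat.card_zpowers, hmk, hcQ]
    intro x
    rw [h1]
    trivial
  obtain ⟨g, hg⟩ := IsCyclic.exists_generator (α := M)
  have hog : orderOf g = 2 ^ (n + 1) := by
    rw [orderOf_eq_card_of_forall_mem_zpowers hg, hM]
  let θ : Q →* M := monoidHomOfForallMemZpowers hgen (g' := g) (by rw [hog, hmk])
  have hθ : θ (QuotientGroup.mk u) = g := monoidHomOfForallMemZpowers_apply_gen _ _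
  refine ⟨θ.comp (QuotientGroup.mk' _), ?_, ?_⟩
  · intro x
    obtain ⟨m, hm⟩ := Subgroup.mem_zpowers_iff.mp (hg x)
    refine ⟨u ^ m, ?_⟩
    rw [map_zpow, MonoidHom.comp_apply, QuotientGroup.mk'_apply, hθ, hm]
  · rw [MonoidHom.comp_apply, QuotientGroup.mk'_apply,
      (QuotientGroup.eq_one_iff _).mpr (Subgroup.mem_zpowers _), map_one]

/-- a cyclic `r`-group is an even quotient of `(ℤ/r^k)ˣ` -/
theorem exists_theta (hr : r.Prime) {n : ℕ} (hM : Nat.card M = r ^ (n + 1)) :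
    ∃ (k : ℕ) (Θ : (ZMod (r ^ k))ˣ →* M), Function.Surjective Θ ∧ Θ (-1) = 1 := by
  classical
  rcases hr.eq_two_or_odd' with rfl | hodd
  · obtain ⟨Θ, h⟩ := exists_theta_two hM
    exact ⟨_, Θ, h⟩
  · haveI : NeZero (r ^ (n + 2)) := ⟨pow_ne_zero _ hr.ne_zero⟩
    haveI : IsCyclic (ZMod (r ^ (n + 2)))ˣ :=
      ZMod.isCyclic_units_of_prime_pow r hr (by rintro rfl; exact absurd hodd (by decide)) (n + 2)
    obtain ⟨u, hu⟩ := IsCyclic.exists_generator (α := (ZMod (r ^ (n + 2)))ˣ)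
    obtain ⟨g, hg⟩ := IsCyclic.exists_generator (α := M)
    have hog : orderOf g = r ^ (n + 1) := by
      rw [orderOf_eq_card_of_forall_mem_zpowers hg, hM]
    have hou : orderOf g ∣ orderOf u := by
      rw [orderOf_eq_card_of_forall_mem_zpowers hu, Nat.card_eq_fintype_card,
        ZMod.card_units_eq_totient, Nat.totient_prime_pow hr (by omega), hog]
      exact ⟨r - 1, by rw [show n + 2 - 1 = n + 1 by omega]⟩
    let θ : (ZMod (r ^ (n + 2)))ˣ →* M := monoidHomOfForallMemZpowers hu hou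
    have hθ : θ u = g := monoidHomOfForallMemZpowers_apply_gen _ _
    refine ⟨n + 2, θ, ?_, ?_⟩
    · intro x
      obtain ⟨m, hm⟩ := Subgroup.mem_zpowers_iff.mp (hg x)
      exact ⟨u ^ m, by rw [map_zpow, hθ, hm]⟩
    · have h1 : θ (-1) ^ 2 = 1 := by rw [← map_pow]; simp
      have h2 : θ (-1) ^ (r ^ (n + 1)) = 1 := by rw [← hM]; exact pow_card_eq_one'
      have h3 : Nat.Coprime 2 (r ^ (n + 1)) :=
        (Nat.coprime_two_left.mpr hodd).pow_right _
      have h4 := pow_gcd_eq_one.mpr ⟨h1, h2⟩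
      rwa [h3.gcd_eq_one, pow_one] at h4

/-- making a character even -/
theorem exists_even (hr : r.Prime) {n : ℕ} (hM : Nat.card M = r ^ (n + 1)) (χ : GQ →* M) :
    ∃ ω : GQ →* M, Cyc ω ∧ Cts ω ∧ (∀ p : ℕ, p.Prime → p ≠ r → Unr ω p) ∧ (χ * ω) cc = 1 := by
  classical
  have hcc : χ cc ^ 2 = 1 := by
    rw [← map_pow, complexConjugation_sq, map_one]
  rcases hr.eq_two_or_odd' with rfl | hodd
  · have hgen : ∀ x : (ZMod 4)ˣ, x ∈ Subgroup.zpowers (-1 : (ZMod 4)ˣ) := by
      intro x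
      have h : ∀ x : (ZMod 4)ˣ, x = 1 ∨ x = -1 := by decide
      rcases h x with rfl | rfl
      · exact one_mem _
      · exact Subgroup.mem_zpowers _
    have hord : orderOf (χ cc) ∣ orderOf (-1 : (ZMod 4)ˣ) := by
      have h1 : orderOf (-1 : (ZMod 4)ˣ) = 2 := by
        haveI : Fact (Nat.Prime 2) := ⟨Nat.prime_two⟩
        exact orderOf_eq_prime (by simp) (by decide)
      rw [h1]
      exact orderOf_dvd_of_pow_eq_one hcc
    let θ : (ZMod 4)ˣ →* M := monoidHomOfForallMemZpowers hgen hord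
    have hθ : θ (-1) = χ cc := monoidHomOfForallMemZpowers_apply_gen _ _
    refine ⟨θ.comp (DS.cyc 4), Cyc_cyc.comp _, cts_cyc.comp _, fun p hp hp2 =>
      (unr_cyc hp ?_).comp _, ?_⟩
    · intro h
      exact hp2 ((Nat.prime_dvd_prime_iff_eq hp Nat.prime_two).mp
        (hp.dvd_of_dvd_pow (show p ∣ 2 ^ 2 by norm_num; exact h)))
    · rw [MonoidHom.mul_apply, MonoidHom.comp_apply, cyc_cc, hθ, ← sq, hcc]
  · refine ⟨1, ⟨1, one_pos, fun _ _ => rfl⟩, ?_, fun p _ _ A _ σ _ => rfl, ?_⟩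
    · have : (1 : GQ →* M).ker = ⊤ := by ext; simp
      rw [Cts, this]
      exact isOpen_univ
    · rw [mul_one]
      have h2 : χ cc ^ (r ^ (n + 1)) = 1 := by rw [← hM]; exact pow_card_eq_one'
      have h3 : Nat.Coprime 2 (r ^ (n + 1)) :=
        (Nat.coprime_two_left.mpr hodd).pow_right _
      have h4 := pow_gcd_eq_one.mpr ⟨hcc, h2⟩
      rwa [h3.gcd_eq_one, pow_one] at h4

end Theta

/-- **characters unramified outside `r`** -/
theorem wild {r : ℕ} (hr : r.Prime) (hcore : Core r) (n : ℕ) : ∀ (M : Type) [CommGroup M] [Finite M]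
    [IsCyclic M], Nat.card M = r ^ n → ∀ χ : GQ →* M, Cts χ →
      (∀ p : ℕ, p.Prime → p ≠ r → Unr χ p) → Cyc χ := by
  classical
  induction n using Nat.strong_induction_on with
  | _ n ih =>
    intro M _ _ _ hM χ hχ hur
    rcases n with _ | n
    · rw [pow_zero, Nat.card_eq_one_iff_unique] at hM
      obtain ⟨hs, -⟩ := hM
      exact ⟨1, one_pos, fun g _ => hs.elim _ _⟩
    · obtain ⟨k, Θ, hΘs, hΘ1⟩ := exists_theta hr hM
      obtain ⟨ω, ho1, ho2, ho3, ho4⟩ := exists_even hr hM χ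
      haveI : NeZero (r ^ k) := ⟨pow_ne_zero _ hr.ne_zero⟩
      haveI : Fact r.Prime := ⟨hr⟩
      obtain ⟨χ₁, hχ₁⟩ : ∃ χ₁, χ₁ = χ * ω := ⟨_, rfl⟩
      rw [← hχ₁] at ho4
      have h1c : Cts χ₁ := by rw [hχ₁]; exact hχ.mul ho2
      have h1u : ∀ p : ℕ, p.Prime → p ≠ r → Unr χ₁ p := fun p hp hpr => by
        rw [hχ₁]; exact (hur p hp hpr).mul (ho3 p hp hpr)
      obtain ⟨g, hg⟩ := IsCyclic.exists_generator (α := M)
      have hog : orderOf g = r ^ (n + 1) := by
        rw [orderOf_eq_card_of_forall_mem_zpowers hg, hM]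
      have hor : orderOf (Multiplicative.ofAdd (1 : ZMod r)) ∣ orderOf g := by
        rw [hog, pow_succ']
        refine Dvd.dvd.mul_right ?_ _
        apply orderOf_dvd_of_pow_eq_one
        rw [← ofAdd_nsmul, nsmul_one, ZMod.natCast_self]
        rfl
      let red : M →* Multiplicative (ZMod r) := monoidHomOfForallMemZpowers hg hor
      have hred : red g = Multiplicative.ofAdd (1 : ZMod r) :=
        monoidHomOfForallMemZpowers_apply_gen _ _
      have hred1 : red g ≠ 1 := by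
        rw [hred]
        intro h
        have h2 : (1 : ZMod r) = 0 := Multiplicative.ofAdd.injective h
        exact one_ne_zero h2
      let Ψ : GQ →* M := Θ.comp (DS.cyc (r ^ k))
      have hΨc : Cts Ψ := cts_cyc.comp _
      have hΨu : ∀ p : ℕ, p.Prime → p ≠ r → Unr Ψ p := fun p hp hpr =>
        (unr_cyc hp fun h => hpr ((Nat.prime_dvd_prime_iff_eq hp hr).mp
          (hp.dvd_of_dvd_pow h))).comp _
      have hΨ1 : Ψ cc = 1 := by
        change Θ (DS.cyc (r ^ k) cc) = 1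
        rw [cyc_cc, hΘ1]
      obtain ⟨m, hm⟩ := hcore (red.comp χ₁) (red.comp Ψ) (h1c.comp _) (hΨc.comp _)
        (fun p hp hpr => (h1u p hp hpr).comp _) (fun p hp hpr => (hΨu p hp hpr).comp _)
        (by rw [MonoidHom.comp_apply, ho4, map_one]) (by rw [MonoidHom.comp_apply, hΨ1, map_one])
        (by
          intro h
          obtain ⟨u, hu⟩ := hΘs g
          obtain ⟨σ, hσ⟩ := DS.cyc_surjective (r ^ k) u
          apply hred1
          have h2 := DFunLike.congr_fun h σ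
          rw [← hu, ← hσ]
          exact h2)
      obtain ⟨χ₂, hχ₂⟩ : ∃ χ₂, χ₂ = χ₁ * (zpowGroupHom (-m)).comp Ψ := ⟨_, rfl⟩
      have h2c : Cts χ₂ := by rw [hχ₂]; exact h1c.mul (hΨc.comp _)
      have h2u : ∀ p : ℕ, p.Prime → p ≠ r → Unr χ₂ p := fun p hp hpr => by
        rw [hχ₂]; exact (h1u p hp hpr).mul ((hΨu p hp hpr).comp _)
      have h2r : ∀ σ, χ₂ σ ∈ red.ker := by
        intro σ
        rw [MonoidHom.mem_ker, hχ₂, MonoidHom.mul_apply, map_mul, MonoidHom.comp_apply,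
          zpowGroupHom_apply, map_zpow]
        have h3 : red (χ₁ σ) = red (Ψ σ) ^ m := hm σ
        rw [h3, ← zpow_add]
        simp
      obtain ⟨χ₃, hχ₃⟩ : ∃ χ₃ : GQ →* red.ker, χ₃ = χ₂.codRestrict red.ker h2r := ⟨_, rfl⟩
      have h3v : ∀ σ, ((χ₃ σ : red.ker) : M) = χ₂ σ := fun σ => by rw [hχ₃]; rfl
      have hker : ∀ σ, σ ∈ χ₂.ker → σ ∈ χ₃.ker := by
        intro σ hσ
        rw [MonoidHom.mem_ker] at hσ ⊢
        apply Subtype.ext
        rw [h3v, hσ]
        rfl
      have h3c : Cts χ₃ := Subgroup.isOpen_mono (H₁ := χ₂.ker) hker h2c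
      -- the kernel of `red` is smaller
      have hcard : Nat.card red.ker ∣ r ^ (n + 1) := by
        rw [← hM]
        exact Subgroup.card_subgroup_dvd_card _
      obtain ⟨j, hj, hj'⟩ := (Nat.dvd_prime_pow hr).mp hcard
      have hjn : j ≠ n + 1 := by
        rintro rfl
        have h3 : red.ker = ⊤ := by
          apply Subgroup.eq_top_of_card_eq
          rw [hj', hM]
        exact hred1 (by
          have : g ∈ red.ker := by rw [h3]; trivial
          exact this)
      have h3 : Cyc χ₃ := ih j (lt_of_le_of_ne hj hjn) red.ker hj' χ₃ h3c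
        fun p hp hpr A hA σ hσ => hker σ (h2u p hp hpr A hA hσ)
      have h4 : Cyc χ₂ := by
        have h5 := h3.comp red.ker.subtype
        have h6 : red.ker.subtype.comp χ₃ = χ₂ := by
          ext σ
          exact h3v σ
        rwa [h6] at h5
      have h5 : Cyc χ₁ := by
        have h6 := h4.mul (((Cyc_cyc (n := r ^ k)).comp Θ).comp (zpowGroupHom m))
        have h7 : χ₂ * (zpowGroupHom m).comp (Θ.comp (DS.cyc (r ^ k))) = χ₁ := by
          ext σ
          rw [hχ₂]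
          change χ₁ σ * (Θ (DS.cyc (r ^ k) σ)) ^ (-m) * (Θ (DS.cyc (r ^ k) σ)) ^ m = χ₁ σ
          rw [mul_assoc, ← zpow_add, neg_add_cancel, zpow_zero, mul_one]
        rwa [h7] at h6
      have h6 := h5.mul (ho1.comp (invMonoidHom (α := M)))
      have h7 : χ₁ * (invMonoidHom (α := M)).comp ω = χ := by
        ext σ
        rw [hχ₁]
        simp only [MonoidHom.mul_apply, MonoidHom.comp_apply, invMonoidHom_apply, mul_assoc,
          mul_inv_cancel, mul_one]
      rwa [h7] at h6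

/-- **characters with values in cyclic `r`-groups** -/
theorem cyc_of_core {r : ℕ} (hr : r.Prime) (hcore : Core r) (n : ℕ) (M : Type) [CommGroup M]
    [Finite M] [IsCyclic M] (hM : Nat.card M = r ^ n) (χ : GQ →* M) (hχ : Cts χ) : Cyc χ := by
  haveI : Fact r.Prime := ⟨hr⟩
  obtain ⟨ψ, h1, h2, h3⟩ := exists_untame hr (IsPGroup.of_card hM) χ hχ
  have h4 := wild hr hcore n M hM (χ * ψ) (hχ.mul h2) h3
  have h6 := h4.mul (h1.comp (invMonoidHom (α := M)))
  have h7 : χ * ψ * (invMonoidHom (α := M)).comp ψ = χ := by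
    ext σ
    simp only [MonoidHom.mul_apply, MonoidHom.comp_apply, invMonoidHom_apply, mul_assoc,
      mul_inv_cancel, mul_one]
  rwa [h7] at h6

end Fermat.Agent.Cor.KW
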