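import Fermat.Agent.Cor.KW2
import Fermat.Agent.H12.RatVal
import Fermat.Agent.H12.InertiaVal
import Fermat.Agent.CFT.EC.GW

/-!
# The Kronecker–Weber theorem III : characters of order `p` unramified outside `p`, `p` odd

By the Greenberg–Wiles formula for `μ_p` with the local condition `0` at `p` there are at most `p`
characters `Gal(ℚ̄/ℚ) → ℤ/p` unramified outside `p`: the corresponding Selmer group of `μ_p` consists of
the classes of the `a ∈ ℚ^×` which are `p`-th powers at `p` and have valuations divisible by `p`.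
-/

set_option autoImplicit false
set_option linter.style.haveILetI false
set_option maxHeartbeats 400000
set_option linter.unusedSectionVars false

noncomputable section

namespace Fermat.Agent.Cor.KW

open Fermat.Agent.CC Fermat.Agent.CFT.EC
open Fermat.Agent.LF (DK)

theorem dvd_padic {p q : ℕ} (hq : q.Prime) {A : ValuationSubring Qb}
    (hA : A.LiesOverPrime q) {β : Qb} (hβ0 : β ≠ 0)
    (hfix : ∀ σ ∈ A.inertiaSubgroupIn ℚ, σ β = β) {a : ℚ} (ha : (a : Qb) = β ^ p) :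
    (p : ℤ) ∣ padicValRat q a := by
  have hg := H51.isGalois_Qbar
  obtain ⟨n, hn⟩ := H12.exists_valuation_eq_zpow hq hA β hβ0 hfix
  have ha0 : a ≠ 0 := by
    rintro rfl
    rw [Rat.cast_zero] at ha
    exact pow_ne_zero p hβ0 ha.symm
  have h1 := H12.valuation_ratCast (L := Qb) hq hA a ha0
  rw [ha, map_pow, hn, ← zpow_natCast, ← zpow_mul] at h1
  have hv0 : A.valuation (q : Qb) ≠ 0 := (map_ne_zero _).mpr (Nat.cast_ne_zero.mpr hq.ne_zero)
  have hv1 : A.valuation (q : Qb) < 1 := H09.val_natCast_lt_one hA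
  have h2 := zpow_right_injective₀ (lt_of_le_of_ne zero_le (Ne.symm hv0)) hv1.ne h1
  exact ⟨n, by rw [mul_comm]; exact h2.symm⟩

/-- Kummer theory over `ℚ` -/
theorem exists_root {p : ℕ} (hp : p.Prime) (f : GQ → Qb) (hf1 : ∀ σ, f σ ^ p = 1)
    (hf : ∀ σ τ, f (σ * τ) = f σ * σ (f τ)) (U : Subgroup GQ) (hU : IsOpen (U : Set GQ))
    (hfU : ∀ σ ∈ U, f σ = 1) :
    ∃ (α : Qb) (a : ℚ), α ≠ 0 ∧ (a : Qb) = α ^ p ∧ ∀ σ : GQ, σ α = f σ * α := by
  obtain ⟨α, hα0, hα⟩ := H12.hilbert90' (⊤ : Subgroup GQ) f (fun σ _ h => by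
      have := hf1 σ
      rw [h, zero_pow hp.ne_zero] at this
      exact zero_ne_one this)
    (fun σ _ τ _ => hf σ τ) U hU (fun σ _ hσ => hfU σ hσ)
  have h1 : ∀ σ : GQ, σ (α ^ p) = α ^ p := fun σ => by
    rw [map_pow, hα σ trivial, mul_pow, hf1, one_mul]
  obtain ⟨a, ha⟩ := H51.rational_of_fixed h1
  exact ⟨α, a, hα0, by rw [← ha, eq_ratCast], fun σ => hα σ trivial⟩

section Odd

variable {p : ℕ} [hp : Fact p.Prime]

/-- the underlying root of unity -/
def rt (t : Mu p) : Qb := (TorP.incl p (UL Qb) t).val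

theorem rt_pow (t : Mu p) : rt t ^ p = 1 := by
  rw [rt, ← UL.val_nsmul, TorP.incl_mem, UL.val_zero]

theorem rt_add (t t' : Mu p) : rt (t + t') = rt t * rt t' := by
  rw [rt, map_add, UL.val_add]
  rfl

theorem rt_sub (t t' : Mu p) : rt (t - t') = rt t / rt t' := by
  rw [rt, map_sub, UL.val_sub]
  rfl

theorem rt_smul (g : GQ) (t : Mu p) : rt (g • t) = g (rt t) := by
  rw [rt, TorP.incl_smul, UL.val_smul]
  rfl

theorem rt_zero : rt (0 : Mu p) = 1 := by rw [rt, map_zero, UL.val_zero]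

theorem rt_injective : Function.Injective (rt (p := p)) := fun _ _ h =>
  TorP.incl_injective (UL.ext h)

theorem rt_ne_zero (t : Mu p) : rt t ≠ 0 := UL.val_ne_zero _

theorem exists_rt {ζ : Qb} (h : ζ ^ p = 1) : ∃ t : Mu p, rt t = ζ := by
  have h0 : ζ ≠ 0 := by
    rintro rfl
    rw [zero_pow hp.out.ne_zero] at h
    exact zero_ne_one h
  refine ⟨TorP.mk (UL.mk ζ h0) (UL.ext ?_), ?_⟩
  · rw [UL.val_nsmul, UL.val_mk, UL.val_zero, h]
  · rw [rt, TorP.incl_mk, UL.val_mk]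

/-- the Selmer group of `μ_p` vanishes -/
theorem sel_eq_zero (hp2 : p ≠ 2) (A : ({pP p} : Finset Nat.Primes) → ValuationSubring Qb)
    (hA : ∀ q : ({pP p} : Finset Nat.Primes), (A q).LiesOverPrime ((q : Nat.Primes) : ℕ))
    (x : H1 (levS {pP p}) (Mu p))
    (hx : x ∈ SelS {pP p} A (Mu p) (fun _ => ⊥)) : x = 0 := by
  classical
  obtain ⟨f, rfl⟩ := H1.mk_surjective x
  obtain ⟨U, ⟨F₀, hF₀, hF₀U⟩, hfU⟩ := f.2.1
  have hF₀fin := hF₀.1
  have hfU1 : ∀ σ ∈ U, f.1 σ = 0 := by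
    intro σ hσ
    have h1 := hfU 1 σ hσ
    rw [one_mul, Z1.map_one] at h1
    exact h1
  obtain ⟨α, a, hα0, ha, hα⟩ := exists_root hp.out (fun σ => rt (f.1 σ)) (fun σ => rt_pow _)
    (fun σ τ => by
      beta_reduce
      rw [f.2.2 σ τ, rt_add, rt_smul]) F₀.fixingSubgroup
    (IntermediateField.fixingSubgroup_isOpen _) (fun σ hσ => by
      beta_reduce
      rw [hfU1 σ (hF₀U hσ), rt_zero])
  have ha0 : a ≠ 0 := by
    rintro rfl
    rw [Rat.cast_zero] at ha
    exact pow_ne_zero p hα0 ha.symm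
  -- all valuations of `a` are divisible by `p`
  have hval : ∀ q : ℕ, q.Prime → (p : ℤ) ∣ padicValRat q a := by
    intro q hq
    by_cases hqp : q = p
    · subst hqp
      let q₀ : ({pP q} : Finset Nat.Primes) := ⟨pP q, Finset.mem_singleton_self _⟩
      have h1 : loc1 (cont_D {pP q} (A q₀) ⊥) (Mu q) (H1.mk _ _ f) = 0 := by
        have := (mem_SelS _ _).mp hx q₀
        rwa [AddSubgroup.mem_bot] at this
      obtain ⟨t, ht⟩ := H1.mk_eq_zero.mp h1
      have hA' : (A q₀).LiesOverPrime q := hA q₀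
      refine dvd_padic hq hA' (β := α / rt t) (div_ne_zero hα0 (rt_ne_zero t)) ?_ (a := a) ?_
      · intro σ hσ
        have hσD : σ ∈ DK (A q₀) ⊥ := by
          refine ⟨TW.inertia_le_decomposition _ hσ, ?_⟩
          rw [IntermediateField.fixingSubgroup_bot]
          trivial
        have h2 : f.1 σ = σ • t - t := ht ⟨σ, hσD⟩
        rw [map_div₀, hα σ, h2, rt_sub, rt_smul]
        have h3 : σ (rt t) ≠ 0 := (map_ne_zero _).mpr (rt_ne_zero t)
        field_simp [rt_ne_zero t]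
      · rw [div_pow, rt_pow, div_one, ha]
    · obtain ⟨A', hA'⟩ := H05.exists_liesOverPrime Qb hq
      refine dvd_padic hq hA' hα0 ?_ ha
      intro σ hσ
      have h1 : σ ∈ F₀.fixingSubgroup := hF₀.2 ⟨q, hq⟩
        (fun h => hqp (congrArg Subtype.val (Finset.mem_singleton.mp h))) A' hA' hσ
      rw [hα σ, hfU1 σ (hF₀U h1), rt_zero, one_mul]
  obtain ⟨b, hb0, hb⟩ := H12.rat_eq_pow_of_dvd hp.out.ne_zero a ha0 hval
  obtain ⟨b, hb0, hb⟩ : ∃ b : ℚ, b ≠ 0 ∧ b ^ p = a := by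
    rcases hb with hb | hb
    · exact ⟨b, hb0, hb⟩
    · refine ⟨-b, neg_ne_zero.mpr hb0, ?_⟩
      rw [(hp.out.odd_of_ne_two hp2).neg_pow, hb, neg_neg]
  have hb0' : (b : Qb) ≠ 0 := by exact_mod_cast hb0
  obtain ⟨t, ht⟩ := exists_rt (p := p) (ζ := α / b) (by
    rw [div_pow, ← ha, ← hb]
    push_cast
    exact div_self (pow_ne_zero p hb0'))
  rw [H1.mk_eq_zero]
  refine ⟨t, fun σ => rt_injective ?_⟩
  rw [rt_sub, rt_smul, ht, map_div₀, hα σ, map_ratCast]
  field_simp

theorem finite_Mu' : Finite (Mu p) := Finite.of_equiv _ (tauT p).symm.toEquiv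

/-- the pairing `μ_p × F_p → μ_p` -/
theorem pr_scPair : Pr p (levS {pP p}) (scPair (TorP.killed (p := p) (M := UL Qb))) where
  fA := finite_Mu'
  fB := inferInstance
  he := scPair_eq _
  smA := smooth_Mu (Finset.mem_singleton_self _)
  smB := Fp.smooth _
  kA := TorP.killed
  kB := fun b => by
    apply (Fp.toZ p).injective
    rw [map_nsmul, map_zero, nsmul_eq_mul, ZMod.natCast_self, zero_mul]
  hl := fun a h => by
    have h1 := h ((Fp.toZ p).symm 1)
    rw [scPair_apply, zs_val, AddEquiv.apply_symm_apply, ZMod.val_one, one_smul] at h1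
    exact h1
  hr := fun b h => by
    obtain ⟨ζ, hζ⟩ := DS.exists_primitive p
    obtain ⟨t, ht⟩ := exists_rt hζ.pow_eq_one
    have h1 := h t
    rw [scPair_apply, zs_val] at h1
    have h2 : ζ ^ ((Fp.toZ p) b).val = 1 := by
      rw [← ht]
      have h3 := congrArg (fun t : Mu p => rt t) h1
      simp only [rt_zero] at h3
      rw [← h3, rt, rt, map_nsmul, UL.val_nsmul]
    rw [hζ.pow_eq_one_iff_dvd] at h2
    have h4 : ((Fp.toZ p) b).val = 0 := Nat.eq_zero_of_dvd_of_lt h2 (ZMod.val_lt _)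
    have h5 : (Fp.toZ p) b = 0 := (ZMod.val_eq_zero _).mp h4
    exact (Fp.toZ p).injective (by rw [h5, map_zero])

/-- **at most `p` characters of order `p` unramified outside `p`** -/
theorem card_H1_le (hp2 : p ≠ 2) :
    Finite (H1 (levS {pP p}) (Fp p)) ∧ Nat.card (H1 (levS {pP p}) (Fp p)) ≤ p := by
  classical
  have hex : ∀ q : ({pP p} : Finset Nat.Primes), ∃ A : ValuationSubring Qb,
      A.LiesOverPrime ((q : Nat.Primes) : ℕ) := fun q => H05.exists_liesOverPrime Qb q.1.2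
  choose A hA using hex
  obtain ⟨-, hfin, h⟩ := gw hp2 {pP p} (Finset.mem_singleton_self _) A hA (Mu p) (Fp p) _
    pr_scPair (fun _ => ⊥)
  have hfinMu := finite_Mu' (p := p)
  -- the dual Selmer group is everything
  have hD : SelD {pP p} A pr_scPair (fun _ => ⊥) = ⊤ := by
    rw [eq_top_iff]
    intro x _
    rw [SelD, mem_SelS]
    intro q
    rw [mem_dualC]
    intro y hy
    rw [AddSubgroup.mem_bot] at hy
    rw [hy, map_zero]
    rfl
  have hS : SelS {pP p} A (Mu p) (fun _ => ⊥) = ⊥ := by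
    rw [eq_bot_iff]
    intro x hx
    rw [AddSubgroup.mem_bot]
    exact sel_eq_zero hp2 A hA x hx
  rw [hD] at h hfin
  rw [hS] at h
  have hfin' : Finite (H1 (levS {pP p}) (Fp p)) := Finite.of_equiv _ AddSubgroup.topEquiv.toEquiv
  refine ⟨hfin', ?_⟩
  have e1 : Nat.card (⊥ : AddSubgroup (H1 (levS {pP p}) (Mu p))) = 1 := by simp
  have hfix : ∀ t : Mu p, Fermat.Agent.CFT.EC.cc • t = t → t = 0 := by
    intro t ht
    rw [cc_mu] at ht
    have h1 : (2 : ℕ) • t = 0 := by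
      rw [two_nsmul]
      nth_rewrite 1 [← ht]
      exact neg_add_cancel t
    have h2 : p • t = 0 := TorP.killed t
    have h3 : Nat.gcd 2 p = 1 :=
      (Nat.coprime_primes Nat.prime_two hp.out).mpr (Ne.symm hp2)
    have h4 : addOrderOf t ∣ Nat.gcd 2 p :=
      Nat.dvd_gcd (addOrderOf_dvd_of_nsmul_eq_zero h1) (addOrderOf_dvd_of_nsmul_eq_zero h2)
    rw [h3, Nat.dvd_one] at h4
    exact AddMonoid.addOrderOf_eq_one_iff.mp h4
  have e2 : cfix Fermat.Agent.CFT.EC.cc (Mu p) = 1 := by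
    rw [cfix, Nat.card_eq_one_iff_unique]
    refine ⟨⟨fun a b => Subtype.ext ?_⟩, ⟨0, smul_zero _⟩⟩
    rw [hfix a a.2, hfix b b.2]
  have e3 : Nat.card (H0 GQ (Fp p)) = p := by
    have : (H0 GQ (Fp p)) = ⊤ := by
      rw [eq_top_iff]
      intro x _ g
      rfl
    rw [this, Nat.card_congr AddSubgroup.topEquiv.toEquiv]
    exact Nat.card_zmod p
  have e4 : ∀ q : ({pP p} : Finset Nat.Primes), Nat.card (H0 (DK (A q) ⊥) (Mu p)) = 1 := by
    intro q
    have hq : ((q : Nat.Primes) : ℕ) = p := by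
      have := Finset.mem_singleton.mp q.2
      rw [this]
      rfl
    rw [Nat.card_eq_one_iff_unique]
    have key : ∀ t ∈ H0 (DK (A q) ⊥) (Mu p), t = 0 := by
      intro t ht
      apply hfix
      rw [cc_mu]
      have hAq : (A q).LiesOverPrime p := by
        have := hA q
        rwa [hq] at this
      haveI : NeZero (p ^ 1) := ⟨pow_ne_zero 1 hp.out.ne_zero⟩
      obtain ⟨σ, hσ, hσ1⟩ := cyc_inertia hp.out 1 hAq (-1)
      have hσD : σ ∈ DK (A q) ⊥ := by
        refine ⟨TW.inertia_le_decomposition _ hσ, ?_⟩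
        rw [IntermediateField.fixingSubgroup_bot]
        trivial
      have h1 : σ • t = t := ht ⟨σ, hσD⟩
      have h2 : DS.cyc (p ^ 1) (σ * cc) = 1 := by
        rw [map_mul, cyc_cc, hσ1]
        simp
      have h3 : (σ * cc) (rt t) = rt t := by
        rw [DS.cyc_spec (m := p ^ 1) (σ * cc) (x := rt t) (by rw [pow_one, rt_pow]), h2,
          Units.val_one]
        haveI : Fact (1 < p ^ 1) := ⟨by rw [pow_one]; exact hp.out.one_lt⟩
        rw [ZMod.val_one, pow_one]
      have h4 : (σ * cc) • t = t := rt_injective (by rw [rt_smul, h3])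
      rw [mul_smul] at h4
      have h5 : (cc : GQ) • t = -t := cc_mu t
      rw [h5, smul_neg, h1] at h4
      exact h4
    exact ⟨⟨fun a b => Subtype.ext (by rw [key a a.2, key b b.2])⟩, ⟨0⟩⟩
  have e5 : 0 < Nat.card (H0 GQ (Mu p)) := Nat.card_pos
  have e6 : Nat.card (⊤ : AddSubgroup (H1 (levS {pP p}) (Fp p))) =
      Nat.card (H1 (levS {pP p}) (Fp p)) := Nat.card_congr AddSubgroup.topEquiv.toEquiv
  rw [e1, e2, e3, e6, Finset.prod_congr rfl fun q _ => e4 q, Finset.prod_const_one] at h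
  have e7 : (∏ q : ({pP p} : Finset Nat.Primes),
      Nat.card ((fun _ => ⊥ : ∀ q : ({pP p} : Finset Nat.Primes),
        AddSubgroup (H1 (lev.sub (DK (A q) ⊥)) (Mu p))) q)) = 1 := by
    refine Finset.prod_eq_one fun q _ => ?_
    simp
  rw [e7, one_mul, one_mul, mul_one, mul_one] at h
  calc Nat.card (H1 (levS {pP p}) (Fp p)) ≤ Nat.card (H1 (levS {pP p}) (Fp p)) *
      Nat.card (H0 GQ (Mu p)) := Nat.le_mul_of_pos_right _ e5
    _ = p := h.symm

/-- **the core statement for odd `p`** -/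
theorem core_odd (hp2 : p ≠ 2) : Core p := by
  classical
  intro χ ψ hχ hψ hχu hψu _ _ hψ1
  obtain ⟨hfin, hcard⟩ := card_H1_le hp2
  -- characters as cocycles
  have hlev : ∀ θ : GQ →* Multiplicative (ZMod p), Cts θ →
      (∀ q : ℕ, q.Prime → q ≠ p → Unr θ q) →
      ∃ f : Z1 (levS {pP p}) (Fp p), ∀ g, f.1 g = (Fp.toZ p).symm (Multiplicative.toAdd (θ g)) := by
    intro θ hθ hθu
    obtain ⟨F, hF, hFU⟩ := exists_field hθ
    refine ⟨⟨fun g => (Fp.toZ p).symm (Multiplicative.toAdd (θ g)),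
      ⟨θ.ker, ⟨F, ⟨hF, fun q hq A hA => ?_⟩, hFU.le⟩, fun g s hs => ?_⟩, fun g h => ?_⟩,
      fun g => rfl⟩
    · rw [hFU]
      refine hθu q q.2 (fun h => hq ?_) A hA
      rw [Finset.mem_singleton]
      exact Subtype.ext h
    · have h1 : θ s = 1 := hs
      beta_reduce
      rw [map_mul, h1, mul_one]
    · beta_reduce
      rw [map_mul, toAdd_mul, map_add]
      rfl
  obtain ⟨f, hf⟩ := hlev χ hχ hχu
  obtain ⟨f', hf'⟩ := hlev ψ hψ hψu
  have hinj : ∀ f : Z1 (levS {pP p}) (Fp p), H1.mk _ _ f = 0 → ∀ g, f.1 g = 0 := by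
    intro f hf g
    obtain ⟨a, ha⟩ := H1.mk_eq_zero.mp hf
    rw [ha g, Fp.smul_eq, sub_self]
  have hne : H1.mk _ _ f' ≠ 0 := by
    intro h
    apply hψ1
    ext g
    have h1 := hinj f' h g
    rw [hf' g] at h1
    have h2 : Multiplicative.toAdd (ψ g) = 0 :=
      (Fp.toZ p).symm.injective (by rw [h1, map_zero])
    exact h2
  have hord : addOrderOf (H1.mk _ _ f') = p := by
    apply addOrderOf_eq_prime _ hne
    rw [← map_nsmul]
    rw [H1.mk_eq_zero]
    refine ⟨0, fun g => ?_⟩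
    rw [smul_zero, sub_self]
    exact pr_scPair.kB _
  have htop : AddSubgroup.zmultiples (H1.mk _ _ f') = ⊤ := by
    apply AddSubgroup.eq_top_of_card_eq
    apply le_antisymm
    · exact Nat.le_of_dvd Nat.card_pos (AddSubgroup.card_addSubgroup_dvd_card _)
    · rw [Nat.card_zmultiples, hord]
      exact hcard
  have hmem : H1.mk _ _ f ∈ AddSubgroup.zmultiples (H1.mk _ _ f') := by rw [htop]; trivial
  obtain ⟨m, hm⟩ := AddSubgroup.mem_zmultiples_iff.mp hmem
  refine ⟨m, fun g => ?_⟩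
  have h1 : H1.mk _ _ (f - m • f') = 0 := by
    rw [map_sub, map_zsmul, hm, sub_self]
  have h2 := hinj _ h1 g
  have h3 : f.1 g = m • f'.1 g := by
    have h4 : (f - m • f').1 g = f.1 g - m • f'.1 g := rfl
    rw [h4, sub_eq_zero] at h2
    exact h2
  rw [hf, hf', ← map_zsmul] at h3
  exact (Fp.toZ p).symm.injective h3

end Odd

end Fermat.Agent.Cor.KW
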