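import Mathlib
import Fermat.Agent.Cor.Kaehler
import Fermat.Agent.RR.Genus
import Fermat.Agent.S24

/-!
# Differentials on `X₀(N)`

* `genus_X0`: the statement S24 without the hypothesis `HasCanonicalDivisor`;
* `finrank_regularDifferentials_X0`: the space of regular differentials of `X₀(N)` over `ℚ̄` has the same dimension as
  the space of cusp forms of weight two on `Γ₀(N)`.

This file is not used by any of the statement files.
-/

set_option autoImplicit false

noncomputable section

namespace Fermat.Agent.Cor.RR

open AlgebraicCurve ModularCurve CongruenceSubgroup Fermat.Agent.FF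

variable (N : ℕ) [NeZero N]

/-- The differentials of `X₀(N)` have divisors: the hypothesis of S24 is satisfied. -/
theorem hasCanonicalDivisor_X0 :
    HasCanonicalDivisor (K := AlgebraicClosure ℚ) (F := modularFunctionFieldBar N) :=
  hasCanonicalDivisor_funField

/-- **The genus of `X₀(N)`**, unconditional form of S24. -/
theorem genus_X0 : haveI := hasCanonicalDivisor_X0 N
    (genus (AlgebraicClosure ℚ) (modularFunctionFieldBar N) : ℚ) = genusFormula N :=
  haveI := hasCanonicalDivisor_X0 N
  Fermat.Agent.S24.result N

/-- **The regular differentials of `X₀(N)`**: their space has dimension `dim S₂(Γ₀(N))`. -/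
theorem finrank_regularDifferentials_X0 :
    Module.finrank (AlgebraicClosure ℚ)
      (regularDifferentials (AlgebraicClosure ℚ) (modularFunctionFieldBar N)) =
    Module.finrank ℂ (CuspForm (Gamma0 N) 2) := by
  rw [finrank_regularDifferentials, Fermat.Agent.RR.genusFF_bar_eq_finrank]

/-- the dimension of the space of regular differentials of `X₀(N)` is given by the genus formula -/
theorem finrank_regularDifferentials_X0_eq :
    (Module.finrank (AlgebraicClosure ℚ)
      (regularDifferentials (AlgebraicClosure ℚ) (modularFunctionFieldBar N)) : ℚ) =
    genusFormula N := by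
  rw [finrank_regularDifferentials, Fermat.Agent.RR.genusFF_bar]

end Fermat.Agent.Cor.RR
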