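import Mathlib
import Fermat.Agent.Cor.DivisionFieldsAb

/-!
# Kummer theory of semistable elliptic curves

Let `W` be a semistable elliptic curve over `ℚ`, `N` an integer coprime to `6` such that `W[p]` is irreducible for
all primes `p ∣ N` and `P ∈ W(ℚ)` a point which is not divisible by `p` in `W(ℚ)`, for all primes `p ∣ N`.

* `kummer_surjective` (Bashmakov's theorem): `Gal(ℚ(W[N], N⁻¹P)/ℚ(W[N]))` is the whole of `W[N]`;
* `affine_surjective`: every affine transformation of the set `N⁻¹P` of the `N`-division points of `P` is induced by an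
  element of `Gal(ℚ̄/ℚ)`: `Gal(ℚ(N⁻¹P)/ℚ) = (ℤ/N)² ⋊ GL₂(ℤ/N)`; `affine_surjective_uniform` (all semistable curves,
  prime factors of `N` at least `11` and different from `13`), `affine_surjective_full` (all semistable curves with
  full `2`-torsion, all `N` coprime to `6`).

This file is not used by any of the statement files.
-/

set_option autoImplicit false
set_option linter.style.haveILetI false

noncomputable section

namespace Fermat.Agent.Cor.KummerDivision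

open WeierstrassCurve WeierstrassCurve.Affine WeierstrassCurve.Affine.Point
open Fermat.Agent.Ell Fermat.Agent.Cor.Surj Fermat.Agent.Cor.DivisionFields
open Fermat.Agent.Cor.InverseGalois
open Fermat.Agent.EGal (VV rho)
open Fermat.Agent.Cor.H11 (HasFullTwo irreducible_of_fullTwo)

local notation "Qb" => AlgebraicClosure ℚ
local notation "Γq" => AlgebraicClosure ℚ ≃ₐ[ℚ] AlgebraicClosure ℚ

variable {W : WeierstrassCurve ℤ}

theorem gadd (σ : Γq) (a b : Pts (WQ W)) : σ • (a + b) = σ • a + σ • b :=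
  map_add (DistribSMul.toAddMonoidHom (Pts (WQ W)) σ) a b

theorem gsub (σ : Γq) (a b : Pts (WQ W)) : σ • (a - b) = σ • a - σ • b :=
  map_sub (DistribSMul.toAddMonoidHom (Pts (WQ W)) σ) a b

theorem gnsmul (σ : Γq) (k : ℕ) (a : Pts (WQ W)) : σ • (k • a) = k • (σ • a) :=
  map_nsmul (DistribSMul.toAddMonoidHom (Pts (WQ W)) σ) k a

/-- **Divisibility descends from the division field**: `m ∣ N`, a rational point which is divisible by `m` in
`W(ℚ(W[N]))` is divisible by `m` in `W(ℚ)`. -/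
theorem divisible_descends_of_dvd (W : WeierstrassCurve ℤ) (hΔ : W.Δ ≠ 0)
    (hss : W.IsSemistableModel) {N m : ℕ} (hN : N.Coprime 6) (hm : m ∣ N)
    (hirr : ∀ p : ℕ, p.Prime → p ∣ N → W.ModRepIsIrreducible p) (P R : Pts (WQ W))
    (hP : ∀ σ : Γq, σ • P = P) (hR : m • R = P)
    (hRN : ∀ σ : Γq, (∀ x : Pts (WQ W), N • x = 0 → σ • x = x) → σ • R = R) :
    ∃ R' : Pts (WQ W), m • R' = P ∧ ∀ σ : Γq, σ • R' = R' := by
  obtain ⟨k, hk⟩ := hm
  have hm0 : ∀ σ : Γq, m • (σ • R - R) = 0 := by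
    intro σ
    rw [nsmul_sub, ← gnsmul, hR, hP, sub_self]
  have hmem : ∀ σ : Γq, σ • R - R ∈ Submodule.torsionBy ℤ (Pts (WQ W)) (N : ℤ) := by
    intro σ
    rw [Submodule.mem_torsionBy_iff, natCast_zsmul, hk, mul_comm, mul_smul, hm0 σ]
    exact smul_zero (A := Pts (WQ W)) k
  obtain ⟨x, hx⟩ := cocycle_trivial W hΔ hss hN hirr (fun σ => ⟨σ • R - R, hmem σ⟩)
    (fun σ τ => by
      apply Subtype.ext
      change (σ * τ) • R - R = (σ • R - R) + σ • (τ • R - R)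
      rw [mul_smul, gsub]
      abel)
    (fun σ h => by
      apply Subtype.ext
      change σ • R - R = 0
      rw [hRN σ (fun y hy => ?_), sub_self]
      have hy' : y ∈ Submodule.torsionBy ℤ (Pts (WQ W)) (N : ℤ) := by
        rw [Submodule.mem_torsionBy_iff, natCast_zsmul]
        exact hy
      exact congrArg Subtype.val (h ⟨y, hy'⟩))
  have hx' : ∀ σ : Γq, σ • R - R = σ • (x : Pts (WQ W)) - x := fun σ => congrArg Subtype.val (hx σ)
  have hNx : N • (x : Pts (WQ W)) = 0 := by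
    have := x.2
    rwa [Submodule.mem_torsionBy_iff, natCast_zsmul] at this
  -- `m x` is rational
  have hfix : ∀ σ : Γq, σ • (m • (x : Pts (WQ W))) = m • (x : Pts (WQ W)) := by
    intro σ
    rw [gnsmul, ← sub_eq_zero, ← nsmul_sub, ← hx', hm0]
  have hodd : Odd N := by
    rw [← Nat.not_even_iff_odd]
    intro h
    have h1 := Nat.dvd_gcd (even_iff_two_dvd.mp h) (show 2 ∣ 6 by norm_num)
    rw [hN] at h1
    norm_num at h1
  have hmx : m • (x : Pts (WQ W)) = 0 := by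
    refine no_abelian_torsion W hΔ hss hodd hirr _ ?_ fun σ τ => hfix _
    have h1 : N • (m • (x : Pts (WQ W))) = m • (N • (x : Pts (WQ W))) := smul_comm _ _ _
    exact h1.trans (by rw [hNx]; exact smul_zero (A := Pts (WQ W)) m)
  refine ⟨R - x, ?_, fun σ => ?_⟩
  · rw [nsmul_sub, hR, hmx, sub_zero]
  · have h1 := hx' σ
    rw [gsub]
    rw [sub_eq_sub_iff_add_eq_add] at h1 ⊢
    rw [h1]
    abel

/-- **Bashmakov's theorem**: `W` semistable, `N` coprime to `6`, `W[p]` irreducible for all primes `p ∣ N`, `P ∈ W(ℚ)`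
not divisible by `p` in `W(ℚ)` for all primes `p ∣ N`. For `Q` with `N Q = P` and every `t ∈ W[N]` there is an
automorphism acting trivially on `W[N]` with `σ Q = Q + t`. -/
theorem kummer_surjective (W : WeierstrassCurve ℤ) (hΔ : W.Δ ≠ 0)
    (hss : W.IsSemistableModel) {N : ℕ} (hN : N.Coprime 6)
    (hirr : ∀ p : ℕ, p.Prime → p ∣ N → W.ModRepIsIrreducible p)
    (P Q : ((W.map (Int.castRingHom ℚ))⁄(AlgebraicClosure ℚ)).Point)
    (hP : ∀ σ : AlgebraicClosure ℚ ≃ₐ[ℚ] AlgebraicClosure ℚ, σ • P = P) (hQ : N • Q = P)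
    (hdiv : ∀ p : ℕ, p.Prime → p ∣ N →
      ¬ ∃ R : ((W.map (Int.castRingHom ℚ))⁄(AlgebraicClosure ℚ)).Point, p • R = P ∧
        ∀ σ : AlgebraicClosure ℚ ≃ₐ[ℚ] AlgebraicClosure ℚ, σ • R = R)
    (t : ((W.map (Int.castRingHom ℚ))⁄(AlgebraicClosure ℚ)).Point) (ht : N • t = 0) :
    ∃ σ : AlgebraicClosure ℚ ≃ₐ[ℚ] AlgebraicClosure ℚ,
      (∀ x : ((W.map (Int.castRingHom ℚ))⁄(AlgebraicClosure ℚ)).Point, N • x = 0 → σ • x = x) ∧
        σ • Q = Q + t := by
  haveI := isElliptic_WQ hΔ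
  have hN0 : N ≠ 0 := by
    rintro rfl
    norm_num at hN
  change Pts (WQ W) at P Q t
  have hQt : ∀ (σ : Γq) (a : Pts (WQ W)), σ • Q = Q + a → N • a = 0 := by
    intro σ a h
    have h1 : N • (σ • Q) = N • Q + N • a := by rw [h, nsmul_add]
    rw [← gnsmul, hQ, hP] at h1
    exact (left_eq_add.mp h1)
  -- the image
  let I : AddSubgroup (Pts (WQ W)) :=
    { carrier := {t | ∃ σ : Γq, (∀ x : Pts (WQ W), N • x = 0 → σ • x = x) ∧ σ • Q = Q + t}
      zero_mem' := ⟨1, fun x _ => one_smul _ x, by rw [one_smul, add_zero]⟩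
      add_mem' := by
        rintro a b ⟨σ, hσ, ha⟩ ⟨τ, hτ, hb⟩
        refine ⟨σ * τ, fun x hx => by rw [mul_smul, hτ x hx, hσ x hx], ?_⟩
        rw [mul_smul, hb, gadd, ha, hσ b (hQt τ b hb), add_assoc]
      neg_mem' := by
        rintro a ⟨σ, hσ, ha⟩
        refine ⟨σ⁻¹, fun x hx => ?_, ?_⟩
        · rw [inv_smul_eq_iff, hσ x hx]
        · have h1 : N • (-a) = 0 := by
            have h0 : N • (0 - a) = 0 := by
              rw [nsmul_sub, hQt σ a ha, sub_zero]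
              exact smul_zero (A := Pts (WQ W)) N
            rwa [zero_sub] at h0
          rw [inv_smul_eq_iff, gadd, ha, hσ (-a) h1]
          abel }
  have hI : ∀ (g : Γq) (a : Pts (WQ W)), a ∈ I → g • a ∈ I := by
    rintro g a ⟨σ, hσ, ha⟩
    refine ⟨g * σ * g⁻¹, fun x hx => ?_, ?_⟩
    · have h1 : N • (g⁻¹ • x) = 0 := by
        rw [← gnsmul, hx]
        exact smul_zero (A := Pts (WQ W)) g⁻¹
      rw [mul_smul, mul_smul, hσ _ h1, smul_inv_smul]
    · have h1 : g⁻¹ • Q = Q + (g⁻¹ • Q - Q) := by abel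
      have h2 := hσ _ (hQt g⁻¹ _ h1)
      rw [mul_smul, mul_smul, h1, gadd, ha, h2]
      have h3 : Q + a + (g⁻¹ • Q - Q) = g⁻¹ • Q + a := by abel
      rw [h3, gadd, smul_inv_smul]
  -- for all `p ∣ N`, `(N / p) I = W[p]`
  have hfull : ∀ p : ℕ, p.Prime → p ∣ N → ∀ z : Pts (WQ W), p • z = 0 →
      ∃ i ∈ I, (N / p) • i = z := by
    intro p hp hpN
    haveI : Fact p.Prime := ⟨hp⟩
    have hpN' : (N / p) * p = N := Nat.div_mul_cancel hpN
    let ι : VV (WQ W) p →+ Pts (WQ W) :=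
      AddMonoidHom.mk' (fun v => (v : Pts (WQ W))) (fun _ _ => rfl)
    let B : AddSubgroup (VV (WQ W) p) :=
      (I.map (nsmulAddMonoidHom (α := Pts (WQ W)) (N / p))).comap ι
    let F : Submodule (ZMod p) (VV (WQ W) p) := AddSubgroup.toZModSubmodule p B
    have hFmem : ∀ v : VV (WQ W) p, v ∈ F ↔ ∃ i ∈ I, (N / p) • i = (v : Pts (WQ W)) :=
      fun v => Iff.rfl
    have hF : ∀ (g : Γq), ∀ y ∈ F, g • y ∈ F := by
      intro g y hy
      obtain ⟨i, hi, hiy⟩ := (hFmem y).mp hy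
      refine (hFmem _).mpr ⟨g • i, hI g i hi, ?_⟩
      rw [← gnsmul, hiy]
      rfl
    rcases (hirr p hp hpN).2 F hF with h | h
    · exfalso
      apply hdiv p hp hpN
      have h0 : ∀ i ∈ I, (N / p) • i = 0 := by
        rintro i hi
        obtain ⟨σ, hσ, hi'⟩ := id hi
        have h1 : (N / p) • i ∈ Submodule.torsionBy ℤ (Pts (WQ W)) (p : ℤ) := by
          rw [Submodule.mem_torsionBy_iff, natCast_zsmul, ← mul_smul, mul_comm, hpN']
          exact hQt σ i hi'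
        have h2 : (⟨(N / p) • i, h1⟩ : VV (WQ W) p) ∈ F := (hFmem _).mpr ⟨i, hi, rfl⟩
        rw [h, Submodule.mem_bot] at h2
        exact congrArg Subtype.val h2
      refine divisible_descends_of_dvd W hΔ hss hN hpN hirr P ((N / p) • Q) hP ?_ fun σ hσ => ?_
      · rw [← mul_smul, mul_comm, hpN', hQ]
      · rw [gnsmul]
        have h1 : σ • Q = Q + (σ • Q - Q) := by abel
        rw [h1, nsmul_add, h0 _ ⟨σ, hσ, h1⟩, add_zero]
    · intro z hz
      have h1 : z ∈ Submodule.torsionBy ℤ (Pts (WQ W)) (p : ℤ) := by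
        rw [Submodule.mem_torsionBy_iff, natCast_zsmul]
        exact hz
      have h2 : (⟨z, h1⟩ : VV (WQ W) p) ∈ F := by rw [h]; trivial
      exact (hFmem _).mp h2
  -- `W[N] = I + m W[N]` for all products `m` of primes dividing `N`
  have hm : ∀ m : ℕ, m ≠ 0 → (∀ p : ℕ, p.Prime → p ∣ m → p ∣ N) → ∀ x : Pts (WQ W), N • x = 0 →
      ∃ i ∈ I, ∃ y : Pts (WQ W), N • y = 0 ∧ x = i + m • y := by
    intro m
    induction m using Nat.recOnMul with
    | zero => exact fun h => absurd rfl h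
    | one => exact fun _ _ x hx => ⟨0, I.zero_mem, x, hx, by rw [one_smul, zero_add]⟩
    | prime p hp =>
      intro _ h x hx
      have hpN := h p hp dvd_rfl
      have hpN' : (N / p) * p = N := Nat.div_mul_cancel hpN
      haveI : Fact p.Prime := ⟨hp⟩
      obtain ⟨i, hi, hi'⟩ := hfull p hp hpN ((N / p) • x) (by
        rw [← mul_smul, mul_comm, hpN', hx])
      obtain ⟨y, hy⟩ := pts_div (WQ W) p (x - i)
      have hy' : p • y = x - i := hy
      refine ⟨i, hi, y, ?_, ?_⟩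
      · rw [← hpN', mul_smul, hy', nsmul_sub, hi', sub_self]
      · rw [hy']
        abel
    | mul a b ha hb =>
      intro hab h x hx
      have ha0 : a ≠ 0 := left_ne_zero_of_mul hab
      have hb0 : b ≠ 0 := right_ne_zero_of_mul hab
      obtain ⟨i, hi, y, hy, hxy⟩ := ha ha0 (fun p hp hpa => h p hp (hpa.mul_right b)) x hx
      obtain ⟨j, hj, z, hz, hyz⟩ := hb hb0 (fun p hp hpb => h p hp (hpb.mul_left a)) y hy
      refine ⟨i + a • j, I.add_mem hi (I.nsmul_mem hj a), z, hz, ?_⟩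
      rw [hxy, hyz, nsmul_add, mul_smul, add_assoc]
  obtain ⟨i, hi, y, hy, hxy⟩ := hm N hN0 (fun p _ h => h) t ht
  rw [hy, add_zero] at hxy
  rw [hxy]
  exact hi

/-- **The full affine group**: every affine transformation of the set of the `N`-division points of `P` comes from
`Gal(ℚ̄/ℚ)`. -/
theorem affine_surjective (W : WeierstrassCurve ℤ) (hΔ : W.Δ ≠ 0)
    (hss : W.IsSemistableModel) {N : ℕ} (hN : N.Coprime 6)
    (hirr : ∀ p : ℕ, p.Prime → p ∣ N → W.ModRepIsIrreducible p)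
    (P Q : ((W.map (Int.castRingHom ℚ))⁄(AlgebraicClosure ℚ)).Point)
    (hP : ∀ σ : AlgebraicClosure ℚ ≃ₐ[ℚ] AlgebraicClosure ℚ, σ • P = P) (hQ : N • Q = P)
    (hdiv : ∀ p : ℕ, p.Prime → p ∣ N →
      ¬ ∃ R : ((W.map (Int.castRingHom ℚ))⁄(AlgebraicClosure ℚ)).Point, p • R = P ∧
        ∀ σ : AlgebraicClosure ℚ ≃ₐ[ℚ] AlgebraicClosure ℚ, σ • R = R)
    (f : Submodule.torsionBy ℤ ((W.map (Int.castRingHom ℚ))⁄(AlgebraicClosure ℚ)).Point (N : ℤ) ≃+
      Submodule.torsionBy ℤ ((W.map (Int.castRingHom ℚ))⁄(AlgebraicClosure ℚ)).Point (N : ℤ))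
    (t : Submodule.torsionBy ℤ ((W.map (Int.castRingHom ℚ))⁄(AlgebraicClosure ℚ)).Point (N : ℤ)) :
    ∃ σ : AlgebraicClosure ℚ ≃ₐ[ℚ] AlgebraicClosure ℚ, (∀ x, σ • x = f x) ∧ σ • Q = Q + t := by
  obtain ⟨σ, hσ⟩ := galois_surjective_tors W hΔ hss hN hirr f
  have hs : σ • Q - Q ∈ Submodule.torsionBy ℤ (Pts (WQ W)) (N : ℤ) := by
    rw [Submodule.mem_torsionBy_iff, natCast_zsmul]
    rw [nsmul_sub, ← gnsmul, hQ, hP, sub_self]
  set s : TorsN W N := ⟨σ • Q - Q, hs⟩ with hsdef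
  set t' : TorsN W N := f.symm (t - s) with ht'
  have ht0 : N • (t' : Pts (WQ W)) = 0 := by
    have := t'.2
    rwa [Submodule.mem_torsionBy_iff, natCast_zsmul] at this
  obtain ⟨τ, hτ, hτQ⟩ := kummer_surjective W hΔ hss hN hirr P Q hP hQ hdiv (t' : Pts (WQ W)) ht0
  refine ⟨σ * τ, fun x => ?_, ?_⟩
  · have hx : N • (x : Pts (WQ W)) = 0 := by
      have := x.2
      rwa [Submodule.mem_torsionBy_iff, natCast_zsmul] at this
    have h1 : τ • x = x := Subtype.ext (hτ _ hx)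
    rw [mul_smul, h1, hσ]
  · have h1 : σ • (t' : Pts (WQ W)) = (t : Pts (WQ W)) - (σ • Q - Q) := by
      have h2 := hσ t'
      rw [ht', AddEquiv.apply_symm_apply] at h2
      exact congrArg Subtype.val h2
    rw [mul_smul, hτQ]
    refine (gadd σ Q (t' : Pts (WQ W))).trans ?_
    rw [h1]
    change σ • Q + ((t : Pts (WQ W)) - (σ • Q - Q)) = Q + (t : Pts (WQ W))
    abel

/-- The uniform version: all semistable curves, prime factors of `N` at least `11` and different from `13`. -/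
theorem affine_surjective_uniform (W : WeierstrassCurve ℤ) (hΔ : W.Δ ≠ 0)
    (hss : W.IsSemistableModel) {N : ℕ} (hN : ∀ p : ℕ, p.Prime → p ∣ N → 11 ≤ p ∧ p ≠ 13)
    (P Q : ((W.map (Int.castRingHom ℚ))⁄(AlgebraicClosure ℚ)).Point)
    (hP : ∀ σ : AlgebraicClosure ℚ ≃ₐ[ℚ] AlgebraicClosure ℚ, σ • P = P) (hQ : N • Q = P)
    (hdiv : ∀ p : ℕ, p.Prime → p ∣ N →
      ¬ ∃ R : ((W.map (Int.castRingHom ℚ))⁄(AlgebraicClosure ℚ)).Point, p • R = P ∧
        ∀ σ : AlgebraicClosure ℚ ≃ₐ[ℚ] AlgebraicClosure ℚ, σ • R = R)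
    (f : Submodule.torsionBy ℤ ((W.map (Int.castRingHom ℚ))⁄(AlgebraicClosure ℚ)).Point (N : ℤ) ≃+
      Submodule.torsionBy ℤ ((W.map (Int.castRingHom ℚ))⁄(AlgebraicClosure ℚ)).Point (N : ℤ))
    (t : Submodule.torsionBy ℤ ((W.map (Int.castRingHom ℚ))⁄(AlgebraicClosure ℚ)).Point (N : ℤ)) :
    ∃ σ : AlgebraicClosure ℚ ≃ₐ[ℚ] AlgebraicClosure ℚ, (∀ x, σ • x = f x) ∧ σ • Q = Q + t :=
  affine_surjective W hΔ hss (coprime_six_of hN)
    (fun p hp hpN => Mazur.modRep_irreducible hΔ hss hp (hN p hp hpN).1 (hN p hp hpN).2)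
    P Q hP hQ hdiv f t

/-- The version for the curves with full `2`-torsion: all `N` coprime to `6`. -/
theorem affine_surjective_full (W : WeierstrassCurve ℤ) (hΔ : W.Δ ≠ 0)
    (hss : W.IsSemistableModel) (h2 : HasFullTwo W) {N : ℕ} (hN : N.Coprime 6)
    (P Q : ((W.map (Int.castRingHom ℚ))⁄(AlgebraicClosure ℚ)).Point)
    (hP : ∀ σ : AlgebraicClosure ℚ ≃ₐ[ℚ] AlgebraicClosure ℚ, σ • P = P) (hQ : N • Q = P)
    (hdiv : ∀ p : ℕ, p.Prime → p ∣ N →
      ¬ ∃ R : ((W.map (Int.castRingHom ℚ))⁄(AlgebraicClosure ℚ)).Point, p • R = P ∧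
        ∀ σ : AlgebraicClosure ℚ ≃ₐ[ℚ] AlgebraicClosure ℚ, σ • R = R)
    (f : Submodule.torsionBy ℤ ((W.map (Int.castRingHom ℚ))⁄(AlgebraicClosure ℚ)).Point (N : ℤ) ≃+
      Submodule.torsionBy ℤ ((W.map (Int.castRingHom ℚ))⁄(AlgebraicClosure ℚ)).Point (N : ℤ))
    (t : Submodule.torsionBy ℤ ((W.map (Int.castRingHom ℚ))⁄(AlgebraicClosure ℚ)).Point (N : ℤ)) :
    ∃ σ : AlgebraicClosure ℚ ≃ₐ[ℚ] AlgebraicClosure ℚ, (∀ x, σ • x = f x) ∧ σ • Q = Q + t :=
  affine_surjective W hΔ hss hN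
    (fun _ hp hpN => irreducible_of_fullTwo hΔ hss h2 hp (five_le_of_dvd hN hp hpN))
    P Q hP hQ hdiv f t

end Fermat.Agent.Cor.KummerDivision
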