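import Mathlib
import Fermat.Agent.Cor.H07Kum
import Fermat.Agent.Cor.H07Conv
import Fermat.Agent.Ell.Mult

/-!
# The components of a nodal fibre

Valuations of the coordinates near the node: the class of a point `P` in `E / E₀` is determined up
to sign by the valuation of `x(P) - r` if `P` is not of order `2` or `3` modulo `E₀`.
-/

set_option autoImplicit false
set_option linter.unusedSectionVars false

namespace Fermat.Agent.Cor.LG

open WeierstrassCurve WeierstrassCurve.Affine WeierstrassCurve.Affine.Point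
open Fermat.Agent.H08 Fermat.Agent.H09 Fermat.Agent.Cor.H07 Fermat.Agent.Ell

section system

variable {G F : Type*} [AddCommGroup G] [Field F] {Γ₀ : Type*} [LinearOrderedCommGroupWithZero Γ₀]
  {t : G → F} {b c : F} {v : Valuation F Γ₀}

lemma v_bc' (vb : v b = 1) (c0 : c ≠ 0) {z : F} (hz : v z < 1) (n : ℕ) :
    v (b * c + (n : F) * c * z) = v c := by
  have hc0 : 0 < v c := zero_lt_iff.mpr ((Valuation.ne_zero_iff v).mpr c0)
  have h1 : v (b * c) = v c := by rw [map_mul, vb, one_mul]
  rw [v.map_add_eq_of_lt_left, h1]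
  rw [h1, map_mul, map_mul, mul_right_comm]
  calc v (n : F) * v z * v c ≤ 1 * v z * v c :=
        mul_le_mul_left (mul_le_mul_left (v_natCast_le_one v n) _) _
    _ < 1 * 1 * v c := by
        rw [one_mul, one_mul]
        exact mul_lt_mul_of_pos_right hz hc0
    _ = v c := by rw [one_mul, one_mul]

/-- points on the antipodal component have order two modulo `E₀` -/
theorem val_double_ge (K : NodeSystem t b c) (vb : v b = 1) (vc : v c < 1) (c0 : c ≠ 0) {P : G}
    (hP : P ≠ 0) (h2P : P + P ≠ 0) (h1 : v (t P) < 1) (h : v (t P) ^ 2 ≤ v c) :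
    1 ≤ v (t (P + P)) := by
  have hc0 : 0 < v c := zero_lt_iff.mpr ((Valuation.ne_zero_iff v).mpr c0)
  have hd := K.double P hP h2P
  have hR : v ((t P ^ 2) ^ 2 - (b * c + 8 * c * t P)) = v c := by
    have e := v_bc' vb c0 h1 8
    push_cast at e
    rw [v.map_sub_eq_of_lt_right, e]
    rw [e, map_pow, map_pow, pow_two]
    calc v (t P) ^ 2 * v (t P) ^ 2 ≤ v c * v c := mul_le_mul' h h
      _ < 1 * v c := mul_lt_mul_of_pos_right vc hc0
      _ = v c := one_mul _
  have hin : v (b * t P ^ 2 + (4 * t P ^ 3 + 4 * c)) ≤ v c := by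
    refine v.map_add_le ?_ (v.map_add_le ?_ ?_)
    · rw [map_mul, vb, one_mul, map_pow]; exact h
    · rw [map_mul, map_pow, pow_succ]
      calc v 4 * (v (t P) ^ 2 * v (t P)) ≤ 1 * (v c * 1) :=
            mul_le_mul' (v_ofNat_le_one v 4) (mul_le_mul' h h1.le)
        _ = v c := by rw [one_mul, mul_one]
    · rw [map_mul]
      calc v 4 * v c ≤ 1 * v c := mul_le_mul_left (v_ofNat_le_one v 4) _
        _ = v c := one_mul _
  by_contra hlt
  push Not at hlt
  have hv := congrArg v hd
  rw [hR, map_mul] at hv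
  have : v (t (P + P)) * v (b * t P ^ 2 + (4 * t P ^ 3 + 4 * c)) < v c := by
    calc v (t (P + P)) * v (b * t P ^ 2 + (4 * t P ^ 3 + 4 * c))
        ≤ v (t (P + P)) * v c := mul_le_mul_right hin _
      _ < 1 * v c := mul_lt_mul_of_pos_right hlt hc0
      _ = v c := one_mul _
  rw [hv] at this
  exact lt_irrefl _ this

/-- points with `v (t P) ^ 3 = v c` have order three modulo `E₀` -/
theorem val_triple_ge (K : NodeSystem t b c) (vb : v b = 1) (c0 : c ≠ 0) {P : G}
    (hP : P ≠ 0) (h2P : P + P ≠ 0) (h3P : P + P + P ≠ 0) (h1 : v (t P) < 1)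
    (h : v (t P) ^ 3 = v c) : 1 ≤ v (t (P + P + P)) := by
  have hc0 : 0 < v c := zero_lt_iff.mpr ((Valuation.ne_zero_iff v).mpr c0)
  have ht0 : 0 < v (t P) := by
    rw [zero_lt_iff]
    intro h0
    rw [h0, zero_pow three_ne_zero] at h
    exact hc0.ne h
  -- the valuation of `t (2 P)`
  have hd := K.double P hP h2P
  have hx4 : v ((t P ^ 2) ^ 2) < v c := by
    rw [map_pow, map_pow, ← h, ← pow_mul]
    calc v (t P) ^ (2 * 2) = v (t P) * v (t P) ^ 3 := by rw [← pow_succ']
      _ < 1 * v (t P) ^ 3 := mul_lt_mul_of_pos_right h1 (pow_pos ht0 3)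
      _ = v (t P) ^ 3 := one_mul _
  have hR : v ((t P ^ 2) ^ 2 - (b * c + 8 * c * t P)) = v c := by
    have e := v_bc' vb c0 h1 8
    push_cast at e
    rw [v.map_sub_eq_of_lt_right, e]
    rw [e]; exact hx4
  have hL : v (b * t P ^ 2 + (4 * t P ^ 3 + 4 * c)) = v (t P) ^ 2 := by
    have e1 : v (b * t P ^ 2) = v (t P) ^ 2 := by rw [map_mul, vb, one_mul, map_pow]
    rw [v.map_add_eq_of_lt_left, e1]
    rw [e1]
    have hlt : v (t P) ^ 3 < v (t P) ^ 2 := by
      rw [pow_succ]
      calc v (t P) ^ 2 * v (t P) < v (t P) ^ 2 * 1 := mul_lt_mul_of_pos_left h1 (pow_pos ht0 2)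
        _ = _ := mul_one _
    refine v.map_add_lt ?_ ?_
    · rw [map_mul, map_pow]
      calc v 4 * v (t P) ^ 3 ≤ 1 * v (t P) ^ 3 := mul_le_mul_left (v_ofNat_le_one v 4) _
        _ < _ := by rw [one_mul]; exact hlt
    · rw [map_mul, ← h]
      calc v 4 * v (t P) ^ 3 ≤ 1 * v (t P) ^ 3 := mul_le_mul_left (v_ofNat_le_one v 4) _
        _ < _ := by rw [one_mul]; exact hlt
  have h2 : v (t (P + P)) = v (t P) := by
    have hv := congrArg v hd
    have e3 : v (t P) ^ 3 = v (t P) * v (t P) ^ 2 := pow_succ' _ _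
    rw [hR, map_mul, hL, ← h, e3] at hv
    exact mul_right_cancel₀ (pow_ne_zero 2 ht0.ne') hv
  -- the product formula
  have hne : t (P + P) ≠ t P := by
    intro he
    rcases (K.eq_iff _ _ h2P hP).mp he with h4 | h4
    · apply hP
      simpa using h4
    · apply h3P
      rw [h4, neg_add_cancel]
  have hpr := K.prod _ _ h2P hP hne
  rw [add_sub_cancel_right] at hpr
  have hR2 : v ((t (P + P) * t P) ^ 2 - (b * c + 4 * c * (t (P + P) + t P))) = v c := by
    have e := v_bc' vb c0 (z := t (P + P) + t P) (v_add_lt_one (by rw [h2]; exact h1) h1) 4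
    push_cast at e
    rw [v.map_sub_eq_of_lt_right, e]
    rw [e, map_pow, map_mul, h2]
    rwa [map_pow, map_pow, pow_two (v (t P))] at hx4
  have hv := congrArg v hpr
  rw [hR2, map_mul, map_mul, map_pow] at hv
  have hsub : v (t (P + P) - t P) ≤ v (t P) := by
    have := v.map_sub (t (P + P)) (t P)
    rwa [h2, max_self] at this
  by_contra hlt
  push Not at hlt
  have : v (t (P + P + P)) * v (t P) * v (t (P + P) - t P) ^ 2 < v c := by
    calc v (t (P + P + P)) * v (t P) * v (t (P + P) - t P) ^ 2
        ≤ v (t (P + P + P)) * v (t P) * v (t P) ^ 2 :=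
          mul_le_mul_right (pow_le_pow_left' hsub 2) _
      _ = v (t (P + P + P)) * v (t P) ^ 3 := by rw [mul_assoc, ← pow_succ']
      _ < 1 * v (t P) ^ 3 := mul_lt_mul_of_pos_right hlt (pow_pos ht0 3)
      _ = v c := by rw [one_mul, h]
  rw [hv] at this
  exact lt_irrefl _ this

end system

section slopes

variable {L : Type*} [Field L] [CharZero L] {A : ValuationSubring L} [Algebra.IsAlgebraic ℚ L]
  [DecidableEq L] {W : WeierstrassCurve.Affine L} {r t α β : L}

/-- the two tangent coordinates -/
theorem val_slopes (h : NodeData A.valuation W r t α β) {P : W.Point} (hP : P ≠ 0)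
    (h1 : A.valuation (px P - r) < 1)
    (hc : A.valuation (shiftCurve W r t).a₆ < A.valuation (px P - r) ^ 2)
    (hne : A.valuation (px P - r) ^ 3 ≠ A.valuation (shiftCurve W r t).a₆) :
    (A.valuation ((py P - t) - α * (px P - r)) = A.valuation (px P - r) ∧
      A.valuation ((py P - t) - β * (px P - r)) * A.valuation (px P - r) =
        max (A.valuation (px P - r) ^ 3) (A.valuation (shiftCurve W r t).a₆)) ∨
    (A.valuation ((py P - t) - β * (px P - r)) = A.valuation (px P - r) ∧
      A.valuation ((py P - t) - α * (px P - r)) * A.valuation (px P - r) =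
        max (A.valuation (px P - r) ^ 3) (A.valuation (shiftCurve W r t).a₆)) := by
  have hs0 : shiftPt W r t P ≠ 0 := fun h' => hP (shiftPt_eq_zero.mp h')
  have e := h.slopes.mul_eq hs0
  rw [px_shiftPt hP, py_shiftPt hP] at e
  set X := px P - r
  set u := (py P - t) - α * X with hu
  set w := (py P - t) - β * X with hw
  set c := (shiftCurve W r t).a₆
  have hc0 : 0 < A.valuation c := zero_lt_iff.mpr ((Valuation.ne_zero_iff _).mpr h.slopes.a₆)
  have hX0 : 0 < A.valuation X := by
    rw [zero_lt_iff]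
    intro h0
    rw [h0, zero_pow two_ne_zero] at hc
    exact absurd hc (by simp)
  have hm : A.valuation u * A.valuation w = max (A.valuation X ^ 3) (A.valuation c) := by
    rw [← map_mul, e]
    have hne' : A.valuation (X ^ 3) ≠ A.valuation c := by rwa [map_pow]
    rw [Valuation.map_add_of_distinct_val _ hne', map_pow]
  have hlt : max (A.valuation X ^ 3) (A.valuation c) < A.valuation X ^ 2 := by
    refine max_lt ?_ hc
    rw [pow_succ]
    calc A.valuation X ^ 2 * A.valuation X < A.valuation X ^ 2 * 1 :=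
          mul_lt_mul_of_pos_left h1 (pow_pos hX0 2)
      _ = _ := mul_one _
  have hsub : A.valuation (u - w) = A.valuation X := by
    have : u - w = (β - α) * X := by rw [hu, hw]; ring
    rw [this, map_mul, h.slopes.diff, one_mul]
  have hne2 : A.valuation u ≠ A.valuation w := by
    intro he
    have h2 : A.valuation X ≤ A.valuation w := by
      have := A.valuation.map_sub u w
      rwa [he, max_self, hsub] at this
    rw [he, ← pow_two] at hm
    rw [← hm] at hlt
    exact absurd hlt (not_lt.mpr (pow_le_pow_left' h2 2))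
  have hmax : A.valuation X = max (A.valuation u) (A.valuation w) := by
    rw [← hsub]
    have h3 : A.valuation u ≠ A.valuation (-w) := by rwa [Valuation.map_neg]
    rw [sub_eq_add_neg, Valuation.map_add_of_distinct_val _ h3, Valuation.map_neg]
  rcases le_total (A.valuation u) (A.valuation w) with h4 | h4
  · right
    rw [max_eq_right h4] at hmax
    exact ⟨hmax.symm, by rw [← hm, hmax]⟩
  · left
    rw [max_eq_left h4] at hmax
    exact ⟨hmax.symm, by rw [← hm, hmax, mul_comm]⟩

theorem slope_neg (h : NodeData A.valuation W r t α β) {P : W.Point} (hP : P ≠ 0) :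
    (py (-P) - t) - α * (px (-P) - r) = -((py P - t) - β * (px P - r)) ∧
    (py (-P) - t) - β * (px (-P) - r) = -((py P - t) - α * (px P - r)) := by
  have e3 : W.a₃ + r * W.a₁ + 2 * t = 0 := h.slopes.a₃
  have es : α + β = -W.a₁ := h.slopes.sum
  rw [px_neg, py_neg hP]
  constructor
  · linear_combination (-1 : L) * e3 - (px P - r) * es
  · linear_combination (-1 : L) * e3 - (px P - r) * es

/-- **The class modulo `E₀` is determined up to sign by the valuation of `x - r`.** -/
theorem comp_or {W : WeierstrassCurve.Affine L} (h : NodeData A.valuation W r t α β)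
    {P P' : W.Point} (hP : P ≠ 0) (hP' : P' ≠ 0)
    (hE : ¬ NodeE0 A.valuation r t P) (hx : A.valuation (px P' - r) = A.valuation (px P - r))
    (hc : A.valuation (shiftCurve W r t).a₆ < A.valuation (px P - r) ^ 2)
    (hne : A.valuation (px P - r) ^ 3 ≠ A.valuation (shiftCurve W r t).a₆) :
    NodeE0 A.valuation r t (P' - P) ∨ NodeE0 A.valuation r t (P' + P) := by
  have h1 : A.valuation (px P - r) < 1 := by rwa [nodeE0_iff hP, not_le] at hE
  have hX0 : A.valuation (px P - r) ≠ 0 := by
    intro h0
    rw [h0, zero_pow two_ne_zero] at hc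
    exact absurd hc (by simp)
  have hnP' : -P' ≠ 0 := by simpa using hP'
  obtain ⟨n1, n2⟩ := slope_neg h hP'
  have hxn : A.valuation (px (-P') - r) = A.valuation (px P - r) := by rw [px_neg, hx]
  have s1 := val_slopes h hP h1 hc hne
  have s2 := val_slopes h hP' (by rw [hx]; exact h1) (by rw [hx]; exact hc)
    (by rw [hx]; exact hne)
  rw [hx] at s2
  rcases s1 with ⟨a1, a2⟩ | ⟨a1, a2⟩ <;> rcases s2 with ⟨b1, b2⟩ | ⟨b1, b2⟩
  · left
    exact comp_lemma h hP hP' hE hx (by rw [a1, b1]) (mul_right_cancel₀ hX0 (by rw [a2, b2]))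
  · right
    have h5 := comp_lemma h hP hnP' hE hxn (by rw [n1, Valuation.map_neg, a1, b1])
      (by rw [n2, Valuation.map_neg]; exact mul_right_cancel₀ hX0 (by rw [a2, b2]))
    have h6 := h5.neg
    rwa [show -(-P' - P) = P' + P by abel] at h6
  · right
    have h5 := comp_lemma h hP hnP' hE hxn
      (by rw [n1, Valuation.map_neg]; exact mul_right_cancel₀ hX0 (by rw [a2, b2]))
      (by rw [n2, Valuation.map_neg, a1, b1])
    have h6 := h5.neg
    rwa [show -(-P' - P) = P' + P by abel] at h6
  · left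
    exact comp_lemma h hP hP' hE hx (mul_right_cancel₀ hX0 (by rw [a2, b2])) (by rw [a1, b1])

end slopes

end Fermat.Agent.Cor.LG
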