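import Mathlib
import Fermat.Agent.Cor.LGNode
import Fermat.Agent.LM.ERep

/-!
# Inertia at a prime of multiplicative reduction acts non-trivially on the Tate module

Let `q` be a prime of multiplicative reduction of `W` and `p` any prime. If inertia at `q` acted
trivially on `T_p W`, the component group of the nodal fibre over the maximal unramified extension
would contain elements of order `p ^ n` for all `n`; but the valuation of `x(P) - r` is an integer
between `0` and `v_q(Δ) / 2`.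
-/

set_option autoImplicit false
set_option linter.unusedSectionVars false
set_option linter.style.haveILetI false

namespace Fermat.Agent.Cor.LG

open WeierstrassCurve WeierstrassCurve.Affine WeierstrassCurve.Affine.Point
open Fermat.Agent.H08 Fermat.Agent.H09 Fermat.Agent.Cor.H07 Fermat.Agent.Ell Fermat.Agent.EGal
open scoped Pointwise

section

variable {G : Type*} [AddCommGroup G]

lemma bezout_smul (H : AddSubgroup G) {P : G} {M p : ℕ} (hP : p ^ M • P = 0) {k : ℤ}
    (hk : IsCoprime k (p : ℤ)) (hkP : k • P ∈ H) : P ∈ H := by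
  obtain ⟨a, b, hab⟩ := hk.pow_right (n := M)
  have h2 : ((p : ℤ) ^ M) • P = 0 := by
    have h3 : ((p : ℤ) ^ M) = ((p ^ M : ℕ) : ℤ) := by push_cast; rfl
    rw [h3, natCast_zsmul, hP]
  have h1 : P = a • (k • P) + b • ((p : ℤ) ^ M • P) := by
    rw [← mul_smul, ← mul_smul, ← add_smul, hab, one_smul]
  rw [h1, h2, smul_zero, add_zero]
  exact AddSubgroup.zsmul_mem _ hkP _

lemma one_sub_smul (P : G) (e : ℤ) : (1 + e * (-1)) • P = P - e • P := by
  rw [add_smul, one_smul, mul_neg_one, neg_smul, ← sub_eq_add_neg]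

lemma one_add_smul' (P : G) (e : ℤ) : (1 + e * 1) • P = P + e • P := by
  rw [add_smul, one_smul, mul_one]

end

section

variable {W : WeierstrassCurve ℤ} {p : ℕ} [hp : Fact p.Prime] {A : ValuationSubring Qb}
  {r t α β : Qb}

/-- divisibility of classes modulo `E₀` by integers prime to the order -/
theorem mem_of_isCoprime (h : NodeData A.valuation ((WQ W)⁄Qb) r t α β) {P : Pts (WQ W)} {M : ℕ}
    (hP : p ^ M • P = 0) {k : ℤ} (hk : IsCoprime k (p : ℤ))
    (hkP : k • P ∈ nodeE0Sub h) : P ∈ nodeE0Sub h :=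
  bezout_smul _ hP hk hkP

variable (p) in
/-- **Inertia at a multiplicative prime acts non-trivially on the Tate module** (any `p`). -/
theorem exists_inertia_ne_one (hΔ : W.Δ ≠ 0) {q : ℕ} (hq : q.Prime) (hc₄ : ¬ (q : ℤ) ∣ W.c₄)
    (hA : A.LiesOverPrime q) (h : NodeData A.valuation ((WQ W)⁄Qb) r t α β) :
    ∃ σ ∈ A.inertiaSubgroupIn ℚ, rr (WQ W) p σ ≠ 1 := by
  by_contra hcon
  push Not at hcon
  haveI := H51.isGalois_Qbar
  have hell := isElliptic_WQ hΔ
  have h2 : A.valuation ((WQ W)⁄Qb).c₄ = 1 := by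
    rw [← map_WQ, WeierstrassCurve.map_c₄]; exact H09.val_intCast_eq_one hq hA hc₄
  have htop := LL_ne_top (p := p) h h2 hq hA
  obtain ⟨f, hf⟩ : ∃ f : TT (WQ W) p, f ∉ LL p h := by
    by_contra hh
    push Not at hh
    exact htop (Submodule.eq_top_iff'.mpr hh)
  rw [mem_LL] at hf
  push Not at hf
  obtain ⟨n₀, hn₀⟩ := hf
  -- all later points are outside `E₀`
  have hlater : ∀ m, f.1 (n₀ + m) ∉ nodeE0Sub h := by
    intro m
    induction m with
    | zero => exact hn₀
    | succ m ih =>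
      intro hmem
      apply ih
      have h3 := AddSubgroup.nsmul_mem (nodeE0Sub h) hmem p
      rwa [← add_assoc, TateMod.step] at h3
  have htors : ∀ m, p ^ m • f.1 m = 0 := fun m => TateMod.tors f m
  -- also after multiplication by a prime `k`
  have hprime : ∀ (m k : ℕ), k.Prime → k • f.1 (n₀ + (m + 1)) ∉ nodeE0Sub h := by
    intro m k hk hmem
    by_cases hkp : k = p
    · subst hkp
      rw [← add_assoc, TateMod.step] at hmem
      exact hlater m hmem
    · refine hlater (m + 1) (mem_of_isCoprime (p := p) (k := (k : ℤ)) h (htors _) ?_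
        (by rwa [natCast_zsmul]))
      rw [Nat.isCoprime_iff_coprime]
      exact (Nat.coprime_primes hk hp.out).mpr hkp
  set a := (shiftCurve ((WQ W)⁄Qb) r t).a₆ with ha
  have K := nodeSystem (W := shiftCurve ((WQ W)⁄Qb) r t) h.slopes.a₃ h.slopes.a₄
  have vb := val_b₂_shift h
  have vc : A.valuation a < 1 := h.a₆
  have c0 : a ≠ 0 := h.slopes.a₆
  -- the points `Q m`
  set Q : ℕ → Pts (WQ W) := fun m => f.1 (n₀ + (m + 1)) with hQ
  have hQE : ∀ m, ¬ NodeE0 A.valuation r t (Q m) := fun m => hlater (m + 1)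
  have hQ0 : ∀ m, Q m ≠ 0 := fun m h0 => hQE m (by rw [h0]; exact NodeE0.zero)
  have hlt : ∀ m, A.valuation (px (Q m) - r) < 1 := fun m => by
    have := hQE m
    rwa [nodeE0_iff (hQ0 m), not_le] at this
  -- transfer to the shifted curve
  have hS0 : ∀ P : Pts (WQ W), ¬ NodeE0 A.valuation r t P → shiftPt ((WQ W)⁄Qb) r t P ≠ 0 :=
    fun P hP h' => hP (by rw [shiftPt_eq_zero.mp h']; exact NodeE0.zero)
  have hF1 : ∀ m, A.valuation a < A.valuation (px (Q m) - r) ^ 2 := by
    intro m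
    by_contra hle
    push Not at hle
    have h2E : ¬ NodeE0 A.valuation r t (Q m + Q m) := by
      have := hprime m 2 Nat.prime_two
      rwa [two_nsmul] at this
    have hadd : shiftPt ((WQ W)⁄Qb) r t (Q m) + shiftPt ((WQ W)⁄Qb) r t (Q m) =
      shiftPt ((WQ W)⁄Qb) r t (Q m + Q m) := (shiftPt_add _ _).symm
    have key := val_double_ge K vb vc c0 (P := shiftPt ((WQ W)⁄Qb) r t (Q m))
      (hS0 _ (hQE m)) (by rw [hadd]; exact hS0 _ h2E) (by rw [px_shiftPt (hQ0 m)]; exact hlt m)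
      (by rw [px_shiftPt (hQ0 m)]; exact hle)
    rw [hadd] at key
    apply h2E
    right
    exact key
  have hF4 : ∀ m, A.valuation (px (Q m) - r) ^ 3 ≠ A.valuation a := by
    intro m he
    have h2E : ¬ NodeE0 A.valuation r t (Q m + Q m) := by
      have := hprime m 2 Nat.prime_two
      rwa [two_nsmul] at this
    have h3E : ¬ NodeE0 A.valuation r t (Q m + Q m + Q m) := by
      have := hprime m 3 Nat.prime_three
      rwa [show (3 : ℕ) • f.1 (n₀ + (m + 1)) = Q m + Q m + Q m by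
        rw [show (3 : ℕ) = 1 + 1 + 1 from rfl, add_smul, add_smul, one_smul]] at this
    have hadd : shiftPt ((WQ W)⁄Qb) r t (Q m) + shiftPt ((WQ W)⁄Qb) r t (Q m) =
      shiftPt ((WQ W)⁄Qb) r t (Q m + Q m) := (shiftPt_add _ _).symm
    have hadd3 : shiftPt ((WQ W)⁄Qb) r t (Q m) + shiftPt ((WQ W)⁄Qb) r t (Q m) +
      shiftPt ((WQ W)⁄Qb) r t (Q m) = shiftPt ((WQ W)⁄Qb) r t (Q m + Q m + Q m) := by
      rw [hadd]; exact (shiftPt_add _ _).symm
    have key := val_triple_ge K vb c0 (P := shiftPt ((WQ W)⁄Qb) r t (Q m))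
      (hS0 _ (hQE m)) (by rw [hadd]; exact hS0 _ h2E) (by rw [hadd3]; exact hS0 _ h3E)
      (by rw [px_shiftPt (hQ0 m)]; exact hlt m) (by rw [px_shiftPt (hQ0 m)]; exact he)
    rw [hadd3] at key
    apply h3E
    right
    exact key
  -- the valuations are integers
  have hfix : ∀ m, ∀ σ ∈ A.inertiaSubgroupIn ℚ, σ (px (Q m) - r) = px (Q m) - r := by
    intro m σ hσ
    have h3 : σ • Q m = Q m := by
      have h4 := congrArg (fun g : TT (WQ W) p => g.1 (n₀ + (m + 1)))
        (LinearMap.congr_fun (hcon σ hσ) f)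
      exact h4
    have h5 : σ (px (Q m)) = px (Q m) := by rw [← H09.px_smul, h3]
    obtain ⟨h6, -⟩ := node_fixed hσ h
    rw [map_sub, h5, h6]
  have hX0 : ∀ m, px (Q m) - r ≠ 0 := by
    intro m h0
    have := hF1 m
    rw [h0, _root_.map_zero, zero_pow two_ne_zero] at this
    exact absurd this (by simp)
  choose n hn using fun m => H12.exists_valuation_eq_zpow hq hA (px (Q m) - r) (hX0 m) (hfix m)
  have hq0 : (q : Qb) ≠ 0 := by exact_mod_cast hq.ne_zero
  have hvq0 : 0 < A.valuation (q : Qb) := zero_lt_iff.mpr ((Valuation.ne_zero_iff _).mpr hq0)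
  have hvq1 : A.valuation (q : Qb) < 1 := val_natCast_lt_one hA
  have va : A.valuation a = A.valuation (q : Qb) ^ padicValInt q W.Δ := by
    rw [ha, N4.val_a₆_eq_val_Δ h, ← map_WQ, map_Δ]
    exact N4.val_intCast_eq_padicValInt hq hA hΔ
  have hn0 : ∀ m, 0 < n m := by
    intro m
    have h3 := hlt m
    rw [hn m] at h3
    by_contra hle
    push Not at hle
    have h4 := zpow_le_zpow_right_of_le_one₀ hvq0 hvq1.le hle
    rw [zpow_zero] at h4
    exact absurd h3 (not_lt.mpr h4)
  have hn2 : ∀ m, n m < (padicValInt q W.Δ : ℤ) := by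
    intro m
    have h3 := hF1 m
    rw [va, hn m, ← zpow_natCast, ← zpow_natCast, ← zpow_mul] at h3
    by_contra hle
    push Not at hle
    have h4 : (padicValInt q W.Δ : ℤ) ≤ n m * ((2 : ℕ) : ℤ) := by
      have := hn0 m
      push_cast
      omega
    have h5 := zpow_le_zpow_right_of_le_one₀ hvq0 hvq1.le h4
    exact absurd h3 (not_lt.mpr h5)
  -- pigeonhole
  obtain ⟨i, j, hij, he⟩ : ∃ i j : ℕ, i ≠ j ∧ n i = n j := by
    obtain ⟨i, j, hij, he⟩ := Finite.exists_ne_map_eq_of_infinite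
      (fun m : ℕ => (⟨n m, Finset.mem_Ioo.mpr ⟨hn0 m, hn2 m⟩⟩ :
        Finset.Ioo (0 : ℤ) (padicValInt q W.Δ : ℤ)))
    exact ⟨i, j, hij, congrArg Subtype.val he⟩
  wlog hlt' : i < j generalizing i j
  · exact this j i hij.symm he.symm (lt_of_le_of_ne (not_lt.mp hlt') hij.symm)
  obtain ⟨d, rfl⟩ : ∃ d, j = i + (d + 1) := ⟨j - i - 1, by omega⟩
  have hQi : Q i = ((p ^ (d + 1) : ℕ) : ℤ) • Q (i + (d + 1)) := by
    rw [natCast_zsmul]
    have := TateMod.pow_smul f (n₀ + (i + 1)) (d + 1)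
    rw [show n₀ + (i + 1) + (d + 1) = n₀ + (i + (d + 1) + 1) by omega] at this
    exact this.symm
  have hpd : (p : ℤ) ∣ ((p ^ (d + 1) : ℕ) : ℤ) := by
    push_cast
    exact dvd_pow_self _ (Nat.succ_ne_zero d)
  have hcop : ∀ e : ℤ, IsCoprime (1 + ((p ^ (d + 1) : ℕ) : ℤ) * e) (p : ℤ) := by
    intro e
    obtain ⟨c, hc⟩ := hpd
    rw [hc, mul_assoc]
    exact IsCoprime.add_mul_left_left isCoprime_one_left _
  rcases comp_or h (hQ0 i) (hQ0 (i + (d + 1))) (hQE i) (by rw [hn, hn, he]) (hF1 i) (hF4 i)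
    with h3 | h3
  · refine hQE (i + (d + 1)) (mem_of_isCoprime (p := p) h (htors _) (hcop (-1)) ?_)
    have e : (1 + ((p ^ (d + 1) : ℕ) : ℤ) * (-1)) • Q (i + (d + 1)) = Q (i + (d + 1)) - Q i := by
      rw [hQi]
      exact one_sub_smul _ _
    exact e ▸ h3
  · refine hQE (i + (d + 1)) (mem_of_isCoprime (p := p) h (htors _) (hcop 1) ?_)
    have e : (1 + ((p ^ (d + 1) : ℕ) : ℤ) * 1) • Q (i + (d + 1)) = Q (i + (d + 1)) + Q i := by
      rw [hQi]
      exact one_add_smul' _ _
    exact e ▸ h3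

end

end Fermat.Agent.Cor.LG
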