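import Mathlib
import Fermat.Agent.Cor.LGInertia
import Fermat.Agent.Cor.BadMain
import Fermat.Agent.H27.NFOdd
import Fermat.Agent.MainConductor

/-!
# Euler factors of the Galois representations of a semistable elliptic curve
-/

set_option autoImplicit false
set_option linter.unusedSectionVars false
set_option linter.style.haveILetI false

noncomputable section

namespace Fermat.Agent.Cor.LG

open Polynomial
open WeierstrassCurve WeierstrassCurve.Affine WeierstrassCurve.Affine.Point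
open Fermat.Agent.H08 Fermat.Agent.H09 Fermat.Agent.Cor.H07 Fermat.Agent.Ell Fermat.Agent.EGal
open Fermat.Agent.LM
open scoped Pointwise

section dual

variable {R V : Type*} [CommRing R] [AddCommGroup V] [Module R V] (ρ : GQ →* Module.End R V)
  (A : ValuationSubring Qb)

/-- the invariants of the inertia group of `A` in the dual of the representation `ρ` -/
def invDual : Submodule R (Module.Dual R V) where
  carrier := {f | ∀ σ ∈ A.inertiaSubgroupIn ℚ, ∀ x, f (ρ σ x) = f x}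
  add_mem' := fun hf hg σ hσ x => by
    rw [LinearMap.add_apply, LinearMap.add_apply, hf σ hσ x, hg σ hσ x]
  zero_mem' := fun σ hσ x => rfl
  smul_mem' := fun c f hf σ hσ x => by
    rw [LinearMap.smul_apply, LinearMap.smul_apply, hf σ hσ x]

lemma mem_invDual {f : Module.Dual R V} :
    f ∈ invDual ρ A ↔ ∀ σ ∈ A.inertiaSubgroupIn ℚ, ∀ x, f (ρ σ x) = f x := Iff.rfl

variable {A}

/-- the geometric Frobenius `f ↦ f ∘ ρ(φ)` on the inertia invariants of the dual -/
def frobDual {q : ℕ} {φ : GQ} (hφ : A.IsFrobeniusAt φ q) : Module.End R (invDual ρ A) where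
  toFun f := ⟨f.1 ∘ₗ ρ φ, by
    intro σ hσ x
    have h1 : ρ φ (ρ σ x) = ρ (φ * σ * φ⁻¹) (ρ φ x) := by
      rw [← Module.End.mul_apply, ← Module.End.mul_apply, ← map_mul, ← map_mul]
      congr 2
      group
    rw [LinearMap.comp_apply, LinearMap.comp_apply, h1]
    exact f.2 _ (Fermat.Agent.Z34.conj_mem_inertia hφ hσ) _⟩
  map_add' f g := rfl
  map_smul' c f := rfl

lemma frobDual_apply {q : ℕ} {φ : GQ} (hφ : A.IsFrobeniusAt φ q) (f : invDual ρ A) (x : V) :
    (frobDual ρ hφ f).1 x = f.1 (ρ φ x) := rfl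

end dual

section inst

variable (W : WeierstrassCurve ℤ) (p : ℕ) [hp : Fact p.Prime] [(WQ W).IsElliptic]
  (A : ValuationSubring Qb)

instance free_TT : Module.Free ℤ_[p] (TT (WQ W) p) := Module.Free.of_basis (tateBasis (WQ W) p)

instance finite_TT : Module.Finite ℤ_[p] (TT (WQ W) p) :=
  Module.Finite.of_basis (tateBasis (WQ W) p)

lemma finrank_TT : Module.finrank ℤ_[p] (TT (WQ W) p) = 2 := by
  rw [Module.finrank_eq_card_basis (tateBasis (WQ W) p), Fintype.card_fin]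

instance free_invDual : Module.Free ℤ_[p] (invDual (rr (WQ W) p) A) :=
  Module.Free.of_basis (Submodule.basisOfPid (tateBasis (WQ W) p).dualBasis _).2

end inst

section general

/-- the characteristic polynomial of a scalar on a module of rank one -/
theorem charpoly_of_rank_one {R M : Type*} [CommRing R] [IsDomain R] [AddCommGroup M] [Module R M]
    [Module.Free R M] [Module.Finite R M] (h1 : Module.finrank R M = 1) {f : Module.End R M}
    {s : R} (hf : ∀ x, f x = s • x) : f.charpoly = X - C s := by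
  classical
  let b : Module.Basis (Fin 1) R M := (Module.finBasis R M).reindex (finCongr h1)
  rw [← LinearMap.charpoly_toMatrix f b, Matrix.charpoly, Matrix.det_fin_one,
    Matrix.charmatrix_apply_eq, LinearMap.toMatrix_apply, hf, map_smul]
  simp

end general

section local_factor

variable {W : WeierstrassCurve ℤ} {p : ℕ} [hp : Fact p.Prime] {A : ValuationSubring Qb} {q : ℕ}

lemma LL_pow_saturated {r t α β : Qb} (h : NodeData A.valuation ((WQ W)⁄Qb) r t α β) (n : ℕ)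
    {f : TT (WQ W) p} (hf : (p : ℤ_[p]) ^ n • f ∈ LL p h) : f ∈ LL p h := by
  induction n with
  | zero => rwa [pow_zero, one_smul] at hf
  | succ n ih =>
    apply ih
    apply LL_saturated h
    rwa [← mul_smul, ← pow_succ']

variable (p) in
/-- **The `p`-adic representation of a semistable elliptic curve is never scalar**, for every
prime `p`. -/
theorem exists_nonscalar (hΔ : W.Δ ≠ 0) (hss : W.IsSemistableModel) :
    ∃ g : GQ, ∀ c : ℤ_[p], rr (WQ W) p g ≠ c • 1 := by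
  obtain ⟨q, hq, hqΔ⟩ := Nat.exists_prime_and_dvd (Fermat.Agent.Main.natAbs_disc_ne_one W)
  have hqΔ' : (q : ℤ) ∣ W.Δ := Int.natCast_dvd.mpr hqΔ
  have hc₄ := hss q hq hqΔ'
  have hell := isElliptic_WQ hΔ
  obtain ⟨A, hA⟩ := H05.exists_liesOverPrime Qb hq
  obtain ⟨r, t, α, β, h, -⟩ := Fermat.Agent.H16.Ram.exists_data hΔ hq hqΔ' hc₄ hA hp.out
  obtain ⟨σ, hσ, hne⟩ := exists_inertia_ne_one p hΔ hq hc₄ hA h
  refine ⟨σ, fun c hc => hne ?_⟩
  have h2 : A.valuation ((WQ W)⁄Qb).c₄ = 1 := by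
    rw [← map_WQ, WeierstrassCurve.map_c₄]; exact H09.val_intCast_eq_one hq hA hc₄
  have htop := LL_ne_top (p := p) h h2 hq hA
  by_contra hne1
  have hc1 : c - 1 ≠ 0 := by
    intro h0
    apply hne1
    rw [hc, sub_eq_zero.mp h0, one_smul]
  apply htop
  rw [Submodule.eq_top_iff']
  intro f
  have h3 := rr_sub_sg_mem (p := p) h (smul_eq_of_inertia hσ) f
  rw [sg_inertia h hσ, hc, LinearMap.smul_apply, Module.End.one_apply, Int.cast_one,
    ← sub_smul] at h3
  -- `LL` is saturated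
  obtain ⟨n, u, hu⟩ : ∃ (n : ℕ) (u : ℤ_[p]ˣ), c - 1 = u * (p : ℤ_[p]) ^ n :=
    ⟨_, _, PadicInt.unitCoeff_spec hc1⟩
  rw [hu] at h3
  apply LL_pow_saturated h n
  have := Submodule.smul_mem (LL p h) ((u⁻¹ : ℤ_[p]ˣ) : ℤ_[p]) h3
  rwa [← mul_smul, ← mul_assoc, Units.inv_mul, one_mul] at this

variable (hΔ : W.Δ ≠ 0) (hss : W.IsSemistableModel)

include hΔ in
theorem trace_good [(WQ W).IsElliptic] (hns : ∃ g : GQ, ∀ c : ℤ_[p], rr (WQ W) p g ≠ c • 1)
    (hq : q.Prime) (hqp : q ≠ p) (hqΔ : ¬ (q : ℤ) ∣ W.Δ)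
    (hA : A.LiesOverPrime q) {φ : GQ} (hφ : A.IsFrobeniusAt φ q) :
    LinearMap.charpoly (rr (WQ W) p φ) =
      X ^ 2 - C ((W.apOfModel q : ℤ) : ℤ_[p]) * X + C (q : ℤ_[p]) := by
  rw [H25.charpoly_eq_of_finrank_two (finrank_TT W p)]
  have h1 : LinearMap.trace ℤ_[p] (TT (WQ W) p) (rr (WQ W) p φ) =
      ((W.apOfModel q : ℤ) : ℤ_[p]) := zRep_trace_of_ns hΔ hns hq hqΔ hqp hA hφ
  have h2 : LinearMap.det (rr (WQ W) p φ) = (q : ℤ_[p]) := zRep_det_of_ns hΔ hns hq hqp hA hφ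
  rw [h1, h2]

include hΔ hss in
/-- **The Euler factor at a prime of good reduction.** -/
theorem charpoly_frobDual_good [(WQ W).IsElliptic] (hq : q.Prime) (hqp : q ≠ p)
    (hqΔ : ¬ (q : ℤ) ∣ W.Δ) (hA : A.LiesOverPrime q) {φ : GQ} (hφ : A.IsFrobeniusAt φ q) :
    LinearMap.charpoly (M := invDual (rr (WQ W) p) A) (frobDual (rr (WQ W) p) hφ) =
      X ^ 2 - C ((W.apOfModel q : ℤ) : ℤ_[p]) * X + C (q : ℤ_[p]) := by
  have htop : invDual (rr (WQ W) p) A = ⊤ := by
    rw [Submodule.eq_top_iff']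
    intro f σ hσ x
    rw [rr_unramified hq hqΔ hqp hA hσ, Module.End.one_apply]
  let e := LinearEquiv.ofTop _ htop
  have h1 : e.conj (frobDual (rr (WQ W) p) hφ) = (rr (WQ W) p φ).dualMap := by
    apply LinearMap.ext
    intro f
    rfl
  rw [← e.charpoly_conj, h1, H25.charpoly_eq_of_finrank_two (by
    rw [Module.finrank_eq_card_basis (tateBasis (WQ W) p).dualBasis, Fintype.card_fin]),
    LinearMap.det_dualMap]
  have h2 : LinearMap.trace ℤ_[p] _ (rr (WQ W) p φ).dualMap =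
      LinearMap.trace ℤ_[p] _ (rr (WQ W) p φ) := LinearMap.trace_transpose' _
  rw [h2, ← H25.charpoly_eq_of_finrank_two (finrank_TT W p)]
  exact trace_good hΔ (exists_nonscalar p hΔ hss) hq hqp hqΔ hA hφ

variable (p) in
include hΔ hss in
/-- the structure of the Tate module at a multiplicative prime `q ≠ p`. -/
theorem exists_basis_mult [(WQ W).IsElliptic] (hq : q.Prime) (hqp : q ≠ p) (hqΔ : (q : ℤ) ∣ W.Δ)
    (hA : A.LiesOverPrime q) {φ : GQ} (hφ : A.IsFrobeniusAt φ q) :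
    ∃ b : Module.Basis (Fin 2) ℤ_[p] (TT (WQ W) p),
      (∀ σ ∈ A.inertiaSubgroupIn ℚ, ∃ c : ℤ_[p], rr (WQ W) p σ (b 0) = b 0 ∧
        rr (WQ W) p σ (b 1) = b 1 + c • b 0) ∧
      (∃ σ ∈ A.inertiaSubgroupIn ℚ, ∃ c : ℤ_[p], c ≠ 0 ∧ rr (WQ W) p σ (b 0) = b 0 ∧
        rr (WQ W) p σ (b 1) = b 1 + c • b 0) ∧
      (∀ v, rr (WQ W) p φ v - ((W.apOfModel q - 1 : ℤ) : ℤ_[p]) • v ∈
        Submodule.span ℤ_[p] {b 0}) ∧
      rr (WQ W) p φ (b 0) = ((q : ℤ_[p]) * ((W.apOfModel q - 1 : ℤ) : ℤ_[p])) • b 0 := by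
  have hns := exists_nonscalar p hΔ hss
  have hc₄ := hss q hq hqΔ
  obtain ⟨b, s, h1, h2, h3, h4, h5⟩ := exists_mult_structure p hΔ hq hqΔ hc₄ hns hA
  have hI : ∀ σ ∈ A.inertiaSubgroupIn ℚ, ∃ c : ℤ_[p], rr (WQ W) p σ (b 0) = b 0 ∧
      rr (WQ W) p σ (b 1) = b 1 + c • b 0 := by
    intro σ hσ
    have h6 := h4 σ (smul_eq_of_inertia hσ)
    rw [det_inertia hns hΔ hq hqp hA hσ, h2 σ hσ, Int.cast_one, mul_one, one_smul] at h6
    have h7 := h5 σ (smul_eq_of_inertia hσ) (b 1)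
    rw [h2 σ hσ, Int.cast_one, one_smul] at h7
    obtain ⟨c, hc⟩ := Submodule.mem_span_singleton.mp h7
    exact ⟨c, h6, by rw [hc]; abel⟩
  have hφA := Fermat.Agent.H09.frob_smul_eq hφ
  have hdet : LinearMap.det (rr (WQ W) p φ) = (q : ℤ_[p]) := zRep_det_of_ns hΔ hns hq hqp hA hφ
  have htr : LinearMap.trace ℤ_[p] (TT (WQ W) p) (rr (WQ W) p φ) =
      ((q : ℤ_[p]) + 1) * ((W.apOfModel q - 1 : ℤ) : ℤ_[p]) :=
    Fermat.Agent.Cor.Bad.trace_zRep_mult hΔ hns hq hqp hqΔ hc₄ hA hφ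
  obtain ⟨-, h8⟩ := det_of_triangular b (h4 φ hφA) (h5 φ hφA (b 1))
  have hs : (s φ : ℤ_[p]) = ((W.apOfModel q - 1 : ℤ) : ℤ_[p]) := by
    have hq0 : ((q : ℤ_[p]) + 1) ≠ 0 := by exact_mod_cast Nat.succ_ne_zero q
    apply mul_left_cancel₀ hq0
    rw [← htr, h8, hdet]
    ring
  refine ⟨b, hI, ?_, ?_, ?_⟩
  · obtain ⟨r, t, α, β, h, -⟩ := Fermat.Agent.H16.Ram.exists_data hΔ hq hqΔ hc₄ hA hp.out
    obtain ⟨σ, hσ, hne⟩ := exists_inertia_ne_one p hΔ hq hc₄ hA h
    obtain ⟨c, hc0, hc1⟩ := hI σ hσ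
    refine ⟨σ, hσ, c, ?_, hc0, hc1⟩
    rintro rfl
    apply hne
    refine b.ext fun i => ?_
    fin_cases i
    · exact hc0
    · have h0 : (0 : ℤ_[p]) • b 0 = 0 := zero_smul ℤ_[p] (b 0)
      exact hc1.trans (by rw [h0, add_zero]; rfl)
  · intro v
    rw [← hs]
    exact h5 φ hφA v
  · rw [h4 φ hφA, hdet, hs]

include hΔ hss in
/-- the inertia invariants of the dual at a multiplicative prime -/
theorem exists_equiv_mult [(WQ W).IsElliptic] (hq : q.Prime) (hqp : q ≠ p) (hqΔ : (q : ℤ) ∣ W.Δ)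
    (hA : A.LiesOverPrime q) {φ : GQ} (hφ : A.IsFrobeniusAt φ q) :
    Module.finrank ℤ_[p] (invDual (rr (WQ W) p) A) = 1 ∧
      ∀ f, frobDual (rr (WQ W) p) hφ f = ((W.apOfModel q - 1 : ℤ) : ℤ_[p]) • f := by
  obtain ⟨b, h1, ⟨σ, hσ, c, hc, hc0, hc1⟩, h3, -⟩ := exists_basis_mult p hΔ hss hq hqp hqΔ hA hφ
  have hz : ∀ f ∈ invDual (rr (WQ W) p) A, f (b 0) = 0 := by
    intro f hf
    have h4 := hf σ hσ (b 1)
    rw [hc1, map_add, map_smul, add_eq_left, smul_eq_mul] at h4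
    exact (mul_eq_zero.mp h4).resolve_left hc
  have hz' : ∀ f ∈ invDual (rr (WQ W) p) A, ∀ x ∈ Submodule.span ℤ_[p] {b 0}, f x = 0 := by
    intro f hf x hx
    obtain ⟨a, rfl⟩ := Submodule.mem_span_singleton.mp hx
    rw [map_smul, hz f hf, smul_zero]
  constructor
  · have hg : b.coord 1 ∈ invDual (rr (WQ W) p) A := by
      intro τ hτ x
      obtain ⟨c', h5, h6⟩ := h1 τ hτ
      have h7 : (b.coord 1) ∘ₗ (rr (WQ W) p τ) = b.coord 1 := by
        refine b.ext fun i => ?_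
        fin_cases i
        · simp only [Fin.zero_eta, LinearMap.comp_apply]
          rw [h5]
        · simp only [Fin.mk_one, LinearMap.comp_apply]
          rw [h6, map_add, map_smul]
          simp
      exact LinearMap.congr_fun h7 x
    let e : invDual (rr (WQ W) p) A ≃ₗ[ℤ_[p]] ℤ_[p] :=
      { toFun := fun f => f.1 (b 1)
        map_add' := fun f g => rfl
        map_smul' := fun c f => rfl
        invFun := fun c => c • ⟨b.coord 1, hg⟩
        left_inv := by
          intro f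
          apply Subtype.ext
          refine b.ext fun i => ?_
          fin_cases i
          · have := hz f.1 f.2
            simp only [Fin.zero_eta]
            rw [this]
            simp
          · simp
        right_inv := by
          intro c
          simp }
    rw [e.finrank_eq, Module.finrank_self]
  · intro f
    apply Subtype.ext
    apply LinearMap.ext
    intro x
    have h4 := hz' f.1 f.2 _ (h3 x)
    rw [map_sub, map_smul, sub_eq_zero] at h4
    exact h4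

include hΔ hss in
/-- **The Euler factor at a prime of multiplicative reduction.** -/
theorem charpoly_frobDual_mult [(WQ W).IsElliptic] (hq : q.Prime) (hqp : q ≠ p)
    (hqΔ : (q : ℤ) ∣ W.Δ) (hA : A.LiesOverPrime q) {φ : GQ} (hφ : A.IsFrobeniusAt φ q) :
    LinearMap.charpoly (M := invDual (rr (WQ W) p) A) (frobDual (rr (WQ W) p) hφ) = X - C ((W.apOfModel q - 1 : ℤ) : ℤ_[p]) := by
  obtain ⟨h1, h2⟩ := exists_equiv_mult hΔ hss hq hqp hqΔ hA hφ
  exact charpoly_of_rank_one h1 h2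

end local_factor

end Fermat.Agent.Cor.LG
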