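import Mathlib
import Fermat.Agent.Cor.LGEuler

/-!
# Irreducibility of the `p`-adic representations of a semistable elliptic curve

If the rational Tate module had a Galois stable line, one of the two characters would be unramified
everywhere, hence trivial (Minkowski), and `a_ℓ = 1 + ℓ` for all good `ℓ`.

This file is not used by any of the statement files.
-/

set_option autoImplicit false
set_option linter.unusedSectionVars false
set_option linter.style.haveILetI false

noncomputable section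

namespace Fermat.Agent.Cor.LG

open WeierstrassCurve WeierstrassCurve.Affine WeierstrassCurve.Affine.Point
open Fermat.Agent.H08 Fermat.Agent.H09 Fermat.Agent.Ell Fermat.Agent.EGal Fermat.Agent.LM
open scoped Pointwise

section character

variable {p : ℕ} [hp : Fact p.Prime]

/-- a continuous character with values in `ℤ_p` which is unramified everywhere is trivial. -/
theorem char_trivial (χ : GQ →* ℤ_[p])
    (hc : ∀ n : ℕ, ∃ U : Subgroup GQ, IsOpen (U : Set GQ) ∧
      ∀ σ ∈ U, (p : ℤ_[p]) ^ n ∣ χ σ - 1)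
    (hI : ∀ ℓ : ℕ, ℓ.Prime → ∀ A : ValuationSubring Qb, A.LiesOverPrime ℓ →
      ∀ σ ∈ A.inertiaSubgroupIn ℚ, χ σ = 1) (σ : GQ) : χ σ = 1 := by
  haveI := H51.isGalois_Qbar
  have key : ∀ n, (p : ℤ_[p]) ^ n ∣ χ σ - 1 := by
    intro n
    let K : Subgroup GQ :=
      { carrier := {τ | (p : ℤ_[p]) ^ n ∣ χ τ - 1}
        mul_mem' := by
          intro a b ha hb
          have : χ (a * b) - 1 = χ a * (χ b - 1) + (χ a - 1) := by rw [map_mul]; ring
          change (p : ℤ_[p]) ^ n ∣ χ (a * b) - 1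
          rw [this]
          exact dvd_add (Dvd.dvd.mul_left hb _) ha
        one_mem' := by
          change (p : ℤ_[p]) ^ n ∣ χ 1 - 1
          rw [map_one, sub_self]
          exact dvd_zero _
        inv_mem' := by
          intro a ha
          have h1 : χ a⁻¹ * χ a = 1 := by rw [← map_mul, inv_mul_cancel, map_one]
          have h2 : χ a⁻¹ - 1 = -(χ a⁻¹ * (χ a - 1)) := by linear_combination h1
          change (p : ℤ_[p]) ^ n ∣ χ a⁻¹ - 1
          rw [h2]
          exact (Dvd.dvd.mul_left ha _).neg_right }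
    haveI : K.Normal := ⟨fun τ hτ g => by
      change (p : ℤ_[p]) ^ n ∣ χ (g * τ * g⁻¹) - 1
      have h1 : χ (g * τ * g⁻¹) = χ τ := by
        rw [map_mul, map_mul, mul_comm, ← mul_assoc, ← map_mul, inv_mul_cancel, map_one, one_mul]
      rw [h1]
      exact hτ⟩
    obtain ⟨U, hU, hU'⟩ := hc n
    have htop : K = ⊤ := by
      apply minkowski K (Subgroup.isOpen_mono (H₁ := U) (fun τ hτ => hU' τ hτ) hU)
      intro ℓ hℓ A hA τ hτ
      change (p : ℤ_[p]) ^ n ∣ χ τ - 1
      rw [hI ℓ hℓ A hA τ hτ, sub_self]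
      exact dvd_zero _
    have : σ ∈ K := by rw [htop]; trivial
    exact this
  by_contra hne
  obtain ⟨N, hN⟩ := padic_exists_not_dvd (sub_ne_zero.mpr hne)
  exact hN (key N)

variable {V : Type*} [AddCommGroup V] [Module ℤ_[p] V] (ρ : GQ →* Module.End ℤ_[p] V)
  (b : Module.Basis (Fin 2) ℤ_[p] V)

variable {ρ b} in
lemma rho_b0 (hb : ∀ σ, ρ σ (b 0) ∈ Submodule.span ℤ_[p] {b 0}) (σ : GQ) :
    ρ σ (b 0) = b.coord 0 (ρ σ (b 0)) • b 0 := by
  obtain ⟨x, hx⟩ := Submodule.mem_span_singleton.mp (hb σ)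
  rw [← hx]
  simp

variable {ρ b} in
lemma coord_one_rho (hb : ∀ σ, ρ σ (b 0) ∈ Submodule.span ℤ_[p] {b 0}) (σ : GQ) (v : V) :
    b.coord 1 (ρ σ v) = b.coord 1 (ρ σ (b 1)) * b.coord 1 v := by
  have h : (b.coord 1) ∘ₗ (ρ σ) = b.coord 1 (ρ σ (b 1)) • b.coord 1 := by
    refine b.ext fun i => ?_
    fin_cases i
    · simp only [Fin.zero_eta, LinearMap.comp_apply, LinearMap.smul_apply]
      rw [rho_b0 hb σ]
      simp
    · simp
  exact LinearMap.congr_fun h v

/-- the character on a stable line -/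
def chi0 (hb : ∀ σ, ρ σ (b 0) ∈ Submodule.span ℤ_[p] {b 0}) : GQ →* ℤ_[p] where
  toFun σ := b.coord 0 (ρ σ (b 0))
  map_one' := by rw [map_one, Module.End.one_apply]; simp
  map_mul' σ τ := by
    rw [map_mul, Module.End.mul_apply, rho_b0 hb τ, map_smul, map_smul, smul_eq_mul, mul_comm]
    simp

/-- the character on the quotient by a stable line -/
def chi1 (hb : ∀ σ, ρ σ (b 0) ∈ Submodule.span ℤ_[p] {b 0}) : GQ →* ℤ_[p] where
  toFun σ := b.coord 1 (ρ σ (b 1))
  map_one' := by rw [map_one, Module.End.one_apply]; simp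
  map_mul' σ τ := by
    rw [map_mul, Module.End.mul_apply, coord_one_rho hb σ]

variable {ρ b}

lemma chi_conj (χ : GQ →* ℤ_[p]) (g σ : GQ) : χ (g⁻¹ * σ * g) = χ σ := by
  rw [map_mul, map_mul, mul_comm, ← mul_assoc, ← map_mul, mul_inv_cancel, map_one, one_mul]

/-- **One of the two characters of a reducible representation is trivial.** -/
theorem chi_trivial (hb : ∀ σ, ρ σ (b 0) ∈ Submodule.span ℤ_[p] {b 0})
    (hcont : ∀ n : ℕ, ∃ U : Subgroup GQ, IsOpen (U : Set GQ) ∧
      ∀ σ ∈ U, ∀ v, ∃ w, ρ σ v - v = (p : ℤ_[p]) ^ n • w)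
    (haway : ∀ ℓ : ℕ, ℓ.Prime → ℓ ≠ p → ∀ A : ValuationSubring Qb, A.LiesOverPrime ℓ →
      ∀ σ ∈ A.inertiaSubgroupIn ℚ, (ρ σ - 1) * (ρ σ - 1) = 0)
    {A₀ : ValuationSubring Qb} (hA₀ : A₀.LiesOverPrime p) {M : Submodule ℤ_[p] V}
    (hM : ∀ v : V, (p : ℤ_[p]) • v ∈ M → v ∈ M) (hMtop : M ≠ ⊤)
    (hat : ∀ σ ∈ A₀.inertiaSubgroupIn ℚ, ∀ v, ρ σ v - v ∈ M) :
    (∀ σ, chi0 ρ b hb σ = 1) ∨ (∀ σ, chi1 ρ b hb σ = 1) := by
  haveI := H51.isGalois_Qbar
  by_cases h0 : b 0 ∈ M
  · -- `M` is the line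
    right
    have hM1 : ∀ v ∈ M, b.coord 1 v = 0 := by
      intro v hv
      by_contra hne
      apply hMtop
      have h1 : v = b.coord 0 v • b 0 + b.coord 1 v • b 1 := by
        have := (b.sum_repr v).symm
        rwa [Fin.sum_univ_two] at this
      have h2 : b.coord 1 v • b 1 ∈ M := by
        have h3 : b.coord 1 v • b 1 = v - b.coord 0 v • b 0 := by
          rw [eq_sub_iff_add_eq, add_comm, ← h1]
        rw [h3]
        exact sub_mem hv (M.smul_mem _ h0)
      have h4 := saturated_of_p hM hne h2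
      rw [Submodule.eq_top_iff']
      intro x
      have h5 : x = b.coord 0 x • b 0 + b.coord 1 x • b 1 := by
        have := (b.sum_repr x).symm
        rwa [Fin.sum_univ_two] at this
      rw [h5]
      exact add_mem (M.smul_mem _ h0) (M.smul_mem _ h4)
    apply char_trivial
    · intro n
      obtain ⟨U, hU, hU'⟩ := hcont n
      refine ⟨U, hU, fun σ hσ => ?_⟩
      obtain ⟨w, hw⟩ := hU' σ hσ (b 1)
      have h1 := congrArg (b.coord 1) hw
      rw [map_sub, map_smul] at h1
      have h2 : b.coord 1 (b 1) = 1 := by simp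
      rw [h2] at h1
      exact ⟨b.coord 1 w, h1⟩
    · intro ℓ hℓ A hA σ hσ
      by_cases hℓp : ℓ = p
      · subst hℓp
        obtain ⟨g, rfl⟩ := H05.exists_smul_eq hℓ hA₀ hA
        have hτ := inertia_conj hσ
        rw [← chi_conj _ g σ]
        have h1 := hM1 _ (hat _ hτ (b 1))
        rw [map_sub] at h1
        have h2 : b.coord 1 (b 1) = 1 := by simp
        rw [h2, sub_eq_zero] at h1
        exact h1
      · have h1 := LinearMap.congr_fun (haway ℓ hℓ hℓp A hA σ hσ) (b 1)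
        have h2 := congrArg (b.coord 1) h1
        have h3 : b.coord 1 (b 1) = 1 := by simp
        rw [Module.End.mul_apply, LinearMap.sub_apply, LinearMap.sub_apply, Module.End.one_apply,
          Module.End.one_apply, map_sub, coord_one_rho hb σ, map_sub, h3, LinearMap.zero_apply,
          _root_.map_zero] at h2
        have h4 : (b.coord 1 (ρ σ (b 1)) - 1) * (b.coord 1 (ρ σ (b 1)) - 1) = 0 := by
          linear_combination h2
        exact sub_eq_zero.mp (mul_self_eq_zero.mp h4)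
  · left
    apply char_trivial
    · intro n
      obtain ⟨U, hU, hU'⟩ := hcont n
      refine ⟨U, hU, fun σ hσ => ?_⟩
      obtain ⟨w, hw⟩ := hU' σ hσ (b 0)
      have h1 := congrArg (b.coord 0) hw
      rw [map_sub, map_smul] at h1
      have h2 : b.coord 0 (b 0) = 1 := by simp
      rw [h2] at h1
      exact ⟨b.coord 0 w, h1⟩
    · intro ℓ hℓ A hA σ hσ
      by_cases hℓp : ℓ = p
      · subst hℓp
        obtain ⟨g, rfl⟩ := H05.exists_smul_eq hℓ hA₀ hA
        have hτ := inertia_conj hσ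
        rw [← chi_conj _ g σ]
        have h1 := hat _ hτ (b 0)
        rw [rho_b0 hb] at h1
        have h2 : (b.coord 0 (ρ (g⁻¹ * σ * g) (b 0)) - 1) • b 0 ∈ M := by
          rw [sub_smul, one_smul]; exact h1
        by_contra hne
        exact h0 (saturated_of_p hM (sub_ne_zero.mpr hne) h2)
      · have h1 := LinearMap.congr_fun (haway ℓ hℓ hℓp A hA σ hσ) (b 0)
        have h2 : (b.coord 0 (ρ σ (b 0)) - 1) * (b.coord 0 (ρ σ (b 0)) - 1) = 0 := by
          have h3 : (ρ σ - 1) (b 0) = (b.coord 0 (ρ σ (b 0)) - 1) • b 0 := by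
            rw [LinearMap.sub_apply, Module.End.one_apply, rho_b0 hb σ, sub_smul, one_smul]
            simp
          rw [Module.End.mul_apply, h3, map_smul, h3, LinearMap.zero_apply, smul_smul] at h1
          have h4 := congrArg (b.coord 0) h1
          simpa using h4
        exact sub_eq_zero.mp (mul_self_eq_zero.mp h2)

end character

section good

variable {W : WeierstrassCurve ℤ} {p : ℕ} [hp : Fact p.Prime] {A : ValuationSubring Qb}

/-- the points of the Tate module in the kernel of reduction -/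
def MM (p : ℕ) [Fact p.Prime] (hW : IsIntegralFor A.valuation ((WQ W)⁄Qb)) :
    Submodule ℤ_[p] (TT (WQ W) p) where
  carrier := {f | ∀ n, f.1 n ∈ E1 A.valuation ((WQ W)⁄Qb) hW}
  add_mem' := fun ha hb n => add_mem (ha n) (hb n)
  zero_mem' := fun _ => zero_mem _
  smul_mem' := fun c f hf n => by
    rw [TateMod.smul_level']
    exact AddSubgroup.nsmul_mem _ (hf n) _

lemma MM_saturated (hW : IsIntegralFor A.valuation ((WQ W)⁄Qb)) (f : TT (WQ W) p)
    (hf : (p : ℤ_[p]) • f ∈ MM p hW) : f ∈ MM p hW := by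
  intro n
  have h1 := hf (n + 1)
  have e : ((p : ℤ_[p]) • f) = ((p : ℕ) : ℤ_[p]) • f := rfl
  rw [e, TateMod.natCast_smul, TateMod.step] at h1
  exact h1

lemma MM_ne_top [(WQ W).IsElliptic] (hW : IsIntegralFor A.valuation ((WQ W)⁄Qb))
    {P : Pts (WQ W)} (hP : P ≠ 0)
    (hpP : p • P = 0) (hv : A.valuation (px P) ≤ 1) : MM p hW ≠ ⊤ := by
  intro htop
  obtain ⟨f, hf⟩ := TateMod.exists_lift (pts_div (WQ W) p) (n := 1) (x := P)
    (by rw [pow_one]; exact hpP)
  have h1 : f ∈ MM p hW := by rw [htop]; trivial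
  have h2 := h1 1
  rw [hf] at h2
  rcases h2 with h3 | h3
  · exact hP h3
  · exact absurd h3 (not_lt.mpr hv)

/-- a Galois stable line of `W[p]`, `p` odd and good: there is a `p`-torsion point outside the
kernel of reduction. -/
theorem exists_not_E1 (hp3 : 3 ≤ p) (hA : A.LiesOverPrime p)
    (hΔ : A.valuation ((WQ W)⁄Qb).Δ = 1) {C : AddSubgroup (Pts (WQ W))} (hC : Nat.card C = p)
    (hst : ∀ σ : GQ, ∀ Q ∈ C, σ • Q ∈ C) :
    ∃ P : Pts (WQ W), P ≠ 0 ∧ p • P = 0 ∧ A.valuation (px P) ≤ 1 := by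
  classical
  by_contra hcon
  push Not at hcon
  haveI := H51.isGalois_Qbar
  have hval := fun P hP0 hPp =>
    val_px_pow_of_all_gt (map_WQ W) hp.out hp3 hA hΔ hcon P hP0 hPp
  have hfin : Finite C := Nat.finite_of_card_ne_zero (by rw [hC]; exact hp.out.ne_zero)
  have := Fintype.ofFinite C
  have hpC : ∀ Q ∈ C, p • Q = 0 := by
    intro Q hQ
    have h1 : Nat.card C • (⟨Q, hQ⟩ : C) = 0 := card_nsmul_eq_zero'
    rw [hC] at h1
    exact congrArg Subtype.val h1
  let c : Qb := ∏ x : {x : C // x ≠ 0}, px (x.1 : Pts (WQ W))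
  have hcfix : ∀ σ ∈ A.inertiaSubgroupIn ℚ, σ c = c := by
    intro σ _
    have hne : ∀ Q : Pts (WQ W), Q ≠ 0 → σ • Q ≠ 0 := fun Q hQ => H09.smul_ne_zero' σ hQ
    let e : {x : C // x ≠ 0} ≃ {x : C // x ≠ 0} :=
      { toFun := fun x => ⟨⟨σ • (x.1 : Pts (WQ W)), hst σ _ x.1.2⟩, fun h => by
          have h1 : σ • (x.1 : Pts (WQ W)) = 0 := congrArg Subtype.val h
          exact hne _ (fun h2 => x.2 (Subtype.ext h2)) h1⟩
        invFun := fun x => ⟨⟨σ⁻¹ • (x.1 : Pts (WQ W)), hst σ⁻¹ _ x.1.2⟩, fun h => by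
          have h1 : σ⁻¹ • (x.1 : Pts (WQ W)) = 0 := congrArg Subtype.val h
          exact H09.smul_ne_zero' σ⁻¹ (fun h2 => x.2 (Subtype.ext h2)) h1⟩
        left_inv := fun x => Subtype.ext (Subtype.ext (inv_smul_smul σ _))
        right_inv := fun x => Subtype.ext (Subtype.ext (smul_inv_smul σ _)) }
    calc σ c = ∏ x : {x : C // x ≠ 0}, σ (px (x.1 : Pts (WQ W))) := map_prod _ _ _
      _ = ∏ x : {x : C // x ≠ 0}, px ((e x).1 : Pts (WQ W)) := by
          refine Finset.prod_congr rfl fun x _ => ?_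
          exact (H09.px_smul σ _).symm
      _ = c := Equiv.prod_comp e (fun x : {x : C // x ≠ 0} => px (x.1 : Pts (WQ W)))
  have hcard : Fintype.card {x : C // x ≠ 0} = p - 1 := by
    rw [Fintype.card_subtype_compl, Fintype.card_subtype_eq, ← Nat.card_eq_fintype_card, hC]
  set d := (p ^ 2 - 1) / 2 with hd
  have hcd : A.valuation c ^ d * A.valuation (p : Qb) ^ (p - 1) = 1 := by
    rw [← hcard, ← Finset.card_univ, ← Finset.prod_const, map_prod, ← Finset.prod_pow,
      ← Finset.prod_mul_distrib]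
    apply Finset.prod_eq_one
    intro x _
    exact hval _ (fun h2 => x.2 (Subtype.ext h2)) (hpC _ x.1.2)
  have hpL : (p : Qb) ≠ 0 := Nat.cast_ne_zero.mpr hp.out.ne_zero
  have hv0 : A.valuation (p : Qb) ≠ 0 := (Valuation.ne_zero_iff _).mpr hpL
  have hv1 : A.valuation (p : Qb) < 1 := val_natCast_lt_one hA
  have hd0 : d ≠ 0 := by
    have : 9 ≤ p ^ 2 := by nlinarith
    omega
  have hc0 : c ≠ 0 := by
    intro h0
    rw [h0, _root_.map_zero, zero_pow hd0, zero_mul] at hcd
    exact zero_ne_one hcd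
  obtain ⟨k, hk⟩ := H12.exists_valuation_eq_zpow hp.out hA c hc0 hcfix
  rw [hk, ← zpow_natCast, ← zpow_natCast, ← zpow_mul, ← zpow_add₀ hv0] at hcd
  have hexp : k * (d : ℤ) + ((p - 1 : ℕ) : ℤ) = 0 := by
    by_contra hne
    rcases lt_or_gt_of_ne hne with h | h
    · have := one_lt_zpow_of_neg₀ (zero_lt_iff.mpr hv0) hv1 h
      rw [hcd] at this
      exact lt_irrefl _ this
    · have := zpow_lt_one₀ (zero_lt_iff.mpr hv0) hv1 h
      rw [hcd] at this
      exact lt_irrefl _ this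
  have hodd : Odd p := hp.out.odd_of_ne_two (by omega)
  have h2d : (2 : ℤ) * d = (p : ℤ) ^ 2 - 1 := by
    obtain ⟨m, hm⟩ := hodd
    have h1 : p ^ 2 - 1 = 2 * (2 * m ^ 2 + 2 * m) := by
      rw [hm]
      have : (2 * m + 1) ^ 2 = 2 * (2 * m ^ 2 + 2 * m) + 1 := by ring
      omega
    have h2 : d = 2 * m ^ 2 + 2 * m := by rw [hd, h1]; omega
    rw [h2, hm]; push_cast; ring
  have hpc : ((p - 1 : ℕ) : ℤ) = (p : ℤ) - 1 := by
    rw [Nat.cast_sub (by omega)]; rfl
  rw [hpc] at hexp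
  have h3 : (k * ((p : ℤ) + 1) + 2) * ((p : ℤ) - 1) = 0 := by
    linear_combination 2 * hexp - k * h2d
  have hp3' : (3 : ℤ) ≤ p := by exact_mod_cast hp3
  have h4 : (p : ℤ) - 1 ≠ 0 := by omega
  have h5 : k * ((p : ℤ) + 1) + 2 = 0 := (mul_eq_zero.mp h3).resolve_right h4
  rcases lt_trichotomy k 0 with hk0 | hk0 | hk0
  · nlinarith
  · rw [hk0] at h5; omega
  · nlinarith

end good

end Fermat.Agent.Cor.LG
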