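import Mathlib
import Fermat.Agent.Cor.LGIrr

/-!
# Rational points of order two and the kernel of reduction at `2`

If a curve with integral coefficients has a rational point of order two, some point of order two
(over an algebraic closure) is not in the kernel of reduction.

This file is not used by any of the statement files.
-/

set_option autoImplicit false
set_option linter.unusedSectionVars false
set_option linter.style.haveILetI false

noncomputable section

namespace Fermat.Agent.Cor.LG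

open WeierstrassCurve WeierstrassCurve.Affine WeierstrassCurve.Affine.Point
open Fermat.Agent.H08 Fermat.Agent.H09 Fermat.Agent.Ell Fermat.Agent.EGal Fermat.Agent.LM
open scoped Pointwise

section val

variable {F : Type*} [Field F] {Γ₀ : Type*} [LinearOrderedCommGroupWithZero Γ₀]
  (v : Valuation F Γ₀)

/-- the cubic `4X³ + b₂X² + 2b₄X + b₆` -/
theorem exists_root {b2 b4 b6 x : F} [IsAlgClosed F] [CharZero F]
    (hroot : 4 * x ^ 3 + b2 * x ^ 2 + 2 * b4 * x + b6 = 0)
    (hb2 : v b2 = 1 ∨ ∃ c, v c ≤ 1 ∧ b2 = 4 * c) (hb4 : v b4 ≤ 1) (hb6 : v b6 ≤ 1)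
    (h2 : v 2 ≤ 1) (hx : v x ≤ 1 ∨ 1 ≤ v (2 * x)) :
    ∃ y, 4 * y ^ 3 + b2 * y ^ 2 + 2 * b4 * y + b6 = 0 ∧ v y ≤ 1 := by
  by_contra hcon
  push Not at hcon
  have hX : 1 < v x := hcon x hroot
  have hX1 : 1 ≤ v (2 * x) := hx.resolve_left (not_le.mpr hX)
  have hx0 : x ≠ 0 := by
    rintro rfl
    rw [_root_.map_zero] at hX
    exact not_lt_zero hX
  obtain ⟨w, hw⟩ : ∃ w, w = x⁻¹ := ⟨_, rfl⟩
  have hxw : x * w = 1 := by rw [hw]; exact mul_inv_cancel₀ hx0
  have hw1 : v w < 1 := by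
    rw [hw, map_inv₀]
    exact inv_lt_one_of_one_lt₀ hX
  have hw0 : w ≠ 0 := by rw [hw]; exact inv_ne_zero hx0
  have eqw : 4 + b2 * w + 2 * b4 * w ^ 2 + b6 * w ^ 3 = 0 := by
    have h : (4 * x ^ 3 + b2 * x ^ 2 + 2 * b4 * x + b6) * w ^ 3 = 0 := by rw [hroot, zero_mul]
    rw [hw] at h ⊢
    field_simp at h ⊢
    linear_combination h
  rcases hb2 with hb2 | ⟨c, hc, hb2⟩
  · -- the ordinary case
    have hlarge : v w ≤ v 4 := by
      by_contra hlt
      push Not at hlt
      have h1 : b2 * w = -(4 + w * (w * (2 * b4 + b6 * w))) := by linear_combination eqw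
      have h3 : v (2 * b4 + b6 * w) ≤ 1 := by
        refine v.map_add_le ?_ ?_
        · rw [map_mul]; exact mul_le_one' h2 hb4
        · rw [map_mul]; exact mul_le_one' hb6 hw1.le
      have h4 : v (w * (w * (2 * b4 + b6 * w))) < v w := by
        rw [map_mul]
        have h5 : v (w * (2 * b4 + b6 * w)) < 1 := by
          rw [map_mul]
          exact mul_lt_one_of_lt_of_le hw1 h3
        exact mul_lt_of_lt_one_right (zero_lt_iff.mpr ((Valuation.ne_zero_iff _).mpr hw0)) h5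
      have h6 : v (b2 * w) < v w := by
        rw [h1, v.map_neg]
        exact v.map_add_lt hlt h4
      rw [map_mul, hb2, one_mul] at h6
      exact lt_irrefl _ h6
    -- the other roots
    set β := b2 + 4 * x with hβ
    set γ := 2 * b4 + b2 * x + 4 * x ^ 2 with hγ
    have hγ1 : x * γ = -b6 := by rw [hγ]; linear_combination hroot
    obtain ⟨δ, hδ⟩ := IsAlgClosed.exists_eq_mul_self (β ^ 2 - 16 * γ)
    set y1 := (-β + δ) / 8 with hy1
    set y2 := (-β - δ) / 8 with hy2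
    have q1 : 4 * y1 ^ 2 + β * y1 + γ = 0 := by
      rw [hy1]; field_simp; linear_combination -4 * hδ
    have q2 : 4 * y2 ^ 2 + β * y2 + γ = 0 := by
      rw [hy2]; field_simp; linear_combination -4 * hδ
    have c1 : 4 * y1 ^ 3 + b2 * y1 ^ 2 + 2 * b4 * y1 + b6 = 0 := by
      have : b6 = -(x * γ) := by rw [hγ1]; ring
      rw [this]
      linear_combination (y1 - x) * q1
    have c2 : 4 * y2 ^ 3 + b2 * y2 ^ 2 + 2 * b4 * y2 + b6 = 0 := by
      have : b6 = -(x * γ) := by rw [hγ1]; ring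
      rw [this]
      linear_combination (y2 - x) * q2
    have hprod : 4 * (y1 * y2) = γ := by
      rw [hy1, hy2]; field_simp; linear_combination 4 * hδ
    have l1 := hcon y1 c1
    have l2 := hcon y2 c2
    have h3 : y1 * y2 = -(b6 * (w * 4⁻¹)) := by
      have h4 : γ = -b6 * w := by linear_combination w * hγ1 - γ * hxw
      field_simp
      linear_combination hprod + h4
    have h40 : (4 : F) ≠ 0 := by norm_num
    have h5 : v (w * 4⁻¹) ≤ 1 := by
      rw [map_mul, map_inv₀]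
      exact mul_inv_le_one_of_le₀ hlarge zero_le
    have h6 : v (y1 * y2) ≤ 1 := by
      rw [h3, v.map_neg, map_mul]
      exact mul_le_one' hb6 h5
    rw [map_mul] at h6
    exact absurd h6 (not_le.mpr (one_lt_mul_of_lt_of_le' l1 l2.le))
  · -- the supersingular case
    have h20 : (2 : F) ≠ 0 := by norm_num
    obtain ⟨s, hs⟩ : ∃ s, s = (2 * x)⁻¹ := ⟨_, rfl⟩
    have hs1 : v s ≤ 1 := by
      rw [hs, map_inv₀]
      exact inv_le_one_of_one_le₀ hX1
    have hws : w = 2 * s := by rw [hw, hs]; field_simp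
    have h1 : (1 : F) = -(w * (c + b4 * s + b6 * s ^ 2)) := by
      have h4 : (4 : F) * (1 + w * (c + b4 * s + b6 * s ^ 2)) = 0 := by
        rw [hb2] at eqw
        rw [hws] at eqw ⊢
        linear_combination eqw
      have h5 := (mul_eq_zero.mp h4).resolve_left (by norm_num)
      linear_combination h5
    have h3 : v (c + b4 * s + b6 * s ^ 2) ≤ 1 := by
      refine v.map_add_le (v.map_add_le hc ?_) ?_
      · rw [map_mul]; exact mul_le_one' hb4 hs1
      · rw [map_mul, map_pow]; exact mul_le_one' hb6 (pow_le_one' hs1 2)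
    have h4 : v (w * (c + b4 * s + b6 * s ^ 2)) < 1 := by
      rw [map_mul]
      exact mul_lt_one_of_lt_of_le hw1 h3
    rw [← v.map_neg, ← h1, map_one] at h4
    exact lt_irrefl _ h4

end val

section curve

variable {W : WeierstrassCurve ℤ}

/-- the cubic of the points of order two -/
lemma cubic_of_two_torsion {E : WeierstrassCurve.Affine Qb} {x y : Qb} (h : E.Nonsingular x y)
    (h2 : (2 : ℕ) • Point.some x y h = 0) :
    4 * x ^ 3 + E.b₂ * x ^ 2 + 2 * E.b₄ * x + E.b₆ = 0 := by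
  rw [two_nsmul, add_eq_zero_iff_eq_neg, neg_some] at h2
  have h3 : y = E.negY x y := (Point.some.injEq .. |>.mp h2).2
  rw [WeierstrassCurve.Affine.negY] at h3
  have h4 := (WeierstrassCurve.Affine.equation_iff' _ _).mp h.1
  rw [WeierstrassCurve.b₂, WeierstrassCurve.b₄, WeierstrassCurve.b₆]
  have h5 : 2 * y + E.a₁ * x + E.a₃ = 0 := by linear_combination h3
  linear_combination (2 * y + E.a₁ * x + E.a₃) * h5 - 4 * h4

lemma exists_two_torsion {E : WeierstrassCurve.Affine Qb} [E.IsElliptic] {x : Qb}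
    (h : 4 * x ^ 3 + E.b₂ * x ^ 2 + 2 * E.b₄ * x + E.b₆ = 0) :
    ∃ P : E.Point, P ≠ 0 ∧ (2 : ℕ) • P = 0 ∧ px P = x := by
  rw [WeierstrassCurve.b₂, WeierstrassCurve.b₄, WeierstrassCurve.b₆] at h
  obtain ⟨y, hy⟩ : ∃ y, y = -(E.a₁ * x + E.a₃) / 2 := ⟨_, rfl⟩
  have h1 : E.Equation x y := by
    rw [WeierstrassCurve.Affine.equation_iff', hy]
    linear_combination -(1 / 4) * h
  have h2 := (equation_iff_nonsingular (W := E)).mp h1
  refine ⟨Point.some x y h2, Point.some_ne_zero _, ?_, rfl⟩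
  rw [two_nsmul, add_eq_zero_iff_eq_neg, neg_some]
  congr 1
  rw [WeierstrassCurve.Affine.negY, hy]
  ring

/-- a rational point of order two: some point of order two is not in the kernel of reduction -/
theorem exists_not_E1_two [(WQ W).IsElliptic] {A : ValuationSubring Qb} (hA : A.LiesOverPrime 2)
    {P₀ : Pts (WQ W)} (hP₀ : P₀ ≠ 0) (h2 : 2 • P₀ = 0) (hrat : ∀ σ : GQ, σ • P₀ = P₀) :
    ∃ P : Pts (WQ W), P ≠ 0 ∧ 2 • P = 0 ∧ A.valuation (px P) ≤ 1 := by
  haveI := H51.isGalois_Qbar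
  haveI : ((WQ W)⁄Qb : WeierstrassCurve Qb).IsElliptic :=
    inferInstanceAs ((WQ W).map (algebraMap ℚ Qb)).IsElliptic
  have hx : ∀ σ : GQ, σ (px P₀) = px P₀ := fun σ => by
    rw [← H09.px_smul, hrat]
  have hroot : 4 * px P₀ ^ 3 + ((WQ W)⁄Qb).b₂ * px P₀ ^ 2 + 2 * ((WQ W)⁄Qb).b₄ * px P₀ +
      ((WQ W)⁄Qb).b₆ = 0 := by
    rcases P₀ with _ | ⟨x, y, h⟩
    · exact absurd rfl hP₀
    · exact cubic_of_two_torsion h h2
  have e2 : ((WQ W)⁄Qb).b₂ = ((W.b₂ : ℤ) : Qb) := by
    rw [← map_WQ, WeierstrassCurve.map_b₂]; rfl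
  have e4 : ((WQ W)⁄Qb).b₄ = ((W.b₄ : ℤ) : Qb) := by
    rw [← map_WQ, WeierstrassCurve.map_b₄]; rfl
  have e6 : ((WQ W)⁄Qb).b₆ = ((W.b₆ : ℤ) : Qb) := by
    rw [← map_WQ, WeierstrassCurve.map_b₆]; rfl
  have hv2 : A.valuation (2 : Qb) < 1 := by
    have := H09.val_natCast_lt_one hA
    exact_mod_cast this
  have hdisc : A.valuation (px P₀) ≤ 1 ∨ 1 ≤ A.valuation (2 * px P₀) := by
    by_cases hx0 : px P₀ = 0
    · left; rw [hx0, _root_.map_zero]; exact zero_le
    obtain ⟨n, hn⟩ := H12.exists_valuation_eq_zpow Nat.prime_two hA _ hx0 (fun σ _ => hx σ)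
    have hv0 : A.valuation (2 : Qb) ≠ 0 := (Valuation.ne_zero_iff _).mpr two_ne_zero
    rw [Nat.cast_ofNat] at hn
    rcases lt_or_ge n 0 with h | h
    · right
      rw [map_mul, hn, ← zpow_one_add₀ hv0]
      exact one_le_zpow_of_nonpos₀ (zero_lt_iff.mpr hv0) hv2.le (by omega)
    · left
      rw [hn]
      exact zpow_le_one₀ (zero_lt_iff.mpr hv0) hv2.le h
  have hb2 : A.valuation ((W.b₂ : ℤ) : Qb) = 1 ∨ ∃ c : Qb, A.valuation c ≤ 1 ∧
      ((W.b₂ : ℤ) : Qb) = 4 * c := by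
    by_cases h : (2 : ℤ) ∣ W.b₂
    · right
      have h1 : (2 : ℤ) ∣ W.a₁ := by
        rw [WeierstrassCurve.b₂] at h
        have h2 : (2 : ℤ) ∣ W.a₁ ^ 2 := by
          have h3 : W.a₁ ^ 2 = (W.a₁ ^ 2 + 4 * W.a₂) - 2 * (2 * W.a₂) := by ring
          rw [h3]
          exact dvd_sub h (dvd_mul_right _ _)
        exact Int.prime_two.dvd_of_dvd_pow h2
      obtain ⟨k, hk⟩ := h1
      refine ⟨((k ^ 2 + W.a₂ : ℤ) : Qb), H09.val_intCast_le_one A _, ?_⟩
      rw [WeierstrassCurve.b₂, hk]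
      push_cast
      ring
    · left
      exact H09.val_intCast_eq_one Nat.prime_two hA h
  rw [e2, e4, e6] at hroot
  obtain ⟨x, h1, h3⟩ := exists_root A.valuation hroot hb2 (H09.val_intCast_le_one A _)
    (H09.val_intCast_le_one A _) hv2.le hdisc
  rw [← e2, ← e4, ← e6] at h1
  obtain ⟨P, hP0, hP2, hPx⟩ := exists_two_torsion h1
  exact ⟨P, hP0, hP2, by rw [hPx]; exact h3⟩

end curve

end Fermat.Agent.Cor.LG
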