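import Mathlib
import Fermat.Agent.Cor.LGIrr
import Fermat.Agent.Cor.LGIrrTwo

/-!
# Irreducibility of the `p`-adic representations of a semistable elliptic curve

This file is not used by any of the statement files.
-/

set_option autoImplicit false
set_option linter.unusedSectionVars false
set_option linter.style.haveILetI false

noncomputable section

namespace Fermat.Agent.Cor.LG

open WeierstrassCurve WeierstrassCurve.Affine WeierstrassCurve.Affine.Point
open Fermat.Agent.H08 Fermat.Agent.H09 Fermat.Agent.Ell Fermat.Agent.EGal Fermat.Agent.LM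
open scoped Pointwise

lemma zsmul_of_two_nsmul {G : Type*} [AddCommGroup G] {P : G} (h : (2 : ℕ) • P = 0) (k : ℤ) :
    k • P = 0 ∨ k • P = P := by
  have h3 : ∀ j : ℤ, (2 * j) • P = 0 := by
    intro j
    rw [mul_comm, mul_smul, show ((2 : ℤ)) = ((2 : ℕ) : ℤ) from rfl, natCast_zsmul, h, smul_zero]
  rcases Int.even_or_odd' k with ⟨j, hj | hj⟩
  · left
    rw [hj, h3]
  · right
    rw [hj, add_smul, one_smul, h3, zero_add]

section main

variable {W : WeierstrassCurve ℤ} {p : ℕ} [hp : Fact p.Prime]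

lemma rr_cont [(WQ W).IsElliptic] (n : ℕ) : ∃ U : Subgroup GQ, IsOpen (U : Set GQ) ∧
    ∀ σ ∈ U, ∀ v : TT (WQ W) p, ∃ w, rr (WQ W) p σ v - v = (p : ℤ_[p]) ^ n • w := by
  obtain ⟨L, hL, h⟩ := exists_level_field (WQ W) (p ^ n) (pow_ne_zero _ hp.out.ne_zero)
  refine ⟨L.fixingSubgroup, IntermediateField.fixingSubgroup_isOpen L, fun σ hσ v => ?_⟩
  have h1 : (rr (WQ W) p σ v - v).1 n = 0 := by
    change σ • v.1 n - v.1 n = 0
    rw [h σ 1 (fun x hx => (IntermediateField.mem_fixingSubgroup_iff L _).mp hσ x hx) _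
      (TateMod.tors v n), one_smul, sub_self]
  obtain ⟨g, hg⟩ := TateMod.exists_eq_pow_smul h1
  exact ⟨g, hg.symm⟩

lemma level_one_ne_zero (b : Module.Basis (Fin 2) ℤ_[p] (TT (WQ W) p)) (i : Fin 2) :
    (b i).1 1 ≠ 0 := by
  intro h
  obtain ⟨g, hg⟩ := TateMod.exists_eq_pow_smul h
  have h1 := congrArg (b.coord i) hg
  rw [map_smul, pow_one, smul_eq_mul] at h1
  have h2 : b.coord i (b i) = 1 := by simp
  rw [h2] at h1
  exact PadicInt.prime_p.not_isUnit (IsUnit.of_mul_eq_one _ h1)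

/-- the line modulo `p` -/
lemma card_zmultiples_level_one (b : Module.Basis (Fin 2) ℤ_[p] (TT (WQ W) p)) :
    Nat.card (AddSubgroup.zmultiples ((b 0).1 1)) = p := by
  rw [Nat.card_zmultiples]
  refine addOrderOf_eq_prime ?_ (level_one_ne_zero b 0)
  have := TateMod.tors (b 0) 1
  rwa [pow_one] at this

lemma smul_mem_zmultiples {b : Module.Basis (Fin 2) ℤ_[p] (TT (WQ W) p)}
    (hb : ∀ σ, rr (WQ W) p σ (b 0) ∈ Submodule.span ℤ_[p] {b 0}) (σ : GQ) (Q : Pts (WQ W))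
    (hQ : Q ∈ AddSubgroup.zmultiples ((b 0).1 1)) :
    σ • Q ∈ AddSubgroup.zmultiples ((b 0).1 1) := by
  obtain ⟨k, rfl⟩ := AddSubgroup.mem_zmultiples_iff.mp hQ
  have h1 : σ • (k • (b 0).1 1) = k • (σ • (b 0).1 1) :=
    map_zsmul (DistribSMul.toAddMonoidHom (Pts (WQ W)) σ) k _
  rw [h1]
  apply AddSubgroup.zsmul_mem
  obtain ⟨x, hx⟩ := Submodule.mem_span_singleton.mp (hb σ)
  have h2 : σ • (b 0).1 1 = (x • b 0).1 1 := by rw [hx]; rfl
  rw [h2, TateMod.smul_level']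
  exact AddSubgroup.nsmul_mem _ (AddSubgroup.mem_zmultiples _) _

variable (hΔ : W.Δ ≠ 0) (hss : W.IsSemistableModel)

/-- what is needed of the decomposition group at `p` -/
def LocalDatum (W : WeierstrassCurve ℤ) (p : ℕ) [Fact p.Prime] (A : ValuationSubring Qb) : Prop :=
  ∃ M : Submodule ℤ_[p] (TT (WQ W) p), (∀ v, (p : ℤ_[p]) • v ∈ M → v ∈ M) ∧ M ≠ ⊤ ∧
    ∀ σ ∈ A.inertiaSubgroupIn ℚ, ∀ v, rr (WQ W) p σ v - v ∈ M

include hΔ hss in
theorem localDatum_mult [(WQ W).IsElliptic] (hpΔ : (p : ℤ) ∣ W.Δ) {A : ValuationSubring Qb}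
    (hA : A.LiesOverPrime p) : LocalDatum W p A := by
  have hc₄ := hss p hp.out hpΔ
  obtain ⟨r, t, α, β, h, -⟩ := Fermat.Agent.H16.Ram.exists_data hΔ hp.out hpΔ hc₄ hA hp.out
  have h2 : A.valuation ((WQ W)⁄Qb).c₄ = 1 := by
    rw [← map_WQ, WeierstrassCurve.map_c₄]; exact H09.val_intCast_eq_one hp.out hA hc₄
  refine ⟨LL p h, LL_saturated h, LL_ne_top (p := p) h h2 hp.out hA, fun σ hσ v => ?_⟩
  have h3 := rr_sub_sg_mem (p := p) h (smul_eq_of_inertia hσ) v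
  rw [sg_inertia h hσ, Int.cast_one] at h3
  have h4 : (1 : ℤ_[p]) • v = v := one_smul ℤ_[p] v
  rwa [h4] at h3

theorem localDatum_good [(WQ W).IsElliptic] (hpΔ : ¬ (p : ℤ) ∣ W.Δ) {A : ValuationSubring Qb}
    (hA : A.LiesOverPrime p)
    (hex : ∃ P : Pts (WQ W), P ≠ 0 ∧ p • P = 0 ∧ A.valuation (px P) ≤ 1) :
    LocalDatum W p A := by
  haveI := H51.isGalois_Qbar
  have hW : IsIntegralFor A.valuation ((WQ W)⁄Qb) := isIntegralFor_of_int (map_WQ W)
  have hΔ1 : A.valuation ((WQ W)⁄Qb).Δ = 1 := by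
    rw [← map_WQ, WeierstrassCurve.map_Δ]; exact H09.val_intCast_eq_one hp.out hA hpΔ
  obtain ⟨P, hP0, hPp, hPv⟩ := hex
  refine ⟨MM p hW, MM_saturated hW, MM_ne_top hW hP0 hPp hPv, fun σ hσ v n => ?_⟩
  exact inE1_smul_sub_of_good hW hΔ1 hσ (v.1 n)

include hΔ hss in
theorem localDatum [(WQ W).IsElliptic] {b : Module.Basis (Fin 2) ℤ_[p] (TT (WQ W) p)}
    (hb : ∀ σ, rr (WQ W) p σ (b 0) ∈ Submodule.span ℤ_[p] {b 0}) {A : ValuationSubring Qb}
    (hA : A.LiesOverPrime p) : LocalDatum W p A := by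
  by_cases hpΔ : (p : ℤ) ∣ W.Δ
  · exact localDatum_mult hΔ hss hpΔ hA
  · apply localDatum_good hpΔ hA
    by_cases hp2 : p = 2
    · subst hp2
      have h1 : (2 : ℕ) • (b 0).1 1 = 0 := by
        have := TateMod.tors (b 0) 1
        rwa [pow_one] at this
      refine exists_not_E1_two hA (level_one_ne_zero b 0) h1 (fun σ => ?_)
      obtain ⟨k, hk⟩ := AddSubgroup.mem_zmultiples_iff.mp
        (smul_mem_zmultiples hb σ _ (AddSubgroup.mem_zmultiples ((b 0).1 1)))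
      have h2 : σ • (b 0).1 1 ≠ 0 := H09.smul_ne_zero' σ (level_one_ne_zero b 0)
      rcases zsmul_of_two_nsmul h1 k with h3 | h3
      · exact absurd (hk.symm.trans h3) h2
      · exact hk.symm.trans h3
    · have hp3 : 3 ≤ p := by
        have := hp.out.two_le
        omega
      have hΔ1 : A.valuation ((WQ W)⁄Qb).Δ = 1 := by
        rw [← map_WQ, WeierstrassCurve.map_Δ]; exact H09.val_intCast_eq_one hp.out hA hpΔ
      exact exists_not_E1 hp3 hA hΔ1 (card_zmultiples_level_one b) (smul_mem_zmultiples hb)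

include hΔ hss in
/-- no Galois stable line, given the local information at `p` -/
theorem no_stable_line_of_datum [(WQ W).IsElliptic] {A : ValuationSubring Qb}
    (hA : A.LiesOverPrime p) (hd : LocalDatum W p A)
    (b : Module.Basis (Fin 2) ℤ_[p] (TT (WQ W) p)) :
    ¬ ∀ σ, rr (WQ W) p σ (b 0) ∈ Submodule.span ℤ_[p] {b 0} := by
  intro hb
  obtain ⟨M, hM, hMtop, hat⟩ := hd
  have hns := exists_nonscalar p hΔ hss
  have key := chi_trivial hb rr_cont (fun ℓ hℓ hℓp A hA σ hσ =>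
    rr_unipotent hns hΔ hℓ hℓp (hss ℓ hℓ) hA hσ) hA hM hMtop hat
  obtain ⟨ℓ, hℓ, hℓp⟩ := Nat.exists_infinite_primes (W.Δ.natAbs + p + 1)
  have hgood : ¬ (ℓ : ℤ) ∣ W.Δ := by
    intro hd
    have := Nat.le_of_dvd (Int.natAbs_pos.mpr hΔ) (Int.natCast_dvd.mp hd)
    omega
  have hne : ℓ ≠ p := by omega
  obtain ⟨B, hB⟩ := H05.exists_liesOverPrime Qb hℓp
  obtain ⟨φ, hφ⟩ := H05.exists_isFrobeniusAt (L := Qb) hℓp hB
  have hdet : LinearMap.det (rr (WQ W) p φ) = (ℓ : ℤ_[p]) :=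
    zRep_det_of_ns hΔ hns hℓp hne hB hφ
  have htr : LinearMap.trace ℤ_[p] (TT (WQ W) p) (rr (WQ W) p φ) =
      ((W.apOfModel ℓ : ℤ) : ℤ_[p]) := zRep_trace_of_ns hΔ hns hℓp hgood hne hB hφ
  obtain ⟨h1, h2⟩ := det_of_triangular b (f := rr (WQ W) p φ)
    (x := chi0 (rr (WQ W) p) b hb φ) (z := chi1 (rr (WQ W) p) b hb φ) (rho_b0 hb φ) (by
      have h3 := b.sum_repr (rr (WQ W) p φ (b 1))
      rw [Fin.sum_univ_two] at h3
      refine Submodule.mem_span_singleton.mpr ⟨b.coord 0 (rr (WQ W) p φ (b 1)), ?_⟩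
      rw [eq_sub_iff_add_eq]
      exact h3)
  rw [hdet] at h1
  rw [htr] at h2
  have h3 : ((W.apOfModel ℓ : ℤ) : ℤ_[p]) = ((1 + ℓ : ℤ) : ℤ_[p]) := by
    push_cast
    rcases key with h0 | h0
    · rw [h0, one_mul] at h1
      rw [h2, h0, ← h1]
    · rw [h0, mul_one] at h1
      rw [h2, h0, ← h1, add_comm]
  have h4 : W.apOfModel ℓ = 1 + ℓ := Int.cast_injective h3
  have h5 := abs_apOfModel_le W hℓp
  rw [h4, abs_le] at h5
  omega

/-- **`V_p` is irreducible**: abstract form. -/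
theorem irreducible_aux {V : Type*} [AddCommGroup V] [Module ℤ_[p] V]
    (b₀ : Module.Basis (Fin 2) ℤ_[p] V) {ρ : GQ →* Module.End ℤ_[p] V}
    (hno : ∀ b : Module.Basis (Fin 2) ℤ_[p] V,
      ¬ ∀ σ, ρ σ (b 0) ∈ Submodule.span ℤ_[p] {b 0})
    {N : Submodule ℤ_[p] V} (hN : ∀ σ, ∀ v ∈ N, ρ σ v ∈ N) (hN0 : N ≠ ⊥) :
    ∃ k : ℕ, ∀ v, (p : ℤ_[p]) ^ k • v ∈ N := by
  let N' : Submodule ℤ_[p] V :=
    { carrier := {v | ∃ k : ℕ, (p : ℤ_[p]) ^ k • v ∈ N}
      add_mem' := by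
        rintro x y ⟨k, hk⟩ ⟨l, hl⟩
        refine ⟨k + l, ?_⟩
        rw [smul_add]
        refine add_mem ?_ ?_
        · rw [add_comm, pow_add, mul_smul]
          exact N.smul_mem _ hk
        · rw [pow_add, mul_smul]
          exact N.smul_mem _ hl
      zero_mem' := ⟨0, by rw [smul_zero]; exact zero_mem _⟩
      smul_mem' := by
        rintro c x ⟨k, hk⟩
        refine ⟨k, ?_⟩
        rw [smul_comm]
        exact N.smul_mem _ hk }
  have hsat : ∀ v, (p : ℤ_[p]) • v ∈ N' → v ∈ N' := by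
    rintro v ⟨k, hk⟩
    exact ⟨k + 1, by rwa [pow_succ, mul_smul]⟩
  have hle : N ≤ N' := fun v hv => ⟨0, by rwa [pow_zero, one_smul]⟩
  have hst : ∀ σ, ∀ v ∈ N', ρ σ v ∈ N' := by
    rintro σ v ⟨k, hk⟩
    refine ⟨k, ?_⟩
    rw [← map_smul]
    exact hN σ _ hk
  by_cases htop : N' = ⊤
  · have h0 : b₀ 0 ∈ N' := by rw [htop]; trivial
    have h1 : b₀ 1 ∈ N' := by rw [htop]; trivial
    obtain ⟨k, hk⟩ := h0
    obtain ⟨l, hl⟩ := h1
    refine ⟨k + l, fun v => ?_⟩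
    have h2 : v = b₀.coord 0 v • b₀ 0 + b₀.coord 1 v • b₀ 1 := by
      have := (b₀.sum_repr v).symm
      rwa [Fin.sum_univ_two] at this
    rw [h2, smul_add]
    refine add_mem ?_ ?_
    · rw [smul_comm, add_comm, pow_add, mul_smul]
      exact N.smul_mem _ (N.smul_mem _ hk)
    · rw [smul_comm, pow_add, mul_smul]
      exact N.smul_mem _ (N.smul_mem _ hl)
  · exfalso
    have hbot : N' ≠ ⊥ := fun h => hN0 (le_bot_iff.mp (h ▸ hle))
    obtain ⟨b, hb⟩ := exists_basis_of_saturated b₀ hsat hbot htop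
    apply hno b
    intro σ
    rw [← hb]
    apply hst
    rw [hb]
    exact Submodule.mem_span_singleton_self _

include hΔ hss in
/-- **No Galois stable line**: for every prime `p` and every basis `b` of the Tate module, the
line through `b 0` is not Galois stable. -/
theorem no_stable_line [(WQ W).IsElliptic] (b : Module.Basis (Fin 2) ℤ_[p] (TT (WQ W) p)) :
    ¬ ∀ σ, rr (WQ W) p σ (b 0) ∈ Submodule.span ℤ_[p] {b 0} := by
  obtain ⟨A, hA⟩ := H05.exists_liesOverPrime Qb hp.out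
  intro hb
  exact no_stable_line_of_datum hΔ hss hA (localDatum hΔ hss hb hA) b hb

include hΔ hss in
/-- **The rational Tate module is irreducible, for every prime `p`.** Let `W` be a semistable
elliptic curve over `ℚ` and `p` any prime. Every non-zero Galois stable submodule of `T_p W`
contains `p ^ k T_p W` for some `k`. -/
theorem irreducible [(WQ W).IsElliptic] {N : Submodule ℤ_[p] (TT (WQ W) p)}
    (hN : ∀ σ, ∀ v ∈ N, rr (WQ W) p σ v ∈ N) (hN0 : N ≠ ⊥) :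
    ∃ k : ℕ, ∀ v, (p : ℤ_[p]) ^ k • v ∈ N :=
  irreducible_aux (tateBasis (WQ W) p) (no_stable_line hΔ hss) hN hN0

end main

end Fermat.Agent.Cor.LG
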