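import Mathlib
import Fermat.Agent.Ell.Sat

/-!
# Two one-parameter unipotent subgroups generate an open subgroup of `SL₂(ℤ_p)`

This file is not used by any of the statement files.
-/

set_option autoImplicit false
set_option linter.unusedSectionVars false
set_option linter.style.haveILetI false

noncomputable section

namespace Fermat.Agent.Cor.LG

open Matrix Fermat.Agent.Ell

section alg

variable {p : ℕ} [hp : Fact p.Prime]

/-- upper unipotent matrices -/
def UU (x : ℤ_[p]) : Matrix (Fin 2) (Fin 2) ℤ_[p] := !![1, x; 0, 1]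

/-- lower unipotent matrices -/
def LW (c y : ℤ_[p]) : Matrix (Fin 2) (Fin 2) ℤ_[p] := !![1, 0; c * y, 1]

lemma decomp {c a₁ C₁ B D i : ℤ_[p]} (hi : (1 + c * a₁) * i = 1)
    (hdet : (1 + c * a₁) * D - B * (c * C₁) = 1) :
    LW c (C₁ * i) * (LW c (-a₁ * i) * (UU 1 * (LW c a₁ * (UU (-i) * UU (B * i))))) =
      !![1 + c * a₁, B; c * C₁, D] := by
  ext r s
  fin_cases r <;> fin_cases s <;>
    simp only [UU, LW, Matrix.mul_apply, Fin.sum_univ_two, Matrix.of_apply, Matrix.cons_val',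
      Matrix.cons_val_zero, Matrix.cons_val_one, Matrix.cons_val_fin_one, Fin.zero_eta,
      Fin.mk_one, Fin.isValue]
  · ring
  · linear_combination (B - 1) * hi
  · linear_combination (c * C₁ - c * a₁) * hi
  · linear_combination (D - 1 + (c * C₁ - c * a₁) * i * (B - 1)) * hi - i * hdet

/-- every matrix of determinant one, sufficiently close to one, is a product of the unipotent
matrices `1 + x N` and `1 + x N'`. -/
theorem mem_of_unipotents (R : Submonoid (Matrix (Fin 2) (Fin 2) ℤ_[p])) {a a' α γ : ℤ_[p]}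
    (ha : a ≠ 0) (ha' : a' ≠ 0) (hγ : γ ≠ 0)
    (hU : ∀ x : ℤ_[p], 1 + x • !![0, a; 0, 0] ∈ R)
    (hL : ∀ x : ℤ_[p], 1 + x • !![-(a' * α * γ), a' * α ^ 2; -(a' * γ ^ 2), a' * α * γ] ∈ R) :
    ∃ k : ℕ, ∀ M : Matrix (Fin 2) (Fin 2) ℤ_[p], M.det = 1 →
      (∃ X, M = 1 + (p : ℤ_[p]) ^ k • X) → M ∈ R := by
  set P : Matrix (Fin 2) (Fin 2) ℤ_[p] := !![γ * a, α; 0, γ] with hP
  set P' : Matrix (Fin 2) (Fin 2) ℤ_[p] := !![γ, -α; 0, γ * a] with hP'
  set N : Matrix (Fin 2) (Fin 2) ℤ_[p] := !![0, a; 0, 0] with hN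
  set N' : Matrix (Fin 2) (Fin 2) ℤ_[p] :=
    !![-(a' * α * γ), a' * α ^ 2; -(a' * γ ^ 2), a' * α * γ] with hN'
  set d : ℤ_[p] := γ * a * γ with hd
  set c : ℤ_[p] := -(a * a' * γ ^ 2) with hc
  have hd0 : d ≠ 0 := mul_ne_zero (mul_ne_zero hγ ha) hγ
  have hc0 : c ≠ 0 := neg_ne_zero.mpr (mul_ne_zero (mul_ne_zero ha ha') (pow_ne_zero _ hγ))
  have hp0 : (p : ℤ_[p]) ≠ 0 := Nat.cast_ne_zero.mpr hp.out.ne_zero
  have hPP' : P * P' = d • 1 := by
    ext r s
    fin_cases r <;> fin_cases s <;> simp [hP, hP', hd, Matrix.mul_apply, Fin.sum_univ_two] <;> ring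
  have hPdet : P.det = d := by rw [hP, hd, Matrix.det_fin_two_of]; ring
  have hx0 : d * c * p ≠ 0 := mul_ne_zero (mul_ne_zero hd0 hc0) hp0
  obtain ⟨k, z, hkz⟩ : ∃ (k : ℕ) (z : ℤ_[p]), (p : ℤ_[p]) ^ k = d * c * p * z := by
    refine ⟨(d * c * p).valuation, ((PadicInt.unitCoeff hx0)⁻¹ : ℤ_[p]ˣ), ?_⟩
    have h1 := PadicInt.unitCoeff_spec hx0
    set u := PadicInt.unitCoeff hx0 with hu
    generalize (d * c * p).valuation = m at h1 ⊢
    rw [h1, mul_comm (u : ℤ_[p]), mul_assoc, Units.mul_inv, mul_one]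
  have hPU : ∀ x, P * UU x = (1 + x • N) * P := by
    intro x
    ext r s
    fin_cases r <;> fin_cases s <;>
      simp [hP, hN, UU, Matrix.mul_apply, Fin.sum_univ_two] <;> ring
  have hPL : ∀ x, P * LW c x = (1 + x • N') * P := by
    intro x
    ext r s
    fin_cases r <;> fin_cases s <;>
      simp [hP, hN', LW, hc, Matrix.mul_apply, Fin.sum_univ_two] <;> ring
  refine ⟨k, fun M hdet hcong => ?_⟩
  obtain ⟨X, hX⟩ := hcong
  set Y := P' * X * P with hY
  set M' : Matrix (Fin 2) (Fin 2) ℤ_[p] :=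
    !![1 + c * (p * z * Y 0 0), c * (p * z * Y 0 1); c * (p * z * Y 1 0),
      1 + c * (p * z * Y 1 1)] with hM'
  have hM'1 : M' = 1 + (c * (p * z)) • Y := by
    ext r s
    fin_cases r <;> fin_cases s <;> simp [hM'] <;> ring
  have hMP : M * P = P * M' := by
    have h1 : P * Y = d • (X * P) := by
      rw [hY, ← mul_assoc, ← mul_assoc, hPP', smul_mul_assoc, one_mul, smul_mul_assoc]
    have h2 : P * M' = P + (c * (p * z)) • (P * Y) := by
      rw [hM'1, mul_add, mul_one, mul_smul_comm]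
    have h3 : M * P = P + (p : ℤ_[p]) ^ k • (X * P) := by
      rw [hX, add_mul, one_mul, smul_mul_assoc]
    rw [h2, h3, h1, smul_smul, hkz]
    congr 2
    ring
  have hdet' : M'.det = 1 := by
    have h1 := congrArg Matrix.det hMP
    rw [Matrix.det_mul, Matrix.det_mul, hdet, one_mul, hPdet] at h1
    exact (mul_left_cancel₀ hd0 (by rw [mul_one]; exact h1.symm))
  have hu : IsUnit (1 + c * (p * z * Y 0 0)) := by
    apply padic_isUnit_of_not_dvd
    intro h
    have h1 : (p : ℤ_[p]) ∣ 1 := by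
      have h2 : (1 : ℤ_[p]) = (1 + c * (p * z * Y 0 0)) - p * (c * (z * Y 0 0)) := by ring
      rw [h2]
      exact dvd_sub h (dvd_mul_right _ _)
    exact PadicInt.prime_p.not_isUnit (isUnit_of_dvd_one h1)
  obtain ⟨i, hi⟩ := hu.exists_right_inv
  have hdec := decomp (c := c) (a₁ := p * z * Y 0 0) (C₁ := p * z * Y 1 0)
    (B := c * (p * z * Y 0 1)) (D := 1 + c * (p * z * Y 1 1)) (i := i) hi (by
      rw [hM', Matrix.det_fin_two_of] at hdet'
      exact hdet')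
  rw [← hM'] at hdec
  rw [← hdec] at hMP
  have hG : ∀ S T : Matrix (Fin 2) (Fin 2) ℤ_[p], (∃ Q ∈ R, P * S = Q * P) →
      (∃ Q ∈ R, P * T = Q * P) → ∃ Q ∈ R, P * (S * T) = Q * P := by
    rintro S T ⟨Q, hQ, hS⟩ ⟨Q', hQ', hT⟩
    exact ⟨Q * Q', R.mul_mem hQ hQ', by rw [← mul_assoc, hS, mul_assoc, hT, mul_assoc]⟩
  have gU : ∀ x, ∃ Q ∈ R, P * UU x = Q * P := fun x => ⟨_, hU x, hPU x⟩
  have gL : ∀ x, ∃ Q ∈ R, P * LW c x = Q * P := fun x => ⟨_, hL x, hPL x⟩
  have hMQ : ∃ Q ∈ R, M * P = Q * P := by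
    rw [hMP]
    exact hG _ _ (gL _) (hG _ _ (gL _) (hG _ _ (gU _) (hG _ _ (gL _) (hG _ _ (gU _) (gU _)))))
  obtain ⟨Q, hQ, hMQ⟩ := hMQ
  have h1 : d • (M - Q) = 0 := by
    have h2 : (M - Q) * (P * P') = 0 := by
      rw [← mul_assoc, sub_mul, hMQ, sub_self, zero_mul]
    rwa [hPP', mul_smul_comm, mul_one] at h2
  have h3 : M - Q = 0 := by
    ext r s
    have h4 := congrFun (congrFun h1 r) s
    rw [Matrix.smul_apply, smul_eq_mul, Matrix.zero_apply] at h4
    rw [Matrix.zero_apply]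
    exact (mul_eq_zero.mp h4).resolve_left hd0
  rw [sub_eq_zero.mp h3]
  exact hQ

end alg

end Fermat.Agent.Cor.LG
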