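import Mathlib
import Fermat.Agent.Cor.LGIrr2
import Fermat.Agent.Cor.LGOpenAlg

/-!
# The image of Galois on the Tate module of a semistable elliptic curve is open

`Fermat.Agent.Cor.LG.open_image`: let `W` be a semistable elliptic curve over `ℚ` and `p` a prime,
such that `W` has a prime of multiplicative reduction `q ≠ p`. Then the image of Galois in
`Aut(T_p W)` contains all automorphisms congruent to `1` modulo `p ^ m`, for some `m`.

This file is not used by any of the statement files.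
-/

set_option autoImplicit false
set_option linter.unusedSectionVars false
set_option linter.style.haveILetI false

noncomputable section

namespace Fermat.Agent.Cor.LG

open WeierstrassCurve WeierstrassCurve.Affine WeierstrassCurve.Affine.Point
open Fermat.Agent.H08 Fermat.Agent.H09 Fermat.Agent.Ell Fermat.Agent.EGal Fermat.Agent.LM
open Matrix

variable {p : ℕ} [hp : Fact p.Prime]

/-- congruence modulo `p ^ n` -/
def Cg (n : ℕ) (X Y : Matrix (Fin 2) (Fin 2) ℤ_[p]) : Prop :=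
  ∃ B : Matrix (Fin 2) (Fin 2) ℤ_[p], X = Y + (p : ℤ_[p]) ^ n • B

namespace Cg

variable {n : ℕ} {X Y Z X' Y' : Matrix (Fin 2) (Fin 2) ℤ_[p]}

theorem refl (n : ℕ) (X : Matrix (Fin 2) (Fin 2) ℤ_[p]) : Cg n X X := ⟨0, by simp⟩

theorem symm (h : Cg n X Y) : Cg n Y X := by
  obtain ⟨B, rfl⟩ := h
  exact ⟨-B, by simp⟩

theorem trans (h : Cg n X Y) (h' : Cg n Y Z) : Cg n X Z := by
  obtain ⟨B, rfl⟩ := h
  obtain ⟨B', rfl⟩ := h'
  exact ⟨B' + B, by rw [smul_add, add_assoc]⟩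

theorem mul_left (A : Matrix (Fin 2) (Fin 2) ℤ_[p]) (h : Cg n X Y) : Cg n (A * X) (A * Y) := by
  obtain ⟨B, rfl⟩ := h
  exact ⟨A * B, by rw [mul_add, mul_smul_comm]⟩

theorem mul_right (A : Matrix (Fin 2) (Fin 2) ℤ_[p]) (h : Cg n X Y) : Cg n (X * A) (Y * A) := by
  obtain ⟨B, rfl⟩ := h
  exact ⟨B * A, by rw [add_mul, smul_mul_assoc]⟩

theorem of_le {m : ℕ} (h : Cg n X Y) (hmn : m ≤ n) : Cg m X Y := by
  obtain ⟨B, rfl⟩ := h
  obtain ⟨k, rfl⟩ := Nat.exists_eq_add_of_le hmn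
  exact ⟨(p : ℤ_[p]) ^ k • B, by rw [smul_smul, ← pow_add]⟩

theorem of_dvd (h : ∀ i j, (p : ℤ_[p]) ^ n ∣ X i j - Y i j) : Cg n X Y := by
  choose b hb using h
  refine ⟨Matrix.of b, ?_⟩
  ext i j
  simp [← hb]

theorem dvd (h : Cg n X Y) (i j : Fin 2) : (p : ℤ_[p]) ^ n ∣ X i j - Y i j := by
  obtain ⟨B, rfl⟩ := h
  exact ⟨B i j, by simp⟩

theorem eq (h : ∀ n, Cg n X Y) : X = Y := by
  ext i j
  by_contra hne
  obtain ⟨N, hN⟩ := padic_exists_not_dvd (sub_ne_zero.mpr hne)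
  exact hN ((h N).dvd i j)

theorem one_det (h : Cg n X 1) : (p : ℤ_[p]) ^ n ∣ X.det - 1 := by
  obtain ⟨B, rfl⟩ := h
  rw [Matrix.det_fin_two]
  refine ⟨B 0 0 + B 1 1 + (p : ℤ_[p]) ^ n * (B 0 0 * B 1 1 - B 0 1 * B 1 0), ?_⟩
  simp
  ring

end Cg

variable {W : WeierstrassCurve ℤ} (b : Module.Basis (Fin 2) ℤ_[p] (TT (WQ W) p))

/-- the matrices of the Galois action on the Tate module -/
def matB : GQ →* Matrix (Fin 2) (Fin 2) ℤ_[p] :=
  ((mtx b).toRingEquiv.toRingHom.toMonoidHom).comp (rr (WQ W) p)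

theorem matB_apply (σ : GQ) : matB b σ = mtx b (rr (WQ W) p σ) := rfl

/-- the matrix of `σ` modulo `p ^ n` is locally constant -/
theorem matB_level [(WQ W).IsElliptic] (n : ℕ) : ∃ L : IntermediateField ℚ Qb,
    FiniteDimensional ℚ L ∧ ∀ σ τ : GQ, (∀ x ∈ L, σ x = τ x) → Cg n (matB b σ) (matB b τ) := by
  obtain ⟨L, hL, h⟩ := exists_level_field (WQ W) (p ^ n) (pow_ne_zero _ hp.out.ne_zero)
  refine ⟨L, hL, fun σ τ hστ => ?_⟩
  apply Cg.of_dvd
  intro i j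
  have h1 : (rr (WQ W) p σ (b j) - rr (WQ W) p τ (b j)).1 n = 0 := by
    change σ • (b j).1 n - τ • (b j).1 n = 0
    rw [h σ τ hστ _ (TateMod.tors (b j) n), sub_self]
  obtain ⟨g, hg⟩ := TateMod.exists_eq_pow_smul h1
  rw [matB_apply, matB_apply, mtx_apply, mtx_apply]
  refine ⟨b.repr g i, ?_⟩
  have h2 := congrArg (fun v => b.repr v i) hg
  simp only [map_smul, _root_.map_sub, Finsupp.smul_apply, Finsupp.sub_apply, smul_eq_mul] at h2
  exact h2.symm

theorem isClosed_cg [(WQ W).IsElliptic] (M : Matrix (Fin 2) (Fin 2) ℤ_[p]) (n : ℕ) :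
    IsClosed {σ : GQ | Cg n (matB b σ) M} := by
  obtain ⟨L, hL, h⟩ := matB_level b n
  rw [← isOpen_compl_iff, isOpen_iff_mem_nhds]
  intro σ hσ
  have ho : IsOpen ((fun τ : GQ => σ⁻¹ * τ) ⁻¹' (L.fixingSubgroup : Set GQ)) :=
    (IntermediateField.fixingSubgroup_isOpen L).preimage (continuous_const_mul _)
  have hσm : σ ∈ (fun τ : GQ => σ⁻¹ * τ) ⁻¹' (L.fixingSubgroup : Set GQ) := by
    change σ⁻¹ * σ ∈ L.fixingSubgroup
    rw [inv_mul_cancel]
    exact one_mem _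
  refine Filter.mem_of_superset (ho.mem_nhds hσm) ?_
  intro τ hτ hc
  apply hσ
  refine (h σ τ ?_).trans hc
  intro x hx
  have h1 : (σ⁻¹ * τ) x = x := (IntermediateField.mem_fixingSubgroup_iff L _).mp hτ x hx
  have h2 := congrArg σ h1
  rw [← AlgEquiv.mul_apply, ← mul_assoc, mul_inv_cancel, one_mul] at h2
  exact h2.symm

/-- **The image is closed.** -/
theorem exists_matB_eq [(WQ W).IsElliptic] {M : Matrix (Fin 2) (Fin 2) ℤ_[p]}
    (h : ∀ n, ∃ σ : GQ, Cg n (matB b σ) M) : ∃ σ : GQ, matB b σ = M := by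
  have hne : (⋂ n : ℕ, {σ : GQ | Cg n (matB b σ) M}).Nonempty := by
    apply IsCompact.nonempty_iInter_of_sequence_nonempty_isCompact_isClosed
    · intro n σ hσ
      exact Cg.of_le hσ (Nat.le_succ n)
    · exact h
    · exact (isClosed_cg b M 0).isCompact
    · exact isClosed_cg b M
  obtain ⟨σ, hσ⟩ := hne
  rw [Set.mem_iInter] at hσ
  exact ⟨σ, Cg.eq hσ⟩

lemma one_add_pow_of_sq {R : Type*} [Ring R] {N : R} (hN : N * N = 0) (k : ℕ) :
    (1 + N) ^ k = 1 + (k : R) * N := by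
  induction k with
  | zero => simp
  | succ k ih =>
    rw [pow_succ, ih, mul_add, mul_one, add_mul, one_mul, mul_assoc, hN, mul_zero, add_zero]
    push_cast
    rw [add_mul, one_mul, add_assoc]

/-- a unipotent element generates a one-parameter subgroup -/
theorem exists_one_param [(WQ W).IsElliptic] {N : Matrix (Fin 2) (Fin 2) ℤ_[p]} (hN : N * N = 0)
    {σ₀ : GQ} (hσ₀ : matB b σ₀ = 1 + N) (x : ℤ_[p]) : ∃ σ : GQ, matB b σ = 1 + x • N := by
  apply exists_matB_eq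
  intro n
  refine ⟨σ₀ ^ (x.appr n), ?_⟩
  rw [map_pow, hσ₀, one_add_pow_of_sq hN]
  obtain ⟨y, hy⟩ := Ideal.mem_span_singleton.mp (PadicInt.appr_spec n x)
  refine ⟨-(y • N), ?_⟩
  have h1 : ((x.appr n : ℕ) : Matrix (Fin 2) (Fin 2) ℤ_[p]) * N = ((x.appr n : ℕ) : ℤ_[p]) • N := by
    rw [Nat.cast_smul_eq_nsmul, nsmul_eq_mul]
  have h2 : x = (x.appr n : ℤ_[p]) + (p : ℤ_[p]) ^ n * y := by rw [← hy]; ring
  rw [h1]
  conv_rhs => rw [h2]
  rw [add_smul, smul_neg, smul_smul]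
  abel

/-- conjugates of the standard nilpotent matrix -/
lemma conj_nilp {G G' : Matrix (Fin 2) (Fin 2) ℤ_[p]} (h1 : G * G' = 1) (h2 : G' * G = 1)
    (a : ℤ_[p]) : G * !![0, a; 0, 0] * G' =
      !![-(a * G'.det * G 0 0 * G 1 0), a * G'.det * G 0 0 ^ 2;
        -(a * G'.det * G 1 0 ^ 2), a * G'.det * G 0 0 * G 1 0] := by
  have hdet : G.det * G'.det = 1 := by rw [← Matrix.det_mul, h1, Matrix.det_one]
  have e00 := congrFun (congrFun h2 1) 0
  have e01 := congrFun (congrFun h2 1) 1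
  rw [Matrix.mul_apply, Fin.sum_univ_two] at e00 e01
  rw [Matrix.one_apply_ne (by decide)] at e00
  rw [Matrix.one_apply_eq] at e01
  rw [Matrix.det_fin_two] at hdet
  set D' := G'.det with hD'
  have z : G' 1 0 = -(G 1 0 * D') := by
    linear_combination (-(G' 1 0)) * hdet + D' * G 1 1 * e00 - D' * G 1 0 * e01
  have w : G' 1 1 = G 0 0 * D' := by
    linear_combination (-(G' 1 1)) * hdet + D' * G 0 0 * e01 - D' * G 0 1 * e00
  ext r s
  fin_cases r <;> fin_cases s <;>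
    simp [Matrix.mul_apply, Fin.sum_univ_two, z, w] <;> ring

/-- **the image contains a congruence subgroup of `SL₂`** -/
theorem exists_sl [(WQ W).IsElliptic] {a : ℤ_[p]} (ha : a ≠ 0) {σ₀ g : GQ}
    (hσ₀ : matB b σ₀ = 1 + !![0, a; 0, 0]) (hg : matB b g 1 0 ≠ 0) :
    ∃ k : ℕ, ∀ M : Matrix (Fin 2) (Fin 2) ℤ_[p], M.det = 1 → Cg k M 1 →
      ∃ σ : GQ, matB b σ = M := by
  have hN : (!![0, a; 0, 0] : Matrix (Fin 2) (Fin 2) ℤ_[p]) * !![0, a; 0, 0] = 0 := by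
    ext r s
    fin_cases r <;> fin_cases s <;> simp [Matrix.mul_apply, Fin.sum_univ_two]
  have h1 : matB b g * matB b g⁻¹ = 1 := by rw [← map_mul, mul_inv_cancel, map_one]
  have h2 : matB b g⁻¹ * matB b g = 1 := by rw [← map_mul, inv_mul_cancel, map_one]
  have hdet : (matB b g).det * (matB b g⁻¹).det = 1 := by
    rw [← Matrix.det_mul, h1, Matrix.det_one]
  obtain ⟨k, hk⟩ := mem_of_unipotents (MonoidHom.mrange (matB b)) (a := a)
    (a' := a * (matB b g⁻¹).det) (α := matB b g 0 0) (γ := matB b g 1 0) ha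
    (mul_ne_zero ha (fun h => by rw [h, mul_zero] at hdet; exact zero_ne_one hdet)) hg
    (fun x => exists_one_param b hN hσ₀ x) (fun x => by
      obtain ⟨σ, hσ⟩ := exists_one_param b hN hσ₀ x
      refine ⟨g * σ * g⁻¹, ?_⟩
      rw [map_mul, map_mul, hσ, mul_add, mul_one, add_mul, h1, mul_smul_comm, smul_mul_assoc,
        conj_nilp h1 h2])
  refine ⟨k, fun M hM hc => ?_⟩
  obtain ⟨σ, hσ⟩ := hk M hM hc
  exact ⟨σ, hσ⟩

/-- the determinant takes all values modulo all powers of `p` -/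
theorem exists_det_cg (hΔ : W.Δ ≠ 0) (hss : W.IsSemistableModel) (d : ℤ_[p])
    (hd : IsUnit d) (n : ℕ) : ∃ σ : GQ, (p : ℤ_[p]) ^ n ∣ (matB b σ).det - d := by
  haveI := isElliptic_WQ hΔ
  haveI : NeZero (p ^ n) := ⟨pow_ne_zero _ hp.out.ne_zero⟩
  obtain ⟨ℓ, hℓp, hℓ, hℓd⟩ := Nat.forall_exists_prime_gt_and_eq_mod (q := p ^ n)
    (a := PadicInt.toZModPow n d) (hd.map (PadicInt.toZModPow n)) p
  obtain ⟨A, hA⟩ := Fermat.Agent.H05.exists_liesOverPrime Qb hℓ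
  obtain ⟨φ, hφ⟩ := Fermat.Agent.H05.exists_isFrobeniusAt (L := Qb) hℓ hA
  refine ⟨φ, ?_⟩
  have h1 : LinearMap.det (rr (WQ W) p φ) = (ℓ : ℤ_[p]) :=
    zRep_det_of_ns hΔ (exists_nonscalar p hΔ hss) hℓ (ne_of_gt hℓp) hA hφ
  rw [matB_apply, det_mtx, h1, ← Ideal.mem_span_singleton, ← PadicInt.ker_toZModPow,
    RingHom.mem_ker, map_sub, map_natCast, hℓd, sub_self]

/-- a power of every Galois element is close to one -/
theorem exists_pow_cg (k : ℕ) : ∃ e : ℕ, e ≠ 0 ∧ ∀ τ : GQ, Cg k (matB b (τ ^ e)) 1 := by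
  haveI : NeZero (p ^ k) := ⟨pow_ne_zero _ hp.out.ne_zero⟩
  let φ : GQ →* Matrix (Fin 2) (Fin 2) (ZMod (p ^ k)) :=
    ((RingHom.mapMatrix (PadicInt.toZModPow (p := p) k)) :
      Matrix (Fin 2) (Fin 2) ℤ_[p] →+* Matrix (Fin 2) (Fin 2) (ZMod (p ^ k))).toMonoidHom.comp
      (matB b)
  refine ⟨Nat.card (Matrix (Fin 2) (Fin 2) (ZMod (p ^ k)))ˣ, Nat.card_pos.ne', fun τ => ?_⟩
  have h1 : (MonoidHom.toHomUnits φ τ) ^ Nat.card (Matrix (Fin 2) (Fin 2) (ZMod (p ^ k)))ˣ = 1 :=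
    pow_card_eq_one'
  have h2 : φ (τ ^ Nat.card (Matrix (Fin 2) (Fin 2) (ZMod (p ^ k)))ˣ) = 1 := by
    rw [map_pow]
    have := congrArg Units.val h1
    rwa [Units.val_pow_eq_pow_val, MonoidHom.coe_toHomUnits, Units.val_one] at this
  apply Cg.of_dvd
  intro i j
  have h3 := congrFun (congrFun h2 i) j
  rw [← Ideal.mem_span_singleton, ← PadicInt.ker_toZModPow, RingHom.mem_ker, map_sub]
  have h4 : PadicInt.toZModPow k ((1 : Matrix (Fin 2) (Fin 2) ℤ_[p]) i j) =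
      (1 : Matrix (Fin 2) (Fin 2) (ZMod (p ^ k))) i j := by
    by_cases hij : i = j
    · subst hij; simp
    · rw [Matrix.one_apply_ne hij, Matrix.one_apply_ne hij, _root_.map_zero]
  rw [h4, ← h3, sub_eq_zero]
  rfl

/-- `e`-th roots of `p`-adic integers close to one -/
theorem exists_root_of_near_one {e : ℕ} (he : e ≠ 0) : ∃ m : ℕ, ∀ d : ℤ_[p],
    (p : ℤ_[p]) ^ m ∣ d - 1 → ∃ δ : ℤ_[p], δ ^ e = d := by
  have he0 : (e : ℤ_[p]) ≠ 0 := Nat.cast_ne_zero.mpr he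
  obtain ⟨m, hm⟩ := exists_pow_lt_of_lt_one (x := ‖(e : ℤ_[p])‖ ^ 2) (y := ‖(p : ℤ_[p])‖)
    (pow_pos (norm_pos_iff.mpr he0) 2) (by
      rw [PadicInt.norm_p]
      exact inv_lt_one_of_one_lt₀ (by exact_mod_cast hp.out.one_lt))
  refine ⟨m, fun d ⟨y, hy⟩ => ?_⟩
  have h1 : ‖Polynomial.aeval (1 : ℤ_[p]) (Polynomial.X ^ e - Polynomial.C d : Polynomial ℤ_[p])‖ <
      ‖Polynomial.aeval (1 : ℤ_[p])
        (Polynomial.derivative (Polynomial.X ^ e - Polynomial.C d : Polynomial ℤ_[p]))‖ ^ 2 := by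
    have e1 : Polynomial.aeval (1 : ℤ_[p]) (Polynomial.X ^ e - Polynomial.C d : Polynomial ℤ_[p]) =
        -((p : ℤ_[p]) ^ m * y) := by
      rw [← hy]; simp
    have e2 : Polynomial.aeval (1 : ℤ_[p])
        (Polynomial.derivative (Polynomial.X ^ e - Polynomial.C d : Polynomial ℤ_[p])) =
        (e : ℤ_[p]) := by
      simp [Polynomial.derivative_X_pow]
    rw [e1, e2, norm_neg, norm_mul, norm_pow]
    calc ‖(p : ℤ_[p])‖ ^ m * ‖y‖ ≤ ‖(p : ℤ_[p])‖ ^ m * 1 := by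
          gcongr
          exact PadicInt.norm_le_one y
      _ < ‖(e : ℤ_[p])‖ ^ 2 := by rw [mul_one]; exact hm
  obtain ⟨z, hz, -⟩ := hensels_lemma h1
  refine ⟨z, ?_⟩
  have : z ^ e - d = 0 := by simpa using hz
  exact sub_eq_zero.mp this

/-- from a congruence subgroup of `SL₂` to a congruence subgroup of `GL₂` -/
theorem exists_gl_of_sl (hΔ : W.Δ ≠ 0) (hss : W.IsSemistableModel) {k : ℕ}
    (hk : ∀ M : Matrix (Fin 2) (Fin 2) ℤ_[p], M.det = 1 → Cg k M 1 → ∃ σ : GQ, matB b σ = M) :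
    ∃ m : ℕ, ∀ M : Matrix (Fin 2) (Fin 2) ℤ_[p], Cg m M 1 → ∃ σ : GQ, matB b σ = M := by
  haveI := isElliptic_WQ hΔ
  obtain ⟨e, he, hτe⟩ := exists_pow_cg b k
  obtain ⟨m₀, hm₀⟩ := exists_root_of_near_one (p := p) he
  refine ⟨m₀ + k + 1, fun M hM => ?_⟩
  have hMk : Cg k M 1 := hM.of_le (by omega)
  have hMdet := (hM.of_le (show m₀ ≤ m₀ + k + 1 by omega)).one_det
  have hdu : IsUnit M.det := by
    apply padic_isUnit_of_not_dvd
    intro h
    have h2 := (hM.of_le (show 1 ≤ m₀ + k + 1 by omega)).one_det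
    rw [pow_one] at h2
    have h3 : (p : ℤ_[p]) ∣ 1 := by
      have := dvd_sub h h2
      rwa [sub_sub_cancel] at this
    exact PadicInt.prime_p.not_isUnit (isUnit_of_dvd_one h3)
  obtain ⟨δ, hδ⟩ := hm₀ _ hMdet
  have hδu : IsUnit δ := by
    rw [← hδ] at hdu
    exact (isUnit_pow_iff he).mp hdu
  obtain ⟨D, hD⟩ := hdu.exists_right_inv
  apply exists_matB_eq
  intro n
  obtain ⟨τ, hτ⟩ := exists_det_cg b hΔ hss δ hδu (n + k)
  have hg : (p : ℤ_[p]) ^ (n + k) ∣ (matB b (τ ^ e)).det - M.det := by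
    rw [map_pow, Matrix.det_pow, ← hδ]
    exact hτ.trans (sub_dvd_pow_sub_pow _ _ _)
  obtain ⟨y, hy⟩ := hg
  have hu : (matB b (τ ^ e)).det * D = 1 + (p : ℤ_[p]) ^ (n + k) * (y * D) := by
    linear_combination D * hy + hD
  -- the corrected matrix
  set T : Matrix (Fin 2) (Fin 2) ℤ_[p] := !![(matB b (τ ^ e)).det * D, 0; 0, 1] with hT
  have hT1 : Cg (n + k) T 1 := by
    refine ⟨!![y * D, 0; 0, 0], ?_⟩
    rw [hT, hu]
    ext r s
    fin_cases r <;> fin_cases s <;> simp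
  have hMT : Cg (n + k) (M * T) M := by
    have := hT1.mul_left M
    rwa [mul_one] at this
  have hinv : matB b (τ ^ e)⁻¹ * matB b (τ ^ e) = 1 := by
    rw [← map_mul, inv_mul_cancel, map_one]
  have hinv' : matB b (τ ^ e) * matB b (τ ^ e)⁻¹ = 1 := by
    rw [← map_mul, mul_inv_cancel, map_one]
  have hgi : Cg k (matB b (τ ^ e)⁻¹) 1 := by
    have := (hτe τ).mul_left (matB b (τ ^ e)⁻¹)
    rw [hinv, mul_one] at this
    exact this.symm
  obtain ⟨σ₁, hσ₁⟩ := hk (matB b (τ ^ e)⁻¹ * (M * T)) (by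
    have h1 : (matB b (τ ^ e)⁻¹).det * (matB b (τ ^ e)).det = 1 := by
      rw [← Matrix.det_mul, hinv, Matrix.det_one]
    have h2 : T.det = (matB b (τ ^ e)).det * D := by rw [hT, Matrix.det_fin_two_of]; ring
    rw [Matrix.det_mul, Matrix.det_mul, h2]
    linear_combination (M.det * D) * h1 + hD) (by
    have h1 := ((hMT.of_le (show k ≤ n + k by omega)).trans hMk).mul_left (matB b (τ ^ e)⁻¹)
    rw [mul_one] at h1
    exact h1.trans hgi)
  refine ⟨τ ^ e * σ₁, ?_⟩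
  rw [map_mul, hσ₁, ← mul_assoc, hinv', one_mul]
  exact hMT.of_le (by omega)

/-- **Serre's open image theorem** for a semistable elliptic curve `W` over `ℚ` and a prime `p`
such that `W` has a prime of multiplicative reduction different from `p`: every endomorphism of
`T_p W` congruent to `1` modulo `p ^ m` is in the image of Galois, for some `m`. -/
theorem open_image (hΔ : W.Δ ≠ 0) (hss : W.IsSemistableModel) {q : ℕ} (hq : q.Prime)
    (hqp : q ≠ p) (hqΔ : (q : ℤ) ∣ W.Δ) :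
    ∃ m : ℕ, ∀ f : Module.End ℤ_[p] (TT (WQ W) p),
      (∀ v, ∃ w, f v - v = (p : ℤ_[p]) ^ m • w) → ∃ σ : GQ, rr (WQ W) p σ = f := by
  haveI := isElliptic_WQ hΔ
  haveI := H51.isGalois_Qbar
  obtain ⟨A, hA⟩ := H05.exists_liesOverPrime Qb hq
  obtain ⟨φ, hφ⟩ := H05.exists_isFrobeniusAt (L := Qb) hq hA
  obtain ⟨b, -, ⟨σ, -, c, hc, h0, h1⟩, -, -⟩ := exists_basis_mult p hΔ hss hq hqp hqΔ hA hφ
  have hσ : matB b σ = 1 + !![0, c; 0, 0] := by
    rw [matB_apply]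
    ext r s
    rw [mtx_apply]
    fin_cases s
    · simp only [Fin.zero_eta]
      rw [h0]
      fin_cases r <;> simp
    · simp only [Fin.mk_one]
      rw [h1]
      fin_cases r <;> simp
  obtain ⟨g, hg⟩ : ∃ g : GQ, matB b g 1 0 ≠ 0 := by
    by_contra hcon
    push Not at hcon
    apply no_stable_line hΔ hss b
    intro σ
    have h2 := hcon σ
    rw [matB_apply, mtx_apply] at h2
    have h3 := (b.sum_repr (rr (WQ W) p σ (b 0))).symm
    rw [Fin.sum_univ_two, h2] at h3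
    rw [h3]
    have h4 : (0 : ℤ_[p]) • b 1 = 0 := zero_smul ℤ_[p] (b 1)
    rw [h4, add_zero]
    exact Submodule.smul_mem _ _ (Submodule.mem_span_singleton_self _)
  obtain ⟨k, hk⟩ := exists_sl b hc hσ hg
  obtain ⟨m, hm⟩ := exists_gl_of_sl b hΔ hss hk
  refine ⟨m, fun f hf => ?_⟩
  obtain ⟨τ, hτ⟩ := hm (mtx b f) (by
    apply Cg.of_dvd
    intro i j
    obtain ⟨w, hw⟩ := hf (b j)
    refine ⟨b.repr w i, ?_⟩
    have h2 := congrArg (fun v => b.repr v i) hw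
    simp only [map_smul, _root_.map_sub, Finsupp.smul_apply, Finsupp.sub_apply, smul_eq_mul] at h2
    rw [mtx_apply, ← h2, Module.Basis.repr_self, Matrix.one_apply, Finsupp.single_apply]
    congr 1
    simp only [eq_comm])
  exact ⟨τ, (mtx b).injective hτ⟩

end Fermat.Agent.Cor.LG
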