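import Mathlib
import Fermat.Agent.Cor.LGOpen

/-!
# The image of Galois has finite index in `Aut(T_p W)`

This file is not used by any of the statement files.
-/

set_option autoImplicit false
set_option linter.unusedSectionVars false
set_option linter.style.haveILetI false

noncomputable section

namespace Fermat.Agent.Cor.LG

open WeierstrassCurve WeierstrassCurve.Affine WeierstrassCurve.Affine.Point
open Fermat.Agent.H08 Fermat.Agent.H09 Fermat.Agent.Ell Fermat.Agent.EGal Fermat.Agent.LM
open Matrix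

variable {p : ℕ} [hp : Fact p.Prime]

/-- the image of Galois contains all endomorphisms congruent to `1` modulo some power of `p` -/
def HasOpenImage (W : WeierstrassCurve ℤ) (p : ℕ) [Fact p.Prime] : Prop :=
  ∃ m : ℕ, ∀ f : Module.End ℤ_[p] (TT (WQ W) p),
    (∀ v, ∃ w, f v - v = (p : ℤ_[p]) ^ m • w) → ∃ σ : GQ, rr (WQ W) p σ = f

variable {W : WeierstrassCurve ℤ}

/-- **The image of Galois has finite index in `Aut(T_p W)`.** -/
theorem HasOpenImage.finiteIndex [(WQ W).IsElliptic] (h : HasOpenImage W p) :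
    (MonoidHom.toHomUnits (rr (WQ W) p)).range.FiniteIndex := by
  obtain ⟨m, hm⟩ := h
  haveI : NeZero (p ^ m) := ⟨pow_ne_zero _ hp.out.ne_zero⟩
  set b := tateBasis (WQ W) p
  let ψ : Module.End ℤ_[p] (TT (WQ W) p) →* Matrix (Fin 2) (Fin 2) (ZMod (p ^ m)) :=
    ((RingHom.mapMatrix (PadicInt.toZModPow (p := p) m)) :
      Matrix (Fin 2) (Fin 2) ℤ_[p] →+* Matrix (Fin 2) (Fin 2) (ZMod (p ^ m))).toMonoidHom.comp
      ((mtx b).toRingEquiv.toRingHom.toMonoidHom)
  have hfin : (Units.map ψ).ker.FiniteIndex := Subgroup.finiteIndex_ker _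
  refine Subgroup.finiteIndex_of_le (H := (Units.map ψ).ker) ?_
  intro u hu
  have hu1 : ψ u.val = 1 := congrArg Units.val (MonoidHom.mem_ker.mp hu)
  have hcg : Cg m (mtx b u.val) 1 := by
    apply Cg.of_dvd
    intro i j
    have h3 := congrFun (congrFun hu1 i) j
    rw [← Ideal.mem_span_singleton, ← PadicInt.ker_toZModPow, RingHom.mem_ker, map_sub]
    have h4 : PadicInt.toZModPow m ((1 : Matrix (Fin 2) (Fin 2) ℤ_[p]) i j) =
        (1 : Matrix (Fin 2) (Fin 2) (ZMod (p ^ m))) i j := by
      by_cases hij : i = j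
      · subst hij; simp
      · rw [Matrix.one_apply_ne hij, Matrix.one_apply_ne hij, _root_.map_zero]
    rw [h4, ← h3, sub_eq_zero]
    rfl
  obtain ⟨B, hB⟩ := hcg
  have hf : u.val = 1 + (p : ℤ_[p]) ^ m • (mtx b).symm B := by
    apply (mtx b).injective
    rw [hB, map_add, map_one, map_smul, AlgEquiv.apply_symm_apply]
  obtain ⟨σ, hσ⟩ := hm u.val (fun v => ⟨(mtx b).symm B v, by
    rw [hf, LinearMap.add_apply, Module.End.one_apply, LinearMap.smul_apply, add_sub_cancel_left]⟩)
  exact ⟨σ, Units.ext hσ⟩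

end Fermat.Agent.Cor.LG
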