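import Mathlib
import Fermat.Agent.Cor.LGOpenIndex
import Fermat.Agent.Cor.AdelicMazur
import Fermat.Agent.MainConductor

/-!
# Serre's open image theorem for semistable elliptic curves over `ℚ` and all primes

`Fermat.Agent.Cor.LG.open_image_all`: for every semistable elliptic curve `W` over `ℚ` and every
prime `p` (including `p = 2` and the primes for which `W[p]` is reducible) the image of Galois in
`Aut(T_p W)` is open; `Fermat.Agent.Cor.LG.finiteIndex_all`: it has finite index.

If `W` has a prime of multiplicative reduction `q ≠ p` this is `Fermat.Agent.Cor.LG.open_image`.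
Otherwise the conductor is `p`, so that `p ≥ 11`, `p ≠ 13` and the representation is surjective.

This file is not used by any of the statement files.
-/

set_option autoImplicit false
set_option linter.unusedSectionVars false
set_option linter.style.haveILetI false

noncomputable section

namespace Fermat.Agent.Cor.LG

open WeierstrassCurve WeierstrassCurve.Affine WeierstrassCurve.Affine.Point
open Fermat.Agent.H08 Fermat.Agent.H09 Fermat.Agent.Ell Fermat.Agent.EGal Fermat.Agent.LM
open Matrix

variable {p : ℕ} [hp : Fact p.Prime] {W : WeierstrassCurve ℤ}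

/-- an endomorphism congruent to `1` modulo `p` is an automorphism -/
lemma isUnit_det_of_cg_one (b : Module.Basis (Fin 2) ℤ_[p] (TT (WQ W) p))
    {f : Module.End ℤ_[p] (TT (WQ W) p)}
    (hf : ∀ v, ∃ w, f v - v = (p : ℤ_[p]) ^ 1 • w) : IsUnit (LinearMap.det f) := by
  have hcg : Cg 1 (mtx b f) 1 := by
    apply Cg.of_dvd
    intro i j
    obtain ⟨w, hw⟩ := hf (b j)
    refine ⟨b.repr w i, ?_⟩
    have h2 := congrArg (fun v => b.repr v i) hw
    simp only [map_smul, _root_.map_sub, Finsupp.smul_apply, Finsupp.sub_apply, smul_eq_mul] at h2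
    rw [mtx_apply, ← h2, Module.Basis.repr_self, Matrix.one_apply, Finsupp.single_apply]
    congr 1
    simp only [eq_comm]
  rw [← det_mtx b]
  apply padic_isUnit_of_not_dvd
  intro h
  have h2 := hcg.one_det
  rw [pow_one] at h2
  have h3 : (p : ℤ_[p]) ∣ 1 := by
    have := dvd_sub h h2
    rwa [sub_sub_cancel] at this
  exact PadicInt.prime_p.not_isUnit (isUnit_of_dvd_one h3)

/-- if `p` is the only prime of multiplicative reduction, then `p ≥ 11` and `p ≠ 13`. -/
lemma eleven_le_of_unique (hΔ : W.Δ ≠ 0) (hss : W.IsSemistableModel)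
    (h : ∀ q : ℕ, q.Prime → q ≠ p → ¬ (q : ℤ) ∣ W.Δ) : 11 ≤ p ∧ p ≠ 13 := by
  have h1 : W.Δ.natAbs.primeFactors = {p} := by
    ext q
    rw [Nat.mem_primeFactors, Finset.mem_singleton]
    constructor
    · rintro ⟨hq, hqΔ, -⟩
      by_contra hne
      exact h q hq hne (Int.natCast_dvd.mpr hqΔ)
    · intro hqp
      rw [hqp]
      refine ⟨hp.out, ?_, Int.natAbs_ne_zero.mpr hΔ⟩
      obtain ⟨q, hq, hqΔ⟩ := Nat.exists_prime_and_dvd (Fermat.Agent.Main.natAbs_disc_ne_one W)
      by_cases hqp : q = p
      · rwa [hqp] at hqΔ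
      · exact absurd (Int.natCast_dvd.mpr hqΔ) (h q hq hqp)
  have h2 := Fermat.Agent.Main.eleven_le_conductor W hΔ hss
  rw [h1, Finset.prod_singleton] at h2
  exact h2

/-- **Serre's open image theorem**: `W` a semistable elliptic curve over `ℚ`, `p` any prime. The
image of Galois in `End(T_p W)` contains all endomorphisms congruent to `1` modulo `p ^ m`. -/
theorem open_image_all (hΔ : W.Δ ≠ 0) (hss : W.IsSemistableModel) : HasOpenImage W p := by
  by_cases h : ∃ q : ℕ, q.Prime ∧ q ≠ p ∧ (q : ℤ) ∣ W.Δ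
  · obtain ⟨q, hq, hqp, hqΔ⟩ := h
    exact open_image hΔ hss hq hqp hqΔ
  · push Not at h
    obtain ⟨h11, h13⟩ := eleven_le_of_unique hΔ hss h
    haveI := isElliptic_WQ hΔ
    refine ⟨1, fun f hf => ?_⟩
    have hu := isUnit_det_of_cg_one (tateBasis (WQ W) p) hf
    haveI : Module.Finite ℤ_[p] (TT (WQ W) p) := .of_basis (tateBasis (WQ W) p)
    haveI : Module.Free ℤ_[p] (TT (WQ W) p) := .of_basis (tateBasis (WQ W) p)
    obtain ⟨σ, hσ⟩ := Surj.adic_uniform W hΔ hss h11 h13
      (LinearEquiv.ofIsUnitDet (f := f) (v := tateBasis (WQ W) p)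
        (v' := tateBasis (WQ W) p) (by rwa [LinearMap.det_toMatrix]))
    exact ⟨σ, LinearMap.ext fun v => hσ v⟩

/-- **Serre's open image theorem**: `W` a semistable elliptic curve over `ℚ`, `p` any prime. The
image of `Gal(ℚ̄/ℚ)` in `Aut(T_p W)` has finite index. -/
theorem finiteIndex_all (hΔ : W.Δ ≠ 0) (hss : W.IsSemistableModel) :
    (MonoidHom.toHomUnits (rr (WQ W) p)).range.FiniteIndex := by
  haveI := isElliptic_WQ hΔ
  exact (open_image_all hΔ hss).finiteIndex

end Fermat.Agent.Cor.LG
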