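import Mathlib
import Fermat.Agent.Cor.LGOpenAll

/-!
# Torsion over abelian extensions

`Fermat.Agent.Cor.LG.torsion_abelian`: the torsion of a semistable elliptic curve over the maximal
abelian extension of `ℚ` is finite.

This file is not used by any of the statement files.
-/

set_option autoImplicit false
set_option linter.unusedSectionVars false
set_option linter.style.haveILetI false

noncomputable section

namespace Fermat.Agent.Cor.LG

open WeierstrassCurve WeierstrassCurve.Affine WeierstrassCurve.Affine.Point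
open Fermat.Agent.H08 Fermat.Agent.H09 Fermat.Agent.Ell Fermat.Agent.EGal Fermat.Agent.LM
open Matrix

variable {p : ℕ} [hp : Fact p.Prime] {W : WeierstrassCurve ℤ}

lemma pow_smul_level (n : ℕ) (w : TT (WQ W) p) : ((p : ℤ_[p]) ^ n • w).1 n = 0 := by
  have e : ((p : ℤ_[p]) ^ n) = ((p ^ n : ℕ) : ℤ_[p]) := by push_cast; rfl
  rw [e, TateMod.natCast_smul]
  exact TateMod.tors w n

lemma level_smul_zero (b : Module.Basis (Fin 2) ℤ_[p] (TT (WQ W) p)) {c : ℤ_[p]} {n : ℕ}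
    {i : Fin 2} (j : Fin 2) (h : (c • b i).1 n = 0) : (c • b j).1 n = 0 := by
  obtain ⟨g, hg⟩ := TateMod.exists_eq_pow_smul h
  have h1 := congrArg (fun v => b.repr v i) hg
  simp only [map_smul, Finsupp.smul_apply, smul_eq_mul, Module.Basis.repr_self,
    Finsupp.single_eq_same, mul_one] at h1
  have h2 : c • b j = (p : ℤ_[p]) ^ n • (b.repr g i • b j) := by
    have h3 : (p : ℤ_[p]) ^ n • (b.repr g i • b j) = ((p : ℤ_[p]) ^ n * b.repr g i) • b j :=
      (mul_smul _ _ _).symm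
    rw [h3, h1]
  rw [h2]
  exact pow_smul_level n _

/-- elements of the image close to one -/
lemma HasOpenImage.exists_matB (b : Module.Basis (Fin 2) ℤ_[p] (TT (WQ W) p)) {m : ℕ}
    (hm : ∀ f : Module.End ℤ_[p] (TT (WQ W) p),
      (∀ v, ∃ w, f v - v = (p : ℤ_[p]) ^ m • w) → ∃ σ : GQ, rr (WQ W) p σ = f)
    (B : Matrix (Fin 2) (Fin 2) ℤ_[p]) : ∃ σ : GQ, matB b σ = 1 + (p : ℤ_[p]) ^ m • B := by
  obtain ⟨σ, hσ⟩ := hm (1 + (p : ℤ_[p]) ^ m • (mtx b).symm B) (fun v => ⟨(mtx b).symm B v, by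
    rw [LinearMap.add_apply, Module.End.one_apply, LinearMap.smul_apply, add_sub_cancel_left]⟩)
  refine ⟨σ, ?_⟩
  rw [matB_apply, hσ, map_add, map_one, map_smul, AlgEquiv.apply_symm_apply]

lemma matB_commutator (b : Module.Basis (Fin 2) ℤ_[p] (TT (WQ W) p)) {σ τ : GQ}
    {B : Matrix (Fin 2) (Fin 2) ℤ_[p]}
    (h : matB b σ * matB b τ = B * (matB b τ * matB b σ)) :
    matB b (σ * τ * σ⁻¹ * τ⁻¹) = B := by
  have h1 : matB b (σ * τ * σ⁻¹ * τ⁻¹) * matB b (τ * σ) = B * matB b (τ * σ) := by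
    rw [← map_mul, map_mul (matB b) τ σ, ← h, ← map_mul]
    congr 1
    group
  have h2 : matB b (τ * σ) * matB b (τ * σ)⁻¹ = 1 := by rw [← map_mul, mul_inv_cancel, map_one]
  have h3 := congrArg (· * matB b (τ * σ)⁻¹) h1
  simp only [mul_assoc, h2, mul_one] at h3
  exact h3

/-- **The abelian torsion at `p` is bounded.** -/
theorem HasOpenImage.exists_bound_ab [(WQ W).IsElliptic] (h : HasOpenImage W p) :
    ∃ k : ℕ, ∀ P : Pts (WQ W), (∃ n : ℕ, p ^ n • P = 0) →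
      (∀ σ τ : GQ, (σ * τ * σ⁻¹ * τ⁻¹) • P = P) → p ^ k • P = 0 := by
  obtain ⟨m, hm⟩ := h
  set b := tateBasis (WQ W) p with hb
  obtain ⟨σD, hD⟩ := HasOpenImage.exists_matB b hm !![1, 0; 0, 0]
  obtain ⟨σD', hD'⟩ := HasOpenImage.exists_matB b hm !![0, 0; 0, 1]
  obtain ⟨σU, hU⟩ := HasOpenImage.exists_matB b hm !![0, 1; 0, 0]
  obtain ⟨σL, hL⟩ := HasOpenImage.exists_matB b hm !![0, 0; 1, 0]
  have k1 := matB_commutator b (σ := σD) (τ := σU)
    (B := 1 + (p : ℤ_[p]) ^ (2 * m) • !![0, 1; 0, 0]) (by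
      rw [hD, hU, pow_mul']
      ext r s
      fin_cases r <;> fin_cases s <;> (simp [Matrix.mul_apply, Fin.sum_univ_two]; try ring))
  have k2 := matB_commutator b (σ := σD') (τ := σL)
    (B := 1 + (p : ℤ_[p]) ^ (2 * m) • !![0, 0; 1, 0]) (by
      rw [hD', hL, pow_mul']
      ext r s
      fin_cases r <;> fin_cases s <;> (simp [Matrix.mul_apply, Fin.sum_univ_two]; try ring))
  refine ⟨2 * m, fun P ⟨n, hn⟩ hfix => ?_⟩
  obtain ⟨v, hv⟩ := TateMod.exists_lift (pts_div (WQ W) p) (n := n) (x := P) hn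
  have hv2 := b.sum_repr v
  rw [Fin.sum_univ_two] at hv2
  -- the two commutators
  have f1 : rr (WQ W) p (σD * σU * σD⁻¹ * σU⁻¹) v - v =
      ((p : ℤ_[p]) ^ (2 * m) * b.repr v 1) • b 0 := by
    apply b.repr.injective
    ext i
    have h1 := LinearMap.toMatrix_mulVec_repr b b (rr (WQ W) p (σD * σU * σD⁻¹ * σU⁻¹)) v
    have h2 : LinearMap.toMatrix b b (rr (WQ W) p (σD * σU * σD⁻¹ * σU⁻¹)) =
      1 + (p : ℤ_[p]) ^ (2 * m) • !![0, 1; 0, 0] := k1
    rw [h2] at h1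
    have h3 := congrFun h1 i
    rw [_root_.map_sub, Finsupp.sub_apply, ← h3]
    fin_cases i <;> simp [Matrix.mulVec, dotProduct, Fin.sum_univ_two]
  have f2 : rr (WQ W) p (σD' * σL * σD'⁻¹ * σL⁻¹) v - v =
      ((p : ℤ_[p]) ^ (2 * m) * b.repr v 0) • b 1 := by
    apply b.repr.injective
    ext i
    have h1 := LinearMap.toMatrix_mulVec_repr b b (rr (WQ W) p (σD' * σL * σD'⁻¹ * σL⁻¹)) v
    have h2 : LinearMap.toMatrix b b (rr (WQ W) p (σD' * σL * σD'⁻¹ * σL⁻¹)) =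
      1 + (p : ℤ_[p]) ^ (2 * m) • !![0, 0; 1, 0] := k2
    rw [h2] at h1
    have h3 := congrFun h1 i
    rw [_root_.map_sub, Finsupp.sub_apply, ← h3]
    fin_cases i <;> simp [Matrix.mulVec, dotProduct, Fin.sum_univ_two]
  have g1 : (((p : ℤ_[p]) ^ (2 * m) * b.repr v 1) • b 0).1 n = 0 := by
    rw [← f1]
    change (σD * σU * σD⁻¹ * σU⁻¹) • v.1 n - v.1 n = 0
    rw [hv, hfix, sub_self]
  have g2 : (((p : ℤ_[p]) ^ (2 * m) * b.repr v 0) • b 1).1 n = 0 := by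
    rw [← f2]
    change (σD' * σL * σD'⁻¹ * σL⁻¹) • v.1 n - v.1 n = 0
    rw [hv, hfix, sub_self]
  have g1' := level_smul_zero b 1 g1
  have g2' := level_smul_zero b 0 g2
  have e : ((p : ℤ_[p]) ^ (2 * m)) = ((p ^ (2 * m) : ℕ) : ℤ_[p]) := by push_cast; rfl
  have h5 : (p : ℤ_[p]) ^ (2 * m) • v = ((p : ℤ_[p]) ^ (2 * m) * b.repr v 0) • b 0 +
      ((p : ℤ_[p]) ^ (2 * m) * b.repr v 1) • b 1 := by
    conv_lhs => rw [← hv2]
    refine (smul_add ((p : ℤ_[p]) ^ (2 * m)) (b.repr v 0 • b 0) (b.repr v 1 • b 1)).trans ?_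
    exact congrArg₂ (· + ·) (mul_smul _ _ _).symm (mul_smul _ _ _).symm
  have h6 : ((p : ℤ_[p]) ^ (2 * m) • v).1 n = p ^ (2 * m) • P := by
    rw [e, TateMod.natCast_smul, ← hv]
  rw [← h6, h5]
  change (((p : ℤ_[p]) ^ (2 * m) * b.repr v 0) • b 0).1 n +
    (((p : ℤ_[p]) ^ (2 * m) * b.repr v 1) • b 1).1 n = 0
  rw [g1', g2', add_zero]

/-- **The torsion of `W` over the maximal abelian extension of `ℚ` is bounded.** -/
theorem exists_bound_torsion_ab (hΔ : W.Δ ≠ 0) (hss : W.IsSemistableModel) :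
    ∃ N : ℕ, N ≠ 0 ∧ ∀ P : Pts (WQ W), IsOfFinAddOrder P →
      (∀ σ τ : GQ, (σ * τ * σ⁻¹ * τ⁻¹) • P = P) → N • P = 0 := by
  haveI := isElliptic_WQ hΔ
  have H : ∀ ℓ : ℕ, ∃ k : ℕ, ℓ.Prime → (∀ P : Pts (WQ W), (∃ n : ℕ, ℓ ^ n • P = 0) →
      (∀ σ τ : GQ, (σ * τ * σ⁻¹ * τ⁻¹) • P = P) → ℓ ^ k • P = 0) ∧
      (11 ≤ ℓ → ℓ ≠ 13 → k = 0) := by
    intro ℓ
    by_cases hℓ : ℓ.Prime
    · haveI : Fact ℓ.Prime := ⟨hℓ⟩
      by_cases h : 11 ≤ ℓ ∧ ℓ ≠ 13
      · refine ⟨0, fun _ => ⟨?_, fun _ _ => rfl⟩⟩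
        rintro P ⟨n, hn⟩ hfix
        have h0 : P = 0 := Surj.no_abelian_torsion W hΔ hss (N := ℓ ^ n)
          ((hℓ.odd_of_ne_two (by omega)).pow) (fun q hq hqℓ => by
            rw [(Nat.prime_dvd_prime_iff_eq hq hℓ).mp (hq.dvd_of_dvd_pow hqℓ)]
            exact Mazur.modRep_irreducible hΔ hss hℓ h.1 h.2) P hn hfix
        rw [h0]
        exact nsmul_zero _
      · obtain ⟨k, hk⟩ := (open_image_all (p := ℓ) hΔ hss).exists_bound_ab
        exact ⟨k, fun _ => ⟨hk, fun h1 h2 => absurd ⟨h1, h2⟩ h⟩⟩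
    · exact ⟨0, fun h => absurd h hℓ⟩
  choose k hk using H
  refine ⟨∏ ℓ ∈ ({2, 3, 5, 7, 13} : Finset ℕ), ℓ ^ k ℓ, ?_, fun P hP hfix => ?_⟩
  · rw [Finset.prod_ne_zero_iff]
    intro ℓ hℓ
    apply pow_ne_zero
    rintro rfl
    simp at hℓ
  · have hM0 : addOrderOf P ≠ 0 := (addOrderOf_pos_iff.mpr hP).ne'
    rw [← addOrderOf_dvd_iff_nsmul_eq_zero, Nat.dvd_iff_prime_pow_dvd_dvd]
    intro ℓ a hℓ ⟨c, hc⟩
    have hc0 : c ≠ 0 := by rintro rfl; rw [mul_zero] at hc; exact hM0 hc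
    have h1 : ℓ ^ k ℓ • (c • P) = 0 := by
      refine (hk ℓ hℓ).1 _ ⟨a, ?_⟩ (fun σ τ => ?_)
      · rw [← mul_smul, ← hc, addOrderOf_nsmul_eq_zero]
      · have h2 : (σ * τ * σ⁻¹ * τ⁻¹) • (c • P) = c • ((σ * τ * σ⁻¹ * τ⁻¹) • P) :=
          map_nsmul (DistribSMul.toAddMonoidHom (Pts (WQ W)) (σ * τ * σ⁻¹ * τ⁻¹)) c P
        rw [h2, hfix]
    rw [← mul_smul, ← addOrderOf_dvd_iff_nsmul_eq_zero, hc] at h1
    have h3 : ℓ ^ a ∣ ℓ ^ k ℓ := Nat.dvd_of_mul_dvd_mul_right (Nat.pos_of_ne_zero hc0) h1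
    by_cases h4 : 11 ≤ ℓ ∧ ℓ ≠ 13
    · rw [(hk ℓ hℓ).2 h4.1 h4.2, pow_zero] at h3
      exact h3.trans (one_dvd _)
    · refine h3.trans (Finset.dvd_prod_of_mem (fun ℓ => ℓ ^ k ℓ) ?_)
      by_cases h5 : ℓ = 13
      · rw [h5]; decide
      · have h6 : ℓ < 11 := by
          by_contra h7
          exact h4 ⟨by omega, h5⟩
        clear h4 h3 h1 hc
        interval_cases ℓ
        all_goals first
          | decide
          | exact absurd hℓ (by norm_num)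

/-- **The torsion of a semistable elliptic curve over abelian extensions of `ℚ`**: there is an
integer `N ≠ 0` which kills all the torsion points of `W` over all abelian extensions `K` of `ℚ`
(finite or infinite). -/
theorem torsion_abelian (W : WeierstrassCurve ℤ) (hΔ : W.Δ ≠ 0) (hss : W.IsSemistableModel) :
    ∃ N : ℕ, N ≠ 0 ∧ ∀ (K : Type*) [Field K] [DecidableEq K] [Algebra ℚ K] [IsAbelianGalois ℚ K]
      (P : ((W.map (Int.castRingHom ℚ))⁄K).Point), IsOfFinAddOrder P → N • P = 0 := by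
  obtain ⟨N, hN, h⟩ := exists_bound_torsion_ab hΔ hss
  refine ⟨N, hN, ?_⟩
  intro K _ _ _ _ P hP
  classical
  let i : K →ₐ[ℚ] Qb := IsAlgClosed.lift
  apply Point.map_injective (W' := W.map (Int.castRingHom ℚ)) i
  rw [Point.map_zero, map_nsmul]
  refine h (Point.map (W' := W.map (Int.castRingHom ℚ)) i P)
    (AddMonoidHom.isOfFinAddOrder (Point.map (W' := W.map (Int.castRingHom ℚ)) i) hP)
    (fun σ τ => ?_)
  rw [algEquiv_smul_def, Point.map_map]
  congr 1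
  refine congrArg _ (AlgHom.ext fun x => ?_)
  exact Surj.commutator_fixes i σ τ x

/-- **The torsion of a semistable elliptic curve over an abelian extension of `ℚ`** (finite or
infinite, for instance over the maximal cyclotomic extension) **is finite**. -/
theorem torsion_abelian_finite (W : WeierstrassCurve ℤ) (hΔ : W.Δ ≠ 0) (hss : W.IsSemistableModel)
    (K : Type*) [Field K] [DecidableEq K] [Algebra ℚ K] [IsAbelianGalois ℚ K] :
    {P : ((W.map (Int.castRingHom ℚ))⁄K).Point | IsOfFinAddOrder P}.Finite := by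
  obtain ⟨N, hN, h⟩ := torsion_abelian W hΔ hss
  haveI := isElliptic_WQ hΔ
  classical
  let i : K →ₐ[ℚ] Qb := IsAlgClosed.lift
  have hfin : Finite (Submodule.torsionBy ℤ (Pts (WQ W)) (N : ℤ)) :=
    Fermat.Agent.Frob.finite_torsionBy (K := Qb) (WQ W) hN
  have h2 : ({Q : Pts (WQ W) | N • Q = 0}).Finite := by
    refine Set.Finite.subset
      (Set.toFinite (Submodule.torsionBy ℤ (Pts (WQ W)) (N : ℤ) : Set (Pts (WQ W)))) ?_
    intro Q hQ
    rw [SetLike.mem_coe, Submodule.mem_torsionBy_iff, natCast_zsmul]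
    exact hQ
  refine Set.Finite.of_finite_image (f := Point.map (W' := W.map (Int.castRingHom ℚ)) i)
    (h2.subset ?_) (Point.map_injective (W' := W.map (Int.castRingHom ℚ)) i).injOn
  rintro _ ⟨P, hP, rfl⟩
  have h3 := h K P hP
  change N • (Point.map (W' := W.map (Int.castRingHom ℚ)) i P) = 0
  rw [← map_nsmul, h3, Point.map_zero]

end Fermat.Agent.Cor.LG
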