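import Mathlib
import Fermat.Agent.Cor.LGAb

/-!
# Consequences of the open image theorem: strong irreducibility and no complex multiplication

This file is not used by any of the statement files.
-/

set_option autoImplicit false
set_option linter.unusedSectionVars false
set_option linter.style.haveILetI false

noncomputable section

namespace Fermat.Agent.Cor.LG

open WeierstrassCurve WeierstrassCurve.Affine WeierstrassCurve.Affine.Point
open Fermat.Agent.H08 Fermat.Agent.H09 Fermat.Agent.Ell Fermat.Agent.EGal Fermat.Agent.LM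
open Matrix

variable {p : ℕ} [hp : Fact p.Prime] {W : WeierstrassCurve ℤ}

/-- a subgroup of finite index contains elements acting by unipotent matrices -/
lemma HasOpenImage.exists_mem (h : HasOpenImage W p)
    (b : Module.Basis (Fin 2) ℤ_[p] (TT (WQ W) p)) (H : Subgroup GQ) [H.FiniteIndex]
    {N : Matrix (Fin 2) (Fin 2) ℤ_[p]} (hN : N * N = 0) :
    ∃ σ ∈ H, ∃ c : ℤ_[p], c ≠ 0 ∧ matB b σ = 1 + c • N := by
  obtain ⟨m, hm⟩ := h
  obtain ⟨σ, hσ⟩ := HasOpenImage.exists_matB b hm N
  obtain ⟨n, hn, -, hnH⟩ :=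
    Subgroup.exists_pow_mem_of_index_ne_zero (H := H) Subgroup.FiniteIndex.index_ne_zero σ
  refine ⟨σ ^ n, hnH, (n : ℤ_[p]) * (p : ℤ_[p]) ^ m, ?_, ?_⟩
  · exact mul_ne_zero (Nat.cast_ne_zero.mpr hn.ne')
      (pow_ne_zero _ (Nat.cast_ne_zero.mpr hp.out.ne_zero))
  · rw [map_pow, hσ, one_add_pow_of_sq (by
      rw [smul_mul_smul_comm, hN, smul_zero])]
    have h1 : ((n : ℕ) : Matrix (Fin 2) (Fin 2) ℤ_[p]) * ((p : ℤ_[p]) ^ m • N) =
        (n : ℤ_[p]) • ((p : ℤ_[p]) ^ m • N) := by
      rw [Nat.cast_smul_eq_nsmul, nsmul_eq_mul]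
    rw [h1, smul_smul]

/-- **No (potential) complex multiplication**: an endomorphism of `T_p W` commuting with a subgroup
of finite index of the Galois group is a scalar. -/
theorem HasOpenImage.scalar_of_commute [(WQ W).IsElliptic] (h : HasOpenImage W p)
    (H : Subgroup GQ) [H.FiniteIndex] (g : Module.End ℤ_[p] (TT (WQ W) p))
    (hg : ∀ σ ∈ H, g * rr (WQ W) p σ = rr (WQ W) p σ * g) : ∃ c : ℤ_[p], g = c • 1 := by
  set b := tateBasis (WQ W) p with hb
  obtain ⟨σ, hσ, c, hc, hσ1⟩ := h.exists_mem b H (N := !![0, 1; 0, 0]) (by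
    ext r s; fin_cases r <;> fin_cases s <;> simp [Matrix.mul_apply, Fin.sum_univ_two])
  obtain ⟨τ, hτ, d, hd, hτ1⟩ := h.exists_mem b H (N := !![0, 0; 1, 0]) (by
    ext r s; fin_cases r <;> fin_cases s <;> simp [Matrix.mul_apply, Fin.sum_univ_two])
  have h1 : mtx b g * matB b σ = matB b σ * mtx b g := by
    rw [matB_apply, ← map_mul, ← map_mul, hg σ hσ]
  have h2 : mtx b g * matB b τ = matB b τ * mtx b g := by
    rw [matB_apply, ← map_mul, ← map_mul, hg τ hτ]
  rw [hσ1] at h1
  rw [hτ1] at h2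
  set X := mtx b g with hX
  have e1 := congrFun (congrFun h1 0) 0
  have e2 := congrFun (congrFun h1 0) 1
  have e3 := congrFun (congrFun h2 0) 0
  simp only [Matrix.mul_apply, Fin.sum_univ_two, Matrix.add_apply, Matrix.smul_apply,
    Matrix.one_apply, Matrix.of_apply, Matrix.cons_val', Matrix.cons_val_zero,
    Matrix.cons_val_one, Matrix.cons_val_fin_one, smul_eq_mul, Fin.isValue, if_true,
    zero_ne_one, one_ne_zero, if_false] at e1 e2 e3
  have k1 : X 1 0 = 0 := by
    have : c * X 1 0 = 0 := by linear_combination -e1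
    exact (mul_eq_zero.mp this).resolve_left hc
  have k2 : X 0 0 = X 1 1 := by
    have : c * (X 0 0 - X 1 1) = 0 := by linear_combination e2
    exact sub_eq_zero.mp ((mul_eq_zero.mp this).resolve_left hc)
  have k3 : X 0 1 = 0 := by
    have : d * X 0 1 = 0 := by linear_combination e3
    exact (mul_eq_zero.mp this).resolve_left hd
  refine ⟨X 0 0, (mtx b).injective ?_⟩
  rw [map_smul, map_one, ← hX]
  ext r s
  fin_cases r <;> fin_cases s <;> simp [k1, k2, k3]

/-- **Strong irreducibility** -/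
theorem HasOpenImage.irreducible_finiteIndex [(WQ W).IsElliptic] (h : HasOpenImage W p)
    (H : Subgroup GQ) [H.FiniteIndex] {M : Submodule ℤ_[p] (TT (WQ W) p)}
    (hM : ∀ σ ∈ H, ∀ v ∈ M, rr (WQ W) p σ v ∈ M) (hM0 : M ≠ ⊥) :
    ∃ k : ℕ, ∀ v, (p : ℤ_[p]) ^ k • v ∈ M := by
  set b := tateBasis (WQ W) p with hb
  obtain ⟨σ, hσ, c, hc, hσ1⟩ := h.exists_mem b H (N := !![0, 1; 0, 0]) (by
    ext r s; fin_cases r <;> fin_cases s <;> simp [Matrix.mul_apply, Fin.sum_univ_two])
  obtain ⟨τ, hτ, d, hd, hτ1⟩ := h.exists_mem b H (N := !![0, 0; 1, 0]) (by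
    ext r s; fin_cases r <;> fin_cases s <;> simp [Matrix.mul_apply, Fin.sum_univ_two])
  have f1 : ∀ v, rr (WQ W) p σ v - v = (c * b.repr v 1) • b 0 := by
    intro v
    apply b.repr.injective
    ext i
    have h1 := LinearMap.toMatrix_mulVec_repr b b (rr (WQ W) p σ) v
    have h2 : LinearMap.toMatrix b b (rr (WQ W) p σ) = 1 + c • !![0, 1; 0, 0] := hσ1
    rw [h2] at h1
    have h3 := congrFun h1 i
    rw [_root_.map_sub, Finsupp.sub_apply, ← h3]
    fin_cases i <;> simp [Matrix.mulVec, dotProduct, Fin.sum_univ_two]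
  have f2 : ∀ v, rr (WQ W) p τ v - v = (d * b.repr v 0) • b 1 := by
    intro v
    apply b.repr.injective
    ext i
    have h1 := LinearMap.toMatrix_mulVec_repr b b (rr (WQ W) p τ) v
    have h2 : LinearMap.toMatrix b b (rr (WQ W) p τ) = 1 + d • !![0, 0; 1, 0] := hτ1
    rw [h2] at h1
    have h3 := congrFun h1 i
    rw [_root_.map_sub, Finsupp.sub_apply, ← h3]
    fin_cases i <;> simp [Matrix.mulVec, dotProduct, Fin.sum_univ_two]
  have g1 : ∀ v ∈ M, (c * b.repr v 1) • b 0 ∈ M := fun v hv => by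
    rw [← f1]; exact M.sub_mem (hM σ hσ v hv) hv
  have g2 : ∀ v ∈ M, (d * b.repr v 0) • b 1 ∈ M := fun v hv => by
    rw [← f2]; exact M.sub_mem (hM τ hτ v hv) hv
  -- a common multiple
  obtain ⟨x, hx, h0, h1⟩ : ∃ x : ℤ_[p], x ≠ 0 ∧ x • b 0 ∈ M ∧ x • b 1 ∈ M := by
    obtain ⟨v, hv, hv0⟩ := (Submodule.ne_bot_iff _).mp hM0
    by_cases hv1 : b.repr v 1 = 0
    · have hv2 : b.repr v 0 ≠ 0 := by
        intro h2
        apply hv0
        apply b.repr.injective
        rw [_root_.map_zero]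
        ext i
        fin_cases i
        · exact h2
        · exact hv1
      have k1 := g2 v hv
      have k2 := g1 _ k1
      simp only [map_smul, Finsupp.smul_apply, Module.Basis.repr_self, Finsupp.single_eq_same,
        smul_eq_mul, mul_one] at k2
      refine ⟨c * (d * b.repr v 0), mul_ne_zero hc (mul_ne_zero hd hv2), k2, ?_⟩
      have k3 := M.smul_mem c k1
      have k4 : c • ((d * b.repr v 0) • b 1) = (c * (d * b.repr v 0)) • b 1 :=
        (mul_smul _ _ _).symm
      rwa [k4] at k3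
    · have k1 := g1 v hv
      have k2 := g2 _ k1
      simp only [map_smul, Finsupp.smul_apply, Module.Basis.repr_self, Finsupp.single_eq_same,
        smul_eq_mul, mul_one] at k2
      refine ⟨d * (c * b.repr v 1), mul_ne_zero hd (mul_ne_zero hc hv1), ?_, k2⟩
      have k3 := M.smul_mem d k1
      have k4 : d • ((c * b.repr v 1) • b 0) = (d * (c * b.repr v 1)) • b 0 :=
        (mul_smul _ _ _).symm
      rwa [k4] at k3
  have hxM : ∀ v, x • v ∈ M := by
    intro v
    have hv2 := b.sum_repr v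
    rw [Fin.sum_univ_two] at hv2
    have k5 : x • v = b.repr v 0 • (x • b 0) + b.repr v 1 • (x • b 1) := by
      conv_lhs => rw [← hv2]
      refine (smul_add x (b.repr v 0 • b 0) (b.repr v 1 • b 1)).trans ?_
      exact congrArg₂ (· + ·) (smul_comm _ _ _) (smul_comm _ _ _)
    rw [k5]
    exact M.add_mem (M.smul_mem _ h0) (M.smul_mem _ h1)
  obtain ⟨k, u, hk⟩ : ∃ (k : ℕ) (u : ℤ_[p]), (p : ℤ_[p]) ^ k = u * x := by
    have k6 := PadicInt.unitCoeff_spec hx
    refine ⟨x.valuation, (((PadicInt.unitCoeff hx)⁻¹ : ℤ_[p]ˣ) : ℤ_[p]), ?_⟩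
    set u := PadicInt.unitCoeff hx with hu
    clear_value u
    generalize x.valuation = n at k6 ⊢
    rw [k6, ← mul_assoc, Units.inv_mul, one_mul]
  refine ⟨k, fun v => ?_⟩
  have k8 : (p : ℤ_[p]) ^ k • v = u • (x • v) := by
    rw [hk]
    exact mul_smul _ _ _
  rw [k8]
  exact M.smul_mem _ (hxM v)

/-- the image of a subgroup of finite index has finite index -/
theorem HasOpenImage.finiteIndex_map [(WQ W).IsElliptic] (h : HasOpenImage W p)
    (H : Subgroup GQ) [H.FiniteIndex] :
    (H.map (MonoidHom.toHomUnits (rr (WQ W) p))).FiniteIndex := by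
  haveI := h.finiteIndex
  constructor
  rw [Subgroup.index_map]
  refine mul_ne_zero ?_ Subgroup.FiniteIndex.index_ne_zero
  exact (Subgroup.finiteIndex_of_le (le_sup_left (a := H))).index_ne_zero

/-- **No potential complex multiplication**, for all semistable curves and all primes. -/
theorem scalar_all (hΔ : W.Δ ≠ 0) (hss : W.IsSemistableModel) (H : Subgroup GQ) [H.FiniteIndex]
    (g : Module.End ℤ_[p] (TT (WQ W) p))
    (hg : ∀ σ ∈ H, g * rr (WQ W) p σ = rr (WQ W) p σ * g) : ∃ c : ℤ_[p], g = c • 1 := by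
  haveI := isElliptic_WQ hΔ
  exact (open_image_all hΔ hss).scalar_of_commute H g hg

/-- **Strong irreducibility**, for all semistable curves and all primes: `V_p W` is irreducible
under every subgroup of finite index of the Galois group. -/
theorem irreducible_all (hΔ : W.Δ ≠ 0) (hss : W.IsSemistableModel) (H : Subgroup GQ)
    [H.FiniteIndex] {M : Submodule ℤ_[p] (TT (WQ W) p)}
    (hM : ∀ σ ∈ H, ∀ v ∈ M, rr (WQ W) p σ v ∈ M) (hM0 : M ≠ ⊥) :
    ∃ k : ℕ, ∀ v, (p : ℤ_[p]) ^ k • v ∈ M := by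
  haveI := isElliptic_WQ hΔ
  exact (open_image_all hΔ hss).irreducible_finiteIndex H hM hM0

end Fermat.Agent.Cor.LG
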