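import Mathlib
import Fermat.Agent.Cor.LGComm

/-!
# Torsion over abelian extensions of a number field

`Fermat.Agent.Cor.LG.exists_bound_torsion_abK`: let `W` be a semistable elliptic curve over `ℚ` and
`G` a subgroup of finite index of `Gal(ℚ̄/ℚ)`. The torsion points of `W` fixed by the commutators of
`G` are killed by an integer `N ≠ 0`: the torsion of `W` over the maximal abelian extension of a
number field is finite.

This file is not used by any of the statement files.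
-/

set_option autoImplicit false
set_option linter.unusedSectionVars false
set_option linter.style.haveILetI false

noncomputable section

namespace Fermat.Agent.Cor.LG

open WeierstrassCurve WeierstrassCurve.Affine WeierstrassCurve.Affine.Point
open Fermat.Agent.H08 Fermat.Agent.H09 Fermat.Agent.Ell Fermat.Agent.EGal Fermat.Agent.LM
open Matrix

variable {p : ℕ} [hp : Fact p.Prime] {W : WeierstrassCurve ℤ}

lemma exists_dvd_pow' {c : ℤ_[p]} (hc : c ≠ 0) : ∃ k : ℕ, c ∣ (p : ℤ_[p]) ^ k := by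
  have h1 := PadicInt.unitCoeff_spec hc
  refine ⟨c.valuation, ?_⟩
  set u := PadicInt.unitCoeff hc with hu
  clear_value u
  generalize c.valuation = n at h1 ⊢
  exact ⟨((u⁻¹ : ℤ_[p]ˣ) : ℤ_[p]), by
    rw [h1, mul_comm (u : ℤ_[p]), mul_assoc, Units.mul_inv, mul_one]⟩

/-- diagonal elements of a subgroup of finite index -/
lemma HasOpenImage.exists_mem_diag (h : HasOpenImage W p)
    (b : Module.Basis (Fin 2) ℤ_[p] (TT (WQ W) p)) (H : Subgroup GQ) [H.FiniteIndex]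
    {E : Matrix (Fin 2) (Fin 2) ℤ_[p]} (hE : E * E = E) :
    ∃ σ ∈ H, ∃ c : ℤ_[p], c ≠ 0 ∧ matB b σ = 1 + c • E := by
  obtain ⟨m, hm⟩ := h
  obtain ⟨σ, hσ⟩ := HasOpenImage.exists_matB b hm E
  obtain ⟨n, hn, -, hnH⟩ :=
    Subgroup.exists_pow_mem_of_index_ne_zero (H := H) Subgroup.FiniteIndex.index_ne_zero σ
  have key : ∀ k : ℕ, matB b (σ ^ k) = 1 + ((1 + (p : ℤ_[p]) ^ m) ^ k - 1) • E := by
    intro k
    induction k with
    | zero => simp
    | succ k ih =>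
      rw [pow_succ, map_mul, ih, hσ, add_mul, one_mul, smul_mul_assoc, mul_add, mul_one,
        mul_smul_comm, hE, smul_add, smul_smul, add_assoc, ← add_smul, ← add_smul]
      congr 2
      ring
  refine ⟨σ ^ n, hnH, _, ?_, key n⟩
  -- `(1 + p ^ m) ^ n ≠ 1`
  intro h0
  have h1 : ((1 + (p : ℤ_[p]) ^ m) ^ n) = ((((1 + p ^ m) ^ n : ℕ)) : ℤ_[p]) := by push_cast; rfl
  rw [h1, sub_eq_zero] at h0
  have h2 : (1 + p ^ m) ^ n = 1 := by exact_mod_cast h0
  have h3 : 1 < (1 + p ^ m) ^ n := Nat.one_lt_pow hn.ne' (by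
    have := Nat.pos_of_ne_zero (pow_ne_zero m hp.out.ne_zero)
    omega)
  omega

/-- the commutator bound -/
theorem pow_smul_eq_zero_of_comm [(WQ W).IsElliptic]
    (b : Module.Basis (Fin 2) ℤ_[p] (TT (WQ W) p)) {m : ℕ} {σ τ : GQ} {c d : ℤ_[p]}
    (hc : c ∣ (p : ℤ_[p]) ^ m) (hd : d ∣ (p : ℤ_[p]) ^ m)
    (hσ : matB b σ = 1 + c • !![0, 1; 0, 0]) (hτ : matB b τ = 1 + d • !![0, 0; 1, 0])
    {P : Pts (WQ W)} (hP : ∃ n : ℕ, p ^ n • P = 0) (hσP : σ • P = P) (hτP : τ • P = P) :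
    p ^ m • P = 0 := by
  obtain ⟨n, hn⟩ := hP
  obtain ⟨v, hv⟩ := TateMod.exists_lift (pts_div (WQ W) p) (n := n) (x := P) hn
  obtain ⟨u, hu⟩ := hc
  obtain ⟨u', hu'⟩ := hd
  have key : ∀ g : GQ, g • P = P → ∃ w : TT (WQ W) p, ∀ i,
      b.repr (rr (WQ W) p g v) i - b.repr v i = (p : ℤ_[p]) ^ n * b.repr w i := by
    intro g hg
    have h1 : (rr (WQ W) p g v - v).1 n = 0 := by
      change g • v.1 n - v.1 n = 0
      rw [hv, hg, sub_self]
    obtain ⟨w, hw⟩ := TateMod.exists_eq_pow_smul h1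
    refine ⟨w, fun i => ?_⟩
    have h2 := congrArg (fun v => b.repr v i) hw
    simp only [map_smul, _root_.map_sub, Finsupp.smul_apply, Finsupp.sub_apply, smul_eq_mul] at h2
    exact h2.symm
  have hrr : ∀ (g : GQ) (N : Matrix (Fin 2) (Fin 2) ℤ_[p]) (e : ℤ_[p]), matB b g = 1 + e • N →
      ∀ i, b.repr (rr (WQ W) p g v) i =
        b.repr v i + e * (N i 0 * b.repr v 0 + N i 1 * b.repr v 1) := by
    intro g N e hg i
    have h1 := LinearMap.toMatrix_mulVec_repr b b (rr (WQ W) p g) v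
    have h2 : LinearMap.toMatrix b b (rr (WQ W) p g) = 1 + e • N := hg
    rw [h2] at h1
    have h3 := congrFun h1 i
    rw [← h3, Matrix.add_mulVec, Matrix.one_mulVec, Matrix.smul_mulVec, Pi.add_apply,
      Pi.smul_apply, smul_eq_mul]
    simp only [Matrix.mulVec, dotProduct, Fin.sum_univ_two]
  obtain ⟨w, hw⟩ := key σ hσP
  obtain ⟨w', hw'⟩ := key τ hτP
  have a0 := hw 0
  have b1 := hw' 1
  rw [hrr _ _ _ hσ] at a0
  rw [hrr _ _ _ hτ] at b1
  simp only [Matrix.of_apply, Matrix.cons_val', Matrix.cons_val_zero, Matrix.cons_val_one,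
    Matrix.cons_val_fin_one, Fin.isValue] at a0 b1
  have e : ((p : ℤ_[p]) ^ m) = ((p ^ m : ℕ) : ℤ_[p]) := by push_cast; rfl
  have h5 : (p : ℤ_[p]) ^ m • v =
      (p : ℤ_[p]) ^ n • ((u' * b.repr w' 1) • b 0 + (u * b.repr w 0) • b 1) := by
    apply b.repr.injective
    ext i
    fin_cases i
    · simp only [map_smul, _root_.map_add, Finsupp.smul_apply, Finsupp.add_apply, smul_eq_mul,
        Module.Basis.repr_self, Fin.zero_eta]
      simp
      linear_combination b.repr v 0 * hu' + u' * b1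
    · simp only [map_smul, _root_.map_add, Finsupp.smul_apply, Finsupp.add_apply, smul_eq_mul,
        Module.Basis.repr_self, Fin.mk_one]
      simp
      linear_combination b.repr v 1 * hu + u * a0
  have h6 : ((p : ℤ_[p]) ^ m • v).1 n = p ^ m • P := by
    rw [e, TateMod.natCast_smul, ← hv]
  rw [← h6, h5]
  exact pow_smul_level n _

/-- the commutators of diagonal and unipotent elements -/
lemma comm_upper (b : Module.Basis (Fin 2) ℤ_[p] (TT (WQ W) p)) {σ τ : GQ} {c d : ℤ_[p]}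
    (hσ : matB b σ = 1 + c • !![1, 0; 0, 0]) (hτ : matB b τ = 1 + d • !![0, 1; 0, 0]) :
    matB b (σ * τ * σ⁻¹ * τ⁻¹) = 1 + (c * d) • !![0, 1; 0, 0] := by
  apply matB_commutator
  rw [hσ, hτ]
  ext r s
  fin_cases r <;> fin_cases s <;> (simp [Matrix.mul_apply, Fin.sum_univ_two]; try ring)

lemma comm_lower (b : Module.Basis (Fin 2) ℤ_[p] (TT (WQ W) p)) {σ τ : GQ} {c d : ℤ_[p]}
    (hσ : matB b σ = 1 + c • !![0, 0; 0, 1]) (hτ : matB b τ = 1 + d • !![0, 0; 1, 0]) :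
    matB b (σ * τ * σ⁻¹ * τ⁻¹) = 1 + (c * d) • !![0, 0; 1, 0] := by
  apply matB_commutator
  rw [hσ, hτ]
  ext r s
  fin_cases r <;> fin_cases s <;> (simp [Matrix.mul_apply, Fin.sum_univ_two]; try ring)

/-- the bound at one prime -/
theorem HasOpenImage.exists_bound_abK [(WQ W).IsElliptic] (h : HasOpenImage W p)
    (G : Subgroup GQ) [G.FiniteIndex] :
    ∃ k : ℕ, ∀ P : Pts (WQ W), (∃ n : ℕ, p ^ n • P = 0) →
      (∀ σ ∈ G, ∀ τ ∈ G, (σ * τ * σ⁻¹ * τ⁻¹) • P = P) → p ^ k • P = 0 := by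
  set b := tateBasis (WQ W) p
  obtain ⟨σ, hσG, c, hc, hσ⟩ := h.exists_mem b G (N := !![0, 1; 0, 0]) (by
    ext r s; fin_cases r <;> fin_cases s <;> simp [Matrix.mul_apply, Fin.sum_univ_two])
  obtain ⟨τ, hτG, d, hd, hτ⟩ := h.exists_mem b G (N := !![0, 0; 1, 0]) (by
    ext r s; fin_cases r <;> fin_cases s <;> simp [Matrix.mul_apply, Fin.sum_univ_two])
  obtain ⟨σ', hσG', c', hc', hσ'⟩ := h.exists_mem_diag b G (E := !![1, 0; 0, 0]) (by
    ext r s; fin_cases r <;> fin_cases s <;> simp [Matrix.mul_apply, Fin.sum_univ_two])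
  obtain ⟨τ', hτG', d', hd', hτ'⟩ := h.exists_mem_diag b G (E := !![0, 0; 0, 1]) (by
    ext r s; fin_cases r <;> fin_cases s <;> simp [Matrix.mul_apply, Fin.sum_univ_two])
  obtain ⟨k, hk⟩ := exists_dvd_pow' (mul_ne_zero hc' hc)
  obtain ⟨l, hl⟩ := exists_dvd_pow' (mul_ne_zero hd' hd)
  exact ⟨k + l, fun P hP hfix => pow_smul_eq_zero_of_comm b
    (hk.trans (pow_dvd_pow _ (Nat.le_add_right k l)))
    (hl.trans (pow_dvd_pow _ (Nat.le_add_left l k))) (comm_upper b hσ' hσ) (comm_lower b hτ' hτ)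
    hP (hfix _ hσG' _ hσG) (hfix _ hτG' _ hτG)⟩

/-- natural numbers less than `p` are units of `ℤ_p` -/
lemma isUnit_natCast_of_lt {n : ℕ} (hn : 0 < n) (hnp : n < p) : IsUnit (n : ℤ_[p]) := by
  apply padic_isUnit_of_not_dvd
  intro hd
  have h3 : (p : ℤ) ∣ (n : ℤ) := by
    obtain ⟨x, hx⟩ := hd
    rw [← PadicInt.norm_int_lt_one_iff_dvd (p := p), Int.cast_natCast, hx, norm_mul,
      PadicInt.norm_p]
    calc (p : ℝ)⁻¹ * ‖x‖ ≤ (p : ℝ)⁻¹ * 1 := by
          gcongr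
          exact PadicInt.norm_le_one x
      _ < 1 := by
          rw [mul_one]
          exact inv_lt_one_of_one_lt₀ (by exact_mod_cast hp.out.one_lt)
  have h4 := Nat.le_of_dvd hn (Int.natCast_dvd_natCast.mp h3)
  omega

/-- the torsion at the large primes -/
theorem no_torsion_abK_large (hΔ : W.Δ ≠ 0) (hss : W.IsSemistableModel) (G : Subgroup GQ)
    [G.FiniteIndex] (hp14 : 2 ^ G.index + 14 ≤ p) (P : Pts (WQ W)) (hP : ∃ n : ℕ, p ^ n • P = 0)
    (hfix : ∀ σ ∈ G, ∀ τ ∈ G, (σ * τ * σ⁻¹ * τ⁻¹) • P = P) : p ^ 0 • P = 0 := by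
  haveI := isElliptic_WQ hΔ
  set b := tateBasis (WQ W) p
  have h14 : 14 ≤ p := le_trans (Nat.le_add_left _ _) hp14
  have hex : ∀ B : Matrix (Fin 2) (Fin 2) ℤ_[p], IsUnit (1 + B).det →
      ∃ σ : GQ, matB b σ = 1 + B := by
    intro B hB
    obtain ⟨σ, hσ⟩ := Surj.adic_uniform W hΔ hss (p := p) (le_trans (by norm_num) h14)
      (by clear hp14; omega)
      (LinearEquiv.ofIsUnitDet (f := (mtx b).symm (1 + B)) (v := b) (v' := b) (by
          have h1 : LinearMap.toMatrix b b ((mtx b).symm (1 + B)) = 1 + B :=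
            (mtx b).apply_symm_apply _
          rw [h1]
          exact hB))
    have h1 : rr (WQ W) p σ = (mtx b).symm (1 + B) := LinearMap.ext fun v => hσ v
    exact ⟨σ, by rw [matB_apply, h1, AlgEquiv.apply_symm_apply]⟩
  have hlt : G.index < 2 ^ G.index := Nat.lt_two_pow_self
  have hU : ∀ B : Matrix (Fin 2) (Fin 2) ℤ_[p], B * B = 0 → IsUnit (1 + B).det →
      ∃ σ ∈ G, ∃ c : ℤ_[p], IsUnit c ∧ matB b σ = 1 + c • B := by
    intro B hBB hB
    obtain ⟨σ, h2⟩ := hex B hB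
    obtain ⟨n, hn, hn', hnG⟩ := Subgroup.exists_pow_mem_of_index_ne_zero (H := G)
      Subgroup.FiniteIndex.index_ne_zero σ
    refine ⟨σ ^ n, hnG, (n : ℤ_[p]), isUnit_natCast_of_lt hn (by omega), ?_⟩
    rw [map_pow, h2, one_add_pow_of_sq hBB, Nat.cast_smul_eq_nsmul, nsmul_eq_mul]
  have hD : ∀ E : Matrix (Fin 2) (Fin 2) ℤ_[p], E * E = E → IsUnit (1 + E).det →
      ∃ σ ∈ G, ∃ c : ℤ_[p], IsUnit c ∧ matB b σ = 1 + c • E := by
    intro E hEE hE
    obtain ⟨σ, h2⟩ := hex E hE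
    obtain ⟨n, hn, hn', hnG⟩ := Subgroup.exists_pow_mem_of_index_ne_zero (H := G)
      Subgroup.FiniteIndex.index_ne_zero σ
    have key : ∀ k : ℕ, matB b (σ ^ k) = 1 + ((2 : ℤ_[p]) ^ k - 1) • E := by
      intro k
      induction k with
      | zero => simp
      | succ k ih =>
        rw [pow_succ, map_mul, ih, h2, add_mul, one_mul, smul_mul_assoc, mul_add, mul_one,
          hEE, add_assoc]
        congr 1
        rw [← two_smul ℤ_[p] E, smul_smul]
        nth_rewrite 1 [← one_smul ℤ_[p] E]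
        rw [← add_smul]
        congr 1
        ring
    refine ⟨σ ^ n, hnG, _, ?_, key n⟩
    have h3 : (2 : ℤ_[p]) ^ n - 1 = ((2 ^ n - 1 : ℕ) : ℤ_[p]) := by
      rw [Nat.cast_sub Nat.one_le_two_pow]; push_cast; rfl
    rw [h3]
    have h4 : 1 < 2 ^ n := Nat.one_lt_two_pow hn.ne'
    have h5 : 2 ^ n ≤ 2 ^ G.index := Nat.pow_le_pow_right (by norm_num) hn'
    exact isUnit_natCast_of_lt (by omega) (by omega)
  have h2u : IsUnit (2 : ℤ_[p]) := by
    have := isUnit_natCast_of_lt (p := p) (n := 2) (by norm_num) (by omega)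
    exact_mod_cast this
  obtain ⟨σ, hσG, c, hc, hσ⟩ := hU !![0, 1; 0, 0] (by
    ext r s; fin_cases r <;> fin_cases s <;> simp [Matrix.mul_apply, Fin.sum_univ_two])
    (by simp [Matrix.det_fin_two])
  obtain ⟨τ, hτG, d, hd, hτ⟩ := hU !![0, 0; 1, 0] (by
    ext r s; fin_cases r <;> fin_cases s <;> simp [Matrix.mul_apply, Fin.sum_univ_two])
    (by simp [Matrix.det_fin_two])
  obtain ⟨σ', hσG', c', hc', hσ'⟩ := hD !![1, 0; 0, 0] (by
    ext r s; fin_cases r <;> fin_cases s <;> simp [Matrix.mul_apply, Fin.sum_univ_two])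
    (by simp [Matrix.det_fin_two, one_add_one_eq_two, h2u])
  obtain ⟨τ', hτG', d', hd', hτ'⟩ := hD !![0, 0; 0, 1] (by
    ext r s; fin_cases r <;> fin_cases s <;> simp [Matrix.mul_apply, Fin.sum_univ_two])
    (by simp [Matrix.det_fin_two, one_add_one_eq_two, h2u])
  exact pow_smul_eq_zero_of_comm b (hc'.mul hc).dvd (hd'.mul hd).dvd (comm_upper b hσ' hσ)
    (comm_lower b hτ' hτ) hP (hfix _ hσG' _ hσG) (hfix _ hτG' _ hτG)

/-- **The torsion over the maximal abelian extension of a number field is bounded** (Ribet, for a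
semistable elliptic curve over `ℚ`). -/
theorem exists_bound_torsion_abK (hΔ : W.Δ ≠ 0) (hss : W.IsSemistableModel) (G : Subgroup GQ)
    [G.FiniteIndex] : ∃ N : ℕ, N ≠ 0 ∧ ∀ P : Pts (WQ W), IsOfFinAddOrder P →
      (∀ σ ∈ G, ∀ τ ∈ G, (σ * τ * σ⁻¹ * τ⁻¹) • P = P) → N • P = 0 := by
  haveI := isElliptic_WQ hΔ
  have H : ∀ ℓ : ℕ, ∃ k : ℕ, ℓ.Prime → (∀ P : Pts (WQ W), (∃ n : ℕ, ℓ ^ n • P = 0) →
      (∀ σ ∈ G, ∀ τ ∈ G, (σ * τ * σ⁻¹ * τ⁻¹) • P = P) → ℓ ^ k • P = 0) ∧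
      (2 ^ G.index + 14 ≤ ℓ → k = 0) := by
    intro ℓ
    by_cases hℓ : ℓ.Prime
    · haveI : Fact ℓ.Prime := ⟨hℓ⟩
      by_cases h : 2 ^ G.index + 14 ≤ ℓ
      · exact ⟨0, fun _ => ⟨fun P hP hfix => no_torsion_abK_large hΔ hss G h P hP hfix,
          fun _ => rfl⟩⟩
      · obtain ⟨k, hk⟩ := (open_image_all (p := ℓ) hΔ hss).exists_bound_abK G
        exact ⟨k, fun _ => ⟨hk, fun h1 => absurd h1 h⟩⟩
    · exact ⟨0, fun h => absurd h hℓ⟩
  choose k hk using H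
  refine ⟨∏ ℓ ∈ (Finset.range (2 ^ G.index + 14)).filter Nat.Prime, ℓ ^ k ℓ, ?_,
    fun P hP hfix => ?_⟩
  · rw [Finset.prod_ne_zero_iff]
    intro ℓ hℓ
    exact pow_ne_zero _ (Finset.mem_filter.mp hℓ).2.ne_zero
  · have hM0 : addOrderOf P ≠ 0 := (addOrderOf_pos_iff.mpr hP).ne'
    rw [← addOrderOf_dvd_iff_nsmul_eq_zero, Nat.dvd_iff_prime_pow_dvd_dvd]
    intro ℓ a hℓ ⟨c, hc⟩
    have hc0 : c ≠ 0 := by rintro rfl; rw [mul_zero] at hc; exact hM0 hc
    have h1 : ℓ ^ k ℓ • (c • P) = 0 := by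
      refine (hk ℓ hℓ).1 _ ⟨a, ?_⟩ (fun σ hσ τ hτ => ?_)
      · rw [← mul_smul, ← hc, addOrderOf_nsmul_eq_zero]
      · have h2 : (σ * τ * σ⁻¹ * τ⁻¹) • (c • P) = c • ((σ * τ * σ⁻¹ * τ⁻¹) • P) :=
          map_nsmul (DistribSMul.toAddMonoidHom (Pts (WQ W)) (σ * τ * σ⁻¹ * τ⁻¹)) c P
        rw [h2, hfix σ hσ τ hτ]
    rw [← mul_smul, ← addOrderOf_dvd_iff_nsmul_eq_zero, hc] at h1
    have h3 : ℓ ^ a ∣ ℓ ^ k ℓ := Nat.dvd_of_mul_dvd_mul_right (Nat.pos_of_ne_zero hc0) h1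
    by_cases h4 : 2 ^ G.index + 14 ≤ ℓ
    · rw [(hk ℓ hℓ).2 h4, pow_zero] at h3
      exact h3.trans (one_dvd _)
    · exact h3.trans (Finset.dvd_prod_of_mem (fun ℓ => ℓ ^ k ℓ)
        (Finset.mem_filter.mpr ⟨Finset.mem_range.mpr (by omega), hℓ⟩))

end Fermat.Agent.Cor.LG
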