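import Mathlib
import Fermat.Agent.Cor.LGAb

/-!
# Finiteness of the rational cyclic subgroups of a semistable elliptic curve over `ℚ`

This file is not used by any of the statement files.
-/

set_option autoImplicit false
set_option linter.unusedSectionVars false
set_option linter.style.haveILetI false

noncomputable section

namespace Fermat.Agent.Cor.LG

open WeierstrassCurve WeierstrassCurve.Affine WeierstrassCurve.Affine.Point
open Fermat.Agent.H08 Fermat.Agent.H09 Fermat.Agent.Ell Fermat.Agent.EGal Fermat.Agent.LM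
open Matrix

variable {p : ℕ} [hp : Fact p.Prime] {W : WeierstrassCurve ℤ}

lemma zsmul_nsmul_comm' {G : Type*} [AddCommGroup G] (j : ℤ) (c : ℕ) (P : G) :
    j • (c • P) = c • (j • P) := by
  rw [← natCast_zsmul, ← natCast_zsmul, smul_comm]

lemma rr_sub_eq (b : Module.Basis (Fin 2) ℤ_[p] (TT (WQ W) p)) {σ : GQ}
    {N : Matrix (Fin 2) (Fin 2) ℤ_[p]} {c : ℤ_[p]} (hσ : matB b σ = 1 + c • N)
    (v : TT (WQ W) p) (i : Fin 2) :
    b.repr (rr (WQ W) p σ v) i = b.repr v i + c * (N i 0 * b.repr v 0 + N i 1 * b.repr v 1) := by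
  have h1 := LinearMap.toMatrix_mulVec_repr b b (rr (WQ W) p σ) v
  have h2 : LinearMap.toMatrix b b (rr (WQ W) p σ) = 1 + c • N := hσ
  rw [h2] at h1
  have h3 := congrFun h1 i
  rw [← h3, Matrix.add_mulVec, Matrix.one_mulVec, Matrix.smul_mulVec, Pi.add_apply, Pi.smul_apply,
    smul_eq_mul]
  simp only [Matrix.mulVec, dotProduct, Fin.sum_univ_two]

/-- a rational cyclic subgroup of order `p ^ n`: `n ≤ m` -/
theorem pow_smul_eq_zero_of_stable [(WQ W).IsElliptic]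
    (b : Module.Basis (Fin 2) ℤ_[p] (TT (WQ W) p)) {m : ℕ} {σ τ : GQ}
    (hσ : matB b σ = 1 + (p : ℤ_[p]) ^ m • !![0, 1; 0, 0])
    (hτ : matB b τ = 1 + (p : ℤ_[p]) ^ m • !![0, 0; 1, 0]) {P : Pts (WQ W)}
    (hP : ∃ n : ℕ, p ^ n • P = 0)
    (hst : ∀ g : GQ, g • P ∈ AddSubgroup.zmultiples P) : p ^ m • P = 0 := by
  classical
  have hn := Nat.find_spec hP
  have hmin := fun k => Nat.find_min hP (m := k)
  set n := Nat.find hP with hn'
  clear_value n
  by_cases hnm : n ≤ m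
  · obtain ⟨k, rfl⟩ := Nat.exists_eq_add_of_le hnm
    rw [pow_add, mul_comm, mul_smul, hn]
    exact nsmul_zero _
  exfalso
  push Not at hnm
  obtain ⟨v, hv⟩ := TateMod.exists_lift (pts_div (WQ W) p) (n := n) (x := P) hn
  have key : ∀ g : GQ, ∃ (j : ℤ_[p]) (w : TT (WQ W) p), ∀ i,
      b.repr (rr (WQ W) p g v) i - j * b.repr v i = (p : ℤ_[p]) ^ n * b.repr w i := by
    intro g
    obtain ⟨j, hj⟩ := AddSubgroup.mem_zmultiples_iff.mp (hst g)
    have h1 : (rr (WQ W) p g v - (j : ℤ_[p]) • v).1 n = 0 := by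
      change g • v.1 n - ((j : ℤ_[p]) • v).1 n = 0
      rw [TateMod.intCast_smul, hv, hj, sub_self]
    obtain ⟨w, hw⟩ := TateMod.exists_eq_pow_smul h1
    refine ⟨j, w, fun i => ?_⟩
    have h2 := congrArg (fun v => b.repr v i) hw
    simp only [map_smul, _root_.map_sub, Finsupp.smul_apply, Finsupp.sub_apply, smul_eq_mul] at h2
    exact h2.symm
  -- `v` is primitive
  have hprim : ¬ ((p : ℤ_[p]) ∣ b.repr v 0 ∧ (p : ℤ_[p]) ∣ b.repr v 1) := by
    rintro ⟨⟨x, hx⟩, ⟨y, hy⟩⟩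
    apply hmin (n - 1) (by omega)
    have h1 : v = (p : ℤ_[p]) • (x • b 0 + y • b 1) := by
      apply b.repr.injective
      ext i
      fin_cases i
      · simp [hx]
      · simp [hy]
    have e1 : ((p : ℤ_[p]) • (x • b 0 + y • b 1)) = ((p : ℕ) : ℤ_[p]) • (x • b 0 + y • b 1) := rfl
    rw [← hv, h1, e1, TateMod.natCast_smul, ← mul_smul, ← pow_succ,
      Nat.sub_add_cancel (by omega)]
    exact TateMod.tors _ n
  obtain ⟨j, w, hw⟩ := key σ
  obtain ⟨j', w', hw'⟩ := key τ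
  have a0 := hw 0
  have a1 := hw 1
  have b0 := hw' 0
  have b1 := hw' 1
  rw [rr_sub_eq b hσ] at a0 a1
  rw [rr_sub_eq b hτ] at b0 b1
  simp only [Matrix.of_apply, Matrix.cons_val', Matrix.cons_val_zero, Matrix.cons_val_one,
    Matrix.cons_val_fin_one, Fin.isValue] at a0 a1 b0 b1
  set x := b.repr v 0
  set y := b.repr v 1
  have k1 : (p : ℤ_[p]) ^ n ∣ (p : ℤ_[p]) ^ m * y ^ 2 :=
    ⟨y * b.repr w 0 - x * b.repr w 1, by linear_combination y * a0 - x * a1⟩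
  have k2 : (p : ℤ_[p]) ^ n ∣ (p : ℤ_[p]) ^ m * x ^ 2 :=
    ⟨x * b.repr w' 1 - y * b.repr w' 0, by linear_combination x * b1 - y * b0⟩
  have hp0 : (p : ℤ_[p]) ≠ 0 := Nat.cast_ne_zero.mpr hp.out.ne_zero
  have hcan : ∀ z : ℤ_[p], (p : ℤ_[p]) ^ n ∣ (p : ℤ_[p]) ^ m * z ^ 2 → (p : ℤ_[p]) ∣ z := by
    intro z hz
    have h1 : (p : ℤ_[p]) ^ (m + 1) ∣ (p : ℤ_[p]) ^ m * z ^ 2 := (pow_dvd_pow _ hnm).trans hz
    rw [pow_succ] at h1
    exact PadicInt.prime_p.dvd_of_dvd_pow ((mul_dvd_mul_iff_left (pow_ne_zero m hp0)).mp h1)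
  exact hprim ⟨hcan x k2, hcan y k1⟩

/-- **Rational cyclic subgroups**: there is `N ≠ 0` which kills all the points of finite order
which generate a Galois stable subgroup. -/
theorem exists_bound_cyclic (hΔ : W.Δ ≠ 0) (hss : W.IsSemistableModel) :
    ∃ N : ℕ, N ≠ 0 ∧ ∀ P : Pts (WQ W), IsOfFinAddOrder P →
      (∀ g : GQ, g • P ∈ AddSubgroup.zmultiples P) → N • P = 0 := by
  haveI := isElliptic_WQ hΔ
  have H : ∀ ℓ : ℕ, ∃ k : ℕ, ℓ.Prime → (∀ P : Pts (WQ W), (∃ n : ℕ, ℓ ^ n • P = 0) →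
      (∀ g : GQ, g • P ∈ AddSubgroup.zmultiples P) → ℓ ^ k • P = 0) ∧
      (11 ≤ ℓ → ℓ ≠ 13 → k = 0) := by
    intro ℓ
    by_cases hℓ : ℓ.Prime
    · haveI : Fact ℓ.Prime := ⟨hℓ⟩
      set b := tateBasis (WQ W) ℓ
      by_cases h : 11 ≤ ℓ ∧ ℓ ≠ 13
      · have hex : ∀ B : Matrix (Fin 2) (Fin 2) ℤ_[ℓ], IsUnit (1 + (ℓ : ℤ_[ℓ]) ^ 0 • B).det →
            ∃ σ : GQ, matB b σ = 1 + (ℓ : ℤ_[ℓ]) ^ 0 • B := by
          intro B hB
          obtain ⟨σ, hσ⟩ := Surj.adic_uniform W hΔ hss h.1 h.2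
            (LinearEquiv.ofIsUnitDet (f := (mtx b).symm (1 + (ℓ : ℤ_[ℓ]) ^ 0 • B)) (v := b)
              (v' := b) (by
                have h1 : LinearMap.toMatrix b b ((mtx b).symm (1 + (ℓ : ℤ_[ℓ]) ^ 0 • B)) =
                  1 + (ℓ : ℤ_[ℓ]) ^ 0 • B := (mtx b).apply_symm_apply _
                rw [h1]
                exact hB))
          refine ⟨σ, ?_⟩
          have h1 : rr (WQ W) ℓ σ = (mtx b).symm (1 + (ℓ : ℤ_[ℓ]) ^ 0 • B) :=
            LinearMap.ext fun v => hσ v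
          rw [matB_apply, h1, AlgEquiv.apply_symm_apply]
        obtain ⟨σ, hσ⟩ := hex !![0, 1; 0, 0] (by simp [Matrix.det_fin_two])
        obtain ⟨τ, hτ⟩ := hex !![0, 0; 1, 0] (by simp [Matrix.det_fin_two])
        exact ⟨0, fun _ => ⟨fun P hP hst => pow_smul_eq_zero_of_stable b hσ hτ hP hst,
          fun _ _ => rfl⟩⟩
      · obtain ⟨m, hm⟩ := open_image_all (p := ℓ) hΔ hss
        obtain ⟨σ, hσ⟩ := HasOpenImage.exists_matB b hm !![0, 1; 0, 0]
        obtain ⟨τ, hτ⟩ := HasOpenImage.exists_matB b hm !![0, 0; 1, 0]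
        exact ⟨m, fun _ => ⟨fun P hP hst => pow_smul_eq_zero_of_stable b hσ hτ hP hst,
          fun h1 h2 => absurd ⟨h1, h2⟩ h⟩⟩
    · exact ⟨0, fun h => absurd h hℓ⟩
  choose k hk using H
  refine ⟨∏ ℓ ∈ ({2, 3, 5, 7, 13} : Finset ℕ), ℓ ^ k ℓ, ?_, fun P hP hst => ?_⟩
  · rw [Finset.prod_ne_zero_iff]
    intro ℓ hℓ
    apply pow_ne_zero
    rintro rfl
    simp at hℓ
  · have hM0 : addOrderOf P ≠ 0 := (addOrderOf_pos_iff.mpr hP).ne'
    rw [← addOrderOf_dvd_iff_nsmul_eq_zero, Nat.dvd_iff_prime_pow_dvd_dvd]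
    intro ℓ a hℓ ⟨c, hc⟩
    have hc0 : c ≠ 0 := by rintro rfl; rw [mul_zero] at hc; exact hM0 hc
    have h1 : ℓ ^ k ℓ • (c • P) = 0 := by
      refine (hk ℓ hℓ).1 _ ⟨a, ?_⟩ (fun g => ?_)
      · rw [← mul_smul, ← hc, addOrderOf_nsmul_eq_zero]
      · have h2 : g • (c • P) = c • (g • P) :=
          map_nsmul (DistribSMul.toAddMonoidHom (Pts (WQ W)) g) c P
        obtain ⟨j, hj⟩ := AddSubgroup.mem_zmultiples_iff.mp (hst g)
        rw [h2, ← hj, AddSubgroup.mem_zmultiples_iff]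
        exact ⟨j, zsmul_nsmul_comm' j c P⟩
    rw [← mul_smul, ← addOrderOf_dvd_iff_nsmul_eq_zero, hc] at h1
    have h3 : ℓ ^ a ∣ ℓ ^ k ℓ := Nat.dvd_of_mul_dvd_mul_right (Nat.pos_of_ne_zero hc0) h1
    by_cases h4 : 11 ≤ ℓ ∧ ℓ ≠ 13
    · rw [(hk ℓ hℓ).2 h4.1 h4.2, pow_zero] at h3
      exact h3.trans (one_dvd _)
    · refine h3.trans (Finset.dvd_prod_of_mem (fun ℓ => ℓ ^ k ℓ) ?_)
      by_cases h5 : ℓ = 13
      · rw [h5]; decide
      · have h6 : ℓ < 11 := by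
          by_contra h7
          exact h4 ⟨by omega, h5⟩
        clear h4 h3 h1 hc
        interval_cases ℓ
        all_goals first
          | decide
          | exact absurd hℓ (by norm_num)

/-- **A semistable elliptic curve over `ℚ` has only finitely many rational cyclic subgroups**
(finite cyclic subgroups of `W(ℚ̄)` stable under Galois): the isogeny class of `W` over `ℚ` is
finite. -/
theorem finite_cyclic_subgroups (hΔ : W.Δ ≠ 0) (hss : W.IsSemistableModel) :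
    {C : AddSubgroup (Pts (WQ W)) | ∃ P, IsOfFinAddOrder P ∧ C = AddSubgroup.zmultiples P ∧
      ∀ g : GQ, ∀ Q ∈ C, g • Q ∈ C}.Finite := by
  haveI := isElliptic_WQ hΔ
  obtain ⟨N, hN, h⟩ := exists_bound_cyclic hΔ hss
  have hfin : Finite (Submodule.torsionBy ℤ (Pts (WQ W)) (N : ℤ)) :=
    Fermat.Agent.Frob.finite_torsionBy (K := Qb) (WQ W) hN
  have h2 : ({Q : Pts (WQ W) | N • Q = 0}).Finite := by
    refine Set.Finite.subset
      (Set.toFinite (Submodule.torsionBy ℤ (Pts (WQ W)) (N : ℤ) : Set (Pts (WQ W)))) ?_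
    intro Q hQ
    rw [SetLike.mem_coe, Submodule.mem_torsionBy_iff, natCast_zsmul]
    exact hQ
  refine (h2.image AddSubgroup.zmultiples).subset ?_
  rintro C ⟨P, hP, rfl, hst⟩
  exact ⟨P, h P hP fun g => hst g P (AddSubgroup.mem_zmultiples P), rfl⟩

end Fermat.Agent.Cor.LG
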