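import Mathlib
import Fermat.Agent.Cor.LGIsog
import Fermat.Agent.Cor.LGComm

/-!
# Finiteness of the cyclic subgroups of a semistable elliptic curve defined over a number field

`Fermat.Agent.Cor.LG.finite_cyclic_subgroups_of_finiteIndex`: for every subgroup `H` of finite index
of the Galois group of `ℚ`, a semistable elliptic curve over `ℚ` has only finitely many finite cyclic
subgroups stable under `H`: its isogeny class over every number field is finite.

This file is not used by any of the statement files.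
-/

set_option autoImplicit false
set_option linter.unusedSectionVars false
set_option linter.style.haveILetI false

noncomputable section

namespace Fermat.Agent.Cor.LG

open WeierstrassCurve WeierstrassCurve.Affine WeierstrassCurve.Affine.Point
open Fermat.Agent.H08 Fermat.Agent.H09 Fermat.Agent.Ell Fermat.Agent.EGal Fermat.Agent.LM
open Matrix

variable {p : ℕ} [hp : Fact p.Prime] {W : WeierstrassCurve ℤ}

lemma exists_dvd_pow {c : ℤ_[p]} (hc : c ≠ 0) : ∃ k : ℕ, c ∣ (p : ℤ_[p]) ^ k := by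
  have h1 := PadicInt.unitCoeff_spec hc
  refine ⟨c.valuation, ?_⟩
  set u := PadicInt.unitCoeff hc with hu
  clear_value u
  generalize c.valuation = n at h1 ⊢
  exact ⟨((u⁻¹ : ℤ_[p]ˣ) : ℤ_[p]), by
    rw [h1, mul_comm (u : ℤ_[p]), mul_assoc, Units.mul_inv, mul_one]⟩

/-- a cyclic subgroup of order `p ^ n` stable under `H`: `n ≤ m` -/
theorem pow_smul_eq_zero_of_stable' [(WQ W).IsElliptic]
    (b : Module.Basis (Fin 2) ℤ_[p] (TT (WQ W) p)) {m : ℕ} {H : Subgroup GQ} {σ τ : GQ}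
    (hσH : σ ∈ H) (hτH : τ ∈ H) {c d : ℤ_[p]} (hc : c ∣ (p : ℤ_[p]) ^ m)
    (hd : d ∣ (p : ℤ_[p]) ^ m) (hσ : matB b σ = 1 + c • !![0, 1; 0, 0])
    (hτ : matB b τ = 1 + d • !![0, 0; 1, 0]) {P : Pts (WQ W)}
    (hP : ∃ n : ℕ, p ^ n • P = 0)
    (hst : ∀ g ∈ H, g • P ∈ AddSubgroup.zmultiples P) : p ^ m • P = 0 := by
  classical
  have hn := Nat.find_spec hP
  have hmin := fun k => Nat.find_min hP (m := k)
  set n := Nat.find hP with hn'
  clear_value n
  by_cases hnm : n ≤ m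
  · obtain ⟨k, rfl⟩ := Nat.exists_eq_add_of_le hnm
    rw [pow_add, mul_comm, mul_smul, hn]
    exact nsmul_zero _
  exfalso
  push Not at hnm
  obtain ⟨v, hv⟩ := TateMod.exists_lift (pts_div (WQ W) p) (n := n) (x := P) hn
  have key : ∀ g ∈ H, ∃ (j : ℤ_[p]) (w : TT (WQ W) p), ∀ i,
      b.repr (rr (WQ W) p g v) i - j * b.repr v i = (p : ℤ_[p]) ^ n * b.repr w i := by
    intro g hg
    obtain ⟨j, hj⟩ := AddSubgroup.mem_zmultiples_iff.mp (hst g hg)
    have h1 : (rr (WQ W) p g v - (j : ℤ_[p]) • v).1 n = 0 := by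
      change g • v.1 n - ((j : ℤ_[p]) • v).1 n = 0
      rw [TateMod.intCast_smul, hv, hj, sub_self]
    obtain ⟨w, hw⟩ := TateMod.exists_eq_pow_smul h1
    refine ⟨j, w, fun i => ?_⟩
    have h2 := congrArg (fun v => b.repr v i) hw
    simp only [map_smul, _root_.map_sub, Finsupp.smul_apply, Finsupp.sub_apply, smul_eq_mul] at h2
    exact h2.symm
  -- `v` is primitive
  have hprim : ¬ ((p : ℤ_[p]) ∣ b.repr v 0 ∧ (p : ℤ_[p]) ∣ b.repr v 1) := by
    rintro ⟨⟨x, hx⟩, ⟨y, hy⟩⟩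
    apply hmin (n - 1) (by omega)
    have h1 : v = (p : ℤ_[p]) • (x • b 0 + y • b 1) := by
      apply b.repr.injective
      ext i
      fin_cases i
      · simp [hx]
      · simp [hy]
    have e1 : ((p : ℤ_[p]) • (x • b 0 + y • b 1)) = ((p : ℕ) : ℤ_[p]) • (x • b 0 + y • b 1) := rfl
    rw [← hv, h1, e1, TateMod.natCast_smul, ← mul_smul, ← pow_succ,
      Nat.sub_add_cancel (by omega)]
    exact TateMod.tors _ n
  obtain ⟨j, w, hw⟩ := key σ hσH
  obtain ⟨j', w', hw'⟩ := key τ hτH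
  have a0 := hw 0
  have a1 := hw 1
  have b0 := hw' 0
  have b1 := hw' 1
  rw [rr_sub_eq b hσ] at a0 a1
  rw [rr_sub_eq b hτ] at b0 b1
  simp only [Matrix.of_apply, Matrix.cons_val', Matrix.cons_val_zero, Matrix.cons_val_one,
    Matrix.cons_val_fin_one, Fin.isValue] at a0 a1 b0 b1
  set x := b.repr v 0
  set y := b.repr v 1
  obtain ⟨u, hu⟩ := hc
  obtain ⟨u', hu'⟩ := hd
  have k1 : (p : ℤ_[p]) ^ n ∣ (p : ℤ_[p]) ^ m * y ^ 2 :=
    ⟨u * (y * b.repr w 0 - x * b.repr w 1), by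
      linear_combination u * y * a0 - u * x * a1 + y ^ 2 * hu⟩
  have k2 : (p : ℤ_[p]) ^ n ∣ (p : ℤ_[p]) ^ m * x ^ 2 :=
    ⟨u' * (x * b.repr w' 1 - y * b.repr w' 0), by
      linear_combination u' * x * b1 - u' * y * b0 + x ^ 2 * hu'⟩
  have hp0 : (p : ℤ_[p]) ≠ 0 := Nat.cast_ne_zero.mpr hp.out.ne_zero
  have hcan : ∀ z : ℤ_[p], (p : ℤ_[p]) ^ n ∣ (p : ℤ_[p]) ^ m * z ^ 2 → (p : ℤ_[p]) ∣ z := by
    intro z hz
    have h1 : (p : ℤ_[p]) ^ (m + 1) ∣ (p : ℤ_[p]) ^ m * z ^ 2 := (pow_dvd_pow _ hnm).trans hz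
    rw [pow_succ] at h1
    exact PadicInt.prime_p.dvd_of_dvd_pow ((mul_dvd_mul_iff_left (pow_ne_zero m hp0)).mp h1)
  exact hprim ⟨hcan x k2, hcan y k1⟩

/-- **Cyclic subgroups stable under `H`**: there is `N ≠ 0` which kills all the points of finite
order which generate a subgroup stable under `H`. -/
theorem exists_bound_cyclic_of_finiteIndex (hΔ : W.Δ ≠ 0) (hss : W.IsSemistableModel)
    (G : Subgroup GQ) [G.FiniteIndex] :
    ∃ N : ℕ, N ≠ 0 ∧ ∀ P : Pts (WQ W), IsOfFinAddOrder P →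
      (∀ g ∈ G, g • P ∈ AddSubgroup.zmultiples P) → N • P = 0 := by
  haveI := isElliptic_WQ hΔ
  have H : ∀ ℓ : ℕ, ∃ k : ℕ, ℓ.Prime → (∀ P : Pts (WQ W), (∃ n : ℕ, ℓ ^ n • P = 0) →
      (∀ g ∈ G, g • P ∈ AddSubgroup.zmultiples P) → ℓ ^ k • P = 0) ∧
      (G.index + 14 ≤ ℓ → k = 0) := by
    intro ℓ
    by_cases hℓ : ℓ.Prime
    · haveI : Fact ℓ.Prime := ⟨hℓ⟩
      set b := tateBasis (WQ W) ℓ
      by_cases h : G.index + 14 ≤ ℓ
      · have hex : ∀ B : Matrix (Fin 2) (Fin 2) ℤ_[ℓ], B * B = 0 → IsUnit (1 + B).det →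
            ∃ σ ∈ G, ∃ c : ℤ_[ℓ], c ∣ (ℓ : ℤ_[ℓ]) ^ 0 ∧ matB b σ = 1 + c • B := by
          intro B hBB hB
          obtain ⟨σ, hσ⟩ := Surj.adic_uniform W hΔ hss (p := ℓ) (by omega) (by omega)
            (LinearEquiv.ofIsUnitDet (f := (mtx b).symm (1 + B)) (v := b) (v' := b) (by
                have h1 : LinearMap.toMatrix b b ((mtx b).symm (1 + B)) = 1 + B :=
                  (mtx b).apply_symm_apply _
                rw [h1]
                exact hB))
          have h1 : rr (WQ W) ℓ σ = (mtx b).symm (1 + B) := LinearMap.ext fun v => hσ v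
          have h2 : matB b σ = 1 + B := by rw [matB_apply, h1, AlgEquiv.apply_symm_apply]
          obtain ⟨n, hn, hn', hnG⟩ := Subgroup.exists_pow_mem_of_index_ne_zero (H := G)
            Subgroup.FiniteIndex.index_ne_zero σ
          refine ⟨σ ^ n, hnG, (n : ℤ_[ℓ]), ?_, ?_⟩
          · rw [pow_zero]
            apply IsUnit.dvd
            apply padic_isUnit_of_not_dvd
            intro hd
            have h3 : (ℓ : ℤ) ∣ (n : ℤ) := by
              obtain ⟨x, hx⟩ := hd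
              rw [← PadicInt.norm_int_lt_one_iff_dvd (p := ℓ), Int.cast_natCast, hx, norm_mul,
                PadicInt.norm_p]
              calc (ℓ : ℝ)⁻¹ * ‖x‖ ≤ (ℓ : ℝ)⁻¹ * 1 := by
                    gcongr
                    exact PadicInt.norm_le_one x
                _ < 1 := by
                    rw [mul_one]
                    exact inv_lt_one_of_one_lt₀ (by exact_mod_cast hℓ.one_lt)
            have h4 := Nat.le_of_dvd hn (Int.natCast_dvd_natCast.mp h3)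
            omega
          · rw [map_pow, h2, one_add_pow_of_sq hBB, Nat.cast_smul_eq_nsmul, nsmul_eq_mul]
        obtain ⟨σ, hσG, c, hc, hσ⟩ := hex !![0, 1; 0, 0] (by
          ext r s; fin_cases r <;> fin_cases s <;> simp [Matrix.mul_apply, Fin.sum_univ_two])
          (by simp [Matrix.det_fin_two])
        obtain ⟨τ, hτG, d, hd, hτ⟩ := hex !![0, 0; 1, 0] (by
          ext r s; fin_cases r <;> fin_cases s <;> simp [Matrix.mul_apply, Fin.sum_univ_two])
          (by simp [Matrix.det_fin_two])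
        exact ⟨0, fun _ => ⟨fun P hP hst =>
          pow_smul_eq_zero_of_stable' b hσG hτG hc hd hσ hτ hP hst, fun _ => rfl⟩⟩
      · have ho := open_image_all (p := ℓ) hΔ hss
        obtain ⟨σ, hσG, c, hc, hσ⟩ := ho.exists_mem b G (N := !![0, 1; 0, 0]) (by
          ext r s; fin_cases r <;> fin_cases s <;> simp [Matrix.mul_apply, Fin.sum_univ_two])
        obtain ⟨τ, hτG, d, hd, hτ⟩ := ho.exists_mem b G (N := !![0, 0; 1, 0]) (by
          ext r s; fin_cases r <;> fin_cases s <;> simp [Matrix.mul_apply, Fin.sum_univ_two])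
        obtain ⟨k, hk⟩ := exists_dvd_pow hc
        obtain ⟨l, hl⟩ := exists_dvd_pow hd
        exact ⟨k + l, fun _ => ⟨fun P hP hst => pow_smul_eq_zero_of_stable' b hσG hτG
          (hk.trans (pow_dvd_pow _ (Nat.le_add_right k l)))
          (hl.trans (pow_dvd_pow _ (Nat.le_add_left l k))) hσ hτ hP hst,
          fun h1 => absurd h1 h⟩⟩
    · exact ⟨0, fun h => absurd h hℓ⟩
  choose k hk using H
  refine ⟨∏ ℓ ∈ (Finset.range (G.index + 14)).filter Nat.Prime, ℓ ^ k ℓ, ?_, fun P hP hst => ?_⟩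
  · rw [Finset.prod_ne_zero_iff]
    intro ℓ hℓ
    exact pow_ne_zero _ (Finset.mem_filter.mp hℓ).2.ne_zero
  · have hM0 : addOrderOf P ≠ 0 := (addOrderOf_pos_iff.mpr hP).ne'
    rw [← addOrderOf_dvd_iff_nsmul_eq_zero, Nat.dvd_iff_prime_pow_dvd_dvd]
    intro ℓ a hℓ ⟨c, hc⟩
    have hc0 : c ≠ 0 := by rintro rfl; rw [mul_zero] at hc; exact hM0 hc
    have h1 : ℓ ^ k ℓ • (c • P) = 0 := by
      refine (hk ℓ hℓ).1 _ ⟨a, ?_⟩ (fun g hg => ?_)
      · rw [← mul_smul, ← hc, addOrderOf_nsmul_eq_zero]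
      · have h2 : g • (c • P) = c • (g • P) :=
          map_nsmul (DistribSMul.toAddMonoidHom (Pts (WQ W)) g) c P
        obtain ⟨j, hj⟩ := AddSubgroup.mem_zmultiples_iff.mp (hst g hg)
        rw [h2, ← hj, AddSubgroup.mem_zmultiples_iff]
        exact ⟨j, zsmul_nsmul_comm' j c P⟩
    rw [← mul_smul, ← addOrderOf_dvd_iff_nsmul_eq_zero, hc] at h1
    have h3 : ℓ ^ a ∣ ℓ ^ k ℓ := Nat.dvd_of_mul_dvd_mul_right (Nat.pos_of_ne_zero hc0) h1
    by_cases h4 : G.index + 14 ≤ ℓ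
    · rw [(hk ℓ hℓ).2 h4, pow_zero] at h3
      exact h3.trans (one_dvd _)
    · exact h3.trans (Finset.dvd_prod_of_mem (fun ℓ => ℓ ^ k ℓ)
        (Finset.mem_filter.mpr ⟨Finset.mem_range.mpr (by omega), hℓ⟩))

/-- **Finiteness of the isogeny class over every number field**: let `W` be a semistable elliptic
curve over `ℚ` and `G` a subgroup of finite index of `Gal(ℚ̄/ℚ)`. There are only finitely many
finite cyclic subgroups of `W(ℚ̄)` stable under `G`. -/
theorem finite_cyclic_subgroups_of_finiteIndex (hΔ : W.Δ ≠ 0) (hss : W.IsSemistableModel)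
    (G : Subgroup GQ) [G.FiniteIndex] :
    {C : AddSubgroup (Pts (WQ W)) | ∃ P, IsOfFinAddOrder P ∧ C = AddSubgroup.zmultiples P ∧
      ∀ g ∈ G, ∀ Q ∈ C, g • Q ∈ C}.Finite := by
  haveI := isElliptic_WQ hΔ
  obtain ⟨N, hN, h⟩ := exists_bound_cyclic_of_finiteIndex hΔ hss G
  have hfin : Finite (Submodule.torsionBy ℤ (Pts (WQ W)) (N : ℤ)) :=
    Fermat.Agent.Frob.finite_torsionBy (K := Qb) (WQ W) hN
  have h2 : ({Q : Pts (WQ W) | N • Q = 0}).Finite := by
    refine Set.Finite.subset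
      (Set.toFinite (Submodule.torsionBy ℤ (Pts (WQ W)) (N : ℤ) : Set (Pts (WQ W)))) ?_
    intro Q hQ
    rw [SetLike.mem_coe, Submodule.mem_torsionBy_iff, natCast_zsmul]
    exact hQ
  refine (h2.image AddSubgroup.zmultiples).subset ?_
  rintro C ⟨P, hP, rfl, hst⟩
  exact ⟨P, h P hP fun g hg => hst g hg P (AddSubgroup.mem_zmultiples P), rfl⟩

end Fermat.Agent.Cor.LG
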