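import Mathlib
import Fermat.Agent.Cor.LGEuler
import Fermat.Agent.Cor.LWeil

/-!
# Local-global compatibility for semistable elliptic curves over `ℚ`

Let `W` be a semistable integral Weierstrass equation with `Δ ≠ 0`, let `N` be its conductor (the
product of the bad primes) and let `g` be its newform. For primes `p` and `q ≠ p` and a place `A`
of `ℚ̄` over `q` let `I` be the inertia group and let `φ` be a Frobenius element of `A`.

* `inertia_trivial_iff`: `I` acts trivially on `T_p W` iff `q ∤ Δ` (the criterion of Néron, Ogg and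
  Shafarevich for semistable equations); if `q ∣ Δ` the image of `I` is infinite
  (`exists_inertia_pow_ne_one`), also for `q = p`.
* `finrank_invDual`, `factorization_conductorLevel`: the invariants of `I` in the dual of `T_p W`
  (the first étale cohomology group) have rank `2 - v_q(N)`.
* `isGalEuler`, `local_global`: `det (1 - X Frob | ((T_p W)^∨)^I)`, for the geometric Frobenius, is
  `1 - a_q(g) X + q X²` for `q ∤ N` and `1 - a_q(g) X` for `q ∣ N`.
* `hasseWeil_galois`: the L-function of the system of `p`-adic representations of a semistable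
  elliptic curve is the entire function `L(g, s)`.

This file is not used by any of the statement files.
-/

set_option autoImplicit false
set_option linter.unusedSectionVars false
set_option linter.style.haveILetI false

noncomputable section

namespace Fermat.Agent.Cor.LG

open Polynomial CongruenceSubgroup ModularFormClass
open Fermat.Agent.Ell Fermat.Agent.EGal Fermat.Agent.Cor.AffCount Fermat.Agent.Cor.LWeil
open scoped Pointwise

section ramification

variable {W : WeierstrassCurve ℤ} {q : ℕ}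

/-- **Néron–Ogg–Shafarevich for semistable equations.** -/
theorem inertia_trivial_iff (hΔ : W.Δ ≠ 0) (hss : W.IsSemistableModel) {p : ℕ} [hp : Fact p.Prime]
    (hq : q.Prime) (hqp : q ≠ p) :
    (∀ A : ValuationSubring Qb, A.LiesOverPrime q → ∀ σ ∈ A.inertiaSubgroupIn ℚ,
      rr (WQ W) p σ = 1) ↔ ¬ (q : ℤ) ∣ W.Δ := by
  constructor
  · intro h hqΔ
    obtain ⟨A, hA⟩ := H05.exists_liesOverPrime Qb hq
    obtain ⟨r, t, α, β, hN, -⟩ :=
      Fermat.Agent.H16.Ram.exists_data hΔ hq hqΔ (hss q hq hqΔ) hA hp.out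
    obtain ⟨σ, hσ, hne⟩ := exists_inertia_ne_one p hΔ hq (hss q hq hqΔ) hA hN
    exact hne (h A hA σ hσ)
  · intro h A hA σ hσ
    exact rr_unramified hq h hqp hA hσ

/-- at a prime of multiplicative reduction the image of inertia is infinite: it contains elements
of infinite order. -/
theorem exists_inertia_pow_ne_one (hΔ : W.Δ ≠ 0) (hss : W.IsSemistableModel) {p : ℕ}
    [hp : Fact p.Prime] (hq : q.Prime) (hqp : q ≠ p) (hqΔ : (q : ℤ) ∣ W.Δ)
    {A : ValuationSubring Qb} (hA : A.LiesOverPrime q) :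
    ∃ σ ∈ A.inertiaSubgroupIn ℚ, ∀ m : ℕ, m ≠ 0 → rr (WQ W) p (σ ^ m) ≠ 1 := by
  have hell := isElliptic_WQ hΔ
  haveI := H51.isGalois_Qbar
  obtain ⟨φ, hφ⟩ := Fermat.Agent.H05.exists_isFrobeniusAt (L := Qb) hq hA
  obtain ⟨b, -, ⟨σ, hσ, c, hc, h0, h1⟩, -, -⟩ := exists_basis_mult p hΔ hss hq hqp hqΔ hA hφ
  refine ⟨σ, hσ, fun m hm h => ?_⟩
  have key : ∀ k : ℕ, (rr (WQ W) p (σ ^ k)) (b 1) = b 1 + ((k : ℤ_[p]) * c) • b 0 := by
    intro k
    induction k with
    | zero =>
      rw [pow_zero, map_one, Module.End.one_apply, Nat.cast_zero, zero_mul]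
      have : (0 : ℤ_[p]) • b 0 = 0 := zero_smul ℤ_[p] (b 0)
      rw [this, add_zero]
    | succ k ih =>
      rw [pow_succ', map_mul, Module.End.mul_apply, ih, map_add, map_smul, h0, h1, add_assoc]
      congr 1
      have : c • b 0 + ((k : ℤ_[p]) * c) • b 0 = (c + (k : ℤ_[p]) * c) • b 0 :=
        (add_smul c ((k : ℤ_[p]) * c) (b 0)).symm
      rw [this]
      congr 1
      push_cast
      ring
  have h2 := key m
  rw [h, Module.End.one_apply] at h2
  have h3 : ((m : ℤ_[p]) * c) • b 0 = 0 := by
    have := h2.symm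
    rwa [add_eq_left] at this
  have h4 := congrArg (fun v => b.coord 0 v) h3
  simp at h4
  rcases h4 with h4 | h4
  · exact hm (by exact_mod_cast h4)
  · exact hc h4

variable {p : ℕ} [hp : Fact p.Prime] {A : ValuationSubring Qb}

/-- the rank of the inertia invariants -/
theorem finrank_invDual (hΔ : W.Δ ≠ 0) (hss : W.IsSemistableModel) (hq : q.Prime) (hqp : q ≠ p)
    (hA : A.LiesOverPrime q) :
    Module.finrank ℤ_[p] (invDual (rr (WQ W) p) A) = if (q : ℤ) ∣ W.Δ then 1 else 2 := by
  have hell := isElliptic_WQ hΔ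
  haveI := H51.isGalois_Qbar
  split_ifs with hd
  · obtain ⟨φ, hφ⟩ := Fermat.Agent.H05.exists_isFrobeniusAt (L := Qb) hq hA
    exact (exists_equiv_mult hΔ hss hq hqp hd hA hφ).1
  · have htop : invDual (rr (WQ W) p) A = ⊤ := by
      rw [Submodule.eq_top_iff']
      intro f σ hσ x
      rw [rr_unramified hq hd hqp hA hσ, Module.End.one_apply]
    rw [htop, finrank_top, Module.finrank_eq_card_basis (tateBasis (WQ W) p).dualBasis,
      Fintype.card_fin]

/-- **The exponent of the conductor at `q` is the codimension of the inertia invariants.** -/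
theorem factorization_conductorLevel (hΔ : W.Δ ≠ 0) (hss : W.IsSemistableModel) (hq : q.Prime)
    (hqp : q ≠ p) (hA : A.LiesOverPrime q) :
    W.conductorLevel.factorization q =
      2 - Module.finrank ℤ_[p] (invDual (rr (WQ W) p) A) := by
  rw [finrank_invDual hΔ hss hq hqp hA]
  split_ifs with hd
  · have h1 := (W.prime_dvd_conductorLevel_iff hΔ hq).mpr hd
    have h2 := W.squarefree_conductorLevel.natFactorization_le_one q
    have h3 := (hq.dvd_iff_one_le_factorization W.conductorLevel_pos.ne').mp h1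
    omega
  · exact Nat.factorization_eq_zero_of_not_dvd fun h =>
      hd ((W.prime_dvd_conductorLevel_iff hΔ hq).mp h)

end ramification

section euler

lemma reverse_X_sub_C {R : Type*} [CommRing R] [Nontrivial R] (a : R) :
    (X - C a).reverse = 1 - C a * X := by
  ext n
  rw [coeff_reverse, natDegree_X_sub_C]
  rcases n with _ | _ | n
  · rw [revAt_le (Nat.zero_le 1)]
    simp
  · rw [revAt_le (le_refl 1)]
    simp [coeff_one]
  · have h1 : revAt 1 (n + 2) = n + 2 := by
      rw [← revAtFun_eq, revAtFun, if_neg (by omega)]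
    rw [h1, coeff_eq_zero_of_natDegree_lt (by rw [natDegree_X_sub_C]; omega)]
    simp [coeff_one]

lemma natDegree_quad {R : Type*} [CommRing R] [Nontrivial R] (a b : R) :
    (X ^ 2 - C a * X + C b).natDegree = 2 := by
  compute_degree!

lemma reverse_quad {R : Type*} [CommRing R] [Nontrivial R] (a b : R) :
    (X ^ 2 - C a * X + C b).reverse = 1 - C a * X + C b * X ^ 2 := by
  ext n
  rw [coeff_reverse, natDegree_quad]
  rcases n with _ | _ | _ | n
  · rw [revAt_le (Nat.zero_le 2)]
    simp [coeff_X, coeff_C]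
  · rw [revAt_le (by norm_num)]
    simp [coeff_C, coeff_one, coeff_X_pow]
  · rw [revAt_le (le_refl 2)]
    simp [coeff_X, coeff_one, coeff_X_pow]
  · have h1 : revAt 2 (n + 3) = n + 3 := by
      rw [← revAtFun_eq, revAtFun, if_neg (by omega)]
    rw [h1, coeff_eq_zero_of_natDegree_lt (by rw [natDegree_quad]; omega)]
    simp [coeff_one]

variable (W : WeierstrassCurve ℤ)

/-- The Euler polynomial of `W` at `q`: `1 - a_q X + q X²` at the primes of good reduction and
`1 - a_q X` at the others, where `a_q = q - #{(x, y) ∈ 𝔽_q² on W}`. -/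
def eulerPoly (q : ℕ) : ℤ[X] :=
  1 - C (ap W q) * X + C (if (q : ℤ) ∣ W.Δ then 0 else (q : ℤ)) * X ^ 2

lemma aeval_eulerPoly (q : ℕ) (z : ℂ) : aeval z (eulerPoly W q) = eulerFactor W q z := by
  rw [eulerPoly, eulerFactor]
  by_cases hd : (q : ℤ) ∣ W.Δ
  · simp [hd]
  · simp [hd]

/-- The polynomial `det (1 - X Frob | ((T_p W)^∨)^I)` for the geometric Frobenius at a place `A`:
the reverse of the characteristic polynomial. -/
def galFactor (p : ℕ) [Fact p.Prime] [(WQ W).IsElliptic] {A : ValuationSubring Qb} {q : ℕ}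
    {φ : GQ} (hφ : A.IsFrobeniusAt φ q) : ℤ_[p][X] :=
  (LinearMap.charpoly (M := invDual (rr (WQ W) p) A) (frobDual (rr (WQ W) p) hφ)).reverse

/-- `P` is the Euler factor at `q` of the system of representations `T_p W`: for every prime
`p ≠ q`, every place `A` of `ℚ̄` over `q` and every Frobenius element at `A`, the polynomial
`det (1 - X Frob | ((T_p W)^∨)^{I_A})` is the image of `P` in `ℤ_p[X]`. -/
def IsGalEuler [(WQ W).IsElliptic] (q : ℕ) (P : ℤ[X]) : Prop :=
  ∀ (p : ℕ) [Fact p.Prime], q ≠ p → ∀ A : ValuationSubring Qb, A.LiesOverPrime q →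
    ∀ (φ : GQ) (hφ : A.IsFrobeniusAt φ q), galFactor W p hφ = P.map (Int.castRingHom ℤ_[p])

variable {W}

/-- **The Euler factors of the system `T_p W`.** -/
theorem isGalEuler [(WQ W).IsElliptic] (hΔ : W.Δ ≠ 0) (hss : W.IsSemistableModel) {q : ℕ}
    (hq : q.Prime) : IsGalEuler W q (eulerPoly W q) := by
  intro p hp hqp A hA φ hφ
  unfold galFactor eulerPoly
  by_cases hd : (q : ℤ) ∣ W.Δ
  · rw [charpoly_frobDual_mult hΔ hss hq hqp hd hA hφ, reverse_X_sub_C, if_pos hd,
      ap_eq_of_bad hq hd (hss q hq hd)]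
    simp
  · rw [charpoly_frobDual_good hΔ hss hq hqp hd hA hφ, reverse_quad, if_neg hd,
      ap_eq_of_good hq hd]
    simp

/-- the Euler factor is unique. -/
theorem IsGalEuler.unique [(WQ W).IsElliptic] {q : ℕ} (hq : q.Prime) {P P' : ℤ[X]}
    (h : IsGalEuler W q P) (h' : IsGalEuler W q P') : P = P' := by
  obtain ⟨p, hpq, hp⟩ := Nat.exists_infinite_primes (q + 1)
  haveI : Fact p.Prime := ⟨hp⟩
  haveI := H51.isGalois_Qbar
  obtain ⟨A, hA⟩ := H05.exists_liesOverPrime Qb hq
  obtain ⟨φ, hφ⟩ := Fermat.Agent.H05.exists_isFrobeniusAt (L := Qb) hq hA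
  have hqp : q ≠ p := by omega
  have h1 := h p hqp A hA φ hφ
  rw [h' p hqp A hA φ hφ] at h1
  exact (Polynomial.map_injective _ Int.cast_injective h1).symm

/-- **Local-global compatibility** for semistable elliptic curves over `ℚ`: there is exactly one
newform `g` of weight `2` and level `Γ₀(N)`, `N` the conductor, such that for *every* prime `q` the
Euler factor at `q` of the system of representations `T_p W` is `1 - a_q(g) X + q X²` if `q ∤ N`
and `1 - a_q(g) X` if `q ∣ N`. -/
theorem local_global [(WQ W).IsElliptic] (hΔ : W.Δ ≠ 0) (hss : W.IsSemistableModel) :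
    ∃! g : CuspForm (Gamma0 W.conductorLevel) 2, g.IsNewform ∧
      ∀ q : ℕ, q.Prime → ∃ a : ℤ, qCoeff g q = a ∧
        IsGalEuler W q (1 - C a * X + C (if q ∣ W.conductorLevel then 0 else (q : ℤ)) * X ^ 2) := by
  obtain ⟨g, hg, h⟩ := LWeil.exists_newform hΔ hss
  have hiff : ∀ q : ℕ, q.Prime → (q ∣ W.conductorLevel ↔ (q : ℤ) ∣ W.Δ) := fun q hq =>
    W.prime_dvd_conductorLevel_iff hΔ hq
  have hE : ∀ q : ℕ, q.Prime → IsGalEuler W q
      (1 - C (ap W q) * X + C (if q ∣ W.conductorLevel then 0 else (q : ℤ)) * X ^ 2) := by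
    intro q hq
    have := isGalEuler hΔ hss hq
    unfold eulerPoly at this
    simpa only [hiff q hq] using this
  refine ⟨g, ⟨hg, fun q hq => ⟨ap W q, h q hq, hE q hq⟩⟩, fun g' hg' => ?_⟩
  have h1 : ∀ q : ℕ, q.Prime → qCoeff g' q = (ap W q : ℂ) := by
    intro q hq
    obtain ⟨a, ha, hPa⟩ := hg'.2 q hq
    have h2 := IsGalEuler.unique hq hPa (hE q hq)
    have h3 := congrArg (fun P : ℤ[X] => P.coeff 1) h2
    simp only [coeff_add, coeff_sub, coeff_C_mul, coeff_X_one, coeff_X_pow] at h3
    simp [coeff_one] at h3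
    rw [ha, h3]
  have h4 := AL.strong_multiplicity_one hg (one_ne_zero) g' (fun ℓ hℓ hℓN _ => by
    rw [AL.eigenform_T hg'.1.1 hℓ hℓN, h1 ℓ hℓ, h ℓ hℓ])
  rw [hg'.1.1.qCoeff_one, one_smul] at h4
  exact h4

/-- **The L-function of the system of `p`-adic representations of a semistable elliptic curve over
`ℚ`**: its Euler product, over all primes and with the inertia invariants at the bad ones,
converges for `Re s > 3/2` and has an analytic continuation to an entire function with functional
equation `s ↔ 2 - s`. -/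
theorem hasseWeil_galois [(WQ W).IsElliptic] (hΔ : W.Δ ≠ 0) (hss : W.IsSemistableModel) :
    ∃ (P : ℕ → ℤ[X]) (L Λ : ℂ → ℂ), (∀ q : ℕ, q.Prime → IsGalEuler W q (P q)) ∧
      IsHasseWeil W L Λ ∧
      ∀ s : ℂ, 3 / 2 < s.re →
        HasProd (fun q : Nat.Primes => (aeval (((q : ℕ) : ℂ) ^ (-s)) (P q))⁻¹) (L s) := by
  obtain ⟨L, Λ, h⟩ := hasseWeil W hΔ hss
  refine ⟨eulerPoly W, L, Λ, fun q hq => isGalEuler hΔ hss hq, h, fun s hs => ?_⟩
  simpa only [aeval_eulerPoly] using h.eulerProduct s hs

end euler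

end Fermat.Agent.Cor.LG
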