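import Mathlib
import Fermat.Agent.H03.LBound

/-!
# The limit of `L(s, ψ)` at `s = 1` for a nontrivial ray class character `ψ` of a number field

The files `H03/*` show that `L(s, ψ) = ∑ ψ(I) N(I)^{-s}` is bounded for `s → 1+`. With dominated convergence the same
argument shows that the limit exists (`exists_tendsto`).

This file is not used by any of the statement files.
-/

set_option autoImplicit false
set_option maxHeartbeats 400000
set_option linter.style.haveILetI false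
set_option linter.deprecated false

open scoped Classical nonZeroDivisors Topology

noncomputable section

namespace Fermat.Agent.Cor.LLim

open Fermat.Agent.H03
open NumberField NumberField.Units Module Filter

section Fs

variable (K : Type*) [Field K] [NumberField K]

/-- a majorant of the differences of translates which does not depend on `s` -/
theorem exists_majorant (h : 𝓞 K) : ∃ g : 𝓞 K → ℝ, Summable g ∧ ∀ s : ℝ, 1 < s → s ≤ 2 →
    ∀ x : 𝓞 K, |fs K s (x + h) - fs K s x| ≤ g x := by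
  obtain ⟨C, ρ, hC, hρ, hL⟩ := exists_lipschitz K (mixedEmbedding K (h : K))
  set n : ℝ := (finrank ℚ K : ℝ) with hn
  have hsum : Summable fun x : 𝓞 K => ‖mixedEmbedding K (x : K)‖ ^ (-n - 1) :=
    H03.summable_norm_rpow K (by linarith)
  have hfin : {x : 𝓞 K | ‖mixedEmbedding K (x : K)‖ < ρ}.Finite := by
    have h1 := hsum.tendsto_cofinite_zero
    have hpos : (0 : ℝ) < ρ ^ (-n - 1) := Real.rpow_pos_of_pos (by linarith) _
    have h2 := h1.eventually (gt_mem_nhds hpos)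
    rw [Filter.eventually_cofinite] at h2
    refine (h2.union (Set.finite_singleton (0 : 𝓞 K))).subset ?_
    intro x hx
    by_cases hx0 : x = 0
    · right; exact hx0
    · left
      simp only [Set.mem_setOf_eq, not_lt] at hx ⊢
      have hx1 : 0 < ‖mixedEmbedding K (x : K)‖ := by
        rw [norm_pos_iff]; simpa using hx0
      exact Real.rpow_le_rpow_of_nonpos hx1 hx.le (by linarith)
  set T : Finset (𝓞 K) := hfin.toFinset with hT
  set g : 𝓞 K → ℝ := fun x => (if x ∈ T then 1 else 0) +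
    C * ‖mixedEmbedding K (x : K)‖ ^ (-n - 1) with hg
  have hgsum : Summable g := by
    refine Summable.add ?_ (hsum.mul_left C)
    exact summable_of_ne_finset_zero (s := T) (fun x hx => if_neg hx)
  refine ⟨g, hgsum, fun s hs hs2 x => ?_⟩
  by_cases hx : ‖mixedEmbedding K (x : K)‖ < ρ
  · have hxT : x ∈ T := by simpa [hT] using hx
    have h1 : |fs K s (x + h) - fs K s x| ≤ 1 := by
      rw [abs_le]
      have a1 := fs_nonneg K s (x + h)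
      have a2 := fs_nonneg K s x
      have a3 := fs_le_one K (by linarith : 0 < s) (x + h)
      have a4 := fs_le_one K (by linarith : 0 < s) x
      constructor <;> linarith
    simp only [hg, if_pos hxT]
    have : 0 ≤ C * ‖mixedEmbedding K (x : K)‖ ^ (-n - 1) := by positivity
    linarith
  · have h1 := hL s (mixedEmbedding K (x : K)) hs.le hs2 (not_lt.mp hx)
    have e : fs K s (x + h) = Fs K s (mixedEmbedding K (x : K) + mixedEmbedding K (h : K)) := by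
      simp [fs]
    rw [e]
    refine h1.trans ?_
    simp only [hg]
    have : (0 : ℝ) ≤ if x ∈ T then 1 else 0 := by split_ifs <;> norm_num
    linarith

theorem tendsto_fs (x : 𝓞 K) : Tendsto (fun s : ℝ => fs K s x) (𝓝[>] 1) (𝓝 (fs K 1 x)) := by
  by_cases hx : x = 0
  · subst hx
    rw [fs_zero K one_ne_zero]
    refine tendsto_const_nhds.congr' ?_
    filter_upwards [eventually_Ioc] with s hs
    rw [fs_zero K (by linarith [hs.1])]
  · have hN := one_le_norm_int K hx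
    have h1 : ContinuousAt (fun s : ℝ => (Ideal.absNorm (Ideal.span {x}) : ℝ) ^ (-s)) 1 := by
      refine ContinuousAt.rpow continuousAt_const continuousAt_neg (Or.inl ?_)
      linarith
    have h2 : Tendsto (fun s : ℝ => fs K s x) (𝓝 1) (𝓝 (fs K 1 x)) := by
      simp only [fs_eq]
      exact h1.tendsto.const_mul _
    exact h2.mono_left nhdsWithin_le_nhds

end Fs

variable {K : Type*} [Field K] [NumberField K]

theorem tendsto_coset_diff (I : Ideal (𝓞 K)) (a b : 𝓞 K) : ∃ z : ℝ,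
    Tendsto (fun s : ℝ => ∑' y : I, fs K s (y + a) - ∑' y : I, fs K s (y + b)) (𝓝[>] 1) (𝓝 z) := by
  obtain ⟨g, hg, h⟩ := exists_majorant K (a - b)
  have inj : Function.Injective (fun y : I => (y : 𝓞 K) + b) := fun x y h =>
    Subtype.ext (add_right_cancel h)
  have e : ∀ y : I, ((y : 𝓞 K) + b) + (a - b) = y + a := fun y => by ring
  have h1 := tendsto_tsum_of_dominated_convergence (𝓕 := 𝓝[>] (1 : ℝ))
    (f := fun (s : ℝ) (y : I) => fs K s (y + a) - fs K s (y + b))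
    (g := fun y : I => fs K 1 (y + a) - fs K 1 (y + b)) (hg.comp_injective inj)
    (fun y => (tendsto_fs K (y + a)).sub (tendsto_fs K (y + b))) (by
      filter_upwards [eventually_Ioc] with s hs y
      have h2 := h s hs.1 hs.2 (y + b)
      rw [e] at h2
      exact h2)
  refine ⟨_, h1.congr' ?_⟩
  filter_upwards [eventually_Ioc] with s hs
  exact (summable_fs_coset K hs.1 hs.2 I a).tsum_sub (summable_fs_coset K hs.1 hs.2 I b)

/-- Periodic functions: the difference to the mean value has a limit. -/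
theorem exists_periodic_lim (I : Ideal (𝓞 K)) (hI : I ≠ ⊥) [Fintype (𝓞 K ⧸ I)]
    (g : (𝓞 K ⧸ I) → ℂ) : ∃ z : ℂ,
      Tendsto (fun s : ℝ => ∑' x : 𝓞 K, g (Ideal.Quotient.mk I x) * (fs K s x : ℂ) -
        (∑ q, g q) / (Ideal.absNorm I : ℂ) * ((ZL K s : ℝ) : ℂ)) (𝓝[>] 1) (𝓝 z) := by
  choose z hz using fun a b : 𝓞 K ⧸ I => tendsto_coset_diff I (rep I a) (rep I b)
  set N : ℂ := (Ideal.absNorm I : ℂ) with hN
  have hNcard : N = Fintype.card (𝓞 K ⧸ I) := by rw [hN, absNorm_eq_card]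
  have hN0 : N ≠ 0 := by
    rw [hN]
    exact_mod_cast (Ideal.absNorm_eq_zero_iff.not.mpr hI)
  have hlim : Tendsto (fun s : ℝ => N⁻¹ * ∑ q, ∑ q', g q *
      ((∑' y : I, fs K s (y + rep I q) - ∑' y : I, fs K s (y + rep I q') : ℝ) : ℂ)) (𝓝[>] 1)
      (𝓝 (N⁻¹ * ∑ q, ∑ q', g q * ((z q q' : ℝ) : ℂ))) := by
    refine Tendsto.const_mul _ (tendsto_finsetSum _ fun q _ => tendsto_finsetSum _ fun q' _ => ?_)
    refine Tendsto.const_mul _ ?_
    exact (Complex.continuous_ofReal.tendsto _).comp (hz q q')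
  refine ⟨_, hlim.congr' ?_⟩
  filter_upwards [eventually_Ioc] with s hs'
  obtain ⟨hs, hs2⟩ := hs'
  obtain ⟨B, hB⟩ : ∃ B, ∀ q, ‖g q‖ ≤ B := by
    refine ⟨∑ q, ‖g q‖, fun q => ?_⟩
    exact Finset.single_le_sum (f := fun q => ‖g q‖) (fun _ _ => norm_nonneg _) (Finset.mem_univ q)
  have hs1 := summable_fs K hs hs2
  have hsC : Summable (fun x : 𝓞 K => (fs K s x : ℂ)) := Complex.ofRealCLM.summable hs1
  have hsg : Summable (fun x : 𝓞 K => g (Ideal.Quotient.mk I x) * (fs K s x : ℂ)) := by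
    refine Summable.of_norm_bounded (hs1.mul_left B) fun x => ?_
    rw [norm_mul, Complex.norm_real, Real.norm_of_nonneg (fs_nonneg K s x)]
    exact mul_le_mul_of_nonneg_right (hB _) (fs_nonneg K s x)
  set Z : (𝓞 K ⧸ I) → ℝ := fun q => ∑' y : I, fs K s (y + rep I q) with hZ
  have hfull : ∀ h : (𝓞 K ⧸ I) → ℂ, Summable (fun x : 𝓞 K => h (Ideal.Quotient.mk I x) * (fs K s x : ℂ)) →
      ∑' x : 𝓞 K, h (Ideal.Quotient.mk I x) * (fs K s x : ℂ) = ∑ q, h q * (Z q : ℂ) := by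
    intro h hh
    rw [← (cosetEquiv I).tsum_eq]
    have hh' := (cosetEquiv I).summable_iff.mpr hh
    refine (Summable.tsum_prod hh').trans ?_
    rw [tsum_fintype]
    refine Finset.sum_congr rfl fun q _ => ?_
    have e : ∀ y : I, (h (Ideal.Quotient.mk I ((cosetEquiv I) (q, y))) *
        (fs K s ((cosetEquiv I) (q, y)) : ℂ)) = h q * ((fs K s (y + rep I q) : ℝ) : ℂ) := by
      intro y
      rw [mk_cosetEquiv]
      rfl
    refine (tsum_congr e).trans ?_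
    rw [tsum_mul_left, hZ, Complex.ofReal_tsum]
  have h1 : ((ZL K s : ℝ) : ℂ) = ∑ q, (Z q : ℂ) := by
    rw [ZL, Complex.ofReal_tsum]
    have := hfull (fun _ => 1) (by simpa using hsC)
    simpa using this
  rw [hfull g hsg, h1]
  have e1 : ∑ q, ∑ q', g q * ((Z q : ℂ) - Z q') =
      N * ∑ q, g q * (Z q : ℂ) - (∑ q, g q) * ∑ q, (Z q : ℂ) := by
    simp only [mul_sub, Finset.sum_sub_distrib, Finset.sum_const, Finset.card_univ,
      nsmul_eq_mul, ← hNcard]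
    rw [Finset.mul_sum, Finset.sum_mul]
    simp only [Finset.mul_sum]
  have e2 : ∑ q, ∑ q', g q * ((Z q - Z q' : ℝ) : ℂ) =
      N * ∑ q, g q * (Z q : ℂ) - (∑ q, g q) * ∑ q, (Z q : ℂ) := by
    rw [← e1]
    refine Finset.sum_congr rfl fun q _ => Finset.sum_congr rfl fun q' _ => ?_
    rw [Complex.ofReal_sub]
  change N⁻¹ * ∑ q, ∑ q', g q * ((Z q - Z q' : ℝ) : ℂ) = _
  rw [e2]
  field_simp

/-- the sum over an ideal -/
theorem exists_ind_lim (J : Ideal (𝓞 K)) (hJ : J ≠ ⊥) : ∃ z : ℂ,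
    Tendsto (fun s : ℝ => ∑' x : 𝓞 K, ind K J (Ideal.span {x}) * (fs K s x : ℂ) -
      (Ideal.absNorm J : ℂ)⁻¹ * ((ZL K s : ℝ) : ℂ)) (𝓝[>] 1) (𝓝 z) := by
  haveI : Finite (𝓞 K ⧸ J) := Ring.HasFiniteQuotients.finiteQuotient hJ
  haveI := Fintype.ofFinite (𝓞 K ⧸ J)
  obtain ⟨z, hz⟩ := exists_periodic_lim J hJ (fun q => if q = 0 then 1 else 0)
  refine ⟨z, hz.congr fun s => ?_⟩
  rw [Finset.sum_ite_eq' Finset.univ (0 : 𝓞 K ⧸ J) (fun _ => (1 : ℂ)), if_pos (Finset.mem_univ _),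
    one_div]
  congr 1
  refine tsum_congr fun x => ?_
  congr 1
  unfold ind
  exact if_congr (by rw [Ideal.Quotient.eq_zero_iff_mem, Ideal.dvd_span_singleton]) rfl rfl

theorem tendsto_nrm {I : Ideal (𝓞 K)} (hI : I ≠ ⊥) :
    Tendsto (fun s : ℝ => nrm K s I) (𝓝[>] 1) (𝓝 (nrm K 1 I)) := by
  have hN : (Ideal.absNorm I : ℝ) ≠ 0 := by exact_mod_cast Ideal.absNorm_eq_zero_iff.not.mpr hI
  have h1 : ContinuousAt (fun s : ℝ => (Ideal.absNorm I : ℝ) ^ (-s)) 1 :=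
    ContinuousAt.rpow continuousAt_const continuousAt_neg (Or.inl hN)
  exact h1.tendsto.mono_left nhdsWithin_le_nhds

theorem tendsto_rpow_slope {N : ℝ} (hN : 0 < N) :
    Tendsto (fun s : ℝ => (N ^ (s - 1) - 1) / (s - 1)) (𝓝[>] 1) (𝓝 (Real.log N)) := by
  have h0 : HasDerivAt (fun x : ℝ => N ^ x) (N ^ ((1 : ℝ) - 1) * Real.log N) (1 - 1) :=
    (Real.hasStrictDerivAt_const_rpow hN _).hasDerivAt
  have h1 := h0.comp_sub_const 1 1
  have h2 := hasDerivAt_iff_tendsto_slope.mp h1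
  rw [sub_self, Real.rpow_zero, one_mul] at h2
  have h3 := h2.mono_left (nhdsWithin_mono 1 (fun s (hs : 1 < s) => (ne_of_gt hs : s ≠ 1)))
  refine h3.congr fun s => ?_
  rw [slope_def_field, sub_self, Real.rpow_zero]

variable (K) in
/-- `(s - 1) Z(s)` has a limit -/
theorem exists_ZL_lim : ∃ ρ : ℂ,
    Tendsto (fun s : ℝ => ((s - 1 : ℝ) : ℂ) * ((ZL K s : ℝ) : ℂ)) (𝓝[>] 1) (𝓝 ρ) := by
  let b : ClassGroup (𝓞 K) → Ideal (𝓞 K) := fun C => cRep (⊤ : Ideal (𝓞 K)) top_ne_bot C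
  have hb : ∀ C, b C ≠ ⊥ := fun C => cRep_ne_bot (⊤ : Ideal (𝓞 K)) top_ne_bot C
  choose z hz using fun C => exists_ind_lim (b C) (hb C)
  have hw : (torsionOrder K : ℝ) ≠ 0 := by exact_mod_cast (torsionOrder_pos K).ne'
  have hwC : (torsionOrder K : ℂ) ≠ 0 := by exact_mod_cast (torsionOrder_pos K).ne'
  have hNC : ∀ C, (Ideal.absNorm (b C) : ℂ) ≠ 0 := fun C => by
    exact_mod_cast Ideal.absNorm_eq_zero_iff.not.mpr (hb C)
  let A : ℝ → ClassGroup (𝓞 K) → ℂ := fun s C => ((torsionOrder K * nrm K s (b C) : ℝ) : ℂ)⁻¹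
  have hnrm1 : ∀ C, nrm K 1 (b C) = (Ideal.absNorm (b C) : ℝ)⁻¹ := fun C => by
    rw [nrm, Real.rpow_neg_one]
  have hA1 : ∀ C, A 1 C = (torsionOrder K : ℂ)⁻¹ * (Ideal.absNorm (b C) : ℂ) := by
    intro C
    change ((torsionOrder K * nrm K 1 (b C) : ℝ) : ℂ)⁻¹ = _
    rw [hnrm1]
    push_cast
    rw [mul_inv, inv_inv]
  have hA : ∀ C, Tendsto (fun s => A s C) (𝓝[>] 1) (𝓝 (A 1 C)) := by
    intro C
    have h1 : Tendsto (fun s : ℝ => ((torsionOrder K * nrm K s (b C) : ℝ) : ℂ)) (𝓝[>] 1)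
        (𝓝 ((torsionOrder K * nrm K 1 (b C) : ℝ) : ℂ)) :=
      (Complex.continuous_ofReal.tendsto _).comp ((tendsto_nrm (hb C)).const_mul _)
    refine h1.inv₀ ?_
    have h2 : (torsionOrder K * nrm K 1 (b C) : ℝ) ≠ 0 := by
      rw [hnrm1]
      refine mul_ne_zero hw (inv_ne_zero ?_)
      exact_mod_cast Ideal.absNorm_eq_zero_iff.not.mpr (hb C)
    exact_mod_cast h2
  let E : ℝ → ClassGroup (𝓞 K) → ℂ := fun s C =>
    ∑' x : 𝓞 K, ind K (b C) (Ideal.span {x}) * (fs K s x : ℂ) -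
      (Ideal.absNorm (b C) : ℂ)⁻¹ * ((ZL K s : ℝ) : ℂ)
  let c : ℝ → ℂ := fun s => ∑ C, A s C * (Ideal.absNorm (b C) : ℂ)⁻¹
  let R : ℝ → ℂ := fun s => ∑ C, A s C * E s C
  have hc : Tendsto c (𝓝[>] 1) (𝓝 (c 1)) :=
    tendsto_finsetSum _ fun C _ => (hA C).mul_const _
  have hR : Tendsto R (𝓝[>] 1) (𝓝 (∑ C, A 1 C * z C)) :=
    tendsto_finsetSum _ fun C _ => (hA C).mul (hz C)
  have hc1 : c 1 ≠ 0 := by
    change ∑ C, A 1 C * (Ideal.absNorm (b C) : ℂ)⁻¹ ≠ 0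
    have h1 : ∀ C : ClassGroup (𝓞 K), A 1 C * (Ideal.absNorm (b C) : ℂ)⁻¹ = (torsionOrder K : ℂ)⁻¹ := by
      intro C
      rw [hA1, mul_assoc, mul_inv_cancel₀ (hNC C), mul_one]
    rw [Finset.sum_congr rfl fun C _ => h1 C, Finset.sum_const, nsmul_eq_mul]
    refine mul_ne_zero ?_ (inv_ne_zero hwC)
    exact_mod_cast (Finset.card_pos.mpr Finset.univ_nonempty).ne'
  have hz1 : Tendsto (fun s : ℝ => ((s - 1 : ℝ) : ℂ)) (𝓝[>] 1) (𝓝 0) := by
    have h1 : Tendsto (fun s : ℝ => s - 1) (𝓝 1) (𝓝 (1 - 1)) :=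
      (continuous_id.sub continuous_const).tendsto 1
    rw [sub_self] at h1
    have h1' : Tendsto (fun s : ℝ => s - 1) (𝓝[>] 1) (𝓝 0) := h1.mono_left nhdsWithin_le_nhds
    have h2 := (Complex.continuous_ofReal.tendsto 0).comp h1'
    rw [Complex.ofReal_zero] at h2
    exact h2
  have hres : Tendsto (fun s : ℝ => ((s - 1 : ℝ) : ℂ) * ((zK K s : ℝ) : ℂ)) (𝓝[>] 1)
      (𝓝 ((dedekindZeta_residue K : ℝ) : ℂ)) := by
    have h1 := (Complex.continuous_ofReal.tendsto _).comp (tendsto_zK K)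
    refine h1.congr fun s => ?_
    simp only [Function.comp_apply, Complex.ofReal_mul]
  refine ⟨_, (((hres.sub (hz1.mul hR)).div hc hc1)).congr' ?_⟩
  filter_upwards [eventually_Ioc, hc.eventually_ne hc1] with s hs hcs
  have h1 : ((zK K s : ℝ) : ℂ) = R s + c s * ((ZL K s : ℝ) : ℂ) := by
    have h2 : ((zK K s : ℝ) : ℂ) = ∑' I : Ideal (𝓞 K), (nrm K s I : ℂ) := by
      rw [zK, Complex.ofReal_tsum]
    rw [h2, (hasSum_nrm K hs.1 hs.2).tsum_eq]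
    change _ = (∑ C, A s C * E s C) + (∑ C, A s C * (Ideal.absNorm (b C) : ℂ)⁻¹) * ((ZL K s : ℝ) : ℂ)
    rw [Finset.sum_mul, ← Finset.sum_add_distrib]
    refine Finset.sum_congr rfl fun C _ => ?_
    change A s C * (∑' x : 𝓞 K, ind K (b C) (Ideal.span {x}) * (fs K s x : ℂ)) = A s C *
      (∑' x : 𝓞 K, ind K (b C) (Ideal.span {x}) * (fs K s x : ℂ) -
      (Ideal.absNorm (b C) : ℂ)⁻¹ * ((ZL K s : ℝ) : ℂ)) + _
    ring
  rw [Pi.div_apply, h1]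
  field_simp
  ring

section Char

variable {𝔪 : Ideal (𝓞 K)} (χ : HChar 𝔪)

theorem exists_F_lim (h𝔪 : 𝔪 ≠ ⊥) [Fintype (𝓞 K ⧸ 𝔪)] (J : Ideal (𝓞 K)) (hJ : J ≠ ⊥) (hJc : IsCoprime J 𝔪) :
    ∃ z : ℂ, Tendsto (fun s : ℝ => ∑' x : 𝓞 K, χ.F J (Ideal.span {x}) * (fs K s x : ℂ) -
        χ.G h𝔪 / ((Ideal.absNorm J : ℂ) * Ideal.absNorm 𝔪) * ((ZL K s : ℝ) : ℂ)) (𝓝[>] 1)
      (𝓝 z) := by
  have hI : J * 𝔪 ≠ ⊥ := mul_ne_zero hJ h𝔪
  haveI : Finite (𝓞 K ⧸ J * 𝔪) := Ring.HasFiniteQuotients.finiteQuotient hI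
  haveI := Fintype.ofFinite (𝓞 K ⧸ J * 𝔪)
  haveI : Finite (𝓞 K ⧸ J) := Ring.HasFiniteQuotients.finiteQuotient hJ
  haveI := Fintype.ofFinite (𝓞 K ⧸ J)
  set e := Ideal.quotientMulEquivQuotientProd J 𝔪 hJc with he
  set h : (𝓞 K ⧸ J * 𝔪) → ℂ := fun q => if (e q).1 = 0 then χ.g h𝔪 (e q).2 else 0 with hh
  obtain ⟨z, hz⟩ := exists_periodic_lim (J * 𝔪) hI h
  refine ⟨z, hz.congr' ?_⟩
  filter_upwards [eventually_Ioc] with s hs'
  obtain ⟨hs, hs2⟩ := hs'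
  have e1 : ∀ x : 𝓞 K, e (Ideal.Quotient.mk (J * 𝔪) x) = (Ideal.Quotient.mk J x, Ideal.Quotient.mk 𝔪 x) := by
    intro x
    rfl
  have e2 : ∀ x : 𝓞 K, h (Ideal.Quotient.mk (J * 𝔪) x) * (fs K s x : ℂ) =
      χ.F J (Ideal.span {x}) * (fs K s x : ℂ) := by
    intro x
    by_cases hx : x = 0
    · subst hx
      rw [fs_zero K (by linarith)]
      simp
    · congr 1
      simp only [hh, e1, HChar.F]
      rw [Ideal.Quotient.eq_zero_iff_mem, HChar.g_mk _ _ hx, Ideal.dvd_span_singleton]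
  have e3 : ∑ q, h q = χ.G h𝔪 := by
    rw [HChar.G, ← e.toEquiv.symm.sum_comp, Fintype.sum_prod_type]
    rw [Finset.sum_eq_single 0]
    · refine Finset.sum_congr rfl fun q _ => ?_
      simp [hh]
    · intro a _ ha
      refine Finset.sum_eq_zero fun q _ => ?_
      simp [hh, ha]
    · intro h; exact absurd (Finset.mem_univ _) h
  rw [e3, tsum_congr e2, map_mul, Nat.cast_mul]

/-- the expansion of the `L`-series with a remainder which has a limit -/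
theorem exists_L_lim (h𝔪 : 𝔪 ≠ ⊥) [Fintype (𝓞 K ⧸ 𝔪)] (J : Ideal (𝓞 K)) (hJ : J ≠ ⊥) (hJc : IsCoprime J 𝔪) :
    ∃ z : ℂ, Tendsto (fun s : ℝ => χ.L J s - χ.kap h𝔪 / (Ideal.absNorm J : ℂ) * ((ZL K s : ℝ) : ℂ))
      (𝓝[>] 1) (𝓝 z) := by
  choose B hB using fun C : ClassGroup (𝓞 K) =>
    exists_F_lim χ h𝔪 (J * cRep 𝔪 h𝔪 C) (mul_ne_zero hJ (cRep_ne_bot 𝔪 h𝔪 C))
      (IsCoprime.mul_left hJc (cRep_coprime 𝔪 h𝔪 C))
  obtain ⟨ρ, hρ⟩ := exists_ZL_lim K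
  have hN1 : ∀ C : ClassGroup (𝓞 K), (1 : ℝ) ≤ Ideal.absNorm (cRep 𝔪 h𝔪 C) := fun C => by
    exact_mod_cast Nat.one_le_iff_ne_zero.mpr
      (Ideal.absNorm_eq_zero_iff.not.mpr (cRep_ne_bot 𝔪 h𝔪 C))
  set g0 : ℂ := χ.G h𝔪 / ((Ideal.absNorm J : ℂ) * Ideal.absNorm 𝔪) with hg0
  have hlim : ∀ C : ClassGroup (𝓞 K), ∃ z : ℂ, Tendsto (fun s : ℝ =>
      ((torsionOrder K : ℂ) * χ.ψ (cRep 𝔪 h𝔪 C))⁻¹ *
        ((((Ideal.absNorm (cRep 𝔪 h𝔪 C) : ℝ) ^ s : ℝ) : ℂ) *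
          (∑' x : 𝓞 K, χ.F (J * cRep 𝔪 h𝔪 C) (Ideal.span {x}) * (fs K s x : ℂ) -
            χ.G h𝔪 / ((Ideal.absNorm (J * cRep 𝔪 h𝔪 C) : ℂ) *
          Ideal.absNorm 𝔪) * ((ZL K s : ℝ) : ℂ)) +
          g0 * ((((Ideal.absNorm (cRep 𝔪 h𝔪 C) : ℝ) ^ (s - 1) - 1) * ZL K s : ℝ) : ℂ)))
      (𝓝[>] 1) (𝓝 z) := by
    intro C
    have hN0 : (0 : ℝ) < Ideal.absNorm (cRep 𝔪 h𝔪 C) := lt_of_lt_of_le one_pos (hN1 C)
    have h1 : Tendsto (fun s : ℝ => (((Ideal.absNorm (cRep 𝔪 h𝔪 C) : ℝ) ^ s : ℝ) : ℂ)) (𝓝[>] 1)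
        (𝓝 (((Ideal.absNorm (cRep 𝔪 h𝔪 C) : ℝ) ^ (1 : ℝ) : ℝ) : ℂ)) := by
      have h2 : ContinuousAt (fun s : ℝ => (Ideal.absNorm (cRep 𝔪 h𝔪 C) : ℝ) ^ s) 1 :=
        ContinuousAt.rpow continuousAt_const continuousAt_id (Or.inl hN0.ne')
      exact (Complex.continuous_ofReal.tendsto _).comp (h2.tendsto.mono_left nhdsWithin_le_nhds)
    have h3 : Tendsto (fun s : ℝ => ((((Ideal.absNorm (cRep 𝔪 h𝔪 C) : ℝ) ^ (s - 1) - 1) *
        ZL K s : ℝ) : ℂ)) (𝓝[>] 1)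
        (𝓝 (((Real.log (Ideal.absNorm (cRep 𝔪 h𝔪 C) : ℝ) : ℝ) : ℂ) * ρ)) := by
      have h4 := ((Complex.continuous_ofReal.tendsto _).comp (tendsto_rpow_slope hN0)).mul hρ
      refine h4.congr' ?_
      filter_upwards [eventually_Ioc] with s hs
      have h5 : ((s - 1 : ℝ) : ℂ) ≠ 0 := by
        exact_mod_cast (sub_pos.mpr hs.1).ne'
      simp only [Function.comp_apply]
      rw [Complex.ofReal_div, Complex.ofReal_mul]
      field_simp
    exact ⟨_, ((h1.mul (hB C)).add (h3.const_mul g0)).const_mul _⟩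
  choose z hz using hlim
  refine ⟨∑ C, z C, (tendsto_finsetSum _ fun C _ => hz C).congr' ?_⟩
  filter_upwards [eventually_Ioc] with s hs1
  rw [χ.hasSum_L h𝔪 J hs1.1 hs1.2, HChar.kap, Finset.sum_div, Finset.sum_mul, ← Finset.sum_sub_distrib]
  refine Finset.sum_congr rfl fun C _ => ?_
  set N : ℝ := ((Ideal.absNorm (cRep 𝔪 h𝔪 C) : ℕ) : ℝ) with hN
  have hNpos : 0 < N := lt_of_lt_of_le one_pos (hN1 C)
  have hw : (torsionOrder K : ℂ) ≠ 0 := by exact_mod_cast (torsionOrder_pos K).ne'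
  have hψ := χ.ne_zero (cRep_ne_bot 𝔪 h𝔪 C) (cRep_coprime 𝔪 h𝔪 C)
  set S : ℂ := ∑' x : 𝓞 K, χ.F (J * cRep 𝔪 h𝔪 C) (Ideal.span {x}) * (fs K s x : ℂ) with hS
  have hnrm : nrm K s (cRep 𝔪 h𝔪 C) = (N ^ s)⁻¹ := by rw [nrm, ← hN, Real.rpow_neg hNpos.le]
  have hNs : N ^ s = N * N ^ (s - 1) := by
    rw [show s = 1 + (s - 1) by ring, Real.rpow_add hNpos, Real.rpow_one]
    congr 2
    ring
  symm
  have hJ0 : (Ideal.absNorm J : ℂ) ≠ 0 := by
    exact_mod_cast Ideal.absNorm_eq_zero_iff.not.mpr hJ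
  have hm0 : (Ideal.absNorm 𝔪 : ℂ) ≠ 0 := by
    exact_mod_cast Ideal.absNorm_eq_zero_iff.not.mpr h𝔪
  have hNC : ((Ideal.absNorm (cRep 𝔪 h𝔪 C) : ℕ) : ℂ) = ((N : ℝ) : ℂ) := by rw [hN]; simp
  have hN0 : ((N : ℝ) : ℂ) ≠ 0 := by exact_mod_cast hNpos.ne'
  have hNs0 : ((N ^ (s - 1) : ℝ) : ℂ) ≠ 0 := by
    exact_mod_cast (Real.rpow_pos_of_pos hNpos _).ne'
  rw [hnrm, hg0, map_mul, Nat.cast_mul, hNC, hNs]
  push_cast
  set t : ℂ := ((N : ℝ) : ℂ) ^ ((s : ℂ) - 1) with ht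
  have ht0 : t ≠ 0 := by
    rw [ht, show ((s : ℂ) - 1) = ((s - 1 : ℝ) : ℂ) by push_cast; ring,
      ← Complex.ofReal_cpow hNpos.le]
    exact hNs0
  field_simp
  ring

/-- **The limit of `L(s, ψ)` at `s = 1`** exists for nontrivial `ψ`. -/
theorem exists_tendsto (h𝔪 : 𝔪 ≠ ⊥) (hχ : ∃ J : Ideal (𝓞 K), J ≠ ⊥ ∧ IsCoprime J 𝔪 ∧ χ.ψ J ≠ 1) :
    ∃ z : ℂ, Tendsto (fun s : ℝ => ∑' I : Ideal (𝓞 K), χ.ψ I * (nrm K s I : ℂ)) (𝓝[>] 1) (𝓝 z) := by
  have : Finite (𝓞 K ⧸ 𝔪) := Ring.HasFiniteQuotients.finiteQuotient h𝔪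
  have := Fintype.ofFinite (𝓞 K ⧸ 𝔪)
  obtain ⟨z, hz⟩ := exists_L_lim χ h𝔪 ⊤ top_ne_bot (Ideal.isCoprime_iff_sup_eq.mpr (by simp))
  refine ⟨z, hz.congr fun s => ?_⟩
  rw [χ.kap_eq_zero h𝔪 hχ, zero_div, zero_mul, sub_zero, HChar.L]
  simp only [HChar.F_top]

end Char

end Fermat.Agent.Cor.LLim
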