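import Fermat.Agent.Cor.Picard

/-!
# Landau's theorem

This file is not used by any of the statement files.

* `landau`: if `f` is holomorphic and omits the values `0` and `1728` in the disc of radius `R`, and
  `f(0) = j(τ)`, then `R |f'(0)| ≤ 2 Im(τ) |j'(τ)|`;
* `landau_classical`: for `a ≠ b` there is a function `C` such that `R |f'(0)| ≤ C(f(0))` for all
  holomorphic functions `f` on the disc of radius `R` which omit the values `a` and `b`.

The proof: lift `f` to the upper half plane by the covering `j`, and apply the Schwarz lemma.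
-/

set_option autoImplicit false

noncomputable section

namespace Fermat.Agent.Cor.Picard

open UpperHalfPlane hiding I
open MatrixGroups Topology Filter
open Fermat.Agent.H18 (jfun)

/-- lifting on a disc -/
theorem exists_lift_ball {f : ℂ → ℂ} {R : ℝ} (hR : 0 < R) (hf : ContinuousOn f (Metric.ball 0 R))
    (h0 : ∀ z ∈ Metric.ball (0 : ℂ) R, f z ∈ U0) {τ : ℍ} (hτ : jfun τ = f 0) :
    ∃ F : ℂ → ℍ, ContinuousOn F (Metric.ball 0 R) ∧ F 0 = τ ∧
      ∀ z ∈ Metric.ball (0 : ℂ) R, jfun (F z) = f z := by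
  have hcov := isCoveringMapOn_jfun.isCoveringMap_restrictPreimage
  have hz0 : (0 : ℂ) ∈ Metric.ball (0 : ℂ) R := Metric.mem_ball_self hR
  have : ContractibleSpace (Metric.ball (0 : ℂ) R) :=
    (convex_ball (0 : ℂ) R).contractibleSpace ⟨0, hz0⟩
  have : LocallyPathConnectedSpace (Metric.ball (0 : ℂ) R) :=
    Metric.isOpen_ball.locallyPathConnectedSpace
  let g : C(Metric.ball (0 : ℂ) R, U0) := ⟨fun z => ⟨f z, h0 z z.2⟩,
    (continuousOn_iff_continuous_domRestrict.mp hf).subtype_mk _⟩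
  have hτU : τ ∈ jfun ⁻¹' U0 := by
    show jfun τ ∈ U0
    rw [hτ]; exact h0 0 hz0
  obtain ⟨F, ⟨hF0, hF⟩, -⟩ := hcov.existsUnique_continuousMap_lifts g ⟨0, hz0⟩ ⟨τ, hτU⟩
    (Subtype.ext hτ)
  classical
  refine ⟨fun z => if h : z ∈ Metric.ball (0 : ℂ) R then (F ⟨z, h⟩).1 else τ, ?_, ?_, ?_⟩
  · rw [continuousOn_iff_continuous_domRestrict]
    have h1 : (Metric.ball (0 : ℂ) R).domRestrict (fun z =>
        if h : z ∈ Metric.ball (0 : ℂ) R then (F ⟨z, h⟩).1 else τ) = fun z => (F z).1 := by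
      funext z
      exact dif_pos z.2
    rw [h1]
    exact continuous_subtype_val.comp F.continuous
  · show (if h : (0 : ℂ) ∈ Metric.ball (0 : ℂ) R then (F ⟨0, h⟩).1 else τ) = τ
    rw [dif_pos hz0, hF0]
  · intro z hz
    show jfun (if h : z ∈ Metric.ball (0 : ℂ) R then (F ⟨z, h⟩).1 else τ) = f z
    rw [dif_pos hz]
    exact congrArg Subtype.val (congrFun hF ⟨z, hz⟩)

/-- the derivative of the lift -/
theorem hasDerivAt_lift {f : ℂ → ℂ} {s : Set ℂ} (hs : IsOpen s) (hf : DifferentiableOn ℂ f s)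
    (h0 : ∀ z ∈ s, f z ∈ U0) {F : ℂ → ℍ} (hF : ContinuousOn F s) (hj : ∀ z ∈ s, jfun (F z) = f z)
    {z : ℂ} (hz : z ∈ s) :
    HasDerivAt (fun z => (F z : ℂ)) ((deriv (jfun ∘ ofComplex) (F z))⁻¹ * deriv f z) z := by
  obtain ⟨h1, h2⟩ := h0 z hz
  rw [← hj z hz] at h1 h2
  have h4 : ModularForm.E₄ (F z) ≠ 0 := fun h => h1 ((ES.jfun_eq_zero_iff _).mpr h)
  have h6 : ModularForm.E₆ (F z) ≠ 0 := fun h => h2 ((ES.jfun_eq_1728_iff _).mpr h)
  have hd := H18.deriv_jfun_ne_zero (F z) h4 h6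
  have hs' : HasStrictDerivAt (jfun ∘ ofComplex) (deriv (jfun ∘ ofComplex) (F z)) (F z) :=
    (ES.jfun_analytic (F z) (F z).im_pos).hasStrictDerivAt
  set φ : ℂ → ℂ := hs'.localInverse (jfun ∘ ofComplex) _ _ hd with hφ
  have hφd := hs'.to_localInverse hd
  have hcomp : (jfun ∘ ofComplex) (F z) = f z := by
    rw [Function.comp_apply, ofComplex_apply, hj z hz]
  rw [hcomp] at hφd
  have hleft := hs'.eventually_left_inverse hd
  have hcontF : ContinuousAt (fun w => (F w : ℂ)) z :=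
    UpperHalfPlane.continuous_coe.continuousAt.comp (hF.continuousAt (hs.mem_nhds hz))
  have hev : (fun w => (F w : ℂ)) =ᶠ[𝓝 z] fun w => φ (f w) := by
    filter_upwards [hcontF.eventually hleft, hs.mem_nhds hz] with w hw hws
    rw [Function.comp_apply, ofComplex_apply, hj w hws] at hw
    exact hw.symm
  exact (hφd.hasDerivAt.comp z ((hf z hz).differentiableAt (hs.mem_nhds hz)).hasDerivAt)
    |>.congr_of_eventuallyEq hev

/-- **Landau's theorem**: if `f` is holomorphic and omits the values `0` and `1728` in the disc of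
radius `R` and `f(0) = j(τ)`, then `R |f'(0)| ≤ 2 Im(τ) |j'(τ)|`. -/
theorem landau {f : ℂ → ℂ} {R : ℝ} (hR : 0 < R) (hf : DifferentiableOn ℂ f (Metric.ball 0 R))
    (h0 : ∀ z ∈ Metric.ball (0 : ℂ) R, f z ≠ 0 ∧ f z ≠ 1728) {τ : ℍ} (hτ : jfun τ = f 0) :
    R * ‖deriv f 0‖ ≤ 2 * τ.im * ‖deriv (jfun ∘ ofComplex) τ‖ := by
  have hz0 : (0 : ℂ) ∈ Metric.ball (0 : ℂ) R := Metric.mem_ball_self hR
  obtain ⟨F, hFc, hF0, hFj⟩ := exists_lift_ball hR hf.continuousOn h0 hτ
  have hder := fun z hz => hasDerivAt_lift Metric.isOpen_ball hf h0 hFc hFj (z := z) hz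
  set s := starRingEnd ℂ (τ : ℂ) with hs
  have hne : ∀ z, (F z : ℂ) - s ≠ 0 := by
    intro z h
    have h1 := congrArg Complex.im h
    simp only [hs, Complex.sub_im, Complex.conj_im, Complex.zero_im, sub_neg_eq_add] at h1
    have h2 := (F z).im_pos
    have h3 := τ.im_pos
    change (F z).im + τ.im = 0 at h1
    linarith
  set G : ℂ → ℂ := fun z => ((F z : ℂ) - τ) / ((F z : ℂ) - s) with hG
  have hGd : ∀ z ∈ Metric.ball (0 : ℂ) R, HasDerivAt G
      ((((deriv (jfun ∘ ofComplex) (F z))⁻¹ * deriv f z) * ((F z : ℂ) - s) -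
        ((F z : ℂ) - τ) * ((deriv (jfun ∘ ofComplex) (F z))⁻¹ * deriv f z)) /
          ((F z : ℂ) - s) ^ 2) z := fun z hz =>
    ((hder z hz).sub_const _).div ((hder z hz).sub_const _) (hne z)
  have hG0 : G 0 = 0 := by
    simp only [hG, hF0, sub_self, zero_div]
  have hmaps : Set.MapsTo G (Metric.ball 0 R) (Metric.closedBall (G 0) 1) := by
    intro z _
    rw [hG0, mem_closedBall_zero_iff, hG]
    simp only
    rw [norm_div, div_le_one (norm_pos_iff.mpr (hne z))]
    have e1 : ‖(F z : ℂ) - τ‖ ^ 2 = ((F z).re - τ.re) ^ 2 + ((F z).im - τ.im) ^ 2 := by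
      rw [← Complex.normSq_eq_norm_sq, Complex.normSq_apply]
      simp only [Complex.sub_re, Complex.sub_im]
      show ((F z).re - τ.re) * ((F z).re - τ.re) + ((F z).im - τ.im) * ((F z).im - τ.im) = _
      ring
    have e2 : ‖(F z : ℂ) - s‖ ^ 2 = ((F z).re - τ.re) ^ 2 + ((F z).im + τ.im) ^ 2 := by
      rw [← Complex.normSq_eq_norm_sq, Complex.normSq_apply]
      simp only [hs, Complex.sub_re, Complex.sub_im, Complex.conj_re, Complex.conj_im]
      show ((F z).re - τ.re) * ((F z).re - τ.re) + ((F z).im - -τ.im) * ((F z).im - -τ.im) = _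
      ring
    have h2 := (F z).im_pos
    have h3 := τ.im_pos
    apply le_of_sq_le_sq _ (norm_nonneg _)
    rw [e1, e2]
    nlinarith [mul_pos h2 h3]
  have hschwarz := Complex.norm_deriv_le_div_of_mapsTo_ball
    (fun z hz => (hGd z hz).differentiableAt.differentiableWithinAt) hmaps hR
  have hd0 := (hGd 0 hz0).deriv
  rw [hF0] at hd0
  have him : (τ : ℂ) - s = 2 * τ.im * Complex.I := by
    apply Complex.ext
    · simp [hs]
    · simp only [hs, Complex.sub_im, Complex.conj_im, Complex.mul_im, Complex.mul_re, Complex.I_re,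
        Complex.I_im, Complex.ofReal_re, Complex.ofReal_im]
      norm_num
      ring
  have h1728 := h0 0 hz0
  rw [← hτ] at h1728
  have h4 : ModularForm.E₄ τ ≠ 0 := fun h => h1728.1 ((ES.jfun_eq_zero_iff _).mpr h)
  have h6 : ModularForm.E₆ τ ≠ 0 := fun h => h1728.2 ((ES.jfun_eq_1728_iff _).mpr h)
  have hd := H18.deriv_jfun_ne_zero τ h4 h6
  have hτim := τ.im_pos
  have hs0 : (τ : ℂ) - s ≠ 0 := by rw [← hF0]; exact hne 0
  have hG' : deriv G 0 = deriv f 0 / (deriv (jfun ∘ ofComplex) τ * ((τ : ℂ) - s)) := by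
    rw [hd0, sub_self, zero_mul, sub_zero]
    field_simp
  rw [hG', norm_div, norm_mul, him, div_le_div_iff₀ (by
    apply mul_pos (norm_pos_iff.mpr hd)
    rw [← him]; exact norm_pos_iff.mpr hs0) hR, one_mul] at hschwarz
  have hn : ‖(2 * τ.im * Complex.I : ℂ)‖ = 2 * τ.im := by
    rw [norm_mul, norm_mul, Complex.norm_I, mul_one, Complex.norm_real, Real.norm_eq_abs,
      abs_of_pos hτim]
    norm_num
  rw [hn] at hschwarz
  linarith

/-- **Landau's theorem**, classical form. -/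
theorem landau_classical {a b : ℂ} (hab : a ≠ b) : ∃ C : ℂ → ℝ, ∀ R : ℝ, 0 < R → ∀ f : ℂ → ℂ,
    DifferentiableOn ℂ f (Metric.ball 0 R) → (∀ z ∈ Metric.ball (0 : ℂ) R, f z ≠ a ∧ f z ≠ b) →
      R * ‖deriv f 0‖ ≤ C (f 0) := by
  have hba : b - a ≠ 0 := sub_ne_zero.mpr hab.symm
  have hba' : 0 < ‖b - a‖ := norm_pos_iff.mpr hba
  choose T hT using fun w : ℂ => H18.jfun_surjective (1728 / (b - a) * (w - a))
  refine ⟨fun w => ‖b - a‖ / 1728 * (2 * (T w).im * ‖deriv (jfun ∘ ofComplex) (T w)‖),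
    fun R hR f hf h0 => ?_⟩
  have hz0 : (0 : ℂ) ∈ Metric.ball (0 : ℂ) R := Metric.mem_ball_self hR
  have hc : (1728 : ℂ) / (b - a) ≠ 0 := div_ne_zero (by norm_num) hba
  have key := landau (f := fun z => 1728 / (b - a) * (f z - a)) hR
    ((hf.sub_const a).const_mul _) (fun z hz => by
      obtain ⟨h1, h2⟩ := h0 z hz
      refine ⟨mul_ne_zero hc (sub_ne_zero.mpr h1), fun h => h2 ?_⟩
      have h3 : 1728 / (b - a) * (f z - a) = 1728 / (b - a) * (b - a) := by
        rw [h, div_mul_cancel₀ _ hba]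
      exact sub_left_injective (mul_left_cancel₀ hc h3)) (hT (f 0))
  have hd : deriv (fun z => 1728 / (b - a) * (f z - a)) 0 = 1728 / (b - a) * deriv f 0 := by
    have h1 := ((hf 0 hz0).differentiableAt (Metric.isOpen_ball.mem_nhds hz0)).hasDerivAt
    exact ((h1.sub_const a).const_mul _).deriv
  rw [hd, norm_mul, norm_div] at key
  have h1728 : ‖(1728 : ℂ)‖ = 1728 := by norm_num
  rw [h1728] at key
  show R * ‖deriv f 0‖ ≤ ‖b - a‖ / 1728 * (2 * (T (f 0)).im * ‖deriv (jfun ∘ ofComplex) (T (f 0))‖)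
  calc R * ‖deriv f 0‖ = ‖b - a‖ / 1728 * (R * (1728 / ‖b - a‖ * ‖deriv f 0‖)) := by
        field_simp
    _ ≤ _ := by gcongr

end Fermat.Agent.Cor.Picard
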