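import Fermat.Agent.Cor.EigenTable
import Fermat.Agent.S23
import Fermat.Agent.H13.Dual

/-!
# Integral bases of the space of cusp forms of weight two

A `ℤ`-basis of the lattice of forms with integral coefficients is a `ℂ`-basis of `S₂(Γ₀(N))`; the characteristic
polynomials of the Hecke operators have integral coefficients.

This file is not used by any of the statement files.
-/

set_option autoImplicit false

namespace Fermat.Agent.Cor.LatticeBasis

open ModularFormClass CongruenceSubgroup

/-- integral vectors which are independent over `ℤ` are independent over `ℂ` -/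
theorem eq_zero_of_int {ι : Type*} [Fintype ι] {v : ι → ℕ → ℤ} (hv : LinearIndependent ℤ v)
    (c : ι → ℂ) (hc : ∀ n, ∑ i, c i * (v i n : ℂ) = 0) (i : ι) : c i = 0 := by
  rw [← Module.forall_dual_apply_eq_zero_iff ℚ]
  intro φ
  obtain ⟨d, hd⟩ := IsLocalization.exist_integer_multiples_of_finite (nonZeroDivisors ℤ)
    (fun i => φ (c i))
  choose m hm using hd
  have h1 : ∑ i, m i • v i = 0 := by
    funext n
    have h2 : ((∑ i, m i * v i n : ℤ) : ℚ) = (d : ℤ) * φ (∑ i, c i * (v i n : ℂ)) := by
      rw [map_sum, Finset.mul_sum]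
      push_cast
      refine Finset.sum_congr rfl fun i _ => ?_
      have h3 : c i * (v i n : ℂ) = (v i n : ℚ) • c i := by
        rw [Algebra.smul_def]
        simp [mul_comm]
      have h4 : ((m i : ℤ) : ℚ) = (d : ℤ) * φ (c i) := by
        have := hm i
        simpa [Algebra.smul_def] using this
      rw [h3, map_smul, smul_eq_mul, h4]
      ring
    rw [hc, map_zero, mul_zero] at h2
    simpa using (by exact_mod_cast h2 : ∑ i, m i * v i n = 0)
  have h2 := Fintype.linearIndependent_iff.mp hv m h1 i
  have h3 := hm i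
  rw [h2, map_zero] at h3
  have h4 : ((d : ℤ) : ℚ) * φ (c i) = 0 := by
    rw [Algebra.smul_def] at h3
    exact h3.symm
  rcases mul_eq_zero.mp h4 with h5 | h5
  · exact absurd (by exact_mod_cast h5) (nonZeroDivisors.coe_ne_zero d)
  · exact h5

section Basis

variable (N : ℕ) [NeZero N]

/-- the lattice of cusp forms of weight two with integral coefficients -/
abbrev LL := ↥(CuspForm.intLattice N 2)

instance : Module.Finite ℤ (LL N) := CuspForm.intLattice.moduleFinite N

instance : Module.Free ℤ (LL N) := CuspForm.intLattice.moduleFree N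

/-- the index set of a `ℤ`-basis of the lattice -/
abbrev Idx := Module.Free.ChooseBasisIndex ℤ (LL N)

/-- a `ℤ`-basis of the lattice -/
noncomputable def bL : Module.Basis (Idx N) ℤ (LL N) := Module.Free.chooseBasis ℤ (LL N)

theorem linearIndependent_coef :
    LinearIndependent ℤ (fun i => H13.coefL N (bL N i)) := by
  refine (bL N).linearIndependent.map' (H13.coefL N) ?_
  rw [LinearMap.ker_eq_bot, injective_iff_map_eq_zero]
  intro g hg
  apply Subtype.ext
  refine H22.cusp_eq_zero_of_qCoeff g.1 fun n _ => ?_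
  rw [H13.coefL_spec, hg]
  simp

theorem linearIndependent_bL :
    LinearIndependent ℂ (fun i => (bL N i : CuspForm (Gamma0 N) 2)) := by
  rw [Fintype.linearIndependent_iff]
  intro c hc
  refine eq_zero_of_int (linearIndependent_coef N) c fun n => ?_
  have h := congrArg (EigenTable.coeffL N n) hc
  rw [map_sum, map_zero] at h
  rw [← h]
  refine Finset.sum_congr rfl fun i _ => ?_
  rw [map_smul, EigenTable.coeffL_apply, H13.coefL_spec, smul_eq_mul]

theorem span_bL : ⊤ ≤ Submodule.span ℂ (Set.range fun i => (bL N i : CuspForm (Gamma0 N) 2)) := by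
  have h : Submodule.span ℂ ((CuspForm.intLattice N 2 : Submodule ℤ (CuspForm (Gamma0 N) 2)) :
      Set (CuspForm (Gamma0 N) 2)) = ⊤ := S23.result N
  rw [← h, Submodule.span_le]
  intro f hf
  have h1 := (bL N).sum_repr ⟨f, hf⟩
  have h2 : f = ∑ i, ((bL N).repr ⟨f, hf⟩ i : ℂ) • (bL N i : CuspForm (Gamma0 N) 2) := by
    conv_lhs => rw [← show ((⟨f, hf⟩ : LL N) : CuspForm (Gamma0 N) 2) = f from rfl, ← h1]
    rw [AddSubmonoidClass.coe_finsetSum]
    refine Finset.sum_congr rfl fun i _ => ?_
    rw [Submodule.coe_smul, Int.cast_smul_eq_zsmul]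
  rw [h2]
  exact Submodule.sum_mem _ fun i _ => Submodule.smul_mem _ _ (Submodule.subset_span ⟨i, rfl⟩)

/-- **The integral basis** of `S₂(Γ₀(N))` -/
noncomputable def BV : Module.Basis (Idx N) ℂ (CuspForm (Gamma0 N) 2) :=
  Module.Basis.mk (linearIndependent_bL N) (span_bL N)

theorem BV_apply (i : Idx N) : BV N i = (bL N i : CuspForm (Gamma0 N) 2) :=
  Module.Basis.mk_apply _ _ _

theorem BV_repr (f : LL N) (i : Idx N) :
    (BV N).repr (f : CuspForm (Gamma0 N) 2) i = ((bL N).repr f i : ℂ) := by
  have h1 := (bL N).sum_repr f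
  have h2 : (f : CuspForm (Gamma0 N) 2) = ∑ i, ((bL N).repr f i : ℂ) • BV N i := by
    conv_lhs => rw [← h1]
    rw [AddSubmonoidClass.coe_finsetSum]
    refine Finset.sum_congr rfl fun i _ => ?_
    rw [Submodule.coe_smul, Int.cast_smul_eq_zsmul, BV_apply]
  rw [h2, Module.Basis.repr_sum_self]

/-- the rank of the lattice is the dimension of the space of cusp forms -/
theorem finrank_lattice :
    Module.finrank ℤ (LL N) = Module.finrank ℂ (CuspForm (Gamma0 N) 2) := by
  rw [Module.finrank_eq_card_basis (bL N), Module.finrank_eq_card_basis (BV N)]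

/-- **Integrality of the characteristic polynomials of the Hecke operators.** -/
theorem charpoly_eq {T : Module.End ℂ (CuspForm (Gamma0 N) 2)} {TL : Module.End ℤ (LL N)}
    (h : ∀ f : LL N, ((TL f : LL N) : CuspForm (Gamma0 N) 2) = T f) :
    T.charpoly = TL.charpoly.map (Int.castRingHom ℂ) := by
  rw [← LinearMap.charpoly_toMatrix T (BV N), ← LinearMap.charpoly_toMatrix TL (bL N),
    ← Matrix.charpoly_map]
  congr 1
  ext i j
  rw [Matrix.map_apply, LinearMap.toMatrix_apply, LinearMap.toMatrix_apply, BV_apply, ← h,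
    BV_repr]
  rfl

end Basis

end Fermat.Agent.Cor.LatticeBasis
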