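import Mathlib
import Fermat.Agent.Cor.Lehmer
import Fermat.Agent.Cor.LWeil

/-!
# The zeros of the coefficients of the L-function of a semistable elliptic curve

Let `W` be a semistable elliptic curve over `ℚ` and `aN W n` the coefficients of its Hasse–Weil L-function.

* `exists_supersingular`: if `aN W n = 0` for some `n ≥ 1`, then `W` has good supersingular reduction at some prime
  divisor `p` of `n` (`p ∣ ap W p`).
* `aN_eq_zero_iff`: for `n` prime to `6`: `aN W n = 0` if and only if there is a prime `p` with `ap W p = 0` such that the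
  exponent of `p` in `n` is odd.
* `prime_of_isLeast`: the least `n` prime to `6` with `aN W n = 0`, if there is one, is a prime number.

This file is not used by any of the statement files.
-/

set_option autoImplicit false

namespace Fermat.Agent.Cor.LehmerCurve

open Fermat.Agent.Cor.LWeil Fermat.Agent.Cor.AffCount Fermat.Agent.Cor.Lehmer

variable {W : WeierstrassCurve ℤ}

theorem apk_bad {p : ℕ} (hd : (p : ℤ) ∣ W.Δ) (k : ℕ) : apk W p k = ap W p ^ k := by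
  induction k using Nat.twoStepInduction with
  | zero => rw [apk, pow_zero]
  | one => rw [apk, pow_one]
  | more k h1 h2 => rw [apk, if_pos hd, h2, zero_mul, sub_zero]; ring

theorem apk_good {p : ℕ} (hd : ¬ (p : ℤ) ∣ W.Δ) (k : ℕ) :
    apk W p (k + 2) = ap W p * apk W p (k + 1) - p * apk W p k := by
  rw [apk, if_neg hd]

theorem apk_bad_ne_zero (hΔ : W.Δ ≠ 0) (hW : W.IsSemistableModel) {p : ℕ} (hp : p.Prime)
    (hd : (p : ℤ) ∣ W.Δ) (k : ℕ) : apk W p k ≠ 0 := by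
  rw [apk_bad hd]
  apply pow_ne_zero
  rcases ap_eq_one_or hΔ hW hp hd with h | h <;> rw [h] <;> norm_num

theorem exists_c {p : ℕ} (hp : p.Prime) (hd : ¬ (p : ℤ) ∣ W.Δ) {k : ℕ} (h : apk W p k = 0) :
    ∃ c : ℤ, 0 ≤ c ∧ c ≤ 4 ∧ ap W p ^ 2 = c * p :=
  exists_of_zero (U := apk W p) (by exact_mod_cast hp.ne_zero) (by rw [apk]) (by rw [apk])
    (apk_good hd) h

theorem exists_prime {n : ℕ} (hn : n ≠ 0) (h : aN W n = 0) :
    ∃ p : ℕ, p.Prime ∧ p ∣ n ∧ apk W p (n.factorization p) = 0 := by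
  rw [aN, if_neg hn, Finsupp.prod, Finset.prod_eq_zero_iff] at h
  obtain ⟨p, hp, h0⟩ := h
  rw [Nat.support_factorization] at hp
  exact ⟨p, Nat.prime_of_mem_primeFactors hp, Nat.dvd_of_mem_primeFactors hp, h0⟩

/-- **If `a_n = 0` then the curve has good supersingular reduction at a prime divisor of `n`.** -/
theorem exists_supersingular (hΔ : W.Δ ≠ 0) (hW : W.IsSemistableModel) {n : ℕ} (hn : n ≠ 0)
    (h : aN W n = 0) : ∃ p : ℕ, p.Prime ∧ p ∣ n ∧ ¬ (p : ℤ) ∣ W.Δ ∧ (p : ℤ) ∣ ap W p := by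
  obtain ⟨p, hp, hpn, h0⟩ := exists_prime hn h
  have hd : ¬ (p : ℤ) ∣ W.Δ := fun hd ↦ apk_bad_ne_zero hΔ hW hp hd _ h0
  obtain ⟨c, _, _, hc⟩ := exists_c hp hd h0
  have h1 : (p : ℤ) ∣ ap W p ^ 2 := ⟨c, by rw [hc]; ring⟩
  exact ⟨p, hp, hpn, hd, (Nat.prime_iff_prime_int.mp hp).dvd_of_dvd_pow h1⟩

/-- for `p ≥ 5`: `a_{p ^ k} = 0` implies `a_p = 0` -/
theorem ap_eq_zero (hΔ : W.Δ ≠ 0) (hW : W.IsSemistableModel) {p : ℕ} (hp : p.Prime) (h5 : 5 ≤ p)
    {k : ℕ} (h : apk W p k = 0) : ap W p = 0 ∧ ¬ (p : ℤ) ∣ W.Δ := by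
  have hd : ¬ (p : ℤ) ∣ W.Δ := fun hd ↦ apk_bad_ne_zero hΔ hW hp hd _ h
  refine ⟨?_, hd⟩
  obtain ⟨c, hc0, hc4, hc⟩ := exists_c hp hd h
  have h1 : (p : ℤ) ∣ ap W p ^ 2 := ⟨c, by rw [hc]; ring⟩
  obtain ⟨b, hb⟩ := (Nat.prime_iff_prime_int.mp hp).dvd_of_dvd_pow h1
  have hp0 : (p : ℤ) ≠ 0 := by exact_mod_cast hp.ne_zero
  have h2 : (p : ℤ) * b ^ 2 = c := by
    apply mul_left_cancel₀ hp0
    rw [hb] at hc
    linear_combination hc
  have h5' : (5 : ℤ) ≤ p := by exact_mod_cast h5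
  have hb0 : b = 0 := by
    by_contra hb0
    have h3 : 1 ≤ b ^ 2 := by
      have := sq_nonneg b
      have h4 : b ^ 2 ≠ 0 := pow_ne_zero 2 hb0
      omega
    nlinarith
  rw [hb, hb0, mul_zero]

theorem apk_of_ap_zero {p : ℕ} (hd : ¬ (p : ℤ) ∣ W.Δ) (h : ap W p = 0) (m : ℕ) :
    apk W p (2 * m) = (-(p : ℤ)) ^ m ∧ apk W p (2 * m + 1) = 0 := by
  induction m with
  | zero => exact ⟨by rw [mul_zero, apk, pow_zero], by rw [mul_zero, zero_add, apk, h]⟩
  | succ m ih =>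
    have e1 : apk W p (2 * (m + 1)) = (-(p : ℤ)) ^ (m + 1) := by
      rw [show 2 * (m + 1) = 2 * m + 2 by ring, apk_good hd, h, ih.1]
      ring
    refine ⟨e1, ?_⟩
    rw [show 2 * (m + 1) + 1 = (2 * m + 1) + 2 by ring, apk_good hd, h, ih.2]
    ring

/-- **The zeros of `a_n` for `n` prime to `6`.** -/
theorem aN_eq_zero_iff (hΔ : W.Δ ≠ 0) (hW : W.IsSemistableModel) {n : ℕ} (hn : n ≠ 0)
    (h6 : n.Coprime 6) :
    aN W n = 0 ↔ ∃ p : ℕ, p.Prime ∧ ap W p = 0 ∧ Odd (n.factorization p) := by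
  constructor
  · intro h
    obtain ⟨p, hp, hpn, h0⟩ := exists_prime hn h
    have h5 : 5 ≤ p := by
      have h2 : p ≠ 2 := by
        rintro rfl
        exact absurd (Nat.dvd_gcd hpn (by norm_num : 2 ∣ 6)) (by rw [h6]; norm_num)
      have h3 : p ≠ 3 := by
        rintro rfl
        exact absurd (Nat.dvd_gcd hpn (by norm_num : 3 ∣ 6)) (by rw [h6]; norm_num)
      have h4 : p ≠ 4 := by rintro rfl; exact absurd hp (by norm_num)
      have := hp.two_le
      omega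
    obtain ⟨ha, hd⟩ := ap_eq_zero hΔ hW hp h5 h0
    refine ⟨p, hp, ha, ?_⟩
    by_contra hodd
    rw [Nat.not_odd_iff_even] at hodd
    obtain ⟨m, hm⟩ := hodd
    rw [hm, ← two_mul, (apk_of_ap_zero hd ha m).1] at h0
    exact pow_ne_zero m (neg_ne_zero.mpr (by exact_mod_cast hp.ne_zero)) h0
  · rintro ⟨p, hp, ha, m, hm⟩
    rw [aN, if_neg hn, Finsupp.prod, Finset.prod_eq_zero_iff]
    refine ⟨p, ?_, ?_⟩
    · rw [Finsupp.mem_support_iff, hm]
      omega
    · have hd : ¬ (p : ℤ) ∣ W.Δ := by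
        intro hd
        rcases ap_eq_one_or hΔ hW hp hd with h | h <;> rw [ha] at h <;> norm_num at h
      rw [hm]
      exact (apk_of_ap_zero hd ha m).2

/-- the least `n` prime to `6` with `a_n = 0` is a prime number -/
theorem prime_of_isLeast (hΔ : W.Δ ≠ 0) (hW : W.IsSemistableModel) {n : ℕ}
    (h : IsLeast {n : ℕ | 0 < n ∧ n.Coprime 6 ∧ aN W n = 0} n) : n.Prime := by
  obtain ⟨p, hp, ha, hodd⟩ := (aN_eq_zero_iff hΔ hW h.1.1.ne' h.1.2.1).mp h.1.2.2
  have hpn : p ∣ n := by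
    have h1 : n.factorization p ≠ 0 := by
      intro h0
      rw [h0] at hodd
      exact absurd hodd (by decide)
    exact Nat.dvd_of_factorization_pos h1
  have hp6 : p.Coprime 6 := Nat.Coprime.coprime_dvd_left hpn h.1.2.1
  have h1 : aN W p = 0 := by
    rw [aN_eq_zero_iff hΔ hW hp.ne_zero hp6]
    refine ⟨p, hp, ha, ?_⟩
    rw [hp.factorization_self]
    exact odd_one
  have h2 : n ≤ p := h.2 ⟨hp.pos, hp6, h1⟩
  have h3 : p ≤ n := Nat.le_of_dvd h.1.1 hpn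
  rw [le_antisymm h2 h3]
  exact hp

end Fermat.Agent.Cor.LehmerCurve
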