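import Fermat.Agent.Cor.HeckeSpec
import Fermat.Agent.Cor.SemistableTable

/-!
# Level 22

There is no newform of level `22` (`SmallConductor.not_isNewform_22`), and `X₀(22)` has genus `2`.

* `coeff_two_sq`, `coeff_two_eq`: `a₂(g) = -1 ± i` for every normalised eigenform `g` of level `22`; the coefficients
  `a_n(g)` with `n` odd are those of the form of level `11` (`EigenTable.coeff_twentytwo`);
* `exists_pair`, `eq_or_eq`: there are exactly two normalised eigenforms of level `22`, and they are complex conjugate;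
* `exists_equiv`: the Hecke algebra of weight two and level `22` (generated by all `T_ℓ`, `U_2` and `U_11`) is
  isomorphic to the ring of Gaussian integers;
* `not_real`: the field of coefficients of `g` has no real embedding. So Shimura's theorem that the fields of
  coefficients of the newforms are totally real (`Shimura.shimura`) fails for eigenforms which are not newforms.

This file is not used by any of the statement files.
-/

set_option autoImplicit false

noncomputable section

namespace Fermat.Agent.Cor.Level22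

open ModularCurve ModularFormClass CongruenceSubgroup WeierstrassCurve Shimura
open Fermat.Agent.Main Fermat.Agent.Cor.GenusOne Fermat.Agent.Cor.SmallConductor
open Fermat.Agent.Cor.EigenTable

/-- the form of level `11` -/
theorem exists_form : ∃ h : CuspForm (Gamma0 11) 2, h.IsNormalizedEigenform ∧
    ∀ n, ∃ a : ℤ, qCoeff h n = a := by
  have h1 := exists_newform E11 (by rw [E11_Δ]; norm_num) E11_semistable
  rw [conductorLevel_E11] at h1
  obtain ⟨h, hh, h2⟩ := h1
  refine ⟨h, hh.1, fun n => ?_⟩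
  have h3 := qCoeff_mem_of_primes hh.1 (Int.castRingHom ℂ).range (fun q hq => ?_) n
  · obtain ⟨a, ha⟩ := h3
    exact ⟨a, ha.symm⟩
  · by_cases hq11 : q ∣ 11
    · have hq' : q = 11 := (Nat.prime_dvd_prime_iff_eq hq (by norm_num)).1 hq11
      subst hq'
      have h4 := (RootNumber.newformBadPrimeCoeff' (by norm_num) h hh 11 (by norm_num) dvd_rfl).1
        (by norm_num)
      have h5 : (qCoeff h 11 - 1) * (qCoeff h 11 + 1) = 0 := by linear_combination h4
      rcases mul_eq_zero.1 h5 with h6 | h6
      · exact ⟨1, by rw [sub_eq_zero.1 h6]; simp⟩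
      · exact ⟨-1, by rw [eq_neg_of_add_eq_zero_left h6]; simp⟩
    · exact ⟨_, (h2 q hq hq11).symm⟩

/-- the expansion of a form with `a₁ = 1` of level `22` -/
theorem exists_coeff {g : CuspForm (Gamma0 22) 2} (h1 : qCoeff g 1 = 1)
    {h : CuspForm (Gamma0 11) 2} (hh : h.IsNormalizedEigenform) :
    ∃ c : ℂ, ∀ n, qCoeff g n = qCoeff h n + c * (if 2 ∣ n then qCoeff h (n / 2) else 0) := by
  obtain ⟨h₁, e1⟩ : ∃ g : CuspForm (Gamma0 22) 2, ∀ n, qCoeff g n = qCoeff h n :=
    ⟨AL.degen (M := 11) (N := 22) (d := 1) one_pos (by norm_num) 2 h, fun n => by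
      rw [AL.qCoeff_degen, if_pos (one_dvd n), Nat.div_one]⟩
  obtain ⟨h₂, e2⟩ : ∃ g : CuspForm (Gamma0 22) 2,
      ∀ n, qCoeff g n = if 2 ∣ n then qCoeff h (n / 2) else 0 :=
    ⟨AL.degen (M := 11) (N := 22) (d := 2) two_pos (by norm_num) 2 h, AL.qCoeff_degen _ _ _⟩
  obtain ⟨c, hc⟩ := exists_combination (r := 2) (by exact_mod_cast genus_twentytwo)
    (F := ![h₁, h₂]) (by
      intro c hc
      simp only [Fin.sum_univ_two, Matrix.cons_val_zero, Matrix.cons_val_one] at hc
      have k1 := hc 1
      rw [e1, e2, if_neg (by norm_num), hh.qCoeff_one] at k1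
      have k2 := hc 2
      rw [e1, e2, if_pos dvd_rfl, Nat.div_self two_pos, hh.qCoeff_one] at k2
      have k1' : c 0 = 0 := by linear_combination k1
      have k2' : c 1 = 0 := by
        rw [k1'] at k2
        linear_combination k2
      intro i
      fin_cases i
      · exact k1'
      · exact k2') g
  simp only [Fin.sum_univ_two, Matrix.cons_val_zero, Matrix.cons_val_one] at hc
  have k1 := hc 1
  rw [e1, e2, if_neg (by norm_num), hh.qCoeff_one, h1] at k1
  have k1' : c 0 = 1 := by linear_combination -k1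
  exact ⟨c 1, fun n => by rw [hc, e1, e2, k1', one_mul]⟩

/-- **The equation for `a₂` at level `22`** -/
theorem coeff_two_sq {g : CuspForm (Gamma0 22) 2} (hg : g.IsNormalizedEigenform) :
    qCoeff g 2 ^ 2 + 2 * qCoeff g 2 + 2 = 0 := by
  obtain ⟨h, hh⟩ := exists_eleven
  obtain ⟨c, hc⟩ := exists_coeff hg.qCoeff_one hh
  have h2 : qCoeff h 2 = -2 := a2_eleven hh
  have h4 : qCoeff h 4 = 2 := by
    have h5 := qCoeff_pow hh (p := 2) 0 (by norm_num)
    rw [if_neg (by norm_num)] at h5
    norm_num [h2, hh.qCoeff_one] at h5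
    exact h5
  have g4 : qCoeff g 4 = qCoeff g 2 ^ 2 := by
    have h5 := qCoeff_pow hg (p := 2) 0 (by norm_num)
    rw [if_pos (by norm_num)] at h5
    norm_num at h5
    rw [h5]
    ring
  have e2 := hc 2
  have e4 := hc 4
  rw [if_pos (by norm_num)] at e2 e4
  norm_num [h2, h4, hh.qCoeff_one] at e2 e4
  rw [g4] at e4
  have hc2 : c = qCoeff g 2 + 2 := by linear_combination -e2
  rw [hc2] at e4
  linear_combination e4

/-- `a₂ = -1 ± i` -/
theorem coeff_two_eq {g : CuspForm (Gamma0 22) 2} (hg : g.IsNormalizedEigenform) :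
    qCoeff g 2 = -1 + Complex.I ∨ qCoeff g 2 = -1 - Complex.I := by
  have h1 : (qCoeff g 2 - (-1 + Complex.I)) * (qCoeff g 2 - (-1 - Complex.I)) = 0 := by
    linear_combination coeff_two_sq hg - Complex.I_sq
  rcases mul_eq_zero.1 h1 with h | h
  · exact Or.inl (sub_eq_zero.1 h)
  · exact Or.inr (sub_eq_zero.1 h)

/-- there is a normalised eigenform of level `22` -/
theorem exists_eigenform : ∃ f : CuspForm (Gamma0 22) 2, f.IsNormalizedEigenform := by
  have hr : Module.finrank ℂ (CuspForm (Gamma0 22) 2) = 2 := by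
    exact_mod_cast (Fermat.Agent.S20.result 22).trans genus_twentytwo
  have hnt : Nontrivial (CuspForm (Gamma0 22) 2) :=
    Module.nontrivial_of_finrank_pos (R := ℂ) (by rw [hr]; norm_num)
  have hnt' : Nontrivial (CuspForm.heckeAlgebra 22 2 ∅) := inferInstance
  obtain ⟨P, hP⟩ := Ideal.exists_maximal (CuspForm.heckeAlgebra 22 2 ∅)
  have hP' : P.IsPrime := hP.isPrime
  obtain ⟨-, f, hf, -⟩ := H22.exists_eigenform_of_prime (N := 22) P
  exact ⟨f, hf⟩

/-- the complex conjugate eigenform -/
theorem exists_star {g : CuspForm (Gamma0 22) 2} (hg : g.IsNormalizedEigenform) :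
    ∃ g' : CuspForm (Gamma0 22) 2, g'.IsNormalizedEigenform ∧
      ∀ n, qCoeff g' n = starRingEnd ℂ (qCoeff g n) :=
  exists_conj hg (K := ⊤) (fun _ => trivial)
    ((starRingEnd ℂ).comp (⊤ : IntermediateField ℚ ℂ).val.toRingHom)

/-- **There are normalised eigenforms of level `22` with `a₂ = -1 + i` and with `a₂ = -1 - i`.** -/
theorem exists_pair : ∃ g g' : CuspForm (Gamma0 22) 2, g.IsNormalizedEigenform ∧
    g'.IsNormalizedEigenform ∧ qCoeff g 2 = -1 + Complex.I ∧ qCoeff g' 2 = -1 - Complex.I ∧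
    ∀ n, qCoeff g' n = starRingEnd ℂ (qCoeff g n) := by
  obtain ⟨f, hf⟩ := exists_eigenform
  obtain ⟨f', hf', hs⟩ := exists_star hf
  rcases coeff_two_eq hf with h | h
  · refine ⟨f, f', hf, hf', h, ?_, hs⟩
    rw [hs, h]
    simp [sub_eq_add_neg]
  · refine ⟨f', f, hf', hf, ?_, h, fun n => ?_⟩
    · rw [hs, h]
      simp
    · rw [hs, Complex.conj_conj]

/-! ### The Hecke algebra -/

/-- the ring of Gaussian integers as a subring of the complex numbers -/
def R : Subring ℂ := GaussianInt.toComplex.range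

theorem int_mem (a : ℤ) : (a : ℂ) ∈ R := intCast_mem R a

theorem I_mem : Complex.I ∈ R := ⟨⟨0, 1⟩, by simp [GaussianInt.toComplex_def']⟩

/-- the Hecke operator `U₂` -/
def U2 : CuspForm.heckeAlgebra 22 2 ∅ :=
  CuspForm.heckeAlgebra.U (q := 2) Nat.prime_two (by norm_num) (Set.notMem_empty _)

theorem char_U2 {g : CuspForm (Gamma0 22) 2} (hg : g.IsNormalizedEigenform) :
    H23.eigenCharC hg ∅ U2 = qCoeff g 2 := by
  have hd : ((⟨2, Nat.prime_two⟩ : Nat.Primes) : ℕ) ∣ 22 := by norm_num
  have h1 := eigenCharC_gen hg Nat.prime_two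
  rw [H22.charEigenvalue, dif_pos Nat.prime_two] at h1
  have h3 := CuspForm.heckeEvalForms_heckeGen 22 2 ⟨2, Nat.prime_two⟩
  have h4 := CuspForm.heckeEvalForms_heckeGen_of_dvd (N := 22) (k := 2) hd
  exact (congrArg (H23.eigenCharC hg ∅) (h4.symm.trans h3)).trans h1

section Ring

variable {g g' : CuspForm (Gamma0 22) 2} (hg : g.IsNormalizedEigenform)
  (hg' : g'.IsNormalizedEigenform) (h2 : qCoeff g 2 = -1 + Complex.I)
  (h2' : qCoeff g' 2 = -1 - Complex.I) (hs : ∀ n, qCoeff g' n = starRingEnd ℂ (qCoeff g n))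

include hg in
theorem coeff_prime_mem {q : ℕ} (hq : q.Prime) : qCoeff g q ∈ R := by
  obtain ⟨h, hh, hi⟩ := exists_form
  by_cases hq2 : q = 2
  · subst hq2
    rcases coeff_two_eq hg with h1 | h1 <;> rw [h1]
    · exact R.add_mem (R.neg_mem R.one_mem) I_mem
    · exact R.sub_mem (R.neg_mem R.one_mem) I_mem
  · obtain ⟨a, ha⟩ := hi q
    rw [coeff_twentytwo hg.qCoeff_one hh (fun h' => hq2
      ((Nat.prime_dvd_prime_iff_eq Nat.prime_two hq).1 h').symm), ha]
    exact int_mem a

include hg in
theorem char_mem (t : CuspForm.heckeAlgebra 22 2 ∅) : H23.eigenCharC hg ∅ t ∈ R := by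
  obtain ⟨P, rfl⟩ := H22.heckeEvalForms_surjective (N := 22) t
  change ((H23.eigenCharC hg ∅).comp (CuspForm.heckeEvalForms 22 2)) P ∈ _
  induction P using MvPolynomial.induction_on with
  | C n =>
    rw [show (MvPolynomial.C n : MvPolynomial Nat.Primes ℤ) = (n : MvPolynomial Nat.Primes ℤ) by simp,
      map_intCast]
    exact intCast_mem _ n
  | add P Q hP hQ =>
    rw [map_add]
    exact add_mem hP hQ
  | mul_X P ℓ hP =>
    rw [map_mul]
    refine mul_mem hP ?_
    have h1 := eigenCharC_gen hg ℓ.2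
    rw [H22.charEigenvalue, dif_pos ℓ.2] at h1
    have h3 := CuspForm.heckeEvalForms_heckeGen 22 2 ℓ
    change H23.eigenCharC hg ∅ (CuspForm.heckeEvalForms 22 2 (heckeGen ℓ)) ∈ _
    rw [h3]
    have h4 := coeff_prime_mem hg ℓ.2
    rw [← h1] at h4
    exact h4

include hg hg' h2 h2' in
/-- every form of level `22` is a combination of the two eigenforms -/
theorem exists_comb (f : CuspForm (Gamma0 22) 2) : ∃ a b : ℂ, f = a • g + b • g' := by
  obtain ⟨c, hc⟩ := exists_combination (r := 2) (by exact_mod_cast genus_twentytwo)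
    (F := ![g, g']) (by
      intro c hc
      simp only [Fin.sum_univ_two, Matrix.cons_val_zero, Matrix.cons_val_one] at hc
      have k1 := hc 1
      rw [hg.qCoeff_one, hg'.qCoeff_one] at k1
      have k2 := hc 2
      rw [h2, h2'] at k2
      have k3 : c 0 * (2 * Complex.I) = 0 := by linear_combination k2 + (1 + Complex.I) * k1
      have k1' : c 0 = 0 := by
        rcases mul_eq_zero.1 k3 with h | h
        · exact h
        · simp at h
      have k2' : c 1 = 0 := by
        rw [k1'] at k1
        linear_combination k1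
      intro i
      fin_cases i
      · exact k1'
      · exact k2') f
  refine ⟨c 0, c 1, H23.eq_of_qCoeff_eq fun n => ?_⟩
  rw [hc, H22.cusp_qCoeff_add, H22.cusp_qCoeff_smul, H22.cusp_qCoeff_smul]
  simp only [Fin.sum_univ_two, Matrix.cons_val_zero, Matrix.cons_val_one]

include hg hg' h2 h2' in
/-- **`g` and `g'` are the only normalised eigenforms of level `22`.** -/
theorem eq_or_eq {f : CuspForm (Gamma0 22) 2} (hf : f.IsNormalizedEigenform) : f = g ∨ f = g' := by
  obtain ⟨a, b, h⟩ := exists_comb hg hg' h2 h2' f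
  have hc (n : ℕ) : qCoeff f n = a * qCoeff g n + b * qCoeff g' n := by
    rw [h, H22.cusp_qCoeff_add, H22.cusp_qCoeff_smul, H22.cusp_qCoeff_smul]
  have k1 := hc 1
  rw [hf.qCoeff_one, hg.qCoeff_one, hg'.qCoeff_one] at k1
  have k2 := hc 2
  rw [h2, h2'] at k2
  have hI : (2 * Complex.I) ≠ 0 := by simp
  rcases coeff_two_eq hf with h3 | h3
  · left
    rw [h3] at k2
    have hb : b = 0 := by
      apply mul_left_cancel₀ hI
      linear_combination k2 + (1 - Complex.I) * k1
    have ha : a = 1 := by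
      rw [hb] at k1
      linear_combination -k1
    rw [h, ha, hb, one_smul, zero_smul, add_zero]
  · right
    rw [h3] at k2
    have ha : a = 0 := by
      apply mul_left_cancel₀ hI
      linear_combination -k2 - (1 + Complex.I) * k1
    have hb : b = 1 := by
      rw [ha] at k1
      linear_combination -k1
    rw [h, ha, hb, one_smul, zero_smul, zero_add]

/-- the character with values in the Gaussian integers -/
def psi : CuspForm.heckeAlgebra 22 2 ∅ →+* R :=
  (H23.eigenCharC hg ∅).codRestrict R (char_mem hg)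

include hs in
/-- the characters of the two eigenforms are complex conjugate -/
theorem char_star (t : CuspForm.heckeAlgebra 22 2 ∅) :
    H23.eigenCharC hg' ∅ t = starRingEnd ℂ (H23.eigenCharC hg ∅ t) := by
  obtain ⟨P, rfl⟩ := H22.heckeEvalForms_surjective (N := 22) t
  change ((H23.eigenCharC hg' ∅).comp (CuspForm.heckeEvalForms 22 2)) P =
    ((starRingEnd ℂ).comp ((H23.eigenCharC hg ∅).comp (CuspForm.heckeEvalForms 22 2))) P
  congr 1
  apply MvPolynomial.ringHom_ext
  · intro n
    simp
  · intro ℓ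
    have h1 := eigenCharC_gen hg' ℓ.2
    have h3 := eigenCharC_gen hg ℓ.2
    rw [H22.charEigenvalue, dif_pos ℓ.2] at h1 h3
    have h4 := CuspForm.heckeEvalForms_heckeGen 22 2 ℓ
    change H23.eigenCharC hg' ∅ (CuspForm.heckeEvalForms 22 2 (heckeGen ℓ)) =
      starRingEnd ℂ (H23.eigenCharC hg ∅ (CuspForm.heckeEvalForms 22 2 (heckeGen ℓ)))
    rw [h4]
    exact h1.trans ((hs ℓ).trans (congrArg _ h3.symm))

include hg' h2 h2' hs in
theorem psi_bijective : Function.Bijective (psi hg) := by
  constructor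
  · rw [injective_iff_map_eq_zero]
    intro t ht
    have h3 : H23.eigenCharC hg ∅ t = 0 := congrArg Subtype.val ht
    have h4 : H23.eigenCharC hg' ∅ t = 0 := by rw [char_star hg hg' hs, h3, map_zero]
    apply Subtype.ext
    apply LinearMap.ext
    intro f
    obtain ⟨a, b, rfl⟩ := exists_comb hg hg' h2 h2' f
    rw [map_add, map_smul, map_smul, H23.apply_eq_smul hg ∅ t, H23.apply_eq_smul hg' ∅ t,
      ← H23.eigenCharC_apply hg, ← H23.eigenCharC_apply hg', h3, h4, zero_smul, zero_smul,
      smul_zero, smul_zero, add_zero]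
    rfl
  · rintro ⟨_, ⟨z, rfl⟩⟩
    refine ⟨(z.re : CuspForm.heckeAlgebra 22 2 ∅) + z.im * (U2 + 1), Subtype.ext ?_⟩
    change H23.eigenCharC hg ∅ ((z.re : CuspForm.heckeAlgebra 22 2 ∅) + z.im * (U2 + 1)) =
      GaussianInt.toComplex z
    rw [map_add, map_mul, map_add, map_intCast, map_intCast, map_one, char_U2, h2,
      GaussianInt.toComplex_def]
    ring

end Ring

/-- **The Hecke algebra of weight two and level `22` is isomorphic to the ring of Gaussian integers.** -/
theorem exists_equiv : ∃ (g : CuspForm (Gamma0 22) 2) (hg : g.IsNormalizedEigenform)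
    (e : CuspForm.heckeAlgebra 22 2 ∅ ≃+* GaussianInt),
    qCoeff g 2 = -1 + Complex.I ∧
      ∀ t, H23.eigenCharC hg ∅ t = GaussianInt.toComplex (e t) := by
  obtain ⟨g, g', hg, hg', h2, h2', hs⟩ := exists_pair
  have hinj : Function.Injective GaussianInt.toComplex := fun x y h =>
    GaussianInt.toComplex_inj.mp h
  let e₁ : CuspForm.heckeAlgebra 22 2 ∅ ≃+* R :=
    RingEquiv.ofBijective (psi hg) (psi_bijective hg hg' h2 h2' hs)
  let e₂ : GaussianInt ≃+* R := RingEquiv.ofBijective GaussianInt.toComplex.rangeRestrict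
    ⟨fun x y h => hinj (congrArg Subtype.val h), GaussianInt.toComplex.rangeRestrict_surjective⟩
  refine ⟨g, hg, e₁.trans e₂.symm, h2, fun t => ?_⟩
  have h3 : e₂ ((e₁.trans e₂.symm) t) = e₁ t := RingEquiv.apply_symm_apply _ _
  exact (congrArg Subtype.val h3).symm

/-- the two eigenforms of level `22` are conjugate -/
theorem card_orb_22 : Nat.card (HeckeStructure.Orb 22) = 1 := by
  obtain ⟨g, hg, e, -⟩ := exists_equiv
  have h1 : IsDomain (CuspForm.heckeAlgebra 22 2 ∅) := e.toMulEquiv.isDomain _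
  rw [← HeckeSpec.card_minimalPrimes, IsDomain.minimalPrimes_eq_singleton_bot]
  exact Nat.card_unique

/-- **The field of coefficients of an eigenform of level `22` has no real embedding.** -/
theorem not_real {g : CuspForm (Gamma0 22) 2} (hg : g.IsNormalizedEigenform)
    (τ : coeffField g →+* ℝ) : False := by
  have h1 := congrArg τ (show (⟨qCoeff g 2, qCoeff_mem g 2⟩ : coeffField g) ^ 2 +
    2 * ⟨qCoeff g 2, qCoeff_mem g 2⟩ + 2 = 0 from Subtype.ext (coeff_two_sq hg))
  rw [map_add, map_add, map_mul, map_pow, map_zero, map_ofNat] at h1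
  nlinarith [sq_nonneg (τ ⟨qCoeff g 2, qCoeff_mem g 2⟩ + 1)]

end Fermat.Agent.Cor.Level22
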