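import Fermat.Agent.Cor.Level37

/-!
# Level 26

The elliptic curves `E = E26a : y² + xy + y = x³` and `E' = E26b : y² + xy + y = x³ - x² - 3x + 3` have conductor `26`.

* `two_dvd_sub`: `a_ℓ(E) ≡ a_ℓ(E')` modulo `2` for all primes `ℓ` of good reduction, since the points of order two of the
  two curves generate the same field (`root_iff`);
* `congruence`: the coefficients of the two newforms `f`, `g` of level `26` are integers, congruent modulo `2`;
* `exists_equiv`: the Hecke algebra of weight two and level `26` (generated by all `T_ℓ`, `U_2`, `U_13`) is isomorphic to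
  the ring of the pairs of integers `(a, b)` with `a ≡ b` modulo `2`, and `t` goes to its eigenvalues on `f` and `g`.

This file is not used by any of the statement files.
-/

set_option autoImplicit false

noncomputable section

namespace Fermat.Agent.Cor.Level26

open ModularCurve ModularFormClass CongruenceSubgroup WeierstrassCurve Shimura
open Fermat.Agent.Cor.SemistableTable Fermat.Agent.Cor.EigenTable
open Level37 (D iota iota_injective even_card_iff ap_eq)

/-- the polynomials of the points of order two of the two curves of conductor `26` define the same field -/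
theorem root_iff {K : Type*} [Field K] (h2 : (2 : K) ≠ 0) :
    (∃ x : K, 4 * x ^ 3 + x ^ 2 + 2 * x + 1 = 0) ↔
      ∃ x : K, 4 * x ^ 3 - 3 * x ^ 2 - 10 * x + 13 = 0 := by
  have h8 : (8 : K) ≠ 0 := by
    rw [show (8 : K) = 2 * 2 * 2 by norm_num]
    exact mul_ne_zero (mul_ne_zero h2 h2) h2
  have h128 : (128 : K) ≠ 0 := by
    rw [show (128 : K) = 8 * 8 * 2 by norm_num]
    exact mul_ne_zero (mul_ne_zero h8 h8) h2
  constructor
  · rintro ⟨x, hx⟩
    exact ⟨-4 * x ^ 2 - 1, by linear_combination (-64 * x ^ 3 + 16 * x ^ 2 - 32 * x + 16) * hx⟩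
  · rintro ⟨x, hx⟩
    obtain ⟨w, hw⟩ : ∃ w : K, 8 * w = 7 - x - 4 * x ^ 2 := ⟨_, mul_div_cancel₀ _ h8⟩
    refine ⟨w, mul_left_cancel₀ h128 ?_⟩
    linear_combination ((8 * w) ^ 2 + 8 * w * (7 - x - 4 * x ^ 2) + (7 - x - 4 * x ^ 2) ^ 2 +
      2 * (8 * w + (7 - x - 4 * x ^ 2)) + 32) * hw +
      (61 + 31 * x - 24 * x ^ 2 - 16 * x ^ 3) * hx

/-- **The traces of Frobenius of the two curves of conductor `26` are congruent modulo `2`.** -/
theorem two_dvd_sub {q : ℕ} (hq : q.Prime) (hq26 : ¬ q ∣ 26) :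
    2 ∣ E26a.apOfModel q - E26b.apOfModel q := by
  have : Fact q.Prime := ⟨hq⟩
  have h2 : q ≠ 2 := by
    rintro rfl
    exact hq26 (by norm_num)
  have h20 : (2 : ZMod q) ≠ 0 := by
    intro h0
    have h1 : ((2 : ℕ) : ZMod q) = 0 := by exact_mod_cast h0
    rw [ZMod.natCast_eq_zero_iff] at h1
    exact h2 ((Nat.prime_dvd_prime_iff_eq hq Nat.prime_two).1 h1)
  have hda : ¬ (q : ℤ) ∣ E26a.Δ := by
    rw [E26a_Δ, dvd_neg]
    intro h
    exact hq26 (by exact_mod_cast h)
  have hdb : ¬ (q : ℤ) ∣ E26b.Δ := by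
    rw [E26b_Δ, dvd_neg]
    intro h
    have h1 : q ∣ 2 ^ 6 * 26 := by exact_mod_cast h
    rcases hq.dvd_mul.1 h1 with h3 | h3
    · exact h2 ((Nat.prime_dvd_prime_iff_eq hq Nat.prime_two).1 (hq.dvd_of_dvd_pow h3))
    · exact hq26 h3
  have ha := even_card_iff (W := E26a) h2 hda
  have hb := even_card_iff (W := E26b) h2 hdb
  have ha' : (∃ x : ZMod q, 4 * x ^ 3 + E26a.b₂ * x ^ 2 + 2 * E26a.b₄ * x + E26a.b₆ = 0) ↔
      ∃ x : ZMod q, 4 * x ^ 3 + x ^ 2 + 2 * x + 1 = 0 := by
    refine exists_congr fun x => Eq.congr_left ?_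
    simp only [E26a, WeierstrassCurve.b₂, WeierstrassCurve.b₄, WeierstrassCurve.b₆]
    push_cast
    ring
  have hb' : (∃ x : ZMod q, 4 * x ^ 3 + E26b.b₂ * x ^ 2 + 2 * E26b.b₄ * x + E26b.b₆ = 0) ↔
      ∃ x : ZMod q, 4 * x ^ 3 - 3 * x ^ 2 - 10 * x + 13 = 0 := by
    refine exists_congr fun x => Eq.congr_left ?_
    simp only [E26b, WeierstrassCurve.b₂, WeierstrassCurve.b₄, WeierstrassCurve.b₆]
    push_cast
    ring
  have h := (ha.trans ha').trans ((root_iff h20).trans (hb.trans hb').symm)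
  rw [ap_eq, ap_eq]
  omega

/-! ### The two newforms -/

/-- the coefficients `a_ℓ` are the traces of Frobenius of `E`, and `a_q = ±1` for `q ∣ 26` -/
def Attached (E : WeierstrassCurve ℤ) (f : CuspForm (Gamma0 26) 2) : Prop :=
  (∀ q : ℕ, q.Prime → ¬ q ∣ 26 → qCoeff f q = (E.apOfModel q : ℂ)) ∧
    ∀ q : ℕ, q.Prime → q ∣ 26 → qCoeff f q = 1 ∨ qCoeff f q = -1

theorem exists_attached {E : WeierstrassCurve ℤ} (hΔ : E.Δ ≠ 0) (hs : E.IsSemistableModel)
    (hc : E.conductorLevel = 26) :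
    ∃ f : CuspForm (Gamma0 26) 2, f.IsNewform ∧ Attached E f := by
  have h1 := SmallConductor.exists_newform E hΔ hs
  have hsq := E.squarefree_conductorLevel
  rw [hc] at h1 hsq
  obtain ⟨f, hf, h2⟩ := h1
  refine ⟨f, hf, h2, fun q hq hqN => ?_⟩
  have h4 := (RootNumber.newformBadPrimeCoeff' (by norm_num) f hf q hq hqN).1
    (Nat.squarefree_iff_prime_squarefree.mp hsq q hq ∘ fun h => by rwa [pow_two] at h)
  have h5 : (qCoeff f q - 1) * (qCoeff f q + 1) = 0 := by linear_combination h4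
  rcases mul_eq_zero.1 h5 with h6 | h6
  · exact Or.inl (sub_eq_zero.1 h6)
  · exact Or.inr (eq_neg_of_add_eq_zero_left h6)

/-- the Hecke operator `T₅` -/
def T5 : CuspForm.heckeAlgebra 26 2 ∅ :=
  CuspForm.heckeAlgebra.T (ℓ := 5) (by norm_num) (by norm_num) (Set.notMem_empty _)

section Forms

variable {f g : CuspForm (Gamma0 26) 2} (hf : f.IsNormalizedEigenform)
  (hg : g.IsNormalizedEigenform) (hfE : Attached E26a f) (hgE : Attached E26b g)

include hfE hgE

theorem mem_prime {q : ℕ} (hq : q.Prime) : (qCoeff f q, qCoeff g q) ∈ D.map iota := by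
  by_cases h : q ∣ 26
  · rcases hfE.2 q hq h with h1 | h1 <;> rcases hgE.2 q hq h with h2 | h2 <;> rw [h1, h2]
    · exact ⟨(1, 1), ⟨0, by norm_num⟩, by simp [iota]⟩
    · exact ⟨(1, -1), ⟨1, by norm_num⟩, by simp [iota]⟩
    · exact ⟨(-1, 1), ⟨-1, by norm_num⟩, by simp [iota]⟩
    · exact ⟨(-1, -1), ⟨0, by norm_num⟩, by simp [iota]⟩
  · rw [hfE.1 q hq h, hgE.1 q hq h]
    exact ⟨(E26a.apOfModel q, E26b.apOfModel q), two_dvd_sub hq h, by simp [iota]⟩

include hf hg

/-- **The two newforms of level `26` are congruent modulo `2`.** -/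
theorem congruence (n : ℕ) : ∃ a b : ℤ, qCoeff f n = a ∧ qCoeff g n = b ∧ 2 ∣ a - b := by
  have key : (qCoeff f n, qCoeff g n) ∈ D.map iota := by
    refine induct (P := fun n => (qCoeff f n, qCoeff g n) ∈ D.map iota) ?_ ?_
      (fun q hq => mem_prime hfE hgE hq) (fun p r hp h1 h0 => ?_) (fun m n hmn hm hn => ?_) n
    · rw [H22.cusp_qCoeff_zero f, H22.cusp_qCoeff_zero g]
      exact (D.map iota).zero_mem
    · rw [hf.qCoeff_one, hg.qCoeff_one]
      exact (D.map iota).one_mem
    · rw [qCoeff_pow hf r hp, qCoeff_pow hg r hp]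
      exact (D.map iota).sub_mem ((D.map iota).mul_mem (mem_prime hfE hgE hp) h1)
        ((D.map iota).mul_mem (natCast_mem (D.map iota) _) h0)
    · rw [hf.qCoeff_mul_of_coprime m n hmn, hg.qCoeff_mul_of_coprime m n hmn]
      exact (D.map iota).mul_mem hm hn
  obtain ⟨⟨a, b⟩, hab, h⟩ := key
  exact ⟨a, b, (congrArg Prod.fst h).symm, (congrArg Prod.snd h).symm, hab⟩

/-- the eigenvalues of the Hecke operators -/
theorem char_mem (t : CuspForm.heckeAlgebra 26 2 ∅) :
    (H23.eigenCharC hf ∅ t, H23.eigenCharC hg ∅ t) ∈ D.map iota := by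
  obtain ⟨P, rfl⟩ := H22.heckeEvalForms_surjective (N := 26) t
  change (((H23.eigenCharC hf ∅).prod (H23.eigenCharC hg ∅)).comp (CuspForm.heckeEvalForms 26 2)) P ∈ _
  induction P using MvPolynomial.induction_on with
  | C n =>
    rw [show (MvPolynomial.C n : MvPolynomial Nat.Primes ℤ) = (n : MvPolynomial Nat.Primes ℤ) by simp,
      map_intCast]
    exact intCast_mem _ n
  | add P Q hP hQ =>
    rw [map_add]
    exact add_mem hP hQ
  | mul_X P ℓ hP =>
    rw [map_mul]
    refine mul_mem hP ?_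
    have h1 := eigenCharC_gen hf ℓ.2
    have h2 := eigenCharC_gen hg ℓ.2
    rw [H22.charEigenvalue, dif_pos ℓ.2] at h1 h2
    have h3 := CuspForm.heckeEvalForms_heckeGen 26 2 ℓ
    change (H23.eigenCharC hf ∅ (CuspForm.heckeEvalForms 26 2 (heckeGen ℓ)),
      H23.eigenCharC hg ∅ (CuspForm.heckeEvalForms 26 2 (heckeGen ℓ))) ∈ _
    rw [h3]
    have h4 := mem_prime hfE hgE ℓ.2
    rw [← h1, ← h2] at h4
    exact h4

/-- every form of level `26` is a combination of the two newforms -/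
theorem exists_comb (h : CuspForm (Gamma0 26) 2) : ∃ a b : ℂ, h = a • f + b • g := by
  obtain ⟨c, hc⟩ := exists_combination (r := 2) (by exact_mod_cast genus_twentysix)
    (F := ![f, g]) (by
      intro c hc
      simp only [Fin.sum_univ_two, Matrix.cons_val_zero, Matrix.cons_val_one] at hc
      have k1 := hc 1
      rw [hf.qCoeff_one, hg.qCoeff_one] at k1
      have k2 := hc 5
      rw [hfE.1 5 (by norm_num) (by norm_num), hgE.1 5 (by norm_num) (by norm_num), E26a_a5,
        E26b_a5] at k2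
      push_cast at k2
      have k1' : c 0 = 0 := by linear_combination (-1 / 2) * k2 - (1 / 2) * k1
      have k2' : c 1 = 0 := by
        rw [k1'] at k1
        linear_combination k1
      intro i
      fin_cases i
      · exact k1'
      · exact k2') h
  refine ⟨c 0, c 1, H23.eq_of_qCoeff_eq fun n => ?_⟩
  rw [hc, H22.cusp_qCoeff_add, H22.cusp_qCoeff_smul, H22.cusp_qCoeff_smul]
  simp only [Fin.sum_univ_two, Matrix.cons_val_zero, Matrix.cons_val_one]

/-- the two characters together -/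
def psi : CuspForm.heckeAlgebra 26 2 ∅ →+* D.map iota :=
  ((H23.eigenCharC hf ∅).prod (H23.eigenCharC hg ∅)).codRestrict (D.map iota)
    (char_mem hf hg hfE hgE)

theorem psi_bijective : Function.Bijective (psi hf hg hfE hgE) := by
  constructor
  · rw [injective_iff_map_eq_zero]
    intro t ht
    have h1 := congrArg Subtype.val ht
    have h3 : H23.eigenCharC hf ∅ t = 0 := congrArg Prod.fst h1
    have h4 : H23.eigenCharC hg ∅ t = 0 := congrArg Prod.snd h1
    apply Subtype.ext
    apply LinearMap.ext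
    intro h
    obtain ⟨a, b, rfl⟩ := exists_comb hf hg hfE hgE h
    rw [map_add, map_smul, map_smul, H23.apply_eq_smul hf ∅ t, H23.apply_eq_smul hg ∅ t,
      ← H23.eigenCharC_apply hf, ← H23.eigenCharC_apply hg, h3, h4, zero_smul, zero_smul,
      smul_zero, smul_zero, add_zero]
    rfl
  · rintro ⟨_, ⟨a, b⟩, ⟨c, hc⟩, rfl⟩
    refine ⟨(b : CuspForm.heckeAlgebra 26 2 ∅) - c * (T5 + 1), Subtype.ext ?_⟩
    change (H23.eigenCharC hf ∅ ((b : CuspForm.heckeAlgebra 26 2 ∅) - c * (T5 + 1)),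
      H23.eigenCharC hg ∅ ((b : CuspForm.heckeAlgebra 26 2 ∅) - c * (T5 + 1))) = ((a : ℂ), (b : ℂ))
    have hc' : a - b = 2 * c := hc
    have t1 : H23.eigenCharC hf ∅ T5 = -3 := by
      refine (H23.eigenCharC_T hf _ _ _).trans ?_
      rw [hfE.1 5 (by norm_num) (by norm_num), E26a_a5]
      norm_num
    have t2 : H23.eigenCharC hg ∅ T5 = -1 := by
      refine (H23.eigenCharC_T hg _ _ _).trans ?_
      rw [hgE.1 5 (by norm_num) (by norm_num), E26b_a5]
      norm_num
    rw [map_sub, map_mul, map_add, map_one, map_intCast, map_intCast, map_sub, map_mul, map_add,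
      map_one, map_intCast, map_intCast, t1, t2]
    rw [show (a : ℂ) = b + 2 * c by exact_mod_cast (show a = b + 2 * c by omega)]
    congr 1 <;> ring

/-- the Hecke algebra and the pairs of integers -/
def heckeEquiv : CuspForm.heckeAlgebra 26 2 ∅ ≃+* D :=
  (RingEquiv.ofBijective (psi hf hg hfE hgE) (psi_bijective hf hg hfE hgE)).trans
    (D.equivMapOfInjective iota iota_injective).symm

theorem heckeEquiv_spec (t : CuspForm.heckeAlgebra 26 2 ∅) :
    H23.eigenCharC hf ∅ t = ((heckeEquiv hf hg hfE hgE t).1.1 : ℂ) ∧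
      H23.eigenCharC hg ∅ t = ((heckeEquiv hf hg hfE hgE t).1.2 : ℂ) := by
  have h1 : D.equivMapOfInjective iota iota_injective (heckeEquiv hf hg hfE hgE t) =
      psi hf hg hfE hgE t := RingEquiv.apply_symm_apply _ _
  have h2 : iota (heckeEquiv hf hg hfE hgE t).1 =
      (H23.eigenCharC hf ∅ t, H23.eigenCharC hg ∅ t) := congrArg Subtype.val h1
  exact ⟨(congrArg Prod.fst h2).symm, (congrArg Prod.snd h2).symm⟩

end Forms

/-- **The Hecke algebra of weight two and level `26`** is isomorphic to the ring of the pairs of integers which are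
congruent modulo `2`. -/
theorem exists_equiv : ∃ (f g : CuspForm (Gamma0 26) 2) (hf : f.IsNormalizedEigenform)
    (hg : g.IsNormalizedEigenform) (e : CuspForm.heckeAlgebra 26 2 ∅ ≃+* D),
    Attached E26a f ∧ Attached E26b g ∧ ∀ t, H23.eigenCharC hf ∅ t = ((e t).1.1 : ℂ) ∧
      H23.eigenCharC hg ∅ t = ((e t).1.2 : ℂ) := by
  obtain ⟨f, hf, hfE⟩ := exists_attached (by rw [E26a_Δ]; norm_num) E26a_semistable
    conductorLevel_E26a
  obtain ⟨g, hg, hgE⟩ := exists_attached (by rw [E26b_Δ]; norm_num) E26b_semistable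
    conductorLevel_E26b
  exact ⟨f, g, hf.1, hg.1, heckeEquiv hf.1 hg.1 hfE hgE, hfE, hgE,
    heckeEquiv_spec hf.1 hg.1 hfE hgE⟩

end Fermat.Agent.Cor.Level26
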