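import Fermat.Agent.Cor.HeckeSpec
import Fermat.Agent.Cor.SemistableTable

/-!
# Level 37

The elliptic curves `E = E37a : y² + y = x³ - x` and `E' = E37b : y² + y = x³ + x² - 3x + 1` have conductor `37`.

* `two_dvd_sub`: `a_ℓ(E) ≡ a_ℓ(E')` modulo `2` for all primes `ℓ ≠ 37`, since the points of order two of the two curves
  generate the same field (`root_iff`, `even_card_iff`);
* `exists_eigenforms`, `eq_or_eq`: there are exactly two normalised eigenforms `f`, `g` of level `37`, with
  `a_ℓ(f) = a_ℓ(E)`, `a_ℓ(g) = a_ℓ(E')` for `ℓ ≠ 37`;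
* `congruence`: `a_n(f)` and `a_n(g)` are integers, congruent modulo `2`, for all `n`;
* `exists_equiv`: the Hecke algebra of weight two and level `37` (generated by all `T_ℓ` and `U_37`) is isomorphic to
  the ring of the pairs of integers `(a, b)` with `a ≡ b` modulo `2`, and `t` goes to its eigenvalues on `f` and `g`;
* `not_isDomain`, `card_orb_37`: it is not a domain; the two eigenforms are not conjugate.

This file is not used by any of the statement files.
-/

set_option autoImplicit false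

noncomputable section

namespace Fermat.Agent.Cor.Level37

open ModularCurve ModularFormClass CongruenceSubgroup WeierstrassCurve Shimura
open Fermat.Agent.Cor.SemistableTable

/-! ### Points of order two -/

section Two

variable {W : WeierstrassCurve ℤ} {q : ℕ} [hq : Fact q.Prime]

/-- `#W(𝔽_q)` is even if and only if the polynomial of the points of order two has a root modulo `q`. -/
theorem even_card_iff (hq2 : q ≠ 2) (hd : ¬ (q : ℤ) ∣ W.Δ) :
    2 ∣ (W.reductionMod q).card ↔
      ∃ x : ZMod q, 4 * x ^ 3 + W.b₂ * x ^ 2 + 2 * W.b₄ * x + W.b₆ = 0 := by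
  have h2 : (2 : ZMod q) ≠ 0 := by
    intro h0
    have h1 : ((2 : ℕ) : ZMod q) = 0 := by exact_mod_cast h0
    rw [ZMod.natCast_eq_zero_iff] at h1
    exact hq2 ((Nat.prime_dvd_prime_iff_eq hq.out Nat.prime_two).1 h1)
  have h4 : (4 : ZMod q) ≠ 0 := by
    rw [show (4 : ZMod q) = 2 * 2 by norm_num]
    exact mul_ne_zero h2 h2
  constructor
  · intro h
    have hfin : Finite (W.reductionMod q).toAffine.Point := inferInstance
    obtain ⟨P, hP⟩ := exists_prime_addOrderOf_dvd_card' (G := (W.reductionMod q).toAffine.Point) 2 h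
    have hP0 : P ≠ 0 := by
      rintro rfl
      simp at hP
    have hPP : P + P = 0 := by
      rw [← two_nsmul, ← hP]
      exact addOrderOf_nsmul_eq_zero P
    rcases P with _ | ⟨x, y, h⟩
    · exact absurd rfl hP0
    have h3 := eq_neg_of_add_eq_zero_left hPP
    rw [Affine.Point.neg_some, Affine.Point.some.injEq] at h3
    have h5 := h3.2
    rw [Affine.negY] at h5
    have h6 := (Affine.equation_iff x y).1 h.1
    simp only [reductionMod, map_a₁, map_a₂, map_a₃, map_a₄, map_a₆, eq_intCast] at h5 h6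
    refine ⟨x, ?_⟩
    simp only [WeierstrassCurve.b₂, WeierstrassCurve.b₄, WeierstrassCurve.b₆]
    push_cast
    linear_combination (-4) * h6 + (2 * y + W.a₁ * x + W.a₃) * h5
  · rintro ⟨x, hx⟩
    obtain ⟨y, hy⟩ : ∃ y : ZMod q, 2 * y = -(W.a₁ * x + W.a₃) := ⟨_, mul_div_cancel₀ _ h2⟩
    simp only [WeierstrassCurve.b₂, WeierstrassCurve.b₄, WeierstrassCurve.b₆] at hx
    push_cast at hx
    have hxy : y ^ 2 + W.a₁ * x * y + W.a₃ * y = x ^ 3 + W.a₂ * x ^ 2 + W.a₄ * x + W.a₆ := by
      apply mul_left_cancel₀ h4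
      linear_combination (2 * y + W.a₁ * x + W.a₃) * hy - hx
    have h := GenusOne.nonsingular_of hd hxy
    refine GenusOne.dvd_card_of_addOrderOf (Affine.Point.some x y h)
      (addOrderOf_eq_prime (p := 2) ?_ (Affine.Point.some_ne_zero _))
    rw [two_nsmul]
    exact GenusOne.add_eq_zero h h
      (show y = -y - (W.a₁ : ZMod q) * x - (W.a₃ : ZMod q) by linear_combination hy)

end Two

/-- the polynomials of the points of order two of the two curves of conductor `37` define the same field -/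
theorem root_iff {K : Type*} [CommRing K] : (∃ x : K, 4 * x ^ 3 - 4 * x + 1 = 0) ↔
    ∃ x : K, 4 * x ^ 3 + 4 * x ^ 2 - 12 * x + 5 = 0 := by
  constructor
  · rintro ⟨x, hx⟩
    exact ⟨4 * x ^ 2 + x - 3, by linear_combination (64 * x ^ 3 + 48 * x ^ 2 - 52 * x - 31) * hx⟩
  · rintro ⟨x, hx⟩
    exact ⟨-4 * x ^ 2 - 7 * x + 7, by
      linear_combination (-64 * x ^ 3 - 272 * x ^ 2 - 172 * x + 269) * hx⟩

theorem ap_eq {W : WeierstrassCurve ℤ} {q : ℕ} :
    W.apOfModel q = (q : ℤ) + 1 - (W.reductionMod q).card := by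
  simp only [apOfModel, traceOfFrobenius, Nat.card_zmod]

/-- **The traces of Frobenius of the two curves of conductor `37` are congruent modulo `2`.** -/
theorem two_dvd_sub {q : ℕ} (hq : q.Prime) (hq37 : q ≠ 37) :
    2 ∣ E37a.apOfModel q - E37b.apOfModel q := by
  have : Fact q.Prime := ⟨hq⟩
  rcases eq_or_ne q 2 with rfl | h2
  · rw [E37a_a2, E37b_a2]
    norm_num
  have hd : ¬ (q : ℤ) ∣ 37 := by
    intro h
    exact hq37 ((Nat.prime_dvd_prime_iff_eq hq (by norm_num)).1 (by exact_mod_cast h))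
  have ha := even_card_iff (W := E37a) h2 (by rw [E37a_Δ]; exact hd)
  have hb := even_card_iff (W := E37b) h2 (by rw [E37b_Δ]; exact hd)
  have ha' : (∃ x : ZMod q, 4 * x ^ 3 + E37a.b₂ * x ^ 2 + 2 * E37a.b₄ * x + E37a.b₆ = 0) ↔
      ∃ x : ZMod q, 4 * x ^ 3 - 4 * x + 1 = 0 := by
    refine exists_congr fun x => Eq.congr_left ?_
    simp only [E37a, WeierstrassCurve.b₂, WeierstrassCurve.b₄, WeierstrassCurve.b₆]
    push_cast
    ring
  have hb' : (∃ x : ZMod q, 4 * x ^ 3 + E37b.b₂ * x ^ 2 + 2 * E37b.b₄ * x + E37b.b₆ = 0) ↔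
      ∃ x : ZMod q, 4 * x ^ 3 + 4 * x ^ 2 - 12 * x + 5 = 0 := by
    refine exists_congr fun x => Eq.congr_left ?_
    simp only [E37b, WeierstrassCurve.b₂, WeierstrassCurve.b₄, WeierstrassCurve.b₆]
    push_cast
    ring
  have h := (ha.trans ha').trans (root_iff.trans (hb.trans hb').symm)
  rw [ap_eq, ap_eq]
  omega

/-! ### The two eigenforms -/

/-- the coefficients `a_ℓ` of an eigenform are the traces of Frobenius of `E` -/
def Attached (E : WeierstrassCurve ℤ) (f : CuspForm (Gamma0 37) 2) : Prop :=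
  ∀ q : ℕ, q.Prime → q ≠ 37 → qCoeff f q = (E.apOfModel q : ℂ)

theorem exists_attached {E : WeierstrassCurve ℤ} (hΔ : E.Δ ≠ 0) (hs : E.IsSemistableModel)
    (hc : E.conductorLevel = 37) :
    ∃ f : CuspForm (Gamma0 37) 2, f.IsNewform ∧ Attached E f := by
  have h1 := SmallConductor.exists_newform E hΔ hs
  rw [hc] at h1
  obtain ⟨f, hf, h2⟩ := h1
  refine ⟨f, hf, fun q hq hq37 => h2 q hq fun h => ?_⟩
  exact hq37 ((Nat.prime_dvd_prime_iff_eq hq (by norm_num)).1 h)

instance fact37 : Fact (Nat.Prime 37) := ⟨by norm_num⟩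

/-- `a₃₇ = ±1` -/
theorem coeff_level {f : CuspForm (Gamma0 37) 2} (hf : f.IsNormalizedEigenform) :
    qCoeff f 37 = 1 ∨ qCoeff f 37 = -1 := by
  have h1 := (RootNumber.newformBadPrimeCoeff' (by norm_num) f (PrimeLevel.isNewform hf) 37
    (by norm_num) dvd_rfl).1 (by norm_num)
  have h2 : (qCoeff f 37 - 1) * (qCoeff f 37 + 1) = 0 := by linear_combination h1
  rcases mul_eq_zero.1 h2 with h3 | h3
  · exact Or.inl (sub_eq_zero.1 h3)
  · exact Or.inr (eq_neg_of_add_eq_zero_left h3)

/-- the pairs of integers which are congruent modulo `2` -/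
def D : Subring (ℤ × ℤ) where
  carrier := {x | 2 ∣ x.1 - x.2}
  mul_mem' {x y} hx hy := by
    obtain ⟨a, ha⟩ := hx
    obtain ⟨b, hb⟩ := hy
    exact ⟨a * y.1 + x.2 * b, by
      change x.1 * y.1 - x.2 * y.2 = _
      linear_combination y.1 * ha + x.2 * hb⟩
  one_mem' := ⟨0, by simp⟩
  add_mem' {x y} hx hy := by
    obtain ⟨a, ha⟩ := hx
    obtain ⟨b, hb⟩ := hy
    exact ⟨a + b, by
      change x.1 + y.1 - (x.2 + y.2) = _
      linear_combination ha + hb⟩
  zero_mem' := ⟨0, by simp⟩
  neg_mem' {x} hx := by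
    obtain ⟨a, ha⟩ := hx
    exact ⟨-a, by
      change -x.1 - -x.2 = _
      linear_combination -ha⟩

/-- the embedding of the pairs of integers into the pairs of complex numbers -/
def iota : ℤ × ℤ →+* ℂ × ℂ := RingHom.prodMap (Int.castRingHom ℂ) (Int.castRingHom ℂ)

theorem iota_injective : Function.Injective iota := by
  intro x y h
  have h1 : ((x.1 : ℤ) : ℂ) = y.1 := congrArg Prod.fst h
  have h2 : ((x.2 : ℤ) : ℂ) = y.2 := congrArg Prod.snd h
  exact Prod.ext (by exact_mod_cast h1) (by exact_mod_cast h2)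

/-- the Hecke operator `T₂` -/
def T2 : CuspForm.heckeAlgebra 37 2 ∅ :=
  CuspForm.heckeAlgebra.T (ℓ := 2) (by norm_num) (by norm_num) (Set.notMem_empty _)

theorem char_T2 {f : CuspForm (Gamma0 37) 2} (hf : f.IsNormalizedEigenform) :
    H23.eigenCharC hf ∅ T2 = qCoeff f 2 := H23.eigenCharC_T hf _ _ _

theorem genus : genusFormula 37 = 2 :=
  SmallConductor.genus_eq (a := 38) (b := 2) (c := 2) (d := 2) (by decide +kernel) (by decide +kernel)
    (by decide +kernel) (by decide +kernel) (by norm_num)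

section Forms

variable {f g : CuspForm (Gamma0 37) 2} (hf : f.IsNormalizedEigenform)
  (hg : g.IsNormalizedEigenform) (hfE : Attached E37a f) (hgE : Attached E37b g)

include hf hg hfE hgE

theorem mem_prime {q : ℕ} (hq : q.Prime) : (qCoeff f q, qCoeff g q) ∈ D.map iota := by
  by_cases h : q = 37
  · subst h
    rcases coeff_level hf with h1 | h1 <;> rcases coeff_level hg with h2 | h2 <;> rw [h1, h2]
    · exact ⟨(1, 1), ⟨0, by norm_num⟩, by simp [iota]⟩
    · exact ⟨(1, -1), ⟨1, by norm_num⟩, by simp [iota]⟩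
    · exact ⟨(-1, 1), ⟨-1, by norm_num⟩, by simp [iota]⟩
    · exact ⟨(-1, -1), ⟨0, by norm_num⟩, by simp [iota]⟩
  · rw [hfE q hq h, hgE q hq h]
    exact ⟨(E37a.apOfModel q, E37b.apOfModel q), two_dvd_sub hq h, by simp [iota]⟩

/-- **The two eigenforms of level `37` are congruent modulo `2`.** -/
theorem coeff_mem (n : ℕ) : (qCoeff f n, qCoeff g n) ∈ D.map iota := by
  refine induct (P := fun n => (qCoeff f n, qCoeff g n) ∈ D.map iota) ?_ ?_
    (fun q hq => mem_prime hf hg hfE hgE hq) (fun p r hp h1 h0 => ?_) (fun m n hmn hm hn => ?_) n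
  · rw [H22.cusp_qCoeff_zero f, H22.cusp_qCoeff_zero g]
    exact (D.map iota).zero_mem
  · rw [hf.qCoeff_one, hg.qCoeff_one]
    exact (D.map iota).one_mem
  · rw [qCoeff_pow hf r hp, qCoeff_pow hg r hp]
    exact (D.map iota).sub_mem ((D.map iota).mul_mem (mem_prime hf hg hfE hgE hp) h1)
      ((D.map iota).mul_mem (natCast_mem (D.map iota) _) h0)
  · rw [hf.qCoeff_mul_of_coprime m n hmn, hg.qCoeff_mul_of_coprime m n hmn]
    exact (D.map iota).mul_mem hm hn

/-- the eigenvalues of the Hecke operators -/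
theorem char_mem (t : CuspForm.heckeAlgebra 37 2 ∅) :
    (H23.eigenCharC hf ∅ t, H23.eigenCharC hg ∅ t) ∈ D.map iota := by
  obtain ⟨P, rfl⟩ := H22.heckeEvalForms_surjective (N := 37) t
  change (((H23.eigenCharC hf ∅).prod (H23.eigenCharC hg ∅)).comp (CuspForm.heckeEvalForms 37 2)) P ∈ _
  induction P using MvPolynomial.induction_on with
  | C n =>
    rw [show (MvPolynomial.C n : MvPolynomial Nat.Primes ℤ) = (n : MvPolynomial Nat.Primes ℤ) by simp,
      map_intCast]
    exact intCast_mem _ n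
  | add P Q hP hQ =>
    rw [map_add]
    exact add_mem hP hQ
  | mul_X P ℓ hP =>
    rw [map_mul]
    refine mul_mem hP ?_
    have h1 := eigenCharC_gen hf ℓ.2
    have h2 := eigenCharC_gen hg ℓ.2
    rw [H22.charEigenvalue, dif_pos ℓ.2] at h1 h2
    have h3 := CuspForm.heckeEvalForms_heckeGen 37 2 ℓ
    change (H23.eigenCharC hf ∅ (CuspForm.heckeEvalForms 37 2 (heckeGen ℓ)),
      H23.eigenCharC hg ∅ (CuspForm.heckeEvalForms 37 2 (heckeGen ℓ))) ∈ _
    rw [h3]
    have h4 := mem_prime hf hg hfE hgE ℓ.2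
    rw [← h1, ← h2] at h4
    exact h4

omit hf hg in
theorem ne : f ≠ g := by
  rintro rfl
  have h1 := hfE 2 (by norm_num) (by norm_num)
  have h2 := hgE 2 (by norm_num) (by norm_num)
  rw [h1, E37a_a2, E37b_a2] at h2
  norm_num at h2

/-- **`f` and `g` are the only normalised eigenforms of level `37`.** -/
theorem eq_or_eq {h : CuspForm (Gamma0 37) 2} (hh : h.IsNormalizedEigenform) : h = f ∨ h = g := by
  classical
  by_contra hne
  push Not at hne
  have hfin : Fintype {f : CuspForm (Gamma0 37) 2 // f.IsNormalizedEigenform} := Fintype.ofFinite _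
  have h1 := PrimeLevel.card_eigenforms (N := 37)
  rw [genus, Nat.card_eq_fintype_card] at h1
  have h2 : Fintype.card {f : CuspForm (Gamma0 37) 2 // f.IsNormalizedEigenform} = 2 := by
    exact_mod_cast h1
  have h3 := Finset.card_le_univ ({⟨f, hf⟩, ⟨g, hg⟩, ⟨h, hh⟩} :
    Finset {f : CuspForm (Gamma0 37) 2 // f.IsNormalizedEigenform})
  rw [h2, Finset.card_eq_three.mpr ⟨_, _, _, fun h' => ne hfE hgE (congrArg Subtype.val h'),
    fun h' => hne.1 (congrArg Subtype.val h').symm,
    fun h' => hne.2 (congrArg Subtype.val h').symm, rfl⟩] at h3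
  omega

/-- the two characters together -/
def psi : CuspForm.heckeAlgebra 37 2 ∅ →+* D.map iota :=
  ((H23.eigenCharC hf ∅).prod (H23.eigenCharC hg ∅)).codRestrict (D.map iota)
    (char_mem hf hg hfE hgE)

theorem psi_bijective : Function.Bijective (psi hf hg hfE hgE) := by
  constructor
  · rw [injective_iff_map_eq_zero]
    intro t ht
    have h1 := congrArg Subtype.val ht
    have h2 : H23.eigenCharC hf ∅ t = 0 := congrArg Prod.fst h1
    have h3 : H23.eigenCharC hg ∅ t = 0 := congrArg Prod.snd h1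
    refine PrimeLevel.eq_zero_of_forall t fun h hh => ?_
    rcases eq_or_eq hf hg hfE hgE hh with rfl | rfl
    · exact h2
    · exact h3
  · rintro ⟨_, ⟨a, b⟩, ⟨c, hc⟩, rfl⟩
    refine ⟨(b : CuspForm.heckeAlgebra 37 2 ∅) - c * T2, Subtype.ext ?_⟩
    change (H23.eigenCharC hf ∅ ((b : CuspForm.heckeAlgebra 37 2 ∅) - c * T2),
      H23.eigenCharC hg ∅ ((b : CuspForm.heckeAlgebra 37 2 ∅) - c * T2)) = ((a : ℂ), (b : ℂ))
    have hc' : a - b = 2 * c := hc
    rw [map_sub, map_mul, map_intCast, map_intCast, map_sub, map_mul, map_intCast, map_intCast,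
      char_T2 hf, char_T2 hg, hfE 2 (by norm_num) (by norm_num), hgE 2 (by norm_num) (by norm_num),
      E37a_a2, E37b_a2]
    rw [show (a : ℂ) = b + 2 * c by exact_mod_cast (show a = b + 2 * c by omega)]
    push_cast
    congr 1 <;> ring

/-- **The two eigenforms of level `37` are congruent modulo `2`.** -/
theorem congruence (n : ℕ) : ∃ a b : ℤ, qCoeff f n = a ∧ qCoeff g n = b ∧ 2 ∣ a - b := by
  obtain ⟨⟨a, b⟩, hab, h⟩ := coeff_mem hf hg hfE hgE n
  exact ⟨a, b, (congrArg Prod.fst h).symm, (congrArg Prod.snd h).symm, hab⟩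

/-- the Hecke algebra and the pairs of integers -/
def heckeEquiv : CuspForm.heckeAlgebra 37 2 ∅ ≃+* D :=
  (RingEquiv.ofBijective (psi hf hg hfE hgE) (psi_bijective hf hg hfE hgE)).trans
    (D.equivMapOfInjective iota iota_injective).symm

theorem heckeEquiv_spec (t : CuspForm.heckeAlgebra 37 2 ∅) :
    H23.eigenCharC hf ∅ t = ((heckeEquiv hf hg hfE hgE t).1.1 : ℂ) ∧
      H23.eigenCharC hg ∅ t = ((heckeEquiv hf hg hfE hgE t).1.2 : ℂ) := by
  have h1 : D.equivMapOfInjective iota iota_injective (heckeEquiv hf hg hfE hgE t) =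
      psi hf hg hfE hgE t := RingEquiv.apply_symm_apply _ _
  have h2 : iota (heckeEquiv hf hg hfE hgE t).1 =
      (H23.eigenCharC hf ∅ t, H23.eigenCharC hg ∅ t) := congrArg Subtype.val h1
  exact ⟨(congrArg Prod.fst h2).symm, (congrArg Prod.snd h2).symm⟩

end Forms

/-- the two eigenforms of level `37` -/
theorem exists_eigenforms : ∃ f g : CuspForm (Gamma0 37) 2, f.IsNormalizedEigenform ∧
    g.IsNormalizedEigenform ∧ Attached E37a f ∧ Attached E37b g := by
  obtain ⟨f, hf, hfE⟩ := exists_attached (by rw [E37a_Δ]; norm_num) E37a_semistable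
    conductorLevel_E37a
  obtain ⟨g, hg, hgE⟩ := exists_attached (by rw [E37b_Δ]; norm_num) E37b_semistable
    conductorLevel_E37b
  exact ⟨f, g, hf.1, hg.1, hfE, hgE⟩

/-- **The Hecke algebra of weight two and level `37`** is isomorphic to the ring of the pairs of integers which are
congruent modulo `2`. -/
theorem exists_equiv : ∃ (f g : CuspForm (Gamma0 37) 2) (hf : f.IsNormalizedEigenform)
    (hg : g.IsNormalizedEigenform) (e : CuspForm.heckeAlgebra 37 2 ∅ ≃+* D),
    Attached E37a f ∧ Attached E37b g ∧ ∀ t, H23.eigenCharC hf ∅ t = ((e t).1.1 : ℂ) ∧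
      H23.eigenCharC hg ∅ t = ((e t).1.2 : ℂ) := by
  obtain ⟨f, g, hf, hg, hfE, hgE⟩ := exists_eigenforms
  exact ⟨f, g, hf, hg, heckeEquiv hf hg hfE hgE, hfE, hgE, heckeEquiv_spec hf hg hfE hgE⟩

/-- the Hecke algebra of level `37` is not a domain -/
theorem not_isDomain : ¬ IsDomain (CuspForm.heckeAlgebra 37 2 ∅) := by
  intro h
  obtain ⟨f, g, hf, hg, hfE, hgE⟩ := exists_eigenforms
  have h1 : IsDomain D := (heckeEquiv hf hg hfE hgE).symm.toMulEquiv.isDomain _
  let x : D := ⟨(2, 0), ⟨1, by norm_num⟩⟩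
  let y : D := ⟨(0, 2), ⟨-1, by norm_num⟩⟩
  have h2 : x * y = 0 := Subtype.ext (by simp [x, y])
  rcases mul_eq_zero.mp h2 with h3 | h3
  · have h4 : (2 : ℤ) = 0 := congrArg (fun z : D => z.1.1) h3
    norm_num at h4
  · have h4 : (2 : ℤ) = 0 := congrArg (fun z : D => z.1.2) h3
    norm_num at h4

/-- **The two eigenforms of level `37` are not conjugate.** -/
theorem card_orb_37 : Nat.card (HeckeStructure.Orb 37) = 2 := by
  have h1 : Nat.card (HeckeStructure.Orb 37) ≠ 1 := fun h =>
    not_isDomain ((HeckeSpec.isDomain_iff 37).mpr h)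
  have h2 := HeckeStructure.sum_degrees 37
  rw [genus] at h2
  have h3 : ∑ ω : HeckeStructure.Orb 37, Module.finrank ℚ (coeffField ω.out.1) = 2 := by
    exact_mod_cast h2
  have h4 : Nat.card (HeckeStructure.Orb 37) ≤ 2 := by
    rw [← h3, Nat.card_eq_fintype_card, ← Finset.card_univ, Finset.card_eq_sum_ones]
    exact Finset.sum_le_sum fun ω _ => Nat.one_le_iff_ne_zero.mpr Module.finrank_pos.ne'
  have h5 : Nat.card (HeckeStructure.Orb 37) ≠ 0 := by
    intro h
    rw [Nat.card_eq_fintype_card, Fintype.card_eq_zero_iff] at h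
    rw [Finset.univ_eq_empty, Finset.sum_empty] at h3
    norm_num at h3
  omega

end Fermat.Agent.Cor.Level37
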