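import Mathlib
import Fermat.Agent.Cor.Mordell

/-!
# Ramanujan's partition congruences modulo 25 and 49

* `partition_25`: `p(25 n + 24) ≡ 0 (mod 25)`;
* `partition_49`: `p(49 n + 47) ≡ 0 (mod 49)`;
* `partition_sq`: the general principle: let `24 k + 1 = p ^ 2`; if `U_p(Δ ^ k) = p F` and `U_p(F) ≡ 0` modulo `p`, then
  `p(p ^ 2 m - k) ≡ 0` modulo `p ^ 2`;
* `Uop_delta`, `hecke_seven`: the action of the Hecke operators on `Δ` and of `T₇` on `Δ ^ 2` (in the two dimensional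
  space of cusp forms of weight `24`).

Proof of the principle: with `E = ∏ (1 - X ^ n)` one has `E ^ (p ^ 2) ≡ E(X ^ p) ^ p` modulo `p ^ 2`, so
`X ^ k ∑ p(n) X ^ n = Δ ^ k / E ^ (p ^ 2) ≡ Δ ^ k / E(X ^ p) ^ p`; now apply `U_p` twice.

This file is not used by any of the statement files.
-/

set_option autoImplicit false

namespace Fermat.Agent.Cor.PartSq

open Fermat.Agent.Cor.RamCong Fermat.Agent.Cor.Mordell Fermat.Agent.H13 PowerSeries
open ModularFormClass CongruenceSubgroup Fermat.Agent.H22 ModularForm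

noncomputable section

theorem coeff_nat_mul (m n : ℕ) (f : ℤ⟦X⟧) : coeff n ((m : ℤ⟦X⟧) * f) = m * coeff n f := by
  rw [show (m : ℤ⟦X⟧) = C (m : ℤ) by rw [map_natCast], coeff_C_mul]

theorem dvd_iff_coeff (m : ℕ) (f : ℤ⟦X⟧) : (m : ℤ⟦X⟧) ∣ f ↔ ∀ n, (m : ℤ) ∣ coeff n f := by
  constructor
  · rintro ⟨g, rfl⟩ n
    rw [coeff_nat_mul]
    exact dvd_mul_right _ _
  · intro h
    refine ⟨PowerSeries.mk fun n ↦ coeff n f / m, ?_⟩
    ext n
    rw [coeff_nat_mul, coeff_mk]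
    exact (Int.mul_ediv_cancel' (h n)).symm

theorem dvd_iff_map (p : ℕ) (f : ℤ⟦X⟧) :
    (p : ℤ⟦X⟧) ∣ f ↔ f.map (Int.castRingHom (ZMod p)) = 0 := by
  rw [dvd_iff_coeff]
  constructor
  · intro h
    ext n
    rw [coeff_map, map_zero]
    exact (ZMod.intCast_zmod_eq_zero_iff_dvd _ _).mpr (h n)
  · intro h n
    have := congrArg (coeff n) h
    rw [coeff_map, map_zero] at this
    exact (ZMod.intCast_zmod_eq_zero_iff_dvd _ _).mp this

theorem map_expand' {R S : Type*} [CommRing R] [CommRing S] (g : R →+* S) (p : ℕ) (hp : p ≠ 0)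
    (f : R⟦X⟧) : (expand p hp f).map g = expand p hp (f.map g) := by
  ext n
  rw [coeff_map, coeff_expand, coeff_expand, coeff_map]
  split_ifs <;> simp

theorem dvd_pow_sub_expand (p : ℕ) [hp : Fact p.Prime] (f : ℤ⟦X⟧) :
    (p : ℤ⟦X⟧) ∣ f ^ p - expand p hp.out.ne_zero f := by
  rw [dvd_iff_map, map_sub, map_pow, map_expand', pow_char, sub_self]

theorem Uop_natCast_mul' (p c : ℕ) (f : ℤ⟦X⟧) : Uop p ((c : ℤ⟦X⟧) * f) = c * Uop p f := by
  ext n
  rw [coeff_Uop, coeff_nat_mul, coeff_nat_mul, coeff_Uop]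

/-- the principle for the square of a prime -/
theorem partition_sq (p : ℕ) [hp : Fact p.Prime] {k : ℕ} (hk : 24 * k + 1 = p ^ 2)
    {F : ℤ⟦X⟧} (hF : Uop p (deltaZ ^ k) = p * F) (hF2 : (p : ℤ⟦X⟧) ∣ Uop p F) {n m : ℕ}
    (hm : n + k = p ^ 2 * m) : p ^ 2 ∣ Fintype.card (Nat.Partition n) := by
  set E := ModularCurve.etaProd with hE
  have hPE : pser * E = 1 := pser_mul
  obtain ⟨H, hH⟩ := hF2
  have h1 : (p : ℤ⟦X⟧) ∣ E ^ p - expand p hp.out.ne_zero E := dvd_pow_sub_expand p E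
  have h2 := dvd_sub_pow_of_dvd_sub h1 1
  rw [pow_one, ← map_pow] at h2
  obtain ⟨G, hG⟩ := h2
  obtain ⟨G2, hG2⟩ := h1
  set A := Uop p (X ^ k * pser) with hA
  -- step 1
  have h3 : expand p hp.out.ne_zero (E ^ p) * (X ^ k * pser) + ((p ^ 2 : ℕ) : ℤ⟦X⟧) *
      (G * (X ^ k * pser)) = deltaZ ^ k := by
    rw [deltaZ_eq, mul_pow, ← pow_mul]
    have h4 : (E ^ p) ^ p = E ^ (24 * k) * E := by
      rw [← pow_mul, ← pow_two, ← hk, pow_succ]
    rw [h4] at hG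
    push_cast
    linear_combination (X ^ k * E ^ (24 * k)) * hPE - (X ^ k * pser) * hG
  have h4 := congrArg (Uop p) h3
  rw [map_add, Uop_expand_mul, Uop_natCast_mul', hF, ← hA] at h4
  set G1 := Uop p (G * (X ^ k * pser)) with hG1
  push_cast at h4
  -- step 2
  set A' := pser ^ p * (F - p * G1) with hA'
  have hPEp : pser ^ p * E ^ p = 1 := by rw [← mul_pow, hPE, one_pow]
  have h5 : A = p * A' := by
    rw [hA']
    linear_combination -A * hPEp + pser ^ p * h4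
  have h6 : E ^ p * A' = F - p * G1 := by
    rw [hA']
    linear_combination (F - p * G1) * hPEp
  -- step 3
  have h7 : expand p hp.out.ne_zero E * A' + p * (G2 * A') = F - p * G1 := by
    linear_combination h6 - A' * hG2
  have h8 := congrArg (Uop p) h7
  rw [map_add, Uop_expand_mul, Uop_natCast_mul', map_sub, Uop_natCast_mul', hH] at h8
  have h9 : Uop p A = ((p ^ 2 : ℕ) : ℤ⟦X⟧) *
      (pser * (H - Uop p G1 - Uop p (G2 * A'))) := by
    rw [h5, Uop_natCast_mul']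
    push_cast
    linear_combination (-p * Uop p A') * hPE + (p * pser) * h8
  have h10 := (dvd_iff_coeff _ _).mp ⟨_, h9⟩ m
  rw [coeff_Uop, hA, coeff_Uop, mul_assoc, ← pow_two, mul_comm m, ← hm, coeff_X_pow_mul, pser,
    coeff_mk] at h10
  exact_mod_cast h10

theorem Uop_delta (p : ℕ) (hp : p.Prime) :
    Uop p deltaZ = (C (tau p)) * deltaZ - ((p ^ 11 : ℕ) : ℤ⟦X⟧) * expand p hp.ne_zero deltaZ := by
  ext n
  rw [coeff_Uop, map_sub, coeff_C_mul, coeff_nat_mul, coeff_expand, ← tau_eq, ← tau_eq]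
  have h := tau_hr p hp (fun h ↦ hp.one_lt.ne' (Nat.dvd_one.mp h)) n
  simp only [] at h
  rw [mul_comm p n] at h
  split_ifs at h ⊢ with hd
  · rw [← tau_eq]
    have h1 : ((tau (n * p) + p ^ 11 * tau (n / p) : ℤ) : ℂ) = ((tau p * tau n : ℤ) : ℂ) := by
      push_cast
      exact h
    have h2 : tau (n * p) + p ^ 11 * tau (n / p) = tau p * tau n := by exact_mod_cast h1
    push_cast
    linear_combination h2
  · have h1 : ((tau (n * p) : ℤ) : ℂ) = ((tau p * tau n : ℤ) : ℂ) := by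
      push_cast
      rw [← h]
      ring
    have h2 : tau (n * p) = tau p * tau n := by exact_mod_cast h1
    rw [mul_zero, sub_zero]
    exact h2

/-- **Ramanujan**: `p(25 n + 24) ≡ 0` modulo `25`. -/
theorem partition_25 (n : ℕ) : 25 ∣ Fintype.card (Nat.Partition (25 * n + 24)) := by
  have hF : Fact (Nat.Prime 5) := ⟨by norm_num⟩
  set V : ℤ⟦X⟧ := expand 5 hF.out.ne_zero deltaZ with hV
  have hU : Uop 5 (deltaZ ^ 1) = ((5 : ℕ) : ℤ⟦X⟧) * (((966 : ℕ) : ℤ⟦X⟧) * deltaZ - ((5 ^ 10 : ℕ) : ℤ⟦X⟧) * V) := by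
    rw [pow_one, Uop_delta 5 hF.out, tau_values.2.2.2.2]
    have h1 : (C (4830 : ℤ) : ℤ⟦X⟧) = 4830 := by rw [map_ofNat]
    rw [h1]
    push_cast
    ring
  refine partition_sq 5 (k := 1) (by norm_num) hU ?_ (n := 25 * n + 24) (m := n + 1) (by ring)
  have h1 : Uop 5 deltaZ = ((5 : ℕ) : ℤ⟦X⟧) * (((966 : ℕ) : ℤ⟦X⟧) * deltaZ - ((5 ^ 10 : ℕ) : ℤ⟦X⟧) * V) := by
    rw [← hU, pow_one]
  rw [map_sub, Uop_natCast_mul', Uop_natCast_mul', h1]
  refine ⟨((966 : ℕ) : ℤ⟦X⟧) * (((966 : ℕ) : ℤ⟦X⟧) * deltaZ - ((5 ^ 10 : ℕ) : ℤ⟦X⟧) * V) -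
    ((5 ^ 9 : ℕ) : ℤ⟦X⟧) * Uop 5 V, ?_⟩
  push_cast
  ring


/-! ### The prime 7 -/

/-- a cusp form of level one from its Fourier expansion -/
theorem exists_cusp {k : ℤ} {φ : ℤ⟦X⟧} (h : IsOne k (φ.map (Int.castRingHom ℚ)))
    (h0 : coeff 0 φ = 0) :
    ∃ f : CuspForm (Gamma0 1) k, ∀ n, qCoeff ⇑f n = ((coeff n φ : ℤ) : ℂ) := by
  obtain ⟨A, hA⟩ := h
  have hc : ∀ n, (UpperHalfPlane.qExpansion 1 A).coeff n = ((coeff n φ : ℤ) : ℂ) := by
    intro n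
    rw [hA, coeff_qc, coeff_map]
    simp
  have hA0 : (UpperHalfPlane.qExpansion 1 A).coeff 0 = 0 := by rw [hc, h0, Int.cast_zero]
  exact ⟨restr (ModularForm.toCuspForm A hA0), fun n ↦ hc n⟩

theorem coeff_zero_deltaZ : coeff 0 deltaZ = 0 := by
  rw [deltaZ_eq]; simp

theorem coeff_one_deltaZ : coeff 1 deltaZ = 1 := by
  rw [← tau_eq, tau_values.1]

/-- the coefficients of `Δ E₄³` and of `Δ²` -/
def c1 (n : ℕ) : ℤ := coeff n (deltaZ * e4 ℤ ^ 3)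

/-- the coefficients of `Δ²` -/
def c2 (n : ℕ) : ℤ := coeff n (deltaZ ^ 2)

theorem c1_zero : c1 0 = 0 := by
  rw [c1, coeff_zero_mul', coeff_zero_deltaZ, zero_mul]

theorem c2_zero : c2 0 = 0 := by
  rw [c2, coeff_zero_pow', coeff_zero_deltaZ, zero_pow two_ne_zero]

theorem c1_one : c1 1 = 1 := by
  rw [c1, coeff_mul, Finset.Nat.antidiagonal_succ]
  simp only [Finset.Nat.antidiagonal_zero, Finset.map_singleton, Finset.sum_cons,
    Finset.sum_singleton, Function.Embedding.prodMap, Function.Embedding.coeFn_mk, Prod.map_apply,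
    Nat.succ_eq_add_one, zero_add, Function.Embedding.refl_apply]
  rw [coeff_zero_deltaZ, coeff_one_deltaZ, coeff_zero_pow', coeff_zero_e4]
  norm_num

theorem c2_one : c2 1 = 0 := by
  rw [c2, pow_two]
  exact coeff_one_mul coeff_zero_deltaZ coeff_zero_deltaZ

theorem c2_two : c2 2 = 1 := by
  have h : Finset.HasAntidiagonal.antidiagonal 2 = {(0, 2), (1, 1), (2, 0)} := by decide
  rw [c2, pow_two, coeff_mul, h, Finset.sum_insert (by decide), Finset.sum_insert (by decide),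
    Finset.sum_singleton, coeff_zero_deltaZ, coeff_one_deltaZ]
  ring

theorem hecke_seven (n : ℕ) : c2 (n * 7) + 7 ^ 23 * (if 7 ∣ n then c2 (n / 7) else 0) =
    c2 7 * c1 n + (c2 14 - c2 7 * c1 2) * c2 n := by
  have hp : Nat.Prime 7 := by norm_num
  have hpN : ¬ 7 ∣ 1 := by norm_num
  obtain ⟨f2, hf2⟩ := exists_cusp (k := 24) (φ := deltaZ ^ 2) (by
    rw [map_pow]
    exact (isOne_delta.pow 2).cast (by norm_num)) c2_zero
  obtain ⟨f1, hf1⟩ := exists_cusp (k := 24) (φ := deltaZ * e4 ℤ ^ 3) (by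
    rw [map_mul, map_pow, map_e4]
    exact (isOne_delta.mul (isOne_e4.pow 3)).cast (by norm_num)) c1_zero
  have hf1' : ∀ n, qCoeff ⇑f1 n = (c1 n : ℂ) := hf1
  have hf2' : ∀ n, qCoeff ⇑f2 n = (c2 n : ℂ) := hf2
  have hT : ∀ n, qCoeff ⇑(CuspForm.heckeTLin 24 hp hpN f2) n =
      ((c2 (n * 7) + 7 ^ 23 * (if 7 ∣ n then c2 (n / 7) else 0) : ℤ) : ℂ) := by
    intro n
    rw [qCoeff_heckeTLin, coeffHeckeT_apply, hf2', hf2']
    split_ifs
    · push_cast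
      norm_num
    · push_cast
      ring
  set a : ℂ := (c2 7 : ℂ) with ha
  set b : ℂ := ((c2 14 - c2 7 * c1 2 : ℤ) : ℂ) with hb
  have h0 : CuspForm.heckeTLin 24 hp hpN f2 - a • f1 - b • f2 = 0 := by
    apply cusp_eq_zero_of_qCoeff
    intro n hn
    rw [index_one] at hn
    have hn2 : n ≤ 2 := hn.trans (by decide)
    rw [cusp_qCoeff_sub, cusp_qCoeff_sub, cusp_qCoeff_smul, cusp_qCoeff_smul, hT, hf1', hf2']
    interval_cases n
    · simp [c2_zero, c1_zero]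
    · rw [if_neg (by norm_num), c1_one, c2_one, ha]
      push_cast
      ring
    · rw [if_neg (by norm_num), c2_two, ha, hb]
      push_cast
      ring
  have h1 : qCoeff ⇑(CuspForm.heckeTLin 24 hp hpN f2 - a • f1 - b • f2) n = 0 := by
    rw [h0]
    exact (qCoeffLin 1 24 n).map_zero
  rw [cusp_qCoeff_sub, cusp_qCoeff_sub, cusp_qCoeff_smul, cusp_qCoeff_smul, hT, hf1', hf2', ha,
    hb] at h1
  have h2 : ((c2 (n * 7) + 7 ^ 23 * (if 7 ∣ n then c2 (n / 7) else 0) - c2 7 * c1 n -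
      (c2 14 - c2 7 * c1 2) * c2 n : ℤ) : ℂ) = 0 := by
    rw [← h1]
    push_cast
    ring
  have h3 : c2 (n * 7) + 7 ^ 23 * (if 7 ∣ n then c2 (n / 7) else 0) - c2 7 * c1 n -
      (c2 14 - c2 7 * c1 2) * c2 n = 0 := by exact_mod_cast h2
  linear_combination h3

theorem seven_dvd_c2 (n : ℕ) : (7 : ℤ) ∣ c2 (n * 7) := by
  apply (ZMod.intCast_zmod_eq_zero_iff_dvd _ 7).mp
  have h : ((c2 (n * 7) : ℤ) : ZMod 7) = coeff (n * 7) (delta (ZMod 7) ^ 2) := by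
    rw [c2, delta, ← map_pow, coeff_map]
    rfl
  rw [h, delta_sq_mod_seven, coeff_theta]
  push_cast
  rw [show (7 : ZMod 7) = 0 by decide, mul_zero, zero_mul]

theorem seven_dvd_c1 (n : ℕ) : (7 : ℤ) ∣ c1 (n * 7) := by
  have h7 : (7 : (ZMod 7)⟦X⟧) = 0 := ofNat_self_eq_zero 7
  have hz : e6 (ZMod 7) = 1 := by
    have h6 : e6 (ZMod 7) = 1 - 504 * sser (ZMod 7) 5 := rfl
    linear_combination h6 - 72 * sser (ZMod 7) 5 * h7
  have hd : e4 (ZMod 7) ^ 3 = 1 - delta (ZMod 7) := by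
    have hC := delta_spec (R := ZMod 7)
    linear_combination -hC + (e6 (ZMod 7) + 1) * hz + 247 * delta (ZMod 7) * h7
  have h1 : (deltaZ * e4 ℤ ^ 3).map (Int.castRingHom (ZMod 7)) =
      (deltaZ - deltaZ ^ 2).map (Int.castRingHom (ZMod 7)) := by
    rw [map_mul, map_pow, map_e4, map_sub, map_pow]
    change delta (ZMod 7) * e4 (ZMod 7) ^ 3 = delta (ZMod 7) - delta (ZMod 7) ^ 2
    rw [hd]
    ring
  have h2 : (7 : ℤ) ∣ c1 (n * 7) - (tau (n * 7) - c2 (n * 7)) := by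
    apply (ZMod.intCast_zmod_eq_zero_iff_dvd _ 7).mp
    have h3 := congrArg (coeff (n * 7)) h1
    rw [coeff_map, coeff_map, map_sub, ← tau_eq] at h3
    change ((c1 (n * 7) : ℤ) : ZMod 7) = ((tau (n * 7) - c2 (n * 7) : ℤ) : ZMod 7) at h3
    rw [Int.cast_sub, h3, sub_self]
  have h3 : (7 : ℤ) ∣ tau (n * 7) := by
    have h4 := tau_mod_seven (n * 7)
    have h6 : (7 : ℤ) ∣ ((n * 7 : ℕ) : ℤ) := ⟨n, by push_cast; ring⟩
    have h5 : (7 : ℤ) ∣ ((n * 7 : ℕ) : ℤ) * (ArithmeticFunction.sigma 3 (n * 7) : ℕ) :=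
      h6.mul_right _
    have := dvd_add h4 h5
    rwa [sub_add_cancel] at this
  have h4 := dvd_add h2 (dvd_sub h3 (seven_dvd_c2 n))
  rwa [sub_add_cancel] at h4

/-- **Ramanujan**: `p(49 n + 47) ≡ 0` modulo `49`. -/
theorem partition_49 (n : ℕ) : 49 ∣ Fintype.card (Nat.Partition (49 * n + 47)) := by
  have hF : Fact (Nat.Prime 7) := ⟨by norm_num⟩
  obtain ⟨a, ha⟩ : (7 : ℤ) ∣ c2 7 := by simpa using seven_dvd_c2 1
  obtain ⟨b, hb⟩ : (7 : ℤ) ∣ c2 14 - c2 7 * c1 2 :=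
    dvd_sub (by simpa using seven_dvd_c2 2) (Dvd.dvd.mul_right ⟨a, ha⟩ _)
  set V : ℤ⟦X⟧ := expand 7 hF.out.ne_zero (deltaZ ^ 2) with hV
  set F : ℤ⟦X⟧ := C a * (deltaZ * e4 ℤ ^ 3) + C b * deltaZ ^ 2 - ((7 ^ 22 : ℕ) : ℤ⟦X⟧) * V with hFd
  have hU : Uop 7 (deltaZ ^ 2) = ((7 : ℕ) : ℤ⟦X⟧) * F := by
    ext m
    have h := hecke_seven m
    rw [coeff_Uop, coeff_nat_mul, hFd, map_sub, map_add, coeff_C_mul, coeff_C_mul, coeff_nat_mul,
      hV, coeff_expand]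
    change c2 (m * 7) = ((7 : ℕ) : ℤ) * (a * c1 m + b * c2 m -
      ((7 ^ 22 : ℕ) : ℤ) * (if 7 ∣ m then c2 (m / 7) else 0))
    push_cast
    linear_combination h + c1 m * ha + c2 m * hb
  refine partition_sq 7 (k := 2) (by norm_num) hU ?_ (n := 49 * n + 47) (m := n + 1) (by ring)
  rw [dvd_iff_coeff]
  intro m
  rw [coeff_Uop, hFd, map_sub, map_add, coeff_C_mul, coeff_C_mul, coeff_nat_mul]
  have e1 : (7 : ℤ) ∣ a * coeff (m * 7) (deltaZ * e4 ℤ ^ 3) := Dvd.dvd.mul_left (seven_dvd_c1 m) a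
  have e2 : (7 : ℤ) ∣ b * coeff (m * 7) (deltaZ ^ 2) := Dvd.dvd.mul_left (seven_dvd_c2 m) b
  have e3 : (7 : ℤ) ∣ ((7 ^ 22 : ℕ) : ℤ) * coeff (m * 7) V :=
    Dvd.dvd.mul_right ⟨7 ^ 21, by norm_num⟩ _
  exact dvd_sub (dvd_add e1 e2) e3


end

end Fermat.Agent.Cor.PartSq
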