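import Mathlib
import Fermat.Agent.Cor.PartSq

/-!
# The eigenforms of level one and weight 12, 16, 18, 20, 22

Let `ev a b n` be the `n`-th Fourier coefficient of the cusp form `Δ E₄ ^ a E₆ ^ b` of weight `k = 12 + 4 a + 6 b` on
`SL₂(ℤ)`. If `k < 24` (so `k = 12, 16, 18, 20, 22`), then

* `ev_mul`: `ev a b (m n) = ev a b m * ev a b n` for coprime `m`, `n`;
* `ev_pow`: `ev a b (p ^ (r + 2)) = ev a b p * ev a b (p ^ (r + 1)) - p ^ (k - 1) * ev a b (p ^ r)` for primes `p`.

This file is not used by any of the statement files.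
-/

set_option autoImplicit false

namespace Fermat.Agent.Cor.LevelOneEigen

open Fermat.Agent.Cor.RamCong Fermat.Agent.Cor.Mordell Fermat.Agent.Cor.PartSq
open Fermat.Agent.H13 PowerSeries ModularFormClass CongruenceSubgroup

noncomputable section

/-- the Fourier coefficients of `Δ E₄ ^ a E₆ ^ b` -/
def ev (a b n : ℕ) : ℤ := coeff n (deltaZ * (e4 ℤ ^ a * e6 ℤ ^ b))

theorem ev_one (a b : ℕ) : ev a b 1 = 1 := by
  have h : Finset.HasAntidiagonal.antidiagonal 1 = {(0, 1), (1, 0)} := by decide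
  rw [ev, coeff_mul, h, Finset.sum_insert (by decide), Finset.sum_singleton, coeff_zero_deltaZ,
    coeff_one_deltaZ, coeff_zero_mul', coeff_zero_pow', coeff_zero_pow', coeff_zero_e4,
    coeff_zero_e6]
  norm_num

theorem exists_form (a b : ℕ) : ∃ f : CuspForm (Gamma0 1) ((12 + 4 * a + 6 * b : ℕ) : ℤ),
    ∀ n, qCoeff ⇑f n = (ev a b n : ℂ) := by
  refine exists_cusp (φ := deltaZ * (e4 ℤ ^ a * e6 ℤ ^ b)) ?_ ?_
  · rw [map_mul, map_mul, map_pow, map_pow, map_e4, map_e6]
    refine (isOne_delta.mul ((isOne_e4.pow a).mul (isOne_e6.pow b))).cast ?_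
    push_cast
    ring
  · rw [coeff_zero_mul', coeff_zero_deltaZ, zero_mul]

theorem ev_mul {a b : ℕ} (hk : 4 * a + 6 * b < 12) {m n : ℕ} (h : m.Coprime n) :
    ev a b (m * n) = ev a b m * ev a b n := by
  obtain ⟨f, hf⟩ := exists_form a b
  have h1 := qCoeff_mul_of_lt (g := f) (by omega) (by omega) (by rw [hf, ev_one, Int.cast_one]) h
  rw [hf, hf, hf] at h1
  exact_mod_cast h1

theorem ev_pow {a b : ℕ} (hk : 4 * a + 6 * b < 12) {p : ℕ} (hp : p.Prime) (r : ℕ) :
    ev a b (p ^ (r + 2)) =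
      ev a b p * ev a b (p ^ (r + 1)) - (p : ℤ) ^ (12 + 4 * a + 6 * b - 1) * ev a b (p ^ r) := by
  obtain ⟨f, hf⟩ := exists_form a b
  have h1 := qCoeff_pow_of_lt (g := f) (by omega) (by omega) (by rw [hf, ev_one, Int.cast_one])
    hp r
  rw [hf, hf, hf, hf] at h1
  exact_mod_cast h1

end

end Fermat.Agent.Cor.LevelOneEigen
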