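import Mathlib
import Fermat.Agent.Cor.DivisionFieldsAb
import Fermat.Agent.Cor.FrobTraces

/-!
# The local-global principle for divisibility

Let `W` be a semistable elliptic curve over `ℚ`, `N` an integer coprime to `6` such that `W[p]` is irreducible for
all primes `p ∣ N`, and `P ∈ W(ℚ)`.

* `divisible_of_frobenius`: if for all but finitely many primes `ℓ` every Frobenius element at `ℓ` fixes some point
  `Q` with `N Q = P`, then `P` is divisible by `N` in `W(ℚ)`;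
* `divisible_of_decomposition`: if `P` is divisible by `N` in `W(ℚ̄)^D`, `D` any decomposition group at `ℓ`, for all but
  finitely many primes `ℓ`, then `P` is divisible by `N` in `W(ℚ)`;
* `divisible_of_decomposition_uniform`: all semistable curves, prime factors of `N` at least `11` and different from
  `13`; `divisible_of_decomposition_full`: all semistable curves with full `2`-torsion, all `N` coprime to `6`.

This file is not used by any of the statement files.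
-/

set_option autoImplicit false
set_option linter.style.haveILetI false

noncomputable section

namespace Fermat.Agent.Cor.LocalGlobalDiv

open WeierstrassCurve WeierstrassCurve.Affine WeierstrassCurve.Affine.Point
open Fermat.Agent.Ell Fermat.Agent.Cor.Surj Fermat.Agent.Cor.DivisionFields
open Fermat.Agent.Cor.H11 (HasFullTwo irreducible_of_fullTwo)

local notation "Qb" => AlgebraicClosure ℚ
local notation "Γq" => AlgebraicClosure ℚ ≃ₐ[ℚ] AlgebraicClosure ℚ

/-- the stabilizer of a point contains an open subgroup -/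
theorem exists_open_fix (W : WeierstrassCurve ℤ) (Q : Pts (WQ W)) :
    ∃ U : Subgroup Γq, IsOpen (U : Set Γq) ∧ ∀ u ∈ U, u • Q = Q := by
  rcases Q with _ | ⟨x, y, h⟩
  · exact ⟨⊤, isOpen_univ, fun u _ => smul_zero (A := Pts (WQ W)) u⟩
  · haveI : FiniteDimensional ℚ (IntermediateField.adjoin ℚ {x, y}) :=
      IntermediateField.finiteDimensional_adjoin fun x _ => Algebra.IsIntegral.isIntegral x
    refine ⟨(IntermediateField.adjoin ℚ {x, y}).fixingSubgroup,
      IntermediateField.fixingSubgroup_isOpen _, fun u hu => ?_⟩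
    have h1 : u x = x := (IntermediateField.mem_fixingSubgroup_iff _ _).mp hu x
      (IntermediateField.subset_adjoin ℚ _ (Or.inl rfl))
    have h2 : u y = y := (IntermediateField.mem_fixingSubgroup_iff _ _).mp hu y
      (IntermediateField.subset_adjoin ℚ _ (Or.inr rfl))
    refine (algEquiv_smul_def _ _).trans ?_
    rw [Point.map_some]
    simp only [AlgEquiv.coe_toAlgHom, h1, h2]

/-- **Local-global principle for divisibility**: if for all but finitely many primes `ℓ` every Frobenius element at `ℓ`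
fixes a point `Q` with `N Q = P`, then `P` is divisible by `N` in `W(ℚ)`. -/
theorem divisible_of_frobenius (W : WeierstrassCurve ℤ) (hΔ : W.Δ ≠ 0) (hss : W.IsSemistableModel)
    {N : ℕ} (hN : N.Coprime 6) (hirr : ∀ p : ℕ, p.Prime → p ∣ N → W.ModRepIsIrreducible p)
    (P : ((W.map (Int.castRingHom ℚ))⁄(AlgebraicClosure ℚ)).Point)
    (hP : ∀ σ : AlgebraicClosure ℚ ≃ₐ[ℚ] AlgebraicClosure ℚ, σ • P = P) (S : Set ℕ)
    (hS : S.Finite)
    (hloc : ∀ ℓ : ℕ, ℓ.Prime → ℓ ∉ S → ∀ (A : ValuationSubring (AlgebraicClosure ℚ))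
      (φ : AlgebraicClosure ℚ ≃ₐ[ℚ] AlgebraicClosure ℚ), A.LiesOverPrime ℓ → A.IsFrobeniusAt φ ℓ →
      ∃ Q : ((W.map (Int.castRingHom ℚ))⁄(AlgebraicClosure ℚ)).Point, N • Q = P ∧ φ • Q = Q) :
    ∃ Q : ((W.map (Int.castRingHom ℚ))⁄(AlgebraicClosure ℚ)).Point, N • Q = P ∧
      ∀ σ : AlgebraicClosure ℚ ≃ₐ[ℚ] AlgebraicClosure ℚ, σ • Q = Q := by
  haveI := isElliptic_WQ hΔ
  have hN0 : N ≠ 0 := by
    rintro rfl
    norm_num at hN
  change Pts (WQ W) at P
  -- a point `Q` with `N Q = P`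
  obtain ⟨Q, hQ⟩ : ∃ Q : Pts (WQ W), N • Q = P := by
    obtain ⟨ℓ, ⟨hℓ, A, φ, hA, hφ, -⟩, hℓS⟩ :=
      ((Cheb.infinite_frobenius_dense (U := (⊤ : Subgroup Γq)) isOpen_univ 1).sdiff hS).nonempty
    obtain ⟨Q, hQ, -⟩ := hloc ℓ hℓ hℓS A φ hA hφ
    exact ⟨Q, hQ⟩
  refine divisible_descends W hΔ hss hN hirr P Q hP hQ fun σ hσ => ?_
  obtain ⟨L, hL, hLN⟩ := exists_level_field (WQ W) N hN0
  obtain ⟨U, hU, hUQ⟩ := exists_open_fix W Q
  have hV : IsOpen ((L.fixingSubgroup ⊓ U : Subgroup Γq) : Set Γq) := by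
    rw [Subgroup.coe_inf]
    exact (IntermediateField.fixingSubgroup_isOpen L).inter hU
  obtain ⟨ℓ, ⟨hℓ, A, φ, hA, hφ, hφU⟩, hℓS⟩ :=
    ((Cheb.infinite_frobenius_dense hV σ).sdiff hS).nonempty
  obtain ⟨Q', hQ', hφQ'⟩ := hloc ℓ hℓ hℓS A φ hA hφ
  change Pts (WQ W) at Q'
  set u : Γq := σ⁻¹ * φ with hu
  have hφu : φ = σ * u := by rw [hu]; group
  obtain ⟨hu1, hu2⟩ := Subgroup.mem_inf.mp hφU
  have huN : ∀ x : Pts (WQ W), N • x = 0 → u • x = x := by
    intro x hx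
    have h1 := hLN u 1 (fun y hy => (IntermediateField.mem_fixingSubgroup_iff _ _).mp hu1 y hy) x hx
    rwa [one_smul] at h1
  -- `Q' = Q + s`
  have hs : N • (Q' - Q) = 0 := by
    have h1 : N • Q' = P := hQ'
    rw [nsmul_sub, h1, hQ, sub_self]
  have h1 : Q' = Q + (Q' - Q) := by abel
  have hadd : ∀ (g : Γq) (a b : Pts (WQ W)), g • (a + b) = g • a + g • b := fun g a b =>
    map_add (DistribSMul.toAddMonoidHom (Pts (WQ W)) g) a b
  have h2 : φ • Q' = σ • Q + (Q' - Q) := by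
    rw [h1, hφu, mul_smul, hadd, hUQ u hu2, huN _ hs, hadd]
    have h3 : σ • (Q' - Q) = Q' - Q := hσ _ hs
    rw [h3]
    abel
  have h3 : φ • Q' = Q' := hφQ'
  rw [h3] at h2
  have h4 : σ • Q = Q' - (Q' - Q) := by rw [eq_sub_iff_add_eq]; exact h2.symm
  have h5 : Q' - (Q' - Q) = Q := by abel
  exact h4.trans h5

/-- **Local-global principle for divisibility**, in terms of the decomposition groups. -/
theorem divisible_of_decomposition (W : WeierstrassCurve ℤ) (hΔ : W.Δ ≠ 0)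
    (hss : W.IsSemistableModel) {N : ℕ} (hN : N.Coprime 6)
    (hirr : ∀ p : ℕ, p.Prime → p ∣ N → W.ModRepIsIrreducible p)
    (P : ((W.map (Int.castRingHom ℚ))⁄(AlgebraicClosure ℚ)).Point)
    (hP : ∀ σ : AlgebraicClosure ℚ ≃ₐ[ℚ] AlgebraicClosure ℚ, σ • P = P) (S : Set ℕ)
    (hS : S.Finite)
    (hloc : ∀ ℓ : ℕ, ℓ.Prime → ℓ ∉ S → ∀ A : ValuationSubring (AlgebraicClosure ℚ),
      A.LiesOverPrime ℓ → ∃ Q : ((W.map (Int.castRingHom ℚ))⁄(AlgebraicClosure ℚ)).Point,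
        N • Q = P ∧ ∀ σ ∈ A.decompositionSubgroup ℚ, σ • Q = Q) :
    ∃ Q : ((W.map (Int.castRingHom ℚ))⁄(AlgebraicClosure ℚ)).Point, N • Q = P ∧
      ∀ σ : AlgebraicClosure ℚ ≃ₐ[ℚ] AlgebraicClosure ℚ, σ • Q = Q :=
  divisible_of_frobenius W hΔ hss hN hirr P hP S hS fun ℓ hℓ hℓS A φ hA hφ => by
    obtain ⟨Q, hQ, h⟩ := hloc ℓ hℓ hℓS A hA
    exact ⟨Q, hQ, h φ hφ.1⟩

/-- The uniform version: all semistable curves, prime factors of `N` at least `11` and different from `13`. -/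
theorem divisible_of_decomposition_uniform (W : WeierstrassCurve ℤ) (hΔ : W.Δ ≠ 0)
    (hss : W.IsSemistableModel) {N : ℕ} (hN : ∀ p : ℕ, p.Prime → p ∣ N → 11 ≤ p ∧ p ≠ 13)
    (P : ((W.map (Int.castRingHom ℚ))⁄(AlgebraicClosure ℚ)).Point)
    (hP : ∀ σ : AlgebraicClosure ℚ ≃ₐ[ℚ] AlgebraicClosure ℚ, σ • P = P) (S : Set ℕ)
    (hS : S.Finite)
    (hloc : ∀ ℓ : ℕ, ℓ.Prime → ℓ ∉ S → ∀ A : ValuationSubring (AlgebraicClosure ℚ),
      A.LiesOverPrime ℓ → ∃ Q : ((W.map (Int.castRingHom ℚ))⁄(AlgebraicClosure ℚ)).Point,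
        N • Q = P ∧ ∀ σ ∈ A.decompositionSubgroup ℚ, σ • Q = Q) :
    ∃ Q : ((W.map (Int.castRingHom ℚ))⁄(AlgebraicClosure ℚ)).Point, N • Q = P ∧
      ∀ σ : AlgebraicClosure ℚ ≃ₐ[ℚ] AlgebraicClosure ℚ, σ • Q = Q :=
  divisible_of_decomposition W hΔ hss (coprime_six_of hN)
    (fun p hp hpN => Mazur.modRep_irreducible hΔ hss hp (hN p hp hpN).1 (hN p hp hpN).2)
    P hP S hS hloc

/-- The version for the curves with full `2`-torsion: all `N` coprime to `6`. -/
theorem divisible_of_decomposition_full (W : WeierstrassCurve ℤ) (hΔ : W.Δ ≠ 0)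
    (hss : W.IsSemistableModel) (h2 : HasFullTwo W) {N : ℕ} (hN : N.Coprime 6)
    (P : ((W.map (Int.castRingHom ℚ))⁄(AlgebraicClosure ℚ)).Point)
    (hP : ∀ σ : AlgebraicClosure ℚ ≃ₐ[ℚ] AlgebraicClosure ℚ, σ • P = P) (S : Set ℕ)
    (hS : S.Finite)
    (hloc : ∀ ℓ : ℕ, ℓ.Prime → ℓ ∉ S → ∀ A : ValuationSubring (AlgebraicClosure ℚ),
      A.LiesOverPrime ℓ → ∃ Q : ((W.map (Int.castRingHom ℚ))⁄(AlgebraicClosure ℚ)).Point,
        N • Q = P ∧ ∀ σ ∈ A.decompositionSubgroup ℚ, σ • Q = Q) :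
    ∃ Q : ((W.map (Int.castRingHom ℚ))⁄(AlgebraicClosure ℚ)).Point, N • Q = P ∧
      ∀ σ : AlgebraicClosure ℚ ≃ₐ[ℚ] AlgebraicClosure ℚ, σ • Q = Q :=
  divisible_of_decomposition W hΔ hss hN
    (fun _ hp hpN => irreducible_of_fullTwo hΔ hss h2 hp (five_le_of_dvd hN hp hpN))
    P hP S hS hloc

end Fermat.Agent.Cor.LocalGlobalDiv
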