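import Fermat.Agent.Cor.MordellWeil

/-!
# The Néron–Tate canonical height
-/

namespace Fermat.Agent.Cor.MW

open Filter Topology

/-! ### Abstract canonical heights -/

section Abstract

variable {G : Type*} [AddCommGroup G]

/-- `h` satisfies the approximate parallelogram law with constant `C`. -/
def ApproxPar (h : G → ℝ) (C : ℝ) : Prop :=
  ∀ x y, |h (x + y) + h (x - y) - 2 * (h x + h y)| ≤ C

/-- `q` satisfies the parallelogram law. -/
def Par (q : G → ℝ) : Prop := ∀ x y, q (x + y) + q (x - y) = 2 * (q x + q y)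

/-- The sequence `h(2ⁿ x) / 4ⁿ`. -/
noncomputable def cseq (h : G → ℝ) (x : G) (n : ℕ) : ℝ := h (2 ^ n • x) / 4 ^ n

/-- The canonical function attached to `h`: the limit of `h(2ⁿ x) / 4ⁿ`. -/
noncomputable def canon (h : G → ℝ) (x : G) : ℝ := limUnder atTop (cseq h x)

variable {h : G → ℝ} {C : ℝ}

lemma ApproxPar.two (hC : ApproxPar h C) (x : G) : |h (2 • x) - 4 * h x| ≤ C + |h 0| := by
  have h1 := hC x x
  rw [sub_self, ← two_nsmul] at h1
  rw [abs_le] at h1 ⊢
  have h2 := le_abs_self (h 0)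
  have h3 := neg_abs_le (h 0)
  constructor <;> linarith [h1.1, h1.2]

lemma ApproxPar.dist_le (hC : ApproxPar h C) (x : G) (n : ℕ) :
    dist (cseq h x n) (cseq h x (n + 1)) ≤ (C + |h 0|) / 4 * (1 / 4) ^ n := by
  have h1 := hC.two (2 ^ n • x)
  have h2 : (2 : ℕ) ^ (n + 1) • x = 2 • (2 ^ n • x) := by rw [pow_succ', mul_nsmul']
  rw [cseq, cseq, h2, Real.dist_eq]
  have h3 : h (2 ^ n • x) / 4 ^ n - h (2 • 2 ^ n • x) / 4 ^ (n + 1) =
      -(h (2 • 2 ^ n • x) - 4 * h (2 ^ n • x)) / 4 ^ (n + 1) := by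
    field_simp
    ring
  rw [h3, abs_div, abs_neg, abs_of_pos (by positivity : (0 : ℝ) < 4 ^ (n + 1))]
  calc |h (2 • 2 ^ n • x) - 4 * h (2 ^ n • x)| / 4 ^ (n + 1) ≤ (C + |h 0|) / 4 ^ (n + 1) := by
        gcongr
    _ = (C + |h 0|) / 4 * (1 / 4) ^ n := by rw [pow_succ, one_div, inv_pow]; field_simp

lemma ApproxPar.tendsto (hC : ApproxPar h C) (x : G) :
    Tendsto (cseq h x) atTop (𝓝 (canon h x)) :=
  (cauchySeq_of_le_geometric (1 / 4) ((C + |h 0|) / 4) (by norm_num)
    (hC.dist_le x)).tendsto_limUnder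

/-- `canon h` differs from `h` by a bounded function. -/
lemma ApproxPar.canon_sub_le (hC : ApproxPar h C) (x : G) :
    |canon h x - h x| ≤ (C + |h 0|) / 3 := by
  have h1 := dist_le_of_le_geometric_of_tendsto₀ (1 / 4) ((C + |h 0|) / 4) (by norm_num)
    (hC.dist_le x) (hC.tendsto x)
  rw [cseq, pow_zero, pow_zero, one_nsmul, div_one, dist_comm, Real.dist_eq] at h1
  calc |canon h x - h x| ≤ (C + |h 0|) / 4 / (1 - 1 / 4) := h1
    _ = (C + |h 0|) / 3 := by ring

/-- The parallelogram law for `canon h`. -/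
lemma ApproxPar.canon_par (hC : ApproxPar h C) : Par (canon h) := by
  intro x y
  have h1 : Tendsto (fun n ↦ cseq h (x + y) n + cseq h (x - y) n -
      2 * (cseq h x n + cseq h y n)) atTop
      (𝓝 (canon h (x + y) + canon h (x - y) - 2 * (canon h x + canon h y))) :=
    ((hC.tendsto _).add (hC.tendsto _)).sub (((hC.tendsto _).add (hC.tendsto _)).const_mul 2)
  have h2 : Tendsto (fun n : ℕ ↦ C * (1 / 4 : ℝ) ^ n) atTop (𝓝 0) := by
    have := (tendsto_pow_atTop_nhds_zero_of_lt_one (r := (1 / 4 : ℝ)) (by norm_num)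
      (by norm_num)).const_mul C
    rwa [mul_zero] at this
  have h3 : Tendsto (fun n ↦ cseq h (x + y) n + cseq h (x - y) n -
      2 * (cseq h x n + cseq h y n)) atTop (𝓝 0) := by
    refine squeeze_zero_norm (fun n ↦ ?_) h2
    have h4 := hC (2 ^ n • x) (2 ^ n • y)
    rw [Real.norm_eq_abs]
    have h5 : cseq h (x + y) n + cseq h (x - y) n - 2 * (cseq h x n + cseq h y n) =
        (h (2 ^ n • x + 2 ^ n • y) + h (2 ^ n • x - 2 ^ n • y) -
          2 * (h (2 ^ n • x) + h (2 ^ n • y))) / 4 ^ n := by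
      simp only [cseq, nsmul_add, nsmul_sub]
      ring
    rw [h5, abs_div, abs_of_pos (by positivity : (0 : ℝ) < 4 ^ n), one_div, inv_pow,
      ← div_eq_mul_inv]
    gcongr
  exact sub_eq_zero.mp (tendsto_nhds_unique h1 h3)

/-- Uniqueness of the canonical function. -/
lemma ApproxPar.eq_canon (hC : ApproxPar h C) {q : G → ℝ} (hq : ∀ x, q (2 • x) = 4 * q x) {D : ℝ}
    (hD : ∀ x, |q x - h x| ≤ D) : q = canon h := by
  funext x
  have h1 : ∀ n : ℕ, q (2 ^ n • x) = 4 ^ n * q x := by
    intro n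
    induction n with
    | zero => simp
    | succ n ih => rw [pow_succ', mul_nsmul', hq, ih, pow_succ]; ring
  have h2 : Tendsto (fun n : ℕ ↦ D * (1 / 4 : ℝ) ^ n) atTop (𝓝 0) := by
    have := (tendsto_pow_atTop_nhds_zero_of_lt_one (r := (1 / 4 : ℝ)) (by norm_num)
      (by norm_num)).const_mul D
    rwa [mul_zero] at this
  have h3 : Tendsto (fun n ↦ q x - cseq h x n) atTop (𝓝 0) := by
    refine squeeze_zero_norm (fun n ↦ ?_) h2
    have h4 := hD (2 ^ n • x)
    rw [h1 n] at h4
    have h5 : q x - cseq h x n = (4 ^ n * q x - h (2 ^ n • x)) / 4 ^ n := by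
      rw [cseq]; field_simp
    rw [Real.norm_eq_abs, h5, abs_div, abs_of_pos (by positivity : (0 : ℝ) < 4 ^ n), one_div,
      inv_pow, ← div_eq_mul_inv]
    gcongr
  have h6 := (hC.tendsto x).const_sub (q x)
  exact sub_eq_zero.mp (tendsto_nhds_unique h6 h3)

/-! ### Functions satisfying the parallelogram law -/

variable {q : G → ℝ}

lemma Par.zero (hq : Par q) : q 0 = 0 := by
  have := hq 0 0
  rw [add_zero, sub_zero] at this
  linarith

lemma Par.neg (hq : Par q) (x : G) : q (-x) = q x := by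
  have := hq 0 x
  rw [zero_add, zero_sub, hq.zero] at this
  linarith

lemma Par.three (hq : Par q) (x y z : G) :
    q (x + y + z) = q (x + y) + q (x + z) + q (y + z) - q x - q y - q z := by
  have h1 := hq (x + y) z
  have h2 := hq (x + z) y
  have h3 := hq x (y - z)
  have h4 := hq y z
  rw [show x + (y - z) = x + y - z by abel, show x - (y - z) = x + z - y by abel] at h3
  rw [show x + z + y = x + y + z by abel] at h2
  linarith

/-- A function with the parallelogram law is a quadratic map over `ℤ`. -/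
noncomputable def Par.toQuadraticMap (hq : Par q) : QuadraticMap ℤ G ℝ := by
  have hadd : ∀ x x' y : G, QuadraticMap.polar q (x + x') y =
      QuadraticMap.polar q x y + QuadraticMap.polar q x' y := by
    intro x x' y
    simp only [QuadraticMap.polar]
    rw [hq.three x x' y]
    ring
  have hsmul : ∀ (a : ℤ) (x y : G), QuadraticMap.polar q (a • x) y =
      a • QuadraticMap.polar q x y := fun a x y ↦
    map_zsmul (AddMonoidHom.mk' (fun x ↦ QuadraticMap.polar q x y) (fun x x' ↦ hadd x x' y)) a x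
  refine QuadraticMap.ofPolar q (fun a x ↦ ?_) hadd hsmul
  -- `2 q(x) = polar q x x`
  have hp : ∀ z : G, QuadraticMap.polar q z z = 2 * q z := by
    intro z
    have := hq z z
    rw [sub_self, hq.zero] at this
    simp only [QuadraticMap.polar]
    linarith
  have hsmul' : ∀ (a : ℤ) (x y : G), QuadraticMap.polar q x (a • y) =
      a • QuadraticMap.polar q x y := fun a x y ↦ by
    rw [QuadraticMap.polar_comm, hsmul, QuadraticMap.polar_comm]
  have h1 := hp (a • x)
  rw [hsmul, hsmul', hp, smul_smul] at h1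
  have h2 : (a * a) • (2 * q x) = 2 * ((a * a) • q x) := by
    simp only [zsmul_eq_mul]; ring
  rw [h2] at h1
  linarith

lemma Par.toQuadraticMap_apply (hq : Par q) (x : G) : hq.toQuadraticMap x = q x := rfl

lemma Par.zsmul (hq : Par q) (a : ℤ) (x : G) : q (a • x) = (a : ℝ) ^ 2 * q x := by
  have := hq.toQuadraticMap.map_smul a x
  rw [hq.toQuadraticMap_apply, hq.toQuadraticMap_apply] at this
  rw [this, zsmul_eq_mul]
  push_cast
  ring

/-! ### Positivity -/

/-- The symmetric bilinear pairing attached to `q`. -/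
noncomputable def pairing (q : G → ℝ) (x y : G) : ℝ := (q (x + y) - q x - q y) / 2

lemma pairing_comm (q : G → ℝ) (x y : G) : pairing q x y = pairing q y x := by
  simp only [pairing, add_comm x y]; ring

lemma Par.pairing_self (hq : Par q) (x : G) : pairing q x x = q x := by
  have := hq x x
  rw [sub_self, hq.zero] at this
  simp only [pairing]
  linarith

lemma Par.pairing_eq (hq : Par q) (x y : G) :
    pairing q x y = hq.toQuadraticMap.polarBilin x y / 2 := rfl

/-- Northcott + nonnegativity: `q` vanishes exactly on the torsion. -/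
lemma Par.eq_zero_iff (hq : Par q) (hfin : {x | q x ≤ 0}.Finite) {x : G} :
    q x = 0 ↔ IsOfFinAddOrder x := by
  constructor
  · intro h
    by_contra hx
    have hinj := injective_nsmul_iff_not_isOfFinAddOrder.mpr hx
    refine Set.infinite_range_of_injective hinj (hfin.subset ?_)
    rintro _ ⟨n, rfl⟩
    have := hq.zsmul n x
    rw [h, mul_zero, natCast_zsmul] at this
    exact this.le
  · intro h
    obtain ⟨n, hn, hx⟩ := isOfFinAddOrder_iff_nsmul_eq_zero.mp h
    have := hq.zsmul n x
    rw [natCast_zsmul, hx, hq.zero] at this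
    have hn' : ((n : ℤ) : ℝ) ^ 2 ≠ 0 := by
      have : (n : ℝ) ≠ 0 := by exact_mod_cast hn.ne'
      push_cast
      positivity
    exact (mul_eq_zero.mp this.symm).resolve_left hn'

section Gram

variable {ι : Type*} [Fintype ι] [DecidableEq ι]

/-- The Gram matrix of a family. -/
noncomputable def gram (q : G → ℝ) (b : ι → G) : Matrix ι ι ℝ :=
  Matrix.of fun i j ↦ pairing q (b i) (b j)

lemma Par.sum_eq (hq : Par q) (b : ι → G) (m : ι → ℤ) :
    q (∑ i, m i • b i) =
      Matrix.toBilin' (gram q b) (fun i ↦ (m i : ℝ)) (fun i ↦ (m i : ℝ)) := by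
  have h1 : hq.toQuadraticMap.polarBilin (∑ i, m i • b i) =
      ∑ i, m i • hq.toQuadraticMap.polarBilin (b i) := by
    rw [map_sum]
    exact Finset.sum_congr rfl fun i _ ↦ map_zsmul _ _ _
  rw [← hq.pairing_self, hq.pairing_eq, h1, LinearMap.sum_apply, Matrix.toBilin'_apply,
    Finset.sum_div]
  refine Finset.sum_congr rfl fun i _ ↦ ?_
  rw [LinearMap.smul_apply, map_sum, Finset.smul_sum, Finset.sum_div]
  refine Finset.sum_congr rfl fun j _ ↦ ?_
  rw [map_zsmul, gram, Matrix.of_apply, hq.pairing_eq]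
  simp only [zsmul_eq_mul]
  ring

lemma bil_le (M : Matrix ι ι ℝ) (x y : ι → ℝ) (hy : ∀ i, |y i| ≤ 1) :
    |Matrix.toBilin' M x y| ≤ ∑ i, ∑ j, |x i| * |M i j| := by
  rw [Matrix.toBilin'_apply]
  refine (Finset.abs_sum_le_sum_abs _ _).trans (Finset.sum_le_sum fun i _ ↦ ?_)
  refine (Finset.abs_sum_le_sum_abs _ _).trans (Finset.sum_le_sum fun j _ ↦ ?_)
  rw [abs_mul, abs_mul]
  exact mul_le_of_le_one_right (by positivity) (hy j)

lemma bil_symm (q : G → ℝ) (b : ι → G) (x y : ι → ℝ) :
    Matrix.toBilin' (gram q b) x y = Matrix.toBilin' (gram q b) y x := by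
  rw [Matrix.toBilin'_apply, Matrix.toBilin'_apply, Finset.sum_comm]
  refine Finset.sum_congr rfl fun i _ ↦ Finset.sum_congr rfl fun j _ ↦ ?_
  simp only [gram, Matrix.of_apply, pairing_comm q (b i) (b j)]
  ring

/-- **Positive definiteness**: if `q ≥ 0` has the Northcott property and `b` is linearly
independent over `ℤ`, the Gram matrix of `b` is positive definite. -/
theorem Par.gram_posDef (hq : Par q) (h0 : ∀ x, 0 ≤ q x) (hfin : ∀ B : ℝ, {x | q x ≤ B}.Finite)
    {b : ι → G} (hb : LinearIndependent ℤ b) : (gram q b).PosDef := by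
  set β := Matrix.toBilin' (gram q b) with hβ
  -- rounding
  let m : (ι → ℝ) → ℕ → ι → ℤ := fun c t i ↦ round ((t : ℝ) * c i)
  let θ : (ι → ℝ) → ℕ → ι → ℝ := fun c t i ↦ (m c t i : ℝ) - t * c i
  have hθ : ∀ c t i, |θ c t i| ≤ 1 := by
    intro c t i
    have := abs_sub_round ((t : ℝ) * c i)
    rw [abs_sub_comm] at this
    exact this.trans (by norm_num)
  have hm : ∀ c t, (fun i ↦ (m c t i : ℝ)) = (t : ℝ) • c + θ c t := by
    intro c t
    funext i
    simp [θ]
  have hF : ∀ c t, q (∑ i, m c t i • b i) =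
      (t : ℝ) ^ 2 * β c c + 2 * t * β c (θ c t) + β (θ c t) (θ c t) := by
    intro c t
    rw [hq.sum_eq, ← hβ, hm]
    simp only [map_add, map_smul, LinearMap.add_apply, LinearMap.smul_apply, smul_eq_mul]
    rw [hβ, bil_symm q b (θ c t) c, ← hβ]
    ring
  have hK : ∀ c t, |β (θ c t) (θ c t)| ≤ ∑ i, ∑ j, |gram q b i j| := by
    intro c t
    refine (bil_le _ _ _ (hθ c t)).trans (Finset.sum_le_sum fun i _ ↦ Finset.sum_le_sum fun j _ ↦ ?_)
    exact mul_le_of_le_one_left (abs_nonneg _) (hθ c t i)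
  -- semidefinite
  have hsemi : ∀ c, 0 ≤ β c c := by
    intro c
    by_contra hneg
    rw [not_le] at hneg
    set K₁ := ∑ i, ∑ j, |c i| * |gram q b i j|
    set K₂ := ∑ i, ∑ j, |gram q b i j|
    have hK₁ : 0 ≤ K₁ := Finset.sum_nonneg fun i _ ↦ Finset.sum_nonneg fun j _ ↦ by positivity
    have hK₂ : 0 ≤ K₂ := Finset.sum_nonneg fun i _ ↦ Finset.sum_nonneg fun j _ ↦ by positivity
    obtain ⟨t, ht⟩ := exists_nat_gt ((2 * K₁ + K₂) / (-β c c))
    have ht0 : (0 : ℝ) < t := lt_of_le_of_lt (div_nonneg (by positivity) (by linarith)) ht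
    have ht1 : (1 : ℝ) ≤ t := by
      have : 0 < t := by exact_mod_cast ht0
      exact_mod_cast this
    rw [div_lt_iff₀ (by linarith)] at ht
    have h1 := h0 (∑ i, m c t i • b i)
    rw [hF] at h1
    have h2 := (abs_le.mp (bil_le (gram q b) c _ (hθ c t))).2
    have h3 := (abs_le.mp (hK c t)).2
    rw [← hβ] at h2
    have h4 : 2 * (t : ℝ) * β c (θ c t) ≤ 2 * t * K₁ := by gcongr
    nlinarith
  rw [Matrix.posDef_iff_dotProduct_mulVec]
  refine ⟨?_, fun c hc ↦ ?_⟩
  · ext i j
    simp [gram, pairing_comm q (b i) (b j)]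
  · have hpos : 0 < β c c := by
      refine lt_of_le_of_ne (hsemi c) fun hzero ↦ ?_
      -- `c` is in the radical
      have hrad : ∀ d, β c d = 0 := by
        intro d
        by_contra hd
        have h1 := hsemi (d + (-(β d d + 1) / (2 * β c d)) • c)
        simp only [map_add, map_smul, LinearMap.add_apply, LinearMap.smul_apply,
          smul_eq_mul, ← hzero] at h1
        rw [hβ, bil_symm q b d c, ← hβ] at h1
        have h2 : β d d + -(β d d + 1) / (2 * β c d) * β c d +
            -(β d d + 1) / (2 * β c d) * (β c d + -(β d d + 1) / (2 * β c d) * 0) = -1 := by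
          field_simp
          ring
        have h3 : β d d + -(β d d + 1) / (2 * β c d) * β c d +
            (-(β d d + 1) / (2 * β c d)) * (β c d + -(β d d + 1) / (2 * β c d) * 0) < 0 := by
          rw [h2]; norm_num
        linarith
      -- infinitely many lattice points of bounded height
      set K₂ := ∑ i, ∑ j, |gram q b i j| with hK₂
      have hbd : ∀ t, q (∑ i, m c t i • b i) ≤ K₂ := by
        intro t
        rw [hF, ← hzero, hrad]
        have := (abs_le.mp (hK c t)).2
        linarith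
      have hinj : Function.Injective fun m : ι → ℤ ↦ ∑ i, m i • b i := by
        intro m₁ m₂ h
        have h1 : ∑ i, (m₁ i - m₂ i) • b i = 0 := by
          simp only [sub_smul, Finset.sum_sub_distrib]
          exact sub_eq_zero.mpr h
        funext i
        exact sub_eq_zero.mp (Fintype.linearIndependent_iff.mp hb _ h1 i)
      have hrange : (Set.range (m c)).Finite := by
        refine Set.Finite.of_finite_image ((hfin K₂).subset ?_) hinj.injOn
        rintro _ ⟨_, ⟨t, rfl⟩, rfl⟩
        exact hbd t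
      obtain ⟨i, hi⟩ := Function.ne_iff.mp hc
      have hci : 0 < |c i| := abs_pos.mpr hi
      have hbdd : ∃ N : ℝ, ∀ t : ℕ, |(m c t i : ℝ)| ≤ N := by
        obtain ⟨N, hN⟩ := (hrange.image fun v : ι → ℤ ↦ |(v i : ℝ)|).bddAbove
        exact ⟨N, fun t ↦ hN ⟨m c t, ⟨t, rfl⟩, rfl⟩⟩
      obtain ⟨N, hN⟩ := hbdd
      obtain ⟨t, ht⟩ := exists_nat_gt ((N + 1) / |c i|)
      rw [div_lt_iff₀ hci] at ht
      have h1 := hN t
      have h2 := hθ c t i
      have h3 : |(t : ℝ) * c i| ≤ |(m c t i : ℝ)| + |θ c t i| := by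
        have : (t : ℝ) * c i = m c t i - θ c t i := by simp [θ]
        rw [this]
        exact abs_sub _ _
      rw [abs_mul, Nat.abs_cast] at h3
      linarith
    have h1 : star c ⬝ᵥ (gram q b).mulVec c = β c c := by
      rw [hβ, Matrix.toBilin'_apply', star_trivial]
    rw [h1]
    exact hpos

end Gram

end Abstract

end Fermat.Agent.Cor.MW
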