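import Mathlib

/-!
# The approximate parallelogram law for the naive height on an elliptic curve

Mathlib has the morphism `addSubMap : ℙ² → ℙ²` and its height estimate. Here: `addSubMap` sends
`(x(P) x(Q) : x(P) + x(Q) : 1)` to `(x(P+Q) x(P-Q) : x(P+Q) + x(P-Q) : 1)`, hence
`|h(P+Q) + h(P-Q) - 2 (h(P) + h(Q))| ≤ C`; and the Northcott property of `h`.
-/

namespace Fermat.Agent.Cor.MW

open WeierstrassCurve WeierstrassCurve.Affine WeierstrassCurve.Affine.Point MvPolynomial Height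

section

variable {K : Type*} [Field K]

/-- The value of `addSubMap`. -/
lemma eval_addSubMap (W : WeierstrassCurve K) (s t u : K) :
    (fun i ↦ (addSubMap W i).eval ![s, t, u]) =
      ![s ^ 2 - W.b₄ * s * u - W.b₆ * t * u - W.b₈ * u ^ 2,
        2 * t * s + W.b₂ * s * u + W.b₄ * t * u + W.b₆ * u ^ 2,
        t ^ 2 - 4 * s * u] := by
  funext i
  fin_cases i <;> simp [addSubMap]

lemma ident_one {a₁ a₂ a₃ a₄ a₆ x₁ y₁ x₂ y₂ l m : K} (hd : x₁ - x₂ ≠ 0)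
    (e₁ : y₁ ^ 2 + a₁ * x₁ * y₁ + a₃ * y₁ = x₁ ^ 3 + a₂ * x₁ ^ 2 + a₄ * x₁ + a₆)
    (e₂ : y₂ ^ 2 + a₁ * x₂ * y₂ + a₃ * y₂ = x₂ ^ 3 + a₂ * x₂ ^ 2 + a₄ * x₂ + a₆)
    (hl : l = (y₁ - y₂) / (x₁ - x₂)) (hm : m = (y₁ - (-y₂ - a₁ * x₂ - a₃)) / (x₁ - x₂)) :
    2 * (x₁ + x₂) * (x₁ * x₂) + (a₁ ^ 2 + 4 * a₂) * (x₁ * x₂) + (2 * a₄ + a₁ * a₃) * (x₁ + x₂) +
      (a₃ ^ 2 + 4 * a₆) = (x₁ - x₂) ^ 2 * ((l ^ 2 + a₁ * l - a₂ - x₁ - x₂) +
        (m ^ 2 + a₁ * m - a₂ - x₁ - x₂)) := by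
  have h1 : l * (x₁ - x₂) = y₁ - y₂ := by rw [hl]; field_simp
  have h2 : m * (x₁ - x₂) = y₁ + y₂ + a₁ * x₂ + a₃ := by rw [hm]; field_simp; ring
  have h3 : (x₁ - x₂) ^ 2 * ((l ^ 2 + a₁ * l - a₂ - x₁ - x₂) +
        (m ^ 2 + a₁ * m - a₂ - x₁ - x₂)) = ((y₁ - y₂) ^ 2 + a₁ * (y₁ - y₂) * (x₁ - x₂) -
          (a₂ + x₁ + x₂) * (x₁ - x₂) ^ 2) + ((y₁ + y₂ + a₁ * x₂ + a₃) ^ 2 +
          a₁ * (y₁ + y₂ + a₁ * x₂ + a₃) * (x₁ - x₂) - (a₂ + x₁ + x₂) * (x₁ - x₂) ^ 2) := by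
    rw [← h1, ← h2]; ring
  rw [h3]
  linear_combination (-2) * e₁ - 2 * e₂

lemma ident_zero {a₁ a₂ a₃ a₄ a₆ x₁ y₁ x₂ y₂ l m : K} (hd : x₁ - x₂ ≠ 0)
    (e₁ : y₁ ^ 2 + a₁ * x₁ * y₁ + a₃ * y₁ = x₁ ^ 3 + a₂ * x₁ ^ 2 + a₄ * x₁ + a₆)
    (e₂ : y₂ ^ 2 + a₁ * x₂ * y₂ + a₃ * y₂ = x₂ ^ 3 + a₂ * x₂ ^ 2 + a₄ * x₂ + a₆)
    (hl : l = (y₁ - y₂) / (x₁ - x₂)) (hm : m = (y₁ - (-y₂ - a₁ * x₂ - a₃)) / (x₁ - x₂)) :
    (x₁ * x₂) ^ 2 - (2 * a₄ + a₁ * a₃) * (x₁ * x₂) - (a₃ ^ 2 + 4 * a₆) * (x₁ + x₂) -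
      (a₁ ^ 2 * a₆ + 4 * a₂ * a₆ - a₁ * a₃ * a₄ + a₂ * a₃ ^ 2 - a₄ ^ 2) =
      (x₁ - x₂) ^ 2 * ((l ^ 2 + a₁ * l - a₂ - x₁ - x₂) *
        (m ^ 2 + a₁ * m - a₂ - x₁ - x₂)) := by
  have h1 : l * (x₁ - x₂) = y₁ - y₂ := by rw [hl]; field_simp
  have h2 : m * (x₁ - x₂) = y₁ + y₂ + a₁ * x₂ + a₃ := by rw [hm]; field_simp; ring
  refine mul_left_cancel₀ (pow_ne_zero 2 hd) ?_
  have h3 : (x₁ - x₂) ^ 2 * ((x₁ - x₂) ^ 2 * ((l ^ 2 + a₁ * l - a₂ - x₁ - x₂) *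
        (m ^ 2 + a₁ * m - a₂ - x₁ - x₂))) = ((y₁ - y₂) ^ 2 + a₁ * (y₁ - y₂) * (x₁ - x₂) -
          (a₂ + x₁ + x₂) * (x₁ - x₂) ^ 2) * ((y₁ + y₂ + a₁ * x₂ + a₃) ^ 2 +
          a₁ * (y₁ + y₂ + a₁ * x₂ + a₃) * (x₁ - x₂) - (a₂ + x₁ + x₂) * (x₁ - x₂) ^ 2) := by
    rw [← h1, ← h2]; ring
  rw [h3]
  linear_combination (-a₁^2*x₁*x₂ +a₁^2*x₂^2 -a₁*a₃*x₁ +a₁*a₃*x₂ -a₁*x₁*y₁ +2*a₁*x₂*y₂
    +a₂*x₁^2 -4*a₂*x₁*x₂ +2*a₂*x₂^2 -a₃*y₁ +2*a₃*y₂ -a₄*x₁ -a₆ +x₁^3 -2*x₁^2*x₂ -2*x₁*x₂^2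
    -y₁^2 +2*x₂^3 +2*y₂^2) * e₁ + (a₁^2*x₁^2 -a₁^2*x₁*x₂ +a₁*a₃*x₁ -a₁*a₃*x₂ -a₁*x₂*y₂
    +4*a₂*x₁^2 -4*a₂*x₁*x₂ +a₂*x₂^2 -a₃*y₂ +2*a₄*x₁ -a₄*x₂ +a₆ +4*x₁^3 -2*x₁^2*x₂
    -2*x₁*x₂^2 +x₂^3 -y₂^2) * e₂

variable [DecidableEq K] {W : WeierstrassCurve K}

/-- The generic case `x(P) ≠ x(Q)`. -/
lemma addSub_of_X_ne {x₁ y₁ x₂ y₂ : K} (h₁ : W.toAffine.Nonsingular x₁ y₁)
    (h₂ : W.toAffine.Nonsingular x₂ y₂) (hx : x₁ ≠ x₂) :
    ∃ c : K, c ≠ 0 ∧ (fun i ↦ (addSubMap W i).eval (sym2x (some x₁ y₁ h₁) (some x₂ y₂ h₂))) =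
      c • sym2x (some x₁ y₁ h₁ + some x₂ y₂ h₂) (some x₁ y₁ h₁ - some x₂ y₂ h₂) := by
  have hd : x₁ - x₂ ≠ 0 := sub_ne_zero.mpr hx
  refine ⟨(x₁ - x₂) ^ 2, pow_ne_zero 2 hd, ?_⟩
  have e₁ := (W.toAffine.equation_iff x₁ y₁).mp h₁.1
  have e₂ := (W.toAffine.equation_iff x₂ y₂).mp h₂.1
  rw [show some x₁ y₁ h₁ - some x₂ y₂ h₂ = some x₁ y₁ h₁ + - some x₂ y₂ h₂ from
    sub_eq_add_neg _ _, neg_some, add_of_X_ne hx, add_of_X_ne hx, sym2x_some_some,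
    sym2x_some_some, eval_addSubMap]
  rw [slope_of_X_ne hx, slope_of_X_ne hx]
  funext i
  fin_cases i
  · have := ident_zero hd e₁ e₂ rfl rfl
    simpa [b₂, b₄, b₆, b₈, addX, negY] using this
  · have := ident_one hd e₁ e₂ rfl rfl
    simpa [b₂, b₄, b₆, b₈, addX, negY] using this
  · simp
    ring

/-- The case `Q = P`. -/
lemma addSub_self [W.IsElliptic] {x y : K} (h : W.toAffine.Nonsingular x y) :
    ∃ c : K, c ≠ 0 ∧ (fun i ↦ (addSubMap W i).eval (sym2x (some x y h) (some x y h))) =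
      c • sym2x (some x y h + some x y h) 0 := by
  have e := (W.toAffine.equation_iff x y).mp h.1
  by_cases hy : y = W.toAffine.negY x y
  · -- a point of order two
    rw [add_self_of_Y_eq hy, sym2x_zero_zero]
    have hne := addSubMap_ne_zero W (sym2x_ne_zero (some x y h) (some x y h))
    have h1 : (fun i ↦ (addSubMap W i).eval (sym2x (some x y h) (some x y h))) =
        ![x ^ 4 - W.b₄ * x ^ 2 - 2 * W.b₆ * x - W.b₈, 0, 0] := by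
      rw [sym2x_some_some, eval_addSubMap]
      have hψ : 2 * y + W.a₁ * x + W.a₃ = 0 := by
        rw [negY] at hy; linear_combination hy
      have h0 : 4 * x ^ 3 + W.b₂ * x ^ 2 + 2 * W.b₄ * x + W.b₆ = 0 := by
        have : 4 * x ^ 3 + W.b₂ * x ^ 2 + 2 * W.b₄ * x + W.b₆ = (2 * y + W.a₁ * x + W.a₃) ^ 2 := by
          simp only [b₂, b₄, b₆]; linear_combination (-4) * e
        rw [this, hψ]; ring
      funext i
      fin_cases i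
      · simp; ring
      · simp; linear_combination h0
      · simp; ring
    rw [h1] at hne ⊢
    refine ⟨x ^ 4 - W.b₄ * x ^ 2 - 2 * W.b₆ * x - W.b₈, ?_, ?_⟩
    · intro h0
      apply hne
      rw [h0]
      funext i; fin_cases i <;> simp
    · funext i; fin_cases i <;> simp
  · have hψ : 2 * y + W.a₁ * x + W.a₃ ≠ 0 := by
      intro h0; apply hy; rw [negY]; linear_combination h0
    refine ⟨(2 * y + W.a₁ * x + W.a₃) ^ 2, pow_ne_zero 2 hψ, ?_⟩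
    rw [add_self_of_Y_ne hy, sym2x_some_zero, sym2x_some_some, eval_addSubMap,
      slope_of_Y_ne rfl hy]
    have hs : y - W.toAffine.negY x y = 2 * y + W.a₁ * x + W.a₃ := by rw [negY]; ring
    rw [hs]
    funext i
    fin_cases i
    · have h1 : (2 * y + W.a₁ * x + W.a₃) ^ 2 * ((((3 * x ^ 2 + 2 * W.a₂ * x + W.a₄ - W.a₁ * y) /
          (2 * y + W.a₁ * x + W.a₃)) ^ 2 + W.a₁ * ((3 * x ^ 2 + 2 * W.a₂ * x + W.a₄ - W.a₁ * y) /
          (2 * y + W.a₁ * x + W.a₃)) - W.a₂ - x - x)) =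
          (3 * x ^ 2 + 2 * W.a₂ * x + W.a₄ - W.a₁ * y) ^ 2 +
          W.a₁ * (3 * x ^ 2 + 2 * W.a₂ * x + W.a₄ - W.a₁ * y) * (2 * y + W.a₁ * x + W.a₃) -
          (W.a₂ + 2 * x) * (2 * y + W.a₁ * x + W.a₃) ^ 2 := by
        field_simp
        ring
      simp only [addX, b₂, b₄, b₆, b₈]
      simp only [Fin.zero_eta, Matrix.cons_val_zero, Pi.smul_apply, smul_eq_mul]
      rw [h1]
      linear_combination (W.a₁ ^ 2 + 4 * W.a₂ + 8 * x) * e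
    · simp [b₂, b₄, b₆, b₈]
      linear_combination (-4) * e
    · simp
      ring

/-- `addSubMap` really is the map `{±P, ±Q} ↦ {±(P+Q), ±(P-Q)}` on `x`-coordinates. -/
theorem addSub [W.IsElliptic] (P Q : W.toAffine.Point) :
    ∃ c : K, c ≠ 0 ∧ (fun i ↦ (addSubMap W i).eval (sym2x P Q)) =
      c • sym2x (P + Q) (P - Q) := by
  match P, Q with
  | 0, 0 =>
    refine ⟨1, one_ne_zero, ?_⟩
    rw [add_zero, sub_zero, sym2x_zero_zero, eval_addSubMap]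
    funext i; fin_cases i <;> simp
  | 0, Point.some x y h =>
    refine ⟨1, one_ne_zero, ?_⟩
    rw [zero_add, zero_sub, sym2x_neg_right, sym2x_zero_some, sym2x_some_some, eval_addSubMap]
    funext i; fin_cases i <;> simp <;> ring
  | Point.some x y h, 0 =>
    refine ⟨1, one_ne_zero, ?_⟩
    rw [add_zero, sub_zero, sym2x_some_zero, sym2x_some_some, eval_addSubMap]
    funext i; fin_cases i <;> simp <;> ring
  | Point.some x₁ y₁ h₁, Point.some x₂ y₂ h₂ =>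
    by_cases hx : x₁ = x₂
    · rcases X_eq_iff.mp hx with h | h
      · rw [← h, sub_self]
        exact addSub_self h₁
      · have h' : some x₂ y₂ h₂ = -some x₁ y₁ h₁ := by rw [h, neg_neg]
        rw [h', sym2x_neg_right, add_neg_cancel, sub_neg_eq_add, sym2x_comm 0]
        exact addSub_self h₁
    · exact addSub_of_X_ne h₁ h₂ hx

end

/-- Finitely many points have their `x`-coordinate in a given finite set. -/
lemma finite_xRep {K : Type*} [Field K] (W : WeierstrassCurve K) {B : Set (Fin 2 → K)}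
    (hB : B.Finite) : {P : W.toAffine.Point | P.xRep ∈ B}.Finite := by
  classical
  refine Set.Finite.preimage' hB fun b _ ↦ ?_
  by_cases hne : ∃ P : W.toAffine.Point, P.xRep = b
  · obtain ⟨P, rfl⟩ := hne
    refine (Set.toFinite {P, -P}).subset fun Q hQ ↦ ?_
    exact eq_or_eq_neg_of_xRep_eq_xRep hQ
  · convert Set.finite_empty
    ext Q
    simp only [Set.mem_preimage, Set.mem_singleton_iff, Set.mem_empty_iff_false, iff_false]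
    exact fun h ↦ hne ⟨Q, h⟩

lemma vec_eq {K : Type*} (x : Fin 2 → K) : ![x 0, x 1] = x := by
  funext i; fin_cases i <;> rfl

section

variable {K : Type*} [Field K] [AdmissibleAbsValues K] [DecidableEq K] (W : WeierstrassCurve K)

/-- The naive (logarithmic) height of a point of `W(K)`: the height of its `x`-coordinate. -/
noncomputable def ht (P : W.toAffine.Point) : ℝ := logHeight P.xRep

omit [DecidableEq K] in
lemma ht_nonneg (P : W.toAffine.Point) : 0 ≤ ht W P := logHeight_nonneg _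

/-- **The approximate parallelogram law** for the naive height. -/
theorem parallelogram [W.IsElliptic] :
    ∃ C : ℝ, ∀ P Q : W.toAffine.Point,
      |ht W (P + Q) + ht W (P - Q) - 2 * (ht W P + ht W Q)| ≤ C := by
  obtain ⟨C₁, hC₁⟩ := abs_logHeight_addSubMap_sub_two_mul_logHeight_le W
  obtain ⟨C₂, hC₂⟩ := abs_logHeight_sym2_sub_le K
  have key : ∀ P Q : W.toAffine.Point,
      |logHeight (sym2x P Q) - (ht W P + ht W Q)| ≤ C₂ := by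
    intro P Q
    have := @hC₂ (P.xRep 0) (P.xRep 1) (Q.xRep 0) (Q.xRep 1)
      (by rw [vec_eq]; exact xRep_ne_zero P) (by rw [vec_eq]; exact xRep_ne_zero Q)
    rw [vec_eq, vec_eq] at this
    exact this
  refine ⟨C₂ + C₁ + 2 * C₂, fun P Q ↦ ?_⟩
  obtain ⟨c, hc, h⟩ := addSub P Q
  have h1 := hC₁ (sym2x P Q)
  rw [h, logHeight_smul_eq_logHeight _ hc] at h1
  have h2 := key P Q
  have h3 := key (P + Q) (P - Q)
  rw [abs_le] at h1 h2 h3 ⊢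
  constructor <;> linarith [h1.1, h1.2, h2.1, h2.2, h3.1, h3.2]

omit [DecidableEq K] in
/-- The Northcott property of the naive height. -/
theorem northcott [Northcott (logHeight₁ (K := K))] : Northcott (ht W) where
  finite_le B := by
    have hT : ({v : Fin 2 → K | v = ![1, 0]} ∪
      (fun x : K ↦ ![x, 1]) '' {x : K | logHeight₁ x ≤ B}).Finite :=
      (Set.finite_singleton _).union ((Northcott.finite_le B).image _)
    refine (finite_xRep W hT).subset fun P hP ↦ ?_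
    match P with
    | 0 => exact Or.inl rfl
    | Point.some x y h =>
      refine Or.inr ⟨x, ?_, rfl⟩
      rw [Set.mem_ofPred_eq, logHeight₁_eq_logHeight]
      exact hP

end

end Fermat.Agent.Cor.MW
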