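import Mathlib

/-!
# Finiteness of `K(S, 2)`

For a number field `K` and a finite set `S` of primes, the elements of `Kˣ` whose valuations
outside `S` are all even lie in finitely many classes modulo squares (finiteness of the class
number and Dirichlet's unit theorem).
-/

namespace Fermat.Agent.Cor.MW

open IsDedekindDomain FractionalIdeal nonZeroDivisors

section

variable {R K : Type*} [CommRing R] [IsDedekindDomain R] [Field K] [Algebra R K]
  [IsFractionRing R K]

/-- The exponent of `v` in `(x)` computes the `v`-adic valuation. -/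
lemma valuation_eq_exp_count (v : HeightOneSpectrum R) {x : K} (hx : x ≠ 0) :
    v.valuation K x = WithZero.exp (-(count K v (spanSingleton R⁰ x))) := by
  obtain ⟨n, d, hd, rfl⟩ := IsFractionRing.div_surjective (A := R) x
  have hd0 : d ≠ 0 := nonZeroDivisors.ne_zero hd
  have hdK : algebraMap R K d ≠ 0 := by
    simpa using (IsFractionRing.injective R K).ne hd0
  have hn0 : n ≠ 0 := by
    rintro rfl
    exact hx (by simp)
  have h1 : spanSingleton R⁰ (algebraMap R K n / algebraMap R K d) =
      spanSingleton R⁰ ((algebraMap R K) d)⁻¹ * ((Ideal.span {n} : Ideal R) : FractionalIdeal R⁰ K) := by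
    rw [coeIdeal_span_singleton, spanSingleton_mul_spanSingleton]
    congr 1
    rw [div_eq_inv_mul]
  have h0 : spanSingleton R⁰ (algebraMap R K n / algebraMap R K d) ≠ 0 := by
    rwa [Ne, spanSingleton_eq_zero_iff]
  rw [count_well_defined K v h0 h1, map_div₀, HeightOneSpectrum.valuation_of_algebraMap,
    HeightOneSpectrum.valuation_of_algebraMap, v.intValuation_if_neg hn0,
    v.intValuation_if_neg hd0, ← WithZero.exp_sub]
  congr 1
  ring

/-- Fractional ideals are determined by their exponents. -/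
lemma ext_count {I J : FractionalIdeal R⁰ K} (hI : I ≠ 0) (hJ : J ≠ 0)
    (h : ∀ v : HeightOneSpectrum R, count K v I = count K v J) : I = J := by
  rw [← finprod_heightOneSpectrum_factorization' K hI,
    ← finprod_heightOneSpectrum_factorization' K hJ]
  exact finprod_congr fun v ↦ by rw [h v]

/-- Fractional ideals with prescribed exponents. -/
lemma exists_ideal (n : HeightOneSpectrum R → ℤ) (hn : ∀ᶠ v in Filter.cofinite, n v = 0) :
    ∃ J : (FractionalIdeal R⁰ K)ˣ, ∀ v, count K v (J : FractionalIdeal R⁰ K) = n v := by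
  have h0 : (∏ᶠ v : HeightOneSpectrum R, (v.asIdeal : FractionalIdeal R⁰ K) ^ n v) ≠ 0 := by
    refine finprod_induction (· ≠ (0 : FractionalIdeal R⁰ K)) one_ne_zero
      (fun x y hx hy ↦ mul_ne_zero hx hy) fun v ↦ ?_
    exact zpow_ne_zero _ (coeIdeal_ne_zero.mpr v.ne_bot)
  exact ⟨Units.mk0 _ h0, fun v ↦ count_finprod K v n hn⟩

variable (R) in
/-- The exponent of `v` in `(a)`, for `a ∈ Kˣ`. -/
noncomputable def ordv (v : HeightOneSpectrum R) (a : Kˣ) : ℤ :=
  count K v (spanSingleton R⁰ (a : K))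

omit [IsDedekindDomain R] in
lemma spanSingleton_ne (a : Kˣ) : spanSingleton R⁰ (a : K) ≠ 0 := by
  rw [Ne, spanSingleton_eq_zero_iff]; exact a.ne_zero

lemma ordv_mul (v : HeightOneSpectrum R) (a b : Kˣ) :
    ordv R v (a * b) = ordv R v a + ordv R v b := by
  rw [ordv, ordv, ordv, ← count_mul K v (spanSingleton_ne a) (spanSingleton_ne b),
    spanSingleton_mul_spanSingleton, Units.val_mul]

lemma ordv_fin (a : Kˣ) : ∀ᶠ v : HeightOneSpectrum R in Filter.cofinite, ordv R v a = 0 :=
  finite_factors _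

/-- The "square part" of `(a)`. -/
noncomputable def sqPart (a : Kˣ) : (FractionalIdeal R⁰ K)ˣ :=
  (exists_ideal (K := K) (fun v : HeightOneSpectrum R ↦ ordv R v a / 2)
    ((ordv_fin a).mono fun v hv ↦ by simp [hv])).choose

lemma count_sqPart (a : Kˣ) (v : HeightOneSpectrum R) :
    count K v (sqPart (R := R) a : FractionalIdeal R⁰ K) = ordv R v a / 2 :=
  (exists_ideal (K := K) (fun v : HeightOneSpectrum R ↦ ordv R v a / 2)
    ((ordv_fin a).mono fun v hv ↦ by simp [hv])).choose_spec v

/-- A generator of the unit ideal is a unit. -/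
lemma exists_unit_of_span {x : Kˣ} (h : spanSingleton R⁰ (x : K) = 1) :
    ∃ u : Rˣ, Units.map (algebraMap R K : R →* K) u = x := by
  have h' : spanSingleton R⁰ ((x⁻¹ : Kˣ) : K) = 1 := by
    have h1 : spanSingleton R⁰ ((x⁻¹ : Kˣ) : K) * spanSingleton R⁰ (x : K) = 1 := by
      rw [spanSingleton_mul_spanSingleton, ← Units.val_mul, inv_mul_cancel, Units.val_one,
        spanSingleton_one]
    rwa [h, mul_one] at h1
  obtain ⟨r, hr⟩ := (mem_one_iff R⁰).mp (h ▸ mem_spanSingleton_self R⁰ (x : K))
  obtain ⟨s, hs⟩ := (mem_one_iff R⁰).mp (h' ▸ mem_spanSingleton_self R⁰ ((x⁻¹ : Kˣ) : K))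
  have hrs : r * s = 1 := by
    apply IsFractionRing.injective R K
    rw [map_mul, hr, hs, map_one, ← Units.val_mul, mul_inv_cancel, Units.val_one]
  exact ⟨⟨r, s, hrs, by rw [mul_comm]; exact hrs⟩, Units.ext hr⟩

/-- Two elements with the same parities and the same class of square parts differ by a unit times
a square. -/
lemma exists_unit_sq {a a' : Kˣ} (h2 : ∀ v : HeightOneSpectrum R, ordv R v a % 2 = ordv R v a' % 2)
    (hcl : (QuotientGroup.mk (sqPart (R := R) a) :
      (FractionalIdeal R⁰ K)ˣ ⧸ (toPrincipalIdeal R K).range) = QuotientGroup.mk (sqPart a')) :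
    ∃ (u : Rˣ) (c : Kˣ), a' = a * Units.map (algebraMap R K : R →* K) u * c ^ 2 := by
  obtain ⟨c, hc⟩ := QuotientGroup.eq.mp hcl
  have hI : (toPrincipalIdeal R K (a * c ^ 2)) = toPrincipalIdeal R K a' := by
    refine Units.ext (ext_count (Units.ne_zero _) (Units.ne_zero _) fun v ↦ ?_)
    have h1 : ordv R v c = ordv R v a' / 2 - ordv R v a / 2 := by
      have h := congrArg (fun J : (FractionalIdeal R⁰ K)ˣ ↦ count K v (J : FractionalIdeal R⁰ K)) hc
      simp only [coe_toPrincipalIdeal, Units.val_mul] at h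
      rw [count_mul K v (Units.ne_zero _) (Units.ne_zero _), Units.val_inv_eq_inv_val, count_inv,
        count_sqPart, count_sqPart] at h
      rw [ordv, h]; ring
    rw [coe_toPrincipalIdeal, coe_toPrincipalIdeal]
    change ordv R v (a * c ^ 2) = ordv R v a'
    rw [ordv_mul, pow_two, ordv_mul, h1]
    have := h2 v
    omega
  have h3 : toPrincipalIdeal R K (a' * (a * c ^ 2)⁻¹) = 1 := by
    rw [map_mul, map_inv, ← hI, mul_inv_cancel]
  -- a generator of the unit ideal is a unit
  rw [toPrincipalIdeal_eq_iff, Units.val_one] at h3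
  have h4 : ∃ u : Rˣ, Units.map (algebraMap R K : R →* K) u = a' * (a * c ^ 2)⁻¹ :=
    exists_unit_of_span h3
  obtain ⟨u, hu⟩ := h4
  refine ⟨u, c, ?_⟩
  rw [hu]
  rw [mul_assoc, mul_comm (a' * _) (c ^ 2), ← mul_assoc, mul_comm (a * c ^ 2), mul_assoc,
    inv_mul_cancel, mul_one]

end

/-- The units modulo squares are finite in number. -/
lemma units_mod_sq (K : Type*) [Field K] [NumberField K] :
    Finite ((NumberField.RingOfIntegers K)ˣ ⧸
      (powMonoidHom 2 : (NumberField.RingOfIntegers K)ˣ →* (NumberField.RingOfIntegers K)ˣ).range) := by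
  have : Group.FG (NumberField.RingOfIntegers K)ˣ := Group.fg_iff_monoid_fg.mpr inferInstance
  exact CommGroup.finite_of_fg_isMulTorsion _ (CommGroup.isMulTorsion_quotient_range_powMonoidHom _ two_ne_zero)

/-- **Finiteness of `K(S, 2)`.** -/
theorem finite_reps (K : Type*) [Field K] [NumberField K]
    (S : Set (HeightOneSpectrum (NumberField.RingOfIntegers K))) (hS : S.Finite) :
    ∃ T : Set Kˣ, T.Finite ∧ ∀ a : Kˣ,
      (∀ v ∉ S, Even (ordv (NumberField.RingOfIntegers K) v a)) → ∃ t ∈ T, ∃ b : Kˣ, a = t * b ^ 2 := by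
  classical
  let R := NumberField.RingOfIntegers K
  have : Finite S := hS
  have : Finite (ClassGroup R) := inferInstance
  have : Finite ((FractionalIdeal R⁰ K)ˣ ⧸ (toPrincipalIdeal R K).range) :=
    Finite.of_equiv _ (ClassGroup.equiv K).toEquiv
  have := units_mod_sq K
  let G : Set Kˣ := {a | ∀ v ∉ S, Even (ordv R v a)}
  let φ : Kˣ → (S → Bool) × ((FractionalIdeal R⁰ K)ˣ ⧸ (toPrincipalIdeal R K).range) := fun a ↦
    (fun v ↦ decide (Even (ordv R v.1 a)), QuotientGroup.mk (sqPart a))
  have hrep : ∀ z : φ '' G, ∃ a ∈ G, φ a = z.1 := fun z ↦ z.2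
  choose r hrG hr using hrep
  let U : Set Rˣ := Set.range fun q : Rˣ ⧸ (powMonoidHom 2 : Rˣ →* Rˣ).range ↦ q.out
  refine ⟨Set.image2 (fun (a : Kˣ) (u : Rˣ) ↦ a * Units.map (algebraMap R K : R →* K) u)
    (Set.range r) U, Set.Finite.image2 _ (Set.finite_range r) (Set.finite_range _), ?_⟩
  intro a ha
  let z : φ '' G := ⟨φ a, a, ha, rfl⟩
  have hz : φ (r z) = φ a := hr z
  have h2 : ∀ v : HeightOneSpectrum R, ordv R v (r z) % 2 = ordv R v a % 2 := by
    intro v
    by_cases hv : v ∈ S
    · have h := congrFun (congrArg Prod.fst hz) ⟨v, hv⟩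
      simp only [φ, decide_eq_decide] at h
      rcases Int.even_or_odd (ordv R v a) with he | he
      · have h' := h.mpr he
        rw [Int.even_iff] at h' he
        rw [h', he]
      · have h' : ¬ Even (ordv R v (r z)) := fun h0 ↦ (Int.not_even_iff_odd.mpr he) (h.mp h0)
        rw [Int.not_even_iff_odd, Int.odd_iff] at h'
        rw [Int.odd_iff] at he
        rw [h', he]
    · have h1 := hrG z v hv
      have h3 := ha v hv
      rw [Int.even_iff] at h1 h3
      rw [h1]
      exact h3.symm
  obtain ⟨u, c, hu⟩ := exists_unit_sq h2 (congrArg Prod.snd hz)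
  obtain ⟨⟨_, w, rfl⟩, hw⟩ := (QuotientGroup.mk_out_eq_mul (powMonoidHom 2 : Rˣ →* Rˣ).range u)
  refine ⟨_, ⟨r z, ⟨z, rfl⟩, _, ⟨QuotientGroup.mk u, rfl⟩, rfl⟩,
    Units.map (algebraMap R K : R →* K) w⁻¹ * c, ?_⟩
  simp only at hw ⊢
  rw [hu, hw]
  simp only [map_mul, powMonoidHom_apply, map_pow, mul_pow, map_inv, inv_pow]
  generalize (Units.map (algebraMap R K : R →* K)) u = u'
  generalize (Units.map (algebraMap R K : R →* K)) w = w'
  rw [mul_assoc (r z), mul_assoc (r z), mul_assoc u', mul_inv_cancel_left]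

end Fermat.Agent.Cor.MW
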