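import Fermat.Agent.Cor.MWSel
import Fermat.Agent.Cor.MWHeight

/-!
# The weak Mordell–Weil theorem (full rational 2-torsion)
-/

namespace Fermat.Agent.Cor.MW

open WeierstrassCurve WeierstrassCurve.Affine WeierstrassCurve.Affine.Point

section

variable {K : Type*} [Field K] [DecidableEq K] {W : WeierstrassCurve K}

/-- The product formula on a line: `(x₁ - e)(x₂ - e)(x₃ - e)` is a square if `P₁ + P₂ = P₃`. -/
lemma three_mul {x₁ y₁ x₂ y₂ x₃ y₃ : K} (h2 : (2 : K) ≠ 0) (h₁ : W.toAffine.Nonsingular x₁ y₁)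
    (h₂ : W.toAffine.Nonsingular x₂ y₂) (h₃ : W.toAffine.Nonsingular x₃ y₃)
    (hsum : some x₁ y₁ h₁ + some x₂ y₂ h₂ = some x₃ y₃ h₃) {e : K}
    (he : 4 * e ^ 3 + W.b₂ * e ^ 2 + 2 * W.b₄ * e + W.b₆ = 0) :
    ∃ c : K, (x₁ - e) * (x₂ - e) * (x₃ - e) = c ^ 2 := by
  have hxy : ¬(x₁ = x₂ ∧ y₁ = W.toAffine.negY x₂ y₂) := by
    rintro ⟨hx, hy⟩
    rw [add_of_Y_eq hx hy] at hsum
    exact some_ne_zero h₃ hsum.symm
  rw [add_some hxy] at hsum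
  have hx₃ : W.toAffine.addX x₁ x₂ (W.toAffine.slope x₁ x₂ y₁ y₂) = x₃ := by
    simp only [Point.some.injEq] at hsum
    exact hsum.1
  have hp := congrArg (Polynomial.eval e) (addPolynomial_slope h₁.1 h₂.1 hxy)
  rw [hx₃, addPolynomial_eq] at hp
  generalize W.toAffine.slope x₁ x₂ y₁ y₂ = l at hp
  simp only [Cubic.toPoly, Polynomial.eval_neg, Polynomial.eval_add, Polynomial.eval_mul,
    Polynomial.eval_C, Polynomial.eval_pow, Polynomial.eval_X, Polynomial.eval_sub] at hp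
  refine ⟨l * (e - x₁) + y₁ + (W.a₁ * e + W.a₃) / 2, ?_⟩
  have h4 : (4 : K) ≠ 0 := by
    have : (4 : K) = 2 * 2 := by norm_num
    rw [this]; exact mul_ne_zero h2 h2
  simp only [b₂, b₄, b₆] at he
  field_simp
  linear_combination (-4) * hp - he

/-- Halving: a point with `x₀ - eᵢ = zᵢ²`, `i = 1, 2, 3`, and `2 y₀ + a₁ x₀ + a₃ = 2 z₁ z₂ z₃`, is
divisible by two. -/
lemma halve_aux [W.IsElliptic] {x₀ y₀ z₁ z₂ z₃ : K} (h2 : (2 : K) ≠ 0)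
    (h₀ : W.toAffine.Nonsingular x₀ y₀)
    (hb₂ : W.b₂ = -4 * ((x₀ - z₁ ^ 2) + (x₀ - z₂ ^ 2) + (x₀ - z₃ ^ 2)))
    (hb₄ : W.b₄ = 2 * ((x₀ - z₁ ^ 2) * (x₀ - z₂ ^ 2) + (x₀ - z₁ ^ 2) * (x₀ - z₃ ^ 2) +
      (x₀ - z₂ ^ 2) * (x₀ - z₃ ^ 2)))
    (hb₆ : W.b₆ = -4 * ((x₀ - z₁ ^ 2) * (x₀ - z₂ ^ 2) * (x₀ - z₃ ^ 2)))
    (h12 : z₁ + z₂ ≠ 0) (h13 : z₁ + z₃ ≠ 0) (h23 : z₂ + z₃ ≠ 0)
    (hψ : 2 * y₀ + W.a₁ * x₀ + W.a₃ = 2 * (z₁ * z₂ * z₃)) :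
    ∃ Q : W.toAffine.Point, some x₀ y₀ h₀ = Q + Q := by
  have h4 : (4 : K) ≠ 0 := by
    have : (4 : K) = 2 * 2 := by norm_num
    rw [this]; exact mul_ne_zero h2 h2
  simp only [b₂, b₄, b₆] at hb₂ hb₄ hb₆
  set x := x₀ + z₁ * z₂ + z₁ * z₃ + z₂ * z₃ with hx
  set p := (z₁ + z₂) * (z₁ + z₃) * (z₂ + z₃) with hp
  have hp0 : p ≠ 0 := mul_ne_zero (mul_ne_zero h12 h13) h23
  set y := p - (W.a₁ * x + W.a₃) / 2 with hy
  have hψQ : 2 * y + W.a₁ * x + W.a₃ = 2 * p := by rw [hy]; field_simp; ring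
  have hE : W.toAffine.Equation x y := by
    rw [W.toAffine.equation_iff]
    refine mul_left_cancel₀ h4 ?_
    have h1 : 4 * (y ^ 2 + W.toAffine.a₁ * x * y + W.toAffine.a₃ * y) =
        (2 * y + W.a₁ * x + W.a₃) ^ 2 - (W.a₁ * x + W.a₃) ^ 2 := by
      change 4 * (y ^ 2 + W.a₁ * x * y + W.a₃ * y) = _
      ring
    rw [h1, hψQ]
    change (2 * p) ^ 2 - (W.a₁ * x + W.a₃) ^ 2 = 4 * (x ^ 3 + W.a₂ * x ^ 2 + W.a₄ * x + W.a₆)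
    rw [hp, hx]
    linear_combination (-(x₀ + z₁ * z₂ + z₁ * z₃ + z₂ * z₃) ^ 2) * hb₂ -
      2 * (x₀ + z₁ * z₂ + z₁ * z₃ + z₂ * z₃) * hb₄ - hb₆
  have hN : W.toAffine.Nonsingular x y := (equation_iff_nonsingular (W := W.toAffine)).mp hE
  have hne : y ≠ W.toAffine.negY x y := by
    intro h
    rw [negY] at h
    have : 2 * p = 0 := by rw [← hψQ]; linear_combination h
    exact hp0 ((mul_eq_zero.mp this).resolve_left h2)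
  have hsl : W.toAffine.slope x x y y = z₁ + z₂ + z₃ - W.a₁ / 2 := by
    rw [slope_of_Y_ne rfl hne]
    have hd : y - W.toAffine.negY x y = 2 * p := by rw [← hψQ, negY]; ring
    rw [hd, div_eq_iff (mul_ne_zero h2 hp0)]
    refine mul_left_cancel₀ h2 ?_
    change 2 * (3 * x ^ 2 + 2 * W.a₂ * x + W.a₄ - W.a₁ * y) =
      2 * ((z₁ + z₂ + z₃ - W.a₁ / 2) * (2 * p))
    rw [hy, hp, hx]
    field_simp
    linear_combination (x₀ + z₁ * z₂ + z₁ * z₃ + z₂ * z₃) * hb₂ + hb₄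
  refine ⟨some x y hN, ?_⟩
  rw [add_self_of_Y_ne hne]
  have hX : W.toAffine.addX x x (W.toAffine.slope x x y y) = x₀ := by
    rw [hsl, addX]
    refine mul_left_cancel₀ h4 ?_
    change 4 * ((z₁ + z₂ + z₃ - W.a₁ / 2) ^ 2 + W.a₁ * (z₁ + z₂ + z₃ - W.a₁ / 2) - W.a₂ - x - x) =
      4 * x₀
    rw [hx]
    field_simp
    linear_combination -hb₂
  have hY : W.toAffine.addY x x y (W.toAffine.slope x x y y) = y₀ := by
    rw [addY, negAddY, hX, hsl, negY]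
    refine mul_left_cancel₀ h2 ?_
    change 2 * (-((z₁ + z₂ + z₃ - W.a₁ / 2) * (x₀ - x) + y) - W.a₁ * x₀ - W.a₃) = 2 * y₀
    rw [hy, hx, hp]
    field_simp
    linear_combination -hψ
  simp only [Point.some.injEq]
  exact ⟨hX.symm, hY.symm⟩

/-- Halving: a point with `x₀ - eᵢ = zᵢ²`, `i = 1, 2, 3`, is divisible by two. -/
lemma halve [W.IsElliptic] {x₀ y₀ e₁ e₂ e₃ z₁ z₂ z₃ : K} (h2 : (2 : K) ≠ 0)
    (h₀ : W.toAffine.Nonsingular x₀ y₀) (hb₂ : W.b₂ = -4 * (e₁ + e₂ + e₃))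
    (hb₄ : W.b₄ = 2 * (e₁ * e₂ + e₁ * e₃ + e₂ * e₃)) (hb₆ : W.b₆ = -4 * (e₁ * e₂ * e₃))
    (h12 : e₁ ≠ e₂) (h13 : e₁ ≠ e₃) (h23 : e₂ ≠ e₃) (hz₁ : x₀ - e₁ = z₁ ^ 2)
    (hz₂ : x₀ - e₂ = z₂ ^ 2) (hz₃ : x₀ - e₃ = z₃ ^ 2) :
    ∃ Q : W.toAffine.Point, some x₀ y₀ h₀ = Q + Q := by
  obtain rfl : e₁ = x₀ - z₁ ^ 2 := by rw [← hz₁]; ring
  obtain rfl : e₂ = x₀ - z₂ ^ 2 := by rw [← hz₂]; ring
  obtain rfl : e₃ = x₀ - z₃ ^ 2 := by rw [← hz₃]; ring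
  have n12 : z₁ ^ 2 ≠ z₂ ^ 2 := fun h ↦ h12 (by rw [h])
  have n13 : z₁ ^ 2 ≠ z₃ ^ 2 := fun h ↦ h13 (by rw [h])
  have n23 : z₂ ^ 2 ≠ z₃ ^ 2 := fun h ↦ h23 (by rw [h])
  have e₀ := (W.toAffine.equation_iff x₀ y₀).mp h₀.1
  change y₀ ^ 2 + W.a₁ * x₀ * y₀ + W.a₃ * y₀ = x₀ ^ 3 + W.a₂ * x₀ ^ 2 + W.a₄ * x₀ + W.a₆ at e₀
  have hsq : (2 * y₀ + W.a₁ * x₀ + W.a₃) ^ 2 = (2 * (z₁ * z₂ * z₃)) ^ 2 := by
    simp only [b₂, b₄, b₆] at hb₂ hb₄ hb₆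
    linear_combination 4 * e₀ + x₀ ^ 2 * hb₂ + 2 * x₀ * hb₄ + hb₆
  rcases sq_eq_sq_iff_eq_or_eq_neg.mp hsq with h | h
  · exact halve_aux h2 h₀ hb₂ hb₄ hb₆
      (fun h0 ↦ n12 (by rw [eq_neg_of_add_eq_zero_left h0]; ring))
      (fun h0 ↦ n13 (by rw [eq_neg_of_add_eq_zero_left h0]; ring))
      (fun h0 ↦ n23 (by rw [eq_neg_of_add_eq_zero_left h0]; ring)) h
  · refine halve_aux (z₁ := -z₁) (z₂ := z₂) (z₃ := z₃) h2 h₀ ?_ ?_ ?_ ?_ ?_ ?_ ?_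
    · rw [neg_sq]; exact hb₂
    · rw [neg_sq]; exact hb₄
    · rw [neg_sq]; exact hb₆
    · exact fun h0 ↦ n12 (by rw [← neg_eq_iff_add_eq_zero.mpr h0, neg_neg])
    · exact fun h0 ↦ n13 (by rw [← neg_eq_iff_add_eq_zero.mpr h0, neg_neg])
    · exact fun h0 ↦ n23 (by rw [eq_neg_of_add_eq_zero_left h0]; ring)
    · rw [h]; ring

end

section

open IsDedekindDomain

/-- If `η² = (x - e₁)(x - e₂)(x - e₃)` with `eᵢ` integral and distinct modulo `v`, then the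
valuation of `x - e₁` is even. -/
lemma val_even {K : Type*} [Field K] (w : Valuation K (WithZero (Multiplicative ℤ)))
    {x η e₁ e₂ e₃ : K} (he₁ : w e₁ ≤ 1) (he₂ : w e₂ ≤ 1) (he₃ : w e₃ ≤ 1)
    (h12 : w (e₁ - e₂) = 1) (h13 : w (e₁ - e₃) = 1)
    (hη : η ^ 2 = (x - e₁) * (x - e₂) * (x - e₃)) :
    ∃ g : WithZero (Multiplicative ℤ), w (x - e₁) = g ^ 2 := by
  have hw : w η ^ 2 = w (x - e₁) * w (x - e₂) * w (x - e₃) := by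
    rw [← map_pow, hη, map_mul, map_mul]
  rcases lt_or_ge 1 (w x) with hx | hx
  · have k : ∀ e : K, w e ≤ 1 → w (x - e) = w x := fun e he ↦
      w.map_sub_eq_of_lt_left (he.trans_lt hx)
    rw [k e₁ he₁, k e₂ he₂, k e₃ he₃] at hw
    refine ⟨w η / w x, ?_⟩
    have hx0 : w x ≠ 0 := (zero_lt_one.trans hx).ne'
    rw [k e₁ he₁, div_pow, hw]
    field_simp
  · have hle : w (x - e₁) ≤ 1 := (w.map_sub _ _).trans (max_le hx he₁)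
    rcases hle.eq_or_lt with h1 | h1
    · exact ⟨1, by rw [h1, one_pow]⟩
    · have k : ∀ e : K, w (e₁ - e) = 1 → w (x - e) = 1 := fun e he ↦ by
        have : x - e = (x - e₁) + (e₁ - e) := by ring
        rw [this, w.map_add_eq_of_lt_right (by rw [he]; exact h1), he]
      rw [k e₂ h12, k e₃ h13, mul_one, mul_one] at hw
      exact ⟨w η, hw.symm⟩

lemma val_sub_eq_one {K : Type*} [Field K] (w : Valuation K (WithZero (Multiplicative ℤ)))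
    {a b : K} (ha : w a ≤ 1) (hb : w b ≤ 1) (hab : a ≠ b) (h : w (a - b)⁻¹ ≤ 1) :
    w (a - b) = 1 := by
  refine le_antisymm ((w.map_sub _ _).trans (max_le ha hb)) ?_
  have h0 : w (a - b) ≠ 0 := (w.ne_zero_iff).mpr (sub_ne_zero.mpr hab)
  rw [map_inv₀] at h
  exact (inv_le_one₀ (zero_lt_iff.mpr h0)).mp h

variable {K : Type*} [Field K] [NumberField K]

/-- The bad primes for a triple `e₁, e₂, e₃`. -/
def badSet (e₁ e₂ e₃ : K) : Set (HeightOneSpectrum (NumberField.RingOfIntegers K)) :=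
  HeightOneSpectrum.Support _ e₁ ∪ HeightOneSpectrum.Support _ e₂ ∪
    HeightOneSpectrum.Support _ e₃ ∪ HeightOneSpectrum.Support _ (e₁ - e₂)⁻¹ ∪
    HeightOneSpectrum.Support _ (e₁ - e₃)⁻¹ ∪ HeightOneSpectrum.Support _ (e₂ - e₃)⁻¹

lemma badSet_finite (e₁ e₂ e₃ : K) : (badSet e₁ e₂ e₃).Finite := by
  unfold badSet
  exact ((((((HeightOneSpectrum.Support.finite _ _).union
    (HeightOneSpectrum.Support.finite _ _)).union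
    (HeightOneSpectrum.Support.finite _ _)).union
    (HeightOneSpectrum.Support.finite _ _)).union
    (HeightOneSpectrum.Support.finite _ _)).union
    (HeightOneSpectrum.Support.finite _ _))

/-- `x - eᵢ` has even valuation outside the bad primes. -/
lemma even_ordv {x η e₁ e₂ e₃ : K} (h12 : e₁ ≠ e₂) (h13 : e₁ ≠ e₃) (h23 : e₂ ≠ e₃)
    (hη : η ^ 2 = (x - e₁) * (x - e₂) * (x - e₃)) (hx₁ : x - e₁ ≠ 0) (hx₂ : x - e₂ ≠ 0)
    (hx₃ : x - e₃ ≠ 0) {v : HeightOneSpectrum (NumberField.RingOfIntegers K)}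
    (hv : v ∉ badSet e₁ e₂ e₃) :
    Even (ordv (NumberField.RingOfIntegers K) v (Units.mk0 _ hx₁)) ∧
    Even (ordv (NumberField.RingOfIntegers K) v (Units.mk0 _ hx₂)) ∧
    Even (ordv (NumberField.RingOfIntegers K) v (Units.mk0 _ hx₃)) := by
  simp only [badSet, Set.mem_union, not_or, HeightOneSpectrum.Support] at hv
  obtain ⟨⟨⟨⟨⟨he₁, he₂⟩, he₃⟩, hd12⟩, hd13⟩, hd23⟩ := hv
  replace he₁ : v.valuation K e₁ ≤ 1 := not_lt.mp he₁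
  replace he₂ : v.valuation K e₂ ≤ 1 := not_lt.mp he₂
  replace he₃ : v.valuation K e₃ ≤ 1 := not_lt.mp he₃
  replace hd12 : v.valuation K (e₁ - e₂)⁻¹ ≤ 1 := not_lt.mp hd12
  replace hd13 : v.valuation K (e₁ - e₃)⁻¹ ≤ 1 := not_lt.mp hd13
  replace hd23 : v.valuation K (e₂ - e₃)⁻¹ ≤ 1 := not_lt.mp hd23
  have w12 := val_sub_eq_one (v.valuation K) he₁ he₂ h12 hd12
  have w13 := val_sub_eq_one (v.valuation K) he₁ he₃ h13 hd13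
  have w23 := val_sub_eq_one (v.valuation K) he₂ he₃ h23 hd23
  have w21 : v.valuation K (e₂ - e₁) = 1 := by rw [Valuation.map_sub_swap]; exact w12
  have w31 : v.valuation K (e₃ - e₁) = 1 := by rw [Valuation.map_sub_swap]; exact w13
  have w32 : v.valuation K (e₃ - e₂) = 1 := by rw [Valuation.map_sub_swap]; exact w23
  have key : ∀ (z : K) (hz : z ≠ 0), (∃ g : WithZero (Multiplicative ℤ), v.valuation K z = g ^ 2) →
      Even (ordv (NumberField.RingOfIntegers K) v (Units.mk0 z hz)) := by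
    rintro z hz ⟨g, hg⟩
    rw [valuation_eq_exp_count v hz] at hg
    have hg0 : g ≠ 0 := by
      rintro rfl
      rw [zero_pow two_ne_zero] at hg
      exact WithZero.exp_ne_zero hg
    obtain ⟨m, rfl⟩ : ∃ m : ℤ, g = WithZero.exp m := ⟨WithZero.log g, (WithZero.exp_log hg0).symm⟩
    rw [← WithZero.exp_nsmul, WithZero.exp_inj] at hg
    refine ⟨-m, ?_⟩
    change FractionalIdeal.count K v _ = _
    simp only [Units.val_mk0]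
    simp only [nsmul_eq_mul, Nat.cast_ofNat] at hg
    omega
  exact ⟨key _ hx₁ (val_even _ he₁ he₂ he₃ w12 w13 hη),
    key _ hx₂ (val_even _ he₂ he₁ he₃ w21 w23 (by rw [hη]; ring)),
    key _ hx₃ (val_even _ he₃ he₁ he₂ w31 w32 (by rw [hη]; ring))⟩

/-- Two points with the same classes of `x - eᵢ` modulo squares have a sum divisible by two. -/
lemma add_of_same_class {K : Type*} [Field K] [DecidableEq K] {W : WeierstrassCurve K}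
    [W.IsElliptic] {e₁ e₂ e₃ : K} (h2 : (2 : K) ≠ 0) (hb₂ : W.b₂ = -4 * (e₁ + e₂ + e₃))
    (hb₄ : W.b₄ = 2 * (e₁ * e₂ + e₁ * e₃ + e₂ * e₃)) (hb₆ : W.b₆ = -4 * (e₁ * e₂ * e₃))
    (h12 : e₁ ≠ e₂) (h13 : e₁ ≠ e₃) (h23 : e₂ ≠ e₃) {x y x' y' : K}
    (h : W.toAffine.Nonsingular x y) (h' : W.toAffine.Nonsingular x' y') {t₁ t₂ t₃ b₁ b₂ b₃ c₁ c₂ c₃ : Kˣ}
    (k₁ : x - e₁ = t₁ * b₁ ^ 2) (k₂ : x - e₂ = t₂ * b₂ ^ 2) (k₃ : x - e₃ = t₃ * b₃ ^ 2)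
    (l₁ : x' - e₁ = t₁ * c₁ ^ 2) (l₂ : x' - e₂ = t₂ * c₂ ^ 2) (l₃ : x' - e₃ = t₃ * c₃ ^ 2) :
    ∃ Q : W.toAffine.Point, some x y h + some x' y' h' = Q + Q := by
  have key : ∀ {x₃ y₃ : K} (h₃ : W.toAffine.Nonsingular x₃ y₃),
      some x y h + some x' y' h' = some x₃ y₃ h₃ → ∀ (e : K) (t b c : Kˣ),
      4 * e ^ 3 + W.b₂ * e ^ 2 + 2 * W.b₄ * e + W.b₆ = 0 → x - e = t * b ^ 2 →
      x' - e = t * c ^ 2 → ∃ z : K, x₃ - e = z ^ 2 := by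
    intro x₃ y₃ h₃ hs e t b c he hb hc
    obtain ⟨d, hd⟩ := three_mul h2 h h' h₃ hs he
    refine ⟨d / (t * b * c), ?_⟩
    rw [hb, hc] at hd
    have ht := t.ne_zero
    have hb0 := b.ne_zero
    have hc0 := c.ne_zero
    rw [div_pow, eq_div_iff (by positivity), ← hd]
    ring
  match hs : some x y h + some x' y' h' with
  | 0 => exact ⟨0, (add_zero 0).symm⟩
  | Point.some x₃ y₃ h₃ =>
    obtain ⟨z₁, hz₁⟩ := key h₃ hs e₁ t₁ b₁ c₁ (by rw [hb₂, hb₄, hb₆]; ring) k₁ l₁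
    obtain ⟨z₂, hz₂⟩ := key h₃ hs e₂ t₂ b₂ c₂ (by rw [hb₂, hb₄, hb₆]; ring) k₂ l₂
    obtain ⟨z₃, hz₃⟩ := key h₃ hs e₃ t₃ b₃ c₃ (by rw [hb₂, hb₄, hb₆]; ring) k₃ l₃
    exact halve h2 h₃ hb₂ hb₄ hb₆ h12 h13 h23 hz₁ hz₂ hz₃

/-- **The weak Mordell–Weil theorem** for an elliptic curve with full rational `2`-torsion. -/
theorem weak_mordellWeil [DecidableEq K] (W : WeierstrassCurve K) [W.IsElliptic] {e₁ e₂ e₃ : K}
    (hb₂ : W.b₂ = -4 * (e₁ + e₂ + e₃)) (hb₄ : W.b₄ = 2 * (e₁ * e₂ + e₁ * e₃ + e₂ * e₃))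
    (hb₆ : W.b₆ = -4 * (e₁ * e₂ * e₃)) (h12 : e₁ ≠ e₂) (h13 : e₁ ≠ e₃) (h23 : e₂ ≠ e₃) :
    (nsmulAddMonoidHom (α := W.toAffine.Point) 2).range.FiniteIndex := by
  have h2 : (2 : K) ≠ 0 := two_ne_zero
  obtain ⟨T, hT, hrep⟩ := finite_reps K (badSet e₁ e₂ e₃) (badSet_finite e₁ e₂ e₃)
  have : Finite T := hT
  -- the good points and their classes
  let Good : Set W.toAffine.Point := {P | ∃ x y h, P = some x y h ∧ x ≠ e₁ ∧ x ≠ e₂ ∧ x ≠ e₃}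
  have hcl : ∀ P : Good, ∃ t : T × T × T, ∃ x y h, P.1 = some x y h ∧ ∃ b₁ b₂ b₃ : Kˣ,
      x - e₁ = t.1.1 * b₁ ^ 2 ∧ x - e₂ = t.2.1.1 * b₂ ^ 2 ∧ x - e₃ = t.2.2.1 * b₃ ^ 2 := by
    rintro ⟨P, x, y, h, rfl, hx₁, hx₂, hx₃⟩
    have e₀ := (W.toAffine.equation_iff x y).mp h.1
    change y ^ 2 + W.a₁ * x * y + W.a₃ * y = x ^ 3 + W.a₂ * x ^ 2 + W.a₄ * x + W.a₆ at e₀
    have hη : ((2 * y + W.a₁ * x + W.a₃) / 2) ^ 2 = (x - e₁) * (x - e₂) * (x - e₃) := by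
      simp only [b₂, b₄, b₆] at hb₂ hb₄ hb₆
      field_simp
      linear_combination 4 * e₀ + x ^ 2 * hb₂ + 2 * x * hb₄ + hb₆
    have n₁ := sub_ne_zero.mpr hx₁
    have n₂ := sub_ne_zero.mpr hx₂
    have n₃ := sub_ne_zero.mpr hx₃
    obtain ⟨t₁, ht₁, b₁, hb₁⟩ := hrep (Units.mk0 _ n₁)
      fun v hv ↦ (even_ordv h12 h13 h23 hη n₁ n₂ n₃ hv).1
    obtain ⟨t₂, ht₂, b₂, hb₂⟩ := hrep (Units.mk0 _ n₂)
      fun v hv ↦ (even_ordv h12 h13 h23 hη n₁ n₂ n₃ hv).2.1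
    obtain ⟨t₃, ht₃, b₃, hb₃⟩ := hrep (Units.mk0 _ n₃)
      fun v hv ↦ (even_ordv h12 h13 h23 hη n₁ n₂ n₃ hv).2.2
    refine ⟨(⟨t₁, ht₁⟩, ⟨t₂, ht₂⟩, ⟨t₃, ht₃⟩), x, y, h, rfl, b₁, b₂, b₃, ?_, ?_, ?_⟩
    · simpa using congrArg (fun u : Kˣ ↦ (u : K)) hb₁
    · simpa using congrArg (fun u : Kˣ ↦ (u : K)) hb₂
    · simpa using congrArg (fun u : Kˣ ↦ (u : K)) hb₃
  choose t ht using hcl
  have hr : ∀ z : Set.range t, ∃ P : Good, t P = z.1 := fun z ↦ z.2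
  choose r hr using hr
  let F : Set W.toAffine.Point := (Set.range fun z : Set.range t ↦ (r z).1) ∪
    {P | P.xRep ∈ ({![1, 0], ![e₁, 1], ![e₂, 1], ![e₃, 1]} : Set (Fin 2 → K))}
  have hF : F.Finite := (Set.finite_range _).union (finite_xRep W (Set.toFinite _))
  have hcov : ∀ P : W.toAffine.Point, ∃ Q ∈ F, ∃ R : W.toAffine.Point, P + Q = R + R := by
    intro P
    by_cases hP : P ∈ Good
    · refine ⟨(r ⟨t ⟨P, hP⟩, ⟨P, hP⟩, rfl⟩).1, Or.inl ⟨_, rfl⟩, ?_⟩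
      obtain ⟨x, y, h, hPx, b₁, b₂, b₃, k₁, k₂, k₃⟩ := ht ⟨P, hP⟩
      obtain ⟨x', y', h', hPx', c₁, c₂, c₃, l₁, l₂, l₃⟩ := ht (r ⟨t ⟨P, hP⟩, ⟨P, hP⟩, rfl⟩)
      rw [hr] at l₁ l₂ l₃
      simp only at hPx
      rw [hPx', hPx]
      exact add_of_same_class h2 hb₂ hb₄ hb₆ h12 h13 h23 h h' k₁ k₂ k₃ l₁ l₂ l₃
    · refine ⟨P, Or.inr ?_, P, rfl⟩
      match P with
      | 0 => exact Or.inl rfl
      | Point.some x y h =>
        by_contra hcon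
        simp only [Set.mem_ofPred_eq, xRep_some, Set.mem_insert_iff, Set.mem_singleton_iff,
          not_or, Matrix.vecCons_inj, and_true, not_and] at hcon
        exact hP ⟨x, y, h, rfl, hcon.2.1, hcon.2.2.1, hcon.2.2.2⟩
  rw [AddSubgroup.finiteIndex_iff_finite_quotient]
  have hfin : (Set.univ : Set (W.toAffine.Point ⧸ (nsmulAddMonoidHom (α := W.toAffine.Point) 2).range)).Finite := by
    refine (hF.image fun Q ↦ -(QuotientAddGroup.mk Q : W.toAffine.Point ⧸ _)).subset ?_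
    intro q _
    obtain ⟨P, rfl⟩ := QuotientAddGroup.mk_surjective q
    obtain ⟨Q, hQ, R, hR⟩ := hcov P
    refine ⟨Q, hQ, ?_⟩
    change -(QuotientAddGroup.mk Q : W.toAffine.Point ⧸ _) = _
    rw [← QuotientAddGroup.mk_neg, QuotientAddGroup.eq]
    refine ⟨R, ?_⟩
    rw [nsmulAddMonoidHom_apply, two_nsmul, ← hR, neg_neg, add_comm]
  exact Set.finite_univ_iff.mp hfin

end

end Fermat.Agent.Cor.MW
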