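import Mathlib
import Fermat.Agent.Cor.CuspTors
import Fermat.Agent.Cor.MazurCusp

set_option autoImplicit false

/-!
# Cuspidal reduction: the points with nonsingular reduction

This file is not used by any of the statement files.
-/

namespace Fermat.Agent.Cor.Ord15

open Polynomial WeierstrassCurve WeierstrassCurve.Affine WeierstrassCurve.Affine.Point
open Fermat.Agent.H08 Fermat.Agent.H05 Fermat.Agent.H09 Fermat.Agent.Frob

local notation "Qb" => AlgebraicClosure ℚ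

section

variable {W : WeierstrassCurve ℤ} {ℓ : ℕ} {r s t : ℤ} {A : ValuationSubring Qb}

/-- a rational number of valuation `< 1` has valuation `≤ v(ℓ)` -/
theorem val_rat_le (hℓ : ℓ.Prime) (hA : A.LiesOverPrime ℓ) {z : ℚ}
    (h : A.valuation (z : Qb) < 1) : A.valuation (z : Qb) ≤ A.valuation (ℓ : Qb) := by
  have hden : A.valuation ((z.den : ℤ) : Qb) ≠ 0 :=
    (Valuation.ne_zero_iff _).mpr (Int.cast_ne_zero.mpr (by exact_mod_cast z.den_ne_zero))
  have hz : (z : Qb) = ((z.num : ℤ) : Qb) / ((z.den : ℤ) : Qb) := by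
    rw [Rat.cast_def, Int.cast_natCast]
  rw [hz, map_div₀] at h ⊢
  by_cases hd : (ℓ : ℤ) ∣ z.den
  · exfalso
    have hn : ¬ (ℓ : ℤ) ∣ z.num := by
      intro hn
      have h1 : ℓ ∣ z.num.natAbs := Int.natCast_dvd.mp hn
      have h2 : ℓ ∣ z.den := by exact_mod_cast hd
      have h3 := Nat.dvd_gcd h1 h2
      rw [z.reduced] at h3
      exact hℓ.one_lt.ne' (Nat.dvd_one.mp h3)
    rw [Fermat.Agent.H09.val_intCast_eq_one hℓ hA hn, one_div] at h
    have h4 := Fermat.Agent.H09.val_intCast_lt_one hA hd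
    have h5 := (one_le_inv₀ (zero_lt_iff.mpr hden)).mpr h4.le
    exact absurd h (not_lt.mpr h5)
  · rw [Fermat.Agent.H09.val_intCast_eq_one hℓ hA hd, div_one] at h ⊢
    have hn := MazurTorsion.pow_le_val (A := A) (k := 0) hℓ hA (z := z.num)
    by_cases hn' : (ℓ : ℤ) ∣ z.num
    · have h6 := MazurTorsion.val_le_pow (A := A) (k := 1) (by rwa [pow_one] : (ℓ : ℤ) ^ 1 ∣ z.num)
      rwa [pow_one] at h6
    · rw [Fermat.Agent.H09.val_intCast_eq_one hℓ hA hn'] at h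
      exact absurd h (lt_irrefl _)

/-- the scaled model -/
theorem exists_scaled (hℓ : ℓ.Prime)
    (d₁ : (ℓ : ℤ) ∣ W.a₁ + 2 * s)
    (d₂ : (ℓ : ℤ) ∣ W.a₂ - s * W.a₁ + 3 * r - s ^ 2)
    (d₃ : (ℓ : ℤ) ∣ W.a₃ + r * W.a₁ + 2 * t)
    (d₄ : (ℓ : ℤ) ∣ W.a₄ - s * W.a₃ + 2 * r * W.a₂ - (t + r * s) * W.a₁ + 3 * r ^ 2 - 2 * s * t)
    (d₆ : (ℓ : ℤ) ∣ W.a₆ + r * W.a₄ + r ^ 2 * W.a₂ + r ^ 3 - t * W.a₃ - t ^ 2 - r * t * W.a₁)
    (hA : A.LiesOverPrime ℓ) :
    ∃ (u : Qb) (V : WeierstrassCurve.Affine Qb)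
      (e : V.Point ≃+ ((W.map (Int.castRingHom ℚ))⁄Qb).Point), u ≠ 0 ∧ u ^ 6 = (ℓ : Qb) ∧
      A.valuation u < 1 ∧ IsIntegralFor A.valuation V ∧
      ∀ R : V.Point, R ≠ 0 → px (e R) - (r : Qb) = u ^ 2 * px R := by
  classical
  obtain ⟨u, hu⟩ := IsAlgClosed.exists_pow_nat_eq (ℓ : Qb) (n := 6) (by norm_num)
  have hℓ0 : (ℓ : Qb) ≠ 0 := Nat.cast_ne_zero.mpr hℓ.ne_zero
  have hu0 : u ≠ 0 := by
    rintro rfl
    rw [zero_pow (by norm_num)] at hu
    exact hℓ0 hu.symm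
  have hvℓ : A.valuation (ℓ : Qb) < 1 := by
    have := Fermat.Agent.H09.val_intCast_lt_one (c := (ℓ : ℤ)) hA (dvd_refl _)
    rwa [Int.cast_natCast] at this
  have hvu6 : A.valuation u ^ 6 = A.valuation (ℓ : Qb) := by rw [← map_pow, hu]
  have hvu : A.valuation u < 1 := by
    by_contra hcon
    have := one_le_pow₀ (not_lt.mp hcon) (n := 6)
    rw [hvu6] at this
    exact absurd hvℓ (not_lt.mpr this)
  have hvu0 : A.valuation u ≠ 0 := (Valuation.ne_zero_iff _).mpr hu0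
  let Cv : VariableChange Qb := ⟨Units.mk0 u hu0, (r : Qb), (s : Qb), (t : Qb)⟩
  let V : WeierstrassCurve Qb := Cv • ((W.map (Int.castRingHom ℚ))⁄Qb)
  have hV : V = Cv • ((W.map (Int.castRingHom ℚ))⁄Qb) := rfl
  have c1 : ((W.map (Int.castRingHom ℚ))⁄Qb).a₁ = (W.a₁ : Qb) := by
    rw [← map_int_Qb]; rfl
  have c2 : ((W.map (Int.castRingHom ℚ))⁄Qb).a₂ = (W.a₂ : Qb) := by
    rw [← map_int_Qb]; rfl
  have c3 : ((W.map (Int.castRingHom ℚ))⁄Qb).a₃ = (W.a₃ : Qb) := by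
    rw [← map_int_Qb]; rfl
  have c4 : ((W.map (Int.castRingHom ℚ))⁄Qb).a₄ = (W.a₄ : Qb) := by
    rw [← map_int_Qb]; rfl
  have c6 : ((W.map (Int.castRingHom ℚ))⁄Qb).a₆ = (W.a₆ : Qb) := by
    rw [← map_int_Qb]; rfl
  have hdiv : ∀ (i : ℕ) (z : Qb) (c : ℤ), i ≤ 6 → (ℓ : ℤ) ∣ c → u ^ i * z = (c : Qb) →
      A.valuation z ≤ 1 := by
    intro i z c hi hd hz
    obtain ⟨e, rfl⟩ := hd
    have h1 : z = u ^ (6 - i) * (e : Qb) := by
      apply mul_left_cancel₀ (pow_ne_zero i hu0)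
      rw [hz, ← mul_assoc, ← pow_add, Nat.add_sub_cancel' hi, hu]
      push_cast
      rfl
    rw [h1, map_mul, map_pow]
    exact mul_le_one' (pow_le_one' hvu.le _) (Fermat.Agent.H09.val_intCast_le_one A e)
  have hVint : IsIntegralFor A.valuation V := by
    refine ⟨?_, ?_, ?_, ?_, ?_⟩
    · refine hdiv 1 _ _ (by norm_num) d₁ ?_
      have := vc_a₁ hV
      rw [c1] at this
      rw [pow_one]
      push_cast
      exact this
    · refine hdiv 2 _ _ (by norm_num) d₂ ?_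
      have := vc_a₂ hV
      rw [c1, c2] at this
      push_cast
      exact this
    · refine hdiv 3 _ _ (by norm_num) d₃ ?_
      have := vc_a₃ hV
      rw [c1, c3] at this
      push_cast
      exact this
    · refine hdiv 4 _ _ (by norm_num) d₄ ?_
      have := vc_a₄ hV
      rw [c1, c2, c3, c4] at this
      push_cast
      exact this
    · refine hdiv 6 _ _ (by norm_num) d₆ ?_
      have := vc_a₆ hV
      rw [c1, c2, c3, c4, c6] at this
      push_cast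
      exact this
  refine ⟨u, V, vcEquiv hV, hu0, hu, hvu, hVint, fun R hR => ?_⟩
  rw [vcEquiv_apply, px_vcFun hV hR]
  change u ^ 2 * px R + (r : Qb) - (r : Qb) = _
  ring

/-- **The rational points with nonsingular reduction are stable under multiplication.** -/
theorem nsmul_not_lt (hℓ : ℓ.Prime)
    (d₁ : (ℓ : ℤ) ∣ W.a₁ + 2 * s)
    (d₂ : (ℓ : ℤ) ∣ W.a₂ - s * W.a₁ + 3 * r - s ^ 2)
    (d₃ : (ℓ : ℤ) ∣ W.a₃ + r * W.a₁ + 2 * t)
    (d₄ : (ℓ : ℤ) ∣ W.a₄ - s * W.a₃ + 2 * r * W.a₂ - (t + r * s) * W.a₁ + 3 * r ^ 2 - 2 * s * t)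
    (d₆ : (ℓ : ℤ) ∣ W.a₆ + r * W.a₄ + r ^ 2 * W.a₂ + r ^ 3 - t * W.a₃ - t ^ 2 - r * t * W.a₁)
    (hA : A.LiesOverPrime ℓ) {R : ((W.map (Int.castRingHom ℚ))⁄Qb).Point}
    (h : ¬ A.valuation (px R - (r : Qb)) < 1) (n : ℕ) {x : ℚ} (hx : px (n • R) = (x : Qb))
    (h0 : n • R ≠ 0) : ¬ A.valuation (px (n • R) - (r : Qb)) < 1 := by
  obtain ⟨u, V, e, hu0, hu, hvu, hVint, he⟩ := exists_scaled hℓ d₁ d₂ d₃ d₄ d₆ hA
  obtain ⟨R', rfl⟩ := e.surjective R
  rw [← map_nsmul] at hx h0 ⊢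
  have hR' : R' ≠ 0 := by
    rintro rfl
    exact h0 (by rw [nsmul_zero, _root_.map_zero])
  have hnR' : n • R' ≠ 0 := by
    intro h1
    exact h0 (by rw [h1, _root_.map_zero])
  rw [he R' hR', map_mul, map_pow, not_lt] at h
  have h1 : 1 < A.valuation (px R') := by
    by_contra hx1
    rw [not_lt] at hx1
    have h2 : A.valuation u ^ 2 * A.valuation (px R') < 1 :=
      mul_lt_one_of_lt_of_le (pow_lt_one₀ zero_le hvu two_ne_zero) hx1
    exact absurd h2 (not_lt.mpr h)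
  have h2 : R' ∈ E1 A.valuation V hVint := Or.inr h1
  have h3 : n • R' ∈ E1 A.valuation V hVint := nsmul_mem h2 n
  have h4 : 1 < A.valuation (px (n • R')) := by
    rcases h3 with h5 | h5
    · exact absurd h5 hnR'
    · exact h5
  intro hcon
  have hxr : px (e (n • R')) - (r : Qb) = ((x - r : ℚ) : Qb) := by
    rw [hx]; push_cast; ring
  have h5 : A.valuation u ^ 2 < A.valuation (px (e (n • R')) - (r : Qb)) := by
    rw [he _ hnR', map_mul, map_pow]
    have hw : 0 < A.valuation u ^ 2 :=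
      zero_lt_iff.mpr (pow_ne_zero 2 ((Valuation.ne_zero_iff _).mpr hu0))
    calc A.valuation u ^ 2 = A.valuation u ^ 2 * 1 := (mul_one _).symm
      _ < _ := by rwa [mul_lt_mul_iff_right₀ hw]
  rw [hxr] at hcon h5
  have h6 := val_rat_le hℓ hA hcon
  have h7 : A.valuation (ℓ : Qb) = A.valuation u ^ 6 := by rw [← map_pow, hu]
  rw [h7] at h6
  have h8 : A.valuation u ^ 6 ≤ A.valuation u ^ 2 := pow_le_pow_right_of_le_one' hvu.le (by norm_num)
  exact absurd (lt_of_lt_of_le h5 (h6.trans h8)) (lt_irrefl _)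

end

/-- refined bound at `5` -/
theorem val_px_lt_one_five {W : WeierstrassCurve ℤ} {A : ValuationSubring Qb} (w4 : W.a₄ = 0)
    (w6 : W.a₆ = 0) (d₁ : (5 : ℤ) ∣ W.a₁) (d₂ : (5 : ℤ) ∣ W.a₂) (d₃ : (5 : ℤ) ∣ W.a₃)
    (hA : A.LiesOverPrime 5) {R : ((W.map (Int.castRingHom ℚ))⁄Qb).Point} (hR0 : R ≠ 0)
    (hR : 5 • R = 0) : A.valuation (px R) < 1 := by
  classical
  have h5 : (5 : ℕ).Prime := by norm_num
  obtain ⟨u, hu⟩ := IsAlgClosed.exists_pow_nat_eq (5 : Qb) (n := 3) (by norm_num)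
  have hu0 : u ≠ 0 := by
    rintro rfl
    rw [zero_pow (by norm_num)] at hu
    exact (by norm_num : (5 : Qb) ≠ 0) hu.symm
  have hvℓ : A.valuation (5 : Qb) < 1 := by
    have := Fermat.Agent.H09.val_intCast_lt_one (c := (5 : ℤ)) hA (dvd_refl _)
    exact_mod_cast this
  have hvu3 : A.valuation u ^ 3 = A.valuation (5 : Qb) := by rw [← map_pow, hu]
  have hvu : A.valuation u < 1 := by
    by_contra hcon
    have := one_le_pow₀ (not_lt.mp hcon) (n := 3)
    rw [hvu3] at this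
    exact absurd hvℓ (not_lt.mpr this)
  let Cv : VariableChange Qb := ⟨Units.mk0 u hu0, 0, 0, 0⟩
  let V : WeierstrassCurve Qb := Cv • ((W.map (Int.castRingHom ℚ))⁄Qb)
  have hV : V = Cv • ((W.map (Int.castRingHom ℚ))⁄Qb) := rfl
  have c1 : ((W.map (Int.castRingHom ℚ))⁄Qb).a₁ = (W.a₁ : Qb) := by
    rw [← map_int_Qb]; rfl
  have c2 : ((W.map (Int.castRingHom ℚ))⁄Qb).a₂ = (W.a₂ : Qb) := by
    rw [← map_int_Qb]; rfl
  have c3 : ((W.map (Int.castRingHom ℚ))⁄Qb).a₃ = (W.a₃ : Qb) := by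
    rw [← map_int_Qb]; rfl
  have c4 : ((W.map (Int.castRingHom ℚ))⁄Qb).a₄ = 0 := by
    have : ((W.map (Int.castRingHom ℚ))⁄Qb).a₄ = (W.a₄ : Qb) := by rw [← map_int_Qb]; rfl
    rw [this, w4, Int.cast_zero]
  have c6 : ((W.map (Int.castRingHom ℚ))⁄Qb).a₆ = 0 := by
    have : ((W.map (Int.castRingHom ℚ))⁄Qb).a₆ = (W.a₆ : Qb) := by rw [← map_int_Qb]; rfl
    rw [this, w6, Int.cast_zero]
  have hdiv : ∀ (i : ℕ) (z : Qb) (c : ℤ), i ≤ 3 → (5 : ℤ) ∣ c → u ^ i * z = (c : Qb) →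
      A.valuation z ≤ 1 := by
    intro i z c hi hd hz
    obtain ⟨e, rfl⟩ := hd
    have h1 : z = u ^ (3 - i) * (e : Qb) := by
      apply mul_left_cancel₀ (pow_ne_zero i hu0)
      rw [hz, ← mul_assoc, ← pow_add, Nat.add_sub_cancel' hi, hu]
      push_cast
      rfl
    rw [h1, map_mul, map_pow]
    exact mul_le_one' (pow_le_one' hvu.le _) (Fermat.Agent.H09.val_intCast_le_one A e)
  have hVint : IsIntegralFor A.valuation V := by
    refine ⟨?_, ?_, ?_, ?_, ?_⟩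
    · refine hdiv 1 _ _ (by norm_num) d₁ ?_
      have := vc_a₁ hV
      rw [c1] at this
      rw [pow_one]
      simpa [Cv] using this
    · refine hdiv 2 _ _ (by norm_num) d₂ ?_
      have := vc_a₂ hV
      rw [c1, c2] at this
      simpa [Cv] using this
    · refine hdiv 3 _ _ (by norm_num) d₃ ?_
      have := vc_a₃ hV
      rw [c1, c3] at this
      simpa [Cv] using this
    · have := vc_a₄ hV
      rw [c1, c2, c3, c4] at this
      have h1 : u ^ 4 * V.a₄ = 0 := by simpa [Cv] using this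
      have h2 := (mul_eq_zero.mp h1).resolve_left (pow_ne_zero 4 hu0)
      rw [h2, _root_.map_zero]; exact zero_le_one
    · have := vc_a₆ hV
      rw [c1, c2, c3, c4, c6] at this
      have h1 : u ^ 6 * V.a₆ = 0 := by simpa [Cv] using this
      have h2 := (mul_eq_zero.mp h1).resolve_left (pow_ne_zero 6 hu0)
      rw [h2, _root_.map_zero]; exact zero_le_one
  obtain ⟨R', hR'⟩ := (vcEquiv hV).surjective R
  have hR'0 : R' ≠ 0 := by
    rintro rfl
    rw [_root_.map_zero] at hR'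
    exact hR0 hR'.symm
  have hpR' : 5 • R' = 0 := by
    apply (vcEquiv hV).injective
    rw [map_nsmul, hR', hR, _root_.map_zero]
  have hpx : px R = u ^ 2 * px R' := by
    rw [← hR', vcEquiv_apply, px_vcFun hV hR'0]
    change u ^ 2 * px R' + 0 = _
    ring
  rw [hpx, map_mul, map_pow]
  by_contra hcon
  rw [not_lt] at hcon
  set w := A.valuation u with hw
  set x := A.valuation (px R') with hx
  have hx1 : 1 < x := by
    by_contra hx1
    rw [not_lt] at hx1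
    have h2 : w ^ 2 * x < 1 := mul_lt_one_of_lt_of_le (pow_lt_one₀ zero_le hvu two_ne_zero) hx1
    exact absurd h2 (not_lt.mpr hcon)
  have h3 := CuspTors.val_le hVint h5 (by norm_num) hA hx1 hpR'
  have e5 : A.valuation ((5 : ℕ) : Qb) = w ^ 3 := by rw [hvu3]; norm_num
  rw [e5, ← hx] at h3
  have h4 : 1 ≤ (w ^ 2 * x) ^ 2 := one_le_pow₀ hcon
  have h5' : (w ^ 2 * x) ^ 2 = w * (w ^ 3 * x ^ ((5 - 1) / 2)) := by
    rw [mul_pow, ← pow_mul, ← mul_assoc, ← pow_succ']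
  have h6 : (w ^ 2 * x) ^ 2 < 1 := by
    rw [h5']
    exact mul_lt_one_of_lt_of_le hvu h3
  exact absurd h6 (not_lt.mpr h4)

end Fermat.Agent.Cor.Ord15
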