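import Mathlib
import Fermat.Agent.Cor.Eleven

set_option autoImplicit false

/-!
# The first multiples of the point `(0, 0)` on a curve in Tate form

This file is not used by any of the statement files.
-/

namespace Fermat.Agent.Cor.Ord15

open WeierstrassCurve WeierstrassCurve.Affine WeierstrassCurve.Affine.Point
open Fermat.Agent.H08
open Fermat.Agent.Cor.Eleven (add_step double_zero)

variable {F : Type*} [Field F] [DecidableEq F] {V : WeierstrassCurve.Affine F}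

omit [DecidableEq F] in
theorem aux1 {b c d : F} (hb : b ≠ 0) (hd : d ≠ 0) :
    (-(c / b) - b ^ 2 / d) * (c * d / b ^ 2) = -(c * d / b ^ 2) * (c / b) - c := by
  field_simp

omit [DecidableEq F] in
theorem aux2 {a b c d : F} (hb : b ≠ 0) (hd : d ≠ 0) (hc : c = d + a * b) :
    b * (b ^ 3 + c * d) / d ^ 2 =
      (-(c / b) - b ^ 2 / d) ^ 2 + a * (-(c / b) - b ^ 2 / d) - b - c * d / b ^ 2 := by
  subst hc
  field_simp
  ring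

theorem mult (h4 : V.a₄ = 0) {h : V.Nonsingular 0 0}
    (hP2 : 2 • (Point.some 0 0 h : V.Point) ≠ 0) (hP3 : 3 • (Point.some 0 0 h : V.Point) ≠ 0)
    (hP4 : 4 • (Point.some 0 0 h : V.Point) ≠ 0) :
    V.a₂ ≠ 0 ∧ V.a₃ ≠ 0 ∧ V.a₃ - V.a₁ * V.a₂ ≠ 0 ∧
      px (2 • (Point.some 0 0 h : V.Point)) = -V.a₂ ∧
      px (3 • (Point.some 0 0 h : V.Point)) = V.a₃ * (V.a₃ - V.a₁ * V.a₂) / V.a₂ ^ 2 ∧
      px (4 • (Point.some 0 0 h : V.Point)) =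
        V.a₂ * (V.a₂ ^ 3 + V.a₃ * (V.a₃ - V.a₁ * V.a₂)) / (V.a₃ - V.a₁ * V.a₂) ^ 2 := by
  set P : V.Point := Point.some 0 0 h with hPdef
  have hP0 : P ≠ 0 := some_ne_zero h
  have h3 : V.a₃ ≠ 0 := by
    intro h3
    apply hP2
    rw [two_nsmul]
    apply add_self_of_Y_eq
    rw [negY, h3]; ring
  obtain ⟨n2, e2⟩ := double_zero h4 h3 h
  have hx2 : px (2 • P) = -V.a₂ := by rw [e2, px_some]
  have ha2 : V.a₂ ≠ 0 := by
    intro h0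
    have h5 : px (2 • P) = px P := by
      rw [hx2, h0, hPdef, px_some]; exact _root_.neg_zero
    rcases (px_eq_iff hP2 hP0).mp h5 with h6 | h6
    · rw [two_nsmul] at h6
      exact hP0 (add_eq_left.mp h6)
    · apply hP3
      rw [succ_nsmul, h6, neg_add_cancel]
  obtain ⟨n3, e3⟩ := add_step (V := V) (m := (V.a₃ - V.a₁ * V.a₂) / V.a₂)
    (x₃ := V.a₃ * (V.a₃ - V.a₁ * V.a₂) / V.a₂ ^ 2)
    (y₃ := -(V.a₃ * (V.a₃ - V.a₁ * V.a₂) / V.a₂ ^ 2) * (V.a₃ / V.a₂) - V.a₃) n2 h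
    (neg_ne_zero.mpr ha2) (by field_simp; ring) (by field_simp; ring) (by field_simp; ring)
  have s3 : 3 • P = Point.some _ _ n3 := by rw [succ_nsmul, e2, e3]
  have hx3 : px (3 • P) = V.a₃ * (V.a₃ - V.a₁ * V.a₂) / V.a₂ ^ 2 := by rw [s3, px_some]
  have hd : V.a₃ - V.a₁ * V.a₂ ≠ 0 := by
    intro h0
    have h5 : px (3 • P) = px P := by
      rw [hx3, h0, hPdef, px_some, mul_zero, zero_div]
    rcases (px_eq_iff hP3 hP0).mp h5 with h6 | h6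
    · rw [succ_nsmul] at h6
      exact hP2 (add_eq_right.mp h6)
    · apply hP4
      rw [succ_nsmul, h6, neg_add_cancel]
  have hx30 : V.a₃ * (V.a₃ - V.a₁ * V.a₂) / V.a₂ ^ 2 ≠ 0 :=
    div_ne_zero (mul_ne_zero h3 hd) (pow_ne_zero 2 ha2)
  obtain ⟨n4, e4⟩ := add_step (V := V)
    (m := -(V.a₃ / V.a₂) - V.a₂ ^ 2 / (V.a₃ - V.a₁ * V.a₂))
    (x₃ := V.a₂ * (V.a₂ ^ 3 + V.a₃ * (V.a₃ - V.a₁ * V.a₂)) / (V.a₃ - V.a₁ * V.a₂) ^ 2)
    (y₃ := -((-(V.a₃ / V.a₂) - V.a₂ ^ 2 / (V.a₃ - V.a₁ * V.a₂)) *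
      (V.a₂ * (V.a₂ ^ 3 + V.a₃ * (V.a₃ - V.a₁ * V.a₂)) / (V.a₃ - V.a₁ * V.a₂) ^ 2)) -
      V.a₁ * (V.a₂ * (V.a₂ ^ 3 + V.a₃ * (V.a₃ - V.a₁ * V.a₂)) / (V.a₃ - V.a₁ * V.a₂) ^ 2) -
      V.a₃) n3 h hx30 (aux1 ha2 hd) (aux2 ha2 hd (by ring)) rfl
  have s4 : 4 • P = Point.some _ _ n4 := by rw [succ_nsmul, s3, e4]
  exact ⟨ha2, h3, hd, hx2, hx3, by rw [s4, px_some]⟩

end Fermat.Agent.Cor.Ord15
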