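import Mathlib
import Fermat.Agent.Cor.TateForm

/-!
# The Tate normal form of a rational point, general order

The version of `TateForm.exists_tate` for a point `P` with `2 P ≠ 0`.

This file is not used by any of the statement files.
-/

set_option autoImplicit false

namespace Fermat.Agent.Cor.TateForm

open WeierstrassCurve WeierstrassCurve.Affine WeierstrassCurve.Affine.Point
open Fermat.Agent.H08 Fermat.Agent.Frob

/-- the Tate normal form over `ℤ` with the isomorphism of groups -/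
theorem exists_tate_equiv {E : WeierstrassCurve ℚ} (hΔ : E.Δ ≠ 0)
    {P : E.toAffine.Point} (h2 : (2 : ℕ) • P ≠ 0) :
    ∃ a b c : ℤ, (⟨a, b, c, 0, 0⟩ : WeierstrassCurve ℤ).Δ ≠ 0 ∧
      (∀ ℓ : ℕ, ℓ.Prime → ¬ ((ℓ : ℤ) ∣ a ∧ (ℓ : ℤ) ^ 2 ∣ b ∧ (ℓ : ℤ) ^ 3 ∣ c)) ∧
      ∃ (h : ((⟨a, b, c, 0, 0⟩ : WeierstrassCurve ℤ).map (Int.castRingHom ℚ)).toAffine.Nonsingular
        0 0) (e : ((⟨a, b, c, 0, 0⟩ : WeierstrassCurve ℤ).map
          (Int.castRingHom ℚ)).toAffine.Point ≃+ E.toAffine.Point), e (Point.some 0 0 h) = P := by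
  obtain ⟨C₁, x, y, hxy, rfl, hu, hr, ht, h₃, h₄, h₆⟩ := exists_change h2
  obtain ⟨a, b, c, d, hd, ha, hb, hc, hprim⟩ :=
    exists_primitive (C₁ • E).a₁ (C₁ • E).a₂ h₃
  let C₂ : VariableChange ℚ := ⟨(Units.mk0 d hd)⁻¹, 0, 0, 0⟩
  have hC₂ : ((⟨a, b, c, 0, 0⟩ : WeierstrassCurve ℤ).map (Int.castRingHom ℚ)) =
      C₂ • (C₁ • E) := by
    ext
    · rw [variableChange_a₁]
      simp [C₂, ha]
    · rw [variableChange_a₂]
      simp [C₂, hb]
    · rw [variableChange_a₃]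
      simp [C₂, hc]
    · rw [variableChange_a₄, h₄]
      simp [C₂]
    · rw [variableChange_a₆, h₆, h₄]
      simp [C₂]
  refine ⟨a, b, c, ?_, hprim, ?_⟩
  · intro h0
    have h1 := congrArg WeierstrassCurve.Δ hC₂
    rw [map_Δ, h0, _root_.map_zero, variableChange_Δ, variableChange_Δ] at h1
    have h3 := mul_ne_zero (pow_ne_zero 12 (C₂.u⁻¹).ne_zero)
      (mul_ne_zero (pow_ne_zero 12 (C₁.u⁻¹).ne_zero) hΔ)
    exact h3 h1.symm
  · have e1 : vx C₁ 0 = x := by rw [vx, hr]; ring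
    have e2 : vy C₁ 0 0 = y := by rw [vy, ht]; ring
    have n1 : (C₁ • E).toAffine.Nonsingular 0 0 := by
      rw [← vc_nonsingular (C := C₁) (W := E.toAffine) (W' := (C₁ • E).toAffine) rfl 0 0, e1, e2]
      exact hxy
    have f1 : vx C₂ 0 = 0 := by rw [vx]; simp [C₂]
    have f2 : vy C₂ 0 0 = 0 := by rw [vy]; simp [C₂]
    have n2 : ((⟨a, b, c, 0, 0⟩ : WeierstrassCurve ℤ).map
        (Int.castRingHom ℚ)).toAffine.Nonsingular 0 0 := by
      rw [← vc_nonsingular (C := C₂) (W := (C₁ • E).toAffine)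
        (W' := ((⟨a, b, c, 0, 0⟩ : WeierstrassCurve ℤ).map (Int.castRingHom ℚ)).toAffine) hC₂ 0 0,
        f1, f2]
      exact n1
    have g1 : vcFun (C := C₁) (W := E.toAffine) (W' := (C₁ • E).toAffine) rfl
        (Point.some 0 0 n1) = Point.some x y hxy := by
      rw [vcFun_some]
      simp only [some.injEq]
      exact ⟨e1, e2⟩
    have g2 : vcFun (C := C₂) (W := (C₁ • E).toAffine)
        (W' := ((⟨a, b, c, 0, 0⟩ : WeierstrassCurve ℤ).map (Int.castRingHom ℚ)).toAffine) hC₂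
        (Point.some 0 0 n2) = Point.some 0 0 n1 := by
      rw [vcFun_some]
      simp only [some.injEq]
      exact ⟨f1, f2⟩
    refine ⟨n2, (vcEquiv (C := C₂) (W := (C₁ • E).toAffine)
      (W' := ((⟨a, b, c, 0, 0⟩ : WeierstrassCurve ℤ).map (Int.castRingHom ℚ)).toAffine)
      hC₂).trans (vcEquiv (C := C₁) (W := E.toAffine) (W' := (C₁ • E).toAffine) rfl), ?_⟩
    rw [AddEquiv.trans_apply, vcEquiv_apply, vcEquiv_apply, g2, g1]

/-- **The Tate normal form over `ℤ`** of a rational point `P` with `2 P ≠ 0`. -/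
theorem exists_tate_of_two {E : WeierstrassCurve ℚ} (hΔ : E.Δ ≠ 0)
    {P : E.toAffine.Point} (h2 : (2 : ℕ) • P ≠ 0) :
    ∃ a b c : ℤ, (⟨a, b, c, 0, 0⟩ : WeierstrassCurve ℤ).Δ ≠ 0 ∧
      (∀ ℓ : ℕ, ℓ.Prime → ¬ ((ℓ : ℤ) ∣ a ∧ (ℓ : ℤ) ^ 2 ∣ b ∧ (ℓ : ℤ) ^ 3 ∣ c)) ∧
      ∃ h : ((⟨a, b, c, 0, 0⟩ : WeierstrassCurve ℤ).map (Int.castRingHom ℚ)).toAffine.Nonsingular
        0 0, ∀ n : ℕ, n • (Point.some 0 0 h :
          ((⟨a, b, c, 0, 0⟩ : WeierstrassCurve ℤ).map (Int.castRingHom ℚ)).toAffine.Point) = 0 ↔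
          n • P = 0 := by
  obtain ⟨a, b, c, hΔ', hprim, h, e, he⟩ := exists_tate_equiv hΔ h2
  refine ⟨a, b, c, hΔ', hprim, h, fun n => ?_⟩
  rw [← he, ← map_nsmul, map_eq_zero_iff e e.injective]

end Fermat.Agent.Cor.TateForm
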