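import Mathlib
import Fermat.Agent.Cor.Ord15Cusp
import Fermat.Agent.Cor.Ord15Mult
import Fermat.Agent.Cor.TateForm2
import Fermat.Agent.S51

set_option autoImplicit false

/-!
# Elliptic curves over `ℚ` have no rational point of order `15`

Let `P` be a rational point of order `15`. In the primitive Tate form of `(E, P)` the reduction at
no prime is cuspidal, so `E` is semistable. Then `E[3]` and `E[5]` are both reducible, which is
impossible for semistable elliptic curves over `ℚ` (S51).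

This file is not used by any of the statement files.
-/

namespace Fermat.Agent.Cor.Ord15

open WeierstrassCurve WeierstrassCurve.Affine WeierstrassCurve.Affine.Point
open Fermat.Agent.H08 Fermat.Agent.H05 Fermat.Agent.H09
open Fermat.Agent.Ell (WQ Pts)
open Fermat.Agent.EGal (VV)
open Fermat.Agent.Cor.Mazur (toQb toQb_some toQb_injective smul_toQb card_torsion_WQ)
open Fermat.Agent.Cor.MazurTorsion (dvd_of_val_lt_one exists_cusp analysis)

local notation "Qb" => AlgebraicClosure ℚ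
local notation "GQ" => AlgebraicClosure ℚ ≃ₐ[ℚ] AlgebraicClosure ℚ

theorem px_toQb (V : WeierstrassCurve.Affine ℚ) (Q : V.Point) :
    ∃ x : ℚ, px (toQb V Q) = (x : Qb) := by
  rcases Q with _ | ⟨x, y, h⟩
  · refine ⟨0, ?_⟩
    change px (toQb V 0) = _
    rw [_root_.map_zero, Rat.cast_zero]
    rfl
  · obtain ⟨h', e⟩ := toQb_some V h
    exact ⟨x, by rw [e, px_some]⟩

/-- **A primitive Tate form with a point of order `15` is semistable.** -/
theorem isSemistableModel_of_fifteen {W : WeierstrassCurve ℤ} (w4 : W.a₄ = 0)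
    (w6 : W.a₆ = 0)
    (hprim : ∀ ℓ : ℕ, ℓ.Prime → ¬ ((ℓ : ℤ) ∣ W.a₁ ∧ (ℓ : ℤ) ^ 2 ∣ W.a₂ ∧ (ℓ : ℤ) ^ 3 ∣ W.a₃))
    {h : (W.map (Int.castRingHom ℚ)).toAffine.Nonsingular 0 0}
    (hord : addOrderOf (Point.some 0 0 h : (W.map (Int.castRingHom ℚ)).toAffine.Point) = 15) :
    W.IsSemistableModel := by
  intro ℓ hℓ hℓΔ hℓc
  obtain ⟨r, s, t, h1, h2, h3, h4, h6⟩ := exists_cusp hℓ hℓΔ hℓc
  obtain ⟨A, hA⟩ := exists_liesOverPrime Qb hℓ
  obtain ⟨h', e⟩ := toQb_some _ h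
  have hh : ((W.map (Int.castRingHom ℚ))⁄Qb).Nonsingular 0 0 := by
    have := h'
    rwa [Rat.cast_zero] at this
  have e' : toQb _ (Point.some 0 0 h) = Point.some 0 0 hh := by
    rw [e]
    congr 1 <;> exact Rat.cast_zero
  have hordP : addOrderOf (Point.some 0 0 hh : ((W.map (Int.castRingHom ℚ))⁄Qb).Point) = 15 := by
    rw [← e', addOrderOf_injective _ (toQb_injective _), hord]
  have hne : ∀ m : ℕ, ¬ 15 ∣ m →
      m • (Point.some 0 0 hh : ((W.map (Int.castRingHom ℚ))⁄Qb).Point) ≠ 0 := by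
    intro m hm h0
    apply hm
    rw [← hordP]
    exact addOrderOf_dvd_of_nsmul_eq_zero h0
  have hzero : ∀ m : ℕ, 15 ∣ m →
      m • (Point.some 0 0 hh : ((W.map (Int.castRingHom ℚ))⁄Qb).Point) = 0 := by
    intro m hm
    rw [← hordP] at hm
    exact addOrderOf_dvd_iff_nsmul_eq_zero.mp hm
  have hrat : ∀ m : ℕ, ∃ x : ℚ,
      px (m • (Point.some 0 0 hh : ((W.map (Int.castRingHom ℚ))⁄Qb).Point)) = (x : Qb) := by
    intro m
    rw [← e', ← map_nsmul]
    exact px_toQb _ _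
  have ha1 : ((W.map (Int.castRingHom ℚ))⁄Qb).a₁ = (W.a₁ : Qb) := by
    rw [← map_int_Qb, WeierstrassCurve.map_a₁, Int.coe_castRingHom]
  have ha2 : ((W.map (Int.castRingHom ℚ))⁄Qb).a₂ = (W.a₂ : Qb) := by
    rw [← map_int_Qb, WeierstrassCurve.map_a₂, Int.coe_castRingHom]
  have ha3 : ((W.map (Int.castRingHom ℚ))⁄Qb).a₃ = (W.a₃ : Qb) := by
    rw [← map_int_Qb, WeierstrassCurve.map_a₃, Int.coe_castRingHom]
  have ha4 : ((W.map (Int.castRingHom ℚ))⁄Qb).a₄ = 0 := by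
    rw [← map_int_Qb, WeierstrassCurve.map_a₄, Int.coe_castRingHom, w4]
    exact Int.cast_zero
  obtain ⟨hb0, hc0, hd0, e2, e3, e4⟩ := mult ha4 (h := hh) (hne 2 (by norm_num))
    (hne 3 (by norm_num)) (hne 4 (by norm_num))
  rw [ha2] at hb0 e2
  rw [ha1, ha2, ha3] at hd0 e3 e4
  have hm : ∀ m : ℕ, 1 ≤ m → m ≤ 4 → (m ≠ 3 ∨ ℓ ≠ 5) →
      A.valuation (px (m • (Point.some 0 0 hh : ((W.map (Int.castRingHom ℚ))⁄Qb).Point)) -
        (r : Qb)) < 1 := by
    intro m hm1 hm4 hm35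
    by_contra hcon
    by_cases hcase : m ≠ 3 ∧ ℓ ≠ 3
    · obtain ⟨x, hx⟩ := hrat (5 * m)
      have e5 : 5 • (m • (Point.some 0 0 hh : ((W.map (Int.castRingHom ℚ))⁄Qb).Point)) =
          (5 * m) • (Point.some 0 0 hh : ((W.map (Int.castRingHom ℚ))⁄Qb).Point) := by
        rw [mul_nsmul']
      have hne5 : 5 • (m • (Point.some 0 0 hh : ((W.map (Int.castRingHom ℚ))⁄Qb).Point)) ≠ 0 := by
        rw [e5]; exact hne _ (by omega)
      refine nsmul_not_lt hℓ h1 h2 h3 h4 h6 hA hcon 5 (x := x) (by rw [e5, hx]) hne5 ?_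
      refine CuspTors.val_sub_lt_one hℓ (p := 3) (by norm_num) (Or.inl hcase.2) h1 h2 h3 h4 h6 hA
        hne5 ?_
      rw [e5, ← mul_nsmul']
      exact hzero _ (by omega)
    · have hℓ5 : ℓ ≠ 5 := by
        rcases hm35 with h5 | h5
        · intro h7
          exact hcase ⟨h5, by omega⟩
        · exact h5
      obtain ⟨x, hx⟩ := hrat (3 * m)
      have e5 : 3 • (m • (Point.some 0 0 hh : ((W.map (Int.castRingHom ℚ))⁄Qb).Point)) =
          (3 * m) • (Point.some 0 0 hh : ((W.map (Int.castRingHom ℚ))⁄Qb).Point) := by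
        rw [mul_nsmul']
      have hne5 : 3 • (m • (Point.some 0 0 hh : ((W.map (Int.castRingHom ℚ))⁄Qb).Point)) ≠ 0 := by
        rw [e5]; exact hne _ (by omega)
      refine nsmul_not_lt hℓ h1 h2 h3 h4 h6 hA hcon 3 (x := x) (by rw [e5, hx]) hne5 ?_
      refine CuspTors.val_sub_lt_one hℓ (p := 5) (by norm_num) (Or.inl hℓ5) h1 h2 h3 h4 h6 hA
        hne5 ?_
      rw [e5, ← mul_nsmul']
      exact hzero _ (by omega)
  have hr : (ℓ : ℤ) ∣ r := by
    have h5 := hm 1 le_rfl (by norm_num) (Or.inl (by norm_num))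
    rw [one_smul, px_some, zero_sub, Valuation.map_neg] at h5
    exact dvd_of_val_lt_one hℓ hA h5
  have hrv : A.valuation (r : Qb) < 1 := Fermat.Agent.H09.val_intCast_lt_one hA hr
  have hm' : ∀ m : ℕ, 1 ≤ m → m ≤ 4 → (m ≠ 3 ∨ ℓ ≠ 5) →
      A.valuation (px (m • (Point.some 0 0 hh : ((W.map (Int.castRingHom ℚ))⁄Qb).Point))) < 1 := by
    intro m hm1 hm4 hm35
    have h5 := A.valuation.map_add_lt (hm m hm1 hm4 hm35) hrv
    rwa [sub_add_cancel] at h5
  have hb : (ℓ : ℤ) ∣ W.a₂ := by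
    have h5 := hm' 2 (by norm_num) (by norm_num) (Or.inl (by norm_num))
    rw [e2, Valuation.map_neg] at h5
    exact dvd_of_val_lt_one hℓ hA h5
  have hpℓ : Prime (ℓ : ℤ) := Nat.prime_iff_prime_int.mp hℓ
  obtain ⟨r', rfl⟩ := hr
  have hb2 := hb
  obtain ⟨b', hb'⟩ := hb2
  have hs : (ℓ : ℤ) ∣ s := by
    obtain ⟨k1, hk1⟩ := h1
    obtain ⟨k2, hk2⟩ := h2
    apply hpℓ.dvd_of_dvd_pow (n := 2)
    refine ⟨k2 + s * k1 - b' - 3 * r', ?_⟩
    linear_combination hk2 + s * hk1 - hb'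
  have ha : (ℓ : ℤ) ∣ W.a₁ := by
    have h5 : (ℓ : ℤ) ∣ 2 * s := Dvd.dvd.mul_left hs 2
    exact (dvd_add_left h5).mp h1
  have ht : (ℓ : ℤ) ∣ t := by
    obtain ⟨k3, hk3⟩ := h3
    obtain ⟨k6, hk6⟩ := h6
    rw [w4, w6] at hk6
    apply hpℓ.dvd_of_dvd_pow (n := 2)
    refine ⟨k6 + t * k3 - ℓ * r' ^ 2 * W.a₂ - ℓ ^ 2 * r' ^ 3, ?_⟩
    linear_combination hk6 + t * hk3
  have hc : (ℓ : ℤ) ∣ W.a₃ := by
    have h5 : (ℓ : ℤ) ∣ 2 * t := Dvd.dvd.mul_left ht 2
    have h6' : (ℓ : ℤ) ∣ ℓ * r' * W.a₁ := ⟨r' * W.a₁, by ring⟩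
    have h7 : (ℓ : ℤ) ∣ W.a₃ + ℓ * r' * W.a₁ := (dvd_add_left h5).mp h3
    exact (dvd_add_left h6').mp h7
  have h3lt : A.valuation (px (3 • (Point.some 0 0 hh :
      ((W.map (Int.castRingHom ℚ))⁄Qb).Point))) < 1 := by
    by_cases hℓ5 : ℓ = 5
    · subst hℓ5
      refine val_px_lt_one_five w4 w6 (by exact_mod_cast ha) (by exact_mod_cast hb)
        (by exact_mod_cast hc) hA (hne 3 (by norm_num)) ?_
      rw [← mul_nsmul']
      exact hzero _ (by norm_num)
    · exact hm' 3 (by norm_num) (by norm_num) (Or.inr hℓ5)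
  refine analysis hℓ hA (hprim ℓ hℓ) ha hb ?_ ?_ ?_ ?_
  · intro h0
    apply hb0
    rw [h0, Int.cast_zero]
  · intro h0
    apply hd0
    have := congrArg (fun z : ℤ => (z : Qb)) h0
    push_cast at this
    exact this
  · rw [← e3]; exact h3lt
  · rw [← e4]; exact hm' 4 (by norm_num) (by norm_num) (Or.inl (by norm_num))

/-- rational points of order `q` make `W[q]` reducible -/
theorem eq_zero_of_irreducible {W : WeierstrassCurve ℤ} (hΔ : W.Δ ≠ 0) {q : ℕ} (hq : q.Prime)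
    (hirr : W.ModRepIsIrreducible q) {Q : (W.map (Int.castRingHom ℚ)).toAffine.Point}
    (hQ : q • Q = 0) : Q = 0 := by
  by_contra hQ0
  have hfact : Fact q.Prime := ⟨hq⟩
  obtain ⟨-, hirr⟩ := hirr
  set P : Pts (WQ W) := toQb _ Q with hP
  have hP0 : P ≠ 0 := fun h => hQ0 (toQb_injective _ (h.trans (_root_.map_zero _).symm))
  have hqP : q • P = 0 := by rw [hP, ← map_nsmul, hQ, _root_.map_zero]
  have hfix : ∀ σ : GQ, σ • P = P := fun σ => smul_toQb _ σ Q
  let N : Submodule (ZMod q) (VV (WQ W) q) :=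
    AddSubgroup.toZModSubmodule q ((AddSubgroup.zmultiples P).comap
      (Submodule.subtype _).toAddMonoidHom)
  have hNst : IsGaloisStable ℚ N := by
    intro σ x hx
    obtain ⟨n, hn⟩ := AddSubgroup.mem_zmultiples_iff.mp (show (x : Pts (WQ W)) ∈ _ from hx)
    refine AddSubgroup.mem_zmultiples_iff.mpr ⟨n, ?_⟩
    have e : σ • (n • P) = n • (σ • P) :=
      (DistribSMul.toAddMonoidHom (Pts (WQ W)) σ).map_zsmul n P
    change n • P = σ • (x : Pts (WQ W))
    rw [← hn, e, hfix σ]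
  rcases hirr N hNst with h | h
  · apply hP0
    have h1 : (⟨P, mem_torsion_iff.mpr hqP⟩ : VV (WQ W) q) ∈ N := AddSubgroup.mem_zmultiples P
    rw [h, Submodule.mem_bot] at h1
    exact congrArg Subtype.val h1
  · have hle : ∀ x : Pts (WQ W), q • x = 0 → x ∈ AddSubgroup.zmultiples P := by
      intro x hx
      have h1 : (⟨x, mem_torsion_iff.mpr hx⟩ : VV (WQ W) q) ∈ N := by rw [h]; trivial
      exact h1
    have hcard := card_torsion_WQ (W := W) hΔ hq.ne_zero
    have hcC : Nat.card (AddSubgroup.zmultiples P) = q := by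
      rw [Nat.card_zmultiples, addOrderOf_eq_prime hqP hP0]
    have hfin : Finite (AddSubgroup.zmultiples P) :=
      Nat.finite_of_card_ne_zero (by rw [hcC]; exact hq.ne_zero)
    have hinj : Nat.card {P : Pts (WQ W) // q • P = 0} ≤ Nat.card (AddSubgroup.zmultiples P) :=
      Nat.card_le_card_of_injective
        (fun R => (⟨R.1, hle R.1 R.2⟩ : AddSubgroup.zmultiples P))
        (fun R R' hRR => Subtype.ext
          (congrArg (fun z : AddSubgroup.zmultiples P => (z : Pts (WQ W))) hRR))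
    rw [hcard, hcC] at hinj
    nlinarith [hq.one_lt]

/-- **No rational point of order `15`.** -/
theorem addOrderOf_ne_fifteen {E : WeierstrassCurve ℚ} (hΔ : E.Δ ≠ 0) (P : E.toAffine.Point) :
    addOrderOf P ≠ 15 := by
  intro hord
  have hne : ∀ m : ℕ, ¬ 15 ∣ m → m • P ≠ 0 := by
    intro m hm h0
    apply hm
    rw [← hord]
    exact addOrderOf_dvd_of_nsmul_eq_zero h0
  obtain ⟨a, b, c, hΔ', hprim, h, hn⟩ := TateForm.exists_tate_of_two hΔ (hne 2 (by norm_num))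
  have hord' : addOrderOf (Point.some 0 0 h :
      ((⟨a, b, c, 0, 0⟩ : WeierstrassCurve ℤ).map (Int.castRingHom ℚ)).toAffine.Point) = 15 := by
    rw [← hord]
    exact addOrderOf_eq_addOrderOf_iff.mpr hn
  have hss := isSemistableModel_of_fifteen rfl rfl hprim hord'
  rcases Fermat.Agent.S51.result _ hΔ' hss with h3 | h5
  · have h1 := eq_zero_of_irreducible hΔ' (by norm_num) h3 (Q := 5 • Point.some 0 0 h) (by
      rw [← mul_nsmul', hn]
      exact addOrderOf_dvd_iff_nsmul_eq_zero.mp (by rw [hord]))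
    rw [hn] at h1
    exact hne 5 (by norm_num) h1
  · have h1 := eq_zero_of_irreducible hΔ' (by norm_num) h5 (Q := 3 • Point.some 0 0 h) (by
      rw [← mul_nsmul', hn]
      exact addOrderOf_dvd_iff_nsmul_eq_zero.mp (by rw [hord]))
    rw [hn] at h1
    exact hne 3 (by norm_num) h1

end Fermat.Agent.Cor.Ord15
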