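import Fermat.Agent.Cor.Ord16
import Fermat.Agent.H23.K1.Main

/-!
# No elliptic curve over `ℚ` has a rational point of order `20` or a torsion subgroup `ℤ/2 × ℤ/10`

A curve with full rational `2`-torsion has square discriminant, hence no rational isogeny of degree `5`
(`Fermat.Agent.H23.K1.irreducible_five`). If `E` has a rational point of order `4`, the quotient of `E` by the point
of order `2` has full rational `2`-torsion.

This file is not used by any of the statement files.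
-/

set_option autoImplicit false

namespace Fermat.Agent.Cor.Ord20

open WeierstrassCurve WeierstrassCurve.Affine WeierstrassCurve.Affine.Point Fermat.Agent.H51
open Fermat.Agent.Cor.Seven Fermat.Agent.Cor.Ord16

/-- The duplication formulas for two points `P`, `2 P` with `4 P = - P` give the relations of a subgroup of order
five. -/
theorem rel_of_dup {b2 b4 b6 b8 x y : ℚ} (hxy : x ≠ y)
    (h1 : y * (4 * x ^ 3 + b2 * x ^ 2 + 2 * b4 * x + b6) = x ^ 4 - b4 * x ^ 2 - 2 * b6 * x - b8)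
    (h2 : x * (4 * y ^ 3 + b2 * y ^ 2 + 2 * b4 * y + b6) = y ^ 4 - b4 * y ^ 2 - 2 * b6 * y - b8) :
    (x + y) * ((x + y) ^ 2 - 4 * (x * y)) =
        2 * (x * y) * (x + y) + b2 * (x * y) + b4 * (x + y) + b6 ∧
      (x * y) * ((x + y) ^ 2 - 4 * (x * y)) =
        (x * y) ^ 2 - b4 * (x * y) - b6 * (x + y) - b8 := by
  have hd : x - y ≠ 0 := sub_ne_zero.2 hxy
  constructor
  · apply mul_left_cancel₀ hd
    linear_combination h2 - h1
  · apply mul_left_cancel₀ hd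
    linear_combination x * h2 - y * h1

/-- The quotient by the point of order two. -/
theorem dup_isog {α κ x y X Y : ℚ} (hx : x ≠ 0)
    (hX : x * X = x ^ 2 + α * x + κ) (hY : y * Y = y ^ 2 + α * y + κ)
    (h : 4 * x * y * (x ^ 2 + α * x + κ) = (x ^ 2 - κ) ^ 2) :
    Y * (4 * X ^ 3 + (-8 * α) * X ^ 2 + 2 * (2 * (α ^ 2 - 4 * κ)) * X + 0) =
      X ^ 4 - (2 * (α ^ 2 - 4 * κ)) * X ^ 2 - 2 * 0 * X - (-(α ^ 2 - 4 * κ) ^ 2) := by
  have hA : 4 * y * X = X ^ 2 - 2 * α * X + (α ^ 2 - 4 * κ) := by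
    have h3 : x ^ 2 * (4 * y * X) = x ^ 2 * (X ^ 2 - 2 * α * X + (α ^ 2 - 4 * κ)) := by
      have e : x ^ 2 * (X ^ 2 - 2 * α * X + (α ^ 2 - 4 * κ)) =
          (x * X) ^ 2 - 2 * α * x * (x * X) + x ^ 2 * (α ^ 2 - 4 * κ) := by ring
      have e' : x ^ 2 * (4 * y * X) = 4 * x * y * (x * X) := by ring
      rw [e, e', hX, h]
      ring
    exact mul_left_cancel₀ (pow_ne_zero 2 hx) h3
  linear_combination (16 * X ^ 2) * hY + (-4 * X * Y + 4 * y * X +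
    (X ^ 2 - 2 * α * X + (α ^ 2 - 4 * κ)) + 4 * α * X) * hA

theorem alg {α δ x y : ℚ} (hx : x ≠ 0) (hy : y ≠ 0) (hxy : x ≠ y) (hκ : x * y ≠ δ ^ 2)
    (h1 : 4 * x * y * (x ^ 2 + α * x + δ ^ 2) = (x ^ 2 - δ ^ 2) ^ 2)
    (h2 : 4 * x * y * (y ^ 2 + α * y + δ ^ 2) = (y ^ 2 - δ ^ 2) ^ 2) :
    16 * δ * (α ^ 2 - 4 * δ ^ 2) = 0 := by
  obtain ⟨X, hX⟩ : ∃ X, x * X = x ^ 2 + α * x + δ ^ 2 :=
    ⟨(x ^ 2 + α * x + δ ^ 2) / x, by field_simp⟩
  obtain ⟨Y, hY⟩ : ∃ Y, y * Y = y ^ 2 + α * y + δ ^ 2 :=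
    ⟨(y ^ 2 + α * y + δ ^ 2) / y, by field_simp⟩
  have e1 := dup_isog hx hX hY h1
  have e2 := dup_isog hy hY hX (by rw [← h2]; ring)
  have hne : X ≠ Y := by
    rintro rfl
    have h3 : (x - y) * (x * y - δ ^ 2) = 0 := by linear_combination x * hY - y * hX
    rcases mul_eq_zero.1 h3 with h4 | h4
    · exact hxy (sub_eq_zero.1 h4)
    · exact hκ (sub_eq_zero.1 h4)
  obtain ⟨r1, r2⟩ := rel_of_dup hne e1 e2
  let E' : WeierstrassCurve ℚ := ⟨0, -2 * α, 0, α ^ 2 - 4 * δ ^ 2, 0⟩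
  have hb2 : E'.b₂ = -8 * α := by
    simp only [E', WeierstrassCurve.b₂]
    ring
  have hb4 : E'.b₄ = 2 * (α ^ 2 - 4 * δ ^ 2) := by
    simp only [E', WeierstrassCurve.b₄]
    ring
  have hb6 : E'.b₆ = 0 := by
    simp only [E', WeierstrassCurve.b₆]
    ring
  have hb8 : E'.b₈ = -(α ^ 2 - 4 * δ ^ 2) ^ 2 := by
    simp only [E', WeierstrassCurve.b₈]
    ring
  refine Fermat.Agent.H23.K1.key E' (s := X + Y) (p := X * Y) ?_ ?_ ?_
  · rw [hb2, hb4, hb6]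
    exact r1
  · rw [hb4, hb6, hb8]
    exact r2
  · rw [WeierstrassCurve.Δ, hb2, hb4, hb6, hb8]
    ring

variable {E : WeierstrassCurve.Affine ℚ}

theorem disc_eq {t : ℚ} (ht : 4 * t ^ 3 + E.b₂ * t ^ 2 + 2 * E.b₄ * t + E.b₆ = 0) :
    E.Δ = 16 * (3 * t ^ 2 + E.b₂ / 2 * t + E.b₄ / 2) ^ 2 *
      ((3 * t + E.b₂ / 4) ^ 2 - 4 * (3 * t ^ 2 + E.b₂ / 2 * t + E.b₄ / 2)) := by
  have h8 : E.b₈ = (E.b₂ * E.b₆ - E.b₄ ^ 2) / 4 := by
    have := E.b_relation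
    linarith
  have h6 : E.b₆ = -(4 * t ^ 3 + E.b₂ * t ^ 2 + 2 * E.b₄ * t) := by linarith
  rw [WeierstrassCurve.Δ, h8, h6]
  ring

/-- **No elliptic curve over `ℚ` has a rational point of order `20`.** -/
theorem addOrderOf_ne_twenty (hΔ : E.Δ ≠ 0) (Q : E.Point) : addOrderOf Q ≠ 20 := by
  intro hQ
  have h20 : (20 : ℕ) • Q = 0 := by rw [← hQ]; exact addOrderOf_nsmul_eq_zero Q
  have hne : ∀ m : ℕ, ¬ 20 ∣ m → m • Q ≠ 0 := by
    intro m hm h0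
    rw [← hQ] at hm
    exact hm (addOrderOf_dvd_iff_nsmul_eq_zero.2 h0)
  have hdist : ∀ m n : ℕ, ¬ 20 ∣ m → ¬ 20 ∣ n → ¬ 20 ∣ m + n → m % 20 ≠ n % 20 →
      xc (m • Q) ≠ xc (n • Q) := by
    intro m n hm hn h1 h2 h3
    rcases (xc_eq_iff (hne m hm) (hne n hn)).1 h3 with h4 | h4
    · apply h2
      have := (nsmul_eq_nsmul_iff_modEq (x := Q) (m := n) (n := m)).1 h4
      rw [hQ] at this
      exact this
    · rw [eq_neg_iff_add_eq_zero, ← add_nsmul] at h4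
      exact hne (m + n) h1 h4
  have hneg : ∀ m n : ℕ, m + n = 20 → m • Q = -(n • Q) := by
    intro m n hmn
    rw [eq_neg_iff_add_eq_zero, ← add_nsmul, hmn]
    exact h20
  have e10 : (2 : ℕ) • ((5 : ℕ) • Q) = (10 : ℕ) • Q := by rw [← mul_nsmul]
  have e8 : (2 : ℕ) • ((4 : ℕ) • Q) = (8 : ℕ) • Q := by rw [← mul_nsmul]
  have e16 : (2 : ℕ) • ((8 : ℕ) • Q) = -((4 : ℕ) • Q) := by
    rw [← mul_nsmul]
    exact hneg 16 4 (by norm_num)
  have ht : 4 * xc ((10 : ℕ) • Q) ^ 3 + E.b₂ * xc ((10 : ℕ) • Q) ^ 2 +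
      2 * E.b₄ * xc ((10 : ℕ) • Q) + E.b₆ = 0 :=
    root_of_order_two (hne 10 (by norm_num)) (by rw [← mul_nsmul]; exact h20)
  have d5 := dup (S := (5 : ℕ) • Q) (hne 5 (by norm_num))
    (by rw [e10]; exact hne 10 (by norm_num)) ht
  have d4 := dup (S := (4 : ℕ) • Q) (hne 4 (by norm_num))
    (by rw [e8]; exact hne 8 (by norm_num)) ht
  have d8 := dup (S := (8 : ℕ) • Q) (hne 8 (by norm_num))
    (by rw [e16]; exact neg_ne_zero.2 (hne 4 (by norm_num))) ht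
  rw [e10, sub_self, zero_mul] at d5
  rw [e8] at d4
  rw [e16, xc_neg] at d8
  have n48 := hdist 4 8 (by norm_num) (by norm_num) (by norm_num) (by norm_num)
  have n410 := hdist 4 10 (by norm_num) (by norm_num) (by norm_num) (by norm_num)
  have n810 := hdist 8 10 (by norm_num) (by norm_num) (by norm_num) (by norm_num)
  have n86 := hdist 8 6 (by norm_num) (by norm_num) (by norm_num) (by norm_num)
  -- the translate of `4 Q` by the point of order two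
  have h6 : (xc ((6 : ℕ) • Q) - xc ((10 : ℕ) • Q)) * (xc ((4 : ℕ) • Q) - xc ((10 : ℕ) • Q)) =
      3 * xc ((10 : ℕ) • Q) ^ 2 + E.b₂ / 2 * xc ((10 : ℕ) • Q) + E.b₄ / 2 := by
    have h := xc_add_sub_sum (hne 4 (by norm_num)) (hne 10 (by norm_num)) n410
    have e1 : (4 : ℕ) • Q + (10 : ℕ) • Q = -((6 : ℕ) • Q) := by
      rw [← add_nsmul]
      exact hneg 14 6 (by norm_num)
    have e2 : (4 : ℕ) • Q - (10 : ℕ) • Q = -((6 : ℕ) • Q) := by
      rw [sub_eq_iff_eq_add, eq_neg_add_iff_add_eq, ← add_nsmul]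
    rw [e1, e2, xc_neg] at h
    have hd : 2 * (xc ((4 : ℕ) • Q) - xc ((10 : ℕ) • Q)) ≠ 0 :=
      mul_ne_zero (by norm_num) (sub_ne_zero.2 n410)
    apply mul_left_cancel₀ hd
    linear_combination h + ht
  rw [psi_eq ht] at d4 d8
  have hdisc := disc_eq ht
  generalize xc ((10 : ℕ) • Q) = t at *
  generalize xc ((4 : ℕ) • Q) = x4 at *
  generalize xc ((8 : ℕ) • Q) = x8 at *
  generalize xc ((6 : ℕ) • Q) = x6 at *
  generalize xc ((5 : ℕ) • Q) = x5 at *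
  have hκ : 3 * t ^ 2 + E.b₂ / 2 * t + E.b₄ / 2 = (x5 - t) ^ 2 := by
    have := pow_eq_zero_iff (n := 2) (by norm_num) |>.1 d5.symm
    linarith
  rw [hκ] at d4 d8 h6 hdisc
  have hx : x4 - t ≠ 0 := sub_ne_zero.2 n410
  have hy : x8 - t ≠ 0 := sub_ne_zero.2 n810
  have key := alg (α := 3 * t + E.b₂ / 4) (δ := x5 - t) hx hy (fun h => n48 (by linarith)) ?_
    (by linear_combination d4) (by linear_combination d8)
  · apply hΔ
    rw [hdisc]
    rcases mul_eq_zero.1 key with h3 | h3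
    · have h4 : x5 - t = 0 := by linarith
      rw [h4]
      ring
    · rw [h3, mul_zero]
  · intro h3
    rw [← h6] at h3
    apply n86
    have h4 : (x4 - t) * ((x8 - t) - (x6 - t)) = 0 := by linear_combination h3
    have h5 := (mul_eq_zero.1 h4).resolve_left hx
    linarith

/-- The discriminant of a curve with full rational `2`-torsion is a square. -/
theorem isSquare_disc {t₁ t₂ : ℚ} (h12 : t₁ ≠ t₂)
    (h1 : 4 * t₁ ^ 3 + E.b₂ * t₁ ^ 2 + 2 * E.b₄ * t₁ + E.b₆ = 0)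
    (h2 : 4 * t₂ ^ 3 + E.b₂ * t₂ ^ 2 + 2 * E.b₄ * t₂ + E.b₆ = 0) : ∃ δ : ℚ, E.Δ = δ ^ 2 := by
  obtain ⟨t₃, h3⟩ : ∃ t₃ : ℚ, E.b₂ = -4 * (t₁ + t₂ + t₃) := ⟨-E.b₂ / 4 - t₁ - t₂, by ring⟩
  have h4 : E.b₄ = 2 * (t₁ * t₂ + t₂ * t₃ + t₃ * t₁) := by
    have hd : 2 * (t₁ - t₂) ≠ 0 := mul_ne_zero (by norm_num) (sub_ne_zero.2 h12)
    apply mul_left_cancel₀ hd
    rw [h3] at h1 h2
    linear_combination h1 - h2
  have h6 : E.b₆ = -4 * (t₁ * t₂ * t₃) := by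
    rw [h3, h4] at h1
    linear_combination h1
  have h8 : E.b₈ = (E.b₂ * E.b₆ - E.b₄ ^ 2) / 4 := by
    have := E.b_relation
    linarith
  refine ⟨4 * (t₁ - t₂) * (t₂ - t₃) * (t₃ - t₁), ?_⟩
  rw [WeierstrassCurve.Δ, h8, h3, h4, h6]
  ring

/-- **An elliptic curve over `ℚ` with full rational `2`-torsion has irreducible `5`-torsion**; in particular its
torsion subgroup is not `ℤ/2 × ℤ/10`. -/
theorem irreducible_five_of_full (hΔ : E.Δ ≠ 0) {t₁ t₂ : ℚ} (h12 : t₁ ≠ t₂)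
    (h1 : 4 * t₁ ^ 3 + E.b₂ * t₁ ^ 2 + 2 * E.b₄ * t₁ + E.b₆ = 0)
    (h2 : 4 * t₂ ^ 3 + E.b₂ * t₂ ^ 2 + 2 * E.b₄ * t₂ + E.b₆ = 0) :
    GaloisRepIsIrreducible (K := AlgebraicClosure ℚ) ℚ E 5 := by
  obtain ⟨δ, hδ⟩ := isSquare_disc h12 h1 h2
  refine Fermat.Agent.H23.K1.irreducible_five E hδ ?_
  rintro rfl
  apply hΔ
  rw [hδ]
  norm_num

/-- An elliptic curve over `ℚ` with full rational `2`-torsion has no rational point of order `5`. -/
theorem addOrderOf_ne_five_of_full (hΔ : E.Δ ≠ 0) {t₁ t₂ : ℚ} (h12 : t₁ ≠ t₂)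
    (h1 : 4 * t₁ ^ 3 + E.b₂ * t₁ ^ 2 + 2 * E.b₄ * t₁ + E.b₆ = 0)
    (h2 : 4 * t₂ ^ 3 + E.b₂ * t₂ ^ 2 + 2 * E.b₄ * t₂ + E.b₆ = 0) (P : E.Point) :
    addOrderOf P ≠ 5 := by
  intro hP
  have h5 : (5 : ℕ) • P = 0 := by rw [← hP]; exact addOrderOf_nsmul_eq_zero P
  have hP0 : P ≠ 0 := by
    rintro rfl
    rw [addOrderOf_zero] at hP
    norm_num at hP
  obtain ⟨-, h20, hxne, h32⟩ := psi5_of_five hP0 h5
  have hsum := xc_add_sub_sum h20 hP0 hxne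
  have hprod := xc_add_sub_prod h20 hP0 hxne
  have h21 : (2 : ℕ) • P - P = P := by rw [two_nsmul, add_sub_cancel_right]
  rw [h21, h32] at hsum hprod
  obtain ⟨δ, hδ⟩ := isSquare_disc h12 h1 h2
  have key := Fermat.Agent.H23.K1.key E (s := xc P + xc ((2 : ℕ) • P))
    (p := xc P * xc ((2 : ℕ) • P)) (δ := δ) (by linear_combination hsum)
    (by linear_combination hprod) hδ
  apply hΔ
  rw [hδ, key]
  norm_num

end Fermat.Agent.Cor.Ord20
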