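import Fermat.Agent.Cor.Ord16

/-!
# No elliptic curve over `ℚ` has a rational point of order `24` or a torsion subgroup `ℤ/2 × ℤ/12`

Both lead to a rational point of the elliptic curve `(m² - 1) (m² + 3) = n²`, which has only the points with
`m² = 1` (and the two points at infinity): an elementary descent for the system `A² + y² = x²`, `A² + 4 y² = B²`.

This file is not used by any of the statement files.
-/

set_option autoImplicit false

namespace Fermat.Agent.Cor.Ord24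

open Fermat.Agent.H23.K1 Fermat.Agent.Cor.Seven

theorem prime3 : Prime (3 : ℤ) := Int.prime_three

/-- `3 ∣ p² + q²` implies `3 ∣ p` and `3 ∣ q`. -/
theorem mod3 {p q : ℤ} (h : (3 : ℤ) ∣ p ^ 2 + q ^ 2) : (3 : ℤ) ∣ p ∧ (3 : ℤ) ∣ q := by
  have key : ∀ a b : ZMod 3, a ^ 2 + b ^ 2 = 0 → a = 0 ∧ b = 0 := by decide
  have h1 := (ZMod.intCast_zmod_eq_zero_iff_dvd (p ^ 2 + q ^ 2) 3).2 h
  push_cast at h1
  obtain ⟨h2, h3⟩ := key _ _ h1
  exact ⟨(ZMod.intCast_zmod_eq_zero_iff_dvd p 3).1 h2, (ZMod.intCast_zmod_eq_zero_iff_dvd q 3).1 h3⟩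

/-- The four number lemma. -/
theorem four_numbers {M N m n : ℤ} (hM : M ≠ 0) (h : M * N = m * n) :
    ∃ p s r q : ℤ, M = p * s ∧ m = p * r ∧ n = s * q ∧ N = r * q ∧ IsCoprime s r := by
  obtain ⟨s, r, h1, h2, h3⟩ := extract_gcd M m
  have hg : gcd M m ≠ 0 := by
    intro h4
    rw [h4, zero_mul] at h1
    exact hM h1
  have hs : s ≠ 0 := by
    rintro rfl
    rw [mul_zero] at h1
    exact hM h1
  have hsr : IsCoprime s r := by
    rw [← gcd_isUnit_iff]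
    exact h3
  have h4 : s * N = r * n := by
    have h5 : gcd M m * (s * N) = gcd M m * (r * n) := by
      rw [← mul_assoc, ← mul_assoc, ← h1, ← h2, h]
    exact mul_left_cancel₀ hg h5
  obtain ⟨q, hq⟩ : s ∣ n := hsr.dvd_of_dvd_mul_left (Dvd.intro _ h4)
  refine ⟨gcd M m, s, r, q, h1, h2, hq, ?_, hsr⟩
  apply mul_left_cancel₀ hs
  rw [h4, hq]
  ring

/-- One step of the descent. -/
theorem core {p q s r : ℤ} (hpq : IsCoprime p q) (hp : p ≠ 0) (hq : q ≠ 0) (hs : s ≠ 0)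
    (hr : r ≠ 0) (hsr : IsCoprime s r) (h : r ^ 2 * (p ^ 2 + q ^ 2) = s ^ 2 * (4 * p ^ 2 + q ^ 2)) :
    ∃ A y x B : ℤ, Odd A ∧ IsCoprime A y ∧ y ≠ 0 ∧ y ^ 2 ≤ p ^ 2 * q ^ 2 ∧ A ^ 2 + y ^ 2 = x ^ 2 ∧
      A ^ 2 + 4 * y ^ 2 = B ^ 2 := by
  have hp2 : 0 < p ^ 2 := by positivity
  have hq2 : 0 < q ^ 2 := by positivity
  have hs2 : 0 < s ^ 2 := by positivity
  have hr2 : 0 < r ^ 2 := by positivity
  obtain ⟨k, hk⟩ : s ^ 2 ∣ p ^ 2 + q ^ 2 :=
    (hsr.pow (m := 2) (n := 2)).dvd_of_dvd_mul_left (Dvd.intro _ h.symm)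
  have hk' : 4 * p ^ 2 + q ^ 2 = r ^ 2 * k := by
    apply mul_left_cancel₀ hs2.ne'
    rw [← h, hk]
    ring
  have hkpos : 0 < k := by
    have h1 : 0 < s ^ 2 * k := by rw [← hk]; positivity
    exact (pos_iff_pos_of_mul_pos h1).1 hs2
  have hk3 : k ∣ 3 := by
    have h1 : k ∣ 3 * p ^ 2 := by
      have := dvd_sub (Dvd.intro_left _ hk'.symm) (Dvd.intro_left _ hk.symm)
      rwa [show 4 * p ^ 2 + q ^ 2 - (p ^ 2 + q ^ 2) = 3 * p ^ 2 by ring] at this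
    have h2 : k ∣ 3 * q ^ 2 := by
      have := dvd_sub (dvd_mul_of_dvd_right (Dvd.intro_left _ hk.symm : k ∣ p ^ 2 + q ^ 2) 4)
        (Dvd.intro_left _ hk'.symm : k ∣ 4 * p ^ 2 + q ^ 2)
      rwa [show 4 * (p ^ 2 + q ^ 2) - (4 * p ^ 2 + q ^ 2) = 3 * q ^ 2 by ring] at this
    obtain ⟨a, b, hab⟩ := hpq.pow (m := 2) (n := 2)
    have h3 : (3 : ℤ) = a * (3 * p ^ 2) + b * (3 * q ^ 2) := by linear_combination (-3) * hab
    rw [h3]
    exact dvd_add (dvd_mul_of_dvd_right h1 _) (dvd_mul_of_dvd_right h2 _)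
  have hk1 : k = 1 := by
    have h1 : k ≤ 3 := Int.le_of_dvd (by norm_num) hk3
    interval_cases k
    · rfl
    · exact absurd hk3 (by norm_num)
    · exfalso
      have h2 : (3 : ℤ) ∣ p ^ 2 + q ^ 2 := ⟨s ^ 2, by rw [hk]; ring⟩
      obtain ⟨h3, h4⟩ := mod3 h2
      exact cop_false hpq prime3 h3 h4
  subst hk1
  rw [mul_one] at hk hk'
  rcases Int.even_or_odd q with hqe | hqo
  · -- `q = 2 q'`
    obtain ⟨q', rfl⟩ := hqe.two_dvd
    have hpo : Odd p := by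
      rw [← Int.not_even_iff_odd]
      intro h1
      exact cop_false hpq Int.prime_two h1.two_dvd (dvd_mul_right _ _)
    obtain ⟨r', rfl⟩ : (2 : ℤ) ∣ r := by
      apply Int.prime_two.dvd_of_dvd_pow (n := 2)
      exact ⟨2 * p ^ 2 + 2 * q' ^ 2, by rw [← hk']; ring⟩
    refine ⟨p, q', r', s, hpo, hpq.of_isCoprime_of_dvd_right (dvd_mul_left _ _), ?_, ?_, ?_, ?_⟩
    · rintro rfl
      exact hq (mul_zero 2)
    · nlinarith [sq_nonneg q', mul_nonneg hp2.le (sq_nonneg q')]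
    · have : 4 * (p ^ 2 + q' ^ 2) = 4 * r' ^ 2 := by linear_combination hk'
      linarith
    · rw [← hk]
      ring
  · refine ⟨q, p, s, r, hqo, hpq.symm, hp, ?_, ?_, ?_⟩
    · nlinarith
    · rw [← hk]
      ring
    · rw [← hk']
      ring

/-- The system `A² + y² = x²`, `A² + 4 y² = B²`. -/
theorem concord (N : ℕ) : ∀ {A y x B : ℤ}, y.natAbs = N → Odd A → IsCoprime A y →
    A ^ 2 + y ^ 2 = x ^ 2 → A ^ 2 + 4 * y ^ 2 = B ^ 2 → y = 0 := by
  induction N using Nat.strong_induction_on with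
  | _ N ih =>
    intro A y x B hN hA hAy h1 h2
    by_contra hy
    have hA0 : A ≠ 0 := by
      rintro rfl
      exact absurd hA (by decide)
    have hA2 : 0 < A ^ 2 := by positivity
    have hy2 : 0 < y ^ 2 := by positivity
    have hx : x ≠ 0 := by
      rintro rfl
      nlinarith
    have hB : B ≠ 0 := by
      rintro rfl
      nlinarith
    have hp1 : PythagoreanTriple A y |x| := by
      change A * A + y * y = |x| * |x|
      rw [abs_mul_abs_self]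
      linear_combination h1
    have hp2 : PythagoreanTriple A (2 * y) |B| := by
      change A * A + (2 * y) * (2 * y) = |B| * |B|
      rw [abs_mul_abs_self]
      linear_combination h2
    have hc2 : IsCoprime A (2 * y) := by
      refine IsCoprime.mul_right ?_ hAy
      rw [isCoprime_comm, Int.prime_two.coprime_iff_not_dvd]
      intro h3
      rw [← Int.not_even_iff_odd] at hA
      exact hA (even_iff_two_dvd.2 h3)
    obtain ⟨m, n, a1, a2, -, a4, -, -⟩ := hp1.coprime_classification'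
      (Int.isCoprime_iff_gcd_eq_one.1 hAy) (Int.odd_iff.1 hA) (abs_pos.2 hx)
    obtain ⟨M, K, b1, b2, -, b4, b5, -⟩ := hp2.coprime_classification'
      (Int.isCoprime_iff_gcd_eq_one.1 hc2) (Int.odd_iff.1 hA) (abs_pos.2 hB)
    have hmn : IsCoprime m n := Int.isCoprime_iff_gcd_eq_one.2 a4
    have hMK : M * K = y := by linarith
    have hmn0 : m * n ≠ 0 := by
      intro h3
      apply hy
      rw [a2, mul_assoc, h3, mul_zero]
    have hm0 : m ≠ 0 := left_ne_zero_of_mul hmn0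
    have hn0 : n ≠ 0 := right_ne_zero_of_mul hmn0
    have hMK0 : M * K ≠ 0 := by rw [hMK]; exact hy
    have hM0 : M ≠ 0 := left_ne_zero_of_mul hMK0
    have hK0 : K ≠ 0 := right_ne_zero_of_mul hMK0
    -- the descent from a factorisation
    have fin : ∀ p q s r : ℤ, IsCoprime p q → p ≠ 0 → q ≠ 0 → s ≠ 0 → r ≠ 0 → IsCoprime s r →
        r ^ 2 * (p ^ 2 + q ^ 2) = s ^ 2 * (4 * p ^ 2 + q ^ 2) →
        y ^ 2 = 4 * (p ^ 2 * q ^ 2) * (r ^ 2 * s ^ 2) → False := by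
      intro p q s r hpq hp hq hs hr hsr h3 h4
      obtain ⟨A', y', x', B', c1, c2, c3, c4, c5, c6⟩ := core hpq hp hq hs hr hsr h3
      have hlt : y'.natAbs < N := by
        rw [← hN]
        apply Int.natAbs_lt_iff_sq_lt.2
        have h5 : 0 < p ^ 2 * q ^ 2 := by positivity
        have h6 : 1 ≤ r ^ 2 * s ^ 2 := by
          have : 0 < r ^ 2 * s ^ 2 := by positivity
          omega
        rw [h4]
        nlinarith
      exact c3 (ih _ hlt rfl c1 c2 c5 c6)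
    rcases b5 with ⟨h3, -⟩ | ⟨-, h3⟩
    · -- `M = 2 M'`
      obtain ⟨M', rfl⟩ : (2 : ℤ) ∣ M := Int.dvd_of_emod_eq_zero h3
      have h4 : M' * K = m * n := by linarith
      have hM'0 : M' ≠ 0 := by
        rintro rfl
        exact hM0 (mul_zero 2)
      obtain ⟨p, s, r, q, d1, d2, d3, d4, d5⟩ := four_numbers hM'0 h4
      subst d1 d2 d3 d4
      have hp0 : p ≠ 0 := left_ne_zero_of_mul hM'0
      have hs0 : s ≠ 0 := right_ne_zero_of_mul hM'0
      have hr0 : r ≠ 0 := left_ne_zero_of_mul hK0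
      have hq0 : q ≠ 0 := right_ne_zero_of_mul hK0
      refine fin p q s r ?_ hp0 hq0 hs0 hr0 d5 ?_ ?_
      · exact (hmn.of_isCoprime_of_dvd_left (dvd_mul_right _ _)).of_isCoprime_of_dvd_right
          (dvd_mul_left _ _)
      · rw [a1] at b1
        linear_combination b1
      · rw [a2]
        ring
    · -- `K = 2 K'`
      obtain ⟨K', rfl⟩ : (2 : ℤ) ∣ K := Int.dvd_of_emod_eq_zero h3
      have h4 : M * K' = m * n := by linarith
      obtain ⟨p, s, r, q, d1, d2, d3, d4, d5⟩ := four_numbers hM0 h4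
      subst d1 d2 d3 d4
      have hp0 : p ≠ 0 := left_ne_zero_of_mul hM0
      have hs0 : s ≠ 0 := right_ne_zero_of_mul hM0
      have hrq : r * q ≠ 0 := by
        intro h5
        apply hK0
        rw [h5, mul_zero]
      have hr0 : r ≠ 0 := left_ne_zero_of_mul hrq
      have hq0 : q ≠ 0 := right_ne_zero_of_mul hrq
      have hpq : IsCoprime p q :=
        (hmn.of_isCoprime_of_dvd_left (dvd_mul_right _ _)).of_isCoprime_of_dvd_right
          (dvd_mul_left _ _)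
      refine fin q p r s hpq.symm hq0 hp0 hr0 hs0 d5.symm ?_ ?_
      · rw [a1] at b1
        linear_combination -b1
      · rw [a2]
        ring

theorem sq_dvd_cases {a b N : ℤ} (ha : 0 < a) (hb : 0 < b) (h : a * b = N ^ 2)
    (hg : ∀ p : ℤ, Prime p → p ∣ a → p ∣ b → p ∣ 2) :
    ∃ A B : ℤ, (a = A ^ 2 ∧ b = B ^ 2) ∨ (a = 2 * A ^ 2 ∧ b = 2 * B ^ 2) := by
  have h1 : a.natAbs * b.natAbs = N.natAbs ^ 2 := by
    rw [← Int.natAbs_mul, h, Int.natAbs_pow]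
  obtain ⟨A, hA⟩ := sq_or_two (Int.natAbs_ne_zero.2 ha.ne') (Int.natAbs_ne_zero.2 hb.ne') h1 (by
    intro l hl h3 h4
    have hlp : Prime (l : ℤ) := Nat.prime_iff_prime_int.1 hl
    have h7 : (l : ℤ) ∣ 2 := hg _ hlp (Int.natCast_dvd.2 h3) (Int.natCast_dvd.2 h4)
    have h8 : l ∣ 2 := by exact_mod_cast h7
    exact (Nat.prime_dvd_prime_iff_eq hl Nat.prime_two).1 h8)
  have ea : (a.natAbs : ℤ) = a := Int.natAbs_of_nonneg ha.le
  rcases hA with hA | hA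
  · have hA' : a = (A : ℤ) ^ 2 := by
      rw [← ea, hA]
      push_cast
      ring
    have hA0 : (A : ℤ) ≠ 0 := by
      intro h0
      rw [hA', h0] at ha
      norm_num at ha
    obtain ⟨B, hB⟩ : (A : ℤ) ∣ N := by
      apply (Int.pow_dvd_pow_iff two_ne_zero).1
      rw [← hA', ← h]
      exact dvd_mul_right _ _
    refine ⟨A, B, Or.inl ⟨hA', ?_⟩⟩
    apply mul_left_cancel₀ (pow_ne_zero 2 hA0)
    rw [← hA', h, hB]
    rw [hA']
    ring
  · have hA' : a = 2 * (A : ℤ) ^ 2 := by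
      rw [← ea, hA]
      push_cast
      ring
    have hA0 : (A : ℤ) ≠ 0 := by
      intro h0
      rw [hA', h0] at ha
      norm_num at ha
    obtain ⟨B, hB⟩ : (A : ℤ) ∣ N := by
      apply (Int.pow_dvd_pow_iff two_ne_zero).1
      rw [← h, hA']
      exact ⟨2 * b, by ring⟩
    have h2 : 2 * b = B ^ 2 := by
      apply mul_left_cancel₀ (pow_ne_zero 2 hA0)
      rw [hB, hA'] at h
      linear_combination h
    obtain ⟨B', rfl⟩ : (2 : ℤ) ∣ B := Int.prime_two.dvd_of_dvd_pow (n := 2) ⟨b, h2.symm⟩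
    exact ⟨A, B', Or.inr ⟨hA', by linarith⟩⟩

/-- The integral form. -/
theorem int_form {x y N : ℤ} (hxy : IsCoprime x y) (hy : y ≠ 0)
    (h : (x ^ 2 - y ^ 2) * (x ^ 2 + 3 * y ^ 2) = N ^ 2) : x ^ 2 - y ^ 2 = 0 := by
  by_contra hne
  have hy2 : 0 < y ^ 2 := by positivity
  have hb : 0 < x ^ 2 + 3 * y ^ 2 := by positivity
  have ha : 0 < x ^ 2 - y ^ 2 := by
    have h1 : 0 < (x ^ 2 - y ^ 2) * (x ^ 2 + 3 * y ^ 2) := by
      rw [h]
      have : N ≠ 0 := by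
        rintro rfl
        have h2 : (x ^ 2 - y ^ 2) * (x ^ 2 + 3 * y ^ 2) = 0 := by rw [h]; ring
        rcases mul_eq_zero.1 h2 with h3 | h3
        · exact hne h3
        · exact hb.ne' h3
      positivity
    exact (pos_iff_pos_of_mul_pos h1).2 hb
  obtain ⟨A, B, h1⟩ := sq_dvd_cases ha hb h (by
    intro p hp h1 h2
    by_contra h3
    have h4 : p ∣ 2 * (2 * y ^ 2) := by
      have := dvd_sub h2 h1
      rwa [show x ^ 2 + 3 * y ^ 2 - (x ^ 2 - y ^ 2) = 2 * (2 * y ^ 2) by ring] at this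
    have h5 : p ∣ y := hp.dvd_of_dvd_pow
      ((hp.dvd_or_dvd ((hp.dvd_or_dvd h4).resolve_left h3)).resolve_left h3)
    have h6 : p ∣ x ^ 2 := by
      have := dvd_add h1 (dvd_pow h5 two_ne_zero)
      rwa [sub_add_cancel] at this
    exact cop_false hxy hp (hp.dvd_of_dvd_pow h6) h5)
  have hA0 : A ≠ 0 := by
    rintro rfl
    rcases h1 with ⟨h1, -⟩ | ⟨h1, -⟩ <;> rw [h1] at ha <;> norm_num at ha
  rcases h1 with ⟨h1, h2⟩ | ⟨h1, h2⟩
  · have hAy : IsCoprime A y := by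
      apply cop hA0
      intro p hp h3 h4
      have h5 : p ∣ x ^ 2 := by
        have e : x ^ 2 = A ^ 2 + y ^ 2 := by linarith
        rw [e]
        exact dvd_add (dvd_pow h3 two_ne_zero) (dvd_pow h4 two_ne_zero)
      exact cop_false hxy hp (hp.dvd_of_dvd_pow h5) h4
    rcases Int.even_or_odd A with hAe | hAo
    · obtain ⟨A', rfl⟩ := hAe.two_dvd
      have hyo : Odd y := by
        rw [← Int.not_even_iff_odd]
        intro h3
        exact cop_false hAy Int.prime_two (dvd_mul_right _ _) h3.two_dvd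
      obtain ⟨B', rfl⟩ : (2 : ℤ) ∣ B := by
        apply Int.prime_two.dvd_of_dvd_pow (n := 2)
        exact ⟨2 * A' ^ 2 + 2 * y ^ 2, by rw [← h2]; linear_combination h1⟩
      have h3 := concord _ (A := y) (y := A') (x := B') (B := x) rfl hyo
        (hAy.of_isCoprime_of_dvd_left (dvd_mul_left _ _)).symm (by
          have : 4 * (y ^ 2 + A' ^ 2) = 4 * B' ^ 2 := by linear_combination h2 - h1
          linarith) (by linear_combination -h1)
      rw [h3, mul_zero] at hA0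
      exact hA0 rfl
    · exact hy (concord _ (A := A) (y := y) (x := x) (B := B) rfl hAo hAy
        (by linarith) (by linear_combination h2 - h1))
  · -- parity
    have hxo : Odd x ∧ Odd y := by
      have h3 : (2 : ℤ) ∣ x ^ 2 - y ^ 2 := ⟨A ^ 2, h1⟩
      rcases Int.even_or_odd x with h4 | h4
      · exfalso
        have h5 : (2 : ℤ) ∣ y ^ 2 := by
          have := dvd_sub (dvd_pow h4.two_dvd two_ne_zero) h3
          rwa [show x ^ 2 - (x ^ 2 - y ^ 2) = y ^ 2 by ring] at this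
        exact cop_false hxy Int.prime_two h4.two_dvd (Int.prime_two.dvd_of_dvd_pow h5)
      · refine ⟨h4, ?_⟩
        rw [← Int.not_even_iff_odd]
        intro h5
        have h6 : (2 : ℤ) ∣ x ^ 2 := by
          have := dvd_add h3 (dvd_pow h5.two_dvd two_ne_zero)
          rwa [sub_add_cancel] at this
        exact cop_false hxy Int.prime_two (Int.prime_two.dvd_of_dvd_pow h6) h5.two_dvd
    obtain ⟨⟨a, rfl⟩, ⟨b, rfl⟩⟩ := hxo
    have key : ∀ a b B : ZMod 8, (2 * a + 1) ^ 2 + 3 * (2 * b + 1) ^ 2 ≠ 2 * B ^ 2 := by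
      decide +kernel
    apply key (a : ZMod 8) (b : ZMod 8) (B : ZMod 8)
    have h5 := congrArg (Int.cast : ℤ → ZMod 8) h2
    push_cast at h5
    exact h5

/-- The rational points of `(m² - 1) (m² + 3) = n²`. -/
theorem rat_form {m n : ℚ} (h : (m ^ 2 - 1) * (m ^ 2 + 3) = n ^ 2) : m ^ 2 = 1 := by
  have hD : (m.den : ℤ) ≠ 0 := by exact_mod_cast m.den_pos.ne'
  have hD0 : (m.den : ℚ) ≠ 0 := by exact_mod_cast m.den_pos.ne'
  have hh : m * m.den = m.num := Rat.mul_den_eq_num m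
  have hsq : IsSquare ((((m.num ^ 2 - (m.den : ℤ) ^ 2) * (m.num ^ 2 + 3 * (m.den : ℤ) ^ 2) : ℤ)) :
      ℚ) := by
    refine ⟨n * (m.den : ℚ) ^ 2, ?_⟩
    push_cast
    rw [← hh]
    linear_combination (m.den : ℚ) ^ 4 * h
  rw [Rat.isSquare_intCast_iff] at hsq
  obtain ⟨k, hk⟩ := hsq
  have hcop : IsCoprime m.num (m.den : ℤ) := by
    rw [Int.isCoprime_iff_gcd_eq_one]
    exact m.reduced
  have h1 := int_form hcop hD (N := k) (by rw [hk, sq])
  have h2 : ((m.num : ℤ) : ℚ) ^ 2 - (m.den : ℚ) ^ 2 = 0 := by exact_mod_cast h1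
  rw [← hh] at h2
  have h3 : (m ^ 2 - 1) * (m.den : ℚ) ^ 2 = 0 := by linear_combination h2
  rcases mul_eq_zero.1 h3 with h4 | h4
  · linarith
  · exact absurd h4 (pow_ne_zero 2 hD0)

/-- The algebra for a point of order `24`. -/
theorem alg24 {α X6 X8 X3 Y6 Y8 Y3 : ℚ} (h6 : Y6 ^ 2 = 4 * X6 * (X6 ^ 2 + α * X6 + X6 ^ 2))
    (h8 : Y8 ^ 2 = 4 * X8 * (X8 ^ 2 + α * X8 + X6 ^ 2)) (d3 : X6 * Y3 ^ 2 = (X3 ^ 2 - X6 ^ 2) ^ 2)
    (d8 : X8 * Y8 ^ 2 = (X8 ^ 2 - X6 ^ 2) ^ 2) (hY3 : Y3 ≠ 0) (hY8 : Y8 ≠ 0) (hX6 : X6 ≠ 0)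
    (hX8 : X8 ≠ 0) (h68 : X8 ≠ X6) : False := by
  obtain ⟨u, hu⟩ : ∃ u, u = (X3 ^ 2 - X6 ^ 2) / Y3 := ⟨_, rfl⟩
  obtain ⟨g, hg⟩ : ∃ g, g = (X8 ^ 2 - X6 ^ 2) / Y8 := ⟨_, rfl⟩
  have hu2 : X6 = u ^ 2 := by
    rw [hu, div_pow, ← d3]
    field_simp
  have hg2 : X8 = g ^ 2 := by
    rw [hg, div_pow, ← d8]
    field_simp
  subst hu2 hg2
  have hu0 : u ≠ 0 := by
    rintro rfl
    exact hX6 (by norm_num)
  have hg0 : g ≠ 0 := by
    rintro rfl
    exact hX8 (by norm_num)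
  have hgu : g ^ 2 - u ^ 2 ≠ 0 := sub_ne_zero.2 h68
  obtain ⟨a, ha⟩ : ∃ a, a = Y6 / (2 * u ^ 2) := ⟨_, rfl⟩
  have ha2 : α = a ^ 2 - 2 * u ^ 2 := by
    rw [ha, div_pow, h6]
    field_simp
    ring
  subst ha2
  have E1 : ((g ^ 2) ^ 2 - (u ^ 2) ^ 2) ^ 2 =
      g ^ 2 * (4 * g ^ 2 * ((g ^ 2) ^ 2 + (a ^ 2 - 2 * u ^ 2) * g ^ 2 + (u ^ 2) ^ 2)) := by
    rw [← h8, ← d8]
  have E2 : (u ^ 2 - g ^ 2) * (u ^ 2 + 3 * g ^ 2) * (g ^ 2 - u ^ 2) ^ 2 =
      4 * g ^ 6 * a ^ 2 := by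
    linear_combination E1
  have h1 := rat_form (m := u / g) (n := 2 * a * g / (g ^ 2 - u ^ 2)) (by
    rw [div_pow, div_pow, eq_div_iff (pow_ne_zero 2 hgu)]
    field_simp
    linear_combination E2)
  rw [div_pow, div_eq_one_iff_eq (pow_ne_zero 2 hg0)] at h1
  exact h68 h1.symm

/-- The algebra for `ℤ/2 × ℤ/12`. -/
theorem alg12 {r a b c d : ℚ} (hr : r ≠ 0) (ha : a ≠ 0) (hb : b ≠ 0) (hc : c ^ 2 = r ^ 2 + a ^ 2)
    (hd : d ^ 2 = r ^ 2 + b ^ 2) (h : (2 * r ^ 2 * c * d) ^ 2 = (r ^ 4 - a ^ 2 * b ^ 2) ^ 2) :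
    False := by
  -- `(c² d² - …)`: `(c - d)² r² = c² d²` or `(c + d)² r² = c² d²`
  have key : ∀ a b c d : ℚ, a ≠ 0 → b ≠ 0 → c ^ 2 = r ^ 2 + a ^ 2 → d ^ 2 = r ^ 2 + b ^ 2 →
      r * (c - d) = c * d → False := by
    intro a b c d ha hb hc hd h1
    have h2 : r + c ≠ 0 := by
      intro h3
      have h4 : c = -r := by linarith
      rw [h4] at hc
      have h5 : a ^ 2 = 0 := by linear_combination -hc
      exact ha (pow_eq_zero_iff (by norm_num) |>.1 h5)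
    have h3 : d * (r + c) = r * c := by linear_combination -h1
    have h4 : (b * (r + c)) ^ 2 = -r ^ 2 * (r ^ 2 + 2 * r * c) := by
      have h5 : (b * (r + c)) ^ 2 = (d * (r + c)) ^ 2 - r ^ 2 * (r + c) ^ 2 := by
        rw [mul_pow, mul_pow, hd]
        ring
      rw [h5, h3]
      ring
    have h5 := rat_form (m := b * (r + c) / r ^ 2) (n := 2 * a / r) (by
      have h6 : (b * (r + c) / r ^ 2) ^ 2 = -(r ^ 2 + 2 * r * c) / r ^ 2 := by
        rw [div_pow, h4]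
        field_simp
      rw [h6, div_pow]
      have h7 : (2 * a) ^ 2 = 4 * (c ^ 2 - r ^ 2) := by rw [hc]; ring
      rw [h7]
      field_simp
      ring)
    have h6 : (b * (r + c)) ^ 2 = r ^ 4 := by
      rw [div_pow, div_eq_one_iff_eq (pow_ne_zero 2 (pow_ne_zero 2 hr))] at h5
      rw [h5]
      ring
    rw [h4] at h6
    have h7 : 2 * r ^ 3 * (r + c) = 0 := by linear_combination -h6
    rcases mul_eq_zero.1 h7 with h8 | h8
    · exact mul_ne_zero (by norm_num) (pow_ne_zero 3 hr) h8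
    · exact h2 h8
  have hprod : (r ^ 2 * (c - d) ^ 2 - c ^ 2 * d ^ 2) * (r ^ 2 * (c + d) ^ 2 - c ^ 2 * d ^ 2) = 0 := by
    have e1 : a ^ 2 = c ^ 2 - r ^ 2 := by linarith
    have e2 : b ^ 2 = d ^ 2 - r ^ 2 := by linarith
    rw [e1, e2] at h
    linear_combination -h
  have hc0 : c ≠ 0 := by
    rintro rfl
    nlinarith [sq_nonneg a, pow_pos (abs_pos.2 hr) 2, sq_abs r]
  have hd0 : d ≠ 0 := by
    rintro rfl
    nlinarith [sq_nonneg b, pow_pos (abs_pos.2 hr) 2, sq_abs r]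
  have fin : ∀ d : ℚ, d ^ 2 = r ^ 2 + b ^ 2 → r ^ 2 * (c - d) ^ 2 - c ^ 2 * d ^ 2 = 0 → False := by
    intro d hd h1
    have h2 : (r * (c - d)) ^ 2 = (c * d) ^ 2 := by linear_combination h1
    rcases sq_eq_sq_iff_eq_or_eq_neg.1 h2 with h3 | h3
    · exact key a b c d ha hb hc hd h3
    · exact key b a d c hb ha hd hc (by linear_combination -h3)
  rcases mul_eq_zero.1 hprod with h1 | h1
  · exact fin d hd h1
  · exact fin (-d) (by rw [neg_sq]; exact hd) (by linear_combination h1)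

open WeierstrassCurve WeierstrassCurve.Affine WeierstrassCurve.Affine.Point Fermat.Agent.H51
open Fermat.Agent.Cor.Ord16

variable {E : WeierstrassCurve.Affine ℚ}

/-- **No elliptic curve over `ℚ` has a rational point of order `24`.** -/
theorem addOrderOf_ne_twentyfour (Q : E.Point) : addOrderOf Q ≠ 24 := by
  intro hQ
  have h24 : (24 : ℕ) • Q = 0 := by rw [← hQ]; exact addOrderOf_nsmul_eq_zero Q
  have hne : ∀ m : ℕ, ¬ 24 ∣ m → m • Q ≠ 0 := by
    intro m hm h0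
    rw [← hQ] at hm
    exact hm (addOrderOf_dvd_iff_nsmul_eq_zero.2 h0)
  have hdist : ∀ m n : ℕ, ¬ 24 ∣ m → ¬ 24 ∣ n → ¬ 24 ∣ m + n → m % 24 ≠ n % 24 →
      xc (m • Q) ≠ xc (n • Q) := by
    intro m n hm hn h1 h2 h3
    rcases (xc_eq_iff (hne m hm) (hne n hn)).1 h3 with h4 | h4
    · apply h2
      have := (nsmul_eq_nsmul_iff_modEq (x := Q) (m := n) (n := m)).1 h4
      rw [hQ] at this
      exact this
    · rw [eq_neg_iff_add_eq_zero, ← add_nsmul] at h4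
      exact hne (m + n) h1 h4
  have e12 : (2 : ℕ) • ((6 : ℕ) • Q) = (12 : ℕ) • Q := by rw [← mul_nsmul]
  have e6 : (2 : ℕ) • ((3 : ℕ) • Q) = (6 : ℕ) • Q := by rw [← mul_nsmul]
  have e16 : (2 : ℕ) • ((8 : ℕ) • Q) = -((8 : ℕ) • Q) := by
    rw [eq_neg_iff_add_eq_zero, ← mul_nsmul, ← add_nsmul]
    exact h24
  have ht : 4 * xc ((12 : ℕ) • Q) ^ 3 + E.b₂ * xc ((12 : ℕ) • Q) ^ 2 +
      2 * E.b₄ * xc ((12 : ℕ) • Q) + E.b₆ = 0 :=
    root_of_order_two (hne 12 (by norm_num)) (by rw [← mul_nsmul]; exact h24)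
  have d6 := dup (S := (6 : ℕ) • Q) (hne 6 (by norm_num))
    (by rw [e12]; exact hne 12 (by norm_num)) ht
  have d3 := dup (S := (3 : ℕ) • Q) (hne 3 (by norm_num))
    (by rw [e6]; exact hne 6 (by norm_num)) ht
  have d8 := dup (S := (8 : ℕ) • Q) (hne 8 (by norm_num))
    (by rw [e16]; exact neg_ne_zero.2 (hne 8 (by norm_num))) ht
  rw [e12, sub_self, zero_mul] at d6
  rw [e6] at d3
  rw [e16, xc_neg] at d8
  have n612 := hdist 6 12 (by norm_num) (by norm_num) (by norm_num) (by norm_num)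
  have n812 := hdist 8 12 (by norm_num) (by norm_num) (by norm_num) (by norm_num)
  have n86 := hdist 8 6 (by norm_num) (by norm_num) (by norm_num) (by norm_num)
  obtain ⟨y6, hy6⟩ := psi_sq (hne 6 (by norm_num))
  obtain ⟨y8, hy8⟩ := psi_sq (hne 8 (by norm_num))
  obtain ⟨y3, hy3⟩ := psi_sq (hne 3 (by norm_num))
  have hy3' : y3 ≠ 0 := by
    rintro rfl
    apply hne 6 (by norm_num)
    rw [← e6]
    exact (two_smul_eq_zero_iff (hne 3 (by norm_num))).2 (by rw [hy3]; norm_num)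
  have hy8' : y8 ≠ 0 := by
    rintro rfl
    apply hne 8 (by norm_num)
    have := (two_smul_eq_zero_iff (hne 8 (by norm_num))).2 (by rw [hy8]; norm_num)
    rw [e16] at this
    exact neg_eq_zero.1 this
  have p6 := psi_eq (x := xc ((6 : ℕ) • Q)) ht
  have p8 := psi_eq (x := xc ((8 : ℕ) • Q)) ht
  rw [hy6] at p6
  rw [hy8] at d8 p8
  rw [hy3] at d3
  generalize xc ((12 : ℕ) • Q) = t at *
  generalize xc ((6 : ℕ) • Q) = x6 at *
  generalize xc ((8 : ℕ) • Q) = x8 at *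
  generalize xc ((3 : ℕ) • Q) = x3 at *
  have hκ : 3 * t ^ 2 + E.b₂ / 2 * t + E.b₄ / 2 = (x6 - t) ^ 2 := by
    have := pow_eq_zero_iff (n := 2) (by norm_num) |>.1 d6.symm
    linarith
  rw [hκ] at d3 d8 p6 p8
  exact alg24 p6 p8 d3 d8 hy3' hy8' (sub_ne_zero.2 n612) (sub_ne_zero.2 n812)
    (fun h => n86 (by linarith))

/-- Points in the image of duplication: `x(2 S) - t` is a square. -/
theorem sq_of_double {S : E.Point} (hS : S ≠ 0) (h2 : (2 : ℕ) • S ≠ 0) {t : ℚ}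
    (ht : 4 * t ^ 3 + E.b₂ * t ^ 2 + 2 * E.b₄ * t + E.b₆ = 0) :
    ∃ r : ℚ, xc ((2 : ℕ) • S) - t = r ^ 2 := by
  have h := dup hS h2 ht
  obtain ⟨y, hy⟩ := psi_sq hS
  have hy0 : y ≠ 0 := by
    rintro rfl
    exact h2 ((two_smul_eq_zero_iff hS).2 (by rw [hy]; norm_num))
  rw [hy] at h
  refine ⟨((xc S - t) ^ 2 - (3 * t ^ 2 + E.b₂ / 2 * t + E.b₄ / 2)) / y, ?_⟩
  rw [div_pow, ← h]
  field_simp

/-- **An elliptic curve over `ℚ` with full rational `2`-torsion has no rational point of order `12`**: its torsion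
subgroup is not `ℤ/2 × ℤ/12`. -/
theorem addOrderOf_ne_twelve_of_full (hΔ : E.Δ ≠ 0) {t₁ t₂ : ℚ} (h12 : t₁ ≠ t₂)
    (h1 : 4 * t₁ ^ 3 + E.b₂ * t₁ ^ 2 + 2 * E.b₄ * t₁ + E.b₆ = 0)
    (h2 : 4 * t₂ ^ 3 + E.b₂ * t₂ ^ 2 + 2 * E.b₄ * t₂ + E.b₆ = 0) (Q : E.Point) :
    addOrderOf Q ≠ 12 := by
  intro hQ
  have hQ12 : (12 : ℕ) • Q = 0 := by rw [← hQ]; exact addOrderOf_nsmul_eq_zero Q
  have hne : ∀ m : ℕ, ¬ 12 ∣ m → m • Q ≠ 0 := by
    intro m hm h0
    rw [← hQ] at hm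
    exact hm (addOrderOf_dvd_iff_nsmul_eq_zero.2 h0)
  have e6 : (2 : ℕ) • ((3 : ℕ) • Q) = (6 : ℕ) • Q := by rw [← mul_nsmul]
  have e8 : (2 : ℕ) • ((4 : ℕ) • Q) = -((4 : ℕ) • Q) := by
    rw [eq_neg_iff_add_eq_zero, ← mul_nsmul, ← add_nsmul]
    exact hQ12
  have ht : 4 * xc ((6 : ℕ) • Q) ^ 3 + E.b₂ * xc ((6 : ℕ) • Q) ^ 2 +
      2 * E.b₄ * xc ((6 : ℕ) • Q) + E.b₆ = 0 :=
    root_of_order_two (hne 6 (by norm_num)) (by rw [← mul_nsmul]; exact hQ12)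
  -- another root
  obtain ⟨t', htt', ht'⟩ : ∃ t' : ℚ, xc ((6 : ℕ) • Q) ≠ t' ∧
      4 * t' ^ 3 + E.b₂ * t' ^ 2 + 2 * E.b₄ * t' + E.b₆ = 0 := by
    by_cases h : xc ((6 : ℕ) • Q) = t₁
    · exact ⟨t₂, by rw [h]; exact h12, h2⟩
    · exact ⟨t₁, h, h1⟩
  obtain ⟨t'', h3⟩ : ∃ t'' : ℚ, E.b₂ = -4 * (xc ((6 : ℕ) • Q) + t' + t'') :=
    ⟨-E.b₂ / 4 - xc ((6 : ℕ) • Q) - t', by ring⟩
  have h4 : E.b₄ = 2 * (xc ((6 : ℕ) • Q) * t' + t' * t'' + t'' * xc ((6 : ℕ) • Q)) := by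
    have hd : 2 * (xc ((6 : ℕ) • Q) - t') ≠ 0 := mul_ne_zero (by norm_num) (sub_ne_zero.2 htt')
    apply mul_left_cancel₀ hd
    have e1 := ht
    have e2 := ht'
    rw [h3] at e1 e2
    linear_combination e1 - e2
  have h6 : E.b₆ = -4 * (xc ((6 : ℕ) • Q) * t' * t'') := by
    have e1 := ht
    rw [h3, h4] at e1
    linear_combination e1
  have ht'' : 4 * t'' ^ 3 + E.b₂ * t'' ^ 2 + 2 * E.b₄ * t'' + E.b₆ = 0 := by
    rw [h3, h4, h6]
    ring
  have hS3 : (3 : ℕ) • Q ≠ 0 := hne 3 (by norm_num)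
  have hS4 : (4 : ℕ) • Q ≠ 0 := hne 4 (by norm_num)
  have h23 : (2 : ℕ) • ((3 : ℕ) • Q) ≠ 0 := by rw [e6]; exact hne 6 (by norm_num)
  have h24 : (2 : ℕ) • ((4 : ℕ) • Q) ≠ 0 := by rw [e8]; exact neg_ne_zero.2 hS4
  obtain ⟨a, ha⟩ := sq_of_double hS3 h23 ht'
  obtain ⟨b, hb⟩ := sq_of_double hS3 h23 ht''
  obtain ⟨r, hr⟩ := sq_of_double hS4 h24 ht
  obtain ⟨c, hc⟩ := sq_of_double hS4 h24 ht'
  obtain ⟨d, hd⟩ := sq_of_double hS4 h24 ht''
  have d4 := dup hS4 h24 ht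
  rw [e6] at ha hb
  rw [e8, xc_neg] at hr hc hd d4
  rw [psi_eq ht] at d4
  have hx : xc ((4 : ℕ) • Q) ≠ xc ((6 : ℕ) • Q) := by
    intro h
    rcases (xc_eq_iff hS4 (hne 6 (by norm_num))).1 h with h5 | h5
    · have := (nsmul_eq_nsmul_iff_modEq (x := Q) (m := 6) (n := 4)).1 h5
      rw [hQ] at this
      exact absurd this (by decide)
    · rw [eq_neg_iff_add_eq_zero, ← add_nsmul] at h5
      exact hne (4 + 6) (by norm_num) h5
  generalize xc ((6 : ℕ) • Q) = t at *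
  generalize xc ((4 : ℕ) • Q) = x at *
  have ha0 : a ≠ 0 := by
    rintro rfl
    exact htt' (by linarith)
  have hb0 : b ≠ 0 := by
    rintro rfl
    apply hΔ
    have h8 : E.b₈ = (E.b₂ * E.b₆ - E.b₄ ^ 2) / 4 := by
      have := E.b_relation
      linarith
    have h9 : t'' = t := by linarith
    rw [WeierstrassCurve.Δ, h8, h3, h4, h6, h9]
    ring
  have hr0 : r ≠ 0 := by
    rintro rfl
    exact hx (by linarith)
  refine alg12 hr0 ha0 hb0 (c := c) (d := d) (by linarith) (by linarith) ?_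
  have k1 : 3 * t ^ 2 + E.b₂ / 2 * t + E.b₄ / 2 = a ^ 2 * b ^ 2 := by
    rw [← ha, ← hb, h3, h4]
    ring
  have k2 : (x - t) ^ 2 + (3 * t + E.b₂ / 4) * (x - t) + a ^ 2 * b ^ 2 = c ^ 2 * d ^ 2 := by
    rw [← ha, ← hb, ← hc, ← hd, h3]
    ring
  rw [k1, k2, hr] at d4
  linear_combination d4

end Fermat.Agent.Cor.Ord24
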