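import Fermat.Agent.Frob.VarChange
import Mathlib

/-!
# No elliptic curve over `ℚ` has a rational point of order `27`

Let `S` be a rational point of order `27` and let `P = 9 S`, a point of order three, i.e. a flex. Let `f` be the
equation of the tangent line at `P`. If `A + B + C = 0`, then `f(A) f(B) f(C)` is a cube (`fl_mul`), and
`f(Q) f(-Q) = - (x(Q) - x(P))³` (`fl_neg`); hence `f(3 S)` is a cube. For the point `R = 3 S` of order nine, in Tate's
normal form `y² + (1 - c) x y - b y = x³ - b x²`, `c = s² (s - 1)`, `b = c (s² - s + 1)`, one has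
`f(R) = (s (s - 1))²`, so that `s (s - 1)` is a cube, and Fermat's last theorem for the exponent three shows that this is
impossible.

This file is not used by any of the statement files.
-/

set_option autoImplicit false

namespace Fermat.Agent.Cor.Ord27

open WeierstrassCurve WeierstrassCurve.Affine WeierstrassCurve.Affine.Point
open Fermat.Agent.H08 Fermat.Agent.Frob

/-- `s (s - 1)` is a nonzero cube for no rational number `s`: this is Fermat's equation of degree three. -/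
theorem not_cube {s k : ℚ} (h : s * (s - 1) = k ^ 3) (hs : s ≠ 0) (hs1 : s ≠ 1) : False := by
  have hd : (s.den : ℚ) ≠ 0 := by exact_mod_cast s.den_ne_zero
  have e : (s.num : ℚ) = s * s.den := (Rat.mul_den_eq_num s).symm
  -- `n (n - d) d` is a cube
  have h1 : ((s.num * (s.num - s.den) * s.den : ℤ) : ℚ) = (k * s.den) ^ 3 := by
    push_cast
    rw [e]
    linear_combination (s.den : ℚ) ^ 3 * h
  have h2 : (k * s.den).den = 1 := by
    have h3 : ((k * s.den) ^ 3).den = 1 := by rw [← h1]; exact Rat.den_intCast _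
    rw [Rat.den_pow] at h3
    exact (Nat.pow_eq_one.1 h3).resolve_right (by norm_num)
  obtain ⟨z, hz⟩ : ∃ z : ℤ, (z : ℚ) = k * s.den := ⟨_, Rat.coe_int_num_of_den_eq_one h2⟩
  have h3 : s.num * (s.num - s.den) * s.den = z ^ 3 := by
    rw [← hz] at h1
    exact_mod_cast h1
  have hcop : IsCoprime s.num (s.den : ℤ) := by
    rw [Int.isCoprime_iff_gcd_eq_one]
    exact s.reduced
  have c1 : IsCoprime s.num (s.num - s.den) := by
    have : IsCoprime s.num (-(s.den : ℤ)) := hcop.neg_right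
    have h4 := this.add_mul_left_right 1
    rwa [mul_one, neg_add_eq_sub] at h4
  have c2 : IsCoprime (s.num - s.den) (s.den : ℤ) := by
    have h4 := hcop.add_mul_right_left (-1)
    have h5 : s.num + -1 * (s.den : ℤ) = s.num - s.den := by ring
    rwa [h5] at h4
  obtain ⟨⟨u, hu⟩, ⟨w, hw⟩⟩ := Int.eq_pow_of_mul_eq_pow_odd (hcop.mul_left c2) (by decide) h3
  obtain ⟨⟨a, ha⟩, ⟨b, hb⟩⟩ := Int.eq_pow_of_mul_eq_pow_odd c1 (by decide) hu
  have hn0 : s.num ≠ 0 := by rwa [Ne, Rat.num_eq_zero]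
  have hd0 : (s.den : ℤ) ≠ 0 := by exact_mod_cast s.den_ne_zero
  have hnd : s.num - s.den ≠ 0 := by
    intro h0
    apply hs1
    have h5 : (s.num : ℚ) = s.den := by exact_mod_cast sub_eq_zero.1 h0
    rw [e] at h5
    exact mul_right_cancel₀ hd (by rw [h5, one_mul])
  have flt := fermatLastTheoremFor_iff_int.1 fermatLastTheoremThree
  refine flt b w a ?_ ?_ ?_ (by rw [← ha, ← hb, ← hw]; ring)
  · rintro rfl
    exact hnd (by rw [hb]; norm_num)
  · rintro rfl
    exact hd0 (by rw [hw]; norm_num)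
  · rintro rfl
    exact hn0 (by rw [ha]; norm_num)

section line

variable {F : Type*} [Field F] [DecidableEq F] {W : WeierstrassCurve.Affine F}

/-- The line through two points, and the symmetric functions of the three abscissae. -/
theorem line_data {A B : W.Point} (hA : A ≠ 0) (hB : B ≠ 0) (hAB : A + B ≠ 0) : ∃ m n : F,
    py A = m * px A + n ∧ py B = m * px B + n ∧ py (-(A + B)) = m * px (A + B) + n ∧
      m * (py A + py B + W.a₁ * px B + W.a₃) = px A ^ 2 + px A * px B + px B ^ 2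
        + W.a₂ * (px A + px B) + W.a₄ - W.a₁ * py A ∧
      px A + px B + px (A + B) = m ^ 2 + W.a₁ * m - W.a₂ ∧
      px A * px B + (px A + px B) * px (A + B) =
        W.a₄ - 2 * m * n - W.a₁ * n - W.a₃ * m ∧
      px A * px B * px (A + B) = n ^ 2 + W.a₃ * n - W.a₆ := by
  obtain ⟨m, e1, e2, e3, e4⟩ := slope_data hA hB hAB
  have eA := eqn_of_ne_zero hA
  refine ⟨m, py A - m * px A, by ring, by linear_combination e1, ?_, e2, ?_, ?_, ?_⟩
  · rw [py_neg hAB, e4]
    ring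
  · rw [e3]
    ring
  · have hB' : py B = py A - m * (px A - px B) := by linear_combination e1
    rw [hB'] at e2
    rw [e3]
    linear_combination e2
  · have hB' : py B = py A - m * (px A - px B) := by linear_combination e1
    rw [hB'] at e2
    rw [e3]
    linear_combination -eA + px A * e2

/-- The equation of the line `y = l x + v` at the point `Q`. -/
def fl (l v : F) (Q : W.Point) : F := py Q - l * px Q - v

/-- The product of the values of the equation of a flex tangent at three collinear points is a cube. -/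
theorem fl_mul {l v X : F} (h1 : 3 * X = l ^ 2 + W.a₁ * l - W.a₂)
    (h2 : 3 * X ^ 2 = W.a₄ - 2 * l * v - W.a₁ * v - W.a₃ * l)
    (h3 : X ^ 3 = v ^ 2 + W.a₃ * v - W.a₆) {A B : W.Point} (hA : A ≠ 0) (hB : B ≠ 0)
    (hAB : A + B ≠ 0) : ∃ u : F, fl l v A * fl l v B * fl l v (-(A + B)) = u ^ 3 := by
  obtain ⟨m, n, e1, e2, e3, -, e4, e5, e6⟩ := line_data hA hB hAB
  refine ⟨(m - l) * X + (n - v), ?_⟩
  unfold fl
  rw [e1, e2, e3, px_neg]
  generalize px A = x at *
  generalize px B = y at *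
  generalize px (A + B) = z at *
  linear_combination (m - l) ^ 3 * (e6 - h3) + (m - l) ^ 2 * (n - v) * (e5 - h2) +
    (m - l) * (n - v) ^ 2 * (e4 - h1)

omit [DecidableEq F] in
/-- `f(Q) f(-Q) = - (x(Q) - x(P))³`. -/
theorem fl_neg {l v X : F} (h1 : 3 * X = l ^ 2 + W.a₁ * l - W.a₂)
    (h2 : 3 * X ^ 2 = W.a₄ - 2 * l * v - W.a₁ * v - W.a₃ * l)
    (h3 : X ^ 3 = v ^ 2 + W.a₃ * v - W.a₆) {Q : W.Point} (hQ : Q ≠ 0) :
    fl l v Q * fl l v (-Q) = -(px Q - X) ^ 3 := by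
  have e := eqn_of_ne_zero hQ
  unfold fl
  rw [py_neg hQ, px_neg]
  linear_combination -e - px Q ^ 2 * h1 + px Q * h2 - h3

end line

section rational

variable {W : WeierstrassCurve.Affine ℚ}

/-- For a point `S` with `27 S = 0` the value `f(3 S)` is a cube. -/
theorem exists_cube {l v X : ℚ} (h1 : 3 * X = l ^ 2 + W.a₁ * l - W.a₂)
    (h2 : 3 * X ^ 2 = W.a₄ - 2 * l * v - W.a₁ * v - W.a₃ * l)
    (h3 : X ^ 3 = v ^ 2 + W.a₃ * v - W.a₆) {S : W.Point} (n1 : S ≠ 0) (n2 : (2 : ℕ) • S ≠ 0)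
    (n3 : (3 : ℕ) • S ≠ 0) (d1 : px S ≠ X) (d2 : px ((2 : ℕ) • S) ≠ X)
    (d3 : px ((3 : ℕ) • S) ≠ X) : ∃ w : ℚ, fl l v ((3 : ℕ) • S) = w ^ 3 := by
  have t2 : S + S = (2 : ℕ) • S := (two_nsmul S).symm
  have t3 : S + (2 : ℕ) • S = (3 : ℕ) • S := (succ_nsmul' S 2).symm
  obtain ⟨u, hu⟩ := fl_mul h1 h2 h3 n1 n1 (by rw [t2]; exact n2)
  obtain ⟨w, hw⟩ := fl_mul h1 h2 h3 n1 n2 (by rw [t3]; exact n3)
  rw [t2] at hu
  rw [t3] at hw
  have g1 := fl_neg h1 h2 h3 n1
  have g2 := fl_neg h1 h2 h3 n2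
  have g3 := fl_neg h1 h2 h3 n3
  have c1 : -(px S - X) ^ 3 ≠ 0 := neg_ne_zero.2 (pow_ne_zero 3 (sub_ne_zero.2 d1))
  have c2 : -(px ((2 : ℕ) • S) - X) ^ 3 ≠ 0 := neg_ne_zero.2 (pow_ne_zero 3 (sub_ne_zero.2 d2))
  have c3 : -(px ((3 : ℕ) • S) - X) ^ 3 ≠ 0 := neg_ne_zero.2 (pow_ne_zero 3 (sub_ne_zero.2 d3))
  rw [← g1] at c1
  rw [← g2] at c2
  rw [← g3] at c3
  have f1 := left_ne_zero_of_mul c1
  have f2 := left_ne_zero_of_mul c2
  have f2' := right_ne_zero_of_mul c2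
  have f3' := right_ne_zero_of_mul c3
  generalize fl l v S = a at *
  generalize fl l v ((2 : ℕ) • S) = b at *
  generalize fl l v ((3 : ℕ) • S) = c at *
  generalize fl l v (-((2 : ℕ) • S)) = b' at *
  generalize fl l v (-((3 : ℕ) • S)) = c' at *
  generalize px ((2 : ℕ) • S) - X = y at *
  generalize px ((3 : ℕ) • S) - X = z at *
  have hu0 : u ≠ 0 := by
    rintro rfl
    exact mul_ne_zero (mul_ne_zero f1 f1) f2' (by rw [hu]; norm_num)
  have hw0 : w ≠ 0 := by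
    rintro rfl
    exact mul_ne_zero (mul_ne_zero f1 f2) f3' (by rw [hw]; norm_num)
  refine ⟨z * y * a / (u * w), ?_⟩
  rw [div_pow, eq_div_iff (pow_ne_zero 3 (mul_ne_zero hu0 hw0)), mul_pow, mul_pow, mul_pow, ← hu,
    ← hw]
  linear_combination (a * a * b' * a * b) * g3 - z ^ 3 * a ^ 3 * g2

/-- **Tate's normal form of a point of order nine.** -/
theorem tate_data (h4 : W.a₄ = 0) (h23 : W.a₂ = W.a₃) {P : W.Point}
    (hne : ∀ n : ℕ, ¬ 9 ∣ n → n • P ≠ 0) (h9 : (9 : ℕ) • P = 0) (hx : px P = 0) (hy : py P = 0) :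
    ∃ s : ℚ, s ≠ 0 ∧ s ≠ 1 ∧ W.a₁ = 1 - s ^ 2 * (s - 1) ∧
      W.a₃ = -((s ^ 2 - s + 1) * (s ^ 2 * (s - 1))) ∧
      px ((3 : ℕ) • P) = s ^ 2 * (s - 1) ∧ py ((3 : ℕ) • P) = s ^ 3 * (s - 1) ^ 2 := by
  have hP : P ≠ 0 := by simpa using hne 1 (by norm_num)
  have n2 := hne 2 (by norm_num)
  have n3 := hne 3 (by norm_num)
  have n4 := hne 4 (by norm_num)
  have n5 := hne 5 (by norm_num)
  have d13 : px P ≠ px ((3 : ℕ) • P) := by
    intro h
    rcases (px_eq_iff hP n3).1 h with h1 | h1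
    · apply n2
      have h2 : P + (2 : ℕ) • P = (3 : ℕ) • P := (succ_nsmul' P 2).symm
      rw [← h2] at h1
      simpa using h1.symm
    · apply n4
      rw [succ_nsmul' P 3]
      nth_rewrite 1 [h1]
      exact neg_add_cancel _
  have d14 : px P ≠ px ((4 : ℕ) • P) := by
    intro h
    rcases (px_eq_iff hP n4).1 h with h1 | h1
    · apply n3
      have h2 : P + (3 : ℕ) • P = (4 : ℕ) • P := (succ_nsmul' P 3).symm
      rw [← h2] at h1
      simpa using h1.symm
    · apply n5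
      rw [succ_nsmul' P 4]
      nth_rewrite 1 [h1]
      exact neg_add_cancel _
  rw [hx] at d13 d14
  -- `b` and `c`
  obtain ⟨b, hb⟩ : ∃ b, b = -W.a₃ := ⟨_, rfl⟩
  obtain ⟨c, hc⟩ : ∃ c, c = 1 - W.a₁ := ⟨_, rfl⟩
  have ha3 : W.a₃ = -b := by rw [hb]; ring
  have ha2 : W.a₂ = -b := by rw [h23, ha3]
  have ha1 : W.a₁ = 1 - c := by rw [hc]; ring
  have hb0 : b ≠ 0 := by
    intro h0
    apply n2
    rw [h0, _root_.neg_zero] at ha3
    have h1 : P = -P := by
      apply pt_ext hP (neg_ne_zero.mpr hP)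
      · rw [px_neg]
      · rw [py_neg hP, hx, hy, ha3]; ring
    rw [two_nsmul]
    nth_rewrite 1 [h1]
    exact neg_add_cancel P
  -- `2 P`
  have t2 : P + P = (2 : ℕ) • P := (two_nsmul P).symm
  obtain ⟨l1, -, e2, e3, e4⟩ := slope_data hP hP (by rw [t2]; exact n2)
  rw [t2] at e3 e4
  rw [hx, hy, h4, ha3] at e2
  have hl1 : l1 = 0 := by
    have h1 : l1 * b = 0 := by linear_combination -e2
    exact (mul_eq_zero.mp h1).resolve_right hb0
  rw [hx, hl1, ha2] at e3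
  have x2 : px ((2 : ℕ) • P) = b := by rw [e3]; ring
  rw [hl1, hx, hy, x2, ha1, ha3] at e4
  have y2 : py ((2 : ℕ) • P) = b * c := by rw [e4]; ring
  -- `3 P`
  have t3 : P + (2 : ℕ) • P = (3 : ℕ) • P := (succ_nsmul' P 2).symm
  obtain ⟨l2, e1, -, e3, e4⟩ := slope_data hP n2 (by rw [t3]; exact n3)
  rw [t3] at e3 e4
  rw [hx, hy, x2, y2] at e1
  have hl2 : l2 = c := by
    apply mul_right_cancel₀ hb0
    linear_combination -e1
  rw [hx, x2, hl2, ha1, ha2] at e3
  have x3 : px ((3 : ℕ) • P) = c := by rw [e3]; ring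
  rw [hl2, hx, hy, x3, ha1, ha3] at e4
  have y3 : py ((3 : ℕ) • P) = b - c := by rw [e4]; ring
  have hc0 : c ≠ 0 := by rw [x3] at d13; exact d13.symm
  -- `4 P`
  obtain ⟨r, hr⟩ : ∃ r, b = r * c := ⟨b / c, (div_mul_cancel₀ _ hc0).symm⟩
  have t4 : P + (3 : ℕ) • P = (4 : ℕ) • P := (succ_nsmul' P 3).symm
  obtain ⟨l3, e1, -, e3, e4⟩ := slope_data hP n3 (by rw [t4]; exact n4)
  rw [t4] at e3 e4
  rw [hx, hy, x3, y3] at e1
  have hl3 : l3 = r - 1 := by
    apply mul_right_cancel₀ hc0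
    rw [hr] at e1
    linear_combination -e1
  rw [hx, x3, hl3, ha1, ha2, hr] at e3
  have x4 : px ((4 : ℕ) • P) = r * (r - 1) := by rw [e3]; ring
  rw [hl3, hx, hy, x4, ha1, ha3, hr] at e4
  have y4 : py ((4 : ℕ) • P) = r ^ 2 * (c - r + 1) := by rw [e4]; ring
  rw [x4] at d14
  have hr0 : r ≠ 0 := left_ne_zero_of_mul d14.symm
  have hr1 : r - 1 ≠ 0 := right_ne_zero_of_mul d14.symm
  -- `5 P`
  obtain ⟨s, hs⟩ : ∃ s, c = s * (r - 1) := ⟨c / (r - 1), (div_mul_cancel₀ _ hr1).symm⟩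
  have t5 : P + (4 : ℕ) • P = (5 : ℕ) • P := (succ_nsmul' P 4).symm
  obtain ⟨l4, e1, -, e3, e4⟩ := slope_data hP n4 (by rw [t5]; exact n5)
  rw [t5] at e3 e4
  rw [hx, hy, x4, y4, hs] at e1
  have hl4 : l4 = r * (s - 1) := by
    apply mul_right_cancel₀ (mul_ne_zero hr0 hr1)
    linear_combination -e1
  rw [hx, x4, hl4, ha1, ha2, hr, hs] at e3
  have x5 : px ((5 : ℕ) • P) = r * s * (s - 1) := by rw [e3]; ring
  -- the relation `5 P = - 4 P`
  have h54 : (5 : ℕ) • P = -((4 : ℕ) • P) := by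
    rw [eq_neg_iff_add_eq_zero, ← add_nsmul]
    exact h9
  rw [h54, px_neg, x4] at x5
  have hrs : r - 1 = s * (s - 1) := by
    apply mul_left_cancel₀ hr0
    linear_combination x5
  have hr' : r = s ^ 2 - s + 1 := by linear_combination hrs
  have hc' : c = s ^ 2 * (s - 1) := by rw [hs, hrs]; ring
  rw [hrs] at hr1
  refine ⟨s, left_ne_zero_of_mul hr1, sub_ne_zero.1 (right_ne_zero_of_mul hr1), ?_, ?_, ?_, ?_⟩
  · rw [ha1, hc']
  · rw [ha3, hr, hc', hr']
  · rw [x3, hc']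
  · rw [y3, hr, hc', hr']; ring

/-- The case of Tate's normal form. -/
theorem false_of_tate (h4 : W.a₄ = 0) (h23 : W.a₂ = W.a₃) {S : W.Point}
    (hS : addOrderOf S = 27) (hx : px ((3 : ℕ) • S) = 0) (hy : py ((3 : ℕ) • S) = 0) : False := by
  have h27 : (27 : ℕ) • S = 0 := by rw [← hS]; exact addOrderOf_nsmul_eq_zero S
  have hne : ∀ m : ℕ, ¬ 27 ∣ m → m • S ≠ 0 := by
    intro m hm h0
    rw [← hS] at hm
    exact hm (addOrderOf_dvd_iff_nsmul_eq_zero.2 h0)
  have hdist : ∀ m n : ℕ, ¬ 27 ∣ m → ¬ 27 ∣ n → ¬ 27 ∣ m + n → m % 27 ≠ n % 27 →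
      px (m • S) ≠ px (n • S) := by
    intro m n hm hn h1 h2 h3
    rcases (px_eq_iff (hne m hm) (hne n hn)).1 h3 with h4 | h4
    · apply h2
      have := (nsmul_eq_nsmul_iff_modEq (x := S) (m := n) (n := m)).1 h4
      rw [hS] at this
      exact this
    · rw [eq_neg_iff_add_eq_zero, ← add_nsmul] at h4
      exact hne (m + n) h1 h4
  have e9 : (3 : ℕ) • ((3 : ℕ) • S) = (9 : ℕ) • S := by rw [← mul_nsmul]
  obtain ⟨s, hs0, hs1, a1, a3, x3, y3⟩ := tate_data (P := (3 : ℕ) • S) h4 h23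
    (fun n hn => by
      rw [← mul_nsmul]
      exact hne _ (by omega)) (by rw [← mul_nsmul]; exact h27) hx hy
  rw [e9] at x3 y3
  have n9 := hne 9 (by norm_num)
  have n18 := hne 18 (by norm_num)
  have t18 : (9 : ℕ) • S + (9 : ℕ) • S = (18 : ℕ) • S := by rw [← add_nsmul]
  have e18 : (18 : ℕ) • S = -((9 : ℕ) • S) := by
    rw [eq_neg_iff_add_eq_zero, ← add_nsmul]
    exact h27
  obtain ⟨l, v, g1, -, -, g2, g3, g4, g5⟩ := line_data n9 n9 (by rw [t18]; exact n18)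
  rw [t18, e18, px_neg] at g3 g4 g5
  obtain ⟨w, hw⟩ := exists_cube (W := W) (l := l) (v := v) (X := px ((9 : ℕ) • S)) (S := S)
    (by linear_combination g3) (by linear_combination g4) (by linear_combination g5)
    (by simpa using hne 1 (by norm_num)) (hne 2 (by norm_num)) (hne 3 (by norm_num))
    (by simpa using hdist 1 9 (by norm_num) (by norm_num) (by norm_num) (by norm_num))
    (hdist 2 9 (by norm_num) (by norm_num) (by norm_num) (by norm_num))
    (hdist 3 9 (by norm_num) (by norm_num) (by norm_num) (by norm_num))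
  rw [fl, hx, hy] at hw
  rw [x3, y3] at g1 g2
  rw [h23, a1, a3, h4] at g2
  have hs1' : s - 1 ≠ 0 := sub_ne_zero.2 hs1
  have hl : l = s ^ 2 - 1 := by
    have h0 : s ^ 3 * (s - 1) ^ 3 ≠ 0 := mul_ne_zero (pow_ne_zero 3 hs0) (pow_ne_zero 3 hs1')
    apply mul_left_cancel₀ h0
    linear_combination (-1) * g2
  have hv : -v = (s * (s - 1)) ^ 2 := by
    rw [hl] at g1
    linear_combination g1
  have hw2 : (s * (s - 1)) ^ 2 = w ^ 3 := by
    rw [← hv, ← hw]
    ring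
  have hs2 : s * (s - 1) ≠ 0 := mul_ne_zero hs0 hs1'
  have hw0 : w ≠ 0 := by
    rintro rfl
    exact pow_ne_zero 2 hs2 (by rw [hw2]; norm_num)
  apply not_cube (s := s) (k := s * (s - 1) / w) ?_ hs0 hs1
  rw [div_pow, ← hw2, eq_div_iff (pow_ne_zero 2 hs2)]
  ring

/-- A curve with a point `P`, `2 P ≠ 0 ≠ 3 P`, can be brought into Tate's normal form. -/
theorem exists_tate {P : W.Point} (n2 : (2 : ℕ) • P ≠ 0) (n3 : (3 : ℕ) • P ≠ 0) :
    ∃ (C : VariableChange ℚ) (P' : (C • W : WeierstrassCurve ℚ).toAffine.Point),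
      px P' = 0 ∧ py P' = 0 ∧ (C • W).a₄ = 0 ∧ (C • W).a₆ = 0 ∧
      (C • W).a₂ = (C • W).a₃ ∧ vcFun (W := W) (W' := (C • W : WeierstrassCurve ℚ)) rfl P' = P := by
  have hP : P ≠ 0 := by
    rintro rfl
    exact n2 (nsmul_zero 2)
  have hY : 2 * py P + W.a₁ * px P + W.a₃ ≠ 0 := by
    intro h0
    apply n2
    have h1 : P = -P := by
      apply pt_ext hP (neg_ne_zero.mpr hP)
      · rw [px_neg]
      · rw [py_neg hP]
        linear_combination h0
    rw [two_nsmul]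
    nth_rewrite 1 [h1]
    exact neg_add_cancel P
  have t2 : P + P = (2 : ℕ) • P := (two_nsmul P).symm
  obtain ⟨l, -, e2, e3, -⟩ := slope_data hP hP (by rw [t2]; exact n2)
  rw [t2] at e3
  have hl : l * (2 * py P + W.a₁ * px P + W.a₃) = 3 * px P ^ 2 + 2 * W.a₂ * px P + W.a₄ -
      W.a₁ * py P := by
    linear_combination e2
  have hA : W.a₂ - l * W.a₁ + 3 * px P - l ^ 2 ≠ 0 := by
    intro h0
    have hxx : px P = px ((2 : ℕ) • P) := by
      rw [e3]
      linear_combination h0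
    rcases (px_eq_iff hP n2).1 hxx with h1 | h1
    · apply hP
      rw [two_nsmul] at h1
      simpa using h1.symm
    · apply n3
      rw [succ_nsmul' P 2]
      nth_rewrite 1 [h1]
      exact neg_add_cancel _
  have hu : (2 * py P + W.a₁ * px P + W.a₃) / (W.a₂ - l * W.a₁ + 3 * px P - l ^ 2) ≠ 0 :=
    div_ne_zero hY hA
  obtain ⟨C, hC⟩ : ∃ C : VariableChange ℚ, C = ⟨Units.mk0 _ hu, px P, l, py P⟩ := ⟨_, rfl⟩
  have hCu : (C.u : ℚ) = (2 * py P + W.a₁ * px P + W.a₃) /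
      (W.a₂ - l * W.a₁ + 3 * px P - l ^ 2) := by rw [hC]; rfl
  have hCr : C.r = px P := by rw [hC]
  have hCs : C.s = l := by rw [hC]
  have hCt : C.t = py P := by rw [hC]
  have hu0 : (C.u : ℚ) ≠ 0 := C.u.ne_zero
  have v2 := vc_a₂ (W := W) (W' := (C • W : WeierstrassCurve ℚ)) rfl
  have v3 := vc_a₃ (W := W) (W' := (C • W : WeierstrassCurve ℚ)) rfl
  have v4 := vc_a₄ (W := W) (W' := (C • W : WeierstrassCurve ℚ)) rfl
  have v6 := vc_a₆ (W := W) (W' := (C • W : WeierstrassCurve ℚ)) rfl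
  rw [hCr, hCs] at v2
  rw [hCr, hCt] at v3
  rw [hCr, hCs, hCt] at v4
  rw [hCr, hCt] at v6
  obtain ⟨P', hP'⟩ := vcFun_surjective (W := W) (W' := (C • W : WeierstrassCurve ℚ)) rfl P
  have hP'0 : P' ≠ 0 := by
    rintro rfl
    exact hP hP'.symm
  have hx := px_vcFun (W := W) (W' := (C • W : WeierstrassCurve ℚ)) rfl hP'0
  have hy := py_vcFun (W := W) (W' := (C • W : WeierstrassCurve ℚ)) rfl hP'0
  rw [hP', vx, hCr] at hx
  have hx0 : px P' = 0 := by
    have h1 : (C.u : ℚ) ^ 2 * px P' = 0 := by linear_combination -hx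
    exact (mul_eq_zero.mp h1).resolve_left (pow_ne_zero 2 hu0)
  rw [hP', vy, hCs, hCt, hx0] at hy
  have hy0 : py P' = 0 := by
    have h1 : (C.u : ℚ) ^ 3 * py P' = 0 := by linear_combination -hy
    exact (mul_eq_zero.mp h1).resolve_left (pow_ne_zero 3 hu0)
  refine ⟨C, P', hx0, hy0, ?_, ?_, ?_, hP'⟩
  · have h1 : (C.u : ℚ) ^ 4 * (C • W).a₄ = 0 := by
      rw [v4]
      linear_combination -hl
    exact (mul_eq_zero.mp h1).resolve_left (pow_ne_zero 4 hu0)
  · have h1 : (C.u : ℚ) ^ 6 * (C • W).a₆ = 0 := by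
      rw [v6]
      have := eqn_of_ne_zero hP
      linear_combination -this
    exact (mul_eq_zero.mp h1).resolve_left (pow_ne_zero 6 hu0)
  · apply mul_left_cancel₀ (pow_ne_zero 3 hu0)
    rw [v3]
    have h1 : (C.u : ℚ) ^ 3 * (C • W).a₂ = (C.u : ℚ) * (W.a₂ - l * W.a₁ + 3 * px P - l ^ 2) := by
      rw [← v2]; ring
    rw [h1, hCu, div_mul_cancel₀ _ hA]
    ring

/-- **No elliptic curve over `ℚ` has a rational point of order `27`** (the curve may even be singular). -/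
theorem addOrderOf_ne_twentyseven (Q : W.Point) : addOrderOf Q ≠ 27 := by
  intro hQ
  have hne : ∀ m : ℕ, ¬ 27 ∣ m → m • Q ≠ 0 := by
    intro m hm h0
    rw [← hQ] at hm
    exact hm (addOrderOf_dvd_iff_nsmul_eq_zero.2 h0)
  obtain ⟨C, P', hx, hy, h4, -, h23, hP'⟩ := exists_tate (P := (3 : ℕ) • Q)
    (by rw [← mul_nsmul]; exact hne _ (by norm_num))
    (by rw [← mul_nsmul]; exact hne _ (by norm_num))
  obtain ⟨S, hS⟩ := vcFun_surjective (W := W) (W' := (C • W : WeierstrassCurve ℚ)) rfl Q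
  have h3 : (3 : ℕ) • S = P' := by
    apply vcFun_injective (W := W) (W' := (C • W : WeierstrassCurve ℚ)) rfl
    rw [hP', ← hS]
    exact map_nsmul (vcEquiv (W := W) (W' := (C • W : WeierstrassCurve ℚ)) rfl) 3 S
  have hord : addOrderOf S = 27 := by
    rw [← hQ, ← hS]
    exact (addOrderOf_injective (vcEquiv (W := W) (W' := (C • W : WeierstrassCurve ℚ)) rfl
      ).toAddMonoidHom (vcEquiv (W := W) (W' := (C • W : WeierstrassCurve ℚ)) rfl).injective S).symm
  exact false_of_tate h4 h23 hord (by rw [h3]; exact hx) (by rw [h3]; exact hy)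

end rational

end Fermat.Agent.Cor.Ord27
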