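import Mathlib
import Fermat.Agent.H09.Torsion
import Fermat.Agent.S01

set_option autoImplicit false

/-!
# No elliptic curve over `ℚ` has a rational point of order 49

Let `Q` be a point of order 49 and `P = 7 Q`. The elliptic divisibility sequence of `Q` shows that
`ψ₄(P) / ψ₃(P)` is a seventh power. In terms of the parameter `d` of `X₁(7)` it is
`u ^ 7 d ^ 5 (1 - d) ^ 3`, so that `d` and `1 - d` are seventh powers up to a common
denominator: this contradicts Fermat's Last Theorem for the exponent 7.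
-/

namespace Fermat.Agent.Cor.Ord49

open WeierstrassCurve WeierstrassCurve.Affine WeierstrassCurve.Affine.Point
open Fermat.Agent.H09

section Field

variable {F : Type*} [Field F] [DecidableEq F] {W : WeierstrassCurve.Affine F}

theorem psi2_mul {A B : W.Point} (hA : A ≠ 0) (hB : B ≠ 0) (hx : xc A ≠ xc B) :
    (xc (A - B) - xc (A + B)) * (xc A - xc B) ^ 2 = psi2 A * psi2 B := by
  rw [xc_add hA hB hx, xc_sub hA hB hx, psi2, psi2]
  have := sub_ne_zero.mpr hx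
  field_simp
  ring

variable {Q : W.Point}

/-- `x(nQ) - x(mQ)` -/
theorem diff {r : ℕ} (hQ : Q ≠ 0) (hr : ∀ k : ℕ, 1 ≤ k → k < r → k • Q ≠ 0) {m n : ℕ}
    (hm : 1 ≤ m) (hmr : m < r) (hn : 1 ≤ n) (hnr : n < r) :
    psiv Q ((m : ℤ) + n) * psiv Q ((m : ℤ) - n) =
      psiv Q m ^ 2 * psiv Q n ^ 2 * (xc (n • Q) - xc (m • Q)) := by
  have h1 := (psiv_ne_zero_aux hQ hr m hm hmr).2
  have h2 := (psiv_ne_zero_aux hQ hr n hn hnr).2
  have h3 := ellRel_normEDS (psi2 Q) (psi3 Q) (psi4 Q) (m : ℤ) (n : ℤ)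
  unfold EllRel at h3
  unfold psiv at h1 h2 ⊢
  linear_combination h3 + (normEDS (psi2 Q) (psi3 Q) (psi4 Q) n) ^ 2 * h1 -
    (normEDS (psi2 Q) (psi3 Q) (psi4 Q) m) ^ 2 * h2

theorem xc_eq_of_add {a b : ℕ} (h : (a + b) • Q = 0) : xc (a • Q) = xc (b • Q) := by
  have : a • Q = -(b • Q) := by rw [eq_neg_iff_add_eq_zero, ← add_nsmul, h]
  rw [this, xc_neg]

/-- `w₂₈ = c ^ 7 w₂₁` with `c = w₂₅ / w₂₄`. -/
theorem w28 (hQ : Q ≠ 0) (hr : ∀ k : ℕ, 1 ≤ k → k < 49 → k • Q ≠ 0) (h49 : 49 • Q = 0) :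
    psiv Q 28 * psiv Q 24 ^ 7 = psiv Q 25 ^ 7 * psiv Q 21 := by
  have hne : ∀ k : ℕ, 1 ≤ k → k < 49 → psiv Q k ≠ 0 := fun k h1 h2 =>
    (psiv_ne_zero_aux hQ hr k h1 h2).1
  have hx : ∀ k : ℕ, 1 ≤ k → k < 49 →
      (xc (k • Q) - xc Q) * psiv Q k ^ 2 = -(psiv Q ((k : ℤ) + 1) * psiv Q ((k : ℤ) - 1)) :=
    fun k h1 h2 => (psiv_ne_zero_aux hQ hr k h1 h2).2
  have e0 : xc (25 • Q) = xc (24 • Q) := xc_eq_of_add (a := 25) (b := 24) h49
  have e1 : xc (26 • Q) = xc (23 • Q) := xc_eq_of_add (a := 26) (b := 23) h49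
  have e2 : xc (27 • Q) = xc (22 • Q) := xc_eq_of_add (a := 27) (b := 22) h49
  have n21 := hne 21 (by norm_num) (by norm_num)
  have n22 := hne 22 (by norm_num) (by norm_num)
  have n23 := hne 23 (by norm_num) (by norm_num)
  have n24 := hne 24 (by norm_num) (by norm_num)
  have n25 := hne 25 (by norm_num) (by norm_num)
  have n26 := hne 26 (by norm_num) (by norm_num)
  have n27 := hne 27 (by norm_num) (by norm_num)
  have x22 := hx 22 (by norm_num) (by norm_num)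
  have x23 := hx 23 (by norm_num) (by norm_num)
  have x24 := hx 24 (by norm_num) (by norm_num)
  have x25 := hx 25 (by norm_num) (by norm_num)
  have x26 := hx 26 (by norm_num) (by norm_num)
  have x27 := hx 27 (by norm_num) (by norm_num)
  rw [e0] at x25
  rw [e1] at x26
  rw [e2] at x27
  push_cast at *
  norm_num at *
  generalize psiv Q 21 = w21 at *
  generalize psiv Q 22 = w22 at *
  generalize psiv Q 23 = w23 at *
  generalize psiv Q 24 = w24 at *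
  generalize psiv Q 25 = w25 at *
  generalize psiv Q 26 = w26 at *
  generalize psiv Q 27 = w27 at *
  generalize psiv Q 28 = w28 at *
  generalize xc (22 • Q) - xc Q = y22 at *
  generalize xc (23 • Q) - xc Q = y23 at *
  generalize xc (24 • Q) - xc Q = y24 at *
  -- w26
  have a26 : w26 * w24 ^ 3 = w25 ^ 3 * w23 := by
    have h1 : w26 * w24 * w24 ^ 2 = w25 * w23 * w25 ^ 2 := by
      linear_combination w24 ^ 2 * x25 - w25 ^ 2 * x24
    linear_combination h1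
  have a27 : w27 * w24 ^ 5 = w25 ^ 5 * w22 := by
    have h1 : w27 * w25 * w23 ^ 2 = w24 * w22 * w26 ^ 2 := by
      linear_combination w23 ^ 2 * x26 - w26 ^ 2 * x23
    have h2 : w27 * w24 ^ 5 * (w25 * w23 ^ 2) = w25 ^ 5 * w22 * (w25 * w23 ^ 2) := by
      linear_combination w24 ^ 5 * h1 + w22 * (w26 * w24 ^ 3 + w25 ^ 3 * w23) * a26
    exact mul_right_cancel₀ (mul_ne_zero n25 (pow_ne_zero 2 n23)) h2
  have h1 : w28 * w26 * w22 ^ 2 = w23 * w21 * w27 ^ 2 := by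
    linear_combination w22 ^ 2 * x27 - w27 ^ 2 * x22
  have h2 : w28 * w24 ^ 7 * (w25 ^ 3 * w23 * w22 ^ 2) =
      w25 ^ 7 * w21 * (w25 ^ 3 * w23 * w22 ^ 2) := by
    linear_combination w24 ^ 10 * h1 - w28 * w24 ^ 7 * w22 ^ 2 * a26 +
      w23 * w21 * (w27 * w24 ^ 5 + w25 ^ 5 * w22) * a27
  exact mul_right_cancel₀ (mul_ne_zero (mul_ne_zero (pow_ne_zero 3 n25) n23)
    (pow_ne_zero 2 n22)) h2

/-- **`ψ₄(P) / ψ₃(P)` is a seventh power** for `P = 7 Q`, `Q` of order 49. -/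
theorem seventh_power (hQ : Q ≠ 0) (hr : ∀ k : ℕ, 1 ≤ k → k < 49 → k • Q ≠ 0)
    (h49 : 49 • Q = 0) :
    psiv (7 • Q) 4 * (psiv Q 24 * psiv Q 7) ^ 7 = psiv (7 • Q) 3 * psiv Q 25 ^ 7 := by
  have hne : ∀ k : ℕ, 1 ≤ k → k < 49 → psiv Q k ≠ 0 := fun k h1 h2 =>
    (psiv_ne_zero_aux hQ hr k h1 h2).1
  have hP : 7 • Q ≠ 0 := hr 7 (by norm_num) (by norm_num)
  have hPr : ∀ k : ℕ, 1 ≤ k → k < 7 → k • (7 • Q) ≠ 0 := by
    intro k h1 h2
    rw [← mul_nsmul']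
    exact hr _ (by omega) (by omega)
  have n2 := hne 2 (by norm_num) (by norm_num)
  have n6 := hne 6 (by norm_num) (by norm_num)
  have n7 := hne 7 (by norm_num) (by norm_num)
  have n8 := hne 8 (by norm_num) (by norm_num)
  have n14 := hne 14 (by norm_num) (by norm_num)
  have n21 := hne 21 (by norm_num) (by norm_num)
  have n24 := hne 24 (by norm_num) (by norm_num)
  have h28 := w28 hQ hr h49
  -- `psi2 (7 Q)`
  have hx7 : (xc (7 • Q) - xc Q) * psiv Q 7 ^ 2 = -(psiv Q 8 * psiv Q 6) := by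
    have := (psiv_ne_zero_aux hQ hr 7 (by norm_num) (by norm_num)).2
    norm_num at this
    exact this
  have hne7 : xc (7 • Q) ≠ xc Q := by
    intro h
    rw [h, sub_self, zero_mul] at hx7
    have h8 : psiv Q 8 * psiv Q 6 = 0 := by linear_combination hx7
    push_cast at n8 n6
    rcases mul_eq_zero.mp h8 with h | h
    · exact n8 h
    · exact n6 h
  have hmul := psi2_mul hP hQ hne7
  have s6 : 7 • Q - Q = 6 • Q := by
    rw [show (7 : ℕ) = 6 + 1 by norm_num, add_nsmul, one_nsmul, add_sub_cancel_right]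
  have s8 : 7 • Q + Q = 8 • Q := by
    rw [show (8 : ℕ) = 7 + 1 by norm_num, add_nsmul, one_nsmul]
  rw [s6, s8] at hmul
  have d86 := diff hQ hr (m := 8) (n := 6) (by norm_num) (by norm_num) (by norm_num) (by norm_num)
  have d14 := diff hQ hr (m := 14) (n := 7) (by norm_num) (by norm_num) (by norm_num) (by norm_num)
  have d21 := diff hQ hr (m := 21) (n := 7) (by norm_num) (by norm_num) (by norm_num) (by norm_num)
  have p2 := (psiv_ne_zero_aux hP hPr 2 (by norm_num) (by norm_num)).2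
  have p3 := (psiv_ne_zero_aux hP hPr 3 (by norm_num) (by norm_num)).2
  have q2 := (psiv_ne_zero_aux hP hPr 2 (by norm_num) (by norm_num)).1
  have q3 := (psiv_ne_zero_aux hP hPr 3 (by norm_num) (by norm_num)).1
  rw [← mul_nsmul'] at p2 p3
  have hV2 : psiv (7 • Q) 2 = psi2 (7 • Q) := by rw [psiv, normEDS_two]
  have hV1 : psiv (7 • Q) 1 = 1 := by rw [psiv, normEDS_one]
  have hw2 : psiv Q 2 = psi2 Q := by rw [psiv, normEDS_two]
  norm_num at p2 p3 q2 q3 d86 d14 d21 n2 n6 n7 n8 n14 n21 n24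
  rw [hV1, mul_one] at p2
  rw [← hV2, ← hw2] at hmul
  generalize psiv (7 • Q) 2 = V2 at *
  generalize psiv (7 • Q) 3 = V3 at *
  generalize psiv (7 • Q) 4 = V4 at *
  generalize psiv Q 2 = w2 at *
  generalize psiv Q 6 = w6 at *
  generalize psiv Q 7 = w7 at *
  generalize psiv Q 8 = w8 at *
  generalize psiv Q 14 = w14 at *
  generalize psiv Q 21 = w21 at *
  generalize psiv Q 24 = w24 at *
  generalize psiv Q 25 = w25 at *
  generalize psiv Q 28 = w28 at *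
  generalize xc (7 • Q) = x7 at *
  generalize xc (6 • Q) = x6 at *
  generalize xc (8 • Q) = x8 at *
  generalize xc (14 • Q) = x14 at *
  generalize xc (21 • Q) = x21 at *
  generalize xc Q = x1 at *
  have b2 : V2 * w7 ^ 4 = w14 := by
    have h1 : V2 * w7 ^ 4 * (w2 * (w8 ^ 2 * w6 ^ 2)) = w14 * (w2 * (w8 ^ 2 * w6 ^ 2)) := by
      linear_combination (-(w7 ^ 4 * w8 ^ 2 * w6 ^ 2)) * hmul - (w8 ^ 2 * w6 ^ 2) * d86 +
        (w8 ^ 2 * w6 ^ 2) * (x6 - x8) * ((x7 - x1) * w7 ^ 2 - w8 * w6) * hx7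
    exact mul_right_cancel₀ (mul_ne_zero n2 (mul_ne_zero (pow_ne_zero 2 n8) (pow_ne_zero 2 n6))) h1
  have b3 : V3 * w7 ^ 9 = w21 := by
    have h1 : V3 * w7 ^ 9 * (w14 ^ 2 * w7 ^ 2) = w21 * (w14 ^ 2 * w7 ^ 2) := by
      rw [← b2] at d14 ⊢
      linear_combination (w7 ^ 19 * V2 ^ 2) * p2 - V2 ^ 2 * w7 ^ 9 * d14
    exact mul_right_cancel₀ (mul_ne_zero (pow_ne_zero 2 n14) (pow_ne_zero 2 n7)) h1
  have b4 : V4 * w7 ^ 16 = w28 := by
    have h1 : V4 * w7 ^ 16 * (w7 ^ 4 * V2) = w28 * (w7 ^ 4 * V2) := by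
      rw [← b2, ← b3] at d21
      linear_combination (w7 ^ 20) * p3 - d21
    exact mul_right_cancel₀ (mul_ne_zero (pow_ne_zero 4 n7) q2) h1
  have h2 : V4 * (w24 * w7) ^ 7 * w7 ^ 9 = V3 * w25 ^ 7 * w7 ^ 9 := by
    rw [← b4, ← b3] at h28
    linear_combination h28
  exact mul_right_cancel₀ (pow_ne_zero 9 n7) h2

omit [DecidableEq F] in
/-- the relation `ψ₇ = 0` -/
theorem psi7 {P : W.Point} (h7 : psiv P 7 = 0) :
    psiv P 4 * psiv P 2 ^ 3 * psiv P 3 ^ 3 - psiv P 3 ^ 6 = psiv P 2 * psiv P 4 ^ 3 := by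
  have e5 := ellRel_normEDS (psi2 P) (psi3 P) (psi4 P) 3 2
  have e7 := ellRel_normEDS (psi2 P) (psi3 P) (psi4 P) 4 3
  unfold EllRel at e5 e7
  unfold psiv at *
  norm_num [normEDS_one] at e5 e7
  rw [h7, e5] at e7
  simp only [normEDS_two, normEDS_three, normEDS_four] at e7 ⊢
  linear_combination -e7

end Field

/-- **The Diophantine part**: `d ^ 5 (1 - d) ^ 3` is not a seventh power. -/
theorem not_seventh {d f : ℚ} (h0 : d ≠ 0) (h1 : d ≠ 1) : d ^ 5 * (1 - d) ^ 3 ≠ f ^ 7 := by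
  intro h
  have hflt : FermatLastTheoremFor 7 := by
    intro a b c ha hb hc
    exact Fermat.Agent.S01.result 7 (by norm_num) a b c (Nat.pos_of_ne_zero ha)
      (Nat.pos_of_ne_zero hb) (Nat.pos_of_ne_zero hc)
  have hfltQ : FermatLastTheoremWith ℚ 7 := fermatLastTheoremFor_iff_rat.mp hflt
  set m : ℤ := d.num with hm
  set n : ℤ := (d.den : ℤ) with hn
  have hn0 : (n : ℚ) ≠ 0 := by rw [hn]; exact_mod_cast d.den_ne_zero
  have hnZ : n ≠ 0 := by exact_mod_cast hn0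
  have hd : d * n = m := by
    rw [hn, hm]
    exact_mod_cast Rat.mul_den_eq_num d
  have hm0 : m ≠ 0 := by rw [hm]; exact Rat.num_ne_zero.mpr h0
  have hnm : n - m ≠ 0 := by
    intro h2
    apply h1
    have h3 : (m : ℚ) = n := by exact_mod_cast (sub_eq_zero.mp h2).symm
    rw [h3] at hd
    exact mul_right_cancel₀ hn0 (by rw [hd, one_mul])
  have hcop : IsCoprime m n := by
    rw [Int.isCoprime_iff_gcd_eq_one]
    have := d.reduced
    rw [hm, hn]
    simpa [Int.gcd, Nat.Coprime] using this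
  have hcop2 : IsCoprime m (n - m) := by
    have := hcop.add_mul_left_right (-1)
    have e : n + m * -1 = n - m := by ring
    rwa [e] at this
  have hcop3 : IsCoprime (n - m) n := by
    have := hcop.neg_left.add_mul_left_left 1
    have e : -m + n * 1 = n - m := by ring
    rwa [e] at this
  -- the integral equation
  have heq : (((m ^ 5 * (n - m) ^ 3 * n ^ 6 : ℤ)) : ℚ) = (f * n ^ 2) ^ 7 := by
    push_cast
    rw [← hd, mul_pow f, ← h]
    ring
  obtain ⟨t, ht⟩ : ∃ t : ℤ, (t : ℚ) = f * n ^ 2 := by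
    have hint : _root_.IsIntegral ℤ (f * (n : ℚ) ^ 2) := by
      apply _root_.IsIntegral.of_pow (n := 7) (by norm_num)
      rw [← heq]
      exact isIntegral_algebraMap
    obtain ⟨t, ht⟩ := IsIntegrallyClosed.isIntegral_iff.mp hint
    exact ⟨t, by simpa using ht⟩
  have heqZ : m ^ 5 * (n - m) ^ 3 * n ^ 6 = t ^ 7 := by
    rw [← ht] at heq
    exact_mod_cast heq
  have odd7 : Odd 7 := by decide
  have c1 : IsCoprime (m ^ 5 * (n - m) ^ 3) (n ^ 6) :=
    IsCoprime.mul_left (hcop.pow) (hcop3.pow)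
  obtain ⟨z, hz⟩ := Int.eq_pow_of_mul_eq_pow_odd_right c1 odd7 heqZ
  obtain ⟨s, hs⟩ := Int.eq_pow_of_mul_eq_pow_odd_left c1 odd7 heqZ
  have c2 : IsCoprime (m ^ 5) ((n - m) ^ 3) := hcop2.pow
  obtain ⟨x, hx⟩ := Int.eq_pow_of_mul_eq_pow_odd_left c2 odd7 hs
  obtain ⟨y, hy⟩ := Int.eq_pow_of_mul_eq_pow_odd_right c2 odd7 hs
  have hmQ : (m : ℚ) ≠ 0 := by exact_mod_cast hm0
  have hnmQ : ((n : ℚ) - m) ≠ 0 := by exact_mod_cast hnm
  have hxQ : (m : ℚ) ^ 5 = (x : ℚ) ^ 7 := by exact_mod_cast hx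
  have hyQ : ((n : ℚ) - m) ^ 3 = (y : ℚ) ^ 7 := by exact_mod_cast hy
  have hzQ : (n : ℚ) ^ 6 = (z : ℚ) ^ 7 := by exact_mod_cast hz
  have hx0 : (x : ℚ) ≠ 0 := by
    intro h2; rw [h2, zero_pow (by norm_num)] at hxQ; exact pow_ne_zero 5 hmQ hxQ
  have hy0 : (y : ℚ) ≠ 0 := by
    intro h2; rw [h2, zero_pow (by norm_num)] at hyQ; exact pow_ne_zero 3 hnmQ hyQ
  have hz0 : (z : ℚ) ≠ 0 := by
    intro h2; rw [h2, zero_pow (by norm_num)] at hzQ; exact pow_ne_zero 6 hn0 hzQ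
  refine hfltQ ((x : ℚ) ^ 3 / m ^ 2) ((y : ℚ) ^ 5 / ((n : ℚ) - m) ^ 2) ((z : ℚ) ^ 6 / n ^ 5)
    (div_ne_zero (pow_ne_zero 3 hx0) (pow_ne_zero 2 hmQ))
    (div_ne_zero (pow_ne_zero 5 hy0) (pow_ne_zero 2 hnmQ))
    (div_ne_zero (pow_ne_zero 6 hz0) (pow_ne_zero 5 hn0)) ?_
  have k1 : ((x : ℚ) ^ 3 / m ^ 2) ^ 7 = m := by
    rw [div_pow, div_eq_iff (pow_ne_zero 7 (pow_ne_zero 2 hmQ))]
    calc ((x : ℚ) ^ 3) ^ 7 = ((x : ℚ) ^ 7) ^ 3 := by ring
      _ = ((m : ℚ) ^ 5) ^ 3 := by rw [hxQ]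
      _ = _ := by ring
  have k2 : ((y : ℚ) ^ 5 / ((n : ℚ) - m) ^ 2) ^ 7 = n - m := by
    rw [div_pow, div_eq_iff (pow_ne_zero 7 (pow_ne_zero 2 hnmQ))]
    calc ((y : ℚ) ^ 5) ^ 7 = ((y : ℚ) ^ 7) ^ 5 := by ring
      _ = (((n : ℚ) - m) ^ 3) ^ 5 := by rw [hyQ]
      _ = _ := by ring
  have k3 : ((z : ℚ) ^ 6 / n ^ 5) ^ 7 = n := by
    rw [div_pow, div_eq_iff (pow_ne_zero 7 (pow_ne_zero 5 hn0))]
    calc ((z : ℚ) ^ 6) ^ 7 = ((z : ℚ) ^ 7) ^ 6 := by ring
      _ = ((n : ℚ) ^ 6) ^ 6 := by rw [hzQ]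
      _ = _ := by ring
  rw [k1, k2, k3]
  ring

/-- **No elliptic curve over `ℚ` has a rational point of order 49.** -/
theorem addOrderOf_ne_fortynine {E : WeierstrassCurve.Affine ℚ} (Q : E.Point) :
    addOrderOf Q ≠ 49 := by
  intro hord
  have hr : ∀ k : ℕ, 1 ≤ k → k < 49 → k • Q ≠ 0 := by
    intro k h1 h2 h0
    have := Nat.le_of_dvd (by omega) (hord ▸ addOrderOf_dvd_of_nsmul_eq_zero h0)
    omega
  have h49 : 49 • Q = 0 := by rw [← hord]; exact addOrderOf_nsmul_eq_zero Q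
  have hQ : Q ≠ 0 := by
    have := hr 1 le_rfl (by norm_num)
    rwa [one_nsmul] at this
  have hP : 7 • Q ≠ 0 := hr 7 (by norm_num) (by norm_num)
  have hPr : ∀ k : ℕ, 1 ≤ k → k < 7 → k • (7 • Q) ≠ 0 := by
    intro k h1 h2
    rw [← mul_nsmul']
    exact hr _ (by omega) (by omega)
  have h7 : psiv (7 • Q) (7 : ℕ) = 0 := by
    rw [← smul_eq_zero_iff_psiv hP, ← mul_nsmul']
    exact h49
  have hrel := psi7 (P := 7 • Q) (by exact_mod_cast h7)
  have hsev := seventh_power hQ hr h49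
  have q2 := (psiv_ne_zero_aux hP hPr 2 (by norm_num) (by norm_num)).1
  have q3 := (psiv_ne_zero_aux hP hPr 3 (by norm_num) (by norm_num)).1
  have q4 := (psiv_ne_zero_aux hP hPr 4 (by norm_num) (by norm_num)).1
  have n7 := (psiv_ne_zero_aux hQ hr 7 (by norm_num) (by norm_num)).1
  have n24 := (psiv_ne_zero_aux hQ hr 24 (by norm_num) (by norm_num)).1
  have n25 := (psiv_ne_zero_aux hQ hr 25 (by norm_num) (by norm_num)).1
  norm_num at q2 q3 q4 n7 n24 n25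
  generalize psiv (7 • Q) 2 = h at *
  generalize psiv (7 • Q) 3 = k at *
  generalize psiv (7 • Q) 4 = g' at *
  generalize psiv Q 7 = w7 at *
  generalize psiv Q 24 = w24 at *
  generalize psiv Q 25 = w25 at *
  set g : ℚ := g' / k with hg
  have hg' : g' = g * k := by rw [hg]; field_simp
  have hg0 : g ≠ 0 := div_ne_zero q4 q3
  have hge : g = (w25 / (w24 * w7)) ^ 7 := by
    rw [hg, div_pow, div_eq_div_iff q3 (pow_ne_zero 7 (mul_ne_zero n24 n7))]
    linear_combination hsev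
  have hrel' : g * h ^ 3 * k - k ^ 3 = h * g ^ 3 := by
    rw [hg'] at hrel
    apply mul_right_cancel₀ (pow_ne_zero 3 q3)
    linear_combination hrel
  have h1d : 1 - k ^ 2 / (g * h ^ 3) = g ^ 2 / (h ^ 2 * k) := by
    field_simp
    linear_combination hrel'
  refine not_seventh (d := k ^ 2 / (g * h ^ 3)) (f := w25 / (w24 * w7) * k / h ^ 3) ?_ ?_ ?_
  · exact div_ne_zero (pow_ne_zero 2 q3) (mul_ne_zero hg0 (pow_ne_zero 3 q2))
  · intro h2
    rw [h2, sub_self] at h1d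
    exact div_ne_zero (pow_ne_zero 2 hg0) (mul_ne_zero (pow_ne_zero 2 q2) q3) h1d.symm
  · rw [h1d]
    have e : (w25 / (w24 * w7) * k / h ^ 3) ^ 7 = g * k ^ 7 / h ^ 21 := by
      rw [div_pow, mul_pow, ← hge]
      ring
    rw [e]
    field_simp

end Fermat.Agent.Cor.Ord49
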