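import Fermat.Agent.Cor.Seven

/-!
# No elliptic curve over `ℚ` has a rational point of order `14`

The curve would give one of the two noncuspidal points `T = ± 7` of `X₀(14)` (`Cor/Seven.lean`). Over them, the first
coordinates of the points of order `7` generate the cubic field of discriminant `49`: the differences `a, b, c` of
three of them are, up to scaling, the roots of `z³ - 7 z + 7` respectively `z³ - 21 z + 7`.

This file is not used by any of the statement files.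
-/

set_option autoImplicit false

namespace Fermat.Agent.Cor.Seven

open WeierstrassCurve WeierstrassCurve.Affine WeierstrassCurve.Affine.Point
open Fermat.Agent.H51

section general

variable {K : Type*} [Field K] [DecidableEq K] {V : WeierstrassCurve.Affine K}

/-- The relations between the first coordinates of `P`, `2P`, `4P`, for a point `P` of order `7`. -/
theorem sums_of_order_seven {P : V.Point} (hord : addOrderOf P = 7) :
    fD (xc ((1 : ℕ) • P)) (xc ((2 : ℕ) • P)) (xc ((4 : ℕ) • P)) ≠ 0 ∧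
      Sum V.b₂ V.b₄ V.b₆ (xc ((1 : ℕ) • P)) (xc ((2 : ℕ) • P)) (xc ((4 : ℕ) • P)) ∧
      Sum V.b₂ V.b₄ V.b₆ (xc ((2 : ℕ) • P)) (xc ((4 : ℕ) • P)) (xc ((1 : ℕ) • P)) ∧
      Sum V.b₂ V.b₄ V.b₆ (xc ((4 : ℕ) • P)) (xc ((1 : ℕ) • P)) (xc ((2 : ℕ) • P)) := by
  have h7 : (7 : ℕ) • P = 0 := by rw [← hord]; exact addOrderOf_nsmul_eq_zero P
  have hne : ∀ m : ℕ, ¬ 7 ∣ m → m • P ≠ 0 := by
    intro m hm h0
    rw [← hord] at hm
    exact hm (addOrderOf_dvd_iff_nsmul_eq_zero.2 h0)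
  have hmod : ∀ m n : ℕ, m % 7 = n → m • P = n • P := by
    intro m n hmn
    conv_lhs => rw [← Nat.mod_add_div m 7, add_nsmul, mul_nsmul, h7, nsmul_zero, add_zero, hmn]
  have hng : ∀ m n : ℕ, (m + n) % 7 = 0 → m • P = -(n • P) := by
    intro m n hmn
    rw [eq_neg_iff_add_eq_zero, ← add_nsmul, hmod _ 0 hmn, zero_nsmul]
  have hx : ∀ m n : ℕ, ((m + n) % 7 = 0 ∨ m % 7 = n % 7) → xc (m • P) = xc (n • P) := by
    rintro m n (hmn | hmn)
    · rw [hng m n hmn, xc_neg]
    · rw [hmod m _ hmn, ← hmod n _ rfl]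
  have hdist : ∀ m n : ℕ, ¬ 7 ∣ m → ¬ 7 ∣ n → (m + n) % 7 ≠ 0 → m % 7 ≠ n % 7 →
      xc (m • P) ≠ xc (n • P) := by
    intro m n hm hn h1 h2 h3
    rcases (xc_eq_iff (hne m hm) (hne n hn)).1 h3 with h4 | h4
    · apply h2
      have := (nsmul_eq_nsmul_iff_modEq (x := P) (m := n) (n := m)).1 h4
      rw [hord] at this
      exact this
    · rw [eq_neg_iff_add_eq_zero, ← add_nsmul] at h4
      exact hne (m + n) (fun h5 => h1 (Nat.mod_eq_zero_of_dvd h5)) h4
  have hsub : ∀ m n : ℕ, ∀ k : ℕ, (n + k) % 7 = m % 7 → m • P - n • P = k • P := by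
    intro m n k hk
    rw [sub_eq_iff_eq_add, ← add_nsmul, hmod m _ rfl, hmod (k + n) (m % 7) (by
      rw [add_comm, hk])]
  have hS : ∀ m n k l : ℕ, ¬ 7 ∣ m → ¬ 7 ∣ n → (m + n) % 7 ≠ 0 → m % 7 ≠ n % 7 →
      ((m + n + k) % 7 = 0 ∨ (m + n) % 7 = k % 7) → (n + l) % 7 = m % 7 →
      ((l + m) % 7 = 0 ∨ l % 7 = m % 7) →
      Sum V.b₂ V.b₄ V.b₆ (xc (m • P)) (xc (n • P)) (xc (k • P)) := by
    intro m n k l hm hn h1 h2 h3 h4 h5
    have := xc_add_sub_sum (hne m hm) (hne n hn) (hdist m n hm hn h1 h2)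
    rw [← add_nsmul, hx (m + n) k h3, hsub m n l h4, hx l m h5] at this
    exact this
  refine ⟨?_, ?_, ?_, ?_⟩
  · unfold fD
    refine neg_ne_zero.2 (mul_ne_zero (mul_ne_zero ?_ ?_) ?_)
    · exact sub_ne_zero.2 (hdist 1 2 (by norm_num) (by norm_num) (by norm_num) (by norm_num))
    · exact sub_ne_zero.2 (hdist 2 4 (by norm_num) (by norm_num) (by norm_num) (by norm_num))
    · exact sub_ne_zero.2 (hdist 4 1 (by norm_num) (by norm_num) (by norm_num) (by norm_num))
  · exact hS 1 2 4 6 (by norm_num) (by norm_num) (by norm_num) (by norm_num) (by norm_num)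
      (by norm_num) (by norm_num)
  · exact hS 2 4 1 5 (by norm_num) (by norm_num) (by norm_num) (by norm_num) (by norm_num)
      (by norm_num) (by norm_num)
  · exact hS 4 1 2 3 (by norm_num) (by norm_num) (by norm_num) (by norm_num) (by norm_num)
      (by norm_num) (by norm_num)

/-- The first coordinate of a point of order two is a root of `4 x³ + b₂ x² + 2 b₄ x + b₆`. -/
theorem root_of_order_two {P : V.Point} (hP : P ≠ 0) (h2 : (2 : ℕ) • P = 0) :
    4 * xc P ^ 3 + V.b₂ * xc P ^ 2 + 2 * V.b₄ * xc P + V.b₆ = 0 := by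
  rcases P with _ | ⟨x, y, h⟩
  · exact absurd rfl hP
  · rw [xc_some]
    have h3 : Point.some x y h = -Point.some x y h := by
      rw [eq_neg_iff_add_eq_zero, ← two_nsmul]
      exact h2
    rw [neg_some] at h3
    have h4 : y = V.negY x y := by
      injection h3
    rw [negY] at h4
    have h5 := (equation_iff _ _).1 h.1
    rw [b₂, b₄, b₆]
    linear_combination (-4) * h5 + (2 * y + V.a₁ * x + V.a₃) * h4

end general

/-- An Eisenstein cubic. -/
theorem eisenstein {k : ℤ} {z : ℚ} (h : z ^ 3 + 7 * (k * z + 1) = 0) : False := by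
  have hD0 : (z.den : ℚ) ≠ 0 := by exact_mod_cast z.den_pos.ne'
  have hh : z * z.den = z.num := Rat.mul_den_eq_num z
  have h1 : z.num ^ 3 + 7 * (k * z.num * (z.den : ℤ) ^ 2 + (z.den : ℤ) ^ 3) = 0 := by
    have h2 : (z.num : ℚ) ^ 3 + 7 * (k * z.num * (z.den : ℚ) ^ 2 + (z.den : ℚ) ^ 3) = 0 := by
      rw [← hh]
      linear_combination (z.den : ℚ) ^ 3 * h
    exact_mod_cast h2
  have hcop : IsCoprime z.num (z.den : ℤ) := by
    rw [Int.isCoprime_iff_gcd_eq_one]
    exact z.reduced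
  generalize (z.den : ℤ) = d at h1 hcop
  generalize z.num = n at h1 hcop
  have h2 : (7 : ℤ) ∣ n := by
    apply prime7.dvd_of_dvd_pow (n := 3)
    exact ⟨-(k * n * d ^ 2 + d ^ 3), by linear_combination h1⟩
  obtain ⟨m, rfl⟩ := h2
  have h3 : (7 : ℤ) ∣ d := by
    apply prime7.dvd_of_dvd_pow (n := 3)
    refine ⟨-(7 * m ^ 3 + k * m * d ^ 2), ?_⟩
    have h4 : 7 * (d ^ 3) = 7 * (7 * -(7 * m ^ 3 + k * m * d ^ 2)) := by linear_combination h1
    linarith
  exact Fermat.Agent.H23.K1.cop_false hcop prime7 (dvd_mul_right _ _) h3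

/-- **No elliptic curve over `ℚ` has a rational point of order `14`.** -/
theorem addOrderOf_ne_fourteen {E : WeierstrassCurve.Affine ℚ} (hΔ : E.Δ ≠ 0) (P : E.Point) :
    addOrderOf P ≠ 14 := by
  intro hP
  have h7 : addOrderOf ((2 : ℕ) • P) = 7 := by
    rw [addOrderOf_nsmul' P (by norm_num), hP]
    norm_num
  have h2 : addOrderOf ((7 : ℕ) • P) = 2 := by
    rw [addOrderOf_nsmul' P (by norm_num), hP]
    norm_num
  obtain ⟨hD, h1, h3, h4⟩ := sums_of_order_seven h7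
  have hR0 : (7 : ℕ) • P ≠ 0 := by
    intro h
    rw [h, addOrderOf_zero] at h2
    norm_num at h2
  have hR2 : (2 : ℕ) • ((7 : ℕ) • P) = 0 := by
    rw [← h2]
    exact addOrderOf_nsmul_eq_zero _
  have ht := root_of_order_two hR0 hR2
  generalize xc ((7 : ℕ) • P) = t at ht
  generalize xc ((1 : ℕ) • ((2 : ℕ) • P)) = x₁ at hD h1 h3 h4
  generalize xc ((2 : ℕ) • ((2 : ℕ) • P)) = x₂ at hD h1 h3 h4
  generalize xc ((4 : ℕ) • ((2 : ℕ) • P)) = x₃ at hD h1 h3 h4
  have hX := root_ne h1 h3 h4 ht (by norm_num) hD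
  have hr := root_eq h1 h3 h4 ht
  have hdisc := disc_eq h1 h3 h4 hD
  have h4q := four_q x₁ x₂ x₃
  -- the cubic equation of `a`
  have hcub : (x₁ - x₂) ^ 3 - fq x₁ x₂ x₃ * (x₁ - x₂) + fD x₁ x₂ x₃ = 0 := by
    unfold fq fD
    ring
  generalize x₁ - x₂ = a at hcub
  generalize fq x₁ x₂ x₃ = q at hX hr h4q hcub
  generalize fe x₁ x₂ x₃ = e at hX hr
  generalize fD x₁ x₂ x₃ = D at hD hX hr hdisc h4q hcub
  generalize fw x₁ x₂ x₃ = w at hr hdisc h4q
  obtain ⟨T, hT⟩ : ∃ T, T = -(w + 13 * D) / (2 * D) := ⟨_, rfl⟩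
  have hw : w = -D * (2 * T + 13) := by
    rw [hT]
    field_simp
    ring
  subst hw
  have hT0 : T ≠ 0 := by
    rintro rfl
    apply hΔ
    have hb8 : 4 * E.b₈ = E.b₂ * E.b₆ - E.b₄ ^ 2 := E.b_relation
    have e2 : 4 * E.Δ = -E.b₂ ^ 2 * (E.b₂ * E.b₆ - E.b₄ ^ 2) - 32 * E.b₄ ^ 3 -
        108 * E.b₆ ^ 2 + 36 * E.b₂ * E.b₄ * E.b₆ := by
      rw [WeierstrassCurve.Δ, ← hb8]
      ring
    rw [hdisc] at e2
    linear_combination (1 / 4) * e2
  have hq0 : q ≠ 0 := by
    rintro rfl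
    have : 0 < 27 * D ^ 2 + (-D * (2 * T + 13)) ^ 2 := by positivity
    rw [← h4q] at this
    norm_num at this
  have hV : (2 * D / (q * t + e)) * T ^ 2 + (2 * D / (q * t + e)) *
      (2 * (2 * D / (q * t + e)) + 9) * T +
      ((2 * D / (q * t + e)) + 1) ^ 2 * ((2 * D / (q * t + e)) + 8) = 0 := by
    generalize q * t + e = X at hX hr
    field_simp
    apply mul_left_cancel₀ hD
    linear_combination hr / 2
  obtain ⟨s, hs⟩ : ∃ s, s = D / q := ⟨_, rfl⟩
  have hDs : D = s * q := by rw [hs]; field_simp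
  have hs0 : s ≠ 0 := by
    rintro rfl
    apply hD
    rw [hDs, zero_mul]
  rcases rat_T hV hT0 with ⟨-, h6⟩ | ⟨-, h6⟩
  · -- `q = 7 s²`, `D = 7 s³`
    rw [h6] at h4q
    have hq : q = 7 * s ^ 2 := by
      have h8 : q ^ 2 * q = q ^ 2 * (7 * s ^ 2) := by
        rw [hDs] at h4q
        linear_combination (1 / 4) * h4q
      exact mul_left_cancel₀ (pow_ne_zero 2 hq0) h8
    apply eisenstein (k := -1) (z := a / s)
    rw [hDs, hq] at hcub
    field_simp
    push_cast
    linear_combination hcub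
  · -- `q = 189 s²`, `D = 189 s³`
    rw [h6] at h4q
    have hq : q = 189 * s ^ 2 := by
      have h8 : q ^ 2 * q = q ^ 2 * (189 * s ^ 2) := by
        rw [hDs] at h4q
        linear_combination (1 / 4) * h4q
      exact mul_left_cancel₀ (pow_ne_zero 2 hq0) h8
    apply eisenstein (k := -3) (z := a / (3 * s))
    rw [hDs, hq] at hcub
    field_simp
    push_cast
    linear_combination hcub

end Fermat.Agent.Cor.Seven
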