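import Mathlib
import Fermat.Agent.Cor.Ord15
import Fermat.Agent.Cor.Seven14
import Fermat.Agent.Cor.Ord16
import Fermat.Agent.Cor.Ord20
import Fermat.Agent.Cor.Ord24
import Fermat.Agent.Cor.Ord27
import Fermat.Agent.Cor.Ord49

set_option autoImplicit false

/-!
# The orders of rational torsion points

Mazur's theorem on the orders of rational torsion points of elliptic curves over `ℚ`, except for
the orders divisible by `13`, `18`, `21`, `25` or `35`.

This file is not used by any of the statement files.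
-/

namespace Fermat.Agent.Cor.MazurOrders

open WeierstrassCurve

variable {E : WeierstrassCurve.Affine ℚ}

/-- divisors of the order of a point are orders of points -/
theorem exists_order {P : E.Point} (hn : addOrderOf P ≠ 0) {d : ℕ} (hd : d ∣ addOrderOf P) :
    ∃ Q : E.Point, addOrderOf Q = d := by
  obtain ⟨m, hm⟩ := hd
  have hm0 : m ≠ 0 := fun h => hn (by rw [hm, h, mul_zero])
  have hd0 : d ≠ 0 := fun h => hn (by rw [hm, h, zero_mul])
  refine ⟨m • P, ?_⟩
  rw [addOrderOf_nsmul' P hm0, hm, Nat.gcd_eq_right (dvd_mul_left m d),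
    Nat.mul_div_cancel _ (Nat.pos_of_ne_zero hm0)]

/-- **The orders of rational torsion points.** Let `n` be the order of a rational torsion point of
an elliptic curve over `ℚ`. Then `n ≤ 10` or `n = 12` or `n` is divisible by one of `13`, `18`,
`21`, `25`, `35`. -/
theorem order_cases (hΔ : E.Δ ≠ 0) (P : E.Point) (hn : addOrderOf P ≠ 0) :
    addOrderOf P ≤ 10 ∨ addOrderOf P = 12 ∨ 13 ∣ addOrderOf P ∨ 18 ∣ addOrderOf P ∨
      21 ∣ addOrderOf P ∨ 25 ∣ addOrderOf P ∨ 35 ∣ addOrderOf P := by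
  by_contra hcon
  push Not at hcon
  obtain ⟨h10, h12, h13, h18, h21, h25, h35⟩ := hcon
  have e14 : ¬ 14 ∣ addOrderOf P := fun h => by
    obtain ⟨Q, hQ⟩ := exists_order hn h
    exact Seven.addOrderOf_ne_fourteen hΔ Q hQ
  have e15 : ¬ 15 ∣ addOrderOf P := fun h => by
    obtain ⟨Q, hQ⟩ := exists_order hn h
    exact Ord15.addOrderOf_ne_fifteen hΔ Q hQ
  have e16 : ¬ 16 ∣ addOrderOf P := fun h => by
    obtain ⟨Q, hQ⟩ := exists_order hn h
    exact Ord16.addOrderOf_ne_sixteen Q hQ
  have e20 : ¬ 20 ∣ addOrderOf P := fun h => by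
    obtain ⟨Q, hQ⟩ := exists_order hn h
    exact Ord20.addOrderOf_ne_twenty hΔ Q hQ
  have e24 : ¬ 24 ∣ addOrderOf P := fun h => by
    obtain ⟨Q, hQ⟩ := exists_order hn h
    exact Ord24.addOrderOf_ne_twentyfour Q hQ
  have h49 : ¬ 49 ∣ addOrderOf P := fun h => by
    obtain ⟨Q, hQ⟩ := exists_order hn h
    exact Ord49.addOrderOf_ne_fortynine Q hQ
  have h27 : ¬ 27 ∣ addOrderOf P := fun h => by
    obtain ⟨Q, hQ⟩ := exists_order hn h
    exact Ord27.addOrderOf_ne_twentyseven Q hQ
  have hprime : ∀ q : ℕ, q.Prime → q ∣ addOrderOf P → q = 2 ∨ q = 3 ∨ q = 5 ∨ q = 7 := by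
    intro q hq hd
    rcases MazurTorsion.prime_dvd_addOrderOf (E := E) hΔ hn hq hd with h | h | h | h | h
    · exact Or.inl h
    · exact Or.inr (Or.inl h)
    · exact Or.inr (Or.inr (Or.inl h))
    · exact Or.inr (Or.inr (Or.inr h))
    · exact absurd (h ▸ hd) h13
  have key : ∀ n : ℕ, n ≠ 0 → (∀ q : ℕ, q.Prime → q ∣ n → q = 2 ∨ q = 3 ∨ q = 5 ∨ q = 7) →
      ¬ 16 ∣ n → ¬ 27 ∣ n → ¬ 25 ∣ n → ¬ 49 ∣ n → n ∣ 2520 := by
    intro n hn0 hpr n16 n27 n25 n49
    rw [← Nat.factorization_prime_le_iff_dvd hn0 (by norm_num)]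
    intro q hq
    by_cases hd : q ∣ n
    · rcases hpr q hq hd with rfl | rfl | rfl | rfl
      · have h1 : ¬ 4 ≤ n.factorization 2 := by
          rw [← hq.pow_dvd_iff_le_factorization hn0]; exact n16
        have h2 : 3 ≤ (2520 : ℕ).factorization 2 := by
          rw [← hq.pow_dvd_iff_le_factorization (by norm_num)]; norm_num
        omega
      · have h1 : ¬ 3 ≤ n.factorization 3 := by
          rw [← hq.pow_dvd_iff_le_factorization hn0]; exact n27
        have h2 : 2 ≤ (2520 : ℕ).factorization 3 := by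
          rw [← hq.pow_dvd_iff_le_factorization (by norm_num)]; norm_num
        omega
      · have h1 : ¬ 2 ≤ n.factorization 5 := by
          rw [← hq.pow_dvd_iff_le_factorization hn0]; exact n25
        have h2 : 1 ≤ (2520 : ℕ).factorization 5 := by
          rw [← hq.pow_dvd_iff_le_factorization (by norm_num)]; norm_num
        omega
      · have h1 : ¬ 2 ≤ n.factorization 7 := by
          rw [← hq.pow_dvd_iff_le_factorization hn0]; exact n49
        have h2 : 1 ≤ (2520 : ℕ).factorization 7 := by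
          rw [← hq.pow_dvd_iff_le_factorization (by norm_num)]; norm_num
        omega
    · rw [Nat.factorization_eq_zero_of_not_dvd hd]
      exact Nat.zero_le _
  have hdvd := key _ hn hprime e16 h27 h25 h49
  generalize addOrderOf P = n at *
  have hmem : n ∈ Nat.divisors 2520 := Nat.mem_divisors.mpr ⟨hdvd, by norm_num⟩
  have hall : ∀ m ∈ Nat.divisors 2520, m ≤ 10 ∨ m = 12 ∨ 14 ∣ m ∨ 15 ∣ m ∨ 18 ∣ m ∨ 20 ∣ m ∨
      21 ∣ m ∨ 24 ∣ m ∨ 35 ∣ m := by
    decide +kernel
  rcases hall n hmem with h | h | h | h | h | h | h | h | h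
  · exact absurd h (not_le.mpr h10)
  · exact h12 h
  · exact e14 h
  · exact e15 h
  · exact h18 h
  · exact e20 h
  · exact h21 h
  · exact e24 h
  · exact h35 h

end Fermat.Agent.Cor.MazurOrders
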