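import Mathlib
import Fermat.Agent.Cor.Ord27
import Fermat.Agent.Cor.Ord20
import Fermat.Agent.Cor.EulerRat

set_option autoImplicit false

/-!
# Rational points of order nine and square discriminants

`addOrderOf_ne_nine_of_sq`: an elliptic curve over `ℚ` whose discriminant is a square has no
rational point of order nine. In Tate's normal form of a point of order nine (with parameter `s`),
put `T = s (s - 1)`, `Q = s ^ 2 - s + 1` and `U = s ^ 3 - 6 s ^ 2 + 3 s + 1`; then the discriminant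
is `T ^ 9 Q ^ 3 U` and `Q ^ 3 = U ^ 2 + 9 T U + 27 T ^ 2`, so that `(U / T + 3, δ / T ^ 6)` is a
rational point of the curve `y ^ 2 = x ^ 3 - 27`, which is `3`-isogenous to Euler's curve
`y ^ 2 = x ^ 3 + 1`.

`addOrderOf_ne_nine_of_full`: an elliptic curve over `ℚ` with full rational `2`-torsion has no
rational point of order nine.

This file is not used by any of the statement files.
-/

namespace Fermat.Agent.Cor.NineSq

open WeierstrassCurve WeierstrassCurve.Affine WeierstrassCurve.Affine.Point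
open Fermat.Agent.H08 Fermat.Agent.Frob

/-- `4` is not a cube -/
theorem cube_ne_four (z : ℚ) : z ^ 3 ≠ 4 := by
  intro h
  have hd0 : (z.den : ℚ) ≠ 0 := by exact_mod_cast z.den_ne_zero
  have hz : z = z.num / z.den := (Rat.num_div_den z).symm
  have h1 : (z.num : ℚ) ^ 3 = 4 * (z.den : ℚ) ^ 3 := by
    rw [hz, div_pow, div_eq_iff (pow_ne_zero 3 hd0)] at h
    exact h
  have h2 : z.num ^ 3 = 4 * (z.den : ℤ) ^ 3 := by exact_mod_cast h1
  have h3 : Even z.num := by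
    have : Even (z.num ^ 3) := by rw [h2]; exact ⟨2 * (z.den : ℤ) ^ 3, by ring⟩
    exact (Int.even_pow' (by norm_num)).mp this
  obtain ⟨a, ha⟩ := h3
  have h4 : (z.den : ℤ) ^ 3 = 2 * a ^ 3 := by
    rw [ha] at h2
    have : 4 * (z.den : ℤ) ^ 3 = 4 * (2 * a ^ 3) := by rw [← h2]; ring
    linarith
  have h5 : Even (z.den : ℤ) := by
    have : Even ((z.den : ℤ) ^ 3) := by rw [h4]; exact ⟨a ^ 3, by ring⟩
    exact (Int.even_pow' (by norm_num)).mp this
  obtain ⟨b, hb⟩ := h5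
  have hcop : IsCoprime z.num (z.den : ℤ) := Rat.isCoprime_num_den z
  have h6 : IsUnit (2 : ℤ) := hcop.isUnit_of_dvd' ⟨a, by rw [ha]; ring⟩ ⟨b, by rw [hb]; ring⟩
  rw [Int.isUnit_iff] at h6
  omega

/-- `2 z ^ 3 - 6 z ^ 2 = 1` has no rational root -/
theorem no_root (z : ℚ) : 2 * z ^ 3 - 6 * z ^ 2 ≠ 1 := by
  intro h
  have hd0 : (z.den : ℚ) ≠ 0 := by exact_mod_cast z.den_ne_zero
  have hz : z * z.den = z.num := Rat.mul_den_eq_num z
  have h1 : 2 * (z.num : ℚ) ^ 3 - 6 * (z.num : ℚ) ^ 2 * z.den = (z.den : ℚ) ^ 3 := by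
    rw [← hz]
    linear_combination (z.den : ℚ) ^ 3 * h
  have h2 : 2 * z.num ^ 3 - 6 * z.num ^ 2 * (z.den : ℤ) = (z.den : ℤ) ^ 3 := by exact_mod_cast h1
  have h5 : Even (z.den : ℤ) := by
    have : Even ((z.den : ℤ) ^ 3) := by
      rw [← h2]; exact ⟨z.num ^ 3 - 3 * z.num ^ 2 * (z.den : ℤ), by ring⟩
    exact (Int.even_pow' (by norm_num)).mp this
  obtain ⟨b, hb⟩ := h5
  have h3 : Even z.num := by
    have : Even (z.num ^ 3) := by
      refine ⟨3 * z.num ^ 2 * b + 2 * b ^ 3, ?_⟩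
      rw [hb] at h2
      have : 2 * z.num ^ 3 = 2 * (3 * z.num ^ 2 * b + 2 * b ^ 3 + (3 * z.num ^ 2 * b + 2 * b ^ 3)) := by
        linear_combination h2
      linarith
    exact (Int.even_pow' (by norm_num)).mp this
  obtain ⟨a, ha⟩ := h3
  have hcop : IsCoprime z.num (z.den : ℤ) := Rat.isCoprime_num_den z
  have h6 : IsUnit (2 : ℤ) := hcop.isUnit_of_dvd' ⟨a, by rw [ha]; ring⟩ ⟨b, by rw [hb]; ring⟩
  rw [Int.isUnit_iff] at h6
  omega

/-- the only rational solution of `y ^ 2 = x ^ 3 - 27` is `(3, 0)` -/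
theorem eq_three {x y : ℚ} (h : y ^ 2 = x ^ 3 - 27) : x = 3 := by
  have hx0 : x ≠ 0 := by
    rintro rfl
    nlinarith [sq_nonneg y]
  have h1 : (y * (x ^ 3 + 216) / (27 * x ^ 3)) ^ 2 =
      ((x ^ 3 - 108) / (9 * x ^ 2)) ^ 3 + 1 := by
    rw [div_pow, div_pow, mul_pow, h]
    field_simp
    ring
  rcases EulerRat.rat_points h1 with h2 | h2 | h2
  · rw [div_eq_iff (by positivity)] at h2
    have h3 : (x - 3) * (x + 6) ^ 2 = 0 := by linear_combination h2
    rcases mul_eq_zero.mp h3 with h4 | h4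
    · linarith
    · have h5 : x = -6 := by
        have := pow_eq_zero_iff (two_ne_zero) |>.mp h4
        linarith
      rw [h5] at h
      nlinarith [sq_nonneg y]
  · rw [div_eq_iff (by positivity)] at h2
    exact absurd (show (x / 3) ^ 3 = 4 by
      rw [div_pow]; linarith) (cube_ne_four _)
  · rw [div_eq_iff (by positivity)] at h2
    exact absurd (show 2 * (x / 6) ^ 3 - 6 * (x / 6) ^ 2 = 1 by
      rw [div_pow, div_pow]; linarith) (no_root _)

variable {W : WeierstrassCurve.Affine ℚ}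

/-- **An elliptic curve over `ℚ` whose discriminant is a square has no rational point of order
nine.** -/
theorem addOrderOf_ne_nine_of_sq (hΔ : W.Δ ≠ 0) {δ : ℚ} (hδ : W.Δ = δ ^ 2) (P : W.Point) :
    addOrderOf P ≠ 9 := by
  intro hP
  have hne : ∀ m : ℕ, ¬ 9 ∣ m → m • P ≠ 0 := by
    intro m hm h0
    rw [← hP] at hm
    exact hm (addOrderOf_dvd_iff_nsmul_eq_zero.2 h0)
  obtain ⟨C, P', hx, hy, h4, h6, h23, hP'⟩ := Ord27.exists_tate (P := P)
    (hne _ (by norm_num)) (hne _ (by norm_num))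
  have hord : addOrderOf P' = 9 := by
    rw [← hP, ← hP']
    exact (addOrderOf_injective
      (vcEquiv (W := W) (W' := (C • W : WeierstrassCurve ℚ)) rfl).toAddMonoidHom
      (vcEquiv (W := W) (W' := (C • W : WeierstrassCurve ℚ)) rfl).injective P').symm
  obtain ⟨s, hs0, hs1, a1, a3, -, -⟩ := Ord27.tate_data (P := P') h4 h23
    (fun n hn h0 => hn (by rw [← hord]; exact addOrderOf_dvd_iff_nsmul_eq_zero.2 h0))
    (by rw [← hord]; exact addOrderOf_nsmul_eq_zero P') hx hy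
  have hs1' : s - 1 ≠ 0 := sub_ne_zero.2 hs1
  have hu0 : (C.u : ℚ) ≠ 0 := C.u.ne_zero
  have hvar : (C • W).Δ = (δ / (C.u : ℚ) ^ 6) ^ 2 := by
    rw [variableChange_Δ, hδ, Units.val_inv_eq_inv_val]
    field_simp
  have hDne : (C • W).Δ ≠ 0 := by
    rw [variableChange_Δ]
    exact mul_ne_zero (pow_ne_zero _ (C.u⁻¹).ne_zero) hΔ
  generalize δ / (C.u : ℚ) ^ 6 = ε at hvar
  have hD : (C • W).Δ = (s * (s - 1)) ^ 9 * (s ^ 2 - s + 1) ^ 3 *
      (s ^ 3 - 6 * s ^ 2 + 3 * s + 1) := by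
    rw [WeierstrassCurve.Δ, b₂, b₄, b₆, b₈, h6, h23, h4, a1, a3]
    ring
  rw [hD] at hDne
  rw [hD] at hvar
  have hU : s ^ 3 - 6 * s ^ 2 + 3 * s + 1 ≠ 0 := right_ne_zero_of_mul hDne
  have hT : s * (s - 1) ≠ 0 := mul_ne_zero hs0 hs1'
  have h3 := eq_three (x := (s ^ 3 - 6 * s ^ 2 + 3 * s + 1) / (s * (s - 1)) + 3)
    (y := ε / (s * (s - 1)) ^ 6) (by
      rw [div_pow, ← hvar]
      field_simp
      ring)
  have h5 : (s ^ 3 - 6 * s ^ 2 + 3 * s + 1) / (s * (s - 1)) = 0 := by linarith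
  rcases div_eq_zero_iff.mp h5 with h | h
  · exact hU h
  · exact hT h

/-- **An elliptic curve over `ℚ` with full rational `2`-torsion has no rational point of order
nine.** -/
theorem addOrderOf_ne_nine_of_full (hΔ : W.Δ ≠ 0) {t₁ t₂ : ℚ} (h12 : t₁ ≠ t₂)
    (h1 : 4 * t₁ ^ 3 + W.b₂ * t₁ ^ 2 + 2 * W.b₄ * t₁ + W.b₆ = 0)
    (h2 : 4 * t₂ ^ 3 + W.b₂ * t₂ ^ 2 + 2 * W.b₄ * t₂ + W.b₆ = 0) (P : W.Point) :
    addOrderOf P ≠ 9 := by
  obtain ⟨δ, hδ⟩ := Ord20.isSquare_disc h12 h1 h2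
  exact addOrderOf_ne_nine_of_sq hΔ hδ P

end Fermat.Agent.Cor.NineSq
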