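import Mathlib
import Fermat.Agent.Cor.MazurOrders
import Fermat.Agent.Cor.H11Seven
import Fermat.Agent.Cor.H11Thirteen
import Fermat.Agent.Cor.NineSq

set_option autoImplicit false

/-!
# Rational torsion points of elliptic curves with full rational `2`-torsion

`order_cases_full`: the order of a rational torsion point of an elliptic curve over `ℚ` with full
rational `2`-torsion is `1, 2, 3, 4, 6` or `8` (Mazur's theorem for these curves).

This file is not used by any of the statement files.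
-/

namespace Fermat.Agent.Cor.MazurFull

open WeierstrassCurve WeierstrassCurve.Affine WeierstrassCurve.Affine.Point
open Fermat.Agent.H09
open Fermat.Agent.EGal (VV)
open Fermat.Agent.Cor.Mazur (toQb toQb_injective smul_toQb)

local notation "Qb" => AlgebraicClosure ℚ
local notation "GQ" => AlgebraicClosure ℚ ≃ₐ[ℚ] AlgebraicClosure ℚ

variable {E : WeierstrassCurve.Affine ℚ}

/-- rational points of order `q` make `E[q]` reducible -/
theorem eq_zero_of_irr (hΔ : E.Δ ≠ 0) {q : ℕ} (hq : q.Prime)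
    (hirr : GaloisRepIsIrreducible (K := Qb) ℚ E q) {Q : E.Point} (hQ : q • Q = 0) : Q = 0 := by
  by_contra hQ0
  have hfact : Fact q.Prime := ⟨hq⟩
  have hell : E.IsElliptic := ⟨isUnit_iff_ne_zero.mpr hΔ⟩
  obtain ⟨-, hirr⟩ := hirr
  set P : (E⁄Qb).Point := toQb _ Q with hP
  have hP0 : P ≠ 0 := fun h => hQ0 (toQb_injective _ (h.trans (_root_.map_zero _).symm))
  have hqP : q • P = 0 := by rw [hP, ← map_nsmul, hQ, _root_.map_zero]
  have hfix : ∀ σ : GQ, σ • P = P := fun σ => smul_toQb _ σ Q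
  let N : Submodule (ZMod q) (Submodule.torsionBy ℤ (E⁄Qb).Point (q : ℤ)) :=
    AddSubgroup.toZModSubmodule q ((AddSubgroup.zmultiples P).comap
      (Submodule.subtype _).toAddMonoidHom)
  have hNst : IsGaloisStable ℚ N := by
    intro σ x hx
    obtain ⟨n, hn⟩ := AddSubgroup.mem_zmultiples_iff.mp (show (x : (E⁄Qb).Point) ∈ _ from hx)
    refine AddSubgroup.mem_zmultiples_iff.mpr ⟨n, ?_⟩
    have e : σ • (n • P) = n • (σ • P) :=
      (DistribSMul.toAddMonoidHom (E⁄Qb).Point σ).map_zsmul n P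
    change n • P = σ • (x : (E⁄Qb).Point)
    rw [← hn, e, hfix σ]
  rcases hirr N hNst with h | h
  · apply hP0
    have h1 : (⟨P, mem_torsion_iff.mpr hqP⟩ :
        Submodule.torsionBy ℤ (E⁄Qb).Point (q : ℤ)) ∈ N := AddSubgroup.mem_zmultiples P
    rw [h, Submodule.mem_bot] at h1
    exact congrArg Subtype.val h1
  · have hle : ∀ x : (E⁄Qb).Point, q • x = 0 → x ∈ AddSubgroup.zmultiples P := by
      intro x hx
      have h1 : (⟨x, mem_torsion_iff.mpr hx⟩ :
        Submodule.torsionBy ℤ (E⁄Qb).Point (q : ℤ)) ∈ N := by rw [h]; trivial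
      exact h1
    have hcard := Fermat.Agent.Frob.card_torsion (K := Qb) (W := E) hq.ne_zero
    have hcC : Nat.card (AddSubgroup.zmultiples P) = q := by
      rw [Nat.card_zmultiples, addOrderOf_eq_prime hqP hP0]
    have hfin : Finite (AddSubgroup.zmultiples P) :=
      Nat.finite_of_card_ne_zero (by rw [hcC]; exact hq.ne_zero)
    have hinj : Nat.card {P : (E⁄Qb).Point // q • P = 0} ≤
        Nat.card (AddSubgroup.zmultiples P) :=
      Nat.card_le_card_of_injective
        (fun R => (⟨R.1, hle R.1 R.2⟩ : AddSubgroup.zmultiples P))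
        (fun R R' hRR => Subtype.ext
          (congrArg (fun z : AddSubgroup.zmultiples P => (z : (E⁄Qb).Point)) hRR))
    rw [hcard, hcC] at hinj
    nlinarith [hq.one_lt]

variable {t₁ t₂ : ℚ}

/-- **Full rational `2`-torsion**: no rational point of prime order `p ≥ 5`. -/
theorem no_torsion_of_full (hΔ : E.Δ ≠ 0) (h12 : t₁ ≠ t₂)
    (h1 : 4 * t₁ ^ 3 + E.b₂ * t₁ ^ 2 + 2 * E.b₄ * t₁ + E.b₆ = 0)
    (h2 : 4 * t₂ ^ 3 + E.b₂ * t₂ ^ 2 + 2 * E.b₄ * t₂ + E.b₆ = 0) {p : ℕ} (hp : p.Prime)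
    (hp5 : 5 ≤ p) {P : E.Point} (hP : p • P = 0) : P = 0 := by
  obtain ⟨δ, hδ⟩ := Ord20.isSquare_disc h12 h1 h2
  have hδ0 : δ ≠ 0 := by
    rintro rfl
    apply hΔ
    rw [hδ]; ring
  by_cases hp11 : 11 ≤ p
  · by_cases hp13 : p = 13
    · subst hp13
      exact eq_zero_of_irr hΔ hp (H11.Thirteen.irreducible_thirteen hδ hδ0) hP
    · exact MazurTorsion.no_torsion (E := E) hΔ hp hp11 hp13 hP
  · push Not at hp11
    by_cases h5 : p = 5
    · subst h5
      exact eq_zero_of_irr hΔ hp (Ord20.irreducible_five_of_full hΔ h12 h1 h2) hP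
    · have h7 : p = 7 := by
        interval_cases p <;> first | rfl | omega | (exfalso; revert hp; decide)
      subst h7
      -- the third root
      obtain ⟨t₃, ht₃⟩ : ∃ t₃ : ℚ, t₃ = -E.b₂ / 4 - t₁ - t₂ := ⟨_, rfl⟩
      have hs : t₁ - t₂ ≠ 0 := sub_ne_zero.mpr h12
      have hb2 : E.b₂ = -4 * (t₁ + t₂ + t₃) := by rw [ht₃]; ring
      have hb4 : E.b₄ = 2 * (t₁ * t₂ + t₂ * t₃ + t₃ * t₁) := by
        apply mul_left_cancel₀ hs
        linear_combination (1 / 2 : ℚ) * (h1 - h2) - (1 / 2 : ℚ) * (t₁ ^ 2 - t₂ ^ 2) * hb2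
      have hb6 : E.b₆ = -4 * (t₁ * t₂ * t₃) := by
        linear_combination h1 - t₁ ^ 2 * hb2 - 2 * t₁ * hb4
      have hdisc : E.Δ = 16 * ((t₁ - t₂) * (t₂ - t₃) * (t₃ - t₁)) ^ 2 := by
        have e8 : E.b₈ = (E.b₂ * E.b₆ - E.b₄ ^ 2) / 4 := by
          linear_combination (1 / 4 : ℚ) * E.b_relation
        rw [WeierstrassCurve.Δ, e8, hb2, hb4, hb6]
        ring
      have h23 : t₂ ≠ t₃ := by
        rintro h
        apply hΔ
        rw [hdisc, h]; ring
      have h31 : t₃ ≠ t₁ := by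
        rintro h
        apply hΔ
        rw [hdisc, h]; ring
      have hΔ' : (E⁄Qb).Δ ≠ 0 := by
        have e : (E⁄Qb).Δ = algebraMap ℚ Qb E.Δ := WeierstrassCurve.map_Δ ..
        rw [e]
        exact (map_ne_zero _).2 hΔ
      exact eq_zero_of_irr hΔ hp (H11.Seven.irreducible_seven hb2 hb4 hb6 h12 h23 h31 hΔ') hP

/-- **Full rational `2`-torsion**: the order of a rational torsion point is `1, 2, 3, 4, 6`
or `8`. -/
theorem order_cases_full (hΔ : E.Δ ≠ 0) (h12 : t₁ ≠ t₂)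
    (h1 : 4 * t₁ ^ 3 + E.b₂ * t₁ ^ 2 + 2 * E.b₄ * t₁ + E.b₆ = 0)
    (h2 : 4 * t₂ ^ 3 + E.b₂ * t₂ ^ 2 + 2 * E.b₄ * t₂ + E.b₆ = 0) (P : E.Point)
    (hn : addOrderOf P ≠ 0) :
    addOrderOf P ∈ ({1, 2, 3, 4, 6, 8} : Finset ℕ) := by
  by_contra hmem
  have hprime : ∀ q : ℕ, q.Prime → q ∣ addOrderOf P → q = 2 ∨ q = 3 := by
    intro q hq hd
    by_contra hcon
    push Not at hcon
    have hq5 : 5 ≤ q := by
      have h2 := hq.two_le
      have h4 : q ≠ 4 := by rintro rfl; revert hq; decide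
      omega
    obtain ⟨Q, hQ⟩ := MazurOrders.exists_order hn hd
    have h3 := no_torsion_of_full hΔ h12 h1 h2 hq hq5 (P := Q)
      (by rw [← hQ]; exact addOrderOf_nsmul_eq_zero Q)
    rw [h3, addOrderOf_zero] at hQ
    omega
  have e12 : ¬ 12 ∣ addOrderOf P := fun h => by
    obtain ⟨Q, hQ⟩ := MazurOrders.exists_order hn h
    exact Ord24.addOrderOf_ne_twelve_of_full hΔ h12 h1 h2 Q hQ
  have e16 : ¬ 16 ∣ addOrderOf P := fun h => by
    obtain ⟨Q, hQ⟩ := MazurOrders.exists_order hn h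
    exact Ord16.addOrderOf_ne_sixteen Q hQ
  have e9 : ¬ 9 ∣ addOrderOf P := fun h => by
    obtain ⟨Q, hQ⟩ := MazurOrders.exists_order hn h
    exact NineSq.addOrderOf_ne_nine_of_full hΔ h12 h1 h2 Q hQ
  have key : ∀ n : ℕ, n ≠ 0 → (∀ q : ℕ, q.Prime → q ∣ n → q = 2 ∨ q = 3) →
      ¬ 16 ∣ n → ¬ 9 ∣ n → n ∣ 24 := by
    intro n hn0 hpr n16 n9
    rw [← Nat.factorization_prime_le_iff_dvd hn0 (by norm_num)]
    intro q hq
    by_cases hd : q ∣ n
    · rcases hpr q hq hd with rfl | rfl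
      · have h1 : ¬ 4 ≤ n.factorization 2 := by
          rw [← hq.pow_dvd_iff_le_factorization hn0]; exact n16
        have h2 : 3 ≤ (24 : ℕ).factorization 2 := by
          rw [← hq.pow_dvd_iff_le_factorization (by norm_num)]; norm_num
        omega
      · have h1 : ¬ 2 ≤ n.factorization 3 := by
          rw [← hq.pow_dvd_iff_le_factorization hn0]; exact n9
        have h2 : 1 ≤ (24 : ℕ).factorization 3 := by
          rw [← hq.pow_dvd_iff_le_factorization (by norm_num)]; norm_num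
        omega
    · rw [Nat.factorization_eq_zero_of_not_dvd hd]
      exact Nat.zero_le _
  have hdvd := key _ hn hprime e16 e9
  generalize addOrderOf P = n at *
  have hmem' : n ∈ Nat.divisors 24 := Nat.mem_divisors.mpr ⟨hdvd, by norm_num⟩
  have hall : ∀ m ∈ Nat.divisors 24, m ∈ ({1, 2, 3, 4, 6, 8} : Finset ℕ) ∨ 12 ∣ m := by
    decide +kernel
  rcases hall n hmem' with h | h
  · exact hmem h
  · exact e12 h

end Fermat.Agent.Cor.MazurFull
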