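import Mathlib
import Fermat.Agent.Cor.MazurTorsion
import Fermat.Agent.Frob.VarChange

set_option autoImplicit false

/-!
# Torsion of elliptic curves over `ℚ` in multiquadratic fields

Let `E` be an elliptic curve over `ℚ` and `p ≥ 11` a prime number, `p ≠ 13`.

* `px_irrational`: the points of order `p` of `E` have irrational abscissas (if `x(P)` is rational,
  the quadratic twist of `E` by `ψ₂(P)²` has a rational point of order `p`).
* `no_torsion_of_exponent_two`: `E(K)` has no point of order `p` if `K/ℚ` is normal and its Galois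
  group has exponent `2` (for instance the compositum of all quadratic fields).
* `no_torsion_quadratic`: the same for quadratic fields.

This file is not used by any of the statement files.
-/

namespace Fermat.Agent.Cor.MazurQuad

open WeierstrassCurve WeierstrassCurve.Affine WeierstrassCurve.Affine.Point
open Fermat.Agent.H08 Fermat.Agent.Frob
open Fermat.Agent.Cor.Mazur (toQb toQb_some toQb_injective)

local notation "Qb" => AlgebraicClosure ℚ
local notation "GQ" => AlgebraicClosure ℚ ≃ₐ[ℚ] AlgebraicClosure ℚ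

/-- the quadratic twist by `d` -/
noncomputable def tw (E : WeierstrassCurve ℚ) (d : ℚ) : WeierstrassCurve ℚ :=
  ⟨0, d * E.b₂ / 4, 0, d ^ 2 * E.b₄ / 2, d ^ 3 * E.b₆ / 4⟩

theorem tw_Δ (E : WeierstrassCurve ℚ) (d : ℚ) : (tw E d).Δ = d ^ 6 * E.Δ := by
  simp only [tw, WeierstrassCurve.Δ, WeierstrassCurve.b₂, WeierstrassCurve.b₄,
      WeierstrassCurve.b₆, WeierstrassCurve.b₈]
  ring

/-- the change of variables over `Q̄` -/
noncomputable def vch (E : WeierstrassCurve ℚ) {u : Qb} (hu : u ≠ 0) : VariableChange Qb :=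
  ⟨(Units.mk0 u hu)⁻¹, 0, -(E.a₁ : Qb) / 2, -(E.a₃ : Qb) / 2⟩

theorem tw_baseChange (E : WeierstrassCurve ℚ) {u : Qb} (hu : u ≠ 0) {d : ℚ}
    (hd : u ^ 2 = (d : Qb)) :
    ((tw E d).toAffine⁄Qb) = vch E hu • (E.toAffine⁄Qb) := by
  have h1 : ∀ z : ℚ, algebraMap ℚ Qb z = (z : Qb) := fun z => by simp
  have hu' : (((vch E hu).u⁻¹ : Qbˣ) : Qb) = u := by simp [vch]
  have hs : (vch E hu).s = -(E.a₁ : Qb) / 2 := rfl
  have ht : (vch E hu).t = -(E.a₃ : Qb) / 2 := rfl
  have hr : (vch E hu).r = 0 := rfl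
  have w1 : (E.toAffine⁄Qb).a₁ = (E.a₁ : Qb) := h1 _
  have w2 : (E.toAffine⁄Qb).a₂ = (E.a₂ : Qb) := h1 _
  have w3 : (E.toAffine⁄Qb).a₃ = (E.a₃ : Qb) := h1 _
  have w4 : (E.toAffine⁄Qb).a₄ = (E.a₄ : Qb) := h1 _
  have w6 : (E.toAffine⁄Qb).a₆ = (E.a₆ : Qb) := h1 _
  have v1 : ((tw E d).toAffine⁄Qb).a₁ = 0 := (h1 _).trans (by simp [tw])
  have v2 : ((tw E d).toAffine⁄Qb).a₂ = (d : Qb) * (E.a₁ ^ 2 + 4 * E.a₂) / 4 :=
    (h1 _).trans (by simp [tw, WeierstrassCurve.b₂])
  have v3 : ((tw E d).toAffine⁄Qb).a₃ = 0 := (h1 _).trans (by simp [tw])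
  have v4 : ((tw E d).toAffine⁄Qb).a₄ = (d : Qb) ^ 2 * (2 * E.a₄ + E.a₁ * E.a₃) / 2 :=
    (h1 _).trans (by simp [tw, WeierstrassCurve.b₄])
  have v6 : ((tw E d).toAffine⁄Qb).a₆ = (d : Qb) ^ 3 * (E.a₃ ^ 2 + 4 * E.a₆) / 4 :=
    (h1 _).trans (by simp [tw, WeierstrassCurve.b₆])
  ext
  · rw [variableChange_a₁, hu', hs, w1, v1]; ring
  · rw [variableChange_a₂, hu', hs, hr, w1, w2, v2, ← hd]; ring
  · rw [variableChange_a₃, hu', hr, ht, w1, w3, v3]; ring
  · rw [variableChange_a₄, hu', hs, hr, ht, w1, w2, w3, w4, v4, ← hd]; ring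
  · rw [variableChange_a₆, hu', hr, ht, w1, w2, w3, w4, w6, v6, ← hd]; ring

variable {E : WeierstrassCurve ℚ} {p : ℕ}

/-- **Points of order `p ≥ 11`, `p ≠ 13`, have irrational abscissas.** -/
theorem px_irrational (hΔ : E.Δ ≠ 0) (hp : p.Prime) (hp11 : 11 ≤ p) (hp13 : p ≠ 13)
    {P : (E.toAffine⁄Qb).Point} (hP0 : P ≠ 0) (hP : p • P = 0) (x : ℚ) : px P ≠ (x : Qb) := by
  intro hx
  set u : Qb := psi2 P with hu_def
  have h1 : ∀ z : ℚ, algebraMap ℚ Qb z = (z : Qb) := fun z => by simp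
  -- `2P ≠ 0`
  have hu : u ≠ 0 := by
    intro h0
    have h2 : P = -P := by
      refine VeluD.ext_psi2 hP0 (neg_ne_zero.mpr hP0) (px_neg P).symm ?_
      have h3 := psi2_neg (E := E.toAffine) (L := Qb) hP0
      rw [h3, ← hu_def, h0, _root_.neg_zero]
    have h3 : 2 • P = 0 := by
      rw [two_nsmul]
      nth_rewrite 2 [h2]
      exact add_neg_cancel P
    have h4 : addOrderOf P = p := by
      have hfact : Fact p.Prime := ⟨hp⟩
      exact addOrderOf_eq_prime hP hP0
    have h5 := addOrderOf_dvd_of_nsmul_eq_zero h3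
    rw [h4] at h5
    have := Nat.le_of_dvd (by norm_num) h5
    omega
  set d : ℚ := 4 * x ^ 3 + E.b₂ * x ^ 2 + 2 * E.b₄ * x + E.b₆ with hd_def
  have hd : u ^ 2 = (d : Qb) := by
    have h2 := psi2_sq hP0
    have w2 : (E.toAffine⁄Qb).b₂ = (E.b₂ : Qb) := (map_b₂ _ _).trans (h1 _)
    have w4 : (E.toAffine⁄Qb).b₄ = (E.b₄ : Qb) := (map_b₄ _ _).trans (h1 _)
    have w6 : (E.toAffine⁄Qb).b₆ = (E.b₆ : Qb) := (map_b₆ _ _).trans (h1 _)
    rw [hu_def, h2, hx, hd_def, w2, w4, w6]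
    push_cast
    ring
  have hd0 : d ≠ 0 := by
    rintro h0
    rw [h0, Rat.cast_zero] at hd
    exact hu (pow_eq_zero_iff two_ne_zero |>.mp hd)
  have hΔ' : (tw E d).Δ ≠ 0 := by
    rw [tw_Δ]; exact mul_ne_zero (pow_ne_zero 6 hd0) hΔ
  have hns : (tw E d).toAffine.Nonsingular (d * x) (d ^ 2 / 2) := by
    rw [← equation_iff_nonsingular_of_Δ_ne_zero hΔ', equation_iff]
    simp only [tw]
    rw [hd_def]
    ring
  obtain ⟨h', e⟩ := toQb_some _ hns
  have e2 : vcEquiv (tw_baseChange E hu hd) (toQb _ (Point.some _ _ hns)) = P := by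
    rw [e, vcEquiv_apply, vcFun_some]
    obtain ⟨X, Y, hXY, hP'⟩ := exists_eq_some hP0
    subst hP'
    rw [px_some] at hx
    have w1 : (E.toAffine⁄Qb).a₁ = (E.a₁ : Qb) := h1 _
    have w3 : (E.toAffine⁄Qb).a₃ = (E.a₃ : Qb) := h1 _
    have hu2 : u = 2 * Y + E.a₁ * X + E.a₃ := by
      rw [hu_def, psi2, py_some, px_some, w1, w3]
    have hCu : ((vch E hu).u : Qb) = u⁻¹ := by simp [vch]
    simp only [some.injEq]
    constructor
    · rw [vx, hCu]
      change u⁻¹ ^ 2 * ((d * x : ℚ) : Qb) + 0 = X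
      push_cast
      rw [← hd, hx]
      field_simp
      ring
    · rw [vy, hCu]
      change u⁻¹ ^ 3 * ((d ^ 2 / 2 : ℚ) : Qb) + u⁻¹ ^ 2 * (-(E.a₁ : Qb) / 2) * ((d * x : ℚ) : Qb) +
        -(E.a₃ : Qb) / 2 = Y
      push_cast
      rw [← hd, ← hx]
      field_simp
      linear_combination hu2
  have hR := MazurTorsion.no_torsion hΔ' hp hp11 hp13 (P := Point.some _ _ hns) (by
    apply toQb_injective
    apply (vcEquiv (tw_baseChange E hu hd)).injective
    rw [map_nsmul, map_nsmul, e2, hP, _root_.map_zero, _root_.map_zero])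
  exact some_ne_zero _ hR

/-- **Points of order `p` over multiquadratic fields** (in `Q̄`): if all squares of the Galois
group fix the point `P` of order `p ≥ 11`, `p ≠ 13`, then `P = 0`. -/
theorem eq_zero_of_sq (hΔ : E.Δ ≠ 0) (hp : p.Prime) (hp11 : 11 ≤ p) (hp13 : p ≠ 13)
    {P : (E.toAffine⁄Qb).Point} (hP : p • P = 0) (hsq : ∀ σ : GQ, σ • (σ • P) = P) :
    P = 0 := by
  by_contra hP0
  have hell : E.IsElliptic := ⟨isUnit_iff_ne_zero.mpr hΔ⟩
  -- the set of nonzero points of order `p` fixed by all squares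
  let M : Set (E.toAffine⁄Qb).Point :=
    {Q | Q ≠ 0 ∧ p • Q = 0 ∧ ∀ σ : GQ, σ • (σ • Q) = Q}
  have hfin : M.Finite := by
    have h1 := Fermat.Agent.Frob.card_torsion (K := Qb) (W := E.toAffine) hp.ne_zero
    have h2 : Finite {Q : (E.toAffine⁄Qb).Point // p • Q = 0} :=
      Nat.finite_of_card_ne_zero (by rw [h1]; exact pow_ne_zero 2 hp.ne_zero)
    exact (Set.finite_coe_iff.mp h2 : {Q : (E.toAffine⁄Qb).Point | p • Q = 0}.Finite).subset
      fun Q hQ => hQ.2.1
  let S : (E.toAffine⁄Qb).Point → Set GQ := fun Q => {σ | σ • Q = Q ∨ σ • Q = -Q}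
  obtain ⟨Q, hQM, hQmax⟩ := hfin.exists_maximalFor S M ⟨P, hP0, hP, hsq⟩
  obtain ⟨hQ0, hpQ, hQsq⟩ := hQM
  have sadd : ∀ (σ : GQ) (A B : (E.toAffine⁄Qb).Point), σ • (A + B) = σ • A + σ • B :=
    fun σ A B => smul_add σ A B
  have snsmul : ∀ (σ : GQ) (n : ℕ) (A : (E.toAffine⁄Qb).Point), n • (σ • A) = σ • (n • A) :=
    fun σ n A => ((DistribSMul.toAddMonoidHom (E.toAffine⁄Qb).Point σ).map_nsmul n A).symm
  have hfix : ∀ σ g : GQ, σ • (σ • (g • Q)) = g • Q := by
    intro σ g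
    have h := hQsq (g⁻¹ * σ * g)
    simp only [mul_smul] at h
    rw [smul_inv_smul] at h
    exact inv_smul_eq_iff.mp h
  have hcomm : ∀ σ τ : GQ, σ • (τ • Q) = τ • (σ • Q) := by
    intro σ τ
    have h1 := hQsq (σ * τ)
    simp only [mul_smul] at h1
    have h2 : τ • (σ • (τ • Q)) = σ • Q := by
      have h3 := hfix σ (τ * σ * τ)
      simp only [mul_smul] at h3
      rw [h1] at h3
      exact h3.symm
    have h4 := hfix τ (σ * τ)
    simp only [mul_smul] at h4
    rw [h2] at h4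
    exact h4.symm
  have hall : ∀ σ : GQ, σ • Q = Q ∨ σ • Q = -Q := by
    by_contra hcon
    push Not at hcon
    obtain ⟨τ, hτ1, hτ2⟩ := hcon
    have hQ' : Q + τ • Q ∈ M := by
      refine ⟨?_, ?_, ?_⟩
      · intro h0
        exact hτ2 (eq_neg_of_add_eq_zero_right h0)
      · rw [nsmul_add, hpQ, snsmul, hpQ, _root_.zero_add]
        rfl
      · intro σ
        rw [sadd, sadd, hQsq σ, hfix σ τ]
    have hle : S Q ≤ S (Q + τ • Q) := by
      intro σ hσ
      rcases hσ with h | h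
      · left
        rw [sadd, hcomm σ τ, h]
      · right
        rw [sadd, hcomm σ τ, h, neg_add]
        congr 1
        exact smul_neg τ Q
    have h5 := hQmax hQ' hle
    have h6 : τ ∈ S (Q + τ • Q) := by
      left
      rw [sadd, hQsq τ, add_comm]
    rcases h5 h6 with h7 | h7
    · exact hτ1 h7
    · exact hτ2 h7
  obtain ⟨x, hx⟩ := VeluZ.exists_rat (z := px Q) (by
    intro σ
    rw [← px_smul]
    rcases hall σ with h | h
    · rw [h]
    · rw [h, px_neg])
  exact px_irrational hΔ hp hp11 hp13 hQ0 hpQ x hx.symm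

/-- **No points of order `p` over multiquadratic fields.** Let `K` be a normal algebraic extension
of `ℚ`, finite or infinite, whose Galois group has exponent `2` (a quadratic field, a multiquadratic
field, the compositum of all quadratic fields). An elliptic curve over `ℚ` has no point of prime
order `p ≥ 11`, `p ≠ 13`, with coordinates in `K`. -/
theorem no_torsion_of_exponent_two (hΔ : E.Δ ≠ 0) (hp : p.Prime) (hp11 : 11 ≤ p) (hp13 : p ≠ 13)
    {K : Type*} [Field K] [DecidableEq K] [Algebra ℚ K] [Normal ℚ K]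
    (hK : ∀ (σ : K ≃ₐ[ℚ] K) (z : K), σ (σ z) = z) {P : (E.toAffine⁄K).Point} (hP : p • P = 0) :
    P = 0 := by
  have halg : Algebra.IsAlgebraic ℚ K := Normal.toIsAlgebraic
  let f : K →ₐ[ℚ] Qb := IsAlgClosed.lift
  let _ : Algebra K Qb := f.toRingHom.toAlgebra
  have : IsScalarTower ℚ K Qb := IsScalarTower.of_algebraMap_eq fun x => (f.commutes x).symm
  have hf : ∀ (σ : GQ) (z : K), σ (σ (f z)) = f z := by
    intro σ z
    have h1 : ∀ w : K, σ (f w) = f (σ.restrictNormal K w) := fun w =>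
      (AlgEquiv.restrictNormal_commutes σ K w).symm
    rw [h1, h1, hK]
  apply Point.map_injective (W' := E.toAffine) f
  rw [Point.map_zero]
  refine eq_zero_of_sq hΔ hp hp11 hp13 (by rw [← map_nsmul, hP, Point.map_zero]) fun σ => ?_
  rcases P with _ | ⟨x, y, h⟩
  · rfl
  · have e : Point.map (W' := E.toAffine) f (Point.some x y h) = Point.some (f x) (f y)
        ((E.toAffine.baseChange_nonsingular (f := f) f.injective x y).mpr h) := rfl
    rw [e, algEquiv_smul_def, algEquiv_smul_def]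
    have e2 : Point.map (W' := E.toAffine) σ.toAlgHom (Point.map (W' := E.toAffine) σ.toAlgHom
        (Point.some (f x) (f y)
          ((E.toAffine.baseChange_nonsingular (f := f) f.injective x y).mpr h))) =
      Point.some (σ (σ (f x))) (σ (σ (f y))) (by
        rw [hf, hf]
        exact (E.toAffine.baseChange_nonsingular (f := f) f.injective x y).mpr h) := rfl
    rw [e2]
    congr 1 <;> exact hf σ _

/-- **Quadratic fields**: an elliptic curve over `ℚ` has no point of prime order `p ≥ 11`,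
`p ≠ 13`, over a quadratic field. -/
theorem no_torsion_quadratic (hΔ : E.Δ ≠ 0) (hp : p.Prime) (hp11 : 11 ≤ p) (hp13 : p ≠ 13)
    {K : Type*} [Field K] [DecidableEq K] [Algebra ℚ K] [Algebra.IsQuadraticExtension ℚ K]
    {P : (E.toAffine⁄K).Point} (hP : p • P = 0) : P = 0 := by
  refine no_torsion_of_exponent_two hΔ hp hp11 hp13 (fun σ z => ?_) hP
  have h1 : Nat.card (K ≃ₐ[ℚ] K) = 2 := by
    rw [IsGalois.card_aut_eq_finrank, Algebra.IsQuadraticExtension.finrank_eq_two]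
  have h2 : σ ^ 2 = 1 := by rw [← h1]; exact pow_card_eq_one'
  have h3 := congrArg (fun τ : K ≃ₐ[ℚ] K => τ z) h2
  simpa [pow_two] using h3

end Fermat.Agent.Cor.MazurQuad
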