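import Mathlib
import Fermat.Agent.Cor.MazurFull

set_option autoImplicit false

/-!
# Rational torsion points of elliptic curves whose discriminant is a square

`order_cases_sq`: the order of a rational torsion point of an elliptic curve over `ℚ` whose
discriminant is a square is `1, 2, 3, 4, 6, 7` or `8`, or divisible by `21`.

This file is not used by any of the statement files.
-/

namespace Fermat.Agent.Cor.MazurSq

open WeierstrassCurve WeierstrassCurve.Affine WeierstrassCurve.Affine.Point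
open Fermat.Agent.H08 Fermat.Agent.Frob

variable {E : WeierstrassCurve.Affine ℚ}

/-- the `x`-coordinate of a rational point of order two -/
theorem root_of_order_two {Q : E.Point} (hQ : addOrderOf Q = 2) :
    4 * (px Q) ^ 3 + E.b₂ * (px Q) ^ 2 + 2 * E.b₄ * (px Q) + E.b₆ = 0 := by
  have hQ0 : Q ≠ 0 := by
    rintro rfl
    rw [addOrderOf_zero] at hQ
    omega
  have h2 : Q = -Q := by
    rw [eq_neg_iff_add_eq_zero, ← two_nsmul, ← hQ]
    exact addOrderOf_nsmul_eq_zero Q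
  have h3 : py Q = -py Q - E.a₁ * px Q - E.a₃ := by
    rw [← py_neg hQ0, ← h2]
  have h4 := eqn_of_ne_zero hQ0
  rw [b₂, b₄, b₆]
  linear_combination (-4) * h4 + (2 * py Q + E.a₁ * px Q + E.a₃) * h3

/-- a rational `2`-torsion point and a square discriminant give full rational `2`-torsion -/
theorem exists_full (hΔ : E.Δ ≠ 0) {δ : ℚ} (hδ : E.Δ = δ ^ 2) {t : ℚ}
    (h1 : 4 * t ^ 3 + E.b₂ * t ^ 2 + 2 * E.b₄ * t + E.b₆ = 0) :
    ∃ t₂ : ℚ, t ≠ t₂ ∧ 4 * t₂ ^ 3 + E.b₂ * t₂ ^ 2 + 2 * E.b₄ * t₂ + E.b₆ = 0 := by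
  obtain ⟨q, hq⟩ : ∃ q : ℚ, q = 4 * t ^ 2 + (E.b₂ + 4 * t) * t + (2 * E.b₄ + t * (E.b₂ + 4 * t)) :=
    ⟨_, rfl⟩
  have hb6 : E.b₆ = -(4 * t ^ 3 + E.b₂ * t ^ 2 + 2 * E.b₄ * t) := by linear_combination h1
  have hdisc : 16 * E.Δ = q ^ 2 * ((E.b₂ + 4 * t) ^ 2 - 16 * (2 * E.b₄ + t * (E.b₂ + 4 * t))) := by
    have e8 : E.b₈ = (E.b₂ * E.b₆ - E.b₄ ^ 2) / 4 := by
      linear_combination (1 / 4 : ℚ) * E.b_relation
    rw [WeierstrassCurve.Δ, e8, hb6, hq]
    ring
  have hq0 : q ≠ 0 := by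
    rintro h
    apply hΔ
    rw [h] at hdisc
    linarith
  obtain ⟨r, hr⟩ : ∃ r : ℚ, r = 4 * δ / q := ⟨_, rfl⟩
  have hr2 : r ^ 2 = (E.b₂ + 4 * t) ^ 2 - 16 * (2 * E.b₄ + t * (E.b₂ + 4 * t)) := by
    rw [hr, div_pow, div_eq_iff (pow_ne_zero 2 hq0)]
    rw [hδ] at hdisc
    linear_combination hdisc
  refine ⟨(-(E.b₂ + 4 * t) + r) / 8, ?_, ?_⟩
  · intro h
    apply hq0
    rw [hq]
    have h5 : r = 8 * t + (E.b₂ + 4 * t) := by linear_combination (-8) * h
    rw [h5] at hr2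
    linear_combination (1 / 16 : ℚ) * hr2
  · rw [hb6]
    linear_combination ((-(E.b₂ + 4 * t) + r) / 8 - t) / 16 * hr2

/-- **Square discriminant**: the order of a rational torsion point is `1, 2, 3, 4, 6, 7` or `8`, or
divisible by `21`. -/
theorem order_cases_sq (hΔ : E.Δ ≠ 0) {δ : ℚ} (hδ : E.Δ = δ ^ 2) (P : E.Point)
    (hn : addOrderOf P ≠ 0) :
    addOrderOf P ∈ ({1, 2, 3, 4, 6, 7, 8} : Finset ℕ) ∨ 21 ∣ addOrderOf P := by
  have hδ0 : δ ≠ 0 := by
    rintro rfl
    apply hΔ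
    rw [hδ]; ring
  by_cases h2 : 2 ∣ addOrderOf P
  · obtain ⟨Q, hQ⟩ := MazurOrders.exists_order hn h2
    obtain ⟨t₂, h12, h3⟩ := exists_full hΔ hδ (root_of_order_two hQ)
    have h4 := MazurFull.order_cases_full hΔ h12 (root_of_order_two hQ) h3 P hn
    left
    simp only [Finset.mem_insert, Finset.mem_singleton] at h4 ⊢
    omega
  · have e5 : ¬ 5 ∣ addOrderOf P := fun h => by
      obtain ⟨Q, hQ⟩ := MazurOrders.exists_order hn h
      have h3 := MazurFull.eq_zero_of_irr hΔ (q := 5) (by norm_num)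
        (Fermat.Agent.H23.K1.irreducible_five E hδ hδ0) (Q := Q)
        (by rw [← hQ]; exact addOrderOf_nsmul_eq_zero Q)
      rw [h3, addOrderOf_zero] at hQ
      omega
    have e13 : ¬ 13 ∣ addOrderOf P := fun h => by
      obtain ⟨Q, hQ⟩ := MazurOrders.exists_order hn h
      have h3 := MazurFull.eq_zero_of_irr hΔ (q := 13) (by norm_num)
        (H11.Thirteen.irreducible_thirteen hδ hδ0) (Q := Q)
        (by rw [← hQ]; exact addOrderOf_nsmul_eq_zero Q)
      rw [h3, addOrderOf_zero] at hQ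
      omega
    have e9 : ¬ 9 ∣ addOrderOf P := fun h => by
      obtain ⟨Q, hQ⟩ := MazurOrders.exists_order hn h
      exact NineSq.addOrderOf_ne_nine_of_sq hΔ hδ Q hQ
    simp only [Finset.mem_insert, Finset.mem_singleton]
    rcases MazurOrders.order_cases hΔ P hn with h | h | h | h | h | h | h
    · have h0 : 0 < addOrderOf P := Nat.pos_of_ne_zero hn
      generalize addOrderOf P = n at *
      interval_cases n <;> omega
    · exact absurd (by rw [h]; norm_num) h2
    · exact absurd h e13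
    · exact absurd ((by norm_num : 9 ∣ 18).trans h) e9
    · exact Or.inr h
    · exact absurd ((by norm_num : 5 ∣ 25).trans h) e5
    · exact absurd ((by norm_num : 5 ∣ 35).trans h) e5

end Fermat.Agent.Cor.MazurSq
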