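import Fermat.Agent.Cor.ThetaDn

/-!
# Milnor's example

The lattices `E₈ ⊕ E₈` and `D₁₆⁺` have the same theta series, but they are not isometric.

This file is not used by any of the statement files.
-/

set_option autoImplicit false

open Filter Topology Function
open UpperHalfPlane hiding I
open CongruenceSubgroup ModularForm EisensteinSeries
open scoped Real MatrixGroups ModularForm Manifold
open Fermat.Agent.IntStr Fermat.Agent.AL
open ModularFormClass (qCoeff)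

noncomputable section

namespace Fermat.Agent.Cor.FourSq

/-! ### Equality of the theta series -/

/-- `θ₃¹⁶ + θ₄¹⁶ + θ₂¹⁶` -/
def W16 : ℍ → ℂ := (G * G) * (G * G) + (G1 * G1) * (G1 * G1) + (G2 * G2) * (G2 * G2)

theorem W16_slash_gen (γ : SL(2, ℤ)) : W16 ∣[(8 : ℤ)] γ =
    ((G ∣[(2 : ℤ)] γ) * (G ∣[(2 : ℤ)] γ)) * ((G ∣[(2 : ℤ)] γ) * (G ∣[(2 : ℤ)] γ)) +
    ((G1 ∣[(2 : ℤ)] γ) * (G1 ∣[(2 : ℤ)] γ)) * ((G1 ∣[(2 : ℤ)] γ) * (G1 ∣[(2 : ℤ)] γ)) +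
    ((G2 ∣[(2 : ℤ)] γ) * (G2 ∣[(2 : ℤ)] γ)) * ((G2 ∣[(2 : ℤ)] γ) * (G2 ∣[(2 : ℤ)] γ)) := by
  rw [W16, SlashAction.add_slash, SlashAction.add_slash]
  have h : ∀ f : ℍ → ℂ, (f * f) ∣[(4 : ℤ)] γ = (f ∣[(2 : ℤ)] γ) * (f ∣[(2 : ℤ)] γ) :=
    fun f ↦ mul_slash_SL2 2 2 γ f f
  have h' : ∀ f : ℍ → ℂ, (f * f) ∣[(8 : ℤ)] γ = (f ∣[(4 : ℤ)] γ) * (f ∣[(4 : ℤ)] γ) :=
    fun f ↦ mul_slash_SL2 4 4 γ f f
  rw [h', h', h', h, h, h]

theorem W16_slash (γ : SL(2, ℤ)) : W16 ∣[(8 : ℤ)] γ = W16 := by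
  refine SlashInvariantForm.slash_action_generators_SL2Z ?_ ?_ γ
  · rw [W16_slash_gen, G_S, G2_S, W16]
    change ((-G) * (-G)) * ((-G) * (-G)) + (G2 * G2) * (G2 * G2) + (G1 * G1) * (G1 * G1) = _
    ring
  · rw [W16_slash_gen, G1_T, G2_T, W16]
    change (G1 * G1) * (G1 * G1) + (G * G) * (G * G) + ((-G2) * (-G2)) * ((-G2) * (-G2)) = _
    ring

theorem isMN_W16 : IsMN 1 8 W16 where
  slash γ _ := W16_slash γ
  holo := by
    have h0 := mdiff_G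
    have h1 : MDiff G1 := mdiff_G.slash 2 _
    have h2 : MDiff G2 := h1.slash 2 _
    exact (((h0.mul h0).mul (h0.mul h0)).add ((h1.mul h1).mul (h1.mul h1))).add
      ((h2.mul h2).mul (h2.mul h2))
  bdd γ := by
    rw [W16_slash]
    exact (((bdd_G.mul bdd_G).mul (bdd_G.mul bdd_G)).add
      ((bdd_G1.mul bdd_G1).mul (bdd_G1.mul bdd_G1))).add
      ((bdd_G2.mul bdd_G2).mul (bdd_G2.mul bdd_G2))

theorem hasSum_W16 (τ : ℍ) :
    HasSum (fun n : ℕ ↦ (rD 16 n : ℂ) • Periodic.qParam 1 (τ : ℂ) ^ n) (W16 τ / 2) := by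
  have h := hasSum_rD (m := 16) (by norm_num) τ
  have e : th3 τ ^ 16 + th4 τ ^ 16 + th2 τ ^ 16 = W16 τ := by
    simp only [W16, Pi.add_apply, Pi.mul_apply, G_eq, G1_eq, G2_eq]
    ring
  rw [e] at h
  exact h

theorem hasSum_E4_qexp (τ : ℍ) :
    HasSum (fun n : ℕ ↦ c4 n • Periodic.qParam 1 (τ : ℂ) ^ n) (E₄ τ) := by
  have hQ := isMN_E4.mem_QR
  have h2 := UpperHalfPlane.hasSum_qExpansion one_pos hQ.1 hQ.2.1 hQ.2.2 τ
  convert h2 using 1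
  ext n
  congr 1
  exact (qCoeff_E4 n).symm

/-- The number of vectors of norm `2 n` in `E₈ ⊕ E₈` -/
def rEE (n : ℕ) : ℕ := Nat.card {p : (Fin 8 → ℤ) × (Fin 8 → ℤ) //
  (InE p.1 ∧ InE p.2) ∧ nrm p.1 + nrm p.2 = n}

theorem hasSum_InE (τ : ℍ) : HasSum (fun y : {y : Fin 8 → ℤ // InE y} ↦
    Periodic.qParam 1 (τ : ℂ) ^ (nrm y.1).toNat) (E₄ τ) := by
  classical
  have h := hasSum_ty τ
  rw [W8_eq] at h
  have h2 : HasSum ((fun y ↦ if InE y then ty τ y else 0) ∘ (Subtype.val : {y // InE y} → _))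
      (E₄ τ) := by
    rw [Subtype.val_injective.hasSum_iff]
    · exact h
    · intro y hy
      rw [if_neg]
      intro h'
      exact hy ⟨⟨y, h'⟩, rfl⟩
  convert h2 using 1
  ext y
  rw [comp_apply, if_pos y.2, ty]
  have e1 : (((nrm y.1).toNat : ℕ) : ℂ) = (∑ i, (y.1 i : ℂ) ^ 2) / 8 := by
    have h3 : (8 : ℤ) * (((nrm y.1).toNat : ℕ) : ℤ) = ∑ i, y.1 i ^ 2 := by
      rw [Int.toNat_of_nonneg (nrm_nonneg _), nrm, Int.mul_ediv_cancel' y.2.eight_dvd]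
    have h4 : (8 : ℂ) * (((nrm y.1).toNat : ℕ) : ℂ) = ∑ i, (y.1 i : ℂ) ^ 2 := by
      exact_mod_cast congrArg (Int.cast : ℤ → ℂ) h3
    rw [← h4]; ring
  rw [Periodic.qParam, ← Complex.exp_nat_mul, e1]
  congr 1
  push_cast
  ring

theorem hasSum_pair (w a : ℂ) (h : HasSum (fun y : {y : Fin 8 → ℤ // InE y} ↦
    w ^ (nrm y.1).toNat) a) : HasSum (fun x : {y : Fin 8 → ℤ // InE y} × {y : Fin 8 → ℤ // InE y} ↦
        w ^ (nrm x.1.1).toNat * w ^ (nrm x.2.1).toNat) (a * a) :=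
  (prod_as ⟨h.summable.norm, h⟩ ⟨h.summable.norm, h⟩).2

/-- Pairs of vectors -/
def eqv : {p : (Fin 8 → ℤ) × (Fin 8 → ℤ) // InE p.1 ∧ InE p.2} ≃
    {y : Fin 8 → ℤ // InE y} × {y : Fin 8 → ℤ // InE y} where
  toFun p := (⟨p.1.1, p.2.1⟩, ⟨p.1.2, p.2.2⟩)
  invFun x := ⟨(x.1.1, x.2.1), x.1.2, x.2.2⟩
  left_inv _ := rfl
  right_inv _ := rfl

theorem hasSum_eqv (w a : ℂ)
    (h : HasSum (fun x : {y : Fin 8 → ℤ // InE y} × {y : Fin 8 → ℤ // InE y} ↦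
      w ^ (nrm x.1.1).toNat * w ^ (nrm x.2.1).toNat) a) :
    HasSum (fun p : {p : (Fin 8 → ℤ) × (Fin 8 → ℤ) // InE p.1 ∧ InE p.2} ↦
      w ^ (nrm p.1.1 + nrm p.1.2).toNat) a := by
  rw [← eqv.hasSum_iff] at h
  have e : (fun p : {p : (Fin 8 → ℤ) × (Fin 8 → ℤ) // InE p.1 ∧ InE p.2} ↦
      w ^ (nrm p.1.1 + nrm p.1.2).toNat) =
      (fun x : {y : Fin 8 → ℤ // InE y} × {y : Fin 8 → ℤ // InE y} ↦
        w ^ (nrm x.1.1).toNat * w ^ (nrm x.2.1).toNat) ∘ eqv := by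
    funext p
    rw [comp_apply, ← pow_add, Int.toNat_add (nrm_nonneg _) (nrm_nonneg _)]
    rfl
  rw [e]
  exact h

theorem hasSum_rEE (τ : ℍ) :
    HasSum (fun n : ℕ ↦ (rEE n : ℂ) • Periodic.qParam 1 (τ : ℂ) ^ n) (E₄ τ * E₄ τ) :=
  hasSum_regroup (V := (Fin 8 → ℤ) × (Fin 8 → ℤ)) (Q := fun p ↦ nrm p.1 + nrm p.2)
    (fun _ ↦ add_nonneg (nrm_nonneg _) (nrm_nonneg _)) (fun p ↦ InE p.1 ∧ InE p.2)
    (hasSum_eqv _ _ (hasSum_pair _ _ (hasSum_InE τ)))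

theorem isMN_EE : IsMN 1 8 ((E₄ : ℍ → ℂ) * (E₄ : ℍ → ℂ)) := isMN_mul isMN_E4 isMN_E4

theorem InE_nrm_zero {y : Fin 8 → ℤ} (h1 : InE y) (h2 : nrm y = 0) : y = 0 := by
  have h3 : ∑ i, y i ^ 2 = 0 := by
    have := Int.mul_ediv_cancel' h1.eight_dvd
    rw [nrm] at h2
    rw [h2] at this
    simpa using this.symm
  rw [Finset.sum_eq_zero_iff_of_nonneg fun _ _ ↦ sq_nonneg _] at h3
  ext i
  simpa using h3 i (Finset.mem_univ i)

theorem rEE_zero : rEE 0 = 1 := by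
  have h : ∀ p : (Fin 8 → ℤ) × (Fin 8 → ℤ),
      (InE p.1 ∧ InE p.2) ∧ nrm p.1 + nrm p.2 = ((0 : ℕ) : ℤ) ↔ p = 0 := by
    intro p
    constructor
    · rintro ⟨⟨h1, h2⟩, h3⟩
      have h4 := nrm_nonneg p.1
      have h5 := nrm_nonneg p.2
      rw [Nat.cast_zero] at h3
      exact Prod.ext (InE_nrm_zero h1 (by omega)) (InE_nrm_zero h2 (by omega))
    · rintro rfl
      exact ⟨⟨⟨Or.inl fun i ↦ by simp, by simp⟩, ⟨Or.inl fun i ↦ by simp, by simp⟩⟩,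
        by simp [nrm]⟩
  rw [rEE, Nat.card_congr (Equiv.subtypeEquivRight h)]
  simp

/-- The difference of the two theta series. -/
def DM : ModularForm (Gamma0 1) 8 := (1 / 2 : ℂ) • isMN_W16.form - isMN_EE.form

theorem DM_apply (τ : ℍ) : DM τ = W16 τ / 2 - E₄ τ * E₄ τ := by
  change 1 / 2 * W16 τ - E₄ τ * E₄ τ = _
  ring

theorem coeff_DM (n : ℕ) : (qExpansion 1 DM).coeff n = rD 16 n - rEE n := by
  refine (ModularFormClass.qExpansion_coeff_unique (c := fun n ↦ (rD 16 n : ℂ) - rEE n)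
    (h := 1) one_pos (Γ := (Gamma0 1 : Subgroup (GL (Fin 2) ℝ)))
    (by simp [CongruenceSubgroup.strictPeriods_Gamma0]) (f := DM) (fun τ ↦ ?_) n).symm
  have h2 := (hasSum_W16 τ).sub (hasSum_rEE τ)
  rw [DM_apply]
  simp only [← sub_smul] at h2
  exact h2

theorem DM_eq_zero : DM = 0 := by
  refine ModularForm.sturm_bound_Gamma0 1 DM fun n hn ↦ ?_
  have h1 : (Gamma0 1).index = 1 := by
    rw [Subgroup.index_eq_one, eq_top_iff]
    intro γ _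
    rw [mem_Gamma0_iff]
    simp
  rw [h1] at hn
  have hn' : n ≤ 0 := hn
  obtain rfl : n = 0 := by omega
  rw [coeff_DM, rEE_zero, rD_zero (by norm_num)]
  simp

/-- **Witt.** `E₈ ⊕ E₈` and `D₁₆⁺` have the same theta series. -/
theorem rD_eq_rEE (n : ℕ) : rD 16 n = rEE n := by
  have h1 := coeff_DM n
  have h0 : (qExpansion 1 DM).coeff n = 0 := by
    rw [DM_eq_zero, FunLike.coe_zero, qExpansion_zero]
    rfl
  rw [h0] at h1
  have h2 : (rD 16 n : ℂ) = rEE n := by linear_combination -h1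
  exact_mod_cast h2

/-! ### The lattices are not isometric -/

/-- `2 D_m⁺` as a subgroup of `ℤ^m` -/
def LD (m : ℕ) : AddSubgroup (Fin m → ℤ) where
  carrier := {y | InD y}
  zero_mem' := ⟨Or.inl fun i ↦ by simp, by simp⟩
  add_mem' := by
    rintro x y ⟨hx, hx'⟩ ⟨hy, hy'⟩
    refine ⟨?_, ?_⟩
    · rcases hx with hx | hx <;> rcases hy with hy | hy
      · exact Or.inl fun i ↦ (hx i).add (hy i)
      · exact Or.inr fun i ↦ (hx i).add_odd (hy i)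
      · exact Or.inr fun i ↦ (hx i).add_even (hy i)
      · exact Or.inl fun i ↦ (hx i).add_odd (hy i)
    · simp only [Pi.add_apply, Finset.sum_add_distrib]
      exact dvd_add hx' hy'
  neg_mem' := by
    rintro x ⟨hx, hx'⟩
    refine ⟨?_, ?_⟩
    · rcases hx with hx | hx
      · exact Or.inl fun i ↦ (hx i).neg
      · exact Or.inr fun i ↦ (hx i).neg
    · simp only [Pi.neg_apply, Finset.sum_neg_distrib]
      exact hx'.neg_right

theorem mem_LD {m : ℕ} {y : Fin m → ℤ} : y ∈ LD m ↔ InD y := Iff.rfl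

/-- The roots of `E₈`. -/
def roots : Set (Fin 8 → ℤ) := {y | InD y ∧ ∑ i, y i ^ 2 = 8}

/-- `E₈` is generated by its roots. -/
theorem mem_closure_roots {y : Fin 8 → ℤ} (hy : InD y) : y ∈ AddSubgroup.closure roots := by
  have ha : ∀ i : Fin 8, (Pi.single i 2 - Pi.single 0 2 : Fin 8 → ℤ) ∈
      AddSubgroup.closure roots := by
    intro i
    by_cases hi : i = 0
    · subst hi; rw [sub_self]; exact zero_mem _
    · refine AddSubgroup.subset_closure ⟨⟨Or.inl fun j ↦ ?_, ?_⟩, ?_⟩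
      · revert i j; decide
      · revert i; decide
      · revert i; decide
  have hb : (Pi.single 0 2 + Pi.single 1 2 : Fin 8 → ℤ) ∈ AddSubgroup.closure roots :=
    AddSubgroup.subset_closure ⟨⟨Or.inl (by decide), by decide⟩, by decide⟩
  have ho : (fun _ ↦ 1 : Fin 8 → ℤ) ∈ AddSubgroup.closure roots :=
    AddSubgroup.subset_closure ⟨⟨Or.inr (by decide), by decide⟩, by decide⟩
  have h4 : (Pi.single 0 4 : Fin 8 → ℤ) ∈ AddSubgroup.closure roots := by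
    have := sub_mem hb (ha 1)
    have e : (Pi.single 0 2 + Pi.single 1 2 - (Pi.single 1 2 - Pi.single 0 2) : Fin 8 → ℤ) =
        Pi.single 0 4 := by decide
    rwa [e] at this
  have heven : ∀ y : Fin 8 → ℤ, (∀ i, Even (y i)) → 4 ∣ ∑ i, y i →
      y ∈ AddSubgroup.closure roots := by
    intro y hy1 hy2
    choose x hx using fun i ↦ (hy1 i).two_dvd
    have e1 : ∑ i, y i = 2 * ∑ i, x i := by
      rw [Finset.mul_sum]; exact Finset.sum_congr rfl fun i _ ↦ hx i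
    obtain ⟨t, ht⟩ : (2 : ℤ) ∣ ∑ i, x i := by rw [e1] at hy2; omega
    have h5 : y = ∑ i, x i • (Pi.single i 2 - Pi.single 0 2 : Fin 8 → ℤ) +
        t • (Pi.single 0 4 : Fin 8 → ℤ) := by
      ext j
      rw [hx j, Pi.add_apply, Finset.sum_apply]
      simp only [Pi.smul_apply, Pi.sub_apply, smul_eq_mul, mul_sub, Finset.sum_sub_distrib]
      rw [← Finset.sum_mul, ht]
      have e2 : ∑ i, x i * (Pi.single i 2 : Fin 8 → ℤ) j = x j * 2 := by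
        rw [Finset.sum_eq_single j]
        · simp
        · intro b _ hb
          rw [Pi.single_eq_of_ne hb.symm, mul_zero]
        · intro h; exact absurd (Finset.mem_univ j) h
      rw [e2]
      by_cases hj : j = 0
      · subst hj
        simp
        ring
      · rw [Pi.single_eq_of_ne hj, Pi.single_eq_of_ne hj]
        ring
    rw [h5]
    exact add_mem (sum_mem fun i _ ↦ zsmul_mem (ha i) _) (zsmul_mem h4 _)
  obtain ⟨h1 | h1, h2⟩ := hy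
  · exact heven y h1 h2
  · have h6 : y - (fun _ ↦ 1) ∈ AddSubgroup.closure roots := by
      refine heven _ (fun i ↦ (h1 i).sub_odd odd_one) ?_
      simp only [Pi.sub_apply, Finset.sum_sub_distrib]
      simp
      omega
    have := add_mem h6 ho
    simpa using this

/-- **Milnor.** `E₈ ⊕ E₈` and `D₁₆⁺` are not isometric. -/
theorem not_isometric : ¬ ∃ f : ((LD 8).prod (LD 8)) ≃+ LD 16, ∀ z,
    ∑ i, (f z).1 i ^ 2 = ∑ i, z.1.1 i ^ 2 + ∑ i, z.1.2 i ^ 2 := by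
  rintro ⟨f, hf⟩
  -- the image of every vector has even coordinates
  have key : ∀ z ∈ AddSubgroup.closure {z : (Fin 8 → ℤ) × (Fin 8 → ℤ) |
      z ∈ (LD 8).prod (LD 8) ∧ ∑ i, z.1 i ^ 2 + ∑ i, z.2 i ^ 2 = 8},
      ∃ hz : z ∈ (LD 8).prod (LD 8), ∀ i, Even ((f ⟨z, hz⟩).1 i) := by
    intro z hz
    induction hz using AddSubgroup.closure_induction with
    | mem z hz =>
      refine ⟨hz.1, ?_⟩
      have h1 : ∑ i, (f ⟨z, hz.1⟩).1 i ^ 2 = 8 := (hf ⟨z, hz.1⟩).trans hz.2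
      rcases (f ⟨z, hz.1⟩).2.1 with h2 | h2
      · exact h2
      · exfalso
        have h3 : ∀ i, 1 ≤ (f ⟨z, hz.1⟩).1 i ^ 2 := fun i ↦ by
          have h4 : (f ⟨z, hz.1⟩).1 i ≠ 0 := fun h ↦ by
            have := h2 i
            rw [h] at this
            exact absurd this (by decide)
          have := sq_pos_of_ne_zero h4
          omega
        have h5 := Finset.sum_le_sum (s := Finset.univ) fun i _ ↦ h3 i
        rw [h1] at h5
        simp at h5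
    | zero =>
      refine ⟨zero_mem _, fun i ↦ ?_⟩
      have : f ⟨0, zero_mem _⟩ = 0 := map_zero f
      rw [this]
      simp
    | add x y _ _ hx hy =>
      obtain ⟨hx1, hx2⟩ := hx
      obtain ⟨hy1, hy2⟩ := hy
      refine ⟨add_mem hx1 hy1, fun i ↦ ?_⟩
      have : f ⟨x + y, add_mem hx1 hy1⟩ = f ⟨x, hx1⟩ + f ⟨y, hy1⟩ := map_add f ⟨x, hx1⟩ ⟨y, hy1⟩
      rw [this]
      exact (hx2 i).add (hy2 i)
    | neg x _ hx =>
      obtain ⟨hx1, hx2⟩ := hx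
      refine ⟨neg_mem hx1, fun i ↦ ?_⟩
      have : f ⟨-x, neg_mem hx1⟩ = -f ⟨x, hx1⟩ := map_neg f ⟨x, hx1⟩
      rw [this]
      exact (hx2 i).neg
  have hall : ∀ z ∈ (LD 8).prod (LD 8), z ∈ AddSubgroup.closure
      {z : (Fin 8 → ℤ) × (Fin 8 → ℤ) |
        z ∈ (LD 8).prod (LD 8) ∧ ∑ i, z.1 i ^ 2 + ∑ i, z.2 i ^ 2 = 8} := by
    intro z hz
    have h1 : AddMonoidHom.inl (Fin 8 → ℤ) (Fin 8 → ℤ) z.1 ∈ AddSubgroup.closure
      {z : (Fin 8 → ℤ) × (Fin 8 → ℤ) |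
        z ∈ (LD 8).prod (LD 8) ∧ ∑ i, z.1 i ^ 2 + ∑ i, z.2 i ^ 2 = 8} := by
      have h2 := AddSubgroup.mem_map_of_mem (AddMonoidHom.inl (Fin 8 → ℤ) (Fin 8 → ℤ))
        (mem_closure_roots hz.1)
      rw [AddMonoidHom.map_closure] at h2
      refine AddSubgroup.closure_mono ?_ h2
      rintro _ ⟨y, hy, rfl⟩
      exact ⟨⟨hy.1, zero_mem _⟩, by simpa using hy.2⟩
    have h1' : AddMonoidHom.inr (Fin 8 → ℤ) (Fin 8 → ℤ) z.2 ∈ AddSubgroup.closure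
      {z : (Fin 8 → ℤ) × (Fin 8 → ℤ) |
        z ∈ (LD 8).prod (LD 8) ∧ ∑ i, z.1 i ^ 2 + ∑ i, z.2 i ^ 2 = 8} := by
      have h2 := AddSubgroup.mem_map_of_mem (AddMonoidHom.inr (Fin 8 → ℤ) (Fin 8 → ℤ))
        (mem_closure_roots hz.2)
      rw [AddMonoidHom.map_closure] at h2
      refine AddSubgroup.closure_mono ?_ h2
      rintro _ ⟨y, hy, rfl⟩
      exact ⟨⟨zero_mem _, hy.1⟩, by simpa using hy.2⟩
    have h3 := add_mem h1 h1'
    simpa using h3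
  -- the vector `(1, …, 1)`
  have hone : (fun _ ↦ 1 : Fin 16 → ℤ) ∈ LD 16 := ⟨Or.inr (by decide), by decide⟩
  obtain ⟨z, hz⟩ := f.surjective ⟨_, hone⟩
  obtain ⟨hz1, hz2⟩ := key z.1 (hall z.1 z.2)
  have h6 := hz2 0
  have h7 : f ⟨z.1, hz1⟩ = f z := rfl
  rw [h7, hz] at h6
  have h8 : Even (1 : ℤ) := h6
  exact absurd h8 (by decide)

/-- **Milnor's example.** The lattices `E₈ ⊕ E₈` and `D₁₆⁺` have, for each `n`, the same number of
vectors of norm `2 n`, but they are not isometric. (Both are scaled by `2`.) -/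
theorem milnor : (∀ n : ℕ, Nat.card {z : (LD 8).prod (LD 8) //
      ∑ i, z.1.1 i ^ 2 + ∑ i, z.1.2 i ^ 2 = 8 * n} =
      Nat.card {z : LD 16 // ∑ i, z.1 i ^ 2 = 8 * n}) ∧
    ¬ ∃ f : ((LD 8).prod (LD 8)) ≃+ LD 16, ∀ z,
      ∑ i, (f z).1 i ^ 2 = ∑ i, z.1.1 i ^ 2 + ∑ i, z.1.2 i ^ 2 := by
  refine ⟨fun n ↦ ?_, not_isometric⟩
  have h := rD_eq_rEE n
  rw [rD, rEE] at h
  have e1 : Nat.card {z : (LD 8).prod (LD 8) // ∑ i, z.1.1 i ^ 2 + ∑ i, z.1.2 i ^ 2 = 8 * n} =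
      Nat.card {p : (Fin 8 → ℤ) × (Fin 8 → ℤ) // (InE p.1 ∧ InE p.2) ∧ nrm p.1 + nrm p.2 = n} := by
    refine Nat.card_congr ⟨fun z ↦ ⟨z.1.1, ⟨z.1.2.1, z.1.2.2⟩, ?_⟩,
      fun p ↦ ⟨⟨p.1, p.2.1.1, p.2.1.2⟩, ?_⟩, fun z ↦ rfl, fun p ↦ rfl⟩
    · have h1 := Int.mul_ediv_cancel' (InE.eight_dvd z.1.2.1)
      have h2 := Int.mul_ediv_cancel' (InE.eight_dvd z.1.2.2)
      have h3 := z.2
      rw [nrm, nrm]
      omega
    · have h1 := Int.mul_ediv_cancel' (InE.eight_dvd p.2.1.1)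
      have h2 := Int.mul_ediv_cancel' (InE.eight_dvd p.2.1.2)
      have h3 := p.2.2
      rw [nrm, nrm] at h3
      change ∑ i, p.1.1 i ^ 2 + ∑ i, p.1.2 i ^ 2 = 8 * n
      omega
  have e2 : Nat.card {z : LD 16 // ∑ i, z.1 i ^ 2 = 8 * n} =
      Nat.card {y : Fin 16 → ℤ // InD y ∧ nrD y = n} := by
    refine Nat.card_congr ⟨fun z ↦ ⟨z.1.1, z.1.2, ?_⟩,
      fun y ↦ ⟨⟨y.1, y.2.1⟩, ?_⟩, fun z ↦ rfl, fun p ↦ rfl⟩
    · have h1 := Int.mul_ediv_cancel' (InD.eight_dvd (by norm_num) z.1.2)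
      have h3 := z.2
      rw [nrD]
      omega
    · have h1 := Int.mul_ediv_cancel' (InD.eight_dvd (by norm_num) y.2.1)
      have h3 := y.2.2
      rw [nrD] at h3
      change ∑ i, y.1 i ^ 2 = 8 * n
      omega
  rw [e1, e2, h]

end Fermat.Agent.Cor.FourSq
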