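import Fermat.Agent.Cor.SingularModuli
import Fermat.Agent.Q.Frobenius
import Fermat.Agent.Igusa.Degree2

/-!
# The classical modular polynomials of prime level

For a prime `ℓ` there is exactly one `Φ_ℓ ∈ ℤ[X, Y]` with
`Φ_ℓ(j(τ), y) = (y - j(ℓτ)) ∏_{b mod ℓ} (y - j((τ + b)/ℓ))` for all `τ ∈ ℍ`, `y ∈ ℂ`
(`exists_unique_modular_polynomial`). It is monic of degree `ℓ + 1` in each variable, symmetric
(`swap_modPoly`), generates the ideal of all relations between `j(τ)` and `j(ℓτ)` (`modPoly_dvd_iff`), is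
irreducible over every field of characteristic different from `ℓ` (`irreducible_modPoly_map`), and satisfies
Kronecker's congruence `Φ_ℓ ≡ (X ^ ℓ - Y) (X - Y ^ ℓ) mod ℓ` (`modPoly_kronecker`).

`X[X]`-conventions: `ℤ[X][X]` is `ℤ[X][Y]`, the outer variable is `Y`.

This file is not used by any of the statement files.
-/

set_option autoImplicit false

noncomputable section

namespace Fermat.Agent.Cor.CM

open ModularCurve Polynomial UpperHalfPlane Fermat.Agent.Igusa MatrixGroups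
open scoped Polynomial.Bivariate

variable (ℓ : ℕ) [hℓ : Fact ℓ.Prime]

theorem aevalAeval_eq_eval₂ {K : Type*} [CommRing K] [Algebra ℤ K] (x y : K) (Φ : ℤ[X][X]) :
    Φ.aevalAeval x y = Φ.eval₂ (evZ x) y := by
  have h : (aevalAeval x y : ℤ[X][X] →ₐ[ℤ] K).toRingHom = Polynomial.eval₂RingHom (evZ x) y := by
    ext <;> simp
  exact congrFun (congrArg DFunLike.coe h) Φ

/-- **Factorisation**: `Φ_ℓ(j(τ), y) = (y - j(ℓτ)) ∏ (y - j((τ + b)/ℓ))`. -/
theorem modPoly_eval_j (τ : ℍ) (y : ℂ) : (modPoly ℓ).aevalAeval (j τ) y =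
    (y - j (scl ℓ τ)) * ∏ b : ZMod ℓ, (y - j (lin ℓ b.val τ)) := by
  rw [aevalAeval_eq_eval₂]
  have h1 : IsExp ℓ (fun τ => (modPoly ℓ).eval₂ (evZ (jf τ)) y)
      ((modPoly ℓ).eval₂ (evZ (qExpand ℂ ℓ (jqModC ℂ))) (HahnSeries.C y)) :=
    isExp_eval₂ ((isExp_qExpand_iff ℓ).mpr isExp_jf) (IsExp.const y) _
  have h2 : (modPoly ℓ).eval₂ (evZ (qExpand ℂ ℓ (jqModC ℂ))) (HahnSeries.C y) =
      (HahnSeries.C y - qExpand ℂ ℓ (qExpand ℂ ℓ (jqModC ℂ))) *
        ∏ b : ZMod ℓ, (HahnSeries.C y - twist (zr ℓ ^ b.val) (jqModC ℂ)) := by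
    rw [← Polynomial.eval_map, modPoly_map_complex, rtPoly, Polynomial.eval_prod,
      Fintype.prod_option]
    simp [rt]
  have h3 : IsExp ℓ (fun τ => jf (scl ℓ τ)) (qExpand ℂ ℓ (qExpand ℂ ℓ (jqModC ℂ))) :=
    (isExp_qExpand_iff ℓ).mpr (isExp_jf.comp_scl ℓ)
  have h4 : ∀ s : Finset (ZMod ℓ), IsExp ℓ (fun τ => ∏ b ∈ s, (y - jf (lin ℓ b.val τ)))
      (∏ b ∈ s, (HahnSeries.C y - twist (zr ℓ ^ b.val) (jqModC ℂ))) := by
    classical
    intro s
    induction s using Finset.induction_on with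
    | empty => simpa using IsExp.one
    | insert a s ha ih =>
      simp only [Finset.prod_insert ha]
      refine ((IsExp.const y).sub ?_).mul ih
      have := isExp_jf.comp_lin ℓ (a.val : ℤ)
      rwa [zpow_natCast] at this
  have h5 := ((IsExp.const (h := ℓ) y).sub h3).mul (h4 Finset.univ)
  rw [← h2] at h5
  simp only [j_eq_jf]
  exact (h1 τ).unique (h5 τ)

/-- `Φ_ℓ(j(τ), j(ℓτ)) = 0`. -/
theorem modPoly_j_scl (τ : ℍ) : (modPoly ℓ).aevalAeval (j τ) (j (scl ℓ τ)) = 0 := by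
  rw [modPoly_eval_j, sub_self, zero_mul]

/-- `Φ_ℓ` over a field, evaluated at `j(q)`, is the minimal polynomial of `j(q^ℓ)` over `k(j)`. -/
theorem modPolyAt_eq_minpoly (k : Type*) [Field k] (hk : (ℓ : k) ≠ 0) :
    modPolyAt ℓ (modularFunctionFieldFullC k 1) ⟨jqModC k, jqModC_mem_full k 1⟩ =
      minpoly (modularFunctionFieldFullC k 1) (jd k ℓ) := by
  have h0 : aeval (jd k ℓ) (modPolyAt ℓ (modularFunctionFieldFullC k 1)
      ⟨jqModC k, jqModC_mem_full k 1⟩) = 0 := by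
    rw [aeval_modPolyAt]
    have := modPoly_eval ℓ k 1
    rwa [jd_one, jd_congr k (one_mul ℓ)] at this
  have hm := modPolyAt_monic ℓ (modularFunctionFieldFullC k 1) ⟨jqModC k, jqModC_mem_full k 1⟩
  have hint : IsIntegral (modularFunctionFieldFullC k 1) (jd k ℓ) := ⟨_, hm, by
    rwa [← Polynomial.aeval_def]⟩
  refine Polynomial.eq_of_monic_of_dvd_of_natDegree_le (minpoly.monic hint) hm
    (minpoly.dvd _ _ h0) ?_
  rw [modPolyAt_natDegree]
  exact le_natDegree_minpoly ℓ 1 hk (jd_notMem ℓ hk)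

/-- **Irreducibility** of `Φ_ℓ` over any field of characteristic different from `ℓ`. -/
theorem irreducible_modPoly_map (k : Type*) [Field k] (hk : (ℓ : k) ≠ 0) :
    Irreducible ((modPoly ℓ).map (mapRingHom (Int.castRingHom k))) := by
  set A := modularFunctionFieldFullC k 1 with hA
  let x : A := ⟨jqModC k, jqModC_mem_full k 1⟩
  let θ : k[X] →+* A := (aeval x : k[X] →ₐ[k] A).toRingHom
  have hθ : ((modPoly ℓ).map (mapRingHom (Int.castRingHom k))).map θ = modPolyAt ℓ A x := by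
    rw [Polynomial.map_map, modPolyAt]
    congr 1
    ext <;> simp [θ]
  refine Monic.irreducible_of_irreducible_map θ _ ((modPoly_monic ℓ).map _) ?_
  rw [hθ, modPolyAt_eq_minpoly ℓ k hk]
  refine minpoly.irreducible ⟨modPolyAt ℓ A x, modPolyAt_monic ℓ A x, ?_⟩
  rw [← Polynomial.aeval_def, modPolyAt_eq_minpoly ℓ k hk, minpoly.aeval]

/-- If a relation holds between the `q`-expansions over a domain of characteristic zero, it is a multiple
of `Φ_ℓ`. -/
theorem modPoly_dvd_of_series {P : ℤ[X][X]}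
    (h : P.eval₂ (evZ (jqModC ℂ)) (jd ℂ ℓ) = 0) : modPoly ℓ ∣ P := by
  have hℓ0 : (ℓ : ℂ) ≠ 0 := by exact_mod_cast hℓ.out.ne_zero
  rw [← Polynomial.modByMonic_eq_zero_iff_dvd (modPoly_monic ℓ)]
  set Q := P %ₘ modPoly ℓ with hQ
  have hdeg : Q.degree < (modPoly ℓ).degree := Polynomial.degree_modByMonic_lt _ (modPoly_monic ℓ)
  have hQ0 : Q.eval₂ (evZ (jqModC ℂ)) (jd ℂ ℓ) = 0 := by
    have h1 := Polynomial.modByMonic_add_div P (modPoly ℓ)
    have h2 := modPoly_eval ℓ ℂ 1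
    rw [jd_one, jd_congr ℂ (one_mul ℓ)] at h2
    rw [← h1, Polynomial.eval₂_add, Polynomial.eval₂_mul, h2, zero_mul, add_zero] at h
    exact h
  set A := modularFunctionFieldFullC ℂ 1 with hA
  let x : A := ⟨jqModC ℂ, jqModC_mem_full ℂ 1⟩
  have hval : ∀ R : ℤ[X][X], aeval (jd ℂ ℓ) (R.map (evZ x)) =
      R.eval₂ (evZ (jqModC ℂ)) (jd ℂ ℓ) := by
    intro R
    rw [Polynomial.aeval_def, Polynomial.eval₂_map, ringHom_comp_evZ]
    rfl
  have hinj : Function.Injective (evZ x) := by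
    rw [injective_iff_map_eq_zero]
    intro p hp
    have h1 := congrArg (algebraMap A (LaurentSeries ℂ)) hp
    rw [ringHom_evZ, map_zero] at h1
    change evZ (jqModC ℂ) p = 0 at h1
    have h2 : evJ ℂ (p.map (Int.castRingHom ℂ)) = 0 := by
      rw [← h1, evJ_apply, Polynomial.eval₂_map, evZ_apply]
      congr 1
    have h3 := evJ_injective ℂ (h2.trans (map_zero _).symm)
    exact (Polynomial.map_injective _ Int.cast_injective) (h3.trans (Polynomial.map_zero _).symm)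
  have h3 : Q.map (evZ x) = 0 := by
    by_contra hne
    have h4 := minpoly.degree_le_of_ne_zero A (jd ℂ ℓ) hne (by rw [hval, hQ0])
    rw [← modPolyAt_eq_minpoly ℓ ℂ hℓ0, modPolyAt, (modPoly_monic ℓ).degree_map] at h4
    exact absurd (h4.trans (Polynomial.degree_map_le)) (not_le.mpr hdeg)
  exact (Polynomial.map_injective _ hinj) (h3.trans (Polynomial.map_zero _).symm)

/-- **All relations** between `j(τ)` and `j(ℓτ)` are multiples of `Φ_ℓ`. -/
theorem modPoly_dvd_iff (P : ℤ[X][X]) :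
    modPoly ℓ ∣ P ↔ ∀ τ : ℍ, P.aevalAeval (j τ) (j (scl ℓ τ)) = 0 := by
  constructor
  · rintro ⟨Q, rfl⟩ τ
    rw [map_mul, modPoly_j_scl, zero_mul]
  · intro h
    apply modPoly_dvd_of_series
    have h1 : IsExp 1 (fun τ => P.eval₂ (evZ (jf τ)) (jf (scl ℓ τ)))
        (P.eval₂ (evZ (jqModC ℂ)) (jd ℂ ℓ)) := isExp_eval₂ isExp_jf (isExp_jf.comp_scl ℓ) P
    refine IsExp.eq_zero one_pos (h1.congr fun τ => ?_)
    rw [← h τ, aevalAeval_eq_eval₂, j_eq_jf, j_eq_jf]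

/-- **Symmetry** of `Φ_ℓ`. -/
theorem swap_modPoly : Bivariate.swap (modPoly ℓ) = modPoly ℓ := by
  have h1 : modPoly ℓ ∣ Bivariate.swap (modPoly ℓ) := by
    rw [modPoly_dvd_iff]
    intro τ
    rw [Bivariate.aevalAeval_swap, aevalAeval_eq_eval₂, j_eq_jf, j_eq_jf]
    exact modPoly_jf' ℓ τ
  obtain ⟨Q, hQ⟩ := h1
  have h2 : Q * Bivariate.swap Q = 1 := by
    have h3 := congrArg (Bivariate.swap (R := ℤ)) hQ
    rw [map_mul, Bivariate.swap_swap_apply, hQ, mul_assoc] at h3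
    exact (mul_left_cancel₀ (modPoly_monic ℓ).ne_zero ((mul_one _).trans h3)).symm
  have h3 : IsUnit Q := IsUnit.of_mul_eq_one _ h2
  obtain ⟨Q1, hQ1, rfl⟩ := Polynomial.isUnit_iff.mp h3
  obtain ⟨a, ha, rfl⟩ := Polynomial.isUnit_iff.mp hQ1
  rcases Int.isUnit_iff.mp ha with rfl | rfl
  · rw [hQ]; simp
  · exfalso
    have h4 := congrArg (aevalAeval (0 : ℤ[X]) X) hQ
    rw [Bivariate.aevalAeval_swap, aevalAeval_eq_eval₂, aevalAeval_eq_eval₂, Polynomial.eval₂_mul,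
      Polynomial.eval₂_at_zero] at h4
    have h5 : evZ (X : ℤ[X]) = RingHom.id _ := by ext <;> simp
    have h6 : evZ (0 : ℤ[X]) = C.comp (evZ (0 : ℤ)) := by ext <;> simp
    have h7 : (modPoly ℓ).eval₂ (evZ (0 : ℤ[X])) X = (modPoly ℓ).map (evZ (0 : ℤ)) := by
      rw [h6]; rfl
    rw [h5, h7, RingHom.id_apply] at h4
    have h8 := congrArg (fun p => p.coeff (ℓ + 1)) h4
    have h9 := (Fermat.Agent.H23.R.modPoly_shape' ℓ).2.2.2
    have h10 : (modPoly ℓ).coeff (ℓ + 1) = 1 := by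
      have := modPoly_monic ℓ
      rwa [Monic, leadingCoeff, modPoly_natDegree] at this
    simp [h9, h10] at h8

/-- **Kronecker's congruence** `Φ_ℓ(X, Y) ≡ (X^ℓ - Y)(X - Y^ℓ) mod ℓ`. -/
theorem modPoly_kronecker : (modPoly ℓ).map (mapRingHom (Int.castRingHom (ZMod ℓ))) =
    (C X ^ ℓ - X) * (C X - X ^ ℓ) := by
  have hψ : Function.Injective ((qExpand (ZMod ℓ) ℓ).comp (evJ (ZMod ℓ))) :=
    (qExpand_injective ℓ).comp (evJ_injective (ZMod ℓ))
  apply Polynomial.map_injective _ hψ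
  let π : CycZ ℓ →+* ZMod ℓ := AdjoinRoot.lift (Int.castRingHom (ZMod ℓ)) 1 (by
    rw [Polynomial.eval₂_eq_eval_map, Polynomial.map_cyclotomic,
      Polynomial.eval_one_cyclotomic_prime]
    simp)
  have hu : Units.map (π : CycZ ℓ →* ZMod ℓ) (cycUnit ℓ) = 1 := by
    ext
    show π (AdjoinRoot.root (Polynomial.cyclotomic ℓ ℤ)) = 1
    rw [AdjoinRoot.lift_root]
  have h1 := congrArg (Polynomial.map (coeffMap π)) (modPoly_map_cyc ℓ)
  rw [map_rtPoly, hu, Polynomial.map_map, ringHom_comp_evZ, coeffMap_qExpand, coeffMap_jqModC] at h1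
  have h2 : ((qExpand (ZMod ℓ) ℓ).comp (evJ (ZMod ℓ))).comp (mapRingHom (Int.castRingHom (ZMod ℓ))) =
      evZ (qExpand (ZMod ℓ) ℓ (jqModC (ZMod ℓ))) := by
    ext <;> simp
  rw [Polynomial.map_map, h2, h1]
  have hfr : ∀ u : LaurentSeries (ZMod ℓ), qExpand (ZMod ℓ) ℓ u = u ^ ℓ := by
    intro u
    rw [Fermat.Agent.Q.pow_char ℓ u, ZMod.frobenius_zmod]
    congr 1
  have hch : CharP (LaurentSeries (ZMod ℓ)) ℓ :=
    charP_of_injective_algebraMap (algebraMap (ZMod ℓ) (LaurentSeries (ZMod ℓ))).injective ℓ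
  have h3 : (X - C (jqModC (ZMod ℓ))) ^ ℓ = X ^ ℓ - C (qExpand (ZMod ℓ) ℓ (jqModC (ZMod ℓ))) := by
    rw [sub_pow_char, hfr, C_pow]
  have h4 : ∀ b : ZMod ℓ, twist ((1 : (ZMod ℓ)ˣ) ^ b.val) (jqModC (ZMod ℓ)) = jqModC (ZMod ℓ) := by
    intro b
    ext n
    simp
  have h5 : rtPoly ℓ (1 : (ZMod ℓ)ˣ) = (X - C (qExpand (ZMod ℓ) ℓ (jqModC (ZMod ℓ))) ^ ℓ) *
      (X ^ ℓ - C (qExpand (ZMod ℓ) ℓ (jqModC (ZMod ℓ)))) := by
    rw [rtPoly, Fintype.prod_option]
    simp only [rt, h4]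
    rw [Finset.prod_const, Finset.card_univ, ZMod.card, h3, hfr (qExpand (ZMod ℓ) ℓ _), C_pow]
  rw [h5]
  simp
  ring

/-- **The modular polynomial of prime level**: existence, uniqueness and the classical properties. -/
theorem exists_unique_modular_polynomial :
    (∃! Φ : ℤ[X][X], ∀ (τ : ℍ) (y : ℂ), Φ.aevalAeval (j τ) y =
      (y - j (scl ℓ τ)) * ∏ b : ZMod ℓ, (y - j (lin ℓ b.val τ))) ∧
    ∀ Φ : ℤ[X][X], (∀ (τ : ℍ) (y : ℂ), Φ.aevalAeval (j τ) y =
      (y - j (scl ℓ τ)) * ∏ b : ZMod ℓ, (y - j (lin ℓ b.val τ))) →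
      Φ.Monic ∧ Φ.natDegree = ℓ + 1 ∧ Bivariate.swap Φ = Φ ∧
      Φ.map (mapRingHom (Int.castRingHom (ZMod ℓ))) = (C X ^ ℓ - X) * (C X - X ^ ℓ) ∧
      Irreducible Φ ∧
      ∀ P : ℤ[X][X], Φ ∣ P ↔ ∀ τ : ℍ, P.aevalAeval (j τ) (j (scl ℓ τ)) = 0 := by
  have huniq : ∀ Φ : ℤ[X][X], (∀ (τ : ℍ) (y : ℂ), Φ.aevalAeval (j τ) y =
      (y - j (scl ℓ τ)) * ∏ b : ZMod ℓ, (y - j (lin ℓ b.val τ))) → Φ = modPoly ℓ := by
    intro Φ hΦ
    have h1 : ∀ y : ℂ, (Φ - modPoly ℓ).eval₂ (evZ (jqModC ℂ)) (HahnSeries.C y) = 0 := by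
      intro y
      have h2 : IsExp 1 (fun τ => (Φ - modPoly ℓ).eval₂ (evZ (jf τ)) y)
          ((Φ - modPoly ℓ).eval₂ (evZ (jqModC ℂ)) (HahnSeries.C y)) :=
        isExp_eval₂ isExp_jf (IsExp.const y) _
      refine IsExp.eq_zero one_pos (h2.congr fun τ => ?_)
      rw [← aevalAeval_eq_eval₂, ← j_eq_jf, map_sub, hΦ, modPoly_eval_j, sub_self]
    have h2 : (Φ - modPoly ℓ).map (evZ (jqModC ℂ)) = 0 := by
      refine Polynomial.eq_zero_of_infinite_isRoot _ (Set.Infinite.mono ?_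
        (Set.infinite_range_of_injective (HahnSeries.C_injective (Γ := ℤ) (R := ℂ))))
      rintro _ ⟨y, rfl⟩
      show ((Φ - modPoly ℓ).map (evZ (jqModC ℂ))).eval (HahnSeries.C y) = 0
      rw [Polynomial.eval_map]
      exact h1 y
    have hinj : Function.Injective (evZ (jqModC ℂ)) := by
      rw [injective_iff_map_eq_zero]
      intro p hp
      have h3 : evJ ℂ (p.map (Int.castRingHom ℂ)) = 0 := by
        rw [← hp, evJ_apply, Polynomial.eval₂_map, evZ_apply]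
        congr 1
      have h4 := evJ_injective ℂ (h3.trans (map_zero _).symm)
      exact (Polynomial.map_injective _ Int.cast_injective) (h4.trans (Polynomial.map_zero _).symm)
    exact sub_eq_zero.mp ((Polynomial.map_injective _ hinj) (h2.trans (Polynomial.map_zero _).symm))
  refine ⟨⟨modPoly ℓ, modPoly_eval_j ℓ, huniq⟩, fun Φ hΦ => ?_⟩
  obtain rfl := huniq Φ hΦ
  refine ⟨modPoly_monic ℓ, modPoly_natDegree ℓ, swap_modPoly ℓ, modPoly_kronecker ℓ, ?_,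
    modPoly_dvd_iff ℓ⟩
  refine Monic.irreducible_of_irreducible_map (mapRingHom (Int.castRingHom ℚ)) _ (modPoly_monic ℓ) ?_
  exact irreducible_modPoly_map ℓ ℚ (by exact_mod_cast hℓ.out.ne_zero)

end Fermat.Agent.Cor.CM
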