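import Fermat.Agent.Cor.ThueEquation

/-!
# Mordell's equation

For every `k ≠ 0` the equation `y² = x³ + k` has only finitely many solutions in integers.

Proof (Mordell): the binary cubic form `X³ - 3xXY² + 2yY³` has discriminant `-108k`; reduction
theory makes it equivalent to one of finitely many forms `G`, and the equivalence is given by a
solution of the Thue equation `G(u, v) = 1`.
-/

open Polynomial

namespace Fermat.Agent.Cor.Thue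

/-- Reduction of positive definite binary quadratic forms. -/
theorem exists_reduced {P Q R : ℝ} (hP : 0 < P) (hdet : 0 < P * R - Q ^ 2) :
    ∃ p q r s : ℤ, p * s - q * r = 1 ∧
      (P * p ^ 2 - 2 * Q * p * r + R * r ^ 2) * (P * q ^ 2 - 2 * Q * q * s + R * s ^ 2) ≤
        4 / 3 * (P * R - Q ^ 2) := by
  set δ := √(P * R - Q ^ 2) with hδ
  have hδ0 : 0 < δ := Real.sqrt_pos.2 hdet
  have hδ2 : δ ^ 2 = P * R - Q ^ 2 := Real.sq_sqrt hdet.le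
  let z : UpperHalfPlane := ⟨⟨Q / P, δ / P⟩, div_pos hδ0 hP⟩
  obtain ⟨g, hg⟩ := ModularGroup.exists_smul_mem_fd z
  have hdet1 : g 0 0 * g 1 1 - g 0 1 * g 1 0 = 1 := by
    have := g.det_coe; rwa [Matrix.det_fin_two] at this
  obtain ⟨a, ha⟩ : ∃ a, a = g 0 0 := ⟨_, rfl⟩
  obtain ⟨b, hb⟩ : ∃ b, b = g 0 1 := ⟨_, rfl⟩
  obtain ⟨c, hc⟩ : ∃ c, c = g 1 0 := ⟨_, rfl⟩
  obtain ⟨d, hd⟩ : ∃ d, d = g 1 1 := ⟨_, rfl⟩
  have hz0 : (c : ℂ) * (z : ℂ) + d ≠ 0 := by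
    intro h
    have := UpperHalfPlane.denom_ne_zero (g : GL (Fin 2) ℝ) z
    apply this
    rw [ModularGroup.denom_apply, ← hc, ← hd]
    exact h
  have h1 : ((g • z : UpperHalfPlane) : ℂ) * (c * z + d) = a * z + b := by
    rw [UpperHalfPlane.coe_specialLinearGroup_apply, ← ha, ← hb, ← hc, ← hd]
    have hz0' : ((algebraMap ℤ ℝ c : ℝ) : ℂ) * (z : ℂ) + ((algebraMap ℤ ℝ d : ℝ) : ℂ) ≠ 0 := by
      simpa using hz0
    have e1 : (c : ℂ) * z + d = ((algebraMap ℤ ℝ c : ℝ) : ℂ) * (z : ℂ) +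
      ((algebraMap ℤ ℝ d : ℝ) : ℂ) := by simp
    rw [e1, div_mul_cancel₀ _ hz0']
    simp
  rw [← ha, ← hb, ← hc, ← hd] at hdet1
  set w : UpperHalfPlane := g • z with hw
  have hzre : (z : ℂ).re = Q / P := rfl
  have hzim : (z : ℂ).im = δ / P := rfl
  have hre := congrArg Complex.re h1
  have him := congrArg Complex.im h1
  simp only [Complex.mul_re, Complex.mul_im, Complex.add_re, Complex.add_im, Complex.intCast_re,
    Complex.intCast_im, hzre, hzim, zero_mul, sub_zero, add_zero] at hre him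
  have hw1 : |(w : ℂ).re| ≤ 1 / 2 := hg.2
  have hw2 : 3 ≤ 4 * (w : ℂ).im ^ 2 := ModularGroup.three_le_four_mul_im_sq_of_mem_fd hg
  set ξ := (w : ℂ).re
  set η := (w : ℂ).im
  have hξ : ξ ^ 2 ≤ 1 / 4 := by
    rw [abs_le] at hw1; nlinarith
  have hdR : (a : ℝ) * d - b * c = 1 := by exact_mod_cast hdet1
  obtain ⟨x, hx⟩ : ∃ x, x = Q / P := ⟨_, rfl⟩
  obtain ⟨y, hy⟩ : ∃ y, y = δ / P := ⟨_, rfl⟩
  rw [← hx, ← hy] at hre him
  have hQ : Q = P * x := by rw [hx]; field_simp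
  have hδP : δ = P * y := by rw [hy]; field_simp
  have hR : P * R = P ^ 2 * (x ^ 2 + y ^ 2) := by
    have : P * R = δ ^ 2 + Q ^ 2 := by rw [hδ2]; ring
    rw [this, hδP, hQ]; ring
  have hR' : R = P * (x ^ 2 + y ^ 2) := by
    have : P * (R - P * (x ^ 2 + y ^ 2)) = 0 := by rw [mul_sub, hR]; ring
    rcases mul_eq_zero.1 this with h | h
    · exact absurd h hP.ne'
    · linarith
  set N := (c * x + d) ^ 2 + (c * y) ^ 2 with hN
  have hN0 : 0 ≤ N := by positivity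
  have hηN : η * N = y := by
    rw [hN]
    linear_combination (c * x + d) * him - (c * y) * hre + y * hdR
  have hwN : (a * x + b) ^ 2 + (a * y) ^ 2 = (ξ ^ 2 + η ^ 2) * N := by
    rw [hN, ← hre]
    have : (a : ℝ) * y = ξ * (c * y) + η * (c * x + d) := by linarith
    rw [this]; ring
  refine ⟨d, -b, -c, a, by linarith, ?_⟩
  push_cast
  have e1 : P * (d : ℝ) ^ 2 - 2 * Q * d * (-c) + R * (-c) ^ 2 = P * N := by
    rw [hQ, hR', hN]; ring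
  have e2 : P * (-(b : ℝ)) ^ 2 - 2 * Q * (-b) * a + R * a ^ 2 = P * ((ξ ^ 2 + η ^ 2) * N) := by
    rw [← hwN, hQ, hR']; ring
  rw [e1, e2, ← hδ2, hδP, ← hηN]
  have e3 : ξ ^ 2 + η ^ 2 ≤ 4 / 3 * η ^ 2 := by nlinarith
  calc P * N * (P * ((ξ ^ 2 + η ^ 2) * N)) = (P * N) ^ 2 * (ξ ^ 2 + η ^ 2) := by ring
    _ ≤ (P * N) ^ 2 * (4 / 3 * η ^ 2) := mul_le_mul_of_nonneg_left e3 (by positivity)
    _ = _ := by ring

theorem normSq_add_three (x y z : ℂ) : Complex.normSq (x + y + z) ≤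
    3 * (Complex.normSq x + Complex.normSq y + Complex.normSq z) := by
  simp only [Complex.normSq_apply, Complex.add_re, Complex.add_im]
  nlinarith [sq_nonneg (x.re - y.re), sq_nonneg (x.re - z.re), sq_nonneg (y.re - z.re),
    sq_nonneg (x.im - y.im), sq_nonneg (x.im - z.im), sq_nonneg (y.im - z.im)]

/-- Products of three bounded factors. -/
theorem prod_le {w₁ w₂ w₃ x y z X Y Z : ℝ} (h₁ : 0 ≤ w₁) (h₂ : 0 ≤ w₂) (h₃ : 0 ≤ w₃) (hx : 0 ≤ x)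
    (hy : 0 ≤ y) (hz : 0 ≤ z) (hX : w₁ * x ≤ X) (hY : w₂ * y ≤ Y) (hZ : w₃ * z ≤ Z) :
    w₁ * w₂ * w₃ * (x * y * z) ≤ X * Y * Z := by
  have h1 : 0 ≤ w₁ * x := by positivity
  have h2 : 0 ≤ w₂ * y := by positivity
  have h3 : 0 ≤ w₃ * z := by positivity
  calc w₁ * w₂ * w₃ * (x * y * z) = (w₁ * x) * (w₂ * y) * (w₃ * z) := by ring
    _ ≤ X * Y * Z := mul_le_mul (mul_le_mul hX hY h2 (h1.trans hX)) hZ h3
        (mul_nonneg (h1.trans hX) (h2.trans hY))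

set_option maxHeartbeats 1000000 in
/-- The coefficients of a reduced cubic form are bounded. -/
theorem coeff_bound {w₁ w₂ w₃ A C D : ℝ} (h₁ : 0 ≤ w₁) (h₂ : 0 ≤ w₂) (h₃ : 0 ≤ w₃)
    {α₁ α₂ α₃ β₁ β₂ β₃ : ℂ} (hD : w₁ * w₂ * w₃ = D) (hD1 : 1 ≤ D)
    (hA : w₁ * Complex.normSq α₁ + w₂ * Complex.normSq α₂ + w₃ * Complex.normSq α₃ = A)
    (hC : w₁ * Complex.normSq β₁ + w₂ * Complex.normSq β₂ + w₃ * Complex.normSq β₃ = C)
    (hAC : A * C ≤ 4 * D) {a b c d : ℤ} (ha : (a : ℂ) = α₁ * α₂ * α₃)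
    (hb : (b : ℂ) = α₁ * α₂ * β₃ + α₁ * β₂ * α₃ + β₁ * α₂ * α₃)
    (hc : (c : ℂ) = α₁ * β₂ * β₃ + β₁ * α₂ * β₃ + β₁ * β₂ * α₃)
    (hd : (d : ℂ) = β₁ * β₂ * β₃) (hab : ¬ (a = 0 ∧ b = 0)) (hcd : ¬ (c = 0 ∧ d = 0)) :
    (a : ℝ) ^ 2 ≤ 9 * (144 * D) ^ 3 ∧ (b : ℝ) ^ 2 ≤ 9 * (144 * D) ^ 3 ∧
      (c : ℝ) ^ 2 ≤ 9 * (144 * D) ^ 3 ∧ (d : ℝ) ^ 2 ≤ 9 * (144 * D) ^ 3 := by
  have n1 := Complex.normSq_nonneg α₁
  have n2 := Complex.normSq_nonneg α₂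
  have n3 := Complex.normSq_nonneg α₃
  have m1 := Complex.normSq_nonneg β₁
  have m2 := Complex.normSq_nonneg β₂
  have m3 := Complex.normSq_nonneg β₃
  have wa1 : 0 ≤ w₁ * Complex.normSq α₁ := by positivity
  have wa2 : 0 ≤ w₂ * Complex.normSq α₂ := by positivity
  have wa3 : 0 ≤ w₃ * Complex.normSq α₃ := by positivity
  have wb1 : 0 ≤ w₁ * Complex.normSq β₁ := by positivity
  have wb2 : 0 ≤ w₂ * Complex.normSq β₂ := by positivity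
  have wb3 : 0 ≤ w₃ * Complex.normSq β₃ := by positivity
  have a1 : w₁ * Complex.normSq α₁ ≤ A := by linarith
  have a2 : w₂ * Complex.normSq α₂ ≤ A := by linarith
  have a3 : w₃ * Complex.normSq α₃ ≤ A := by linarith
  have b1 : w₁ * Complex.normSq β₁ ≤ C := by linarith
  have b2 : w₂ * Complex.normSq β₂ ≤ C := by linarith
  have b3 : w₃ * Complex.normSq β₃ ≤ C := by linarith
  have hA0 : 0 ≤ A := by linarith
  have hC0 : 0 ≤ C := by linarith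
  have sq : ∀ n : ℤ, (n : ℝ) ^ 2 = Complex.normSq (n : ℂ) := by
    intro n; rw [Complex.normSq_intCast]; ring
  have haA : D * (a : ℝ) ^ 2 ≤ A * A * A := by
    rw [sq, ha, map_mul, map_mul, ← hD]
    exact prod_le h₁ h₂ h₃ n1 n2 n3 a1 a2 a3
  have hdC : D * (d : ℝ) ^ 2 ≤ C * C * C := by
    rw [sq, hd, map_mul, map_mul, ← hD]
    exact prod_le h₁ h₂ h₃ m1 m2 m3 b1 b2 b3
  have hbA : D * (b : ℝ) ^ 2 ≤ 9 * (A * A * C) := by
    have e := normSq_add_three (α₁ * α₂ * β₃) (α₁ * β₂ * α₃) (β₁ * α₂ * α₃)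
    rw [← hb, ← sq] at e
    simp only [map_mul] at e
    have e1 := prod_le h₁ h₂ h₃ n1 n2 m3 a1 a2 b3
    have e2 := prod_le h₁ h₂ h₃ n1 m2 n3 a1 b2 a3
    have e3 := prod_le h₁ h₂ h₃ m1 n2 n3 b1 a2 a3
    rw [hD] at e1 e2 e3
    have e4 := mul_le_mul_of_nonneg_left e (show (0 : ℝ) ≤ D by linarith)
    linarith
  have hcC : D * (c : ℝ) ^ 2 ≤ 9 * (A * C * C) := by
    have e := normSq_add_three (α₁ * β₂ * β₃) (β₁ * α₂ * β₃) (β₁ * β₂ * α₃)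
    rw [← hc, ← sq] at e
    simp only [map_mul] at e
    have e1 := prod_le h₁ h₂ h₃ n1 m2 m3 a1 b2 b3
    have e2 := prod_le h₁ h₂ h₃ m1 n2 m3 b1 a2 b3
    have e3 := prod_le h₁ h₂ h₃ m1 m2 n3 b1 b2 a3
    rw [hD] at e1 e2 e3
    have e4 := mul_le_mul_of_nonneg_left e (show (0 : ℝ) ≤ D by linarith)
    linarith
  have one : ∀ n : ℤ, n ≠ 0 → (1 : ℝ) ≤ (n : ℝ) ^ 2 := by
    intro n hn
    have : (1 : ℤ) ≤ n ^ 2 := by
      have := Int.one_le_abs hn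
      nlinarith [sq_abs n]
    exact_mod_cast this
  -- lower bounds
  have hDp : 0 < D := by linarith
  have hAl : 1 / 36 ≤ A := by
    by_contra hcon
    rw [not_le] at hcon
    by_cases h0 : a = 0
    · have hb0 : b ≠ 0 := fun h ↦ hab ⟨h0, h⟩
      have h1 : D ≤ 9 * (A * A * C) := (le_mul_of_one_le_right hDp.le (one b hb0)).trans hbA
      have h2 : A * A * C ≤ A * (4 * D) := by
        calc A * A * C = A * (A * C) := by ring
          _ ≤ _ := mul_le_mul_of_nonneg_left hAC hA0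
      have h3 : A * D < 1 / 36 * D := mul_lt_mul_of_pos_right hcon hDp
      linarith
    · have h1 : D ≤ A * A * A := (le_mul_of_one_le_right hDp.le (one a h0)).trans haA
      have h2 : A * A * A ≤ (1 / 36) * (1 / 36) * (1 / 36) := by gcongr
      linarith
  have hCl : 1 / 36 ≤ C := by
    by_contra hcon
    rw [not_le] at hcon
    by_cases h0 : d = 0
    · have hb0 : c ≠ 0 := fun h ↦ hcd ⟨h, h0⟩
      have h1 : D ≤ 9 * (A * C * C) := (le_mul_of_one_le_right hDp.le (one c hb0)).trans hcC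
      have h2 : A * C * C ≤ (4 * D) * C := mul_le_mul_of_nonneg_right hAC hC0
      have h3 : C * D < 1 / 36 * D := mul_lt_mul_of_pos_right hcon hDp
      linarith
    · have h1 : D ≤ C * C * C := (le_mul_of_one_le_right hDp.le (one d h0)).trans hdC
      have h2 : C * C * C ≤ (1 / 36) * (1 / 36) * (1 / 36) := by gcongr
      linarith
  have hAu : A ≤ 144 * D := by
    have := mul_le_mul_of_nonneg_left hCl hA0
    linarith
  have hCu : C ≤ 144 * D := by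
    have := mul_le_mul_of_nonneg_right hAl hC0
    linarith
  have hfin : ∀ (n : ℤ) (T : ℝ), D * (n : ℝ) ^ 2 ≤ 9 * T → T ≤ (144 * D) ^ 3 →
      (n : ℝ) ^ 2 ≤ 9 * (144 * D) ^ 3 := by
    intro n T h1 h2
    have : (n : ℝ) ^ 2 ≤ D * (n : ℝ) ^ 2 := le_mul_of_one_le_left (by positivity) hD1
    linarith
  have hD0 : 0 ≤ 144 * D := by linarith
  have p1 : A * A * A ≤ (144 * D) ^ 3 := by
    rw [show (144 * D) ^ 3 = (144 * D) * (144 * D) * (144 * D) by ring]; gcongr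
  have p2 : A * A * C ≤ (144 * D) ^ 3 := by
    rw [show (144 * D) ^ 3 = (144 * D) * (144 * D) * (144 * D) by ring]; gcongr
  have p3 : A * C * C ≤ (144 * D) ^ 3 := by
    rw [show (144 * D) ^ 3 = (144 * D) * (144 * D) * (144 * D) by ring]; gcongr
  have p4 : C * C * C ≤ (144 * D) ^ 3 := by
    rw [show (144 * D) ^ 3 = (144 * D) * (144 * D) * (144 * D) by ring]; gcongr
  refine ⟨hfin a _ (haA.trans ?_) p1, hfin b _ hbA p2, hfin c _ hcC p3,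
    hfin d _ (hdC.trans ?_) p4⟩
  · have : 0 ≤ A * A * A := by positivity
    linarith
  · have : 0 ≤ C * C * C := by positivity
    linarith

/-- Thue's theorem for cubic forms of nonzero discriminant. -/
theorem cubic_finite {a b c d : ℤ}
    (hD : b ^ 2 * c ^ 2 - 4 * a * c ^ 3 - 4 * b ^ 3 * d - 27 * a ^ 2 * d ^ 2 +
      18 * a * b * c * d ≠ 0) :
    {x : ℤ × ℤ | a * x.1 ^ 3 + b * x.1 ^ 2 * x.2 + c * x.1 * x.2 ^ 2 + d * x.2 ^ 3 = 1}.Finite := by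
  by_cases ha : a = 0
  · subst ha
    have hb : b ≠ 0 := by
      rintro rfl; apply hD; ring
    -- `y = ±1` and `x` is a root of a quadratic polynomial
    have hquad : ∀ e f : ℤ, {x : ℤ | b * x ^ 2 + e * x + f = 0}.Finite := by
      intro e f
      set g : ℤ[X] := C b * X ^ 2 + C e * X + C f with hg
      have hg0 : g ≠ 0 := by
        intro h
        have := natDegree_quadratic (b := e) (c := f) hb
        rw [← hg, h, natDegree_zero] at this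
        omega
      refine (g.roots.toFinset.finite_toSet).subset ?_
      intro x hx
      rw [Finset.mem_coe, Multiset.mem_toFinset, mem_roots hg0, IsRoot.def, hg]
      simp only [eval_add, eval_mul, eval_C, eval_pow, eval_X]
      exact hx
    refine (((hquad c (d - 1)).prod (Set.finite_singleton (1 : ℤ))).union
      ((hquad (-c) (d + 1)).prod (Set.finite_singleton (-1 : ℤ)))).subset ?_
    rintro ⟨x, y⟩ hxy
    simp only [Set.mem_ofPred_eq] at hxy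
    have h1 : y * (b * x ^ 2 + c * x * y + d * y ^ 2) = 1 := by linear_combination hxy
    rcases Int.isUnit_iff.1 (IsUnit.of_mul_eq_one _ h1) with rfl | rfl
    · left
      refine ⟨?_, rfl⟩
      show b * x ^ 2 + c * x + (d - 1) = 0
      linear_combination h1
    · right
      refine ⟨?_, rfl⟩
      show b * x ^ 2 + (-c) * x + (d + 1) = 0
      linear_combination -h1
  · set P : Cubic ℤ := ⟨a, b, c, d⟩ with hP
    have hPa : P.a ≠ 0 := ha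
    have hnd : P.toPoly.natDegree = 3 := Cubic.natDegree_of_a_ne_zero hPa
    have hsep : (P.toPoly.map (Int.castRingHom ℚ)).Separable := by
      rw [← separable_map (algebraMap ℚ ℂ), Polynomial.map_map]
      have hcomp : (algebraMap ℚ ℂ).comp (Int.castRingHom ℚ) = Int.castRingHom ℂ :=
        RingHom.ext_int _ _
      rw [hcomp]
      set P' : Cubic ℂ := ⟨a, b, c, d⟩ with hP'
      have hmap : P.toPoly.map (Int.castRingHom ℂ) = P'.toPoly := by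
        rw [← Cubic.map_toPoly]; rfl
      rw [hmap]
      have hP'a : P'.a ≠ 0 := by
        show (a : ℂ) ≠ 0
        exact_mod_cast ha
      have hne : P'.toPoly ≠ 0 := Cubic.ne_zero_of_a_ne_zero hP'a
      have hspl : P'.toPoly.Splits := IsAlgClosed.splits _
      rw [← nodup_roots_iff_of_splits hne hspl]
      have h1 := (Cubic.discr_ne_zero_iff_roots_nodup (φ := RingHom.id ℂ) hP'a
        (IsAlgClosed.splits _)).1 ?_
      · have h2 : (Cubic.map (RingHom.id ℂ) P').roots = P'.toPoly.roots := by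
          rw [Cubic.map_roots, Polynomial.map_id]
        rwa [h2] at h1
      · show (b : ℂ) ^ 2 * (c : ℂ) ^ 2 - 4 * (a : ℂ) * (c : ℂ) ^ 3 - 4 * (b : ℂ) ^ 3 * (d : ℂ) -
          27 * (a : ℂ) ^ 2 * (d : ℂ) ^ 2 + 18 * (a : ℂ) * (b : ℂ) * (c : ℂ) * (d : ℂ) ≠ 0
        exact_mod_cast hD
    have h := thue_equation' hsep (by rw [hnd]) one_ne_zero
    refine h.subset ?_
    rintro ⟨x, y⟩ hxy
    simp only [Set.mem_ofPred_eq] at hxy ⊢
    rw [form, hnd, ← hxy]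
    simp only [Finset.sum_range_succ, Finset.sum_range_zero, Cubic.coeff_eq_a, Cubic.coeff_eq_b,
      Cubic.coeff_eq_c, Cubic.coeff_eq_d]
    rw [hP]
    simp
    ring

/-- The three roots of `T³ - 3xT + 2y`. -/
theorem exists_three_roots (x y : ℂ) : ∃ θ₁ θ₂ θ₃ : ℂ, θ₁ + θ₂ + θ₃ = 0 ∧
    θ₁ * θ₂ + θ₁ * θ₃ + θ₂ * θ₃ = -3 * x ∧ θ₁ * θ₂ * θ₃ = -2 * y := by
  set P : Cubic ℂ := ⟨1, 0, -3 * x, 2 * y⟩ with hP
  have hPa : P.a ≠ 0 := one_ne_zero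
  obtain ⟨θ₁, θ₂, θ₃, h3⟩ := (Cubic.splits_iff_roots_eq_three (φ := RingHom.id ℂ) hPa).1
    (IsAlgClosed.splits _)
  have hb := Cubic.b_eq_three_roots hPa h3
  have hc := Cubic.c_eq_three_roots hPa h3
  have hd := Cubic.d_eq_three_roots hPa h3
  simp only [RingHom.id_apply, hP, one_mul] at hb hc hd
  exact ⟨θ₁, θ₂, θ₃, by linear_combination hb, by linear_combination -hc,
    by linear_combination hd⟩

open ComplexConjugate in
/-- The covariant is real. -/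
theorem im_covariant {θ₁ θ₂ θ₃ : ℂ} (h12 : θ₁ ≠ θ₂) (h13 : θ₁ ≠ θ₃) (h23 : θ₂ ≠ θ₃)
    (h1 : conj θ₁ = θ₁ ∨ conj θ₁ = θ₂ ∨ conj θ₁ = θ₃)
    (h2 : conj θ₂ = θ₁ ∨ conj θ₂ = θ₂ ∨ conj θ₂ = θ₃)
    (h3 : conj θ₃ = θ₁ ∨ conj θ₃ = θ₂ ∨ conj θ₃ = θ₃) :
    Complex.normSq (θ₂ - θ₃) * θ₁.im + Complex.normSq (θ₁ - θ₃) * θ₂.im +
      Complex.normSq (θ₁ - θ₂) * θ₃.im = 0 := by
  have inv : ∀ z w : ℂ, conj z = w → conj w = z := by
    intro z w h; rw [← h, Complex.conj_conj]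
  set E : ℂ := (Complex.normSq (θ₂ - θ₃) : ℂ) * θ₁ + (Complex.normSq (θ₁ - θ₃) : ℂ) * θ₂ +
    (Complex.normSq (θ₁ - θ₂) : ℂ) * θ₃ with hE
  have hE' : E.im = Complex.normSq (θ₂ - θ₃) * θ₁.im + Complex.normSq (θ₁ - θ₃) * θ₂.im +
      Complex.normSq (θ₁ - θ₂) * θ₃.im := by
    rw [hE]; simp
  rw [← hE', ← Complex.conj_eq_iff_im]
  have hE2 : E = (θ₂ - θ₃) * (conj θ₂ - conj θ₃) * θ₁ + (θ₁ - θ₃) * (conj θ₁ - conj θ₃) * θ₂ +
      (θ₁ - θ₂) * (conj θ₁ - conj θ₂) * θ₃ := by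
    rw [hE, ← Complex.mul_conj, ← Complex.mul_conj, ← Complex.mul_conj, map_sub, map_sub, map_sub]
  have hE3 : conj E = (θ₂ - θ₃) * (conj θ₂ - conj θ₃) * conj θ₁ +
      (θ₁ - θ₃) * (conj θ₁ - conj θ₃) * conj θ₂ +
      (θ₁ - θ₂) * (conj θ₁ - conj θ₂) * conj θ₃ := by
    rw [hE2]; simp only [map_add, map_mul, map_sub, Complex.conj_conj]; ring
  rw [hE3, hE2]
  rcases h1 with h1 | h1 | h1
  · rcases h2 with h2 | h2 | h2
    · exact absurd (h1.symm.trans (inv _ _ h2)) h12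
    · rcases h3 with h3 | h3 | h3
      · exact absurd (h1.symm.trans (inv _ _ h3)) h13
      · exact absurd (h2.symm.trans (inv _ _ h3)) h23
      · rw [h1, h2, h3]
    · rw [h1, h2, inv _ _ h2]; ring
  · rcases h3 with h3 | h3 | h3
    · exact absurd (h1.symm.trans (inv _ _ h3)) h23
    · exact absurd ((inv _ _ h1).symm.trans (inv _ _ h3)) h13
    · rw [h1, inv _ _ h1, h3]; ring
  · rcases h2 with h2 | h2 | h2
    · exact absurd (h1.symm.trans (inv _ _ h2)).symm h23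
    · rw [h1, inv _ _ h1, h2]; ring
    · exact absurd ((inv _ _ h1).symm.trans (inv _ _ h2)) h12

/-- **Reduction** of the cubic form `X³ - 3xXY² + 2yY³` attached to a solution of
`y² = x³ + k`. -/
theorem exists_reduced_cubic {k x y : ℤ} (hk : k ≠ 0) (hxy : y ^ 2 = x ^ 3 + k) :
    ∃ p q r s a b c d : ℤ, p * s - q * r = 1 ∧
      a = p ^ 3 - 3 * x * p * r ^ 2 + 2 * y * r ^ 3 ∧
      b = 3 * p ^ 2 * q - 3 * x * (q * r ^ 2 + 2 * p * r * s) + 6 * y * r ^ 2 * s ∧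
      c = 3 * p * q ^ 2 - 3 * x * (p * s ^ 2 + 2 * q * r * s) + 6 * y * r * s ^ 2 ∧
      d = q ^ 3 - 3 * x * q * s ^ 2 + 2 * y * s ^ 3 ∧
      b ^ 2 * c ^ 2 - 4 * a * c ^ 3 - 4 * b ^ 3 * d - 27 * a ^ 2 * d ^ 2 +
        18 * a * b * c * d ≠ 0 ∧
      (a : ℝ) ^ 2 ≤ 9 * (144 * (108 * |(k : ℝ)|)) ^ 3 ∧
      (b : ℝ) ^ 2 ≤ 9 * (144 * (108 * |(k : ℝ)|)) ^ 3 ∧
      (c : ℝ) ^ 2 ≤ 9 * (144 * (108 * |(k : ℝ)|)) ^ 3 ∧
      (d : ℝ) ^ 2 ≤ 9 * (144 * (108 * |(k : ℝ)|)) ^ 3 := by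
  obtain ⟨θ₁, θ₂, θ₃, e1, e2, e3⟩ := exists_three_roots (x : ℂ) (y : ℂ)
  have hk' : (k : ℂ) ≠ 0 := by exact_mod_cast hk
  have hxy' : (y : ℂ) ^ 2 = (x : ℂ) ^ 3 + k := by exact_mod_cast hxy
  -- the discriminant
  have hθ₃ : θ₃ = -θ₁ - θ₂ := by linear_combination e1
  have hx3 : (x : ℂ) = -(θ₁ * θ₂ + θ₁ * θ₃ + θ₂ * θ₃) / 3 := by rw [e2]; ring
  have hy3 : (y : ℂ) = -(θ₁ * θ₂ * θ₃) / 2 := by rw [e3]; ring
  have hdisc : ((θ₁ - θ₂) * (θ₁ - θ₃) * (θ₂ - θ₃)) ^ 2 = -108 * k := by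
    have : (k : ℂ) = (y : ℂ) ^ 2 - (x : ℂ) ^ 3 := by rw [hxy']; ring
    rw [this, hx3, hy3, hθ₃]; ring
  have hne : (θ₁ - θ₂) * (θ₁ - θ₃) * (θ₂ - θ₃) ≠ 0 := by
    intro h
    rw [h] at hdisc
    apply hk'
    have : (108 : ℂ) * k = 0 := by linear_combination hdisc
    rcases mul_eq_zero.1 this with h' | h'
    · norm_num at h'
    · exact h'
  have h12 : θ₁ ≠ θ₂ := by rintro rfl; simp at hne
  have h13 : θ₁ ≠ θ₃ := by intro h; rw [h] at hne; simp at hne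
  have h23 : θ₂ ≠ θ₃ := by intro h; rw [h] at hne; simp at hne
  -- conjugation
  have hroot : ∀ t : ℂ, (t - θ₁) * (t - θ₂) * (t - θ₃) = t ^ 3 - 3 * x * t + 2 * y := by
    intro t
    linear_combination (-t ^ 2) * e1 + t * e2 - e3
  have hconj : ∀ θ : ℂ, (θ - θ₁) * (θ - θ₂) * (θ - θ₃) = 0 →
      starRingEnd ℂ θ = θ₁ ∨ starRingEnd ℂ θ = θ₂ ∨ starRingEnd ℂ θ = θ₃ := by
    intro θ h
    have h1 : (starRingEnd ℂ θ - θ₁) * (starRingEnd ℂ θ - θ₂) * (starRingEnd ℂ θ - θ₃) = 0 := by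
      rw [hroot] at h ⊢
      have := congrArg (starRingEnd ℂ) h
      simp only [map_add, map_sub, map_mul, map_pow, map_ofNat, map_intCast, map_zero] at this
      exact this
    rcases mul_eq_zero.1 h1 with h | h
    · rcases mul_eq_zero.1 h with h | h
      · exact Or.inl (sub_eq_zero.1 h)
      · exact Or.inr (Or.inl (sub_eq_zero.1 h))
    · exact Or.inr (Or.inr (sub_eq_zero.1 h))
  have him := im_covariant h12 h13 h23 (hconj θ₁ (by ring)) (hconj θ₂ (by ring))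
    (hconj θ₃ (by ring))
  -- weights
  obtain ⟨w₁, hw₁⟩ : ∃ w, w = Complex.normSq (θ₂ - θ₃) := ⟨_, rfl⟩
  obtain ⟨w₂, hw₂⟩ : ∃ w, w = Complex.normSq (θ₁ - θ₃) := ⟨_, rfl⟩
  obtain ⟨w₃, hw₃⟩ : ∃ w, w = Complex.normSq (θ₁ - θ₂) := ⟨_, rfl⟩
  have w1 : 0 < w₁ := by rw [hw₁]; exact Complex.normSq_pos.2 (sub_ne_zero.2 h23)
  have w2 : 0 < w₂ := by rw [hw₂]; exact Complex.normSq_pos.2 (sub_ne_zero.2 h13)
  have w3 : 0 < w₃ := by rw [hw₃]; exact Complex.normSq_pos.2 (sub_ne_zero.2 h12)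
  have hΔ : w₁ * w₂ * w₃ = 108 * |(k : ℝ)| := by
    have h1 : (w₁ * w₂ * w₃) ^ 2 = (108 * |(k : ℝ)|) ^ 2 := by
      have := congrArg Complex.normSq hdisc
      rw [map_pow, map_mul, map_mul, map_mul, Complex.normSq_intCast, ← hw₁, ← hw₂, ← hw₃] at this
      have h2 : Complex.normSq (-108 : ℂ) = 108 ^ 2 := by
        rw [Complex.normSq_neg]
        have := Complex.normSq_ofNat 108
        rw [this]; norm_num
      rw [h2] at this
      have h3 : (108 * |(k : ℝ)|) ^ 2 = 108 ^ 2 * ((k : ℝ) * k) := by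
        rw [mul_pow, sq_abs]; ring
      rw [h3, ← this]; ring
    exact (pow_left_inj₀ (by positivity) (by positivity) two_ne_zero).1 h1
  rw [← hw₁, ← hw₂, ← hw₃] at him
  set P : ℝ := w₁ + w₂ + w₃ with hP
  set Q : ℝ := w₁ * θ₁.re + w₂ * θ₂.re + w₃ * θ₃.re with hQ
  set R : ℝ := w₁ * Complex.normSq θ₁ + w₂ * Complex.normSq θ₂ + w₃ * Complex.normSq θ₃ with hR
  have hdet : P * R - Q ^ 2 = 3 * (108 * |(k : ℝ)|) := by
    have h1 : P * R - Q ^ 2 - (w₁ * θ₁.im + w₂ * θ₂.im + w₃ * θ₃.im) ^ 2 =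
        w₁ * w₂ * Complex.normSq (θ₁ - θ₂) + w₁ * w₃ * Complex.normSq (θ₁ - θ₃) +
        w₂ * w₃ * Complex.normSq (θ₂ - θ₃) := by
      rw [hP, hQ, hR]
      simp only [Complex.normSq_apply, Complex.sub_re, Complex.sub_im]
      ring
    rw [him, ← hw₁, ← hw₂, ← hw₃] at h1
    rw [← hΔ]
    linear_combination h1
  have hkR : (1 : ℝ) ≤ |(k : ℝ)| := by
    rw [← Int.cast_abs]; exact_mod_cast Int.one_le_abs hk
  obtain ⟨p, q, r, s, hps, hAC⟩ := exists_reduced (P := P) (Q := Q) (R := R) (by positivity)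
    (by rw [hdet]; positivity)
  rw [hdet] at hAC
  obtain ⟨a, ha⟩ : ∃ a, a = p ^ 3 - 3 * x * p * r ^ 2 + 2 * y * r ^ 3 := ⟨_, rfl⟩
  obtain ⟨b, hb⟩ : ∃ b, b = 3 * p ^ 2 * q - 3 * x * (q * r ^ 2 + 2 * p * r * s) +
    6 * y * r ^ 2 * s := ⟨_, rfl⟩
  obtain ⟨c, hc⟩ : ∃ c, c = 3 * p * q ^ 2 - 3 * x * (p * s ^ 2 + 2 * q * r * s) +
    6 * y * r * s ^ 2 := ⟨_, rfl⟩
  obtain ⟨d, hd⟩ : ∃ d, d = q ^ 3 - 3 * x * q * s ^ 2 + 2 * y * s ^ 3 := ⟨_, rfl⟩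
  have hdisc' : b ^ 2 * c ^ 2 - 4 * a * c ^ 3 - 4 * b ^ 3 * d - 27 * a ^ 2 * d ^ 2 +
        18 * a * b * c * d ≠ 0 := by
    have h1 : b ^ 2 * c ^ 2 - 4 * a * c ^ 3 - 4 * b ^ 3 * d - 27 * a ^ 2 * d ^ 2 +
        18 * a * b * c * d = (p * s - q * r) ^ 6 * (108 * x ^ 3 - 108 * y ^ 2) := by
      rw [ha, hb, hc, hd]; ring
    rw [h1, hps, hxy]
    intro h
    apply hk
    linarith
  refine ⟨p, q, r, s, a, b, c, d, hps, ha, hb, hc, hd, hdisc', ?_⟩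
  have hφ : ∀ u v : ℤ, w₁ * Complex.normSq ((u : ℂ) - θ₁ * v) +
      w₂ * Complex.normSq ((u : ℂ) - θ₂ * v) + w₃ * Complex.normSq ((u : ℂ) - θ₃ * v) =
      P * u ^ 2 - 2 * Q * u * v + R * v ^ 2 := by
    intro u v
    rw [hP, hQ, hR]
    simp only [Complex.normSq_apply, Complex.sub_re, Complex.sub_im, Complex.mul_re,
      Complex.mul_im, Complex.intCast_re, Complex.intCast_im, mul_zero, sub_zero, zero_add,
      zero_sub]
    ring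
  refine coeff_bound w1.le w2.le w3.le hΔ (by linarith) (hφ p r) (hφ q s) (by linarith)
    ?_ ?_ ?_ ?_ ?_ ?_
  · rw [ha]; push_cast
    linear_combination (p : ℂ) ^ 2 * r * e1 - p * (r : ℂ) ^ 2 * e2 + (r : ℂ) ^ 3 * e3
  · rw [hb]; push_cast
    linear_combination ((p : ℂ) ^ 2 * s + 2 * p * q * r) * e1 -
      (q * (r : ℂ) ^ 2 + 2 * p * r * s) * e2 + 3 * (r : ℂ) ^ 2 * s * e3
  · rw [hc]; push_cast
    linear_combination ((q : ℂ) ^ 2 * r + 2 * p * q * s) * e1 -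
      (p * (s : ℂ) ^ 2 + 2 * q * r * s) * e2 + 3 * (s : ℂ) ^ 2 * r * e3
  · rw [hd]; push_cast
    linear_combination (q : ℂ) ^ 2 * s * e1 - q * (s : ℂ) ^ 2 * e2 + (s : ℂ) ^ 3 * e3
  · rintro ⟨h1, h2⟩
    apply hdisc'
    rw [h1, h2]; ring
  · rintro ⟨h1, h2⟩
    apply hdisc'
    rw [h1, h2]; ring

/-- The cubic form, the first column and the vanishing of the `X²Y` coefficient determine the
point. -/
theorem rel_unique {a b c d u v w₁ w₂ x y w₁' w₂' x' y' : ℤ}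
    (hG : a * u ^ 3 + b * u ^ 2 * v + c * u * v ^ 2 + d * v ^ 3 = 1)
    (hw : u * w₂ - v * w₁ = 1) (hw' : u * w₂' - v * w₁' = 1)
    (hB : 3 * a * u ^ 2 * w₁ + b * (u ^ 2 * w₂ + 2 * u * v * w₁) +
      c * (2 * u * v * w₂ + v ^ 2 * w₁) + 3 * d * v ^ 2 * w₂ = 0)
    (hB' : 3 * a * u ^ 2 * w₁' + b * (u ^ 2 * w₂' + 2 * u * v * w₁') +
      c * (2 * u * v * w₂' + v ^ 2 * w₁') + 3 * d * v ^ 2 * w₂' = 0)
    (hC : 3 * a * u * w₁ ^ 2 + b * (2 * u * w₁ * w₂ + v * w₁ ^ 2) +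
      c * (u * w₂ ^ 2 + 2 * v * w₁ * w₂) + 3 * d * v * w₂ ^ 2 = -3 * x)
    (hC' : 3 * a * u * w₁' ^ 2 + b * (2 * u * w₁' * w₂' + v * w₁' ^ 2) +
      c * (u * w₂' ^ 2 + 2 * v * w₁' * w₂') + 3 * d * v * w₂' ^ 2 = -3 * x')
    (hD : a * w₁ ^ 3 + b * w₁ ^ 2 * w₂ + c * w₁ * w₂ ^ 2 + d * w₂ ^ 3 = 2 * y)
    (hD' : a * w₁' ^ 3 + b * w₁' ^ 2 * w₂' + c * w₁' * w₂' ^ 2 + d * w₂' ^ 3 = 2 * y') :
    x = x' ∧ y = y' := by
  obtain ⟨n, hn⟩ : ∃ n, n = w₁' * w₂ - w₂' * w₁ := ⟨_, rfl⟩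
  have h1 : w₁' = w₁ + n * u := by
    rw [hn]; linear_combination w₁ * hw' - w₁' * hw
  have h2 : w₂' = w₂ + n * v := by
    rw [hn]; linear_combination w₂ * hw' - w₂' * hw
  have h3 : 3 * n = 0 := by
    rw [h1, h2] at hB'
    linear_combination hB' - hB - 3 * n * hG
  have h4 : n = 0 := by omega
  rw [h4, zero_mul, add_zero] at h1 h2
  rw [h1, h2] at hC' hD'
  rw [hC] at hC'
  rw [hD] at hD'
  constructor <;> omega

/-- **Mordell's theorem**: for `k ≠ 0` the equation `y² = x³ + k` has only finitely many solutions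
in integers. -/
theorem mordell_equation {k : ℤ} (hk : k ≠ 0) : {x : ℤ × ℤ | x.2 ^ 2 = x.1 ^ 3 + k}.Finite := by
  set N : ℤ := ⌈9 * (144 * (108 * |(k : ℝ)|)) ^ 3⌉ with hN
  have hbd : ∀ n : ℤ, (n : ℝ) ^ 2 ≤ 9 * (144 * (108 * |(k : ℝ)|)) ^ 3 → n ∈ Set.Icc (-N) N := by
    intro n hn
    have h1 : (n : ℝ) ^ 2 ≤ N := hn.trans (Int.le_ceil _)
    have h2 : n ^ 2 ≤ N := by exact_mod_cast h1
    have h3 : |n| ≤ n ^ 2 := by
      rw [← sq_abs]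
      rcases eq_or_ne n 0 with rfl | h0
      · simp
      · nlinarith [Int.one_le_abs h0]
    exact abs_le.1 (h3.trans h2)
  set T : Set (ℤ × ℤ × ℤ × ℤ) := {t | (t.2.1 ^ 2 * t.2.2.1 ^ 2 - 4 * t.1 * t.2.2.1 ^ 3 -
    4 * t.2.1 ^ 3 * t.2.2.2 - 27 * t.1 ^ 2 * t.2.2.2 ^ 2 +
    18 * t.1 * t.2.1 * t.2.2.1 * t.2.2.2 ≠ 0) ∧ t.1 ∈ Set.Icc (-N) N ∧ t.2.1 ∈ Set.Icc (-N) N ∧
    t.2.2.1 ∈ Set.Icc (-N) N ∧ t.2.2.2 ∈ Set.Icc (-N) N} with hT
  have hTfin : T.Finite := by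
    refine ((Set.finite_Icc (-N) N).prod ((Set.finite_Icc (-N) N).prod
      ((Set.finite_Icc (-N) N).prod (Set.finite_Icc (-N) N)))).subset ?_
    rintro ⟨a, b, c, d⟩ ⟨-, h1, h2, h3, h4⟩
    exact ⟨h1, h2, h3, h4⟩
  have hfin : (⋃ t ∈ T, ⋃ e ∈ {e : ℤ × ℤ | t.1 * e.1 ^ 3 + t.2.1 * e.1 ^ 2 * e.2 +
      t.2.2.1 * e.1 * e.2 ^ 2 + t.2.2.2 * e.2 ^ 3 = 1},
      {z : ℤ × ℤ | ∃ w₁ w₂ : ℤ, e.1 * w₂ - e.2 * w₁ = 1 ∧
        3 * t.1 * e.1 ^ 2 * w₁ + t.2.1 * (e.1 ^ 2 * w₂ + 2 * e.1 * e.2 * w₁) +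
          t.2.2.1 * (2 * e.1 * e.2 * w₂ + e.2 ^ 2 * w₁) + 3 * t.2.2.2 * e.2 ^ 2 * w₂ = 0 ∧
        3 * t.1 * e.1 * w₁ ^ 2 + t.2.1 * (2 * e.1 * w₁ * w₂ + e.2 * w₁ ^ 2) +
          t.2.2.1 * (e.1 * w₂ ^ 2 + 2 * e.2 * w₁ * w₂) + 3 * t.2.2.2 * e.2 * w₂ ^ 2 = -3 * z.1 ∧
        t.1 * w₁ ^ 3 + t.2.1 * w₁ ^ 2 * w₂ + t.2.2.1 * w₁ * w₂ ^ 2 + t.2.2.2 * w₂ ^ 3 =
          2 * z.2}).Finite := by
    refine hTfin.biUnion fun t ht ↦ (cubic_finite ht.1).biUnion fun e he ↦ ?_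
    refine Set.Subsingleton.finite ?_
    rintro ⟨x, y⟩ ⟨w₁, w₂, h1, h2, h3, h4⟩ ⟨x', y'⟩ ⟨w₁', w₂', h1', h2', h3', h4'⟩
    obtain ⟨e1, e2⟩ := rel_unique he h1 h1' h2 h2' h3 h3' h4 h4'
    exact Prod.ext e1 e2
  refine hfin.subset ?_
  rintro ⟨x, y⟩ hxy
  obtain ⟨p, q, r, s, a, b, c, d, hps, ha, hb, hc, hd, hdisc, n1, n2, n3, n4⟩ :=
    exists_reduced_cubic hk hxy
  simp only [Set.mem_iUnion]
  refine ⟨(a, b, c, d), ⟨hdisc, hbd _ n1, hbd _ n2, hbd _ n3, hbd _ n4⟩, (s, -r), ?_,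
    -q, p, ?_, ?_, ?_, ?_⟩
  · show a * s ^ 3 + b * s ^ 2 * (-r) + c * s * (-r) ^ 2 + d * (-r) ^ 3 = 1
    have : a * s ^ 3 + b * s ^ 2 * (-r) + c * s * (-r) ^ 2 + d * (-r) ^ 3 =
        (p * s - q * r) ^ 3 := by rw [ha, hb, hc, hd]; ring
    rw [this, hps]; ring
  · show s * p - (-r) * (-q) = 1
    linarith
  · show 3 * a * s ^ 2 * (-q) + b * (s ^ 2 * p + 2 * s * (-r) * (-q)) +
          c * (2 * s * (-r) * p + (-r) ^ 2 * (-q)) + 3 * d * (-r) ^ 2 * p = 0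
    rw [ha, hb, hc, hd]; ring
  · show 3 * a * s * (-q) ^ 2 + b * (2 * s * (-q) * p + (-r) * (-q) ^ 2) +
          c * (s * p ^ 2 + 2 * (-r) * (-q) * p) + 3 * d * (-r) * p ^ 2 = -3 * x
    have : 3 * a * s * (-q) ^ 2 + b * (2 * s * (-q) * p + (-r) * (-q) ^ 2) +
          c * (s * p ^ 2 + 2 * (-r) * (-q) * p) + 3 * d * (-r) * p ^ 2 =
          -3 * x * (p * s - q * r) ^ 3 := by rw [ha, hb, hc, hd]; ring
    rw [this, hps]; ring
  · show a * (-q) ^ 3 + b * (-q) ^ 2 * p + c * (-q) * p ^ 2 + d * p ^ 3 = 2 * y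
    have : a * (-q) ^ 3 + b * (-q) ^ 2 * p + c * (-q) * p ^ 2 + d * p ^ 3 =
          2 * y * (p * s - q * r) ^ 3 := by rw [ha, hb, hc, hd]; ring
    rw [this, hps]; ring

end Fermat.Agent.Cor.Thue
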