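import Fermat.Agent.Cor.MWWeak

/-!
# The Mordell–Weil theorem

For an elliptic curve `E` over a number field `K`, the group `E(K)` is finitely generated.

* `MWHeight`: the approximate parallelogram law and the Northcott property of the naive height;
* `MWSel`: finiteness of `K(S, 2)` (class number, units);
* `MWWeak`: `E(K)/2E(K)` is finite if `E` has full rational `2`-torsion (`2`-descent);
* here: the descent argument (Mathlib's `AddCommGroup.fg_of_descent'`) over the splitting field of
  the `2`-division polynomial, and the passage to the submodule `E(K)` of `E(L)`.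
-/

namespace Fermat.Agent.Cor.MW

open WeierstrassCurve Polynomial

variable {K : Type*} [Field K] [NumberField K]

/-- Mordell–Weil for an elliptic curve with full rational `2`-torsion. -/
theorem fg_of_full_two [DecidableEq K] (W : WeierstrassCurve K) [W.IsElliptic] {e₁ e₂ e₃ : K}
    (hb₂ : W.b₂ = -4 * (e₁ + e₂ + e₃)) (hb₄ : W.b₄ = 2 * (e₁ * e₂ + e₁ * e₃ + e₂ * e₃))
    (hb₆ : W.b₆ = -4 * (e₁ * e₂ * e₃)) (h12 : e₁ ≠ e₂) (h13 : e₁ ≠ e₃) (h23 : e₂ ≠ e₃) :
    AddGroup.FG W.toAffine.Point := by
  obtain ⟨C, hC⟩ := parallelogram W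
  have := northcott W
  exact AddCommGroup.fg_of_descent' (h := ht W) (C := C)
    (weak_mordellWeil W hb₂ hb₄ hb₆ h12 h13 h23) (ht_nonneg W) hC

/-- Mordell–Weil over a number field over which the `2`-division polynomial splits. -/
theorem fg_of_splits [DecidableEq K] (W : WeierstrassCurve K) [W.IsElliptic]
    (h : W.twoTorsionPolynomial.toPoly.Splits) : AddGroup.FG W.toAffine.Point := by
  have ha : W.twoTorsionPolynomial.a ≠ 0 := by
    change (4 : K) ≠ 0
    norm_num
  have h' : (W.twoTorsionPolynomial.toPoly.map (RingHom.id K)).Splits := by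
    rwa [Polynomial.map_id]
  obtain ⟨x, y, z, h3⟩ := (Cubic.splits_iff_roots_eq_three ha).mp h'
  have hdisc : W.twoTorsionPolynomial.discr ≠ 0 :=
    W.twoTorsionPolynomial_discr_ne_zero (isUnit_iff_ne_zero.mpr two_ne_zero) W.isUnit_Δ
  obtain ⟨hxy, hxz, hyz⟩ := (Cubic.discr_ne_zero_iff_roots_ne ha h3).mp hdisc
  have hb := Cubic.b_eq_three_roots ha h3
  have hc := Cubic.c_eq_three_roots ha h3
  have hd := Cubic.d_eq_three_roots ha h3
  simp only [twoTorsionPolynomial, RingHom.id_apply] at hb hc hd
  refine fg_of_full_two W (e₁ := x) (e₂ := y) (e₃ := z) ?_ ?_ ?_ hxy hxz hyz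
  · rw [hb]; ring
  · refine mul_left_cancel₀ (two_ne_zero (α := K)) ?_
    rw [hc]; ring
  · rw [hd]; ring

/-- A subgroup of a finitely generated commutative group is finitely generated. -/
lemma fg_of_injective {A B : Type*} [AddCommGroup A] [AddCommGroup B] (hB : AddGroup.FG B)
    (f : A →+ B) (hf : Function.Injective f) : AddGroup.FG A := by
  have : Module.Finite ℤ B := Module.Finite.iff_addGroup_fg.mpr hB
  have : Module.Finite ℤ A := Module.Finite.of_injective f.toIntLinearMap hf
  exact Module.Finite.iff_addGroup_fg.mp this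

lemma map_twoTorsion {F L : Type*} [Field F] [Field L] (φ : F →+* L) (E : WeierstrassCurve F) :
    (E.map φ).twoTorsionPolynomial.toPoly = E.twoTorsionPolynomial.toPoly.map φ := by
  have h4 : φ 4 = 4 := map_ofNat φ 4
  have h2 : φ 2 = 2 := map_ofNat φ 2
  simp [twoTorsionPolynomial, Cubic.toPoly, h4, h2]

/-- **The Mordell–Weil theorem.** The group of points of an elliptic curve over a number field is
finitely generated. -/
theorem mordellWeil (K : Type*) [Field K] [NumberField K] [DecidableEq K] (E : WeierstrassCurve K)
    [E.IsElliptic] : AddGroup.FG E.toAffine.Point := by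
  classical
  let L := E.twoTorsionPolynomial.toPoly.SplittingField
  have : NumberField L := NumberField.of_module_finite K L
  have hs : (E.map (algebraMap K L)).twoTorsionPolynomial.toPoly.Splits := by
    have h := Polynomial.SplittingField.splits E.twoTorsionPolynomial.toPoly
    rw [map_twoTorsion]
    exact h
  have hL : AddGroup.FG (E.map (algebraMap K L)).toAffine.Point := fg_of_splits _ hs
  have hK : AddGroup.FG (E.map (algebraMap K K)).toAffine.Point :=
    fg_of_injective hL (Affine.Point.map (W' := E) (Algebra.ofId K L)) (Affine.Point.map_injective _)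
  have hE : E.map (algebraMap K K) = E := E.map_id
  rwa [hE] at hK

/-- The same, as a statement about `ℤ`-modules. -/
theorem mordellWeil_module (K : Type*) [Field K] [NumberField K] [DecidableEq K]
    (E : WeierstrassCurve K) [E.IsElliptic] : Module.Finite ℤ E.toAffine.Point :=
  Module.Finite.iff_addGroup_fg.mpr (mordellWeil K E)

/-- **Mordell's theorem**: the rational points of an elliptic curve over `ℚ` form a finitely
generated group. -/
theorem mordell (E : WeierstrassCurve ℚ) [E.IsElliptic] : AddGroup.FG E.toAffine.Point :=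
  mordellWeil ℚ E

open scoped DirectSum in
/-- The structure of the Mordell–Weil group: `E(K) ≅ ℤ^r × (a finite group)`. -/
theorem mordellWeil_structure (K : Type*) [Field K] [NumberField K] [DecidableEq K]
    (E : WeierstrassCurve K) [E.IsElliptic] :
    ∃ (r : ℕ) (ι : Type) (_ : Fintype ι) (p : ι → ℕ) (_ : ∀ i, (p i).Prime) (e : ι → ℕ),
      Nonempty (E.toAffine.Point ≃+ (Fin r →₀ ℤ) × ⨁ i : ι, ZMod (p i ^ e i)) := by
  have := mordellWeil K E
  exact AddCommGroup.equiv_free_prod_directSum_zmod _

/-- The torsion subgroup of an elliptic curve over a number field is finite. -/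
theorem torsion_finite (K : Type*) [Field K] [NumberField K] [DecidableEq K]
    (E : WeierstrassCurve K) [E.IsElliptic] :
    Finite (AddCommGroup.torsion E.toAffine.Point) := by
  obtain ⟨C, hC⟩ := parallelogram E
  have := northcott E
  exact AddCommGroup.finite_torsion_of_descent' (h := ht E) (C := C) hC

/-- **The weak Mordell–Weil theorem**: `E(K)/nE(K)` is finite for all `n ≥ 1`. -/
theorem weak_mordellWeil_nsmul (K : Type*) [Field K] [NumberField K] [DecidableEq K]
    (E : WeierstrassCurve K) [E.IsElliptic] {n : ℕ} (hn : n ≠ 0) :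
    Finite (E.toAffine.Point ⧸ (nsmulAddMonoidHom (α := E.toAffine.Point) n).range) := by
  have := mordellWeil K E
  exact AddCommGroup.finite_of_fg_isAddTorsion _
    (AddCommGroup.isAddTorsion_quotient_range_nsmulAddMonoidHom _ hn)

end Fermat.Agent.Cor.MW
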