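import Fermat.Agent.Cor.CanonicalHeight

/-!
# Néron's theorem on the number of points of bounded height

`#{P ∈ E(K) : h(P) ≤ T} ~ #E(K)_tors · V_r / √R · T^{r/2}` for `T → ∞`, where `r` is the rank, `R` the
regulator and `V_r` the volume of the unit ball in `ℝ^r`.
-/

namespace Fermat.Agent.Cor.MW

open Filter Topology MeasureTheory Bornology

section Lattice

variable {ι : Type*} [Fintype ι] [DecidableEq ι]

open scoped MatrixOrder in
lemma exists_sqrt {M : Matrix ι ι ℝ} (hM : M.PosDef) :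
    ∃ B : Matrix ι ι ℝ, B.transpose * B = M ∧ |B.det| = √M.det ∧ B.det ≠ 0 := by
  have h0 : (0 : Matrix ι ι ℝ) ≤ M := hM.posSemidef.nonneg
  have h1 : CFC.sqrt M * CFC.sqrt M = M := CFC.sqrt_mul_sqrt_self M h0
  have h2 : (CFC.sqrt M).transpose = CFC.sqrt M := by
    have h5 : (0 : Matrix ι ι ℝ) ≤ CFC.sqrt M := CFC.sqrt_nonneg M
    have := (Matrix.nonneg_iff_posSemidef.mp h5).isHermitian
    simpa [Matrix.IsHermitian, Matrix.conjTranspose_eq_transpose_of_trivial] using this
  have h3 : M.det = (CFC.sqrt M).det ^ 2 := by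
    conv_lhs => rw [← h1]
    rw [Matrix.det_mul, pow_two]
  refine ⟨CFC.sqrt M, by rw [h2, h1], by rw [h3, Real.sqrt_sq_eq_abs], fun h4 ↦ ?_⟩
  have := hM.det_pos
  rw [h3, h4] at this
  norm_num at this

variable (M : Matrix ι ι ℝ)

/-- The ellipsoid of a quadratic form. -/
def ellipsoid : Set (ι → ℝ) := {c | Matrix.toBilin' M c c ≤ 1}

variable {M}

lemma bilin_eq_norm {B : Matrix ι ι ℝ} (hB : B.transpose * B = M) (c : ι → ℝ) :
    Matrix.toBilin' M c c = ‖(WithLp.toLp 2 (B.mulVec c) : EuclideanSpace ℝ ι)‖ ^ 2 := by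
  rw [Matrix.toBilin'_apply', ← hB, ← Matrix.mulVec_mulVec, Matrix.dotProduct_mulVec,
    Matrix.vecMul_transpose, EuclideanSpace.norm_sq_eq]
  simp [dotProduct, pow_two]

lemma ellipsoid_eq {B : Matrix ι ι ℝ} (hB : B.transpose * B = M) :
    ellipsoid M = (fun c ↦ (WithLp.toLp 2 (B.mulVec c) : EuclideanSpace ℝ ι)) ⁻¹'
      Metric.closedBall 0 1 := by
  ext c
  simp only [ellipsoid, Set.mem_preimage, mem_closedBall_zero_iff]
  change Matrix.toBilin' M c c ≤ 1 ↔ _
  rw [bilin_eq_norm hB]
  exact sq_le_one_iff₀ (norm_nonneg _)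

/-- The linear equivalence from `ℝ^ι` to Euclidean space given by an invertible matrix. -/
noncomputable def toEuc (B : Matrix ι ι ℝ) (hB : B.det ≠ 0) :
    (ι → ℝ) ≃L[ℝ] EuclideanSpace ℝ ι :=
  (LinearMap.equivOfDetNeZero (Matrix.toLin' B)
    (by rwa [LinearMap.det_toLin'])).toContinuousLinearEquiv.trans (EuclideanSpace.equiv ι ℝ).symm

lemma toEuc_apply (B : Matrix ι ι ℝ) (hB : B.det ≠ 0) (c : ι → ℝ) :
    toEuc B hB c = (WithLp.toLp 2 (B.mulVec c) : EuclideanSpace ℝ ι) := rfl

lemma ellipsoid_eq' {B : Matrix ι ι ℝ} (hB : B.transpose * B = M) (hd : B.det ≠ 0) :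
    ellipsoid M = toEuc B hd ⁻¹' Metric.closedBall 0 1 := by
  rw [ellipsoid_eq hB]; rfl

lemma isCompact_ellipsoid (hM : M.PosDef) : IsCompact (ellipsoid M) := by
  obtain ⟨B, hB, -, hd⟩ := exists_sqrt hM
  rw [ellipsoid_eq' hB hd]
  have : toEuc B hd ⁻¹' Metric.closedBall 0 1 = (toEuc B hd).symm '' Metric.closedBall 0 1 :=
    (ContinuousLinearEquiv.image_symm_eq_preimage _ _).symm
  rw [this]
  exact (isCompact_closedBall 0 1).image (toEuc B hd).symm.continuous

lemma convex_ellipsoid (hM : M.PosDef) : Convex ℝ (ellipsoid M) := by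
  obtain ⟨B, hB, -, hd⟩ := exists_sqrt hM
  rw [ellipsoid_eq' hB hd]
  exact (convex_closedBall (0 : EuclideanSpace ℝ ι) 1).linear_preimage
    (toEuc B hd).toLinearEquiv.toLinearMap

/-- The volume of the ellipsoid. -/
lemma volume_ellipsoid (hM : M.PosDef) : (volume : Measure (ι → ℝ)).real (ellipsoid M) =
    √Real.pi ^ Fintype.card ι / Real.Gamma (Fintype.card ι / 2 + 1) / √M.det := by
  obtain ⟨B, hB, hBd, hd⟩ := exists_sqrt hM
  have hball : (volume : Measure (ι → ℝ)) ((WithLp.toLp 2 : (ι → ℝ) → EuclideanSpace ℝ ι) ⁻¹'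
      Metric.closedBall 0 1) =
      ENNReal.ofReal (√Real.pi ^ Fintype.card ι / Real.Gamma (Fintype.card ι / 2 + 1)) := by
    rcases isEmpty_or_nonempty ι with h | h
    · have h1 : ((WithLp.toLp 2 : (ι → ℝ) → EuclideanSpace ℝ ι) ⁻¹' Metric.closedBall 0 1) =
          Set.univ := by
        ext c
        simp only [Set.mem_preimage, mem_closedBall_zero_iff, Set.mem_univ, iff_true]
        have : (WithLp.toLp 2 c : EuclideanSpace ℝ ι) = 0 := Subsingleton.elim _ _
        rw [this, norm_zero]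
        exact zero_le_one
      rw [h1, MeasureTheory.volume_pi, Measure.pi_univ]
      simp
    · rw [(PiLp.volume_preserving_toLp ι).measure_preimage
        Metric.isClosed_closedBall.measurableSet.nullMeasurableSet, EuclideanSpace.volume_closedBall]
      simp
  have h2 : ellipsoid M = Matrix.toLin' B ⁻¹'
      ((WithLp.toLp 2 : (ι → ℝ) → EuclideanSpace ℝ ι) ⁻¹' Metric.closedBall 0 1) := by
    rw [ellipsoid_eq hB]; rfl
  have hd' : LinearMap.det (Matrix.toLin' B) ≠ 0 := by rwa [LinearMap.det_toLin']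
  rw [Measure.real, h2, Measure.addHaar_preimage_linearMap _ hd', hball, LinearMap.det_toLin',
    ENNReal.toReal_mul, ENNReal.toReal_ofReal (abs_nonneg _), ENNReal.toReal_ofReal, abs_inv, hBd]
  · rw [div_eq_inv_mul _ (√M.det)]
  · have : 0 < Real.Gamma (Fintype.card ι / 2 + 1) := Real.Gamma_pos_of_pos (by positivity)
    positivity

/-- The number of lattice points in a large ellipsoid. -/
theorem count_lattice (hM : M.PosDef) :
    Tendsto (fun x : ℝ ↦ (Nat.card {m : ι → ℤ // Matrix.toBilin' M (fun i ↦ (m i : ℝ))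
      (fun i ↦ (m i : ℝ)) ≤ x ^ 2} : ℝ) / x ^ Fintype.card ι) atTop
      (𝓝 (√Real.pi ^ Fintype.card ι / Real.Gamma (Fintype.card ι / 2 + 1) / √M.det)) := by
  rw [← volume_ellipsoid hM]
  have hcomp := isCompact_ellipsoid hM
  have hconv := convex_ellipsoid hM
  have h0 : (0 : ι → ℝ) ∈ ellipsoid M := by
    change Matrix.toBilin' M 0 0 ≤ 1
    simp
  refine (tendsto_card_div_pow_atTop_volume' (ellipsoid M) hcomp.isBounded
    hcomp.isClosed.measurableSet (hconv.addHaar_frontier volume) ?_).congr' ?_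
  · intro x y hx hxy z hz
    obtain ⟨c, hc, rfl⟩ := Set.mem_smul_set.mp hz
    have hy : 0 < y := hx.trans_le hxy
    refine Set.mem_smul_set.mpr ⟨(x / y) • c, ?_, ?_⟩
    · exact hconv.smul_mem_of_zero_mem h0 hc ⟨by positivity, (div_le_one hy).mpr hxy⟩
    · rw [smul_smul]
      congr 1
      field_simp
  · filter_upwards [eventually_gt_atTop 0] with x hx
    congr 2
    symm
    refine Nat.card_congr (Equiv.ofBijective
      (fun m ↦ ⟨x⁻¹ • (fun i ↦ (m.1 i : ℝ)), ?_, ?_⟩) ⟨?_, ?_⟩)
    · change Matrix.toBilin' M _ _ ≤ 1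
      have := m.2
      rw [map_smul, map_smul, LinearMap.smul_apply, smul_eq_mul, smul_eq_mul]
      calc x⁻¹ * (x⁻¹ * Matrix.toBilin' M (fun i ↦ (m.1 i : ℝ)) (fun i ↦ (m.1 i : ℝ))) ≤
            x⁻¹ * (x⁻¹ * x ^ 2) := by gcongr
        _ = 1 := by field_simp
    · refine Set.smul_mem_smul_set ?_
      rw [SetLike.mem_coe, (Pi.basisFun ℝ ι).mem_span_iff_repr_mem ℤ]
      intro i
      exact ⟨m.1 i, by simp⟩
    · intro m m' h
      have h1 := congrArg Subtype.val h
      simp only at h1
      have h2 := smul_right_injective _ (inv_ne_zero hx.ne') h1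
      ext i
      exact_mod_cast congrFun h2 i
    · rintro ⟨z, hz, hzL⟩
      obtain ⟨l, hl, rfl⟩ := Set.mem_smul_set.mp hzL
      rw [SetLike.mem_coe, (Pi.basisFun ℝ ι).mem_span_iff_repr_mem ℤ] at hl
      choose m hm using hl
      have hlm : (fun i ↦ (m i : ℝ)) = l := by
        funext i
        have := hm i
        simpa using this
      refine ⟨⟨m, ?_⟩, ?_⟩
      · rw [hlm]
        have h3 : Matrix.toBilin' M (x⁻¹ • l) (x⁻¹ • l) ≤ 1 := hz
        rw [map_smul, map_smul, LinearMap.smul_apply, smul_eq_mul, smul_eq_mul] at h3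
        have h4 : Matrix.toBilin' M l l = x ^ 2 * (x⁻¹ * (x⁻¹ * Matrix.toBilin' M l l)) := by
          field_simp
        rw [h4]
        calc x ^ 2 * (x⁻¹ * (x⁻¹ * Matrix.toBilin' M l l)) ≤ x ^ 2 * 1 := by gcongr
          _ = x ^ 2 := mul_one _
      · refine Subtype.ext ?_
        simp only
        rw [hlm]

end Lattice

section Abstract

variable {G : Type*} [AddCommGroup G] {q : G → ℝ} {ι : Type*} [Fintype ι] [DecidableEq ι]

lemma Par.add_torsion (hq : Par q) (x : G) {t : G} (ht : IsOfFinAddOrder t) : q (x + t) = q x := by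
  have h1 := hq.pairing_torsion ht x
  have h2 : q t = 0 := by
    rw [← hq.pairing_self t]; exact hq.pairing_torsion ht t
  rw [pairing_comm] at h1
  simp only [pairing] at h1
  linarith

/-- `G ≃ ℤ^ι × torsion` for a basis modulo torsion. -/
noncomputable def IsModBasis.equiv {b : ι → G} (hb : IsModBasis b) :
    (ι → ℤ) × AddCommGroup.torsion G ≃ G :=
  Equiv.ofBijective (fun z ↦ ∑ i, z.1 i • b i + z.2.1) (by
    constructor
    · rintro ⟨m, t, ht⟩ ⟨m', t', ht'⟩ h
      simp only at h
      have h1 : ∑ i, (m i - m' i) • b i = t' - t := by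
        simp only [sub_smul, Finset.sum_sub_distrib]
        have : ∑ i, m i • b i - ∑ i, m' i • b i = t' - t := by
          rw [sub_eq_sub_iff_add_eq_add, h, add_comm]
        exact this
      have htt : IsOfFinAddOrder (t' - t) := (AddCommGroup.torsion G).sub_mem ht' ht
      obtain ⟨n, hn, hx⟩ := isOfFinAddOrder_iff_nsmul_eq_zero.mp htt
      have h3 : ∑ k, ((n : ℤ) * (m k - m' k)) • b k = 0 := by
        rw [← hx, ← h1, Finset.smul_sum]
        exact Finset.sum_congr rfl fun k _ ↦ by rw [mul_smul, natCast_zsmul]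
      have h4 : m = m' := by
        funext k
        exact sub_eq_zero.mp ((mul_eq_zero.mp
          (Fintype.linearIndependent_iff.mp hb.indep _ h3 k)).resolve_left (by exact_mod_cast hn.ne'))
      subst h4
      have h5 : t = t' := add_left_cancel h
      subst h5
      rfl
    · intro x
      obtain ⟨m, hm⟩ := hb.span x
      exact ⟨(m, ⟨x - ∑ i, m i • b i, hm⟩), by simp⟩)

lemma card_le_eq (hq : Par q) {b : ι → G} (hb : IsModBasis b) (T : ℝ) :
    Nat.card {x : G // q x ≤ T} = Nat.card {m : ι → ℤ // Matrix.toBilin' (gram q b)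
      (fun i ↦ (m i : ℝ)) (fun i ↦ (m i : ℝ)) ≤ T} * Nat.card (AddCommGroup.torsion G) := by
  rw [← Nat.card_prod]
  symm
  refine Nat.card_congr ?_
  refine Equiv.trans ?_ (Equiv.subtypeEquiv (p := fun z : (ι → ℤ) × AddCommGroup.torsion G ↦
    Matrix.toBilin' (gram q b) (fun i ↦ (z.1 i : ℝ)) (fun i ↦ (z.1 i : ℝ)) ≤ T) hb.equiv ?_)
  · exact {
      toFun := fun z ↦ ⟨(z.1.1, z.2), z.1.2⟩
      invFun := fun z ↦ (⟨z.1.1, z.2⟩, z.1.2)
      left_inv := fun _ ↦ rfl
      right_inv := fun _ ↦ rfl }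
  · rintro ⟨m, t, ht⟩
    rw [← hq.sum_eq b m]
    change _ ↔ q (∑ i, m i • b i + t) ≤ T
    rw [hq.add_torsion _ ht]

end Abstract

section EllipticCurve

variable {K : Type*} [Field K] [NumberField K] [DecidableEq K] (E : WeierstrassCurve K)
  [E.IsElliptic]

/-- The constant in Néron's theorem. -/
noncomputable def neronConst : ℝ :=
  √Real.pi ^ Module.finrank ℤ E.toAffine.Point /
    Real.Gamma (Module.finrank ℤ E.toAffine.Point / 2 + 1) / √(regulator E) *
      Nat.card (AddCommGroup.torsion E.toAffine.Point)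

/-- **Néron's theorem** for the canonical height. -/
theorem neron_count_nt :
    Tendsto (fun T : ℝ ↦ (Nat.card {P : E.toAffine.Point // nt E P ≤ T} : ℝ) /
      T ^ ((Module.finrank ℤ E.toAffine.Point : ℝ) / 2)) atTop (𝓝 (neronConst E)) := by
  set r := Module.finrank ℤ E.toAffine.Point with hr
  have hb := mwBasis_spec E
  have h1 := count_lattice (nt_gram_posDef E hb.indep)
  rw [Fintype.card_fin] at h1
  have h2 : Tendsto (fun T : ℝ ↦ √T) atTop atTop := Real.tendsto_sqrt_atTop
  have h3 := (h1.comp h2).mul_const (Nat.card (AddCommGroup.torsion E.toAffine.Point) : ℝ)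
  refine h3.congr' ?_
  filter_upwards [eventually_ge_atTop 0] with T hT
  rw [card_le_eq (nt_par E) hb T]
  simp only [Function.comp_apply, Real.sq_sqrt hT]
  have h4 : √T ^ r = T ^ ((r : ℝ) / 2) := by
    rw [Real.sqrt_eq_rpow, ← Real.rpow_natCast, ← Real.rpow_mul hT]
    congr 1
    ring
  rw [h4]
  push_cast
  ring

/-- **Néron's theorem**: `#{P ∈ E(K) : h(P) ≤ T} ~ c T^{r/2}` with
`c = V_r #E(K)_tors / √R`. -/
theorem neron_count :
    Tendsto (fun T : ℝ ↦ (Nat.card {P : E.toAffine.Point // ht E P ≤ T} : ℝ) /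
      T ^ ((Module.finrank ℤ E.toAffine.Point : ℝ) / 2)) atTop (𝓝 (neronConst E)) := by
  set r := Module.finrank ℤ E.toAffine.Point with hr
  obtain ⟨C, hC⟩ := nt_sub_ht E
  have hC0 : 0 ≤ C := (abs_nonneg _).trans (hC 0)
  have hmain := neron_count_nt E
  -- shifts do not change the asymptotics
  have hshift : ∀ D : ℝ, Tendsto (fun T : ℝ ↦
      (Nat.card {P : E.toAffine.Point // nt E P ≤ T + D} : ℝ) / T ^ ((r : ℝ) / 2)) atTop
      (𝓝 (neronConst E)) := by
    intro D
    have h1 : Tendsto (fun T : ℝ ↦ T + D) atTop atTop := tendsto_atTop_add_const_right _ _ tendsto_id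
    have h2 := hmain.comp h1
    have h3 : Tendsto (fun T : ℝ ↦ ((T + D) / T) ^ ((r : ℝ) / 2)) atTop (𝓝 1) := by
      have h4 : Tendsto (fun T : ℝ ↦ (T + D) / T) atTop (𝓝 1) := by
        have h5 : Tendsto (fun T : ℝ ↦ 1 + D / T) atTop (𝓝 (1 + 0)) :=
          tendsto_const_nhds.add (tendsto_const_nhds.div_atTop tendsto_id)
        rw [add_zero] at h5
        refine h5.congr' ?_
        filter_upwards [eventually_gt_atTop 0] with T hT
        field_simp
      have h6 := h4.rpow_const (p := (r : ℝ) / 2) (Or.inl one_ne_zero)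
      rwa [Real.one_rpow] at h6
    have h7 := h2.mul h3
    rw [mul_one] at h7
    refine h7.congr' ?_
    filter_upwards [eventually_gt_atTop (max 0 (-D))] with T hT
    have hT0 : 0 < T := (le_max_left _ _).trans_lt hT
    have hTD : 0 < T + D := by
      have := (le_max_right 0 (-D)).trans_lt hT
      linarith
    simp only [Function.comp_apply]
    rw [Real.div_rpow hTD.le hT0.le]
    have h8 : (T + D) ^ ((r : ℝ) / 2) ≠ 0 := (Real.rpow_pos_of_pos hTD _).ne'
    have h9 : T ^ ((r : ℝ) / 2) ≠ 0 := (Real.rpow_pos_of_pos hT0 _).ne'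
    rw [← hr]
    field_simp
  have hfin : ∀ T : ℝ, Finite {P : E.toAffine.Point // nt E P ≤ T} := fun T ↦ nt_northcott E T
  have hfin' : ∀ T : ℝ, Finite {P : E.toAffine.Point // ht E P ≤ T} := fun T ↦ by
    have := northcott E
    exact Northcott.finite_le (h := ht E) T
  refine tendsto_of_tendsto_of_tendsto_of_le_of_le' (hshift (-C)) (hshift C) ?_ ?_
  · filter_upwards [eventually_gt_atTop 0] with T hT
    have := hfin' T
    gcongr
    refine Nat.card_le_card_of_injective (fun P : {P : E.toAffine.Point // nt E P ≤ T + -C} ↦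
      (⟨P.1, ?_⟩ : {P : E.toAffine.Point // ht E P ≤ T})) ?_
    · have h1 := (abs_le.mp (hC P.1)).1
      have h2 := P.2
      linarith
    · intro P Q h
      exact Subtype.ext (congrArg (fun z : {P : E.toAffine.Point // ht E P ≤ T} ↦ z.1) h)
  · filter_upwards [eventually_gt_atTop 0] with T hT
    have := hfin (T + C)
    gcongr
    refine Nat.card_le_card_of_injective (fun P : {P : E.toAffine.Point // ht E P ≤ T} ↦
      (⟨P.1, ?_⟩ : {P : E.toAffine.Point // nt E P ≤ T + C})) ?_
    · have h1 := (abs_le.mp (hC P.1)).2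
      have h2 := P.2
      linarith
    · intro P Q h
      exact Subtype.ext (congrArg (fun z : {P : E.toAffine.Point // nt E P ≤ T + C} ↦ z.1) h)

/-- The constant in Néron's theorem is positive. -/
theorem neronConst_pos : 0 < neronConst E := by
  have h1 := regulator_pos E
  have h2 : 0 < Real.Gamma (Module.finrank ℤ E.toAffine.Point / 2 + 1) :=
    Real.Gamma_pos_of_pos (by positivity)
  have h3 : Finite (AddCommGroup.torsion E.toAffine.Point) := torsion_finite K E
  have h4 : 0 < (Nat.card (AddCommGroup.torsion E.toAffine.Point) : ℝ) := by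
    exact_mod_cast Nat.card_pos
  unfold neronConst
  positivity

end EllipticCurve

end Fermat.Agent.Cor.MW
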