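import Fermat.Agent.Cor.UW
import Fermat.Agent.H05.Inputs
import Fermat.Agent.H05.Geom

/-!
# The Eichler–Shimura relation at `q ∥ N` on the `q`-new part: `φ² - (q + 1) U_q φ + q = 0`
-/

set_option autoImplicit false
set_option linter.style.haveILetI false
set_option linter.unusedSectionVars false
set_option maxSynthPendingDepth 3

noncomputable section

open AlgebraicCurve ModularCurve CongruenceSubgroup

namespace Fermat.Agent.Cor.Bad

open Fermat.Agent.H05 Fermat.Agent.H26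

local notation "Qb" => AlgebraicClosure ℚ
local notation "Γℚ" => AlgebraicClosure ℚ ≃ₐ[ℚ] AlgebraicClosure ℚ

/-- Frobenius at `q` on the `q`-new part of `J₀(M q)[p ^ m]`: `(φ w + q) (φ w + 1) = 0`. -/
def NewAtW (p M q : ℕ) [NeZero M] [NeZero q] (h : Nat.Coprime q M) : Prop :=
  ∀ (m : ℕ) (A : ValuationSubring (AlgebraicClosure ℚ)), A.LiesOverPrime q →
    ∀ φ : Γℚ, A.IsFrobeniusAt φ q → ∀ x : JZero (M * q), (p ^ m) • x = 0 →
      degPush Qb M q x = 0 → degPush Qb M q (Q.wS M q h • x) = 0 →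
      φ • φ • x + (q + 1) • φ • Q.wS M q h • x + q • x = 0

theorem newAtW_of_toric {p M q : ℕ} (hp : p ≠ 0) [NeZero M] [Fact q.Prime] (h : Nat.Coprime q M)
    (hT : ∀ (m : ℕ) (A : ValuationSubring (AlgebraicClosure ℚ)), A.LiesOverPrime q →
      ∀ φ : Γℚ, A.IsFrobeniusAt φ q → ∀ x ∈ Q.TSub A M q (p ^ m) h,
        φ • Q.wS M q h • x = -(q • x)) : NewAtW p M q h := by
  intro m A hA φ hφ x hx h1 h2
  have hpm : p ^ m ≠ 0 := pow_ne_zero m hp
  have key : x + φ • Q.wS M q h • x ∈ Q.TSub A M q (p ^ m) h :=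
    Q.frobenius_mem_TSub (M := M) (r := q) hA h hpm φ hφ hx
      ((aStar_eq_degPush M q x).trans h1) ((aStar_eq_degPush M q _).trans h2)
  have h3 := hT m A hA φ hφ _ key
  have hww : Q.wS M q h • Q.wS M q h • x = x := Q.wS_wS M q h x
  have h4 : φ • Q.wS M q h • φ • Q.wS M q h • x = φ • φ • x := by
    have h5 : φ • Q.wS M q h • x = Q.wS M q h • φ • x := Q.galois_wS M q h φ x
    rw [h5, Q.wS_wS M q h (φ • x)]
  rw [smul_add, smul_add, h4, smul_add] at h3
  have h5 : (q + 1) • φ • Q.wS M q h • x =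
      q • φ • Q.wS M q h • x + φ • Q.wS M q h • x := by rw [add_smul, one_smul]
  rw [h5]
  have h6 : φ • φ • x = -(q • x + q • φ • Q.wS M q h • x) - φ • Q.wS M q h • x := by
    rw [← h3]; abel
  rw [h6]
  abel

theorem kum_gal {N : ℕ} [NeZero N] {m : ℕ} {y : JZero N} {g : modularFunctionFieldBar N}
    (hg : Kum m y g) (φ : Γℚ) :
    Kum m (φ • y) (arithmeticGalois (modularFunctionFieldFull N) φ • g) := by
  rw [galois_smul_pic0_def]
  exact hg.smul _

set_option maxHeartbeats 1000000 in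
theorem newAtW_transfer {p M q r : ℕ} [NeZero M] [NeZero q] [NeZero r] (hq : q.Prime)
    (hr : r.Prime) (hrM : ¬ r ∣ M) (hrq : r ≠ q)
    (hp : p.Prime) (hpr : ¬ p ∣ r + 1) (hqM : Nat.Coprime q M) (hqM' : Nat.Coprime q (M * r))
    (h : NewAtW p (M * r) q hqM') : NewAtW p M q hqM := by
  intro m A hA φ hφ x hx hx1 hx2
  have hm : p ^ m ≠ 0 := pow_ne_zero m hp.ne_zero
  have hd : M * q ∣ M * r * q := ⟨r, by ring⟩
  have hqr : ¬ q ∣ r := fun h => hrq ((Nat.prime_dvd_prime_iff_eq hq hr).mp h).symm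
  have hrN : ¬ r ∣ M * q := by
    intro h
    rcases (Nat.Prime.dvd_mul hr).mp h with h | h
    · exact hrM h
    · exact hrq ((Nat.prime_dvd_prime_iff_eq hr hq).mp h)
  obtain ⟨f, hf⟩ := exists_kum hx
  obtain ⟨x', hx'⟩ := H26.exists_kum_map hm (inc Qb hd) (inc_isIntegral Qb hd) hf
  have h1 := degPush_inc_eq_zero hq hqr hd hm hf hx1 hx'
  have hwf : Kum (p ^ m) (Q.wS M q hqM • x) (Q.wBar M q hqM f) := hf.smul (Q.wS M q hqM)
  have hwf' : Kum (p ^ m) (Q.wS (M * r) q hqM' • x') (inc Qb hd (Q.wBar M q hqM f)) := by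
    have := hx'.smul (Q.wS (M * r) q hqM')
    rw [Q.wS_smul_fun, wBar_inc hqM hqM' hd] at this
    exact this
  have h2 := degPush_inc_eq_zero hq hqr hd hm hwf hx2 hwf'
  have h3 := h m A hA φ hφ x' hx'.nsmul_eq_zero h1 h2
  have key : ∀ (N : ℕ) [NeZero N] (y z : JZero N) (g k : modularFunctionFieldBar N),
      Kum (p ^ m) y g → Kum (p ^ m) z k →
      ∀ a b : ℕ, Kum (p ^ m) (φ • φ • y + a • φ • z + b • y)
        (((arithmeticGalois (modularFunctionFieldFull N) φ •
          arithmeticGalois (modularFunctionFieldFull N) φ • g) *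
          (arithmeticGalois (modularFunctionFieldFull N) φ • k) ^ a) * g ^ b) := by
    intro N _ y z g k hg hk a b
    have hg2 := kum_gal (kum_gal hg φ) φ
    have hk2 := H26.kum_nsmul (kum_gal hk φ) a
    have hg3 := H26.kum_nsmul hg b
    exact (hg2.mul hk2).mul hg3
  have k2 := key (M * q) x _ f _ hf hwf (q + 1) q
  have k3 := key (M * r * q) x' _ _ _ hx' hwf' (q + 1) q
  rw [h3, ← inc_smul, ← inc_smul, ← inc_smul, ← map_pow, ← map_pow, ← map_mul, ← map_mul] at k3
  exact eq_zero_of_kum_inc hr hrN hd (by ring) hp hpr k2 k3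

theorem newAtW {p q : ℕ} (hp : p.Prime) [hq : Fact q.Prime] (hqp : q ≠ p)
    {M : ℕ} [NeZero M] (hqM : Nat.Coprime q M) : NewAtW p M q hqM := by
  have hT : ∀ (M : ℕ) [NeZero M] (h : Nat.Coprime q M), H26.Hyp M q →
      ∀ (m : ℕ) (A : ValuationSubring (AlgebraicClosure ℚ)), A.LiesOverPrime q →
      ∀ φ : Γℚ, A.IsFrobeniusAt φ q → ∀ x ∈ Q.TSub A M q (p ^ m) h,
        φ • Q.wS M q h • x = -(q • x) := by
    intro M _ h hyp m A hA φ hφ x hx
    have hqm : ¬ q ∣ p ^ m := fun h =>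
      hqp ((Nat.prime_dvd_prime_iff_eq hq.out hp).mp (hq.out.dvd_of_dvd_pow h))
    obtain ⟨lp⟩ := H11Q.hasPacks hq.out hA M h (hyp.2.imp And.left And.left)
    exact Q.frobenius_smul_w_of_mem_TSub h hA lp hqm hx hφ
  have hqM' : ¬ q ∣ M := (Nat.Prime.coprime_iff_not_dvd hq.out).mp hqM
  rcases H26.exists_aux hq.out hqM' hp hqp with h | ⟨r, hr, hrM, hrq, hpr, h⟩
  · exact newAtW_of_toric hp.ne_zero hqM (hT M hqM h)
  · haveI : NeZero r := ⟨hr.ne_zero⟩
    have hqM2 : Nat.Coprime q (M * r) := (Nat.Prime.coprime_iff_not_dvd hq.out).mpr h.1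
    exact newAtW_transfer hq.out hr hrM hrq hp hpr hqM hqM2
      (newAtW_of_toric hp.ne_zero hqM2 (hT (M * r) hqM2 h))

/-- a subgroup stable under the generators is stable under the Hecke algebra -/
theorem act_induction {V : Type*} [AddCommGroup V] (a : HeckeAlg →+* Module.End ℤ V)
    (P : AddSubgroup V) (hgen : ∀ ℓ : Nat.Primes, ∀ v ∈ P, a (heckeGen ℓ) v ∈ P) (t : HeckeAlg) :
    ∀ v ∈ P, a t v ∈ P := by
  have ht : t ∈ awayPoly ∅ := by
    have : (awayPoly ∅) = ⊤ := by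
      unfold awayPoly
      rw [show {ℓ : Nat.Primes | (ℓ : ℕ) ∉ (∅ : Set ℕ)} = Set.univ by ext; simp]
      exact MvPolynomial.supported_univ
    rw [this]
    exact Algebra.mem_top
  refine awayPoly_induction (S := ∅) (P := fun t => ∀ v ∈ P, a t v ∈ P) ?_ ?_ ?_ ?_ ht
  · intro ℓ _ v hv
    exact hgen ℓ v hv
  · intro c v hv
    rw [eq_intCast, map_intCast, Module.End.intCast_apply]
    exact P.zsmul_mem hv c
  · intro x y hx hy v hv
    rw [map_add, LinearMap.add_apply]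
    exact P.add_mem (hx v hv) (hy v hv)
  · intro x y hx hy v hv
    rw [map_mul, Module.End.mul_apply]
    exact hx _ (hy v hv)

section Forms

variable {N m : ℕ} [NeZero N] [hm : NeZero m]

omit hm in
theorem awayEval_surj (S : Set ℕ) (x : CuspForm.heckeAlgebra N 2 S) :
    ∃ t : awayPoly S, awayEval N S t = x := awayEval_surjective S x

variable [Algebra (AlgebraicClosure ℚ) ℂ]

set_option maxHeartbeats 4000000 in
theorem formsAct_eq (S : Set ℕ) (x : CuspForm.heckeAlgebra N 2 S) (w : torForms N m) :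
    ∃ t : awayPoly S, ((H22.formsPartActAway N (torAct N m) S x w : torForms N m) : Tor N m) =
      torAct N m (t : HeckeAlg) (w : Tor N m) := by
  obtain ⟨t, ht⟩ := awayEval_surj S x
  have h1 := H22.formsPartActAway_apply (torAct N m) x (t : HeckeAlg)
    (by rw [← ht]; exact (coe_awayEval t).symm) w
  exact ⟨t, h1⟩

end Forms

section New

variable (M q : ℕ) [NeZero M] [NeZero q] (m : ℕ)
variable [Algebra (AlgebraicClosure ℚ) ℂ] [hm : NeZero m]

/-- the `q`-new vectors -/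
def newT (h : Nat.Coprime q M) : AddSubgroup (Tor (M * q) m) :=
  (degTor M q m).ker ⊓ ((degTor M q m).comp (wTor M q m h)).ker

variable {M q m}

theorem mem_newT {h : Nat.Coprime q M} {x : Tor (M * q) m} :
    x ∈ newT M q m h ↔ degTor M q m x = 0 ∧ degTor M q m (wTor M q m h x) = 0 := Iff.rfl

theorem torAct_q (hq : q.Prime) (ℓ : Nat.Primes) (hℓ : (ℓ : ℕ) = q) (h : Nat.Coprime q M)
    {x : Tor (M * q) m} (hx : x ∈ newT M q m h) :
    torAct (M * q) m (heckeGen ℓ) x = -(wTor M q m h x) := by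
  rw [torAct_heckeGen]
  apply Subtype.ext
  have h1 : m • (x : JZero (M * q)) = 0 := mem_tor.mp x.2
  have h2 : degPush Qb M q (x : JZero (M * q)) = 0 :=
    congrArg (fun z : Tor M m => (z : JZero M)) (mem_newT.mp hx).1
  obtain ⟨ℓ, hℓ'⟩ := ℓ
  subst hℓ
  exact heckeOperatorBar_eq_neg_wS hq h hm.out h1 h2

theorem wTor_wTor (h : Nat.Coprime q M) (x : Tor (M * q) m) :
    wTor M q m h (wTor M q m h x) = x :=
  Subtype.ext (Q.wS_wS M q h (x : JZero (M * q)))

theorem newT_w (h : Nat.Coprime q M) {x : Tor (M * q) m} (hx : x ∈ newT M q m h) :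
    wTor M q m h x ∈ newT M q m h := by
  rw [mem_newT] at hx ⊢
  refine ⟨hx.2, ?_⟩
  rw [wTor_wTor]
  exact hx.1

theorem newT_act (hq : q.Prime) (h : Nat.Coprime q M) (t : HeckeAlg) :
    ∀ x ∈ newT M q m h, torAct (M * q) m t x ∈ newT M q m h := by
  refine act_induction (torAct (M * q) m) (newT M q m h) (fun ℓ x hx => ?_) t
  by_cases hℓ : (ℓ : ℕ) = q
  · rw [torAct_q hq ℓ hℓ h hx]
    exact neg_mem (newT_w h hx)
  · have hmem : heckeGen ℓ ∈ awayPoly {q} := heckeGen_mem_awayPoly (by simpa using hℓ)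
    have hqS : q ∈ ({q} : Set ℕ) := rfl
    rw [mem_newT] at hx ⊢
    refine ⟨?_, ?_⟩
    · rw [degTor_torAct hq hqS hmem, hx.1, map_zero]
    · rw [wTor_torAct hq h hqS hmem, degTor_torAct hq hqS hmem, hx.2, map_zero]

set_option maxHeartbeats 4000000 in
theorem hecke_mem_newSub' (hq : q.Prime) (h : Nat.Coprime q M) (S : Set ℕ)
    (x : CuspForm.heckeAlgebra (M * q) 2 S) (w : torForms (M * q) m) (hw : w ∈ newSub M q m h) :
    H22.formsPartActAway (M * q) (torAct (M * q) m) S x w ∈ newSub M q m h := by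
  obtain ⟨t, ht⟩ := formsAct_eq S x w
  have h2 : ((w : torForms (M * q) m) : Tor (M * q) m) ∈ newT M q m h :=
    mem_newT.mpr ((mem_newSub h).mp hw)
  have h3 := newT_act hq h (t : HeckeAlg) _ h2
  rw [← ht] at h3
  exact (mem_newSub h).mpr (mem_newT.mp h3)

end New

end Fermat.Agent.Cor.Bad
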