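import Fermat.Agent.Cor.PoitouTate

/-!
# Tate's nine term exact sequence modulo `p` over `ℚ`, for every `S`

For an odd prime `p`, a finite set `S ∋ p` of primes and a perfect pairing `M × M' → μ_p` of finite Galois modules killed
by `p` and unramified outside `S` there is an exact sequence (`X^∨ = Hom(X, ℤ/p)`)
`0 → H⁰(G_S, M) → P⁰(M) → H²(G_S, M')^∨ → H¹(G_S, M) → P¹(M) → H¹(G_S, M')^∨ → H²(G_S, M) → P²(M) → H⁰(G_S, M')^∨ → 0`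
where `P^i(M) = ∏_{q ∈ S} H^i(D_q, M)` (`p` is odd: the archimedean place does not contribute) and the maps
`P^i(M) → H^{2-i}(G_S, M')^∨` are the sums of the local pairings.

This file is not used by any of the statement files.
-/

set_option autoImplicit false
set_option maxHeartbeats 400000
set_option linter.unusedSectionVars false

noncomputable section

namespace Fermat.Agent.Cor.PT

open Fermat.Agent.CC Fermat.Agent.CFT.EC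
open Fermat.Agent.LF (DK)

section Lin

variable {p : ℕ} [hp : Fact p.Prime]

theorem exists_dual_equiv_aux {X Y : Type*} [AddCommGroup X] [AddCommGroup Y] [Module (ZMod p) X]
    [Module (ZMod p) Y] [Finite X] [Finite Y] (h : Nat.card X = Nat.card Y) :
    Nonempty ((X →+ ZMod p) ≃+ Y) := by
  have : Module.Finite (ZMod p) X := Module.Finite.of_finite
  have : Module.Finite (ZMod p) Y := Module.Finite.of_finite
  have h1 : Module.finrank (ZMod p) X = Module.finrank (ZMod p) Y := by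
    have e1 := Module.natCard_eq_pow_finrank (K := ZMod p) (V := X)
    have e2 := Module.natCard_eq_pow_finrank (K := ZMod p) (V := Y)
    rw [h, e2, Nat.card_zmod] at e1
    exact (Nat.pow_right_injective hp.out.two_le e1).symm
  have h2 : Module.finrank (ZMod p) (Module.Dual (ZMod p) X) = Module.finrank (ZMod p) Y := by
    rw [← h1, Subspace.dual_finrank_eq]
  let e : Module.Dual (ZMod p) X ≃+ Y := (LinearEquiv.ofFinrankEq _ _ h2).toAddEquiv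
  let f : (X →+ ZMod p) ≃+ Module.Dual (ZMod p) X := AddMonoidHom.toZModLinearMapEquiv p
  exact ⟨f.trans e⟩

/-- finite groups killed by `p` of the same order are dual to each other -/
theorem exists_dual_equiv {X Y : Type*} [AddCommGroup X] [AddCommGroup Y] [Finite X] [Finite Y]
    (hX : ∀ x : X, p • x = 0) (hY : ∀ y : Y, p • y = 0) (h : Nat.card X = Nat.card Y) :
    Nonempty ((X →+ ZMod p) ≃+ Y) := by
  let _ : Module (ZMod p) X := AddCommGroup.zmodModule hX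
  let _ : Module (ZMod p) Y := AddCommGroup.zmodModule hY
  exact exists_dual_equiv_aux h

end Lin

section Abs

variable {p : ℕ} [Fact p.Prime] {G : Type} [Group G] {T : Type} [AddCommGroup T]
  [DistribMulAction G T] (𝒢 : GLD p G T) {M M' : Type} [AddCommGroup M] [AddCommGroup M']
  [DistribMulAction G M] [DistribMulAction G M'] {e : M →+ M' →+ T} (h : Pr p 𝒢.𝓛 e)

/-- `P⁰(M) → H²(G, M')^∨` -/
def β0 : (∀ v, H0 (𝒢.D v) M) →+ (H2 𝒢.𝓛 M' →+ ZMod p) := (𝒢.s20 h.flip).flip.compl₂ (𝒢.l2 M')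

/-- `P¹(M) → H¹(G, M')^∨` -/
def β1 : (∀ v, H1 (𝒢.L v) M) →+ (H1 𝒢.𝓛 M' →+ ZMod p) := (𝒢.s11 h).compl₂ (𝒢.l1 M')

/-- `P²(M) → H⁰(G, M')^∨` -/
def β2 : (∀ v, H2 (𝒢.L v) M) →+ (H0 G M' →+ ZMod p) := (𝒢.s20 h).compl₂ (𝒢.l0 M')

theorem β0_apply (x : ∀ v, H0 (𝒢.D v) M) (y : H2 𝒢.𝓛 M') :
    β0 𝒢 h x y = 𝒢.s20 h.flip (𝒢.l2 M' y) x := rfl

theorem β1_apply (x : ∀ v, H1 (𝒢.L v) M) (y : H1 𝒢.𝓛 M') :
    β1 𝒢 h x y = 𝒢.s11 h x (𝒢.l1 M' y) := rfl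

theorem β2_apply (x : ∀ v, H2 (𝒢.L v) M) (y : H0 G M') :
    β2 𝒢 h x y = 𝒢.s20 h x (𝒢.l0 M' y) := rfl

/-- **the nine term sequence** (abstract form) -/
theorem nine_term_of (hE2 : 𝒢.E2 h) (hE2' : 𝒢.E2 h.flip) (hE5 : 𝒢.E5 h)
    (s1 : Finite (𝒢.Sh2 M)) (s2 : Finite (𝒢.Sh1 M'))
    (s3 : Nat.card (𝒢.Sh2 M) = Nat.card (𝒢.Sh1 M'))
    (s1' : Finite (𝒢.Sh2 M')) (s2' : Finite (𝒢.Sh1 M))
    (s3' : Nat.card (𝒢.Sh2 M') = Nat.card (𝒢.Sh1 M)) :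
    ∃ (δ₁ : (H2 𝒢.𝓛 M' →+ ZMod p) →+ H1 𝒢.𝓛 M) (δ₂ : (H1 𝒢.𝓛 M' →+ ZMod p) →+ H2 𝒢.𝓛 M),
      Function.Injective (𝒢.l0 M) ∧ Function.Exact (𝒢.l0 M) (β0 𝒢 h) ∧
      Function.Exact (β0 𝒢 h) δ₁ ∧ Function.Exact δ₁ (𝒢.l1 M) ∧
      Function.Exact (𝒢.l1 M) (β1 𝒢 h) ∧ Function.Exact (β1 𝒢 h) δ₂ ∧
      Function.Exact δ₂ (𝒢.l2 M) ∧ Function.Exact (𝒢.l2 M) (β2 𝒢 h) ∧
      Function.Surjective (β2 𝒢 h) := by
  have fM := h.fA
  have fM' := h.fB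
  have k1 : ∀ x : H1 𝒢.𝓛 M, p • x = 0 := H1_killed h.kA
  have k1' : ∀ x : H1 𝒢.𝓛 M', p • x = 0 := H1_killed h.kB
  have k2 : ∀ x : H2 𝒢.𝓛 M, p • x = 0 := H2_killed h.kA
  have k2' : ∀ x : H2 𝒢.𝓛 M', p • x = 0 := H2_killed h.kB
  have kP0 : ∀ x : (∀ v, H0 (𝒢.D v) M), p • x = 0 := GLD.pi_killed fun v => H0_killed h.kA
  have kP0' : ∀ x : (∀ v, H0 (𝒢.D v) M'), p • x = 0 := GLD.pi_killed fun v => H0_killed h.kB
  have kP1' : ∀ x : (∀ v, H1 (𝒢.L v) M'), p • x = 0 := GLD.pi_killed fun v => H1_killed h.kB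
  have kP2' : ∀ x : (∀ v, H2 (𝒢.L v) M'), p • x = 0 := GLD.pi_killed fun v => H2_killed h.kB
  obtain ⟨e₁⟩ := exists_dual_equiv (p := p) (X := 𝒢.Sh2 M') (Y := 𝒢.Sh1 M)
    (fun x => Subtype.ext (k2' x)) (fun x => Subtype.ext (k1 x)) s3'
  obtain ⟨e₂⟩ := exists_dual_equiv (p := p) (X := 𝒢.Sh1 M') (Y := 𝒢.Sh2 M)
    (fun x => Subtype.ext (k1' x)) (fun x => Subtype.ext (k2 x)) s3.symm
  let r₁ : (H2 𝒢.𝓛 M' →+ ZMod p) →+ (𝒢.Sh2 M' →+ ZMod p) :=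
    AddMonoidHom.compHom' (𝒢.Sh2 M').subtype
  let r₂ : (H1 𝒢.𝓛 M' →+ ZMod p) →+ (𝒢.Sh1 M' →+ ZMod p) :=
    AddMonoidHom.compHom' (𝒢.Sh1 M').subtype
  let δ₁ : (H2 𝒢.𝓛 M' →+ ZMod p) →+ H1 𝒢.𝓛 M :=
    (𝒢.Sh1 M).subtype.comp (e₁.toAddMonoidHom.comp r₁)
  let δ₂ : (H1 𝒢.𝓛 M' →+ ZMod p) →+ H2 𝒢.𝓛 M :=
    (𝒢.Sh2 M).subtype.comp (e₂.toAddMonoidHom.comp r₂)
  have hδ₁ : ∀ φ, δ₁ φ = 0 ↔ ∀ y : H2 𝒢.𝓛 M', 𝒢.l2 M' y = 0 → φ y = 0 := by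
    intro φ
    have h1 : δ₁ φ = ((e₁ (r₁ φ) : 𝒢.Sh1 M) : H1 𝒢.𝓛 M) := rfl
    rw [h1, ZeroMemClass.coe_eq_zero, EmbeddingLike.map_eq_zero_iff]
    constructor
    · intro h2 y hy
      exact DFunLike.congr_fun h2 ⟨y, hy⟩
    · intro h2
      ext y
      exact h2 y.1 y.2
  have hδ₂ : ∀ φ, δ₂ φ = 0 ↔ ∀ y : H1 𝒢.𝓛 M', 𝒢.l1 M' y = 0 → φ y = 0 := by
    intro φ
    have h1 : δ₂ φ = ((e₂ (r₂ φ) : 𝒢.Sh2 M) : H2 𝒢.𝓛 M) := rfl
    rw [h1, ZeroMemClass.coe_eq_zero, EmbeddingLike.map_eq_zero_iff]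
    constructor
    · intro h2 y hy
      exact DFunLike.congr_fun h2 ⟨y, hy⟩
    · intro h2
      ext y
      exact h2 y.1 y.2
  refine ⟨δ₁, δ₂, 𝒢.l0_injective M, ?_, ?_, ?_, ?_, ?_, ?_, ?_, ?_⟩
  · -- exactness at `P⁰`
    intro x
    constructor
    · intro hx
      by_contra hcon
      have hcon' : x ∉ (𝒢.l0 M).range := hcon
      obtain ⟨Λ, h1, h2⟩ := fp_sep kP0 _ hcon'
      obtain ⟨y, hy⟩ := 𝒢.repr20 h.flip Λ
      obtain ⟨w, rfl⟩ := hE2' y fun b => by rw [hy]; exact h1 _ ⟨b, rfl⟩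
      apply h2
      rw [← hy x]
      exact DFunLike.congr_fun hx w
    · rintro ⟨a, rfl⟩
      ext y
      exact 𝒢.rec20 h.flip y a
  · -- exactness at `H²(M')^∨`
    intro φ
    rw [hδ₁]
    constructor
    · intro hφ
      obtain ⟨Λ, hΛ⟩ := fp_extend k2' kP2' (𝒢.l2 M') φ hφ
      have := 𝒢.finP2A h.flip
      have hr : ∀ b : (∀ v, H0 (𝒢.D v) M), (∀ y, 𝒢.s20 h.flip y b = 0) → b = 0 := by
        intro b hb
        classical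
        funext v
        refine (𝒢.ld v M' M e.flip h.flip).b0 _ fun y => (𝒢.inv v).injective ?_
        rw [map_zero]
        have h3 := hb (Pi.single v y)
        rw [GLD.s20_apply, Finset.sum_eq_single v] at h3
        · rw [Pi.single_eq_same] at h3
          exact h3
        · intro w _ hw
          rw [Pi.single_eq_of_ne hw, map_zero]; rfl
        · intro h4; exact absurd (Finset.mem_univ v) h4
      obtain ⟨x, hx⟩ := (fp_isPerfPair (p := p) kP2' kP0 (𝒢.s20 h.flip)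
        (𝒢.s20_left h.flip) hr).1 Λ
      refine ⟨x, ?_⟩
      ext y
      rw [β0_apply, hx, hΛ]
    · rintro ⟨x, rfl⟩ y hy
      rw [β0_apply, hy, map_zero]
      rfl
  · -- exactness at `H¹(M)`
    intro x
    constructor
    · intro hx
      obtain ⟨φ, hφ⟩ := fp_extend (p := p) (fun x : 𝒢.Sh2 M' => Subtype.ext (k2' x)) k2'
        (𝒢.Sh2 M').subtype (e₁.symm ⟨x, hx⟩) fun y hy => by
          rw [show y = 0 from Subtype.ext hy, map_zero]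
      refine ⟨φ, ?_⟩
      have h1 : r₁ φ = e₁.symm ⟨x, hx⟩ := by
        ext y
        exact hφ y
      change ((e₁ (r₁ φ) : 𝒢.Sh1 M) : H1 𝒢.𝓛 M) = x
      rw [h1, AddEquiv.apply_symm_apply]
    · rintro ⟨φ, rfl⟩
      exact (e₁ (r₁ φ)).2
  · -- exactness at `P¹`
    intro y
    constructor
    · intro hy
      exact hE5 y fun b => DFunLike.congr_fun hy b
    · rintro ⟨x, rfl⟩
      ext b
      exact 𝒢.rec11 h x b
  · -- exactness at `H¹(M')^∨`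
    intro φ
    rw [hδ₂]
    constructor
    · intro hφ
      obtain ⟨Λ, hΛ⟩ := fp_extend k1' kP1' (𝒢.l1 M') φ hφ
      obtain ⟨y, hy⟩ := 𝒢.repr11 h Λ
      refine ⟨y, ?_⟩
      ext b
      rw [β1_apply, hy, hΛ]
    · rintro ⟨x, rfl⟩ y hy
      rw [β1_apply, hy, map_zero]
  · -- exactness at `H²(M)`
    intro x
    constructor
    · intro hx
      obtain ⟨φ, hφ⟩ := fp_extend (p := p) (fun x : 𝒢.Sh1 M' => Subtype.ext (k1' x)) k1'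
        (𝒢.Sh1 M').subtype (e₂.symm ⟨x, hx⟩) fun y hy => by
          rw [show y = 0 from Subtype.ext hy, map_zero]
      refine ⟨φ, ?_⟩
      have h1 : r₂ φ = e₂.symm ⟨x, hx⟩ := by
        ext y
        exact hφ y
      change ((e₂ (r₂ φ) : 𝒢.Sh2 M) : H2 𝒢.𝓛 M) = x
      rw [h1, AddEquiv.apply_symm_apply]
    · rintro ⟨φ, rfl⟩
      exact (e₂ (r₂ φ)).2
  · -- exactness at `P²`
    intro y
    constructor
    · intro hy
      exact hE2 y fun b => DFunLike.congr_fun hy b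
    · rintro ⟨x, rfl⟩
      ext b
      exact 𝒢.rec20 h x b
  · -- surjectivity
    intro φ
    obtain ⟨Λ, hΛ⟩ := fp_extend (p := p) (H0_killed h.kB) kP0' (𝒢.l0 M') φ fun b hb => by
      rw [𝒢.l0_injective M' (hb.trans (map_zero _).symm), map_zero]
    obtain ⟨y, hy⟩ := 𝒢.repr20 h Λ
    refine ⟨y, ?_⟩
    ext b
    rw [β2_apply, hy, hΛ]

end Abs

section Main

variable {p : ℕ} [hp : Fact p.Prime] {S : Finset Nat.Primes} {M M' : Type} [AddCommGroup M]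
  [AddCommGroup M'] [DistribMulAction GQ M] [DistribMulAction GQ M'] {e : M →+ M' →+ Mu p}

theorem finite_Sh1 (𝒟 : Dat p S) (hp2 : p ≠ 2) (hpS : pP p ∈ S) (h : Pr p (𝒟.gld hp2 hpS).𝓛 e) :
    Finite ((𝒟.gld hp2 hpS).Sh1 M) := by
  have := finite_H1_aux hp2 hpS 𝒟 h
  infer_instance

/-- **Tate's nine term exact sequence** modulo `p`, for every finite `S ∋ p`, `p` odd. -/
theorem nine_term (𝒟 : Dat p S) (hp2 : p ≠ 2) (hpS : pP p ∈ S) (h : Pr p (𝒟.gld hp2 hpS).𝓛 e) :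
    ∃ (δ₁ : (H2 (𝒟.gld hp2 hpS).𝓛 M' →+ ZMod p) →+ H1 (𝒟.gld hp2 hpS).𝓛 M)
      (δ₂ : (H1 (𝒟.gld hp2 hpS).𝓛 M' →+ ZMod p) →+ H2 (𝒟.gld hp2 hpS).𝓛 M),
      Function.Injective ((𝒟.gld hp2 hpS).l0 M) ∧
      Function.Exact ((𝒟.gld hp2 hpS).l0 M) (β0 (𝒟.gld hp2 hpS) h) ∧
      Function.Exact (β0 (𝒟.gld hp2 hpS) h) δ₁ ∧ Function.Exact δ₁ ((𝒟.gld hp2 hpS).l1 M) ∧
      Function.Exact ((𝒟.gld hp2 hpS).l1 M) (β1 (𝒟.gld hp2 hpS) h) ∧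
      Function.Exact (β1 (𝒟.gld hp2 hpS) h) δ₂ ∧
      Function.Exact δ₂ ((𝒟.gld hp2 hpS).l2 M) ∧
      Function.Exact ((𝒟.gld hp2 hpS).l2 M) (β2 (𝒟.gld hp2 hpS) h) ∧
      Function.Surjective (β2 (𝒟.gld hp2 hpS) h) :=
  nine_term_of (𝒟.gld hp2 hpS) h (exact_P2 hp2 hpS 𝒟 h) (exact_P2 hp2 hpS 𝒟 h.flip)
    (exact_P1 hp2 hpS 𝒟 h) (sha 𝒟 hp2 hpS h).1 (finite_Sh1 𝒟 hp2 hpS h.flip)
    (sha 𝒟 hp2 hpS h).2 (sha 𝒟 hp2 hpS h.flip).1 (finite_Sh1 𝒟 hp2 hpS h)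
    (sha 𝒟 hp2 hpS h.flip).2

end Main

end Fermat.Agent.Cor.PT
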