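import Mathlib
import Fermat.Agent.H23.R.CuspRel
import Fermat.Agent.H07.PhiDich

/-!
# Singular moduli are algebraic integers

`j = E₄ ^ 3 / Δ`.  For `τ` in the upper half plane and quadratic over `ℚ` the number `j(τ)` is an algebraic
integer.  The proof uses the modular polynomials `Φ_ℓ` for primes `ℓ` only: for a valuation `v` of `ℂ` with
`v(j(τ)) > 1` one has `v(j(ℓτ)) = v(j(τ)) ^ (ℓ ^ ±1)`.  Complex multiplication by an element of norm `n`
gives a chain of isogenies of prime degrees `ℓ₁, …, ℓ_k`, `n = ℓ₁⋯ℓ_k`, from `j(τ)` to itself; so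
`v(j(τ)) = v(j(τ)) ^ (∏ ℓ_i ^ ±1)`, which is impossible if `n` is not a square.

This file is not used by any of the statement files.
-/

set_option autoImplicit false

noncomputable section

namespace Fermat.Agent.Cor.CM

open ModularCurve Polynomial UpperHalfPlane Fermat.Agent.Igusa Fermat.Agent.H07 MatrixGroups

section shape

variable (r : ℕ) [hr : Fact r.Prime]

/-- **Shape of the modular polynomial**, for all primes `r`. -/
theorem modPoly_eq_all : ∃ z : ℕ → ℕ → ℤ, z r r = 0 ∧
    modPoly r = X ^ (r + 1) + C (X ^ (r + 1)) - C (X ^ r) * X ^ r +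
      ∑ b ∈ Finset.range (r + 1), ∑ a ∈ Finset.range (r + 1), C (C (z a b) * X ^ a) * X ^ b := by
  obtain ⟨h1, h2, h3, h4⟩ := Fermat.Agent.H23.R.modPoly_shape' r
  have hr1 : 2 ≤ r := hr.out.two_le
  refine ⟨fun a b => if a = r ∧ b = r then 0 else ((modPoly r).coeff b).coeff a, by simp, ?_⟩
  have hc : ∀ b, b ≤ r → (modPoly r).coeff b = (if b = r then -X ^ r else 0)
      + (if b = 0 then X ^ (r + 1) else 0) + ∑ a ∈ Finset.range (r + 1),
        C (if a = r ∧ b = r then 0 else ((modPoly r).coeff b).coeff a) * X ^ a := by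
    intro b hb
    by_cases hb0 : b = 0
    · subst hb0
      rw [if_neg (by omega), if_pos rfl, zero_add]
      conv_lhs => rw [((modPoly r).coeff 0).as_sum_range' (r + 1 + 1) (Nat.lt_succ_of_le h3)]
      rw [Finset.sum_range_succ, h4, monomial_one_right_eq_X_pow, add_comm]
      congr 1
      apply Finset.sum_congr rfl
      intro a _
      rw [if_neg (by omega), C_mul_X_pow_eq_monomial]
    · have hb1 : 1 ≤ b := Nat.one_le_iff_ne_zero.mpr hb0
      rw [if_neg hb0, add_zero]
      conv_lhs => rw [((modPoly r).coeff b).as_sum_range' (r + 1) (Nat.lt_succ_of_le (h1 b hb1 hb))]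
      rw [Finset.sum_range_succ, Finset.sum_range_succ]
      by_cases hbr : b = r
      · subst hbr
        rw [if_pos rfl, if_pos ⟨rfl, rfl⟩, h2, C_0, zero_mul, add_zero, add_comm]
        congr 1
        · rw [← C_mul_X_pow_eq_monomial]; simp
        · apply Finset.sum_congr rfl
          intro a ha
          have := Finset.mem_range.mp ha
          rw [if_neg (by omega), C_mul_X_pow_eq_monomial]
      · rw [if_neg hbr, zero_add, if_neg (by omega), C_mul_X_pow_eq_monomial]
        congr 1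
        apply Finset.sum_congr rfl
        intro a _
        rw [if_neg (by omega), C_mul_X_pow_eq_monomial]
  conv_lhs => rw [(modPoly r).as_sum_range' (r + 1 + 1) (by rw [modPoly_natDegree]; omega)]
  rw [Finset.sum_range_succ]
  have hlead : (modPoly r).coeff (r + 1) = 1 := by
    have := modPoly_monic r
    rw [Monic, leadingCoeff, modPoly_natDegree] at this
    exact this
  rw [hlead, monomial_one_right_eq_X_pow]
  have e1 : ∀ b ∈ Finset.range (r + 1), monomial b ((modPoly r).coeff b) =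
      (if b = r then (-(C (X ^ r) * X ^ r) : ℤ[X][X]) else 0) +
      (if b = 0 then (C (X ^ (r + 1)) : ℤ[X][X]) else 0) +
      ∑ a ∈ Finset.range (r + 1), (C (C (if a = r ∧ b = r then 0 else
        ((modPoly r).coeff b).coeff a) * X ^ a) * X ^ b : ℤ[X][X]) := by
    intro b hb
    have hb' := Finset.mem_range.mp hb
    conv_lhs => rw [hc b (by omega)]
    rw [← C_mul_X_pow_eq_monomial, C_add, C_add, map_sum, add_mul, add_mul, Finset.sum_mul]
    congr 1
    congr 1
    · by_cases h : b = r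
      · rw [if_pos h, if_pos h, h, C_neg]; ring
      · rw [if_neg h, if_neg h, C_0, zero_mul]
    · by_cases h : b = 0
      · rw [if_pos h, if_pos h, h, pow_zero, mul_one]
      · rw [if_neg h, if_neg h, C_0, zero_mul]
  rw [Finset.sum_congr rfl e1, Finset.sum_add_distrib, Finset.sum_add_distrib,
    Finset.sum_ite_eq' , Finset.sum_ite_eq', if_pos (by simp), if_pos (by simp)]
  ring

end shape

section dich

variable (r : ℕ) [hr : Fact r.Prime] {K : Type*} [Field K] (A : ValuationSubring K)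

/-- The dichotomy for the modular equation at all primes. -/
theorem dichotomy_all {c y : K} (hc : c ∉ A) (h : (modPoly r).eval₂ (evZ c) y = 0) :
    y ∉ A ∧ (A.valuation y = A.valuation c ^ r ∨ A.valuation y ^ r = A.valuation c) := by
  obtain ⟨z, hz, hΦ⟩ := modPoly_eq_all r
  rw [eval_modPoly r hΦ] at h
  have h1 := dich_core A.valuation hr.out.two_le hz (valuation_intCast A)
    (by rw [← not_le, A.valuation_le_one_iff]; exact hc) h
  refine ⟨?_, h1.2⟩
  rw [← A.valuation_le_one_iff, not_le]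
  exact h1.1

/-- `x` and `y` are related by a chain of modular equations of total degree `n`: if `x` is not
integral at `A`, neither is `y`, and `v(x) ^ a = v(y) ^ b` with `a b = n`. -/
def Rel (x y : K) (n : ℕ) : Prop :=
  x ∉ A → y ∉ A ∧ ∃ a b : ℕ, a * b = n ∧ A.valuation x ^ a = A.valuation y ^ b

variable {A}

theorem Rel.refl (x : K) : Rel A x x 1 := fun h => ⟨h, 1, 1, rfl, rfl⟩

theorem Rel.trans {x y z : K} {m n : ℕ} (h1 : Rel A x y m) (h2 : Rel A y z n) :
    Rel A x z (m * n) := fun hx => by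
  obtain ⟨hy, a, b, hab, h3⟩ := h1 hx
  obtain ⟨hz, a', b', hab', h4⟩ := h2 hy
  refine ⟨hz, a * a', b * b', by rw [← hab, ← hab']; ring, ?_⟩
  rw [pow_mul, h3, ← pow_mul, mul_comm b a', pow_mul, h4, ← pow_mul, mul_comm b' b]

theorem Rel.of_eval {c y : K} (h : (modPoly r).eval₂ (evZ c) y = 0) : Rel A c y r := fun hc => by
  obtain ⟨h1, h2 | h2⟩ := dichotomy_all r A hc h
  · exact ⟨h1, r, 1, mul_one r, by rw [pow_one, h2]⟩
  · exact ⟨h1, 1, r, one_mul r, by rw [pow_one, h2]⟩

/-- A number related to itself by a chain of non-square degree is integral. -/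
theorem mem_of_rel_self {x : K} {n : ℕ} (hn : ¬ IsSquare n) (h : Rel A x x n) : x ∈ A := by
  by_contra hx
  obtain ⟨-, a, b, hab, h1⟩ := h hx
  have h2 : 1 < A.valuation x := by rw [← not_le, A.valuation_le_one_iff]; exact hx
  have h3 : a = b := (pow_right_injective₀ (zero_lt_one.trans h2) h2.ne') h1
  exact hn ⟨a, by rw [← hab, h3]⟩

end dich

section analytic

open HahnSeries

variable {h : ℕ}

theorem isExp_evZ {f : ℍ → ℂ} {F : LaurentSeries ℂ} (hf : IsExp h f F) (P : ℤ[X]) :
    IsExp h (fun τ => evZ (f τ) P) (evZ F P) := by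
  induction P using Polynomial.induction_on' with
  | add p q hp hq => simpa using hp.add hq
  | monomial n a =>
    have h1 := (IsExp.const (h := h) (a : ℂ)).mul (hf.pow n)
    convert! h1 using 1
    · funext τ
      rw [evZ_apply, Polynomial.eval₂_monomial]; simp
    · rw [evZ_apply, Polynomial.eval₂_monomial]; simp

theorem isExp_eval₂ {f g : ℍ → ℂ} {F G : LaurentSeries ℂ} (hf : IsExp h f F) (hg : IsExp h g G)
    (Φ : ℤ[X][X]) :
    IsExp h (fun τ => Φ.eval₂ (evZ (f τ)) (g τ)) (Φ.eval₂ (evZ F) G) := by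
  induction Φ using Polynomial.induction_on' with
  | add p q hp hq => simpa [Polynomial.eval₂_add] using hp.add hq
  | monomial n a => simpa [Polynomial.eval₂_monomial] using (isExp_evZ hf a).mul (hg.pow n)

theorem isExp_zero_apply {f : ℍ → ℂ} (hf : IsExp h f 0) (τ : ℍ) : f τ = 0 :=
  (hf τ).unique (by simp)

variable (r : ℕ) [hr : Fact r.Prime]

/-- `Φ_r(j(τ), j(rτ)) = 0`. -/
theorem modPoly_jf (τ : ℍ) : (modPoly r).eval₂ (evZ (jf τ)) (jf (scl r τ)) = 0 := by
  have h1 := isExp_eval₂ isExp_jf (isExp_jf.comp_scl r) (modPoly r)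
  have h2 := (modPoly_eval_complex r).1
  rw [jd_one, jd] at h2
  rw [h2] at h1
  exact isExp_zero_apply h1 τ

/-- `Φ_r(j(rτ), j(τ)) = 0`. -/
theorem modPoly_jf' (τ : ℍ) : (modPoly r).eval₂ (evZ (jf (scl r τ))) (jf τ) = 0 := by
  have h1 := isExp_eval₂ (isExp_jf.comp_scl r) isExp_jf (modPoly r)
  have h2 := (modPoly_eval_complex r).2
  rw [jd_one, jd] at h2
  rw [h2] at h1
  exact isExp_zero_apply h1 τ

end analytic

section chain

variable (A : ValuationSubring ℂ)

/-- The chain of modular equations from `j(τ)` to `j(nτ)` and back. -/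
theorem rel_scale (n : ℕ) : ∀ τ τ' : ℍ, ((τ' : ℍ) : ℂ) = n * (τ : ℂ) →
    Rel A (jf τ) (jf τ') n ∧ Rel A (jf τ') (jf τ) n := by
  induction n using induction_on_primes with
  | zero =>
    intro τ τ' h
    exfalso
    have h1 := τ'.im_pos
    have h2 : (τ' : ℂ).im = 0 := by rw [h]; simp
    exact h1.ne' h2
  | one =>
    intro τ τ' h
    have h1 : τ' = τ := UpperHalfPlane.ext (by simpa using h)
    subst h1
    exact ⟨Rel.refl _, Rel.refl _⟩
  | prime_mul p a hp ih =>
    intro τ τ' h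
    have ha : a ≠ 0 := by
      rintro rfl
      have h1 := τ'.im_pos
      have h2 : (τ' : ℂ).im = 0 := by rw [h]; simp
      exact h1.ne' h2
    have : NeZero a := ⟨ha⟩
    have : Fact p.Prime := ⟨hp⟩
    have : NeZero p := ⟨hp.ne_zero⟩
    have h1 : τ' = scl p (scl a τ) := UpperHalfPlane.ext (by
      rw [h, coe_scl, coe_scl]; push_cast; ring)
    have h2 := ih τ (scl a τ) (coe_scl a τ)
    have h3 : Rel A (jf (scl a τ)) (jf τ') p := by
      rw [h1]; exact Rel.of_eval p (modPoly_jf p _)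
    have h4 : Rel A (jf τ') (jf (scl a τ)) p := by
      rw [h1]; exact Rel.of_eval p (modPoly_jf' p _)
    refine ⟨?_, h4.trans h2.2⟩
    rw [mul_comm]
    exact h2.1.trans h3

/-- `j(τ + b) = j(τ)`. -/
theorem jf_add_int (τ τ' : ℍ) (b : ℤ) (h : (τ' : ℂ) = τ + b) : jf τ' = jf τ := by
  have h1 : τ' = ModularGroup.T ^ b • τ := by
    apply UpperHalfPlane.ext
    rw [UpperHalfPlane.modular_T_zpow_smul, h]
    simp [add_comm]
  rw [h1, jf_smul]

/-- The chain for an upper triangular matrix `[a, b; 0, d]` with `a, d > 0`. -/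
theorem rel_tri (a d : ℕ) (b : ℤ) (τ τ' : ℍ) (h : (τ' : ℂ) * d = a * (τ : ℂ) + b) (hd : d ≠ 0) :
    Rel A (jf τ) (jf τ') (a * d) := by
  have ha : a ≠ 0 := by
    rintro rfl
    have h1 := τ'.im_pos
    have h2 : ((τ' : ℂ) * d).im = 0 := by rw [h]; simp
    have h3 : ((τ' : ℂ) * d).im = τ'.im * d := by simp
    rw [h3] at h2
    rcases mul_eq_zero.mp h2 with h4 | h4
    · exact h1.ne' h4
    · exact hd (by exact_mod_cast h4)
  have : NeZero a := ⟨ha⟩
  have : NeZero d := ⟨hd⟩
  have h1 := (rel_scale A a τ (scl a τ) (coe_scl a τ)).1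
  have h2 := (rel_scale A d τ' (scl d τ') (coe_scl d τ')).2
  have h3 : jf (scl d τ') = jf (scl a τ) := jf_add_int _ _ b (by
    rw [coe_scl, coe_scl, ← h]; ring)
  rw [h3] at h2
  exact h1.trans h2

/-- The chain for an integral matrix `[p, q; s, t]` of positive determinant. -/
theorem rel_matrix (p q s t : ℤ) (hdet : 0 < p * t - q * s) (τ τ' : ℍ)
    (h : (τ' : ℂ) * (s * τ + t) = p * τ + q) : Rel A (jf τ) (jf τ') (p * t - q * s).toNat := by
  have hg : 0 < Int.gcd p s := by
    rw [Int.gcd_pos_iff]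
    by_contra! h0
    rw [h0.1, h0.2] at hdet
    simp at hdet
  set g := Int.gcd p s with hgd
  obtain ⟨p', hp⟩ : (g : ℤ) ∣ p := Int.gcd_dvd_left ..
  obtain ⟨s', hs⟩ : (g : ℤ) ∣ s := Int.gcd_dvd_right ..
  have hbez : (g : ℤ) = p * Int.gcdA p s + s * Int.gcdB p s := Int.gcd_eq_gcd_ab p s
  set x := Int.gcdA p s
  set y := Int.gcdB p s
  have hg0 : (g : ℤ) ≠ 0 := by exact_mod_cast hg.ne'
  have hdet1 : x * p' - y * (-s') = 1 := by
    apply mul_left_cancel₀ hg0
    linear_combination (-1 : ℤ) * hbez - x * hp - y * hs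
  have hd : 0 < p' * t - s' * q := by
    have h1 : (g : ℤ) * (p' * t - s' * q) = p * t - q * s := by rw [hp, hs]; ring
    rw [← h1] at hdet
    exact (mul_pos_iff_of_pos_left (by exact_mod_cast hg)).mp hdet
  let γ : SL(2, ℤ) := ⟨!![x, y; -s', p'], by rw [Matrix.det_fin_two_of]; exact hdet1⟩
  obtain ⟨d, hdd⟩ : ∃ d : ℕ, (d : ℤ) = p' * t - s' * q := ⟨(p' * t - s' * q).toNat, by
    rw [Int.toNat_of_nonneg hd.le]⟩
  have hd0 : d ≠ 0 := by rintro rfl; simp at hdd; omega
  have hn : (p * t - q * s).toNat = g * d := by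
    have h1 : ((g * d : ℕ) : ℤ) = p * t - q * s := by
      push_cast
      rw [hdd, hp, hs]; ring
    rw [← h1, Int.toNat_natCast]
  have hco : ((γ • τ' : ℍ) : ℂ) = ((x : ℂ) * τ' + y) / (((-s' : ℤ) : ℂ) * τ' + (p' : ℤ)) := by
    rw [UpperHalfPlane.coe_specialLinearGroup_apply]
    simp [γ]
  have hdC : (d : ℂ) = p' * t - s' * q := by exact_mod_cast congrArg (Int.cast : ℤ → ℂ) hdd
  have hpC : (p : ℂ) = g * p' := by exact_mod_cast congrArg (Int.cast : ℤ → ℂ) hp
  have hsC : (s : ℂ) = g * s' := by exact_mod_cast congrArg (Int.cast : ℤ → ℂ) hs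
  have hbC : (g : ℂ) = p * x + s * y := by exact_mod_cast congrArg (Int.cast : ℤ → ℂ) hbez
  have hED : (((-s' : ℤ) : ℂ) * τ' + (p' : ℤ)) * (s * τ + t) = d := by
    push_cast
    rw [hdC]
    linear_combination (-(s' : ℂ)) * h - (s' * τ : ℂ) * hpC + (p' * τ : ℂ) * hsC
  have hE : ((-s' : ℤ) : ℂ) * τ' + (p' : ℤ) ≠ 0 := by
    intro h0
    rw [h0, zero_mul] at hED
    exact hd0 (by exact_mod_cast hED.symm)
  have key : ((γ • τ' : ℍ) : ℂ) * d = (g : ℕ) * (τ : ℂ) + (x * q + y * t : ℤ) := by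
    rw [hco, ← hED, ← mul_assoc, div_mul_cancel₀ _ hE]
    push_cast
    linear_combination (x : ℂ) * h - (τ : ℂ) * hbC
  rw [hn]
  have h2 := rel_tri A g d (x * q + y * t) τ (γ • τ') key hd0
  rwa [jf_smul] at h2

end chain

section main

/-- An element of a field lying in all valuation subrings which contain the subring `R` is integral
over `R`. -/
theorem isIntegral_of_forall_valuationSubring {R K : Type*} [CommRing R] [Field K] [Algebra R K]
    (z : K) (h : ∀ A : ValuationSubring K, (∀ a : R, algebraMap R K a ∈ A) → z ∈ A) :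
    IsIntegral R z := by
  by_contra hcon
  let S : Subring K := (integralClosure R K).toSubring
  have : IsIntegrallyClosedIn S K := by
    rw [Subring.isIntegrallyClosedIn_iff]
    intro y hy
    exact isIntegral_trans (A := integralClosure R K) y hy
  obtain ⟨W, hSW, hW⟩ := Subring.exists_le_valuationSubring_of_isIntegrallyClosedIn
    (R := S) (x := z) hcon
  exact hW (h W fun a => hSW (isIntegral_algebraMap))

/-- The modular `j`-invariant `E₄ ^ 3 / Δ`. -/
def j (τ : ℍ) : ℂ := ModularForm.E₄ τ ^ 3 / ModularForm.discriminant τ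

theorem j_eq_jf (τ : ℍ) : j τ = jf τ := by
  rw [j, jf, e4, dl, div_eq_mul_inv]

/-- `j` is invariant under `SL₂(ℤ)`. -/
theorem j_smul (γ : SL(2, ℤ)) (τ : ℍ) : j (γ • τ) = j τ := by
  rw [j_eq_jf, j_eq_jf, jf_smul]

/-- **Integrality of isogenous `j`-invariants**: if `τ' = (pτ + q)/(sτ + t)` for an integral matrix of
positive determinant, then `j(τ')` is integral over `ℤ[j(τ)]`. -/
theorem isIntegral_j_of_matrix (p q s t : ℤ) (hdet : 0 < p * t - q * s) (τ τ' : ℍ)
    (h : (τ' : ℂ) * (s * τ + t) = p * τ + q) :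
    IsIntegral (Algebra.adjoin ℤ {j τ}) (j τ') := by
  refine isIntegral_of_forall_valuationSubring _ fun A hA => ?_
  have h1 : j τ ∈ A := hA ⟨j τ, Algebra.self_mem_adjoin_singleton ℤ (j τ)⟩
  by_contra h2
  have h3 : ((τ : ℍ) : ℂ) * (((-s : ℤ) : ℂ) * τ' + (p : ℤ)) = ((t : ℤ) : ℂ) * τ' + ((-q : ℤ) : ℂ) := by
    push_cast
    linear_combination -h
  have h4 := rel_matrix A t (-q) (-s) p (by linarith) τ' τ h3
  rw [← j_eq_jf, ← j_eq_jf] at h4
  exact (h4 h2).1 h1

/-- A number fixed by an integral matrix of positive non-square determinant has integral `j`. -/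
theorem isIntegral_j_of_fixed (p q s t : ℤ) (hdet : 0 < p * t - q * s)
    (hsq : ¬ IsSquare (p * t - q * s)) (τ : ℍ) (h : (τ : ℂ) * (s * τ + t) = p * τ + q) :
    IsIntegral ℤ (j τ) := by
  refine isIntegral_of_forall_valuationSubring _ fun A _ => ?_
  rw [j_eq_jf]
  refine mem_of_rel_self ?_ (rel_matrix A p q s t hdet τ τ h)
  rintro ⟨a, ha⟩
  refine hsq ⟨a, ?_⟩
  rw [← Int.toNat_of_nonneg hdet.le, ha]
  push_cast
  rfl

/-- **Singular moduli are algebraic integers**: if `τ ∈ ℍ` satisfies `a τ² + b τ + c = 0` with integers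
`a ≠ 0, b, c`, then `j(τ)` is an algebraic integer. -/
theorem isIntegral_j_of_quadratic (τ : ℍ) (a b c : ℤ) (ha : a ≠ 0)
    (h : (a : ℂ) * (τ : ℂ) ^ 2 + b * τ + c = 0) : IsIntegral ℤ (j τ) := by
  have hdisc : 0 < 4 * a * c - b ^ 2 := by
    have him := τ.im_pos
    have h1 := congrArg Complex.re h
    have h2 := congrArg Complex.im h
    simp [pow_two] at h1 h2
    have h3 : 2 * (a : ℝ) * τ.re + b = 0 := by
      have h4 : τ.im * (2 * (a : ℝ) * τ.re + b) = 0 := by linear_combination h2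
      exact (mul_eq_zero.mp h4).resolve_left him.ne'
    have h5 : ((4 * a * c - b ^ 2 : ℤ) : ℝ) = 4 * (a : ℝ) ^ 2 * τ.im ^ 2 := by
      push_cast
      linear_combination (4 * (a : ℝ)) * h1 - (2 * (a : ℝ) * τ.re + b) * h3
    have h6 : (0 : ℝ) < 4 * (a : ℝ) ^ 2 * τ.im ^ 2 := by
      have : (0 : ℝ) < (a : ℝ) ^ 2 := by
        have : (a : ℝ) ≠ 0 := by exact_mod_cast ha
        positivity
      positivity
    rw [← h5] at h6
    exact_mod_cast h6
  set D := 4 * a * c - b ^ 2 with hD
  obtain ⟨m, hm⟩ : ∃ m : ℤ, D ≤ 2 * m - b := ⟨D + |b|, by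
    have := le_abs_self b
    have := abs_nonneg b
    linarith⟩
  have hn4 : 4 * ((m - b) * m - -c * a) = (2 * m - b) ^ 2 + D := by rw [hD]; ring
  refine isIntegral_j_of_fixed (m - b) (-c) a m ?_ ?_ τ ?_
  · nlinarith [sq_nonneg (2 * m - b)]
  · rintro ⟨s, hs⟩
    rw [hs] at hn4
    have h1 : (2 * |s|) ^ 2 = (2 * m - b) ^ 2 + D := by
      rw [mul_pow, sq_abs]; linarith
    have h2 : 2 * m - b < 2 * |s| := by
      nlinarith [abs_nonneg s]
    nlinarith [abs_nonneg s]
  · push_cast
    linear_combination h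

end main

end Fermat.Agent.Cor.CM
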