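import Mathlib
import Fermat.Agent.H18_Ramanujan
import Fermat.Agent.MainConductor
import Fermat.Agent.Cor.SingularModuli

/-!
# Semistable elliptic curves over `ℚ` have no complex multiplication

Let `W` be a semistable elliptic curve over `ℚ` (an integral Weierstrass equation with `Δ ≠ 0` which is minimal and
semistable at all primes).

* `not_disc_dvd`: `Δ` does not divide `c₄ ^ 3`, i.e. the `j`-invariant of `W` is not an integer: there is no elliptic
  curve with good reduction everywhere (`Main.natAbs_disc_ne_one`), and at a bad prime `q` the `j`-invariant has a pole;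
* `j_ne_of_quadratic`: the `j`-invariant of `W` is not the value `j(τ)` at a point `τ` which is quadratic over `ℚ`, since
  these values are algebraic integers (`Fermat/Agent/Cor/SingularModuli.lean`);
* `noCM`: there is `τ` in the upper half plane with `j(τ) = j(W)`, and for every such `τ` the only complex numbers
  `α` with `α (ℤ τ + ℤ) ⊆ ℤ τ + ℤ` are the integers: **`W` has no complex multiplication**;
* `noCM_isogenous`: the same for all lattices `ℤ τ' + ℤ` which are commensurable with `ℤ τ + ℤ` up to homothety.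

This file is not used by any of the statement files.
-/

set_option autoImplicit false

noncomputable section

namespace Fermat.Agent.Cor.NoCM

open UpperHalfPlane WeierstrassCurve

variable {W : WeierstrassCurve ℤ}

/-- The `j`-invariant of a semistable elliptic curve over `ℚ` is not an integer. -/
theorem not_disc_dvd (hW : W.IsSemistableModel) : ¬ W.Δ ∣ W.c₄ ^ 3 := by
  intro h
  obtain ⟨q, hq, hqΔ⟩ := Nat.exists_prime_and_dvd (Main.natAbs_disc_ne_one W)
  have h1 : (q : ℤ) ∣ W.Δ := Int.natCast_dvd.mpr hqΔ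
  exact hW q hq h1 ((Nat.prime_iff_prime_int.mp hq).dvd_of_dvd_pow (h1.trans h))

/-- the `j`-invariant of `W` as a complex number -/
def jW (W : WeierstrassCurve ℤ) : ℂ := ((W.c₄ : ℂ)) ^ 3 / (W.Δ : ℂ)

theorem jW_eq (W : WeierstrassCurve ℤ) :
    jW W = (((W.c₄ : ℚ) ^ 3 / (W.Δ : ℚ) : ℚ) : ℂ) := by
  rw [jW]; push_cast; rfl

/-- The `j`-invariant of a semistable elliptic curve over `ℚ` is not an algebraic integer. -/
theorem not_isIntegral_jW (hΔ : W.Δ ≠ 0) (hW : W.IsSemistableModel) : ¬ _root_.IsIntegral ℤ (jW W) := by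
  intro h
  rw [jW_eq W] at h
  have h1 : _root_.IsIntegral ℤ ((W.c₄ : ℚ) ^ 3 / (W.Δ : ℚ)) := by
    rw [← isIntegral_algebraMap_iff (algebraMap ℚ ℂ).injective]
    simpa using h
  obtain ⟨m, hm⟩ := IsIntegrallyClosed.isIntegral_iff.mp h1
  have hΔ' : (W.Δ : ℚ) ≠ 0 := by exact_mod_cast hΔ
  rw [eq_div_iff hΔ'] at hm
  refine not_disc_dvd hW ⟨m, ?_⟩
  have h2 : ((m * W.Δ : ℤ) : ℚ) = ((W.c₄ ^ 3 : ℤ) : ℚ) := by
    push_cast
    simpa using hm
  have h3 : m * W.Δ = W.c₄ ^ 3 := by exact_mod_cast h2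
  rw [← h3, mul_comm]

/-- The `j`-invariant of a semistable elliptic curve over `ℚ` is not a singular modulus. -/
theorem j_ne_of_quadratic (hΔ : W.Δ ≠ 0) (hW : W.IsSemistableModel) (τ : ℍ) {a b c : ℤ}
    (ha : a ≠ 0) (h : (a : ℂ) * (τ : ℂ) ^ 2 + b * τ + c = 0) : CM.j τ ≠ jW W := fun hj =>
  not_isIntegral_jW hΔ hW (hj ▸ CM.isIntegral_j_of_quadratic τ a b c ha h)

/-- `τ ∈ ℍ` is not a rational number -/
lemma int_relation {τ : ℍ} {m n : ℤ} (h : (m : ℂ) * (τ : ℂ) + n = 0) : m = 0 ∧ n = 0 := by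
  have h1 := congrArg Complex.im h
  simp at h1
  rcases h1 with h1 | h1
  · refine ⟨h1, ?_⟩
    rw [h1] at h
    simpa using h
  · exact absurd h1 τ.im_pos.ne'

/-- Multipliers of the lattice `ℤ τ + ℤ`, if `τ` is not quadratic over `ℚ` -/
theorem exists_int_of_mul_mem {τ : ℍ}
    (hτ : ∀ a b c : ℤ, a ≠ 0 → (a : ℂ) * (τ : ℂ) ^ 2 + b * τ + c ≠ 0) {α : ℂ} {s t p q : ℤ}
    (h1 : α = s * (τ : ℂ) + t) (h2 : α * (τ : ℂ) = p * (τ : ℂ) + q) : α = (t : ℤ) := by
  have h3 : (s : ℂ) * (τ : ℂ) ^ 2 + ((t - p : ℤ) : ℂ) * τ + ((-q : ℤ) : ℂ) = 0 := by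
    rw [h1] at h2
    push_cast
    linear_combination h2
  have hs : s = 0 := by
    by_contra hs
    exact hτ _ _ _ hs h3
  rw [h1, hs]
  simp

/-- **A semistable elliptic curve over `ℚ` has no complex multiplication**: there is `τ` in the upper half plane with
`j(τ) = j(W)`, and for every such `τ` the complex numbers `α` with `α (ℤ τ + ℤ) ⊆ ℤ τ + ℤ` are the integers. -/
theorem noCM (hΔ : W.Δ ≠ 0) (hW : W.IsSemistableModel) :
    (∃ τ : ℍ, CM.j τ = jW W) ∧
    ∀ τ : ℍ, CM.j τ = jW W → ∀ α : ℂ,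
      ((∃ s t : ℤ, α = s * (τ : ℂ) + t) ∧ ∃ p q : ℤ, α * (τ : ℂ) = p * (τ : ℂ) + q) ↔
        ∃ n : ℤ, α = n := by
  refine ⟨Fermat.Agent.H18.jfun_surjective (jW W), fun τ hτ α => ⟨?_, ?_⟩⟩
  · rintro ⟨⟨s, t, h1⟩, p, q, h2⟩
    exact ⟨t, exists_int_of_mul_mem (fun a b c ha h => j_ne_of_quadratic hΔ hW τ ha h hτ) h1 h2⟩
  · rintro ⟨n, rfl⟩
    exact ⟨⟨0, n, by simp⟩, n, 0, by simp⟩

/-- The lattices `ℤ τ' + ℤ` isogenous to the lattice of `W` have no complex multiplication either. -/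
theorem noCM_isogenous (hΔ : W.Δ ≠ 0) (hW : W.IsSemistableModel) {τ τ' : ℍ}
    (hτ : CM.j τ = jW W) {p q s t : ℤ} (hdet : 0 < p * t - q * s)
    (h : (τ' : ℂ) * (s * τ + t) = p * τ + q) (α : ℂ) :
    ((∃ s t : ℤ, α = s * (τ' : ℂ) + t) ∧ ∃ p q : ℤ, α * (τ' : ℂ) = p * (τ' : ℂ) + q) ↔
        ∃ n : ℤ, α = n := by
  refine ⟨?_, ?_⟩
  · rintro ⟨⟨s', t', h1⟩, p', q', h2⟩
    refine ⟨t', exists_int_of_mul_mem (fun a b c ha h' => ?_) h1 h2⟩
    -- `τ` is quadratic as well
    have h3 : (a : ℂ) * (p * τ + q) ^ 2 + b * (p * τ + q) * (s * τ + t) +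
        c * (s * τ + t) ^ 2 = 0 := by
      rw [← h]
      linear_combination (s * (τ : ℂ) + t) ^ 2 * h'
    have h4 : ((a * p ^ 2 + b * p * s + c * s ^ 2 : ℤ) : ℂ) * (τ : ℂ) ^ 2 +
        ((2 * a * p * q + b * (p * t + q * s) + 2 * c * s * t : ℤ) : ℂ) * τ +
        ((a * q ^ 2 + b * q * t + c * t ^ 2 : ℤ) : ℂ) = 0 := by
      push_cast
      linear_combination h3
    by_cases hA : a * p ^ 2 + b * p * s + c * s ^ 2 = 0
    · -- the quadratic form vanishes at `(p, s)`: impossible, as its discriminant is negative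
      have hdisc : 0 < 4 * a * c - b ^ 2 := by
        have him := τ'.im_pos
        have g1 := congrArg Complex.re h'
        have g2 := congrArg Complex.im h'
        simp [pow_two] at g1 g2
        have g3 : 2 * (a : ℝ) * τ'.re + b = 0 := by
          have g4 : τ'.im * (2 * (a : ℝ) * τ'.re + b) = 0 := by linear_combination g2
          exact (mul_eq_zero.mp g4).resolve_left him.ne'
        have g5 : ((4 * a * c - b ^ 2 : ℤ) : ℝ) = 4 * (a : ℝ) ^ 2 * τ'.im ^ 2 := by
          push_cast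
          linear_combination (4 * (a : ℝ)) * g1 - (2 * (a : ℝ) * τ'.re + b) * g3
        have g6 : (0 : ℝ) < 4 * (a : ℝ) ^ 2 * τ'.im ^ 2 := by
          have : (a : ℝ) ≠ 0 := by exact_mod_cast ha
          positivity
        rw [← g5] at g6
        exact_mod_cast g6
      have e1 : (2 * a * p + b * s) ^ 2 + (4 * a * c - b ^ 2) * s ^ 2 = 0 := by
        linear_combination 4 * a * hA
      have hs : s = 0 := by
        by_contra hs
        have : 0 < s ^ 2 := by positivity
        nlinarith [sq_nonneg (2 * a * p + b * s)]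
      have hp : p = 0 := by
        by_contra hp
        rw [hs] at e1
        have e2 : 2 * a * p = 0 := by
          have : (2 * a * p + b * 0) ^ 2 = 0 := by linarith
          have := pow_eq_zero_iff (two_ne_zero) |>.mp this
          linarith
        rcases mul_eq_zero.mp e2 with e3 | e3
        · exact ha (by omega)
        · exact hp e3
      rw [hs, hp] at hdet
      simp at hdet
    · exact j_ne_of_quadratic hΔ hW τ hA h4 hτ
  · rintro ⟨n, rfl⟩
    exact ⟨⟨0, n, by simp⟩, n, 0, by simp⟩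

end Fermat.Agent.Cor.NoCM
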