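import Fermat.Agent.Cor.FrobDense
import Fermat.Agent.Cor.RootsMod

/-!
# Primes without degree one primes above them

`infinite_no_deg_one` : let `E/K` be an extension of number fields of degree `> 1`.  There are infinitely
many primes `v` of `K` such that no prime `w` of `E` above `v` has the same norm as `v` (i.e. relative
degree one).
-/

set_option autoImplicit false
set_option linter.unusedSectionVars false
set_option linter.style.haveILetI false

open scoped Classical nonZeroDivisors Topology

namespace Fermat.Agent.Cor.Cheb

open NumberField Filter IsDedekindDomain Module Ideal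

noncomputable section

/-- **primes without primes of relative degree one above them** -/
theorem infinite_no_deg_one (K E : Type*) [Field K] [NumberField K] [Field E] [NumberField E]
    [Algebra K E] (hKE : 1 < finrank K E) :
    {v : HeightOneSpectrum (𝓞 K) | ∀ w : HeightOneSpectrum (𝓞 E),
      w.asIdeal.LiesOver v.asIdeal → absNorm w.asIdeal ≠ absNorm v.asIdeal}.Infinite := by
  obtain ⟨L, _, _, _, _⟩ := exists_galois_closure E
  letI : Algebra K L := ((algebraMap E L).comp (algebraMap K E)).toAlgebra
  haveI : IsScalarTower K E L := IsScalarTower.of_algebraMap_eq fun x => rfl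
  haveI : IsGalois K L := IsGalois.tower_top_of_isGalois ℚ K L
  haveI : IsGalois E L := IsGalois.tower_top_of_isGalois ℚ E L
  haveI : FiniteDimensional K L := Module.Finite.of_restrictScalars_finite ℚ K L
  haveI : FiniteDimensional E L := Module.Finite.of_restrictScalars_finite ℚ E L
  haveI : FiniteDimensional K E := Module.Finite.of_restrictScalars_finite ℚ K E
  haveI : Finite Gal(L/K) := inferInstance
  let r : Gal(L/E) →* Gal(L/K) := AlgEquiv.restrictScalarsHom K
  have hr : Function.Injective r := AlgEquiv.restrictScalarsHom_injective K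
  have hH : r.range ≠ ⊤ := by
    intro h
    have h1 : Nat.card Gal(L/E) = Nat.card Gal(L/K) := by
      refine Nat.card_congr (Equiv.ofBijective r ⟨hr, ?_⟩)
      rwa [← MonoidHom.range_eq_top]
    rw [IsGalois.card_aut_eq_finrank, IsGalois.card_aut_eq_finrank, ← finrank_mul_finrank K E L] at h1
    have h2 : 0 < finrank E L := finrank_pos
    have h3 : 1 = finrank K E := Nat.eq_of_mul_eq_mul_right h2 (by rw [one_mul]; exact h1)
    omega
  obtain ⟨g, hg⟩ := exists_not_mem_conj hH
  refine ((chebotarev_deg_one K L g).sdiff (finite_not_good (K := K) (L := L))).mono ?_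
  rintro v ⟨hv, hgood⟩ w hwv hN
  rw [Set.mem_ofPred_eq, not_not] at hgood
  have hf : Fr g v := hv.2
  obtain ⟨h, Q, hQ, hQo, hx⟩ := exists_Fr (L := L) w
  have hf' : Fr (r h) v := by
    refine ⟨Q, hQ, ?_, fun x => ?_⟩
    · exact LiesOver.trans Q w.asIdeal v.asIdeal
    · rw [← hN]
      exact hx x
  obtain ⟨c, hc⟩ := isConj_iff.mp (hf.isConj hgood hf')
  apply hg c⁻¹
  rw [inv_inv, hc]
  exact ⟨h, rfl⟩

end

end Fermat.Agent.Cor.Cheb
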