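import Fermat.Agent.Cor.HeckeSpec
import Fermat.Agent.Cor.SemistableTable

/-!
# Hecke algebras which are not reduced

* `not_isReduced_of_dvd`: let `f` be a normalised eigenform of weight two and level `M`, `p` a prime number with `p ∣ M`
  and `N` a multiple of `M p²`. Then the Hecke algebra of weight two and level `N` (generated by all `T_ℓ` and `U_ℓ`) is
  not reduced;
* `not_isReduced_of_not_dvd`: the same if `p ∤ M` and `N` is a multiple of `M p³`;
* `not_isReduced_56`, `not_isReduced_88`: the levels `56` and `88`.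

This file is not used by any of the statement files.
-/

set_option autoImplicit false

noncomputable section

namespace Fermat.Agent.Cor.NonReduced

open ModularCurve ModularFormClass CongruenceSubgroup Polynomial

section General

variable {N : ℕ} [NeZero N]

/-- the space of cusp forms -/
abbrev S2 (N : ℕ) := CuspForm (Gamma0 N) 2

theorem aeval_mem (u : CuspForm.heckeAlgebra N 2 ∅) (W : Submodule ℂ (S2 N))
    (hW : ∀ x ∈ W, (u : Module.End ℂ (S2 N)) x ∈ W) (P : ℤ[X]) :
    ∀ x ∈ W, ((aeval u P : CuspForm.heckeAlgebra N 2 ∅) : Module.End ℂ (S2 N)) x ∈ W := by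
  induction P using Polynomial.induction_on' with
  | add P Q hP hQ =>
    intro x hx
    rw [map_add]
    exact W.add_mem (hP x hx) (hQ x hx)
  | monomial n a =>
    intro x hx
    induction n generalizing x with
    | zero =>
      rw [monomial_zero_left, aeval_C]
      have h1 : ((algebraMap ℤ (CuspForm.heckeAlgebra N 2 ∅) a :
        CuspForm.heckeAlgebra N 2 ∅) : Module.End ℂ (S2 N)) x = (a : ℂ) • x := by
        change (algebraMap ℤ (Module.End ℂ (S2 N)) a) x = _
        rw [Module.algebraMap_end_apply, Int.cast_smul_eq_zsmul]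
      rw [h1]
      exact W.smul_mem _ hx
    | succ n ih =>
      rw [← monomial_mul_X, map_mul, aeval_X]
      exact ih _ (hW x hx)

/-- **A criterion for nilpotent elements** -/
theorem not_isReduced_of (u : CuspForm.heckeAlgebra N 2 ∅) (W : Submodule ℂ (S2 N))
    (hW : ∀ x ∈ W, (u : Module.End ℂ (S2 N)) x ∈ W) (v : S2 N)
    (h1 : (u : Module.End ℂ (S2 N)) v ∉ W)
    (h2 : (u : Module.End ℂ (S2 N)) ((u : Module.End ℂ (S2 N)) v) ∈ W) :
    ¬ IsReduced (CuspForm.heckeAlgebra N 2 ∅) := by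
  intro hred
  obtain ⟨P, hP, hPu⟩ := Algebra.IsIntegral.isIntegral (R := ℤ) u
  obtain ⟨Q, hQ, hQ0⟩ := exists_eq_pow_rootMultiplicity_mul_and_not_dvd P hP.ne_zero 0
  rw [map_zero, sub_zero] at hQ hQ0
  have hc : Q.coeff 0 ≠ 0 := fun h => hQ0 (X_dvd_iff.mpr h)
  have hu : u ^ (P.rootMultiplicity 0) * aeval u Q = 0 := by
    have h3 : aeval u P = 0 := hPu
    rw [hQ, map_mul, map_pow, aeval_X] at h3
    exact h3
  have ht : u * aeval u Q = 0 := by
    apply hred.eq_zero
    refine ⟨P.rootMultiplicity 0 + 1, ?_⟩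
    calc (u * aeval u Q) ^ (P.rootMultiplicity 0 + 1) =
        u * (u ^ (P.rootMultiplicity 0) * aeval u Q) * (aeval u Q) ^ P.rootMultiplicity 0 := by ring
      _ = 0 := by rw [hu, mul_zero, zero_mul]
  have h3 : aeval u Q * u = (Q.coeff 0 : CuspForm.heckeAlgebra N 2 ∅) * u +
      aeval u Q.divX * (u * u) := by
    conv_lhs => rw [← divX_mul_X_add Q]
    rw [map_add, map_mul, aeval_X, aeval_C, algebraMap_int_eq, eq_intCast]
    ring
  rw [mul_comm, h3] at ht
  have h4 := congrArg (fun t : CuspForm.heckeAlgebra N 2 ∅ => (t : Module.End ℂ (S2 N)) v) ht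
  have h5 : (Q.coeff 0 : ℂ) • (u : Module.End ℂ (S2 N)) v +
      ((aeval u Q.divX : CuspForm.heckeAlgebra N 2 ∅) : Module.End ℂ (S2 N))
        ((u : Module.End ℂ (S2 N)) ((u : Module.End ℂ (S2 N)) v)) = 0 := by
    rw [Int.cast_smul_eq_zsmul]
    refine Eq.trans ?_ h4
    have h6 : (((Q.coeff 0 : CuspForm.heckeAlgebra N 2 ∅) * u : CuspForm.heckeAlgebra N 2 ∅) :
        Module.End ℂ (S2 N)) v = (Q.coeff 0) • (u : Module.End ℂ (S2 N)) v := by
      rw [← zsmul_eq_mul]
      rfl
    change _ = (((Q.coeff 0 : CuspForm.heckeAlgebra N 2 ∅) * u : CuspForm.heckeAlgebra N 2 ∅) :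
        Module.End ℂ (S2 N)) v + _
    rw [h6]
    rfl
  have h6 := aeval_mem u W hW Q.divX _ h2
  have h7 : (Q.coeff 0 : ℂ) • (u : Module.End ℂ (S2 N)) v ∈ W := by
    rw [eq_neg_of_add_eq_zero_left h5]
    exact W.neg_mem h6
  exact h1 ((W.smul_mem_iff (by exact_mod_cast hc)).mp h7)

end General

section Old

variable {M N p : ℕ} [NeZero M] [NeZero N] {f : CuspForm (Gamma0 M) 2}

/-- the form `f(d z)` -/
abbrev vv (f : CuspForm (Gamma0 M) 2) {d : ℕ} (hd : 0 < d) (h : M * d ∣ N) : S2 N :=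
  AL.degen (M := M) (N := N) (d := d) hd h 2 f

/-- the Hecke operator `U_p` -/
def U (hp : p.Prime) (hpN : p ∣ N) : CuspForm.heckeAlgebra N 2 ∅ :=
  CuspForm.heckeAlgebra.U (q := p) hp hpN (Set.notMem_empty _)

theorem qCoeff_U (hp : p.Prime) (hpN : p ∣ N) (g : S2 N) (n : ℕ) :
    qCoeff ((U hp hpN : Module.End ℂ (S2 N)) g) n = qCoeff g (n * p) := by
  rw [U, CuspForm.heckeAlgebra.coe_U, H22.qCoeff_heckeULin, ModularForm.coeffHeckeU_apply]

/-- `U_p f(p d z) = f(d z)` -/
theorem U_vv (hp : p.Prime) (hpN : p ∣ N) {d : ℕ} (hd : 0 < d) (hd' : 0 < p * d)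
    (h : M * d ∣ N) (h' : M * (p * d) ∣ N) :
    (U hp hpN : Module.End ℂ (S2 N)) (vv f hd' h') = vv f hd h := by
  refine H23.eq_of_qCoeff_eq fun n => ?_
  rw [qCoeff_U, AL.qCoeff_degen, AL.qCoeff_degen, mul_comm n p]
  by_cases hdn : d ∣ n
  · rw [if_pos hdn, if_pos (Nat.mul_dvd_mul_left p hdn), Nat.mul_div_mul_left _ _ hp.pos]
  · rw [if_neg hdn, if_neg fun h0 => hdn (Nat.dvd_of_mul_dvd_mul_left hp.pos h0)]

/-- **Old forms of level divisible by `M p²`, `p ∣ M`** -/
theorem not_isReduced_of_dvd (hf : f.IsNormalizedEigenform) (hp : p.Prime) (hpM : p ∣ M)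
    (h : M * p ^ 2 ∣ N) : ¬ IsReduced (CuspForm.heckeAlgebra N 2 ∅) := by
  have hpN : p ∣ N := (hpM.trans (Dvd.intro _ rfl)).trans h
  have e0 : M * 1 ∣ N := (Nat.mul_dvd_mul_left M (one_dvd _)).trans h
  have e1 : M * (p * 1) ∣ N := by
    refine (Nat.mul_dvd_mul_left M ?_).trans h
    rw [mul_one]
    exact dvd_pow_self p two_ne_zero
  have e2 : M * (p * (p * 1)) ∣ N := by
    rw [mul_one, ← pow_two]
    exact h
  have d1 : 0 < p * 1 := by rw [mul_one]; exact hp.pos
  have d2 : 0 < p * (p * 1) := Nat.mul_pos hp.pos d1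
  have hU0 : (U hp hpN : Module.End ℂ (S2 N)) (vv f one_pos e0) = qCoeff f p • vv f one_pos e0 := by
    refine H23.eq_of_qCoeff_eq fun n => ?_
    rw [qCoeff_U, H22.cusp_qCoeff_smul, AL.qCoeff_degen, AL.qCoeff_degen, if_pos (one_dvd _),
      if_pos (one_dvd _), Nat.div_one, Nat.div_one, ← H23.eigen_relation hf hp n, if_pos hpM]
    simp
  refine not_isReduced_of (U hp hpN) (Submodule.span ℂ {vv f one_pos e0}) ?_ (vv f d2 e2) ?_ ?_
  · intro x hx
    obtain ⟨c, rfl⟩ := Submodule.mem_span_singleton.mp hx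
    rw [map_smul, hU0]
    exact Submodule.smul_mem _ _ (Submodule.smul_mem _ _ (Submodule.mem_span_singleton_self _))
  · rw [U_vv hp hpN d1 d2 e1 e2]
    intro hx
    obtain ⟨c, hc⟩ := Submodule.mem_span_singleton.mp hx
    have k (n : ℕ) : c * qCoeff (vv f one_pos e0) n = qCoeff (vv f d1 e1) n := by
      rw [← hc, H22.cusp_qCoeff_smul]
    have k1 := k 1
    have kp := k p
    rw [AL.qCoeff_degen, AL.qCoeff_degen, if_pos (one_dvd _), Nat.div_one, hf.qCoeff_one, mul_one,
      if_neg (by rw [mul_one]; exact hp.one_lt.not_ge ∘ Nat.le_of_dvd one_pos)] at k1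
    rw [k1, zero_mul, AL.qCoeff_degen, mul_one, if_pos dvd_rfl, Nat.div_self hp.pos,
      hf.qCoeff_one] at kp
    exact zero_ne_one kp
  · rw [U_vv hp hpN d1 d2 e1 e2, U_vv hp hpN one_pos d1 e0 e1]
    exact Submodule.mem_span_singleton_self _

/-- **Old forms of level divisible by `M p³`, `p ∤ M`** -/
theorem not_isReduced_of_not_dvd (hf : f.IsNormalizedEigenform) (hp : p.Prime) (hpM : ¬ p ∣ M)
    (h : M * p ^ 3 ∣ N) : ¬ IsReduced (CuspForm.heckeAlgebra N 2 ∅) := by
  have hpN : p ∣ N := (((dvd_pow_self p three_ne_zero).trans (Dvd.intro_left _ rfl))).trans h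
  have e0 : M * 1 ∣ N := (Nat.mul_dvd_mul_left M (one_dvd _)).trans h
  have e1 : M * (p * 1) ∣ N := by
    refine (Nat.mul_dvd_mul_left M ?_).trans h
    rw [mul_one]
    exact dvd_pow_self p three_ne_zero
  have e2 : M * (p * (p * 1)) ∣ N := by
    refine (Nat.mul_dvd_mul_left M ?_).trans h
    rw [mul_one, ← pow_two]
    exact pow_dvd_pow p (by norm_num)
  have e3 : M * (p * (p * (p * 1))) ∣ N := by
    rw [show p * (p * (p * 1)) = p ^ 3 by ring]
    exact h
  have d1 : 0 < p * 1 := by rw [mul_one]; exact hp.pos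
  have d2 : 0 < p * (p * 1) := Nat.mul_pos hp.pos d1
  have d3 : 0 < p * (p * (p * 1)) := Nat.mul_pos hp.pos d2
  have hU0 : (U hp hpN : Module.End ℂ (S2 N)) (vv f one_pos e0) =
      qCoeff f p • vv f one_pos e0 + (-(p : ℂ)) • vv f d1 e1 := by
    refine H23.eq_of_qCoeff_eq fun n => ?_
    have h1 := H23.eigen_relation hf hp n
    rw [if_neg hpM] at h1
    rw [qCoeff_U, H22.cusp_qCoeff_add, H22.cusp_qCoeff_smul, H22.cusp_qCoeff_smul,
      AL.qCoeff_degen, AL.qCoeff_degen, AL.qCoeff_degen, if_pos (one_dvd _),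
      if_pos (one_dvd _), Nat.div_one, Nat.div_one, ← h1, mul_one]
    split_ifs <;> ring
  refine not_isReduced_of (U hp hpN) (Submodule.span ℂ {vv f one_pos e0, vv f d1 e1}) ?_
    (vv f d3 e3) ?_ ?_
  · intro x hx
    obtain ⟨a, b, rfl⟩ := Submodule.mem_span_pair.mp hx
    rw [map_add, map_smul, map_smul, hU0, U_vv hp hpN one_pos d1 e0 e1]
    have m0 : vv f one_pos e0 ∈ Submodule.span ℂ {vv f one_pos e0, vv f d1 e1} :=
      Submodule.subset_span (Set.mem_insert _ _)
    have m1 : vv f d1 e1 ∈ Submodule.span ℂ {vv f one_pos e0, vv f d1 e1} :=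
      Submodule.subset_span (Set.mem_insert_of_mem _ (Set.mem_singleton _))
    exact Submodule.add_mem _ (Submodule.smul_mem _ _ (Submodule.add_mem _
      (Submodule.smul_mem _ _ m0) (Submodule.smul_mem _ _ m1))) (Submodule.smul_mem _ _ m0)
  · rw [U_vv hp hpN d2 d3 e2 e3]
    intro hx
    obtain ⟨a, b, hc⟩ := Submodule.mem_span_pair.mp hx
    have k (n : ℕ) : a * qCoeff (vv f one_pos e0) n + b * qCoeff (vv f d1 e1) n =
        qCoeff (vv f d2 e2) n := by
      rw [← hc, H22.cusp_qCoeff_add, H22.cusp_qCoeff_smul, H22.cusp_qCoeff_smul]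
    have k1 := k 1
    have kp := k p
    have kpp := k (p * p)
    have hp1 : ¬ p ∣ 1 := hp.one_lt.not_ge ∘ Nat.le_of_dvd one_pos
    have hpp1 : ¬ p * p ∣ 1 := fun h0 => hp1 ((Dvd.intro _ rfl).trans h0)
    have hppp : ¬ p * p ∣ p := fun h0 => hp1 (by
      have h1 : p * p ∣ p * 1 := by rw [mul_one]; exact h0
      exact Nat.dvd_of_mul_dvd_mul_left hp.pos h1)
    simp only [mul_one, AL.qCoeff_degen, one_dvd, if_true, Nat.div_one, hf.qCoeff_one, if_neg hp1,
      if_neg hpp1, mul_zero, add_zero] at k1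
    simp only [k1, zero_mul, zero_add, mul_one, AL.qCoeff_degen, dvd_refl, if_true,
      Nat.div_self hp.pos, hf.qCoeff_one, if_neg hppp] at kp
    simp only [k1, kp, zero_mul, zero_add, mul_one, AL.qCoeff_degen, dvd_refl, if_true,
      Nat.div_self (Nat.mul_pos hp.pos hp.pos), hf.qCoeff_one] at kpp
    exact zero_ne_one kpp
  · rw [U_vv hp hpN d2 d3 e2 e3, U_vv hp hpN d1 d2 e1 e2]
    exact Submodule.subset_span (Set.mem_insert_of_mem _ (Set.mem_singleton _))

end Old

open Fermat.Agent.Main GenusOne in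
/-- the Hecke algebra of level `56` is not reduced -/
theorem not_isReduced_56 : ¬ IsReduced (CuspForm.heckeAlgebra 56 2 ∅) := by
  obtain ⟨f, hf, -⟩ := SmallConductor.exists_newform E14 (by rw [E14_Δ]; norm_num) E14_semistable
  have h := not_isReduced_of_dvd (N := 56) (p := 2) hf.1 Nat.prime_two
    (by rw [conductorLevel_E14]; norm_num) (by rw [conductorLevel_E14]; norm_num)
  exact h

open Fermat.Agent.Main GenusOne in
/-- the Hecke algebra of level `88` is not reduced -/
theorem not_isReduced_88 : ¬ IsReduced (CuspForm.heckeAlgebra 88 2 ∅) := by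
  obtain ⟨f, hf⟩ := SmallConductor.exists_eleven
  exact not_isReduced_of_not_dvd (M := 11) (N := 88) (p := 2) hf Nat.prime_two (by norm_num)
    (by norm_num)

end Fermat.Agent.Cor.NonReduced
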