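import Fermat.Agent.H05.ALJac
import Fermat.Agent.H11N.Occ
import Fermat.Agent.Q.Package

/-!
# `U_r + w_r = w_r α^* α_*` on `J₀(M r)`

For a prime `r` not dividing `M`, the Hecke operator `U_r` acts on the `r`-new part of the torsion of
`J₀(M r)` by `-w_r`. The proof is an identity of norms: `F(M r) ⊗ F(M r)` over `F(M)` is
`F(M r) × F(M r²)`.
-/

set_option autoImplicit false
set_option linter.style.haveILetI false
set_option linter.unusedSectionVars false
set_option maxSynthPendingDepth 3

noncomputable section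

open AlgebraicCurve ModularCurve

namespace Fermat.Agent.Cor.Bad

open Fermat.Agent.H05

section Norm

variable {F F₁ F₂ F' : Type*} [Field F] [Field F₁] [Field F₂] [Field F']
  [Algebra F F₂] [Algebra F₁ F']

/-- If `F₁ ⊗_F F₂ ≅ F₁ × F'` (the first component given by `θ : F₂ → F₁`), the norm of `F₂ / F` is
the product of `θ` and the norm of `F' / F₁`. -/
theorem norm_split [CharZero F] [CharZero F₁] (φ : F →+* F₁) (v : F₂ →+* F') (θ : F₂ →+* F₁)
    (hcomm : ∀ x, algebraMap F₁ F' (φ x) = v (algebraMap F F₂ x))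
    (hθ : ∀ x, θ (algebraMap F F₂ x) = φ x)
    [FiniteDimensional F F₂] [FiniteDimensional F₁ F']
    (hgen : ∀ S : Subfield F', (∀ x, algebraMap F₁ F' x ∈ S) → (∀ y, v y ∈ S) → S = ⊤)
    (hdeg : Module.finrank F₁ F' + 1 = Module.finrank F F₂) (h1 : Module.finrank F₁ F' ≠ 1)
    (f : F₂) :
    θ f * Algebra.norm F₁ (v f) = φ (Algebra.norm F f) := by
  classical
  let Ω := AlgebraicClosure F'
  letI : Algebra F Ω := ((algebraMap F₁ Ω).comp φ).toAlgebra
  have halg : ∀ x : F, algebraMap F Ω x = algebraMap F₁ Ω (φ x) := fun _ => rfl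
  have hinj : Function.Injective (algebraMap F₁ Ω) := (algebraMap F₁ Ω).injective
  let T : Option (F' →ₐ[F₁] Ω) → (F₂ →ₐ[F] Ω)
    | none => { (algebraMap F₁ Ω).comp θ with
        commutes' := fun x => by
          change algebraMap F₁ Ω (θ (algebraMap F F₂ x)) = algebraMap F Ω x
          rw [hθ, halg] }
    | some σ => { (σ : F' →+* Ω).comp v with
        commutes' := fun x => by
          change σ (v (algebraMap F F₂ x)) = algebraMap F Ω x
          rw [← hcomm, σ.commutes, halg] }
  have hT0 : ∀ y, T none y = algebraMap F₁ Ω (θ y) := fun _ => rfl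
  have hTs : ∀ (σ : F' →ₐ[F₁] Ω) y, T (some σ) y = σ (v y) := fun _ _ => rfl
  have hnone : ∀ σ : F' →ₐ[F₁] Ω, T none ≠ T (some σ) := by
    intro σ he
    apply h1
    have hS := hgen ((algebraMap F₁ Ω).fieldRange.comap (σ : F' →+* Ω))
      (fun x => ⟨x, (σ.commutes x).symm⟩)
      (fun y => ⟨θ y, by
        have h2 := congrArg (fun g : F₂ →ₐ[F] Ω => g y) he
        exact h2⟩)
    have hsurj : Function.Surjective (algebraMap F₁ F') := by
      intro x
      have hx : x ∈ (algebraMap F₁ Ω).fieldRange.comap (σ : F' →+* Ω) := by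
        rw [hS]; exact Subfield.mem_top x
      obtain ⟨y, hy⟩ := hx
      refine ⟨y, σ.toRingHom.injective ?_⟩
      exact (σ.commutes y).trans hy
    have e : F₁ ≃ₗ[F₁] F' := LinearEquiv.ofBijective (Algebra.linearMap F₁ F')
      ⟨(algebraMap F₁ F').injective, hsurj⟩
    rw [← e.finrank_eq, Module.finrank_self]
  have hTinj : Function.Injective T := by
    intro a b hab
    rcases a with _ | σ <;> rcases b with _ | τ
    · rfl
    · exact absurd hab (hnone τ)
    · exact absurd hab.symm (hnone σ)
    · congr 1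
      have hS := hgen (RingHom.eqLocusField (σ : F' →+* Ω) (τ : F' →+* Ω))
        (fun x => (σ.commutes x).trans (τ.commutes x).symm)
        (fun y => by
          have h2 := congrArg (fun g : F₂ →ₐ[F] Ω => g y) hab
          exact h2)
      ext x
      have hx : x ∈ RingHom.eqLocusField (σ : F' →+* Ω) (τ : F' →+* Ω) := by
        rw [hS]; exact Subfield.mem_top x
      exact hx
  have hbij : Function.Bijective T := by
    rw [Fintype.bijective_iff_injective_and_card]
    refine ⟨hTinj, ?_⟩
    rw [Fintype.card_option, AlgHom.card, AlgHom.card, hdeg]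
  have e1 := Algebra.norm_eq_prod_embeddings F Ω f
  have e2 := Algebra.norm_eq_prod_embeddings F₁ Ω (v f)
  apply hinj
  rw [map_mul, e2, ← halg, e1, ← Fintype.prod_bijective T hbij (fun o => T o f) _ (fun _ => rfl),
    Fintype.prod_option, hT0]
  rfl

end Norm

section Along

variable {K F F₁ F₂ F' : Type*} [Field K] [Field F] [Field F₁] [Field F₂] [Field F']
  [Algebra K F] [Algebra K F₁] [Algebra K F₂] [Algebra K F']

theorem normAlong_split [CharZero K] (φ : F →ₐ[K] F₁) (ψ : F →ₐ[K] F₂) (u : F₁ →ₐ[K] F')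
    (v : F₂ →ₐ[K] F') (θ : F₂ →ₐ[K] F₁) (hcomm : u.comp φ = v.comp ψ) (hθ : θ.comp ψ = φ)
    (hψf : FiniteAlong K ψ) (huf : FiniteAlong K u)
    (hgen : ∀ S : Subfield F', (∀ x, u x ∈ S) → (∀ y, v y ∈ S) → S = ⊤)
    (hdeg : finrankAlong K u + 1 = finrankAlong K ψ) (h1 : finrankAlong K u ≠ 1) (f : F₂) :
    θ f * normAlong u (v f) = φ (normAlong ψ f) := by
  letI := algebraAlong ψ
  letI := algebraAlong u
  haveI : Module.Finite F F₂ := hψf
  haveI : Module.Finite F₁ F' := huf
  haveI : CharZero F := charZero_of_injective_algebraMap (algebraMap K F).injective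
  haveI : CharZero F₁ := charZero_of_injective_algebraMap (algebraMap K F₁).injective
  exact norm_split (φ : F →+* F₁) (v : F₂ →+* F') (θ : F₂ →+* F₁)
    (fun x => congrArg (fun g : F →ₐ[K] F' => g x) hcomm)
    (fun x => congrArg (fun g : F →ₐ[K] F₁ => g x) hθ) hgen hdeg h1 f

end Along

end Fermat.Agent.Cor.Bad
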