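import Mathlib
import Fermat.Agent.Cor.Ord27
import Fermat.Agent.Cor.TateForm
import Fermat.Agent.Cor.EulerRat

/-!
# No point of order nine on a curve with full rational 2-torsion

* `addOrderOf_ne_nine_of_full`: an elliptic curve over `ℚ` whose `2`-division polynomial has two
  distinct rational roots has no rational point of order `9`.

The relevant modular curve is `X₀(36) : y ^ 2 = x ^ 3 + 1`, whose rational points are known by
`Fermat.Agent.Cor.EulerRat.rat_points`.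

This file is not used by any of the statement files.
-/

set_option autoImplicit false

namespace Fermat.Agent.Cor.Ord18Full

open WeierstrassCurve WeierstrassCurve.Affine WeierstrassCurve.Affine.Point
open Fermat.Agent.H08 Fermat.Agent.Frob Fermat.Agent.Cor

/-- the algebra: `X₀(36)` -/
theorem final {a β t₁ t₂ : ℚ} (hβ : β ≠ 0) (h1 : 4 * t₁ ^ 3 + (a * t₁ + β ^ 3) ^ 2 = 0)
    (h2 : 4 * t₂ ^ 3 + (a * t₂ + β ^ 3) ^ 2 = 0) (hne : t₁ ≠ t₂) (hΔ : a ^ 3 ≠ 27 * β ^ 3) :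
    False := by
  have key : ∀ t : ℚ, 4 * t ^ 3 + (a * t + β ^ 3) ^ 2 = 0 →
      ∃ w : ℚ, w ≠ 0 ∧ β * w ^ 3 = 2 * β + a * w ∧ t = -(β / w) ^ 2 := by
    intro t ht
    have ht0 : t ≠ 0 := by
      rintro rfl
      have : (β ^ 3) ^ 2 = 0 := by linear_combination ht
      exact pow_ne_zero 2 (pow_ne_zero 3 hβ) this
    obtain ⟨y, hy⟩ : ∃ y, y = -(a * t + β ^ 3) / 2 := ⟨_, rfl⟩
    have hy2 : y ^ 2 = -t ^ 3 := by rw [hy]; linear_combination ht / 4
    have hy0 : y ≠ 0 := by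
      rintro h0
      rw [h0] at hy2
      have : t ^ 3 = 0 := by linear_combination hy2
      exact pow_ne_zero 3 ht0 this
    obtain ⟨u, hu⟩ : ∃ u, u = y / t := ⟨_, rfl⟩
    have hu0 : u ≠ 0 := by rw [hu]; exact div_ne_zero hy0 ht0
    have hu2 : u ^ 2 = -t := by
      rw [hu, div_pow, hy2]; field_simp
    have hyu : y = u * t := by rw [hu]; field_simp
    have hu3 : 2 * u ^ 3 + a * u ^ 2 = β ^ 3 := by
      have e : 2 * y + a * t + β ^ 3 = 0 := by rw [hy]; ring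
      rw [hyu] at e
      have ht' : t = -u ^ 2 := by linear_combination hu2
      rw [ht'] at e
      linear_combination -e
    refine ⟨β / u, div_ne_zero hβ hu0, ?_, ?_⟩
    · field_simp
      linear_combination -hu3
    · have e : β / (β / u) = u := by field_simp
      rw [e]
      linear_combination hu2
  obtain ⟨w₁, hw1, e1, f1⟩ := key t₁ h1
  obtain ⟨w₂, hw2, e2, f2⟩ := key t₂ h2
  have hw : w₁ - w₂ ≠ 0 := by
    intro h
    apply hne
    rw [f1, f2, sub_eq_zero.mp h]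
  have g1 : β * (w₁ ^ 2 + w₁ * w₂ + w₂ ^ 2) = a := by
    apply mul_left_cancel₀ hw
    linear_combination e1 - e2
  have g2 : w₁ * w₂ * (w₁ + w₂) = -2 := by
    apply mul_left_cancel₀ hβ
    rw [← g1] at e1
    linear_combination -e1
  have hs : w₁ + w₂ ≠ 0 := by
    intro h
    rw [h, mul_zero] at g2
    norm_num at g2
  have hcurve : ((w₁ - w₂) / (w₁ + w₂)) ^ 2 = (2 / (w₁ + w₂)) ^ 3 + 1 := by
    field_simp
    linear_combination (-4) * g2
  rcases EulerRat.rat_points hcurve with h | h | h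
  · have h3 : w₁ + w₂ = -2 := by
      rw [div_eq_iff hs] at h
      linarith
    rw [h3] at g2
    have h4 : (w₁ - w₂) ^ 2 = 0 := by
      have e : (w₁ - w₂) ^ 2 = (w₁ + w₂) ^ 2 - 4 * (w₁ * w₂) := by ring
      rw [e, h3]
      linear_combination 2 * g2
    exact hw (pow_eq_zero_iff two_ne_zero |>.mp h4)
  · rw [div_eq_iff hs] at h
    norm_num at h
  · have h3 : w₁ + w₂ = 1 := by
      rw [div_eq_iff hs] at h
      linarith
    rw [h3] at g2
    apply hΔ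
    have h4 : a = 3 * β := by
      rw [← g1]
      have e : w₁ ^ 2 + w₁ * w₂ + w₂ ^ 2 = (w₁ + w₂) ^ 2 - w₁ * w₂ := by ring
      rw [e, h3]
      linear_combination (-β) * g2
    rw [h4]; ring

/-- `a₃` is a cube -/
theorem a₃_cube {W : WeierstrassCurve.Affine ℚ} (h2 : W.a₂ = 0) (h4 : W.a₄ = 0) (h6 : W.a₆ = 0)
    {R : W.Point} (hne : ∀ n : ℕ, ¬ 9 ∣ n → n • R ≠ 0)
    (hx : px ((3 : ℕ) • R) = 0) (hy : py ((3 : ℕ) • R) = 0) : ∃ β : ℚ, W.a₃ = β ^ 3 := by
  have n1 : R ≠ 0 := by simpa using hne 1 (by norm_num)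
  have n2 := hne 2 (by norm_num)
  have n3 := hne 3 (by norm_num)
  have n5 := hne 5 (by norm_num)
  have t2 : R + R = (2 : ℕ) • R := (two_nsmul R).symm
  have t3 : R + (2 : ℕ) • R = (3 : ℕ) • R := (succ_nsmul' R 2).symm
  have c1 : 3 * (0 : ℚ) = 0 ^ 2 + W.a₁ * 0 - W.a₂ := by rw [h2]; ring
  have c2 : 3 * (0 : ℚ) ^ 2 = W.a₄ - 2 * 0 * 0 - W.a₁ * 0 - W.a₃ * 0 := by rw [h4]; ring
  have c3 : (0 : ℚ) ^ 3 = 0 ^ 2 + W.a₃ * 0 - W.a₆ := by rw [h6]; ring
  obtain ⟨u, hu⟩ := Ord27.fl_mul c1 c2 c3 n1 n1 (by rw [t2]; exact n2)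
  obtain ⟨w, hw⟩ := Ord27.fl_mul c1 c2 c3 n1 n2 (by rw [t3]; exact n3)
  have hn := Ord27.fl_neg c1 c2 c3 n2
  rw [t2] at hu
  rw [t3] at hw
  simp only [Ord27.fl, zero_mul, sub_zero] at hu hw hn
  rw [py_neg n3, hx, hy] at hw
  -- a point with `y = 0` is `3 R`
  have hzero : ∀ Q : W.Point, Q ≠ 0 → py Q = 0 → Q = (3 : ℕ) • R := by
    intro Q hQ h0
    have e := eqn_of_ne_zero hQ
    have e2 : px Q = 0 := by
      rw [h0, h2, h4, h6] at e
      have : px Q ^ 3 = 0 := by linear_combination -e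
      exact pow_eq_zero_iff (by norm_num) |>.mp this
    exact pt_ext hQ n3 (by rw [e2, hx]) (by rw [h0, hy])
  have hyR : py R ≠ 0 := by
    intro h0
    have h5 := hzero R n1 h0
    apply n2
    have e : (3 : ℕ) • R = R + (2 : ℕ) • R := t3.symm
    rw [e] at h5
    exact left_eq_add.mp h5
  have hy2R : py (-((2 : ℕ) • R)) ≠ 0 := by
    intro h0
    have h5 := hzero _ (neg_ne_zero.mpr n2) h0
    apply n5
    have e : (5 : ℕ) • R = (2 : ℕ) • R + (3 : ℕ) • R := by rw [← add_nsmul]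
    rw [e, ← h5, add_neg_cancel]
  have hy2R' : py ((2 : ℕ) • R) ≠ 0 := by
    intro h0
    have h5 := hzero _ n2 h0
    apply n1
    rw [← t3] at h5
    exact right_eq_add.mp h5
  have hx2R : px ((2 : ℕ) • R) ≠ 0 := by
    intro h0
    rw [h0] at hn
    exact mul_ne_zero hy2R' hy2R (by rw [hn]; ring)
  have hu0 : u ≠ 0 := by
    rintro rfl
    have : py R * py R * py (-((2 : ℕ) • R)) = 0 := by rw [hu]; ring
    exact mul_ne_zero (mul_ne_zero hyR hyR) hy2R this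
  refine ⟨w * u / (px ((2 : ℕ) • R) * py R), ?_⟩
  generalize px ((2 : ℕ) • R) = x at *
  generalize py ((2 : ℕ) • R) = y at *
  generalize py (-((2 : ℕ) • R)) = z at *
  generalize py R = r at *
  -- `r r z = u ^ 3`, `r y (- a₃) = w ^ 3`, `y z = - x ^ 3`
  rw [div_pow, eq_div_iff (pow_ne_zero 3 (mul_ne_zero hx2R hyR)), mul_pow, mul_pow, ← hu, ← hw]
  linear_combination (W.a₃ * r ^ 3) * hn

/-- **No elliptic curve over `ℚ` with full rational `2`-torsion has a rational point of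
order `9`.** -/
theorem addOrderOf_ne_nine_of_full {E : WeierstrassCurve ℚ} (hΔ : E.Δ ≠ 0) {t₁ t₂ : ℚ}
    (h1 : 4 * t₁ ^ 3 + E.b₂ * t₁ ^ 2 + 2 * E.b₄ * t₁ + E.b₆ = 0)
    (h2 : 4 * t₂ ^ 3 + E.b₂ * t₂ ^ 2 + 2 * E.b₄ * t₂ + E.b₆ = 0) (hne : t₁ ≠ t₂)
    (R : E.toAffine.Point) : addOrderOf R ≠ 9 := by
  intro hR
  have hmul : ∀ n : ℕ, ¬ 9 ∣ n → n • R ≠ 0 := by
    intro m hm h0
    rw [← hR] at hm
    exact hm (addOrderOf_dvd_iff_nsmul_eq_zero.2 h0)
  have h9 : (9 : ℕ) • R = 0 := by rw [← hR]; exact addOrderOf_nsmul_eq_zero R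
  obtain ⟨C, x, y, hxy, hP, hu, hr, ht, k3, k4, k6⟩ := TateForm.exists_change
    (P := (3 : ℕ) • R) (by rw [← mul_nsmul]; exact hmul _ (by norm_num))
  set e := vcEquiv (C := C) (W := E.toAffine) (W' := (C • E).toAffine) rfl with he
  obtain ⟨R', hR'⟩ := e.surjective R
  have hmul' : ∀ n : ℕ, ¬ 9 ∣ n → n • R' ≠ 0 := by
    intro m hm h0
    apply hmul m hm
    rw [← hR', ← map_nsmul, h0, _root_.map_zero]
  have n3 := hmul' 3 (by norm_num)
  have e3 : e ((3 : ℕ) • R') = Point.some x y hxy := by rw [map_nsmul, hR', hP]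
  have e3' : vcFun (C := C) (W := E.toAffine) (W' := (C • E).toAffine) rfl ((3 : ℕ) • R') =
      Point.some x y hxy := e3
  have hu1 : (C.u : ℚ) = 1 := by rw [hu]; rfl
  have hx : px ((3 : ℕ) • R') = 0 := by
    have h5 := px_vcFun (C := C) (W := E.toAffine) (W' := (C • E).toAffine) rfl n3
    rw [e3', vx, hr, hu1] at h5
    change x = _ at h5
    linarith
  have hy : py ((3 : ℕ) • R') = 0 := by
    have h5 := py_vcFun (C := C) (W := E.toAffine) (W' := (C • E).toAffine) rfl n3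
    rw [e3', vy, ht, hu1, hx] at h5
    change y = _ at h5
    linarith
  -- `a₂ = 0`
  have k2 : (C • E).a₂ = 0 := by
    have n6 := hmul' 6 (by norm_num)
    have h66 : (3 : ℕ) • R' + (3 : ℕ) • R' = (6 : ℕ) • R' := by rw [← add_nsmul]
    obtain ⟨m, n, -, -, -, q1, q2, -, -⟩ := Ord27.line_data n3 n3 (by rw [h66]; exact n6)
    have hneg : (3 : ℕ) • R' + (3 : ℕ) • R' = -((3 : ℕ) • R') := by
      rw [eq_neg_iff_add_eq_zero, ← add_nsmul, ← add_nsmul]
      apply e.injective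
      rw [map_nsmul, hR', _root_.map_zero]
      exact h9
    rw [hneg, px_neg, hx] at q2
    rw [hx, hy] at q1
    change m * (0 + 0 + (C • E).a₁ * 0 + (C • E).a₃) = 0 ^ 2 + 0 * 0 + 0 ^ 2 +
      (C • E).a₂ * (0 + 0) + (C • E).a₄ - (C • E).a₁ * 0 at q1
    change (0 : ℚ) + 0 + 0 = m ^ 2 + (C • E).a₁ * m - (C • E).a₂ at q2
    rw [k4] at q1
    have hm : m = 0 := by
      have : m * (C • E).a₃ = 0 := by linear_combination q1
      exact (mul_eq_zero.mp this).resolve_right k3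
    rw [hm] at q2
    linarith
  obtain ⟨β, hβ⟩ := a₃_cube (W := (C • E).toAffine) k2 k4 k6 hmul' hx hy
  change (C • E).a₃ = β ^ 3 at hβ
  have hβ0 : β ≠ 0 := by
    rintro rfl
    exact k3 (by rw [hβ]; norm_num)
  -- the roots
  have hroot : ∀ t : ℚ, 4 * t ^ 3 + E.b₂ * t ^ 2 + 2 * E.b₄ * t + E.b₆ = 0 →
      4 * (t - C.r) ^ 3 + ((C • E).a₁ * (t - C.r) + β ^ 3) ^ 2 = 0 := by
    intro t ht
    have b2 : (C • E).b₂ = E.b₂ + 12 * C.r := by
      rw [variableChange_b₂, hu]; simp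
    have b4 : (C • E).b₄ = E.b₄ + C.r * E.b₂ + 6 * C.r ^ 2 := by
      rw [variableChange_b₄, hu]; simp
    have b6 : (C • E).b₆ = E.b₆ + 2 * C.r * E.b₄ + C.r ^ 2 * E.b₂ + 4 * C.r ^ 3 := by
      rw [variableChange_b₆, hu]; simp
    have b2' : (C • E).b₂ = (C • E).a₁ ^ 2 := by rw [WeierstrassCurve.b₂, k2]; ring
    have b4' : (C • E).b₄ = (C • E).a₁ * β ^ 3 := by rw [WeierstrassCurve.b₄, k4, hβ]; ring
    have b6' : (C • E).b₆ = (β ^ 3) ^ 2 := by rw [WeierstrassCurve.b₆, k6, hβ]; ring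
    have e5 : 4 * (t - C.r) ^ 3 + ((C • E).a₁ * (t - C.r) + β ^ 3) ^ 2 =
        4 * (t - C.r) ^ 3 + (C • E).b₂ * (t - C.r) ^ 2 + 2 * (C • E).b₄ * (t - C.r) +
          (C • E).b₆ := by rw [b2', b4', b6']; ring
    rw [e5, b2, b4, b6]
    linear_combination ht
  refine final hβ0 (hroot t₁ h1) (hroot t₂ h2) (fun h => hne (by linarith)) ?_
  intro h27
  have hD : (C • E).Δ ≠ 0 := by
    rw [variableChange_Δ]
    exact mul_ne_zero (pow_ne_zero 12 (C.u⁻¹).ne_zero) hΔ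
  apply hD
  rw [WeierstrassCurve.Δ, WeierstrassCurve.b₈, WeierstrassCurve.b₂, WeierstrassCurve.b₄,
    WeierstrassCurve.b₆, k2, k4, k6, hβ]
  linear_combination β ^ 9 * h27

end Fermat.Agent.Cor.Ord18Full
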