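import Fermat.Agent.Cor.Unr

/-!
# Points of order `49` at a multiplicative prime

If `S` is a point of order `49` of a Weierstrass equation `W` over `ℤ`, fixed by Galois, and `7 S` reduces to the
node at the multiplicative prime `q`, then `49 ∣ v_q(Δ)`.  The proof is the one of `Cor/UnrNode.lean` for points of
prime order.  Not used by any of the statement files.
-/

set_option autoImplicit false

noncomputable section

namespace Fermat.Agent.Cor.Ord49

open WeierstrassCurve WeierstrassCurve.Affine WeierstrassCurve.Affine.Point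
open Fermat.Agent.H08 Fermat.Agent.H09 Fermat.Agent.Cor.Unr

section local_

variable {F : Type*} [Field F] [DecidableEq F] {Γ₀ : Type*} [LinearOrderedCommGroupWithZero Γ₀]
  {v : Valuation F Γ₀} {W : WeierstrassCurve.Affine F} {α β : F} {w : F → ℝ}

/-- The tent formula for a point `P` all of whose multiples reduce to the node, up to order `n`. -/
theorem tent (h : Nd v W α β) (hw : IsLogVal v w) {n : ℕ} (hn5 : 5 ≤ n) {P : W.Point}
    (hnr : ∀ m : ℕ, 1 ≤ m → m ≤ n - 1 → Nr v (m • P)) (hnP : n • P = 0) :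
    (∃ k : ℤ, n * w (px P) = k * w W.a₆) ∧
      ∀ m : ℕ, 1 ≤ m → m ≤ n - 1 → ∃ k : ℤ, w (px (m • P)) = |m * w (px P) - k * w W.a₆| := by
  have hP1 : Nr v P := by simpa using hnr 1 le_rfl (by omega)
  have h2P : Nr v (P + P) := by
    have := hnr 2 (by omega) (by omega)
    rwa [two_smul] at this
  set r : ℕ → ℝ := fun m => if m = 0 then 0 else w (px (m • P)) with hr
  have hr0 : r 0 = 0 := by simp [hr]
  have hrm : ∀ m, 1 ≤ m → r m = w (px (m • P)) := by
    intro m hm; simp [hr, show m ≠ 0 by omega]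
  have hr1 : r 1 = w (px P) := by rw [hrm 1 le_rfl, one_nsmul]
  obtain ⟨l1, l2⟩ := h.log_px hw hP1
  have hN : 0 < w W.a₆ / 2 := by linarith
  have h3 : v (px P) ^ 3 ≠ v W.a₆ := by
    intro h3
    have h4 := h.inE0_triple hw hP1 h2P h3
    refine (hnr 3 (by omega) (by omega)).one ?_
    have : (3 : ℕ) • P = P + P + P := by rw [succ_nsmul, two_smul]
    rw [this]; exact h4
  have c1 : ∀ m ≤ n - 1, 0 ≤ r m := by
    intro m hm
    by_cases hm0 : m = 0
    · rw [hm0, hr0]
    · rw [hrm m (by omega)]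
      exact (h.log_px hw (hnr m (by omega) hm)).1.le
  have c2 : ∀ m ≤ n - 1, r m ≤ w W.a₆ / 2 := by
    intro m hm
    by_cases hm0 : m = 0
    · rw [hm0, hr0]; exact hN.le
    · rw [hrm m (by omega)]
      have := (h.log_px hw (hnr m (by omega) hm)).2
      linarith
  have c3 : ∀ m, m + 2 ≤ n - 1 → r (m + 2) + r m =
      |r (m + 1) - r 1| + min (r (m + 1) + r 1) (2 * (w W.a₆ / 2) - (r (m + 1) + r 1)) := by
    intro m hm
    by_cases hm0 : m = 0
    · subst hm0
      rw [hr0, hrm 2 (by omega), two_smul, h.log_double hw hP1 h2P, zero_add, hr1, sub_self,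
        abs_zero, zero_add, add_zero]
      congr 1 <;> ring
    · rw [hrm (m + 2) (by omega), hrm m (by omega), hrm (m + 1) (by omega), hr1]
      have e1 : (m + 1) • P + P = (m + 2) • P := by rw [← succ_nsmul]
      have e2 : (m + 1) • P - P = m • P := by rw [succ_nsmul, add_sub_cancel_right]
      have a1 := hnr (m + 1) (by omega) (by omega)
      have a2 := hnr (m + 2) (by omega) (by omega)
      have a3 := hnr m (by omega) (by omega)
      have hne : w (px ((m + 1) • P)) ≠ w (px P) := by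
        intro he
        have hv : v (px P) = v (px ((m + 1) • P)) :=
          ((hw.eq_iff (h.px_ne_zero a1) (h.px_ne_zero hP1)).mpr he).symm
        rcases h.inE0_of_eq a1 hP1 hv.symm (by rw [← hv]; exact h3) with h5 | h5
        · rw [e2] at h5; exact a3.one h5
        · rw [e1] at h5; exact a2.one h5
      have := h.log_add hw a1 hP1 (by rw [e1]; exact a2) (by rw [e2]; exact a3) hne
      rw [e1, e2] at this
      rw [this]
      congr 2
      ring
  have key := tent_final hN hn5 (r := r) hr0 c1 c2 c3 (by rw [hr1]; exact l1)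
    (by rw [hr1]; linarith) ?_ ?_
  · constructor
    · obtain ⟨k, hk⟩ := key
      refine ⟨k, ?_⟩
      rw [hr1] at hk
      rw [hk]; ring
    · intro m h1 h2
      obtain ⟨k, hk⟩ := tent_recursion hN hr0 c1 c2 c3 m h2
      refine ⟨k, ?_⟩
      rw [hrm m h1, hr1] at hk
      rw [hk]
      congr 1
      ring
  · rw [hrm _ (by omega), hr1]
    have : (n - 1) • P = -P := by
      have e : (n - 1) • P + P = 0 := by rw [← succ_nsmul, show n - 1 + 1 = n by omega, hnP]
      exact eq_neg_of_add_eq_zero_left e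
    rw [this, px_neg]
  · rw [hrm _ (by omega), hrm 2 (by omega)]
    have : (n - 2) • P = -(2 • P) := by
      have e : (n - 2) • P + 2 • P = 0 := by
        rw [← add_nsmul, show n - 2 + 2 = n by omega, hnP]
      exact eq_neg_of_add_eq_zero_left e
    rw [this, px_neg]

theorem exists_mul_mod {m : ℕ} (hm : ¬ 49 ∣ m) : ∃ k : ℕ, (k * m) % 49 = 7 := by
  by_cases h7 : 7 ∣ m
  · obtain ⟨u, rfl⟩ := h7
    have hu : Nat.Coprime u 7 := by
      rw [Nat.coprime_comm, Nat.Prime.coprime_iff_not_dvd (by norm_num)]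
      rintro ⟨t, rfl⟩
      exact hm ⟨t, by ring⟩
    obtain ⟨k, -, hk⟩ := Nat.exists_mul_mod_eq_one_of_coprime hu (by norm_num)
    refine ⟨k, ?_⟩
    have e : k * (7 * u) = 7 * (u * k) := by ring
    rw [e]
    omega
  · have hu : Nat.Coprime m 49 := by
      have h1 : Nat.Coprime 7 m := (Nat.Prime.coprime_iff_not_dvd (by norm_num)).2 h7
      have h2 := (h1.pow_left 2).symm
      norm_num at h2
      exact h2
    obtain ⟨k, -, hk⟩ := Nat.exists_mul_mod_eq_one_of_coprime hu (by norm_num)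
    refine ⟨7 * k, ?_⟩
    have e : 7 * k * m = 7 * (m * k) := by ring
    rw [e]
    omega

/-- The multiples of a point of order `49` with `7 S` reducing to the node. -/
theorem nr_of (h : Nd v W α β) {S : W.Point} (h49 : (49 : ℕ) • S = 0)
    (h7 : ¬ InE0 v ((7 : ℕ) • S)) {m : ℕ} (hm : ¬ 49 ∣ m) : Nr v (m • S) := by
  have hone : ∀ m : ℕ, ¬ 49 ∣ m → ¬ InE0 v (m • S) := by
    intro m hm hE
    apply h7
    obtain ⟨k, hk⟩ := exists_mul_mod hm
    have e : k • (m • S) = (7 : ℕ) • S := by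
      rw [← mul_smul, ← Nat.div_add_mod (k * m) 49, hk, add_smul, mul_comm 49, mul_smul, h49,
        smul_zero, zero_add]
    rw [← e]
    have b4 : v W.b₄ < 1 := by rw [h.b₄_eq]; simp
    have b6 : v W.b₆ < 1 := by
      rw [h.b₆_eq]; exact v_mul_lt_one_right (v_ofNat_le_one v 4) h.a6
    have b8 : v W.b₈ < 1 := by
      rw [h.b₈_eq]; exact v_mul_lt_one_right h.b₂_eq.le h.a6
    exact hE.nsmul h.int b4 b6 b8 k
  refine ⟨hone m hm, ?_⟩
  have e : m • S + m • S = (2 * m) • S := by rw [two_mul, add_smul]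
  rw [e]
  exact hone _ (by omega)

/-- `49 w(x(S)) = k w(a₆)` with `k` prime to `7`. -/
theorem exists_k (h : Nd v W α β) (hw : IsLogVal v w) {S : W.Point} (h49 : (49 : ℕ) • S = 0)
    (h7 : ¬ InE0 v ((7 : ℕ) • S)) : ∃ k : ℤ, ¬ 7 ∣ k ∧ 49 * w (px S) = k * w W.a₆ := by
  have hnr : ∀ m : ℕ, 1 ≤ m → m ≤ 49 - 1 → Nr v (m • S) := fun m h1 h2 =>
    nr_of h h49 h7 (by omega)
  obtain ⟨⟨k, hk⟩, ht⟩ := tent h hw (n := 49) (by norm_num) hnr h49
  refine ⟨k, ?_, by exact_mod_cast hk⟩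
  rintro ⟨k', rfl⟩
  obtain ⟨m, hm⟩ := ht 7 (by norm_num) (by norm_num)
  obtain ⟨l1, l2⟩ := h.log_px hw (hnr 7 (by norm_num) (by norm_num))
  have ha : 0 < w W.a₆ := by linarith
  have e1 : ((7 : ℕ) : ℝ) * w (px S) = k' * w W.a₆ := by
    push_cast at hk ⊢
    linarith
  rw [hm, e1, ← sub_mul, abs_mul, abs_of_pos ha] at l1 l2
  have h3 : (0 : ℝ) < |(k' : ℝ) - m| := by
    by_contra hc
    have : |(k' : ℝ) - m| * w W.a₆ ≤ 0 := mul_nonpos_of_nonpos_of_nonneg (not_lt.1 hc) ha.le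
    linarith
  have h4 : 2 * |(k' : ℝ) - m| < 1 := by
    by_contra hc
    have h5 : 1 * w W.a₆ ≤ 2 * |(k' : ℝ) - m| * w W.a₆ :=
      mul_le_mul_of_nonneg_right (not_lt.1 hc) ha.le
    linarith
  have h5 : 0 < |k' - m| := by exact_mod_cast h3
  have h6 : 2 * |k' - m| < 1 := by exact_mod_cast h4
  omega

end local_

open Fermat.Agent.Ell Fermat.Agent.H16.Ram
open Fermat.Agent.CC (Qb GQ)

variable {W : WeierstrassCurve ℤ} {q : ℕ}

/-- **Points of order `49`**: if `7 S` reduces to the node at `q`, then `49 ∣ v_q(Δ)`. -/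
theorem dvd_of_order (hΔ : W.Δ ≠ 0) (hq : q.Prime) {A : ValuationSubring Qb}
    (hA : A.LiesOverPrime q) {r t α β : Qb} (h : NodeData A.valuation ((WQ W)⁄Qb) r t α β)
    {S : Pts (WQ W)} (h49 : (49 : ℕ) • S = 0) (hfix : ∀ σ : GQ, σ • S = S)
    (h7 : ¬ NodeE0 A.valuation r t ((7 : ℕ) • S)) : 49 ∣ padicValInt q W.Δ := by
  have := H51.isGalois_Qbar
  obtain ⟨w, hw⟩ := exists_isLogVal (L := Qb) hq hA
  have nd : Nd A.valuation (shiftCurve ((WQ W)⁄Qb) r t) α β := ⟨h.int_shift, h.slopes, h.a₆⟩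
  have hsm : ∀ n : ℕ, shiftPt ((WQ W)⁄Qb) r t (n • S) = n • shiftPt ((WQ W)⁄Qb) r t S :=
    fun n => map_nsmul (shiftHom ((WQ W)⁄Qb) r t) n S
  have h49' : (49 : ℕ) • shiftPt ((WQ W)⁄Qb) r t S = 0 := by
    rw [← hsm, h49]
    exact _root_.map_zero (shiftHom ((WQ W)⁄Qb) r t)
  have h7' : ¬ InE0 A.valuation ((7 : ℕ) • shiftPt ((WQ W)⁄Qb) r t S) := by
    rw [← hsm]; exact h7
  obtain ⟨k, hk7, hk⟩ := exists_k nd hw h49' h7'
  have hnr : Nr A.valuation (shiftPt ((WQ W)⁄Qb) r t S) := by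
    have := nr_of nd h49' h7' (m := 1) (by norm_num)
    rwa [one_smul] at this
  have hS0 : S ≠ 0 := by
    rintro rfl
    apply h7
    rw [nsmul_zero]
    exact NodeE0.zero
  have hx0 := nd.px_ne_zero hnr
  have epx : px (shiftPt ((WQ W)⁄Qb) r t S) = px S - r := px_shiftPt hS0
  rw [epx] at hk hx0
  have ha6 : (shiftCurve ((WQ W)⁄Qb) r t).a₆ ≠ 0 := h.slopes.a₆
  have va6 : A.valuation (shiftCurve ((WQ W)⁄Qb) r t).a₆ =
      A.valuation (q : Qb) ^ padicValInt q W.Δ := by
    rw [N4.val_a₆_eq_val_Δ h, ← map_WQ, map_Δ]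
    exact N4.val_intCast_eq_padicValInt hq hA hΔ
  have h1 : A.valuation ((px S - r) ^ 49) =
      A.valuation ((shiftCurve ((WQ W)⁄Qb) r t).a₆ ^ k) := by
    rw [hw.eq_iff (pow_ne_zero 49 hx0) (zpow_ne_zero k ha6), hw.pow hx0, hw.zpow ha6]
    exact_mod_cast hk
  have hf : ∀ σ ∈ A.inertiaSubgroupIn ℚ, σ (px S - r) = px S - r := by
    intro σ hσ
    have h5 : σ (px S) = px S := by rw [← H09.px_smul, hfix σ]
    obtain ⟨h6, -⟩ := node_fixed hσ h
    rw [map_sub, h5, h6]
  obtain ⟨n, hn⟩ := H12.exists_valuation_eq_zpow hq hA (px S - r) hx0 hf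
  rw [map_pow, map_zpow₀, va6, hn, ← zpow_natCast, ← zpow_mul, ← zpow_natCast, ← zpow_mul] at h1
  have h8 := zpow_inj' hq hA h1
  push_cast at h8
  have h9 : (49 : ℤ) ∣ (padicValInt q W.Δ : ℤ) * k := ⟨n, by linarith⟩
  have hc : IsCoprime (49 : ℤ) k := by
    have h10 : IsCoprime (7 : ℤ) k :=
      (Int.prime_iff_natAbs_prime.2 (by norm_num)).coprime_iff_not_dvd.2 hk7
    have h11 := h10.pow_left (m := 2)
    norm_num at h11
    exact h11
  exact_mod_cast hc.dvd_of_dvd_mul_right h9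

end Fermat.Agent.Cor.Ord49
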