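import Mathlib
import Fermat.Agent.Cor.Ord49

set_option autoImplicit false

/-!
# The 7-primary torsion of elliptic curves over `ℚ`
-/

namespace Fermat.Agent.Cor.Ord49Pow

open WeierstrassCurve WeierstrassCurve.Affine WeierstrassCurve.Affine.Point

variable {E : WeierstrassCurve.Affine ℚ}

/-- **The 7-primary torsion** of `E(ℚ)` is killed by 7, for every elliptic curve `E` over `ℚ`. -/
theorem seven_nsmul_eq_zero {k : ℕ} {Q : E.Point} (h : 7 ^ k • Q = 0) : 7 • Q = 0 := by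
  have h7 : Nat.Prime 7 := by norm_num
  obtain ⟨j, -, hj⟩ := (Nat.dvd_prime_pow h7).mp (addOrderOf_dvd_of_nsmul_eq_zero h)
  rcases Nat.lt_or_ge j 2 with hj2 | hj2
  · have h1 : addOrderOf Q ∣ 7 := by
      rw [hj]
      calc 7 ^ j ∣ 7 ^ 1 := pow_dvd_pow 7 (by omega)
        _ = 7 := pow_one 7
    exact addOrderOf_dvd_iff_nsmul_eq_zero.mp h1
  · exfalso
    obtain ⟨i, rfl⟩ := Nat.exists_eq_add_of_le hj2
    apply Ord49.addOrderOf_ne_fortynine (7 ^ i • Q)
    have hne : (7 : ℕ) ^ i ≠ 0 := pow_ne_zero _ (by norm_num)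
    rw [addOrderOf_nsmul' Q hne, hj, pow_add, Nat.gcd_mul_left_left, Nat.mul_div_cancel _
      (Nat.pos_of_ne_zero hne)]
    norm_num

/-- A rational torsion point has order not divisible by 49. -/
theorem not_dvd_addOrderOf {Q : E.Point} (hQ : addOrderOf Q ≠ 0) : ¬ 49 ∣ addOrderOf Q := by
  rintro ⟨m, hm⟩
  have hm0 : m ≠ 0 := by rintro rfl; exact hQ (by rw [hm, mul_zero])
  apply Ord49.addOrderOf_ne_fortynine (m • Q)
  rw [addOrderOf_nsmul' Q hm0, hm, Nat.gcd_mul_left_left, Nat.mul_div_cancel _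
    (Nat.pos_of_ne_zero hm0)]

end Fermat.Agent.Cor.Ord49Pow
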