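import Fermat.Agent.Cor.SerreEquations
import Fermat.Agent.Cor.H09Irr

/-!
# Serre's equations for all prime exponents `p ≥ 5`, `p ≠ 7, 13`

The irreducibility of the mod `11` representations of the Frey curves `E_{A,B}` (`Cor/H09Irr.lean`) adds the exponent
`11` to the theorems of `Cor/SerreEquations.lean`: for every prime `p ≥ 5`, `p ≠ 7, 13`, and `L = 3, 5`

* `x ^ p + y ^ p = L ^ α z ^ p` has no solutions in nonzero integers;
* `a b (a + b) = L ^ α m ^ p` has no solutions in nonzero integers `m` and coprime `a`, `b`; in particular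
  `n (n + 1) = L ^ α m ^ p` has no solutions in positive integers.

This file is not used by any of the statement files.
-/

set_option autoImplicit false

namespace Fermat.Agent.Cor.H11

/-- the Frey curves have irreducible mod `p` representation for all primes `p ≥ 5`, `p ≠ 7, 13` -/
theorem irrAB_of_ne {p : ℕ} (hp : p.Prime) (hp5 : 5 ≤ p) (hp7 : p ≠ 7) (hp13 : p ≠ 13) :
    IrrAB p := by
  by_cases h5 : p = 5
  · subst h5
    exact irrAB_five
  · have hp11 : 11 ≤ p := by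
      by_contra hlt
      interval_cases p
      · exact h5 rfl
      · exact absurd hp (by norm_num)
      · exact hp7 rfl
      · exact absurd hp (by norm_num)
      · exact absurd hp (by norm_num)
      · exact absurd hp (by norm_num)
    have : Fact p.Prime := ⟨hp⟩
    intro A B hcop hA hB h0 h2
    have hB' : (16 : ℤ) ∣ B := (by norm_num : (16 : ℤ) ∣ 32).trans hB
    exact Fermat.Agent.Cor.H09.irr' (W := FreyAB A B) rfl rfl rfl (four_a₂ hA hB')
      (sixteen_a₄ hB') hB' hcop h0 hp11 hp13 h2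

theorem noSol_of_ne {p L : ℕ} (hp : p.Prime) (hp5 : 5 ≤ p) (hp7 : p ≠ 7) (hp13 : p ≠ 13)
    (hL : L = 3 ∨ L = 5) : NoSol p L := by
  rcases hL with rfl | rfl
  · exact noSol_of_irr hp hp5 Nat.prime_three Fermat.Agent.Main.genus_six
      (irrAB_of_ne hp hp5 hp7 hp13)
  · exact noSol_of_irr hp hp5 Nat.prime_five Fermat.Agent.Main.genus_ten
      (irrAB_of_ne hp hp5 hp7 hp13)

/-- **Serre's equations**, symmetric form, for all primes `p ≥ 5`, `p ≠ 7, 13`. -/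
theorem serre_symmetric' {p L : ℕ} (hp : p.Prime) (hp5 : 5 ≤ p) (hp7 : p ≠ 7) (hp13 : p ≠ 13)
    (hL : L = 3 ∨ L = 5) (α β γ : ℕ) {x y z : ℤ} (hx : x ≠ 0) (hy : y ≠ 0) (hz : z ≠ 0) :
    (L : ℤ) ^ α * x ^ p + (L : ℤ) ^ β * y ^ p + (L : ℤ) ^ γ * z ^ p ≠ 0 :=
  serre_sym hp5 (by rcases hL with rfl | rfl <;> norm_num) (by rcases hL with rfl | rfl <;> norm_num)
    (noSol_of_ne hp hp5 hp7 hp13 hL) α β γ hx hy hz

/-- **Serre's theorem** for all primes `p ≥ 5`, `p ≠ 7, 13`, and `L = 3, 5`: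
`x ^ p + y ^ p = L ^ α z ^ p` has no solutions in nonzero integers. -/
theorem serre_equation' {p L : ℕ} (hp : p.Prime) (hp5 : 5 ≤ p) (hp7 : p ≠ 7) (hp13 : p ≠ 13)
    (hL : L = 3 ∨ L = 5) (α : ℕ) {x y z : ℤ} (hx : x ≠ 0) (hy : y ≠ 0) (hz : z ≠ 0) :
    x ^ p + y ^ p ≠ (L : ℤ) ^ α * z ^ p :=
  serre_eq hp hp5 (by rcases hL with rfl | rfl <;> norm_num)
    (by rcases hL with rfl | rfl <;> norm_num) (noSol_of_ne hp hp5 hp7 hp13 hL) α hx hy hz

/-- The same for all exponents `n` having a prime divisor `p ≥ 5`, `p ≠ 7, 13`. -/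
theorem serre_equation_exponent' {n p L : ℕ} (hp : p.Prime) (hpn : p ∣ n) (hp5 : 5 ≤ p)
    (hp7 : p ≠ 7) (hp13 : p ≠ 13) (hL : L = 3 ∨ L = 5) (α : ℕ) {x y z : ℤ} (hx : x ≠ 0)
    (hy : y ≠ 0) (hz : z ≠ 0) : x ^ n + y ^ n ≠ (L : ℤ) ^ α * z ^ n := by
  obtain ⟨k, rfl⟩ := hpn
  rw [mul_comm p k, pow_mul, pow_mul, pow_mul]
  exact serre_equation' hp hp5 hp7 hp13 hL α (pow_ne_zero _ hx) (pow_ne_zero _ hy)
    (pow_ne_zero _ hz)

/-- `a b (a + b) = L ^ α m ^ p` has no solutions with coprime `a`, `b` and nonzero `m`. -/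
theorem mul_add_ne_of {p L : ℕ} (hp5 : 5 ≤ p) (hL : L.Prime) (hL2 : L ≠ 2) (H : NoSol p L)
    {a b m : ℤ} (hab : IsCoprime a b) (hm : m ≠ 0) (α : ℕ) :
    a * b * (a + b) ≠ (L : ℤ) ^ α * m ^ p := by
  intro h
  have hL0 : (L : ℤ) ≠ 0 := by exact_mod_cast hL.ne_zero
  have h0 : a * b * (a + b) ≠ 0 := by
    rw [h]
    exact mul_ne_zero (pow_ne_zero _ hL0) (pow_ne_zero _ hm)
  have ha : a ≠ 0 := left_ne_zero_of_mul (left_ne_zero_of_mul h0)
  have hb : b ≠ 0 := right_ne_zero_of_mul (left_ne_zero_of_mul h0)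
  have hc : a + b ≠ 0 := right_ne_zero_of_mul h0
  refine false_of_sum hp5 hL2 H ha hb (neg_ne_zero.mpr hc) (by ring) fun ℓ hℓ hℓL => ?_
  have : Fact ℓ.Prime := ⟨hℓ⟩
  have hv := dvd_padicValInt_pow (p := p) hℓ hL hℓL α hm
  rw [← h, padicValInt.mul (mul_ne_zero ha hb) hc, padicValInt.mul ha hb] at hv
  have hℓu : ¬ IsUnit (ℓ : ℤ) := (Nat.prime_iff_prime_int.mp hℓ).not_isUnit
  have hac : IsCoprime a (a + b) := by
    have := hab.mul_add_left_right 1
    rwa [mul_one] at this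
  have hbc : IsCoprime b (a + b) := by
    have := hab.symm.add_mul_left_right 1
    rwa [mul_one] at this
  rw [padicValInt_neg']
  by_cases h1 : (ℓ : ℤ) ∣ a
  · have h2 : ¬ (ℓ : ℤ) ∣ b := fun h2 => hℓu (hab.isUnit_of_dvd' h1 h2)
    have h3 : ¬ (ℓ : ℤ) ∣ a + b := fun h2 => hℓu (hac.isUnit_of_dvd' h1 h2)
    rw [padicValInt.eq_zero_of_not_dvd h2, padicValInt.eq_zero_of_not_dvd h3] at hv ⊢
    exact ⟨by simpa using hv, dvd_zero _, dvd_zero _⟩
  · rw [padicValInt.eq_zero_of_not_dvd h1] at hv ⊢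
    rw [zero_add] at hv
    by_cases h2 : (ℓ : ℤ) ∣ b
    · have h3 : ¬ (ℓ : ℤ) ∣ a + b := fun h3 => hℓu (hbc.isUnit_of_dvd' h2 h3)
      rw [padicValInt.eq_zero_of_not_dvd h3] at hv ⊢
      exact ⟨dvd_zero _, by simpa using hv, dvd_zero _⟩
    · rw [padicValInt.eq_zero_of_not_dvd h2] at hv ⊢
      exact ⟨dvd_zero _, dvd_zero _, by simpa using hv⟩

/-- For every prime `p ≥ 5`, `p ≠ 7, 13`, and `L = 3, 5`, the equation `a b (a + b) = L ^ α m ^ p` has no solutions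
in coprime integers `a`, `b` and nonzero integers `m`. -/
theorem mul_add_ne {p L : ℕ} (hp : p.Prime) (hp5 : 5 ≤ p) (hp7 : p ≠ 7) (hp13 : p ≠ 13)
    (hL : L = 3 ∨ L = 5) {a b m : ℤ} (hab : IsCoprime a b) (hm : m ≠ 0) (α : ℕ) :
    a * b * (a + b) ≠ (L : ℤ) ^ α * m ^ p :=
  mul_add_ne_of hp5 (by rcases hL with rfl | rfl <;> norm_num)
    (by rcases hL with rfl | rfl <;> norm_num) (noSol_of_ne hp hp5 hp7 hp13 hL) hab hm α

/-- For every prime `p ≥ 5`, `p ≠ 7, 13`, and `L = 3, 5`, the product of two consecutive positive integers is not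
of the form `L ^ α m ^ p`. -/
theorem mul_succ_ne {p L : ℕ} (hp : p.Prime) (hp5 : 5 ≤ p) (hp7 : p ≠ 7) (hp13 : p ≠ 13)
    (hL : L = 3 ∨ L = 5) {n m : ℕ} (hn : 0 < n) (α : ℕ) : n * (n + 1) ≠ L ^ α * m ^ p := by
  intro h
  have hL0 : L ≠ 0 := by rcases hL with rfl | rfl <;> norm_num
  have hm : m ≠ 0 := by
    rintro rfl
    rw [zero_pow (by omega), mul_zero] at h
    exact absurd h (mul_ne_zero hn.ne' (Nat.succ_ne_zero n))
  refine mul_add_ne hp hp5 hp7 hp13 hL (a := (n : ℤ)) (b := 1) isCoprime_one_right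
    (m := (m : ℤ)) (by exact_mod_cast hm) α ?_
  rw [mul_one]
  exact_mod_cast h

end Fermat.Agent.Cor.H11
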