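import Fermat.Agent.Cor.Seven
import Fermat.Agent.Cor.SerreEleven
import Fermat.Agent.Cor.H22Nineteen
import Fermat.Agent.Cor.H24Lev

/-!
# Serre's equations and equations with a power of two for the exponent `7`

The Frey curves have full rational `2`-torsion, so their `7`-torsion is irreducible (`Cor/Seven.lean`). This adds the
exponent `7` to the theorems of helpers 11, 18, 22 and 24:

* `serre_equation`: `x ^ p + y ^ p = L ^ α z ^ p` has no solutions in nonzero integers for `L = 3, 5, 7` and all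
  primes `p ≥ 5`, `p ≠ 13`, and for `L = 11, 19` and all primes `p ≥ 7`, `p ≠ 13`;
* `two_pow_seven`: `L ^ α x ^ 7 + L ^ β y ^ 7 + 2 ^ k L ^ γ z ^ 7 = 0` has no solutions in nonzero integers for
  `L = 3, 5, 7, 11, 19` and `4 ≤ k mod 7`; in particular `x ^ 7 + 2 ^ k y ^ 7 ≠ z ^ 7`.

This file is not used by any of the statement files.
-/

set_option autoImplicit false

namespace Fermat.Agent.Cor.Seven

open WeierstrassCurve Fermat.Agent.Cor.H11 Fermat.Agent.Cor.H18 Fermat.Agent.Cor.H24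
open ModularFormClass (qCoeff)

/-- the `7`-torsion of the Frey curves is irreducible -/
theorem irr_seven {A B : ℤ} (hA : A % 4 = 3) (hB : (16 : ℤ) ∣ B) (h0 : A * B * (A + B) ≠ 0) :
    (FreyAB A B).ModRepIsIrreducible 7 := by
  have hΔ := frey_disc_ne hA hB h0
  have hΔQ : ((FreyAB A B).map (Int.castRingHom ℚ)).Δ ≠ 0 := by
    rw [map_Δ]
    simpa using hΔ
  have e2 := congrArg (Int.cast : ℤ → ℚ) (frey_b₂ hA hB)
  have e4 := congrArg (Int.cast : ℤ → ℚ) (frey_b₄ (A := A) hB)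
  have e6 := congrArg (Int.cast : ℤ → ℚ) (frey_b₆ (A := A) (B := B))
  push_cast at e2 e4 e6
  have hA0 : (A : ℚ) ≠ 0 := by
    have : A ≠ 0 := by rintro rfl; simp at h0
    exact_mod_cast this
  refine irreducible_of_full (E := (FreyAB A B).map (Int.castRingHom ℚ)) hΔQ
    (t₁ := 0) (t₂ := (A : ℚ) / 4) ?_ ?_ ?_
  · intro h
    apply hA0
    linarith
  · rw [map_b₂, map_b₄, map_b₆]
    simp only [eq_intCast]
    linear_combination e6
  · rw [map_b₂, map_b₄, map_b₆]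
    simp only [eq_intCast]
    linear_combination ((A : ℚ) / 4) ^ 2 * e2 + e6 + (A : ℚ) / 16 * e4

theorem irrAB_seven : IrrAB 7 := fun _ _ _ hA hB h0 _ =>
  irr_seven hA ((by norm_num : (16 : ℤ) ∣ 32).trans hB) h0

/-- the mod `p` representations of the Frey curves are irreducible for all primes `p ≥ 5`, `p ≠ 13` -/
theorem irrAB_all {p : ℕ} (hp : p.Prime) (hp5 : 5 ≤ p) (hp13 : p ≠ 13) : IrrAB p := by
  by_cases h7 : p = 7
  · subst h7
    exact irrAB_seven
  · exact irrAB_of_ne hp hp5 h7 hp13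

theorem noSol_three_five_seven {p L : ℕ} (hp : p.Prime) (hp5 : 5 ≤ p) (hp13 : p ≠ 13)
    (hL : L ∈ ({3, 5, 7} : Finset ℕ)) : NoSol p L := by
  simp only [Finset.mem_insert, Finset.mem_singleton] at hL
  rcases hL with rfl | rfl | rfl
  · exact noSol_of_irr hp hp5 Nat.prime_three Fermat.Agent.Main.genus_six
      (irrAB_all hp hp5 hp13)
  · exact noSol_of_irr hp hp5 Nat.prime_five Fermat.Agent.Main.genus_ten
      (irrAB_all hp hp5 hp13)
  · exact noSol_seven_of hp hp5 (irrAB_all hp hp5 hp13) fun _ hf => EigenTable.a3_fourteen hf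

theorem noSol_all {p L : ℕ} (hp : p.Prime) (hp7 : 7 ≤ p) (hp13 : p ≠ 13)
    (hL : L ∈ ({3, 5, 7, 11, 19} : Finset ℕ)) : NoSol p L := by
  have H := irrAB_all hp (by omega) hp13
  simp only [Finset.mem_insert, Finset.mem_singleton] at hL
  rcases hL with rfl | rfl | rfl | rfl | rfl
  · exact noSol_three_five_seven hp (by omega) hp13 (by decide)
  · exact noSol_three_five_seven hp (by omega) hp13 (by decide)
  · exact noSol_three_five_seven hp (by omega) hp13 (by decide)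
  · refine noSol_of_three hp (by omega) (by norm_num) (by norm_num) H fun f hf => ⟨-1, ?_, ?_, ?_, ?_⟩
    · rw [EigenTable.a3_twentytwo (f := f) hf]
      norm_num
    · exact not_dvd_of_abs (by norm_num) (by norm_num; omega)
    · exact not_dvd_of_abs (by norm_num) (by norm_num; omega)
    · exact not_dvd_of_abs (by norm_num) (by norm_num; omega)
  · exact H22L19.noSol_nineteen_of hp hp7 H

/-- **Serre's theorem for `L = 3, 5, 7` and all primes `p ≥ 5`, `p ≠ 13`**, symmetric form. -/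
theorem serre_symmetric {p L : ℕ} (hp : p.Prime) (hp5 : 5 ≤ p) (hp13 : p ≠ 13)
    (hL : L ∈ ({3, 5, 7} : Finset ℕ)) (α β γ : ℕ) {x y z : ℤ} (hx : x ≠ 0) (hy : y ≠ 0)
    (hz : z ≠ 0) : (L : ℤ) ^ α * x ^ p + (L : ℤ) ^ β * y ^ p + (L : ℤ) ^ γ * z ^ p ≠ 0 := by
  have h := noSol_three_five_seven hp hp5 hp13 hL
  refine serre_sym hp5 ?_ ?_ h α β γ hx hy hz
  all_goals
    simp only [Finset.mem_insert, Finset.mem_singleton] at hL
    rcases hL with rfl | rfl | rfl <;> norm_num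

/-- **Serre's theorem for `L = 3, 5, 7, 11, 19` and all primes `p ≥ 7`, `p ≠ 13`**, symmetric form. -/
theorem serre_symmetric_all {p L : ℕ} (hp : p.Prime) (hp7 : 7 ≤ p) (hp13 : p ≠ 13)
    (hL : L ∈ ({3, 5, 7, 11, 19} : Finset ℕ)) (α β γ : ℕ) {x y z : ℤ} (hx : x ≠ 0) (hy : y ≠ 0)
    (hz : z ≠ 0) : (L : ℤ) ^ α * x ^ p + (L : ℤ) ^ β * y ^ p + (L : ℤ) ^ γ * z ^ p ≠ 0 := by
  have h := noSol_all hp hp7 hp13 hL
  refine serre_sym (by omega) ?_ ?_ h α β γ hx hy hz
  all_goals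
    simp only [Finset.mem_insert, Finset.mem_singleton] at hL
    rcases hL with rfl | rfl | rfl | rfl | rfl <;> norm_num

/-- **Serre's theorem for `L = 3, 5, 7`**: `x ^ p + y ^ p = L ^ α z ^ p` has no solutions in nonzero integers for
all primes `p ≥ 5`, `p ≠ 13`. -/
theorem serre_equation {p L : ℕ} (hp : p.Prime) (hp5 : 5 ≤ p) (hp13 : p ≠ 13)
    (hL : L ∈ ({3, 5, 7} : Finset ℕ)) (α : ℕ) {x y z : ℤ} (hx : x ≠ 0) (hy : y ≠ 0) (hz : z ≠ 0) :
    x ^ p + y ^ p ≠ (L : ℤ) ^ α * z ^ p := by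
  intro he
  have hodd : Odd p := hp.odd_of_ne_two (by omega)
  refine serre_symmetric hp hp5 hp13 hL 0 0 α hx hy (neg_ne_zero.mpr hz) ?_
  rw [hodd.neg_pow]
  linear_combination he

/-- **Serre's theorem for `L = 3, 5, 7, 11, 19`** and all primes `p ≥ 7`, `p ≠ 13`. -/
theorem serre_equation_all {p L : ℕ} (hp : p.Prime) (hp7 : 7 ≤ p) (hp13 : p ≠ 13)
    (hL : L ∈ ({3, 5, 7, 11, 19} : Finset ℕ)) (α : ℕ) {x y z : ℤ} (hx : x ≠ 0) (hy : y ≠ 0)
    (hz : z ≠ 0) : x ^ p + y ^ p ≠ (L : ℤ) ^ α * z ^ p := by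
  intro he
  have hodd : Odd p := hp.odd_of_ne_two (by omega)
  refine serre_symmetric_all hp hp7 hp13 hL 0 0 α hx hy (neg_ne_zero.mpr hz) ?_
  rw [hodd.neg_pow]
  linear_combination he

/-- For every prime `p ≥ 5`, `p ≠ 13`, and `L = 3, 5, 7`, the equation `a b (a + b) = L ^ α m ^ p` has no solutions
in coprime integers `a`, `b` and nonzero integers `m`. -/
theorem mul_add_ne {p L : ℕ} (hp : p.Prime) (hp5 : 5 ≤ p) (hp13 : p ≠ 13)
    (hL : L ∈ ({3, 5, 7} : Finset ℕ)) {a b m : ℤ} (hab : IsCoprime a b) (hm : m ≠ 0) (α : ℕ) :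
    a * b * (a + b) ≠ (L : ℤ) ^ α * m ^ p := by
  refine mul_add_ne_of hp5 ?_ ?_ (noSol_three_five_seven hp hp5 hp13 hL) hab hm α
  all_goals
    simp only [Finset.mem_insert, Finset.mem_singleton] at hL
    rcases hL with rfl | rfl | rfl <;> norm_num

/-- the exponent `7` and levels `2 L` with coefficient conditions at `3` -/
theorem noFrey_seven_of_three {L : ℕ} (hL : L.Prime) (hL3 : L ≠ 3)
    (hS : ∀ f : CuspForm (CongruenceSubgroup.Gamma0 (2 * L)) 2, f.IsNormalizedEigenform →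
      ∃ c : ℤ, qCoeff f 3 = (c : ℂ) ∧ c ≠ 0 ∧ c.natAbs < 3) :
    NoFrey 7 L (fun v => 4 ≤ v) := by
  intro A B hcop hA h0 hG hv
  have : Fact (Nat.Prime 7) := ⟨by norm_num⟩
  have : NeZero (2 * L) := ⟨mul_ne_zero two_ne_zero hL.ne_zero⟩
  have hB := sixteen_dvd hG
  have hirr := irr_seven hA hB h0
  have hN3 : ¬ 3 ∣ 2 * L := by
    intro h
    rcases (Nat.Prime.dvd_mul Nat.prime_three).mp h with h | h
    · omega
    · exact hL3 ((Nat.prime_dvd_prime_iff_eq Nat.prime_three hL).mp h).symm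
  obtain ⟨f, 𝔪, hf, h𝔪, hp𝔪, hres⟩ := rm_two_mul' (by norm_num) hL hcop hA hB h0 hv hirr
  obtain ⟨c, hc, hc0, hc3⟩ := hS f hf
  rcases dvd_a_three (by norm_num) hN3 hcop hA hB h0 hirr hf h𝔪 hp𝔪 hres hc with h | h | h
  · exact not_dvd_of_abs hc0 (by omega) h
  · exact not_dvd_of_abs (by omega) (by omega) h
  · exact not_dvd_of_abs (by omega) (by omega) h

/-- **No Frey curves of level `2 L` for the exponent `7`**, `L ∈ {3, 5, 7, 11, 19}`. -/
theorem noFrey_seven_all {L : ℕ} (hL : L ∈ ({3, 5, 7, 11, 19} : Finset ℕ)) :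
    NoFrey 7 L (fun v => 4 ≤ v) := by
  simp only [Finset.mem_insert, Finset.mem_singleton] at hL
  rcases hL with rfl | rfl | rfl | rfl | rfl
  · exact noFrey_of_irr (by norm_num) (by norm_num) (Or.inl rfl) (fun _ h => h)
      fun A B _ hA hB h0 _ => irr_seven hA hB h0
  · exact noFrey_of_irr (by norm_num) (by norm_num) (Or.inr rfl) (fun _ h => h)
      fun A B _ hA hB h0 _ => irr_seven hA hB h0
  · exact noFrey_seven_of_three (by norm_num) (by norm_num) fun f hf =>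
      ⟨-2, by rw [EigenTable.a3_fourteen (f := f) hf]; norm_num, by norm_num, by norm_num⟩
  · exact noFrey_seven_of_three (by norm_num) (by norm_num) fun f hf =>
      ⟨-1, by rw [EigenTable.a3_twentytwo (f := f) hf]; norm_num, by norm_num, by norm_num⟩
  · refine noFrey_seven_of_three (by norm_num) (by norm_num) fun f hf => ?_
    rcases H22L19.a3_thirtyeight (f := f) hf with h | h | h
    · exact ⟨-2, by rw [h]; norm_num, by norm_num, by norm_num⟩
    · exact ⟨1, by rw [h]; norm_num, by norm_num, by norm_num⟩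
    · exact ⟨-1, by rw [h]; norm_num, by norm_num, by norm_num⟩

/-- **The equations `L ^ α x ^ 7 + L ^ β y ^ 7 + 2 ^ k L ^ γ z ^ 7 = 0`**, `4 ≤ k mod 7`. -/
theorem two_pow_seven {L : ℕ} (hL : L ∈ ({3, 5, 7, 11, 19} : Finset ℕ)) {k : ℕ} (hk : 4 ≤ k % 7)
    (α β γ : ℕ) {x y z : ℤ} (hx : x ≠ 0) (hy : y ≠ 0) (hz : z ≠ 0) :
    (L : ℤ) ^ α * x ^ 7 + (L : ℤ) ^ β * y ^ 7 + 2 ^ k * (L : ℤ) ^ γ * z ^ 7 ≠ 0 := by
  have hL' : L.Prime ∧ L ≠ 2 := by
    simp only [Finset.mem_insert, Finset.mem_singleton] at hL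
    rcases hL with rfl | rfl | rfl | rfl | rfl <;> norm_num
  refine (noFrey_seven_all hL).eq_sym hL'.1 hL'.2 (by omega) ?_ α β γ hx hy hz
  intro v hv
  have := Nat.mod_le v 7
  omega

/-- `x ^ 7 + 2 ^ k y ^ 7 = z ^ 7` has no solutions in nonzero integers if `4 ≤ k mod 7`. -/
theorem ribet_seven {k : ℕ} (hk : 4 ≤ k % 7) {x y z : ℤ} (hx : x ≠ 0) (hy : y ≠ 0) (hz : z ≠ 0) :
    x ^ 7 + 2 ^ k * y ^ 7 ≠ z ^ 7 := by
  intro he
  refine two_pow_seven (L := 3) (by decide) hk 0 0 0 hx (neg_ne_zero.mpr hz) hy ?_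
  linear_combination he

end Fermat.Agent.Cor.Seven
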