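import Fermat.Agent.Cor.Ord27
import Fermat.Agent.Cor.Ord49Loc
import Fermat.Agent.Cor.MazurCor
import Fermat.Agent.Cor.SevenEquations

/-!
# No elliptic curve over `ℚ` has a rational point of order `49`

Let `S` be a rational point of order `49`. In Tate's normal form of `P = 7 S`, with parameter `d = n / m`, one has
`Δ = n⁷ m⁷ (n - m)⁷ (n³ - 8 n² m + 5 n m² + m³)`, and `P` reduces to the node at every prime `q` dividing
`n m (n - m)`; hence `49 ∣ v_q(Δ) = 7 v_q(n m (n - m))` (`Cor/Ord49Loc.lean`) and `n`, `m`, `n - m` are seventh powers: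
a solution of Fermat's equation of degree seven.

This file is not used by any of the statement files.
-/

set_option autoImplicit false

namespace Fermat.Agent.Cor.Ord49Tate

open WeierstrassCurve WeierstrassCurve.Affine WeierstrassCurve.Affine.Point
open Fermat.Agent.H08 Fermat.Agent.H09 Fermat.Agent.Frob Fermat.Agent.Cor.Ord49
open Fermat.Agent.Ell (WQ Pts)
open Fermat.Agent.Cor.Mazur (toQb toQb_some toQb_injective smul_toQb)

/-- Fermat's last theorem for the exponent seven. -/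
theorem fermat_seven {x y z : ℤ} (hx : x ≠ 0) (hy : y ≠ 0) (hz : z ≠ 0) :
    x ^ 7 + y ^ 7 ≠ z ^ 7 := by
  have := Seven.serre_equation (p := 7) (L := 3) (by norm_num) (by norm_num) (by norm_num)
    (by decide) 0 hx hy hz
  simpa using this

/-- a natural number all of whose valuations are divisible by `p` is a `p`-th power -/
theorem nat_root {n p : ℕ} (hn : n ≠ 0) (h : ∀ q : ℕ, q.Prime → p ∣ n.factorization q) :
    ∃ b : ℕ, b ^ p = n := by
  refine ⟨n.factorization.prod fun q k => q ^ (k / p), ?_⟩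
  rw [Finsupp.prod, ← Finset.prod_pow]
  conv_rhs => rw [← Nat.prod_factorization_pow_eq_self hn, Finsupp.prod]
  refine Finset.prod_congr rfl fun q hq => ?_
  rw [← pow_mul, Nat.div_mul_cancel (h q (Nat.prime_of_mem_primeFactors hq))]

/-- The arithmetic. -/
theorem arith {a b : ℤ} (hab : IsCoprime a b) (ha : a ≠ 0) (hb : b ≠ 0) (hne : a - b ≠ 0)
    (h : ∀ q : ℕ, q.Prime → (q : ℤ) ∣ a * (a - b) * b → 7 ∣ padicValInt q (a * (a - b) * b)) :
    False := by
  have h0 : a * (a - b) * b ≠ 0 := mul_ne_zero (mul_ne_zero ha hne) hb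
  obtain ⟨c, hc⟩ := nat_root (n := (a * (a - b) * b).natAbs) (p := 7) (Int.natAbs_ne_zero.2 h0)
    (fun q hq => by
      rw [Nat.factorization_def _ hq]
      by_cases hd : (q : ℤ) ∣ a * (a - b) * b
      · exact h q hq hd
      · have h1 : padicValInt q (a * (a - b) * b) = 0 := padicValInt.eq_zero_of_not_dvd hd
        have h2 : padicValNat q (a * (a - b) * b).natAbs = 0 := h1
        rw [h2]
        exact dvd_zero _)
  obtain ⟨z, hz⟩ : ∃ z : ℤ, a * (a - b) * b = z ^ 7 := by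
    rcases Int.natAbs_eq (a * (a - b) * b) with h1 | h1
    · exact ⟨c, by rw [h1, ← hc]; push_cast; rfl⟩
    · refine ⟨-c, ?_⟩
      rw [h1, ← hc]
      push_cast
      ring
  have c1 : IsCoprime a (a - b) := by
    have : IsCoprime a (-b) := hab.neg_right
    have h4 := this.add_mul_left_right 1
    rwa [mul_one, neg_add_eq_sub] at h4
  have c2 : IsCoprime (a - b) b := by
    have h4 := hab.add_mul_right_left (-1)
    have h5 : a + -1 * b = a - b := by ring
    rwa [h5] at h4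
  obtain ⟨⟨u, hu⟩, ⟨w, hw⟩⟩ := Int.eq_pow_of_mul_eq_pow_odd (hab.mul_left c2) (by decide) hz
  obtain ⟨⟨x, hx⟩, ⟨y, hy⟩⟩ := Int.eq_pow_of_mul_eq_pow_odd c1 (by decide) hu
  refine fermat_seven (x := y) (y := w) (z := x) ?_ ?_ ?_ (by rw [← hx, ← hy, ← hw]; ring)
  · rintro rfl
    exact hne (by rw [hy]; norm_num)
  · rintro rfl
    exact hb (by rw [hw]; norm_num)
  · rintro rfl
    exact ha (by rw [hx]; norm_num)

/-- **Tate's normal form of a point of order seven.** -/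
theorem tate_data {W : WeierstrassCurve.Affine ℚ} (h4 : W.a₄ = 0) (h23 : W.a₂ = W.a₃)
    {P : W.Point} (hne : ∀ n : ℕ, ¬ 7 ∣ n → n • P ≠ 0) (h7 : (7 : ℕ) • P = 0) (hx : px P = 0)
    (hy : py P = 0) :
    ∃ d : ℚ, d ≠ 0 ∧ d ≠ 1 ∧ W.a₁ = 1 - d * (d - 1) ∧ W.a₃ = -(d ^ 2 * (d - 1)) := by
  have hP : P ≠ 0 := by simpa using hne 1 (by norm_num)
  have n2 := hne 2 (by norm_num)
  have n3 := hne 3 (by norm_num)
  have n4 := hne 4 (by norm_num)
  have d13 : px P ≠ px ((3 : ℕ) • P) := by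
    intro h
    rcases (px_eq_iff hP n3).1 h with h1 | h1
    · apply n2
      have h2 : P + (2 : ℕ) • P = (3 : ℕ) • P := (succ_nsmul' P 2).symm
      rw [← h2] at h1
      simpa using h1.symm
    · apply n4
      rw [succ_nsmul' P 3]
      nth_rewrite 1 [h1]
      exact neg_add_cancel _
  rw [hx] at d13
  obtain ⟨b, hb⟩ : ∃ b, b = -W.a₃ := ⟨_, rfl⟩
  obtain ⟨c, hc⟩ : ∃ c, c = 1 - W.a₁ := ⟨_, rfl⟩
  have ha3 : W.a₃ = -b := by rw [hb]; ring
  have ha2 : W.a₂ = -b := by rw [h23, ha3]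
  have ha1 : W.a₁ = 1 - c := by rw [hc]; ring
  have hb0 : b ≠ 0 := by
    intro h0
    apply n2
    rw [h0, _root_.neg_zero] at ha3
    have h1 : P = -P := by
      apply pt_ext hP (neg_ne_zero.mpr hP)
      · rw [px_neg]
      · rw [py_neg hP, hx, hy, ha3]; ring
    rw [two_nsmul]
    nth_rewrite 1 [h1]
    exact neg_add_cancel P
  -- `2 P`
  have t2 : P + P = (2 : ℕ) • P := (two_nsmul P).symm
  obtain ⟨l1, -, e2, e3, e4⟩ := slope_data hP hP (by rw [t2]; exact n2)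
  rw [t2] at e3 e4
  rw [hx, hy, h4, ha3] at e2
  have hl1 : l1 = 0 := by
    have h1 : l1 * b = 0 := by linear_combination -e2
    exact (mul_eq_zero.mp h1).resolve_right hb0
  rw [hx, hl1, ha2] at e3
  have x2 : px ((2 : ℕ) • P) = b := by rw [e3]; ring
  rw [hl1, hx, hy, x2, ha1, ha3] at e4
  have y2 : py ((2 : ℕ) • P) = b * c := by rw [e4]; ring
  -- `3 P`
  have t3 : P + (2 : ℕ) • P = (3 : ℕ) • P := (succ_nsmul' P 2).symm
  obtain ⟨l2, e1, -, e3, e4⟩ := slope_data hP n2 (by rw [t3]; exact n3)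
  rw [t3] at e3 e4
  rw [hx, hy, x2, y2] at e1
  have hl2 : l2 = c := by
    apply mul_right_cancel₀ hb0
    linear_combination -e1
  rw [hx, x2, hl2, ha1, ha2] at e3
  have x3 : px ((3 : ℕ) • P) = c := by rw [e3]; ring
  rw [hl2, hx, hy, x3, ha1, ha3] at e4
  have y3 : py ((3 : ℕ) • P) = b - c := by rw [e4]; ring
  have hc0 : c ≠ 0 := by rw [x3] at d13; exact d13.symm
  -- `4 P`
  obtain ⟨r, hr⟩ : ∃ r, b = r * c := ⟨b / c, (div_mul_cancel₀ _ hc0).symm⟩
  have t4 : P + (3 : ℕ) • P = (4 : ℕ) • P := (succ_nsmul' P 3).symm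
  obtain ⟨l3, e1, -, e3, e4⟩ := slope_data hP n3 (by rw [t4]; exact n4)
  rw [t4] at e3 e4
  rw [hx, hy, x3, y3] at e1
  have hl3 : l3 = r - 1 := by
    apply mul_right_cancel₀ hc0
    rw [hr] at e1
    linear_combination -e1
  rw [hx, x3, hl3, ha1, ha2, hr] at e3
  have x4 : px ((4 : ℕ) • P) = r * (r - 1) := by rw [e3]; ring
  have h43 : (4 : ℕ) • P = -((3 : ℕ) • P) := by
    rw [eq_neg_iff_add_eq_zero, ← add_nsmul]
    exact h7
  rw [h43, px_neg, x3] at x4
  have hc1 := hc0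
  rw [x4] at hc1
  refine ⟨r, left_ne_zero_of_mul hc1, sub_ne_zero.1 (right_ne_zero_of_mul hc1), ?_, ?_⟩
  · rw [ha1, x4]
  · rw [ha3, hr, x4]; ring

local notation "Qb" => AlgebraicClosure ℚ

/-- The integral model: `d = n / m`. -/
def model (n m : ℤ) : WeierstrassCurve ℤ :=
  ⟨m ^ 2 + n * m - n ^ 2, -(n ^ 2 * (n - m) * m), -(n ^ 2 * (n - m) * m ^ 3), 0, 0⟩

theorem model_disc (n m : ℤ) : (model n m).Δ =
    (n * (n - m) * m) ^ 7 * (n ^ 3 - 8 * n ^ 2 * m + 5 * n * m ^ 2 + m ^ 3) := by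
  simp only [model, WeierstrassCurve.Δ, WeierstrassCurve.b₂, WeierstrassCurve.b₄,
    WeierstrassCurve.b₆, WeierstrassCurve.b₈]
  ring

/-- The main local statement. -/
theorem dvd_val {n m : ℤ} (hnm : IsCoprime n m) (hΔ : (model n m).Δ ≠ 0)
    {S : ((model n m).map (Int.castRingHom ℚ)).toAffine.Point} (h49 : (49 : ℕ) • S = 0)
    (h7 : (7 : ℕ) • S ≠ 0) (hx : px ((7 : ℕ) • S) = 0) {q : ℕ} (hq : q.Prime)
    (hqd : (q : ℤ) ∣ n * (n - m) * m) : 7 ∣ padicValInt q (n * (n - m) * m) := by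
  have hpq : Prime (q : ℤ) := Nat.prime_iff_prime_int.mp hq
  have hcop : ¬ ((q : ℤ) ∣ n ∧ (q : ℤ) ∣ m) := by
    rintro ⟨h1, h2⟩
    exact Fermat.Agent.H23.K1.cop_false hnm hpq h1 h2
  have hqΔ : (q : ℤ) ∣ (model n m).Δ := by
    rw [model_disc]
    exact Dvd.dvd.mul_right (dvd_pow hqd (by norm_num)) _
  -- one of three cases
  have hcase : (q : ℤ) ∣ n ∨ (q : ℤ) ∣ n - m ∨ (q : ℤ) ∣ m := by
    rcases hpq.dvd_or_dvd hqd with h1 | h1
    · rcases hpq.dvd_or_dvd h1 with h2 | h2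
      · exact Or.inl h2
      · exact Or.inr (Or.inl h2)
    · exact Or.inr (Or.inr h1)
  have hunit : ¬ (q : ℤ) ∣ m ^ 2 + n * m - n ^ 2 := by
    intro hd
    rcases hcase with h1 | h1 | h1
    · refine hcop ⟨h1, hpq.dvd_of_dvd_pow (n := 2) ?_⟩
      have e : m ^ 2 = (m ^ 2 + n * m - n ^ 2) - n * (m - n) := by ring
      rw [e]
      exact dvd_sub hd (Dvd.dvd.mul_right h1 _)
    · have h2 : (q : ℤ) ∣ m := by
        apply hpq.dvd_of_dvd_pow (n := 2)
        have e : m ^ 2 = (m ^ 2 + n * m - n ^ 2) + n * (n - m) := by ring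
        rw [e]
        exact dvd_add hd (Dvd.dvd.mul_left h1 _)
      refine hcop ⟨?_, h2⟩
      have e : n = (n - m) + m := by ring
      rw [e]
      exact dvd_add h1 h2
    · refine hcop ⟨hpq.dvd_of_dvd_pow (n := 2) ?_, h1⟩
      have e : n ^ 2 = m * (m + n) - (m ^ 2 + n * m - n ^ 2) := by ring
      rw [e]
      exact dvd_sub (Dvd.dvd.mul_right h1 _) hd
  have hcub : ¬ (q : ℤ) ∣ n ^ 3 - 8 * n ^ 2 * m + 5 * n * m ^ 2 + m ^ 3 := by
    intro hd
    rcases hcase with h1 | h1 | h1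
    · refine hcop ⟨h1, hpq.dvd_of_dvd_pow (n := 3) ?_⟩
      have e : m ^ 3 = (n ^ 3 - 8 * n ^ 2 * m + 5 * n * m ^ 2 + m ^ 3) -
        n * (n ^ 2 - 8 * n * m + 5 * m ^ 2) := by ring
      rw [e]
      exact dvd_sub hd (Dvd.dvd.mul_right h1 _)
    · have h2 : (q : ℤ) ∣ m := by
        apply hpq.dvd_of_dvd_pow (n := 3)
        have e : m ^ 3 = (n - m) * (n ^ 2 - 7 * n * m - 2 * m ^ 2) -
          (n ^ 3 - 8 * n ^ 2 * m + 5 * n * m ^ 2 + m ^ 3) := by ring
        rw [e]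
        exact dvd_sub (Dvd.dvd.mul_right h1 _) hd
      refine hcop ⟨?_, h2⟩
      have e : n = (n - m) + m := by ring
      rw [e]
      exact dvd_add h1 h2
    · refine hcop ⟨hpq.dvd_of_dvd_pow (n := 3) ?_, h1⟩
      have e : n ^ 3 = (n ^ 3 - 8 * n ^ 2 * m + 5 * n * m ^ 2 + m ^ 3) -
        m * (-8 * n ^ 2 + 5 * n * m + m ^ 2) := by ring
      rw [e]
      exact dvd_sub hd (Dvd.dvd.mul_right h1 _)
  have hd2 : (q : ℤ) ∣ (model n m).a₂ := by
    have e : (model n m).a₂ = (n * (n - m) * m) * (-n) := by simp only [model]; ring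
    rw [e]
    exact Dvd.dvd.mul_right hqd _
  have hd3 : (q : ℤ) ∣ (model n m).a₃ := by
    have e : (model n m).a₃ = (n * (n - m) * m) * (-n * m ^ 2) := by simp only [model]; ring
    rw [e]
    exact Dvd.dvd.mul_right hqd _
  have hqc : ¬ (q : ℤ) ∣ (model n m).c₄ := by
    intro hd
    apply hunit
    apply hpq.dvd_of_dvd_pow (n := 4)
    obtain ⟨k2, hk2⟩ := hd2
    obtain ⟨k3, hk3⟩ := hd3
    obtain ⟨k, hk⟩ := hd
    have e1 : (model n m).a₁ = m ^ 2 + n * m - n ^ 2 := rfl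
    have e4 : (model n m).a₄ = 0 := rfl
    have e6 : (model n m).a₆ = 0 := rfl
    rw [WeierstrassCurve.c₄, WeierstrassCurve.b₂, WeierstrassCurve.b₄, e1, e4, hk2, hk3] at hk
    refine ⟨k - 8 * (m ^ 2 + n * m - n ^ 2) ^ 2 * k2 - 16 * q * k2 ^ 2 +
      24 * (m ^ 2 + n * m - n ^ 2) * k3, ?_⟩
    linear_combination hk
  -- the node
  obtain ⟨A, hA⟩ := H05.exists_liesOverPrime Qb hq
  obtain ⟨-, r, t, α, β, h⟩ := exists_nodeData_int hΔ hq hqΔ hqc hA
  have va2 : A.valuation (((model n m).map (Int.castRingHom ℚ))⁄Qb).a₂ < 1 := by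
    rw [← map_int_Qb, WeierstrassCurve.map_a₂]
    exact Fermat.Agent.H09.val_intCast_lt_one hA hd2
  have va3 : A.valuation (((model n m).map (Int.castRingHom ℚ))⁄Qb).a₃ < 1 := by
    rw [← map_int_Qb, WeierstrassCurve.map_a₃]
    exact Fermat.Agent.H09.val_intCast_lt_one hA hd3
  have ea4 : (((model n m).map (Int.castRingHom ℚ))⁄Qb).a₄ = 0 := by
    rw [← map_int_Qb, WeierstrassCurve.map_a₄]
    exact Int.cast_zero
  have ea6 : (((model n m).map (Int.castRingHom ℚ))⁄Qb).a₆ = 0 := by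
    rw [← map_int_Qb, WeierstrassCurve.map_a₆]
    exact Int.cast_zero
  have hr : A.valuation r < 1 := by
    have s3 : (((model n m).map (Int.castRingHom ℚ))⁄Qb).a₃ +
      r * (((model n m).map (Int.castRingHom ℚ))⁄Qb).a₁ + 2 * t = 0 := h.slopes.a₃
    have s4 : (((model n m).map (Int.castRingHom ℚ))⁄Qb).a₄ +
      2 * r * (((model n m).map (Int.castRingHom ℚ))⁄Qb).a₂ -
      t * (((model n m).map (Int.castRingHom ℚ))⁄Qb).a₁ + 3 * r ^ 2 = 0 := h.slopes.a₄
    have s6 := h.a₆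
    have e6 : (shiftCurve (((model n m).map (Int.castRingHom ℚ))⁄Qb) r t).a₆ =
      (((model n m).map (Int.castRingHom ℚ))⁄Qb).a₆ +
      r * (((model n m).map (Int.castRingHom ℚ))⁄Qb).a₄ +
      r ^ 2 * (((model n m).map (Int.castRingHom ℚ))⁄Qb).a₂ + r ^ 3 -
      t * (((model n m).map (Int.castRingHom ℚ))⁄Qb).a₃ - t ^ 2 -
      r * t * (((model n m).map (Int.castRingHom ℚ))⁄Qb).a₁ := rfl
    rw [e6] at s6
    rw [ea4, ea6] at s6
    rw [ea4] at s4
    generalize (((model n m).map (Int.castRingHom ℚ))⁄Qb).a₁ = A1 at *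
    generalize (((model n m).map (Int.castRingHom ℚ))⁄Qb).a₂ = A2 at *
    generalize (((model n m).map (Int.castRingHom ℚ))⁄Qb).a₃ = A3 at *
    have key : r ^ 3 = -(A3 * t + 2 * (0 + r * 0 + r ^ 2 * A2 + r ^ 3 - t * A3 - t ^ 2 -
        r * t * A1)) := by
      linear_combination r * s4 - t * s3
    by_contra hcon
    have h1 : 1 ≤ A.valuation r := not_lt.1 hcon
    have h2 : 1 ≤ A.valuation (r ^ 3) := by
      rw [map_pow]
      exact one_le_pow₀ h1
    rw [key, Valuation.map_neg] at h2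
    have h3 : A.valuation (A3 * t) < 1 := by
      rw [map_mul]
      exact mul_lt_one_of_lt_of_le va3 h.ht
    have h4 : A.valuation (2 * (0 + r * 0 + r ^ 2 * A2 + r ^ 3 - t * A3 - t ^ 2 -
        r * t * A1)) < 1 := v_mul_lt_one_right (v_ofNat_le_one _ 2) s6
    exact absurd (A.valuation.map_add_lt h3 h4) (not_lt.2 h2)
  -- the point over `ℚ̄`
  set T : Pts (WQ (model n m)) := toQb _ S with hT
  have hT49 : (49 : ℕ) • T = 0 := by rw [hT, ← map_nsmul, h49, _root_.map_zero]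
  have hT7 : (7 : ℕ) • T = toQb _ ((7 : ℕ) • S) := by rw [hT, ← map_nsmul]
  have hT70 : (7 : ℕ) • T ≠ 0 := by
    rw [hT7]
    intro h0
    exact h7 (toQb_injective _ (h0.trans (_root_.map_zero _).symm))
  have hpx : px ((7 : ℕ) • T) = 0 := by
    rw [hT7]
    obtain ⟨x, y, hxy, e⟩ := exists_eq_some h7
    rw [e, px_some] at hx
    subst hx
    rw [e]
    obtain ⟨h', e'⟩ := toQb_some _ hxy
    rw [e', px_some]
    exact Rat.cast_zero
  have hnode : ¬ NodeE0 A.valuation r t ((7 : ℕ) • T) := by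
    rw [nodeE0_iff hT70, not_le, hpx, zero_sub, Valuation.map_neg]
    exact hr
  have hdvd := dvd_of_order hΔ hq hA h hT49 (fun σ => smul_toQb _ σ S) hnode
  have hne : n * (n - m) * m ≠ 0 := by
    intro h0
    apply hΔ
    rw [model_disc, h0]
    norm_num
  have hne' : n ^ 3 - 8 * n ^ 2 * m + 5 * n * m ^ 2 + m ^ 3 ≠ 0 := by
    intro h0
    apply hΔ
    rw [model_disc, h0, mul_zero]
  have : Fact q.Prime := ⟨hq⟩
  have hval : padicValInt q (model n m).Δ = 7 * padicValInt q (n * (n - m) * m) := by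
    rw [model_disc, padicValInt.mul (pow_ne_zero 7 hne) hne', padicValInt.eq_zero_of_not_dvd hcub,
      add_zero, padicValInt, padicValInt, Int.natAbs_pow, padicValNat.pow]
  rw [hval] at hdvd
  omega

/-- **No elliptic curve over `ℚ` has a rational point of order `49`.** -/
theorem addOrderOf_ne_fortynine {E : WeierstrassCurve.Affine ℚ} (hΔ : E.Δ ≠ 0) (Q : E.Point) :
    addOrderOf Q ≠ 49 := by
  intro hQ
  have hne : ∀ m : ℕ, ¬ 49 ∣ m → m • Q ≠ 0 := by
    intro m hm h0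
    rw [← hQ] at hm
    exact hm (addOrderOf_dvd_iff_nsmul_eq_zero.2 h0)
  obtain ⟨C, P', hx, hy, h4, h6, h23, hP'⟩ := Ord27.exists_tate (P := (7 : ℕ) • Q)
    (by rw [← mul_nsmul]; exact hne _ (by norm_num))
    (by rw [← mul_nsmul]; exact hne _ (by norm_num))
  obtain ⟨V, hV⟩ : ∃ V : WeierstrassCurve ℚ, V = C • E := ⟨_, rfl⟩
  obtain ⟨S, hS⟩ := vcFun_surjective (W := E) (W' := (C • E : WeierstrassCurve ℚ)) rfl Q
  have h3 : (7 : ℕ) • S = P' := by
    apply vcFun_injective (W := E) (W' := (C • E : WeierstrassCurve ℚ)) rfl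
    rw [hP', ← hS]
    exact map_nsmul (vcEquiv (W := E) (W' := (C • E : WeierstrassCurve ℚ)) rfl) 7 S
  have hord : addOrderOf S = 49 := by
    rw [← hQ, ← hS]
    exact (addOrderOf_injective (vcEquiv (W := E) (W' := (C • E : WeierstrassCurve ℚ)) rfl
      ).toAddMonoidHom (vcEquiv (W := E) (W' := (C • E : WeierstrassCurve ℚ)) rfl).injective S).symm
  have hne' : ∀ m : ℕ, ¬ 49 ∣ m → m • S ≠ 0 := by
    intro m hm h0
    rw [← hord] at hm
    exact hm (addOrderOf_dvd_iff_nsmul_eq_zero.2 h0)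
  have h49 : (49 : ℕ) • S = 0 := by rw [← hord]; exact addOrderOf_nsmul_eq_zero S
  rw [← h3] at hx hy
  obtain ⟨d, hd0, hd1, a1, a3⟩ := tate_data (P := (7 : ℕ) • S) h4 h23
    (fun n hn => by
      rw [← mul_nsmul]
      exact hne' _ (by omega)) (by rw [← mul_nsmul]; exact h49) hx hy
  -- the integral model
  have hden : (d.den : ℚ) ≠ 0 := by exact_mod_cast d.den_ne_zero
  have e : (d.num : ℚ) = d * d.den := (Rat.mul_den_eq_num d).symm
  obtain ⟨C₂, hC₂d⟩ : ∃ C₂ : VariableChange ℚ,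
    C₂ = ⟨(Units.mk0 ((d.den : ℚ) ^ 2) (pow_ne_zero 2 hden))⁻¹, 0, 0, 0⟩ := ⟨_, rfl⟩
  have hC₂ : (model d.num d.den).map (Int.castRingHom ℚ) = C₂ • (C • E : WeierstrassCurve ℚ) := by
    ext
    · rw [variableChange_a₁, a1]
      simp [hC₂d, model]
      rw [e]
      ring
    · rw [variableChange_a₂, h23, a3]
      simp [hC₂d, model]
      rw [e]
      ring
    · rw [variableChange_a₃, a3]
      simp [hC₂d, model]
      rw [e]
      ring
    · rw [variableChange_a₄, h4]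
      simp [hC₂d, model]
    · rw [variableChange_a₆, h6, h4]
      simp [hC₂d, model]
  have hΔ' : (model d.num d.den).Δ ≠ 0 := by
    intro h0
    have h1 := congrArg WeierstrassCurve.Δ hC₂
    rw [map_Δ, h0, _root_.map_zero, variableChange_Δ, variableChange_Δ] at h1
    have h3 := mul_ne_zero (pow_ne_zero 12 (C₂.u⁻¹).ne_zero)
      (mul_ne_zero (pow_ne_zero 12 (C.u⁻¹).ne_zero) hΔ)
    exact h3 h1.symm
  obtain ⟨R, hR⟩ := vcFun_surjective (C := C₂) (W := (C • E : WeierstrassCurve ℚ))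
    (W' := (model d.num d.den).map (Int.castRingHom ℚ)) hC₂ S
  have hsm : ∀ k : ℕ, vcFun (C := C₂) (W := (C • E : WeierstrassCurve ℚ))
      (W' := (model d.num d.den).map (Int.castRingHom ℚ)) hC₂ (k • R) = k • S := by
    intro k
    rw [← hR]
    exact map_nsmul (vcEquiv (C := C₂) (W := (C • E : WeierstrassCurve ℚ))
      (W' := (model d.num d.den).map (Int.castRingHom ℚ)) hC₂) k R
  have hR49 : (49 : ℕ) • R = 0 := by
    apply vcFun_injective (C := C₂) (W := (C • E : WeierstrassCurve ℚ))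
      (W' := (model d.num d.den).map (Int.castRingHom ℚ)) hC₂
    rw [hsm, h49]
    rfl
  have hR7 : (7 : ℕ) • R ≠ 0 := by
    intro h0
    apply hne' 7 (by norm_num)
    rw [← hsm, h0]
    rfl
  have hpx : px ((7 : ℕ) • R) = 0 := by
    have h1 := px_vcFun (C := C₂) (W := (C • E : WeierstrassCurve ℚ))
      (W' := (model d.num d.den).map (Int.castRingHom ℚ)) hC₂ hR7
    rw [hsm, hx, vx] at h1
    have h2 : C₂.r = 0 := by rw [hC₂d]
    rw [h2, add_zero] at h1
    exact (mul_eq_zero.mp h1.symm).resolve_left (pow_ne_zero 2 C₂.u.ne_zero)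
  have hcop : IsCoprime d.num (d.den : ℤ) := by
    rw [Int.isCoprime_iff_gcd_eq_one]
    exact d.reduced
  refine arith hcop ?_ ?_ ?_ (fun q hq hqd => dvd_val hcop hΔ' hR49 hR7 hpx hq hqd)
  · rwa [Ne, Rat.num_eq_zero]
  · exact_mod_cast d.den_ne_zero
  · intro h0
    apply hd1
    have h5 : (d.num : ℚ) = d.den := by exact_mod_cast sub_eq_zero.1 h0
    rw [e] at h5
    exact mul_right_cancel₀ hden (by rw [h5, one_mul])

end Fermat.Agent.Cor.Ord49Tate
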