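import Mathlib
import Fermat.Agent.Cor.PartSq

/-!
# Ramanujan's partition congruence modulo 121

* `partition_121`: `p(121 n + 116) ≡ 0 (mod 121)`.
* `coeff_basis`: the cusp forms `Δ ^ i E₄ ^ (15 - 3 i)`, `1 ≤ i ≤ 5` (an integral basis of the cusp forms of weight `60` on
  `SL₂(ℤ)`) are killed by `U₁₁` modulo `11`: modulo `11` they are combinations of the derivatives
  `Δ E₄ ^ 12, Δ E₄ ^ 7, Δ E₄ ^ 2, Δ E₆ ^ 3, Δ E₆ ^ 8` (`E₄ E₆ = 1` modulo `11`).
* `hecke_eleven`: `T₁₁(Δ ^ 5) = 11 s` with `s` in the lattice spanned by this basis.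

This file is not used by any of the statement files.
-/

set_option autoImplicit false

namespace Fermat.Agent.Cor.PartEleven

open Fermat.Agent.Cor.RamCong Fermat.Agent.Cor.Mordell Fermat.Agent.Cor.PartSq
open Fermat.Agent.H13 PowerSeries
open ModularFormClass CongruenceSubgroup Fermat.Agent.H22 ModularForm

noncomputable section

local instance : Fact (Nat.Prime 11) := ⟨by norm_num⟩

/-- the relations between `E₄`, `E₆`, `Δ` modulo `11` -/
theorem rel : e4 (ZMod 11) * e6 (ZMod 11) = 1 ∧ delta (ZMod 11) = e4 (ZMod 11) ^ 3 - e6 (ZMod 11) ^ 2 ∧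
    theta (e4 (ZMod 11)) = 9 * e4 (ZMod 11) ^ 4 + 2 * e6 (ZMod 11) ∧
    theta (e6 (ZMod 11)) = 2 * e4 (ZMod 11) ^ 2 + 9 * e6 (ZMod 11) ^ 3 := by
  have h11 : (11 : (ZMod 11)⟦X⟧) = 0 := ofNat_self_eq_zero 11
  have hs : sser (ZMod 11) 11 = sser (ZMod 11) 1 := sser_card 11
  have hA := theta_e4 (R := ZMod 11)
  have hB := theta_e6 (R := ZMod 11)
  have hC := delta_spec (R := ZMod 11)
  have h10 := e10_R (ZMod 11)
  have h12 := e12_R (ZMod 11)
  have h2 : e2 (ZMod 11) = 1 - 24 * sser (ZMod 11) 1 := rfl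
  rw [hs] at h12
  set y := e4 (ZMod 11)
  set w := e2 (ZMod 11)
  set z := e6 (ZMod 11)
  set s := sser (ZMod 11) 1
  set s9 := sser (ZMod 11) 9
  set Ty := theta y
  set Tz := theta z
  set d := delta (ZMod 11)
  have H : y * z = 1 := by linear_combination h10 - 24 * s9 * h11
  have hw : w = 5 * y ^ 3 + 7 * z ^ 2 := by
    linear_combination h2 + 5 * h12 + (-314 - 29784 * s + 200 * y ^ 3 + 113 * z ^ 2) * h11
  have hd : d = y ^ 3 - z ^ 2 := by linear_combination hC - 157 * d * h11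
  have hTy : Ty = 9 * y ^ 4 + 2 * z := by
    linear_combination 4 * hA + 4 * y * hw + 28 * z * H + (-Ty + y ^ 4 + 2 * z) * h11
  have hTz : Tz = 2 * y ^ 2 + 9 * z ^ 3 := by
    linear_combination 6 * hB + 6 * z * hw + 30 * y ^ 2 * H + (-Tz + 2 * y ^ 2 + 3 * z ^ 3) * h11
  exact ⟨H, hd, hTy, hTz⟩

theorem coeff_theta_zero (g : (ZMod 11)⟦X⟧) (n : ℕ) : coeff (n * 11) (theta g) = 0 := by
  rw [coeff_theta]
  push_cast
  rw [show (11 : ZMod 11) = 0 by decide, mul_zero, zero_mul]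

/-- the cusp forms of weight `60` are killed by `U₁₁` modulo `11` -/
theorem coeff_basis (n : ℕ) {i : ℕ} (h1 : 1 ≤ i) (h5 : i ≤ 5) :
    coeff (n * 11) (delta (ZMod 11) ^ i * e4 (ZMod 11) ^ (15 - 3 * i)) = 0 := by
  have h11 : (11 : (ZMod 11)⟦X⟧) = 0 := ofNat_self_eq_zero 11
  obtain ⟨H, hd, hTy, hTz⟩ := rel
  set y := e4 (ZMod 11)
  set z := e6 (ZMod 11)
  set d := delta (ZMod 11)
  have g12 : d * y ^ 12 = theta (5 * y ^ 12) := by
    rw [theta_ofNat_mul, theta_pow, hTy]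
    push_cast
    linear_combination y ^ 12 * hd - y ^ 10 * (y * z + 1) * H - 120 * y ^ 10 * H +
      (-49 * y ^ 15 - 11 * y ^ 10) * h11
  have g7 : d * y ^ 7 = theta (7 * y ^ 7) := by
    rw [theta_ofNat_mul, theta_pow, hTy]
    push_cast
    linear_combination y ^ 7 * hd - y ^ 5 * (y * z + 1) * H - 98 * y ^ 5 * H +
      (-40 * y ^ 10 - 9 * y ^ 5) * h11
  have g2 : d * y ^ 2 = theta (8 * y ^ 2) := by
    rw [theta_ofNat_mul, theta_pow, hTy]
    push_cast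
    linear_combination y ^ 2 * hd - (y * z + 1) * H - 32 * H + (-13 * y ^ 5 - 3) * h11
  have f3 : d * z ^ 3 = theta (2 * z ^ 3) := by
    rw [theta_ofNat_mul, theta_pow, hTz]
    push_cast
    linear_combination z ^ 3 * hd + ((y * z) ^ 2 + y * z + 1) * H - 12 * (y * z + 1) * H +
      (-1 - 5 * z ^ 5) * h11
  have f8 : d * z ^ 8 = theta (9 * z ^ 8) := by
    rw [theta_ofNat_mul, theta_pow, hTz]
    push_cast
    linear_combination z ^ 8 * hd + z ^ 5 * ((y * z) ^ 2 + y * z + 1) * H -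
      144 * z ^ 5 * (y * z + 1) * H + (-13 * z ^ 5 - 59 * z ^ 10) * h11
  have m1 : y ^ 9 * z ^ 2 = y ^ 7 := by linear_combination y ^ 7 * (y * z + 1) * H
  have m2 : y ^ 6 * z ^ 4 = y ^ 2 := by
    linear_combination y ^ 2 * ((y * z) ^ 3 + (y * z) ^ 2 + y * z + 1) * H
  have m3 : y ^ 3 * z ^ 6 = z ^ 3 := by linear_combination z ^ 3 * ((y * z) ^ 2 + y * z + 1) * H
  have c12 : coeff (n * 11) (d * y ^ 12) = 0 := by rw [g12]; exact coeff_theta_zero _ n
  have c7 : coeff (n * 11) (d * y ^ 7) = 0 := by rw [g7]; exact coeff_theta_zero _ n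
  have c2 : coeff (n * 11) (d * y ^ 2) = 0 := by rw [g2]; exact coeff_theta_zero _ n
  have c3 : coeff (n * 11) (d * z ^ 3) = 0 := by rw [f3]; exact coeff_theta_zero _ n
  have c8 : coeff (n * 11) (d * z ^ 8) = 0 := by rw [f8]; exact coeff_theta_zero _ n
  interval_cases i
  · rw [pow_one]
    exact c12
  · have e : d ^ 2 * y ^ (15 - 3 * 2) = d * y ^ 12 - d * y ^ 7 := by
      show d ^ 2 * y ^ 9 = _
      linear_combination d * y ^ 9 * hd - d * m1
    rw [e, map_sub, c12, c7, sub_zero]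
  · have e : d ^ 3 * y ^ (15 - 3 * 3) = d * y ^ 12 - 2 * (d * y ^ 7) + d * y ^ 2 := by
      show d ^ 3 * y ^ 6 = _
      linear_combination d * (d + (y ^ 3 - z ^ 2)) * y ^ 6 * hd + d * (-2 * m1 + m2)
    rw [e, map_add, map_sub, coeff_ofNat_mul, c12, c7, c2]
    ring
  · have e : d ^ 4 * y ^ (15 - 3 * 4) =
        d * y ^ 12 - 3 * (d * y ^ 7) + 3 * (d * y ^ 2) - d * z ^ 3 := by
      show d ^ 4 * y ^ 3 = _
      linear_combination d * (d ^ 2 + d * (y ^ 3 - z ^ 2) + (y ^ 3 - z ^ 2) ^ 2) * y ^ 3 * hd +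
        d * (-3 * m1 + 3 * m2 - m3)
    rw [e, map_sub, map_add, map_sub, coeff_ofNat_mul, coeff_ofNat_mul, c12, c7, c2, c3]
    ring
  · have e : d ^ 5 * y ^ (15 - 3 * 5) =
        d * y ^ 12 - 4 * (d * y ^ 7) + 6 * (d * y ^ 2) - 4 * (d * z ^ 3) + d * z ^ 8 := by
      show d ^ 5 * y ^ 0 = _
      rw [pow_zero, mul_one]
      linear_combination d * (d ^ 3 + d ^ 2 * (y ^ 3 - z ^ 2) + d * (y ^ 3 - z ^ 2) ^ 2 +
        (y ^ 3 - z ^ 2) ^ 3) * hd + d * (-4 * m1 + 6 * m2 - 4 * m3)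
    rw [e, map_add, map_sub, map_add, map_sub, coeff_ofNat_mul, coeff_ofNat_mul, coeff_ofNat_mul,
      c12, c7, c2, c3, c8]
    ring

/-- the integral basis of the cusp forms of weight `60` -/
def bas (i : ℕ) : ℤ⟦X⟧ := deltaZ ^ i * e4 ℤ ^ (15 - 3 * i)

/-- the lattice spanned by the basis -/
def B : Submodule ℤ ℤ⟦X⟧ := Submodule.span ℤ (bas '' Set.Icc 1 5)

theorem coeff_smulZ (a : ℤ) (x : ℤ⟦X⟧) (n : ℕ) : coeff n (a • x) = a * coeff n x :=
  (map_zsmul (coeff n) a x).trans (smul_eq_mul _ _)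

theorem isOne_of_mem {s : ℤ⟦X⟧} (hs : s ∈ B) : IsOne 60 (s.map (Int.castRingHom ℚ)) := by
  induction hs using Submodule.span_induction with
  | mem x hx =>
    obtain ⟨i, ⟨h1, h5⟩, rfl⟩ := hx
    rw [bas, map_mul, map_pow, map_pow, map_e4]
    exact ((isOne_delta.pow i).mul (isOne_e4.pow (15 - 3 * i))).cast (by omega)
  | zero => rw [map_zero]; exact IsOne.zero 60
  | add x y _ _ hx hy => rw [map_add]; exact hx.add hy
  | smul a x _ hx =>
    have : (a • x).map (Int.castRingHom ℚ) = C (a : ℚ) * x.map (Int.castRingHom ℚ) := by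
      ext n
      rw [coeff_map, coeff_smulZ, coeff_C_mul, coeff_map, map_mul]
      rfl
    rw [this]
    exact hx.C_mul a

theorem dvd_of_mem {s : ℤ⟦X⟧} (hs : s ∈ B) (n : ℕ) : (11 : ℤ) ∣ coeff (n * 11) s := by
  induction hs using Submodule.span_induction with
  | mem x hx =>
    obtain ⟨i, ⟨h1, h5⟩, rfl⟩ := hx
    apply (ZMod.intCast_zmod_eq_zero_iff_dvd _ 11).mp
    rw [← coeff_basis n h1 h5, bas]
    have : (deltaZ ^ i * e4 ℤ ^ (15 - 3 * i)).map (Int.castRingHom (ZMod 11)) =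
        delta (ZMod 11) ^ i * e4 (ZMod 11) ^ (15 - 3 * i) := by
      rw [map_mul, map_pow, map_pow, map_e4]
      rfl
    rw [← this, coeff_map]
    rfl
  | zero => rw [map_zero]; exact dvd_zero _
  | add x y _ _ hx hy => rw [map_add]; exact dvd_add hx hy
  | smul a x _ hx => rw [coeff_smulZ]; exact hx.mul_left a

theorem bas_eq (i : ℕ) : ∃ u : ℤ⟦X⟧, bas i = X ^ i * u ∧ coeff 0 u = 1 := by
  refine ⟨(ModularCurve.etaProd ^ 24) ^ i * e4 ℤ ^ (15 - 3 * i), ?_, ?_⟩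
  · rw [bas, deltaZ_eq, mul_pow]
    ring
  · have h := coeff_one_deltaZ
    rw [deltaZ_eq, coeff_succ_X_mul] at h
    rw [coeff_zero_mul', coeff_zero_pow' _ i, coeff_zero_pow' _ (15 - 3 * i), h, coeff_zero_e4]
    norm_num

theorem coeff_bas_lt {i n : ℕ} (h : n < i) : coeff n (bas i) = 0 := by
  obtain ⟨u, hu, _⟩ := bas_eq i
  rw [hu, coeff_X_pow_mul', if_neg (by omega)]

theorem coeff_bas_self (i : ℕ) : coeff i (bas i) = 1 := by
  obtain ⟨u, hu, h1⟩ := bas_eq i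
  rw [hu, coeff_X_pow_mul', if_pos le_rfl, Nat.sub_self, h1]

theorem coeff_zero_of_mem {s : ℤ⟦X⟧} (hs : s ∈ B) : coeff 0 s = 0 := by
  induction hs using Submodule.span_induction with
  | mem x hx =>
    obtain ⟨i, ⟨h1, h5⟩, rfl⟩ := hx
    exact coeff_bas_lt (by omega)
  | zero => rw [map_zero]
  | add x y _ _ hx hy => rw [map_add, hx, hy, add_zero]
  | smul a x _ hx => rw [coeff_smulZ, hx, mul_zero]

/-- triangular elimination -/
theorem exists_span {f : ℤ⟦X⟧} (hf0 : coeff 0 f = 0) (hf : ∀ n ≤ 5, (11 : ℤ) ∣ coeff n f) (m : ℕ)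
    (hm : m ≤ 5) : ∃ s ∈ B, ∀ n ≤ m, coeff n f = 11 * coeff n s := by
  induction m with
  | zero =>
    refine ⟨0, B.zero_mem, fun n hn ↦ ?_⟩
    obtain rfl : n = 0 := by omega
    rw [hf0, map_zero, mul_zero]
  | succ m ih =>
    obtain ⟨s, hs, h⟩ := ih (by omega)
    obtain ⟨r, hr⟩ := hf (m + 1) hm
    refine ⟨s + (r - coeff (m + 1) s) • bas (m + 1), B.add_mem hs (B.smul_mem _
      (Submodule.subset_span ⟨m + 1, ⟨by omega, hm⟩, rfl⟩)), fun n hn ↦ ?_⟩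
    rw [map_add, coeff_smulZ]
    rcases Nat.lt_or_ge n (m + 1) with hlt | hge
    · rw [coeff_bas_lt hlt, mul_zero, add_zero]
      exact h n (by omega)
    · obtain rfl : n = m + 1 := by omega
      rw [coeff_bas_self, hr]
      ring

theorem eleven_dvd (n : ℕ) : (11 : ℤ) ∣ coeff (n * 11) (deltaZ ^ 5) := by
  have h : bas 5 ∈ B := Submodule.subset_span ⟨5, ⟨by norm_num, le_rfl⟩, rfl⟩
  have h1 := dvd_of_mem h n
  rw [bas] at h1
  simpa using h1

theorem coeff_zero_delta_pow : coeff 0 (deltaZ ^ 5) = 0 := by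
  rw [coeff_zero_pow', coeff_zero_deltaZ, zero_pow (by norm_num)]

/-- the Hecke operator `T₁₁` on `Δ ^ 5` -/
theorem hecke_eleven : ∃ s ∈ B, ∀ n, coeff (n * 11) (deltaZ ^ 5) + 11 ^ 59 *
    (if 11 ∣ n then coeff (n / 11) (deltaZ ^ 5) else 0) = 11 * coeff n s := by
  have hp : Nat.Prime 11 := by norm_num
  have hpN : ¬ 11 ∣ 1 := by norm_num
  obtain ⟨f, hf⟩ := exists_cusp (k := 60) (φ := deltaZ ^ 5) (by
    rw [map_pow]
    exact (isOne_delta.pow 5).cast (by norm_num)) coeff_zero_delta_pow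
  have hT : ∀ n, qCoeff ⇑(CuspForm.heckeTLin 60 hp hpN f) n =
      ((coeff (n * 11) (deltaZ ^ 5) + 11 ^ 59 *
        (if 11 ∣ n then coeff (n / 11) (deltaZ ^ 5) else 0) : ℤ) : ℂ) := by
    intro n
    rw [qCoeff_heckeTLin, coeffHeckeT_apply, hf, hf]
    split_ifs
    · push_cast
      norm_num
    · push_cast
      ring
  set g : ℤ⟦X⟧ := PowerSeries.mk fun n ↦ coeff (n * 11) (deltaZ ^ 5) + 11 ^ 59 *
    (if 11 ∣ n then coeff (n / 11) (deltaZ ^ 5) else 0) with hg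
  have hgc : ∀ n, coeff n g = coeff (n * 11) (deltaZ ^ 5) + 11 ^ 59 *
    (if 11 ∣ n then coeff (n / 11) (deltaZ ^ 5) else 0) := fun n ↦ by rw [hg, coeff_mk]
  have hg0 : coeff 0 g = 0 := by
    rw [hgc, Nat.zero_div, zero_mul, coeff_zero_delta_pow]
    simp
  have hg11 : ∀ n ≤ 5, (11 : ℤ) ∣ coeff n g := by
    intro n _
    rw [hgc]
    exact dvd_add (eleven_dvd n) (Dvd.dvd.mul_right ⟨11 ^ 58, by norm_num⟩ _)
  obtain ⟨s, hs, h⟩ := exists_span hg0 hg11 5 le_rfl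
  refine ⟨s, hs, fun n ↦ ?_⟩
  obtain ⟨F, hF⟩ := exists_cusp (isOne_of_mem hs) (coeff_zero_of_mem hs)
  have h0 : CuspForm.heckeTLin 60 hp hpN f - (11 : ℂ) • F = 0 := by
    apply cusp_eq_zero_of_qCoeff
    intro m hm
    rw [index_one] at hm
    have hm5 : m ≤ 5 := hm.trans (by decide)
    rw [cusp_qCoeff_sub, cusp_qCoeff_smul, hT, hF, ← hgc, h m hm5]
    push_cast
    ring
  have h1 : qCoeff ⇑(CuspForm.heckeTLin 60 hp hpN f - (11 : ℂ) • F) n = 0 := by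
    rw [h0]
    exact (qCoeffLin 1 60 n).map_zero
  rw [cusp_qCoeff_sub, cusp_qCoeff_smul, hT, hF] at h1
  have h2 : ((coeff (n * 11) (deltaZ ^ 5) + 11 ^ 59 *
      (if 11 ∣ n then coeff (n / 11) (deltaZ ^ 5) else 0) - 11 * coeff n s : ℤ) : ℂ) = 0 := by
    rw [← h1]
    push_cast
    ring
  have h3 : coeff (n * 11) (deltaZ ^ 5) + 11 ^ 59 *
      (if 11 ∣ n then coeff (n / 11) (deltaZ ^ 5) else 0) - 11 * coeff n s = 0 := by
    exact_mod_cast h2
  linear_combination h3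

/-- **Ramanujan**: `p(121 n + 116) ≡ 0` modulo `121`. -/
theorem partition_121 (n : ℕ) : 121 ∣ Fintype.card (Nat.Partition (121 * n + 116)) := by
  obtain ⟨s, hs, h⟩ := hecke_eleven
  set V : ℤ⟦X⟧ := expand 11 (by norm_num) (deltaZ ^ 5) with hV
  set F : ℤ⟦X⟧ := s - ((11 ^ 58 : ℕ) : ℤ⟦X⟧) * V with hFd
  have hU : Uop 11 (deltaZ ^ 5) = ((11 : ℕ) : ℤ⟦X⟧) * F := by
    ext m
    have hm := h m
    rw [coeff_Uop, coeff_nat_mul, hFd, map_sub, coeff_nat_mul, hV, coeff_expand]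
    push_cast
    linear_combination hm
  refine partition_sq 11 (k := 5) (by norm_num) hU ?_ (n := 121 * n + 116) (m := n + 1) (by ring)
  rw [dvd_iff_coeff]
  intro m
  rw [coeff_Uop, hFd, map_sub, coeff_nat_mul]
  have e3 : (11 : ℤ) ∣ ((11 ^ 58 : ℕ) : ℤ) * coeff (m * 11) V :=
    Dvd.dvd.mul_right ⟨11 ^ 57, by norm_num⟩ _
  exact dvd_sub (dvd_of_mem hs m) e3

end

end Fermat.Agent.Cor.PartEleven
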