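import Fermat.Agent.Cor.JBijective
import Fermat.Agent.ES.JInj

/-!
# Picard's little theorem by the modular function `j`

This file is not used by any of the statement files.

* `isCoveringMapOn_jfun`: the modular function `j : ℍ → ℂ` is a covering map over `ℂ ∖ {0, 1728}`;
* `picard_little`: an entire function which omits two values is constant.

The proof: an entire function with values in `ℂ ∖ {0, 1728}` lifts to an entire function with values
in the upper half plane, and such a function is constant by Liouville's theorem.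
-/

set_option autoImplicit false

noncomputable section

namespace Fermat.Agent.Cor.Picard

open UpperHalfPlane hiding I
open MatrixGroups Topology Filter
open Fermat.Agent.H18 (jfun)

/-- the group of transformations of the upper half plane given by `SL₂(ℤ)` -/
def PG : Subgroup (Equiv.Perm ℍ) := (MulAction.toPermHom SL(2, ℤ) ℍ).range

/-- the transformation of `γ` -/
def pg (γ : SL(2, ℤ)) : PG := ⟨MulAction.toPermHom SL(2, ℤ) ℍ γ, γ, rfl⟩

theorem pg_smul (γ : SL(2, ℤ)) (τ : ℍ) : pg γ • τ = γ • τ := rfl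

theorem exists_pg (g : PG) : ∃ γ : SL(2, ℤ), g = pg γ := by
  obtain ⟨_, γ, rfl⟩ := g
  exact ⟨γ, rfl⟩

theorem continuous_smul (γ : SL(2, ℤ)) : Continuous fun z : ℍ => γ • z :=
  (continuous_const_smul (Matrix.SpecialLinearGroup.mapGL ℝ γ) : Continuous fun z : ℍ =>
    Matrix.SpecialLinearGroup.mapGL ℝ γ • z)

instance : ContinuousConstSMul PG ℍ := ⟨fun g => by
  obtain ⟨γ, rfl⟩ := exists_pg g
  exact continuous_smul γ⟩

instance : ProperlyDiscontinuousSMul PG ℍ := ⟨by
  intro K L hK hL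
  have h := ProperlyDiscontinuousSMul.finite_disjoint_inter_image (Γ := 𝒮ℒ) hK hL
  let φ : 𝒮ℒ → PG := fun A => pg A.2.choose
  refine (h.image φ).subset ?_
  intro g hg
  obtain ⟨γ, rfl⟩ := exists_pg g
  refine ⟨⟨_, γ, rfl⟩, hg, ?_⟩
  apply Subtype.ext
  apply Equiv.ext
  intro τ
  have h1 := (⟨_, γ, rfl⟩ : 𝒮ℒ).2.choose_spec
  have h2 := congrArg (fun A : GL (Fin 2) ℝ => A • τ) h1
  exact h2⟩

theorem jfun_eq_iff {τ τ' : ℍ} : jfun τ = jfun τ' ↔ τ ∈ MulAction.orbit PG τ' := by
  constructor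
  · intro h
    obtain ⟨γ, hγ⟩ := CM.j_eq_iff.mp (h : CM.j τ = CM.j τ')
    exact ⟨pg γ, hγ.symm⟩
  · rintro ⟨g, rfl⟩
    obtain ⟨γ, rfl⟩ := exists_pg g
    exact CM.j_smul γ τ'

theorem stabilizer_eq_bot {τ : ℍ} (h0 : jfun τ ≠ 0) (h1 : jfun τ ≠ 1728) :
    MulAction.stabilizer PG τ = ⊥ := by
  rw [Subgroup.eq_bot_iff_forall]
  intro g hg
  obtain ⟨γ, rfl⟩ := exists_pg g
  have hfix : γ • τ = τ := hg
  obtain ⟨U, hU, hτU, hinj⟩ := ES.jfun_locally_injective τ h0 h1
  have hcont : Continuous fun z : ℍ => γ • z := continuous_smul γ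
  have hV : IsOpen (U ∩ (fun z : ℍ => γ • z) ⁻¹' U) := hU.inter (hU.preimage hcont)
  have hτV : τ ∈ U ∩ (fun z : ℍ => γ • z) ⁻¹' U := ⟨hτU, by show γ • τ ∈ U; rw [hfix]; exact hτU⟩
  have hid : ∀ z ∈ U ∩ (fun z : ℍ => γ • z) ⁻¹' U, γ • z = z := fun z hz =>
    hinj hz.2 hz.1 (CM.j_smul γ z)
  -- the quadratic equation of a fixed point
  have hquad : ∀ z : ℍ, γ • z = z → (γ 1 0 : ℂ) * z ^ 2 + (γ 1 1 - γ 0 0) * z - γ 0 1 = 0 := by
    intro z hz
    have h2 := congrArg UpperHalfPlane.coe hz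
    rw [UpperHalfPlane.coe_specialLinearGroup_apply] at h2
    have h3 : ((γ 1 0 : ℤ) : ℂ) * z + ((γ 1 1 : ℤ) : ℂ) ≠ 0 := by
      have := denom_ne_zero γ z
      rwa [ModularGroup.denom_apply] at this
    simp only [algebraMap_int_eq, eq_intCast, Complex.ofReal_intCast] at h2
    rw [div_eq_iff h3] at h2
    linear_combination -h2
  -- a second fixed point
  obtain ⟨z, hzV, hne⟩ : ∃ z ∈ U ∩ (fun z : ℍ => γ • z) ⁻¹' U, z ≠ τ := by
    have hW : IsOpen (UpperHalfPlane.coe '' (U ∩ (fun z : ℍ => γ • z) ⁻¹' U)) :=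
      UpperHalfPlane.isOpenEmbedding_coe.isOpenMap _ hV
    have hinf := infinite_of_mem_nhds (τ : ℂ) (hW.mem_nhds ⟨τ, hτV, rfl⟩)
    obtain ⟨w, ⟨z, hz, rfl⟩, hw⟩ := hinf.exists_notMem_finset {(τ : ℂ)}
    refine ⟨z, hz, fun h => hw ?_⟩
    rw [h]
    exact Finset.mem_singleton_self _
  have q1 := hquad τ hfix
  have q2 := hquad z (hid z hzV)
  have hc : γ 1 0 = 0 := by
    have hne' : (z : ℂ) - τ ≠ 0 := sub_ne_zero.mpr fun h => hne (UpperHalfPlane.ext h)
    have h3 : (γ 1 0 : ℂ) * (z + τ) + (γ 1 1 - γ 0 0) = 0 := by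
      apply mul_left_cancel₀ hne'
      linear_combination q2 - q1
    have h4 := congrArg Complex.im h3
    simp only [Complex.add_im, Complex.mul_im, Complex.intCast_re, Complex.intCast_im, zero_mul,
      add_zero, Complex.zero_im, Complex.sub_im, sub_zero] at h4
    rcases mul_eq_zero.mp h4 with h | h
    · exact_mod_cast h
    · exfalso
      have h5 := τ.im_pos
      have h6 := z.im_pos
      change z.im + τ.im = 0 at h
      linarith
  rw [hc] at q1
  obtain ⟨m1, m2⟩ := CM.eq_zero_of_lin (τ := τ) (m := γ 1 1 - γ 0 0) (n := -γ 0 1) (by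
    push_cast at q1 ⊢
    linear_combination q1)
  have hdet := Matrix.det_fin_two (γ : Matrix (Fin 2) (Fin 2) ℤ)
  rw [γ.2, hc] at hdet
  have hd0 : γ 1 1 ≠ 0 := by
    intro h
    rw [h] at hdet
    simp at hdet
  apply Subtype.ext
  apply Equiv.ext
  intro w
  show γ • w = w
  apply UpperHalfPlane.ext
  rw [UpperHalfPlane.coe_specialLinearGroup_apply]
  have h7 : γ 0 0 = γ 1 1 := by linarith
  have h8 : γ 0 1 = 0 := by linarith
  have h9 : ((γ 1 1 : ℤ) : ℂ) ≠ 0 := by exact_mod_cast hd0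
  simp only [algebraMap_int_eq, eq_intCast, Complex.ofReal_intCast, hc, h7, h8, Int.cast_zero,
    Complex.ofReal_zero, zero_mul, zero_add, add_zero]
  rw [mul_div_assoc, mul_comm, div_mul_cancel₀ _ h9]

/-- the complement of the two branch points -/
def U0 : Set ℂ := {w | w ≠ 0 ∧ w ≠ 1728}

/-- **`j` is a covering outside of the elliptic points.** -/
theorem isCoveringMapOn_jfun : IsCoveringMapOn jfun U0 := by
  have hq : IsQuotientMap jfun :=
    ES.isOpenMap_jfun.isQuotientMap ES.continuous_jfun H18.jfun_surjective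
  refine (hq.isCoveringMapOn_of_properlyDiscontinuousSMul (G := PG) jfun_eq_iff).mono ?_
  rintro w ⟨h0, h1⟩
  obtain ⟨τ, rfl⟩ := H18.jfun_surjective w
  exact ⟨τ, stabilizer_eq_bot h0 h1, rfl⟩

/-- maps to the complement of the two branch points lift to the upper half plane -/
theorem exists_lift (f : C(ℂ, ℂ)) (hf : ∀ z, f z ∈ U0) :
    ∃ F : ℂ → ℍ, Continuous F ∧ ∀ z, jfun (F z) = f z := by
  have hcov := isCoveringMapOn_jfun.isCoveringMap_restrictPreimage
  let g : C(ℂ, U0) := ⟨fun z => ⟨f z, hf z⟩, f.continuous.subtype_mk _⟩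
  obtain ⟨τ, hτ⟩ := H18.jfun_surjective (f 0)
  have hτU : τ ∈ jfun ⁻¹' U0 := by
    show jfun τ ∈ U0
    rw [hτ]; exact hf 0
  obtain ⟨F, ⟨-, hF⟩, -⟩ := hcov.existsUnique_continuousMap_lifts g 0 ⟨τ, hτU⟩ (Subtype.ext hτ)
  refine ⟨fun z => (F z).1, continuous_subtype_val.comp F.continuous, fun z => ?_⟩
  have := congrFun hF z
  exact congrArg Subtype.val this

/-- the lift of an analytic function is analytic -/
theorem differentiable_lift {f : ℂ → ℂ} (hf : Differentiable ℂ f) (h0 : ∀ z, f z ∈ U0) {F : ℂ → ℍ}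
    (hF : Continuous F) (hj : ∀ z, jfun (F z) = f z) : Differentiable ℂ fun z => (F z : ℂ) := by
  intro z
  obtain ⟨h1, h2⟩ := h0 z
  rw [← hj z] at h1 h2
  have h4 : ModularForm.E₄ (F z) ≠ 0 := fun h => h1 ((ES.jfun_eq_zero_iff _).mpr h)
  have h6 : ModularForm.E₆ (F z) ≠ 0 := fun h => h2 ((ES.jfun_eq_1728_iff _).mpr h)
  have hd := H18.deriv_jfun_ne_zero (F z) h4 h6
  have hs : HasStrictDerivAt (jfun ∘ ofComplex) (deriv (jfun ∘ ofComplex) (F z)) (F z) :=
    (ES.jfun_analytic (F z) (F z).im_pos).hasStrictDerivAt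
  set φ : ℂ → ℂ := hs.localInverse (jfun ∘ ofComplex) _ _ hd with hφ
  have hφd := hs.to_localInverse hd
  have hcomp : (jfun ∘ ofComplex) (F z) = f z := by
    rw [Function.comp_apply, ofComplex_apply, hj]
  rw [hcomp] at hφd
  have hleft := hs.eventually_left_inverse hd
  have hcontF : ContinuousAt (fun w => (F w : ℂ)) z :=
    (UpperHalfPlane.continuous_coe.comp hF).continuousAt
  have hev : (fun w => (F w : ℂ)) =ᶠ[𝓝 z] fun w => φ (f w) := by
    filter_upwards [hcontF.eventually hleft] with w hw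
    rw [Function.comp_apply, ofComplex_apply, hj] at hw
    exact hw.symm
  exact (hφd.hasDerivAt.comp z (hf z).hasDerivAt).differentiableAt.congr_of_eventuallyEq hev

/-- an entire function with values in the upper half plane is constant -/
theorem const_of_upper {F : ℂ → ℍ} (hF : Differentiable ℂ fun z => (F z : ℂ)) (z w : ℂ) :
    F z = F w := by
  have hne : ∀ z, (F z : ℂ) + Complex.I ≠ 0 := by
    intro z h
    have := congrArg Complex.im h
    simp only [Complex.add_im, Complex.I_im, Complex.zero_im] at this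
    have h2 := (F z).im_pos
    change (F z).im + 1 = 0 at this
    linarith
  have hdiff : Differentiable ℂ fun z => ((F z : ℂ) + Complex.I)⁻¹ :=
    (hF.add_const _).inv hne
  have hbdd : Bornology.IsBounded (Set.range fun z => ((F z : ℂ) + Complex.I)⁻¹) := by
    rw [isBounded_iff_forall_norm_le]
    refine ⟨1, ?_⟩
    rintro _ ⟨z, rfl⟩
    have h2 := (F z).im_pos
    have h3 : 1 ≤ ‖(F z : ℂ) + Complex.I‖ := by
      calc (1 : ℝ) ≤ |((F z : ℂ) + Complex.I).im| := by
            simp only [Complex.add_im, Complex.I_im]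
            change 1 ≤ |(F z).im + 1|
            rw [abs_of_pos (by linarith)]
            linarith
        _ ≤ _ := Complex.abs_im_le_norm _
    simp only [norm_inv]
    exact inv_le_one_of_one_le₀ h3
  have key := hdiff.apply_eq_apply_of_bounded hbdd z w
  apply UpperHalfPlane.ext
  have := inv_injective key
  exact add_right_cancel this

/-- Picard's little theorem for the values `0`, `1728` -/
theorem picard_aux {f : ℂ → ℂ} (hf : Differentiable ℂ f) (h0 : ∀ z, f z ∈ U0) (z w : ℂ) :
    f z = f w := by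
  obtain ⟨F, hFc, hFj⟩ := exists_lift ⟨f, hf.continuous⟩ h0
  have hFd := differentiable_lift hf h0 hFc hFj
  have h1 := hFj z
  have h2 := hFj w
  rw [const_of_upper hFd z w] at h1
  exact h1.symm.trans h2

/-- **Picard's little theorem**: an entire function which omits two values is constant. -/
theorem picard_little {f : ℂ → ℂ} (hf : Differentiable ℂ f) {a b : ℂ} (hab : a ≠ b)
    (ha : ∀ z, f z ≠ a) (hb : ∀ z, f z ≠ b) (z w : ℂ) : f z = f w := by
  have hba : b - a ≠ 0 := sub_ne_zero.mpr hab.symm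
  have key := picard_aux (f := fun z => 1728 * ((f z - a) / (b - a)))
    (((hf.sub_const a).div_const (b - a)).const_mul 1728) (fun z => by
      refine ⟨mul_ne_zero (by norm_num) (div_ne_zero (sub_ne_zero.mpr (ha z)) hba), ?_⟩
      intro h
      apply hb z
      have h1 : (f z - a) / (b - a) = 1 := by
        apply mul_left_cancel₀ (by norm_num : (1728 : ℂ) ≠ 0)
        rw [h, mul_one]
      rw [div_eq_one_iff_eq hba] at h1
      exact sub_left_injective h1) z w
  have h1 := mul_left_cancel₀ (by norm_num : (1728 : ℂ) ≠ 0) key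
  rw [div_left_inj' hba] at h1
  exact sub_left_injective h1

end Fermat.Agent.Cor.Picard
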