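import Fermat.Agent.Cor.Picard

/-!
# Two applications of Picard's little theorem

This file is not used by any of the statement files.

* `exp_add_exp`: if `f`, `g` are entire functions with `exp f + exp g = 1`, then `f` and `g` are constant;
* `exists_eq_add_of_no_fixed`: if `f` is an entire function such that `f ∘ f` has no fixed point, then
  `f` is a translation.
-/

set_option autoImplicit false

noncomputable section

namespace Fermat.Agent.Cor.Picard

/-- an entire function whose exponential is constant is constant -/
theorem const_of_exp {f : ℂ → ℂ} (hf : Differentiable ℂ f)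
    (h : ∀ z w, Complex.exp (f z) = Complex.exp (f w)) (z w : ℂ) : f z = f w := by
  refine is_const_of_deriv_eq_zero hf (fun z => ?_) z w
  have h1 : HasDerivAt (fun z => Complex.exp (f z)) (Complex.exp (f z) * deriv f z) z :=
    (hf z).hasDerivAt.cexp
  have h2 : HasDerivAt (fun z => Complex.exp (f z)) 0 z := by
    have : (fun z => Complex.exp (f z)) = fun _ => Complex.exp (f 0) := funext fun z => h z 0
    rw [this]
    exact hasDerivAt_const z _
  exact (mul_eq_zero.mp (h1.unique h2)).resolve_left (Complex.exp_ne_zero _)

/-- **The unit equation for entire functions without zeros.** -/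
theorem exp_add_exp {f g : ℂ → ℂ} (hf : Differentiable ℂ f) (hg : Differentiable ℂ g)
    (h : ∀ z, Complex.exp (f z) + Complex.exp (g z) = 1) :
    (∀ z w, f z = f w) ∧ ∀ z w, g z = g w := by
  have key : ∀ {f g : ℂ → ℂ}, Differentiable ℂ f →
      (∀ z, Complex.exp (f z) + Complex.exp (g z) = 1) → ∀ z w, f z = f w := by
    intro f g hf h
    refine const_of_exp hf (picard_little (a := 0) (b := 1) hf.cexp zero_ne_one
      (fun z => Complex.exp_ne_zero _) fun z hz => Complex.exp_ne_zero (g z) ?_)
    have := h z
    rw [hz] at this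
    linear_combination this
  exact ⟨key hf h, key hg fun z => by rw [add_comm]; exact h z⟩

/-- **An entire function `f` such that `f ∘ f` has no fixed point is a translation.** -/
theorem exists_eq_add_of_no_fixed {f : ℂ → ℂ} (hf : Differentiable ℂ f) (h : ∀ z, f (f z) ≠ z) :
    ∃ b : ℂ, b ≠ 0 ∧ ∀ z, f z = z + b := by
  have h1 : ∀ z, f z - z ≠ 0 := by
    intro z hz
    have h2 := sub_eq_zero.mp hz
    apply h z
    rw [h2, h2]
  have hff : Differentiable ℂ fun z => f (f z) := hf.comp hf
  have hconst := picard_little (f := fun z => (f (f z) - z) / (f z - z)) (a := 0) (b := 1)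
    ((hff.sub differentiable_id).div (hf.sub differentiable_id) h1) zero_ne_one
    (fun z => div_ne_zero (sub_ne_zero.mpr (h z)) (h1 z)) (fun z hz => by
      rw [div_eq_one_iff_eq (h1 z)] at hz
      have h2 : f (f z) = f z := sub_left_injective hz
      exact h1 (f z) (by rw [h2, sub_self]))
  set c := (f (f 0) - 0) / (f 0 - 0) with hc
  have hc0 : c ≠ 0 := div_ne_zero (sub_ne_zero.mpr (h 0)) (h1 0)
  have hc1 : c ≠ 1 := by
    intro hc1
    rw [hc, div_eq_one_iff_eq (h1 0)] at hc1
    have h2 : f (f 0) = f 0 := sub_left_injective hc1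
    exact h1 (f 0) (by rw [h2, sub_self])
  have hrel : ∀ z, f (f z) - z = c * (f z - z) := by
    intro z
    have h2 : (f (f z) - z) / (f z - z) = c := hconst z 0
    rw [← h2, div_mul_cancel₀ _ (h1 z)]
  -- differentiate
  have hder : ∀ z, deriv f z * (deriv f (f z) - c) = 1 - c := by
    intro z
    have e1 : HasDerivAt (fun z => f (f z) - z) (deriv f (f z) * deriv f z - 1) z :=
      ((hf (f z)).hasDerivAt.comp z (hf z).hasDerivAt).sub (hasDerivAt_id z)
    have e2 : HasDerivAt (fun z => c * (f z - z)) (c * (deriv f z - 1)) z :=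
      ((hf z).hasDerivAt.sub (hasDerivAt_id z)).const_mul c
    have e3 : (fun z => f (f z) - z) = fun z => c * (f z - z) := funext hrel
    rw [e3] at e1
    have e4 := e1.unique e2
    linear_combination e4
  have hc1' : (1 : ℂ) - c ≠ 0 := sub_ne_zero.mpr hc1.symm
  have hd0 : ∀ z, deriv f z ≠ 0 := by
    intro z hz
    have := hder z
    rw [hz, zero_mul] at this
    exact hc1' this.symm
  have hdc : ∀ z, deriv f (f z) ≠ c := by
    intro z hz
    have := hder z
    rw [hz, sub_self, mul_zero] at this
    exact hc1' this.symm
  have hdd : Differentiable ℂ (deriv f) := by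
    have := (hf.differentiableOn (s := Set.univ)).deriv isOpen_univ
    exact differentiableOn_univ.mp this
  have hk := picard_little (f := fun z => deriv f (f z)) (a := 0) (b := c) (hdd.comp hf) hc0.symm
    (fun z => hd0 (f z)) hdc
  set k := deriv f (f 0) with hkd
  have hkc : k - c ≠ 0 := sub_ne_zero.mpr (hdc 0)
  have hdconst : ∀ z, deriv f z = (1 - c) / (k - c) := by
    intro z
    rw [eq_div_iff hkc]
    have h2 : deriv f (f z) = k := hk z 0
    rw [← h2]
    exact hder z
  set a := (1 - c) / (k - c) with ha
  have hlin : ∀ z, f z - a * z = f 0 - a * 0 := by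
    intro z
    refine is_const_of_deriv_eq_zero (f := fun z => f z - a * z)
      (hf.sub (differentiable_id.const_mul a)) (fun z => ?_) z 0
    have e1 : HasDerivAt (fun z => f z - a * z) (deriv f z - a * 1) z :=
      (hf z).hasDerivAt.sub ((hasDerivAt_id z).const_mul a)
    rw [e1.deriv, hdconst z]
    ring
  have ha1 : a = 1 := by
    by_contra hne
    have hne' : (1 : ℂ) - a ≠ 0 := sub_ne_zero.mpr (Ne.symm hne)
    apply h1 (f 0 / (1 - a))
    have e1 := hlin (f 0 / (1 - a))
    have e2 : f 0 / (1 - a) * (1 - a) = f 0 := div_mul_cancel₀ _ hne'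
    linear_combination e1 - e2
  refine ⟨f 0, ?_, fun z => ?_⟩
  · have := h1 0
    rwa [sub_zero] at this
  · have e1 := hlin z
    rw [ha1] at e1
    linear_combination e1

end Fermat.Agent.Cor.Picard
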