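import Fermat.Agent.Cor.RootsMod

/-!
# Integers which are `ℓ`-th powers modulo almost all primes

`exists_pow_of_mod` : let `ℓ` be a prime number.  An integer which is an `ℓ`-th power modulo all primes
outside a finite set is an `ℓ`-th power.
-/

set_option autoImplicit false

namespace Fermat.Agent.Cor.Cheb

open Polynomial

/-- **an integer which is an `ℓ`-th power modulo almost all primes is an `ℓ`-th power** -/
theorem exists_pow_of_mod {ℓ : ℕ} (hℓ : ℓ.Prime) (a : ℤ) (Z : Finset ℕ)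
    (h : ∀ p : ℕ, p.Prime → p ∉ Z → ∃ n : ℤ, (p : ℤ) ∣ n ^ ℓ - a) : ∃ b : ℤ, b ^ ℓ = a := by
  by_contra hcon
  push Not at hcon
  have hirr : Irreducible (X ^ ℓ - C (a : ℚ)) := by
    refine X_pow_sub_C_irreducible_of_prime hℓ fun b hb => ?_
    have h1 : IsIntegral ℤ (b ^ ℓ) := by
      rw [hb]
      exact isIntegral_algebraMap (x := a)
    obtain ⟨c, hc⟩ := IsIntegrallyClosed.exists_algebraMap_eq_of_isIntegral_pow (R := ℤ)
      hℓ.pos h1
    refine hcon c ?_
    have h2 : ((c : ℤ) : ℚ) = b := hc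
    rw [← h2] at hb
    exact_mod_cast hb
  have hf : (X ^ ℓ - C a : ℤ[X]).Monic := monic_X_pow_sub_C a hℓ.ne_zero
  have hmap : (X ^ ℓ - C a : ℤ[X]).map (Int.castRingHom ℚ) = X ^ ℓ - C (a : ℚ) := by
    simp
  have h1 := natDegree_eq_one_of_roots _ hf (by rw [hmap]; exact hirr) Z (fun p hp hpZ => by
    obtain ⟨n, hn⟩ := h p hp hpZ
    exact ⟨n, by simpa using hn⟩)
  rw [natDegree_X_pow_sub_C] at h1
  exact hℓ.one_lt.ne' h1

/-- an integer which is a square modulo almost all primes is a square -/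
theorem isSquare_of_mod (a : ℤ) (Z : Finset ℕ)
    (h : ∀ p : ℕ, p.Prime → p ∉ Z → IsSquare (a : ZMod p)) : IsSquare a := by
  obtain ⟨b, hb⟩ := exists_pow_of_mod Nat.prime_two a Z (fun p hp hpZ => by
    obtain ⟨x, hx⟩ := h p hp hpZ
    obtain ⟨n, rfl⟩ := ZMod.intCast_surjective x
    refine ⟨n, ?_⟩
    rw [← ZMod.intCast_zmod_eq_zero_iff_dvd]
    push_cast
    rw [hx, sq, sub_self])
  exact ⟨b, by rw [← hb, sq]⟩

end Fermat.Agent.Cor.Cheb
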