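import Fermat.Agent.Cor.SemistableTable
import Fermat.Agent.Cor.HeckeDuality

/-!
# The Hecke algebra of weight two and prime level

Let `N` be a prime number and `g` the genus of `X₀(N)`.

* `isNewform`: the normalised eigenforms of level `N` are newforms; there are exactly `g` of them (`card_eigenforms`)
  and they are a basis of `S₂(Γ₀(N))` (`span_eigenforms`);
* `card_hom`: the Hecke algebra `T` (generated by all `T_ℓ` and `U_N`) has exactly `g` ring homomorphisms to `ℂ`;
* `isReduced`, `isReduced_lattice`: `T` is reduced;
* `charpoly_eq`: the characteristic polynomial of `T_ℓ` is `∏ (X - a_ℓ(f))`, the product over the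
  normalised eigenforms.

This file is not used by any of the statement files.
-/

set_option autoImplicit false

namespace Fermat.Agent.Cor.PrimeLevel

open ModularCurve ModularFormClass CongruenceSubgroup

variable {N : ℕ} [hN : Fact N.Prime]

/-- at prime level all normalised eigenforms are newforms -/
theorem isNewform {f : CuspForm (Gamma0 N) 2} (hf : f.IsNormalizedEigenform) : f.IsNewform := by
  refine ⟨hf, fun M hM hne => ?_⟩
  rintro ⟨h, hh, -⟩
  have h1 : M = 1 := ((Nat.dvd_prime hN.out).mp hM).resolve_right hne
  subst h1
  exact Fermat.Agent.Main.not_isNormalizedEigenform Fermat.Agent.Main.genus_one h hh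

/-- the number of newforms of prime level is the genus -/
theorem newformCount_eq : (NewformCount.newformCount N : ℚ) = genusFormula N := by
  have h1 : NewformCount.newformCount 1 = 0 :=
    NewformCount.newformCount_eq_of (c := 0) (by decide +kernel)
  rw [NewformCount.genusFormula_eq_sum, Nat.Prime.divisors hN.out,
    Finset.sum_pair hN.out.one_lt.ne, h1, Nat.div_self hN.out.pos]
  simp

/-- **The number of normalised eigenforms of prime level is the genus of `X₀(N)`.** -/
theorem card_eigenforms :
    (Nat.card {f : CuspForm (Gamma0 N) 2 // f.IsNormalizedEigenform} : ℚ) = genusFormula N := by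
  rw [← newformCount_eq, NewformCount.newformCount]
  congr 1
  exact Nat.card_congr (Equiv.subtypeEquivRight fun f => ⟨isNewform, fun h => h.1⟩)

/-- **The number of complex characters of the Hecke algebra** -/
theorem card_hom : (Nat.card (CuspForm.heckeAlgebra N 2 ∅ →+* ℂ) : ℚ) = genusFormula N := by
  rw [← card_eigenforms]
  congr 1
  exact Nat.card_congr (Duality.eigenformEquiv N).symm

/-- **The normalised eigenforms of prime level are a basis** (for the linear independence see
`H14.linearIndependent_eigenforms`). -/
theorem span_eigenforms : Submodule.span ℂ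
    (Set.range fun f : {f : CuspForm (Gamma0 N) 2 // f.IsNormalizedEigenform} =>
      (f : CuspForm (Gamma0 N) 2)) = ⊤ := by
  have hfin : Fintype {f : CuspForm (Gamma0 N) 2 // f.IsNormalizedEigenform} := Fintype.ofFinite _
  have hfd : FiniteDimensional ℂ (CuspForm (Gamma0 N) 2) :=
    Fermat.Agent.H22.finiteDimensional_cuspForm N 2
  refine (H14.linearIndependent_eigenforms N).span_eq_top_of_card_eq_finrank' ?_
  have h1 := card_eigenforms (N := N)
  rw [Nat.card_eq_fintype_card, ← Fermat.Agent.S20.result N] at h1
  exact_mod_cast h1

/-- an element of the Hecke algebra killed by all characters is zero -/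
theorem eq_zero_of_forall (t : CuspForm.heckeAlgebra N 2 ∅)
    (h : ∀ (f : CuspForm (Gamma0 N) 2) (hf : f.IsNormalizedEigenform),
      H23.eigenCharC hf ∅ t = 0) : t = 0 := by
  apply Subtype.ext
  apply LinearMap.ext_on_range (span_eigenforms (N := N))
  intro f
  rw [H23.apply_eq_smul f.2 ∅ t, ← H23.eigenCharC_apply f.2, h f.1 f.2, zero_smul]
  rfl

/-- **The Hecke algebra of prime level is reduced.** -/
theorem isReduced : IsReduced (CuspForm.heckeAlgebra N 2 ∅) where
  eq_zero t ht := by
    obtain ⟨n, hn⟩ := ht
    refine eq_zero_of_forall t fun f hf => ?_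
    have h1 := congrArg (H23.eigenCharC hf ∅) hn
    rw [map_pow, map_zero] at h1
    exact IsReduced.eq_zero _ ⟨n, h1⟩

/-- the Hecke algebra of the integral forms is reduced -/
theorem isReduced_lattice : IsReduced (CuspForm.heckeLatticeAlgebra N ∅) := by
  have h := isReduced (N := N)
  let e : CuspForm.heckeAlgebra N 2 ∅ ≃+* CuspForm.heckeLatticeAlgebra N ∅ :=
    RingEquiv.ofBijective (CuspForm.latticeRestrictHom N ∅)
      (CuspForm.latticeRestrictHom_bijective N ∅ (S23.result N))
  exact isReduced_of_injective e.symm e.symm.injective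

/-- **The characteristic polynomial of `T_ℓ`** on the integral forms is `∏ (X - a_ℓ(f))`. -/
theorem charpoly_eq [Fintype {f : CuspForm (Gamma0 N) 2 // f.IsNormalizedEigenform}] {ℓ : ℕ}
    (hℓ : ℓ.Prime) (hℓN : ¬ ℓ ∣ N) :
    (Conductor23.TL (N := N) hℓ hℓN).charpoly.map (Int.castRingHom ℂ) =
      ∏ f : {f : CuspForm (Gamma0 N) 2 // f.IsNormalizedEigenform},
        (Polynomial.X - Polynomial.C (qCoeff f.1 ℓ)) := by
  classical
  rw [← LatticeBasis.charpoly_eq N (Conductor23.TL_coe hℓ hℓN)]
  have h1 := card_eigenforms (N := N)
  rw [Nat.card_eq_fintype_card] at h1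
  exact SemistableTable.charpoly_eq_prod (fun f => f.2) Subtype.val_injective h1 hℓ hℓN

end Fermat.Agent.Cor.PrimeLevel
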