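import Fermat.Agent.Cor.ProP1

/-!
# Quadratic characters of `G_ℚ` unramified outside `2`

This file is not used by any of the statement files.
-/

set_option autoImplicit false
set_option linter.unusedSectionVars false
set_option linter.style.haveILetI false

noncomputable section

namespace Fermat.Agent.Cor.ProP

open Fermat.Agent.CC (Qb GQ)
open scoped Pointwise

/-- a quadratic character of `G_ℚ` is the character of `√(±a)`, `a` squarefree -/
theorem exists_sqrt (f : GQ →* Multiplicative (ZMod 2)) (hf : IsOpen (f.ker : Set GQ)) :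
    ∃ (w : Qb) (a : ℕ), w ≠ 0 ∧ Squarefree a ∧ (w ^ 2 = a ∨ w ^ 2 = -a) ∧
      (∀ σ : GQ, f σ = 1 → σ w = w) ∧ (∀ σ : GQ, f σ ≠ 1 → σ w = -w) := by
  classical
  haveI hgal := H51.isGalois_Qbar
  let ε : GQ → Qb := fun σ => if f σ = 1 then 1 else -1
  have hε : ∀ σ, ε σ = 1 ∨ ε σ = -1 := by
    intro σ
    by_cases h : f σ = 1
    · left; exact if_pos h
    · right; exact if_neg h
  have hfix : ∀ σ τ : GQ, σ (ε τ) = ε τ := by
    intro σ τ
    rcases hε τ with h | h <;> rw [h]
    · rw [map_one]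
    · rw [map_neg, map_one]
  have hmul : ∀ σ τ : GQ, ε (σ * τ) = ε σ * ε τ := by
    have key : ∀ u v : Multiplicative (ZMod 2), (if u * v = 1 then (1 : Qb) else -1) =
        (if u = 1 then 1 else -1) * (if v = 1 then 1 else -1) := by
      have h2 : ∀ u : Multiplicative (ZMod 2), u = 1 ∨ u = Multiplicative.ofAdd 1 := by decide
      have h3 : (Multiplicative.ofAdd (1 : ZMod 2)) ≠ 1 := by decide
      have h4 : (Multiplicative.ofAdd (1 : ZMod 2)) * Multiplicative.ofAdd 1 = 1 := by decide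
      intro u v
      rcases h2 u with rfl | rfl <;> rcases h2 v with rfl | rfl
      · simp
      · rw [one_mul, if_pos rfl, one_mul]
      · rw [mul_one, if_pos rfl, mul_one]
      · rw [if_pos h4, if_neg h3]; ring
    intro σ τ
    change (if f (σ * τ) = 1 then (1 : Qb) else -1) = _
    rw [map_mul]
    exact key _ _
  obtain ⟨u, hu0, hu⟩ := H12.hilbert90' (K := ℚ) (L := Qb) ⊤ ε
    (fun σ _ h0 => by rcases hε σ with h | h <;> rw [h0] at h <;> norm_num at h)
    (fun σ _ τ _ => by rw [hmul, hfix]) f.ker hf (fun σ _ hσ => if_pos hσ)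
  have husq : ∀ σ : GQ, σ (u ^ 2) = u ^ 2 := by
    intro σ
    rw [map_pow, hu σ trivial, mul_pow]
    rcases hε σ with h | h <;> rw [h] <;> ring
  obtain ⟨d, hd⟩ := (InfiniteGalois.mem_range_algebraMap_iff_fixed (k := ℚ) (u ^ 2)).mpr husq
  have hd0 : d ≠ 0 := by
    rintro rfl
    rw [map_zero] at hd
    exact hu0 (pow_eq_zero_iff (two_ne_zero)|>.mp hd.symm)
  set n : ℤ := d.num * d.den with hn
  have hn0 : n ≠ 0 := mul_ne_zero (Rat.num_ne_zero.mpr hd0) (by exact_mod_cast d.den_nz)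
  have hden0 : (d.den : Qb) ≠ 0 := by exact_mod_cast d.den_nz
  have h1 : (u * d.den) ^ 2 = (n : Qb) := by
    rw [mul_pow, ← hd, eq_ratCast]
    have h2 : (d : Qb) * d.den = d.num := by
      exact_mod_cast Rat.mul_den_eq_num d
    rw [hn]
    push_cast
    linear_combination (d.den : Qb) * h2
  obtain ⟨a, b, hab, hsq⟩ := Nat.sq_mul_squarefree n.natAbs
  have hb0 : b ≠ 0 := by
    rintro rfl
    rw [zero_pow two_ne_zero, zero_mul] at hab
    exact hn0 (Int.natAbs_eq_zero.mp hab.symm)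
  have hbQ : (b : Qb) ≠ 0 := by exact_mod_cast hb0
  have hw : ∀ σ : GQ, σ (u * d.den / b) = ε σ * (u * d.den / b) := by
    intro σ
    rw [map_div₀, map_mul, map_natCast, map_natCast, hu σ trivial]
    ring
  refine ⟨u * d.den / b, a, div_ne_zero (mul_ne_zero hu0 hden0) hbQ, hsq, ?_, fun σ hσ => ?_,
    fun σ hσ => ?_⟩
  · rw [div_pow, h1]
    rcases Int.natAbs_eq n with h | h
    · left
      rw [h, ← hab]
      push_cast
      field_simp
    · right
      rw [h, ← hab]
      push_cast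
      field_simp
  · rw [hw, show ε σ = 1 from if_pos hσ, one_mul]
  · rw [hw, show ε σ = -1 from if_neg hσ, neg_one_mul]

/-- an odd prime which divides `a` is ramified in `ℚ(√(±a))` -/
theorem eq_one_or_two {w : Qb} {a : ℕ} (hw : w ≠ 0) (ha : Squarefree a)
    (h : w ^ 2 = a ∨ w ^ 2 = -a)
    (hu : ∀ q : ℕ, q.Prime → q ≠ 2 → ∀ A : ValuationSubring Qb, A.LiesOverPrime q →
      ∀ σ ∈ A.inertiaSubgroupIn ℚ, σ w = w) : a = 1 ∨ a = 2 := by
  haveI hgal := H51.isGalois_Qbar
  have key : ∀ q : ℕ, q.Prime → q ∣ a → q = 2 := by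
    intro q hq hqa
    by_contra hq2
    obtain ⟨A, hA⟩ := H05.exists_liesOverPrime Qb hq
    obtain ⟨n, hn⟩ := H12.exists_valuation_eq_zpow hq hA w hw (hu q hq hq2 A hA)
    obtain ⟨a', rfl⟩ := hqa
    have ha' : ¬ q ∣ a' := by
      intro hd
      obtain ⟨b, rfl⟩ := hd
      have h1 := ha q ⟨b, by ring⟩
      exact hq.one_lt.ne' (Nat.isUnit_iff.mp h1)
    have hv : A.valuation (w ^ 2) = A.valuation (q : Qb) := by
      have h1 : A.valuation ((q * a' : ℕ) : Qb) = A.valuation (q : Qb) := by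
        rw [Nat.cast_mul, map_mul]
        have h2 : A.valuation ((a' : ℕ) : Qb) = 1 := by
          have h3 := H09.val_intCast_eq_one hq hA (c := (a' : ℤ))
            (fun hd => ha' (Int.natCast_dvd_natCast.mp hd))
          push_cast at h3
          exact h3
        rw [h2, mul_one]
      rcases h with h | h
      · rw [h, h1]
      · rw [h, Valuation.map_neg, h1]
    have hlt : A.valuation (q : Qb) < 1 := H09.val_natCast_lt_one hA
    have hv0 : 0 < A.valuation (q : Qb) := by
      rw [zero_lt_iff]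
      exact (map_ne_zero _).mpr (Nat.cast_ne_zero.mpr hq.ne_zero)
    have h1 : A.valuation (q : Qb) ^ (n * 2) = A.valuation (q : Qb) ^ (1 : ℤ) := by
      rw [zpow_one]
      conv_rhs => rw [← hv, map_pow, hn]
      rw [zpow_mul]
      rfl
    have h2 : n * 2 = 1 := (zpow_right_strictAnti₀ hv0 hlt).injective h1
    omega
  have h0 : a ≠ 0 := ha.ne_zero
  by_cases h1 : a = 1
  · exact Or.inl h1
  right
  obtain ⟨q, hq, hqa⟩ := Nat.exists_prime_and_dvd h1
  rw [key q hq hqa] at hqa
  obtain ⟨b, rfl⟩ := hqa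
  by_cases hb : b = 1
  · rw [hb]
  exfalso
  obtain ⟨r, hr, hrb⟩ := Nat.exists_prime_and_dvd hb
  have hr2 := key r hr (dvd_mul_of_dvd_right hrb 2)
  rw [hr2] at hrb
  have h2 := ha 2 (mul_dvd_mul_left 2 hrb)
  exact absurd (Nat.isUnit_iff.mp h2) (by norm_num)

/-- **quadratic characters unramified outside `2`** -/
theorem w1_two : W1 2 := by
  rintro f hf hu hcj ⟨n, g₀, hn, hg₀, hfg⟩
  obtain ⟨w, a, hw0, ha, hwa, hw1, hw2⟩ := exists_sqrt f hf
  have ha2 := eq_one_or_two hw0 ha hwa fun q hq hq2 A hA σ hσ => hw1 σ (hu q hq hq2 A hA hσ)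
  obtain ⟨ζ, hζ⟩ := H16.CH.exists_prim 8 (by norm_num)
  have hζ0 : ζ ≠ 0 := hζ.ne_zero (by norm_num)
  have h8 : ζ ^ 8 = 1 := hζ.pow_eq_one
  have h4 : ζ ^ 4 = -1 := by
    have h1 : (ζ ^ 4 - 1) * (ζ ^ 4 + 1) = 0 := by linear_combination h8
    rcases mul_eq_zero.mp h1 with h2 | h2
    · exfalso
      have h3 := (hζ.pow_eq_one_iff_dvd 4).mp (sub_eq_zero.mp h2)
      omega
    · exact eq_neg_of_add_eq_zero_left h2
  have hinv : ζ⁻¹ = -ζ ^ 3 := by
    rw [inv_eq_iff_eq_inv, eq_comm]
    exact inv_eq_of_mul_eq_one_right (by linear_combination -h4)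
  have hcζ : cj ζ = -ζ ^ 3 := by rw [cj_root (by norm_num) h8, hinv]
  have hgζ : g₀ ζ = -ζ := by
    have h1 := hg₀ ζ (by
      obtain ⟨c, hc⟩ := pow_dvd_pow 2 hn
      rw [hc, pow_mul, show (2 ^ 3 : ℕ) = 8 by norm_num, h8, one_pow])
    rw [if_pos rfl] at h1
    rw [h1]
    linear_combination ζ * h4
  have e1 : cj w = w := hw1 _ (hcj rfl)
  have e2 : g₀ w = w := hw1 _ hfg
  have hneg : ∀ x : Qb, x = -x → x = 0 := fun x hx => by
    have h1 : 2 * x = 0 := by linear_combination hx
    exact (mul_eq_zero.mp h1).resolve_left two_ne_zero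
  -- `w = ± s` where `s` is moved
  have hcon : ∀ (s : Qb) (τ : GQ), τ w = w → τ s = -s → w ^ 2 = s ^ 2 → False := by
    intro s τ h1 h2 h3
    rcases sq_eq_sq_iff_eq_or_eq_neg.mp h3 with h | h
    · apply hw0
      rw [h] at h1 ⊢
      exact hneg s (h1.symm.trans h2)
    · apply hw0
      rw [h, map_neg, h2, neg_neg] at h1
      rw [h, hneg s h1, neg_zero]
  rcases ha2 with rfl | rfl
  · rcases hwa with h | h
    · -- `w = ± 1`
      ext σ
      by_contra hne
      have h1 := hw2 σ (fun h0 => hne (by rw [h0]; rfl))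
      have h2 : σ w = w := by
        have h3 : w ^ 2 = 1 ^ 2 := by rw [h]; norm_num
        rcases sq_eq_sq_iff_eq_or_eq_neg.mp h3 with h4 | h4
        · rw [h4, map_one]
        · rw [h4, map_neg, map_one]
      exact hw0 (hneg w (h2.symm.trans h1))
    · exfalso
      refine hcon (ζ ^ 2) cj e1 ?_ ?_
      · rw [map_pow, hcζ]
        linear_combination ζ ^ 2 * h4
      · rw [h]
        push_cast
        linear_combination -h4
  · exfalso
    rcases hwa with h | h
    · refine hcon (ζ - ζ ^ 3) g₀ e2 ?_ ?_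
      · rw [map_sub, map_pow, hgζ]
        ring
      · rw [h]
        push_cast
        linear_combination (2 - ζ ^ 2) * h4
    · refine hcon (ζ + ζ ^ 3) cj e1 ?_ ?_
      · rw [map_add, map_pow, hcζ]
        linear_combination (-ζ ^ 5 + ζ) * h4
      · rw [h]
        push_cast
        linear_combination (-2 - ζ ^ 2) * h4

end Fermat.Agent.Cor.ProP
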