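import Fermat.Agent.Cor.ProP
import Fermat.Agent.Cor.KroneckerWeber

/-!
# Galois `p`-extensions of `ℚ` in which no prime `q ≡ 1 mod p` ramifies

* `unr_of_mod_ne_one`: in an abelian `p`-extension of `ℚ` a prime `q ≠ p` with `q ≢ 1 mod p` is unramified;
* `pro_p_tame`: a Galois extension `K/ℚ` of degree `p ^ k` in which no prime `q ≠ p` with `q ≡ 1 mod p` ramifies (and which
  is totally real if `p = 2`) is cyclic and contained in `ℚ(ζ_{p^(k+3)})`; in particular no prime except `p` ramifies.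

This file is not used by any of the statement files.
-/

set_option autoImplicit false
set_option linter.unusedSectionVars false
set_option linter.style.haveILetI false
set_option maxHeartbeats 400000

noncomputable section

namespace Fermat.Agent.Cor.ProP

open Fermat.Agent.CC
open Fermat.Agent.H05 Fermat.Agent.H09
open scoped Pointwise NumberField

theorem cyc_inf_le {m n : ℕ} (h : m.Coprime n) : cyc m ⊓ cyc n ≤ cyc (m * n) := by
  rintro g ⟨h1, h2⟩ x hx
  have hx0 : m * n ≠ 0 → x ≠ 0 := by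
    rintro hmn rfl
    rw [zero_pow hmn] at hx
    exact zero_ne_one hx
  rcases Nat.eq_zero_or_pos (m * n) with h0 | h0
  · rcases Nat.mul_eq_zero.mp h0 with rfl | rfl
    · exact h1 x (pow_zero x)
    · exact h2 x (pow_zero x)
  have hx1 := hx0 h0.ne'
  have e1 : g (x ^ m) = x ^ m := h2 _ (by rw [← pow_mul, hx])
  have e2 : g (x ^ n) = x ^ n := h1 _ (by rw [← pow_mul, mul_comm, hx])
  have e3 : ((m : ℤ) * m.gcdA n + n * m.gcdB n) = 1 := by
    rw [← Nat.gcd_eq_gcd_ab, h.gcd_eq_one]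
    rfl
  have e4 : x = (x ^ m) ^ (m.gcdA n) * (x ^ n) ^ (m.gcdB n) := by
    rw [← zpow_natCast x m, ← zpow_natCast x n, ← zpow_mul, ← zpow_mul, ← zpow_add₀ hx1, e3, zpow_one]
  rw [e4, map_mul, map_zpow₀, map_zpow₀, e1, e2]

/-- in an abelian `p`-extension of `ℚ` a prime `q ≠ p`, `q ≢ 1 mod p`, is unramified -/
theorem unr_of_mod_ne_one {p k : ℕ} (hp : p.Prime) {N : Subgroup GQ} [N.Normal]
    (hop : IsOpen (N : Set GQ)) (hpw : ∀ g : GQ, g ^ p ^ k ∈ N)
    (hcom : ∀ x y : GQ, x⁻¹ * y⁻¹ * x * y ∈ N) {q : ℕ} (hq : q.Prime) (hqp : q ≠ p)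
    (hq1 : q % p ≠ 1) : Unr q N := by
  intro A hA σ hσ
  obtain ⟨n, hn, hnN⟩ := KW.kroneckerWeber_subgroup N hop hcom
  have hnN' : cyc n ≤ N := fun g hg => hnN g hg
  obtain ⟨a, m, hqm, hnm⟩ := Nat.exists_eq_pow_mul_and_not_dvd hn.ne' q hq.ne_one
  have hqa : q ^ a ≠ 0 := pow_ne_zero _ hq.ne_zero
  haveI : NeZero (q ^ a) := ⟨hqa⟩
  obtain ⟨c, hc⟩ := exists_char (q ^ a) hqa
  have h1 : σ ^ (q ^ a).totient ∈ cyc (q ^ a) := by
    rw [← char_eq_one hc, map_pow, ZMod.pow_totient]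
  have h2 : σ ^ (q ^ a).totient ∈ cyc m := pow_mem (unr_cyc hq hqm A hA hσ) _
  have h3 : σ ^ (q ^ a).totient ∈ N := by
    apply hnN'
    rw [hnm]
    exact cyc_inf_le ((Nat.Prime.coprime_iff_not_dvd hq).mpr hqm |>.pow_left a) ⟨h1, h2⟩
  have hcop : Nat.Coprime ((q ^ a).totient) (p ^ k) := by
    refine Nat.Coprime.pow_right k ?_
    rw [Nat.coprime_comm, Nat.Prime.coprime_iff_not_dvd hp]
    intro hd
    rcases Nat.eq_zero_or_pos a with h0 | h0
    · rw [h0, pow_zero, Nat.totient_one] at hd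
      exact hp.one_lt.ne' (Nat.dvd_one.mp hd)
    · rw [Nat.totient_prime_pow hq h0] at hd
      rcases hp.dvd_mul.mp hd with h | h
      · exact hqp ((Nat.prime_dvd_prime_iff_eq hp hq).mp (hp.dvd_of_dvd_pow h)).symm
      · apply hq1
        obtain ⟨s, hs⟩ := h
        have h4 : q = 1 + p * s := by have := hq.pos; omega
        rw [h4, Nat.add_mul_mod_self_left, Nat.mod_eq_of_lt hp.one_lt]
  have e3 : (((q ^ a).totient : ℤ) * ((q ^ a).totient).gcdA (p ^ k) +
      (p ^ k : ℕ) * ((q ^ a).totient).gcdB (p ^ k)) = 1 := by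
    rw [← Nat.gcd_eq_gcd_ab, hcop.gcd_eq_one]
    rfl
  have e4 : σ = (σ ^ (q ^ a).totient) ^ (((q ^ a).totient).gcdA (p ^ k)) *
      (σ ^ p ^ k) ^ (((q ^ a).totient).gcdB (p ^ k)) := by
    rw [← zpow_natCast σ (q ^ a).totient, ← zpow_natCast σ (p ^ k), ← zpow_mul, ← zpow_mul,
      ← zpow_add, e3, zpow_one]
  rw [e4]
  exact mul_mem (zpow_mem h3 _) (zpow_mem (hpw σ) _)

/-- group theoretic form -/
theorem cyclic_tame {p k : ℕ} (hp : p.Prime) {N : Subgroup GQ} [N.Normal] (hop : IsOpen (N : Set GQ))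
    (hidx : N.index = p ^ k) (hu : ∀ q : ℕ, q.Prime → q ≠ p → q % p = 1 → Unr q N)
    (hcj : p = 2 → cj ∈ N) :
    IsCyclic (GQ ⧸ N) ∧ cyc (p ^ (k + 3)) ≤ N := by
  haveI : Fact p.Prime := ⟨hp⟩
  haveI : Finite (GQ ⧸ N) := Subgroup.quotient_finite_of_isOpen N hop
  have hP : IsPGroup p (GQ ⧸ N) := IsPGroup.of_card (n := k) hidx
  obtain ⟨g₀, hg₀⟩ := exists_isGen hp (k + 3)
  have hgen := cyclic_of_char hp hP g₀ (fun f hfN hfg => by
    have hle : N ≤ f.ker := fun n hn => hfN n hn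
    have hopf : IsOpen (f.ker : Set GQ) := Subgroup.isOpen_mono hle hop
    refine w1 hp f hopf (fun q hq hqp => ?_) (fun h2 => hfN _ (hcj h2)) ⟨k + 3, g₀, by omega, hg₀, hfg⟩
    by_cases hq1 : q % p = 1
    · exact fun A hA σ hσ => hle (hu q hq hqp hq1 A hA hσ)
    · refine unr_of_mod_ne_one (k := 1) hp hopf (fun g => ?_) (fun x y => ?_) hq hqp hq1
      · rw [MonoidHom.mem_ker, map_pow, pow_one]
        have h1 : ((p : ℕ) • Multiplicative.toAdd (f g) : ZMod p) = 0 := by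
          rw [nsmul_eq_mul, ZMod.natCast_self, zero_mul]
        exact h1
      · rw [MonoidHom.mem_ker, map_mul, map_mul, map_mul, map_inv, map_inv,
          mul_comm ((f x)⁻¹) ((f y)⁻¹), inv_mul_cancel_right, inv_mul_cancel])
  have hcyc : IsCyclic (GQ ⧸ N) := ⟨((g₀ : GQ) : GQ ⧸ N), fun x => by
    obtain ⟨g, rfl⟩ := QuotientGroup.mk_surjective x
    obtain ⟨i, hi⟩ := hgen g
    refine ⟨i, ?_⟩
    have h1 : ((g₀ ^ i : GQ) : GQ ⧸ N) = (g : GQ ⧸ N) := QuotientGroup.eq.mpr hi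
    rw [QuotientGroup.mk_zpow] at h1
    exact h1⟩
  have hcomm : ∀ x y : GQ ⧸ N, x * y = y * x := fun x y => by
    letI := IsCyclic.commGroup (α := GQ ⧸ N)
    exact mul_comm x y
  have hcom : ∀ x y : GQ, x⁻¹ * y⁻¹ * x * y ∈ N := fun x y => by
    rw [← QuotientGroup.eq_one_iff, QuotientGroup.mk_mul, QuotientGroup.mk_mul,
      QuotientGroup.mk_mul, QuotientGroup.mk_inv, QuotientGroup.mk_inv,
      hcomm ((x : GQ ⧸ N)⁻¹) ((y : GQ ⧸ N)⁻¹), inv_mul_cancel_right, inv_mul_cancel]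
  refine cyclic hp hop hidx (fun q hq hqp => ?_) hcj
  by_cases hq1 : q % p = 1
  · exact hu q hq hqp hq1
  · exact unr_of_mod_ne_one hp hop (fun g => by
      rw [← hidx]
      exact Subgroup.pow_index_mem N g) hcom hq hqp hq1

section Field

variable (K : Type*) [Field K] [NumberField K] [IsGalois ℚ K]

/-- **Galois `p`-extensions of `ℚ` without ramification at the primes `q ≡ 1 mod p`**: let `K/ℚ` be Galois of degree `p ^ k`
such that every prime `q ≠ p` which divides the discriminant satisfies `q ≢ 1 mod p`, totally real if `p = 2`. Then `K/ℚ` is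
cyclic and `K` is contained in `ℚ(ζ_{p^(k+3)})`. -/
theorem pro_p_tame {p k : ℕ} (hp : p.Prime) (hK : Module.finrank ℚ K = p ^ k)
    (hd : ∀ q : ℕ, q.Prime → q ≠ p → (q : ℤ) ∣ NumberField.discr K → q % p ≠ 1)
    (hreal : p = 2 → NumberField.IsTotallyReal K) :
    IsCyclic (K ≃ₐ[ℚ] K) ∧ Nonempty (K →ₐ[ℚ] CyclotomicField (p ^ (k + 3)) ℚ) := by
  haveI hgal := H51.isGalois_Qbar
  let ι : K →ₐ[ℚ] Qb := IsAlgClosed.lift
  obtain ⟨r, hrs, hr⟩ := exists_restrict ι
  haveI : FiniteDimensional ℚ ι.fieldRange :=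
    (AlgEquiv.ofInjectiveField ι).toLinearEquiv.finiteDimensional
  have hker : r.ker = ι.fieldRange.fixingSubgroup := by
    ext g
    rw [MonoidHom.mem_ker, IntermediateField.mem_fixingSubgroup_iff]
    constructor
    · rintro h _ ⟨x, rfl⟩
      change g (ι x) = ι x
      rw [hr, h, AlgEquiv.one_apply]
    · intro h
      ext x
      apply ι.toRingHom.injective
      change ι (r g x) = ι x
      rw [← hr]
      exact h (ι x) ⟨x, rfl⟩
  have hop : IsOpen (r.ker : Set GQ) := by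
    rw [hker]
    exact IntermediateField.fixingSubgroup_isOpen _
  have hidx : r.ker.index = p ^ k := by
    rw [Subgroup.index_ker, MonoidHom.range_eq_top.mpr hrs, ← hK,
      Nat.card_congr Subgroup.topEquiv.toEquiv, IsGalois.card_aut_eq_finrank]
  have hcj : p = 2 → cj ∈ r.ker := by
    intro h2
    haveI := hreal h2
    rw [MonoidHom.mem_ker]
    ext x
    apply ι.toRingHom.injective
    change ι (r cj x) = ι x
    rw [← hr]
    apply complexEmbedding.toRingHom.injective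
    change complexEmbedding (complexConjugation (ι x)) = complexEmbedding (ι x)
    rw [complexEmbedding_complexConjugation]
    have h3 := NumberField.IsTotallyReal.isReal (K := K)
      (NumberField.InfinitePlace.mk (complexEmbedding.toRingHom.comp ι.toRingHom))
    rw [NumberField.InfinitePlace.isReal_mk_iff] at h3
    exact RingHom.congr_fun (NumberField.ComplexEmbedding.isReal_iff.mp h3) x
  obtain ⟨h1, h2⟩ := cyclic_tame hp hop hidx
    (fun q hq hqp hq1 => unr_ker hr hq fun h => hd q hq hqp h hq1) hcj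
  have e : GQ ⧸ r.ker ≃* (K ≃ₐ[ℚ] K) := QuotientGroup.quotientKerEquivOfSurjective r hrs
  refine ⟨isCyclic_of_surjective e e.surjective, ?_⟩
  have hm : p ^ (k + 3) ≠ 0 := pow_ne_zero _ hp.ne_zero
  haveI : NeZero (p ^ (k + 3)) := ⟨hm⟩
  obtain ⟨ζ, hζ⟩ := H16.CH.exists_prim (p ^ (k + 3)) hm
  set C : IntermediateField ℚ Qb := IntermediateField.adjoin ℚ {ζ} with hC
  have h3 : ι.fieldRange ≤ C := by
    rw [← InfiniteGalois.fixedField_fixingSubgroup C,
      ← InfiniteGalois.fixedField_fixingSubgroup ι.fieldRange, ← hker]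
    refine IntermediateField.fixedField_antitone fun g hg => h2 fun x hx => ?_
    have h2 : g ζ = ζ := (IntermediateField.mem_fixingSubgroup_iff _ _).mp hg ζ
      (IntermediateField.mem_adjoin_simple_self ℚ ζ)
    obtain ⟨i, -, rfl⟩ := hζ.eq_pow_of_pow_eq_one hx
    rw [map_pow, h2]
  haveI : IsCyclotomicExtension {p ^ (k + 3)} ℚ C := hζ.intermediateField_adjoin_isCyclotomicExtension ℚ
  let j : K →ₐ[ℚ] C := ι.codRestrict C.toSubalgebra fun x => h3 ⟨x, rfl⟩
  letI : Algebra ℚ (CyclotomicField (p ^ (k + 3)) ℚ) := CyclotomicField.algebra _ ℚ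
  let e' : C ≃ₐ[ℚ] CyclotomicField (p ^ (k + 3)) ℚ :=
    IsCyclotomicExtension.algEquiv {p ^ (k + 3)} ℚ C _
  exact ⟨(e'.toAlgHom.comp j).toRingHom.toRatAlgHom⟩

end Field

end Fermat.Agent.Cor.ProP
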