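import Fermat.Agent.Cor.RealZeros
import Mathlib.Analysis.Complex.PhragmenLindelof
import Mathlib.NumberTheory.ZetaValues

/-!
# An upper bound for the analytic rank

Let `W` be a semistable elliptic curve over `ℚ` of conductor `N`, and let `r` be the order of vanishing of `L(W, s)` at
`s = 1`. Then `2 ^ r < N`.

Proof: by the Phragmén–Lindelöf principle for `Λ(s) / (s - 1) ^ r` in the strip `-3 ≤ Re s ≤ 5`,
`|Λ(3)| / 2 ^ r ≤ M / 4 ^ r`, where `M = N ^ (5/2) (2π) ^ (-5) Γ(5) ζ(4)` bounds `|Λ|` on the boundary of the strip, and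
`|L(3)| ≥ 2 - ζ(2)`; finally `π² < 10`.

This file is not used by any of the statement files.
-/

set_option autoImplicit false

noncomputable section

namespace Fermat.Agent.Cor.RankBound

open Complex CongruenceSubgroup Filter MeasureTheory ModularFormClass Set Asymptotics
open Fermat.Agent.Cor.LFun Fermat.Agent.Cor.CentralSeries Fermat.Agent.Cor.RealZeros
open scoped Real Topology

theorem norm_Gamma_le {s : ℂ} (hs : 0 < s.re) : ‖Complex.Gamma s‖ ≤ Real.Gamma s.re := by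
  rw [Complex.Gamma_eq_integral hs, Real.Gamma_eq_integral hs, Complex.GammaIntegral]
  refine (norm_integral_le_integral_norm _).trans_eq
    (setIntegral_congr_fun measurableSet_Ioi fun x (hx : 0 < x) => ?_)
  rw [norm_mul, Complex.norm_real, Real.norm_of_nonneg (Real.exp_pos _).le,
    Complex.norm_cpow_eq_rpow_re_of_pos hx]
  simp

variable {N : ℕ} [NeZero N] {f : CuspForm (Gamma0 N) 2}

omit [NeZero N] in
theorem norm_term_le (hb : ∀ n, ‖qCoeff f n‖ ≤ n) {s : ℂ} {k : ℕ} (hs : s.re = k + 1) (n : ℕ) :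
    ‖LSeries.term (fun n => qCoeff f n) s n‖ ≤ 1 / (n : ℝ) ^ k := by
  rcases eq_or_ne n 0 with rfl | hn
  · rw [LSeries.term_zero, norm_zero]
    positivity
  · have hn0 : (0 : ℝ) < n := by exact_mod_cast Nat.pos_of_ne_zero hn
    rw [LSeries.term_of_ne_zero hn, norm_div,
      Complex.norm_natCast_cpow_of_pos (Nat.pos_of_ne_zero hn), hs]
    have e : (n : ℝ) ^ ((k : ℝ) + 1) = (n : ℝ) ^ k * n := by
      rw [Real.rpow_add hn0, Real.rpow_natCast, Real.rpow_one]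
    rw [e, div_le_div_iff₀ (by positivity) (by positivity), one_mul, mul_comm]
    exact mul_le_mul_of_nonneg_left (hb n) (by positivity)

theorem norm_LF_le (hb : ∀ n, ‖qCoeff f n‖ ≤ n) {s : ℂ} (hs : s.re = 5) :
    ‖LF f s‖ ≤ π ^ 4 / 90 := by
  have h := lSeriesHasSum f (s := s) (by rw [hs]; norm_num)
  exact HasSum.norm_le_of_bounded h hasSum_zeta_four
    fun n => norm_term_le hb (k := 4) (by rw [hs]; norm_num) n

theorem le_norm_LF_three (hf : f.IsNewform) (hb : ∀ n, ‖qCoeff f n‖ ≤ n) :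
    2 - π ^ 2 / 6 ≤ ‖LF f 3‖ := by
  have h : HasSum (LSeries.term (fun n => qCoeff f n) 3) (LF f 3) :=
    lSeriesHasSum f (s := 3) (by norm_num)
  have h2 := (hasSum_nat_add_iff' 2).mpr h
  have h3 := (hasSum_nat_add_iff' 2).mpr hasSum_zeta_two
  have h4 := h2.norm_le_of_bounded h3 fun n => norm_term_le hb (s := 3) (k := 2) (by norm_num) (n + 2)
  have e1 : ∑ i ∈ Finset.range 2, LSeries.term (fun n => qCoeff f n) 3 i = 1 := by
    rw [Finset.sum_range_succ, Finset.sum_range_one, LSeries.term_zero,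
      LSeries.term_of_ne_zero one_ne_zero, hf.1.qCoeff_one]
    simp
  have e2 : ∑ i ∈ Finset.range 2, (1 : ℝ) / (i : ℝ) ^ 2 = 1 := by
    rw [Finset.sum_range_succ, Finset.sum_range_one]
    norm_num
  rw [e1, e2] at h4
  have h5 : (1 : ℝ) ≤ ‖LF f 3‖ + ‖LF f 3 - 1‖ := by
    calc (1 : ℝ) = ‖LF f 3 - (LF f 3 - 1)‖ := by rw [sub_sub_cancel, norm_one]
      _ ≤ _ := norm_sub_le _ _
  linarith

theorem norm_Lam (f : CuspForm (Gamma0 N) 2) {s : ℂ} (hs : 0 < s.re) :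
    ‖Lam f s‖ = (N : ℝ) ^ (s.re / 2) * (2 * π) ^ (-s.re) * ‖Complex.Gamma s‖ * ‖LF f s‖ := by
  have h2 : (0 : ℝ) < 2 * π := by positivity
  rw [Lam_eq f (Parity.ne_neg_nat_of_re_pos hs), norm_mul, norm_mul, norm_mul,
    Complex.norm_natCast_cpow_of_pos (Nat.pos_of_ne_zero (NeZero.ne N))]
  have e : ‖(2 * (π : ℂ)) ^ (-s)‖ = (2 * π) ^ (-s.re) := by
    have := Complex.norm_cpow_eq_rpow_re_of_pos h2 (-s)
    rw [Complex.neg_re] at this
    rw [← this]
    push_cast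
    rfl
  have e2 : (s / 2).re = s.re / 2 := by simp
  rw [e, e2]

/-- the bound for `Λ` on the lines `Re s = -3, 5` -/
def bd (N : ℕ) : ℝ := (N : ℝ) ^ ((5 : ℝ) / 2) * (2 * π) ^ (-(5 : ℝ)) * 24 * (π ^ 4 / 90)

theorem norm_Lam_le (hb : ∀ n, ‖qCoeff f n‖ ≤ n) {s : ℂ} (hs : s.re = 5) :
    ‖Lam f s‖ ≤ bd N := by
  have h2 : (0 : ℝ) < 2 * π := by positivity
  rw [norm_Lam f (by rw [hs]; norm_num), bd, hs]
  have hG : ‖Complex.Gamma s‖ ≤ 24 := by
    have h := norm_Gamma_le (s := s) (by rw [hs]; norm_num)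
    have e : Real.Gamma s.re = 24 := by
      rw [hs, show (5 : ℝ) = (4 : ℕ) + 1 by norm_num, Real.Gamma_nat_eq_factorial]
      norm_num [Nat.factorial]
    rwa [e] at h
  have hL := norm_LF_le hb hs
  gcongr

theorem norm_Lam_le' (hf : f.IsNewform) (hb : ∀ n, ‖qCoeff f n‖ ≤ n) {s : ℂ} (hs : s.re = -3) :
    ‖Lam f s‖ ≤ bd N := by
  have h1 := Parity.functional_equation hf (2 - s)
  rw [sub_sub_cancel] at h1
  have h2 : ‖Parity.rootNumber f‖ = 1 := by
    rcases Parity.rootNumber_eq_one_or hf with hw | hw <;> rw [hw] <;> simp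
  rw [h1, norm_mul, h2, one_mul]
  refine norm_Lam_le hb ?_
  rw [Complex.sub_re, hs]
  norm_num

theorem exists_bound_strip (f : CuspForm (Gamma0 N) 2) :
    ∃ B : ℝ, ∀ s : ℂ, -3 < s.re → s.re < 5 → ‖Lam f s‖ ≤ B := by
  have hN : (1 : ℝ) ≤ N := by exact_mod_cast Nat.pos_of_ne_zero (NeZero.ne N)
  refine ⟨(N : ℝ) ^ ((5 : ℝ) / 2) * ∫ t in Ioi (0 : ℝ), (‖((t ^ (-4 : ℝ) : ℝ) : ℂ) * phi f t‖ +
    ‖((t ^ (4 : ℝ) : ℝ) : ℂ) * phi f t‖), fun s h1 h2 => ?_⟩
  rw [Lam, Λ_eq, norm_mul, Complex.norm_natCast_cpow_of_pos (Nat.pos_of_ne_zero (NeZero.ne N))]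
  have e2 : (s / 2).re ≤ 5 / 2 := by
    have : (s / 2).re = s.re / 2 := by simp
    rw [this]
    linarith
  refine mul_le_mul (Real.rpow_le_rpow_of_exponent_le hN e2) ?_ (norm_nonneg _) (by positivity)
  rw [mellin]
  refine (norm_integral_le_integral_norm _).trans ?_
  refine integral_mono_of_nonneg (Eventually.of_forall fun t => norm_nonneg _)
    ((integrableOn_rpow_phi f (-4)).norm.add (integrableOn_rpow_phi f 4).norm) ?_
  refine (ae_restrict_mem measurableSet_Ioi).mono fun t (ht : 0 < t) => ?_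
  simp only [norm_smul, norm_mul, Complex.norm_real]
  rw [Complex.norm_cpow_eq_rpow_re_of_pos ht, Real.norm_of_nonneg (Real.rpow_nonneg ht.le _),
    Real.norm_of_nonneg (Real.rpow_nonneg ht.le _), ← add_mul]
  refine mul_le_mul_of_nonneg_right ?_ (norm_nonneg _)
  have e3 : (s - 1).re = s.re - 1 := by simp
  rw [e3]
  rcases le_total t 1 with ht1 | ht1
  · have h3 : t ^ (s.re - 1) ≤ t ^ (-4 : ℝ) :=
      Real.rpow_le_rpow_of_exponent_ge ht ht1 (by linarith)
    have h4 : 0 ≤ t ^ (4 : ℝ) := Real.rpow_nonneg ht.le _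
    linarith
  · have h3 : t ^ (s.re - 1) ≤ t ^ (4 : ℝ) :=
      Real.rpow_le_rpow_of_exponent_le ht1 (by linarith)
    have h4 : 0 ≤ t ^ (-4 : ℝ) := Real.rpow_nonneg ht.le _
    linarith

/-- **Division by the zero at `s = 1`** -/
theorem exists_quotient {F : ℂ → ℂ} (hF : Differentiable ℂ F) {r : ℕ}
    (hr : analyticOrderAt F 1 = r) :
    ∃ g : ℂ → ℂ, Differentiable ℂ g ∧ ∀ s, s ≠ 1 → g s = F s / (s - 1) ^ r := by
  obtain ⟨g0, hg0, -, hg⟩ := (hF.analyticAt 1).analyticOrderAt_eq_natCast.mp hr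
  classical
  refine ⟨fun s => if s = 1 then g0 1 else F s / (s - 1) ^ r, fun s => ?_, fun s hs => if_neg hs⟩
  by_cases hs : s = 1
  · rw [hs]
    refine hg0.differentiableAt.congr_of_eventuallyEq ?_
    filter_upwards [hg] with z hz
    by_cases h : z = 1
    · rw [if_pos h, h]
    · rw [if_neg h, hz, smul_eq_mul, mul_div_cancel_left₀ _ (pow_ne_zero _ (sub_ne_zero.mpr h))]
  · have h1 : DifferentiableAt ℂ (fun s => F s / (s - 1) ^ r) s :=
      (hF s).div (by fun_prop) (pow_ne_zero _ (sub_ne_zero.mpr hs))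
    refine h1.congr_of_eventuallyEq ?_
    filter_upwards [isOpen_ne.mem_nhds hs] with z hz
    exact if_neg hz

theorem two_pow_mul_le (hf : f.IsNewform) (hb : ∀ n, ‖qCoeff f n‖ ≤ n) {r : ℕ}
    (hr : analyticOrderAt (LF f) 1 = r) : 2 ^ r * ‖Lam f 3‖ ≤ bd N := by
  have hr' : analyticOrderAt (Lam f) 1 = r := by rw [Parity.order_Lam f (by norm_num), hr]
  obtain ⟨g, hg, hgF⟩ := exists_quotient (differentiable_Lam f) hr'
  obtain ⟨B, hB⟩ := exists_bound_strip f
  have hbd : 0 ≤ bd N := by unfold bd; positivity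
  have hside : ∀ z : ℂ, (4 : ℝ) ≤ |(z - 1).re| → ‖Lam f z‖ ≤ bd N → ‖g z‖ ≤ bd N / 4 ^ r := by
    intro z hz1 hz2
    have hz : z ≠ 1 := by
      rintro rfl
      norm_num at hz1
    have h4 : 4 ≤ ‖z - 1‖ := hz1.trans (Complex.abs_re_le_norm _)
    rw [hgF z hz, norm_div, norm_pow]
    exact div_le_div₀ hbd hz2 (by positivity) (pow_le_pow_left₀ (by norm_num) h4 r)
  have key : ‖g 3‖ ≤ bd N / 4 ^ r := by
    refine PhragmenLindelof.vertical_strip (a := -3) (b := 5) hg.diffContOnCl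
      ⟨0, by norm_num; positivity, 0, ?_⟩ (fun z hz => hside z ?_ (norm_Lam_le' hf hb hz))
      (fun z hz => hside z ?_ (norm_Lam_le hb hz)) (by norm_num) (by norm_num)
    · refine IsBigO.of_bound B ?_
      rw [eventually_inf_principal]
      filter_upwards [tendsto_comap.eventually (eventually_ge_atTop (1 : ℝ))] with z hz hzs
      have him : 1 ≤ |z.im| := hz
      have hz1 : z ≠ 1 := by
        rintro rfl
        norm_num at him
      have h1 : 1 ≤ ‖z - 1‖ := by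
        refine him.trans ?_
        have := Complex.abs_im_le_norm (z - 1)
        simpa using this
      have h2 : ‖Lam f z‖ ≤ B := hB z hzs.1 hzs.2
      have e : ‖Real.exp (0 * Real.exp (0 * |z.im|))‖ = 1 := by simp
      rw [e, mul_one, hgF z hz1, norm_div, norm_pow]
      calc ‖Lam f z‖ / ‖z - 1‖ ^ r ≤ ‖Lam f z‖ / 1 :=
            div_le_div_of_nonneg_left (norm_nonneg _) one_pos (one_le_pow₀ h1)
        _ ≤ B := by rwa [div_one]
    · rw [Complex.sub_re, hz]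
      norm_num
    · rw [Complex.sub_re, hz]
      norm_num
  have h3 : (3 : ℂ) ≠ 1 := by norm_num
  have e3 : ‖(3 : ℂ) - 1‖ = 2 := by norm_num
  rw [hgF 3 h3, norm_div, norm_pow, e3, div_le_div_iff₀ (by positivity) (by positivity)] at key
  have e4 : (4 : ℝ) ^ r = 2 ^ r * 2 ^ r := by rw [← mul_pow]; norm_num
  rw [e4, ← mul_assoc] at key
  have := le_of_mul_le_mul_right key (by positivity : (0 : ℝ) < 2 ^ r)
  linarith

/-- **An upper bound for the order of vanishing at the centre** for a newform with `|a_n| ≤ n`. -/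
theorem two_pow_lt (hf : f.IsNewform) (hb : ∀ n, ‖qCoeff f n‖ ≤ n) {r : ℕ}
    (hr : analyticOrderAt (LF f) 1 = r) : 2 ^ r < N := by
  have hN : (0 : ℝ) < N := by exact_mod_cast Nat.pos_of_ne_zero (NeZero.ne N)
  have h1 := two_pow_mul_le hf hb hr
  have h2 := le_norm_LF_three hf hb
  have hpi2 : (0 : ℝ) < 2 * π := by positivity
  have e3 : (3 : ℂ).re = 3 := by norm_num
  rw [norm_Lam f (by rw [e3]; norm_num), e3] at h1
  have hG : ‖Complex.Gamma 3‖ = 2 := by
    have h : Complex.Gamma ((2 : ℕ) + 1) = (Nat.factorial 2 : ℂ) := Complex.Gamma_nat_eq_factorial 2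
    have e : ((2 : ℕ) : ℂ) + 1 = 3 := by norm_num
    rw [e] at h
    rw [h]
    norm_num [Nat.factorial]
  rw [hG, bd] at h1
  obtain ⟨A, hA⟩ : ∃ A : ℝ, A = (N : ℝ) ^ ((3 : ℝ) / 2) * (2 * π) ^ (-(3 : ℝ)) := ⟨_, rfl⟩
  have hA0 : 0 < A := by rw [hA]; positivity
  have e5 : (N : ℝ) ^ ((5 : ℝ) / 2) * (2 * π) ^ (-(5 : ℝ)) = A * (N / (2 * π) ^ 2) := by
    rw [hA, show (5 : ℝ) / 2 = 3 / 2 + 1 by norm_num, Real.rpow_add hN, Real.rpow_one,
      show (-(5 : ℝ)) = -3 - (2 : ℕ) by norm_num, Real.rpow_sub hpi2, Real.rpow_natCast]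
    ring
  rw [e5, ← hA] at h1
  have h3 : 2 ^ r * (2 * ‖LF f 3‖) ≤ N / (2 * π) ^ 2 * 24 * (π ^ 4 / 90) := by
    refine le_of_mul_le_mul_left ?_ hA0
    calc A * (2 ^ r * (2 * ‖LF f 3‖)) = 2 ^ r * (A * 2 * ‖LF f 3‖) := by ring
      _ ≤ A * (N / (2 * π) ^ 2) * 24 * (π ^ 4 / 90) := h1
      _ = _ := by ring
  have hpi := Real.pi_pos
  have e6 : (N : ℝ) / (2 * π) ^ 2 * 24 * (π ^ 4 / 90) = N * π ^ 2 / 15 := by
    field_simp
    ring
  rw [e6] at h3
  have hsq : π ^ 2 < 10 := by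
    have := Real.pi_lt_d2
    nlinarith
  have hr0 : (0 : ℝ) < 2 ^ r := by positivity
  have h4 : (2 : ℝ) ^ r * (2 / 3) < N * (2 / 3) := by
    have h5 : 1 / 3 < ‖LF f 3‖ := by linarith
    nlinarith
  have h5 : (2 : ℝ) ^ r < N := by linarith
  exact_mod_cast h5

/-! ### Semistable elliptic curves -/

open Fermat.Agent.Cor.LWeil Fermat.Agent.Cor.AffCount

/-- **The analytic rank of a semistable elliptic curve**: `2 ^ r < N`. -/
theorem rank_bound {W : WeierstrassCurve ℤ} {L Λ : ℂ → ℂ} (h : IsHasseWeil W L Λ) (hΔ : W.Δ ≠ 0)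
    (hW : W.IsSemistableModel) : ∃ r : ℕ, analyticOrderAt L 1 = r ∧ (-1) ^ r = LWeil.rootNumber W ∧
      2 ^ r < W.conductorLevel := by
  obtain ⟨r, hr, hr'⟩ := h.parity
  refine ⟨r, hr, hr', ?_⟩
  obtain ⟨f, hf, hfW⟩ := exists_newform hΔ hW
  have hb : ∀ n, ‖qCoeff f n‖ ≤ n := by
    intro n
    rcases eq_or_ne n 0 with rfl | hn
    · rw [H22.cusp_qCoeff_zero f]
      simp
    · refine SmallRank.norm_le hΔ hf (fun q hq hqN => ?_) n hn
      rw [hfW q hq, ap_eq_of_good hq fun h' => hqN ((W.prime_dvd_conductorLevel_iff hΔ hq).mpr h')]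
  rw [RankOne.eq_LF h hΔ hf hfW] at hr
  exact two_pow_lt hf hb hr

end Fermat.Agent.Cor.RankBound
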