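import Fermat.Agent.Cor.RankOne

/-!
# Elliptic curves of analytic rank one

The ten elliptic curves `37a, 43a, 53a, 57a, 58a, 61a, 65a, 77a, 79a, 82a` are semistable, and their L-functions have
a simple zero at `s = 1`.

This file is not used by any of the statement files.
-/

set_option autoImplicit false

noncomputable section

namespace Fermat.Agent.Cor.RankExamples

open Fermat.Agent.Cor.AffCount Fermat.Agent.Cor.LWeil WeierstrassCurve

/-- The set of points of the reduction as a finite set. -/
theorem ap_eq (W : WeierstrassCurve ℤ) (p : ℕ) [NeZero p] : ap W p = p -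
    ((Finset.univ : Finset (ZMod p × ZMod p)).filter fun P =>
      P.2 ^ 2 + (W.a₁ : ZMod p) * P.1 * P.2 + (W.a₃ : ZMod p) * P.2 =
        P.1 ^ 3 + (W.a₂ : ZMod p) * P.1 ^ 2 + (W.a₄ : ZMod p) * P.1 + (W.a₆ : ZMod p)).card := by
  have e : Nat.card {P : ZMod p × ZMod p // (W.reductionMod p).toAffine.Equation P.1 P.2} =
      Nat.card {P : ZMod p × ZMod p // P.2 ^ 2 + (W.a₁ : ZMod p) * P.1 * P.2 +
        (W.a₃ : ZMod p) * P.2 = P.1 ^ 3 + (W.a₂ : ZMod p) * P.1 ^ 2 + (W.a₄ : ZMod p) * P.1 +
          (W.a₆ : ZMod p)} :=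
    Nat.card_congr (Equiv.subtypeEquivRight fun P => by rw [Affine.equation_iff]; rfl)
  rw [ap, e, Nat.card_eq_fintype_card, Fintype.card_subtype]

theorem isSemistableModel {W : WeierstrassCurve ℤ} (h : Int.gcd W.Δ W.c₄ = 1) :
    W.IsSemistableModel := by
  intro p hp h1 h2
  have h3 : p ∣ Int.gcd W.Δ W.c₄ := by
    have := Int.dvd_coe_gcd h1 h2
    exact_mod_cast this
  rw [h] at h3
  exact hp.one_lt.ne' (Nat.dvd_one.mp h3)

theorem primeFactors_eq {W : WeierstrassCurve ℤ} (hΔ : W.Δ ≠ 0) {S : Finset ℕ}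
    (hS : ∀ p ∈ S, p.Prime) (h1 : ∀ p ∈ S, (p : ℤ) ∣ W.Δ) {k : ℕ}
    (h2 : W.Δ ∣ (∏ p ∈ S, (p : ℤ)) ^ k) : W.conductorLevel.primeFactors = S := by
  ext q
  rw [Nat.mem_primeFactors]
  constructor
  · rintro ⟨hq, hd, -⟩
    have h3 := ((W.prime_dvd_conductorLevel_iff hΔ hq).mp hd).trans h2
    have hq' : Prime (q : ℤ) := Nat.prime_iff_prime_int.mp hq
    have h4 := hq'.dvd_of_dvd_pow h3
    obtain ⟨p, hp, h5⟩ := (hq'.dvd_finsetProd_iff _).mp h4
    have h6 : q ∣ p := by exact_mod_cast h5
    rwa [(Nat.prime_dvd_prime_iff_eq hq (hS p hp)).mp h6]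
  · intro hq
    exact ⟨hS q hq, (W.prime_dvd_conductorLevel_iff hΔ (hS q hq)).mpr (h1 q hq),
      W.conductorLevel_pos.ne'⟩

theorem conductorLevel_eq {W : WeierstrassCurve ℤ} (hΔ : W.Δ ≠ 0) {S : Finset ℕ}
    (hS : ∀ p ∈ S, p.Prime) (h1 : ∀ p ∈ S, (p : ℤ) ∣ W.Δ) {k : ℕ}
    (h2 : W.Δ ∣ (∏ p ∈ S, (p : ℤ)) ^ k) : W.conductorLevel = ∏ p ∈ S, p := by
  rw [← Nat.prod_primeFactors_of_squarefree W.squarefree_conductorLevel,
    primeFactors_eq hΔ hS h1 h2]

/-- the statement: `W` is semistable of conductor `N`, and its L-function has a simple zero at `s = 1` -/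
structure HasRankOne (W : WeierstrassCurve ℤ) (N : ℕ) : Prop where
  Δ_ne_zero : W.Δ ≠ 0
  semistable : W.IsSemistableModel
  conductor : W.conductorLevel = N
  rootNumber : rootNumber W = -1
  order : ∃ L Λ : ℂ → ℂ, IsHasseWeil W L Λ ∧ analyticOrderAt L 1 = 1

theorem hasRankOne {W : WeierstrassCurve ℤ} (hΔ : W.Δ ≠ 0) (hg : Int.gcd W.Δ W.c₄ = 1)
    {S : Finset ℕ} (hS : ∀ p ∈ S, p.Prime) (h1 : ∀ p ∈ S, (p : ℤ) ∣ W.Δ) {k : ℕ}
    (h2 : W.Δ ∣ (∏ p ∈ S, (p : ℤ)) ^ k) (hN : ∏ p ∈ S, p ≤ 82) (ha : ∀ p ∈ S, ap W p = -1) :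
    HasRankOne W (∏ p ∈ S, p) := by
  have hW := isSemistableModel hg
  have hc := conductorLevel_eq hΔ hS h1 h2
  have hw : LWeil.rootNumber W = -1 := by
    rw [LWeil.rootNumber, primeFactors_eq hΔ hS h1 h2,
      Finset.prod_congr rfl (g := fun _ => (1 : ℤ)) (fun p hp => by rw [ha p hp]; norm_num),
      Finset.prod_const_one]
  obtain ⟨L, Λ, h⟩ := hasseWeil W hΔ hW
  refine ⟨hΔ, hW, hc, hw, L, Λ, h, ?_⟩
  rcases RankOne.analyticRank_eq h hΔ hW (by rwa [hc]) with ⟨h3, -⟩ | ⟨-, h3⟩
  · rw [hw] at h3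
    norm_num at h3
  · exact h3

/-! ### The curves -/

/-- `37a`: `y² + y = x³ - x` -/
def W37 : WeierstrassCurve ℤ := ⟨0, 0, 1, -1, 0⟩

set_option maxRecDepth 100000 in
theorem hasRankOne_37 : HasRankOne W37 37 := by
  have h := hasRankOne (W := W37) (S := {37}) (k := 1) (by decide) (by decide)
    (by simp; norm_num) (by simp; decide) (by simp; decide) (by simp) (by
      intro p hp
      rw [Finset.mem_singleton] at hp
      subst hp
      rw [ap_eq]
      decide +kernel)
  simpa using h

/-- `43a`: `y² + y = x³ + x²` -/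
def W43 : WeierstrassCurve ℤ := ⟨0, 1, 1, 0, 0⟩

set_option maxRecDepth 100000 in
theorem hasRankOne_43 : HasRankOne W43 43 := by
  have h := hasRankOne (W := W43) (S := {43}) (k := 1) (by decide) (by decide)
    (by simp; norm_num) (by simp; decide) (by simp; decide) (by simp) (by
      intro p hp
      rw [Finset.mem_singleton] at hp
      subst hp
      rw [ap_eq]
      decide +kernel)
  simpa using h

/-- `53a`: `y² + xy + y = x³ - x²` -/
def W53 : WeierstrassCurve ℤ := ⟨1, -1, 1, 0, 0⟩

set_option maxRecDepth 100000 in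
theorem hasRankOne_53 : HasRankOne W53 53 := by
  have h := hasRankOne (W := W53) (S := {53}) (k := 1) (by decide) (by decide)
    (by simp; norm_num) (by simp; decide) (by simp; decide) (by simp) (by
      intro p hp
      rw [Finset.mem_singleton] at hp
      subst hp
      rw [ap_eq]
      decide +kernel)
  simpa using h

/-- `57a`: `y² + y = x³ - x² - 2x + 2` -/
def W57 : WeierstrassCurve ℤ := ⟨0, -1, 1, -2, 2⟩

set_option maxRecDepth 100000 in
theorem hasRankOne_57 : HasRankOne W57 57 := by
  have h := hasRankOne (W := W57) (S := {3, 19}) (k := 2) (by decide) (by decide)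
    (by simp; norm_num) (by simp; decide) (by simp; decide) (by simp) (by
      intro p hp
      rw [Finset.mem_insert, Finset.mem_singleton] at hp
      rcases hp with rfl | rfl
      · rw [ap_eq]
        decide +kernel
      · rw [ap_eq]
        decide +kernel)
  simpa using h

/-- `58a`: `y² + xy = x³ - x² - x + 1` -/
def W58 : WeierstrassCurve ℤ := ⟨1, -1, 0, -1, 1⟩

set_option maxRecDepth 100000 in
theorem hasRankOne_58 : HasRankOne W58 58 := by
  have h := hasRankOne (W := W58) (S := {2, 29}) (k := 2) (by decide) (by decide)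
    (by simp; norm_num) (by simp; decide) (by simp; decide) (by simp) (by
      intro p hp
      rw [Finset.mem_insert, Finset.mem_singleton] at hp
      rcases hp with rfl | rfl
      · rw [ap_eq]
        decide +kernel
      · rw [ap_eq]
        decide +kernel)
  simpa using h

/-- `61a`: `y² + xy = x³ - 2x + 1` -/
def W61 : WeierstrassCurve ℤ := ⟨1, 0, 0, -2, 1⟩

set_option maxRecDepth 100000 in
theorem hasRankOne_61 : HasRankOne W61 61 := by
  have h := hasRankOne (W := W61) (S := {61}) (k := 1) (by decide) (by decide)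
    (by simp; norm_num) (by simp; decide) (by simp; decide) (by simp) (by
      intro p hp
      rw [Finset.mem_singleton] at hp
      subst hp
      rw [ap_eq]
      decide +kernel)
  simpa using h

/-- `65a`: `y² + xy = x³ - x` -/
def W65 : WeierstrassCurve ℤ := ⟨1, 0, 0, -1, 0⟩

set_option maxRecDepth 100000 in
theorem hasRankOne_65 : HasRankOne W65 65 := by
  have h := hasRankOne (W := W65) (S := {5, 13}) (k := 1) (by decide) (by decide)
    (by simp; norm_num) (by simp; decide) (by simp; decide) (by simp) (by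
      intro p hp
      rw [Finset.mem_insert, Finset.mem_singleton] at hp
      rcases hp with rfl | rfl
      · rw [ap_eq]
        decide +kernel
      · rw [ap_eq]
        decide +kernel)
  simpa using h

/-- `77a`: `y² + y = x³ + 2x` -/
def W77 : WeierstrassCurve ℤ := ⟨0, 0, 1, 2, 0⟩

set_option maxRecDepth 100000 in
theorem hasRankOne_77 : HasRankOne W77 77 := by
  have h := hasRankOne (W := W77) (S := {7, 11}) (k := 2) (by decide) (by decide)
    (by simp; norm_num) (by simp; decide) (by simp; decide) (by simp) (by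
      intro p hp
      rw [Finset.mem_insert, Finset.mem_singleton] at hp
      rcases hp with rfl | rfl
      · rw [ap_eq]
        decide +kernel
      · rw [ap_eq]
        decide +kernel)
  simpa using h

/-- `79a`: `y² + xy + y = x³ + x² - 2x` -/
def W79 : WeierstrassCurve ℤ := ⟨1, 1, 1, -2, 0⟩

set_option maxRecDepth 100000 in
theorem hasRankOne_79 : HasRankOne W79 79 := by
  have h := hasRankOne (W := W79) (S := {79}) (k := 1) (by decide) (by decide)
    (by simp; norm_num) (by simp; decide) (by simp; decide) (by simp) (by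
      intro p hp
      rw [Finset.mem_singleton] at hp
      subst hp
      rw [ap_eq]
      decide +kernel)
  simpa using h

/-- `82a`: `y² + xy + y = x³ - 2x` -/
def W82 : WeierstrassCurve ℤ := ⟨1, 0, 1, -2, 0⟩

set_option maxRecDepth 100000 in
theorem hasRankOne_82 : HasRankOne W82 82 := by
  have h := hasRankOne (W := W82) (S := {2, 41}) (k := 2) (by decide) (by decide)
    (by simp; norm_num) (by simp; decide) (by simp; decide) (by simp) (by
      intro p hp
      rw [Finset.mem_insert, Finset.mem_singleton] at hp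
      rcases hp with rfl | rfl
      · rw [ap_eq]
        decide +kernel
      · rw [ap_eq]
        decide +kernel)
  simpa using h

end Fermat.Agent.Cor.RankExamples
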