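import Fermat.Agent.Cor.RankExamples

/-!
# The smallest conductor of a semistable elliptic curve with vanishing central value

For every semistable elliptic curve `W` over `ℚ` of conductor `N < 37` the root number is `1` and `L(W, 1) ≠ 0`. The
curve `37a` has root number `-1` (`RankExamples.hasRankOne_37`), so `37` is the smallest conductor of a semistable
elliptic curve with `L(W, 1) = 0`.

Proof. If the root number is `-1`, then the newform `f` of `W` vanishes at the fixed point `i / √N` of the Fricke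
involution, so `∑ a_n x^(n-1) = 0` for `x = exp(-2π / √N)`. For `N ≤ 26` this contradicts `|a_n| ≤ n`; for the
squarefree levels `29, 30, 31, 33, 34, 35` it contradicts this bound together with the relations for `a₄`, `a₆` and
`a_q = ±1` for `q ∣ N`.

This file is not used by any of the statement files.
-/

set_option autoImplicit false

noncomputable section

namespace Fermat.Agent.Cor.RankMin

open CongruenceSubgroup ModularFormClass
open Fermat.Agent.Cor.AffCount Fermat.Agent.Cor.LFun Fermat.Agent.Cor.LWeil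
open scoped Real

/-! ### Real analysis -/

theorem exp_le {N : ℕ} (hN : 0 < N) {s h δ : ℝ} (hs : (N : ℝ) ≤ s ^ 2) (hs0 : 0 < s) (hδ : 0 ≤ δ)
    (hy : (1 + δ) * s ≤ 6.283) (hh : 0 < h) (h1 : 1 ≤ h * (2.7182 * (1 + δ + δ ^ 2 / 2))) :
    Real.exp (-(2 * π * (√N)⁻¹)) ≤ h := by
  have hN0 : (0 : ℝ) < N := by exact_mod_cast hN
  have h2 : 0 < √(N : ℝ) := by positivity
  have h3 : √(N : ℝ) ≤ s := by
    rw [Real.sqrt_le_left hs0.le]
    exact hs
  have h4 : 1 + δ ≤ 2 * π * (√N)⁻¹ := by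
    rw [← div_eq_mul_inv, le_div_iff₀ h2]
    have h5 := Real.pi_gt_d4
    have h6 : (1 + δ) * √(N : ℝ) ≤ (1 + δ) * s := by gcongr
    linarith
  have h5 : 2.7182 * (1 + δ + δ ^ 2 / 2) ≤ Real.exp (2 * π * (√N)⁻¹) := by
    have h6 := Real.exp_one_gt_d9
    have h7 := Real.quadratic_le_exp_of_nonneg hδ
    calc 2.7182 * (1 + δ + δ ^ 2 / 2) ≤ Real.exp 1 * Real.exp δ := by
          gcongr
          linarith
      _ = Real.exp (1 + δ) := (Real.exp_add _ _).symm
      _ ≤ _ := Real.exp_le_exp.mpr h4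
  rw [Real.exp_neg]
  have h6 : 1 ≤ h * Real.exp (2 * π * (√N)⁻¹) :=
    h1.trans (mul_le_mul_of_nonneg_left h5 hh.le)
  rw [inv_le_iff_one_le_mul₀ (Real.exp_pos _)]
  exact h6

/-- the tail of the series -/
def tail (h : ℝ) : ℝ := h ^ 7 * (h / (1 - h) ^ 2 + 8 / (1 - h))

theorem tail_mono {x h : ℝ} (hx0 : 0 < x) (hx : x ≤ h) (hh : h < 1) : tail x ≤ tail h := by
  unfold tail
  have h0 : 0 < h := hx0.trans_le hx
  have h1 : 0 < 1 - h := by linarith
  have h3 : 0 < 1 - x := by linarith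
  have e1 : x ^ 7 ≤ h ^ 7 := pow_le_pow_left₀ hx0.le hx 7
  have e2 : x / (1 - x) ^ 2 ≤ h / (1 - h) ^ 2 := by
    refine div_le_div₀ h0.le hx (by positivity) ?_
    exact pow_le_pow_left₀ h1.le (by linarith) 2
  have e3 : 8 / (1 - x) ≤ 8 / (1 - h) := div_le_div_of_nonneg_left (by norm_num) h1 (by linarith)
  exact mul_le_mul e1 (add_le_add e2 e3) (by positivity) (by positivity)

theorem exists_tail {b : ℕ → ℝ} {x : ℝ} (hx0 : 0 < x) (hx1 : x < 1) (h0 : b 0 = 0) (h1 : b 1 = 1)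
    (hb : ∀ n, |b n| ≤ n) (hs : HasSum (fun n => b n * x ^ n) 0) :
    ∃ R : ℝ, |R| ≤ tail x ∧ 1 + b 2 * x + b 3 * x ^ 2 + b 4 * x ^ 3 + b 5 * x ^ 4 + b 6 * x ^ 5 +
      b 7 * x ^ 6 + R = 0 := by
  rw [← hasSum_nat_add_iff' 8] at hs
  obtain ⟨S, hS⟩ : ∃ S, S = 0 - ∑ i ∈ Finset.range 8, b i * x ^ i := ⟨_, rfl⟩
  rw [← hS] at hs
  have hn : ‖x‖ < 1 := by rwa [Real.norm_of_nonneg hx0.le]
  have hg : HasSum (fun n : ℕ => x ^ 8 * ((n : ℝ) * x ^ n + 8 * x ^ n))
      (x ^ 8 * (x / (1 - x) ^ 2 + 8 * (1 - x)⁻¹)) :=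
    ((hasSum_coe_mul_geometric_of_norm_lt_one hn).add
      ((hasSum_geometric_of_lt_one hx0.le hx1).mul_left 8)).mul_left _
  have h2 := hs.norm_le_of_bounded hg fun n => by
    rw [norm_mul, Real.norm_eq_abs, norm_pow, Real.norm_of_nonneg hx0.le]
    calc |b (n + 8)| * x ^ (n + 8) ≤ ((n + 8 : ℕ) : ℝ) * x ^ (n + 8) :=
          mul_le_mul_of_nonneg_right (hb (n + 8)) (by positivity)
      _ = x ^ 8 * ((n : ℝ) * x ^ n + 8 * x ^ n) := by push_cast; ring
  refine ⟨S / x, ?_, ?_⟩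
  · rw [abs_div, abs_of_pos hx0, div_le_iff₀ hx0, tail]
    rw [Real.norm_eq_abs] at h2
    calc |S| ≤ x ^ 8 * (x / (1 - x) ^ 2 + 8 * (1 - x)⁻¹) := h2
      _ = x ^ 7 * (x / (1 - x) ^ 2 + 8 / (1 - x)) * x := by rw [div_eq_mul_inv 8]; ring
  · have h3 : S = -(x + b 2 * x ^ 2 + b 3 * x ^ 3 + b 4 * x ^ 4 + b 5 * x ^ 5 + b 6 * x ^ 6 +
        b 7 * x ^ 7) := by
      rw [hS]
      simp only [Finset.sum_range_succ, Finset.sum_range_zero, h0, h1]
      ring
    rw [h3]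
    field_simp
    ring

theorem pos_simple {x h t b2 b3 b4 b5 b6 b7 B2 B3 B4 B5 B6 B7 R : ℝ} (hx0 : 0 < x) (hx : x ≤ h)
    (h2 : |b2| ≤ B2) (h3 : |b3| ≤ B3) (h4 : |b4| ≤ B4) (h5 : |b5| ≤ B5) (h6 : |b6| ≤ B6)
    (h7 : |b7| ≤ B7) (hR : |R| ≤ t)
    (hc : B2 * h + B3 * h ^ 2 + B4 * h ^ 3 + B5 * h ^ 4 + B6 * h ^ 5 + B7 * h ^ 6 + t < 1) :
    0 < 1 + b2 * x + b3 * x ^ 2 + b4 * x ^ 3 + b5 * x ^ 4 + b6 * x ^ 5 + b7 * x ^ 6 + R := by
  have key : ∀ {b B : ℝ} (k : ℕ), |b| ≤ B → -(B * h ^ k) ≤ b * x ^ k := by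
    intro b B k hb
    have h1 : |b * x ^ k| ≤ B * h ^ k := by
      rw [abs_mul, abs_of_pos (pow_pos hx0 k)]
      exact mul_le_mul hb (pow_le_pow_left₀ hx0.le hx k) (by positivity) ((abs_nonneg _).trans hb)
    exact (abs_le.mp h1).1
  have e2 := key 1 h2
  have e3 := key 2 h3
  have e4 := key 3 h4
  have e5 := key 4 h5
  have e6 := key 5 h6
  have e7 := key 6 h7
  have e8 := (abs_le.mp hR).1
  rw [pow_one, pow_one] at e2
  linarith

theorem pos_odd {x h A t b2 b3 b4 b5 b6 b7 R : ℝ} (hx0 : 0 < x) (hx : x ≤ h) (hh : h ≤ 2 / 5)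
    (hA : 0 ≤ A) (h2 : b2 = -2 ∨ (-1 ≤ b2 ∧ b2 ≤ 2)) (h4 : b4 = b2 ^ 2 - 2) (h3 : -3 ≤ b3)
    (h6 : b6 = b2 * b3) (h5 : -A ≤ b5) (h7 : -7 ≤ b7) (hR : -t ≤ R)
    (c1 : 0 < 1 - 2 * h - h ^ 2 * (3 - 2 * h) - A * h ^ 4 - t)
    (c2 : 0 < 1 - h - 3 * (h ^ 2 + 2 * h ^ 5) - 2 * h ^ 3 - A * h ^ 4 - 7 * h ^ 6 - t) :
    0 < 1 + b2 * x + b3 * x ^ 2 + b4 * x ^ 3 + b5 * x ^ 4 + b6 * x ^ 5 + b7 * x ^ 6 + R := by
  have p2 : x ^ 2 ≤ h ^ 2 := pow_le_pow_left₀ hx0.le hx 2
  have p3 : x ^ 3 ≤ h ^ 3 := pow_le_pow_left₀ hx0.le hx 3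
  have p4 : x ^ 4 ≤ h ^ 4 := pow_le_pow_left₀ hx0.le hx 4
  have p5 : x ^ 5 ≤ h ^ 5 := pow_le_pow_left₀ hx0.le hx 5
  have p6 : x ^ 6 ≤ h ^ 6 := pow_le_pow_left₀ hx0.le hx 6
  have q2 : 0 < x ^ 2 := by positivity
  have q3 : 0 < x ^ 3 := by positivity
  have q4 : 0 < x ^ 4 := by positivity
  have q5 : 0 < x ^ 5 := by positivity
  have q6 : 0 < x ^ 6 := by positivity
  have hx3 : x ^ 3 ≤ 8 / 125 := by
    calc x ^ 3 ≤ (2 / 5) ^ 3 := pow_le_pow_left₀ hx0.le (hx.trans hh) 3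
      _ = 8 / 125 := by norm_num
  have e5 : -(A * h ^ 4) ≤ b5 * x ^ 4 := by nlinarith
  have e7 : -(7 * x ^ 6) ≤ b7 * x ^ 6 := by nlinarith
  have hb2 : -2 ≤ b2 := by
    rcases h2 with h2 | h2
    · exact h2.ge
    · linarith [h2.1]
  have hfac : 0 ≤ x ^ 2 * (1 + b2 * x ^ 3) := by
    have : 0 ≤ 1 + b2 * x ^ 3 := by nlinarith
    positivity
  have e36 : -3 * (x ^ 2 * (1 + b2 * x ^ 3)) ≤ b3 * x ^ 2 + b6 * x ^ 5 := by
    have e : b3 * x ^ 2 + b6 * x ^ 5 = b3 * (x ^ 2 * (1 + b2 * x ^ 3)) := by rw [h6]; ring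
    rw [e]
    exact mul_le_mul_of_nonneg_right h3 hfac
  rcases h2 with rfl | ⟨h2a, h2b⟩
  · have hm : x ^ 2 * (3 - 2 * x) ≤ h ^ 2 * (3 - 2 * h) := by
      nlinarith [mul_nonneg (sub_nonneg.mpr hx) hx0.le,
        mul_nonneg (sub_nonneg.mpr hx) (hx0.le.trans hx), mul_nonneg (mul_nonneg
          (sub_nonneg.mpr hx) hx0.le) (sub_nonneg.mpr hh), mul_nonneg (mul_nonneg
          (sub_nonneg.mpr hx) (hx0.le.trans hx)) (sub_nonneg.mpr hh), mul_nonneg (mul_nonneg
          (sub_nonneg.mpr hx) hx0.le) (sub_nonneg.mpr (hx.trans hh))]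
    have h56 : 0 ≤ x ^ 5 * (6 - 7 * x) := by
      have : 0 ≤ 6 - 7 * x := by linarith
      positivity
    rw [h4]
    nlinarith
  · have e4 : -2 * h ^ 3 ≤ b4 * x ^ 3 := by
      rw [h4]
      nlinarith [mul_nonneg (sq_nonneg b2) q3.le]
    have e2 : -h ≤ b2 * x := by nlinarith
    have e36' : -3 * (h ^ 2 + 2 * h ^ 5) ≤ -3 * (x ^ 2 * (1 + b2 * x ^ 3)) := by
      have : x ^ 2 * (1 + b2 * x ^ 3) = x ^ 2 + b2 * x ^ 5 := by ring
      rw [this]
      nlinarith
    nlinarith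

/-! ### The coefficients -/

variable {W : WeierstrassCurve ℤ}

/-- If the root number is `-1` then `∑ a_n x^n = 0` for `x = exp(-2π / √N)`. -/
theorem hasSum_zero (hΔ : W.Δ ≠ 0) {f : CuspForm (Gamma0 W.conductorLevel) 2} (hf : f.IsNewform)
    (hfW : ∀ q : ℕ, q.Prime → qCoeff f q = (ap W q : ℂ)) (hw : rootNumber W = -1) :
    HasSum (fun n => (aN W n : ℝ) * Real.exp (-(2 * π * (√W.conductorLevel)⁻¹)) ^ n) 0 := by
  have hN : (0 : ℝ) < W.conductorLevel := by exact_mod_cast W.conductorLevel_pos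
  have hc := CentralSeries.sqrt_pos' (N := W.conductorLevel)
  have h1 := CentralSeries.hasSum_phi f hc
  have h2 := CentralSeries.phi_inv hf hc
  have h3 : (W.conductorLevel : ℝ)⁻¹ * (√(W.conductorLevel : ℝ))⁻¹⁻¹ =
      (√(W.conductorLevel : ℝ))⁻¹ := by
    have := Real.mul_self_sqrt hN.le
    field_simp
    nlinarith
  have h4 : (W.conductorLevel : ℂ) * ((((√(W.conductorLevel : ℝ))⁻¹ : ℝ) : ℂ)) ^ 2 = 1 := by
    have h5 : (W.conductorLevel : ℝ) * ((√(W.conductorLevel : ℝ))⁻¹) ^ 2 = 1 := by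
      rw [inv_pow, Real.sq_sqrt hN.le, mul_inv_cancel₀ hN.ne']
    exact_mod_cast h5
  rw [h3, RankOne.rootNumber_form hf hfW, hw, h4, one_mul] at h2
  have h5 : CentralSeries.phi f (√(W.conductorLevel : ℝ))⁻¹ = 0 := by
    push_cast at h2
    linear_combination (1 / 2 : ℂ) * h2
  rw [h5] at h1
  have h6 := Complex.hasSum_re h1
  rw [Complex.zero_re] at h6
  convert h6 using 1
  funext n
  rw [qCoeff_eq_aN hf.1 (fun q hq => W.prime_dvd_conductorLevel_iff hΔ hq) hfW,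
    ← Real.exp_nat_mul, ← Complex.ofReal_intCast, ← Complex.ofReal_mul, Complex.ofReal_re]
  congr 2
  ring

/-- **The root number of a semistable elliptic curve of conductor less than `37`** is `1`. -/
theorem rootNumber_eq_one (hΔ : W.Δ ≠ 0) (hW : W.IsSemistableModel)
    (hN : W.conductorLevel < 37) : rootNumber W = 1 := by
  refine (rootNumber_eq_one_or hΔ hW).resolve_right fun hw => ?_
  obtain ⟨f, hf, hfW⟩ := exists_newform hΔ hW
  have hq : ∀ n, qCoeff f n = ((aN W n : ℝ) : ℂ) := fun n => by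
    rw [qCoeff_eq_aN hf.1 (fun q hq => W.prime_dvd_conductorLevel_iff hΔ hq) hfW]
    push_cast
    rfl
  obtain ⟨b, hb⟩ : ∃ b : ℕ → ℝ, b = fun n => (aN W n : ℝ) := ⟨_, rfl⟩
  have hqb : ∀ n, qCoeff f n = (b n : ℂ) := fun n => by rw [hq, hb]
  have hs := hasSum_zero hΔ hf hfW hw
  set x := Real.exp (-(2 * π * (√W.conductorLevel)⁻¹)) with hx
  have hx0 : 0 < x := Real.exp_pos _
  have hbn : ∀ n, |b n| ≤ n := by
    intro n
    rcases eq_or_ne n 0 with rfl | hn
    · have h1 := hqb 0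
      rw [H22.cusp_qCoeff_zero f] at h1
      have h2 : b 0 = 0 := by exact_mod_cast h1.symm
      rw [h2]
      simp
    · have h1 := SmallRank.norm_le hΔ hf (fun q hq hqN => by
        rw [hfW q hq, ap_eq_of_good hq fun h' => hqN ((W.prime_dvd_conductorLevel_iff hΔ hq).mpr h')])
        n hn
      rwa [hqb, Complex.norm_real, Real.norm_eq_abs] at h1
  have h0 : b 0 = 0 := by
    have := hbn 0
    simpa using this
  have h1 : b 1 = 1 := by
    have h1 := hqb 1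
    rw [hf.1.qCoeff_one] at h1
    exact_mod_cast h1.symm
  have hs' : HasSum (fun n => b n * x ^ n) 0 := by rw [hb]; exact hs
  have b6 : b 6 = b 2 * b 3 := by
    have h1 := hf.1.qCoeff_mul_of_coprime 2 3 (by norm_num)
    rw [hqb, hqb, hqb] at h1
    exact_mod_cast h1
  have b4o : ¬ 2 ∣ W.conductorLevel → b 4 = b 2 ^ 2 - 2 := by
    intro h2
    have h1 := hf.1.qCoeff_prime_pow_of_not_dvd 2 0 Nat.prime_two h2
    norm_num at h1
    rw [hqb, hqb, hf.1.qCoeff_one] at h1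
    have h3 : b 4 = b 2 * b 2 - 2 := by
      have h4 : ((b 4 : ℝ) : ℂ) = ((b 2 * b 2 - 2 : ℝ) : ℂ) := by
        push_cast
        linear_combination h1
      exact_mod_cast h4
    rw [h3]
    ring
  have b4e : 2 ∣ W.conductorLevel → b 4 = b 2 ^ 2 := by
    intro h2
    have h1 := hf.1.qCoeff_prime_pow_of_dvd 2 0 Nat.prime_two h2
    norm_num at h1
    rw [hqb, hqb] at h1
    have h4 : ((b 4 : ℝ) : ℂ) = ((b 2 * b 2 : ℝ) : ℂ) := by
      push_cast
      linear_combination h1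
    have h5 : b 4 = b 2 * b 2 := by exact_mod_cast h4
    rw [h5]
    ring
  have hbad : ∀ q : ℕ, q.Prime → q ∣ W.conductorLevel → |b q| = 1 := by
    intro q hq' hd
    have h1 := (RootNumber.newformBadPrimeCoeff f hf q hq' hd).1 (by
      rw [pow_two]
      intro h2
      exact hq'.one_lt.ne' (Nat.isUnit_iff.mp (W.squarefree_conductorLevel q h2)))
    rw [hqb] at h1
    have h2 : b q ^ 2 = 1 := by exact_mod_cast h1
    have h3 : |b q| ^ 2 = 1 := by rw [sq_abs, h2]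
    nlinarith [abs_nonneg (b q)]
  have hb2 : b 2 = -2 ∨ (-1 ≤ b 2 ∧ b 2 ≤ 2) := by
    have h2 := hbn 2
    have h3 : b 2 = (aN W 2 : ℝ) := by rw [hb]
    rw [h3] at h2 ⊢
    have h4 := abs_le.mp h2
    have h5 : -2 ≤ aN W 2 := by exact_mod_cast h4.1
    have h6 : aN W 2 ≤ 2 := by exact_mod_cast h4.2
    rcases h5.eq_or_lt with h7 | h7
    · left
      rw [← h7]
      norm_num
    · right
      have h8 : -1 ≤ aN W 2 := by omega
      exact ⟨by exact_mod_cast h8, by exact_mod_cast h6⟩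
  have hN0 := W.conductorLevel_pos
  have main : ∀ {h : ℝ}, x ≤ h → h < 1 → ∃ R : ℝ, |R| ≤ tail h ∧
      1 + b 2 * x + b 3 * x ^ 2 + b 4 * x ^ 3 + b 5 * x ^ 4 + b 6 * x ^ 5 + b 7 * x ^ 6 + R = 0 := by
    intro h hxh hh
    obtain ⟨R, hR, hR'⟩ := exists_tail hx0 (by linarith) h0 h1 hbn hs'
    exact ⟨R, hR.trans (tail_mono hx0 hxh hh), hR'⟩
  have n2 : |b 2| ≤ 2 := by exact_mod_cast hbn 2
  have n3 : |b 3| ≤ 3 := by exact_mod_cast hbn 3
  have n4 : |b 4| ≤ 4 := by exact_mod_cast hbn 4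
  have n5 : |b 5| ≤ 5 := by exact_mod_cast hbn 5
  have n6 : |b 6| ≤ 6 := by exact_mod_cast hbn 6
  have n7 : |b 7| ≤ 7 := by exact_mod_cast hbn 7
  rcases le_or_gt W.conductorLevel 26 with h26 | h26
  · -- `N ≤ 26`
    have hxh : x ≤ 0.2925 := by
      refine exp_le hN0 (s := 5.0991) (δ := 0.232) ?_ (by norm_num) (by norm_num) (by norm_num)
        (by norm_num) (by norm_num)
      have : (W.conductorLevel : ℝ) ≤ 26 := by exact_mod_cast h26
      norm_num
      linarith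
    obtain ⟨R, hR, hR'⟩ := main hxh (by norm_num)
    have := pos_simple hx0 hxh n2 n3 n4 n5 n6 n7 hR (by unfold tail; norm_num)
    linarith
  by_cases h2 : 2 ∣ W.conductorLevel
  · -- `N = 30, 34`
    have h34 : W.conductorLevel ≤ 34 := by
      by_contra hcon
      have h36 : W.conductorLevel = 36 := by omega
      have h4 := W.squarefree_conductorLevel 2 (by rw [h36]; norm_num)
      exact absurd (Nat.isUnit_iff.mp h4) (by norm_num)
    have hxh : x ≤ 0.3410 := by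
      refine exp_le hN0 (s := 5.831) (δ := 0.077) ?_ (by norm_num) (by norm_num) (by norm_num)
        (by norm_num) (by norm_num)
      have : (W.conductorLevel : ℝ) ≤ 34 := by exact_mod_cast h34
      norm_num
      linarith
    obtain ⟨R, hR, hR'⟩ := main hxh (by norm_num)
    have e2 : |b 2| ≤ 1 := (hbad 2 Nat.prime_two h2).le
    have e4 : |b 4| ≤ 1 := by
      rw [b4e h2, abs_of_nonneg (sq_nonneg _), ← sq_abs, hbad 2 Nat.prime_two h2]
      norm_num
    have := pos_simple hx0 hxh e2 n3 e4 n5 n6 n7 hR (by unfold tail; norm_num)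
    linarith
  by_cases h3 : 3 ∣ W.conductorLevel
  · -- `N = 33`
    have h33 : W.conductorLevel ≤ 33 := by omega
    have hxh : x ≤ 0.3355 := by
      refine exp_le hN0 (s := 5.7446) (δ := 0.0935) ?_ (by norm_num) (by norm_num) (by norm_num)
        (by norm_num) (by norm_num)
      have : (W.conductorLevel : ℝ) ≤ 33 := by exact_mod_cast h33
      norm_num
      linarith
    obtain ⟨R, hR, hR'⟩ := main hxh (by norm_num)
    have e3 : |b 3| ≤ 1 := (hbad 3 Nat.prime_three h3).le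
    have e4 : |b 4| ≤ 2 := by
      rw [b4o h2, abs_le]
      rcases hb2 with h | h
      · rw [h]
        norm_num
      · constructor
        · nlinarith [sq_nonneg (b 2)]
        · nlinarith [h.1, h.2]
    have := pos_simple hx0 hxh n2 e3 e4 n5 n6 n7 hR (by unfold tail; norm_num)
    linarith
  rcases le_or_gt W.conductorLevel 31 with h31 | h31
  · -- `N = 29, 31`
    have hxh : x ≤ 0.3242 := by
      refine exp_le hN0 (s := 5.5678) (δ := 0.128) ?_ (by norm_num) (by norm_num) (by norm_num)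
        (by norm_num) (by norm_num)
      have : (W.conductorLevel : ℝ) ≤ 31 := by exact_mod_cast h31
      norm_num
      linarith
    obtain ⟨R, hR, hR'⟩ := main hxh (by norm_num)
    have := pos_odd hx0 hxh (by norm_num) (A := 5) (by norm_num) hb2 (b4o h2) (abs_le.mp n3).1 b6
      (abs_le.mp n5).1 (abs_le.mp n7).1 (abs_le.mp hR).1 (by unfold tail; norm_num)
      (by unfold tail; norm_num)
    linarith
  · -- `N = 35`
    have h35 : W.conductorLevel = 35 := by omega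
    have hxh : x ≤ 0.3460 := by
      refine exp_le hN0 (s := 5.9161) (δ := 0.0619) ?_ (by norm_num) (by norm_num) (by norm_num)
        (by norm_num) (by norm_num)
      have : (W.conductorLevel : ℝ) ≤ 35 := by exact_mod_cast h35.le
      norm_num
      linarith
    obtain ⟨R, hR, hR'⟩ := main hxh (by norm_num)
    have e5 : |b 5| ≤ 1 := (hbad 5 Nat.prime_five (by rw [h35]; norm_num)).le
    have := pos_odd hx0 hxh (by norm_num) (A := 1) (by norm_num) hb2 (b4o h2) (abs_le.mp n3).1 b6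
      (abs_le.mp e5).1 (abs_le.mp n7).1 (abs_le.mp hR).1 (by unfold tail; norm_num)
      (by unfold tail; norm_num)
    linarith

/-- **For every semistable elliptic curve of conductor less than `37` the central value is not zero.** -/
theorem one_ne_zero {L Λ : ℂ → ℂ} (h : IsHasseWeil W L Λ) (hΔ : W.Δ ≠ 0)
    (hW : W.IsSemistableModel) (hN : W.conductorLevel < 37) : L 1 ≠ 0 := by
  have hw := rootNumber_eq_one hΔ hW hN
  rcases RankOne.analyticRank_eq h hΔ hW (by omega) with ⟨-, h3⟩ | ⟨h2, -⟩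
  · exact (h.differentiable_L.analyticAt 1).analyticOrderAt_eq_zero.mp h3
  · rw [hw] at h2
    norm_num at h2

/-- **`37` is the smallest conductor** of a semistable elliptic curve over `ℚ` with `L(W, 1) = 0`. -/
theorem isLeast_37 : IsLeast {N : ℕ | ∃ W : WeierstrassCurve ℤ, W.Δ ≠ 0 ∧ W.IsSemistableModel ∧
    W.conductorLevel = N ∧ ∃ L Λ : ℂ → ℂ, IsHasseWeil W L Λ ∧ L 1 = 0} 37 := by
  constructor
  · obtain ⟨h1, h2, h3, h4, L, Λ, h5, -⟩ := RankExamples.hasRankOne_37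
    exact ⟨_, h1, h2, h3, L, Λ, h5, h5.one_eq_zero h4⟩
  · rintro N ⟨W, h1, h2, rfl, L, Λ, h5, h6⟩
    by_contra hcon
    exact one_ne_zero h5 h1 h2 (not_le.mp hcon) h6

end Fermat.Agent.Cor.RankMin
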