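import Mathlib
import Fermat.Agent.Cor.EichlerL
import Fermat.Agent.Cor.Parity
import Fermat.Agent.Cor.HasseWeil

set_option autoImplicit false

/-!
# Central values of semistable elliptic curves of conductor at most 82

Let `W` be a semistable elliptic curve over `ℚ` of conductor `N ≤ 82` and let `g` be its newform.

* `norm_le`: `|a_n(g)| ≤ n` for all `n ≥ 1` (no assumption on the conductor);
* `central_value_pos`: if the root number of `g` is `1` then `L(g, 1)` is a positive real number;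
* `analyticRank_eq_zero_iff`: the order of vanishing of `L(g, s)` at `s = 1` is zero if and only if the root
  number is `1`.

Proof: if the root number is `1` then `g(i / (N t)) = N t² g(i t)`, so
`L(g, 1) = 4 π ∫_{1/√N}^∞ g(i t) dt`. With `y = exp(-2 π t)` we have `g(i t) ≥ 2 y - y / (1 - y)²` because of
`|a_n| ≤ n`, and the integral of the right hand side is `(2 y₀ - y₀ / (1 - y₀)) / (2 π) > 0` where
`y₀ = exp(-2 π / √N) < 1 / 2` for `N ≤ 82`.

This file is not used by any of the statement files.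
-/

namespace Fermat.Agent.Cor.SmallRank

open CongruenceSubgroup ModularFormClass Complex MeasureTheory Set Filter
open UpperHalfPlane hiding I
open scoped MatrixGroups Real Topology ComplexConjugate
open Fermat.Agent.IntStr Fermat.Agent.H22 Fermat.Agent.Cor.LFun Fermat.Agent.Cor.Eichler

noncomputable section

variable {N : ℕ} [NeZero N]

/-- the variable `exp (-2 π t)` -/
def yy (t : ℝ) : ℝ := Real.exp (-(2 * π * t))

theorem yy_pos (t : ℝ) : 0 < yy t := Real.exp_pos _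

theorem yy_lt_one {t : ℝ} (ht : 0 < t) : yy t < 1 := by
  rw [yy, Real.exp_lt_one_iff]
  have := Real.pi_pos
  nlinarith [mul_pos this ht]

theorem qParam_yy {t : ℝ} (ht : 0 < t) :
    Function.Periodic.qParam 1 ((ofComplex (I * t) : ℍ) : ℂ) = (yy t : ℂ) := qParam_it ht

/-- the lower bound on the imaginary axis -/
theorem vi_lower (f : CuspForm (Gamma0 N) 2) (h1 : qCoeff f 1 = 1)
    (hb : ∀ n : ℕ, n ≠ 0 → ‖qCoeff f n‖ ≤ n) {t : ℝ} (ht : 0 < t) :
    2 * yy t - yy t / (1 - yy t) ^ 2 ≤ vi f t := by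
  have hf := AL.coe_mem_QR f
  have h2 := UpperHalfPlane.hasSum_qExpansion one_pos hf.1 hf.2.1 hf.2.2 (ofComplex (I * t))
  have h3 := Complex.hasSum_re h2
  have h4 := hasSum_coe_mul_geometric_of_norm_lt_one (𝕜 := ℝ) (r := yy t)
    (by rw [Real.norm_of_nonneg (yy_pos t).le]; exact yy_lt_one ht)
  have h5 := h3.add h4
  have h6 := le_hasSum h5 1 (fun n hn ↦ ?_)
  · rw [qParam_yy ht] at h6
    have e1 : (qExpansion 1 f).coeff 1 = 1 := h1
    rw [e1] at h6
    simp only [pow_one, one_smul, Complex.ofReal_re, Nat.cast_one, one_mul] at h6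
    rw [vi]
    linarith
  · rw [qParam_yy ht, smul_eq_mul, ← Complex.ofReal_pow, Complex.re_mul_ofReal, ← add_mul]
    refine mul_nonneg ?_ (pow_nonneg (yy_pos t).le n)
    rcases eq_or_ne n 0 with rfl | hn0
    · rw [coeff_zero_cusp f]
      simp
    · have h7 := hb n hn0
      have h8 := (Complex.abs_re_le_norm (qCoeff f n)).trans h7
      have h9 : -(n : ℝ) ≤ (qCoeff f n).re := (abs_le.mp h8).1
      have h10 : ((qExpansion 1 f).coeff n).re = (qCoeff f n).re := rfl
      rw [h10]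
      linarith

theorem hasDerivAt_yy (t : ℝ) : HasDerivAt yy (-(2 * π) * yy t) t := by
  have h1 : HasDerivAt (fun t : ℝ ↦ -(2 * π) * t) (-(2 * π)) t := by
    simpa using (hasDerivAt_id t).const_mul (-(2 * π))
  have h2 := h1.exp
  have h3 : yy = fun t ↦ Real.exp (-(2 * π) * t) := by funext t; rw [yy, neg_mul]
  have h4 : -(2 * π) * yy t = Real.exp (-(2 * π) * t) * -(2 * π) := by rw [h3]; ring
  rw [h4, h3]
  exact h2

theorem tendsto_yy : Tendsto yy atTop (𝓝 0) := by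
  refine Real.tendsto_exp_neg_atTop_nhds_zero.comp ?_
  exact tendsto_id.const_mul_atTop (by positivity)

/-- the first piece -/
theorem int_one {a : ℝ} : IntegrableOn yy (Ioi a) ∧ ∫ t in Ioi a, yy t = yy a / (2 * π) := by
  have hp := Real.pi_pos
  have h1 : ∀ x ∈ Ici a, HasDerivAt (fun t ↦ -(2 * π)⁻¹ * yy t) (yy x) x := by
    intro x _
    have h := (hasDerivAt_yy x).const_mul (-(2 * π)⁻¹)
    have e : -(2 * π)⁻¹ * (-(2 * π) * yy x) = yy x := by field_simp
    rw [e] at h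
    exact h
  have h2 : Tendsto (fun t ↦ -(2 * π)⁻¹ * yy t) atTop (𝓝 0) := by
    have := tendsto_yy.const_mul (-(2 * π)⁻¹)
    simpa using this
  have h3 := integrableOn_Ioi_deriv_of_nonneg' h1 (fun x _ ↦ (yy_pos x).le) h2
  refine ⟨h3, ?_⟩
  rw [integral_Ioi_of_hasDerivAt_of_tendsto' h1 h3 h2]
  field_simp
  ring

/-- the second piece -/
theorem int_two {a : ℝ} (ha : 0 < a) : IntegrableOn (fun t ↦ yy t / (1 - yy t) ^ 2) (Ioi a) ∧
    ∫ t in Ioi a, yy t / (1 - yy t) ^ 2 = yy a / (1 - yy a) / (2 * π) := by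
  have hp := Real.pi_pos
  have hne : ∀ x ∈ Ici a, 0 < 1 - yy x := fun x hx ↦
    sub_pos.mpr (yy_lt_one (lt_of_lt_of_le ha hx))
  have h1 : ∀ x ∈ Ici a, HasDerivAt (fun t ↦ -(2 * π)⁻¹ * (1 - yy t)⁻¹)
      (yy x / (1 - yy x) ^ 2) x := by
    intro x hx
    have hx0 := (hne x hx).ne'
    have h := (((hasDerivAt_yy x).const_sub 1).inv hx0).const_mul (-(2 * π)⁻¹)
    have e : -(2 * π)⁻¹ * (- -(-(2 * π) * yy x) / (1 - yy x) ^ 2) = yy x / (1 - yy x) ^ 2 := by
      field_simp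
    rw [e] at h
    exact h
  have h2 : Tendsto (fun t ↦ -(2 * π)⁻¹ * (1 - yy t)⁻¹) atTop (𝓝 (-(2 * π)⁻¹)) := by
    have h := (((tendsto_const_nhds (x := (1 : ℝ))).sub tendsto_yy).inv₀ (by norm_num)).const_mul
      (-(2 * π)⁻¹)
    simpa using h
  have h3 := integrableOn_Ioi_deriv_of_nonneg' h1 (fun x hx ↦
    div_nonneg (yy_pos x).le (sq_nonneg _)) h2
  refine ⟨h3, ?_⟩
  rw [integral_Ioi_of_hasDerivAt_of_tendsto' h1 h3 h2]
  have := (hne a self_mem_Ici).ne'
  field_simp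
  ring

/-- the integral over the half line is positive -/
theorem integral_pos (f : CuspForm (Gamma0 N) 2) (h1 : qCoeff f 1 = 1)
    (hb : ∀ n : ℕ, n ≠ 0 → ‖qCoeff f n‖ ≤ n) {a : ℝ} (ha : 0 < a) (hya : yy a < 1 / 2)
    (hint : IntegrableOn (vi f) (Ioi a)) : 0 < ∫ t in Ioi a, vi f t := by
  have hp := Real.pi_pos
  obtain ⟨i1, e1⟩ := int_one (a := a)
  obtain ⟨i2, e2⟩ := int_two ha
  have h2 : ∫ t in Ioi a, (2 * yy t - yy t / (1 - yy t) ^ 2) ≤ ∫ t in Ioi a, vi f t := by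
    refine setIntegral_mono_on ((i1.const_mul 2).sub i2) hint measurableSet_Ioi fun t ht ↦ ?_
    exact vi_lower f h1 hb (ha.trans ht)
  have h3 : ∫ t in Ioi a, (2 * yy t - yy t / (1 - yy t) ^ 2) =
      2 * (yy a / (2 * π)) - yy a / (1 - yy a) / (2 * π) := by
    rw [integral_sub (i1.const_mul 2) i2, integral_const_mul, e1, e2]
  refine lt_of_lt_of_le ?_ h2
  rw [h3]
  have hy := yy_pos a
  have h4 : 0 < 1 - yy a := by linarith
  have h5 : 2 * (yy a / (2 * π)) - yy a / (1 - yy a) / (2 * π) =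
      yy a * (1 - 2 * yy a) / ((1 - yy a) * (2 * π)) := by
    field_simp
    ring
  rw [h5]
  have : 0 < 1 - 2 * yy a := by linarith
  positivity

/-! ### The Fricke involution -/

theorem fricke_it (f : CuspForm (Gamma0 N) 2) (hw : wN f = -f) {t : ℝ} (ht : 0 < t) :
    f (ofComplex (I * ((N * t)⁻¹ : ℝ))) = (N * t ^ 2 : ℝ) * f (ofComplex (I * t)) := by
  have hN : (0 : ℝ) < N := by exact_mod_cast Nat.pos_of_ne_zero (NeZero.ne N)
  have hN' : (N : ℂ) ≠ 0 := by exact_mod_cast NeZero.ne N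
  have ht' : (t : ℂ) ≠ 0 := by exact_mod_cast ht.ne'
  have h1 := wN_apply f (ofComplex (I * t))
  rw [hw] at h1
  have h2 : (frickeGL N • (ofComplex (I * t) : ℍ) : ℍ) = ofComplex (I * ((N * t)⁻¹ : ℝ)) := by
    apply UpperHalfPlane.ext
    rw [coe_it (by positivity), coe_fricke_smul, coe_it ht]
    push_cast
    field_simp
    rw [I_sq]
  rw [h2, coe_it ht] at h1
  have h3 : (-f : CuspForm (Gamma0 N) 2) (ofComplex (I * t)) = - f (ofComplex (I * t)) := rfl
  rw [h3] at h1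
  have hd : (N : ℂ) * (I * t) ^ 2 ≠ 0 := mul_ne_zero hN' (pow_ne_zero 2 (mul_ne_zero I_ne_zero ht'))
  rw [eq_div_iff hd] at h1
  rw [← h1]
  push_cast
  have := I_sq
  linear_combination (-(N : ℂ) * t ^ 2 * f (ofComplex (I * t))) * this

theorem fricke_vi (f : CuspForm (Gamma0 N) 2) (hw : wN f = -f) {t : ℝ} (ht : 0 < t) :
    vi f ((N * t)⁻¹) = N * t ^ 2 * vi f t := by
  rw [vi, vi, fricke_it f hw ht, re_ofReal_mul]

/-- folding of the integral -/
theorem integral_fold (f : CuspForm (Gamma0 N) 2) (hw : wN f = -f)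
    (hint : IntegrableOn (vi f) (Ioi 0)) :
    ∫ t in Ioi (0 : ℝ), vi f t = 2 * ∫ t in Ioi ((√N)⁻¹ : ℝ), vi f t := by
  have hN : (0 : ℝ) < N := by exact_mod_cast Nat.pos_of_ne_zero (NeZero.ne N)
  have hs : (0 : ℝ) < √N := Real.sqrt_pos.mpr hN
  set a : ℝ := (√N)⁻¹ with ha
  have ha0 : 0 < a := inv_pos.mpr hs
  have haN : N * a * a = 1 := by
    rw [ha]
    have := Real.mul_self_sqrt hN.le
    field_simp
    nlinarith
  have h1 : (fun t : ℝ ↦ (N * t)⁻¹) '' Ioi a = Ioo 0 a := by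
    ext x
    constructor
    · rintro ⟨t, ht, rfl⟩
      have ht' : a < t := ht
      have ht0 : 0 < t := ha0.trans ht'
      refine ⟨by positivity, ?_⟩
      simp only
      rw [inv_lt_iff_one_lt_mul₀ (by positivity), ← haN]
      have : N * a * a < N * t * a := by
        have := mul_lt_mul_of_pos_left ht' hN
        exact mul_lt_mul_of_pos_right this ha0
      linarith
    · rintro ⟨hx0, hxa⟩
      refine ⟨(N * x)⁻¹, ?_, ?_⟩
      · rw [mem_Ioi, lt_inv_comm₀ ha0 (by positivity)]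
        have h5 : a⁻¹ = N * a := by field_simp; linarith [haN]
        rw [h5]
        exact mul_lt_mul_of_pos_left hxa hN
      · simp only
        field_simp
  have hderiv : ∀ x ∈ Ioi a, HasDerivWithinAt (fun t : ℝ ↦ (N * t)⁻¹) (-N / (N * x) ^ 2) (Ioi a) x := by
    intro x hx
    have hx0 : 0 < x := ha0.trans hx
    have h := ((hasDerivAt_id x).const_mul (N : ℝ)).inv (by simp only [id]; positivity)
    simp only [id, mul_one] at h
    exact h.hasDerivWithinAt
  have hinj : InjOn (fun t : ℝ ↦ (N * t)⁻¹) (Ioi a) := by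
    intro x hx y hy hxy
    simp only [inv_inj] at hxy
    exact mul_left_cancel₀ hN.ne' hxy
  have h2 := integral_image_eq_integral_abs_deriv_smul measurableSet_Ioi hderiv hinj (vi f)
  rw [h1] at h2
  have h3 : ∫ x in Ioi a, |(-N / (N * x) ^ 2 : ℝ)| • vi f ((N * x)⁻¹) = ∫ x in Ioi a, vi f x := by
    refine setIntegral_congr_fun measurableSet_Ioi fun x hx ↦ ?_
    have hx0 : 0 < x := ha0.trans hx
    rw [fricke_vi f hw hx0, smul_eq_mul, neg_div, abs_neg, abs_of_pos (by positivity)]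
    field_simp
  rw [h3] at h2
  have h4 : Ioi (0 : ℝ) = Ioo 0 a ∪ Ici a := (Ioo_union_Ici_eq_Ioi ha0).symm
  have hdisj : Disjoint (Ioo 0 a) (Ici a) := by
    rw [Set.disjoint_left]
    rintro x ⟨_, hx⟩ hx'
    exact absurd hx (not_lt.mpr hx')
  rw [h4, setIntegral_union hdisj measurableSet_Ici
    (hint.mono_set fun x hx ↦ hx.1) (hint.mono_set fun x hx ↦ ha0.trans_le hx), h2,
    integral_Ici_eq_integral_Ioi]
  ring

/-- **Positivity of the central value** for root number `1`, small level and small coefficients. -/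
theorem LF_one_pos' (f : CuspForm (Gamma0 N) 2) (hw : wN f = -f) (h1 : qCoeff f 1 = 1)
    (hreal : ∀ n, conj (qCoeff f n) = qCoeff f n)
    (hb : ∀ n : ℕ, n ≠ 0 → ‖qCoeff f n‖ ≤ n) (hN : N ≤ 82) : ∃ x : ℝ, 0 < x ∧ LFun.LF f 1 = x := by
  have hN0 : (0 : ℝ) < N := by exact_mod_cast Nat.pos_of_ne_zero (NeZero.ne N)
  have hk : (0 : ℤ) < 2 := by norm_num
  have hm := ((CuspForm.isStrongFEPair hk f).hasMellin 1).1
  have hint : IntegrableOn (fun t : ℝ ↦ f (ofComplex (I * t))) (Ioi 0) := by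
    have h1 : IntegrableOn (fun t : ℝ ↦ (t : ℂ) ^ ((1 : ℂ) - 1) •
        (ModularForm.weakFEPair hk f).f t) (Ioi 0) := hm
    simpa using h1
  have h2 : ModularForm.Λ hk f 1 = ∫ t in Ioi (0 : ℝ), f (ofComplex (I * t)) := by
    rw [CuspForm.Λ_eq_mellin, mellin]
    simp
  have hvi : IntegrableOn (vi f) (Ioi 0) := hint.re
  have h3 : ∫ t in Ioi (0 : ℝ), f (ofComplex (I * t)) = ((∫ t in Ioi (0 : ℝ), vi f t : ℝ) : ℂ) := by
    rw [← integral_complex_ofReal]
    exact setIntegral_congr_fun measurableSet_Ioi fun t ht ↦ vi_eq f hreal ht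
  have hs : (0 : ℝ) < √N := Real.sqrt_pos.mpr hN0
  have hya : yy ((√N)⁻¹) < 1 / 2 := by
    have h5 : (N : ℝ) ≤ 82 := by exact_mod_cast hN
    have h6 : √(N : ℝ) ≤ 9.0554 := by
      rw [Real.sqrt_le_left (by norm_num)]
      linarith
    have h7 := Real.log_two_lt_d9
    have h8 := Real.pi_gt_d2
    have h9 : Real.log 2 < 2 * π * (√N)⁻¹ := by
      rw [← div_eq_mul_inv, lt_div_iff₀ hs]
      have := Real.log_pos (show (1 : ℝ) < 2 by norm_num)
      nlinarith
    rw [yy, Real.exp_neg, one_div]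
    rw [inv_lt_inv₀ (Real.exp_pos _) (by norm_num)]
    rwa [Real.log_lt_iff_lt_exp (by norm_num)] at h9
  have h4 : 0 < ∫ t in Ioi (0 : ℝ), vi f t := by
    rw [integral_fold f hw hvi]
    have := integral_pos f h1 hb (inv_pos.mpr hs) hya (hvi.mono_set (Ioi_subset_Ioi (inv_pos.mpr hs).le))
    linarith
  refine ⟨2 * π * ∫ t in Ioi (0 : ℝ), vi f t, by positivity, ?_⟩
  rw [LFun.LF, ModularForm.L]
  have h5 : (2 / Gammaℂ 1 : ℂ) = 2 * π := by
    rw [Gammaℂ]
    simp only [Complex.Gamma_one, mul_one, Complex.cpow_neg_one]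
    have : (π : ℂ) ≠ 0 := by exact_mod_cast Real.pi_ne_zero
    field_simp
  rw [h5, h2, h3]
  push_cast
  ring

end

/-! ### Bounds for the coefficients -/

open WeierstrassCurve

theorem sq_le_pow {p r : ℕ} (h : 4 ≤ p ∧ 1 ≤ r ∨ p = 3 ∧ 2 ≤ r ∨ p = 2 ∧ 6 ≤ r) :
    (r + 1) ^ 2 ≤ p ^ r := by
  rcases h with ⟨hp, hr⟩ | ⟨rfl, hr⟩ | ⟨rfl, hr⟩
  · refine le_trans ?_ (Nat.pow_le_pow_left hp r)
    induction r, hr using Nat.le_induction with
    | base => norm_num
    | succ n hn ih =>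
      rw [pow_succ 4 n]
      nlinarith
  · induction r, hr using Nat.le_induction with
    | base => norm_num
    | succ n hn ih =>
      rw [pow_succ 3 n]
      nlinarith
  · induction r, hr using Nat.le_induction with
    | base => norm_num
    | succ n hn ih =>
      rw [pow_succ 2 n]
      nlinarith

section Curve

variable {W : WeierstrassCurve ℤ} (hΔ : W.Δ ≠ 0) {g : CuspForm (Gamma0 W.conductorLevel) 2}
  (hg : g.IsNewform)
  (hgW : ∀ ℓ : ℕ, ℓ.Prime → ¬ ℓ ∣ W.conductorLevel → qCoeff g ℓ = (W.apOfModel ℓ : ℂ))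

include hg in
theorem norm_bad {p : ℕ} (hp : p.Prime) (hpN : p ∣ W.conductorLevel) : ‖qCoeff g p‖ = 1 := by
  have h1 : ¬ p ^ 2 ∣ W.conductorLevel := fun h => by
    have := W.squarefree_conductorLevel p (by rwa [← pow_two])
    exact hp.one_lt.ne' (Nat.isUnit_iff.mp this)
  have h2 := (RootNumber.newformBadPrimeCoeff' W.conductorLevel_pos.ne' g hg p hp hpN).1 h1
  have h4 := congrArg norm h2
  rw [norm_pow, norm_one] at h4
  exact (pow_eq_one_iff_of_nonneg (norm_nonneg _) two_ne_zero).mp h4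

include hg in
theorem norm_bad_pow {p : ℕ} (hp : p.Prime) (hpN : p ∣ W.conductorLevel) (r : ℕ) :
    ‖qCoeff g (p ^ r)‖ = 1 := by
  induction r using Nat.twoStepInduction with
  | zero => rw [pow_zero, hg.1.qCoeff_one, norm_one]
  | one => rw [pow_one, norm_bad hg hp hpN]
  | more n h1 h2 =>
    rw [hg.1.qCoeff_prime_pow_of_dvd p n hp hpN, norm_mul, h2, norm_bad hg hp hpN, one_mul]

include hg in
theorem qCoeff_two_pow (h : ¬ 2 ∣ W.conductorLevel) {a : ℤ} (ha : qCoeff g 2 = (a : ℂ)) :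
    qCoeff g (2 ^ 1) = a ∧ qCoeff g (2 ^ 2) = ((a ^ 2 - 2 : ℤ) : ℂ) ∧
    qCoeff g (2 ^ 3) = ((a ^ 3 - 4 * a : ℤ) : ℂ) ∧
    qCoeff g (2 ^ 4) = ((a ^ 4 - 6 * a ^ 2 + 4 : ℤ) : ℂ) ∧
    qCoeff g (2 ^ 5) = ((a ^ 5 - 8 * a ^ 3 + 12 * a : ℤ) : ℂ) := by
  have hrec := fun r ↦ hg.1.qCoeff_prime_pow_of_not_dvd 2 r Nat.prime_two h
  have e0 : qCoeff g (2 ^ 0) = 1 := by rw [pow_zero]; exact hg.1.qCoeff_one
  have e1 : qCoeff g (2 ^ 1) = (a : ℂ) := by rw [pow_one]; exact ha
  have e2 : qCoeff g (2 ^ 2) = ((a ^ 2 - 2 : ℤ) : ℂ) := by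
    have := hrec 0
    rw [zero_add, zero_add, e1, e0, ha] at this
    rw [this]; push_cast; ring
  have e3 : qCoeff g (2 ^ 3) = ((a ^ 3 - 4 * a : ℤ) : ℂ) := by
    have : qCoeff g (2 ^ 3) = qCoeff g 2 * qCoeff g (2 ^ 2) - (2 : ℕ) * qCoeff g (2 ^ 1) := hrec 1
    rw [e2, e1, ha] at this
    rw [this]; push_cast; ring
  have e4 : qCoeff g (2 ^ 4) = ((a ^ 4 - 6 * a ^ 2 + 4 : ℤ) : ℂ) := by
    have : qCoeff g (2 ^ 4) = qCoeff g 2 * qCoeff g (2 ^ 3) - (2 : ℕ) * qCoeff g (2 ^ 2) := hrec 2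
    rw [e3, e2, ha] at this
    rw [this]; push_cast; ring
  have e5 : qCoeff g (2 ^ 5) = ((a ^ 5 - 8 * a ^ 3 + 12 * a : ℤ) : ℂ) := by
    have : qCoeff g (2 ^ 5) = qCoeff g 2 * qCoeff g (2 ^ 4) - (2 : ℕ) * qCoeff g (2 ^ 3) := hrec 3
    rw [e4, e3, ha] at this
    rw [this]; push_cast; ring
  exact ⟨e1, e2, e3, e4, e5⟩

include hΔ hg hgW in
theorem norm_two_pow (h : ¬ 2 ∣ W.conductorLevel) {r : ℕ} (hr : 1 ≤ r) (hr5 : r ≤ 5) :
    ‖qCoeff g (2 ^ r)‖ ≤ ((2 ^ r : ℕ) : ℝ) := by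
  have ha : qCoeff g 2 = (W.apOfModel 2 : ℂ) := hgW 2 Nat.prime_two h
  have hgood : W.IsGoodPrimeFor 2 := fun h' =>
    h ((W.prime_dvd_conductorLevel_iff hΔ Nat.prime_two).mpr h')
  have h8 : W.apOfModel 2 ^ 2 < 4 * (2 : ℕ) := Bounds.apOfModel_sq_lt W Nat.prime_two hgood
  obtain ⟨e1, e2, e3, e4, e5⟩ := qCoeff_two_pow hg h ha
  set a := W.apOfModel 2
  have l1 : -2 ≤ a := by push_cast at h8; nlinarith
  have l2 : a ≤ 2 := by push_cast at h8; nlinarith
  have key : ∀ m : ℤ, ∀ k : ℕ, |m| ≤ k → ‖(m : ℂ)‖ ≤ (k : ℝ) := by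
    intro m k hm
    rw [Complex.norm_intCast]
    exact_mod_cast hm
  interval_cases r
  · rw [e1]; apply key; interval_cases a <;> decide
  · rw [e2]; apply key; interval_cases a <;> decide
  · rw [e3]; apply key; interval_cases a <;> decide
  · rw [e4]; apply key; interval_cases a <;> decide
  · rw [e5]; apply key; interval_cases a <;> decide

include hΔ hg hgW in
theorem norm_pow_le {p : ℕ} (hp : p.Prime) (r : ℕ) : ‖qCoeff g (p ^ r)‖ ≤ ((p ^ r : ℕ) : ℝ) := by
  rcases Nat.eq_zero_or_pos r with rfl | hr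
  · rw [pow_zero, hg.1.qCoeff_one, norm_one, Nat.cast_one]
  by_cases hpN : p ∣ W.conductorLevel
  · rw [norm_bad_pow hg hp hpN]
    exact_mod_cast Nat.one_le_pow _ _ hp.pos
  have main : (r + 1) ^ 2 ≤ p ^ r → ‖qCoeff g (p ^ r)‖ ≤ ((p ^ r : ℕ) : ℝ) := by
    intro h
    have h1 := Bounds.newform_norm_le hΔ hg hgW (n := p ^ r) (pow_ne_zero r hp.ne_zero)
    have h2 : (p ^ r).divisors.card = r + 1 := by
      rw [Nat.divisors_prime_pow hp]; simp
    rw [h2] at h1
    refine h1.trans ?_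
    have h3 : (((r + 1 : ℕ) : ℝ)) ≤ √((p ^ r : ℕ) : ℝ) := by
      apply Real.le_sqrt_of_sq_le
      exact_mod_cast h
    calc ((r + 1 : ℕ) : ℝ) * √((p ^ r : ℕ) : ℝ) ≤ √((p ^ r : ℕ) : ℝ) * √((p ^ r : ℕ) : ℝ) := by gcongr
      _ = ((p ^ r : ℕ) : ℝ) := Real.mul_self_sqrt (by positivity)
  rcases Nat.lt_or_ge p 4 with h4 | h4
  · have h2 := hp.two_le
    interval_cases p
    · rcases Nat.lt_or_ge r 6 with h6 | h6
      · exact norm_two_pow hΔ hg hgW hpN hr (by omega)
      · exact main (sq_le_pow (Or.inr (Or.inr ⟨rfl, h6⟩)))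
    · rcases Nat.lt_or_ge r 2 with h6 | h6
      · have hr1 : r = 1 := by omega
        subst hr1
        have hgood : W.IsGoodPrimeFor 3 := fun h' =>
          hpN ((W.prime_dvd_conductorLevel_iff hΔ Nat.prime_three).mpr h')
        have h8 : W.apOfModel 3 ^ 2 < 4 * (3 : ℕ) := Bounds.apOfModel_sq_lt W Nat.prime_three hgood
        rw [pow_one, hgW 3 Nat.prime_three hpN, Complex.norm_intCast]
        have h9 : |W.apOfModel 3| ≤ 3 := by
          rw [abs_le]
          push_cast at h8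
          constructor <;> nlinarith
        exact_mod_cast h9
      · exact main (sq_le_pow (Or.inr (Or.inl ⟨rfl, h6⟩)))
  · exact main (sq_le_pow (Or.inl ⟨h4, hr⟩))

include hΔ hg hgW in
/-- `|a_n| ≤ n` for the newform of a semistable elliptic curve -/
theorem norm_le (n : ℕ) (hn : n ≠ 0) : ‖qCoeff g n‖ ≤ n := by
  induction n using Nat.recOnPosPrimePosCoprime with
  | prime_pow p r hp hr => exact norm_pow_le hΔ hg hgW hp r
  | zero => exact absurd rfl hn
  | one => rw [hg.1.qCoeff_one, norm_one, Nat.cast_one]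
  | coprime a b ha hb hab iha ihb =>
    rw [hg.1.qCoeff_mul_of_coprime a b hab, norm_mul, Nat.cast_mul]
    exact mul_le_mul (iha (by omega)) (ihb (by omega)) (norm_nonneg _) (Nat.cast_nonneg _)

include hg in
theorem conj_pow {p : ℕ} (hp : p.Prime) (h : conj (qCoeff g p) = qCoeff g p) (r : ℕ) :
    conj (qCoeff g (p ^ r)) = qCoeff g (p ^ r) := by
  induction r using Nat.twoStepInduction with
  | zero => rw [pow_zero, hg.1.qCoeff_one, map_one]
  | one => rw [pow_one, h]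
  | more n h1 h2 =>
    by_cases hpN : p ∣ W.conductorLevel
    · rw [hg.1.qCoeff_prime_pow_of_dvd p n hp hpN, map_mul, h, h2]
    · rw [hg.1.qCoeff_prime_pow_of_not_dvd p n hp hpN, map_sub, map_mul, map_mul, h, h2, h1,
        map_natCast]

include hg hgW in
/-- the coefficients are real -/
theorem conj_qCoeff (n : ℕ) : conj (qCoeff g n) = qCoeff g n := by
  have hprime : ∀ p : ℕ, p.Prime → conj (qCoeff g p) = qCoeff g p := by
    intro p hp
    by_cases hpN : p ∣ W.conductorLevel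
    · have h1 : ¬ p ^ 2 ∣ W.conductorLevel := fun h => by
        have := W.squarefree_conductorLevel p (by rwa [← pow_two])
        exact hp.one_lt.ne' (Nat.isUnit_iff.mp this)
      have h2 := (RootNumber.newformBadPrimeCoeff' W.conductorLevel_pos.ne' g hg p hp hpN).1 h1
      have h3 : (qCoeff g p - 1) * (qCoeff g p + 1) = 0 := by linear_combination h2
      rcases mul_eq_zero.mp h3 with h | h
      · rw [sub_eq_zero.mp h, map_one]
      · rw [eq_neg_of_add_eq_zero_left h, map_neg, map_one]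
    · rw [hgW p hp hpN, map_intCast]
  induction n using Nat.recOnPosPrimePosCoprime with
  | prime_pow p r hp hr => exact conj_pow hg hp (hprime p hp) r
  | zero => rw [show qCoeff g 0 = 0 from H22.cusp_qCoeff_zero g, map_zero]
  | one => rw [hg.1.qCoeff_one, map_one]
  | coprime a b ha hb hab iha ihb =>
    rw [hg.1.qCoeff_mul_of_coprime a b hab, map_mul, iha, ihb]

theorem wN_eq_neg {N : ℕ} [NeZero N] {f : CuspForm (Gamma0 N) 2} (hf : f.IsNewform)
    (h : Parity.rootNumber f = 1) : wN f = -f := by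
  have h1 : RootNumber.sign f N = -1 := by
    rw [Parity.rootNumber] at h
    linear_combination -h
  rw [Parity.wN_eq hf, h1]
  refine DFunLike.ext _ _ fun z ↦ ?_
  change (-1 : ℂ) * f z = -f z
  ring

include hΔ hg hgW in
/-- **The central value for root number `1` and conductor at most `82`.** -/
theorem central_value_pos (hN : W.conductorLevel ≤ 82) (hw : Parity.rootNumber g = 1) :
    ∃ x : ℝ, 0 < x ∧ LFun.LF g 1 = x :=
  LF_one_pos' g (wN_eq_neg hg hw) hg.1.qCoeff_one (conj_qCoeff hg hgW)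
    (fun n hn ↦ norm_le hΔ hg hgW n hn) hN

include hΔ hg hgW in
/-- The analytic rank is zero if and only if the root number is `1` (conductor at most `82`). -/
theorem analyticRank_eq_zero_iff (hN : W.conductorLevel ≤ 82) :
    Parity.analyticRank g = 0 ↔ Parity.rootNumber g = 1 := by
  constructor
  · intro h
    have := Parity.neg_one_pow_analyticRank hg
    rw [h, pow_zero] at this
    exact this.symm
  · intro h
    obtain ⟨x, hx, hx1⟩ := central_value_pos hΔ hg hgW hN h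
    rw [Parity.analyticRank, analyticOrderNatAt,
      ((LFun.differentiable_LF g).analyticAt 1).analyticOrderAt_eq_zero.mpr]
    · rfl
    · rw [hx1]; exact_mod_cast hx.ne'

end Curve

/-- **Central values of semistable elliptic curves of conductor at most `82`.** -/
theorem semistable_central_value (W : WeierstrassCurve ℤ) (hΔ : W.Δ ≠ 0) (hW : W.IsSemistableModel)
    (hN : W.conductorLevel ≤ 82) :
    ∃ g : CuspForm (Gamma0 W.conductorLevel) 2, g.IsNewform ∧
      (∀ ℓ : ℕ, ℓ.Prime → ¬ ℓ ∣ W.conductorLevel → qCoeff g ℓ = (W.apOfModel ℓ : ℂ)) ∧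
      ((Parity.rootNumber g = 1 ∧ Parity.analyticRank g = 0 ∧ ∃ x : ℝ, 0 < x ∧ LFun.LF g 1 = x) ∨
        (Parity.rootNumber g = -1 ∧ Parity.analyticRank g ≠ 0 ∧ LFun.LF g 1 = 0)) := by
  obtain ⟨g, hg, hgW⟩ := SmallConductor.exists_newform W hΔ hW
  refine ⟨g, hg, hgW, ?_⟩
  rcases Parity.rootNumber_eq_one_or hg with h | h
  · exact Or.inl ⟨h, (analyticRank_eq_zero_iff hΔ hg hgW hN).mpr h,
      central_value_pos hΔ hg hgW hN h⟩
  · refine Or.inr ⟨h, fun h0 ↦ ?_, Parity.LF_one_eq_zero hg h⟩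
    have h1 := (analyticRank_eq_zero_iff hΔ hg hgW hN).mp h0
    rw [h] at h1
    norm_num at h1

end Fermat.Agent.Cor.SmallRank
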