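import Fermat.Agent.Cor.CentralSeries
import Fermat.Agent.Cor.LWeil
import Fermat.Agent.Cor.SmallRank

/-!
# Analytic ranks of semistable elliptic curves

Let `W` be a semistable elliptic curve over `ℚ` of conductor `N` and root number `w`.

* `L(W, 1) = (1 + w) ∑ (a_n / n) exp(-2πn / √N)`;
* if `N ≤ 82` then the order of vanishing of `L(W, s)` at `s = 1` is `0` if `w = 1` and `1` if `w = -1`.

This file is not used by any of the statement files.
-/

set_option autoImplicit false

noncomputable section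

namespace Fermat.Agent.Cor.RankOne

open CongruenceSubgroup ModularFormClass
open Fermat.Agent.Cor.AffCount Fermat.Agent.Cor.LFun Fermat.Agent.Cor.LWeil
open scoped Real

variable {W : WeierstrassCurve ℤ} {L Λ : ℂ → ℂ}

theorem eq_LF (h : IsHasseWeil W L Λ) (hΔ : W.Δ ≠ 0) {f : CuspForm (Gamma0 W.conductorLevel) 2}
    (hf : f.IsNewform) (hW : ∀ q : ℕ, q.Prime → qCoeff f q = (ap W q : ℂ)) : L = LF f :=
  h.unique (isHasseWeil_of_newform hΔ hf hW)

theorem rootNumber_form {f : CuspForm (Gamma0 W.conductorLevel) 2}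
    (hf : f.IsNewform) (hW : ∀ q : ℕ, q.Prime → qCoeff f q = (ap W q : ℂ)) :
    Parity.rootNumber f = (rootNumber W : ℂ) := by
  rw [Parity.rootNumber_of_squarefree hf W.squarefree_conductorLevel, rootNumber]
  push_cast
  congr 1
  exact Finset.prod_congr rfl fun q hq => by rw [hW q (Nat.prime_of_mem_primeFactors hq)]

/-- **The central value of a semistable elliptic curve**:
`L(W, 1) = (1 + w) ∑ (a_n / n) exp(-2πn / √N)`. -/
theorem one_series (h : IsHasseWeil W L Λ) (hΔ : W.Δ ≠ 0) (hW : W.IsSemistableModel) :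
    HasSum (fun n : ℕ => (1 + (rootNumber W : ℂ)) *
      ((aN W n : ℂ) / n * Real.exp (-(2 * π * n / √W.conductorLevel)))) (L 1) := by
  obtain ⟨f, hf, hfW⟩ := exists_newform hΔ hW
  rw [eq_LF h hΔ hf hfW, ← rootNumber_form hf hfW]
  have h1 := CentralSeries.LF_one_series hf
  simp only [qCoeff_eq_aN hf.1 (fun q hq => W.prime_dvd_conductorLevel_iff hΔ hq) hfW] at h1
  exact h1

/-- **The analytic rank of the semistable elliptic curves of conductor at most `82`** is `0` or `1`, and it is
determined by the root number. -/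
theorem analyticRank_eq (h : IsHasseWeil W L Λ) (hΔ : W.Δ ≠ 0) (hW : W.IsSemistableModel)
    (hN : W.conductorLevel ≤ 82) :
    (rootNumber W = 1 ∧ analyticOrderAt L 1 = 0) ∨ (rootNumber W = -1 ∧ analyticOrderAt L 1 = 1) := by
  obtain ⟨f, hf, hfW⟩ := exists_newform hΔ hW
  have hb : ∀ n, ‖qCoeff f n‖ ≤ n := by
    intro n
    rcases eq_or_ne n 0 with rfl | hn
    · rw [H22.cusp_qCoeff_zero f]
      simp
    · refine SmallRank.norm_le hΔ hf (fun q hq hqN => ?_) n hn
      rw [hfW q hq, ap_eq_of_good hq fun h' => hqN ((W.prime_dvd_conductorLevel_iff hΔ hq).mpr h')]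
  rw [eq_LF h hΔ hf hfW]
  have h1 := rootNumber_form hf hfW
  rcases CentralSeries.analyticRank_eq hf hb hN with ⟨h2, h3⟩ | ⟨h2, h3⟩
  · rw [h1] at h2
    exact Or.inl ⟨by exact_mod_cast h2, h3⟩
  · rw [h1] at h2
    exact Or.inr ⟨by exact_mod_cast h2, h3⟩

/-- `L(W, 1) ≠ 0` if the conductor is at most `82` and the number of split primes is odd. -/
theorem one_ne_zero_of_odd (h : IsHasseWeil W L Λ) (hΔ : W.Δ ≠ 0) (hW : W.IsSemistableModel)
    (hN : W.conductorLevel ≤ 82)
    (ho : Odd (W.conductorLevel.primeFactors.filter (ap W · = 1)).card) : L 1 ≠ 0 := by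
  have hw : rootNumber W = 1 := by
    rw [rootNumber_eq hΔ hW, pow_add, ho.neg_one_pow]
    norm_num
  rcases analyticRank_eq h hΔ hW hN with ⟨-, h3⟩ | ⟨h2, -⟩
  · exact (h.differentiable_L.analyticAt 1).analyticOrderAt_eq_zero.mp h3
  · rw [hw] at h2
    norm_num at h2

/-- `L(W, s)` has a simple zero at `s = 1` if the conductor is at most `82` and the number of split primes is
even. -/
theorem order_eq_one_of_even (h : IsHasseWeil W L Λ) (hΔ : W.Δ ≠ 0) (hW : W.IsSemistableModel)
    (hN : W.conductorLevel ≤ 82)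
    (he : Even (W.conductorLevel.primeFactors.filter (ap W · = 1)).card) :
    analyticOrderAt L 1 = 1 := by
  have hw : rootNumber W = -1 := by
    rw [rootNumber_eq hΔ hW, pow_add, he.neg_one_pow]
    norm_num
  rcases analyticRank_eq h hΔ hW hN with ⟨h2, -⟩ | ⟨-, h3⟩
  · rw [hw] at h2
    norm_num at h2
  · exact h3

end Fermat.Agent.Cor.RankOne
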