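import Fermat.Agent.Cor.RankExamples
import Fermat.Agent.Cor.NagellLutz

/-!
# Rational points of infinite order on the ten curves of analytic rank one

Each of the curves `37a, 43a, 53a, 57a, 58a, 61a, 65a, 77a, 79a, 82a` has a simple zero of its L-function at `s = 1`
(`RankExamples`), and it has infinitely many rational points: we give an integral point `P` such that the coordinates
of `2P` are not integers, and torsion points are integral.

This file is not used by any of the statement files.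
-/

set_option autoImplicit false

noncomputable section

namespace Fermat.Agent.Cor.RankPoints

open WeierstrassCurve WeierstrassCurve.Affine WeierstrassCurve.Affine.Point
open Fermat.Agent.H08 Fermat.Agent.Cor.MW Fermat.Agent.Cor.RankExamples

/-- A criterion for points of infinite order: `2P` is not integral and not of order two. -/
theorem not_isOfFinAddOrder (W : WeierstrassCurve ℤ) {x y l X Y : ℚ}
    (h : (MW.WQ W).Nonsingular x y) (hd : 2 * y + W.a₁ * x + W.a₃ ≠ 0)
    (hl : l * (2 * y + W.a₁ * x + W.a₃) = 3 * x ^ 2 + 2 * W.a₂ * x + W.a₄ - W.a₁ * y)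
    (hX : X = l ^ 2 + W.a₁ * l - W.a₂ - 2 * x) (hY : Y = -(l * (X - x) + y) - W.a₁ * X - W.a₃)
    (hXn : ∀ n : ℤ, X ≠ n) (hYd : 2 * Y + W.a₁ * X + W.a₃ ≠ 0) :
    ¬ IsOfFinAddOrder (Point.some x y h) := by
  intro ht
  have q₁ : (MW.WQ W).a₁ = (W.a₁ : ℚ) := rfl
  have q₂ : (MW.WQ W).a₂ = (W.a₂ : ℚ) := rfl
  have q₃ : (MW.WQ W).a₃ = (W.a₃ : ℚ) := rfl
  have q₄ : (MW.WQ W).a₄ = (W.a₄ : ℚ) := rfl
  have hne : y ≠ (MW.WQ W).negY x y := by
    intro h1
    rw [negY, q₁, q₃] at h1
    exact hd (by linear_combination h1)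
  have hsl : (MW.WQ W).slope x x y y = l := by
    rw [slope_of_Y_ne rfl hne, negY, q₁, q₂, q₃, q₄, ← hl]
    have h1 : y - (-y - W.a₁ * x - W.a₃) = 2 * y + W.a₁ * x + W.a₃ := by ring
    rw [h1, mul_div_cancel_right₀ _ hd]
  have hadd := add_self_of_Y_ne (h₁ := h) hne
  obtain ⟨Q, hQ⟩ : ∃ Q, Q = Point.some x y h + Point.some x y h := ⟨_, rfl⟩
  have hQ0 : Q ≠ 0 := by
    rw [hQ, hadd]
    exact some_ne_zero _
  have hpx : px Q = X := by
    rw [hQ, hadd, px_some, hsl, addX, q₁, q₂, hX]
    ring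
  have hpy : py Q = Y := by
    rw [hQ, hadd, py_some, hsl, addY, negY, negAddY, addX, q₁, q₂, q₃, hY, hX]
    ring
  have htQ : IsOfFinAddOrder Q := by
    rw [hQ, ← two_nsmul]
    exact ht.nsmul
  have h2Q : 2 • Q ≠ 0 := by
    intro h1
    rw [two_nsmul] at h1
    have h2 : Q = -Q := eq_neg_of_add_eq_zero_left h1
    have h3 := congrArg py h2
    rw [py_neg hQ0, hpx, hpy, q₁, q₃] at h3
    exact hYd (by linear_combination h3)
  obtain ⟨n, m, hn, -⟩ := torsion_integral (W := W) hQ0 htQ (Or.inl h2Q)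
  exact hXn n (hpx.symm.trans hn)

/-- The curve has a rational point of infinite order. -/
def HasInfinitePoint (W : WeierstrassCurve ℤ) : Prop :=
  ∃ P : (MW.WQ W).Point, ¬ IsOfFinAddOrder P

theorem HasInfinitePoint.infinite {W : WeierstrassCurve ℤ} (h : HasInfinitePoint W) :
    Infinite (MW.WQ W).Point := by
  obtain ⟨P, hP⟩ := h
  by_contra hcon
  rw [not_infinite_iff_finite] at hcon
  exact hP (isOfFinAddOrder_of_finite P)

theorem hasInfinitePoint (W : WeierstrassCurve ℤ) (hΔ : W.Δ ≠ 0) (x y : ℤ) (l X Y : ℚ)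
    (h : y ^ 2 + W.a₁ * x * y + W.a₃ * y = x ^ 3 + W.a₂ * x ^ 2 + W.a₄ * x + W.a₆)
    (hd : 2 * y + W.a₁ * x + W.a₃ ≠ 0)
    (hl : l * (2 * y + W.a₁ * x + W.a₃) = 3 * x ^ 2 + 2 * W.a₂ * x + W.a₄ - W.a₁ * y)
    (hX : X = l ^ 2 + W.a₁ * l - W.a₂ - 2 * x) (hY : Y = -(l * (X - x) + y) - W.a₁ * X - W.a₃)
    (hXn : X.den ≠ 1) (hYd : 2 * Y + W.a₁ * X + W.a₃ ≠ 0) : HasInfinitePoint W := by
  have hΔ' : (MW.WQ W).Δ ≠ 0 := by
    have : (MW.WQ W).Δ = ((W.Δ : ℤ) : ℚ) := W.map_Δ (Int.castRingHom ℚ)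
    rw [this]
    exact_mod_cast hΔ
  have hE : (MW.WQ W).Equation (x : ℚ) (y : ℚ) := by
    rw [equation_iff]
    change (y : ℚ) ^ 2 + (W.a₁ : ℚ) * x * y + (W.a₃ : ℚ) * y =
      (x : ℚ) ^ 3 + (W.a₂ : ℚ) * x ^ 2 + (W.a₄ : ℚ) * x + (W.a₆ : ℚ)
    exact_mod_cast h
  refine ⟨Point.some x y ((equation_iff_nonsingular_of_Δ_ne_zero hΔ').mp hE),
    not_isOfFinAddOrder W _ (by exact_mod_cast hd) hl hX hY (fun n hn => hXn ?_) hYd⟩
  rw [hn, Rat.den_intCast]

/-- `37a`: the double of `(2, -3)` is `(21/25, -69/125)` -/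
theorem infinite_37 : HasInfinitePoint W37 :=
  hasInfinitePoint W37 (by decide) 2 (-3) (-11 / 5) (21 / 25) (-69 / 125) (by decide) (by decide)
    (by simp [W37]; norm_num) (by simp [W37]; norm_num) (by simp [W37]; norm_num) (by norm_num)
    (by simp [W37]; norm_num)

/-- `43a`: the double of `(1, -2)` is `(-2/9, -28/27)` -/
theorem infinite_43 : HasInfinitePoint W43 :=
  hasInfinitePoint W43 (by decide) (1) (-2) (-5 / 3) (-2 / 9) (-28 / 27) (by decide) (by decide)
    (by simp [W43]; norm_num) (by simp [W43]; norm_num) (by simp [W43]; norm_num) (by norm_num)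
    (by simp [W43]; norm_num)

/-- `53a`: the double of `(1, -2)` is `(-1/4, -5/8)` -/
theorem infinite_53 : HasInfinitePoint W53 :=
  hasInfinitePoint W53 (by decide) (1) (-2) (-3 / 2) (-1 / 4) (-5 / 8) (by decide) (by decide)
    (by simp [W53]; norm_num) (by simp [W53]; norm_num) (by simp [W53]; norm_num) (by norm_num)
    (by simp [W53]; norm_num)

/-- `57a`: the double of `(0, -2)` is `(13/9, 1/27)` -/
theorem infinite_57 : HasInfinitePoint W57 :=
  hasInfinitePoint W57 (by decide) (0) (-2) (2 / 3) (13 / 9) (1 / 27) (by decide) (by decide)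
    (by simp [W57]; norm_num) (by simp [W57]; norm_num) (by simp [W57]; norm_num) (by norm_num)
    (by simp [W57]; norm_num)

/-- `58a`: the double of `(2, -3)` is `(3/4, -7/8)` -/
theorem infinite_58 : HasInfinitePoint W58 :=
  hasInfinitePoint W58 (by decide) (2) (-3) (-5 / 2) (3 / 4) (-7 / 8) (by decide) (by decide)
    (by simp [W58]; norm_num) (by simp [W58]; norm_num) (by simp [W58]; norm_num) (by norm_num)
    (by simp [W58]; norm_num)

/-- `61a`: the double of `(-1, -1)` is `(16/9, 29/27)` -/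
theorem infinite_61 : HasInfinitePoint W61 :=
  hasInfinitePoint W61 (by decide) (-1) (-1) (-2 / 3) (16 / 9) (29 / 27) (by decide) (by decide)
    (by simp [W61]; norm_num) (by simp [W61]; norm_num) (by simp [W61]; norm_num) (by norm_num)
    (by simp [W61]; norm_num)

/-- `65a`: the double of `(4, -10)` is `(289/256, -5559/4096)` -/
theorem infinite_65 : HasInfinitePoint W65 :=
  hasInfinitePoint W65 (by decide) (4) (-10) (-57 / 16) (289 / 256) (-5559 / 4096) (by decide) (by decide)
    (by simp [W65]; norm_num) (by simp [W65]; norm_num) (by simp [W65]; norm_num) (by norm_num)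
    (by simp [W65]; norm_num)

/-- `77a`: the double of `(4, -9)` is `(188/289, -9096/4913)` -/
theorem infinite_77 : HasInfinitePoint W77 :=
  hasInfinitePoint W77 (by decide) (4) (-9) (-50 / 17) (188 / 289) (-9096 / 4913) (by decide) (by decide)
    (by simp [W77]; norm_num) (by simp [W77]; norm_num) (by simp [W77]; norm_num) (by norm_num)
    (by simp [W77]; norm_num)

/-- `79a`: the double of `(1, -2)` is `(3/4, -3/8)` -/
theorem infinite_79 : HasInfinitePoint W79 :=
  hasInfinitePoint W79 (by decide) (1) (-2) (-5 / 2) (3 / 4) (-3 / 8) (by decide) (by decide)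
    (by simp [W79]; norm_num) (by simp [W79]; norm_num) (by simp [W79]; norm_num) (by norm_num)
    (by simp [W79]; norm_num)

/-- `82a`: the double of `(2, -4)` is `(26/25, -91/125)` -/
theorem infinite_82 : HasInfinitePoint W82 :=
  hasInfinitePoint W82 (by decide) (2) (-4) (-14 / 5) (26 / 25) (-91 / 125) (by decide) (by decide)
    (by simp [W82]; norm_num) (by simp [W82]; norm_num) (by simp [W82]; norm_num) (by norm_num)
    (by simp [W82]; norm_num)

/-- The curve `37a` has infinitely many rational points, and its L-function has a simple zero at `s = 1`. -/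
theorem curve_37a : Infinite (MW.WQ W37).Point ∧ HasRankOne W37 37 :=
  ⟨infinite_37.infinite, hasRankOne_37⟩

end Fermat.Agent.Cor.RankPoints
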