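import Fermat.Agent.Cor.RankZeroC
import Fermat.Agent.RR.Genus

set_option autoImplicit false
set_option linter.style.haveILetI false
set_option linter.unusedSectionVars false

/-!
# Rational torsion on `J₀(N)`, `N` prime: the Eichler–Shimura bound and the Weil pairing
-/

noncomputable section

namespace Fermat.Agent.Cor.RankZero

open ModularCurve AlgebraicCurve IsLocalRing Fermat.Agent.H28
open Fermat.Agent.H12

local notation "Qb" => AlgebraicClosure ℚ
local notation "Γq" => AlgebraicClosure ℚ ≃ₐ[ℚ] AlgebraicClosure ℚ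

theorem kill_aux' {J : Type*} [AddCommGroup J] (T : Module.End ℤ J) (n l : ℕ) (D : J)
    (h : n • D = 0) : n • (D - T D + l • D) = 0 := by
  rw [smul_add, smul_sub, ← map_nsmul, smul_comm n l, h, map_zero, smul_zero, sub_zero, add_zero]

theorem eq_aux {J : Type*} [AddCommGroup J] (l : ℕ) (D E : J) (h : D - E + l • D = 0) :
    E = (1 + (l : ℤ)) • D := by
  rw [add_smul, one_smul, natCast_zsmul]
  have h6 : D + l • D - E = 0 := by
    rw [← h]; abel
  exact (sub_eq_zero.mp h6).symm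

theorem zero_aux {J : Type*} [AddCommGroup J] {m : ℕ} {a b : ℤ} {D : J} (hm : (m : ℤ) = b - a)
    (h : a • D = b • D) : m • D = 0 := by
  rw [← natCast_zsmul, hm, sub_smul, h, sub_self]

variable {N : ℕ} [NeZero N]

/-- **Eichler–Shimura on rational torsion**: a rational point of `J₀(N)` of order prime to `ℓ` satisfies
`T_ℓ D = (1 + ℓ) D`. -/
theorem hecke_rational_torsion (hN : N.Prime) (h2 : N ≠ 2) (h3 : N ≠ 3) {ℓ : ℕ} (hℓ : ℓ.Prime)
    (hℓN : ℓ ≠ N) {n : ℕ} (hn : ¬ ℓ ∣ n) {D : JZero N} (hnD : n • D = 0)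
    (hD : ∀ σ : Γq, σ • D = D) : heckeOperatorBar N ⟨ℓ, hℓ⟩ D = (1 + (ℓ : ℤ)) • D := by
  obtain ⟨A, hA⟩ := Fermat.Agent.H05.exists_liesOverPrime Qb hℓ
  obtain ⟨φ, hφ⟩ := Fermat.Agent.H05.exists_isFrobeniusAt hℓ hA
  have hyp := hyp_aux hN hℓ hℓN ℓ
  have hg := goodLevel (M := N * sAux ℓ ℓ) hℓ hA hyp
  have hker := redKernel_of_goodLevel hℓ hyp.1 hA hg
  have hsN := sAux_not_dvd hN h2 h3 ℓ ℓ
  have hn0 : n ≠ 0 := fun h => hn (h ▸ dvd_zero ℓ)
  set s := sAux ℓ ℓ with hs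
  have hsp : s.Prime := prime_sAux ℓ ℓ
  set x : JZero N := φ • φ • D - heckeOperatorBar N ⟨ℓ, hℓ⟩ (φ • D) + ℓ • D with hx
  have hnx : n • x = 0 := by
    rw [hx, hD, hD]
    exact kill_aux' _ n ℓ D hnD
  have hmem : pullA N s x ∈ (modCharts (N * s) A hg.h₁ hg.h₂).kernel := by
    rw [hx, map_add, map_sub, map_nsmul, pullA_smul, pullA_smul,
      pullA_hecke N s hsp hℓ (sAux_ne ℓ ℓ), pullA_smul]
    exact hker.relation φ hφ _
  have h1 : pullA N s x = 0 := by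
    refine hker.torsion n hn _ hmem ?_
    rw [← map_nsmul, hnx, map_zero]
  have h4 : x = 0 :=
    Fermat.Agent.P.eq_zero_of_pullN rfl hsN (dvd_mul_right N s) hn0 hnx h1
  rw [hx, hD, hD] at h4
  exact eq_aux ℓ D _ h4

/-- the integer killing the rational torsion prime to `ℓ` -/
theorem smul_eq_zero_of_hecke (hN : N.Prime) (h2 : N ≠ 2) (h3 : N ≠ 3) {ℓ : ℕ} (hℓ : ℓ.Prime)
    (hℓN : ℓ ≠ N) {a : ℤ} (ha : ∀ x : JZero N, heckeOperatorBar N ⟨ℓ, hℓ⟩ x = a • x) {m : ℕ}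
    (hm : (m : ℤ) = 1 + ℓ - a) {n : ℕ} (hn : ¬ ℓ ∣ n) {D : JZero N} (hnD : n • D = 0)
    (hD : ∀ σ : Γq, σ • D = D) : m • D = 0 := by
  have h1 := hecke_rational_torsion hN h2 h3 hℓ hℓN hn hnD hD
  rw [ha] at h1
  exact zero_aux hm h1

/-- two primes are enough to bound the torsion -/
theorem smul_eq_zero_of_two (hN : N.Prime) (h2 : N ≠ 2) (h3 : N ≠ 3)
    {ℓ : ℕ} (hℓ : ℓ.Prime) (hℓN : ℓ ≠ N) {a : ℤ}
    (ha : ∀ x : JZero N, heckeOperatorBar N ⟨ℓ, hℓ⟩ x = a • x)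
    {ℓ' : ℕ} (hℓ' : ℓ'.Prime) (hℓN' : ℓ' ≠ N) {a' : ℤ}
    (ha' : ∀ x : JZero N, heckeOperatorBar N ⟨ℓ', hℓ'⟩ x = a' • x) (hne : ℓ' ≠ ℓ)
    {m : ℕ} (hm : (m : ℤ) = 1 + ℓ - a) (hm' : (m : ℤ) = 1 + ℓ' - a') (hmℓ' : ¬ ℓ' ∣ m)
    {n : ℕ} (hn : n ≠ 0) {D : JZero N} (hnD : n • D = 0)
    (hD : ∀ σ : Γq, σ • D = D) : m • D = 0 := by
  obtain ⟨b, c, hc, rfl⟩ := Nat.exists_eq_pow_mul_and_not_dvd hn ℓ hℓ.ne_one
  have h1 : m • ((ℓ ^ b) • D) = 0 := by
    refine smul_eq_zero_of_hecke hN h2 h3 hℓ hℓN ha hm hc (D := (ℓ ^ b) • D) ?_ fun σ => ?_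
    · rw [smul_smul, mul_comm c, hnD]
    · rw [← smul_comm, hD]
  have h5 : (m * ℓ ^ b) • D = 0 := by rw [mul_smul, h1]
  refine smul_eq_zero_of_hecke hN h2 h3 hℓ' hℓN' ha' hm' ?_ h5 hD
  intro h
  rcases (Nat.Prime.dvd_mul hℓ').mp h with h | h
  · exact hmℓ' h
  · exact hne ((Nat.prime_dvd_prime_iff_eq hℓ' hℓ).mp (hℓ'.dvd_of_dvd_pow h))

/-- a rational root of unity of odd prime order is trivial -/
theorem eq_one_of_fixed {p : ℕ} (hp : Odd p) {z : Qb} (hz : ∀ σ : Γq, σ z = z) (hzp : z ^ p = 1) :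
    z = 1 := by
  have h1 : z ∈ (⊥ : IntermediateField ℚ Qb) := by
    rw [InfiniteGalois.mem_bot_iff_fixed]
    exact hz
  obtain ⟨q, rfl⟩ := IntermediateField.mem_bot.mp h1
  have h2 : q ^ p = 1 := by
    have h3 : algebraMap ℚ Qb (q ^ p) = algebraMap ℚ Qb 1 := by rw [map_pow, hzp, map_one]
    exact (algebraMap ℚ Qb).injective h3
  have h4 : q = 1 := hp.strictMono_pow.injective (by rw [h2, one_pow])
  rw [h4, map_one]

/-- **Not all points of order `p` are rational**, `p` odd: the Weil pairing. -/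
theorem exists_not_rational {p : ℕ} (hp : Odd p) {x : JZero N} (hx : p • x = 0)
    (hx0 : x ≠ 0) : ∃ y : JZero N, p • y = 0 ∧ ¬ ∀ σ : Γq, σ • y = y := by
  by_contra hcon
  push Not at hcon
  apply hx0
  have hpos : 0 < p := hp.pos
  refine WP.weilPairing_nondeg_JZero N hpos hx fun y hy => ?_
  apply Units.ext
  refine eq_one_of_fixed hp (fun σ => ?_) ?_
  · rw [← WP.weilPairing_galois σ hx hy, hcon x hx σ, hcon y hy σ]
  · rw [← Units.val_pow_eq_pow_val, WP.weilPairing_pow, Units.val_one]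

/-- **The order of the group of rational points.** -/
theorem card_rational {p : ℕ} (hp : p.Prime) (hp2 : p ≠ 2) (hg : genusFormula N = 1)
    (hR : ∀ D : JZero N, (∀ σ : Γq, σ • D = D) → p • D = 0) {c : JZero N}
    (hc : ∀ σ : Γq, σ • c = c) (hc0 : c ≠ 0) :
    Nat.card (FixedPoints.addSubgroup Γq (JZero N)) = p := by
  have hodd : Odd p := hp.odd_of_ne_two hp2
  set R : AddSubgroup (JZero N) := FixedPoints.addSubgroup Γq (JZero N) with hRdef
  set V : AddSubgroup (JZero N) := Pic0.torsion Qb (modularFunctionFieldBar N) p with hV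
  have hmemV : ∀ x : JZero N, x ∈ V ↔ p • x = 0 := by
    intro x
    rw [← natCast_zsmul]
    exact Pic0.mem_torsion
  have hgen : genusFF Qb (modularFunctionFieldBar N) = 1 := by
    have h := RR.genusFF_bar (N := N)
    rw [hg] at h
    exact_mod_cast h
  have hcardV : Nat.card V = p ^ 2 := by
    have h := FF.card_torsion Qb (modularFunctionFieldBar N) p hp.pos
    rw [hgen] at h
    exact h
  haveI : Finite V := Nat.finite_of_card_ne_zero (by rw [hcardV]; exact pow_ne_zero _ hp.ne_zero)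
  have hle : R ≤ V := fun x hx => (hmemV x).mpr (hR x hx)
  haveI : Finite R := Finite.of_injective _ (AddSubgroup.inclusion_injective hle)
  have hdvd : Nat.card R ∣ p ^ 2 := by
    rw [← hcardV]
    exact AddSubgroup.card_dvd_of_le hle
  obtain ⟨i, hi, hcard⟩ := (Nat.dvd_prime_pow hp).mp hdvd
  have hi0 : i ≠ 0 := by
    rintro rfl
    rw [pow_zero, AddSubgroup.card_eq_one] at hcard
    apply hc0
    have h1 : c ∈ R := hc
    rw [hcard] at h1
    exact AddSubgroup.mem_bot.mp h1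
  have hi2 : i ≠ 2 := by
    rintro rfl
    have h1 : R = V := AddSubgroup.eq_of_le_of_card_ge hle (by rw [hcard, hcardV])
    obtain ⟨y, hy, hy'⟩ := exists_not_rational hodd (hR c hc) hc0
    apply hy'
    have h2 : y ∈ R := by
      rw [h1]
      exact (hmemV y).mpr hy
    exact h2
  have hi1 : i = 1 := by omega
  rw [hcard, hi1, pow_one]

end Fermat.Agent.Cor.RankZero
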