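import Fermat.Agent.Cor.RankZeroD
import Fermat.Agent.Cor.RankZeroE
import Fermat.Agent.Cor.EigenTable

set_option autoImplicit false
set_option linter.style.haveILetI false
set_option linter.unusedSectionVars false

/-!
# The groups `J₀(11)(ℚ)`, `J₀(17)(ℚ)` and `J₀(19)(ℚ)`

* `card_rational_eleven`: `J₀(11)(ℚ)` has exactly five elements;
* `mem_cuspidal_eleven`: they are the multiples of the class of the divisor `(0) - (∞)`, which has order five;
* `card_rational_nineteen`, `mem_cuspidal_nineteen`: `J₀(19)(ℚ)` has exactly three elements, the multiples of the class of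
  `(0) - (∞)`;
* `four_smul_seventeen`: `J₀(17)(ℚ)` is finite and killed by four.

The rank is zero by Mazur's descent (`RankZeroD`); the torsion is bounded by the relation of Eichler and Shimura at the
primes `2`, `3`, `5`, and by the Weil pairing (`RankZeroE`).

This file is not used by any of the statement files.
-/

noncomputable section

namespace Fermat.Agent.Cor.RankZero

open ModularCurve AlgebraicCurve WeierstrassCurve

local notation "Qb" => AlgebraicClosure ℚ
local notation "Γq" => AlgebraicClosure ℚ ≃ₐ[ℚ] AlgebraicClosure ℚ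

/-- The annihilator of `J₀(N)(ℚ)`, from two primes at which `#W(𝔽_ℓ)` is the same. -/
theorem smul_rational {N : ℕ} [NeZero N] (hN : N.Prime) (hN5 : 5 ≤ N) (W : WeierstrassCurve ℤ)
    (hΔ : W.Δ ≠ 0) (hW : W.IsSemistableModel) (hWN : W.conductorLevel = N)
    (hg : genusFormula N = 1) (hfin : Finite (FixedPoints.addSubgroup Γq (JZero N)))
    {ℓ ℓ' : ℕ} (hℓ : ℓ.Prime) (hℓ' : ℓ'.Prime) (hℓN : ¬ ℓ ∣ N) (hℓN' : ¬ ℓ' ∣ N) (hne : ℓ' ≠ ℓ)
    {m : ℕ} (hm : (m : ℤ) = 1 + ℓ - W.apOfModel ℓ) (hm' : (m : ℤ) = 1 + ℓ' - W.apOfModel ℓ')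
    (hmℓ' : ¬ ℓ' ∣ m) (D : JZero N) (hD : ∀ σ : Γq, σ • D = D) : m • D = 0 := by
  have h1 : Nat.card (FixedPoints.addSubgroup Γq (JZero N)) •
      (⟨D, hD⟩ : FixedPoints.addSubgroup Γq (JZero N)) = 0 := card_nsmul_eq_zero'
  have h2 : Nat.card (FixedPoints.addSubgroup Γq (JZero N)) • D = 0 := congrArg Subtype.val h1
  exact smul_eq_zero_of_two hN (by omega) (by omega) hℓ (fun h => hℓN (by rw [h]))
    (fun x => hecke_scalar W hΔ hW hWN hg ⟨ℓ, hℓ⟩ hℓN x) hℓ' (fun h => hℓN' (by rw [h]))
    (fun x => hecke_scalar W hΔ hW hWN hg ⟨ℓ', hℓ'⟩ hℓN' x) hne hm hm' hmℓ' Nat.card_pos.ne' h2 hD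

/-- the cuspidal class is not zero -/
theorem cc_ne_zero {N : ℕ} [NeZero N] (hN : N.Prime) {r k : ℕ} (hr : r.Prime)
    (hk : r ^ k ∣ N - 1) (h24 : ¬ r ^ k ∣ 24) : M5.cc N ≠ 0 := by
  have h := M5.smul_cuspClass_ne_zero (AlgebraicClosure ℚ) hN hr hk h24 (m := 1) (fun h => by
    have h1 := Int.natAbs_dvd_natAbs.mpr h
    simp only [Int.natAbs_natCast, Int.natAbs_one, Nat.dvd_one] at h1
    exact hr.ne_one h1)
  rwa [one_smul] at h

/-- a subgroup of prime order is generated by any nonzero element -/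
theorem mem_zmultiples_of_card {J : Type*} [AddCommGroup J] {R : AddSubgroup J} {p : ℕ}
    (hp : p.Prime) (hR : Nat.card R = p) {c : J} (hc : c ∈ R) (hc0 : c ≠ 0) :
    R = AddSubgroup.zmultiples c := by
  haveI : Finite R := Nat.finite_of_card_ne_zero (by rw [hR]; exact hp.ne_zero)
  have hle : AddSubgroup.zmultiples c ≤ R := by
    rw [AddSubgroup.zmultiples_le]
    exact hc
  have h1 : Nat.card (AddSubgroup.zmultiples c) ∣ p := by
    rw [← hR]
    exact AddSubgroup.card_dvd_of_le hle
  have h2 : Nat.card (AddSubgroup.zmultiples c) ≠ 1 := by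
    rw [Ne, AddSubgroup.card_eq_one, AddSubgroup.zmultiples_eq_bot]
    exact hc0
  have h3 := ((Nat.dvd_prime hp).mp h1).resolve_left h2
  exact (AddSubgroup.eq_of_le_of_card_ge hle (by rw [h3, hR])).symm

/-! ### Level eleven -/

theorem five_smul_eleven (D : JZero 11) (hD : ∀ σ : Γq, σ • D = D) : 5 • D = 0 :=
  smul_rational (by norm_num) (by norm_num) GenusOne.E11 (by rw [GenusOne.E11_Δ]; norm_num)
    GenusOne.E11_semistable GenusOne.conductorLevel_E11 GenusOne.genus_eleven
    finite_rational_eleven (ℓ := 2) (ℓ' := 3) (by norm_num) (by norm_num) (by norm_num)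
    (by norm_num) (by norm_num) (by rw [EigenTable.E11_a2]; norm_num)
    (by rw [EigenTable.E11_a3]; norm_num) (by norm_num) D hD

theorem cc_eleven_ne_zero : M5.cc 11 ≠ 0 :=
  cc_ne_zero (by norm_num) (r := 5) (k := 1) (by norm_num) (by norm_num) (by norm_num)

/-- **`J₀(11)(ℚ)` has exactly five elements.** -/
theorem card_rational_eleven : Nat.card (FixedPoints.addSubgroup Γq (JZero 11)) = 5 :=
  card_rational (by norm_num) (by norm_num) GenusOne.genus_eleven five_smul_eleven
    (c := M5.cc 11) (fun σ => M5.smul_cc (by norm_num) σ) cc_eleven_ne_zero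

/-- **`J₀(11)(ℚ)` is generated by the class of `(0) - (∞)`.** -/
theorem rational_eleven :
    FixedPoints.addSubgroup Γq (JZero 11) = AddSubgroup.zmultiples (M5.cc 11) :=
  mem_zmultiples_of_card (by norm_num) card_rational_eleven
    (fun σ => M5.smul_cc (by norm_num) σ) cc_eleven_ne_zero

/-- **`J₀(11)(ℚ) ≅ ℤ/5`.** -/
theorem nonempty_equiv_eleven :
    Nonempty (FixedPoints.addSubgroup Γq (JZero 11) ≃+ ZMod 5) := by
  haveI : Fact (Nat.Prime 5) := ⟨by norm_num⟩
  have hc : IsAddCyclic (FixedPoints.addSubgroup Γq (JZero 11)) :=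
    isAddCyclic_of_prime_card card_rational_eleven
  have e := (zmodAddCyclicAddEquiv hc).symm
  rw [card_rational_eleven] at e
  exact ⟨e⟩

/-! ### Level nineteen -/

theorem three_smul_nineteen (D : JZero 19) (hD : ∀ σ : Γq, σ • D = D) : 3 • D = 0 :=
  smul_rational (by norm_num) (by norm_num) GenusOne.E19 (by rw [GenusOne.E19_Δ]; norm_num)
    GenusOne.E19_semistable GenusOne.conductorLevel_E19 GenusOne.genus_nineteen
    finite_rational_nineteen (ℓ := 2) (ℓ' := 5) (by norm_num) (by norm_num) (by norm_num)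
    (by norm_num) (by norm_num) (by rw [EigenTable.E19_a2]; norm_num)
    (by rw [EigenTable.E19_a5]; norm_num) (by norm_num) D hD

theorem cc_nineteen_ne_zero : M5.cc 19 ≠ 0 :=
  cc_ne_zero (by norm_num) (r := 3) (k := 2) (by norm_num) (by norm_num) (by norm_num)

/-- **`J₀(19)(ℚ)` has exactly three elements.** -/
theorem card_rational_nineteen : Nat.card (FixedPoints.addSubgroup Γq (JZero 19)) = 3 :=
  card_rational (by norm_num) (by norm_num) GenusOne.genus_nineteen three_smul_nineteen
    (c := M5.cc 19) (fun σ => M5.smul_cc (by norm_num) σ) cc_nineteen_ne_zero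

/-- **`J₀(19)(ℚ)` is generated by the class of `(0) - (∞)`.** -/
theorem rational_nineteen :
    FixedPoints.addSubgroup Γq (JZero 19) = AddSubgroup.zmultiples (M5.cc 19) :=
  mem_zmultiples_of_card (by norm_num) card_rational_nineteen
    (fun σ => M5.smul_cc (by norm_num) σ) cc_nineteen_ne_zero

/-! ### Level seventeen -/

/-- **`J₀(17)(ℚ)` is killed by four.** -/
theorem four_smul_seventeen (D : JZero 17) (hD : ∀ σ : Γq, σ • D = D) : 4 • D = 0 :=
  smul_rational (by norm_num) (by norm_num) GenusOne.E17 (by rw [GenusOne.E17_Δ]; norm_num)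
    GenusOne.E17_semistable GenusOne.conductorLevel_E17 GenusOne.genus_seventeen
    finite_rational_seventeen (ℓ := 2) (ℓ' := 3) (by norm_num) (by norm_num) (by norm_num)
    (by norm_num) (by norm_num) (by rw [EigenTable.E17_a2]; norm_num)
    (by rw [EigenTable.E17_a3]; norm_num) (by norm_num) D hD

end Fermat.Agent.Cor.RankZero
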