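import Mathlib
import Fermat.Agent.H12.Infinite

set_option autoImplicit false
set_option linter.style.haveILetI false
set_option linter.unusedSectionVars false

/-!
# The divisibility behind Mazur's descent

For rational `D` and every `k`, up to a torsion element the projection of `D` to the primary part
is `r ^ k` times a rational element.
-/

namespace Fermat.Agent.Cor.RankZero

open scoped Pointwise
open Fermat.Agent.H12 Fermat.Agent.H12.MazurData

local notation "Qb" => AlgebraicClosure ℚ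
local notation "Γq" => AlgebraicClosure ℚ ≃ₐ[ℚ] AlgebraicClosure ℚ

variable {J : Type*} [AddCommGroup J] [DistribMulAction Γq J] {T : Type*} [CommRing T] [Module T J]
variable {N r : ℕ} {P : Ideal T} {Ar : ValuationSubring Qb} {Jr : AddSubgroup J}

/-- **The key step of Mazur's descent**: the projection of a rational element is, up to torsion,
divisible by `r ^ k` in the rational elements. -/
theorem exists_rational_div (h : MazurData J N r P Ar Jr) {J0 : AddSubgroup J} {φ0 : Γq}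
    (h0 : RedPlace T r J0 φ0) (AN : ValuationSubring Qb)
    (hAN : AN.LiesOverPrime N) (D : J) (hD : ∀ σ : Γq, σ • D = D) (k : ℕ) (hk1 : 1 ≤ k) :
    ∃ K : ℕ, k ≤ K ∧ ∃ (s : T) (w g : J), (∀ σ : Γq, σ • w = w) ∧
      (∀ x ∈ primaryPart P (mulBy J (r ^ K)).ker, s • x = x) ∧ (r ^ K) • g = 0 ∧
      (r ^ k) • w = s • D - (r ^ k) • g := by
  obtain ⟨φ, t, hφ, hes, hfin1, hfin2⟩ := h.esr
  haveI := hfin1
  haveI := hfin2
  haveI := h0.fin
  obtain ⟨e, b, he, hequi, hadj, hcompat, hiso⟩ := h.pair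
  haveI hfr : Finite (mulBy J r).ker := by simpa using h.fin 1
  obtain ⟨m, hm⟩ := exists_divisible_part (eisPart P r ⊓ Jr) r
    (fun x hx => by
      obtain ⟨l, hl⟩ := hx.1
      exact ⟨l, hl.1⟩) hfr
  set Dr : AddSubgroup J := (eisPart P r ⊓ Jr).map (mulBy J (r ^ m)) with hDr
  have hDrJ : Dr ≤ Jr := by
    rintro _ ⟨z, hz, rfl⟩
    exact nsmul_mem hz.2 _
  haveI := h.fin m
  set κ₁ := Nat.card (fixedClasses Jr φ) * Nat.card (mulBy J (r ^ m)).ker with hκ₁
  set κ₂ := Nat.card (fixedClasses Jr (φ * φ)) * Nat.card (mulBy J (r ^ m)).ker with hκ₂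
  set γ := Nat.card (fixedClasses J0 φ0) with hγ
  set ω := Nat.card (mulBy J (r ^ κ₂)).ker with hω
  set β := DescentData.expo N r κ₁ κ₂ γ ω with hβ
  set K := k + β with hK
  haveI := h.fin K
  haveI := h.fin κ₂
  set M := (mulBy J (r ^ K)).ker with hM
  set G := primaryPart P M with hG
  have hGM : G ≤ M := primaryPart_le P M
  haveI : Finite G := Finite.of_injective _ (AddSubgroup.inclusion_injective hGM)
  have hM0 : ∀ x ∈ M, (r ^ K) • x = 0 := fun x hx => hx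
  have hed := h.exists_descentData e b he hequi hadj hcompat hiso m hm K (by omega) AN hAN
  obtain ⟨s, hs1, hs2⟩ := exists_projector P M (h.ker_smul K)
  have hGD : ∀ x ∈ G, x ∈ Jr → (r ^ m) • x ∈ Dr := fun x hx hxJ =>
    ⟨x, AddSubgroup.mem_inf.mpr ⟨⟨K, hx⟩, hxJ⟩, rfl⟩
  -- the data at r
  have dr : DataR r Ar G (G ⊓ Dr) (e K) φ t κ₁ κ₂ := by
    refine ⟨hφ, fun x hx => AddSubgroup.mem_inf.mpr ⟨?_, ?_⟩,
      fun x hx y hy => hadj K t x y (hM0 x (hGM hx)) (hM0 y (hGM hy)),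
      card_kerMod_le G Dr hDrJ (r ^ m) hGD, card_kerMod_le G Dr hDrJ (r ^ m) hGD⟩
    · have hφx : φ • x ∈ G := h.primary_gal K φ x hx
      exact add_mem (sub_mem (h.primary_gal K φ _ hφx)
        (primaryPart_smul_mem P M (h.ker_smul K) t _ hφx)) (nsmul_mem hx r)
    · obtain ⟨y, hy, rfl⟩ := h.eis_div x ⟨K, hx⟩ m
      obtain ⟨l, hl⟩ := id hy
      refine ⟨φ • φ • y - t • φ • y + r • y, AddSubgroup.mem_inf.mpr ⟨?_, hes l y hl.1⟩, ?_⟩
      · exact add_mem (sub_mem (h.eis_gal φ _ (h.eis_gal φ y hy))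
          (h.eis_smul t _ (h.eis_gal φ y hy))) (nsmul_mem hy r)
      · rw [mulBy_apply, smul_add, smul_sub, smul_comm φ (r ^ m) y, smul_comm φ (r ^ m),
          smul_comm t (r ^ m), smul_comm r (r ^ m)]
  -- the cocycle
  obtain ⟨y, hy⟩ := h.exists_pow_smul K D
  have hyM : ∀ σ : Γq, σ • y - y ∈ M := by
    intro σ
    rw [hM, AddMonoidHom.mem_ker, mulBy_apply, smul_sub, ← smul_comm σ, hy, hD, sub_self]
  set c₁ : Γq → J := fun σ => s • (σ • y - y) with hc₁
  have hc₁G : ∀ σ, c₁ σ ∈ G := fun σ => hs1 _ (hyM σ)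
  have hc₁c : ∀ σ τ, c₁ (σ * τ) = c₁ σ + σ • c₁ τ := by
    intro σ τ
    change s • ((σ * τ) • y - y) = s • (σ • y - y) + σ • s • (τ • y - y)
    rw [← h.comm, ← smul_add, smul_sub σ, mul_smul]
    congr 1
    abel
  have hc₁op : ∃ U : Subgroup Γq, IsOpen (U : Set Γq) ∧ ∀ σ ∈ U, c₁ σ = 0 := by
    obtain ⟨U, hU, hU'⟩ := h.opn y
    refine ⟨U, hU, fun σ hσ => ?_⟩
    change s • (σ • y - y) = 0
    rw [hU' σ hσ, sub_self, smul_zero]
  have hc₁ur : ∀ ℓ : ℕ, ℓ.Prime → ℓ ≠ r → ℓ ≠ N → ∀ A : ValuationSubring Qb,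
      A.LiesOverPrime ℓ → ∀ σ ∈ A.inertiaSubgroupIn ℚ, c₁ σ = 0 := by
    intro ℓ hℓ hℓr hℓN A hA σ hσ
    obtain ⟨J2, h2, h3⟩ := h.ur ℓ hℓ hℓr hℓN A hA
    change s • (σ • y - y) = 0
    rw [h3 K _ (hM0 _ (hyM σ)) (h2 σ hσ y), smul_zero]
  have hc₁0 : ∀ σ ∈ Ar.inertiaSubgroupIn ℚ, c₁ σ ∈ G ⊓ Dr := by
    intro σ hσ
    refine AddSubgroup.mem_inf.mpr ⟨hc₁G σ, ?_⟩
    obtain ⟨y', hy'⟩ := h.exists_pow_smul m y
    haveI := h.fin (K + m)
    obtain ⟨s', hs1', hs2'⟩ := exists_projector P (mulBy J (r ^ (K + m))).ker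
      (h.ker_smul (K + m))
    have hzM' : σ • y' - y' ∈ (mulBy J (r ^ (K + m))).ker := by
      rw [mem_ker_mulBy, pow_add, mul_smul, smul_sub, smul_comm (r ^ m) σ, hy']
      exact hM0 _ (hyM σ)
    -- the two projectors agree on `M`
    have hagree : ∀ z ∈ M, s • z = s' • z := by
      intro z hz
      have hzM : z ∈ (mulBy J (r ^ (K + m))).ker := by
        rw [mem_ker_mulBy, add_comm, pow_add, mul_smul, hM0 z hz, smul_zero]
      have e1 : s' • s • z = s • z := by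
        apply hs2'
        have h2 := hs1 z hz
        refine ⟨?_, h2.2⟩
        rw [mem_ker_mulBy, add_comm, pow_add, mul_smul, hM0 _ (hGM h2), smul_zero]
      have e2 : s • s' • z = s' • z := by
        apply hs2
        refine ⟨h.ker_smul K s' z hz, (hs1' z hzM).2⟩
      rw [← e1, smul_comm, e2]
    refine ⟨s' • (σ • y' - y'), AddSubgroup.mem_inf.mpr ⟨⟨K + m, hs1' _ hzM'⟩, ?_⟩, ?_⟩
    · rw [smul_sub, h.comm]
      exact h.JrI σ hσ (s' • y')
    · change _ = s • (σ • y - y)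
      rw [hagree _ (hyM σ), mulBy_apply, ← hy', ← smul_comm s' (r ^ m), smul_sub (r ^ m),
        smul_comm (r ^ m) σ]
  obtain ⟨g, hg, hgc⟩ := hed.exists_coboundary dr γ ω
    (card_fixedAll_le G fun x hx hx0 => h0.tors K x (hM0 x (hGM hx)) hx0)
    (Nat.card_le_card_of_injective _ (AddSubgroup.inclusion_injective
      (inf_le_right : G ⊓ (mulBy J (r ^ κ₂)).ker ≤ (mulBy J (r ^ κ₂)).ker)))
    c₁ hc₁G hc₁c hc₁op hc₁ur hc₁0
  -- the rational element `w`
  set w : J := s • ((r ^ β) • y) - g with hw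
  have hwfix : ∀ σ : Γq, σ • w = w := by
    intro σ
    have e1 : σ • w - w = (r ^ β) • c₁ σ - (σ • g - g) := by
      change σ • (s • ((r ^ β) • y) - g) - (s • ((r ^ β) • y) - g) =
        (r ^ β) • (s • (σ • y - y)) - (σ • g - g)
      rw [smul_sub σ, ← h.comm, ← smul_comm (r ^ β) σ, smul_sub s, smul_sub (r ^ β),
        smul_comm (r ^ β) s, smul_comm (r ^ β) s]
      abel
    have e2 : (r ^ β) • c₁ σ = σ • g - g := hgc σ
    rw [e2, sub_self] at e1
    exact sub_eq_zero.mp e1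
  have hwk : (r ^ k) • w = s • D - (r ^ k) • g := by
    rw [hw, smul_sub, smul_comm (r ^ k) s, smul_smul, ← pow_add, ← hK, hy]
  exact ⟨K, by omega, s, w, g, hwfix, hs2, hM0 g (hGM hg), hwk⟩

end Fermat.Agent.Cor.RankZero
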