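import Fermat.Agent.Cor.RankZeroA

set_option autoImplicit false
set_option linter.style.haveILetI false
set_option linter.unusedSectionVars false

/-!
# Rank zero: the abstract argument

If the Hecke ring acts on `J` through integers and the Eisenstein ideal is the preimage of `(r)`, then
every rational element is torsion.
-/

namespace Fermat.Agent.Cor.RankZero

open scoped Pointwise
open Fermat.Agent.H12 Fermat.Agent.H12.MazurData

local notation "Qb" => AlgebraicClosure ℚ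
local notation "Γq" => AlgebraicClosure ℚ ≃ₐ[ℚ] AlgebraicClosure ℚ

/-- In a finitely generated abelian group, an element which for all `k` is `r ^ k` times an element up
to torsion is torsion. -/
theorem torsion_of_div {A : Type*} [AddCommGroup A] [AddGroup.FG A] {r : ℕ} (hr : 2 ≤ r) {x : A}
    (h : ∀ k : ℕ, 1 ≤ k → ∃ (w g : A) (n : ℕ), n ≠ 0 ∧ n • g = 0 ∧ x = (r ^ k) • w + g) :
    ∃ n : ℕ, n ≠ 0 ∧ n • x = 0 := by
  obtain ⟨d, ι, _, p, hp, e, ⟨φ⟩⟩ := AddCommGroup.equiv_free_prod_directSum_zmod A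
  have hx1 : (φ x).1 = 0 := by
    ext i
    obtain ⟨w, g, n, hn, hg, hx⟩ := h (((φ x).1 i).natAbs + 1) (by omega)
    have hgi : (φ g).1 i = 0 := by
      have h1 : n • φ g = 0 := by rw [← map_nsmul, hg, map_zero]
      have h2 := congrArg (fun u => u.1 i) h1
      have h3 : (n : ℤ) * (φ g).1 i = 0 := by simpa [nsmul_eq_mul] using h2
      exact (mul_eq_zero.mp h3).resolve_left (by exact_mod_cast hn)
    have h4 : (φ x).1 i = (r ^ (((φ x).1 i).natAbs + 1) : ℕ) * (φ w).1 i := by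
      have h1 := congrArg (fun u => (φ u).1 i) hx
      simp only [map_add, map_nsmul] at h1
      have h2 : (φ x).1 i = ((r ^ (((φ x).1 i).natAbs + 1)) • φ w).1 i + (φ g).1 i := h1
      rw [hgi, add_zero] at h2
      refine h2.trans ?_
      have h3 : ((r ^ (((φ x).1 i).natAbs + 1)) • φ w).1 i =
          (r ^ (((φ x).1 i).natAbs + 1)) • (φ w).1 i := rfl
      rw [h3, nsmul_eq_mul]
    have h5 : ((r ^ (((φ x).1 i).natAbs + 1) : ℕ) : ℤ) ∣ (φ x).1 i := ⟨_, h4⟩
    by_contra hne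
    have hne' : (φ x).1 i ≠ 0 := hne
    have h6 := Nat.le_of_dvd (Int.natAbs_pos.mpr hne') (Int.natCast_dvd.mp h5)
    have h7 : ((φ x).1 i).natAbs + 1 < r ^ (((φ x).1 i).natAbs + 1) :=
      Nat.lt_pow_self (by omega)
    omega
  refine ⟨∏ i, p i ^ e i, Finset.prod_ne_zero_iff.mpr fun i _ => pow_ne_zero _ (hp i).ne_zero, ?_⟩
  rw [← φ.map_eq_zero_iff, map_nsmul]
  refine Prod.ext ?_ ?_
  · change (∏ i, p i ^ e i) • (φ x).1 = 0
    rw [hx1, smul_zero]
  · change (∏ i, p i ^ e i) • (φ x).2 = 0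
    ext i
    have h2 : (((∏ i, p i ^ e i) • (φ x).2 : DirectSum ι fun i => ZMod (p i ^ e i)) i) =
        (∏ i, p i ^ e i) • ((φ x).2 i) := rfl
    rw [h2, nsmul_eq_mul]
    have h3 : ((∏ i, p i ^ e i : ℕ) : ZMod (p i ^ e i)) = 0 :=
      (ZMod.natCast_eq_zero_iff _ _).mpr (Finset.dvd_prod_of_mem _ (Finset.mem_univ i))
    rw [h3, zero_mul]
    rfl

variable {J : Type*} [AddCommGroup J] [DistribMulAction Γq J] {T : Type*} [CommRing T] [Module T J]
variable {N r : ℕ} {P : Ideal T} {Ar : ValuationSubring Qb} {Jr : AddSubgroup J}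

/-- **Rank zero, abstract form.** -/
theorem torsion_of_scalar (h : MazurData J N r P Ar Jr) {J0 : AddSubgroup J} {φ0 : Γq}
    (h0 : RedPlace T r J0 φ0) (AN : ValuationSubring Qb) (hAN : AN.LiesOverPrime N)
    (ev : T →+* ℤ) (hev : ∀ (t : T) (x : J), t • x = ev t • x) (hP : ∀ t ∈ P, (r : ℤ) ∣ ev t)
    (x0 : J) (hx0 : x0 ≠ 0) (hrx0 : r • x0 = 0)
    (hFG : AddGroup.FG (FixedPoints.addSubgroup Γq J))
    (D : FixedPoints.addSubgroup Γq J) : ∃ n : ℕ, n ≠ 0 ∧ n • D = 0 := by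
  haveI := hFG
  have hr2 := h.hr.two_le
  -- the powers of the ideal
  have hPn : ∀ (n : ℕ) (t : T), t ∈ P ^ n → (r : ℤ) ^ n ∣ ev t := by
    intro n t ht
    have h1 : ev t ∈ (P ^ n).map ev := Ideal.mem_map_of_mem _ ht
    rw [Ideal.map_pow] at h1
    have h2 : P.map ev ≤ Ideal.span {(r : ℤ)} := by
      rw [Ideal.map_le_iff_le_comap]
      intro t ht
      rw [Ideal.mem_comap, Ideal.mem_span_singleton]
      exact hP t ht
    have h3 := Ideal.pow_right_mono h2 n h1
    rwa [Ideal.span_singleton_pow, Ideal.mem_span_singleton] at h3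
  refine torsion_of_div hr2 fun k hk => ?_
  obtain ⟨K, hkK, s, w, g, hw, hs, hg, hwk⟩ :=
    exists_rational_div h h0 AN hAN (D : J) (fun σ => D.2 σ) k hk
  -- the primary part is everything
  have hprim : ∀ x : J, (r ^ K) • x = 0 → x ∈ primaryPart P (mulBy J (r ^ K)).ker := by
    intro x hx
    refine ⟨hx, K, fun t ht => ?_⟩
    rw [hev]
    obtain ⟨d, hd⟩ := hPn K t ht
    rw [hd, mul_comm, mul_smul, ← Nat.cast_pow, natCast_zsmul, hx, smul_zero]
  have hsr : ¬ (r : ℤ) ∣ ev s := by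
    rintro ⟨d, hd⟩
    apply hx0
    have h1 : (r ^ K) • x0 = 0 := by
      obtain ⟨K', rfl⟩ : ∃ K', K = K' + 1 := ⟨K - 1, by omega⟩
      rw [pow_succ, mul_smul, hrx0, smul_zero]
    rw [← hs x0 (hprim x0 h1), hev, hd, mul_comm, mul_smul, natCast_zsmul, hrx0, smul_zero]
  -- Bezout
  obtain ⟨u, v, huv⟩ : IsCoprime (ev s) ((r : ℤ) ^ k) :=
    IsCoprime.pow_right
      (((Nat.prime_iff_prime_int.mp h.hr).coprime_iff_not_dvd.mpr hsr).symm)
  rw [hev] at hwk
  let w' : FixedPoints.addSubgroup Γq J := ⟨w, hw⟩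
  have hgfix : ∀ σ : Γq, σ • ((r ^ k) • g) = (r ^ k) • g := by
    intro σ
    have e1 : (r ^ k) • g = ev s • (D : J) - (r ^ k) • w := by
      rw [hwk]; abel
    rw [e1]
    exact (ev s • D - (r ^ k) • w').2 σ
  let g' : FixedPoints.addSubgroup Γq J := ⟨(r ^ k) • g, hgfix⟩
  have hrel : ev s • D = (r ^ k) • w' + g' := by
    apply Subtype.ext
    change ev s • (D : J) = (r ^ k) • w + (r ^ k) • g
    rw [hwk]; abel
  refine ⟨u • w' + v • D, u • g', r ^ K, pow_ne_zero _ h.hr.ne_zero, ?_, ?_⟩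
  · apply Subtype.ext
    change (r ^ K) • (u • ((r ^ k) • g)) = 0
    rw [smul_comm (r ^ K) u, smul_comm (r ^ K) (r ^ k), hg, smul_zero, smul_zero]
  · have e1 : D = (u * ev s + v * (r : ℤ) ^ k) • D := by rw [huv, one_smul]
    have e2 : ((r : ℤ) ^ k) • D = (r ^ k) • D := by
      rw [← Nat.cast_pow, natCast_zsmul]
    calc D = (u * ev s + v * (r : ℤ) ^ k) • D := e1
      _ = u • (ev s • D) + v • ((r ^ k) • D) := by rw [add_smul, mul_smul, mul_smul, e2]
      _ = (r ^ k) • (u • w' + v • D) + u • g' := by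
        rw [hrel, smul_add, smul_add, smul_comm (r ^ k) u, smul_comm (r ^ k) v]
        abel

end Fermat.Agent.Cor.RankZero
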