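import Fermat.Agent.Cor.RankZeroB
import Fermat.Agent.H12.Main

set_option autoImplicit false
set_option linter.style.haveILetI false
set_option linter.unusedSectionVars false

/-!
# Rank zero: the prime levels at which the Hecke operators act through integers
-/

noncomputable section

namespace Fermat.Agent.Cor.RankZero

open ModularCurve AlgebraicCurve MvPolynomial
open Fermat.Agent.H12 Fermat.Agent.H12.MazurData

local notation "Qb" => AlgebraicClosure ℚ
local notation "Γq" => AlgebraicClosure ℚ ≃ₐ[ℚ] AlgebraicClosure ℚ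

variable {N : ℕ} [NeZero N]

/-- the Hecke eigenvalues are congruent to those of the Eisenstein series -/
theorem congr_eisenstein (hN : N.Prime) {r k : ℕ} (hr : r.Prime) (hk : r ^ k ∣ N - 1)
    (h24 : ¬ r ^ k ∣ 24) {q : Nat.Primes} (hq : (q : ℕ) ≠ N) {a : ℤ}
    (ha : ∀ x : JZero N, heckeOperatorBar N q x = a • x) :
    (r : ℤ) ∣ a - (1 + ((q : ℕ) : ℤ)) := by
  by_contra hcon
  refine M5.smul_cuspClass_ne_zero (AlgebraicClosure ℚ) hN hr hk h24 hcon ?_
  change (a - (1 + ((q : ℕ) : ℤ))) • M5.cc N = 0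
  rw [sub_smul, ← ha, M5.hecke_cc hN q hq, sub_self]

/-- there is a point of order `r` -/
theorem exists_order (hN : N.Prime) {r k : ℕ} (hr : r.Prime) (hk : r ^ k ∣ N - 1)
    (h24 : ¬ r ^ k ∣ 24) : ∃ x0 : JZero N, x0 ≠ 0 ∧ r • x0 = 0 := by
  have hnz : ∀ m : ℤ, ¬ (r : ℤ) ∣ m → m • M5.cc N ≠ 0 := fun m hm =>
    M5.smul_cuspClass_ne_zero (AlgebraicClosure ℚ) hN hr hk h24 hm
  have h1 : (N - 1) • M5.cc N = 0 := by
    have := M5.torsion_cc hN
    rw [← natCast_zsmul, Nat.cast_sub hN.one_lt.le]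
    push_cast
    exact this
  have hN1 : 0 < N - 1 := by have := hN.two_le; omega
  have hpos : 0 < addOrderOf (M5.cc N) := addOrderOf_pos_iff.mpr
    (isOfFinAddOrder_iff_nsmul_eq_zero.mpr ⟨N - 1, hN1, h1⟩)
  have hr' : r ∣ addOrderOf (M5.cc N) := by
    by_contra hcon
    refine hnz (addOrderOf (M5.cc N) : ℤ) (fun h => hcon (by exact_mod_cast h)) ?_
    rw [natCast_zsmul, addOrderOf_nsmul_eq_zero]
  obtain ⟨d, hd⟩ := hr'
  have hd0 : 0 < d := Nat.pos_of_ne_zero fun h => by rw [h, mul_zero] at hd; omega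
  refine ⟨d • M5.cc N, fun h => ?_, ?_⟩
  · have h2 := Nat.le_of_dvd hd0 (addOrderOf_dvd_of_nsmul_eq_zero h)
    rw [hd] at h2
    have := hr.two_le
    nlinarith
  · rw [smul_smul, ← hd, addOrderOf_nsmul_eq_zero]

theorem idx_not_dvd (hN : N.Prime) {r : ℕ} (hr : r.Prime) (hrN : r ≠ N) (q : Idx N r) :
    ¬ (q.1 : ℕ) ∣ N := by
  rcases q.2 with h1 | h1
  · rw [h1]
    intro h2
    exact hrN ((Nat.prime_dvd_prime_iff_eq hr hN).mp h2)
  · intro h2
    exact h1 (h2.mul_left 6)

/-- **Every rational point of `J₀(N)` is torsion**, if `N` is prime, the Hecke operators act through integers and `r ^ k` divides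
`N - 1` but not `24`. -/
theorem rational_torsion (hN : N.Prime) (h2 : N ≠ 2) (h3 : N ≠ 3) {r k : ℕ} (hr : r.Prime)
    (hk0 : k ≠ 0) (hk : r ^ k ∣ N - 1) (h24 : ¬ r ^ k ∣ 24) (a : Nat.Primes → ℤ)
    (ha : ∀ q : Nat.Primes, ¬ (q : ℕ) ∣ N → ∀ x : JZero N, heckeOperatorBar N q x = a q • x)
    (hFG : AddGroup.FG (FixedPoints.addSubgroup Γq (JZero N)))
    (D : FixedPoints.addSubgroup Γq (JZero N)) : ∃ n : ℕ, n ≠ 0 ∧ n • D = 0 := by
  letI := ttModule N r
  have hrN1 : r ∣ N - 1 := (dvd_pow_self r hk0).trans hk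
  have hrN : r ≠ N := by
    rintro rfl
    have := Nat.le_of_dvd (by have := hr.two_le; omega) hrN1
    have := hr.two_le
    omega
  have h := (allInputs hN h2 h3).inputs r hr hrN1
  obtain ⟨Ar, hAr⟩ := Fermat.Agent.H05.exists_liesOverPrime Qb hr
  obtain ⟨AN, hAN⟩ := Fermat.Agent.H05.exists_liesOverPrime Qb hN
  obtain ⟨ℓ, hℓ1, hℓ⟩ := Nat.exists_infinite_primes (N + r + 1)
  obtain ⟨A₀, hA₀⟩ := Fermat.Agent.H05.exists_liesOverPrime Qb hℓ
  obtain ⟨φ₀, hφ₀⟩ := h.redPlace hℓ (by omega) (by omega) A₀ hA₀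
  obtain ⟨x0, hx0, hrx0⟩ := exists_order hN hr hk h24
  let ev : TT N r →+* ℤ := MvPolynomial.eval (fun q : Idx N r => a q.1)
  have hev : ∀ (t : TT N r) (x : JZero N), t • x = ev t • x := by
    intro t
    induction t using MvPolynomial.induction_on with
    | C b =>
      intro x
      rw [show (C b : TT N r) • x = b • x from tt_C_smul N r b x]
      have : ev (C b) = b := MvPolynomial.eval_C b
      rw [this]
    | add p q hp hq =>
      intro x
      rw [add_smul, hp, hq, map_add]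
      exact (add_zsmul x _ _).symm
    | mul_X p q hp =>
      intro x
      have h1 : (X q : TT N r) • x = a q.1 • x := by
        rw [show (X q : TT N r) • x = heckeOperatorBar N q.1 x from tt_X_smul N r q x,
          ha q.1 (idx_not_dvd hN hr hrN q)]
      have h2 : ev (p * X q) = a q.1 * ev p := by
        rw [map_mul, show ev (X q) = a q.1 from MvPolynomial.eval_X q, mul_comm]
      rw [mul_smul, h1, smul_comm, hp, h2, mul_smul]
  have hP : ∀ t ∈ PP N r, (r : ℤ) ∣ ev t := by
    intro t ht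
    rw [mem_PP] at ht
    have e1 : (Int.castRingHom (ZMod r)).comp ev = (Int.castRingHom (ZMod r)).comp (ttEval N r) := by
      refine MvPolynomial.ringHom_ext (fun b => ?_) fun q => ?_
      · rw [RingHom.comp_apply, RingHom.comp_apply,
          show ev (C b) = b from MvPolynomial.eval_C b,
          show ttEval N r (C b) = b from MvPolynomial.eval_C b]
      · rw [RingHom.comp_apply, RingHom.comp_apply,
          show ev (X q) = a q.1 from MvPolynomial.eval_X q,
          show ttEval N r (X q) = 1 + ((q.1 : ℕ) : ℤ) from MvPolynomial.eval_X q]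
        rw [eq_intCast, eq_intCast, ZMod.intCast_eq_intCast_iff_dvd_sub, dvd_sub_comm]
        have hqN := idx_not_dvd hN hr hrN q
        exact congr_eisenstein hN hr hk h24 (fun h => hqN (by rw [h])) (ha q.1 hqN)
    have e2 := RingHom.congr_fun e1 t
    rw [RingHom.comp_apply, RingHom.comp_apply, eq_intCast, eq_intCast,
      (ZMod.intCast_zmod_eq_zero_iff_dvd (ttEval N r t) r).mpr ht] at e2
    exact (ZMod.intCast_zmod_eq_zero_iff_dvd (ev t) r).mp e2
  exact torsion_of_scalar (h.mazurData Ar hAr) hφ₀ AN hAN ev hev hP x0 hx0 hrx0 hFG D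

end Fermat.Agent.Cor.RankZero
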