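import Fermat.Agent.Cor.RankZeroC
import Fermat.Agent.Cor.H13Hecke
import Fermat.Agent.Cor.GenusOne
import Fermat.Agent.H22.Eigen

set_option autoImplicit false
set_option linter.style.haveILetI false
set_option linter.unusedSectionVars false

/-!
# The Mordell–Weil groups of `J₀(11)`, `J₀(17)` and `J₀(19)` have rank zero

* `finite_rational_eleven`, `finite_rational_seventeen`, `finite_rational_nineteen`: `J₀(N)(ℚ)` is finite.

The proof is Mazur's descent: the Eisenstein ideal is a prime ideal of the Hecke ring, which is the ring of integers.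

This file is not used by any of the statement files.
-/

noncomputable section

namespace Fermat.Agent.Cor.RankZero

open ModularCurve AlgebraicCurve ModularFormClass CongruenceSubgroup WeierstrassCurve
open Fermat.Agent.H11N

local notation "Qb" => AlgebraicClosure ℚ
local notation "Γq" => AlgebraicClosure ℚ ≃ₐ[ℚ] AlgebraicClosure ℚ

/-- At a level of genus one a semistable elliptic curve of this conductor gives the Hecke eigenvalues on all cusp forms. -/
theorem heckeEvalForms_eq_zero {N : ℕ} [NeZero N] (W : WeierstrassCurve ℤ) (hΔ : W.Δ ≠ 0)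
    (hW : W.IsSemistableModel) (hWN : W.conductorLevel = N) (hg : genusFormula N = 1)
    (q : Nat.Primes) (hq : ¬ (q : ℕ) ∣ N) :
    CuspForm.heckeEvalForms N 2 (heckeGen q - (W.apOfModel q : HeckeAlg)) = 0 := by
  subst hWN
  obtain ⟨f, hf, hfW⟩ := GenusOne.modular_conductorLevel W hΔ hW
  have hr : Module.finrank ℂ (CuspForm (Gamma0 W.conductorLevel) 2) = 1 := by
    exact_mod_cast (Fermat.Agent.S20.result W.conductorLevel).trans hg
  have hf0 : f ≠ 0 := Fermat.Agent.H22.eigenform_ne_zero hf
  apply Subtype.ext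
  refine LinearMap.ext fun g => ?_
  obtain ⟨c, rfl⟩ := (finrank_eq_one_iff_of_nonzero' f hf0).mp hr g
  rw [map_smul, Fermat.Agent.H22.heckeEvalForms_eigenform hf]
  have h1 : MvPolynomial.aeval (fun ℓ : Nat.Primes => qCoeff ⇑f ℓ)
      (heckeGen q - (W.apOfModel q : HeckeAlg)) = 0 := by
    rw [map_sub, map_intCast, heckeGen, MvPolynomial.aeval_X, hfW q q.2 hq, sub_self]
  rw [h1, zero_smul, smul_zero]
  rfl

/-- **The Hecke operators act on `J₀(N)` through the traces of Frobenius.** -/
theorem hecke_scalar {N : ℕ} [NeZero N] (W : WeierstrassCurve ℤ) (hΔ : W.Δ ≠ 0)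
    (hW : W.IsSemistableModel) (hWN : W.conductorLevel = N) (hg : genusFormula N = 1)
    (q : Nat.Primes) (hq : ¬ (q : ℕ) ∣ N) (x : JZero N) :
    heckeOperatorBar N q x = W.apOfModel q • x := by
  have h1 := H13.heckeJ_eq_zero (heckeEvalForms_eq_zero W hΔ hW hWN hg q hq) x
  rw [map_sub, map_intCast, LinearMap.sub_apply, heckeJ_gen, Module.End.intCast_apply,
    sub_eq_zero] at h1
  exact h1

/-- **`J₀(N)(ℚ)` is finite.** -/
theorem finite_rational {N : ℕ} [NeZero N] (hN : N.Prime) (hN5 : 5 ≤ N) (W : WeierstrassCurve ℤ)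
    (hΔ : W.Δ ≠ 0) (hW : W.IsSemistableModel) (hWN : W.conductorLevel = N)
    (hg : genusFormula N = 1) {r k : ℕ} (hr : r.Prime) (hk0 : k ≠ 0) (hk : r ^ k ∣ N - 1)
    (h24 : ¬ r ^ k ∣ 24) : Finite (FixedPoints.addSubgroup Γq (JZero N)) := by
  have hFG : AddGroup.FG (FixedPoints.addSubgroup Γq (JZero N)) :=
    Fermat.Agent.MW.fg_of_weak N (Fermat.Agent.WMW.finite_quotient N)
  refine AddCommGroup.finite_of_fg_torsion _ fun D => ?_
  obtain ⟨n, hn, hnD⟩ := rational_torsion hN (by omega) (by omega) hr hk0 hk h24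
    (fun q => W.apOfModel q) (fun q hq x => hecke_scalar W hΔ hW hWN hg q hq x) hFG D
  exact isOfFinAddOrder_iff_nsmul_eq_zero.mpr ⟨n, Nat.pos_of_ne_zero hn, hnD⟩

/-- **`J₀(11)(ℚ)` is finite.** -/
theorem finite_rational_eleven : Finite (FixedPoints.addSubgroup Γq (JZero 11)) :=
  finite_rational (by norm_num) (by norm_num) GenusOne.E11 (by rw [GenusOne.E11_Δ]; norm_num)
    GenusOne.E11_semistable GenusOne.conductorLevel_E11 GenusOne.genus_eleven (r := 5) (k := 1)
    (by norm_num) one_ne_zero (by norm_num) (by norm_num)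

/-- **`J₀(17)(ℚ)` is finite.** -/
theorem finite_rational_seventeen : Finite (FixedPoints.addSubgroup Γq (JZero 17)) :=
  finite_rational (by norm_num) (by norm_num) GenusOne.E17 (by rw [GenusOne.E17_Δ]; norm_num)
    GenusOne.E17_semistable GenusOne.conductorLevel_E17 GenusOne.genus_seventeen (r := 2) (k := 4)
    (by norm_num) (by norm_num) (by norm_num) (by norm_num)

/-- **`J₀(19)(ℚ)` is finite.** -/
theorem finite_rational_nineteen : Finite (FixedPoints.addSubgroup Γq (JZero 19)) :=
  finite_rational (by norm_num) (by norm_num) GenusOne.E19 (by rw [GenusOne.E19_Δ]; norm_num)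
    GenusOne.E19_semistable GenusOne.conductorLevel_E19 GenusOne.genus_nineteen (r := 3) (k := 2)
    (by norm_num) two_ne_zero (by norm_num) (by norm_num)

end Fermat.Agent.Cor.RankZero
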