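import Fermat.Agent.Cor.RankZero
import Fermat.Agent.H09.Dict

set_option autoImplicit false
set_option linter.style.haveILetI false
set_option linter.unusedSectionVars false

/-!
# Rational points on `X₀(11)` and `X₀(19)`

* `eq_of_cl_eq_zero`: different points of `X₀(N)` are not linearly equivalent (if the cuspidal class is not zero);
* `card_ratPlaces_le`: `X₀(N)` has at most `#J₀(N)(ℚ)` rational points: at most `5` for `N = 11`, at most `3` for
  `N = 19`.

This file is not used by any of the statement files.
-/

noncomputable section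

namespace Fermat.Agent.Cor.RankZero

open ModularCurve AlgebraicCurve IsLocalRing Fermat.Agent.H28 Fermat.Agent.FF

local notation "Qb" => AlgebraicClosure ℚ
local notation "Γq" => AlgebraicClosure ℚ ≃ₐ[ℚ] AlgebraicClosure ℚ

section General

variable {K F : Type*} [Field K] [Field F] [Algebra K F] [IsAlgClosed K] [CharZero K]
  [FunField K F]

/-- If two different points of a curve are linearly equivalent, all points are. -/
theorem isPrincipal_of_ne {x y : Place K F} (hxy : x ≠ y)
    (h : (Finsupp.single x 1 - Finsupp.single y 1 : Divisor K F).IsPrincipal) (z : Place K F) :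
    (Finsupp.single z 1 - Finsupp.single y 1 : Divisor K F).IsPrincipal := by
  classical
  by_cases hzy : z = y
  · rw [hzy, sub_self]
    exact (Divisor.principal (K := K) (F := F)).zero_mem
  obtain ⟨f, hf, hdiv⟩ := h
  have hyf : y.ord f = -1 := by
    rw [← hdiv y, Finsupp.sub_apply, Finsupp.single_eq_of_ne (Ne.symm hxy), Finsupp.single_eq_same,
      zero_sub]
  have hreg : ∀ v : Place K F, v ≠ y → 0 ≤ v.ord f := by
    intro v hv
    rw [← hdiv v, Finsupp.sub_apply, Finsupp.single_eq_of_ne hv, sub_zero,
      Finsupp.single_apply]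
    split_ifs <;> norm_num
  have hreg' : ∀ v : Place K F, v ≠ y → v.adicValuation f ≤ 1 := fun v hv =>
    v.adicValuation_le_one_iff.mpr (Or.inr (hreg v hv))
  set c := val z f with hc
  set g : F := f - algebraMap K F c with hg
  have hg0 : g ≠ 0 := by
    intro h0
    rw [sub_eq_zero.mp h0, ord_algebraMap'] at hyf
    norm_num at hyf
  have hyg : y.ord g = -1 := by
    rw [hg, ord_sub_const_of_pole (by rw [hyf]; norm_num), hyf]
  have hzg : 0 < z.ord g := by
    rcases WP.val_lt_one_iff.mp (val_spec (hreg' z hzy)) with h0 | h0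
    · exact absurd h0 hg0
    · exact h0
  obtain ⟨D, hD, hdeg⟩ := HasPrincipalDivisors.exists_divisor (K := K) g hg0
  set E : Divisor K F := D - (Finsupp.single z 1 - Finsupp.single y 1) with hE
  have hE0 : 0 ≤ E := by
    intro v
    change 0 ≤ E v
    rw [hE, Finsupp.sub_apply, Finsupp.sub_apply, hD v]
    by_cases hv : v = y
    · rw [hv, hyg, Finsupp.single_eq_of_ne (Ne.symm hzy), Finsupp.single_eq_same]
      norm_num
    · rw [Finsupp.single_eq_of_ne hv]
      by_cases hvz : v = z
      · rw [hvz, Finsupp.single_eq_same]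
        omega
      · rw [Finsupp.single_eq_of_ne hvz]
        have := ord_sub_const_nonneg (hreg' v hv) c
        simpa using this
  have hEd : Divisor.degree E = 0 := by
    rw [hE, map_sub, map_sub, hdeg, Divisor.degree_single, Divisor.degree_single, deg_eq_one,
      deg_eq_one, sub_self, sub_self]
  have hE1 := eq_zero_of_degree_zero hE0 hEd
  refine ⟨g, hg0, fun v => ?_⟩
  rw [← hD v, ← sub_eq_zero.mp (hE.symm.trans hE1)]

end General

variable {N : ℕ} [NeZero N]

/-- **Different points of `X₀(N)` have different classes.** -/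
theorem eq_of_cl_eq_zero (hcc : M5.cc N ≠ 0) {x y : Place Qb (modularFunctionFieldBar N)}
    (h : (M5.cl Qb x y : JZero N) = 0) : x = y := by
  by_contra hne
  have hp := (H05.pic0_mk_eq_zero_iff _).mp h
  have key : ∀ z : Place Qb (modularFunctionFieldBar N), (M5.cl Qb z y : JZero N) = 0 := by
    intro z
    exact (H05.pic0_mk_eq_zero_iff _).mpr (isPrincipal_of_ne hne hp z)
  apply hcc
  have h1 := H09.cl_sub_cl (M5.c₂ N) y (M5.c₁ N)
  rw [key, key, zero_sub, neg_eq_zero] at h1
  exact h1

/-- The rational points of `X₀(N)`: the places fixed by the Galois group. -/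
def ratPlaces (N : ℕ) [NeZero N] : Set (Place Qb (modularFunctionFieldBar N)) :=
  {v | ∀ σ : Γq, arithmeticGalois (modularFunctionFieldFull N) σ • v = v}

/-- **`X₀(N)` has at most `#J₀(N)(ℚ)` rational points.** -/
theorem card_ratPlaces_le (hcc : M5.cc N ≠ 0)
    (hfin : Finite (FixedPoints.addSubgroup Γq (JZero N))) :
    Finite (ratPlaces N) ∧
      Nat.card (ratPlaces N) ≤ Nat.card (FixedPoints.addSubgroup Γq (JZero N)) := by
  let i : ratPlaces N → FixedPoints.addSubgroup Γq (JZero N) := fun v =>
    ⟨M5.cl Qb (M5.c₁ N) v.1, fun σ => H09.smul_cl_of_fixed σ (M5.smul_c₁ σ) (v.2 σ)⟩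
  have hi : Function.Injective i := by
    intro v w hvw
    have h1 : (M5.cl Qb (M5.c₁ N) v.1 : JZero N) = M5.cl Qb (M5.c₁ N) w.1 :=
      congrArg Subtype.val hvw
    have h2 := H09.cl_sub_cl (M5.c₁ N) w.1 v.1
    rw [h1, sub_self] at h2
    exact Subtype.ext (eq_of_cl_eq_zero hcc h2.symm)
  exact ⟨Finite.of_injective i hi, Nat.card_le_card_of_injective i hi⟩

/-- **`X₀(11)` has at most five rational points.** -/
theorem card_ratPlaces_eleven : Finite (ratPlaces 11) ∧ Nat.card (ratPlaces 11) ≤ 5 := by
  have h := card_ratPlaces_le cc_eleven_ne_zero finite_rational_eleven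
  rwa [card_rational_eleven] at h

/-- **`X₀(19)` has at most three rational points.** -/
theorem card_ratPlaces_nineteen : Finite (ratPlaces 19) ∧ Nat.card (ratPlaces 19) ≤ 3 := by
  have h := card_ratPlaces_le cc_nineteen_ne_zero finite_rational_nineteen
  rwa [card_rational_nineteen] at h

end Fermat.Agent.Cor.RankZero
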