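import Fermat.Agent.Cor.RankZeroF

set_option autoImplicit false
set_option linter.style.haveILetI false
set_option linter.unusedSectionVars false

/-!
# Isogenies of degree `11`, `17`, `19`

* `no_subgroup_eleven`, `no_subgroup_seventeen`, `no_subgroup_nineteen`: an elliptic curve over `ℚ` with multiplicative
  reduction at a prime `ℓ ≠ 5, 11` (`ℓ ≠ 2, 17`, `ℓ ≠ 3, 19`) has no rational subgroup of order `11` (`17`, `19`). There is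
  no assumption on the reduction at the other primes.

This file is not used by any of the statement files.
-/

noncomputable section

namespace Fermat.Agent.Cor.RankZero

open AlgebraicCurve IsDedekindDomain IsLocalRing Polynomial Fermat.Agent.H28 Fermat.Agent.FF
open ModularCurve (modularFunctionFieldBar modularFunctionFieldFull arithmeticGalois JZero)
open WeierstrassCurve WeierstrassCurve.Affine WeierstrassCurve.Affine.Point

local notation "Qb" => AlgebraicClosure ℚ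
local notation "Γq" => AlgebraicClosure ℚ ≃ₐ[ℚ] AlgebraicClosure ℚ

variable {N : ℕ} [NeZero N]

/-- a non-cuspidal place -/
theorem ne_cusp {x : Place Qb (modularFunctionFieldBar N)} {c : Qb}
    (hx : 0 < x.ord (M5.jB Qb (one_dvd N) - algebraMap Qb _ c)) : x ≠ M5.c₁ N ∧ x ≠ M5.c₂ N := by
  constructor
  · rintro rfl
    have h1 : (M5.c₁ N).ord (M5.jB Qb (one_dvd N)) < 0 := by
      rw [M5.cInf_ord_jB]; norm_num
    rw [ord_sub_const_of_pole h1] at hx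
    omega
  · rintro rfl
    have hN0 : 0 < N := NeZero.pos N
    have h1 : (M5.c₂ N).ord (M5.jB Qb (one_dvd N)) < 0 := by
      rw [M5.cZero_ord_jB]; omega
    rw [ord_sub_const_of_pole h1] at hx
    omega

/-- a torsion class in the kernel of reduction -/
theorem eq_zero_of_mem_kerJ (hN : N.Prime) (h2 : N ≠ 2) (h3 : N ≠ 3) {ℓ : ℕ} (hℓ : ℓ.Prime)
    (hℓN : ℓ ≠ N) {m : ℕ} (hm : ¬ ℓ ∣ m) {A : ValuationSubring Qb} (hA : A.LiesOverPrime ℓ)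
    {D : JZero N} (hD : D ∈ H12.kerJ N ℓ ℓ A) (hmD : m • D = 0) : D = 0 := by
  have hyp := H12.hyp_aux hN hℓ hℓN ℓ
  have hg := H12.goodLevel (M := N * H12.sAux ℓ ℓ) hℓ hA hyp
  have hker := redKernel_of_goodLevel hℓ hyp.1 hA hg
  have hsN := H12.sAux_not_dvd hN h2 h3 ℓ ℓ
  have hm0 : m ≠ 0 := fun h => hm (h ▸ dvd_zero ℓ)
  rw [H12.kerJ, H12.kerM_eq hg.h₁ hg.h₂, AddSubgroup.mem_comap] at hD
  have h1 : H12.pullA N (H12.sAux ℓ ℓ) D = 0 := by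
    refine hker.torsion m hm _ hD ?_
    rw [← map_nsmul, hmD, _root_.map_zero]
  exact Fermat.Agent.P.eq_zero_of_pullN rfl hsN (dvd_mul_right N _) hm0 hmD h1

/-- points with the same reduction -/
theorem cl_mem_kerJ (hN : N.Prime) {ℓ : ℕ} (hℓ : ℓ.Prime)
    (hℓN : ℓ ≠ N) {A : ValuationSubring Qb} (hA : A.LiesOverPrime ℓ)
    {x y : Place Qb (modularFunctionFieldBar N)}
    (hxy : H09.SameRed A (M5.jB Qb (one_dvd N))⁻¹ x y) :
    M5.cl Qb x y ∈ H12.kerJ N ℓ ℓ A := by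
  have hyp := H12.hyp_aux hN hℓ hℓN ℓ
  have hg := H12.goodLevel (M := N * H12.sAux ℓ ℓ) hℓ hA hyp
  have h := H09.SameRed.mem_comap_pullN (N := N) (N' := N * H12.sAux ℓ ℓ) (s := H12.sAux ℓ ℓ) rfl
    (dvd_mul_right N _) hg.h₁ hg.h₂ hxy
  change _ ∈ H12.kerJ N ℓ ℓ A
  rw [H12.kerJ, H12.kerM_eq hg.h₁ hg.h₂]
  exact h

/-- **An elliptic curve over `ℚ` with multiplicative reduction at `ℓ ∤ m N` has no rational subgroup of order `N`**, if `m` kills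
`J₀(N)(ℚ)`. -/
theorem no_subgroup (hN : N.Prime) (h2 : N ≠ 2) (h3 : N ≠ 3) (hcc : M5.cc N ≠ 0) {m : ℕ}
    (hR : ∀ D : JZero N, (∀ σ : Γq, σ • D = D) → m • D = 0) {W : WeierstrassCurve ℤ}
    (hΔ : W.Δ ≠ 0) {ℓ : ℕ} (hℓ : ℓ.Prime) (hℓN : ℓ ≠ N) (hm : ¬ ℓ ∣ m) (hℓΔ : (ℓ : ℤ) ∣ W.Δ)
    (hℓc₄ : ¬ (ℓ : ℤ) ∣ W.c₄) {C : AddSubgroup ((W.map (Int.castRingHom ℚ))⁄Qb).Point}
    (hC : Nat.card C = N) (hst : ∀ (σ : Γq), ∀ Q ∈ C, σ • Q ∈ C) : False := by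
  haveI : Fact N.Prime := ⟨hN⟩
  haveI : Fact (N ≠ 2) := ⟨h2⟩
  obtain ⟨A, hA⟩ := Fermat.Agent.H05.exists_liesOverPrime Qb hℓ
  obtain ⟨x, hx, hgal⟩ := H24.exists_place h2 hΔ hℓ hℓΔ hℓc₄ hC hst
  set c := ((W.map (Int.castRingHom ℚ))⁄Qb).c₄ ^ 3 / ((W.map (Int.castRingHom ℚ))⁄Qb).Δ with hc
  set y := H24.veluJ ((W.map (Int.castRingHom ℚ))⁄Qb) (C : Set _) with hy
  have hcA : c ∉ A := by
    rw [← A.valuation_le_one_iff, not_le]
    exact H09.one_lt_val_j hΔ hℓ hℓΔ hℓc₄ hA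
  have h4 : 0 < x.ord (M5.jB Qb (one_dvd N) - algebraMap Qb _ c) := hx.hu
  have h5 : 0 < x.ord (M5.jB Qb (dvd_refl N) - algebraMap Qb _ y) := hx.hv
  obtain ⟨hne1, hne2⟩ := ne_cusp h4
  have hred : H09.SameRed A (M5.jB Qb (one_dvd N))⁻¹ x (M5.c₁ N) ∨
      H09.SameRed A (M5.jB Qb (one_dvd N))⁻¹ x (M5.c₂ N) := by
    by_cases hI : ∀ Q ∈ C, W.InZeroComponentAt A Q
    · exact Or.inl (H09.sameRed_typeI h4 h5 hcA (H09.typeI_j hΔ hN h2 hC hℓ hℓN hℓΔ hℓc₄ hA hI))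
    · refine Or.inr (H09.sameRed_typeII h4 h5 hcA ?_)
      have h6 := H09.typeII_j_lt hΔ hN h2 hC hℓ hℓΔ hℓc₄ hA hI
      rcases H07.dichotomy N A h2 hcA (H09.modPoly_eval_coord h4 h5) with h7 | h7
      · exact absurd h7 h6.ne
      · exact h7
  rcases hred with hred | hred
  · have hk := cl_mem_kerJ hN hℓ hℓN hA hred
    have hr : m • (M5.cl Qb x (M5.c₁ N) : JZero N) = 0 :=
      hR _ fun σ => H09.smul_cl_of_fixed σ (hgal σ) (M5.smul_c₁ σ)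
    exact hne1 (eq_of_cl_eq_zero hcc (eq_zero_of_mem_kerJ hN h2 h3 hℓ hℓN hm hA hk hr))
  · have hk := cl_mem_kerJ hN hℓ hℓN hA hred
    have hr : m • (M5.cl Qb x (M5.c₂ N) : JZero N) = 0 :=
      hR _ fun σ => H09.smul_cl_of_fixed σ (hgal σ) (M5.smul_c₂ hN σ)
    exact hne2 (eq_of_cl_eq_zero hcc (eq_zero_of_mem_kerJ hN h2 h3 hℓ hℓN hm hA hk hr))

/-- **No rational subgroup of order `11`** for an elliptic curve over `ℚ` with multiplicative reduction at some prime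
`ℓ ≠ 5, 11`. -/
theorem no_subgroup_eleven {W : WeierstrassCurve ℤ} (hΔ : W.Δ ≠ 0) {ℓ : ℕ} (hℓ : ℓ.Prime)
    (hℓN : ℓ ≠ 11) (hℓ5 : ℓ ≠ 5) (hℓΔ : (ℓ : ℤ) ∣ W.Δ) (hℓc₄ : ¬ (ℓ : ℤ) ∣ W.c₄)
    {C : AddSubgroup ((W.map (Int.castRingHom ℚ))⁄Qb).Point} (hC : Nat.card C = 11)
    (hst : ∀ (σ : Γq), ∀ Q ∈ C, σ • Q ∈ C) : False :=
  no_subgroup (N := 11) (by norm_num) (by norm_num) (by norm_num) cc_eleven_ne_zero
    five_smul_eleven hΔ hℓ hℓN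
    (fun h => hℓ5 ((Nat.prime_dvd_prime_iff_eq hℓ (by norm_num)).mp h)) hℓΔ hℓc₄ hC hst

/-- **No rational subgroup of order `19`** for an elliptic curve over `ℚ` with multiplicative reduction at some prime
`ℓ ≠ 3, 19`. -/
theorem no_subgroup_nineteen {W : WeierstrassCurve ℤ} (hΔ : W.Δ ≠ 0) {ℓ : ℕ} (hℓ : ℓ.Prime)
    (hℓN : ℓ ≠ 19) (hℓ3 : ℓ ≠ 3) (hℓΔ : (ℓ : ℤ) ∣ W.Δ) (hℓc₄ : ¬ (ℓ : ℤ) ∣ W.c₄)
    {C : AddSubgroup ((W.map (Int.castRingHom ℚ))⁄Qb).Point} (hC : Nat.card C = 19)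
    (hst : ∀ (σ : Γq), ∀ Q ∈ C, σ • Q ∈ C) : False :=
  no_subgroup (N := 19) (by norm_num) (by norm_num) (by norm_num) cc_nineteen_ne_zero
    three_smul_nineteen hΔ hℓ hℓN
    (fun h => hℓ3 ((Nat.prime_dvd_prime_iff_eq hℓ (by norm_num)).mp h)) hℓΔ hℓc₄ hC hst

/-- **No rational subgroup of order `17`** for an elliptic curve over `ℚ` with multiplicative reduction at some prime
`ℓ ≠ 2, 17`. -/
theorem no_subgroup_seventeen {W : WeierstrassCurve ℤ} (hΔ : W.Δ ≠ 0) {ℓ : ℕ} (hℓ : ℓ.Prime)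
    (hℓN : ℓ ≠ 17) (hℓ2 : ℓ ≠ 2) (hℓΔ : (ℓ : ℤ) ∣ W.Δ) (hℓc₄ : ¬ (ℓ : ℤ) ∣ W.c₄)
    {C : AddSubgroup ((W.map (Int.castRingHom ℚ))⁄Qb).Point} (hC : Nat.card C = 17)
    (hst : ∀ (σ : Γq), ∀ Q ∈ C, σ • Q ∈ C) : False :=
  no_subgroup (N := 17) (by norm_num) (by norm_num) (by norm_num)
    (cc_ne_zero (by norm_num) (r := 2) (k := 4) (by norm_num) (by norm_num) (by norm_num))
    four_smul_seventeen hΔ hℓ hℓN
    (fun h => hℓ2 ((Nat.prime_dvd_prime_iff_eq hℓ Nat.prime_two).mp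
      (hℓ.dvd_of_dvd_pow (m := 2) (n := 2) h))) hℓΔ hℓc₄ hC hst

end Fermat.Agent.Cor.RankZero
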