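import Fermat.Agent.S01

/-!
# Fermat's Last Theorem for rational exponents

For a rational number `r` and positive real numbers the power `x ^ r` is the positive real one
(`Real.rpow`). We determine all `r ∈ ℚ` for which `a ^ r + b ^ r = c ^ r` has a solution in positive integers:

* `Fermat.Agent.Cor.RatExp.exists_iff`: this is the case iff the numerator of `r` (in lowest terms) is
  `±1` or `±2`.
* `Fermat.Agent.Cor.RatExp.flt_rpow`: no solutions in positive rational numbers if `3 ≤ |num r|`.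
* `Fermat.Agent.Cor.RatExp.eq_iff`: for `r = n / m ≠ 0` in lowest terms the solutions in positive rational numbers
  are the `(c * s ^ m, c * t ^ m, c)` with `s ^ n + t ^ n = 1` (this part does not use Fermat's Last Theorem).

The proof: if `x + y = 1`, `x, y > 0` and `x ^ m, y ^ m` are rational, then every conjugate `z` of `x` satisfies
`|z| = x` and `|1 - z| = 1 - x`, so `z = x`, and `x` is rational. This reduces the equation to Fermat's equation
with exponent the numerator of `r`.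

This file is not used by any of the statement files.
-/

set_option autoImplicit false

namespace Fermat.Agent.Cor.RatExp

open Polynomial

/-- `x, y > 0`, `x + y = 1`, `x ^ m` and `y ^ m` rational imply that `x` is rational. -/
theorem rational_of_pow {x y : ℝ} (hx : 0 < x) (hy : 0 < y) (hxy : x + y = 1) {m : ℕ} (hm : m ≠ 0)
    {p q : ℚ} (hp : x ^ m = p) (hq : y ^ m = q) : ∃ t : ℚ, (t : ℝ) = x := by
  -- x is integral over ℚ
  have hint : IsIntegral ℚ x := by
    refine IsIntegral.of_pow (Nat.pos_of_ne_zero hm) ?_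
    rw [hp]
    exact isIntegral_algebraMap (R := ℚ) (A := ℝ) (x := p)
  -- all complex roots of the minimal polynomial are equal to x
  have hroots : ∀ z : ℂ, aeval z (minpoly ℚ x) = 0 → z = (x : ℂ) := by
    intro z hz
    have h1 : minpoly ℚ x ∣ (X ^ m - C p : ℚ[X]) := by
      apply minpoly.dvd
      simp [hp]
    have h2 : minpoly ℚ x ∣ ((1 - X) ^ m - C q : ℚ[X]) := by
      apply minpoly.dvd
      have : (1 - x) = y := by linarith
      simp [this, hq]
    have e1 : z ^ m = (p : ℂ) := by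
      obtain ⟨g, hg⟩ := h1
      have := congrArg (aeval z) hg
      rw [map_mul, hz, zero_mul] at this
      simpa [sub_eq_zero] using this
    have e2 : (1 - z) ^ m = (q : ℂ) := by
      obtain ⟨g, hg⟩ := h2
      have := congrArg (aeval z) hg
      rw [map_mul, hz, zero_mul] at this
      simpa [sub_eq_zero] using this
    have n1 : ‖z‖ = x := by
      have h3 : ‖z‖ ^ m = x ^ m := by
        rw [← norm_pow, e1, hp]
        have : (0 : ℝ) ≤ (p : ℝ) := by rw [← hp]; positivity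
        rw [← Complex.ofReal_ratCast, Complex.norm_real, Real.norm_of_nonneg this]
      exact (pow_left_inj₀ (norm_nonneg z) hx.le hm).mp h3
    have n2 : ‖1 - z‖ = y := by
      have h3 : ‖1 - z‖ ^ m = y ^ m := by
        rw [← norm_pow, e2, hq]
        have : (0 : ℝ) ≤ (q : ℝ) := by rw [← hq]; positivity
        rw [← Complex.ofReal_ratCast, Complex.norm_real, Real.norm_of_nonneg this]
      exact (pow_left_inj₀ (norm_nonneg _) hy.le hm).mp h3
    have r1 : z.re ≤ x := n1 ▸ Complex.re_le_norm z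
    have r2 : (1 - z).re ≤ y := n2 ▸ Complex.re_le_norm (1 - z)
    have r3 : z.re = x := by
      simp only [Complex.sub_re, Complex.one_re] at r2
      linarith
    have r4 : z.im = 0 := by
      have h4 : z.re * z.re + z.im * z.im = x ^ 2 := by
        rw [← n1, ← Complex.normSq_apply, Complex.normSq_eq_norm_sq]
      have h5 : z.im * z.im = 0 := by rw [r3] at h4; linarith [h4, sq x]
      exact mul_self_eq_zero.mp h5
    exact Complex.ext (by simp [r3]) (by simp [r4])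
  -- so its degree is one
  have hcard : Fintype.card ((minpoly ℚ x).rootSet ℂ) = (minpoly ℚ x).natDegree :=
    card_rootSet_eq_natDegree (minpoly.irreducible hint).separable (IsAlgClosed.splits _)
  have hle : Fintype.card ((minpoly ℚ x).rootSet ℂ) ≤ 1 := by
    rw [Fintype.card_le_one_iff_subsingleton]
    constructor
    rintro ⟨u, hu⟩ ⟨v, hv⟩
    have hu' := hroots u ((mem_rootSet.mp hu).2)
    have hv' := hroots v ((mem_rootSet.mp hv).2)
    exact Subtype.ext (hu'.trans hv'.symm)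
  have hdeg : (minpoly ℚ x).natDegree = 1 := by
    have := minpoly.natDegree_pos hint
    omega
  obtain ⟨t, ht⟩ := minpoly.mem_range_of_degree_eq_one ℚ x
    ((degree_eq_iff_natDegree_eq_of_pos one_pos).mpr hdeg)
  exact ⟨t, ht⟩

/-- positive rational numbers `u, v` with `u ^ n = v ^ m`, `n, m` coprime, are `u = s ^ m`, `v = s ^ n`. -/
theorem exists_root {u v : ℚ} (hu : 0 < u) (hv : 0 < v) {n m : ℕ} (hnm : n.Coprime m)
    (h : u ^ n = v ^ m) : ∃ s : ℚ, 0 < s ∧ s ^ m = u ∧ s ^ n = v := by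
  have hu0 : u ≠ 0 := hu.ne'
  have hv0 : v ≠ 0 := hv.ne'
  have hb : (1 : ℤ) = n * n.gcdA m + m * n.gcdB m := by
    have := Nat.gcd_eq_gcd_ab n m
    rw [hnm.gcd_eq_one] at this
    exact_mod_cast this
  have h' : (u : ℚ) ^ (n : ℤ) = v ^ (m : ℤ) := by exact_mod_cast h
  refine ⟨v ^ n.gcdA m * u ^ n.gcdB m, by positivity, ?_, ?_⟩
  · calc (v ^ n.gcdA m * u ^ n.gcdB m) ^ m
        = (v ^ (m : ℤ)) ^ n.gcdA m * u ^ ((m : ℤ) * n.gcdB m) := by
          rw [mul_pow, ← zpow_natCast, ← zpow_natCast, ← zpow_mul, ← zpow_mul, ← zpow_mul,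
            mul_comm (m : ℤ) (n.gcdA m), mul_comm (m : ℤ) (n.gcdB m)]
      _ = u ^ ((n : ℤ) * n.gcdA m + m * n.gcdB m) := by
          rw [← h', ← zpow_mul, zpow_add₀ hu0]
      _ = u := by rw [← hb, zpow_one]
  · calc (v ^ n.gcdA m * u ^ n.gcdB m) ^ n
        = v ^ ((n : ℤ) * n.gcdA m) * (u ^ (n : ℤ)) ^ n.gcdB m := by
          rw [mul_pow, ← zpow_natCast, ← zpow_natCast, ← zpow_mul, ← zpow_mul, ← zpow_mul,
            mul_comm (n : ℤ) (n.gcdA m), mul_comm (n : ℤ) (n.gcdB m)]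
      _ = v ^ ((n : ℤ) * n.gcdA m + m * n.gcdB m) := by
          rw [h', ← zpow_mul, zpow_add₀ hv0]
      _ = v := by rw [← hb, zpow_one]

/-- `(w ^ r) ^ den r = w ^ num r` -/
theorem rpow_pow_den (r : ℚ) {w : ℝ} (hw : 0 ≤ w) : (w ^ (r : ℝ)) ^ r.den = w ^ r.num := by
  have h3 : (r : ℝ) * (r.den : ℝ) = (r.num : ℝ) := by
    exact_mod_cast congrArg (fun z : ℚ => (z : ℝ)) (Rat.mul_den_eq_num r)
  rw [← Real.rpow_natCast, ← Real.rpow_mul hw, h3, Real.rpow_intCast]

/-- `(w ^ den r) ^ r = w ^ num r` -/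
theorem pow_den_rpow (r : ℚ) {w : ℝ} (hw : 0 ≤ w) : (w ^ r.den) ^ (r : ℝ) = w ^ r.num := by
  have h3 : (r.den : ℝ) * (r : ℝ) = (r.num : ℝ) := by
    rw [mul_comm]
    exact_mod_cast congrArg (fun z : ℚ => (z : ℝ)) (Rat.mul_den_eq_num r)
  rw [← Real.rpow_natCast, ← Real.rpow_mul hw, h3, Real.rpow_intCast]

/-- the parametrisation of the solutions, positive exponents -/
theorem exists_param_pos {r : ℚ} (hr0 : 0 < r) {a b c : ℚ} (ha : 0 < a) (hb : 0 < b) (hc : 0 < c)
    (h : (a : ℝ) ^ (r : ℝ) + (b : ℝ) ^ (r : ℝ) = (c : ℝ) ^ (r : ℝ)) :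
    ∃ s t : ℚ, 0 < s ∧ 0 < t ∧ a = c * s ^ r.den ∧ b = c * t ^ r.den ∧
      s ^ r.num + t ^ r.num = 1 := by
  have ha' : (0 : ℝ) < a := by exact_mod_cast ha
  have hb' : (0 : ℝ) < b := by exact_mod_cast hb
  have hc' : (0 : ℝ) < c := by exact_mod_cast hc
  have hnum : ((r.num.natAbs : ℤ)) = r.num := Int.natAbs_of_nonneg (Rat.num_nonneg.mpr hr0.le)
  have hcr : (0 : ℝ) < (c : ℝ) ^ (r : ℝ) := Real.rpow_pos_of_pos hc' _
  have key : ∀ w : ℚ, 0 < w → ((w : ℝ) ^ (r : ℝ) / (c : ℝ) ^ (r : ℝ)) ^ r.den =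
      (((w / c) ^ r.num.natAbs : ℚ) : ℝ) := by
    intro w hw
    have hw' : (0 : ℝ) ≤ (w : ℝ) := by exact_mod_cast hw.le
    have e : ((w : ℝ) / (c : ℝ)) ^ r.num = ((w : ℝ) / (c : ℝ)) ^ r.num.natAbs := by
      conv_lhs => rw [← hnum]
      rw [zpow_natCast]
    rw [div_pow, rpow_pow_den r hw', rpow_pow_den r hc'.le, ← div_zpow, e]
    push_cast
    rfl
  have hx : (0 : ℝ) < (a : ℝ) ^ (r : ℝ) / (c : ℝ) ^ (r : ℝ) :=
    div_pos (Real.rpow_pos_of_pos ha' _) hcr
  have hy : (0 : ℝ) < (b : ℝ) ^ (r : ℝ) / (c : ℝ) ^ (r : ℝ) :=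
    div_pos (Real.rpow_pos_of_pos hb' _) hcr
  have hxy : (a : ℝ) ^ (r : ℝ) / (c : ℝ) ^ (r : ℝ) + (b : ℝ) ^ (r : ℝ) / (c : ℝ) ^ (r : ℝ) = 1 := by
    rw [← add_div, h, div_self hcr.ne']
  obtain ⟨x, hxe⟩ := rational_of_pow hx hy hxy r.den_nz (key a ha) (key b hb)
  obtain ⟨y, hye⟩ := rational_of_pow hy hx (by rw [add_comm]; exact hxy) r.den_nz (key b hb)
    (key a ha)
  have kx := key a ha
  have ky := key b hb
  rw [← hxe] at hx hxy kx
  rw [← hye] at hy hxy ky
  have hx0 : (0 : ℚ) < x := by exact_mod_cast hx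
  have hy0 : (0 : ℚ) < y := by exact_mod_cast hy
  have hxy1 : x + y = 1 := by exact_mod_cast hxy
  have kx' : (a / c) ^ r.num.natAbs = x ^ r.den := by exact_mod_cast kx.symm
  have ky' : (b / c) ^ r.num.natAbs = y ^ r.den := by exact_mod_cast ky.symm
  obtain ⟨s, hs, hs1, hs2⟩ := exists_root (div_pos ha hc) hx0 r.reduced kx'
  obtain ⟨t, ht, ht1, ht2⟩ := exists_root (div_pos hb hc) hy0 r.reduced ky'
  refine ⟨s, t, hs, ht, ?_, ?_, ?_⟩
  · rw [hs1, mul_div_cancel₀ _ hc.ne']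
  · rw [ht1, mul_div_cancel₀ _ hc.ne']
  · rw [← hnum, zpow_natCast, zpow_natCast, hs2, ht2, hxy1]

/-- For `r ≠ 0` the solutions of `a ^ r + b ^ r = c ^ r` in positive rational numbers are the
`(c * s ^ m, c * t ^ m, c)` with `s ^ n + t ^ n = 1`, where `r = n / m` in lowest terms. -/
theorem eq_iff {r : ℚ} (hr0 : r ≠ 0) {a b c : ℚ} (ha : 0 < a) (hb : 0 < b) (hc : 0 < c) :
    (a : ℝ) ^ (r : ℝ) + (b : ℝ) ^ (r : ℝ) = (c : ℝ) ^ (r : ℝ) ↔
      ∃ s t : ℚ, 0 < s ∧ 0 < t ∧ a = c * s ^ r.den ∧ b = c * t ^ r.den ∧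
        s ^ r.num + t ^ r.num = 1 := by
  constructor
  · intro h
    rcases lt_or_gt_of_ne hr0 with hr | hr
    · have key : ∀ w : ℚ, 0 < w → (w : ℝ) ^ (r : ℝ) = ((w⁻¹ : ℚ) : ℝ) ^ ((-r : ℚ) : ℝ) := by
        intro w hw
        have hw' : (0 : ℝ) ≤ (w : ℝ) := by exact_mod_cast hw.le
        push_cast
        rw [Real.rpow_neg (inv_nonneg.mpr hw'), Real.inv_rpow hw', inv_inv]
      rw [key a ha, key b hb, key c hc] at h
      obtain ⟨s, t, hs, ht, h1, h2, h3⟩ := exists_param_pos (by linarith : 0 < -r)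
        (inv_pos.mpr ha) (inv_pos.mpr hb) (inv_pos.mpr hc) h
      rw [Rat.den_neg_eq_den] at h1 h2
      rw [Rat.num_neg_eq_neg_num, zpow_neg, zpow_neg, ← inv_zpow, ← inv_zpow] at h3
      refine ⟨s⁻¹, t⁻¹, inv_pos.mpr hs, inv_pos.mpr ht, ?_, ?_, h3⟩
      · rw [inv_pow, ← inv_inv c, ← mul_inv, ← h1, inv_inv]
      · rw [inv_pow, ← inv_inv c, ← mul_inv, ← h2, inv_inv]
    · exact exists_param_pos hr ha hb hc h
  · rintro ⟨s, t, hs, ht, rfl, rfl, h⟩
    have hs' : (0 : ℝ) ≤ (s : ℝ) := by exact_mod_cast hs.le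
    have ht' : (0 : ℝ) ≤ (t : ℝ) := by exact_mod_cast ht.le
    have hc' : (0 : ℝ) ≤ (c : ℝ) := by exact_mod_cast hc.le
    have h' : (s : ℝ) ^ r.num + (t : ℝ) ^ r.num = 1 := by exact_mod_cast h
    push_cast
    rw [Real.mul_rpow hc' (pow_nonneg hs' _), Real.mul_rpow hc' (pow_nonneg ht' _),
      pow_den_rpow r hs', pow_den_rpow r ht', ← mul_add, h', mul_one]

/-- Fermat's Last Theorem for rational numbers -/
theorem flt_rat (n : ℕ) (hn : 3 ≤ n) (a b c : ℚ) (ha : a ≠ 0) (hb : b ≠ 0) (hc : c ≠ 0) :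
    a ^ n + b ^ n ≠ c ^ n := by
  have h : FermatLastTheoremFor n := fun a b c ha hb hc =>
    Fermat.Agent.S01.result n hn a b c (Nat.pos_of_ne_zero ha) (Nat.pos_of_ne_zero hb)
      (Nat.pos_of_ne_zero hc)
  exact (fermatLastTheoremFor_iff_rat.mp h) a b c ha hb hc

/-- **Fermat's Last Theorem for integral exponents** of absolute value at least `3`, rational numbers -/
theorem flt_zpow (n : ℤ) (hn : 3 ≤ n.natAbs) (a b c : ℚ) (ha : a ≠ 0) (hb : b ≠ 0) (hc : c ≠ 0) :
    a ^ n + b ^ n ≠ c ^ n := by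
  rcases Int.natAbs_eq n with h | h
  · rw [h, zpow_natCast, zpow_natCast, zpow_natCast]
    exact flt_rat _ hn a b c ha hb hc
  · rw [h, zpow_neg, zpow_neg, zpow_neg, zpow_natCast, zpow_natCast, zpow_natCast, ← inv_pow,
      ← inv_pow, ← inv_pow]
    exact flt_rat _ hn _ _ _ (inv_ne_zero ha) (inv_ne_zero hb) (inv_ne_zero hc)

/-- **Fermat's Last Theorem for rational exponents** (real powers, positive rational numbers): no solution if
the numerator of the exponent in lowest terms is at least `3` in absolute value. -/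
theorem flt_rpow {r : ℚ} (hr : 3 ≤ r.num.natAbs) {a b c : ℚ} (ha : 0 < a)
    (hb : 0 < b) (hc : 0 < c) : (a : ℝ) ^ (r : ℝ) + (b : ℝ) ^ (r : ℝ) ≠ (c : ℝ) ^ (r : ℝ) := by
  intro h
  have hr0 : r ≠ 0 := by
    rintro rfl
    simp at hr
  obtain ⟨s, t, hs, ht, -, -, h1⟩ := (eq_iff hr0 ha hb hc).mp h
  exact flt_zpow r.num hr s t 1 hs.ne' ht.ne' one_ne_zero (by rw [h1, one_zpow])

/-- solutions for the exponents with numerator `±1`, `±2` -/
theorem exists_of_natAbs {r : ℚ} (hr : r.num.natAbs = 1 ∨ r.num.natAbs = 2) :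
    ∃ a b c : ℕ, 0 < a ∧ 0 < b ∧ 0 < c ∧
      (a : ℝ) ^ (r : ℝ) + (b : ℝ) ^ (r : ℝ) = (c : ℝ) ^ (r : ℝ) := by
  have key : ∀ w : ℕ, ((w ^ r.den : ℕ) : ℝ) ^ (r : ℝ) = (w : ℝ) ^ r.num := by
    intro w
    rw [Nat.cast_pow, pow_den_rpow r (Nat.cast_nonneg w)]
  have main : ∀ a b c : ℕ, 0 < a → 0 < b → 0 < c →
      (a : ℝ) ^ r.num + (b : ℝ) ^ r.num = (c : ℝ) ^ r.num →
      ∃ a b c : ℕ, 0 < a ∧ 0 < b ∧ 0 < c ∧
        (a : ℝ) ^ (r : ℝ) + (b : ℝ) ^ (r : ℝ) = (c : ℝ) ^ (r : ℝ) := by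
    intro a b c ha hb hc h
    exact ⟨a ^ r.den, b ^ r.den, c ^ r.den, pow_pos ha _, pow_pos hb _, pow_pos hc _, by
      rw [key, key, key, h]⟩
  rcases hr with h | h
  · rcases Int.natAbs_eq_iff.mp h with h | h
    · exact main 1 1 2 one_pos one_pos two_pos (by rw [h]; norm_num)
    · exact main 2 2 1 two_pos two_pos one_pos (by rw [h]; norm_num)
  · rcases Int.natAbs_eq_iff.mp h with h | h
    · exact main 3 4 5 (by norm_num) (by norm_num) (by norm_num) (by
        rw [h]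
        norm_num [show ((2 : ℕ) : ℤ) = 2 from rfl, zpow_ofNat])
    · exact main 15 20 12 (by norm_num) (by norm_num) (by norm_num) (by
        rw [h, zpow_neg, zpow_neg, zpow_neg]
        norm_num [zpow_ofNat])

/-- **Fermat's Last Theorem for rational exponents**, complete form: for `r ∈ ℚ` the equation
`a ^ r + b ^ r = c ^ r` (real powers) has a solution in positive integers if and only if the numerator of `r`
in lowest terms is `±1` or `±2`. -/
theorem exists_iff (r : ℚ) :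
    (∃ a b c : ℕ, 0 < a ∧ 0 < b ∧ 0 < c ∧
      (a : ℝ) ^ (r : ℝ) + (b : ℝ) ^ (r : ℝ) = (c : ℝ) ^ (r : ℝ)) ↔
      r.num.natAbs = 1 ∨ r.num.natAbs = 2 := by
  refine ⟨?_, exists_of_natAbs⟩
  rintro ⟨a, b, c, ha, hb, hc, h⟩
  by_contra hcon
  push Not at hcon
  by_cases h0 : r.num.natAbs = 0
  · have : r = 0 := by
      rw [← Rat.num_eq_zero]
      exact Int.natAbs_eq_zero.mp h0
    subst this
    norm_num at h
  · have h3 : 3 ≤ r.num.natAbs := by omega
    exact flt_rpow h3 (a := a) (b := b) (c := c) (by exact_mod_cast ha) (by exact_mod_cast hb)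
      (by exact_mod_cast hc) (by exact_mod_cast h)

end Fermat.Agent.Cor.RatExp
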