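import Fermat.Agent.Cor.RankOne
import Mathlib.Analysis.SpecialFunctions.Exp
import Mathlib.Analysis.SpecialFunctions.Pow.Asymptotics

/-!
# The real zeros of the L-function of a semistable elliptic curve of conductor at most `82`

Let `W` be a semistable elliptic curve over `ℚ` of conductor `N ≤ 82` and root number `w`. The real zeros of
`L(W, s)` are `s = 0, -1, -2, …` and, if `w = -1`, `s = 1`.

Proof: `Λ(1 + α) = √N ∫_c^∞ (u^α + w u^(-α)) f(it) dt`, `u = t / c`, `c = 1 / √N`; for `α > 0` the weight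
`u^α ± u^(-α)` is positive and nondecreasing for `u > 1`.

This file is not used by any of the statement files.
-/

set_option autoImplicit false

noncomputable section

namespace Fermat.Agent.Cor.RealZeros

open Complex CongruenceSubgroup Filter MeasureTheory ModularFormClass Set Asymptotics
open Fermat.Agent.Cor.LFun Fermat.Agent.Cor.CentralSeries
open scoped Real Topology

/-! ### The weights -/

theorem integrableOn_weight {c α C : ℝ} {k : ℝ → ℝ} (hc : 0 < c) (hk : ContinuousOn k (Ici c))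
    (h0 : ∀ t, c ≤ t → 0 ≤ k t) (h1 : ∀ t, c ≤ t → k t ≤ C * (t / c) ^ α) :
    IntegrableOn (fun t => Real.exp (-(2 * π * t)) * k t) (Ioi c) := by
  refine integrable_of_isBigO_exp_neg (b := 1) one_pos (ContinuousOn.mul (by fun_prop) hk) ?_
  have h2 : (fun t : ℝ => t ^ α) =O[atTop] fun t => Real.exp t := (isLittleO_rpow_exp_atTop α).isBigO
  have h3 : (fun t : ℝ => Real.exp (-(2 * π * t)) * k t) =O[atTop]
      fun t : ℝ => Real.exp (-(2 * π * t)) * t ^ α := by
    refine IsBigO.of_bound (C / c ^ α) ?_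
    filter_upwards [eventually_ge_atTop c] with t ht
    have ht0 : 0 < t := hc.trans_le ht
    rw [Real.norm_of_nonneg (mul_nonneg (Real.exp_pos _).le (h0 t ht)),
      Real.norm_of_nonneg (mul_nonneg (Real.exp_pos _).le (Real.rpow_nonneg ht0.le _))]
    have h4 := h1 t ht
    rw [Real.div_rpow ht0.le hc.le] at h4
    calc Real.exp (-(2 * π * t)) * k t
        ≤ Real.exp (-(2 * π * t)) * (C * (t ^ α / c ^ α)) := by gcongr
      _ = C / c ^ α * (Real.exp (-(2 * π * t)) * t ^ α) := by ring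
  refine h3.trans (((isBigO_refl _ _).mul h2).trans ?_)
  refine IsBigO.of_bound 1 ?_
  filter_upwards [eventually_ge_atTop 0] with t ht
  rw [← Real.exp_add, Real.norm_of_nonneg (Real.exp_pos _).le,
    Real.norm_of_nonneg (Real.exp_pos _).le, one_mul]
  refine Real.exp_le_exp.mpr ?_
  nlinarith [Real.pi_gt_three]

theorem rpow_ge_one {c α t : ℝ} (hc : 0 < c) (hα : 0 ≤ α) (ht : c ≤ t) : 1 ≤ (t / c) ^ α :=
  Real.one_le_rpow (by rwa [one_le_div hc]) hα

theorem continuousOn_rpow {c : ℝ} (hc : 0 < c) (α : ℝ) :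
    ContinuousOn (fun t => (t / c) ^ α) (Ici c) := by
  refine ContinuousOn.rpow_const (by fun_prop) fun t ht => Or.inl ?_
  have : 0 < t := hc.trans_le ht
  positivity

theorem rpow_mono {c α s t : ℝ} (hc : 0 < c) (hα : 0 ≤ α) (hs : c ≤ s) (hst : s ≤ t) :
    (s / c) ^ α ≤ (t / c) ^ α := by
  have : 0 < s := hc.trans_le hs
  exact Real.rpow_le_rpow (by positivity) (by gcongr) hα

theorem isWeight_add {c α : ℝ} (hc : 0 < c) (hα : 0 ≤ α) :
    IsWeight c fun t => (t / c) ^ α + (t / c) ^ (-α) where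
  c_pos := hc
  continuousOn := (continuousOn_rpow hc α).add (continuousOn_rpow hc (-α))
  pos t ht := by
    have : 0 < t := hc.trans ht
    positivity
  mono s hs t ht hst := by
    have hs0 : 0 < s := hc.trans_le hs
    have ht0 : 0 < t := hc.trans_le ht
    have h1 := rpow_ge_one hc hα hs
    have h2 := rpow_mono hc hα hs hst
    simp only
    rw [Real.rpow_neg (by positivity), Real.rpow_neg (by positivity)]
    set a := (s / c) ^ α
    set b := (t / c) ^ α
    have hb : 1 ≤ b := h1.trans h2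
    have ha0 : 0 < a := by linarith
    have hb0 : 0 < b := by linarith
    rw [← sub_nonneg]
    have e : b + b⁻¹ - (a + a⁻¹) = (b - a) * (a * b - 1) / (a * b) := by
      field_simp
      ring
    rw [e]
    have : 1 ≤ a * b := by nlinarith
    have h3 : 0 ≤ b - a := by linarith
    have h4 : 0 ≤ a * b - 1 := by linarith
    positivity
  integrable := by
    refine integrableOn_weight (α := α) (C := 2) hc
      ((continuousOn_rpow hc α).add (continuousOn_rpow hc (-α))) (fun t ht => ?_) fun t ht => ?_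
    · have : 0 < t := hc.trans_le ht
      positivity
    · have ht0 : 0 < t := hc.trans_le ht
      have h1 := rpow_ge_one hc hα ht
      rw [Real.rpow_neg (by positivity)]
      have h2 : ((t / c) ^ α)⁻¹ ≤ 1 := inv_le_one_of_one_le₀ h1
      linarith

theorem isWeight_sub {c α : ℝ} (hc : 0 < c) (hα : 0 < α) :
    IsWeight c fun t => (t / c) ^ α - (t / c) ^ (-α) where
  c_pos := hc
  continuousOn := (continuousOn_rpow hc α).sub (continuousOn_rpow hc (-α))
  pos t ht := by
    have ht0 : 0 < t := hc.trans ht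
    have h1 : 1 < (t / c) ^ α := Real.one_lt_rpow (by rwa [one_lt_div hc]) hα
    rw [Real.rpow_neg (by positivity)]
    have h2 : ((t / c) ^ α)⁻¹ < 1 := inv_lt_one_of_one_lt₀ h1
    linarith
  mono s hs t ht hst := by
    have hs0 : 0 < s := hc.trans_le hs
    have ht0 : 0 < t := hc.trans_le ht
    have h2 := rpow_mono hc hα.le hs hst
    simp only
    rw [Real.rpow_neg (by positivity), Real.rpow_neg (by positivity)]
    have h3 : ((t / c) ^ α)⁻¹ ≤ ((s / c) ^ α)⁻¹ := by
      gcongr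
    linarith
  integrable := by
    refine integrableOn_weight (α := α) (C := 1) hc
      ((continuousOn_rpow hc α).sub (continuousOn_rpow hc (-α))) (fun t ht => ?_) fun t ht => ?_
    · have ht0 : 0 < t := hc.trans_le ht
      have h1 := rpow_ge_one hc hα.le ht
      rw [Real.rpow_neg (by positivity)]
      have h2 : ((t / c) ^ α)⁻¹ ≤ 1 := inv_le_one_of_one_le₀ h1
      linarith
    · have ht0 : 0 < t := hc.trans_le ht
      have h1 : 0 ≤ (t / c) ^ (-α) := by positivity
      linarith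

/-! ### The completed L-function on the real axis -/

section form

variable {N : ℕ} [NeZero N] {f : CuspForm (Gamma0 N) 2}

theorem integrableOn_rpow_phi (f : CuspForm (Gamma0 N) 2) (α : ℝ) :
    IntegrableOn (fun t => ((t ^ α : ℝ) : ℂ) * phi f t) (Ioi 0) := by
  have h1 := mellinConvergent_phi f (1 + α)
  rw [MellinConvergent] at h1
  refine h1.congr_fun (fun t (ht : 0 < t) => ?_) measurableSet_Ioi
  simp only [smul_eq_mul]
  rw [add_sub_cancel_left, Complex.ofReal_cpow ht.le]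

omit [NeZero N] in
theorem mellin_phi (f : CuspForm (Gamma0 N) 2) (α : ℝ) :
    mellin (phi f) (1 + α) = ∫ t in Ioi (0 : ℝ), ((t ^ α : ℝ) : ℂ) * phi f t := by
  rw [mellin]
  refine setIntegral_congr_fun measurableSet_Ioi fun t (ht : 0 < t) => ?_
  simp only [smul_eq_mul]
  rw [add_sub_cancel_left, Complex.ofReal_cpow ht.le]

theorem integrableOn_div_rpow_phi (f : CuspForm (Gamma0 N) 2) {c : ℝ} (hc : 0 < c) (α : ℝ) :
    IntegrableOn (fun t => (((t / c) ^ α : ℝ) : ℂ) * phi f t) (Ioi 0) := by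
  have h : IntegrableOn (fun t => (((c ^ α)⁻¹ : ℝ) : ℂ) * (((t ^ α : ℝ) : ℂ) * phi f t)) (Ioi 0) :=
    (integrableOn_rpow_phi f α).const_mul _
  refine h.congr_fun (fun t (ht : 0 < t) => ?_) measurableSet_Ioi
  simp only
  rw [Real.div_rpow ht.le hc.le, div_eq_inv_mul]
  push_cast
  ring

/-- `∫_0^∞ (√N t)^α f(it) dt ≠ 0` for `w = 1`, `α ≥ 0`, and for `w = -1`, `α > 0` -/
theorem integral_ne_zero (hf : f.IsNewform) (hb : ∀ n, ‖qCoeff f n‖ ≤ n) (hN : N ≤ 82) {α : ℝ}
    (hα : 0 < α) :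
    ∫ t in Ioi (0 : ℝ), (((t / (√N)⁻¹) ^ α : ℝ) : ℂ) * phi f t ≠ 0 := by
  have hN0 : (0 : ℝ) < N := by exact_mod_cast Nat.pos_of_ne_zero (NeZero.ne N)
  set c : ℝ := (√N)⁻¹ with hcdef
  have hc : 0 < c := sqrt_pos'
  have hcc : (N : ℝ)⁻¹ = c * c := by
    rw [hcdef, ← mul_inv, Real.mul_self_sqrt hN0.le]
  have hinv : ∀ (β t : ℝ), 0 < t → ((N : ℝ)⁻¹ * t⁻¹ / c) ^ β = (t / c) ^ (-β) := by
    intro β t ht
    rw [Real.rpow_neg (by positivity), ← Real.inv_rpow (by positivity)]
    congr 1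
    rw [hcc]
    field_simp
  have i1 := integrableOn_div_rpow_phi f hc α
  have i2 := integrableOn_div_rpow_phi f hc (-α)
  have e1 := fold hf (k := fun t => (((t / c) ^ α + (t / c) ^ (-α) : ℝ) : ℂ)) (σ := 1)
    (fun t ht => by
      rw [hinv α t ht, hinv (-α) t ht, neg_neg, one_mul, add_comm])
    ((i1.add i2).congr_fun (fun t _ => by
      simp only [Pi.add_apply]
      push_cast
      ring) measurableSet_Ioi)
  have e2 := fold hf (k := fun t => (((t / c) ^ α - (t / c) ^ (-α) : ℝ) : ℂ)) (σ := -1)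
    (fun t ht => by
      rw [hinv α t ht, hinv (-α) t ht, neg_neg]
      push_cast
      ring)
    ((i1.sub i2).congr_fun (fun t _ => by
      simp only [Pi.sub_apply]
      push_cast
      ring) measurableSet_Ioi)
  have s1 : ∫ t in Ioi (0 : ℝ), (((t / c) ^ α + (t / c) ^ (-α) : ℝ) : ℂ) * phi f t =
      (∫ t in Ioi (0 : ℝ), (((t / c) ^ α : ℝ) : ℂ) * phi f t) +
        ∫ t in Ioi (0 : ℝ), (((t / c) ^ (-α) : ℝ) : ℂ) * phi f t := by
    rw [← integral_add i1 i2]
    refine setIntegral_congr_fun measurableSet_Ioi fun t _ => ?_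
    push_cast
    ring
  have s2 : ∫ t in Ioi (0 : ℝ), (((t / c) ^ α - (t / c) ^ (-α) : ℝ) : ℂ) * phi f t =
      (∫ t in Ioi (0 : ℝ), (((t / c) ^ α : ℝ) : ℂ) * phi f t) -
        ∫ t in Ioi (0 : ℝ), (((t / c) ^ (-α) : ℝ) : ℂ) * phi f t := by
    rw [← integral_sub i1 i2]
    refine setIntegral_congr_fun measurableSet_Ioi fun t _ => ?_
    push_cast
    ring
  rw [s1] at e1
  rw [s2] at e2
  have hφ : ∀ t, c < t → HasSum (fun n : ℕ => qCoeff f n * (Real.exp (-(2 * π * n * t)) : ℂ))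
      (phi f t) := fun t ht => hasSum_phi f (hc.trans ht)
  have w1 := (isWeight_add hc hα.le).integral_ne_zero (exp_lt_half hN)
    (H22.cusp_qCoeff_zero f) hf.1.qCoeff_one hb hφ
  have w2 := (isWeight_sub hc hα).integral_ne_zero (exp_lt_half hN)
    (H22.cusp_qCoeff_zero f) hf.1.qCoeff_one hb hφ
  intro h0
  rw [h0] at e1 e2
  rcases Parity.rootNumber_eq_one_or hf with hw | hw
  · rw [hw] at e1 e2
    refine w1 ?_
    linear_combination (-1 / 2 : ℂ) * e1 - (1 / 2 : ℂ) * e2
  · rw [hw] at e1 e2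
    refine w2 ?_
    linear_combination (-1 / 2 : ℂ) * e1 - (1 / 2 : ℂ) * e2

theorem Lam_ne_zero_of_one_lt (hf : f.IsNewform) (hb : ∀ n, ‖qCoeff f n‖ ≤ n) (hN : N ≤ 82) {s : ℝ}
    (hs : 1 < s) : Lam f s ≠ 0 := by
  have hN0 : (0 : ℝ) < N := by exact_mod_cast Nat.pos_of_ne_zero (NeZero.ne N)
  have hc : 0 < (√(N : ℝ))⁻¹ := sqrt_pos'
  have h := integral_ne_zero hf hb hN (α := s - 1) (by linarith)
  have h1 : ∫ t in Ioi (0 : ℝ), (((t / (√(N : ℝ))⁻¹) ^ (s - 1) : ℝ) : ℂ) * phi f t =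
      ((((√(N : ℝ))⁻¹ ^ (s - 1))⁻¹ : ℝ) : ℂ) *
        ∫ t in Ioi (0 : ℝ), ((t ^ (s - 1) : ℝ) : ℂ) * phi f t := by
    rw [← integral_const_mul]
    refine setIntegral_congr_fun measurableSet_Ioi fun t (ht : 0 < t) => ?_
    rw [Real.div_rpow ht.le hc.le, div_eq_inv_mul]
    push_cast
    ring
  rw [h1, ← mellin_phi] at h
  have h2 := right_ne_zero_of_mul h
  have h3 : (1 : ℂ) + ((s - 1 : ℝ) : ℂ) = s := by push_cast; ring
  rw [h3] at h2
  rw [Lam, Λ_eq]
  refine mul_ne_zero ?_ h2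
  rw [Ne, Complex.cpow_eq_zero_iff]
  exact fun h4 => (Nat.cast_ne_zero.mpr (NeZero.ne N)) h4.1

theorem Lam_eq_zero_iff (hf : f.IsNewform) (hb : ∀ n, ‖qCoeff f n‖ ≤ n) (hN : N ≤ 82) (s : ℝ) :
    Lam f s = 0 ↔ Parity.rootNumber f = -1 ∧ s = 1 := by
  constructor
  · intro h
    rcases lt_trichotomy s 1 with hs | hs | hs
    · have h1 := Parity.functional_equation hf s
      rw [h, mul_zero] at h1
      refine absurd ?_ (Lam_ne_zero_of_one_lt hf hb hN (s := 2 - s) (by linarith))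
      rw [← h1]
      push_cast
      rfl
    · refine ⟨?_, hs⟩
      rcases Parity.rootNumber_eq_one_or hf with hw | hw
      · exfalso
        have h1 := LF_one_ne_zero hf hb hN hw
        rw [hs, Complex.ofReal_one, Parity.Lam_eq_fac f (by norm_num)] at h
        exact (mul_ne_zero (Parity.fac_ne_zero (by norm_num)) h1) h
      · exact hw
    · exact absurd h (Lam_ne_zero_of_one_lt hf hb hN hs)
  · rintro ⟨hw, rfl⟩
    have h1 := Parity.functional_equation hf 1
    rw [hw, show (2 - 1 : ℂ) = 1 by norm_num] at h1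
    rw [Complex.ofReal_one]
    linear_combination (1 / 2 : ℂ) * h1

/-- **The real zeros of `L(f, s)`.** -/
theorem LF_eq_zero_iff (hf : f.IsNewform) (hb : ∀ n, ‖qCoeff f n‖ ≤ n) (hN : N ≤ 82) (s : ℝ) :
    LF f s = 0 ↔ (∃ n : ℕ, s = -n) ∨ (Parity.rootNumber f = -1 ∧ s = 1) := by
  constructor
  · intro h
    by_cases hs : ∃ n : ℕ, s = -n
    · exact Or.inl hs
    · right
      push Not at hs
      rw [← Lam_eq_zero_iff hf hb hN, Lam_eq f, h, mul_zero]
      intro n hn
      refine hs n ?_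
      exact_mod_cast hn
  · rintro (⟨n, rfl⟩ | ⟨hw, rfl⟩)
    · push_cast
      exact LWeil.LF_neg_nat f n
    · rw [Complex.ofReal_one]
      exact Parity.LF_one_eq_zero hf hw

end form

/-! ### Semistable elliptic curves -/

open Fermat.Agent.Cor.LWeil Fermat.Agent.Cor.AffCount

/-- **The real zeros of the L-function of a semistable elliptic curve of conductor at most `82`** are
`0, -1, -2, …`, and `1` if the root number is `-1`. -/
theorem real_zeros {W : WeierstrassCurve ℤ} {L Λ : ℂ → ℂ} (h : IsHasseWeil W L Λ) (hΔ : W.Δ ≠ 0)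
    (hW : W.IsSemistableModel) (hN : W.conductorLevel ≤ 82) (s : ℝ) :
    L s = 0 ↔ (∃ n : ℕ, s = -n) ∨ (LWeil.rootNumber W = -1 ∧ s = 1) := by
  obtain ⟨f, hf, hfW⟩ := exists_newform hΔ hW
  have hb : ∀ n, ‖qCoeff f n‖ ≤ n := by
    intro n
    rcases eq_or_ne n 0 with rfl | hn
    · rw [H22.cusp_qCoeff_zero f]
      simp
    · refine SmallRank.norm_le hΔ hf (fun q hq hqN => ?_) n hn
      rw [hfW q hq, ap_eq_of_good hq fun h' => hqN ((W.prime_dvd_conductorLevel_iff hΔ hq).mpr h')]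
  rw [RankOne.eq_LF h hΔ hf hfW, LF_eq_zero_iff hf hb hN, RankOne.rootNumber_form hf hfW]
  have e : ((LWeil.rootNumber W : ℤ) : ℂ) = -1 ↔ LWeil.rootNumber W = -1 := by
    constructor
    · intro h1
      exact_mod_cast h1
    · intro h1
      rw [h1]
      norm_num
  rw [e]

/-- No real zeros to the right of the centre, in particular no Siegel zeros. -/
theorem ne_zero_of_pos {W : WeierstrassCurve ℤ} {L Λ : ℂ → ℂ} (h : IsHasseWeil W L Λ)
    (hΔ : W.Δ ≠ 0) (hW : W.IsSemistableModel) (hN : W.conductorLevel ≤ 82) {s : ℝ} (hs : 0 < s)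
    (hs1 : s ≠ 1) : L s ≠ 0 := by
  rw [Ne, real_zeros h hΔ hW hN]
  rintro (⟨n, hn⟩ | ⟨-, h1⟩)
  · have : (0 : ℝ) ≤ n := Nat.cast_nonneg n
    linarith
  · exact hs1 h1

end Fermat.Agent.Cor.RealZeros
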