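import Fermat.Agent.Cor.SerreList
import Fermat.Agent.Cor.FrobTraces

/-!
# Serre's equations: Eisenstein congruences and the exponents `5` and `7`

Let `W` be a Frey curve for which `W[p]`, `p ≥ 5`, arises from a newform `f` of level `2 L`. If `a_ℓ(f) ≡ ℓ + 1 mod p` for
almost all primes `ℓ` (for example if `f` comes from an elliptic curve with a rational point of order `p`), then
`a_ℓ(W) ≡ ℓ + 1` for almost all primes, which contradicts the surjectivity of the Galois representation on `W[p]`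
(`noSol_of_newforms_eis`). The curves of conductor `26` (`26b`) and `38`, `58` (`38b`, `58b`) have rational points of order
`7` and `5`. There are no newforms of level `22`. This gives

* `serre_list_seven_all`: `x ^ p + y ^ p = L ^ α z ^ p` has no solutions in nonzero integers for **every prime `p ≥ 7`**
  and every `L` in Serre's list `3, 5, 7, 11, 13, 17, 19, 23, 29, 53, 59`;
* `serre_list_five_all`: the same for every prime `p ≥ 5` and `L ∈ {3, 5, 7, 11, 17, 19, 29}`.

This file is not used by any of the statement files.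
-/

set_option autoImplicit false

namespace Fermat.Agent.Cor.H11

open WeierstrassCurve Fermat.Agent.H12.LL ModularCurve Fermat.Agent.Cor.H18
open Fermat.Agent.Cor.NewformCount Fermat.Agent.Cor.GenusOne Fermat.Agent.Cor.EigenTable CongruenceSubgroup
open ModularFormClass (qCoeff)

/-- `T` contains the traces of Frobenius at `ℓ` of all Frey curves with good reduction at `ℓ`. -/
def FreyTraces (ℓ : ℕ) (T : Finset ℤ) : Prop :=
  ∀ A B : ℤ, A % 4 = 3 → (16 : ℤ) ∣ B → (FreyAB A B).IsGoodPrimeFor ℓ → (FreyAB A B).apOfModel ℓ ∈ T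

theorem freyTraces_three : FreyTraces 3 {0} := by
  intro A B hA hB hgood
  rw [Finset.mem_singleton]
  refine freyAB_ap_three hA hB ?_
  intro h5
  apply hgood
  have h6 : (3 : ℤ) ∣ 256 * (FreyAB A B).Δ := by
    rw [frey_disc hA hB]
    exact dvd_pow h5 two_ne_zero
  have h7 : (3 : ℤ) ∣ (FreyAB A B).Δ := by
    rcases (Int.prime_three).dvd_or_dvd h6 with h | h
    · omega
    · exact h
  exact_mod_cast h7

theorem freyTraces_five : FreyTraces 5 {2, -2} := by
  intro A B hA hB hgood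
  rw [Finset.mem_insert, Finset.mem_singleton]
  exact freyAB_ap_five hA hB hgood

/-- an integer `c = a_ℓ(f)` which is not congruent modulo `p` to the trace of Frobenius at `ℓ` of a Frey curve -/
def ExclT (p ℓ : ℕ) (c : ℤ) : Prop :=
  ∃ T : Finset ℤ, FreyTraces ℓ T ∧ (∀ t ∈ T, ¬ (p : ℤ) ∣ c - t) ∧ ¬ (p : ℤ) ∣ c - (ℓ + 1) ∧
    ¬ (p : ℤ) ∣ c + (ℓ + 1)

/-- **The criterion** with Eisenstein congruences. -/
theorem noSol_of_newforms_eis {p L : ℕ} (hp : p.Prime) (hp5 : 5 ≤ p) (hL : L.Prime) (hL2 : L ≠ 2)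
    (hS : ∀ f : CuspForm (Gamma0 (2 * L)) 2, f.IsNewform →
      (∃ (ℓ : ℕ) (c : ℤ), ℓ.Prime ∧ ¬ ℓ ∣ 2 * L ∧ ℓ ≠ p ∧ qCoeff f ℓ = (c : ℂ) ∧ ExclT p ℓ c) ∨
      ∀ ℓ : ℕ, ℓ.Prime → ¬ ℓ ∣ 2 * L → ∃ c : ℤ, qCoeff f ℓ = (c : ℂ) ∧ (p : ℤ) ∣ ℓ + 1 - c) :
    NoSol p L := by
  intro A B hcop hA hB hB0 h0 h2 hv
  have : Fact p.Prime := ⟨hp⟩
  have : NeZero (2 * L) := ⟨mul_ne_zero two_ne_zero hL.ne_zero⟩
  have hB' : (16 : ℤ) ∣ B := (by norm_num : (16 : ℤ) ∣ 32).trans hB
  have hirr := irreducible_FreyAB hcop hA hB' h0 hp hp5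
  have hΔ := frey_disc_ne hA hB' h0
  have hss := frey_semistable hA hB' hcop
  have hp2 : p ≠ 2 := by omega
  -- the valuation of the discriminant at `2`
  have hAodd : ¬ ((2 : ℕ) : ℤ) ∣ A := by push_cast; omega
  have hCodd : ¬ ((2 : ℕ) : ℤ) ∣ A + B := by push_cast; omega
  have hA0 : A ≠ 0 := by rintro rfl; simp at hAodd
  have hC0 : A + B ≠ 0 := by intro h; rw [h] at hCodd; simp at hCodd
  have hv2 : 8 + padicValInt 2 (FreyAB A B).Δ = 2 * padicValInt 2 B := by
    have h3 := congrArg (padicValInt 2) (frey_disc hA hB')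
    rw [padicValInt.mul (by norm_num) hΔ, padicValInt_pow', padicValInt.mul (mul_ne_zero hA0 hB0)
      hC0, padicValInt.mul hA0 hB0, padicValInt.eq_zero_of_not_dvd hAodd,
      padicValInt.eq_zero_of_not_dvd hCodd] at h3
    have h4 : padicValInt 2 256 = 8 := by
      have : (256 : ℤ) = 2 ^ 8 := by norm_num
      rw [this, padicValInt_pow']
      have h5 : padicValInt 2 2 = 1 := by
        have := padicValInt.self (p := 2) (by norm_num)
        exact_mod_cast this
      rw [h5]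
    omega
  have hvB : 5 ≤ padicValInt 2 B := by
    have := (padicValInt_dvd_iff (p := 2) 5 B).mp (by exact_mod_cast hB)
    exact this.resolve_left hB0
  have h2Δ : ((2 : ℕ) : ℤ) ∣ (FreyAB A B).Δ := by
    by_contra h
    rw [padicValInt.eq_zero_of_not_dvd h] at hv2
    omega
  have hram : ¬ UnrAt (FreyAB A B) p 2 := by
    refine H07.not_unrAt hΔ hp hp2 Nat.prime_two (Ne.symm hp2) h2Δ (hss 2 Nat.prime_two h2Δ) ?_
    intro h
    have h3 : (p : ℤ) ∣ 2 * ((padicValInt 2 B : ℤ) - 4) := by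
      have h4 : (2 * ((padicValInt 2 B : ℤ) - 4)) = (padicValInt 2 (FreyAB A B).Δ : ℤ) := by
        omega
      rw [h4]
      exact_mod_cast h
    rcases (Nat.prime_iff_prime_int.mp hp).dvd_or_dvd h3 with h4 | h4
    · have h5 : p ∣ 2 := by exact_mod_cast h4
      exact hp2 ((Nat.prime_dvd_prime_iff_eq hp Nat.prime_two).mp h5)
    · exact h2 h4
  obtain ⟨f, 𝔪, hf, h𝔪, hp𝔪, hres⟩ := exists_newform_two_mul hΔ hirr hp2 hL hL2
    (by exact_mod_cast h2Δ) hram (rm_two_mul (by omega) hL hcop hA hB h0 hv hirr)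
  rcases hS f hf with ⟨ℓ, c, hℓ, hℓN, hℓp, hc, T, hT, hex, hex1, hex2⟩ | hE
  · by_cases hgood : (FreyAB A B).IsGoodPrimeFor ℓ
    · exact hex _ (hT A B hA hB' hgood) (dvd_of_good h𝔪 hp𝔪 hres hℓ hℓN hℓp hc hgood)
    · have hℓΔ : (ℓ : ℤ) ∣ (FreyAB A B).Δ := by
        by_contra h
        exact hgood h
      have hb : ∃ b : integralClosure ℤ ℂ, (b : ℂ) = qCoeff f ℓ ∧
          b - (c : integralClosure ℤ ℂ) ∈ 𝔪 :=
        ⟨(c : integralClosure ℤ ℂ), by rw [hc]; simp, by rw [sub_self]; exact zero_mem _⟩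
      rcases dvd_of_mult hΔ hirr hp2 hf.1 h𝔪 hp𝔪 hres hℓ hℓN hℓp hb hℓΔ (hss ℓ hℓ hℓΔ) with h | h
      · exact hex1 h
      · exact hex2 h
  · -- the Eisenstein case
    have hp6 : p.Coprime 6 := by
      rw [Nat.Prime.coprime_iff_not_dvd hp]
      intro h
      have h6 : p ∣ 2 * 3 := h
      rcases (Nat.Prime.dvd_mul hp).mp h6 with h3 | h3
      · have := Nat.le_of_dvd (by norm_num) h3
        omega
      · have := Nat.le_of_dvd (by norm_num) h3
        omega
    have hinf := FrobTraces.infinite_traces (FreyAB A B) hΔ hss hp6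
      (fun q hq hqp => by
        rw [(Nat.prime_dvd_prime_iff_eq hq hp).mp hqp]
        exact hirr) 0 1 isCoprime_one_left
    obtain ⟨ℓ, ⟨hℓ, hℓΔ, h1, h3⟩, hlt⟩ := hinf.exists_gt (2 * L * p)
    have hLpos : 0 < L := hL.pos
    have hppos : 0 < p := hp.pos
    have hℓN : ¬ ℓ ∣ 2 * L := by
      intro h
      have h4 := Nat.le_of_dvd (by positivity) h
      have h5 : 2 * L * 1 ≤ 2 * L * p := Nat.mul_le_mul_left _ hppos
      omega
    have hℓp : ℓ ≠ p := by
      rintro rfl
      have h5 : 1 * ℓ ≤ 2 * L * ℓ := Nat.mul_le_mul_right _ (by omega)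
      omega
    obtain ⟨c, hc, hcd⟩ := hE ℓ hℓ hℓN
    have h4 := dvd_of_good h𝔪 hp𝔪 hres hℓ hℓN hℓp hc hℓΔ
    have h5 := Int.modEq_iff_dvd.mp h1
    have h6 := Int.modEq_iff_dvd.mp h3
    have h7 : (p : ℤ) ∣ 2 := by
      have e : (2 : ℤ) = (ℓ + 1 - c) + (c - (FreyAB A B).apOfModel ℓ) + (1 - ℓ) -
        (0 - (FreyAB A B).apOfModel ℓ) := by ring
      rw [e]
      exact dvd_sub (dvd_add (dvd_add hcd h4) h5) h6
    have h8 : p ∣ 2 := by exact_mod_cast h7
    exact hp2 ((Nat.prime_dvd_prime_iff_eq hp Nat.prime_two).mp h8)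

/-! ### curves with a rational point of order `5` or `7` -/

section torsion

variable {ℓ : ℕ} [hℓ : Fact ℓ.Prime]

theorem two_ne_zmod (h : ¬ ℓ ∣ 2) : (2 : ZMod ℓ) ≠ 0 := by
  intro h0
  apply h
  rw [← ZMod.natCast_eq_zero_iff]
  exact_mod_cast h0

theorem seven_dvd_card_E26b (h : ¬ ℓ ∣ 26) : 7 ∣ (E26b.reductionMod ℓ).card := by
  have hd : ¬ (ℓ : ℤ) ∣ E26b.Δ := by
    rw [E26b_Δ]
    exact not_dvd_of_ne (N := 26) (by decide +kernel) (by norm_num) (by norm_num) h
  have h2 : (2 : ZMod ℓ) ≠ 0 := two_ne_zmod fun h' => h (h'.trans (by norm_num))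
  have h4 : (4 : ZMod ℓ) ≠ 0 := by
    have : (4 : ZMod ℓ) = 2 ^ 2 := by norm_num
    rw [this]; exact pow_ne_zero 2 h2
  have h8 : (8 : ZMod ℓ) ≠ 0 := by
    have : (8 : ZMod ℓ) = 2 ^ 3 := by norm_num
    rw [this]; exact pow_ne_zero 3 h2
  have e1 : (E26b.reductionMod ℓ).toAffine.a₁ = 1 := by simp [reductionMod, E26b]
  have e2 : (E26b.reductionMod ℓ).toAffine.a₂ = -1 := by simp [reductionMod, E26b]
  have e3 : (E26b.reductionMod ℓ).toAffine.a₃ = 1 := by simp [reductionMod, E26b]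
  have e4 : (E26b.reductionMod ℓ).toAffine.a₄ = -3 := by simp [reductionMod, E26b]
  have hA : (E26b.reductionMod ℓ).toAffine.Nonsingular (-1) (-2) :=
    nonsingular_of hd (by simp [E26b]; norm_num)
  have hB : (E26b.reductionMod ℓ).toAffine.Nonsingular 3 2 :=
    nonsingular_of hd (by simp [E26b]; norm_num)
  have hC : (E26b.reductionMod ℓ).toAffine.Nonsingular 1 (-2) :=
    nonsingular_of hd (by simp [E26b]; norm_num)
  have hD : (E26b.reductionMod ℓ).toAffine.Nonsingular 1 0 :=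
    nonsingular_of hd (by simp [E26b]; try ring)
  have k1 : Affine.Point.some _ _ hA + Affine.Point.some _ _ hA = Affine.Point.some _ _ hB := by
    refine add_self_eq hA hB (-1) ?_ ?_ ?_ ?_
    · rw [e1, e3]
      intro h0
      apply h4
      linear_combination -h0
    · rw [e1, e2, e3, e4]; ring
    · rw [e1, e2]; ring
    · rw [e1, e3]; ring
  have k2 : Affine.Point.some _ _ hB + Affine.Point.some _ _ hB = Affine.Point.some _ _ hD := by
    refine add_self_eq hB hD 2 ?_ ?_ ?_ ?_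
    · rw [e1, e3]
      intro h0
      apply h8
      linear_combination h0
    · rw [e1, e2, e3, e4]; ring
    · rw [e1, e2]; ring
    · rw [e1, e3]; ring
  have k3 : Affine.Point.some _ _ hA + Affine.Point.some _ _ hB = Affine.Point.some _ _ hC := by
    refine add_eq hA hB hC 1 ?_ ?_ ?_ ?_
    · intro h0
      apply h4
      linear_combination -h0
    · ring
    · rw [e1, e2]; ring
    · rw [e1, e3]; ring
  have k4 : Affine.Point.some _ _ hC + Affine.Point.some _ _ hD = 0 := by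
    refine add_eq_zero hC hD ?_
    rw [e1, e3]; ring
  have h7 : (7 : ℕ) = (1 + 2) + (2 + 2) := rfl
  have : Fact (Nat.Prime 7) := ⟨by norm_num⟩
  refine dvd_card_of_addOrderOf (Affine.Point.some _ _ hA) (addOrderOf_eq_prime (p := 7) ?_
    (Affine.Point.some_ne_zero _))
  rw [h7, add_nsmul, add_nsmul, add_nsmul, one_nsmul, two_nsmul, k1, k2, k3, k4]

theorem five_dvd_card_E58b (h : ¬ ℓ ∣ 58) : 5 ∣ (E58b.reductionMod ℓ).card := by
  have hd : ¬ (ℓ : ℤ) ∣ E58b.Δ := by
    rw [E58b_Δ]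
    exact not_dvd_of_ne (N := 58) (by decide +kernel) (by norm_num) (by norm_num) h
  have h2 : (2 : ZMod ℓ) ≠ 0 := two_ne_zmod fun h' => h (h'.trans (by norm_num))
  have h4 : (4 : ZMod ℓ) ≠ 0 := by
    have : (4 : ZMod ℓ) = 2 ^ 2 := by norm_num
    rw [this]; exact pow_ne_zero 2 h2
  have e1 : (E58b.reductionMod ℓ).toAffine.a₁ = 1 := by simp [reductionMod, E58b]
  have e2 : (E58b.reductionMod ℓ).toAffine.a₂ = 1 := by simp [reductionMod, E58b]
  have e3 : (E58b.reductionMod ℓ).toAffine.a₃ = 1 := by simp [reductionMod, E58b]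
  have e4 : (E58b.reductionMod ℓ).toAffine.a₄ = 5 := by simp [reductionMod, E58b]
  have hA : (E58b.reductionMod ℓ).toAffine.Nonsingular (-1) (-2) :=
    nonsingular_of hd (by simp [E58b]; norm_num)
  have hB : (E58b.reductionMod ℓ).toAffine.Nonsingular 3 6 :=
    nonsingular_of hd (by simp [E58b]; norm_num)
  have hC : (E58b.reductionMod ℓ).toAffine.Nonsingular 3 (-10) :=
    nonsingular_of hd (by simp [E58b]; norm_num)
  have k1 : Affine.Point.some _ _ hA + Affine.Point.some _ _ hA = Affine.Point.some _ _ hB := by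
    refine add_self_eq hA hB (-2) ?_ ?_ ?_ ?_
    · rw [e1, e3]
      intro h0
      apply h4
      linear_combination -h0
    · rw [e1, e2, e3, e4]; ring
    · rw [e1, e2]; ring
    · rw [e1, e3]; ring
  have k3 : Affine.Point.some _ _ hA + Affine.Point.some _ _ hB = Affine.Point.some _ _ hC := by
    refine add_eq hA hB hC 2 ?_ ?_ ?_ ?_
    · intro h0
      apply h4
      linear_combination -h0
    · ring
    · rw [e1, e2]; ring
    · rw [e1, e3]; ring
  have k4 : Affine.Point.some _ _ hC + Affine.Point.some _ _ hB = 0 := by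
    refine add_eq_zero hC hB ?_
    rw [e1, e3]; ring
  have h7 : (5 : ℕ) = (1 + 2) + 2 := rfl
  have : Fact (Nat.Prime 5) := ⟨by norm_num⟩
  refine dvd_card_of_addOrderOf (Affine.Point.some _ _ hA) (addOrderOf_eq_prime (p := 5) ?_
    (Affine.Point.some_ne_zero _))
  rw [h7, add_nsmul, add_nsmul, one_nsmul, two_nsmul, k1, k3, k4]

theorem five_dvd_card_E38b (h : ¬ ℓ ∣ 38) : 5 ∣ (E38b.reductionMod ℓ).card := by
  have hd : ¬ (ℓ : ℤ) ∣ E38b.Δ := by
    rw [E38b_Δ]
    exact not_dvd_of_ne (N := 38) (by decide +kernel) (by norm_num) (by norm_num) h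
  have h2 : (2 : ZMod ℓ) ≠ 0 := two_ne_zmod fun h' => h (h'.trans (by norm_num))
  have e1 : (E38b.reductionMod ℓ).toAffine.a₁ = 1 := by simp [reductionMod, E38b]
  have e2 : (E38b.reductionMod ℓ).toAffine.a₂ = 1 := by simp [reductionMod, E38b]
  have e3 : (E38b.reductionMod ℓ).toAffine.a₃ = 1 := by simp [reductionMod, E38b]
  have e4 : (E38b.reductionMod ℓ).toAffine.a₄ = 0 := by simp [reductionMod, E38b]
  have hA : (E38b.reductionMod ℓ).toAffine.Nonsingular (-1) (-1) :=
    nonsingular_of hd (by simp [E38b]; try ring)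
  have hB : (E38b.reductionMod ℓ).toAffine.Nonsingular 1 1 :=
    nonsingular_of hd (by simp [E38b])
  have hC : (E38b.reductionMod ℓ).toAffine.Nonsingular 1 (-3) :=
    nonsingular_of hd (by simp [E38b]; norm_num)
  have k1 : Affine.Point.some _ _ hA + Affine.Point.some _ _ hA = Affine.Point.some _ _ hB := by
    refine add_self_eq hA hB (-1) ?_ ?_ ?_ ?_
    · rw [e1, e3]
      intro h0
      apply h2
      linear_combination -h0
    · rw [e1, e2, e3, e4]; ring
    · rw [e1, e2]; ring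
    · rw [e1, e3]; ring
  have k3 : Affine.Point.some _ _ hA + Affine.Point.some _ _ hB = Affine.Point.some _ _ hC := by
    refine add_eq hA hB hC 1 ?_ ?_ ?_ ?_
    · intro h0
      apply h2
      linear_combination -h0
    · ring
    · rw [e1, e2]; ring
    · rw [e1, e3]; ring
  have k4 : Affine.Point.some _ _ hC + Affine.Point.some _ _ hB = 0 := by
    refine add_eq_zero hC hB ?_
    rw [e1, e3]; ring
  have h7 : (5 : ℕ) = (1 + 2) + 2 := rfl
  have : Fact (Nat.Prime 5) := ⟨by norm_num⟩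
  refine dvd_card_of_addOrderOf (Affine.Point.some _ _ hA) (addOrderOf_eq_prime (p := 5) ?_
    (Affine.Point.some_ne_zero _))
  rw [h7, add_nsmul, add_nsmul, one_nsmul, two_nsmul, k1, k3, k4]

omit hℓ in
/-- from the number of points to the trace -/
theorem dvd_of_dvd_card {V : WeierstrassCurve ℤ} {n : ℕ} (h : n ∣ (V.reductionMod ℓ).card) :
    (n : ℤ) ∣ ℓ + 1 - V.apOfModel ℓ := by
  have e : (ℓ : ℤ) + 1 - V.apOfModel ℓ = ((V.reductionMod ℓ).card : ℤ) := by
    rw [WeierstrassCurve.apOfModel, WeierstrassCurve.traceOfFrobenius, Nat.card_zmod]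
    ring
  rw [e]
  exact_mod_cast h

end torsion

/-! ### the traces of Frobenius of the Frey curves at `13` -/

set_option maxRecDepth 10000 in
theorem cnt_thirteen : ∀ a b : ZMod 13, a * b * (a + b) ≠ 0 →
    (13 : ℤ) - (EigenTable.cnt 13 1 (10 * (b - a - 1)) 0 (-(9 * (a * b))) 0 : ℤ) ∈
      ({2, -2, 6, -6} : Finset ℤ) := by
  decide +kernel

theorem freyTraces_thirteen : FreyTraces 13 {2, -2, 6, -6} := by
  intro A B hA hB h0
  have : Fact (Nat.Prime 13) := ⟨by norm_num⟩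
  have h1 := EigenTable.apOfModel_eq (FreyAB A B) 13 h0
  have h5 : ¬ (13 : ℤ) ∣ A * B * (A + B) := by
    intro h
    apply h0
    have h6 : (13 : ℤ) ∣ 256 * (FreyAB A B).Δ := by
      rw [frey_disc hA hB]
      exact dvd_pow h two_ne_zero
    rcases (Int.prime_iff_natAbs_prime.mpr (by norm_num : (Int.natAbs 13).Prime)).dvd_or_dvd h6
      with h | h
    · omega
    · exact_mod_cast h
  have e2 : (((FreyAB A B).a₂ : ℤ) : ZMod 13) = 10 * ((B : ZMod 13) - (A : ZMod 13) - 1) := by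
    have h2 := congrArg (fun z : ℤ => (z : ZMod 13)) (four_a₂ hA hB)
    push_cast at h2
    have h3 : (40 : ZMod 13) = 1 := rfl
    linear_combination 10 * h2 - ((FreyAB A B).a₂ : ZMod 13) * h3
  have e4 : (((FreyAB A B).a₄ : ℤ) : ZMod 13) = -(9 * ((A : ZMod 13) * (B : ZMod 13))) := by
    have h2 := congrArg (fun z : ℤ => (z : ZMod 13)) (sixteen_a₄ (A := A) hB)
    push_cast at h2
    have h3 : (144 : ZMod 13) = 1 := rfl
    linear_combination 9 * h2 - ((FreyAB A B).a₄ : ZMod 13) * h3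
  have e1 : (((FreyAB A B).a₁ : ℤ) : ZMod 13) = 1 := by
    change (((1 : ℤ)) : ZMod 13) = 1
    norm_num
  have e3 : (((FreyAB A B).a₃ : ℤ) : ZMod 13) = 0 := by
    change (((0 : ℤ)) : ZMod 13) = 0
    norm_num
  have e6 : (((FreyAB A B).a₆ : ℤ) : ZMod 13) = 0 := by
    change (((0 : ℤ)) : ZMod 13) = 0
    norm_num
  rw [e1, e2, e3, e4, e6] at h1
  rw [h1]
  refine cnt_thirteen _ _ ?_
  intro h
  apply h5
  rw [← Int.cast_mul, ← Int.cast_add, ← Int.cast_mul] at h
  exact (ZMod.intCast_zmod_eq_zero_iff_dvd _ 13).mp h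

/-! ### the newforms of levels `22`, `26`, `38`, `58` -/

theorem newformCount_22 : newformCount 22 = 0 := newformCount_eq_of (by decide +kernel)
theorem newformCount_26 : newformCount 26 = 2 := newformCount_eq_of (by decide +kernel)
theorem newformCount_38 : newformCount 38 = 2 := newformCount_eq_of (by decide +kernel)

/-- there are no newforms of level `22` -/
theorem no_newform_22 {g : CuspForm (Gamma0 22) 2} (hg : g.IsNewform) : False := by
  obtain ⟨i, -⟩ := newform_eq_curve newformCount_22 (fun i : Fin 0 => i.elim0)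
    (fun i => i.elim0) (fun i => i.elim0) (fun i => i.elim0) (fun i => i.elim0) hg
  exact i.elim0

theorem newform_26 {g : CuspForm (Gamma0 26) 2} (hg : g.IsNewform) :
    qCoeff g 3 = (1 : ℤ) ∨
      ∀ ℓ : ℕ, ℓ.Prime → ¬ ℓ ∣ 26 → qCoeff g ℓ = (E26b.apOfModel ℓ : ℂ) := by
  have ha : ∀ i, ((![E26a, E26b] : Fin 2 → WeierstrassCurve ℤ) i).apOfModel 3 =
      (![1, -3] : Fin 2 → ℤ) i := by
    intro i
    fin_cases i
    · exact E26a_a3
    · exact E26b_a3
  obtain ⟨i, hi⟩ := newform_eq_curve newformCount_26 ![E26a, E26b]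
    (by intro i; fin_cases i
        · change E26a.Δ ≠ 0; rw [E26a_Δ]; norm_num
        · change E26b.Δ ≠ 0; rw [E26b_Δ]; norm_num)
    (by intro i; fin_cases i; exacts [E26a_semistable, E26b_semistable])
    (by intro i; fin_cases i; exacts [conductorLevel_E26a, conductorLevel_E26b])
    (ne_of_a3 (by norm_num) _ _ ha (by decide)) hg
  fin_cases i
  · exact Or.inl ((hi 3 (by norm_num) (by norm_num)).trans
      (congrArg (fun z : ℤ => (z : ℂ)) E26a_a3))
  · exact Or.inr hi

theorem E38a_a13 : E38a.apOfModel 13 = 5 :=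
  apOfModel_of_cnt (by norm_num) E38a_Δ (by norm_num) (by decide +kernel)

theorem newform_38 {g : CuspForm (Gamma0 38) 2} (hg : g.IsNewform) :
    qCoeff g 13 = (5 : ℤ) ∨
      ∀ ℓ : ℕ, ℓ.Prime → ¬ ℓ ∣ 38 → qCoeff g ℓ = (E38b.apOfModel ℓ : ℂ) := by
  have ha : ∀ i, ((![E38a, E38b] : Fin 2 → WeierstrassCurve ℤ) i).apOfModel 3 =
      (![1, -1] : Fin 2 → ℤ) i := by
    intro i
    fin_cases i
    · exact E38a_a3
    · exact E38b_a3
  obtain ⟨i, hi⟩ := newform_eq_curve newformCount_38 ![E38a, E38b]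
    (by intro i; fin_cases i
        · change E38a.Δ ≠ 0; rw [E38a_Δ]; norm_num
        · change E38b.Δ ≠ 0; rw [E38b_Δ]; norm_num)
    (by intro i; fin_cases i; exacts [E38a_semistable, E38b_semistable])
    (by intro i; fin_cases i; exacts [conductorLevel_E38a, conductorLevel_E38b])
    (ne_of_a3 (by norm_num) _ _ ha (by decide)) hg
  fin_cases i
  · exact Or.inl ((hi 13 (by norm_num) (by norm_num)).trans
      (congrArg (fun z : ℤ => (z : ℂ)) E38a_a13))
  · exact Or.inr hi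

theorem newform_58_all {g : CuspForm (Gamma0 58) 2} (hg : g.IsNewform) :
    qCoeff g 3 = (-3 : ℤ) ∨
      ∀ ℓ : ℕ, ℓ.Prime → ¬ ℓ ∣ 58 → qCoeff g ℓ = (E58b.apOfModel ℓ : ℂ) := by
  have ha : ∀ i, ((![E58a, E58b] : Fin 2 → WeierstrassCurve ℤ) i).apOfModel 3 =
      (![-3, -1] : Fin 2 → ℤ) i := by
    intro i
    fin_cases i
    · exact E58a_a3
    · exact E58b_a3
  obtain ⟨i, hi⟩ := newform_eq_curve newformCount_58 ![E58a, E58b]
    (by intro i; fin_cases i; exacts [E58a_data.1, E58b_data.1])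
    (by intro i; fin_cases i; exacts [E58a_data.2.1, E58b_data.2.1])
    (by intro i; fin_cases i; exacts [E58a_data.2.2, E58b_data.2.2])
    (ne_of_a3 (by norm_num) _ _ ha (by decide)) hg
  fin_cases i
  · exact Or.inl ((hi 3 (by norm_num) (by norm_num)).trans
      (congrArg (fun z : ℤ => (z : ℂ)) E58a_a3))
  · exact Or.inr hi

/-! ### the new exponents -/

/-- `L = 11`, all primes `p ≥ 5` -/
theorem noSol_eleven_five_le {p : ℕ} (hp : p.Prime) (hp5 : 5 ≤ p) : NoSol p 11 :=
  noSol_of_newforms_eis hp hp5 (by norm_num) (by norm_num) fun _ hf => (no_newform_22 hf).elim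

/-- `L = 13`, `p = 7` -/
theorem noSol_thirteen_seven : NoSol 7 13 := by
  refine noSol_of_newforms_eis (by norm_num) (by norm_num) (by norm_num) (by norm_num) fun f hf => ?_
  rcases newform_26 hf with h | h
  · exact Or.inl ⟨3, 1, by norm_num, by norm_num, by norm_num, h, {0}, freyTraces_three,
      by decide, by decide, by decide⟩
  · refine Or.inr fun ℓ hℓ hℓN => ⟨E26b.apOfModel ℓ, h ℓ hℓ hℓN, ?_⟩
    have : Fact ℓ.Prime := ⟨hℓ⟩
    exact dvd_of_dvd_card (seven_dvd_card_E26b hℓN)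

/-- `L = 19`, `p = 5` -/
theorem noSol_nineteen_five : NoSol 5 19 := by
  refine noSol_of_newforms_eis (by norm_num) (by norm_num) (by norm_num) (by norm_num) fun f hf => ?_
  rcases newform_38 hf with h | h
  · exact Or.inl ⟨13, 5, by norm_num, by norm_num, by norm_num, h, {2, -2, 6, -6},
      freyTraces_thirteen, by decide, by decide, by decide⟩
  · refine Or.inr fun ℓ hℓ hℓN => ⟨E38b.apOfModel ℓ, h ℓ hℓ hℓN, ?_⟩
    have : Fact ℓ.Prime := ⟨hℓ⟩
    exact dvd_of_dvd_card (five_dvd_card_E38b hℓN)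

/-- `L = 29`, `p = 5` -/
theorem noSol_twentynine_five : NoSol 5 29 := by
  refine noSol_of_newforms_eis (by norm_num) (by norm_num) (by norm_num) (by norm_num) fun f hf => ?_
  rcases newform_58_all hf with h | h
  · exact Or.inl ⟨3, -3, by norm_num, by norm_num, by norm_num, h, {0}, freyTraces_three,
      by decide, by decide, by decide⟩
  · refine Or.inr fun ℓ hℓ hℓN => ⟨E58b.apOfModel ℓ, h ℓ hℓ hℓN, ?_⟩
    have : Fact ℓ.Prime := ⟨hℓ⟩
    exact dvd_of_dvd_card (five_dvd_card_E58b hℓN)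

/-! ### the final lists -/

theorem noSol_seven_list {p L : ℕ} (hp : p.Prime) (hp7 : 7 ≤ p)
    (hL : L ∈ ({3, 5, 7, 11, 13, 17, 19, 23, 29, 53, 59} : Finset ℕ)) : NoSol p L := by
  by_cases h7 : p = 7
  · subst h7
    by_cases h13 : L = 13
    · subst h13
      exact noSol_thirteen_seven
    · refine noSol_list_seven hp le_rfl ?_
      simp only [Finset.mem_insert, Finset.mem_singleton] at hL ⊢
      omega
  · refine noSol_list_all hp ?_ hL
    by_contra hlt
    interval_cases p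
    · exact h7 rfl
    · exact absurd hp (by norm_num)
    · exact absurd hp (by norm_num)
    · exact absurd hp (by norm_num)

theorem noSol_five_list {p L : ℕ} (hp : p.Prime) (hp5 : 5 ≤ p)
    (hL : L ∈ ({3, 5, 7, 11, 17, 19, 29} : Finset ℕ)) : NoSol p L := by
  by_cases h5 : p = 5
  · subst h5
    simp only [Finset.mem_insert, Finset.mem_singleton] at hL
    rcases hL with rfl | rfl | rfl | rfl | rfl | rfl | rfl
    · exact noSol_list_five hp le_rfl (by decide)
    · exact noSol_list_five hp le_rfl (by decide)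
    · exact noSol_list_five hp le_rfl (by decide)
    · exact noSol_eleven_five_le hp le_rfl
    · exact noSol_list_five hp le_rfl (by decide)
    · exact noSol_nineteen_five
    · exact noSol_twentynine_five
  · refine noSol_seven_list hp ?_ ?_
    · by_contra hlt
      interval_cases p
      · exact h5 rfl
      · exact absurd hp (by norm_num)
    · simp only [Finset.mem_insert, Finset.mem_singleton] at hL ⊢
      omega

/-- **Serre's list for all primes `p ≥ 7`**, symmetric form. -/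
theorem serre_list_seven_all_symmetric {p L : ℕ} (hp : p.Prime) (hp7 : 7 ≤ p)
    (hL : L ∈ ({3, 5, 7, 11, 13, 17, 19, 23, 29, 53, 59} : Finset ℕ)) (α β γ : ℕ) {x y z : ℤ}
    (hx : x ≠ 0) (hy : y ≠ 0) (hz : z ≠ 0) :
    (L : ℤ) ^ α * x ^ p + (L : ℤ) ^ β * y ^ p + (L : ℤ) ^ γ * z ^ p ≠ 0 :=
  serre_sym (by omega) (prime_of_list hL).1 (prime_of_list hL).2 (noSol_seven_list hp hp7 hL)
    α β γ hx hy hz

/-- **Serre's list for all primes `p ≥ 7`.** Let `p ≥ 7` be a prime and
`L ∈ {3, 5, 7, 11, 13, 17, 19, 23, 29, 53, 59}`. Then `x ^ p + y ^ p = L ^ α z ^ p` has no solutions in nonzero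
integers. -/
theorem serre_list_seven_all {p L : ℕ} (hp : p.Prime) (hp7 : 7 ≤ p)
    (hL : L ∈ ({3, 5, 7, 11, 13, 17, 19, 23, 29, 53, 59} : Finset ℕ)) (α : ℕ) {x y z : ℤ}
    (hx : x ≠ 0) (hy : y ≠ 0) (hz : z ≠ 0) : x ^ p + y ^ p ≠ (L : ℤ) ^ α * z ^ p :=
  serre_eq hp (by omega) (prime_of_list hL).1 (prime_of_list hL).2 (noSol_seven_list hp hp7 hL)
    α hx hy hz

/-- `x ^ p + y ^ p = L ^ α z ^ p` has no solutions in nonzero integers for every prime `p ≥ 5` and
`L ∈ {3, 5, 7, 11, 17, 19, 29}`. -/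
theorem serre_list_five_all {p L : ℕ} (hp : p.Prime) (hp5 : 5 ≤ p)
    (hL : L ∈ ({3, 5, 7, 11, 17, 19, 29} : Finset ℕ)) (α : ℕ) {x y z : ℤ}
    (hx : x ≠ 0) (hy : y ≠ 0) (hz : z ≠ 0) : x ^ p + y ^ p ≠ (L : ℤ) ^ α * z ^ p := by
  have hL' : L ∈ ({3, 5, 7, 11, 13, 17, 19, 23, 29, 53, 59} : Finset ℕ) := by
    simp only [Finset.mem_insert, Finset.mem_singleton] at hL ⊢
    omega
  exact serre_eq hp hp5 (prime_of_list hL').1 (prime_of_list hL').2
    (noSol_five_list hp hp5 hL) α hx hy hz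

/-- The products of two consecutive positive integers: `n (n + 1) ≠ L ^ α m ^ p`, `p ≥ 7`. -/
theorem mul_succ_ne_list_seven {p L : ℕ} (hp : p.Prime) (hp7 : 7 ≤ p)
    (hL : L ∈ ({3, 5, 7, 11, 13, 17, 19, 23, 29, 53, 59} : Finset ℕ)) {n m : ℕ}
    (hn : 0 < n) (α : ℕ) : n * (n + 1) ≠ L ^ α * m ^ p := by
  intro h
  have hm : m ≠ 0 := by
    rintro rfl
    rw [zero_pow (by omega), mul_zero] at h
    exact absurd h (mul_ne_zero hn.ne' (Nat.succ_ne_zero n))
  refine mul_add_ne_of (by omega) (prime_of_list hL).1 (prime_of_list hL).2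
    (noSol_seven_list hp hp7 hL) (a := (n : ℤ)) (b := 1) isCoprime_one_right
    (m := (m : ℤ)) (by exact_mod_cast hm) α ?_
  rw [mul_one]
  exact_mod_cast h

end Fermat.Agent.Cor.H11
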