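import Fermat.Agent.Cor.SerreEis

/-!
# Serre's equations for the exponent `5`: `L = 53`

The traces of Frobenius at `17` of the Frey curves with good reduction at `17` are `± 2`, `± 6`. The four newforms of level
`106` come from elliptic curves, with `a₃ = ± 2`, or `a₁₃ = 5`, or `a₁₇ = 5`. So `x ^ 5 + y ^ 5 = 53 ^ α z ^ 5` has no
solutions in nonzero integers. Together with `Cor/SerreEis.lean`: `x ^ p + y ^ p = L ^ α z ^ p` has no solutions in nonzero
integers for every prime `p ≥ 5` and `L ∈ {3, 5, 7, 11, 17, 19, 29, 53}` (`serre_list_five_complete`).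

This file is not used by any of the statement files.
-/

set_option autoImplicit false

namespace Fermat.Agent.Cor.H11

open WeierstrassCurve Fermat.Agent.H12.LL ModularCurve Fermat.Agent.Cor.H18
open Fermat.Agent.Cor.NewformCount Fermat.Agent.Cor.GenusOne Fermat.Agent.Cor.EigenTable CongruenceSubgroup
open ModularFormClass (qCoeff)

set_option maxRecDepth 20000 in
theorem cnt_seventeen : ∀ a b : ZMod 17, a * b * (a + b) ≠ 0 →
    (17 : ℤ) - (EigenTable.cnt 17 1 (13 * (b - a - 1)) 0 (a * b) 0 : ℤ) ∈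
      ({2, -2, 6, -6} : Finset ℤ) := by
  decide +kernel

theorem freyTraces_seventeen : FreyTraces 17 {2, -2, 6, -6} := by
  intro A B hA hB h0
  have : Fact (Nat.Prime 17) := ⟨by norm_num⟩
  have h1 := EigenTable.apOfModel_eq (FreyAB A B) 17 h0
  have h5 : ¬ (17 : ℤ) ∣ A * B * (A + B) := by
    intro h
    apply h0
    have h6 : (17 : ℤ) ∣ 256 * (FreyAB A B).Δ := by
      rw [frey_disc hA hB]
      exact dvd_pow h two_ne_zero
    rcases (Int.prime_iff_natAbs_prime.mpr (by norm_num : (Int.natAbs 17).Prime)).dvd_or_dvd h6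
      with h | h
    · omega
    · exact_mod_cast h
  have e2 : (((FreyAB A B).a₂ : ℤ) : ZMod 17) = 13 * ((B : ZMod 17) - (A : ZMod 17) - 1) := by
    have h2 := congrArg (fun z : ℤ => (z : ZMod 17)) (four_a₂ hA hB)
    push_cast at h2
    have h3 : (52 : ZMod 17) = 1 := rfl
    linear_combination 13 * h2 - ((FreyAB A B).a₂ : ZMod 17) * h3
  have e4 : (((FreyAB A B).a₄ : ℤ) : ZMod 17) = (A : ZMod 17) * (B : ZMod 17) := by
    have h2 := congrArg (fun z : ℤ => (z : ZMod 17)) (sixteen_a₄ (A := A) hB)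
    push_cast at h2
    have h3 : (17 : ZMod 17) = 0 := rfl
    linear_combination -h2 + ((FreyAB A B).a₄ : ZMod 17) * h3
  have e1 : (((FreyAB A B).a₁ : ℤ) : ZMod 17) = 1 := by
    change (((1 : ℤ)) : ZMod 17) = 1
    norm_num
  have e3 : (((FreyAB A B).a₃ : ℤ) : ZMod 17) = 0 := by
    change (((0 : ℤ)) : ZMod 17) = 0
    norm_num
  have e6 : (((FreyAB A B).a₆ : ℤ) : ZMod 17) = 0 := by
    change (((0 : ℤ)) : ZMod 17) = 0
    norm_num
  rw [e1, e2, e3, e4, e6] at h1
  rw [h1]
  refine cnt_seventeen _ _ ?_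
  intro h
  apply h5
  rw [← Int.cast_mul, ← Int.cast_add, ← Int.cast_mul] at h
  exact (ZMod.intCast_zmod_eq_zero_iff_dvd _ 17).mp h

theorem E106b_a17 : E106b.apOfModel 17 = 5 :=
  apOfModel_of_cnt (by norm_num) E106b_Δ (by norm_num) (by decide +kernel)
theorem E106c_a13 : E106c.apOfModel 13 = 5 :=
  apOfModel_of_cnt (by norm_num) E106c_Δ (by norm_num) (by decide +kernel)

/-- the newforms of level `106` -/
theorem newform_106_all {g : CuspForm (Gamma0 106) 2} (hg : g.IsNewform) :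
    qCoeff g 3 = (-2 : ℤ) ∨ qCoeff g 17 = (5 : ℤ) ∨ qCoeff g 13 = (5 : ℤ) ∨ qCoeff g 3 = (2 : ℤ) := by
  have ha : ∀ i, ((![E106a, E106b, E106c, E106d] : Fin 4 → WeierstrassCurve ℤ) i).apOfModel 3 =
      (![-2, -1, 1, 2] : Fin 4 → ℤ) i := by
    intro i
    fin_cases i
    · exact E106a_a3
    · exact E106b_a3
    · exact E106c_a3
    · exact E106d_a3
  obtain ⟨i, hi⟩ := newform_eq_curve newformCount_106 ![E106a, E106b, E106c, E106d]
    (by intro i; fin_cases i; exacts [E106a_data.1, E106b_data.1, E106c_data.1, E106d_data.1])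
    (by intro i; fin_cases i
        exacts [E106a_data.2.1, E106b_data.2.1, E106c_data.2.1, E106d_data.2.1])
    (by intro i; fin_cases i
        exacts [E106a_data.2.2, E106b_data.2.2, E106c_data.2.2, E106d_data.2.2])
    (ne_of_a3 (by norm_num) _ _ ha (by decide)) hg
  fin_cases i
  · exact Or.inl ((hi 3 (by norm_num) (by norm_num)).trans
      (congrArg (fun z : ℤ => (z : ℂ)) E106a_a3))
  · exact Or.inr (Or.inl ((hi 17 (by norm_num) (by norm_num)).trans
      (congrArg (fun z : ℤ => (z : ℂ)) E106b_a17)))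
  · exact Or.inr (Or.inr (Or.inl ((hi 13 (by norm_num) (by norm_num)).trans
      (congrArg (fun z : ℤ => (z : ℂ)) E106c_a13))))
  · exact Or.inr (Or.inr (Or.inr ((hi 3 (by norm_num) (by norm_num)).trans
      (congrArg (fun z : ℤ => (z : ℂ)) E106d_a3))))

/-- `L = 53`, `p = 5` -/
theorem noSol_fiftythree_five : NoSol 5 53 := by
  refine noSol_of_newforms_eis (by norm_num) (by norm_num) (by norm_num) (by norm_num) fun f hf =>
    Or.inl ?_
  rcases newform_106_all hf with h | h | h | h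
  · exact ⟨3, -2, by norm_num, by norm_num, by norm_num, h, {0}, freyTraces_three,
      by decide, by decide, by decide⟩
  · exact ⟨17, 5, by norm_num, by norm_num, by norm_num, h, {2, -2, 6, -6},
      freyTraces_seventeen, by decide, by decide, by decide⟩
  · exact ⟨13, 5, by norm_num, by norm_num, by norm_num, h, {2, -2, 6, -6},
      freyTraces_thirteen, by decide, by decide, by decide⟩
  · exact ⟨3, 2, by norm_num, by norm_num, by norm_num, h, {0}, freyTraces_three,
      by decide, by decide, by decide⟩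

theorem noSol_five_complete {p L : ℕ} (hp : p.Prime) (hp5 : 5 ≤ p)
    (hL : L ∈ ({3, 5, 7, 11, 17, 19, 29, 53} : Finset ℕ)) : NoSol p L := by
  by_cases h53 : L = 53
  · subst h53
    by_cases h5 : p = 5
    · subst h5
      exact noSol_fiftythree_five
    · refine noSol_seven_list hp ?_ (by decide)
      by_contra hlt
      interval_cases p
      · exact h5 rfl
      · exact absurd hp (by norm_num)
  · refine noSol_five_list hp hp5 ?_
    simp only [Finset.mem_insert, Finset.mem_singleton] at hL ⊢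
    omega

/-- **`x ^ p + y ^ p = L ^ α z ^ p`** has no solutions in nonzero integers for every prime `p ≥ 5` and
`L ∈ {3, 5, 7, 11, 17, 19, 29, 53}`. -/
theorem serre_list_five_complete {p L : ℕ} (hp : p.Prime) (hp5 : 5 ≤ p)
    (hL : L ∈ ({3, 5, 7, 11, 17, 19, 29, 53} : Finset ℕ)) (α : ℕ) {x y z : ℤ}
    (hx : x ≠ 0) (hy : y ≠ 0) (hz : z ≠ 0) : x ^ p + y ^ p ≠ (L : ℤ) ^ α * z ^ p := by
  have hL' : L ∈ ({3, 5, 7, 11, 13, 17, 19, 23, 29, 53, 59} : Finset ℕ) := by
    simp only [Finset.mem_insert, Finset.mem_singleton] at hL ⊢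
    omega
  exact serre_eq hp hp5 (prime_of_list hL').1 (prime_of_list hL').2
    (noSol_five_complete hp hp5 hL) α hx hy hz

/-- The same, symmetric form. -/
theorem serre_list_five_complete_symmetric {p L : ℕ} (hp : p.Prime) (hp5 : 5 ≤ p)
    (hL : L ∈ ({3, 5, 7, 11, 17, 19, 29, 53} : Finset ℕ)) (α β γ : ℕ) {x y z : ℤ}
    (hx : x ≠ 0) (hy : y ≠ 0) (hz : z ≠ 0) :
    (L : ℤ) ^ α * x ^ p + (L : ℤ) ^ β * y ^ p + (L : ℤ) ^ γ * z ^ p ≠ 0 := by
  have hL' : L ∈ ({3, 5, 7, 11, 13, 17, 19, 23, 29, 53, 59} : Finset ℕ) := by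
    simp only [Finset.mem_insert, Finset.mem_singleton] at hL ⊢
    omega
  exact serre_sym hp5 (prime_of_list hL').1 (prime_of_list hL').2
    (noSol_five_complete hp hp5 hL) α β γ hx hy hz

/-- The same for all exponents `n` with a prime divisor `p ≥ 5`. -/
theorem serre_list_five_complete_exponent {n p L : ℕ} (hp : p.Prime) (hpn : p ∣ n) (hp5 : 5 ≤ p)
    (hL : L ∈ ({3, 5, 7, 11, 17, 19, 29, 53} : Finset ℕ)) (α : ℕ) {x y z : ℤ}
    (hx : x ≠ 0) (hy : y ≠ 0) (hz : z ≠ 0) : x ^ n + y ^ n ≠ (L : ℤ) ^ α * z ^ n := by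
  obtain ⟨k, rfl⟩ := hpn
  rw [mul_comm p k, pow_mul, pow_mul, pow_mul]
  exact serre_list_five_complete hp hp5 hL α (pow_ne_zero _ hx) (pow_ne_zero _ hy) (pow_ne_zero _ hz)

end Fermat.Agent.Cor.H11
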