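import Fermat.Agent.Cor.H11SerreFin
import Fermat.Agent.Cor.FreyAB.Irr

/-!
# Serre's theorem on the equations `x ^ p + y ^ p = 3 ^ α z ^ p` and `x ^ p + y ^ p = 5 ^ α z ^ p`

For every prime `p = 5` or `p ≥ 17` and every `α`, the equations `x ^ p + y ^ p = L ^ α z ^ p`, `L = 3, 5`, have no
solutions in nonzero integers (Serre, *Sur les représentations modulaires de degré 2 de Gal(ℚ̄/ℚ)*, 1987, § 4.3, as
a consequence of his conjecture; here: modularity of semistable elliptic curves, level lowering, irreducibility).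
Likewise for all exponents `n` divisible by such a prime.

This file is not used by any of the statement files.
-/

set_option autoImplicit false

namespace Fermat.Agent.Cor.H11

theorem irrAB_of_seventeen_le {p : ℕ} (hp : p.Prime) (hp17 : 17 ≤ p) : IrrAB p := by
  intro A B hcop hA hB h0 h2
  have hB' : (16 : ℤ) ∣ B := (by norm_num : (16 : ℤ) ∣ 32).trans hB
  exact FreyAB.irreducible_of (W := FreyAB A B) rfl rfl rfl (four_a₂ hA hB') (sixteen_a₄ hB') hcop hA
    hB (right_ne_zero_of_mul (left_ne_zero_of_mul h0)) (right_ne_zero_of_mul h0) hp hp17 h2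

theorem irrAB {p : ℕ} (hp : p.Prime) (h : p = 5 ∨ 17 ≤ p) : IrrAB p := by
  rcases h with rfl | h
  · exact irrAB_five
  · exact irrAB_of_seventeen_le hp h

/-- **Serre's equations**, symmetric form: for every prime `p = 5` or `p ≥ 17` and `L = 3, 5`, the equation
`L ^ α x ^ p + L ^ β y ^ p + L ^ γ z ^ p = 0` has no solutions in nonzero integers. -/
theorem serre_symmetric {p L : ℕ} (hp : p.Prime) (h : p = 5 ∨ 17 ≤ p) (hL : L = 3 ∨ L = 5)
    (α β γ : ℕ) {x y z : ℤ} (hx : x ≠ 0) (hy : y ≠ 0) (hz : z ≠ 0) :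
    (L : ℤ) ^ α * x ^ p + (L : ℤ) ^ β * y ^ p + (L : ℤ) ^ γ * z ^ p ≠ 0 := by
  have hp5 : 5 ≤ p := by omega
  rcases hL with rfl | rfl
  · exact serre_three_of hp hp5 (irrAB hp h) α β γ hx hy hz
  · exact serre_five_of hp hp5 (irrAB hp h) α β γ hx hy hz

/-- **Serre's theorem.** Let `p = 5` or `p ≥ 17` be a prime, `L = 3` or `L = 5`. Then
`x ^ p + y ^ p = L ^ α z ^ p` has no solutions in nonzero integers. -/
theorem serre_equation {p L : ℕ} (hp : p.Prime) (h : p = 5 ∨ 17 ≤ p) (hL : L = 3 ∨ L = 5)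
    (α : ℕ) {x y z : ℤ} (hx : x ≠ 0) (hy : y ≠ 0) (hz : z ≠ 0) :
    x ^ p + y ^ p ≠ (L : ℤ) ^ α * z ^ p := by
  intro he
  have hodd : Odd p := hp.odd_of_ne_two (by omega)
  refine serre_symmetric hp h hL 0 0 α hx hy (neg_ne_zero.mpr hz) ?_
  rw [hodd.neg_pow]
  linear_combination he

/-- The same for all exponents `n` having a prime divisor `p = 5` or `p ≥ 17`. -/
theorem serre_equation_exponent {n p L : ℕ} (hp : p.Prime) (hpn : p ∣ n) (h : p = 5 ∨ 17 ≤ p)
    (hL : L = 3 ∨ L = 5) (α : ℕ) {x y z : ℤ} (hx : x ≠ 0) (hy : y ≠ 0) (hz : z ≠ 0) :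
    x ^ n + y ^ n ≠ (L : ℤ) ^ α * z ^ n := by
  obtain ⟨k, rfl⟩ := hpn
  rw [mul_comm p k, pow_mul, pow_mul, pow_mul]
  exact serre_equation hp h hL α (pow_ne_zero _ hx) (pow_ne_zero _ hy) (pow_ne_zero _ hz)

/-- No sum of two nonzero rational `p`-th powers is `3 ^ α` or `5 ^ α` times a nonzero rational `p`-th power;
in particular `3 ^ α` and `5 ^ α` are not sums of two nonzero rational `p`-th powers. -/
theorem serre_equation_rat {p L : ℕ} (hp : p.Prime) (h : p = 5 ∨ 17 ≤ p) (hL : L = 3 ∨ L = 5)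
    (α : ℕ) {x y z : ℚ} (hx : x ≠ 0) (hy : y ≠ 0) (hz : z ≠ 0) :
    x ^ p + y ^ p ≠ (L : ℚ) ^ α * z ^ p := by
  intro he
  have hxd : (x.den : ℚ) ≠ 0 := by exact_mod_cast x.den_ne_zero
  have hyd : (y.den : ℚ) ≠ 0 := by exact_mod_cast y.den_ne_zero
  have hzd : (z.den : ℚ) ≠ 0 := by exact_mod_cast z.den_ne_zero
  have hx0 : x.num ≠ 0 := Rat.num_ne_zero.mpr hx
  have hy0 : y.num ≠ 0 := Rat.num_ne_zero.mpr hy
  have hz0 : z.num ≠ 0 := Rat.num_ne_zero.mpr hz
  have hxd' : (x.den : ℤ) ≠ 0 := by exact_mod_cast x.den_ne_zero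
  have hyd' : (y.den : ℤ) ≠ 0 := by exact_mod_cast y.den_ne_zero
  have hzd' : (z.den : ℤ) ≠ 0 := by exact_mod_cast z.den_ne_zero
  refine serre_equation hp h hL α (x := x.num * y.den * z.den) (y := y.num * x.den * z.den)
    (z := z.num * x.den * y.den) (mul_ne_zero (mul_ne_zero hx0 hyd') hzd')
    (mul_ne_zero (mul_ne_zero hy0 hxd') hzd') (mul_ne_zero (mul_ne_zero hz0 hxd') hyd') ?_
  have h1 : (x.num : ℚ) = x * x.den := (Rat.mul_den_eq_num x).symm
  have h2 : (y.num : ℚ) = y * y.den := (Rat.mul_den_eq_num y).symm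
  have h3 : (z.num : ℚ) = z * z.den := (Rat.mul_den_eq_num z).symm
  have key : ((x.num * y.den * z.den : ℤ) : ℚ) ^ p + ((y.num * x.den * z.den : ℤ) : ℚ) ^ p =
      (L : ℚ) ^ α * ((z.num * x.den * y.den : ℤ) : ℚ) ^ p := by
    push_cast
    rw [h1, h2, h3]
    simp only [mul_pow]
    linear_combination ((x.den : ℚ) ^ p * (y.den : ℚ) ^ p * (z.den : ℚ) ^ p) * he
  exact_mod_cast key

end Fermat.Agent.Cor.H11
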