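import Fermat.Agent.Cor.H11Full
import Fermat.Agent.Cor.H18List

/-!
# Serre's list for all primes `p ≥ 11`

Serre (Sur les représentations modulaires de degré `2` de `Gal(ℚ̄/ℚ)`, Duke Math. J. 54 (1987), § 4.3, Théorème 2): let
`p ≥ 11` be a prime and `L` a prime in the list `3, 5, 7, 11, 13, 17, 19, 23, 29, 53, 59`, `L ≠ p`. Then
`x ^ p + y ^ p + L ^ α z ^ p = 0` has no solutions in nonzero integers. `Cor/H18List.lean` proves this for `p ≠ 13`; with
the irreducibility of the `13`-torsion of the Frey curves we get the complete theorem (`serre_list_all`; the case `p = L`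
is included). We also have

* `serre_list_seven`: `p ≥ 7` and `L ∈ {3, 5, 7, 11, 17, 19, 23, 29, 53, 59}`;
* `serre_list_five`: `p ≥ 5` and `L ∈ {3, 5, 7, 17}`.

This file is not used by any of the statement files.
-/

set_option autoImplicit false

namespace Fermat.Agent.Cor.H11

open WeierstrassCurve Fermat.Agent.H12.LL ModularCurve Fermat.Agent.Cor.H18
open Fermat.Agent.Cor.NewformCount Fermat.Agent.Cor.GenusOne Fermat.Agent.Cor.EigenTable CongruenceSubgroup
open ModularFormClass (qCoeff)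

/-- **The criterion** of `Cor/H18New.lean` for all primes `p ≥ 5`. -/
theorem noSol_of_newforms_five_le {p L : ℕ} (hp : p.Prime) (hp5 : 5 ≤ p) (hL : L.Prime) (hL2 : L ≠ 2)
    (hS : ∀ f : CuspForm (Gamma0 (2 * L)) 2, f.IsNewform →
      ∃ (ℓ : ℕ) (c : ℤ), ¬ ℓ ∣ 2 * L ∧ ℓ ≠ p ∧ qCoeff f ℓ = (c : ℂ) ∧ Excl p ℓ c) :
    NoSol p L := by
  intro A B hcop hA hB hB0 h0 h2 hv
  have : Fact p.Prime := ⟨hp⟩
  have : NeZero (2 * L) := ⟨mul_ne_zero two_ne_zero hL.ne_zero⟩
  have hB' : (16 : ℤ) ∣ B := (by norm_num : (16 : ℤ) ∣ 32).trans hB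
  have hirr := irreducible_FreyAB hcop hA hB' h0 hp hp5
  have hΔ := frey_disc_ne hA hB' h0
  have hss := frey_semistable hA hB' hcop
  have hp2 : p ≠ 2 := by omega
  -- the valuation of the discriminant at `2`
  have hAodd : ¬ ((2 : ℕ) : ℤ) ∣ A := by push_cast; omega
  have hCodd : ¬ ((2 : ℕ) : ℤ) ∣ A + B := by push_cast; omega
  have hA0 : A ≠ 0 := by rintro rfl; simp at hAodd
  have hC0 : A + B ≠ 0 := by intro h; rw [h] at hCodd; simp at hCodd
  have hv2 : 8 + padicValInt 2 (FreyAB A B).Δ = 2 * padicValInt 2 B := by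
    have h3 := congrArg (padicValInt 2) (frey_disc hA hB')
    rw [padicValInt.mul (by norm_num) hΔ, padicValInt_pow', padicValInt.mul (mul_ne_zero hA0 hB0)
      hC0, padicValInt.mul hA0 hB0, padicValInt.eq_zero_of_not_dvd hAodd,
      padicValInt.eq_zero_of_not_dvd hCodd] at h3
    have h4 : padicValInt 2 256 = 8 := by
      have : (256 : ℤ) = 2 ^ 8 := by norm_num
      rw [this, padicValInt_pow']
      have h5 : padicValInt 2 2 = 1 := by
        have := padicValInt.self (p := 2) (by norm_num)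
        exact_mod_cast this
      rw [h5]
    omega
  have hvB : 5 ≤ padicValInt 2 B := by
    have := (padicValInt_dvd_iff (p := 2) 5 B).mp (by exact_mod_cast hB)
    exact this.resolve_left hB0
  have h2Δ : ((2 : ℕ) : ℤ) ∣ (FreyAB A B).Δ := by
    by_contra h
    rw [padicValInt.eq_zero_of_not_dvd h] at hv2
    omega
  have hram : ¬ UnrAt (FreyAB A B) p 2 := by
    refine H07.not_unrAt hΔ hp hp2 Nat.prime_two (Ne.symm hp2) h2Δ (hss 2 Nat.prime_two h2Δ) ?_
    intro h
    have h3 : (p : ℤ) ∣ 2 * ((padicValInt 2 B : ℤ) - 4) := by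
      have h4 : (2 * ((padicValInt 2 B : ℤ) - 4)) = (padicValInt 2 (FreyAB A B).Δ : ℤ) := by
        omega
      rw [h4]
      exact_mod_cast h
    rcases (Nat.prime_iff_prime_int.mp hp).dvd_or_dvd h3 with h4 | h4
    · have h5 : p ∣ 2 := by exact_mod_cast h4
      exact hp2 ((Nat.prime_dvd_prime_iff_eq hp Nat.prime_two).mp h5)
    · exact h2 h4
  obtain ⟨f, 𝔪, hf, h𝔪, hp𝔪, hres⟩ := exists_newform_two_mul hΔ hirr hp2 hL hL2
    (by exact_mod_cast h2Δ) hram (rm_two_mul (by omega) hL hcop hA hB h0 hv hirr)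
  obtain ⟨ℓ, c, hℓN, hℓp, hc, hex⟩ := hS f hf
  have hℓ : ℓ.Prime := by
    rcases hex with h | h
    · rw [h.1]; norm_num
    · rw [h.1]; norm_num
  by_cases hgood : (FreyAB A B).IsGoodPrimeFor ℓ
  · have h4 := dvd_of_good h𝔪 hp𝔪 hres hℓ hℓN hℓp hc hgood
    rcases hex with ⟨rfl, h5, -, -⟩ | ⟨rfl, h5, h6, -, -⟩
    · rw [freyAB_ap_three hA hB', sub_zero] at h4
      · exact h5 h4
      · intro h5
        apply hgood
        have h6 : (3 : ℤ) ∣ 256 * (FreyAB A B).Δ := by
          rw [frey_disc hA hB']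
          exact dvd_pow h5 two_ne_zero
        have h7 : (3 : ℤ) ∣ (FreyAB A B).Δ := by
          rcases (Int.prime_three).dvd_or_dvd h6 with h | h
          · omega
          · exact h
        exact_mod_cast h7
    · rcases freyAB_ap_five hA hB' hgood with h7 | h7
      · rw [h7] at h4
        exact h5 h4
      · rw [h7, sub_neg_eq_add] at h4
        exact h6 h4
  · have hℓΔ : (ℓ : ℤ) ∣ (FreyAB A B).Δ := by
      by_contra h
      exact hgood h
    have hb : ∃ b : integralClosure ℤ ℂ, (b : ℂ) = qCoeff f ℓ ∧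
        b - (c : integralClosure ℤ ℂ) ∈ 𝔪 :=
      ⟨(c : integralClosure ℤ ℂ), by rw [hc]; simp, by rw [sub_self]; exact zero_mem _⟩
    have h4 := dvd_of_mult hΔ hirr hp2 hf.1 h𝔪 hp𝔪 hres hℓ hℓN hℓp hb hℓΔ (hss ℓ hℓ hℓΔ)
    rcases hex with ⟨rfl, -, h5, h6⟩ | ⟨rfl, -, -, h5, h6⟩
    · rcases h4 with h | h
      · apply h5
        have e : c - ((3 : ℕ) + 1 : ℤ) = c - 4 := by push_cast; ring
        rwa [e] at h
      · apply h6
        have e : c + ((3 : ℕ) + 1 : ℤ) = c + 4 := by push_cast; ring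
        rwa [e] at h
    · rcases h4 with h | h
      · apply h5
        have e : c - ((5 : ℕ) + 1 : ℤ) = c - 6 := by push_cast; ring
        rwa [e] at h
      · apply h6
        have e : c + ((5 : ℕ) + 1 : ℤ) = c + 6 := by push_cast; ring
        rwa [e] at h

/-! ### the new cases -/

/-- a prime `p` does not divide a nonzero integer with no prime factors `≥ 5` -/
theorem not_dvd_four {p : ℕ} (hp5 : 5 ≤ p) : ¬ (p : ℤ) ∣ (-2 : ℤ) ∧ ¬ (p : ℤ) ∣ (2 : ℤ) :=
  ⟨not_dvd_of_abs (by norm_num) (by norm_num; omega), not_dvd_of_abs (by norm_num) (by norm_num; omega)⟩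

/-- `L = 17`, all primes `p ≥ 5` -/
theorem noSol_seventeen_five_le {p : ℕ} (hp : p.Prime) (hp5 : 5 ≤ p) : NoSol p 17 := by
  refine noSol_of_newforms_five_le hp hp5 (by norm_num) (by norm_num) fun f hf =>
    ⟨3, -2, by norm_num, by omega, newform_34 hf, Or.inl ⟨rfl, (not_dvd_four hp5).1, ?_, ?_⟩⟩
  · intro h
    have h1 : p ∣ 2 * 3 := by
      have := Int.natCast_dvd.mp h
      norm_num at this ⊢
      exact this
    rcases (Nat.Prime.dvd_mul hp).mp h1 with h2 | h2 <;>
      have := Nat.le_of_dvd (by norm_num) h2 <;> omega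
  · exact not_dvd_of_abs (by norm_num) (by norm_num; omega)

theorem E58a_a5 : E58a.apOfModel 5 = -3 :=
  apOfModel_of_cnt (by norm_num) E58a_Δ (by norm_num) (by decide)

/-- the newforms of level `58` -/
theorem newform_58_five {g : CuspForm (Gamma0 58) 2} (hg : g.IsNewform) :
    qCoeff g 5 = (-3 : ℤ) ∨ qCoeff g 3 = (-1 : ℤ) := by
  have ha : ∀ i, ((![E58a, E58b] : Fin 2 → WeierstrassCurve ℤ) i).apOfModel 3 =
      (![-3, -1] : Fin 2 → ℤ) i := by
    intro i
    fin_cases i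
    · exact E58a_a3
    · exact E58b_a3
  obtain ⟨i, hi⟩ := newform_eq_curve newformCount_58 ![E58a, E58b]
    (by intro i; fin_cases i; exacts [E58a_data.1, E58b_data.1])
    (by intro i; fin_cases i; exacts [E58a_data.2.1, E58b_data.2.1])
    (by intro i; fin_cases i; exacts [E58a_data.2.2, E58b_data.2.2])
    (ne_of_a3 (by norm_num) _ _ ha (by decide)) hg
  have h3 := hi 3 (by norm_num) (by norm_num)
  have h5 := hi 5 (by norm_num) (by norm_num)
  fin_cases i
  · exact Or.inl (h5.trans (congrArg (fun z : ℤ => (z : ℂ)) E58a_a5))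
  · exact Or.inr (h3.trans (congrArg (fun z : ℤ => (z : ℂ)) E58b_a3))

/-- `L = 29`, all primes `p ≥ 7` -/
theorem noSol_twentynine_seven_le {p : ℕ} (hp : p.Prime) (hp7 : 7 ≤ p) : NoSol p 29 := by
  refine noSol_of_newforms_five_le hp (by omega) (by norm_num) (by norm_num) fun f hf => ?_
  rcases newform_58_five hf with h | h
  · refine ⟨5, -3, by norm_num, by omega, h, Or.inr ⟨rfl, ?_, ?_, ?_, ?_⟩⟩
    · exact not_dvd_of_abs (by norm_num) (by norm_num; omega)
    · exact not_dvd_of_abs (by norm_num) (by norm_num; omega)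
    · intro h
      have h1 : p ∣ 3 * 3 := by
        have := Int.natCast_dvd.mp h
        norm_num at this ⊢
        exact this
      rcases (Nat.Prime.dvd_mul hp).mp h1 with h2 | h2 <;>
        have := Nat.le_of_dvd (by norm_num) h2 <;> omega
    · exact not_dvd_of_abs (by norm_num) (by norm_num; omega)
  · exact ⟨3, -1, by norm_num, by omega, h, excl_three (by norm_num) (by norm_num) (by norm_num)
      (by norm_num; omega) (by norm_num; omega) (by norm_num; omega)⟩

/-! ### the lists -/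

theorem noSol_list_five {p L : ℕ} (hp : p.Prime) (hp5 : 5 ≤ p)
    (hL : L ∈ ({3, 5, 7, 17} : Finset ℕ)) : NoSol p L := by
  have H := irrAB_of_five_le hp hp5
  simp only [Finset.mem_insert, Finset.mem_singleton] at hL
  rcases hL with rfl | rfl | rfl | rfl
  · exact noSol_of_five_le hp hp5 (Or.inl rfl)
  · exact noSol_of_five_le hp hp5 (Or.inr rfl)
  · exact noSol_seven_of hp hp5 H fun _ hf => a3_fourteen hf
  · exact noSol_seventeen_five_le hp hp5

theorem noSol_list_seven {p L : ℕ} (hp : p.Prime) (hp7 : 7 ≤ p)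
    (hL : L ∈ ({3, 5, 7, 11, 17, 19, 23, 29, 53, 59} : Finset ℕ)) : NoSol p L := by
  have hp5 : 5 ≤ p := by omega
  have H := irrAB_of_five_le hp hp5
  simp only [Finset.mem_insert, Finset.mem_singleton] at hL
  rcases hL with rfl | rfl | rfl | rfl | rfl | rfl | rfl | rfl | rfl | rfl
  · exact noSol_list_five hp hp5 (by decide)
  · exact noSol_list_five hp hp5 (by decide)
  · exact noSol_list_five hp hp5 (by decide)
  · exact noSol_of_three hp hp5 (by norm_num) (by norm_num) H fun f hf =>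
      ⟨-1, by rw [a3_twentytwo (f := f) hf]; norm_num,
        not_dvd_of_abs (by norm_num) (by norm_num; omega),
        not_dvd_of_abs (by norm_num) (by norm_num; omega),
        not_dvd_of_abs (by norm_num) (by norm_num; omega)⟩
  · exact noSol_list_five hp hp5 (by decide)
  · exact H22L19.noSol_nineteen_of hp hp7 H
  · exact noSol_twentythree hp hp7 H
  · exact noSol_twentynine_seven_le hp hp7
  · exact noSol_fiftythree hp hp7 H
  · exact noSol_fiftynine hp hp7 H

theorem noSol_list_all {p L : ℕ} (hp : p.Prime) (hp11 : 11 ≤ p)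
    (hL : L ∈ ({3, 5, 7, 11, 13, 17, 19, 23, 29, 53, 59} : Finset ℕ)) : NoSol p L := by
  by_cases h13 : L = 13
  · subst h13
    exact noSol_thirteen_of hp hp11 (irrAB_of_five_le hp (by omega)) fun _ hf =>
      (coeff_twentysix hf).imp (fun h => h.1) fun h => h.1
  · refine noSol_list_seven hp (by omega) ?_
    simp only [Finset.mem_insert, Finset.mem_singleton] at hL ⊢
    omega

theorem prime_of_list {L : ℕ} (hL : L ∈ ({3, 5, 7, 11, 13, 17, 19, 23, 29, 53, 59} : Finset ℕ)) :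
    L.Prime ∧ L ≠ 2 := by
  simp only [Finset.mem_insert, Finset.mem_singleton] at hL
  rcases hL with rfl | rfl | rfl | rfl | rfl | rfl | rfl | rfl | rfl | rfl | rfl <;> norm_num

/-- **Serre's theorem** (1987, § 4.3, Théorème 2), symmetric form: let `p ≥ 11` be a prime and
`L ∈ {3, 5, 7, 11, 13, 17, 19, 23, 29, 53, 59}`. Then `L ^ α x ^ p + L ^ β y ^ p + L ^ γ z ^ p = 0` has no solutions in
nonzero integers. -/
theorem serre_list_all_symmetric {p L : ℕ} (hp : p.Prime) (hp11 : 11 ≤ p)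
    (hL : L ∈ ({3, 5, 7, 11, 13, 17, 19, 23, 29, 53, 59} : Finset ℕ)) (α β γ : ℕ) {x y z : ℤ}
    (hx : x ≠ 0) (hy : y ≠ 0) (hz : z ≠ 0) :
    (L : ℤ) ^ α * x ^ p + (L : ℤ) ^ β * y ^ p + (L : ℤ) ^ γ * z ^ p ≠ 0 :=
  serre_sym (by omega) (prime_of_list hL).1 (prime_of_list hL).2 (noSol_list_all hp hp11 hL)
    α β γ hx hy hz

/-- **Serre's theorem** (1987, § 4.3, Théorème 2). Let `p ≥ 11` be a prime and
`L ∈ {3, 5, 7, 11, 13, 17, 19, 23, 29, 53, 59}`. Then `x ^ p + y ^ p = L ^ α z ^ p` has no solutions in nonzero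
integers. -/
theorem serre_list_all {p L : ℕ} (hp : p.Prime) (hp11 : 11 ≤ p)
    (hL : L ∈ ({3, 5, 7, 11, 13, 17, 19, 23, 29, 53, 59} : Finset ℕ)) (α : ℕ) {x y z : ℤ}
    (hx : x ≠ 0) (hy : y ≠ 0) (hz : z ≠ 0) : x ^ p + y ^ p ≠ (L : ℤ) ^ α * z ^ p :=
  serre_eq hp (by omega) (prime_of_list hL).1 (prime_of_list hL).2 (noSol_list_all hp hp11 hL)
    α hx hy hz

/-- `x ^ p + y ^ p = L ^ α z ^ p` has no solutions in nonzero integers for every prime `p ≥ 7` and
`L ∈ {3, 5, 7, 11, 17, 19, 23, 29, 53, 59}`. -/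
theorem serre_list_seven {p L : ℕ} (hp : p.Prime) (hp7 : 7 ≤ p)
    (hL : L ∈ ({3, 5, 7, 11, 17, 19, 23, 29, 53, 59} : Finset ℕ)) (α : ℕ) {x y z : ℤ}
    (hx : x ≠ 0) (hy : y ≠ 0) (hz : z ≠ 0) : x ^ p + y ^ p ≠ (L : ℤ) ^ α * z ^ p := by
  have hL' : L ∈ ({3, 5, 7, 11, 13, 17, 19, 23, 29, 53, 59} : Finset ℕ) := by
    simp only [Finset.mem_insert, Finset.mem_singleton] at hL ⊢
    omega
  exact serre_eq hp (by omega) (prime_of_list hL').1 (prime_of_list hL').2
    (noSol_list_seven hp hp7 hL) α hx hy hz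

/-- `x ^ p + y ^ p = L ^ α z ^ p` has no solutions in nonzero integers for every prime `p ≥ 5` and
`L ∈ {3, 5, 7, 17}`. -/
theorem serre_list_five {p L : ℕ} (hp : p.Prime) (hp5 : 5 ≤ p)
    (hL : L ∈ ({3, 5, 7, 17} : Finset ℕ)) (α : ℕ) {x y z : ℤ}
    (hx : x ≠ 0) (hy : y ≠ 0) (hz : z ≠ 0) : x ^ p + y ^ p ≠ (L : ℤ) ^ α * z ^ p := by
  have hL' : L ∈ ({3, 5, 7, 11, 13, 17, 19, 23, 29, 53, 59} : Finset ℕ) := by
    simp only [Finset.mem_insert, Finset.mem_singleton] at hL ⊢
    omega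
  exact serre_eq hp hp5 (prime_of_list hL').1 (prime_of_list hL').2
    (noSol_list_five hp hp5 hL) α hx hy hz

/-- The products of two consecutive positive integers: `n (n + 1) ≠ L ^ α m ^ p`, `p ≥ 11`. -/
theorem mul_succ_ne_list {p L : ℕ} (hp : p.Prime) (hp11 : 11 ≤ p)
    (hL : L ∈ ({3, 5, 7, 11, 13, 17, 19, 23, 29, 53, 59} : Finset ℕ)) {n m : ℕ}
    (hn : 0 < n) (α : ℕ) : n * (n + 1) ≠ L ^ α * m ^ p := by
  intro h
  have hm : m ≠ 0 := by
    rintro rfl
    rw [zero_pow (by omega), mul_zero] at h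
    exact absurd h (mul_ne_zero hn.ne' (Nat.succ_ne_zero n))
  refine mul_add_ne_of (by omega) (prime_of_list hL).1 (prime_of_list hL).2
    (noSol_list_all hp hp11 hL) (a := (n : ℤ)) (b := 1) isCoprime_one_right
    (m := (m : ℤ)) (by exact_mod_cast hm) α ?_
  rw [mul_one]
  exact_mod_cast h

end Fermat.Agent.Cor.H11
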