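import Fermat.Agent.Cor.PoitouTate
import Fermat.Agent.L00.S55E
import Fermat.Agent.H16.CH.Cyc
import Fermat.Agent.CC.LocUnr
import Fermat.Agent.CC.IsInv
import Fermat.Agent.N4.Final
import Fermat.Agent.Ell.TameIn

/-!
# Shafarevich's formulas over `ℚ`

For an odd prime `p` and a finite set `S` of primes with `p ∈ S`, let `δ(S)` be the number of the `q ∈ S` with
`q ≡ 1 mod p`. We show
* `#H⁰(D_q, μ_p) = p` if `q ≡ 1 mod p`, and `= 1` otherwise (in particular for `q = p`) (`card_H0_mu`);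
* `Ш¹_S(μ_p) = 0` (`sh1_mu`);
* `#H¹(G_S, 𝔽_p) = p ^ (1 + δ(S))` (`card_H1S_triv`) and `#H²(G_S, 𝔽_p) = p ^ δ(S)` (`card_H2S_triv`): generator rank and
  relation rank of the maximal pro-`p` quotient of `G_{ℚ,S}`.

The ingredients are the Greenberg–Wiles formula, Tate's local and global Euler characteristics and local duality.
This file is not used by any of the statement files.
-/

set_option autoImplicit false
set_option linter.unusedSectionVars false
set_option linter.style.haveILetI false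
set_option maxHeartbeats 400000

noncomputable section

namespace Fermat.Agent.Cor.ShafQ

open Fermat.Agent.CC Fermat.Agent.CFT.EC
open Fermat.Agent.LF (DK)
open scoped Pointwise

/-- `𝔽_p` with the trivial action -/
def Tv (p : ℕ) : Type := ZMod p

instance (p : ℕ) : AddCommGroup (Tv p) := inferInstanceAs (AddCommGroup (ZMod p))

instance (p : ℕ) : DistribMulAction GQ (Tv p) where
  smul _ x := x
  one_smul _ := rfl
  mul_smul _ _ _ := rfl
  smul_zero _ := rfl
  smul_add _ _ _ := rfl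

variable {p : ℕ} [hp : Fact p.Prime]

/-- the pairing `𝔽_p × μ_p → μ_p` -/
def eT (p : ℕ) [Fact p.Prime] : Tv p →+ Mu p →+ Mu p :=
  AddMonoidHom.mk' (fun a : Tv p => AddMonoidHom.mk' (fun m : Mu p =>
    (tauT p).symm ((show ZMod p from a) * tauT p m)) (fun m m' => by
      rw [map_add, mul_add, map_add])) (fun a a' => by
    ext m
    change (tauT p).symm (((show ZMod p from a) + (show ZMod p from a')) * tauT p m) =
      (tauT p).symm ((show ZMod p from a) * tauT p m) + (tauT p).symm ((show ZMod p from a') * tauT p m)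
    rw [add_mul, map_add])

theorem eT_apply (a : Tv p) (m : Mu p) :
    eT p a m = (tauT p).symm ((show ZMod p from a) * tauT p m) := rfl

theorem eT_eq : EqPair GQ (eT p) := by
  intro g a m
  obtain ⟨c, rfl⟩ := (tauT p).symm.surjective m
  rw [eT_apply, eT_apply, L00.Tr.tau_smul, L00.Tr.tau_smul, AddEquiv.apply_symm_apply,
    AddEquiv.apply_symm_apply]
  change (tauT p).symm ((show ZMod p from a) * _) = _
  congr 1
  ring

theorem smooth_Tv (𝓛 : Lev GQ) : 𝓛.Smooth (Tv p) := fun _ => ⟨⊤, 𝓛.top, fun _ _ => rfl⟩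

instance : Finite (Tv p) := by
  haveI : NeZero p := ⟨hp.out.ne_zero⟩
  exact inferInstanceAs (Finite (ZMod p))

theorem pr_eT {S : Finset Nat.Primes} (hpS : pP p ∈ S) : Pr p (levS S) (eT p) where
  fA := inferInstance
  fB := Finite.of_equiv _ (tauT p).symm.toEquiv
  he := eT_eq
  smA := smooth_Tv _
  smB := smooth_Mu hpS
  kA := fun a => by
    have h1 : ((p : ℕ) • (show ZMod p from a)) = 0 := by
      rw [nsmul_eq_mul, ZMod.natCast_self, zero_mul]
    exact h1
  kB := fun b => by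
    apply (tauT p).injective
    rw [map_nsmul, map_zero, nsmul_eq_mul, ZMod.natCast_self, zero_mul]
  hl := fun a h => by
    have h1 := h ((tauT p).symm 1)
    rw [eT_apply, AddEquiv.apply_symm_apply, mul_one, EmbeddingLike.map_eq_zero_iff] at h1
    exact h1
  hr := fun b h => by
    have h1 := h (show Tv p from (1 : ZMod p))
    rw [eT_apply] at h1
    change (tauT p).symm ((1 : ZMod p) * tauT p b) = 0 at h1
    rw [one_mul, AddEquiv.symm_apply_apply] at h1
    exact h1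

theorem dk_bot (A : ValuationSubring Qb) :
    DK A (⊥ : IntermediateField ℚ Qb) = A.decompositionSubgroup ℚ := by
  unfold DK
  rw [IntermediateField.fixingSubgroup_bot, inf_top_eq]

/-- the value of an element of `μ_p` -/
def vl (t : Mu p) : Qb := (TorP.incl p (UL Qb) t).val

theorem vl_pow (t : Mu p) : vl t ^ p = 1 := by
  have h1 : p • (TorP.incl p (UL Qb) t) = 0 := TorP.incl_mem _
  have h2 := congrArg UL.val h1
  rwa [UL.val_nsmul, UL.val_zero] at h2

theorem vl_inj {t t' : Mu p} (h : vl t = vl t') : t = t' := TorP.incl_injective (UL.ext h)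

theorem vl_smul (g : GQ) (t : Mu p) : vl (g • t) = g (vl t) := by
  unfold vl
  rw [TorP.incl_smul, UL.val_smul]
  rfl

theorem vl_nsmul (n : ℕ) (t : Mu p) : vl (n • t) = vl t ^ n := by
  unfold vl
  rw [map_nsmul, UL.val_nsmul]

theorem vl_add (t t' : Mu p) : vl (t + t') = vl t * vl t' := by
  unfold vl
  rw [map_add, UL.val_add]

theorem vl_sub (t t' : Mu p) : vl (t - t') = vl t / vl t' := by
  unfold vl
  rw [map_sub, UL.val_sub]

theorem vl_zero : vl (0 : Mu p) = 1 := by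
  unfold vl
  rw [map_zero, UL.val_zero]

theorem vl_ne (t : Mu p) : vl t ≠ 0 := UL.val_ne_zero _

theorem exists_vl {z : Qb} (hz : z ^ p = 1) : ∃ t : Mu p, vl t = z := by
  have hz0 : z ≠ 0 := by
    rintro rfl
    rw [zero_pow hp.out.ne_zero] at hz
    exact zero_ne_one hz
  refine ⟨TorP.mk (UL.mk z hz0) ?_, ?_⟩
  · apply UL.ext
    rw [UL.val_nsmul, UL.val_zero]
    exact hz
  · unfold vl
    rw [TorP.incl_mk]
    rfl

theorem smul_eq_nsmul {σ : GQ} {a : ℕ} (h : ∀ x : Qb, x ^ p = 1 → σ x = x ^ a) (t : Mu p) :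
    σ • t = a • t := by
  apply vl_inj
  rw [vl_smul, vl_nsmul]
  exact h _ (vl_pow t)

theorem nsmul_p (t : Mu p) : p • t = 0 := by
  apply vl_inj
  rw [vl_nsmul, vl_pow, vl_zero]

instance : Finite (Mu p) := Finite.of_equiv _ (tauT p).symm.toEquiv

theorem card_mu : Nat.card (Mu p) = p := card_torP p

/-- `#H⁰(D_q, μ_p)` -/
theorem card_H0_mu (hp2 : p ≠ 2) {q : ℕ} (hq : q.Prime) {A : ValuationSubring Qb}
    (hA : A.LiesOverPrime q) : Nat.card (H0 (DK A ⊥) (Mu p)) = if q % p = 1 then p else 1 := by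
  haveI := H51.isGalois_Qbar
  rcases eq_or_ne q p with rfl | hqp
  · rw [Nat.mod_self, if_neg (by norm_num)]
    obtain ⟨σ, hσ, hσ2⟩ := Ell.TameIn.exists_inertia_pow hq hA (a := 2)
      (fun hd => hp2 ((Nat.prime_dvd_prime_iff_eq hq Nat.prime_two).mp hd))
    have h0 : H0 (DK A ⊥) (Mu q) = ⊥ := by
      rw [eq_bot_iff]
      intro t ht
      have h4 := smul_eq_nsmul hσ2 t
      have h5 : σ • t = t := ht ⟨σ, by rw [dk_bot]; exact inertia_le_dec A hσ⟩
      rw [h5, two_nsmul] at h4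
      rw [AddSubgroup.mem_bot]
      exact (left_eq_add.mp h4)
    rw [h0]
    exact Nat.card_unique
  have hnd : ¬ q ∣ p := fun hd => hqp ((Nat.prime_dvd_prime_iff_eq hq hp.out).mp hd)
  obtain ⟨φ, hφ0, hφ⟩ := L00.Unr.exists_frob hq hA (⊥ : IntermediateField ℚ Qb)
  rw [nrm_bot hq hA] at hφ
  have hφt : ∀ t : Mu p, φ • t = q • t := fun t => smul_eq_nsmul
    (fun x hx => H05.IsFrobeniusAt.apply_rootOfUnity hq hA hnd hφ hx) t
  split_ifs with h1
  · have h0 : H0 (DK A ⊥) (Mu p) = ⊤ := by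
      rw [AddSubgroup.eq_top_iff']
      rintro t ⟨σ, hσ⟩
      change σ • t = t
      haveI := H16.CH.fd_Cyc hp.out.ne_zero 1
      haveI : NeZero (p ^ 1) := ⟨pow_ne_zero _ hp.out.ne_zero⟩
      haveI := H16.CH.isCyc (p := p) (n := 1) hp.out.ne_zero
      have hN : Normal ℚ (H16.CH.Cyc p 1) :=
        (IsCyclotomicExtension.isGalois {p ^ 1} ℚ (H16.CH.Cyc p 1)).to_normal
      have hφ' : A.IsFrobeniusAt φ (L00.Unr.nrm A ⊥) := by rw [nrm_bot hq hA]; exact hφ
      obtain ⟨n, τ, hτ, u, hu, he⟩ := L00.Unr.generation hq hA ⊥ (H16.CH.Cyc p 1) hN bot_le hφ0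
        hφ' hσ.1 hσ.2
      have hut : u • t = t := by
        apply vl_inj
        rw [vl_smul]
        exact H16.CH.mem_fix_Cyc.mp hu.2 _ (by rw [pow_one]; exact vl_pow t)
      have hτt : ∀ t : Mu p, τ • t = t := fun t => by
        apply vl_inj
        rw [vl_smul]
        exact H05.inertia_apply_rootOfUnity hq hA hnd hτ.1 (vl_pow t)
      have hφt' : ∀ t : Mu p, φ • t = t := fun t => by
        rw [hφt, ← Nat.div_add_mod q p, h1, add_smul, one_smul, mul_comm, mul_smul, nsmul_p,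
          smul_zero, zero_add]
      have hφn : ∀ (n : ℕ) (t : Mu p), φ ^ n • t = t := by
        intro n
        induction n with
        | zero => intro t; rw [pow_zero, one_smul]
        | succ n ih => intro t; rw [pow_succ, mul_smul, hφt', ih]
      rw [he, mul_smul, mul_smul, hut, hτt, hφn]
    rw [h0, AddSubgroup.card_top, card_mu]
  · have h0 : H0 (DK A ⊥) (Mu p) = ⊥ := by
      rw [eq_bot_iff]
      intro t ht
      have h5 : φ • t = t := ht ⟨φ, by rw [dk_bot]; exact hφ.1⟩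
      rw [hφt] at h5
      obtain ⟨r, rfl⟩ : ∃ r, q = r + 1 := ⟨q - 1, by have := hq.pos; omega⟩
      rw [add_smul, one_smul, add_eq_right] at h5
      have h6 : ¬ p ∣ r := by
        rintro ⟨s, rfl⟩
        apply h1
        rw [add_comm, Nat.add_mul_mod_self_left, Nat.mod_eq_of_lt hp.out.one_lt]
      have h7 : addOrderOf t ∣ 1 := by
        have e1 := addOrderOf_dvd_of_nsmul_eq_zero h5
        have e2 := addOrderOf_dvd_of_nsmul_eq_zero (nsmul_p t)
        have e3 : Nat.Coprime p r := (Nat.Prime.coprime_iff_not_dvd hp.out).mpr h6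
        rw [← e3]
        exact Nat.dvd_gcd e2 e1
      rw [AddSubgroup.mem_bot, ← AddMonoid.addOrderOf_eq_one_iff]
      exact Nat.dvd_one.mp h7
    rw [h0]
    exact Nat.card_unique

/-- a natural number all of whose valuations are divisible by `p` is a `p`-th power -/
theorem exists_nat_root {n p : ℕ} (hn : n ≠ 0) (h : ∀ q : ℕ, q.Prime → p ∣ n.factorization q) :
    ∃ b : ℕ, b ≠ 0 ∧ b ^ p = n := by
  refine ⟨n.factorization.prod fun q k => q ^ (k / p), ?_, ?_⟩
  · rw [Finsupp.prod, Finset.prod_ne_zero_iff]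
    intro q hq
    exact pow_ne_zero _ (Nat.prime_of_mem_primeFactors hq).ne_zero
  · rw [Finsupp.prod, ← Finset.prod_pow]
    conv_rhs => rw [← Nat.prod_factorization_pow_eq_self hn, Finsupp.prod]
    refine Finset.prod_congr rfl fun q hq => ?_
    rw [← pow_mul, Nat.div_mul_cancel (h q (Nat.prime_of_mem_primeFactors hq))]

/-- **`Ш¹_S(μ_p) = 0`** for odd `p` and every finite set `S` of primes -/
theorem sh1_mu (hp2 : p ≠ 2) (S : Finset Nat.Primes) (A : S → ValuationSubring Qb)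
    (hA : ∀ q : S, (A q).LiesOverPrime ((q : Nat.Primes) : ℕ)) : Sh1S S A (Mu p) = ⊥ := by
  haveI hgal := H51.isGalois_Qbar
  rw [eq_bot_iff]
  intro x hx
  rw [AddSubgroup.mem_bot]
  obtain ⟨f, rfl⟩ := H1.mk_surjective x
  obtain ⟨⟨U, hU, hfU⟩, hfc⟩ := f.2
  obtain ⟨F, hF, hFU⟩ := hU
  have hf1 : f.1 1 = 0 := by
    have h1 := hfc 1 1
    rw [mul_one, one_smul] at h1
    exact left_eq_add.mp h1
  have hf0 : ∀ σ ∈ F.fixingSubgroup, f.1 σ = 0 := by
    intro σ hσ
    have h1 := hfU 1 σ (hFU hσ)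
    rwa [one_mul, hf1] at h1
  haveI := hF.1
  obtain ⟨u, hu0, hu⟩ := H12.hilbert90' (K := ℚ) (L := Qb) ⊤ (fun σ => vl (f.1 σ))
    (fun σ _ => vl_ne _) (fun σ _ τ _ => by rw [hfc, vl_add, vl_smul]) F.fixingSubgroup (IntermediateField.fixingSubgroup_isOpen F)
    (fun σ _ hσ => by rw [hf0 σ hσ, vl_zero])
  have hup : ∀ σ : GQ, σ (u ^ p) = u ^ p := by
    intro σ
    rw [map_pow, hu σ trivial, mul_pow, vl_pow, one_mul]
  obtain ⟨d, hd⟩ := (InfiniteGalois.mem_range_algebraMap_iff_fixed (k := ℚ) (u ^ p)).mpr hup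
  have hd0 : d ≠ 0 := by
    rintro rfl
    rw [map_zero] at hd
    exact hu0 (pow_eq_zero_iff hp.out.ne_zero |>.mp hd.symm)
  have hden0 : (d.den : Qb) ≠ 0 := by exact_mod_cast d.den_nz
  set n : ℤ := d.num * d.den ^ (p - 1) with hn
  have hn0 : n ≠ 0 := mul_ne_zero (Rat.num_ne_zero.mpr hd0)
    (pow_ne_zero _ (by exact_mod_cast d.den_nz))
  have h1 : (u * d.den) ^ p = (n : Qb) := by
    obtain ⟨r, hr⟩ : ∃ r, p = r + 1 := ⟨p - 1, by have := hp.out.pos; omega⟩
    have h2 : (d : Qb) * d.den = d.num := by exact_mod_cast Rat.mul_den_eq_num d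
    rw [mul_pow, ← hd, eq_ratCast, hn, hr, Nat.add_sub_cancel, pow_succ]
    push_cast
    linear_combination (d.den : Qb) ^ r * h2
  -- valuations
  have hval : ∀ q : ℕ, q.Prime → ∃ B : ValuationSubring Qb, B.LiesOverPrime q ∧
      ∃ k : ℤ, B.valuation u = B.valuation (q : Qb) ^ k := by
    intro q hq
    by_cases hqS : (⟨q, hq⟩ : Nat.Primes) ∈ S
    · refine ⟨A ⟨⟨q, hq⟩, hqS⟩, hA ⟨⟨q, hq⟩, hqS⟩, ?_⟩
      have h2 : loc1 (cont_D S (A ⟨⟨q, hq⟩, hqS⟩) ⊥) (Mu p) (H1.mk _ _ f) = 0 :=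
        (AddSubgroup.mem_iInf.mp hx) ⟨⟨q, hq⟩, hqS⟩
      obtain ⟨t, ht⟩ := H1.mk_eq_zero.mp h2
      have ht' : ∀ g (hg : g ∈ DK (A ⟨⟨q, hq⟩, hqS⟩) (⊥ : IntermediateField ℚ Qb)),
          f.1 g = g • t - t := fun g hg => ht ⟨g, hg⟩
      obtain ⟨k, hk⟩ := H12.exists_valuation_eq_zpow hq (hA ⟨⟨q, hq⟩, hqS⟩) (u / vl t)
        (div_ne_zero hu0 (vl_ne t)) (fun σ hσ => by
          rw [map_div₀, hu σ trivial]
          change vl (f.1 σ) * u / σ (vl t) = u / vl t
          rw [ht' σ (by rw [dk_bot]; exact inertia_le_dec _ hσ), vl_sub, vl_smul]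
          have e1 := vl_ne t
          have e2 : σ (vl t) ≠ 0 := by rw [← vl_smul]; exact vl_ne _
          field_simp)
      refine ⟨k, ?_⟩
      rw [← hk, map_div₀]
      have h3 : (A ⟨⟨q, hq⟩, hqS⟩).valuation (vl t) = 1 := by
        have h4 : (A ⟨⟨q, hq⟩, hqS⟩).valuation (vl t) ^ p = 1 := by
          rw [← map_pow, vl_pow, map_one]
        exact (pow_eq_one_iff.mp h4).resolve_right hp.out.ne_zero
      rw [h3, div_one]
    · obtain ⟨B, hB⟩ := H05.exists_liesOverPrime Qb hq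
      refine ⟨B, hB, H12.exists_valuation_eq_zpow hq hB u hu0 fun σ hσ => ?_⟩
      rw [hu σ trivial, hf0 σ (hF.2 _ hqS B hB hσ), vl_zero, one_mul]
  have hfac : ∀ q : ℕ, q.Prime → p ∣ n.natAbs.factorization q := by
    intro q hq
    obtain ⟨B, hB, k, hk⟩ := hval q hq
    have hlt : B.valuation (q : Qb) < 1 := H09.val_natCast_lt_one hB
    have hv0 : 0 < B.valuation (q : Qb) := by
      rw [zero_lt_iff]
      exact (map_ne_zero _).mpr (Nat.cast_ne_zero.mpr hq.ne_zero)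
    have e1 := N4.val_intCast_eq_padicValInt (L := Qb) hq hB hn0
    have e2 := N4.val_intCast_eq_padicValInt (L := Qb) hq hB (c := (d.den : ℤ))
      (by exact_mod_cast d.den_nz)
    rw [← h1, map_pow, map_mul, hk] at e1
    push_cast at e2
    rw [e2, ← zpow_natCast (B.valuation (q : Qb)) (padicValInt q (d.den : ℤ)),
      ← zpow_add₀ hv0.ne', ← zpow_natCast, ← zpow_mul,
      ← zpow_natCast (B.valuation (q : Qb)) (padicValInt q n)] at e1
    have e3 := (zpow_right_strictAnti₀ hv0 hlt).injective e1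
    have e4 : n.natAbs.factorization q = padicValInt q n := by
      rw [Nat.factorization_def _ hq]
      rfl
    rw [e4]
    have e5 : (p : ℤ) ∣ (padicValInt q n : ℤ) := ⟨_, by rw [← e3, mul_comm]⟩
    exact_mod_cast e5
  obtain ⟨b, hb0, hb⟩ := exists_nat_root (Int.natAbs_ne_zero.mpr hn0) hfac
  obtain ⟨b', hb'0, hb'⟩ : ∃ b' : ℤ, b' ≠ 0 ∧ b' ^ p = n := by
    rcases Int.natAbs_eq n with h2 | h2
    · exact ⟨b, by exact_mod_cast hb0, by rw [h2, ← hb]; push_cast; rfl⟩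
    · refine ⟨-b, by simpa using hb0, ?_⟩
      rw [(hp.out.odd_of_ne_two hp2).neg_pow, h2, ← hb]
      push_cast
      rfl
  have hb'Q : (b' : Qb) ≠ 0 := by exact_mod_cast hb'0
  obtain ⟨t, ht⟩ := exists_vl (p := p) (z := u * d.den / b') (by
    rw [div_pow, h1, ← hb']
    push_cast
    rw [div_self (pow_ne_zero _ hb'Q)])
  refine H1.mk_eq_zero.mpr ⟨t, fun g => ?_⟩
  apply vl_inj
  have h2 : vl (f.1 g) = g u / u := by
    have h3 : g u = vl (f.1 g) * u := hu g trivial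
    rw [h3, mul_div_cancel_right₀ _ hu0]
  rw [vl_sub, vl_smul, ht, h2, map_div₀, map_mul, map_natCast, map_intCast]
  field_simp

/-- the number of the `q ∈ S` which are congruent to `1` modulo `p` -/
def del (p : ℕ) (S : Finset Nat.Primes) : ℕ :=
  (S.filter fun q : Nat.Primes => (q : ℕ) % p = 1).card

theorem prod_card_H0_mu (hp2 : p ≠ 2) (S : Finset Nat.Primes) (A : S → ValuationSubring Qb)
    (hA : ∀ q : S, (A q).LiesOverPrime ((q : Nat.Primes) : ℕ)) :
    ∏ q : S, Nat.card (H0 (DK (A q) ⊥) (Mu p)) = p ^ del p S := by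
  have h1 : ∀ q : S, Nat.card (H0 (DK (A q) ⊥) (Mu p)) =
      if ((q : Nat.Primes) : ℕ) % p = 1 then p else 1 := fun q => card_H0_mu hp2 q.1.2 (hA q)
  rw [Finset.prod_congr rfl fun q _ => h1 q,
    Finset.prod_coe_sort S (fun q : Nat.Primes => if (q : ℕ) % p = 1 then p else 1), Finset.prod_ite,
    Finset.prod_const, Finset.prod_const_one, mul_one, del]

/-- `#Hom(D_q, 𝔽_p)` for all `q ∈ S` together -/
theorem prod_card_H1 (hp2 : p ≠ 2) {S : Finset Nat.Primes} (hpS : pP p ∈ S)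
    (A : S → ValuationSubring Qb) (hA : ∀ q : S, (A q).LiesOverPrime ((q : Nat.Primes) : ℕ)) :
    ∏ q : S, Nat.card (H1 (lev.sub (DK (A q) ⊥)) (Tv p)) = p ^ (S.card + del p S + 1) := by
  have h1 := PT.local_euler hp2 hpS A hA (pr_eT hpS)
  have h2 : ∏ q : S, Nat.card (H2 (lev.sub (DK (A q) ⊥)) (Tv p)) = p ^ del p S := by
    rw [← prod_card_H0_mu hp2 S A hA]
    obtain ⟨𝒟, rfl⟩ := exists_dat hp2 S A hA
    refine Finset.prod_congr rfl fun q _ => ?_
    have h := (pr_eT hpS).flip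
    exact (((𝒟.gld hp2 hpS).ld q (Mu p) (Tv p) (eT p).flip h).card02 h.kA h.kB
      ((𝒟.gld hp2 hpS).inv q)).symm
  have h3 : ∀ q : S, Nat.card (H0 (DK (A q) ⊥) (Tv p)) = p := by
    intro q
    have h4 : H0 (DK (A q) ⊥) (Tv p) = ⊤ := (AddSubgroup.eq_top_iff' _).mpr fun _ _ => rfl
    rw [h4, AddSubgroup.card_top]
    exact Nat.card_zmod p
  have h4 : Nat.card (Tv p) = p := Nat.card_zmod p
  rw [h1, h2, Finset.prod_congr rfl fun q _ => h3 q, Finset.prod_const, h4, Finset.card_univ,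
    Fintype.card_coe]
  ring

theorem cfix_Tv : cfix cc (Tv p) = p := by
  have h1 : ∀ m : Tv p, (cc : GQ) • m = m := fun _ => rfl
  unfold cfix
  have h2 : Nat.card {m : Tv p // (cc : GQ) • m = m} = Nat.card (Tv p) :=
    Nat.card_congr (Equiv.subtypeUnivEquiv h1)
  exact h2.trans (Nat.card_zmod p)

theorem card_H0_Tv : Nat.card (H0 GQ (Tv p)) = p := by
  have h4 : H0 GQ (Tv p) = ⊤ := (AddSubgroup.eq_top_iff' _).mpr fun _ _ => rfl
  rw [h4, AddSubgroup.card_top]
  exact Nat.card_zmod p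

theorem card_H0_GQ_mu (hp2 : p ≠ 2) : Nat.card (H0 GQ (Mu p)) = 1 := by
  obtain ⟨A, hA⟩ := H05.exists_liesOverPrime Qb hp.out
  have h1 := card_H0_mu hp2 hp.out hA
  rw [Nat.mod_self, if_neg (by norm_num)] at h1
  have hs : Subsingleton (H0 (DK A ⊥) (Mu p)) :=
    (Nat.card_eq_one_iff_unique.mp h1).1
  have h2 : H0 GQ (Mu p) = ⊥ := by
    rw [eq_bot_iff]
    intro t ht
    have h3 : t ∈ H0 (DK A ⊥) (Mu p) := fun g => ht g
    have h4 := congrArg Subtype.val (hs.elim ⟨t, h3⟩ 0)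
    exact h4
  rw [h2]
  exact Nat.card_unique

/-- **Shafarevich's formula** for the generator rank: `#H¹(G_S, 𝔽_p) = p ^ (1 + δ(S))` -/
theorem card_H1S_triv (hp2 : p ≠ 2) {S : Finset Nat.Primes} (hpS : pP p ∈ S) :
    Nat.card (H1 (levS S) (Tv p)) = p ^ (1 + del p S) := by
  obtain ⟨A, hA⟩ := PT.exists_places S
  have e1 := prod_card_H1 hp2 hpS A hA
  obtain ⟨𝒟, rfl⟩ := exists_dat hp2 S A hA
  have h := pr_eT hpS
  have h1 := (PT.gwf_top (𝒢 := 𝒟.gld hp2 hpS) h (PT.gwf 𝒟 hp2 hpS h)).2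
  have h2 : Nat.card ((𝒟.gld hp2 hpS).Sh1 (Mu p)) = 1 := by
    have h3 : ∀ x ∈ (𝒟.gld hp2 hpS).Sh1 (Mu p), x = 0 := by
      intro x hx
      have h6 : x ∈ Sh1S S 𝒟.A (Mu p) := by
        rw [← sh1_eq 𝒟 hp2 hpS]
        exact hx
      rw [sh1_mu hp2 S 𝒟.A hA] at h6
      exact AddSubgroup.mem_bot.mp h6
    exact Nat.card_eq_one_iff_unique.mpr
      ⟨⟨fun a b => Subtype.ext ((h3 _ a.2).trans (h3 _ b.2).symm)⟩, ⟨0⟩⟩
  have h4 : (𝒟.gld hp2 hpS).c0 (Tv p) = p ^ S.card := by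
    rw [GLD.c0, Nat.card_pi]
    have h5 : ∀ q : S, Nat.card (H0 (DK (𝒟.A q) ⊥) (Tv p)) = p := by
      intro q
      have h6 : H0 (DK (𝒟.A q) ⊥) (Tv p) = ⊤ := (AddSubgroup.eq_top_iff' _).mpr fun _ _ => rfl
      rw [h6, AddSubgroup.card_top]
      exact Nat.card_zmod p
    have h6 : ∏ q : S, Nat.card (H0 (DK (𝒟.A q) ⊥) (Tv p)) = p ^ S.card := by
      rw [Finset.prod_congr rfl fun q _ => h5 q, Finset.prod_const, Finset.card_univ,
        Fintype.card_coe]
    exact h6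
  have h5 : (𝒟.gld hp2 hpS).c1 (Tv p) = p ^ (S.card + del p S + 1) := by
    rw [GLD.c1, Nat.card_pi]
    exact e1
  rw [cfix_Tv, card_H0_GQ_mu hp2, card_H0_Tv, h2, h4, h5] at h1
  have hpos : 0 < p * p ^ S.card := Nat.mul_pos hp.out.pos (pow_pos hp.out.pos _)
  refine Nat.eq_of_mul_eq_mul_right hpos ?_
  calc Nat.card (H1 (levS S) (Tv p)) * (p * p ^ S.card)
      = Nat.card (H1 (levS S) (Tv p)) * p * 1 * p ^ S.card := by ring
    _ = 1 * p ^ (S.card + del p S + 1) * p := h1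
    _ = _ := by ring

/-- **Shafarevich's formula** for the relation rank: `#H²(G_S, 𝔽_p) = p ^ δ(S)` -/
theorem card_H2S_triv (hp2 : p ≠ 2) {S : Finset Nat.Primes} (hpS : pP p ∈ S) :
    Nat.card (H2 (levS S) (Tv p)) = p ^ del p S := by
  have h1 := PT.global_euler hp2 hpS (pr_eT hpS)
  have h4 : Nat.card (Tv p) = p := Nat.card_zmod p
  rw [card_H1S_triv hp2 hpS, cfix_Tv, card_H0_Tv, h4] at h1
  have hpos : 0 < p * p := Nat.mul_pos hp.out.pos hp.out.pos
  refine Nat.eq_of_mul_eq_mul_right hpos ?_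
  calc Nat.card (H2 (levS S) (Tv p)) * (p * p)
      = p * Nat.card (H2 (levS S) (Tv p)) * p := by ring
    _ = p ^ (1 + del p S) * p := h1.symm
    _ = _ := by ring

end Fermat.Agent.Cor.ShafQ
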