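import Mathlib
import Fermat.Agent.Cor.LehmerCurve

/-!
# Sign changes of the coefficients of L-functions

* `landau`, `infinite_sign_changes`: let `∑ c(n) n ^ {-s}` be a Dirichlet series with real coefficients which converges
  absolutely for `Re s > x` and extends to an entire function that vanishes at `0, -1, -2, …`. If `c(n) ≠ 0` for
  infinitely many `n`, then `c(n) > 0` for infinitely many `n` and `c(n) < 0` for infinitely many `n`.
* `tau_sign`: **Ramanujan's function `τ` changes sign infinitely often.**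
* `aN_sign`: the same for the coefficients `aN W n` of the L-function of every semistable elliptic curve over `ℚ`.

Proof: if `c(n) ≥ 0` for `n ≥ n₀` and `c(n₁) > 0`, `n₁ > n₀`, remove the terms with `n < n₀` and `n = n₁`. By Landau's
theorem the remaining series is nonnegative at `s = -m`; so `c(n₁) n₁ ^ m` is at most `O(n₀ ^ m)`.

This file is not used by any of the statement files.
-/

set_option autoImplicit false

namespace Fermat.Agent.Cor.SignChange

open Fermat.Agent.Cor.RamCong Fermat.Agent.Cor.Mordell Fermat.Agent.Cor.Lehmer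
open Fermat.Agent.Cor.LWeil Fermat.Agent.Cor.LehmerCurve
open Complex Finset
open scoped ComplexOrder

theorem landau {c : ℕ → ℝ} {F : ℂ → ℂ} {x : ℝ}
    (hs : ∀ s : ℂ, x < s.re → LSeriesSummable (fun n ↦ (c n : ℂ)) s)
    (hF : ∀ s : ℂ, x < s.re → LSeries (fun n ↦ (c n : ℂ)) s = F s)
    (hFd : Differentiable ℂ F) (hz : ∀ m : ℕ, F (-m) = 0) {n₀ n₁ : ℕ} (h2 : 2 ≤ n₀)
    (hn : ∀ n, n₀ ≤ n → 0 ≤ c n) (h01 : n₀ < n₁) (h1 : 0 < c n₁) : False := by
  set e : ℕ → ℝ := fun n ↦ if n = n₁ then -c n₁ else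
    if n < n₀ then (if n = 1 then 1 else 0) - c n else 0 with he
  have he0 : ∀ n, n ≠ n₁ → n₀ ≤ n → e n = 0 := by
    intro n h3 h4
    rw [he]
    simp only []
    rw [if_neg h3, if_neg (by omega)]
  have he1 : e n₁ = -c n₁ := by rw [he]; simp
  have hnn : ∀ n, 0 ≤ c n + e n := by
    intro n
    by_cases h3 : n = n₁
    · rw [h3, he1]; simp
    · by_cases h4 : n < n₀
      · rw [he]
        simp only []
        rw [if_neg h3, if_pos h4]
        split_ifs <;> simp
      · rw [he0 n h3 (by omega), add_zero]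
        exact hn n (by omega)
  have hone : c 1 + e 1 = 1 := by
    rw [he]
    simp only []
    rw [if_neg (by omega), if_pos (by omega)]
    simp
  set G : ℂ → ℂ := fun s ↦ ∑ n ∈ Icc 1 n₁, (e n : ℂ) * (n : ℂ) ^ (-s) with hG
  have hGd : Differentiable ℂ G := by
    rw [hG]
    refine Differentiable.fun_sum fun n hn' ↦ ?_
    rw [mem_Icc] at hn'
    refine (differentiable_const _).mul (Differentiable.const_cpow differentiable_neg (Or.inl ?_))
    exact_mod_cast (by omega : n ≠ 0)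
  have hterm : ∀ s : ℂ, ∀ n ∉ Icc 1 n₁, LSeries.term (fun n ↦ (e n : ℂ)) s n = 0 := by
    intro s n hn'
    rw [mem_Icc, not_and_or] at hn'
    rcases Nat.eq_zero_or_pos n with rfl | hpos
    · rw [LSeries.term_zero]
    · rw [LSeries.term_of_ne_zero hpos.ne', he0 n (by omega) (by omega)]
      simp
  have hsum : ∀ s : ℂ, LSeriesSummable (fun n ↦ (e n : ℂ)) s := fun s ↦
    summable_of_ne_finset_zero (hterm s)
  have hGe : ∀ s : ℂ, LSeries (fun n ↦ (e n : ℂ)) s = G s := by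
    intro s
    rw [LSeries, tsum_eq_sum (hterm s), hG]
    refine Finset.sum_congr rfl fun n hn' ↦ ?_
    rw [mem_Icc] at hn'
    rw [LSeries.term_of_ne_zero (by omega), Complex.cpow_neg, div_eq_mul_inv]
  set a : ℕ → ℂ := (fun n ↦ (c n : ℂ)) + (fun n ↦ (e n : ℂ)) with ha
  have haval : ∀ n, a n = ((c n + e n : ℝ) : ℂ) := fun n ↦ by
    rw [ha, Pi.add_apply]; push_cast; rfl
  have hpos : ∀ y : ℝ, 0 < (fun s ↦ F s + G s) (y : ℂ) := by
    refine LSeries.positive_of_differentiable_of_eqOn (a := a) (fun n ↦ ?_) ?_ (hFd.add hGd)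
      (x := x) ?_ ?_
    · rw [haval, Pi.zero_apply]
      exact Complex.zero_le_real.mpr (hnn n)
    · rw [haval, hone]
      simp
    · refine LSeries.abscissaOfAbsConv_le_of_forall_lt_LSeriesSummable fun y hy ↦ ?_
      exact (hs y (by rwa [Complex.ofReal_re])).add (hsum y)
    · intro s hs'
      simp only [Set.mem_ofPred_eq] at hs'
      rw [ha, LSeries_add (hs s hs') (hsum s), hF s hs', hGe s]
      rfl
  have key : ∀ m : ℕ, c n₁ * (n₁ : ℝ) ^ m < (∑ n ∈ Icc 1 n₁, |e n|) * (n₀ : ℝ) ^ m := by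
    intro m
    have h3 := hpos (-(m : ℝ))
    simp only [] at h3
    have h4 : ((-(m : ℝ) : ℝ) : ℂ) = -(m : ℂ) := by push_cast; rfl
    have h5 : G (-(m : ℂ)) = ((∑ n ∈ Icc 1 n₁, e n * (n : ℝ) ^ m : ℝ) : ℂ) := by
      rw [hG]
      simp only []
      push_cast
      refine Finset.sum_congr rfl fun n _ ↦ ?_
      rw [neg_neg, Complex.cpow_natCast]
    rw [h4, hz m, zero_add, h5] at h3
    have h6 := Complex.zero_lt_real.mp h3
    have h7 : ∀ n ∈ Icc 1 n₁, e n * (n : ℝ) ^ m ≤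
        |e n| * (n₀ : ℝ) ^ m - (if n = n₁ then c n₁ * (n₁ : ℝ) ^ m else 0) := by
      intro n _
      by_cases h8 : n = n₁
      · rw [if_pos h8, h8, he1]
        have : 0 ≤ |(-c n₁)| * (n₀ : ℝ) ^ m := by positivity
        linarith
      · rw [if_neg h8, sub_zero]
        by_cases h9 : n₀ ≤ n
        · rw [he0 n h8 h9]; simp
        · have h10 : (n : ℝ) ^ m ≤ (n₀ : ℝ) ^ m :=
            pow_le_pow_left₀ (Nat.cast_nonneg n) (by exact_mod_cast (by omega : n ≤ n₀)) m
          calc e n * (n : ℝ) ^ m ≤ |e n| * (n : ℝ) ^ m :=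
                mul_le_mul_of_nonneg_right (le_abs_self _) (by positivity)
            _ ≤ |e n| * (n₀ : ℝ) ^ m := mul_le_mul_of_nonneg_left h10 (abs_nonneg _)
    have h8 := Finset.sum_le_sum h7
    rw [Finset.sum_sub_distrib, ← Finset.sum_mul, Finset.sum_ite_eq' (Icc 1 n₁) n₁,
      if_pos (mem_Icc.mpr ⟨by omega, le_rfl⟩)] at h8
    linarith
  have hn0 : (0 : ℝ) < n₀ := by exact_mod_cast (by omega : 0 < n₀)
  have hratio : 1 < (n₁ : ℝ) / n₀ := by
    rw [one_lt_div hn0]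
    exact_mod_cast h01
  obtain ⟨m, hm⟩ := pow_unbounded_of_one_lt ((∑ n ∈ Icc 1 n₁, |e n|) / c n₁) hratio
  have h3 := key m
  rw [div_lt_iff₀ h1, div_pow, div_mul_eq_mul_div, lt_div_iff₀ (pow_pos hn0 m)] at hm
  linarith

theorem infinite_neg {c : ℕ → ℝ} {F : ℂ → ℂ} {x : ℝ}
    (hs : ∀ s : ℂ, x < s.re → LSeriesSummable (fun n ↦ (c n : ℂ)) s)
    (hF : ∀ s : ℂ, x < s.re → LSeries (fun n ↦ (c n : ℂ)) s = F s)
    (hFd : Differentiable ℂ F) (hz : ∀ m : ℕ, F (-m) = 0) (hc : ∀ M, ∃ n, M < n ∧ c n ≠ 0) :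
    {n : ℕ | c n < 0}.Infinite := by
  intro hfin
  obtain ⟨M, hM⟩ := hfin.bddAbove
  have hn : ∀ n, M + 2 ≤ n → 0 ≤ c n := by
    intro n h
    by_contra hlt
    have := hM (show n ∈ {n : ℕ | c n < 0} from not_le.mp hlt)
    omega
  obtain ⟨n₁, h1, h2⟩ := hc (M + 2)
  exact landau hs hF hFd hz (by omega) hn h1 (lt_of_le_of_ne (hn n₁ h1.le) h2.symm)

/-- **Infinitely many sign changes.** -/
theorem infinite_sign_changes {c : ℕ → ℝ} {F : ℂ → ℂ} {x : ℝ}
    (hs : ∀ s : ℂ, x < s.re → LSeriesSummable (fun n ↦ (c n : ℂ)) s)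
    (hF : ∀ s : ℂ, x < s.re → LSeries (fun n ↦ (c n : ℂ)) s = F s)
    (hFd : Differentiable ℂ F) (hz : ∀ m : ℕ, F (-m) = 0) (hc : ∀ M, ∃ n, M < n ∧ c n ≠ 0) :
    {n : ℕ | 0 < c n}.Infinite ∧ {n : ℕ | c n < 0}.Infinite := by
  refine ⟨?_, infinite_neg hs hF hFd hz hc⟩
  have hneg : (fun n ↦ ((-c n : ℝ) : ℂ)) = -(fun n ↦ (c n : ℂ)) := by
    funext n
    rw [Pi.neg_apply]
    push_cast
    rfl
  have h := infinite_neg (c := fun n ↦ -c n) (F := fun s ↦ -F s) (x := x) (fun s h ↦ by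
    rw [hneg]; exact (hs s h).neg) (fun s h ↦ by rw [hneg, LSeries_neg, hF s h]) hFd.neg
    (fun m ↦ by rw [hz, neg_zero]) (fun M ↦ by
      obtain ⟨n, h1, h2⟩ := hc M
      exact ⟨n, h1, neg_ne_zero.mpr h2⟩)
  refine h.mono fun n hn ↦ ?_
  have h1 : -c n < 0 := hn
  exact neg_lt_zero.mp h1

/-- **`τ` changes sign infinitely often.** -/
theorem tau_sign : {n : ℕ | 0 < tau n}.Infinite ∧ {n : ℕ | tau n < 0}.Infinite := by
  have h := infinite_sign_changes (c := fun n ↦ (tau n : ℝ)) (F := LD) (x := 7)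
    (fun s hs ↦ by simpa using lSeriesSummable_tau hs) (fun s hs ↦ by simpa using lSeries_tau hs)
    differentiable_LD LD_neg_nat (fun M ↦ by
      refine ⟨2 ^ M, Nat.lt_two_pow_self, ?_⟩
      have h2 : tau (2 ^ M) ≠ 0 := by
        intro h0
        have := tau_prime_eq_zero Nat.prime_two h0
        rw [tau_values.2.1] at this
        norm_num at this
      exact_mod_cast h2)
  refine ⟨h.1.mono fun n hn ↦ ?_, h.2.mono fun n hn ↦ ?_⟩
  · have h1 : (0 : ℝ) < (tau n : ℝ) := hn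
    exact_mod_cast h1
  · have h1 : (tau n : ℝ) < 0 := hn
    exact_mod_cast h1

/-- **The coefficients of the L-function of a semistable elliptic curve over `ℚ` change sign infinitely often.** -/
theorem aN_sign {W : WeierstrassCurve ℤ} (hΔ : W.Δ ≠ 0) (hW : W.IsSemistableModel) :
    {n : ℕ | 0 < aN W n}.Infinite ∧ {n : ℕ | aN W n < 0}.Infinite := by
  obtain ⟨L, Λ, hL⟩ := hasseWeil W hΔ hW
  have h := infinite_sign_changes (c := fun n ↦ (aN W n : ℝ)) (F := L) (x := 3 / 2)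
    (fun s hs ↦ by simpa using (hL.lSeriesHasSum s hs).LSeriesSummable)
    (fun s hs ↦ by simpa using (hL.lSeriesHasSum s hs).LSeries_eq)
    hL.differentiable_L hL.neg_nat (fun M ↦ by
      refine ⟨5 ^ (2 * M), ?_, ?_⟩
      · have h1 : M < 5 ^ M := Nat.lt_pow_self (by norm_num)
        have h2 : 5 ^ M ≤ 5 ^ (2 * M) := Nat.pow_le_pow_right (by norm_num) (by omega)
        omega
      · have h2 : aN W (5 ^ (2 * M)) ≠ 0 := by
          intro h0
          obtain ⟨p, hp, -, hodd⟩ := (aN_eq_zero_iff hΔ hW (pow_ne_zero _ (by norm_num))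
            (Nat.Coprime.pow_left _ (by norm_num))).mp h0
          rw [Nat.factorization_pow, Finsupp.smul_apply, smul_eq_mul] at hodd
          exact absurd hodd (Nat.not_odd_iff_even.mpr ⟨M * (Nat.factorization 5) p, by ring⟩)
        exact_mod_cast h2)
  refine ⟨h.1.mono fun n hn ↦ ?_, h.2.mono fun n hn ↦ ?_⟩
  · have h1 : (0 : ℝ) < (aN W n : ℝ) := hn
    exact_mod_cast h1
  · have h1 : (aN W n : ℝ) < 0 := hn
    exact_mod_cast h1

end Fermat.Agent.Cor.SignChange
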