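import Mathlib
import Fermat.Agent.Cor.EllipticField
import Fermat.Agent.Cor.AutFinite
import Fermat.Agent.Cor.KaehlerX0

/-!
# The curves `X₀(N)` over `ℚ̄`, by genus

Let `g = genusFormula N` be the value of the classical genus formula.

* `X0_rational`: if `g = 0` (or `dim S₂(Γ₀(N)) = 0`), the function field of `X₀(N)` over `ℚ̄` is a field of rational
  functions: there is a Hauptmodul;
* `X0_elliptic`: if `g = 1`, it is the function field of an elliptic curve over `ℚ̄`;
* `X0_double`: if `g = 1` or `g = 2`, the curve `X₀(N)` is a double covering of the line;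
* `X0_aut`: if `g ≥ 2`, the curve `X₀(N)` has finitely many automorphisms over `ℚ̄`, at most `84 (g - 1)`;
* `X0_fixed`: an automorphism of `X₀(N)` different from the identity has at most `2 g + 2` fixed points.

This file is not used by any of the statement files.
-/

set_option autoImplicit false

noncomputable section

namespace Fermat.Agent.Cor.RR

open AlgebraicCurve ModularCurve CongruenceSubgroup Fermat.Agent.FF

variable (N : ℕ) [NeZero N]

theorem genusFF_X0 {g : ℕ} (h : genusFormula N = g) :
    genusFF (AlgebraicClosure ℚ) (modularFunctionFieldBar N) = g := by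
  have h1 := Fermat.Agent.RR.genusFF_bar N
  rw [h] at h1
  exact_mod_cast h1

/-- the curve `X₀(N)` of genus zero -/
theorem X0_rational (h : genusFormula N = 0) : ∃ x : modularFunctionFieldBar N,
    Transcendental (AlgebraicClosure ℚ) x ∧
      IntermediateField.adjoin (AlgebraicClosure ℚ) {x} = ⊤ :=
  genus_eq_zero_iff.mp (genusFF_X0 N (g := 0) (by rw [h, Nat.cast_zero]))

/-- the curve `X₀(N)` of genus one -/
theorem X0_elliptic (h : genusFormula N = 1) :
    ∃ V : WeierstrassCurve (AlgebraicClosure ℚ), V.IsElliptic ∧
      Nonempty (V.toAffine.FunctionField ≃ₐ[AlgebraicClosure ℚ] modularFunctionFieldBar N) :=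
  exists_elliptic (genusFF_X0 N (g := 1) (by rw [h, Nat.cast_one]))

/-- the curve `X₀(N)` of genus one or two -/
theorem X0_double (h : genusFormula N = 1 ∨ genusFormula N = 2) :
    ∃ x : modularFunctionFieldBar N, Transcendental (AlgebraicClosure ℚ) x ∧
      Module.finrank (IntermediateField.adjoin (AlgebraicClosure ℚ) {x})
        (modularFunctionFieldBar N) = 2 := by
  rcases h with h | h
  · have h1 := genusFF_X0 N (g := 1) (by rw [h, Nat.cast_one])
    exact exists_degree_two (by omega) (by omega)
  · have h1 := genusFF_X0 N (g := 2) (by rw [h, Nat.cast_ofNat])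
    exact exists_degree_two (by omega) (by omega)

/-- **The automorphisms of `X₀(N)`**, genus `g ≥ 2` -/
theorem X0_aut {g : ℕ} (h : genusFormula N = g) (hg : 2 ≤ g) :
    Finite (modularFunctionFieldBar N ≃ₐ[AlgebraicClosure ℚ] modularFunctionFieldBar N) ∧
      Nat.card (modularFunctionFieldBar N ≃ₐ[AlgebraicClosure ℚ] modularFunctionFieldBar N) ≤
        84 * (g - 1) := by
  have h1 := genusFF_X0 N h
  have h2 := card_aut_le (K := AlgebraicClosure ℚ) (F := modularFunctionFieldBar N)
    (by rw [h1]; exact hg)
  rw [h1] at h2
  exact h2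

/-- the fixed points of the automorphisms of `X₀(N)` -/
theorem X0_fixed {g : ℕ} (h : genusFormula N = g)
    {σ : modularFunctionFieldBar N ≃ₐ[AlgebraicClosure ℚ] modularFunctionFieldBar N}
    (hσ : σ ≠ 1) :
    {w : Place (AlgebraicClosure ℚ) (modularFunctionFieldBar N) | σ • w = w}.Finite ∧
      {w : Place (AlgebraicClosure ℚ) (modularFunctionFieldBar N) | σ • w = w}.ncard ≤
        2 * g + 2 := by
  have h1 := card_fixed_le hσ
  rw [genusFF_X0 N h] at h1
  exact h1

end Fermat.Agent.Cor.RR
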