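import Fermat.Agent.Cor.ThueEquation

/-!
# Smooth numbers with given difference

For a finite set `S` of primes and `c ≠ 0` there are only finitely many pairs of `S`-smooth positive
integers with difference `c` (Thue; Størmer's theorem for `c = 1`).
-/

namespace Fermat.Agent.Cor.Thue

/-- An `S`-smooth number is a cube times a number bounded in terms of `S`. -/
theorem exists_cube_mul {S : Finset ℕ} (hS : ∀ p ∈ S, p.Prime) {x : ℕ} (hx : x ≠ 0)
    (h : ∀ p, p.Prime → p ∣ x → p ∈ S) :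
    ∃ A u : ℕ, 0 < A ∧ A ≤ (∏ p ∈ S, p) ^ 2 ∧ x = A * u ^ 3 := by
  have h1 : x = ∏ p ∈ S, p ^ x.factorization p := by
    conv_lhs => rw [← Nat.prod_factorization_pow_eq_self hx]
    refine Finsupp.prod_of_support_subset _ ?_ _ (fun p _ ↦ pow_zero p)
    intro p hp
    rw [Nat.support_factorization, Nat.mem_primeFactors] at hp
    exact h p hp.1 hp.2.1
  refine ⟨∏ p ∈ S, p ^ (x.factorization p % 3), ∏ p ∈ S, p ^ (x.factorization p / 3), ?_, ?_, ?_⟩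
  · exact Finset.prod_pos fun p hp ↦ pow_pos (hS p hp).pos _
  · rw [← Finset.prod_pow]
    refine Finset.prod_le_prod' fun p hp ↦ ?_
    exact Nat.pow_le_pow_right (hS p hp).pos (by omega)
  · conv_lhs => rw [h1]
    rw [← Finset.prod_pow, ← Finset.prod_mul_distrib]
    refine Finset.prod_congr rfl fun p _ ↦ ?_
    rw [← pow_mul, ← pow_add]
    congr 1
    omega

/-- For a finite set `S` of primes and `c ≠ 0` there are only finitely many pairs `(x, y)` of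
positive integers composed of the primes of `S` with `x = y + c`. -/
theorem finite_smooth_pairs {S : Finset ℕ} (hS : ∀ p ∈ S, p.Prime) {c : ℕ} (hc : c ≠ 0) :
    {z : ℕ × ℕ | z.1 ≠ 0 ∧ z.2 ≠ 0 ∧ (∀ p, p.Prime → p ∣ z.1 → p ∈ S) ∧
      (∀ p, p.Prime → p ∣ z.2 → p ∈ S) ∧ z.1 = z.2 + c}.Finite := by
  set M := (∏ p ∈ S, p) ^ 2 with hM
  have hfin : (⋃ A ∈ Set.Icc 1 M, ⋃ B ∈ Set.Icc 1 M,
      ((fun w : ℤ × ℤ ↦ (A * w.1.toNat ^ 3, B * w.2.toNat ^ 3)) ''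
        {w : ℤ × ℤ | (A : ℤ) * w.1 ^ 3 + (-(B : ℤ)) * w.2 ^ 3 = (c : ℤ)})).Finite := by
    refine (Set.finite_Icc _ _).biUnion fun A hA ↦ (Set.finite_Icc _ _).biUnion fun B hB ↦ ?_
    refine Set.Finite.image _ (finite_axn_add_byn ?_ ?_ ?_ le_rfl)
    · have := hA.1; omega
    · have := hB.1; omega
    · exact_mod_cast hc
  refine hfin.subset ?_
  rintro ⟨x, y⟩ ⟨hx, hy, h1, h2, h3⟩
  obtain ⟨A, u, hA0, hA, hxA⟩ := exists_cube_mul hS hx h1
  obtain ⟨B, v, hB0, hB, hyB⟩ := exists_cube_mul hS hy h2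
  simp only [Set.mem_iUnion]
  refine ⟨A, ⟨hA0, hA⟩, B, ⟨hB0, hB⟩, ((u : ℤ), (v : ℤ)), ?_, ?_⟩
  · show (A : ℤ) * (u : ℤ) ^ 3 + (-(B : ℤ)) * (v : ℤ) ^ 3 = (c : ℤ)
    simp only at h3 hxA hyB
    rw [hxA, hyB] at h3
    have h4 : (A : ℤ) * (u : ℤ) ^ 3 = (B : ℤ) * (v : ℤ) ^ 3 + c := by exact_mod_cast h3
    rw [h4]; ring
  · simp only [Int.toNat_natCast]
    exact Prod.ext hxA.symm hyB.symm

end Fermat.Agent.Cor.Thue
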