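import Fermat.Agent.Cor.Bauer
import Fermat.Agent.Cor.FrobDense

/-!
# The density of the primes which split completely

`density_split` : in a finite Galois extension `L/K` of number fields, the set of the primes of `K` which
split completely in `L` has Dirichlet density `1/[L : K]`.  Hence (`finrank_eq_one_of_split`) if all
primes of `K`, with finitely many exceptions, split completely in `L`, then `L = K`.
-/

set_option autoImplicit false
set_option linter.unusedSectionVars false
set_option linter.style.haveILetI false

open scoped Classical nonZeroDivisors Topology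

namespace Fermat.Agent.Cor.Cheb

open NumberField Filter IsDedekindDomain Module Fermat.Agent.CFT Fermat.Agent.H03
  Fermat.Agent.ZC Ideal

noncomputable section

variable (K L : Type*) [Field K] [NumberField K] [Field L] [NumberField L] [Algebra K L]
  [IsGalois K L]

theorem tendsto_psum_top : Tendsto (fun s : ℝ => psum K s (fun _ => True)) (𝓝[>] 1) atTop := by
  obtain ⟨C, hC⟩ := psum_true_bound K
  refine tendsto_atTop_mono' _ (f₁ := fun s => ell s - C) ?_
    (tendsto_atTop_add_const_right _ _ tendsto_ell)
  filter_upwards [hC] with s hs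
  linarith [(abs_le.mp hs).1]

/-- **the density of the completely split primes is `1/[L : K]`** -/
theorem density_split : Tendsto (fun s : ℝ =>
      (∑' v : HeightOneSpectrum (𝓞 K), if (v.asIdeal.primesOver (𝓞 L)).ncard = finrank K L then
          (absNorm v.asIdeal : ℝ) ^ (-s) else 0) /
        ∑' v : HeightOneSpectrum (𝓞 K), (absNorm v.asIdeal : ℝ) ^ (-s))
      (𝓝[>] 1) (𝓝 (1 / finrank K L)) := by
  haveI : FiniteDimensional K L := Module.Finite.of_restrictScalars_finite ℚ K L
  haveI : Finite Gal(L/K) := inferInstance
  have h1 := tendsto_psum_Fr (1 : Gal(L/K))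
  have e1 : Nat.card (Subgroup.centralizer {(1 : Gal(L/K))} : Subgroup Gal(L/K)) =
      finrank K L := by
    rw [← IsGalois.card_aut_eq_finrank]
    refine Nat.card_congr (Equiv.subtypeUnivEquiv fun g => ?_)
    rw [Subgroup.mem_centralizer_singleton_iff, mul_one, one_mul]
  rw [e1] at h1
  obtain ⟨C, hC⟩ := psum_bdd_of_finite (finite_not_good (K := K) (L := L))
  have h2 : Tendsto (fun s : ℝ => (psum K s (Spl K L) - psum K s (Fr (1 : Gal(L/K)))) /
      psum K s (fun _ => True)) (𝓝[>] 1) (𝓝 0) := by
    rw [tendsto_zero_iff_norm_tendsto_zero]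
    have h3 : Tendsto (fun s : ℝ => C / psum K s (fun _ => True)) (𝓝[>] 1) (𝓝 0) :=
      tendsto_const_nhds.div_atTop (tendsto_psum_top K)
    refine squeeze_zero' (Eventually.of_forall fun s => norm_nonneg _) ?_ h3
    filter_upwards [(tendsto_psum_top K).eventually_gt_atTop 0, eventually_Ioc, hC] with s hs hs1 hC
    rw [norm_div, Real.norm_of_nonneg hs.le]
    refine div_le_div_of_nonneg_right (le_trans ?_ hC) hs.le
    have h4 : psum K s (Spl K L) ≤ psum K s (Fr (1 : Gal(L/K))) :=
      psum_mono hs1.1 hs1.2 fun v hv => fr_one_of_spl hv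
    have h5 := psum_le_add K hs1.1 hs1.2 (P := Fr (1 : Gal(L/K))) (Q := Spl K L)
      (R := fun v => ¬ Good L v) (fun v hv => by
        by_cases hg : Good L v
        · exact Or.inl (spl_of_fr_one hg hv)
        · exact Or.inr hg)
    rw [Real.norm_eq_abs, abs_le]
    constructor
    · linarith
    · have h6 : 0 ≤ psum K s (fun v => ¬ Good L v) := psum_nonneg s _
      linarith
  have h3 := h2.add h1
  rw [zero_add] at h3
  refine h3.congr fun s => ?_
  rw [← add_div, sub_add_cancel, psum, psum]
  simp only [if_true]
  congr 1
  refine tsum_congr fun v => ?_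
  exact if_congr Iff.rfl rfl rfl

/-- if almost all primes split completely, the extension is trivial -/
theorem finrank_eq_one_of_split
    (h : {v : HeightOneSpectrum (𝓞 K) |
      (v.asIdeal.primesOver (𝓞 L)).ncard ≠ finrank K L}.Finite) : finrank K L = 1 := by
  haveI : IsGalois K K := inferInstance
  obtain ⟨f⟩ := bauer K K L (h.subset fun v hv => hv.2)
  have h1 := LinearMap.finrank_le_finrank_of_injective (f := f.toLinearMap) f.injective
  rw [finrank_self] at h1
  haveI : FiniteDimensional K L := Module.Finite.of_restrictScalars_finite ℚ K L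
  have h2 : 0 < finrank K L := finrank_pos
  omega

end

end Fermat.Agent.Cor.Cheb
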