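import Mathlib
import Fermat.Agent.Cor.EulerRat

/-!
# Perfect powers next to squares

* `sq_sub_one_eq_pow`: `x ^ 2 - 1 = y ^ n`, `n ≥ 2`, in integers only for `x = 0`, `y = 0` or
  `n = 3`, `y = 2`;
* `sq_add_one_eq_pow`: `x ^ 2 + 1 = y ^ n`, `n ≥ 2`, only for `x = 0`;
* `perfect_power_near_sq`: a positive square and a perfect power `y ^ n`, `y ≥ 1`, `n ≥ 2`, are
  consecutive only if they are `9` and `8`.

This file is not used by any of the statement files.
-/

set_option autoImplicit false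

namespace Fermat.Agent.Cor.SqPow

open Fermat.Agent.Cor

/-- an odd number `n ≥ 2` without prime factor `≥ 5` is a power of `3` -/
lemma dvd_or_three {n : ℕ} (hn : 2 ≤ n) (hodd : Odd n) :
    (∃ p : ℕ, p.Prime ∧ 5 ≤ p ∧ p ∣ n) ∨ ∃ k, n = 3 ^ (k + 1) := by
  by_cases h : ∃ p : ℕ, p.Prime ∧ 5 ≤ p ∧ p ∣ n
  · exact Or.inl h
  right
  push Not at h
  have h1 : n = 3 ^ n.primeFactorsList.length :=
    Nat.eq_prime_pow_of_unique_prime_dvd (by omega) fun {d} hd hdn => by
      by_contra hd3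
      have hd2 : d ≠ 2 := by
        rintro rfl
        rw [Nat.odd_iff] at hodd
        omega
      have hd4 : d ≠ 4 := by
        rintro rfl
        norm_num at hd
      have := hd.two_le
      exact h d hd (by omega) hdn
  rcases hk : n.primeFactorsList.length with _ | k
  · rw [hk, pow_zero] at h1
    omega
  · exact ⟨k, by rw [h1, hk]⟩

/-- **`x ^ 2 - 1 = y ^ n`** for all `n ≥ 2` (Euler, Nagell, Chao Ko). -/
theorem sq_sub_one_eq_pow {n : ℕ} (hn : 2 ≤ n) {x y : ℤ} (h : x ^ 2 - 1 = y ^ n) :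
    x = 0 ∨ y = 0 ∨ (n = 3 ∧ y = 2) := by
  rcases Nat.even_or_odd n with hev | hodd
  · obtain ⟨k, rfl⟩ := hev
    have hk : k ≠ 0 := by omega
    have h1 : (x - y ^ k) * (x + y ^ k) = 1 := by
      rw [pow_add] at h
      linear_combination h
    have h2 : x - y ^ k = x + y ^ k := by
      rcases Int.mul_eq_one_iff_eq_one_or_neg_one.mp h1 with h2 | h2 <;> rw [h2.1, h2.2]
    have h3 : y ^ k = 0 := by omega
    exact Or.inr (Or.inl (pow_eq_zero_iff hk |>.mp h3))
  · rcases dvd_or_three hn hodd with ⟨p, hp, hp5, hpn⟩ | ⟨k, hk⟩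
    · rcases ChaoKo.chao_ko_exponent hp hp5 hpn (by omega) h with h1 | h1
      · exact Or.inr (Or.inl h1)
      · exact Or.inl h1
    · have h1 : x ^ 2 = (y ^ 3 ^ k) ^ 3 + 1 := by
        rw [← pow_mul, ← pow_succ, ← hk]; linarith
      have h3k : (3 : ℕ) ^ k ≠ 0 := pow_ne_zero _ (by norm_num)
      rcases CatalanEven.euler h1 with h2 | h2 | h2
      · left
        rw [h2] at h1
        have h3 : x ^ 2 = 0 := by rw [h1]; norm_num
        exact pow_eq_zero_iff two_ne_zero |>.mp h3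
      · exact Or.inr (Or.inl (pow_eq_zero_iff h3k |>.mp h2))
      · right; right
        have h3 : y.natAbs ^ 3 ^ k = 2 := by
          have := congrArg Int.natAbs h2
          rw [Int.natAbs_pow] at this
          exact this
        have h4 : 3 ^ k = 1 := by
          by_contra hcon
          have h5 : ¬ (y.natAbs ^ 3 ^ k).Prime := Nat.Prime.not_prime_pow (by omega)
          exact h5 (h3 ▸ Nat.prime_two)
        rw [h4, pow_one] at h2
        refine ⟨?_, h2⟩
        rw [hk, pow_succ, h4, one_mul]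

/-- **`x ^ 2 + 1 = y ^ n`** for all `n ≥ 2` (Lebesgue). -/
theorem sq_add_one_eq_pow {n : ℕ} (hn : 2 ≤ n) {x y : ℤ} (h : x ^ 2 + 1 = y ^ n) : x = 0 :=
  Lebesgue.lebesgue hn h

/-- **Squares next to perfect powers**: if a positive square `x ^ 2` and `y ^ n`, `y ≥ 1`, `n ≥ 2`,
are consecutive integers then they are `9` and `8`. -/
theorem perfect_power_near_sq {n x y : ℕ} (hn : 2 ≤ n) (hx : 0 < x) (hy : 0 < y)
    (h : x ^ 2 = y ^ n + 1 ∨ y ^ n = x ^ 2 + 1) : x = 3 ∧ y = 2 ∧ n = 3 := by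
  rcases h with h | h
  · obtain ⟨h1, -, h3, h4⟩ := CatalanEven.catalan (m := 2) le_rfl hn (Or.inl even_two) hy h
    exact ⟨h1, h3, h4⟩
  · exact absurd h.symm (Lebesgue.sq_add_one_ne_pow hn hx)

end Fermat.Agent.Cor.SqPow
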