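import Mathlib
import Fermat.Agent.Cor.KummerDivision

/-!
# Galois stable subgroups of semistable elliptic curves

Let `W` be a semistable elliptic curve over `ℚ` and `N` a positive integer such that `W[p]` is irreducible for all
primes `p ∣ N`.

* `stable_eq_torsion`: every Galois stable subgroup of `W[N]` is `W[d]` for a divisor `d` of `N`;
* `stable_eq_torsion_uniform`: all semistable curves, prime factors of `N` at least `11` and different from `13`;
* `stable_eq_torsion_full`: all semistable curves with full `2`-torsion, all `N` coprime to `6`.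

This file is not used by any of the statement files.
-/

set_option autoImplicit false
set_option linter.style.haveILetI false

noncomputable section

namespace Fermat.Agent.Cor.StableSubgroups

open WeierstrassCurve WeierstrassCurve.Affine WeierstrassCurve.Affine.Point
open Fermat.Agent.Ell Fermat.Agent.Cor.Surj Fermat.Agent.Cor.KummerDivision
open Fermat.Agent.EGal (VV rho)
open Fermat.Agent.Cor.H11 (HasFullTwo irreducible_of_fullTwo)

local notation "Qb" => AlgebraicClosure ℚ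
local notation "Γq" => AlgebraicClosure ℚ ≃ₐ[ℚ] AlgebraicClosure ℚ

/-- A Galois stable subgroup of `W[N]` which is not killed by `N / p` for all primes `p ∣ N` is `W[N]`. -/
theorem mem_of_not_killed (W : WeierstrassCurve ℤ) (hΔ : W.Δ ≠ 0) {N : ℕ} (hN0 : N ≠ 0)
    (hirr : ∀ p : ℕ, p.Prime → p ∣ N → W.ModRepIsIrreducible p) (I : AddSubgroup (Pts (WQ W)))
    (hI : ∀ (g : Γq) (a : Pts (WQ W)), a ∈ I → g • a ∈ I) (hIN : ∀ a ∈ I, N • a = 0)
    (hne : ∀ p : ℕ, p.Prime → p ∣ N → ∃ i ∈ I, (N / p) • i ≠ 0) (t : Pts (WQ W))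
    (ht : N • t = 0) : t ∈ I := by
  haveI := isElliptic_WQ hΔ
  have hfull : ∀ p : ℕ, p.Prime → p ∣ N → ∀ z : Pts (WQ W), p • z = 0 →
      ∃ i ∈ I, (N / p) • i = z := by
    intro p hp hpN
    haveI : Fact p.Prime := ⟨hp⟩
    have hpN' : (N / p) * p = N := Nat.div_mul_cancel hpN
    let ι : VV (WQ W) p →+ Pts (WQ W) :=
      AddMonoidHom.mk' (fun v => (v : Pts (WQ W))) (fun _ _ => rfl)
    let B : AddSubgroup (VV (WQ W) p) :=
      (I.map (nsmulAddMonoidHom (α := Pts (WQ W)) (N / p))).comap ι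
    let F : Submodule (ZMod p) (VV (WQ W) p) := AddSubgroup.toZModSubmodule p B
    have hFmem : ∀ v : VV (WQ W) p, v ∈ F ↔ ∃ i ∈ I, (N / p) • i = (v : Pts (WQ W)) :=
      fun v => Iff.rfl
    have hF : ∀ (g : Γq), ∀ y ∈ F, g • y ∈ F := by
      intro g y hy
      obtain ⟨i, hi, hiy⟩ := (hFmem y).mp hy
      refine (hFmem _).mpr ⟨g • i, hI g i hi, ?_⟩
      rw [← gnsmul, hiy]
      rfl
    rcases (hirr p hp hpN).2 F hF with h | h
    · exfalso
      obtain ⟨i, hi, hi0⟩ := hne p hp hpN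
      apply hi0
      have h1 : (N / p) • i ∈ Submodule.torsionBy ℤ (Pts (WQ W)) (p : ℤ) := by
        rw [Submodule.mem_torsionBy_iff, natCast_zsmul, ← mul_smul, mul_comm, hpN']
        exact hIN i hi
      have h2 : (⟨(N / p) • i, h1⟩ : VV (WQ W) p) ∈ F := (hFmem _).mpr ⟨i, hi, rfl⟩
      rw [h, Submodule.mem_bot] at h2
      exact congrArg Subtype.val h2
    · intro z hz
      have h1 : z ∈ Submodule.torsionBy ℤ (Pts (WQ W)) (p : ℤ) := by
        rw [Submodule.mem_torsionBy_iff, natCast_zsmul]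
        exact hz
      have h2 : (⟨z, h1⟩ : VV (WQ W) p) ∈ F := by rw [h]; trivial
      exact (hFmem _).mp h2
  have hm : ∀ m : ℕ, m ≠ 0 → (∀ p : ℕ, p.Prime → p ∣ m → p ∣ N) → ∀ x : Pts (WQ W), N • x = 0 →
      ∃ i ∈ I, ∃ y : Pts (WQ W), N • y = 0 ∧ x = i + m • y := by
    intro m
    induction m using Nat.recOnMul with
    | zero => exact fun h => absurd rfl h
    | one => exact fun _ _ x hx => ⟨0, I.zero_mem, x, hx, by rw [one_smul, zero_add]⟩
    | prime p hp =>
      intro _ h x hx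
      have hpN := h p hp dvd_rfl
      have hpN' : (N / p) * p = N := Nat.div_mul_cancel hpN
      haveI : Fact p.Prime := ⟨hp⟩
      obtain ⟨i, hi, hi'⟩ := hfull p hp hpN ((N / p) • x) (by
        rw [← mul_smul, mul_comm, hpN', hx])
      obtain ⟨y, hy⟩ := pts_div (WQ W) p (x - i)
      have hy' : p • y = x - i := hy
      refine ⟨i, hi, y, ?_, ?_⟩
      · rw [← hpN', mul_smul, hy', nsmul_sub, hi', sub_self]
      · rw [hy']
        abel
    | mul a b ha hb =>
      intro hab h x hx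
      have ha0 : a ≠ 0 := left_ne_zero_of_mul hab
      have hb0 : b ≠ 0 := right_ne_zero_of_mul hab
      obtain ⟨i, hi, y, hy, hxy⟩ := ha ha0 (fun p hp hpa => h p hp (hpa.mul_right b)) x hx
      obtain ⟨j, hj, z, hz, hyz⟩ := hb hb0 (fun p hp hpb => h p hp (hpb.mul_left a)) y hy
      refine ⟨i + a • j, I.add_mem hi (I.nsmul_mem hj a), z, hz, ?_⟩
      rw [hxy, hyz, nsmul_add, mul_smul, add_assoc]
  obtain ⟨i, hi, y, hy, hxy⟩ := hm N hN0 (fun p _ h => h) t ht
  rw [hy, add_zero] at hxy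
  rw [hxy]
  exact hi

/-- **Galois stable subgroups**: let `N` be a positive integer such that `W[p]` is irreducible for all primes `p ∣ N`.
Every Galois stable subgroup of `W[N]` is equal to `W[d]` for a divisor `d` of `N`. (In particular `W` has no cyclic
isogeny over `ℚ` of degree `d > 1`, `d ∣ N`.) -/
theorem stable_eq_torsion (W : WeierstrassCurve ℤ) (hΔ : W.Δ ≠ 0) (N : ℕ) (hN0 : N ≠ 0)
    (hirr : ∀ p : ℕ, p.Prime → p ∣ N → W.ModRepIsIrreducible p)
    (I : AddSubgroup ((W.map (Int.castRingHom ℚ))⁄(AlgebraicClosure ℚ)).Point)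
    (hI : ∀ g : AlgebraicClosure ℚ ≃ₐ[ℚ] AlgebraicClosure ℚ, ∀ a ∈ I, g • a ∈ I)
    (hIN : ∀ a ∈ I, N • a = 0) : ∃ d, d ∣ N ∧ ∀ a, a ∈ I ↔ d • a = 0 := by
  induction N using Nat.strong_induction_on with
  | _ N ih =>
    by_cases h : ∀ p : ℕ, p.Prime → p ∣ N → ∃ i ∈ I, (N / p) • i ≠ 0
    · exact ⟨N, dvd_rfl, fun a => ⟨hIN a, fun ha =>
        mem_of_not_killed W hΔ hN0 hirr I hI hIN h a ha⟩⟩
    · push Not at h
      obtain ⟨p, hp, hpN, h⟩ := h
      have h1 : N / p ∣ N := Nat.div_dvd_of_dvd hpN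
      obtain ⟨d, hd, h2⟩ := ih (N / p) (Nat.div_lt_self (Nat.pos_of_ne_zero hN0) hp.one_lt)
        (Nat.div_pos (Nat.le_of_dvd (Nat.pos_of_ne_zero hN0) hpN) hp.pos).ne'
        (fun q hq hqN => hirr q hq (hqN.trans h1)) h
      exact ⟨d, hd.trans h1, h2⟩

/-- The uniform version: all semistable curves, prime factors of `N` at least `11` and different from `13`. -/
theorem stable_eq_torsion_uniform (W : WeierstrassCurve ℤ) (hΔ : W.Δ ≠ 0)
    (hss : W.IsSemistableModel) (N : ℕ) (hN0 : N ≠ 0)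
    (hN : ∀ p : ℕ, p.Prime → p ∣ N → 11 ≤ p ∧ p ≠ 13)
    (I : AddSubgroup ((W.map (Int.castRingHom ℚ))⁄(AlgebraicClosure ℚ)).Point)
    (hI : ∀ g : AlgebraicClosure ℚ ≃ₐ[ℚ] AlgebraicClosure ℚ, ∀ a ∈ I, g • a ∈ I)
    (hIN : ∀ a ∈ I, N • a = 0) : ∃ d, d ∣ N ∧ ∀ a, a ∈ I ↔ d • a = 0 :=
  stable_eq_torsion W hΔ N hN0
    (fun p hp hpN => Mazur.modRep_irreducible hΔ hss hp (hN p hp hpN).1 (hN p hp hpN).2) I hI hIN

/-- The version for the curves with full `2`-torsion: all `N` coprime to `6`. -/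
theorem stable_eq_torsion_full (W : WeierstrassCurve ℤ) (hΔ : W.Δ ≠ 0)
    (hss : W.IsSemistableModel) (h2 : HasFullTwo W) (N : ℕ) (hN0 : N ≠ 0) (hN : N.Coprime 6)
    (I : AddSubgroup ((W.map (Int.castRingHom ℚ))⁄(AlgebraicClosure ℚ)).Point)
    (hI : ∀ g : AlgebraicClosure ℚ ≃ₐ[ℚ] AlgebraicClosure ℚ, ∀ a ∈ I, g • a ∈ I)
    (hIN : ∀ a ∈ I, N • a = 0) : ∃ d, d ∣ N ∧ ∀ a, a ∈ I ↔ d • a = 0 :=
  stable_eq_torsion W hΔ N hN0
    (fun _ hp hpN => irreducible_of_fullTwo hΔ hss h2 hp (five_le_of_dvd hN hp hpN)) I hI hIN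

end Fermat.Agent.Cor.StableSubgroups
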