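import Fermat.Agent.Cor.ChebotarevZero
import Fermat.Agent.Cor.H14TauGal

/-!
# Densities of the primes with given trace of Frobenius

Let `W` be a semistable elliptic curve over `ℚ`.

* `density_ap` : for a prime `p ≥ 11`, `p ≠ 13`, the set of the primes `q` with `a_q(W) ≡ t mod p` has
  density `#{M ∈ GL₂(𝔽_p) : tr M = t} / #GL₂(𝔽_p)`, i.e. `p / (p² - 1)` for `t = 0`
  (`density_ap_zero`) and `(p² - p - 1) / ((p - 1)(p² - 1))` for `t ≠ 0` (`density_ap_ne_zero`);
* `density_ap_eq` (Serre) : for every integer `t` the set of the primes `q` with `a_q(W) = t` has density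
  zero; in particular the supersingular primes have density zero (`density_supersingular`);
* `density_tau_zero` : the set of the primes `q` such that `11` divides Ramanujan's `τ(q)` has density
  `11/120`; `density_tau_ne_zero` : for `t ≢ 0` the set of the primes `q` with `τ(q) ≡ t mod 11` has
  density `109/1200`.
-/

set_option autoImplicit false
set_option linter.unusedSectionVars false
set_option linter.style.haveILetI false

open scoped Topology

namespace Fermat.Agent.Cor.Cheb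

open Filter Fermat.Agent.DS

theorem isOpen_ker_of_field {G : Type*} [Group G] {ρ : GQ →* G}
    (hF : ∃ F : IntermediateField ℚ Qb, FiniteDimensional ℚ F ∧
      ∀ σ : GQ, (∀ x ∈ F, σ x = x) → ρ σ = 1) : IsOpen (ρ.ker : Set GQ) := by
  obtain ⟨F, hfin, hF⟩ := hF
  have h1 : F.fixingSubgroup ≤ ρ.ker := fun τ hτ =>
    hF τ fun x hx => (IntermediateField.mem_fixingSubgroup_iff F τ).1 hτ x hx
  exact Subgroup.isOpen_mono h1 (IntermediateField.fixingSubgroup_isOpen F)

/-- the density of the primes `q` with `a_q ≡ t` modulo `p` -/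
theorem density_ap {W : WeierstrassCurve ℤ} {p : ℕ} [hp : Fact p.Prime] (hΔ : W.Δ ≠ 0)
    (hss : W.IsSemistableModel) (hp11 : 11 ≤ p) (hp13 : p ≠ 13) (t : ZMod p) :
    HasDensity {q : ℕ | (W.apOfModel q : ZMod p) = t}
      ((Nat.card {M : Matrix.GeneralLinearGroup (Fin 2) (ZMod p) //
        (M : Matrix (Fin 2) (Fin 2) (ZMod p)).trace = t} : ℝ) /
        Nat.card (Matrix.GeneralLinearGroup (Fin 2) (ZMod p))) := by
  obtain ⟨ρ, hF, hsurj, hρ⟩ := H14.exists_rep hΔ hss hp.out hp11 hp13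
  refine density_of_surjective ρ (isOpen_ker_of_field hF) hsurj
    {M | (M : Matrix (Fin 2) (Fin 2) (ZMod p)).trace = t} _ (insert p W.Δ.natAbs.divisors) ?_
  intro q hq hqZ A φ hA hφ
  rw [Finset.mem_insert, not_or, Nat.mem_divisors, not_and_or, not_not] at hqZ
  have h1 : ¬ (q : ℤ) ∣ W.Δ := by
    intro h
    rcases hqZ.2 with h2 | h2
    · exact h2 (Int.natCast_dvd.mp h)
    · exact hΔ (Int.natAbs_eq_zero.mp h2)
  obtain ⟨h3, -⟩ := (hρ q hq h1 hqZ.1 A hA).2 φ hφ
  rw [Set.mem_ofPred_eq, Set.mem_ofPred_eq, h3]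

theorem density_ap_zero {W : WeierstrassCurve ℤ} {p : ℕ} [hp : Fact p.Prime] (hΔ : W.Δ ≠ 0)
    (hss : W.IsSemistableModel) (hp11 : 11 ≤ p) (hp13 : p ≠ 13) :
    HasDensity {q : ℕ | (p : ℤ) ∣ W.apOfModel q} (p / ((p : ℝ) ^ 2 - 1)) := by
  have h := density_ap hΔ hss hp11 hp13 0
  rw [ratio_zero] at h
  have e : {q : ℕ | (W.apOfModel q : ZMod p) = 0} = {q : ℕ | (p : ℤ) ∣ W.apOfModel q} := by
    ext q
    rw [Set.mem_ofPred_eq, Set.mem_ofPred_eq, ZMod.intCast_zmod_eq_zero_iff_dvd]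
  rwa [e] at h

theorem density_ap_ne_zero {W : WeierstrassCurve ℤ} {p : ℕ} [hp : Fact p.Prime] (hΔ : W.Δ ≠ 0)
    (hss : W.IsSemistableModel) (hp11 : 11 ≤ p) (hp13 : p ≠ 13) {t : ZMod p} (ht : t ≠ 0) :
    HasDensity {q : ℕ | (W.apOfModel q : ZMod p) = t}
      (((p : ℝ) ^ 2 - p - 1) / ((p - 1) * ((p : ℝ) ^ 2 - 1))) := by
  have h := density_ap hΔ hss hp11 hp13 t
  rwa [ratio_ne_zero p ht] at h

/-- **Serre** : the primes with given trace of Frobenius have density zero. -/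
theorem density_ap_eq {W : WeierstrassCurve ℤ} (hΔ : W.Δ ≠ 0) (hss : W.IsSemistableModel)
    (t : ℤ) : HasDensity {q : ℕ | W.apOfModel q = t} 0 := by
  refine HasDensity.zero_of_forall fun ε hε => ?_
  obtain ⟨n, hn⟩ := exists_nat_gt (4 / ε)
  obtain ⟨p, hpn, hp⟩ := Nat.exists_infinite_primes (n + 14)
  haveI : Fact p.Prime := ⟨hp⟩
  refine ⟨_, _, density_ap hΔ hss (by omega) (by omega) (t : ZMod p), ?_, ?_⟩
  · refine (ratio_le p (by omega) _).trans_lt ?_
    have hp0 : (0 : ℝ) < p := by exact_mod_cast hp.pos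
    have h1 : (n : ℝ) ≤ p := by exact_mod_cast (by omega : n ≤ p)
    rw [div_lt_iff₀ hε] at hn
    rw [div_lt_iff₀ hp0]
    calc (4 : ℝ) < n * ε := hn
      _ ≤ p * ε := mul_le_mul_of_nonneg_right h1 hε.le
      _ = ε * p := mul_comm _ _
  · intro q hq
    rw [Set.mem_ofPred_eq] at hq ⊢
    rw [hq]

/-- **Serre** : the supersingular primes of a semistable elliptic curve over `ℚ` have density zero. -/
theorem density_supersingular {W : WeierstrassCurve ℤ} (hΔ : W.Δ ≠ 0)
    (hss : W.IsSemistableModel) : HasDensity {q : ℕ | W.apOfModel q = 0} 0 :=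
  density_ap_eq hΔ hss 0

theorem density_tau (t : ZMod 11) : HasDensity {q : ℕ | (H14.tau q : ZMod 11) = t}
    ((Nat.card {M : Matrix.GeneralLinearGroup (Fin 2) (ZMod 11) //
      (M : Matrix (Fin 2) (Fin 2) (ZMod 11)).trace = t} : ℝ) /
      Nat.card (Matrix.GeneralLinearGroup (Fin 2) (ZMod 11))) := by
  obtain ⟨ρ, hF, hsurj, hρ⟩ := H14.exists_rep_tau
  refine density_of_surjective ρ (isOpen_ker_of_field hF) hsurj
    {M | (M : Matrix (Fin 2) (Fin 2) (ZMod 11)).trace = t} _ {11} ?_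
  intro q hq hqZ A φ hA hφ
  rw [Finset.mem_singleton] at hqZ
  obtain ⟨h3, -⟩ := (hρ q hq hqZ A hA).2 φ hφ
  rw [Set.mem_ofPred_eq, Set.mem_ofPred_eq, h3]

/-- **the density of the primes `q` such that `11 ∣ τ(q)` is `11/120`**. -/
theorem density_tau_zero : HasDensity {q : ℕ | (11 : ℤ) ∣ H14.tau q} (11 / 120) := by
  haveI : Fact (Nat.Prime 11) := ⟨by norm_num⟩
  have h := density_tau 0
  rw [ratio_zero 11] at h
  have e : {q : ℕ | (H14.tau q : ZMod 11) = 0} = {q : ℕ | (11 : ℤ) ∣ H14.tau q} := by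
    ext q
    rw [Set.mem_ofPred_eq, Set.mem_ofPred_eq, ZMod.intCast_zmod_eq_zero_iff_dvd]
    rfl
  rw [e] at h
  convert h using 1
  norm_num

/-- for `t ≢ 0` the density of the primes `q` such that `τ(q) ≡ t mod 11` is `109/1200`. -/
theorem density_tau_ne_zero {t : ZMod 11} (ht : t ≠ 0) :
    HasDensity {q : ℕ | (H14.tau q : ZMod 11) = t} (109 / 1200) := by
  haveI : Fact (Nat.Prime 11) := ⟨by norm_num⟩
  have h := density_tau t
  rw [ratio_ne_zero 11 ht] at h
  convert h using 1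
  norm_num

end Fermat.Agent.Cor.Cheb
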