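import Mathlib
import Fermat.Agent.Cor.SupersingularJ
import Fermat.Agent.Cor.KerDeg

/-!
# Supersingular curves are defined over `𝔽_{p²}`

On a supersingular curve `E` the abscissa of `p P` is `a x(P) ^ (p ^ 2) + b` with constants `a`, `b`. If `E` is the
Legendre curve with parameter `t`, then applying this to the points of order two gives `t ^ (p ^ 2) = t`: all
supersingular parameters `t` and (for `p ≥ 5`) all supersingular `j`-invariants are in `𝔽_{p²}` (Deuring).

This file is not used by any of the statement files.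
-/

set_option autoImplicit false

namespace Fermat.Agent.Cor.Bounds

open Polynomial WeierstrassCurve WeierstrassCurve.Affine WeierstrassCurve.Affine.Point
open Fermat.Agent.Frob Fermat.Agent.H08

universe u v

section insep

variable {F : Type u} [Field F] [Fintype F] {K : Type v} [Field K] [IsAlgClosed K] [Algebra F K]
  [DecidableEq K] {p : ℕ} [hp : Fact p.Prime] [CharP F p]

/-- **Multiplication by `p` on a supersingular curve is purely inseparable.** -/
theorem exists_px_smul (W : WeierstrassCurve F) [W.IsElliptic]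
    (hss : ∀ P : (W.toAffine⁄K).Point, p • P = 0 → P = 0) :
    ∃ a b : K, a ≠ 0 ∧ ∀ P : (W.toAffine⁄K).Point, P ≠ 0 → px (p • P) = a * px P ^ (p ^ 2) + b := by
  classical
  have : CharP K p := charP_of_injective_algebraMap (algebraMap F K).injective p
  obtain ⟨X', Z', hc, hd, hs⟩ := exists_comb_polys (K := K) W 0 p
  have hcomb : ∀ P : (W.toAffine⁄K).Point, comb 0 (p : ℤ) P = p • P := by
    intro P
    rw [comb_apply, zero_smul, zero_add, natCast_zsmul]
  have hdeg : deg2 X' Z' = p ^ 2 := by
    have h : degForm W 0 (p : ℤ) = (p : ℤ) ^ 2 := by rw [degForm]; ring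
    rw [h] at hd
    exact_mod_cast hd
  have hpP : ∀ P : (W.toAffine⁄K).Point, P ≠ 0 → p • P ≠ 0 := fun P hP h => hP (hss P h)
  have hs' : ∀ P : (W.toAffine⁄K).Point, P ≠ 0 → px (p • P) * Z'.eval (px P) = X'.eval (px P) := by
    intro P hP
    have h := hs P hP
    rw [hcomb, xa_of_ne (hpP P hP), xb_of_ne (hpP P hP), one_mul] at h
    exact h
  have hZ : ∀ c : K, Z'.eval c ≠ 0 := by
    intro c h
    obtain ⟨P, hP, rfl⟩ := exists_point_over (W := W.toAffine) (K := K) c
    have h1 := hs' P hP
    rw [h, mul_zero] at h1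
    obtain ⟨u, v, huv⟩ := hc
    have h2 := congrArg (Polynomial.eval (px P)) huv
    rw [eval_add, eval_mul, eval_mul, h, ← h1, mul_zero, mul_zero, add_zero, eval_one] at h2
    exact zero_ne_one h2
  have hZ0 : Z'.degree = 0 := by
    by_contra h
    obtain ⟨c, hc'⟩ := IsAlgClosed.exists_root Z' h
    exact hZ c hc'
  have hZc : Z' = C (Z'.coeff 0) := eq_C_of_degree_eq_zero hZ0
  set z := Z'.coeff 0 with hz
  have hz0 : z ≠ 0 := by
    intro h
    apply hZ 0
    rw [hZc, h]
    simp
  have hX : X'.natDegree = p ^ 2 := by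
    have hZn : Z'.natDegree = 0 := natDegree_eq_of_degree_eq_some (by exact_mod_cast hZ0)
    rw [deg2, hZn, max_eq_left (Nat.zero_le _)] at hdeg
    exact hdeg
  -- there is only one root
  have huniq : ∀ r r' : K, X'.eval r = 0 → X'.eval r' = 0 → r = r' := by
    intro r r' h h'
    obtain ⟨P, hP, rfl⟩ := exists_point_over (W := W.toAffine) (K := K) r
    obtain ⟨P', hP', rfl⟩ := exists_point_over (W := W.toAffine) (K := K) r'
    have h1 : px (p • P) = 0 := (mul_eq_zero.mp ((hs' P hP).trans h)).resolve_right (hZ _)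
    have h1' : px (p • P') = 0 := (mul_eq_zero.mp ((hs' P' hP').trans h')).resolve_right (hZ _)
    rcases (px_eq_iff (hpP P hP) (hpP P' hP')).mp (h1.trans h1'.symm) with h2 | h2
    · have h3 : p • (P - P') = 0 := by rw [smul_sub, h2, sub_self]
      rw [sub_eq_zero.mp (hss _ h3)]
    · have h3 : p • (P + P') = 0 := by rw [smul_add, h2, neg_add_cancel]
      rw [eq_neg_of_add_eq_zero_left (hss _ h3), px_neg]
  have hX0 : X' ≠ 0 := by
    rintro rfl
    rw [natDegree_zero] at hX
    exact absurd hX.symm (pow_ne_zero _ hp.out.ne_zero)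
  have hXd : X'.degree ≠ 0 := by
    intro h
    rw [natDegree_eq_of_degree_eq_some (n := 0) (by exact_mod_cast h)] at hX
    exact absurd hX.symm (pow_ne_zero _ hp.out.ne_zero)
  obtain ⟨r, hr⟩ := IsAlgClosed.exists_root X' hXd
  have hroots : X'.roots = Multiset.replicate (p ^ 2) r := by
    rw [Multiset.eq_replicate]
    refine ⟨?_, ?_⟩
    · rw [splits_iff_card_roots.mp (IsAlgClosed.splits X'), hX]
    · intro b hb
      rw [mem_roots hX0] at hb
      exact huniq b r hb hr
  have heval : ∀ x : K, X'.eval x = X'.leadingCoeff * (x ^ (p ^ 2) - r ^ (p ^ 2)) := by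
    intro x
    rw [(IsAlgClosed.splits X').eval_eq_prod_roots, hroots, Multiset.map_replicate,
      Multiset.prod_replicate, sub_pow_char_pow]
  refine ⟨X'.leadingCoeff / z, - (X'.leadingCoeff / z) * r ^ (p ^ 2), ?_, ?_⟩
  · exact div_ne_zero (leadingCoeff_ne_zero.mpr hX0) hz0
  · intro P hP
    have h := hs' P hP
    rw [heval, hZc, eval_C] at h
    field_simp
    linear_combination h

end insep

section legendre

variable {K : Type v} [Field K] [DecidableEq K]

/-- the points of order two of the Legendre curve -/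
lemma odd_smul_two_torsion {t : K} {Q : (legendre t).toAffine.Point} (hQ : Q ≠ 0)
    (hx : px Q * ((px Q - 1) * (px Q - t)) = 0) (m : ℕ) : (2 * m + 1) • Q = Q := by
  have h1 := eqn_of_ne_zero hQ
  have h2 : py Q ^ 2 = 0 := by
    have h3 : py Q ^ 2 + 0 * px Q * py Q + 0 * py Q =
      px Q ^ 3 + (-(1 + t)) * px Q ^ 2 + t * px Q + 0 := h1
    linear_combination h3 + hx
  have h3 : py Q = 0 := (pow_eq_zero_iff two_ne_zero).mp h2
  have h4 : -Q = Q := by
    apply pt_ext (neg_pt_ne_zero hQ) hQ (px_neg Q)
    rw [py_neg hQ]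
    change - py Q - 0 * px Q - 0 = py Q
    rw [h3]; ring
  have h5 : 2 • Q = 0 := by
    rw [two_smul]
    nth_rewrite 1 [← h4]
    exact neg_add_cancel Q
  rw [add_smul, one_smul, mul_comm, mul_smul, h5, smul_zero, zero_add]

variable {p : ℕ} [hp : Fact p.Prime] [IsAlgClosed K] [Algebra (ZMod p) K]

/-- **The supersingular Legendre parameters are in `𝔽_{p²}`.** -/
theorem legendre_supersingular_pow (hp2 : p ≠ 2) {t : K} (hint : _root_.IsIntegral (ZMod p) t)
    (h0 : t ≠ 0) (h1 : t ≠ 1) (hss : IsSupersingular p (legendre t)) : t ^ (p ^ 2) = t := by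
  obtain ⟨m, hm⟩ := hp.out.odd_of_ne_two hp2
  let F := IntermediateField.adjoin (ZMod p) {t}
  have hfd : FiniteDimensional (ZMod p) F := IntermediateField.adjoin.finiteDimensional hint
  have hfin : Finite F := Module.finite_of_finite (ZMod p)
  have hFt : Fintype F := Fintype.ofFinite F
  have hchar : CharP F p := charP_of_injective_algebraMap (algebraMap (ZMod p) F).injective p
  let s : F := ⟨t, IntermediateField.mem_adjoin_simple_self (ZMod p) t⟩
  have hs : algebraMap F K s = t := rfl
  have hs0 : s ≠ 0 := fun h => h0 (by rw [← hs, h, _root_.map_zero])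
  have hs1 : s ≠ 1 := fun h => h1 (by rw [← hs, h, map_one])
  have hcurve : (((legendre s).toAffine)⁄K : WeierstrassCurve.Affine K) = (legendre t).toAffine := by
    change (legendre s).map (algebraMap F K) = legendre t
    apply WeierstrassCurve.ext
    · exact _root_.map_zero _
    · change algebraMap F K (-(1 + s)) = -(1 + t)
      rw [_root_.map_neg, map_add, map_one, hs]
    · exact _root_.map_zero _
    · exact hs
    · exact _root_.map_zero _
  have h4 := four_ne_zero' (k := F) hp2
  have hell : (legendre s).IsElliptic := by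
    refine ⟨isUnit_iff_ne_zero.mpr ?_⟩
    rw [legendre_Δ, show (16 : F) = 4 * 4 by norm_num]
    exact mul_ne_zero (mul_ne_zero (mul_ne_zero h4 h4) (pow_ne_zero _ hs0))
      (pow_ne_zero _ (sub_ne_zero.mpr hs1))
  let e := castPt hcurve
  obtain ⟨a, b, ha, hab⟩ := exists_px_smul (K := K) (p := p) (legendre s) (by
    intro P hP
    have h4 : p • e P = 0 := by rw [← map_nsmul, hP, _root_.map_zero]
    exact (EmbeddingLike.map_eq_zero_iff (f := e)).mp (hss (e P) h4))
  have key : ∀ x : K, x * ((x - 1) * (x - t)) = 0 → x = a * x ^ (p ^ 2) + b := by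
    intro x hx
    obtain ⟨P, hP, hPx⟩ := exists_point_over (W := (legendre s).toAffine) (K := K) x
    have heP : e P ≠ 0 := (EmbeddingLike.map_ne_zero_iff (f := e)).mpr hP
    have hePx : px (e P) = x := by rw [← hPx]; exact px_castPt hcurve P
    have h5 := odd_smul_two_torsion heP (by rw [hePx]; exact hx) m
    rw [← hm, ← map_nsmul] at h5
    have h6 := e.injective h5
    have h7 := hab P hP
    rw [h6, hPx] at h7
    exact h7
  have hp0 : p ^ 2 ≠ 0 := pow_ne_zero _ hp.out.ne_zero
  have k0 := key 0 (by ring)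
  have k1 := key 1 (by ring)
  have kt := key t (by ring)
  rw [zero_pow hp0, mul_zero, zero_add] at k0
  rw [← k0, add_zero] at k1 kt
  rw [one_pow, mul_one] at k1
  rw [← k1, one_mul] at kt
  exact kt.symm

/-- **Deuring**: the supersingular `j`-invariants are in `𝔽_{p²}`. -/
theorem supersingularJ_pow (h5 : 5 ≤ p) [Algebra.IsAlgebraic (ZMod p) K] {j : K}
    (hj : IsSupersingularJ p j) : j ^ (p ^ 2) = j := by
  obtain ⟨m, hm⟩ := hp.out.odd_of_ne_two (by omega)
  obtain ⟨hc, h2, h3⟩ := char_facts K h5
  rw [← mem_image_ssLeg_iff h5 hm, Finset.mem_image] at hj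
  obtain ⟨t, ht, rfl⟩ := hj
  obtain ⟨h0, h1, hss⟩ := (mem_ssLeg_iff hm t).mp ht
  have ht2 := legendre_supersingular_pow (by omega) (Algebra.IsIntegral.isIntegral t) h0 h1 hss
  have hmap : ∀ x : K, x ^ (p ^ 2) = iterateFrobenius K p 2 x := fun x => rfl
  rw [hmap] at ht2 ⊢
  rw [jLeg]
  simp only [map_div₀, map_mul, map_pow, map_add, _root_.map_sub, map_one, ht2, map_ofNat]

end legendre

end Fermat.Agent.Cor.Bounds
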