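import Mathlib
import Fermat.Agent.Cor.Lehmer
import Fermat.Agent.Cor.TauMod

/-!
# Primes `p` for which `τ(p)` is divisible by `480604320`

* `dvd_tau`: if `p` is a prime and `p ≡ -1` modulo `256 · 27 · 5 · 7 · 23 · 691`, then `τ(p)` is divisible by
  `480604320 = 32 · 27 · 5 · 7 · 23 · 691`.
* `infinite_dvd_tau`: `480604320 ∣ τ(p)` for infinitely many primes `p` (Dirichlet's theorem).

This file is not used by any of the statement files.
-/

set_option autoImplicit false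

namespace Fermat.Agent.Cor.TauDvd

open Fermat.Agent.Cor.RamCong Fermat.Agent.Cor.Mordell Fermat.Agent.Cor.Lehmer
open Fermat.Agent.Cor.TauMod Fermat.Agent.H13 PowerSeries

theorem cast_eq {p m Q : ℕ} (h : Q ∣ p + 1) (hm : m ∣ Q) : (p : ZMod m) = -1 := by
  have h1 := (ZMod.natCast_eq_zero_iff (p + 1) m).mpr (hm.trans h)
  push_cast at h1
  linear_combination h1

theorem dvd_691 {p : ℕ} (hp : p.Prime) (h : (p : ZMod 691) = -1) : (691 : ℤ) ∣ tau p := by
  have h1 := tau_prime_691 hp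
  have h2 := (ZMod.intCast_zmod_eq_zero_iff_dvd _ 691).mpr h1
  apply (ZMod.intCast_zmod_eq_zero_iff_dvd _ 691).mp
  push_cast at h2
  rw [h] at h2
  linear_combination h2

theorem dvd_5 {p : ℕ} (hp : p.Prime) (h : (p : ZMod 5) = -1) : (5 : ℤ) ∣ tau p := by
  have h1 := tau_prime_five hp
  have h2 := (ZMod.intCast_zmod_eq_zero_iff_dvd _ 5).mpr h1
  apply (ZMod.intCast_zmod_eq_zero_iff_dvd _ 5).mp
  push_cast at h2
  rw [h] at h2
  linear_combination h2

theorem dvd_7 {p : ℕ} (hp : p.Prime) (h : (p : ZMod 7) = -1) : (7 : ℤ) ∣ tau p := by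
  have h1 := tau_prime_seven hp
  have h2 := (ZMod.intCast_zmod_eq_zero_iff_dvd _ 7).mpr h1
  apply (ZMod.intCast_zmod_eq_zero_iff_dvd _ 7).mp
  push_cast at h2
  rw [h] at h2
  linear_combination h2

theorem dvd_27 {p : ℕ} (hp : p.Prime) (h : (p : ZMod 27) = -1) : (27 : ℤ) ∣ tau p := by
  have h1 := (show (27 : ℤ) ∣ 540 by norm_num).trans (tau_mod_540 p)
  rw [ArithmeticFunction.sigma_apply, hp.sum_divisors] at h1
  have h2 := (ZMod.intCast_zmod_eq_zero_iff_dvd _ 27).mpr h1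
  apply (ZMod.intCast_zmod_eq_zero_iff_dvd _ 27).mp
  push_cast at h2
  rw [h] at h2
  linear_combination h2

theorem not_square_23 : ¬ IsSquare (-1 : ZMod 23) := by decide +kernel

theorem dvd_23 {p : ℕ} (h : (p : ZMod 23) = -1) : (23 : ℤ) ∣ tau p := by
  apply tau_dvd_23
  rw [h]
  exact not_square_23

theorem dvd_32 {p : ℕ} (hp : p.Prime) (h : (p : ZMod 256) = -1) : (32 : ℤ) ∣ tau p := by
  have h1 := tau_sigma_eleven p
  rw [ArithmeticFunction.sigma_apply, ArithmeticFunction.sigma_apply,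
    ArithmeticFunction.sigma_apply, hp.sum_divisors, hp.sum_divisors, hp.sum_divisors] at h1
  have h2 := congrArg (Int.cast (R := ZMod 256)) h1
  push_cast at h2
  have h19200 : (19200 : ZMod 256) = 0 := by decide
  rw [h19200, h] at h2
  have h3 : ((600 * tau p : ℤ) : ZMod 256) = 0 := by
    push_cast
    linear_combination h2
  have h4 := (ZMod.intCast_zmod_eq_zero_iff_dvd _ 256).mp h3
  push_cast at h4
  omega

/-- if `p ≡ -1` modulo `256 · 27 · 5 · 7 · 23 · 691` then `32 · 27 · 5 · 7 · 23 · 691` divides `τ(p)` -/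
theorem dvd_tau {p : ℕ} (hp : p.Prime) (h : 256 * 27 * 5 * 7 * 23 * 691 ∣ p + 1) :
    ((32 * 27 * 5 * 7 * 23 * 691 : ℕ) : ℤ) ∣ tau p := by
  have key : ∀ m : ℕ, (m : ℤ) ∣ tau p → m ∣ (tau p).natAbs := fun m hm ↦ Int.natCast_dvd.mp hm
  have h32 := key 32 (dvd_32 hp (cast_eq h (by norm_num)))
  have h27 := key 27 (dvd_27 hp (cast_eq h (by norm_num)))
  have h5 := key 5 (dvd_5 hp (cast_eq h (by norm_num)))
  have h7 := key 7 (dvd_7 hp (cast_eq h (by norm_num)))
  have h23 := key 23 (dvd_23 (p := p) (cast_eq h (by norm_num)))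
  have h691 := key 691 (dvd_691 hp (cast_eq h (by norm_num)))
  apply Int.natCast_dvd.mpr
  have a1 : 32 * 27 ∣ (tau p).natAbs := Nat.Coprime.mul_dvd_of_dvd_of_dvd (by norm_num) h32 h27
  have a2 : 32 * 27 * 5 ∣ (tau p).natAbs := Nat.Coprime.mul_dvd_of_dvd_of_dvd (by norm_num) a1 h5
  have a3 : 32 * 27 * 5 * 7 ∣ (tau p).natAbs :=
    Nat.Coprime.mul_dvd_of_dvd_of_dvd (by norm_num) a2 h7
  have a4 : 32 * 27 * 5 * 7 * 23 ∣ (tau p).natAbs :=
    Nat.Coprime.mul_dvd_of_dvd_of_dvd (by norm_num) a3 h23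
  exact Nat.Coprime.mul_dvd_of_dvd_of_dvd (by norm_num) a4 h691

/-- **`480604320 ∣ τ(p)` for infinitely many primes `p`** -/
theorem infinite_dvd_tau : {p : ℕ | p.Prime ∧ (480604320 : ℤ) ∣ tau p}.Infinite := by
  have : NeZero (256 * 27 * 5 * 7 * 23 * 691) := ⟨by norm_num⟩
  have h := Nat.infinite_setOfPred_prime_and_eq_mod (q := 256 * 27 * 5 * 7 * 23 * 691) (a := -1)
    isUnit_one.neg
  refine h.mono fun p hp ↦ ⟨hp.1, ?_⟩
  have h1 : 256 * 27 * 5 * 7 * 23 * 691 ∣ p + 1 := by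
    apply (ZMod.natCast_eq_zero_iff _ _).mp
    rw [Nat.cast_add, Nat.cast_one, hp.2, neg_add_cancel]
  have h2 := dvd_tau hp.1 h1
  rwa [show ((32 * 27 * 5 * 7 * 23 * 691 : ℕ) : ℤ) = 480604320 by norm_num] at h2

end Fermat.Agent.Cor.TauDvd
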