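import Fermat.Agent.Cor.ThetaJacobi

/-!
# Theta constants and the arithmetic-geometric mean

* `th3_two_mul`, `th4_two_mul`: `θ₃(2τ)² = (θ₃(τ)² + θ₄(τ)²) / 2` and `θ₄(2τ)² = θ₃(τ) θ₄(τ)`;
* `agm_theta` (Gauss): for `t > 0` the arithmetic-geometric mean of `θ₃(it)²` and `θ₄(it)²` is `1`.

This file is not used by any of the statement files.
-/

set_option autoImplicit false

open Filter Topology Function Complex
open UpperHalfPlane hiding I
open scoped Real MatrixGroups ModularForm Manifold NNReal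
open Fermat.Agent.IntStr Fermat.Agent.AL

noncomputable section

namespace Fermat.Agent.Cor.FourSq

/-- `2 τ` -/
def dbl (τ : ℍ) : ℍ := aff 2 1 0 τ

theorem coe_dbl (τ : ℍ) : (dbl τ : ℂ) = 2 * τ := by
  rw [dbl, coe_aff two_pos one_pos]
  push_cast
  ring

/-- `(a, b) ↦ (a + b, a - b)` -/
def rot (x : Fin 2 → ℤ) : Fin 2 → ℤ := ![x 0 + x 1, x 0 - x 1]

theorem rot_injective : Function.Injective rot := by
  intro x y h
  have h0 : x 0 + x 1 = y 0 + y 1 := congrFun h 0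
  have h1 : x 0 - x 1 = y 0 - y 1 := congrFun h 1
  ext i
  fin_cases i
  · change x 0 = y 0; omega
  · change x 1 = y 1; omega

theorem mem_range_rot {y : Fin 2 → ℤ} (h : Even (∑ i, y i)) : y ∈ Set.range rot := by
  rw [Fin.sum_univ_two] at h
  obtain ⟨a, ha⟩ := h
  refine ⟨![a, a - y 1], ?_⟩
  ext i
  fin_cases i
  · change a + (a - y 1) = y 0; omega
  · change a - (a - y 1) = y 1; omega

theorem even_sum_rot (x : Fin 2 → ℤ) : Even (∑ i, rot x i) := by
  rw [Fin.sum_univ_two]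
  exact ⟨x 0, by change x 0 + x 1 + (x 0 - x 1) = _; ring⟩

/-- transfer of a sum over even-sum pairs -/
theorem hasSum_rot {f : (Fin 2 → ℤ) → ℂ} {a : ℂ}
    (hf : HasSum f a) (h0 : ∀ x, ¬ Even (∑ i, x i) → f x = 0) : HasSum (f ∘ rot) a := by
  rw [rot_injective.hasSum_iff]
  · exact hf
  · intro y hy
    exact h0 y fun h ↦ hy (mem_range_rot h)

theorem tmd_rot (τ : ℍ) (x : Fin 2 → ℤ) : tmd 0 τ (rot x) = tmd 0 (dbl τ) x := by
  rw [tmd, tmd, coe_dbl, Fin.sum_univ_two, Fin.sum_univ_two]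
  congr 1
  have e0 : rot x 0 = x 0 + x 1 := rfl
  have e1 : rot x 1 = x 0 - x 1 := rfl
  rw [e0, e1]
  push_cast
  ring

theorem th3_two_mul (τ : ℍ) : th3 (dbl τ) ^ 2 = (th3 τ ^ 2 + th4 τ ^ 2) / 2 := by
  classical
  have h1 := hasSum_rot (hasSum_th34 (m := 2) τ) (fun x hx ↦ if_neg hx)
  have h2 := hasSum_tmd 2 0 (dbl τ).im_pos
  rw [tsum_tm_zero] at h2
  have e : ((fun x : Fin 2 → ℤ ↦ if Even (∑ i, x i) then tmd 0 τ x else 0) ∘ rot) =
      tmd 0 (dbl τ) := by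
    ext x
    rw [comp_apply, if_pos (even_sum_rot x), tmd_rot]
  rw [e] at h1
  exact h2.unique h1

/-- `(-1)^n` -/
def sg (n : ℤ) : ℂ := cexp (π * I * n)

theorem sg_add (m n : ℤ) : sg (m + n) = sg m * sg n := by
  rw [sg, sg, sg, ← Complex.exp_add]
  congr 1
  push_cast
  ring

theorem sg_even {n : ℤ} (h : Even n) : sg n = 1 := by
  obtain ⟨m, rfl⟩ := h.two_dvd
  rw [sg]
  have : (π * I * ((2 * m : ℤ) : ℂ)) = m * (2 * π * I) := by push_cast; ring
  rw [this, Complex.exp_int_mul_two_pi_mul_I]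

theorem sg_odd {n : ℤ} (h : Odd n) : sg n = -1 := by
  obtain ⟨m, rfl⟩ := h
  rw [sg]
  have : (π * I * ((2 * m + 1 : ℤ) : ℂ)) = m * (2 * π * I) + π * I := by push_cast; ring
  rw [this, Complex.exp_add, Complex.exp_int_mul_two_pi_mul_I, Complex.exp_pi_mul_I, one_mul]

theorem sg_congr {m n : ℤ} (h : Even m ↔ Even n) : sg m = sg n := by
  rcases Int.even_or_odd m with hm | hm
  · rw [sg_even hm, sg_even (h.mp hm)]
  · have hn : Odd n := by
      rw [← Int.not_even_iff_odd, ← h, Int.not_even_iff_odd]; exact hm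
    rw [sg_odd hm, sg_odd hn]

theorem tm_one_add (z : ℂ) (n : ℤ) : tm 0 (1 + z) n = sg n * tm 0 z n := by
  have h : sg n = sg (n ^ 2) := sg_congr (by rw [Int.even_pow' two_ne_zero])
  rw [h, sg, tm, tm, ← Complex.exp_add]
  congr 1
  push_cast
  ring

theorem hasSum_th4 (τ : ℍ) : (Summable fun n ↦ ‖sg n * tm 0 τ n‖) ∧
    HasSum (fun n ↦ sg n * tm 0 τ n) (th4 τ) := by
  have him : 0 < ((1 : ℂ) + τ).im := by simpa using τ.im_pos
  have h := as_tm 0 him
  rw [tsum_tm_zero] at h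
  have e : (fun n ↦ tm 0 (1 + τ) n) = fun n ↦ sg n * tm 0 τ n := funext fun n ↦ tm_one_add _ n
  constructor
  · have h1 := h.1
    simp only [tm_one_add] at h1
    exact h1
  · rw [← e]; exact h.2

/-- the pairs -/
def pairEquiv : ℤ × ℤ ≃ (Fin 2 → ℤ) := (finTwoArrowEquiv ℤ).symm

theorem hasSum_th3_th4 (τ : ℍ) :
    HasSum (fun x : Fin 2 → ℤ ↦ sg (x 1) * tmd 0 τ x) (th3 τ * th4 τ) := by
  have h3 := as_tm 0 τ.im_pos
  rw [tsum_tm_zero] at h3
  have h : HasSum (fun p : ℤ × ℤ ↦ tm 0 τ p.1 * (sg p.2 * tm 0 τ p.2)) (th3 τ * th4 τ) :=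
    (prod_as h3 (hasSum_th4 τ)).2
  rw [← pairEquiv.hasSum_iff]
  convert h using 1
  ext p
  have e0 : pairEquiv p 0 = p.1 := rfl
  have e1 : pairEquiv p 1 = p.2 := rfl
  rw [comp_apply, e1, tmd, tm, tm, Fin.sum_univ_two, e0, e1]
  rw [mul_left_comm, ← Complex.exp_add]
  congr 2
  ring

/-- the swap -/
def swp : Equiv.Perm (Fin 2 → ℤ) where
  toFun x := ![x 1, x 0]
  invFun x := ![x 1, x 0]
  left_inv x := by
    ext i
    fin_cases i <;> rfl
  right_inv x := by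
    ext i
    fin_cases i <;> rfl

theorem tmd_swp (z : ℂ) (x : Fin 2 → ℤ) : tmd 0 z (swp x) = tmd 0 z x := by
  rw [tmd, tmd, Fin.sum_univ_two, Fin.sum_univ_two]
  congr 3
  have e0 : swp x 0 = x 1 := rfl
  have e1 : swp x 1 = x 0 := rfl
  rw [e0, e1, add_comm]

theorem hasSum_sym (τ : ℍ) :
    HasSum (fun x : Fin 2 → ℤ ↦ (sg (x 0) + sg (x 1)) / 2 * tmd 0 τ x) (th3 τ * th4 τ) := by
  have h1 := hasSum_th3_th4 τ
  have h2 := swp.hasSum_iff.mpr h1
  have h3 := (h1.add h2).div_const 2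
  have e : (th3 τ * th4 τ + th3 τ * th4 τ) / 2 = th3 τ * th4 τ := by ring
  rw [e] at h3
  have e2 : (fun x : Fin 2 → ℤ ↦ (sg (x 0) + sg (x 1)) / 2 * tmd 0 τ x) = fun x ↦
      (sg (x 1) * tmd 0 τ x + ((fun x : Fin 2 → ℤ ↦ sg (x 1) * tmd 0 τ x) ∘ swp) x) / 2 := by
    funext x
    have e1 : swp x 1 = x 0 := rfl
    rw [comp_apply, tmd_swp, e1]
    ring
  rw [e2]
  exact h3

theorem th4_two_mul (τ : ℍ) : th4 (dbl τ) ^ 2 = th3 τ * th4 τ := by
  have h1 := hasSum_rot (hasSum_sym τ) (fun x hx ↦ by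
    have h2 : sg (x 0) + sg (x 1) = 0 := by
      rw [Fin.sum_univ_two, Int.not_even_iff_odd] at hx
      rcases Int.even_or_odd (x 0) with h0 | h0
      · have h1 : Odd (x 1) := (Int.odd_add'.mp hx).mpr h0
        rw [sg_even h0, sg_odd h1]; ring
      · have h1 : Even (x 1) := (Int.odd_add.mp hx).mp h0
        rw [sg_odd h0, sg_even h1]; ring
    rw [h2]; ring)
  have h2 := (pow_as (hasSum_th4 (dbl τ)) 2).2
  have e : ((fun x : Fin 2 → ℤ ↦ (sg (x 0) + sg (x 1)) / 2 * tmd 0 τ x) ∘ rot) =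
      fun x : Fin 2 → ℤ ↦ ∏ i, sg (x i) * tm 0 (dbl τ) (x i) := by
    funext x
    rw [comp_apply, tmd_rot, Finset.prod_mul_distrib, prod_tm, Fin.prod_univ_two]
    have e0 : rot x 0 = x 0 + x 1 := rfl
    have e1 : rot x 1 = x 0 - x 1 := rfl
    have e2 : sg (x 0 - x 1) = sg (x 0 + x 1) := sg_congr (by
      rw [Int.even_sub, Int.even_add])
    rw [e0, e1, e2, sg_add, tmd]
    ring
  rw [e] at h1
  exact h2.unique h1

/-! ### The imaginary axis -/

/-- the point `it` -/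
def pt (t : ℝ) (ht : 0 < t) : ℍ := ⟨t * I, by simpa using ht⟩

theorem dbl_pt {t : ℝ} (ht : 0 < t) : dbl (pt t ht) = pt (2 * t) (by positivity) := by
  apply UpperHalfPlane.ext
  rw [coe_dbl]
  change 2 * (t * I : ℂ) = ((2 * t : ℝ) : ℂ) * I
  push_cast
  ring

theorem tm_pt {t : ℝ} (ht : 0 < t) (n : ℤ) :
    tm 0 (pt t ht) n = ((Real.exp (-(π * n ^ 2 * t)) : ℝ) : ℂ) := by
  rw [tm, Complex.ofReal_exp]
  congr 1
  have : (pt t ht : ℂ) = t * I := rfl
  rw [this]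
  push_cast
  linear_combination (π * n ^ 2 * t : ℂ) * I_sq

/-- `θ₃(it)` -/
def aR (t : ℝ) (ht : 0 < t) : ℝ := (th3 (pt t ht)).re

/-- `θ₄(it)` -/
def bR (t : ℝ) (ht : 0 < t) : ℝ := (th4 (pt t ht)).re

theorem th3_pt {t : ℝ} (ht : 0 < t) : th3 (pt t ht) = aR t ht := by
  have h := (as_tm 0 (pt t ht).im_pos).2
  rw [tsum_tm_zero] at h
  have h1 := Complex.hasSum_im h
  have e : (fun n ↦ (tm 0 (pt t ht) n).im) = fun _ ↦ 0 := by
    funext n
    rw [tm_pt, Complex.ofReal_im]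
  rw [e] at h1
  have h2 : (th3 (pt t ht)).im = 0 := h1.unique hasSum_zero
  apply Complex.ext
  · simp [aR]
  · simpa using h2

theorem th4_pt {t : ℝ} (ht : 0 < t) : th4 (pt t ht) = bR t ht := by
  have h1 := Complex.hasSum_im (hasSum_th4 (pt t ht)).2
  have e : (fun n ↦ (sg n * tm 0 (pt t ht) n).im) = fun _ ↦ 0 := by
    funext n
    rw [tm_pt]
    rcases Int.even_or_odd n with h | h
    · rw [sg_even h, one_mul, Complex.ofReal_im]
    · rw [sg_odd h, neg_one_mul, Complex.neg_im, Complex.ofReal_im, neg_zero]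
  rw [e] at h1
  have h2 : (th4 (pt t ht)).im = 0 := h1.unique hasSum_zero
  apply Complex.ext
  · simp [bR]
  · simpa using h2

theorem aR_pos {t : ℝ} (ht : 0 < t) : 0 < aR t ht := by
  have h := (as_tm 0 (pt t ht).im_pos).2
  rw [tsum_tm_zero] at h
  have h1 := Complex.hasSum_re h
  have e : (fun n ↦ (tm 0 (pt t ht) n).re) = fun n : ℤ ↦ Real.exp (-(π * n ^ 2 * t)) := by
    funext n
    rw [tm_pt, Complex.ofReal_re]
  rw [e] at h1
  have h2 := le_hasSum h1 0 (fun n _ ↦ (Real.exp_pos _).le)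
  exact lt_of_lt_of_le (Real.exp_pos _) h2

theorem aR_two_mul {t : ℝ} (ht : 0 < t) :
    aR (2 * t) (by positivity) ^ 2 = (aR t ht ^ 2 + bR t ht ^ 2) / 2 := by
  have h := th3_two_mul (pt t ht)
  rw [dbl_pt, th3_pt, th3_pt, th4_pt] at h
  exact_mod_cast h

theorem bR_two_mul {t : ℝ} (ht : 0 < t) :
    bR (2 * t) (by positivity) ^ 2 = aR t ht * bR t ht := by
  have h := th4_two_mul (pt t ht)
  rw [dbl_pt, th4_pt, th3_pt, th4_pt] at h
  exact_mod_cast h

theorem bR_pos {t : ℝ} (ht : 0 < t) : 0 < bR t ht := by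
  have h := bR_two_mul ht
  have h1 : bR (2 * t) (by positivity) ≠ 0 := by
    intro h2
    have h3 := (th_ne_zero (pt (2 * t) (by positivity))).2.2
    rw [th4_pt, h2] at h3
    exact h3 (by simp)
  have h4 : 0 < bR (2 * t) (by positivity) ^ 2 := by positivity
  rw [h] at h4
  exact (pos_iff_pos_of_mul_pos h4).mp (aR_pos ht)

/-- `θ₄(it)²` -/
def xR (t : ℝ) (ht : 0 < t) : ℝ≥0 := ⟨bR t ht ^ 2, sq_nonneg _⟩

/-- `θ₃(it)²` -/
def yR (t : ℝ) (ht : 0 < t) : ℝ≥0 := ⟨aR t ht ^ 2, sq_nonneg _⟩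

theorem agm_step {t : ℝ} (ht : 0 < t) : NNReal.agm (xR t ht) (yR t ht) =
    NNReal.agm (xR (2 * t) (by positivity)) (yR (2 * t) (by positivity)) := by
  rw [NNReal.agm_eq_agm_gm_am]
  have h1 : NNReal.sqrt (xR t ht * yR t ht) = xR (2 * t) (by positivity) := by
    rw [NNReal.sqrt_eq_iff_eq_sq]
    apply NNReal.coe_injective
    push_cast
    change bR t ht ^ 2 * aR t ht ^ 2 = (bR (2 * t) _ ^ 2) ^ 2
    rw [bR_two_mul ht]
    ring
  have h2 : (xR t ht + yR t ht) / 2 = yR (2 * t) (by positivity) := by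
    apply NNReal.coe_injective
    push_cast
    change (bR t ht ^ 2 + aR t ht ^ 2) / 2 = aR (2 * t) _ ^ 2
    rw [aR_two_mul ht]
    ring
  rw [h1, h2]

theorem agm_iterate {t : ℝ} (ht : 0 < t) (n : ℕ) : NNReal.agm (xR t ht) (yR t ht) =
    NNReal.agm (xR (2 ^ n * t) (by positivity)) (yR (2 ^ n * t) (by positivity)) := by
  induction n with
  | zero => simp
  | succ n ih =>
    rw [ih, agm_step]
    have e : 2 * (2 ^ n * t) = 2 ^ (n + 1) * t := by ring
    simp only [e]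

theorem tendsto_pt {t : ℝ} (ht : 0 < t) :
    Tendsto (fun n : ℕ ↦ pt (2 ^ n * t) (by positivity)) atTop atImInfty := by
  rw [atImInfty, tendsto_comap_iff]
  have e : (UpperHalfPlane.im ∘ fun n : ℕ ↦ pt (2 ^ n * t) (by positivity)) =
      fun n : ℕ ↦ 2 ^ n * t := by
    funext n
    change ((((2 ^ n * t : ℝ) : ℂ) * I)).im = _
    rw [Complex.im_ofReal_mul, Complex.I_im, mul_one]
  rw [e]
  exact (tendsto_pow_atTop_atTop_of_one_lt one_lt_two).atTop_mul_const ht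

theorem tendsto_th3 : Tendsto th3 atImInfty (𝓝 1) := tendsto_jt.comp tendsto_coe

theorem tendsto_th4 : Tendsto th4 atImInfty (𝓝 1) := tendsto_jt.comp tendsto_one_add

theorem tendsto_yR {t : ℝ} (ht : 0 < t) :
    Tendsto (fun n : ℕ ↦ yR (2 ^ n * t) (by positivity)) atTop (𝓝 1) := by
  rw [← NNReal.tendsto_coe]
  have h1 := (Complex.continuous_re.tendsto _).comp (tendsto_th3.comp (tendsto_pt ht))
  have h2 := h1.pow 2
  have h3 : Tendsto (fun n : ℕ ↦ (th3 (pt (2 ^ n * t) (by positivity))).re ^ 2) atTop (𝓝 1) := by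
    simpa using h2
  exact h3

theorem tendsto_xR {t : ℝ} (ht : 0 < t) :
    Tendsto (fun n : ℕ ↦ xR (2 ^ n * t) (by positivity)) atTop (𝓝 1) := by
  rw [← NNReal.tendsto_coe]
  have h1 := (Complex.continuous_re.tendsto _).comp (tendsto_th4.comp (tendsto_pt ht))
  have h2 := h1.pow 2
  have h3 : Tendsto (fun n : ℕ ↦ (th4 (pt (2 ^ n * t) (by positivity))).re ^ 2) atTop (𝓝 1) := by
    simpa using h2
  exact h3

/-- **Gauss.** The arithmetic-geometric mean of `θ₄(it)²` and `θ₃(it)²` is `1`. -/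
theorem agm_theta {t : ℝ} (ht : 0 < t) : NNReal.agm (xR t ht) (yR t ht) = 1 := by
  refine le_antisymm ?_ ?_
  · have h : Tendsto (fun n : ℕ ↦ max (xR (2 ^ n * t) (by positivity))
        (yR (2 ^ n * t) (by positivity))) atTop (𝓝 (max 1 1)) :=
      (tendsto_xR ht).max (tendsto_yR ht)
    rw [max_self] at h
    exact ge_of_tendsto' h fun n ↦ by rw [agm_iterate ht n]; exact NNReal.agm_le_max
  · have h : Tendsto (fun n : ℕ ↦ min (xR (2 ^ n * t) (by positivity))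
        (yR (2 ^ n * t) (by positivity))) atTop (𝓝 (min 1 1)) :=
      (tendsto_xR ht).min (tendsto_yR ht)
    rw [min_self] at h
    exact le_of_tendsto' h fun n ↦ by rw [agm_iterate ht n]; exact NNReal.min_le_agm

end Fermat.Agent.Cor.FourSq
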