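import Fermat.Agent.Cor.Milnor

/-!
# The theta series of `D₁₆⁺` and `E₈ ⊕ E₈` is `E₈`

`card_D16`: for `n > 0` the lattice `D₁₆⁺` has `480 σ₇(n)` vectors of norm `2 n`; the same holds for
`E₈ ⊕ E₈` (`card_E8E8`).

This file is not used by any of the statement files.
-/

set_option autoImplicit false

open Filter Topology Function
open UpperHalfPlane hiding I
open CongruenceSubgroup ModularForm EisensteinSeries
open scoped Real MatrixGroups ModularForm Manifold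
open Fermat.Agent.IntStr Fermat.Agent.AL

noncomputable section

namespace Fermat.Agent.Cor.FourSq

/-- The Eisenstein series of weight eight. -/
def Ei8 : ModularForm 𝒮ℒ 8 := E (k := 8) (by norm_num)

theorem isMN_Ei8 : IsMN 1 8 (Ei8 : ℍ → ℂ) where
  slash γ _ := SlashInvariantFormClass.slash_action_eq Ei8 _ ⟨γ, rfl⟩
  holo := ModularFormClass.holo Ei8
  bdd γ := by
    have h : (Ei8 : ℍ → ℂ) ∣[(8 : ℤ)] γ = Ei8 :=
      SlashInvariantFormClass.slash_action_eq Ei8 _ ⟨γ, rfl⟩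
    rw [h]
    exact ModularFormClass.bdd_at_infty Ei8

/-- The coefficients of the Eisenstein series of weight eight. -/
def c8 (n : ℕ) : ℂ := (if n = 0 then 1 else 0) + 480 * (ArithmeticFunction.sigma 7 n : ℕ)

theorem coeff_Ei8 (n : ℕ) : (qExpansion 1 (Ei8 : ℍ → ℂ)).coeff n = c8 n := by
  have h := E_qExpansion_coeff (k := 8) (by norm_num) ⟨4, rfl⟩ n
  rw [Ei8]
  refine h.trans ?_
  rw [show bernoulli 8 = -1 / 30 by decide +kernel, c8]
  split_ifs with h
  · subst h; simp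
  · push_cast
    norm_num

theorem hasSum_Ei8 (τ : ℍ) :
    HasSum (fun n : ℕ ↦ c8 n • Periodic.qParam 1 (τ : ℂ) ^ n) (Ei8 τ) := by
  have hQ := isMN_Ei8.mem_QR
  have h2 := UpperHalfPlane.hasSum_qExpansion one_pos hQ.1 hQ.2.1 hQ.2.2 τ
  convert h2 using 1
  ext n
  congr 1
  exact (coeff_Ei8 n).symm

/-- The difference. -/
def DM8 : ModularForm (Gamma0 1) 8 := (1 / 2 : ℂ) • isMN_W16.form - isMN_Ei8.form

theorem DM8_apply (τ : ℍ) : DM8 τ = W16 τ / 2 - Ei8 τ := by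
  change 1 / 2 * W16 τ - Ei8 τ = _
  ring

theorem coeff_DM8 (n : ℕ) : (qExpansion 1 DM8).coeff n = rD 16 n - c8 n := by
  refine (ModularFormClass.qExpansion_coeff_unique (c := fun n ↦ (rD 16 n : ℂ) - c8 n)
    (h := 1) one_pos (Γ := (Gamma0 1 : Subgroup (GL (Fin 2) ℝ)))
    (by simp [CongruenceSubgroup.strictPeriods_Gamma0]) (f := DM8) (fun τ ↦ ?_) n).symm
  have h2 := (hasSum_W16 τ).sub (hasSum_Ei8 τ)
  rw [DM8_apply]
  simp only [← sub_smul] at h2
  exact h2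

theorem DM8_eq_zero : DM8 = 0 := by
  refine ModularForm.sturm_bound_Gamma0 1 DM8 fun n hn ↦ ?_
  have h1 : (Gamma0 1).index = 1 := by
    rw [Subgroup.index_eq_one, eq_top_iff]
    intro γ _
    rw [mem_Gamma0_iff]
    simp
  rw [h1] at hn
  have hn' : n ≤ 0 := hn
  obtain rfl : n = 0 := by omega
  rw [coeff_DM8, rD_zero (by norm_num), c8]
  simp

theorem rD_sixteen {n : ℕ} (hn : 0 < n) : rD 16 n = 480 * ArithmeticFunction.sigma 7 n := by
  have h1 := coeff_DM8 n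
  have h0 : (qExpansion 1 DM8).coeff n = 0 := by
    rw [DM8_eq_zero, FunLike.coe_zero, qExpansion_zero]
    rfl
  rw [h0, c8, if_neg hn.ne'] at h1
  have h2 : (rD 16 n : ℂ) = ((480 * ArithmeticFunction.sigma 7 n : ℕ) : ℂ) := by
    push_cast
    linear_combination -h1
  exact_mod_cast h2

/-- **`D₁₆⁺` has `480 σ₇(n)` vectors of norm `2 n`.** (The lattice is scaled by `2`.) -/
theorem card_D16 {n : ℕ} (hn : 0 < n) : Nat.card {z : LD 16 // ∑ i, z.1 i ^ 2 = 8 * n} =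
    480 * ArithmeticFunction.sigma 7 n := by
  rw [← rD_sixteen hn, rD]
  refine Nat.card_congr ⟨fun z ↦ ⟨z.1.1, z.1.2, ?_⟩,
    fun y ↦ ⟨⟨y.1, y.2.1⟩, ?_⟩, fun z ↦ rfl, fun p ↦ rfl⟩
  · have h1 := Int.mul_ediv_cancel' (InD.eight_dvd (by norm_num) z.1.2)
    have h3 := z.2
    rw [nrD]
    omega
  · have h1 := Int.mul_ediv_cancel' (InD.eight_dvd (by norm_num) y.2.1)
    have h3 := y.2.2
    rw [nrD] at h3
    change ∑ i, y.1 i ^ 2 = 8 * n
    omega

/-- **`E₈ ⊕ E₈` has `480 σ₇(n)` vectors of norm `2 n`.** (The lattice is scaled by `2`.) -/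
theorem card_E8E8 {n : ℕ} (hn : 0 < n) : Nat.card {z : (LD 8).prod (LD 8) //
    ∑ i, z.1.1 i ^ 2 + ∑ i, z.1.2 i ^ 2 = 8 * n} = 480 * ArithmeticFunction.sigma 7 n := by
  rw [milnor.1 n, card_D16 hn]

/-- `E₄² = E₈`, as a consequence of the equality of the theta series. -/
theorem E4_mul_E4 (τ : ℍ) : E₄ τ * E₄ τ = Ei8 τ := by
  have h1 : DM τ = 0 := by rw [DM_eq_zero]; rfl
  have h2 : DM8 τ = 0 := by rw [DM8_eq_zero]; rfl
  rw [DM_apply] at h1
  rw [DM8_apply] at h2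
  linear_combination h2 - h1

end Fermat.Agent.Cor.FourSq
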