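import Fermat.Agent.Cor.ThetaJacobi

/-!
# The theta series of `D₂₄⁺`

`theta_D24`: `(θ₂²⁴ + θ₃²⁴ + θ₄²⁴) / 2 = E₄³ + 384 Δ`; the number of vectors of norm `2 n` in `D₂₄⁺` is
the coefficient of `q ^ n` in `E₄³ + 384 Δ` (`hasSum_D24`).

This file is not used by any of the statement files.
-/

set_option autoImplicit false

open Filter Topology Function
open UpperHalfPlane hiding I
open CongruenceSubgroup ModularForm EisensteinSeries
open scoped Real MatrixGroups ModularForm Manifold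
open Fermat.Agent.IntStr Fermat.Agent.AL

noncomputable section

namespace Fermat.Agent.Cor.FourSq

/-- `(θ₂²⁴ + θ₃²⁴ + θ₄²⁴) / 2 = E₄³ + 384 Δ` -/
theorem theta_D24 (τ : ℍ) : (th2 τ ^ 24 + th3 τ ^ 24 + th4 τ ^ 24) / 2 =
    E₄ τ ^ 3 + 384 * ModularForm.discriminant τ := by
  have h := jacobi_identity τ
  have hD := discriminant_eq τ
  have hD' : ModularForm.discriminant τ = (th2 τ * th3 τ * th4 τ) ^ 8 / 256 := by
    rw [← hD]; ring
  have e8 : th3 τ ^ 8 = (th2 τ ^ 4 + th4 τ ^ 4) ^ 2 := by rw [← h]; ring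
  have e24 : th3 τ ^ 24 = (th2 τ ^ 4 + th4 τ ^ 4) ^ 6 := by rw [← h]; ring
  rw [hD', E4_eq, mul_pow, mul_pow, e8, e24]
  ring

/-- `(θ₂¹⁶ + θ₃¹⁶ + θ₄¹⁶) / 2 = E₄²` -/
theorem theta_D16 (τ : ℍ) : (th2 τ ^ 16 + th3 τ ^ 16 + th4 τ ^ 16) / 2 = E₄ τ ^ 2 := by
  have h := jacobi_identity τ
  have e8 : th3 τ ^ 8 = (th2 τ ^ 4 + th4 τ ^ 4) ^ 2 := by rw [← h]; ring
  have e16 : th3 τ ^ 16 = (th2 τ ^ 4 + th4 τ ^ 4) ^ 4 := by rw [← h]; ring
  rw [E4_eq, e8, e16]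
  ring

theorem hasSum_D24 (τ : ℍ) :
    HasSum (fun n : ℕ ↦ (rD 24 n : ℂ) • Periodic.qParam 1 (τ : ℂ) ^ n)
      (E₄ τ ^ 3 + 384 * ModularForm.discriminant τ) := by
  have h := hasSum_rD (m := 24) (by norm_num) τ
  have e : (th3 τ ^ 24 + th4 τ ^ 24 + th2 τ ^ 24) / 2 =
      E₄ τ ^ 3 + 384 * ModularForm.discriminant τ := by
    rw [← theta_D24]; ring
  rw [e] at h
  exact h

end Fermat.Agent.Cor.FourSq
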