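import Fermat.Agent.Cor.ThetaD24
import Fermat.Agent.Cor.RamCong

/-!
# The number of vectors of given norm in `D₂₄⁺`

`rD_24`: `691 · #{v ∈ D₂₄⁺ : v·v = 2n} = 65520 σ₁₁(n) + 697344 τ(n)` for `n > 0`.

This file is not used by any of the statement files.
-/

set_option autoImplicit false

open Filter Topology Function
open UpperHalfPlane hiding I
open CongruenceSubgroup ModularForm EisensteinSeries PowerSeries
open scoped Real MatrixGroups ModularForm Manifold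
open Fermat.Agent.IntStr Fermat.Agent.AL

noncomputable section

namespace Fermat.Agent.Cor.FourSq

theorem hasQ_E4' : H13.HasQ (E₄ : ℍ → ℂ) (H13.e4 ℂ) := by
  have h := H13.hasQ_one E₄
  rw [H13.qExpansion_E4] at h
  simpa [H13.qc] using h

theorem hasQ_E6' : H13.HasQ (E₆ : ℍ → ℂ) (H13.e6 ℂ) := by
  have h := H13.hasQ_one E₆
  rw [H13.qExpansion_E6] at h
  simpa [H13.qc] using h

/-- `(11 E₄³ - 2 E₆²) / 9 = E₄³ + 384 Δ` -/
def Hf : ℍ → ℂ := (11 / 9 : ℂ) • ((E₄ : ℍ → ℂ) * (E₄ : ℍ → ℂ) * (E₄ : ℍ → ℂ)) -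
  (2 / 9 : ℂ) • ((E₆ : ℍ → ℂ) * (E₆ : ℍ → ℂ))

theorem Hf_mem : Hf ∈ QR 1 := by
  have h4 := isMN_E4.mem_QR
  have h6 := isMN_E6.mem_QR
  exact Subalgebra.sub_mem _ (Subalgebra.smul_mem _ (Subalgebra.mul_mem _
    (Subalgebra.mul_mem _ h4 h4) h4) _) (Subalgebra.smul_mem _ (Subalgebra.mul_mem _ h6 h6) _)

theorem Hf_apply (τ : ℍ) : Hf τ = E₄ τ ^ 3 + 384 * ModularForm.discriminant τ := by
  rw [ModularForm.discriminant_eq_E₄_cube_sub_E₆_sq]
  change 11 / 9 * (E₄ τ * E₄ τ * E₄ τ) - 2 / 9 * (E₆ τ * E₆ τ) = _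
  ring

/-- **The theta series of `D₂₄⁺`.** -/
theorem rD_24 {n : ℕ} (hn : 0 < n) : 691 * (rD 24 n : ℤ) =
    65520 * (ArithmeticFunction.sigma 11 n : ℕ) + 697344 * RamCong.tau n := by
  have h1 := qExp_unique one_pos Hf_mem (c := fun n ↦ (rD 24 n : ℂ)) (fun τ ↦ by
    rw [Hf_apply]; exact hasSum_D24 τ) n
  have hQ := (((hasQ_E4'.mul hasQ_E4').mul hasQ_E4').smul (11 / 9 : ℂ)).sub
    ((hasQ_E6'.mul hasQ_E6').smul (2 / 9 : ℂ))
  have h2 := qExp_unique one_pos Hf_mem (c := fun m ↦ coeff m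
    ((11 / 9 : ℂ) • (H13.e4 ℂ * H13.e4 ℂ * H13.e4 ℂ) - (2 / 9 : ℂ) • (H13.e6 ℂ * H13.e6 ℂ)))
    (fun τ ↦ hQ τ) n
  rw [h1] at h2
  set A := coeff n (H13.e4 ℂ ^ 3) with hA
  set B := coeff n (H13.e6 ℂ ^ 2) with hB
  have h3 : (rD 24 n : ℂ) = 11 / 9 * A - 2 / 9 * B := by
    rw [h2, hA, hB]
    simp only [map_sub, coeff_smul, smul_eq_mul]
    congr 3 <;> ring
  have h4 := congrArg (coeff n) (RamCong.e12_R (R := ℂ))
  have h5 := congrArg (coeff n) (H13.delta_spec (R := ℂ))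
  rw [map_add, map_add, H13.coeff_ofNat_mul, H13.coeff_ofNat_mul, H13.coeff_ofNat_mul,
    H13.coeff_sser] at h4
  rw [map_sub, H13.coeff_ofNat_mul] at h5
  have h6 : coeff n (691 : ℂ⟦X⟧) = 0 := by
    have : (691 : ℂ⟦X⟧) = C (691 : ℂ) := by rw [map_ofNat]
    rw [this, coeff_C, if_neg hn.ne']
  have h7 : coeff n (H13.delta ℂ) = (RamCong.tau n : ℂ) := by
    rw [H13.delta, coeff_map, RamCong.tau_eq]
    rfl
  rw [h6, zero_add] at h4
  rw [h7] at h5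
  have h8 : (691 : ℂ) * (rD 24 n : ℂ) =
      65520 * ((ArithmeticFunction.sigma 11 n : ℕ) : ℂ) + 697344 * (RamCong.tau n : ℂ) := by
    linear_combination 691 * h3 - h4 - (697344 / 1728) * h5
  exact_mod_cast h8

end Fermat.Agent.Cor.FourSq
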