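import Fermat.Agent.Cor.ThetaE8

/-!
# The theta series of the lattices `D_m⁺`, `8 ∣ m`

This file is not used by any of the statement files.
-/

set_option autoImplicit false

open Filter Topology Function Complex
open UpperHalfPlane hiding I
open CongruenceSubgroup ModularForm EisensteinSeries
open scoped Real MatrixGroups ModularForm Manifold
open Fermat.Agent.IntStr Fermat.Agent.AL
open ModularFormClass (qCoeff)

noncomputable section

namespace Fermat.Agent.Cor.FourSq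

variable {m : ℕ}

/-- Membership in `2 D_m⁺` -/
def InD (y : Fin m → ℤ) : Prop := ((∀ i, Even (y i)) ∨ (∀ i, Odd (y i))) ∧ 4 ∣ ∑ i, y i

/-- The norm of `y / 2`, divided by two -/
def nrD (y : Fin m → ℤ) : ℤ := (∑ i, y i ^ 2) / 8

theorem two_dvd_sub (x : Fin m → ℤ) : (2 : ℤ) ∣ ∑ i, x i ^ 2 - ∑ i, x i := by
  rw [← Finset.sum_sub_distrib]
  refine Finset.dvd_sum fun i _ ↦ ?_
  have := Int.even_mul_pred_self (x i)
  have e : x i ^ 2 - x i = x i * (x i - 1) := by ring
  rw [e]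
  exact this.two_dvd

theorem InD.eight_dvd (h8 : 8 ∣ m) {y : Fin m → ℤ} (h : InD y) : 8 ∣ ∑ i, y i ^ 2 := by
  obtain ⟨h1 | h1, h2⟩ := h
  · choose x hx using fun i ↦ (h1 i).two_dvd
    have e1 : ∑ i, y i = 2 * ∑ i, x i := by
      rw [Finset.mul_sum]; exact Finset.sum_congr rfl fun i _ ↦ hx i
    have e2 : ∑ i, y i ^ 2 = 4 * ∑ i, x i ^ 2 := by
      rw [Finset.mul_sum]
      exact Finset.sum_congr rfl fun i _ ↦ by rw [hx i]; ring
    have e3 : 2 ∣ ∑ i, x i := by rw [e1] at h2; omega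
    have e4 := two_dvd_sub x
    rw [e2]
    omega
  · have e4 : (8 : ℤ) ∣ ∑ i, (y i ^ 2 - 1) := by
      refine Finset.dvd_sum fun i _ ↦ ?_
      exact Int.eight_dvd_sq_sub_one_of_odd (h1 i)
    rw [Finset.sum_sub_distrib] at e4
    simp at e4
    omega

theorem nrD_nonneg (y : Fin m → ℤ) : 0 ≤ nrD y :=
  Int.ediv_nonneg (sum_sq_nonneg y) (by norm_num)

/-- The `m` tuples of the theta series with characteristic `s`. -/
def tmd (s z : ℂ) (x : Fin m → ℤ) : ℂ := cexp (π * I * (∑ i, ((x i : ℂ) + s) ^ 2) * z)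

theorem hasSum_tmd (m : ℕ) (s : ℂ) {z : ℂ} (hz : 0 < z.im) :
    HasSum (tmd (m := m) s z) ((∑' n, tm s z n) ^ m) := by
  have h := (pow_as (as_tm s hz) m).2
  simp only [prod_tm] at h
  exact h

open Classical in
/-- The half of the sum over the even-sum tuples: generic involution argument -/
theorem hasSum_half' {f : (Fin m → ℤ) → ℂ} {a : ℂ} (hf : HasSum f a)
    (φ : Equiv.Perm (Fin m → ℤ))
    (hφ : ∀ x, f (φ x) = f x) (hs : ∀ x, Even (∑ i, φ x i) ↔ ¬ Even (∑ i, x i)) :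
    HasSum (fun x ↦ if Even (∑ i, x i) then f x else 0) (a / 2) := by
  have hsum : Summable (fun x ↦ if Even (∑ i, x i) then f x else 0) := by
    have := hf.summable.indicator {x | Even (∑ i, x i)}
    refine this.congr fun x ↦ ?_
    simp only [Set.indicator_apply, Set.mem_ofPred_eq]
  obtain ⟨b, hb⟩ := hsum
  have h2 : HasSum (fun x ↦ if Even (∑ i, x i) then 0 else f x) b := by
    have := φ.hasSum_iff.mpr hb
    convert this using 1
    ext x
    simp only [comp_apply, hφ, hs]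
    split_ifs <;> rfl
  have h3 := hb.add h2
  have h4 : (fun x ↦ (if Even (∑ i, x i) then f x else 0) +
      (if Even (∑ i, x i) then 0 else f x)) = f := by
    ext x
    split_ifs <;> simp
  rw [h4] at h3
  have h5 : a = b + b := hf.unique h3
  have h6 : a / 2 = b := by rw [h5]; ring
  rw [h6]
  exact hb

section
variable [NeZero m]

/-- `x₀ ↦ -1 - x₀` -/
def flip' : Equiv.Perm (Fin m → ℤ) where
  toFun x := Function.update x 0 (-1 - x 0)
  invFun x := Function.update x 0 (-1 - x 0)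
  left_inv x := by
    ext i
    by_cases h : i = 0
    · subst h; simp
    · simp [Function.update_of_ne h]
  right_inv x := by
    ext i
    by_cases h : i = 0
    · subst h; simp
    · simp [Function.update_of_ne h]

theorem tmd_flip (z : ℂ) (x : Fin m → ℤ) : tmd (1 / 2) z (flip' x) = tmd (1 / 2) z x := by
  rw [tmd, tmd]
  congr 3
  refine Finset.sum_congr rfl fun i _ ↦ ?_
  by_cases h : i = 0
  · subst h
    simp only [flip', Equiv.coe_fn_mk, Function.update_self]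
    push_cast
    ring
  · simp only [flip', Equiv.coe_fn_mk, Function.update_of_ne h]

theorem even_flip' (x : Fin m → ℤ) : Even (∑ i, flip' x i) ↔ ¬ Even (∑ i, x i) := by
  have h : ∑ i, flip' x i = ∑ i, x i - 2 * x 0 - 1 := by
    have h1 : ∑ i, flip' x i = -1 - x 0 + ∑ i ∈ Finset.univ \ {0}, x i :=
      Finset.sum_update_of_mem (Finset.mem_univ 0) x (-1 - x 0)
    have h2 := Finset.sum_sdiff (f := x) (Finset.subset_univ ({0} : Finset (Fin m)))
    rw [Finset.sum_singleton] at h2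
    rw [h1, ← h2]
    ring
  rw [h, Int.even_iff, Int.even_iff]
  omega

/-- The theta constants -/
def th2 (τ : ℍ) : ℂ := ∑' n, tm (1 / 2) τ n
/-- The theta constants -/
def th3 (τ : ℍ) : ℂ := jacobiTheta τ
/-- The theta constants -/
def th4 (τ : ℍ) : ℂ := jacobiTheta (1 + τ)

theorem G_eq (τ : ℍ) : G τ = th3 τ ^ 4 := rfl

theorem G1_eq (τ : ℍ) : G1 τ = th4 τ ^ 4 := by
  rw [G1_apply, G, UpperHalfPlane.modular_T_smul, UpperHalfPlane.coe_vadd, th4]
  push_cast
  rfl

theorem G2_eq (τ : ℍ) : G2 τ = -th2 τ ^ 4 := by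
  rw [G2_apply, th2]
  push_cast
  rfl

open Classical in
theorem hasSum_th2 (τ : ℍ) : HasSum (fun x : Fin m → ℤ ↦
    if Even (∑ i, x i) then tmd (1 / 2) τ x else 0) (th2 τ ^ m / 2) :=
  hasSum_half' (hasSum_tmd m (1 / 2) τ.im_pos) flip' (tmd_flip _) even_flip'

end

open Classical in
theorem hasSum_th34 (τ : ℍ) : HasSum (fun x : Fin m → ℤ ↦
    if Even (∑ i, x i) then tmd 0 τ x else 0) ((th3 τ ^ m + th4 τ ^ m) / 2) := by
  have h0 := hasSum_tmd m 0 τ.im_pos
  have him : 0 < ((1 : ℂ) + τ).im := by simpa using τ.im_pos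
  have h1 := hasSum_tmd m 0 him
  rw [tsum_tm_zero] at h0 h1
  have h2 := (h0.add h1).div_const 2
  suffices h3 : (fun x : Fin m → ℤ ↦ if Even (∑ i, x i) then tmd 0 τ x else 0) =
      fun x ↦ (tmd 0 τ x + tmd 0 (1 + τ) x) / 2 by
    rw [h3]; exact h2
  funext x
  have e2 : tmd 0 (1 + τ) x = cexp (π * I * ((∑ i, x i ^ 2 : ℤ) : ℂ)) * tmd 0 τ x := by
    rw [tmd, tmd, ← Complex.exp_add]
    congr 1
    push_cast
    simp only [add_zero]
    ring
  have hpar := two_dvd_sub x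
  rw [e2]
  rcases Int.even_or_odd (∑ i, x i ^ 2) with h | h
  · have hx : Even (∑ i, x i) := by rw [Int.even_iff] at h ⊢; omega
    obtain ⟨l, hl⟩ := h.two_dvd
    have e3 : (π * I * ((∑ i, x i ^ 2 : ℤ) : ℂ)) = l * (2 * π * I) := by
      rw [hl]; push_cast; ring
    rw [if_pos hx, e3, Complex.exp_int_mul_two_pi_mul_I]
    ring
  · have hx : ¬ Even (∑ i, x i) := by
      rw [Int.not_even_iff_odd]
      rw [Int.odd_iff] at h ⊢; omega
    obtain ⟨l, hl⟩ := h
    have e3 : (π * I * ((∑ i, x i ^ 2 : ℤ) : ℂ)) = l * (2 * π * I) + π * I := by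
      rw [hl]; push_cast; ring
    rw [if_neg hx, e3, Complex.exp_add, Complex.exp_int_mul_two_pi_mul_I, Complex.exp_pi_mul_I]
    ring

/-- The term attached to `y ∈ 2 D_m⁺` -/
def tyd (z : ℂ) (y : Fin m → ℤ) : ℂ := cexp (π * I * ((∑ i, (y i : ℂ) ^ 2) / 4) * z)

open Classical in
theorem hasSum_tyd [NeZero m] (h8 : 8 ∣ m) (τ : ℍ) :
    HasSum (fun y : Fin m → ℤ ↦ if InD y then tyd τ y else 0)
      ((th3 τ ^ m + th4 τ ^ m + th2 τ ^ m) / 2) := by
  have he : Function.Injective (fun (x : Fin m → ℤ) i ↦ 2 * x i) := by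
    intro x y h
    ext i
    have := congrFun h i
    simp only at this
    omega
  have ho : Function.Injective (fun (x : Fin m → ℤ) i ↦ 2 * x i + 1) := by
    intro x y h
    ext i
    have := congrFun h i
    simp only at this
    omega
  have h0 : HasSum (fun y : Fin m → ℤ ↦ if (∀ i, Even (y i)) ∧ 4 ∣ ∑ i, y i then tyd τ y else 0)
      ((th3 τ ^ m + th4 τ ^ m) / 2) := by
    rw [← he.hasSum_iff]
    · convert hasSum_th34 (m := m) τ using 1
      ext x
      have e1 : ∑ i, 2 * x i = 2 * ∑ i, x i := by rw [Finset.mul_sum]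
      have e2 : (4 : ℤ) ∣ 2 * ∑ i, x i ↔ Even (∑ i, x i) := by
        rw [Int.even_iff]; omega
      simp only [comp_apply, even_two_mul, implies_true, true_and, e1, e2]
      congr 1
      rw [tyd, tmd]
      congr 3
      rw [Finset.sum_div]
      refine Finset.sum_congr rfl fun i _ ↦ ?_
      push_cast
      ring
    · intro y hy
      rw [if_neg]
      rintro ⟨h, -⟩
      choose x hx using fun i ↦ (h i).two_dvd
      exact hy ⟨x, funext fun i ↦ (hx i).symm⟩
  have h1 : HasSum (fun y : Fin m → ℤ ↦ if (∀ i, Odd (y i)) ∧ 4 ∣ ∑ i, y i then tyd τ y else 0)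
      (th2 τ ^ m / 2) := by
    rw [← ho.hasSum_iff]
    · convert hasSum_th2 (m := m) τ using 1
      ext x
      have e1 : ∑ i, (2 * x i + 1) = 2 * ∑ i, x i + m := by
        rw [Finset.sum_add_distrib, Finset.mul_sum]; simp
      have e2 : (4 : ℤ) ∣ 2 * ∑ i, x i + m ↔ Even (∑ i, x i) := by
        rw [Int.even_iff]; omega
      simp only [comp_apply, odd_two_mul_add_one, implies_true, true_and, e1, e2]
      congr 1
      rw [tyd, tmd]
      congr 3
      rw [Finset.sum_div]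
      refine Finset.sum_congr rfl fun i _ ↦ ?_
      push_cast
      ring
    · intro y hy
      rw [if_neg]
      rintro ⟨h, -⟩
      choose x hx using h
      exact hy ⟨x, funext fun i ↦ (hx i).symm⟩
  have h2 := h0.add h1
  have e3 : (th3 τ ^ m + th4 τ ^ m) / 2 + th2 τ ^ m / 2 =
      (th3 τ ^ m + th4 τ ^ m + th2 τ ^ m) / 2 := by ring
  rw [e3] at h2
  suffices h3 : (fun y : Fin m → ℤ ↦ if InD y then tyd τ y else 0) = fun y : Fin m → ℤ ↦
      (if (∀ i, Even (y i)) ∧ 4 ∣ ∑ i, y i then tyd τ y else 0) +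
      (if (∀ i, Odd (y i)) ∧ 4 ∣ ∑ i, y i then tyd τ y else 0) by
    rw [h3]; exact h2
  funext y
  have hnot : ¬ ((∀ i, Even (y i)) ∧ (∀ i, Odd (y i))) := fun h ↦
    (Int.not_even_iff_odd.mpr (h.2 0)) (h.1 0)
  by_cases h4 : (4 : ℤ) ∣ ∑ i, y i
  · by_cases h5 : ∀ i, Even (y i)
    · have h6 : ¬ ∀ i, Odd (y i) := fun h ↦ hnot ⟨h5, h⟩
      rw [if_pos ⟨Or.inl h5, h4⟩, if_pos ⟨h5, h4⟩, if_neg (fun h ↦ h6 h.1), add_zero]
    · by_cases h6 : ∀ i, Odd (y i)
      · rw [if_pos ⟨Or.inr h6, h4⟩, if_neg (fun h ↦ h5 h.1), if_pos ⟨h6, h4⟩, zero_add]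
      · rw [if_neg (fun h ↦ h.1.elim h5 h6), if_neg (fun h ↦ h5 h.1), if_neg (fun h ↦ h6 h.1),
          add_zero]
  · rw [if_neg (fun h ↦ h4 h.2), if_neg (fun h ↦ h4 h.2), if_neg (fun h ↦ h4 h.2), add_zero]

variable (m) in
/-- The number of vectors of norm `2 n` in the lattice `D_m⁺` -/
def rD (n : ℕ) : ℕ := Nat.card {y : Fin m → ℤ // InD y ∧ nrD y = n}

theorem hasSum_rD [NeZero m] (h8 : 8 ∣ m) (τ : ℍ) :
    HasSum (fun n : ℕ ↦ (rD m n : ℂ) • Periodic.qParam 1 (τ : ℂ) ^ n)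
      ((th3 τ ^ m + th4 τ ^ m + th2 τ ^ m) / 2) := by
  classical
  refine hasSum_regroup nrD_nonneg InD ?_
  have h := hasSum_tyd h8 τ
  have h2 : HasSum ((fun y : Fin m → ℤ ↦ if InD y then tyd τ y else 0) ∘
      (Subtype.val : {y : Fin m → ℤ // InD y} → _))
      ((th3 τ ^ m + th4 τ ^ m + th2 τ ^ m) / 2) := by
    rw [Subtype.val_injective.hasSum_iff]
    · exact h
    · intro y hy
      rw [if_neg]
      intro h'
      exact hy ⟨⟨y, h'⟩, rfl⟩
  convert h2 using 1
  ext y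
  rw [comp_apply, if_pos y.2, tyd]
  have e1 : (((nrD y.1).toNat : ℕ) : ℂ) = (∑ i, (y.1 i : ℂ) ^ 2) / 8 := by
    have h3 : (8 : ℤ) * (((nrD y.1).toNat : ℕ) : ℤ) = ∑ i, y.1 i ^ 2 := by
      rw [Int.toNat_of_nonneg (nrD_nonneg _), nrD, Int.mul_ediv_cancel' (y.2.eight_dvd h8)]
    have h4 : (8 : ℂ) * (((nrD y.1).toNat : ℕ) : ℂ) = ∑ i, (y.1 i : ℂ) ^ 2 := by
      exact_mod_cast congrArg (Int.cast : ℤ → ℂ) h3
    rw [← h4]; ring
  rw [Periodic.qParam, ← Complex.exp_nat_mul, e1]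
  congr 1
  push_cast
  ring

theorem rD_zero (h8 : 8 ∣ m) : rD m 0 = 1 := by
  have h : ∀ y : Fin m → ℤ, InD y ∧ nrD y = ((0 : ℕ) : ℤ) ↔ y = 0 := by
    intro y
    constructor
    · rintro ⟨h1, h2⟩
      have h3 : ∑ i, y i ^ 2 = 0 := by
        have := Int.mul_ediv_cancel' (h1.eight_dvd h8)
        rw [nrD] at h2
        rw [h2] at this
        simpa using this.symm
      rw [Finset.sum_eq_zero_iff_of_nonneg fun _ _ ↦ sq_nonneg _] at h3
      ext i
      simpa using h3 i (Finset.mem_univ i)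
    · rintro rfl
      exact ⟨⟨Or.inl fun i ↦ by simp, by simp⟩, by simp [nrD]⟩
  rw [rD, Nat.card_congr (Equiv.subtypeEquivRight h)]
  simp

end Fermat.Agent.Cor.FourSq
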