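import Fermat.Agent.Cor.ThetaEight

/-!
# The theta series of the `E₈` lattice

`card_E8`: for `n > 0` the `E₈` lattice has `240 σ₃(n)` vectors of norm `2 n`. Here a vector of `E₈`
is written `y / 2` with `y ∈ ℤ⁸`, all `y_i` even or all `y_i` odd, and `∑ y_i` divisible by `4`.

The theta series is `(θ₂⁸ + θ₃⁸ + θ₄⁸) / 2`, a modular form of weight 4 for `SL₂(ℤ)`.

This file is not used by any of the statement files.
-/

set_option autoImplicit false

open Filter Topology Function Complex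
open UpperHalfPlane hiding I
open CongruenceSubgroup ModularForm EisensteinSeries
open scoped Real MatrixGroups ModularForm Manifold
open Fermat.Agent.IntStr Fermat.Agent.AL
open ModularFormClass (qCoeff)

noncomputable section

namespace Fermat.Agent.Cor.FourSq

/-! ### A modular form of weight four -/

/-- `θ₃⁸ + θ₄⁸ + θ₂⁸` -/
def W8 : ℍ → ℂ := G * G + G1 * G1 + G2 * G2

theorem W8_slash_gen (γ : SL(2, ℤ)) : W8 ∣[(4 : ℤ)] γ =
    (G ∣[(2 : ℤ)] γ) * (G ∣[(2 : ℤ)] γ) + (G1 ∣[(2 : ℤ)] γ) * (G1 ∣[(2 : ℤ)] γ) +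
      (G2 ∣[(2 : ℤ)] γ) * (G2 ∣[(2 : ℤ)] γ) := by
  rw [W8, SlashAction.add_slash, SlashAction.add_slash]
  have h : ∀ f : ℍ → ℂ, (f * f) ∣[(4 : ℤ)] γ = (f ∣[(2 : ℤ)] γ) * (f ∣[(2 : ℤ)] γ) :=
    fun f ↦ mul_slash_SL2 2 2 γ f f
  rw [h, h, h]

theorem W8_slash (γ : SL(2, ℤ)) : W8 ∣[(4 : ℤ)] γ = W8 := by
  refine SlashInvariantForm.slash_action_generators_SL2Z ?_ ?_ γ
  · rw [W8_slash_gen, G_S, G2_S, W8]
    change (-G) * (-G) + G2 * G2 + G1 * G1 = _
    ring
  · rw [W8_slash_gen, G1_T, G2_T, W8]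
    change G1 * G1 + G * G + (-G2) * (-G2) = _
    ring

theorem isMN_W8 : IsMN 1 4 W8 where
  slash γ _ := W8_slash γ
  holo := by
    have h0 := mdiff_G
    have h1 : MDiff G1 := mdiff_G.slash 2 _
    have h2 : MDiff G2 := h1.slash 2 _
    exact ((h0.mul h0).add (h1.mul h1)).add (h2.mul h2)
  bdd γ := by
    rw [W8_slash]
    exact ((bdd_G.mul bdd_G).add (bdd_G1.mul bdd_G1)).add (bdd_G2.mul bdd_G2)

/-! ### The theta series -/

/-- Membership in `2 E₈` -/
def InE (y : Fin 8 → ℤ) : Prop := ((∀ i, Even (y i)) ∨ (∀ i, Odd (y i))) ∧ 4 ∣ ∑ i, y i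

/-- The norm of `y / 2`, divided by two -/
def nrm (y : Fin 8 → ℤ) : ℤ := (∑ i, y i ^ 2) / 8

theorem InE.eight_dvd {y : Fin 8 → ℤ} (h : InE y) : 8 ∣ ∑ i, y i ^ 2 := by
  obtain ⟨h1 | h1, h2⟩ := h
  · choose x hx using fun i ↦ (h1 i).two_dvd
    have e1 : ∑ i, y i = 2 * ∑ i, x i := by
      rw [Finset.mul_sum]; exact Finset.sum_congr rfl fun i _ ↦ hx i
    have e2 : ∑ i, y i ^ 2 = 4 * ∑ i, x i ^ 2 := by
      rw [Finset.mul_sum]
      exact Finset.sum_congr rfl fun i _ ↦ by rw [hx i]; ring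
    have e3 : 2 ∣ ∑ i, x i := by rw [e1] at h2; omega
    have e4 : (2 : ℤ) ∣ ∑ i, x i ^ 2 - ∑ i, x i := by
      rw [← Finset.sum_sub_distrib]
      refine Finset.dvd_sum fun i _ ↦ ?_
      have := Int.even_mul_pred_self (x i)
      have e : x i ^ 2 - x i = x i * (x i - 1) := by ring
      rw [e]
      exact this.two_dvd
    rw [e2]
    omega
  · have e4 : (8 : ℤ) ∣ ∑ i, (y i ^ 2 - 1) := by
      refine Finset.dvd_sum fun i _ ↦ ?_
      exact Int.eight_dvd_sq_sub_one_of_odd (h1 i)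
    rw [Finset.sum_sub_distrib] at e4
    simp at e4
    omega

theorem nrm_nonneg (y : Fin 8 → ℤ) : 0 ≤ nrm y :=
  Int.ediv_nonneg (sum_sq_nonneg y) (by norm_num)

/-- The `8` tuples of the theta series with characteristic `s`. -/
def tms (s z : ℂ) (x : Fin 8 → ℤ) : ℂ := cexp (π * I * (∑ i, ((x i : ℂ) + s) ^ 2) * z)

theorem hasSum_tms (s : ℂ) {z : ℂ} (hz : 0 < z.im) :
    (Summable fun x ↦ ‖tms s z x‖) ∧ HasSum (tms s z) ((∑' n, tm s z n) ^ 8) := by
  have h := pow_as (as_tm s hz) 8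
  simp only [prod_tm] at h
  exact h

open Classical in
/-- The half of the sum over the even-sum tuples: generic involution argument -/
theorem hasSum_half {f : (Fin 8 → ℤ) → ℂ} {a : ℂ} (hf : HasSum f a) (φ : Equiv.Perm (Fin 8 → ℤ))
    (hφ : ∀ x, f (φ x) = f x) (hs : ∀ x, Even (∑ i, φ x i) ↔ ¬ Even (∑ i, x i)) :
    HasSum (fun x ↦ if Even (∑ i, x i) then f x else 0) (a / 2) := by
  have hsum : Summable (fun x ↦ if Even (∑ i, x i) then f x else 0) := by
    have := hf.summable.indicator {x | Even (∑ i, x i)}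
    refine this.congr fun x ↦ ?_
    simp only [Set.indicator_apply, Set.mem_ofPred_eq]
  obtain ⟨b, hb⟩ := hsum
  have h2 : HasSum (fun x ↦ if Even (∑ i, x i) then 0 else f x) b := by
    have := φ.hasSum_iff.mpr hb
    convert this using 1
    ext x
    simp only [comp_apply, hφ, hs]
    split_ifs <;> rfl
  have h3 := hb.add h2
  have h4 : (fun x ↦ (if Even (∑ i, x i) then f x else 0) +
      (if Even (∑ i, x i) then 0 else f x)) = f := by
    ext x
    split_ifs <;> simp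
  rw [h4] at h3
  have h5 : a = b + b := hf.unique h3
  have h6 : a / 2 = b := by rw [h5]; ring
  rw [h6]
  exact hb

/-- `x₀ ↦ -1 - x₀` -/
def flip : Equiv.Perm (Fin 8 → ℤ) where
  toFun x := Function.update x 0 (-1 - x 0)
  invFun x := Function.update x 0 (-1 - x 0)
  left_inv x := by
    ext i
    by_cases h : i = 0
    · subst h; simp
    · simp [Function.update_of_ne h]
  right_inv x := by
    ext i
    by_cases h : i = 0
    · subst h; simp
    · simp [Function.update_of_ne h]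

theorem tms_flip (z : ℂ) (x : Fin 8 → ℤ) : tms (1 / 2) z (flip x) = tms (1 / 2) z x := by
  rw [tms, tms]
  congr 3
  refine Finset.sum_congr rfl fun i _ ↦ ?_
  by_cases h : i = 0
  · subst h
    simp only [flip, Equiv.coe_fn_mk, Function.update_self]
    push_cast
    ring
  · simp only [flip, Equiv.coe_fn_mk, Function.update_of_ne h]

theorem even_flip (x : Fin 8 → ℤ) : Even (∑ i, flip x i) ↔ ¬ Even (∑ i, x i) := by
  have h : ∑ i, flip x i = ∑ i, x i - 2 * x 0 - 1 := by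
    rw [Fin.sum_univ_succ (f := fun i ↦ flip x i), Fin.sum_univ_succ (f := x)]
    simp only [flip, Equiv.coe_fn_mk, Function.update_self]
    have : ∀ i : Fin 7, Function.update x 0 (-1 - x 0) i.succ = x i.succ := fun i ↦
      Function.update_of_ne (Fin.succ_ne_zero i) _ _
    simp only [this]
    ring
  rw [h, Int.even_iff, Int.even_iff]
  omega

open Classical in
theorem hasSum_G2 (τ : ℍ) : HasSum (fun x ↦ if Even (∑ i, x i) then tms (1 / 2) τ x else 0)
    ((G2 * G2) τ / 2) := by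
  have h := (hasSum_tms (1 / 2) τ.im_pos).2
  have e : (∑' n, tm (1 / 2) τ n) ^ 8 = (G2 * G2) τ := by
    rw [Pi.mul_apply, G2_apply]
    push_cast
    ring
  rw [e] at h
  exact hasSum_half h flip (tms_flip _) even_flip

theorem even_sum_sq (x : Fin 8 → ℤ) : Even (∑ i, x i ^ 2) ↔ Even (∑ i, x i) := by
  have e4 : (2 : ℤ) ∣ ∑ i, x i ^ 2 - ∑ i, x i := by
    rw [← Finset.sum_sub_distrib]
    refine Finset.dvd_sum fun i _ ↦ ?_
    have := Int.even_mul_pred_self (x i)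
    have e : x i ^ 2 - x i = x i * (x i - 1) := by ring
    rw [e]
    exact this.two_dvd
  rw [Int.even_iff, Int.even_iff]
  omega

open Classical in
theorem hasSum_G01 (τ : ℍ) : HasSum (fun x ↦ if Even (∑ i, x i) then tms 0 τ x else 0)
    (((G * G) τ + (G1 * G1) τ) / 2) := by
  have h0 := (hasSum_tms 0 τ.im_pos).2
  have him : 0 < ((1 : ℂ) + τ).im := by simpa using τ.im_pos
  have h1 := (hasSum_tms 0 him).2
  rw [tsum_tm_zero] at h0 h1
  have e0 : jacobiTheta (τ : ℂ) ^ 8 = (G * G) τ := by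
    rw [Pi.mul_apply, G]; ring
  have e1 : jacobiTheta (1 + τ : ℂ) ^ 8 = (G1 * G1) τ := by
    rw [Pi.mul_apply, G1_apply, G, UpperHalfPlane.modular_T_smul, UpperHalfPlane.coe_vadd]
    push_cast
    ring
  rw [e0] at h0
  rw [e1] at h1
  have h2 := (h0.add h1).div_const 2
  suffices h3 : (fun x : Fin 8 → ℤ ↦ if Even (∑ i, x i) then tms 0 τ x else 0) =
      fun x ↦ (tms 0 τ x + tms 0 (1 + τ) x) / 2 by
    rw [h3]; exact h2
  funext x
  have e2 : tms 0 (1 + τ) x = cexp (π * I * ((∑ i, x i ^ 2 : ℤ) : ℂ)) * tms 0 τ x := by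
    rw [tms, tms, ← Complex.exp_add]
    congr 1
    push_cast
    simp only [add_zero]
    ring
  rw [e2]
  rcases Int.even_or_odd (∑ i, x i ^ 2) with h | h
  · have hx : Even (∑ i, x i) := (even_sum_sq x).mp h
    obtain ⟨m, hm⟩ := h.two_dvd
    have e3 : (π * I * ((∑ i, x i ^ 2 : ℤ) : ℂ)) = m * (2 * π * I) := by
      rw [hm]; push_cast; ring
    rw [if_pos hx, e3, Complex.exp_int_mul_two_pi_mul_I]
    ring
  · have hx : ¬ Even (∑ i, x i) := fun h' ↦
      (Int.not_even_iff_odd.mpr h) ((even_sum_sq x).mpr h')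
    obtain ⟨m, hm⟩ := h
    have e3 : (π * I * ((∑ i, x i ^ 2 : ℤ) : ℂ)) = m * (2 * π * I) + π * I := by
      rw [hm]; push_cast; ring
    rw [if_neg hx, e3, Complex.exp_add, Complex.exp_int_mul_two_pi_mul_I, Complex.exp_pi_mul_I]
    ring

theorem even_tuple_range {y : Fin 8 → ℤ} (h : ∀ i, Even (y i)) :
    ∃ x : Fin 8 → ℤ, (fun i ↦ 2 * x i) = y := by
  choose x hx using fun i ↦ (h i).two_dvd
  exact ⟨x, funext fun i ↦ (hx i).symm⟩

theorem odd_tuple_range {y : Fin 8 → ℤ} (h : ∀ i, Odd (y i)) :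
    ∃ x : Fin 8 → ℤ, (fun i ↦ 2 * x i + 1) = y := by
  choose x hx using h
  exact ⟨x, funext fun i ↦ (hx i).symm⟩

/-- The term attached to `y ∈ 2 E₈` -/
def ty (z : ℂ) (y : Fin 8 → ℤ) : ℂ := cexp (π * I * ((∑ i, (y i : ℂ) ^ 2) / 4) * z)

open Classical in
theorem hasSum_ty (τ : ℍ) : HasSum (fun y ↦ if InE y then ty τ y else 0) (W8 τ / 2) := by
  have he : Function.Injective (fun (x : Fin 8 → ℤ) i ↦ 2 * x i) := by
    intro x y h
    ext i
    have := congrFun h i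
    simp only at this
    omega
  have ho : Function.Injective (fun (x : Fin 8 → ℤ) i ↦ 2 * x i + 1) := by
    intro x y h
    ext i
    have := congrFun h i
    simp only at this
    omega
  have h0 : HasSum (fun y : Fin 8 → ℤ ↦ if (∀ i, Even (y i)) ∧ 4 ∣ ∑ i, y i then ty τ y else 0)
      (((G * G) τ + (G1 * G1) τ) / 2) := by
    rw [← he.hasSum_iff]
    · convert hasSum_G01 τ using 1
      ext x
      have e1 : ∑ i, 2 * x i = 2 * ∑ i, x i := by rw [Finset.mul_sum]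
      have e2 : (4 : ℤ) ∣ 2 * ∑ i, x i ↔ Even (∑ i, x i) := by
        rw [Int.even_iff]; omega
      simp only [comp_apply, even_two_mul, implies_true, true_and, e1, e2]
      congr 1
      rw [ty, tms]
      congr 3
      rw [Finset.sum_div]
      refine Finset.sum_congr rfl fun i _ ↦ ?_
      push_cast
      ring
    · intro y hy
      rw [if_neg]
      rintro ⟨h, -⟩
      exact hy (even_tuple_range h)
  have h1 : HasSum (fun y : Fin 8 → ℤ ↦ if (∀ i, Odd (y i)) ∧ 4 ∣ ∑ i, y i then ty τ y else 0)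
      ((G2 * G2) τ / 2) := by
    rw [← ho.hasSum_iff]
    · convert hasSum_G2 τ using 1
      ext x
      have e1 : ∑ i, (2 * x i + 1) = 2 * ∑ i, x i + 8 := by
        rw [Finset.sum_add_distrib, Finset.mul_sum]; simp
      have e2 : (4 : ℤ) ∣ 2 * ∑ i, x i + 8 ↔ Even (∑ i, x i) := by
        rw [Int.even_iff]; omega
      simp only [comp_apply, odd_two_mul_add_one, implies_true, true_and, e1, e2]
      congr 1
      rw [ty, tms]
      congr 3
      rw [Finset.sum_div]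
      refine Finset.sum_congr rfl fun i _ ↦ ?_
      push_cast
      ring
    · intro y hy
      rw [if_neg]
      rintro ⟨h, -⟩
      exact hy (odd_tuple_range h)
  have h2 := h0.add h1
  have e3 : ((G * G) τ + (G1 * G1) τ) / 2 + (G2 * G2) τ / 2 = W8 τ / 2 := by
    rw [W8, Pi.add_apply, Pi.add_apply]; ring
  rw [e3] at h2
  suffices h3 : (fun y ↦ if InE y then ty τ y else 0) = fun y : Fin 8 → ℤ ↦
      (if (∀ i, Even (y i)) ∧ 4 ∣ ∑ i, y i then ty τ y else 0) +
      (if (∀ i, Odd (y i)) ∧ 4 ∣ ∑ i, y i then ty τ y else 0) by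
    rw [h3]; exact h2
  funext y
  have hnot : ¬ ((∀ i, Even (y i)) ∧ (∀ i, Odd (y i))) := fun h ↦
    (Int.not_even_iff_odd.mpr (h.2 0)) (h.1 0)
  by_cases h4 : (4 : ℤ) ∣ ∑ i, y i
  · by_cases h5 : ∀ i, Even (y i)
    · have h6 : ¬ ∀ i, Odd (y i) := fun h ↦ hnot ⟨h5, h⟩
      rw [if_pos ⟨Or.inl h5, h4⟩, if_pos ⟨h5, h4⟩, if_neg (fun h ↦ h6 h.1), add_zero]
    · by_cases h6 : ∀ i, Odd (y i)
      · rw [if_pos ⟨Or.inr h6, h4⟩, if_neg (fun h ↦ h5 h.1), if_pos ⟨h6, h4⟩, zero_add]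
      · rw [if_neg (fun h ↦ h.1.elim h5 h6), if_neg (fun h ↦ h5 h.1), if_neg (fun h ↦ h6 h.1),
          add_zero]
  · rw [if_neg (fun h ↦ h4 h.2), if_neg (fun h ↦ h4 h.2), if_neg (fun h ↦ h4 h.2), add_zero]

/-- The number of vectors of norm `2 n` in the `E₈` lattice -/
def rE (n : ℕ) : ℕ := Nat.card {y : Fin 8 → ℤ // InE y ∧ nrm y = n}

theorem hasSum_rE (τ : ℍ) :
    HasSum (fun n : ℕ ↦ (rE n : ℂ) • Periodic.qParam 1 (τ : ℂ) ^ n) (W8 τ / 2) := by
  classical
  refine hasSum_regroup nrm_nonneg InE ?_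
  have h := hasSum_ty τ
  have h2 : HasSum ((fun y ↦ if InE y then ty τ y else 0) ∘ (Subtype.val : {y // InE y} → _))
      (W8 τ / 2) := by
    rw [Subtype.val_injective.hasSum_iff]
    · exact h
    · intro y hy
      rw [if_neg]
      intro h'
      exact hy ⟨⟨y, h'⟩, rfl⟩
  convert h2 using 1
  ext y
  rw [comp_apply, if_pos y.2, ty]
  have e1 : (((nrm y.1).toNat : ℕ) : ℂ) = (∑ i, (y.1 i : ℂ) ^ 2) / 8 := by
    have h3 : (8 : ℤ) * (((nrm y.1).toNat : ℕ) : ℤ) = ∑ i, y.1 i ^ 2 := by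
      rw [Int.toNat_of_nonneg (nrm_nonneg _), nrm, Int.mul_ediv_cancel' y.2.eight_dvd]
    have h4 : (8 : ℂ) * (((nrm y.1).toNat : ℕ) : ℂ) = ∑ i, (y.1 i : ℂ) ^ 2 := by
      exact_mod_cast congrArg (Int.cast : ℤ → ℂ) h3
    rw [← h4]; ring
  rw [Periodic.qParam, ← Complex.exp_nat_mul, e1]
  congr 1
  push_cast
  ring

theorem rE_zero : rE 0 = 1 := by
  have h : ∀ y : Fin 8 → ℤ, InE y ∧ nrm y = ((0 : ℕ) : ℤ) ↔ y = 0 := by
    intro y
    constructor
    · rintro ⟨h1, h2⟩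
      have h3 : ∑ i, y i ^ 2 = 0 := by
        have := Int.mul_ediv_cancel' h1.eight_dvd
        rw [nrm] at h2
        rw [h2] at this
        simpa using this.symm
      rw [Finset.sum_eq_zero_iff_of_nonneg fun _ _ ↦ sq_nonneg _] at h3
      ext i
      simpa using h3 i (Finset.mem_univ i)
    · rintro rfl
      exact ⟨⟨Or.inl fun i ↦ by simp, by simp⟩, by simp [nrm]⟩
  rw [rE, Nat.card_congr (Equiv.subtypeEquivRight h)]
  simp

/-- `Θ - E₄` -/
def DE : ModularForm (Gamma0 1) 4 := (1 / 2 : ℂ) • isMN_W8.form - isMN_E4.form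

theorem coeff_DE (n : ℕ) : (qExpansion 1 DE).coeff n = rE n - c4 n := by
  refine (ModularFormClass.qExpansion_coeff_unique (c := fun n ↦ (rE n : ℂ) - c4 n)
    (h := 1) one_pos (Γ := (Gamma0 1 : Subgroup (GL (Fin 2) ℝ)))
    (by simp [CongruenceSubgroup.strictPeriods_Gamma0]) (f := DE) (fun τ ↦ ?_) n).symm
  have h1 : HasSum (fun n : ℕ ↦ c4 n • Periodic.qParam 1 (τ : ℂ) ^ n) (E₄ τ) := by
    have hQ := isMN_E4.mem_QR
    have h2 := UpperHalfPlane.hasSum_qExpansion one_pos hQ.1 hQ.2.1 hQ.2.2 τ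
    convert h2 using 1
    ext n
    congr 1
    exact (qCoeff_E4 n).symm
  have h2 := (hasSum_rE τ).sub h1
  have e1 : DE τ = W8 τ / 2 - E₄ τ := by
    change 1 / 2 * W8 τ - E₄ τ = _
    ring
  rw [e1]
  simp only [← sub_smul] at h2
  exact h2

theorem DE_eq_zero : DE = 0 := by
  refine ModularForm.sturm_bound_Gamma0 1 DE fun n hn ↦ ?_
  have h1 : (Gamma0 1).index = 1 := by
    rw [Subgroup.index_eq_one, eq_top_iff]
    intro γ _
    rw [mem_Gamma0_iff]
    simp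
  rw [h1] at hn
  have hn' : n ≤ 0 := hn
  obtain rfl : n = 0 := by omega
  rw [coeff_DE, rE_zero, c4]
  simp

/-- The theta series of the `E₈` lattice is `E₄`. -/
theorem W8_eq (τ : ℍ) : W8 τ / 2 = E₄ τ := by
  have h : DE τ = 0 := by rw [DE_eq_zero]; rfl
  have e1 : DE τ = W8 τ / 2 - E₄ τ := by
    change 1 / 2 * W8 τ - E₄ τ = _
    ring
  rw [e1] at h
  linear_combination h

/-- **The `E₈` lattice has `240 σ₃(n)` vectors of norm `2 n`.** -/
theorem card_E8 {n : ℕ} (hn : 0 < n) :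
    Nat.card {y : Fin 8 → ℤ // ((∀ i, Even (y i)) ∨ (∀ i, Odd (y i))) ∧ 4 ∣ ∑ i, y i ∧
      ∑ i, (y i / 2 : ℚ) ^ 2 = (2 * n : ℚ)} = 240 * ArithmeticFunction.sigma 3 n := by
  have h1 := coeff_DE n
  have h0 : (qExpansion 1 DE).coeff n = 0 := by
    rw [DE_eq_zero, FunLike.coe_zero, qExpansion_zero]
    rfl
  rw [h0, c4, if_neg hn.ne'] at h1
  have h2 : (rE n : ℂ) = ((240 * ArithmeticFunction.sigma 3 n : ℕ) : ℂ) := by
    push_cast
    linear_combination -h1
  have h3 : rE n = 240 * ArithmeticFunction.sigma 3 n := by exact_mod_cast h2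
  rw [← h3, rE]
  refine Nat.card_congr (Equiv.subtypeEquivRight fun y ↦ ?_)
  have key : InE y → (nrm y = n ↔ ∑ i, (y i / 2 : ℚ) ^ 2 = (2 * n : ℚ)) := by
    intro h
    have h4 := Int.mul_ediv_cancel' h.eight_dvd
    have h5 : (8 : ℚ) * (nrm y : ℚ) = ∑ i, (y i : ℚ) ^ 2 := by
      rw [nrm]; exact_mod_cast congrArg (Int.cast : ℤ → ℚ) h4
    have h8 : ∑ i, (y i / 2 : ℚ) ^ 2 = (∑ i, (y i : ℚ) ^ 2) / 4 := by
      rw [Finset.sum_div]
      exact Finset.sum_congr rfl fun i _ ↦ by ring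
    rw [h8, ← h5]
    constructor
    · intro h6
      rw [h6]; push_cast; ring
    · intro h6
      have h7 : (nrm y : ℚ) = n := by linarith
      exact_mod_cast h7
  constructor
  · rintro ⟨h4, h5, h6⟩
    exact ⟨⟨h4, h5⟩, (key ⟨h4, h5⟩).mpr h6⟩
  · rintro ⟨h4, h5⟩
    exact ⟨h4.1, h4.2, (key h4).mp h5⟩

end Fermat.Agent.Cor.FourSq
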