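import Fermat.Agent.Cor.ThetaPi
import Fermat.Agent.Cor.FourSqMain

/-!
# Jacobi's eight-square theorem

`jacobi_eight_squares`: for `n > 0` the number of `x ∈ ℤ⁸` with `∑ x_i² = n` is
`16 ∑_{d ∣ n} (-1) ^ (n + d) d³`.

This file is not used by any of the statement files.
-/

set_option autoImplicit false

open Filter Topology Function
open UpperHalfPlane hiding I
open CongruenceSubgroup PowerSeries ModularForm EisensteinSeries
open scoped Real MatrixGroups ModularForm Manifold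
open Fermat.Agent.IntStr Fermat.Agent.AL
open ModularFormClass (qCoeff)

noncomputable section

namespace Fermat.Agent.Cor.FourSq

/-! ### The Eisenstein series of weight four -/

theorem isMN_E4 : IsMN 1 4 (E₄ : ℍ → ℂ) where
  slash γ _ := SlashInvariantFormClass.slash_action_eq E₄ _ ⟨γ, rfl⟩
  holo := ModularFormClass.holo E₄
  bdd γ := by
    have h : (E₄ : ℍ → ℂ) ∣[(4 : ℤ)] γ = E₄ :=
      SlashInvariantFormClass.slash_action_eq E₄ _ ⟨γ, rfl⟩
    rw [h]
    exact ModularFormClass.bdd_at_infty E₄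

/-- The coefficients of `E₄`. -/
def c4 (n : ℕ) : ℂ := (if n = 0 then 1 else 0) + 240 * (ArithmeticFunction.sigma 3 n : ℕ)

theorem qCoeff_E4 (n : ℕ) : qCoeff (E₄ : ℍ → ℂ) n = c4 n := by
  rw [qCoeff, E_qExpansion_coeff _ ⟨2, rfl⟩, show bernoulli 4 = -1 / 30 by decide +kernel, c4]
  split_ifs with h
  · subst h; simp
  · push_cast
    norm_num

theorem hasSum_E4 {d N : ℕ} [NeZero N] (hd : 0 < d) (h : 1 * d ∣ N) (τ : ℍ) :
    HasSum (fun n : ℕ ↦ (if d ∣ n then c4 (n / d) else 0) • Periodic.qParam 1 (τ : ℂ) ^ n)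
      (E₄ (aff d 1 0 τ)) := by
  have hQ := (isMN_aff hd h isMN_E4).mem_QR
  have h1 := UpperHalfPlane.hasSum_qExpansion one_pos hQ.1 hQ.2.1 hQ.2.2 τ
  convert h1 using 1
  ext n
  congr 1
  have h2 := qExp_comp_mul isMN_E4.mem_QR hd hQ n
  rw [qCoeff_E4] at h2
  exact h2.symm

/-! ### The eighth power of the theta function -/

theorem isMN_mul {N : ℕ} [NeZero N] {k l : ℤ} {f g : ℍ → ℂ} (hf : IsMN N k f) (hg : IsMN N l g) :
    IsMN N (k + l) (f * g) where
  slash γ hγ := by rw [mul_slash_SL2, hf.slash γ hγ, hg.slash γ hγ]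
  holo := hf.holo.mul hg.holo
  bdd γ := by rw [mul_slash_SL2]; exact (hf.bdd γ).mul (hg.bdd γ)

theorem isMN_F2 : IsMN 4 4 (F * F) := isMN_mul isMN_F isMN_F

theorem hasSum_F2 (τ : ℍ) :
    HasSum (fun n : ℕ ↦ (rk 8 n : ℂ) • Periodic.qParam 1 (τ : ℂ) ^ n) ((F * F) τ) := by
  have h := hasSum_rk 8 τ
  have e1 : jacobiTheta (aff 2 1 0 τ) ^ 8 = (F * F) τ := by
    rw [Pi.mul_apply, F, G]; ring
  rw [e1] at h
  exact h

theorem rk_eight (n : ℕ) : (rk 8 n : ℂ) =
    ∑ p ∈ Finset.HasAntidiagonal.antidiagonal n, (r4 p.1 : ℂ) * r4 p.2 := by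
  have h1 := qExp_unique one_pos isMN_F2.mem_QR hasSum_F2 n
  have h2 : H13.HasQ F (PowerSeries.mk fun n ↦ (r4 n : ℂ)) := by
    intro τ
    have := hasSum_r4 τ
    simpa using this
  have h3 := h2.mul h2
  have h4 := qExp_unique one_pos isMN_F2.mem_QR (c := fun m ↦ coeff m
    ((PowerSeries.mk fun n ↦ (r4 n : ℂ)) * (PowerSeries.mk fun n ↦ (r4 n : ℂ)))) (fun τ ↦ by
      have := h3 τ
      simpa using this) n
  rw [h1] at h4
  rw [h4, coeff_mul]
  simp

theorem r4_two : r4 2 = 24 := by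
  rw [r4_eq 2 ((box 1).filter fun x ↦ sq4 x = 2) fun x ↦ ?_]
  · decide +kernel
  · rw [Finset.mem_filter]
    exact ⟨fun h ↦ by simpa using h.2,
      fun h ↦ ⟨mem_box one_pos.le (by norm_num) h, by simpa using h⟩⟩

/-- `(E₄(τ) - 2 E₄(2τ) + 16 E₄(4τ)) / 15 - θ(2τ)⁸` -/
def D8 : ModularForm (Gamma0 4) 4 :=
  (1 / 15 : ℂ) • (isMN_aff (N := 4) one_pos (by norm_num) isMN_E4).form -
  (2 / 15 : ℂ) • (isMN_aff (N := 4) two_pos (by norm_num) isMN_E4).form +
  (16 / 15 : ℂ) • (isMN_aff (N := 4) four_pos (by norm_num) isMN_E4).form - isMN_F2.form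

/-- The coefficients of `D8`. -/
def cD8 (n : ℕ) : ℂ := 1 / 15 * c4 n - 2 / 15 * (if 2 ∣ n then c4 (n / 2) else 0) +
  16 / 15 * (if 4 ∣ n then c4 (n / 4) else 0) - rk 8 n

theorem D8_apply (τ : ℍ) : D8 τ = 1 / 15 * E₄ (aff 1 1 0 τ) - 2 / 15 * E₄ (aff 2 1 0 τ) +
    16 / 15 * E₄ (aff 4 1 0 τ) - (F * F) τ := rfl

theorem coeff_D8 (n : ℕ) : (qExpansion 1 D8).coeff n = cD8 n := by
  refine (ModularFormClass.qExpansion_coeff_unique (c := cD8)
    (h := 1) one_pos (Γ := (Gamma0 4 : Subgroup (GL (Fin 2) ℝ)))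
    (by simp [CongruenceSubgroup.strictPeriods_Gamma0]) (f := D8) (fun τ ↦ ?_) n).symm
  have h1 := (hasSum_E4 (N := 4) one_pos (by norm_num) τ).mul_left (1 / 15 : ℂ)
  have h2 := (hasSum_E4 (N := 4) two_pos (by norm_num) τ).mul_left (2 / 15 : ℂ)
  have h3 := (hasSum_E4 (N := 4) four_pos (by norm_num) τ).mul_left (16 / 15 : ℂ)
  have h4 := ((h1.sub h2).add h3).sub (hasSum_F2 τ)
  rw [D8_apply]
  have h5 : (fun m ↦ cD8 m • Periodic.qParam 1 (τ : ℂ) ^ m) = fun m ↦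
      1 / 15 * (if 1 ∣ m then c4 (m / 1) else 0) • Periodic.qParam 1 (τ : ℂ) ^ m -
        2 / 15 * (if 2 ∣ m then c4 (m / 2) else 0) • Periodic.qParam 1 (τ : ℂ) ^ m +
        16 / 15 * (if 4 ∣ m then c4 (m / 4) else 0) • Periodic.qParam 1 (τ : ℂ) ^ m -
      (rk 8 m : ℂ) • Periodic.qParam 1 (τ : ℂ) ^ m := by
    funext m
    simp only [cD8, smul_eq_mul, one_dvd, if_true, Nat.div_one]
    ring
  rw [h5]
  exact h4

theorem D8_eq_zero : D8 = 0 := by
  refine ModularForm.sturm_bound_Gamma0 4 D8 fun n hn ↦ ?_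
  rw [index_four] at hn
  have hn' : n ≤ 2 := hn
  rw [coeff_D8, cD8, rk_eight]
  interval_cases n
  · simp [r4_zero, c4]
    norm_num
  · simp [r4_one, r4_zero, c4, Finset.Nat.antidiagonal_succ]
    norm_num
  · have hs : ArithmeticFunction.sigma 3 2 = 9 := by decide +kernel
    simp [r4_one, r4_zero, r4_two, c4, Finset.Nat.antidiagonal_succ, hs]
    norm_num

theorem rk_eight_eq_c4 (n : ℕ) : (rk 8 n : ℂ) = 1 / 15 * c4 n -
    2 / 15 * (if 2 ∣ n then c4 (n / 2) else 0) + 16 / 15 * (if 4 ∣ n then c4 (n / 4) else 0) := by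
  have h := coeff_D8 n
  have h0 : (qExpansion 1 D8).coeff n = 0 := by
    rw [D8_eq_zero, FunLike.coe_zero, qExpansion_zero]
    rfl
  rw [h0, cD8] at h
  linear_combination h

/-- `σ₃` with value `0` at non-integers. -/
def s3 (n m : ℕ) : ℕ := if m ∣ n then ArithmeticFunction.sigma 3 (n / m) else 0

theorem rk_eight_add {n : ℕ} (hn : 0 < n) :
    rk 8 n + 32 * s3 n 2 = 16 * ArithmeticFunction.sigma 3 n + 256 * s3 n 4 := by
  have h := rk_eight_eq_c4 n
  have h' : (rk 8 n : ℂ) + 32 * (s3 n 2 : ℕ) = 16 * (ArithmeticFunction.sigma 3 n : ℕ) +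
      256 * (s3 n 4 : ℕ) := by
    rw [h, s3, s3, c4, if_neg hn.ne']
    by_cases h2 : 2 ∣ n
    · have h2' : n / 2 ≠ 0 := by omega
      rw [if_pos h2, if_pos h2, c4, if_neg h2']
      by_cases h4 : 4 ∣ n
      · have h4' : n / 4 ≠ 0 := by omega
        rw [if_pos h4, if_pos h4, c4, if_neg h4']
        ring
      · rw [if_neg h4, if_neg h4]
        push_cast
        ring
    · have h4 : ¬ 4 ∣ n := by omega
      rw [if_neg h2, if_neg h2, if_neg h4, if_neg h4]
      push_cast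
      ring
  exact_mod_cast h'

/-- The Hecke relation at `2`. -/
theorem sigma_two_mul {m : ℕ} (hm : 0 < m) :
    ArithmeticFunction.sigma 3 (2 * m) + 8 * s3 m 2 = 9 * ArithmeticFunction.sigma 3 m := by
  have hd : (2 * m).divisors = m.divisors ∪ m.divisors.image (2 * ·) := by
    ext d
    simp only [Finset.mem_union, Nat.mem_divisors, Finset.mem_image]
    constructor
    · rintro ⟨h1, h2⟩
      rcases Nat.even_or_odd d with he | ho
      · obtain ⟨c, hc⟩ := he.two_dvd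
        right
        refine ⟨c, ⟨?_, hm.ne'⟩, hc.symm⟩
        rw [hc] at h1
        exact Nat.dvd_of_mul_dvd_mul_left two_pos h1
      · left
        exact ⟨(Nat.Coprime.dvd_of_dvd_mul_left (Nat.coprime_two_right.mpr ho) h1), hm.ne'⟩
    · rintro (⟨h1, h2⟩ | ⟨c, ⟨h1, h2⟩, rfl⟩)
      · exact ⟨h1.mul_left 2, by omega⟩
      · exact ⟨Nat.mul_dvd_mul_left 2 h1, by omega⟩
  have hi : m.divisors ∩ m.divisors.image (2 * ·) =
      if 2 ∣ m then (m / 2).divisors.image (2 * ·) else ∅ := by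
    ext d
    simp only [Finset.mem_inter, Nat.mem_divisors, Finset.mem_image]
    split_ifs with h2
    · obtain ⟨l, rfl⟩ := h2
      rw [Nat.mul_div_cancel_left _ two_pos]
      simp only [Finset.mem_image, Nat.mem_divisors]
      constructor
      · rintro ⟨⟨h1, -⟩, c, ⟨h3, -⟩, rfl⟩
        exact ⟨c, ⟨Nat.dvd_of_mul_dvd_mul_left two_pos h1, by omega⟩, rfl⟩
      · rintro ⟨c, ⟨h1, h3⟩, rfl⟩
        exact ⟨⟨Nat.mul_dvd_mul_left 2 h1, hm.ne'⟩, c, ⟨h1.mul_left 2, hm.ne'⟩, rfl⟩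
    · simp only [Finset.notMem_empty, iff_false]
      rintro ⟨⟨h1, -⟩, c, -, rfl⟩
      exact h2 ((dvd_mul_right 2 c).trans h1)
  have hinj : Function.Injective (fun c : ℕ ↦ 2 * c) := fun x y h ↦ by simpa using h
  have hu := Finset.sum_union_inter (s₁ := m.divisors) (s₂ := m.divisors.image (2 * ·))
    (f := fun d ↦ d ^ 3)
  rw [← hd, hi, Finset.sum_image hinj.injOn] at hu
  rw [ArithmeticFunction.sigma_apply, ArithmeticFunction.sigma_apply, s3]
  have h8 : ∀ s : Finset ℕ, ∑ x ∈ s, (2 * x) ^ 3 = 8 * ∑ x ∈ s, x ^ 3 := by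
    intro s
    rw [Finset.mul_sum]
    exact Finset.sum_congr rfl fun x _ ↦ by ring
  rw [h8] at hu
  split_ifs with h2
  · rw [if_pos h2, Finset.sum_image hinj.injOn, h8] at hu
    rw [ArithmeticFunction.sigma_apply]
    omega
  · rw [if_neg h2, Finset.sum_empty] at hu
    omega

theorem sum_signed {n : ℕ} (hn : 0 < n) : ∑ d ∈ n.divisors, (-1 : ℤ) ^ (n + d) * (d : ℤ) ^ 3 =
    if 2 ∣ n then 16 * (s3 n 2 : ℤ) - ArithmeticFunction.sigma 3 n
    else ArithmeticFunction.sigma 3 n := by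
  split_ifs with h2
  · obtain ⟨m, rfl⟩ := h2
    rw [s3, if_pos (dvd_mul_right _ _), Nat.mul_div_cancel_left _ two_pos]
    have h3 : ∀ d ∈ (2 * m).divisors, (-1 : ℤ) ^ (2 * m + d) * (d : ℤ) ^ 3 =
        2 * (if 2 ∣ d then (d : ℤ) ^ 3 else 0) - (d : ℤ) ^ 3 := by
      intro d _
      rw [pow_add, pow_mul, neg_one_sq, one_pow, one_mul]
      split_ifs with hd
      · rw [(even_iff_two_dvd.mpr hd).neg_one_pow]; ring
      · rw [(Nat.not_even_iff_odd.mp fun h ↦ hd h.two_dvd).neg_one_pow]; ring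
    rw [Finset.sum_congr rfl h3, Finset.sum_sub_distrib, ← Finset.mul_sum,
      ← Finset.sum_filter]
    have e1 : (2 * m).divisors.filter (2 ∣ ·) = m.divisors.image (2 * ·) := by
      ext d
      simp only [Finset.mem_filter, Nat.mem_divisors, Finset.mem_image]
      constructor
      · rintro ⟨⟨h1, h2⟩, c, rfl⟩
        exact ⟨c, ⟨Nat.dvd_of_mul_dvd_mul_left two_pos h1, by omega⟩, rfl⟩
      · rintro ⟨c, ⟨h1, h2⟩, rfl⟩
        exact ⟨⟨Nat.mul_dvd_mul_left 2 h1, by omega⟩, dvd_mul_right _ _⟩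
    have hinj : Function.Injective (fun c : ℕ ↦ 2 * c) := fun x y h ↦ by simpa using h
    rw [e1, Finset.sum_image hinj.injOn, ArithmeticFunction.sigma_apply,
      ArithmeticFunction.sigma_apply]
    push_cast
    rw [Finset.mul_sum, Finset.mul_sum]
    congr 1
    exact Finset.sum_congr rfl fun x _ ↦ by ring
  · have ho : Odd n := Nat.not_even_iff_odd.mp fun h ↦ h2 h.two_dvd
    rw [ArithmeticFunction.sigma_apply]
    push_cast
    refine Finset.sum_congr rfl fun d hd ↦ ?_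
    have hdo : Odd d := ho.of_dvd_nat (Nat.dvd_of_mem_divisors hd)
    rw [(ho.add_odd hdo).neg_one_pow, one_mul]

/-- **Jacobi's eight-square theorem.** -/
theorem jacobi_eight_squares {n : ℕ} (hn : 0 < n) :
    (Nat.card {x : Fin 8 → ℤ // ∑ i, x i ^ 2 = n} : ℤ) =
      16 * ∑ d ∈ n.divisors, (-1) ^ (n + d) * (d : ℤ) ^ 3 := by
  change ((rk 8 n : ℕ) : ℤ) = _
  have h := rk_eight_add hn
  rw [sum_signed hn]
  split_ifs with h2
  · obtain ⟨m, rfl⟩ := h2
    have h3 := sigma_two_mul (m := m) (by omega)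
    have e1 : s3 (2 * m) 2 = ArithmeticFunction.sigma 3 m := by
      rw [s3, if_pos (dvd_mul_right _ _), Nat.mul_div_cancel_left _ two_pos]
    have e2 : s3 (2 * m) 4 = s3 m 2 := by
      have h4 : 4 ∣ 2 * m ↔ 2 ∣ m := by omega
      have h5 : 2 * m / 4 = m / 2 := by omega
      rw [s3, s3, h5]
      simp only [h4]
    rw [e1, e2] at h
    rw [e1]
    omega
  · have e1 : s3 n 2 = 0 := by rw [s3, if_neg h2]
    have e2 : s3 n 4 = 0 := by rw [s3, if_neg (by omega)]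
    rw [e1, e2] at h
    omega

end Fermat.Agent.Cor.FourSq
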