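import Fermat.Agent.Cor.ThetaAGM

/-!
# `θ₂ θ₃ θ₄ = 2 η³`

This file is not used by any of the statement files.
-/

set_option autoImplicit false

open Filter Topology Function Complex
open UpperHalfPlane hiding I
open scoped Real MatrixGroups ModularForm Manifold

noncomputable section

namespace Fermat.Agent.Cor.FourSq

theorem continuous_th3 : Continuous th3 := by
  rw [continuous_iff_continuousAt]
  intro τ
  exact (continuousAt_jacobiTheta τ.im_pos).comp UpperHalfPlane.continuous_coe.continuousAt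

theorem continuous_th4 : Continuous th4 := by
  rw [continuous_iff_continuousAt]
  intro τ
  have him : 0 < ((1 : ℂ) + τ).im := by simpa using τ.im_pos
  exact ContinuousAt.comp (f := fun τ : ℍ ↦ (1 : ℂ) + τ) (g := jacobiTheta)
    (continuousAt_jacobiTheta him)
    (continuous_const.add UpperHalfPlane.continuous_coe).continuousAt

theorem th2_eq (τ : ℍ) : th2 τ = cexp (π * I * (1 / 2) ^ 2 * τ) * jacobiTheta₂ (1 / 2 * τ) τ :=
  tsum_tm _ _

theorem continuous_th2 : Continuous th2 := by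
  have e : th2 = fun τ : ℍ ↦ cexp (π * I * (1 / 2) ^ 2 * τ) * jacobiTheta₂ (1 / 2 * τ) τ :=
    funext th2_eq
  rw [e, continuous_iff_continuousAt]
  intro τ
  have hc := UpperHalfPlane.continuous_coe
  refine ContinuousAt.mul (by fun_prop) ?_
  exact ContinuousAt.comp (f := fun τ : ℍ ↦ ((1 / 2 * τ : ℂ), (τ : ℂ)))
    (g := fun p : ℂ × ℂ ↦ jacobiTheta₂ p.1 p.2)
    (continuousAt_jacobiTheta₂ _ τ.im_pos) (by fun_prop)

theorem continuous_eta : Continuous fun τ : ℍ ↦ ModularForm.eta τ := by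
  rw [continuous_iff_continuousAt]
  intro τ
  exact ContinuousAt.comp (f := fun τ : ℍ ↦ (τ : ℂ)) (g := ModularForm.eta)
    (ModularForm.differentiableAt_eta_of_mem_upperHalfPlaneSet τ.im_pos).continuousAt
    UpperHalfPlane.continuous_coe.continuousAt

/-- The ratio -/
def rat (τ : ℍ) : ℂ := th2 τ * th3 τ * th4 τ / (2 * ModularForm.eta τ ^ 3)

theorem eta_ne (τ : ℍ) : ModularForm.eta τ ≠ 0 := ModularForm.eta_ne_zero τ.im_pos

theorem rat_pow (τ : ℍ) : rat τ ^ 8 = 1 := by
  have h := discriminant_eq τ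
  have h2 : ModularForm.discriminant τ = ModularForm.eta τ ^ 24 := rfl
  rw [rat, div_pow, ← h, h2]
  have := eta_ne τ
  field_simp
  norm_num

theorem continuous_rat : Continuous rat := by
  refine ((continuous_th2.mul continuous_th3).mul continuous_th4).div
    (continuous_const.mul (continuous_eta.pow 3)) fun τ ↦ ?_
  exact mul_ne_zero two_ne_zero (pow_ne_zero 3 (eta_ne τ))

theorem rat_const (τ τ' : ℍ) : rat τ = rat τ' := by
  have hfin : {z : ℂ | z ^ 8 = 1}.Finite := by
    have h := (Polynomial.nthRootsFinset 8 (1 : ℂ)).finite_toSet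
    refine h.subset fun z hz ↦ ?_
    have hz' : z ^ 8 = 1 := hz
    simpa [Polynomial.mem_nthRootsFinset] using hz'
  exact isPreconnected_univ.constant_of_mapsTo hfin.isDiscrete continuous_rat.continuousOn
    (fun τ _ ↦ rat_pow τ) (Set.mem_univ _) (Set.mem_univ _)

/-! ### Positivity at `i` -/

/-- A complex number which is a positive real -/
def Pos (z : ℂ) : Prop := ∃ x : ℝ, 0 < x ∧ z = x

theorem Pos.mul {z w : ℂ} (hz : Pos z) (hw : Pos w) : Pos (z * w) := by
  obtain ⟨x, hx, rfl⟩ := hz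
  obtain ⟨y, hy, rfl⟩ := hw
  exact ⟨x * y, mul_pos hx hy, by push_cast; rfl⟩

theorem Pos.inv {z : ℂ} (hz : Pos z) : Pos z⁻¹ := by
  obtain ⟨x, hx, rfl⟩ := hz
  exact ⟨x⁻¹, inv_pos.mpr hx, by push_cast; rfl⟩

theorem pos_one : Pos 1 := ⟨1, one_pos, by simp⟩

theorem pos_of_tendsto {ι : Type*} {l : Filter ι} [l.NeBot] {f : ι → ℂ} {z : ℂ}
    (h : Tendsto f l (𝓝 z)) (hf : ∀ i, Pos (f i)) (hz : z ≠ 0) : Pos z := by
  have h1 : ∀ i, 0 ≤ (f i).re ∧ (f i).im = 0 := fun i ↦ by
    obtain ⟨x, hx, h2⟩ := hf i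
    rw [h2]
    exact ⟨by simpa using hx.le, by simp⟩
  have h2 : 0 ≤ z.re :=
    ge_of_tendsto' ((Complex.continuous_re.tendsto _).comp h) fun i ↦ (h1 i).1
  have h3 : z.im = 0 := by
    have h4 : Tendsto (fun i ↦ (f i).im) l (𝓝 z.im) := (Complex.continuous_im.tendsto _).comp h
    have e : (fun i ↦ (f i).im) = fun _ ↦ 0 := funext fun i ↦ (h1 i).2
    rw [e] at h4
    exact tendsto_nhds_unique h4 tendsto_const_nhds |>.symm ▸ rfl
  refine ⟨z.re, lt_of_le_of_ne h2 fun h5 ↦ hz ?_, ?_⟩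
  · apply Complex.ext
    · simpa using h5.symm
    · simpa using h3
  · apply Complex.ext
    · simp
    · simpa using h3

theorem eta_q_pt {t : ℝ} (ht : 0 < t) (n : ℕ) :
    ModularForm.eta_q n (pt t ht) = ((Real.exp (-(2 * π * (n + 1) * t)) : ℝ) : ℂ) := by
  rw [ModularForm.eta_q_eq_cexp, Complex.ofReal_exp]
  congr 1
  have : (pt t ht : ℂ) = t * I := rfl
  rw [this]
  push_cast
  linear_combination (2 * π * (n + 1) * t : ℂ) * I_sq

theorem pos_eta {t : ℝ} (ht : 0 < t) : Pos (ModularForm.eta (pt t ht)) := by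
  rw [ModularForm.eta]
  refine Pos.mul ?_ ?_
  · refine ⟨Real.exp (-(2 * π * t / 24)), Real.exp_pos _, ?_⟩
    rw [Periodic.qParam, Complex.ofReal_exp]
    congr 1
    have : (pt t ht : ℂ) = t * I := rfl
    rw [this]
    push_cast
    linear_combination (2 * π * t / 24 : ℂ) * I_sq
  · have h := (ModularForm.multipliableLocallyUniformlyOn_eta.multipliable (pt t ht).im_pos).hasProd
    refine pos_of_tendsto (l := atTop) h (fun s ↦ ?_)
      (ModularForm.eta_tprod_ne_zero (pt t ht).im_pos)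
    induction s using Finset.induction_on with
    | empty => simpa using pos_one
    | insert a s ha ih =>
      rw [Finset.prod_insert ha]
      refine Pos.mul ?_ ih
      refine ⟨1 - Real.exp (-(2 * π * (a + 1) * t)), ?_, ?_⟩
      · rw [sub_pos, Real.exp_lt_one_iff]
        have := Real.pi_pos
        have : 0 < 2 * π * (a + 1) * t := by positivity
        linarith
      · rw [eta_q_pt]
        push_cast
        rfl

theorem pos_th2 {t : ℝ} (ht : 0 < t) : Pos (th2 (pt t ht)) := by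
  have h := (as_tm (1 / 2) (pt t ht).im_pos).2
  refine pos_of_tendsto (l := atTop) (f := fun s : Finset ℤ ↦
    ∑ n ∈ insert 0 s, tm (1 / 2) (pt t ht) n) ?_ (fun s ↦ ?_) (th_ne_zero _).1
  · have h1 : Tendsto (fun s : Finset ℤ ↦ ∑ n ∈ s, tm (1 / 2) (pt t ht) n) atTop
        (𝓝 (th2 (pt t ht))) := h
    refine h1.comp ?_
    refine tendsto_atTop_mono (fun s ↦ Finset.subset_insert 0 s) tendsto_id
  · have hterm : ∀ n : ℤ, Pos (tm (1 / 2) (pt t ht) n) := by
      intro n
      refine ⟨Real.exp (-(π * (n + 1 / 2) ^ 2 * t)), Real.exp_pos _, ?_⟩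
      rw [tm, Complex.ofReal_exp]
      congr 1
      have : (pt t ht : ℂ) = t * I := rfl
      rw [this]
      push_cast
      linear_combination (π * (n + 1 / 2) ^ 2 * t : ℂ) * I_sq
    have hs : ∀ s : Finset ℤ, ∃ x : ℝ, 0 ≤ x ∧ ∑ n ∈ s, tm (1 / 2) (pt t ht) n = x := by
      intro s
      induction s using Finset.induction_on with
      | empty => exact ⟨0, le_rfl, by simp⟩
      | insert a s ha ih =>
        obtain ⟨x, hx, h2⟩ := ih
        obtain ⟨y, hy, h3⟩ := hterm a
        exact ⟨y + x, by positivity, by rw [Finset.sum_insert ha, h2, h3]; push_cast; rfl⟩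
    obtain ⟨x, hx, h2⟩ := hs ((insert 0 s).erase 0)
    obtain ⟨y, hy, h3⟩ := hterm 0
    refine ⟨y + x, by positivity, ?_⟩
    rw [← Finset.add_sum_erase _ _ (Finset.mem_insert_self 0 s), h2, h3]
    push_cast
    rfl

theorem pos_rat {t : ℝ} (ht : 0 < t) : Pos (rat (pt t ht)) := by
  rw [rat, div_eq_mul_inv]
  refine (((pos_th2 ht).mul ⟨_, aR_pos ht, th3_pt ht⟩).mul ⟨_, bR_pos ht, th4_pt ht⟩).mul
    (Pos.inv ?_)
  have h := pos_eta ht
  have h2 : Pos 2 := ⟨2, two_pos, by simp⟩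
  rw [pow_succ, pow_two]
  exact h2.mul ((h.mul h).mul h)

theorem rat_eq_one (τ : ℍ) : rat τ = 1 := by
  obtain ⟨x, hx, h⟩ := pos_rat one_pos
  have h1 := rat_pow (pt 1 one_pos)
  rw [h] at h1
  have h2 : x ^ 8 = 1 := by exact_mod_cast h1
  have h3 : x = 1 := (pow_eq_one_iff_of_nonneg hx.le (by norm_num)).mp h2
  rw [rat_const τ (pt 1 one_pos), h, h3]
  simp

/-- **`θ₂ θ₃ θ₄ = 2 η³`**. -/
theorem th_mul_eq (τ : ℍ) : th2 τ * th3 τ * th4 τ = 2 * ModularForm.eta τ ^ 3 := by
  have h := rat_eq_one τ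
  rw [rat, div_eq_one_iff_eq (mul_ne_zero two_ne_zero (pow_ne_zero 3 (eta_ne τ)))] at h
  exact h

end Fermat.Agent.Cor.FourSq
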