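import Fermat.Agent.Cor.ThetaDn

/-!
# Jacobi's identity, the discriminant and the modular invariant in terms of theta constants

* `jacobi_identity`: `θ₃⁴ = θ₂⁴ + θ₄⁴`;
* `E6_eq`: `E₆ = (θ₂⁴ + θ₃⁴) (θ₃⁴ + θ₄⁴) (θ₄⁴ - θ₂⁴) / 2`;
* `discriminant_eq`: `256 Δ = (θ₂ θ₃ θ₄)⁸`; in particular the theta constants have no zeros;
* `E4_cube_eq`: `E₄³ λ² (1 - λ)² = 256 (1 - λ + λ²)³ Δ` for `λ = θ₂⁴ / θ₃⁴`.

This file is not used by any of the statement files.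
-/

set_option autoImplicit false

open Filter Topology Function Complex
open UpperHalfPlane hiding I
open CongruenceSubgroup ModularForm EisensteinSeries
open scoped Real MatrixGroups ModularForm Manifold
open Fermat.Agent.IntStr Fermat.Agent.AL

noncomputable section

namespace Fermat.Agent.Cor.FourSq

/-! ### Behaviour at infinity -/

theorem tendsto_coe : Tendsto (fun τ : ℍ ↦ (τ : ℂ)) atImInfty (comap Complex.im atTop) := by
  rw [tendsto_comap_iff]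
  exact tendsto_comap

theorem tendsto_one_add : Tendsto (fun τ : ℍ ↦ (1 + τ : ℂ)) atImInfty (comap Complex.im atTop) := by
  rw [tendsto_comap_iff]
  have : (Complex.im ∘ fun τ : ℍ ↦ (1 + τ : ℂ)) = UpperHalfPlane.im := by
    ext τ
    simp
  rw [this]
  exact tendsto_comap

theorem tendsto_jt : Tendsto jacobiTheta (comap Complex.im atTop) (𝓝 1) := by
  have h1 : Tendsto (fun τ : ℂ ↦ Real.exp (-π * τ.im)) (comap Complex.im atTop) (𝓝 0) := by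
    have h2 : Tendsto (fun t : ℝ ↦ Real.exp (-π * t)) atTop (𝓝 0) := by
      refine Real.tendsto_exp_atBot.comp ?_
      exact tendsto_id.const_mul_atTop_of_neg (by linarith [Real.pi_pos])
    exact h2.comp tendsto_comap
  have h3 := isBigO_at_im_infty_jacobiTheta_sub_one.trans_tendsto h1
  have h4 := h3.add_const 1
  simpa using h4

theorem tendsto_G : Tendsto G atImInfty (𝓝 1) := by
  have h := (tendsto_jt.comp tendsto_coe).pow 4
  have h' : Tendsto (fun τ : ℍ ↦ jacobiTheta τ ^ 4) atImInfty (𝓝 1) := by simpa using h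
  exact h'

theorem tendsto_G1 : Tendsto G1 atImInfty (𝓝 1) := by
  have h := (tendsto_jt.comp tendsto_one_add).pow 4
  have e : G1 = fun τ ↦ (jacobiTheta ∘ fun τ : ℍ ↦ (1 + τ : ℂ)) τ ^ 4 := by
    ext τ; rw [G1_eq]; rfl
  rw [e]
  simpa using h

theorem tendsto_th2 : Tendsto th2 atImInfty (𝓝 0) := by
  have hs := summable_tm (1 / 2) (z := I) (by simp)
  have h1 : Tendsto (fun τ : ℍ ↦ Real.exp (-(π / 4) * (τ.im - 1)) * ∑' n, ‖tm (1 / 2) I n‖)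
      atImInfty (𝓝 0) := by
    have h2 : Tendsto (fun t : ℝ ↦ Real.exp (-(π / 4) * (t - 1))) atTop (𝓝 0) := by
      refine Real.tendsto_exp_atBot.comp ?_
      refine Tendsto.const_mul_atTop_of_neg (by linarith [Real.pi_pos]) ?_
      exact tendsto_atTop_add_const_right _ _ tendsto_id
    have h3 : Tendsto (fun τ : ℍ ↦ Real.exp (-(π / 4) * (τ.im - 1))) atImInfty (𝓝 0) :=
      h2.comp tendsto_comap
    simpa using h3.mul_const (∑' n, ‖tm (1 / 2) I n‖)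
  refine squeeze_zero_norm' ?_ h1
  have h2 : ∀ᶠ τ : ℍ in atImInfty, 1 ≤ τ.im := tendsto_comap.eventually (eventually_ge_atTop 1)
  filter_upwards [h2] with τ hτ
  rw [th2]
  refine (norm_tsum_le_tsum_norm (summable_tm _ τ.im_pos)).trans ?_
  rw [← tsum_mul_left]
  refine Summable.tsum_le_tsum (fun n ↦ ?_) (summable_tm _ τ.im_pos) (hs.mul_left _)
  have e1 := norm_tm (1 / 2) τ n
  have e2 := norm_tm (1 / 2) I n
  push_cast at e1 e2
  rw [e1, e2, ← Real.exp_add, Real.exp_le_exp]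
  have h4 : (1 / 4 : ℝ) ≤ ((n : ℝ) + 1 / 2) ^ 2 := by
    have h5 : (0 : ℤ) ≤ n * (n + 1) := by
      rcases le_or_gt 0 n with h | h
      · positivity
      · nlinarith
    have h6 : (0 : ℝ) ≤ n * (n + 1) := by exact_mod_cast h5
    nlinarith
  have h7 : (0 : ℝ) ≤ τ.im - 1 := by linarith
  have h8 := mul_le_mul_of_nonneg_right h4 h7
  have h9 := mul_le_mul_of_nonneg_left h8 Real.pi_pos.le
  simp only [Complex.I_im, mul_one]
  change -(π * ((n : ℝ) + 1 / 2) ^ 2 * τ.im) ≤ _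
  nlinarith

theorem tendsto_G2 : Tendsto G2 atImInfty (𝓝 0) := by
  have h := (tendsto_th2.pow 4).neg
  have e : G2 = fun τ ↦ -th2 τ ^ 4 := by
    ext τ; rw [G2_eq]
  rw [e]
  simpa using h

theorem coeff_zero_eq {f : ℍ → ℂ} (hf : f ∈ QR 1) {L : ℂ}
    (h : Tendsto f atImInfty (𝓝 L)) : (qExpansion 1 f).coeff 0 = L := by
  rw [UpperHalfPlane.qExpansion_coeff_zero one_pos (QR.analyticAt one_pos hf) hf.1]
  exact h.limUnder_eq

theorem coeff_sub_smul {f g : ℍ → ℂ} (hf : f ∈ QR 1) (hg : g ∈ QR 1) (c : ℂ) (n : ℕ) :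
    (qExpansion 1 (f - c • g)).coeff n = (qExpansion 1 f).coeff n - c * (qExpansion 1 g).coeff n := by
  refine qExp_unique one_pos (Subalgebra.sub_mem _ hf (Subalgebra.smul_mem _ hg c))
    (c := fun m ↦ (qExpansion 1 f).coeff m - c * (qExpansion 1 g).coeff m) (fun τ ↦ ?_) n
  have h1 := UpperHalfPlane.hasSum_qExpansion one_pos hf.1 hf.2.1 hf.2.2 τ
  have h2 := UpperHalfPlane.hasSum_qExpansion one_pos hg.1 hg.2.1 hg.2.2 τ
  have h3 := h1.sub (h2.mul_left c)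
  have e : (fun m ↦ ((qExpansion 1 f).coeff m - c * (qExpansion 1 g).coeff m) •
      Periodic.qParam 1 (τ : ℂ) ^ m) = fun m ↦ (qExpansion 1 f).coeff m •
      Periodic.qParam 1 (τ : ℂ) ^ m - c * (qExpansion 1 g).coeff m •
      Periodic.qParam 1 (τ : ℂ) ^ m := by
    funext m
    simp only [smul_eq_mul]
    ring
  rw [e]
  exact h3

/-- A form of level one and weight `< 12` is determined by its constant term. -/
theorem eq_of_coeff_zero {k : ℤ} (hk : k < 12) (f : ModularForm (Gamma0 1) k)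
    (h : (qExpansion 1 f).coeff 0 = 0) : f = 0 := by
  refine ModularForm.sturm_bound_Gamma0 1 f fun n hn ↦ ?_
  have h1 : (Gamma0 1).index = 1 := by
    rw [Subgroup.index_eq_one, eq_top_iff]
    intro γ _
    rw [mem_Gamma0_iff]
    simp
  rw [h1] at hn
  have hn' : n = 0 := by
    have : (k * ((1 : ℕ) : ℤ)).toNat < 12 := by omega
    omega
  rw [hn', h]

/-! ### Jacobi's identity -/

/-- `θ₃⁴ - θ₄⁴ - θ₂⁴` -/
def H4 : ℍ → ℂ := G - G1 + G2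

theorem slash_G_S : G1 ∣[(2 : ℤ)] ModularGroup.S = G2 := rfl

theorem slash_G_T : G ∣[(2 : ℤ)] ModularGroup.T = G1 := rfl

theorem sub_slash_two (f g : ℍ → ℂ) (γ : SL(2, ℤ)) :
    (f - g) ∣[(2 : ℤ)] γ = f ∣[(2 : ℤ)] γ - g ∣[(2 : ℤ)] γ := by
  rw [sub_eq_add_neg, SlashAction.add_slash, SlashAction.neg_slash, ← sub_eq_add_neg]

theorem H4_S : H4 ∣[(2 : ℤ)] ModularGroup.S = -H4 := by
  rw [H4, SlashAction.add_slash, sub_slash_two, G_S, slash_G_S, G2_S]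
  ring

theorem H4_T : H4 ∣[(2 : ℤ)] ModularGroup.T = -H4 := by
  rw [H4, SlashAction.add_slash, sub_slash_two, G1_T, slash_G_T, G2_T]
  ring

theorem mdiff_G1 : MDiff G1 := mdiff_G.slash 2 _

theorem mdiff_G2 : MDiff G2 := mdiff_G1.slash 2 _

theorem isMN_H4 : IsMN 1 4 (H4 * H4) := by
  have h : ∀ γ : SL(2, ℤ), (H4 * H4) ∣[(4 : ℤ)] γ = H4 * H4 := by
    have h0 : ∀ γ : SL(2, ℤ), (H4 * H4) ∣[(4 : ℤ)] γ = (H4 ∣[(2 : ℤ)] γ) * (H4 ∣[(2 : ℤ)] γ) :=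
      fun γ ↦ mul_slash_SL2 2 2 γ H4 H4
    refine SlashInvariantForm.slash_action_generators_SL2Z ?_ ?_
    · rw [h0, H4_S, neg_mul_neg]
    · rw [h0, H4_T, neg_mul_neg]
  have hb : IsBoundedAtImInfty H4 := by
    have h1 : IsBoundedAtImInfty (G + -G1 + G2) := (bdd_G.add bdd_G1.neg_left).add bdd_G2
    rw [H4, sub_eq_add_neg]
    exact h1
  exact ⟨fun γ _ ↦ h γ, ((mdiff_G.sub mdiff_G1).add mdiff_G2).mul
    ((mdiff_G.sub mdiff_G1).add mdiff_G2), fun γ ↦ by rw [h]; exact hb.mul hb⟩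

theorem H4_eq_zero (τ : ℍ) : H4 τ = 0 := by
  have h1 : Tendsto (H4 * H4) atImInfty (𝓝 0) := by
    have h2 := (tendsto_G.sub tendsto_G1).add tendsto_G2
    have h3 := h2.mul h2
    have h4 : Tendsto (fun x ↦ (G x - G1 x + G2 x) * (G x - G1 x + G2 x)) atImInfty (𝓝 0) := by
      simpa using h3
    exact h4
  have h4 : isMN_H4.form = 0 := eq_of_coeff_zero (by norm_num) _ (coeff_zero_eq isMN_H4.mem_QR h1)
  have h5 : isMN_H4.form τ = 0 := by rw [h4]; rfl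
  have h6 : H4 τ * H4 τ = 0 := h5
  exact mul_self_eq_zero.mp h6

theorem G_eq_sub (τ : ℍ) : G τ = G1 τ - G2 τ := by
  have h : G τ - G1 τ + G2 τ = 0 := H4_eq_zero τ
  linear_combination h

/-- **Jacobi's identity** (aequatio identica satis abstrusa). -/
theorem jacobi_identity (τ : ℍ) : th3 τ ^ 4 = th2 τ ^ 4 + th4 τ ^ 4 := by
  have h := G_eq_sub τ
  rw [G_eq, G1_eq, G2_eq] at h
  rw [h]; ring

/-! ### The Eisenstein series of weight six -/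

/-- `(θ₃⁴ + θ₄⁴) (θ₂⁴ - θ₄⁴) (-θ₂⁴ - θ₃⁴) / 2` -/
def P6 : ℍ → ℂ := ((G + G1) * (-G1 - G2)) * (G2 - G)

theorem P6_slash_gen (γ : SL(2, ℤ)) : P6 ∣[(6 : ℤ)] γ =
    ((G ∣[(2 : ℤ)] γ + G1 ∣[(2 : ℤ)] γ) * (-(G1 ∣[(2 : ℤ)] γ) - G2 ∣[(2 : ℤ)] γ)) *
      (G2 ∣[(2 : ℤ)] γ - G ∣[(2 : ℤ)] γ) := by
  have h1 := mul_slash_SL2 4 2 γ ((G + G1) * (-G1 - G2)) (G2 - G)
  have h2 := mul_slash_SL2 2 2 γ (G + G1) (-G1 - G2)
  have h3 : (-G1 - G2) ∣[(2 : ℤ)] γ = -(G1 ∣[(2 : ℤ)] γ) - G2 ∣[(2 : ℤ)] γ := by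
    rw [sub_slash_two, neg_slash_two]
  rw [h3, SlashAction.add_slash] at h2
  rw [sub_slash_two] at h1
  change ((G + G1) * (-G1 - G2) * (G2 - G)) ∣[(4 + 2 : ℤ)] γ = _
  rw [h1]
  congr 1

theorem P6_slash (γ : SL(2, ℤ)) : P6 ∣[(6 : ℤ)] γ = P6 := by
  refine SlashInvariantForm.slash_action_generators_SL2Z ?_ ?_ γ
  · rw [P6_slash_gen, G_S, slash_G_S, G2_S, P6]
    ring
  · rw [P6_slash_gen, slash_G_T, G1_T, G2_T, P6]
    ring

theorem isMN_P6 : IsMN 1 6 P6 where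
  slash γ _ := P6_slash γ
  holo := ((mdiff_G.add mdiff_G1).mul (mdiff_G1.neg.sub mdiff_G2)).mul (mdiff_G2.sub mdiff_G)
  bdd γ := by
    rw [P6_slash]
    have h1 : IsBoundedAtImInfty (-G1 - G2) := by
      rw [sub_eq_add_neg]; exact bdd_G1.neg_left.add bdd_G2.neg_left
    have h2 : IsBoundedAtImInfty (G2 - G) := by
      rw [sub_eq_add_neg]; exact bdd_G2.add bdd_G.neg_left
    exact ((bdd_G.add bdd_G1).mul h1).mul h2

theorem isMN_E6 : IsMN 1 6 (E₆ : ℍ → ℂ) where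
  slash γ _ := SlashInvariantFormClass.slash_action_eq E₆ _ ⟨γ, rfl⟩
  holo := ModularFormClass.holo E₆
  bdd γ := by
    have h : (E₆ : ℍ → ℂ) ∣[(6 : ℤ)] γ = E₆ :=
      SlashInvariantFormClass.slash_action_eq E₆ _ ⟨γ, rfl⟩
    rw [h]
    exact ModularFormClass.bdd_at_infty E₆

/-- The difference -/
def DE6 : ModularForm (Gamma0 1) 6 := isMN_P6.form - (2 : ℂ) • isMN_E6.form

theorem DE6_eq_zero : DE6 = 0 := by
  refine eq_of_coeff_zero (by norm_num) _ ?_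
  have h1 : Tendsto P6 atImInfty (𝓝 2) := by
    have h2 := ((tendsto_G.add tendsto_G1).mul (tendsto_G1.neg.sub tendsto_G2)).mul
      (tendsto_G2.sub tendsto_G)
    have e : (1 + 1 : ℂ) * (-1 - 0) * (0 - 1) = 2 := by norm_num
    rw [e] at h2
    exact h2
  have h3 := coeff_zero_eq isMN_P6.mem_QR h1
  have h4 : (qExpansion 1 (E₆ : ℍ → ℂ)).coeff 0 = 1 := E_qExpansion_coeff_zero _ ⟨3, rfl⟩
  have h5 := coeff_sub_smul isMN_P6.mem_QR isMN_E6.mem_QR 2 0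
  rw [h3, h4] at h5
  have h6 : (DE6 : ℍ → ℂ) = P6 - (2 : ℂ) • (E₆ : ℍ → ℂ) := rfl
  rw [h6, h5]
  norm_num

theorem P6_eq (τ : ℍ) : P6 τ = 2 * E₆ τ := by
  have h : DE6 τ = 0 := by rw [DE6_eq_zero]; rfl
  have h6 : DE6 τ = P6 τ - 2 * E₆ τ := rfl
  rw [h6] at h
  linear_combination h

theorem E6_eq (τ : ℍ) : E₆ τ =
    (th2 τ ^ 4 + th3 τ ^ 4) * (th3 τ ^ 4 + th4 τ ^ 4) * (th4 τ ^ 4 - th2 τ ^ 4) / 2 := by
  have h := P6_eq τ
  have h1 : P6 τ = (G τ + G1 τ) * (-G1 τ - G2 τ) * (G2 τ - G τ) := rfl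
  rw [h1, G_eq, G1_eq, G2_eq] at h
  linear_combination -h / 2

theorem E4_eq (τ : ℍ) : E₄ τ = (th2 τ ^ 8 + th3 τ ^ 8 + th4 τ ^ 8) / 2 := by
  rw [← W8_eq]
  have h1 : W8 τ = G τ * G τ + G1 τ * G1 τ + G2 τ * G2 τ := rfl
  rw [h1, G_eq, G1_eq, G2_eq]
  ring

/-- **The discriminant**: `256 Δ = (θ₂ θ₃ θ₄)⁸`. -/
theorem discriminant_eq (τ : ℍ) :
    256 * ModularForm.discriminant τ = (th2 τ * th3 τ * th4 τ) ^ 8 := by
  rw [ModularForm.discriminant_eq_E₄_cube_sub_E₆_sq, E4_eq, E6_eq]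
  have h := jacobi_identity τ
  have e8 : th3 τ ^ 8 = (th2 τ ^ 4 + th4 τ ^ 4) ^ 2 := by rw [← h]; ring
  rw [mul_pow, mul_pow, e8, h]
  ring

theorem th_ne_zero (τ : ℍ) : th2 τ ≠ 0 ∧ th3 τ ≠ 0 ∧ th4 τ ≠ 0 := by
  have h := discriminant_eq τ
  have h1 : (256 : ℂ) * ModularForm.discriminant τ ≠ 0 :=
    mul_ne_zero (by norm_num) (ModularForm.discriminant_ne_zero τ)
  refine ⟨fun h2 ↦ h1 ?_, fun h2 ↦ h1 ?_, fun h2 ↦ h1 ?_⟩ <;> rw [h, h2] <;> ring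

/-- The modular function `λ = θ₂⁴ / θ₃⁴` -/
def lam (τ : ℍ) : ℂ := th2 τ ^ 4 / th3 τ ^ 4

theorem one_sub_lam (τ : ℍ) : 1 - lam τ = th4 τ ^ 4 / th3 τ ^ 4 := by
  have h3 := pow_ne_zero 4 (th_ne_zero τ).2.1
  rw [lam, eq_div_iff h3, sub_mul, div_mul_cancel₀ _ h3]
  linear_combination jacobi_identity τ

theorem lam_ne_zero (τ : ℍ) : lam τ ≠ 0 :=
  div_ne_zero (pow_ne_zero 4 (th_ne_zero τ).1) (pow_ne_zero 4 (th_ne_zero τ).2.1)

theorem lam_ne_one (τ : ℍ) : lam τ ≠ 1 := by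
  intro h
  have h1 := one_sub_lam τ
  rw [h, sub_self] at h1
  exact div_ne_zero (pow_ne_zero 4 (th_ne_zero τ).2.2) (pow_ne_zero 4 (th_ne_zero τ).2.1) h1.symm

/-- **The modular invariant in terms of `λ`**:
`j = E₄³ / Δ = 256 (1 - λ + λ²)³ / (λ² (1 - λ)²)`. -/
theorem j_eq_lam (τ : ℍ) : E₄ τ ^ 3 / ModularForm.discriminant τ =
    256 * (1 - lam τ + lam τ ^ 2) ^ 3 / (lam τ ^ 2 * (1 - lam τ) ^ 2) := by
  have h3 := (th_ne_zero τ).2.1
  have h2 := (th_ne_zero τ).1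
  have h4 := (th_ne_zero τ).2.2
  have hD : ModularForm.discriminant τ = (th2 τ * th3 τ * th4 τ) ^ 8 / 256 := by
    rw [← discriminant_eq]; ring
  have hJ := jacobi_identity τ
  have e1 : 1 - lam τ + lam τ ^ 2 = E₄ τ / th3 τ ^ 8 := by
    rw [E4_eq, lam, eq_div_iff (pow_ne_zero 8 h3)]
    have h3' := pow_ne_zero 4 h3
    field_simp
    have e4 : th4 τ ^ 8 = (th3 τ ^ 4 - th2 τ ^ 4) ^ 2 := by rw [hJ]; ring
    rw [e4]
    ring
  rw [e1, one_sub_lam, hD, lam]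
  field_simp

end Fermat.Agent.Cor.FourSq
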