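import Fermat.Agent.Cor.ThetaJacobi
import Fermat.Agent.H18_JFun

/-!
# The modular function `λ = θ₂⁴ / θ₃⁴`

* `lam_T`, `lam_S`: `λ(τ + 1) = λ / (λ - 1)` and `λ(-1/τ) = 1 - λ`;
* `lam_surjective`: `λ` takes exactly the values `≠ 0, 1`.

This file is not used by any of the statement files.
-/

set_option autoImplicit false

open Filter Topology Function Complex
open UpperHalfPlane hiding I
open CongruenceSubgroup ModularForm EisensteinSeries
open scoped Real MatrixGroups ModularForm Manifold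

noncomputable section

namespace Fermat.Agent.Cor.FourSq

theorem G_ne_zero (τ : ℍ) : G τ ≠ 0 := by
  rw [G_eq]; exact pow_ne_zero 4 (th_ne_zero τ).2.1

theorem G1_ne_zero (τ : ℍ) : G1 τ ≠ 0 := by
  rw [G1_eq]; exact pow_ne_zero 4 (th_ne_zero τ).2.2

theorem lam_eq (τ : ℍ) : lam τ = -G2 τ / G τ := by
  rw [lam, G_eq, G2_eq, neg_neg]

theorem lam_smul (γ : SL(2, ℤ)) (τ : ℍ) :
    lam (γ • τ) = -(G2 ∣[(2 : ℤ)] γ) τ / (G ∣[(2 : ℤ)] γ) τ := by
  rw [lam_eq, ModularForm.SL_slash_apply, ModularForm.SL_slash_apply]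
  have h := zpow_ne_zero (-2) (denom_ne_zero γ τ)
  rw [← neg_mul, mul_div_mul_right _ _ h]

theorem one_sub_lam' (τ : ℍ) : 1 - lam τ = G1 τ / G τ := by
  rw [one_sub_lam, G_eq, G1_eq]

theorem lam_T (τ : ℍ) : lam (ModularGroup.T • τ) = lam τ / (lam τ - 1) := by
  rw [lam_smul, G2_T, slash_G_T]
  have h1 : lam τ - 1 = -(G1 τ / G τ) := by rw [← one_sub_lam']; ring
  rw [h1, lam_eq, Pi.neg_apply]
  have h2 := G_ne_zero τ
  have h3 := G1_ne_zero τ
  field_simp

theorem lam_S (τ : ℍ) : lam (ModularGroup.S • τ) = 1 - lam τ := by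
  rw [lam_smul, G2_S, G_S, one_sub_lam', Pi.neg_apply, neg_div_neg_eq]

/-- `λ` takes every value different from `0` and `1`. -/
theorem exists_lam_eq {l : ℂ} (h0 : l ≠ 0) (h1 : l ≠ 1) : ∃ τ : ℍ, lam τ = l := by
  obtain ⟨τ, hτ⟩ := H18.jfun_surjective (256 * (1 - l + l ^ 2) ^ 3 / (l ^ 2 * (1 - l) ^ 2))
  have hj : H18.jfun τ = 256 * (1 - lam τ + lam τ ^ 2) ^ 3 / (lam τ ^ 2 * (1 - lam τ) ^ 2) :=
    j_eq_lam τ
  set m := lam τ with hm
  have hm0 : m ≠ 0 := lam_ne_zero τ
  have hm1 : m ≠ 1 := lam_ne_one τ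
  have hm1' : m - 1 ≠ 0 := sub_ne_zero.mpr hm1
  have hm1'' : 1 - m ≠ 0 := sub_ne_zero.mpr hm1.symm
  have hl1 : 1 - l ≠ 0 := sub_ne_zero.mpr h1.symm
  rw [hj, div_eq_div_iff (mul_ne_zero (pow_ne_zero 2 hm0) (pow_ne_zero 2 hm1''))
    (mul_ne_zero (pow_ne_zero 2 h0) (pow_ne_zero 2 hl1))] at hτ
  have key : (l - m) * (l - (1 - m)) * (m * l - 1) * ((1 - m) * l - 1) * ((m - 1) * l - m) *
      (m * l - (m - 1)) = 0 := by
    linear_combination hτ / 256
  have hS : lam (ModularGroup.S • τ) = 1 - m := lam_S τ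
  have hT : lam (ModularGroup.T • τ) = m / (m - 1) := lam_T τ
  rcases mul_eq_zero.mp key with h | h
  · rcases mul_eq_zero.mp h with h | h
    · rcases mul_eq_zero.mp h with h | h
      · rcases mul_eq_zero.mp h with h | h
        · rcases mul_eq_zero.mp h with h | h
          · exact ⟨τ, (sub_eq_zero.mp h).symm⟩
          · exact ⟨ModularGroup.S • τ, by rw [hS]; exact (sub_eq_zero.mp h).symm⟩
        · refine ⟨ModularGroup.T • ModularGroup.S • ModularGroup.T • τ, ?_⟩
          rw [lam_T, lam_S, hT]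
          have h2 : l = 1 / m := by
            rw [eq_div_iff hm0]; linear_combination h
          have h5 : 1 - m / (m - 1) = 1 / (1 - m) := by
            rw [eq_div_iff hm1'', sub_mul, div_mul_eq_mul_div, sub_eq_iff_eq_add,
              ← sub_eq_iff_eq_add', eq_div_iff hm1']
            ring
          have h6 : 1 / (1 - m) - 1 = m / (1 - m) := by
            rw [eq_div_iff hm1'', sub_mul, div_mul_cancel₀ _ hm1'']
            ring
          rw [h2, h5, h6, div_div_div_cancel_right₀ hm1'']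
      · refine ⟨ModularGroup.S • ModularGroup.T • τ, ?_⟩
        rw [lam_S, hT]
        have h2 : l = 1 / (1 - m) := by
          rw [eq_div_iff hm1'']; linear_combination h
        rw [h2]
        field_simp
        ring
    · refine ⟨ModularGroup.T • τ, ?_⟩
      rw [hT, eq_comm, eq_div_iff hm1']
      linear_combination h
  · refine ⟨ModularGroup.T • ModularGroup.S • τ, ?_⟩
    rw [lam_T, hS]
    have h2 : l = (m - 1) / m := by
      rw [eq_div_iff hm0]; linear_combination h
    rw [h2]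
    have h3 : 1 - m - 1 ≠ 0 := by
      intro h4; apply hm0; linear_combination -h4
    field_simp
    ring

/-- The values of `λ` are the complex numbers different from `0` and `1`. -/
theorem range_lam : Set.range lam = {0, 1}ᶜ := by
  ext l
  simp only [Set.mem_range, Set.mem_compl_iff, Set.mem_insert_iff, Set.mem_singleton_iff, not_or]
  constructor
  · rintro ⟨τ, rfl⟩
    exact ⟨lam_ne_zero τ, lam_ne_one τ⟩
  · rintro ⟨h0, h1⟩
    exact exists_lam_eq h0 h1

end Fermat.Agent.Cor.FourSq
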