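import Fermat.Agent.Cor.ThetaLambda

/-!
# Complex elliptic curves in Legendre form

`exists_legendre`: every elliptic curve over `ℂ` is isomorphic to `y² = x (x - 1) (x - λ(τ))` for some
`τ` in the upper half plane with `j(τ) = j(E)`.

This file is not used by any of the statement files.
-/

set_option autoImplicit false

open UpperHalfPlane hiding I
open WeierstrassCurve
open scoped MatrixGroups ModularForm

noncomputable section

namespace Fermat.Agent.Cor.FourSq

/-- `y² = x (x - 1) (x - l)` -/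
def legC (l : ℂ) : WeierstrassCurve ℂ := ⟨0, -(1 + l), 0, l, 0⟩

theorem legC_c₄ (l : ℂ) : (legC l).c₄ = 16 * (1 - l + l ^ 2) := by
  simp only [legC, WeierstrassCurve.c₄, WeierstrassCurve.b₂, WeierstrassCurve.b₄]
  ring

theorem legC_Δ (l : ℂ) : (legC l).Δ = 16 * (l ^ 2 * (1 - l) ^ 2) := by
  simp only [legC, WeierstrassCurve.Δ, WeierstrassCurve.b₂, WeierstrassCurve.b₄,
    WeierstrassCurve.b₆, WeierstrassCurve.b₈]
  ring

theorem legC_isElliptic (τ : ℍ) : (legC (lam τ)).IsElliptic := by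
  rw [isElliptic_iff, legC_Δ]
  refine (mul_ne_zero (by norm_num) (mul_ne_zero (pow_ne_zero 2 (lam_ne_zero τ))
    (pow_ne_zero 2 ?_))).isUnit
  exact sub_ne_zero.mpr (lam_ne_one τ).symm

/-- The invariant of the Legendre curve with parameter `λ(τ)` is `j(τ)`. -/
theorem legC_j (τ : ℍ) [(legC (lam τ)).IsElliptic] :
    (legC (lam τ)).j = ModularForm.E₄ τ ^ 3 / ModularForm.discriminant τ := by
  rw [j_eq_lam]
  have h0 := lam_ne_zero τ
  have h1 : 1 - lam τ ≠ 0 := sub_ne_zero.mpr (lam_ne_one τ).symm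
  have h2 : (legC (lam τ)).j = (legC (lam τ)).c₄ ^ 3 / (legC (lam τ)).Δ := by
    rw [WeierstrassCurve.j, ← WeierstrassCurve.coe_Δ', div_eq_mul_inv, mul_comm]
    simp
  rw [h2, legC_c₄, legC_Δ]
  field_simp
  norm_num
  ring

/-- **Every complex elliptic curve is isomorphic to `y² = x (x - 1) (x - λ(τ))`** for some `τ`. -/
theorem exists_legendre (E : WeierstrassCurve ℂ) [E.IsElliptic] :
    ∃ (τ : ℍ) (C : VariableChange ℂ),
      ModularForm.E₄ τ ^ 3 / ModularForm.discriminant τ = E.j ∧ C • E = legC (lam τ) := by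
  obtain ⟨τ, hτ⟩ := H18.jfun_surjective E.j
  have := legC_isElliptic τ
  have h : E.j = (legC (lam τ)).j := by rw [legC_j]; exact hτ.symm
  obtain ⟨C, hC⟩ := exists_variableChange_of_j_eq E (legC (lam τ)) h
  exact ⟨τ, C, hτ, hC⟩

end Fermat.Agent.Cor.FourSq
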