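import Fermat.Agent.Cor.ThetaLambda
import Fermat.Agent.Cor.ThetaAGM

/-!
# The value `∑ exp(-π n²)` and the arithmetic-geometric mean of `1` and `1/√2`

* `lam_I`: `λ(i) = 1/2`, and `j(i) = 1728`;
* `gauss_theta_I` (Gauss): `(∑_{n ∈ ℤ} exp(-π n²))² · agm(1, 1/√2) = 1`.

This file is not used by any of the statement files.
-/

set_option autoImplicit false

open Filter Topology Function Complex
open UpperHalfPlane hiding I
open scoped Real MatrixGroups ModularForm Manifold NNReal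

noncomputable section

namespace Fermat.Agent.Cor.FourSq

/-- the point `i` -/
def pti : ℍ := pt 1 one_pos

theorem S_smul_pti : ModularGroup.S • pti = pti := by
  apply UpperHalfPlane.ext
  rw [UpperHalfPlane.modular_S_smul, UpperHalfPlane.coe_mk]
  have : (pti : ℂ) = I := by
    change ((1 : ℝ) : ℂ) * I = I
    simp
  rw [this, inv_neg, Complex.inv_I, neg_neg]

theorem lam_I : lam pti = 1 / 2 := by
  have h := lam_S pti
  rw [S_smul_pti] at h
  linear_combination h / 2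

/-- `j(i) = 1728` -/
theorem j_I : ModularForm.E₄ pti ^ 3 / ModularForm.discriminant pti = 1728 := by
  rw [j_eq_lam, lam_I]
  norm_num

theorem hasSum_aR {t : ℝ} (ht : 0 < t) :
    HasSum (fun n : ℤ ↦ Real.exp (-(π * n ^ 2 * t))) (aR t ht) := by
  have h := (as_tm 0 (pt t ht).im_pos).2
  rw [tsum_tm_zero] at h
  have h1 := Complex.hasSum_re h
  have e : (fun n ↦ (tm 0 (pt t ht) n).re) = fun n : ℤ ↦ Real.exp (-(π * n ^ 2 * t)) := by
    funext n
    rw [tm_pt, Complex.ofReal_re]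
  rw [e] at h1
  exact h1

theorem bR_pow : (bR 1 one_pos ^ 2) ^ 2 * 2 = (aR 1 one_pos ^ 2) ^ 2 := by
  have h := one_sub_lam pti
  rw [lam_I] at h
  have h3 := pow_ne_zero 4 (th_ne_zero pti).2.1
  rw [eq_div_iff h3] at h
  rw [pti, th3_pt, th4_pt] at h
  have h4 : (aR 1 one_pos ^ 4 : ℂ) = 2 * (bR 1 one_pos : ℂ) ^ 4 := by
    linear_combination 2 * h
  have h5 : aR 1 one_pos ^ 4 = 2 * bR 1 one_pos ^ 4 := by exact_mod_cast h4
  linear_combination -h5

theorem xR_eq : xR 1 one_pos = yR 1 one_pos * (NNReal.sqrt 2)⁻¹ := by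
  apply NNReal.coe_injective
  push_cast
  change bR 1 one_pos ^ 2 = aR 1 one_pos ^ 2 * (√2)⁻¹
  have h := bR_pow
  have h2 : 0 < √(2 : ℝ) := by positivity
  rw [← div_eq_mul_inv, eq_div_iff h2.ne']
  have h3 : (bR 1 one_pos ^ 2 * √2) ^ 2 = (aR 1 one_pos ^ 2) ^ 2 := by
    rw [mul_pow, Real.sq_sqrt (by norm_num)]
    exact h
  have h4 := bR_pos one_pos
  have h5 := aR_pos one_pos
  exact (pow_left_inj₀ (by positivity) (by positivity) two_ne_zero).mp h3

/-- **Gauss.** `(∑_{n ∈ ℤ} exp(-π n²))² · agm(1, 1/√2) = 1`. -/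
theorem gauss_theta_I :
    (∑' n : ℤ, Real.exp (-(π * n ^ 2))) ^ 2 * (NNReal.agm 1 (NNReal.sqrt 2)⁻¹ : ℝ≥0) = 1 := by
  have h := agm_theta one_pos
  rw [xR_eq] at h
  have h1 : NNReal.agm (yR 1 one_pos * (NNReal.sqrt 2)⁻¹) (yR 1 one_pos) =
      yR 1 one_pos * NNReal.agm (NNReal.sqrt 2)⁻¹ 1 := by
    have := NNReal.agm_mul_distrib (x := (NNReal.sqrt 2)⁻¹) (y := 1) (k := yR 1 one_pos)
    rwa [mul_one] at this
  rw [h1, NNReal.agm_comm] at h
  have h2 : (∑' n : ℤ, Real.exp (-(π * n ^ 2))) = aR 1 one_pos := by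
    have h3 := (hasSum_aR one_pos).tsum_eq
    simpa using h3
  rw [h2]
  have h4 := congrArg (NNReal.toReal) h
  push_cast at h4 ⊢
  exact h4

end Fermat.Agent.Cor.FourSq
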