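import Fermat.Agent.Cor.FourSqRep

/-!
# Powers of the theta function and representations as sums of squares

This file is not used by any of the statement files.
-/

set_option autoImplicit false

open Complex Filter Topology Function
open UpperHalfPlane hiding I
open scoped Real MatrixGroups ModularForm Manifold
open Fermat.Agent.IntStr Fermat.Agent.AL

noncomputable section

namespace Fermat.Agent.Cor.FourSq

theorem pow_as {ι : Type*} {f : ι → ℂ} {a : ℂ} (hf : (Summable fun i ↦ ‖f i‖) ∧ HasSum f a)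
    (m : ℕ) : (Summable fun x : Fin m → ι ↦ ‖∏ i, f (x i)‖) ∧
      HasSum (fun x : Fin m → ι ↦ ∏ i, f (x i)) (a ^ m) := by
  induction m with
  | zero =>
    have hs : HasSum (fun x : Fin 0 → ι ↦ ∏ i, f (x i)) (a ^ 0) := by
      have h := hasSum_unique (fun x : Fin 0 → ι ↦ ∏ i, f (x i))
      simp
    exact ⟨(hasSum_unique (fun x : Fin 0 → ι ↦ ‖∏ i, f (x i)‖)).summable, hs⟩
  | succ m ih =>
    have h := prod_as hf ih
    have he : (fun x : Fin (m + 1) → ι ↦ ∏ i, f (x i)) ∘ (Fin.consEquiv fun _ ↦ ι) =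
        fun p : ι × (Fin m → ι) ↦ f p.1 * ∏ i, f (p.2 i) := by
      ext p
      simp only [comp_apply, Fin.prod_univ_succ]
      simp [Fin.consEquiv]
    constructor
    · rw [← (Fin.consEquiv fun _ ↦ ι).summable_iff]
      have h2 : (fun x : Fin (m + 1) → ι ↦ ‖∏ i, f (x i)‖) ∘ (Fin.consEquiv fun _ ↦ ι) =
          fun p : ι × (Fin m → ι) ↦ ‖f p.1 * ∏ i, f (p.2 i)‖ := by
        ext p
        exact congrArg norm (congrFun he p)
      rw [h2]
      exact h.1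
    · rw [← (Fin.consEquiv fun _ ↦ ι).hasSum_iff, he, pow_succ']
      exact h.2

/-- `∑ exp(π i (n + s)² z)`, absolutely convergent -/
theorem as_tm (s : ℂ) {z : ℂ} (hz : 0 < z.im) :
    (Summable fun n ↦ ‖tm s z n‖) ∧ HasSum (fun n ↦ tm s z n) (∑' n, tm s z n) :=
  ⟨summable_tm s hz, (summable_tm s hz).of_norm.hasSum⟩

theorem prod_tm (s z : ℂ) {m : ℕ} (x : Fin m → ℤ) : ∏ i, tm s z (x i) =
    cexp (π * I * (∑ i, ((x i : ℂ) + s) ^ 2) * z) := by
  simp only [tm]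
  rw [← Complex.exp_sum]
  congr 1
  rw [Finset.mul_sum, Finset.sum_mul]

theorem tsum_tm_zero (z : ℂ) : ∑' n, tm 0 z n = jacobiTheta z := by
  rw [tsum_tm, jacobiTheta_eq_jacobiTheta₂]
  simp

/-- The number of representations of `n` as a sum of `k` squares. -/
def rk (k n : ℕ) : ℕ := Nat.card {x : Fin k → ℤ // ∑ i, x i ^ 2 = n}

theorem sum_sq_nonneg {k : ℕ} (x : Fin k → ℤ) : 0 ≤ ∑ i, x i ^ 2 :=
  Finset.sum_nonneg fun _ _ ↦ sq_nonneg _

/-- Regrouping of a series according to the value of a function. -/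
theorem hasSum_regroup {V : Type*} {Q : V → ℤ} (hQ : ∀ x, 0 ≤ Q x) (P : V → Prop) {w a : ℂ}
    (h : HasSum (fun x : {x : V // P x} ↦ w ^ (Q x).toNat) a) :
    HasSum (fun n : ℕ ↦ (Nat.card {x : V // P x ∧ Q x = n} : ℂ) • w ^ n) a := by
  have h2 := h.tsum_fiberwise (fun x ↦ (Q x).toNat)
  have h3 : (fun n : ℕ ↦ (Nat.card {x : V // P x ∧ Q x = n} : ℂ) • w ^ n) = fun n ↦
      ∑' b : (fun x : {x : V // P x} ↦ (Q x).toNat) ⁻¹' {n}, w ^ (Q b).toNat := by
    ext n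
    have e : (fun b : (fun x : {x : V // P x} ↦ (Q x).toNat) ⁻¹' {n} ↦ w ^ (Q b).toNat) =
        fun _ ↦ w ^ n := by
      ext b
      have : (Q b).toNat = n := b.2
      rw [this]
    rw [e, tsum_const, smul_eq_mul, nsmul_eq_mul]
    congr 2
    refine Nat.card_congr ⟨fun x ↦ ⟨⟨x.1, x.2.1⟩, ?_⟩, fun x ↦ ⟨x.1.1, x.1.2, ?_⟩, fun x ↦ rfl,
      fun x ↦ rfl⟩
    · change (Q x.1).toNat = n
      rw [x.2.2]; simp
    · have h4 : (Q x.1).toNat = n := x.2
      have := hQ x.1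
      omega
  rw [h3]
  exact h2

theorem hasSum_rk (k : ℕ) (τ : ℍ) :
    HasSum (fun n : ℕ ↦ (rk k n : ℂ) • Periodic.qParam 1 (τ : ℂ) ^ n)
      (jacobiTheta (aff 2 1 0 τ) ^ k) := by
  have him : 0 < ((aff 2 1 0 τ : ℍ) : ℂ).im := (aff 2 1 0 τ).im_pos
  have h1 := (pow_as (as_tm 0 him) k).2
  rw [tsum_tm_zero] at h1
  have h2 : HasSum (fun x : {_x : Fin k → ℤ // True} ↦
      Periodic.qParam 1 (τ : ℂ) ^ (∑ i, x.1 i ^ 2).toNat) (jacobiTheta (aff 2 1 0 τ) ^ k) := by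
    rw [← (Equiv.subtypeUnivEquiv (fun _ : Fin k → ℤ ↦ trivial)).symm.hasSum_iff]
    convert h1 using 1
    ext x
    rw [prod_tm]
    have e2 : (((∑ i, x i ^ 2).toNat : ℕ) : ℂ) = ∑ i, (x i : ℂ) ^ 2 := by
      have : (((∑ i, x i ^ 2).toNat : ℕ) : ℤ) = ∑ i, x i ^ 2 :=
        Int.toNat_of_nonneg (sum_sq_nonneg x)
      exact_mod_cast congrArg (Int.cast : ℤ → ℂ) this
    change Periodic.qParam 1 (τ : ℂ) ^ (∑ i, x i ^ 2).toNat = _
    rw [Periodic.qParam, ← Complex.exp_nat_mul, e2, coe_aff two_pos one_pos]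
    congr 1
    push_cast
    simp only [add_zero]
    ring
  have h3 := hasSum_regroup (V := Fin k → ℤ) (Q := fun x ↦ ∑ i, x i ^ 2) sum_sq_nonneg
    (fun _ ↦ True) h2
  simpa [rk] using h3

end Fermat.Agent.Cor.FourSq
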