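import Fermat.Agent.Cor.ThueAux

/-!
# Thue's theorem

* `thue_approx`: for a real algebraic number `α` of degree `d`, `κ > d / 2 + 1` and `C > 0`, only
  finitely many pairs `(p, q)`, `q > 0`, satisfy `|α - p / q| < C / q ^ κ`.
-/

open Polynomial

namespace Fermat.Agent.Cor.Thue

/-- Size of the Hasse derivatives. -/
theorem abs_hasseDeriv_le {g : ℝ[X]} {n : ℕ} (hg : g.natDegree ≤ n) {A a x : ℝ} (hA : 0 ≤ A)
    (ha : 1 ≤ a) (hgA : ∀ i, |g.coeff i| ≤ A) (hx : |x| ≤ a) (j : ℕ) :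
    |(hasseDeriv j g).eval x| ≤ (n + 1) * (2 ^ n * a ^ n * A) := by
  have h1 : (hasseDeriv j g).natDegree < n + 1 :=
    ((natDegree_hasseDeriv_le g j).trans (Nat.sub_le _ _)).trans_lt (by omega)
  rw [eval_eq_sum_range' h1]
  refine (Finset.abs_sum_le_sum_abs _ _).trans ?_
  have h2 : ∀ i ∈ Finset.range (n + 1), |(hasseDeriv j g).coeff i * x ^ i| ≤
      2 ^ n * a ^ n * A := by
    intro i hi
    rw [hasseDeriv_coeff, abs_mul, abs_mul, abs_pow]
    by_cases hij : i + j ≤ n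
    · have e1 : |(((i + j).choose j : ℕ) : ℝ)| ≤ 2 ^ n := by
        rw [abs_of_nonneg (by positivity)]
        calc (((i + j).choose j : ℕ) : ℝ) ≤ ((2 ^ (i + j) : ℕ) : ℝ) := by
              exact_mod_cast Nat.choose_le_two_pow _ _
          _ ≤ _ := by
              push_cast
              exact pow_le_pow_right₀ (by norm_num) hij
      have e2 : |x| ^ i ≤ a ^ n :=
        (pow_le_pow_left₀ (abs_nonneg _) hx i).trans (pow_le_pow_right₀ ha (by omega))
      calc _ ≤ 2 ^ n * A * a ^ n :=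
            mul_le_mul (mul_le_mul e1 (hgA _) (abs_nonneg _) (by positivity)) e2 (by positivity)
              (by positivity)
        _ = _ := by ring
    · rw [coeff_eq_zero_of_natDegree_lt (by omega)]
      simp only [abs_zero, mul_zero, zero_mul]
      positivity
  refine (Finset.sum_le_card_nsmul _ _ _ h2).trans (le_of_eq ?_)
  rw [Finset.card_range, nsmul_eq_mul]; push_cast; ring

/-- Size of the Hasse derivatives near a zero of high order. -/
theorem abs_hasseDeriv_le' {g : ℝ[X]} {n m : ℕ} (hg : g.natDegree ≤ n) {A h : ℝ} (hA : 0 ≤ A)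
    (hgA : ∀ i, |g.coeff i| ≤ A) (hg0 : ∀ i < m, g.coeff i = 0) (hh : |h| ≤ 1) (j : ℕ) :
    |(hasseDeriv j g).eval h| ≤ (n + 1) * (2 ^ n * A * |h| ^ (m - j)) := by
  have h1 : (hasseDeriv j g).natDegree < n + 1 :=
    ((natDegree_hasseDeriv_le g j).trans (Nat.sub_le _ _)).trans_lt (by omega)
  rw [eval_eq_sum_range' h1]
  refine (Finset.abs_sum_le_sum_abs _ _).trans ?_
  have h2 : ∀ i ∈ Finset.range (n + 1), |(hasseDeriv j g).coeff i * h ^ i| ≤
      2 ^ n * A * |h| ^ (m - j) := by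
    intro i hi
    rw [hasseDeriv_coeff, abs_mul, abs_mul, abs_pow]
    by_cases hij : i + j ≤ n
    · by_cases him : i + j < m
      · rw [hg0 _ him]
        simp only [abs_zero, mul_zero, zero_mul]
        positivity
      · have e1 : |(((i + j).choose j : ℕ) : ℝ)| ≤ 2 ^ n := by
          rw [abs_of_nonneg (by positivity)]
          calc (((i + j).choose j : ℕ) : ℝ) ≤ ((2 ^ (i + j) : ℕ) : ℝ) := by
                exact_mod_cast Nat.choose_le_two_pow _ _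
            _ ≤ _ := by
                push_cast
                exact pow_le_pow_right₀ (by norm_num) hij
        have e2 : |h| ^ i ≤ |h| ^ (m - j) :=
          pow_le_pow_of_le_one (abs_nonneg _) hh (by omega)
        exact mul_le_mul (mul_le_mul e1 (hgA _) (abs_nonneg _) (by positivity)) e2 (by positivity)
              (by positivity)
    · rw [coeff_eq_zero_of_natDegree_lt (by omega)]
      simp only [abs_zero, mul_zero, zero_mul]
      positivity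
  refine (Finset.sum_le_card_nsmul _ _ _ h2).trans (le_of_eq ?_)
  rw [Finset.card_range, nsmul_eq_mul]; push_cast; ring

/-- `qⁿ g(p/q)` is an integer. -/
theorem exists_int_eval (g : ℤ[X]) {n : ℕ} (hg : g.natDegree ≤ n) (p : ℤ) {q : ℤ} (hq : 0 < q) :
    ∃ z : ℤ, (z : ℝ) = (q : ℝ) ^ n * (g.map (Int.castRingHom ℝ)).eval ((p : ℝ) / q) := by
  refine ⟨∑ i ∈ Finset.range (n + 1), g.coeff i * p ^ i * q ^ (n - i), ?_⟩
  have h1 : (g.map (Int.castRingHom ℝ)).natDegree < n + 1 :=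
    (natDegree_map_le).trans_lt (by omega)
  rw [eval_eq_sum_range' h1, Finset.mul_sum]
  push_cast
  refine Finset.sum_congr rfl fun i hi ↦ ?_
  rw [Finset.mem_range] at hi
  have hq' : (q : ℝ) ≠ 0 := by exact_mod_cast hq.ne'
  rw [coeff_map, eq_intCast, div_pow]
  obtain ⟨k, rfl⟩ : ∃ k, n = i + k := ⟨n - i, by omega⟩
  rw [Nat.add_sub_cancel_left, pow_add]
  field_simp

/-- Hasse derivatives commute with maps. -/
theorem hasseDeriv_map' {R S : Type*} [CommRing R] [CommRing S] (φ : R →+* S) (j : ℕ)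
    (g : R[X]) : hasseDeriv j (g.map φ) = (hasseDeriv j g).map φ := by
  ext i; simp [hasseDeriv_coeff]

/-- The upper bound. -/
theorem upper_bound {α : ℝ} {P Q : ℝ[X]} {n m : ℕ} (hP : P.natDegree ≤ n) (hQ : Q.natDegree ≤ n)
    {A : ℝ} (hA : 0 ≤ A) (hPA : ∀ i, |P.coeff i| ≤ A) (hQA : ∀ i, |Q.coeff i| ≤ A)
    (h : (X - C α) ^ m ∣ P - C α * Q) {x₁ x₂ : ℝ} (h₁ : |x₁ - α| ≤ 1) (j : ℕ) :
    |(hasseDeriv j P).eval x₁ - x₂ * (hasseDeriv j Q).eval x₁| ≤
      (16 * (1 + |α|)) ^ (n + 1) * A * (|x₁ - α| ^ (m - j) + |x₂ - α|) := by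
  set a := 1 + |α| with ha
  have ha1 : 1 ≤ a := by rw [ha]; linarith [abs_nonneg α]
  have hx1 : |x₁| ≤ a := by
    calc |x₁| = |(x₁ - α) + α| := by ring_nf
      _ ≤ |x₁ - α| + |α| := abs_add_le _ _
      _ ≤ _ := by rw [ha]; linarith
  have hαa : |α| ≤ a := by rw [ha]; linarith
  set φ := P - C α * Q with hφ
  have hφn : φ.natDegree ≤ n :=
    (natDegree_sub_le _ _).trans (max_le hP ((natDegree_C_mul_le _ _).trans hQ))
  have hφA : ∀ i, |φ.coeff i| ≤ a * A := by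
    intro i
    rw [hφ, coeff_sub, coeff_C_mul]
    calc _ ≤ |P.coeff i| + |α * Q.coeff i| := abs_sub _ _
      _ ≤ A + |α| * A := by
          rw [abs_mul]
          exact add_le_add (hPA i) (mul_le_mul_of_nonneg_left (hQA i) (abs_nonneg _))
      _ = _ := by rw [ha]; ring
  set T := taylor α φ with hT
  have hTn : T.natDegree ≤ n := by rw [hT, natDegree_taylor]; exact hφn
  have hTA : ∀ i, |T.coeff i| ≤ (n + 1) * (2 ^ n * a ^ n * (a * A)) := by
    intro i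
    rw [hT, taylor_coeff]
    exact abs_hasseDeriv_le hφn (by positivity) ha1 hφA hαa i
  have hT0 : ∀ i < m, T.coeff i = 0 := by
    rw [X_sub_C_pow_dvd_iff, X_pow_dvd_iff] at h
    exact h
  have h1 : (hasseDeriv j φ).eval x₁ = (hasseDeriv j T).eval (x₁ - α) := by
    rw [← taylor_coeff, ← taylor_coeff, hT, taylor_taylor]
    congr 2; ring_nf
  have h2 := abs_hasseDeriv_le' hTn (by positivity) hTA hT0 h₁ j
  rw [← h1] at h2
  have h3 := abs_hasseDeriv_le hQ hA ha1 hQA hx1 j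
  have h4 : (hasseDeriv j P).eval x₁ - x₂ * (hasseDeriv j Q).eval x₁ =
      (hasseDeriv j φ).eval x₁ - (x₂ - α) * (hasseDeriv j Q).eval x₁ := by
    rw [hφ, map_sub, ← smul_eq_C_mul, map_smul, eval_sub, eval_smul, smul_eq_mul]; ring
  have hn1 : ((n : ℝ) + 1) ≤ 2 ^ n := by exact_mod_cast n.lt_two_pow_self
  have hn0 : (0 : ℝ) ≤ (n : ℝ) + 1 := by positivity
  set K : ℝ := (16 * a) ^ (n + 1) * A with hK
  have hK1 : (n + 1) * (2 ^ n * ((n + 1) * (2 ^ n * a ^ n * (a * A)))) ≤ K := by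
    calc (n + 1) * (2 ^ n * ((n + 1) * (2 ^ n * a ^ n * (a * A)))) =
          ((n + 1) * (n + 1)) * (2 ^ n * 2 ^ n * (a ^ (n + 1) * A)) := by ring
      _ ≤ (2 ^ n * 2 ^ n) * (2 ^ n * 2 ^ n * (a ^ (n + 1) * A)) :=
          mul_le_mul_of_nonneg_right (mul_le_mul hn1 hn1 hn0 (by positivity)) (by positivity)
      _ = 16 ^ n * (a ^ (n + 1) * A) := by
          rw [show (16 : ℝ) = 2 * 2 * (2 * 2) by norm_num, mul_pow, mul_pow]; ring
      _ ≤ 16 ^ (n + 1) * (a ^ (n + 1) * A) :=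
          mul_le_mul_of_nonneg_right (pow_le_pow_right₀ (by norm_num) (by omega)) (by positivity)
      _ = K := by rw [hK, mul_pow]; ring
  have hK2 : (n + 1) * (2 ^ n * a ^ n * A) ≤ K := by
    calc (n + 1) * (2 ^ n * a ^ n * A) ≤ 2 ^ n * (2 ^ n * a ^ n * A) :=
          mul_le_mul_of_nonneg_right hn1 (by positivity)
      _ = (4 * a) ^ n * A := by
          rw [show (4 : ℝ) = 2 * 2 by norm_num, mul_pow, mul_pow]; ring
      _ ≤ (16 * a) ^ n * A := by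
          refine mul_le_mul_of_nonneg_right (pow_le_pow_left₀ (by positivity) ?_ _) hA
          linarith
      _ ≤ K := mul_le_mul_of_nonneg_right (pow_le_pow_right₀ (by linarith) (by omega)) hA
  rw [h4]
  calc _ ≤ |(hasseDeriv j φ).eval x₁| + |(x₂ - α) * (hasseDeriv j Q).eval x₁| := abs_sub _ _
    _ ≤ K * |x₁ - α| ^ (m - j) + |x₂ - α| * K := by
        rw [abs_mul]
        refine add_le_add (h2.trans ?_) (mul_le_mul_of_nonneg_left (h3.trans hK2) (abs_nonneg _))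
        calc _ = (n + 1) * (2 ^ n * ((n + 1) * (2 ^ n * a ^ n * (a * A)))) *
              |x₁ - α| ^ (m - j) := by ring
          _ ≤ _ := mul_le_mul_of_nonneg_right hK1 (by positivity)
    _ = _ := by ring

/-- **The main inequality.** -/
theorem main_ineq {f : ℤ[X]} (hf : f.Monic) {α : ℝ} (hα : aeval α f = 0)
    (hfm : f.map (algebraMap ℤ ℚ) = minpoly ℚ α) (hirr : Irrational α) (hd : 0 < f.natDegree)
    {δ : ℝ} (hδ : 0 < δ) (hδ1 : δ < 1) :
    ∃ C₁ : ℝ, 1 ≤ C₁ ∧ ∀ m : ℕ, 0 < m → ∀ (p₁ : ℤ) (q₁ : ℕ) (p₂ : ℤ) (q₂ : ℕ), 0 < q₁ → 0 < q₂ →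
      |(p₁ : ℝ) / q₁ - α| ≤ 1 →
      ∃ n j : ℕ, (n : ℝ) ≤ (1 + δ) * f.natDegree * m / 2 ∧
        (j : ℝ) ≤ δ * f.natDegree * m + f.natDegree ∧
        1 ≤ (q₁ : ℝ) ^ n * q₂ * C₁ ^ m *
          (|(p₁ : ℝ) / q₁ - α| ^ (m - j) + |(p₂ : ℝ) / q₂ - α|) := by
  obtain ⟨B, hB1, hB⟩ := exists_PQ hf hd hα
  set d := f.natDegree with hdd
  have hB1' : (1 : ℝ) ≤ B := by exact_mod_cast hB1
  have ha0 := abs_nonneg α
  have hdR : (1 : ℝ) ≤ d := by exact_mod_cast hd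
  refine ⟨(16 * (1 + |α|)) ^ d * ((4 * B : ℝ) ^ d) ^ (1 / δ), ?_, ?_⟩
  · refine one_le_mul_of_one_le_of_one_le (one_le_pow₀ (by linarith)) ?_
    exact Real.one_le_rpow (one_le_pow₀ (by linarith)) (by positivity)
  intro m hm p₁ q₁ p₂ q₂ hq₁ hq₂ h₁
  have hmR : (1 : ℝ) ≤ m := by exact_mod_cast hm
  have hmd : (0 : ℝ) < d * m := by positivity
  set n := ⌊(1 + δ) * d * m / 2⌋₊ with hn
  have hn1 : (n : ℝ) ≤ (1 + δ) * d * m / 2 := Nat.floor_le (by positivity)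
  have hn2 : (1 + δ) * d * m / 2 < n + 1 := Nat.lt_floor_add_one _
  have hmn : m * d < 2 * (n + 1) := by
    have : (m * d : ℝ) < 2 * (n + 1) := by nlinarith
    exact_mod_cast this
  have hnm : n < m * d := by
    have : (n : ℝ) < m * d := by nlinarith
    exact_mod_cast this
  obtain ⟨P, Q, hP, hQ, hPQ, hPA, hQA, hdvd⟩ := hB m n hm hmn
  set A := ((2 * (n + 1) : ℝ) * ((2 : ℝ) ^ n * (B : ℝ) ^ (n + 1))) ^
          ((m * d : ℝ) / (2 * (n + 1) - m * d)) with hA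
  have hA0 : 0 ≤ A := by positivity
  have hmind : (minpoly ℚ α).natDegree = d := by
    rw [← hfm, natDegree_map_eq_of_injective (algebraMap ℤ ℚ).injective_int]
  have hint : IsIntegral ℚ α := by
    have : IsIntegral ℤ α := ⟨f, hf, by rw [← aeval_def]; exact hα⟩
    exact this.tower_top
  have hmm : ∀ g : ℤ[X], (g.map (algebraMap ℤ ℚ)).map (algebraMap ℚ ℝ) =
      g.map (Int.castRingHom ℝ) := by
    intro g
    rw [Polynomial.map_map]
    congr 1
  have hinj : Function.Injective (algebraMap ℤ ℚ) := (algebraMap ℤ ℚ).injective_int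
  obtain ⟨j, hj1, hj2⟩ := exists_hasseDeriv_ne (α := α) hint hirr (P := P.map (algebraMap ℤ ℚ))
    (Q := Q.map (algebraMap ℤ ℚ)) (n := n) (m := m) (natDegree_map_le.trans hP)
    (natDegree_map_le.trans hQ)
    (by rwa [Polynomial.map_eq_zero_iff hinj, Polynomial.map_eq_zero_iff hinj])
    (by rw [hmind]; exact hnm) (by rw [hmm, hmm]; exact hdvd) ((p₁ : ℚ) / q₁) ((p₂ : ℚ) / q₂)
  rw [hmind] at hj1
  refine ⟨n, j, hn1, ?_, ?_⟩
  · obtain ⟨k, rfl⟩ : ∃ k, m = k + 1 := ⟨m - 1, by omega⟩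
    rw [Nat.add_sub_cancel] at hj1
    have h1 : (j : ℝ) + k * d ≤ 2 * n := by exact_mod_cast hj1
    push_cast at hn1 ⊢
    nlinarith
  -- the lower bound
  set x₁ : ℝ := (p₁ : ℝ) / q₁ with hx₁
  set x₂ : ℝ := (p₂ : ℝ) / q₂ with hx₂
  set F : ℝ := (hasseDeriv j (P.map (Int.castRingHom ℝ))).eval x₁ -
    x₂ * (hasseDeriv j (Q.map (Int.castRingHom ℝ))).eval x₁ with hF
  have hq₁' : (0 : ℝ) < q₁ := by exact_mod_cast hq₁
  have hq₂' : (0 : ℝ) < q₂ := by exact_mod_cast hq₂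
  have hF0 : F ≠ 0 := by
    intro h0
    apply hj2
    have e1 : ∀ g : ℤ[X], (((hasseDeriv j (g.map (algebraMap ℤ ℚ))).eval ((p₁ : ℚ) / q₁) : ℚ) : ℝ) =
        (hasseDeriv j (g.map (Int.castRingHom ℝ))).eval x₁ := by
      intro g
      rw [← hmm, hasseDeriv_map' (algebraMap ℚ ℝ), eval_map]
      have : x₁ = algebraMap ℚ ℝ ((p₁ : ℚ) / q₁) := by rw [hx₁]; simp
      rw [this, eval₂_at_apply]; simp
    have e2 : (((hasseDeriv j (P.map (algebraMap ℤ ℚ))).eval ((p₁ : ℚ) / q₁) -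
        ((p₂ : ℚ) / q₂) * (hasseDeriv j (Q.map (algebraMap ℤ ℚ))).eval ((p₁ : ℚ) / q₁) : ℚ) : ℝ) =
        F := by
      rw [Rat.cast_sub, Rat.cast_mul, e1, e1, hF, hx₂]; push_cast; rfl
    rw [h0] at e2
    exact_mod_cast e2
  have hlow : 1 ≤ (q₁ : ℝ) ^ n * q₂ * |F| := by
    obtain ⟨u, hu⟩ := exists_int_eval (hasseDeriv j P)
      ((natDegree_hasseDeriv_le P j).trans ((Nat.sub_le _ _).trans hP)) p₁
      (q := (q₁ : ℤ)) (by exact_mod_cast hq₁)
    obtain ⟨v, hv⟩ := exists_int_eval (hasseDeriv j Q)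
      ((natDegree_hasseDeriv_le Q j).trans ((Nat.sub_le _ _).trans hQ)) p₁
      (q := (q₁ : ℤ)) (by exact_mod_cast hq₁)
    rw [← hasseDeriv_map', Int.cast_natCast] at hu hv
    have h1 : (q₁ : ℝ) ^ n * q₂ * F = ((q₂ * u - p₂ * v : ℤ) : ℝ) := by
      push_cast
      rw [hu, hv, hF, hx₂, ← hx₁]
      field_simp
    have h2 : (q₂ * u - p₂ * v : ℤ) ≠ 0 := by
      intro h0
      rw [h0, Int.cast_zero] at h1
      exact (mul_ne_zero (by positivity) hF0) h1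
    have h3 : (1 : ℝ) ≤ |((q₂ * u - p₂ * v : ℤ) : ℝ)| := by
      rw [← Int.cast_abs]
      exact_mod_cast Int.one_le_abs h2
    rw [← h1, abs_mul, abs_of_nonneg (show (0 : ℝ) ≤ (q₁ : ℝ) ^ n * q₂ by positivity)] at h3
    exact h3
  -- the upper bound
  have hup := upper_bound (α := α) (P := P.map (Int.castRingHom ℝ))
    (Q := Q.map (Int.castRingHom ℝ)) (n := n) (m := m) (natDegree_map_le.trans hP)
    (natDegree_map_le.trans hQ) hA0 (by intro i; rw [coeff_map]; exact hPA i)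
    (by intro i; rw [coeff_map]; exact hQA i) hdvd (x₁ := x₁) (x₂ := x₂) h₁ j
  rw [← hF] at hup
  set S := |x₁ - α| ^ (m - j) + |x₂ - α| with hS
  have hS0 : 0 ≤ S := by positivity
  have hnd : n + 1 ≤ d * m := by rw [mul_comm]; exact hnm
  -- the constants
  have hAle : A ≤ (((4 * B : ℝ) ^ d) ^ (1 / δ)) ^ m := by
    have e0 : (0 : ℝ) < 2 * (n + 1) - m * d := by nlinarith
    have e1 : (m * d : ℝ) / (2 * (n + 1) - m * d) ≤ 1 / δ := by
      rw [div_le_div_iff₀ e0 hδ]; nlinarith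
    have e2 : (2 * (n + 1) : ℝ) * ((2 : ℝ) ^ n * (B : ℝ) ^ (n + 1)) ≤ (4 * B : ℝ) ^ (d * m) := by
      have hn1 : ((n : ℝ) + 1) ≤ 2 ^ n := by exact_mod_cast n.lt_two_pow_self
      calc (2 * (n + 1) : ℝ) * ((2 : ℝ) ^ n * (B : ℝ) ^ (n + 1)) ≤
            (2 * 2 ^ n : ℝ) * ((2 : ℝ) ^ n * (B : ℝ) ^ (n + 1)) :=
            mul_le_mul_of_nonneg_right (by linarith) (by positivity)
        _ ≤ (2 * 2 ^ n : ℝ) * ((2 * (2 : ℝ) ^ n) * (B : ℝ) ^ (n + 1)) := by
            refine mul_le_mul_of_nonneg_left (mul_le_mul_of_nonneg_right ?_ (by positivity))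
              (by positivity)
            have : (0 : ℝ) < 2 ^ n := by positivity
            linarith
        _ = (4 * B : ℝ) ^ (n + 1) := by
            rw [show (4 : ℝ) = 2 * 2 by norm_num, mul_pow, mul_pow]; ring
        _ ≤ _ := pow_le_pow_right₀ (by linarith) hnd
    have e3 : (1 : ℝ) ≤ (4 * B : ℝ) ^ (d * m) := one_le_pow₀ (by linarith)
    calc A ≤ ((4 * B : ℝ) ^ (d * m)) ^ ((m * d : ℝ) / (2 * (n + 1) - m * d)) :=
          Real.rpow_le_rpow (by positivity) e2 (div_nonneg (by positivity) e0.le)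
      _ ≤ ((4 * B : ℝ) ^ (d * m)) ^ (1 / δ) := Real.rpow_le_rpow_of_exponent_le e3 e1
      _ = _ := by rw [pow_mul, Real.rpow_pow_comm (by positivity)]
  have hale : (16 * (1 + |α|)) ^ (n + 1) ≤ ((16 * (1 + |α|)) ^ d) ^ m := by
    rw [← pow_mul]; exact pow_le_pow_right₀ (by linarith) hnd
  calc (1 : ℝ) ≤ (q₁ : ℝ) ^ n * q₂ * |F| := hlow
    _ ≤ (q₁ : ℝ) ^ n * q₂ * ((16 * (1 + |α|)) ^ (n + 1) * A * S) :=
        mul_le_mul_of_nonneg_left hup (by positivity)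
    _ ≤ (q₁ : ℝ) ^ n * q₂ * ((((16 * (1 + |α|)) ^ d) ^ m *
          (((4 * B : ℝ) ^ d) ^ (1 / δ)) ^ m) * S) := by
        refine mul_le_mul_of_nonneg_left (mul_le_mul_of_nonneg_right ?_ hS0) (by positivity)
        exact mul_le_mul hale hAle hA0 (by positivity)
    _ = _ := by rw [mul_pow]; ring

set_option maxHeartbeats 2000000 in
/-- **Thue's theorem** for real algebraic integers: the denominators are bounded. -/
theorem thue_bound {α : ℝ} (hα : IsIntegral ℤ α) (hirr : Irrational α) {κ : ℝ}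
    (hκ : ((minpoly ℚ α).natDegree : ℝ) / 2 + 1 < κ) {C₀ : ℝ} (hC₀ : 1 ≤ C₀) :
    ∃ M : ℝ, ∀ (p : ℤ) (q : ℕ), 0 < q → |(p : ℝ) / q - α| ≤ C₀ * (q : ℝ) ^ (-κ) → (q : ℝ) ≤ M := by
  set f := minpoly ℤ α with hf
  have hfm : f.map (algebraMap ℤ ℚ) = minpoly ℚ α :=
    (minpoly.isIntegrallyClosed_eq_field_fractions' ℚ hα).symm
  have hfd : (minpoly ℚ α).natDegree = f.natDegree := by
    rw [← hfm, natDegree_map_eq_of_injective (algebraMap ℤ ℚ).injective_int]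
  rw [hfd] at hκ
  set d := f.natDegree with hd
  have hd0 : 0 < d := by rw [← hfd]; exact minpoly.natDegree_pos hα.tower_top
  have hdR : (1 : ℝ) ≤ d := by exact_mod_cast hd0
  set E := κ - 1 - d / 2 with hE
  have hE0 : 0 < E := by rw [hE]; linarith
  have hκ1 : 1 < κ := by linarith [hE0]
  set δ := E / (d * (1 + 2 * κ)) with hδ
  have hden : 0 < d * (1 + 2 * κ) := by positivity
  have hδ0 : 0 < δ := div_pos hE0 hden
  have hδ1 : δ < 1 := by
    rw [hδ, div_lt_one hden, hE]; nlinarith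
  have hδE : δ * (d * (1 + 2 * κ)) = E := div_mul_cancel₀ _ hden.ne'
  obtain ⟨C₁, hC₁, hmain⟩ := main_ineq (minpoly.monic hα) (minpoly.aeval ℤ α) hfm hirr hd0 hδ0 hδ1
  rw [← hd] at hmain
  -- large denominators
  set Q₀ : ℝ := max 2 (max C₀ ((2 * C₁ * C₀) ^ (4 / E))) with hQ₀
  by_cases hex : ∃ (p : ℤ) (q : ℕ), 0 < q ∧ |(p : ℝ) / q - α| ≤ C₀ * (q : ℝ) ^ (-κ) ∧ Q₀ ≤ q
  swap
  · refine ⟨Q₀, fun p q hq hpq ↦ ?_⟩
    by_contra hcon
    exact hex ⟨p, q, hq, hpq, (not_le.1 hcon).le⟩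
  obtain ⟨p₁, q₁, hq₁, hpq₁, hQq⟩ := hex
  have hx2 : (2 : ℝ) ≤ q₁ := (le_max_left _ _).trans hQq
  have hxC : C₀ ≤ q₁ := ((le_max_left _ _).trans (le_max_right _ _)).trans hQq
  have hxE : (2 * C₁ * C₀) ≤ (q₁ : ℝ) ^ (E / 4) := by
    have h1 : (2 * C₁ * C₀) ^ (4 / E) ≤ q₁ :=
      ((le_max_right _ _).trans (le_max_right _ _)).trans hQq
    have h2 := Real.rpow_le_rpow (by positivity) h1 (show 0 ≤ E / 4 by positivity)
    rwa [← Real.rpow_mul (by positivity), show 4 / E * (E / 4) = 1 by field_simp,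
      Real.rpow_one] at h2
  have hx0 : (0 : ℝ) < q₁ := by linarith
  have hx1 : (1 : ℝ) < q₁ := by linarith
  have hb1 : |(p₁ : ℝ) / q₁ - α| ≤ 1 := by
    refine hpq₁.trans ?_
    calc C₀ * (q₁ : ℝ) ^ (-κ) ≤ q₁ * (q₁ : ℝ) ^ (-(1 : ℝ)) :=
          mul_le_mul hxC (Real.rpow_le_rpow_of_exponent_le hx1.le (by linarith)) (by positivity)
            hx0.le
      _ = 1 := by rw [Real.rpow_neg_one]; field_simp
  set M₀ := ⌊4 * (1 + κ * d) / E⌋₊ with hM₀
  have hM₀' : 4 * (1 + κ * d) / E < M₀ + 1 := Nat.lt_floor_add_one _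
  refine ⟨(q₁ : ℝ) ^ (M₀ + 1), fun p₂ q₂ hq₂ hpq₂ ↦ ?_⟩
  by_contra hcon
  rw [not_le] at hcon
  have hq₁1 : 1 < q₁ := by exact_mod_cast hx1
  have hcon' : q₁ ^ (M₀ + 1) < q₂ := by exact_mod_cast hcon
  set m := Nat.log q₁ q₂ with hm
  have hm1 : q₁ ^ m ≤ q₂ := Nat.pow_log_le_self _ hq₂.ne'
  have hm2 : q₂ < q₁ ^ (m + 1) := Nat.lt_pow_succ_log_self hq₁1 _
  have hm3 : M₀ + 1 ≤ m := Nat.le_log_of_pow_le hq₁1 hcon'.le
  have hmR : (M₀ : ℝ) + 1 ≤ m := by exact_mod_cast hm3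
  have hmpos : 0 < m := by omega
  obtain ⟨n, j, hn, hj, hmain'⟩ := hmain m hmpos p₁ q₁ p₂ q₂ hq₁ hq₂ hb1
  set x : ℝ := (q₁ : ℝ) with hx
  set y : ℝ := (q₂ : ℝ) with hy
  have hy0 : 0 < y := by rw [hy]; exact_mod_cast hq₂
  have hxy1 : x ^ (m : ℝ) ≤ y := by rw [Real.rpow_natCast, hx, hy]; exact_mod_cast hm1
  have hxy2 : y ≤ x ^ ((m : ℝ) + 1) := by
    have : y ≤ x ^ (m + 1) := by rw [hx, hy]; exact_mod_cast hm2.le
    rw [← Real.rpow_natCast] at this
    push_cast at this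
    exact this
  -- the first term
  have hC : (1 : ℝ) ≤ C₁ * C₀ := one_le_mul_of_one_le_of_one_le hC₁ hC₀
  have hexp1 : (n : ℝ) + (m + 1) - κ * (m - j) ≤ -(E / 2) * m + (1 + κ * d) := by
    have h1 : κ * j ≤ κ * (δ * d * m + d) := mul_le_mul_of_nonneg_left hj (by linarith)
    have h2 : δ * d * m / 2 + κ * (δ * d * m) = E / 2 * m := by rw [← hδE]; ring
    have h3 : κ * m = E * m + m + d / 2 * m := by rw [hE]; ring
    nlinarith
  have hT1 : x ^ n * y * C₁ ^ m * |(p₁ : ℝ) / x - α| ^ (m - j) ≤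
      (C₁ * C₀) ^ m * x ^ (-(E / 2) * m + (1 + κ * d)) := by
    have e1 : |(p₁ : ℝ) / x - α| ^ (m - j) ≤ C₀ ^ m * x ^ (-κ * ((m : ℝ) - j)) := by
      calc |(p₁ : ℝ) / x - α| ^ (m - j) ≤ (C₀ * x ^ (-κ)) ^ (m - j) :=
            pow_le_pow_left₀ (abs_nonneg _) hpq₁ _
        _ = C₀ ^ (m - j) * x ^ (-κ * ((m - j : ℕ) : ℝ)) := by
            rw [mul_pow, Real.rpow_mul hx0.le, Real.rpow_natCast]
        _ ≤ C₀ ^ m * x ^ (-κ * ((m : ℝ) - j)) := by
            refine mul_le_mul (pow_le_pow_right₀ hC₀ (Nat.sub_le _ _)) ?_ (by positivity)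
              (by positivity)
            refine Real.rpow_le_rpow_of_exponent_le hx1.le ?_
            have : (m : ℝ) - j ≤ ((m - j : ℕ) : ℝ) := by
              rw [sub_le_iff_le_add]; exact_mod_cast (show m ≤ m - j + j by omega)
            nlinarith
    calc x ^ n * y * C₁ ^ m * |(p₁ : ℝ) / x - α| ^ (m - j) ≤
          x ^ (n : ℝ) * x ^ ((m : ℝ) + 1) * C₁ ^ m * (C₀ ^ m * x ^ (-κ * ((m : ℝ) - j))) := by
          rw [Real.rpow_natCast]
          gcongr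
      _ = (C₁ * C₀) ^ m * (x ^ (n : ℝ) * x ^ ((m : ℝ) + 1) * x ^ (-κ * ((m : ℝ) - j))) := by
          rw [mul_pow]; ring
      _ = (C₁ * C₀) ^ m * x ^ ((n : ℝ) + (m + 1) - κ * (m - j)) := by
          rw [← Real.rpow_add hx0, ← Real.rpow_add hx0]; ring_nf
      _ ≤ _ := mul_le_mul_of_nonneg_left
          (Real.rpow_le_rpow_of_exponent_le hx1.le hexp1) (by positivity)
  -- the second term
  have hT2 : x ^ n * y * C₁ ^ m * |(p₂ : ℝ) / y - α| ≤
      (C₁ * C₀) ^ m * x ^ (-(E / 2) * m + (1 + κ * d)) := by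
    have e1 : y * |(p₂ : ℝ) / y - α| ≤ C₀ ^ m * x ^ ((m : ℝ) * (1 - κ)) := by
      calc y * |(p₂ : ℝ) / y - α| ≤ y * (C₀ * y ^ (-κ)) := mul_le_mul_of_nonneg_left hpq₂ hy0.le
        _ = C₀ * y ^ (1 - κ) := by
            rw [sub_eq_add_neg, Real.rpow_add hy0, Real.rpow_one]; ring
        _ ≤ C₀ ^ m * x ^ ((m : ℝ) * (1 - κ)) := by
            refine mul_le_mul (le_self_pow₀ hC₀ hmpos.ne') ?_ (by positivity) (by positivity)
            rw [Real.rpow_mul hx0.le]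
            exact Real.rpow_le_rpow_of_nonpos (by positivity) hxy1 (by linarith)
    have hexp2 : (n : ℝ) + m * (1 - κ) ≤ -(E / 2) * m + (1 + κ * d) := by
      have h2 : δ * d * m / 2 + κ * (δ * d * m) = E / 2 * m := by rw [← hδE]; ring
      have h3 : κ * m = E * m + m + d / 2 * m := by rw [hE]; ring
      have h4 : 0 ≤ κ * (δ * d * m) := by positivity
      have h5 : 0 ≤ κ * d := by positivity
      nlinarith
    calc x ^ n * y * C₁ ^ m * |(p₂ : ℝ) / y - α| = x ^ n * C₁ ^ m * (y * |(p₂ : ℝ) / y - α|) := by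
          ring
      _ ≤ x ^ n * C₁ ^ m * (C₀ ^ m * x ^ ((m : ℝ) * (1 - κ))) :=
          mul_le_mul_of_nonneg_left e1 (by positivity)
      _ = (C₁ * C₀) ^ m * x ^ ((n : ℝ) + m * (1 - κ)) := by
          rw [Real.rpow_add hx0, Real.rpow_natCast, mul_pow]; ring
      _ ≤ _ := mul_le_mul_of_nonneg_left
          (Real.rpow_le_rpow_of_exponent_le hx1.le hexp2) (by positivity)
  -- conclusion
  have hfin : (1 : ℝ) ≤ x ^ (-(E / 4) * m + (1 + κ * d)) := by
    calc (1 : ℝ) ≤ x ^ n * y * C₁ ^ m * (|(p₁ : ℝ) / x - α| ^ (m - j) + |(p₂ : ℝ) / y - α|) :=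
          hmain'
      _ ≤ 2 * ((C₁ * C₀) ^ m * x ^ (-(E / 2) * m + (1 + κ * d))) := by
          rw [mul_add]; linarith
      _ ≤ (2 : ℝ) ^ m * ((C₁ * C₀) ^ m * x ^ (-(E / 2) * m + (1 + κ * d))) :=
          mul_le_mul_of_nonneg_right (le_self_pow₀ (by norm_num) hmpos.ne') (by positivity)
      _ = (2 * C₁ * C₀) ^ m * x ^ (-(E / 2) * m + (1 + κ * d)) := by
          rw [mul_assoc 2, mul_pow 2]; ring
      _ ≤ (x ^ (E / 4)) ^ m * x ^ (-(E / 2) * m + (1 + κ * d)) :=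
          mul_le_mul_of_nonneg_right (pow_le_pow_left₀ (by positivity) hxE _) (by positivity)
      _ = _ := by
          rw [← Real.rpow_natCast, ← Real.rpow_mul hx0.le, ← Real.rpow_add hx0]; ring_nf
  have hneg : -(E / 4) * m + (1 + κ * d) < 0 := by
    have h1 : 4 * (1 + κ * d) / E < m := hM₀'.trans_le hmR
    rw [div_lt_iff₀ hE0] at h1
    linarith
  exact absurd hfin (not_le.2 (Real.rpow_lt_one_of_one_lt_of_neg hx1 hneg))

end Fermat.Agent.Cor.Thue
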