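import Mathlib

/-!
# Auxiliary polynomials for Thue's theorem

For an algebraic integer `α` of degree `d`: polynomials `P, Q ∈ ℤ[X]` with small coefficients such
that `P - αQ` vanishes to high order at `α` (Siegel's lemma), and the zero estimate at rational
points (Wronskian).
-/

open Polynomial

namespace Fermat.Agent.Cor.Thue

/-- The powers of an algebraic integer have integral coordinates of exponential size. -/
theorem exists_red {f : ℤ[X]} (hf : f.Monic) (hd : 0 < f.natDegree) {α : ℝ}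
    (hα : aeval α f = 0) :
    ∃ B : ℕ, 1 ≤ B ∧ ∀ k : ℕ, ∃ r : ℤ[X], r.natDegree < f.natDegree ∧ aeval α r = α ^ k ∧
      ∀ l, |r.coeff l| ≤ (B : ℤ) ^ k := by
  set H : ℕ := ∑ i ∈ Finset.range (f.natDegree + 1), (f.coeff i).natAbs with hH
  have hfH : ∀ l, |f.coeff l| ≤ (H : ℤ) := by
    intro l
    by_cases hl : l ∈ Finset.range (f.natDegree + 1)
    · have := Finset.single_le_sum (f := fun i ↦ (f.coeff i).natAbs)
        (fun _ _ ↦ Nat.zero_le _) hl
      rw [Int.abs_eq_natAbs]; exact_mod_cast this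
    · rw [coeff_eq_zero_of_natDegree_lt (by simpa using hl)]; simp
  refine ⟨H + 1, by omega, fun k ↦ ?_⟩
  induction k with
  | zero =>
    refine ⟨1, by simpa using hd, by simp, fun l ↦ ?_⟩
    rw [coeff_one]; split_ifs <;> simp
  | succ k ih =>
    obtain ⟨r, hr1, hr2, hr3⟩ := ih
    refine ⟨X * r - C (r.coeff (f.natDegree - 1)) * f, ?_, ?_, fun l ↦ ?_⟩
    · refine lt_of_le_of_lt (b := f.natDegree - 1) ?_ (by omega)
      rw [natDegree_le_iff_coeff_eq_zero]
      intro N hN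
      obtain ⟨N', rfl⟩ : ∃ N', N = N' + 1 := ⟨N - 1, by omega⟩
      rw [coeff_sub, coeff_X_mul, coeff_C_mul]
      rcases (show f.natDegree - 1 = N' ∨ f.natDegree < N' + 1 by omega) with h | h
      · have h1 : f.coeff (N' + 1) = 1 := by
          rw [show N' + 1 = f.natDegree by omega]; exact hf.coeff_natDegree
        rw [h1, h]; ring
      · rw [coeff_eq_zero_of_natDegree_lt h, coeff_eq_zero_of_natDegree_lt (by omega)]; ring
    · rw [map_sub, map_mul, map_mul, aeval_X, hr2, hα]; ring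
    · rw [coeff_sub, coeff_C_mul]
      have h0 : (0 : ℤ) ≤ ((H + 1 : ℕ) : ℤ) ^ k := by positivity
      have h1 : |(X * r).coeff l| ≤ ((H + 1 : ℕ) : ℤ) ^ k := by
        rcases l with _ | l
        · simpa using h0
        · rw [coeff_X_mul]; exact hr3 l
      have h2 : |r.coeff (f.natDegree - 1) * f.coeff l| ≤ ((H + 1 : ℕ) : ℤ) ^ k * H := by
        rw [abs_mul]; exact mul_le_mul (hr3 _) (hfH l) (abs_nonneg _) h0
      calc _ ≤ _ := abs_sub _ _
        _ ≤ _ := add_le_add h1 h2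
        _ = _ := by push_cast; ring

/-- Higher order vanishing at `α` of a rational polynomial. -/
theorem minpoly_pow_dvd {α : ℝ} (hα : IsIntegral ℚ α) (m : ℕ) {g : ℚ[X]}
    (h : (X - C α) ^ m ∣ g.map (algebraMap ℚ ℝ)) : minpoly ℚ α ^ m ∣ g := by
  induction m generalizing g with
  | zero => simp
  | succ m ih =>
    have h0 : aeval α g = 0 := by
      have h1 : (X - C α) ∣ g.map (algebraMap ℚ ℝ) := (dvd_pow_self _ (by omega)).trans h
      rw [dvd_iff_isRoot, IsRoot.def, eval_map_algebraMap] at h1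
      exact h1
    obtain ⟨g₁, rfl⟩ := minpoly.dvd ℚ α h0
    rw [pow_succ', mul_comm (minpoly ℚ α), mul_comm (minpoly ℚ α)]
    refine mul_dvd_mul_right (ih ?_) _
    have h1 : (X - C α) ∣ (minpoly ℚ α).map (algebraMap ℚ ℝ) := by
      rw [dvd_iff_isRoot, IsRoot.def, eval_map_algebraMap]; exact minpoly.aeval ℚ α
    obtain ⟨f₁, hf₁⟩ := h1
    have hsep : ((minpoly ℚ α).map (algebraMap ℚ ℝ)).Separable :=
      (minpoly.irreducible hα).separable.map
    rw [hf₁] at hsep
    have hco : IsCoprime (X - C α) f₁ := hsep.isCoprime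
    rw [Polynomial.map_mul, hf₁, pow_succ', mul_assoc] at h
    have h2 := (mul_dvd_mul_iff_left (X_sub_C_ne_zero α)).1 h
    exact (hco.pow_left).dvd_of_dvd_mul_left h2

/-- The wronskian is divisible by `(X - a)^(m-1)` if a combination `P - aQ` is divisible by the
`m`-th power. -/
theorem pow_dvd_wronskian {R : Type*} [CommRing R] {P Q : R[X]} {a b : R} {m : ℕ}
    (h : (X - C a) ^ m ∣ P - C b * Q) : (X - C a) ^ (m - 1) ∣ wronskian P Q := by
  have h1 : wronskian P Q = (P - C b * Q) * derivative Q - derivative (P - C b * Q) * Q := by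
    rw [wronskian, derivative_sub, derivative_C_mul]; ring
  rw [h1]
  refine dvd_sub (((pow_dvd_pow _ (Nat.sub_le m 1)).trans h).mul_right _) (Dvd.dvd.mul_right ?_ _)
  exact pow_sub_one_dvd_derivative_of_pow_dvd h

/-- The wronskian of `P`, `Q` does not vanish if `P - αQ` vanishes to high order at `α`. -/
theorem wronskian_ne_zero {α : ℝ} (hα : IsIntegral ℚ α) (hirr : Irrational α) {P Q : ℚ[X]}
    {n m : ℕ} (hP : P.natDegree ≤ n) (hQ : Q.natDegree ≤ n) (hPQ : ¬ (P = 0 ∧ Q = 0))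
    (hn : n < m * (minpoly ℚ α).natDegree)
    (h : (X - C α) ^ m ∣ P.map (algebraMap ℚ ℝ) - C α * Q.map (algebraMap ℚ ℝ)) :
    wronskian P Q ≠ 0 := by
  intro hW
  let := EuclideanDomain.gcdMonoid ℚ[X]
  obtain ⟨a, b, ha, hb, hab⟩ := extract_gcd P Q
  set g := gcd P Q with hg
  have hco : IsCoprime a b := (gcd_isUnit_iff _ _).1 hab
  have hg0 : g ≠ 0 := by
    intro h0; rw [h0, zero_mul] at ha hb; exact hPQ ⟨ha, hb⟩
  have h1 : wronskian P Q = g ^ 2 * wronskian a b := by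
    rw [ha, hb, wronskian, wronskian, derivative_mul, derivative_mul]; ring
  rw [h1, mul_eq_zero, or_iff_right (pow_ne_zero 2 hg0), hco.wronskian_eq_zero_iff] at hW
  obtain ⟨u, rfl⟩ : ∃ u, a = C u := ⟨_, eq_C_of_derivative_eq_zero hW.1⟩
  obtain ⟨v, rfl⟩ : ∃ v, b = C v := ⟨_, eq_C_of_derivative_eq_zero hW.2⟩
  have huv : (u : ℝ) - α * v ≠ 0 := by
    intro h0
    by_cases hv : v = 0
    · subst hv
      have hu : u = 0 := by simpa using h0
      subst hu
      exact hPQ ⟨by rw [ha]; simp, by rw [hb]; simp⟩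
    · refine hirr ⟨u / v, ?_⟩
      have : (v : ℝ) ≠ 0 := by exact_mod_cast hv
      push_cast; field_simp; linarith
  have h2 : P.map (algebraMap ℚ ℝ) - C α * Q.map (algebraMap ℚ ℝ) =
      g.map (algebraMap ℚ ℝ) * C ((u : ℝ) - α * v) := by
    rw [ha, hb, Polynomial.map_mul, Polynomial.map_mul, map_C, map_C, map_sub C, map_mul C]
    simp only [eq_ratCast]; ring
  rw [h2] at h
  have hu : IsUnit (C ((u : ℝ) - α * v) : ℝ[X]) := isUnit_C.2 huv.isUnit
  rw [hu.dvd_mul_right] at h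
  have h3 := natDegree_le_of_dvd (minpoly_pow_dvd hα m h) hg0
  rw [natDegree_pow] at h3
  -- degree of `g`
  have h4 : g.natDegree ≤ n := by
    by_cases hu0 : u = 0
    · have hv0 : v ≠ 0 := by
        rintro rfl; subst hu0; exact huv (by simp)
      rw [hb, natDegree_mul_C hv0] at hQ; exact hQ
    · rw [ha, natDegree_mul_C hu0] at hP; exact hP
  omega

/-- **Zero estimate**: the order of vanishing of `P(X) - x₂ Q(X)` at `x₁` is small. -/
theorem exists_hasseDeriv_ne {α : ℝ} (hα : IsIntegral ℚ α) (hirr : Irrational α) {P Q : ℚ[X]}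
    {n m : ℕ} (hP : P.natDegree ≤ n) (hQ : Q.natDegree ≤ n) (hPQ : ¬ (P = 0 ∧ Q = 0))
    (hn : n < m * (minpoly ℚ α).natDegree)
    (h : (X - C α) ^ m ∣ P.map (algebraMap ℚ ℝ) - C α * Q.map (algebraMap ℚ ℝ)) (x₁ x₂ : ℚ) :
    ∃ j, j + (m - 1) * (minpoly ℚ α).natDegree ≤ 2 * n ∧
      (hasseDeriv j P).eval x₁ - x₂ * (hasseDeriv j Q).eval x₁ ≠ 0 := by
  by_contra hcon
  push Not at hcon
  have hW := wronskian_ne_zero hα hirr hP hQ hPQ hn h
  have h1 : minpoly ℚ α ^ (m - 1) ∣ wronskian P Q := by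
    apply minpoly_pow_dvd hα
    have := pow_dvd_wronskian h
    rwa [wronskian, derivative_map, derivative_map, ← Polynomial.map_mul, ← Polynomial.map_mul,
      ← Polynomial.map_sub] at this
  obtain ⟨V, hV⟩ := h1
  have hV0 : V ≠ 0 := by rintro rfl; rw [mul_zero] at hV; exact hW hV
  have hmin := minpoly.ne_zero hα
  have hdeg : (wronskian P Q).natDegree = (m - 1) * (minpoly ℚ α).natDegree + V.natDegree := by
    rw [hV, natDegree_mul (pow_ne_zero _ hmin) hV0, natDegree_pow]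
  have hlt := natDegree_wronskian_lt_add hW
  set D := (minpoly ℚ α).natDegree with hD
  -- the order of vanishing
  set J := 2 * n + 1 - (m - 1) * D with hJ
  have h2 : (X - C x₁) ^ J ∣ P - C x₂ * Q := by
    rw [X_sub_C_pow_dvd_iff, X_pow_dvd_iff]
    intro j hj
    have h3 := hcon j (by omega)
    rw [← taylor_apply, taylor_coeff, map_sub, eval_sub, ← smul_eq_C_mul, map_smul, eval_smul,
      smul_eq_mul]
    exact h3
  have h3 := pow_dvd_wronskian h2
  rw [hV] at h3
  have hco : IsCoprime (X - C x₁) (minpoly ℚ α) := by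
    rw [(irreducible_X_sub_C x₁).coprime_iff_not_dvd, dvd_iff_isRoot, IsRoot.def]
    intro h0
    have h4 := (minpoly.irreducible hα)
    have h5 : (X - C x₁) ∣ minpoly ℚ α := by rw [dvd_iff_isRoot, IsRoot.def]; exact h0
    have h6 : Associated (X - C x₁) (minpoly ℚ α) :=
      (irreducible_X_sub_C x₁).associated_of_dvd h4 h5
    have h7 : X - C x₁ = minpoly ℚ α :=
      eq_of_monic_of_associated (monic_X_sub_C _) (minpoly.monic hα) h6
    have h8 := minpoly.aeval ℚ α
    rw [← h7, map_sub, aeval_X, aeval_C, sub_eq_zero] at h8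
    exact hirr ⟨x₁, h8.symm⟩
  have h4 := natDegree_le_of_dvd ((hco.pow (m := J - 1) (n := m - 1)).dvd_of_dvd_mul_left h3) hV0
  rw [natDegree_pow, natDegree_X_sub_C, mul_one] at h4
  omega

attribute [local instance] Matrix.seminormedAddCommGroup in
/-- **Auxiliary polynomials** (Siegel's lemma). -/
theorem exists_PQ {f : ℤ[X]} (hf : f.Monic) (hd : 0 < f.natDegree) {α : ℝ}
    (hα : aeval α f = 0) :
    ∃ B : ℕ, 1 ≤ B ∧ ∀ m n : ℕ, 0 < m → m * f.natDegree < 2 * (n + 1) →
      ∃ P Q : ℤ[X], P.natDegree ≤ n ∧ Q.natDegree ≤ n ∧ ¬ (P = 0 ∧ Q = 0) ∧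
        (∀ i, |(P.coeff i : ℝ)| ≤ ((2 * (n + 1) : ℝ) * ((2 : ℝ) ^ n * (B : ℝ) ^ (n + 1))) ^
          ((m * f.natDegree : ℝ) / (2 * (n + 1) - m * f.natDegree))) ∧
        (∀ i, |(Q.coeff i : ℝ)| ≤ ((2 * (n + 1) : ℝ) * ((2 : ℝ) ^ n * (B : ℝ) ^ (n + 1))) ^
          ((m * f.natDegree : ℝ) / (2 * (n + 1) - m * f.natDegree))) ∧
        (X - C α) ^ m ∣ P.map (Int.castRingHom ℝ) - C α * Q.map (Int.castRingHom ℝ) := by
  obtain ⟨B, hB1, hB⟩ := exists_red hf hd hα
  choose r hr1 hr2 hr3 using hB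
  refine ⟨B, hB1, fun m n hm hmn ↦ ?_⟩
  set d := f.natDegree
  have hB1' : (1 : ℝ) ≤ B := by exact_mod_cast hB1
  let A : Matrix (Fin m × Fin d) (Fin (n + 1) ⊕ Fin (n + 1)) ℤ := fun jl i ↦
    Sum.elim (fun i : Fin (n + 1) ↦ ((i : ℕ).choose jl.1 : ℤ) * (r ((i : ℕ) - jl.1)).coeff jl.2)
      (fun i : Fin (n + 1) ↦
        -(((i : ℕ).choose jl.1 : ℤ) * (r ((i : ℕ) - jl.1 + 1)).coeff jl.2)) i
  have hAij : ∀ (i : Fin (n + 1)) (j l k : ℕ), k ≤ n + 1 →
      |((((i : ℕ).choose j : ℤ) * (r k).coeff l : ℤ) : ℝ)| ≤ (2 : ℝ) ^ n * (B : ℝ) ^ (n + 1) := by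
    intro i j l k hk
    push_cast
    rw [abs_mul]
    refine mul_le_mul ?_ ?_ (abs_nonneg _) (by positivity)
    · rw [abs_of_nonneg (by positivity)]
      calc (((i : ℕ).choose j : ℕ) : ℝ) ≤ ((2 ^ (i : ℕ) : ℕ) : ℝ) := by
            exact_mod_cast Nat.choose_le_two_pow _ _
        _ ≤ _ := by
            push_cast
            exact pow_le_pow_right₀ (by norm_num) (by omega)
    · calc |((r k).coeff l : ℝ)| = ((|(r k).coeff l| : ℤ) : ℝ) := by push_cast; rfl
        _ ≤ (((B : ℤ) ^ k : ℤ) : ℝ) := by exact_mod_cast hr3 k l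
        _ = (B : ℝ) ^ k := by push_cast; rfl
        _ ≤ _ := pow_le_pow_right₀ hB1' hk
  have hA : ‖A‖ ≤ (2 : ℝ) ^ n * (B : ℝ) ^ (n + 1) := by
    rw [Matrix.norm_le_iff (by positivity)]
    rintro ⟨j, l⟩ (i | i)
    · rw [Int.norm_eq_abs]
      exact hAij i j l _ (by omega)
    · rw [Int.norm_eq_abs]
      change |((-(((i : ℕ).choose j : ℤ) * (r ((i : ℕ) - j + 1)).coeff l) : ℤ) : ℝ)| ≤ _
      rw [Int.cast_neg, abs_neg]
      exact hAij i j l _ (by omega)
  have hc1 : Fintype.card (Fin m × Fin d) = m * d := by simp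
  have hc2 : Fintype.card (Fin (n + 1) ⊕ Fin (n + 1)) = 2 * (n + 1) := by simp; ring
  obtain ⟨t, ht0, htA, htn⟩ := Int.Matrix.exists_ne_zero_int_vec_norm_le A
    (by rw [hc1, hc2]; exact hmn) (by rw [hc1]; exact Nat.mul_pos hm hd)
  rw [hc1, hc2] at htn
  push_cast at htn
  have hexp : (0 : ℝ) ≤ (m * d : ℝ) / (2 * (n + 1) - m * d) := by
    have : (m * d : ℝ) < 2 * (n + 1) := by exact_mod_cast hmn
    exact div_nonneg (by positivity) (by linarith)
  have htn' : ∀ i, |(t i : ℝ)| ≤ ((2 * (n + 1) : ℝ) * ((2 : ℝ) ^ n * (B : ℝ) ^ (n + 1))) ^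
          ((m * d : ℝ) / (2 * (n + 1) - m * d)) := by
    intro i
    rw [← Int.norm_eq_abs]
    refine (norm_le_pi_norm t i).trans (htn.trans ?_)
    refine Real.rpow_le_rpow (by positivity) ?_ hexp
    refine mul_le_mul_of_nonneg_left (max_le ?_ hA) (by positivity)
    exact one_le_mul_of_one_le_of_one_le (one_le_pow₀ (by norm_num)) (one_le_pow₀ hB1')
  have hbd0 : (0 : ℝ) ≤ ((2 * (n + 1) : ℝ) * ((2 : ℝ) ^ n * (B : ℝ) ^ (n + 1))) ^
          ((m * d : ℝ) / (2 * (n + 1) - m * d)) := by positivity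
  -- the polynomials
  have hcoeff : ∀ (s : Fin (n + 1) → ℤ) (k : ℕ), (∑ i : Fin (n + 1), monomial (i : ℕ) (s i) : ℤ[X]).coeff k =
      if h : k < n + 1 then s ⟨k, h⟩ else 0 := by
    intro s k
    rw [finsetSum_coeff]
    simp only [coeff_monomial]
    split_ifs with h
    · rw [Finset.sum_eq_single ⟨k, h⟩]
      · simp
      · intro b _ hb
        rw [if_neg]
        intro h'; exact hb (Fin.ext h')
      · simp
    · refine Finset.sum_eq_zero fun i _ ↦ ?_
      rw [if_neg]; intro h'; exact h (h' ▸ i.2)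
  refine ⟨∑ i : Fin (n + 1), monomial (i : ℕ) (t (Sum.inl i)), ∑ i : Fin (n + 1), monomial (i : ℕ) (t (Sum.inr i)), ?_, ?_,
    ?_, ?_, ?_, ?_⟩
  · rw [natDegree_le_iff_coeff_eq_zero]
    intro N hN
    rw [hcoeff (fun i ↦ t (Sum.inl i)), dif_neg (by omega)]
  · rw [natDegree_le_iff_coeff_eq_zero]
    intro N hN
    rw [hcoeff (fun i ↦ t (Sum.inr i)), dif_neg (by omega)]
  · rintro ⟨h1, h2⟩
    apply ht0
    funext i
    rcases i with i | i
    · have := hcoeff (fun i ↦ t (Sum.inl i)) i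
      rw [h1, coeff_zero, dif_pos i.2] at this
      exact this.symm
    · have := hcoeff (fun i ↦ t (Sum.inr i)) i
      rw [h2, coeff_zero, dif_pos i.2] at this
      exact this.symm
  · intro i
    rw [hcoeff (fun i ↦ t (Sum.inl i))]
    split_ifs with h
    · exact htn' _
    · simpa using hbd0
  · intro i
    rw [hcoeff (fun i ↦ t (Sum.inr i))]
    split_ifs with h
    · exact htn' _
    · simpa using hbd0
  · -- vanishing
    rw [X_sub_C_pow_dvd_iff, X_pow_dvd_iff]
    intro j hj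
    rw [← taylor_apply, taylor_coeff]
    have h1 : (∑ i : Fin (n + 1), monomial (i : ℕ) (t (Sum.inl i)) : ℤ[X]).map (Int.castRingHom ℝ) -
        C α * (∑ i : Fin (n + 1), monomial (i : ℕ) (t (Sum.inr i)) : ℤ[X]).map (Int.castRingHom ℝ) =
        ∑ i : Fin (n + 1), monomial (i : ℕ) ((t (Sum.inl i) : ℝ) - α * t (Sum.inr i)) := by
      rw [Polynomial.map_sum, Polynomial.map_sum, Finset.mul_sum, ← Finset.sum_sub_distrib]
      refine Finset.sum_congr rfl fun i _ ↦ ?_
      rw [map_monomial, map_monomial, C_mul_monomial, ← map_sub]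
      simp
    rw [h1, map_sum, eval_finsetSum]
    simp only [hasseDeriv_monomial, eval_monomial]
    have h2 : ∀ k : ℕ, α ^ k = ∑ l : Fin d, ((r k).coeff l : ℝ) * α ^ (l : ℕ) := by
      intro k
      rw [← hr2 k, aeval_eq_sum_range' (hr1 k), ← Fin.sum_univ_eq_sum_range
        (fun i ↦ (r k).coeff i • α ^ i)]
      simp
    have h3 : ∀ l : Fin d, ((A.mulVec t (⟨j, hj⟩, l) : ℤ) : ℝ) = 0 := by
      intro l; rw [htA]; simp
    calc ∑ i : Fin (n + 1), (((i : ℕ).choose j : ℝ) * ((t (Sum.inl i) : ℝ) - α * t (Sum.inr i))) *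
          α ^ ((i : ℕ) - j)
        = ∑ i : Fin (n + 1), ∑ l : Fin d,
            (((i : ℕ).choose j : ℝ) * ((r ((i : ℕ) - j)).coeff l : ℝ) * (t (Sum.inl i) : ℝ) -
            ((i : ℕ).choose j : ℝ) * ((r ((i : ℕ) - j + 1)).coeff l : ℝ) * (t (Sum.inr i) : ℝ)) *
            α ^ (l : ℕ) := by
          refine Finset.sum_congr rfl fun i _ ↦ ?_
          have e1 : (((i : ℕ).choose j : ℝ) * ((t (Sum.inl i) : ℝ) - α * t (Sum.inr i))) *
              α ^ ((i : ℕ) - j) = ((i : ℕ).choose j : ℝ) * t (Sum.inl i) * α ^ ((i : ℕ) - j) -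
              ((i : ℕ).choose j : ℝ) * t (Sum.inr i) * α ^ ((i : ℕ) - j + 1) := by
            rw [pow_succ]; ring
          rw [e1, h2 ((i : ℕ) - j), h2 ((i : ℕ) - j + 1), Finset.mul_sum, Finset.mul_sum,
            ← Finset.sum_sub_distrib]
          refine Finset.sum_congr rfl fun l _ ↦ ?_
          ring
      _ = ∑ l : Fin d, ((A.mulVec t (⟨j, hj⟩, l) : ℤ) : ℝ) * α ^ (l : ℕ) := by
          rw [Finset.sum_comm]
          refine Finset.sum_congr rfl fun l _ ↦ ?_
          rw [← Finset.sum_mul]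
          congr 1
          simp only [Matrix.mulVec, dotProduct, Fintype.sum_sum_type, A, Sum.elim_inl,
            Sum.elim_inr]
          push_cast
          rw [← Finset.sum_add_distrib]
          refine Finset.sum_congr rfl fun i _ ↦ ?_
          ring
      _ = 0 := by simp [h3]

end Fermat.Agent.Cor.Thue
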