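import Fermat.Agent.Cor.Thue

/-!
# Thue's theorem and Thue equations

* `thue_approx`: for a real algebraic irrational number `α` of degree `d`, `κ > d / 2 + 1` and any
  `C`, only finitely many pairs `(p, q)`, `q > 0`, satisfy `|α - p / q| < C / q ^ κ`.
* `not_liouvilleWith`: a real algebraic number of degree `d` is not `LiouvilleWith κ` for
  `κ > d / 2 + 1`.
* `thue_equation`: if `f ∈ ℤ[X]` is irreducible over `ℚ` of degree `d ≥ 3`, the equation
  `∑ fᵢ xⁱ y^(d-i) = k` has only finitely many solutions in integers; `thue_equation'`: the same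
  for `f` separable and `k ≠ 0`.
* `finite_axn_add_byn`: `a xⁿ + b yⁿ = c` with `abc ≠ 0`, `n ≥ 3` has only finitely many solutions
  in integers.
-/

open Polynomial

namespace Fermat.Agent.Cor.Thue

/-- **Thue's theorem**, general algebraic numbers: the denominators are bounded. -/
theorem thue_bound' {α : ℝ} (hα : IsAlgebraic ℚ α) (hirr : Irrational α) {κ : ℝ}
    (hκ : ((minpoly ℚ α).natDegree : ℝ) / 2 + 1 < κ) (C : ℝ) :
    ∃ M : ℝ, ∀ (p : ℤ) (q : ℕ), 0 < q → |(p : ℝ) / q - α| ≤ C * (q : ℝ) ^ (-κ) → (q : ℝ) ≤ M := by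
  have hαZ : IsAlgebraic ℤ α := (IsFractionRing.isAlgebraic_iff ℤ ℚ ℝ).2 hα
  obtain ⟨D, hD, hDα⟩ := hαZ.exists_integral_multiple
  have hD' : (D : ℝ) ≠ 0 := by exact_mod_cast hD
  have hDQ : (D : ℚ) ≠ 0 := by exact_mod_cast hD
  rw [zsmul_eq_mul] at hDα
  have hirr' : Irrational ((D : ℝ) * α) := hirr.intCast_mul hD
  -- the degree
  have hdeg : (minpoly ℚ ((D : ℝ) * α)).natDegree ≤ (minpoly ℚ α).natDegree := by
    have h0 : (minpoly ℚ α) ≠ 0 := minpoly.ne_zero hα.isIntegral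
    have h1 : aeval ((D : ℝ) * α) ((minpoly ℚ α).comp (Polynomial.C ((D : ℚ)⁻¹) * X)) = 0 := by
      rw [aeval_comp, map_mul, aeval_X, aeval_C, map_inv₀]
      have : (algebraMap ℚ ℝ (D : ℚ))⁻¹ * ((D : ℝ) * α) = α := by
        rw [map_intCast]; field_simp
      rw [this, minpoly.aeval]
    have h2 : ((minpoly ℚ α).comp (Polynomial.C ((D : ℚ)⁻¹) * X)).natDegree = (minpoly ℚ α).natDegree := by
      rw [natDegree_comp, natDegree_C_mul_X _ (inv_ne_zero hDQ), mul_one]
    have h3 : (minpoly ℚ α).comp (Polynomial.C ((D : ℚ)⁻¹) * X) ≠ 0 := by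
      intro h
      have := minpoly.natDegree_pos hα.isIntegral
      rw [h, natDegree_zero] at h2
      omega
    rw [← h2]
    exact natDegree_le_natDegree (minpoly.degree_le_of_ne_zero ℚ _ h3 h1)
  have hdeg' : ((minpoly ℚ ((D : ℝ) * α)).natDegree : ℝ) ≤ (minpoly ℚ α).natDegree := by
    exact_mod_cast hdeg
  obtain ⟨M, hM⟩ := thue_bound hDα hirr' (κ := κ) (by linarith) (C₀ := max 1 (|(D : ℝ)| * C))
    (le_max_left _ _)
  refine ⟨M, fun p q hq hpq ↦ hM (D * p) q hq ?_⟩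
  have h1 : ((D * p : ℤ) : ℝ) / q - D * α = D * ((p : ℝ) / q - α) := by push_cast; ring
  rw [h1, abs_mul]
  calc |(D : ℝ)| * |(p : ℝ) / q - α| ≤ |(D : ℝ)| * (C * (q : ℝ) ^ (-κ)) :=
        mul_le_mul_of_nonneg_left hpq (abs_nonneg _)
    _ = (|(D : ℝ)| * C) * (q : ℝ) ^ (-κ) := by ring
    _ ≤ _ := mul_le_mul_of_nonneg_right (le_max_right _ _) (by positivity)

/-- **Thue's theorem** (1909): a real algebraic irrational number `α` of degree `d` has only
finitely many rational approximations `p / q` with `|α - p / q| < C / q ^ κ`, if `κ > d / 2 + 1`. -/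
theorem thue_approx {α : ℝ} (hα : IsAlgebraic ℚ α) (hirr : Irrational α) {κ : ℝ}
    (hκ : ((minpoly ℚ α).natDegree : ℝ) / 2 + 1 < κ) (C : ℝ) :
    {x : ℤ × ℕ | 0 < x.2 ∧ |α - (x.1 : ℝ) / x.2| < C / (x.2 : ℝ) ^ κ}.Finite := by
  obtain ⟨M, hM⟩ := thue_bound' hα hirr hκ C
  have hκ0 : 0 < κ := by
    have : (0 : ℝ) ≤ (minpoly ℚ α).natDegree := by positivity
    linarith
  set N : ℤ := ⌈|M| * (|C| + |α|)⌉ with hN
  refine ((Set.finite_Icc (-N) N).prod (Set.finite_Iic ⌊|M|⌋₊)).subset ?_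
  rintro ⟨p, q⟩ ⟨hq, hpq⟩
  simp only at hq hpq
  have hq' : (0 : ℝ) < q := by exact_mod_cast hq
  have h1 : (q : ℝ) ≤ M := by
    refine hM p q hq ?_
    rw [abs_sub_comm, Real.rpow_neg hq'.le, ← div_eq_mul_inv]; exact hpq.le
  have hM0 : |M| = M := abs_of_nonneg (hq'.le.trans h1)
  have h2 : C / (q : ℝ) ^ κ ≤ |C| := by
    have : (1 : ℝ) ≤ (q : ℝ) ^ κ := Real.one_le_rpow (by exact_mod_cast hq) hκ0.le
    calc C / (q : ℝ) ^ κ ≤ |C| / (q : ℝ) ^ κ := by gcongr; exact le_abs_self C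
      _ ≤ |C| := div_le_self (abs_nonneg _) this
  have h3 : |(p : ℝ)| ≤ |M| * (|C| + |α|) := by
    have h4 : |(p : ℝ) / q| ≤ |C| + |α| := by
      calc |(p : ℝ) / q| = |α - (α - (p : ℝ) / q)| := by congr 1; ring
        _ ≤ |α| + |α - (p : ℝ) / q| := abs_sub _ _
        _ ≤ _ := by linarith
    rw [abs_div, abs_of_pos hq', div_le_iff₀ hq'] at h4
    rw [hM0]
    calc |(p : ℝ)| ≤ (|C| + |α|) * q := h4
      _ ≤ (|C| + |α|) * M := mul_le_mul_of_nonneg_left h1 (by positivity)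
      _ = _ := by ring
  have h5 : |(p : ℝ)| ≤ N := h3.trans (Int.le_ceil _)
  rw [← Int.cast_abs] at h5
  have h6 : |p| ≤ N := by exact_mod_cast h5
  rw [abs_le] at h6
  refine ⟨h6, ?_⟩
  rw [Set.mem_Iic, hM0]
  exact Nat.le_floor h1

/-- An algebraic number of degree `d` is not `LiouvilleWith` exponent `p > d / 2 + 1`. -/
theorem not_liouvilleWith {α : ℝ} (hα : IsAlgebraic ℚ α) {κ : ℝ}
    (hκ : ((minpoly ℚ α).natDegree : ℝ) / 2 + 1 < κ) : ¬ LiouvilleWith κ α := by
  intro h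
  have hκ1 : 1 < κ := by
    have : (0 : ℝ) ≤ (minpoly ℚ α).natDegree := by positivity
    linarith
  have hirr := h.irrational hκ1
  obtain ⟨C, hC⟩ := h
  obtain ⟨M, hM⟩ := thue_bound' hα hirr hκ C
  rw [Filter.frequently_atTop] at hC
  obtain ⟨q, hq, p, -, hpq⟩ := hC (⌊|M|⌋₊ + 1)
  have hq0 : 0 < q := by omega
  have hq' : (0 : ℝ) < q := by exact_mod_cast hq0
  have h1 : (q : ℝ) ≤ M := by
    refine hM p q hq0 ?_
    rw [abs_sub_comm, Real.rpow_neg hq'.le, ← div_eq_mul_inv]; exact hpq.le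
  have h2 : |M| < q := (Nat.lt_floor_add_one _).trans_le (by exact_mod_cast hq)
  linarith [le_abs_self M]

/-- The binary form attached to a polynomial. -/
def form (f : ℤ[X]) (x y : ℤ) : ℤ :=
  ∑ i ∈ Finset.range (f.natDegree + 1), f.coeff i * x ^ i * y ^ (f.natDegree - i)

theorem form_eq (f : ℤ[X]) (x : ℤ) {y : ℤ} (hy : y ≠ 0) : ((form f x y : ℤ) : ℂ) =
    (y : ℂ) ^ f.natDegree * (f.map (Int.castRingHom ℂ)).eval ((x : ℂ) / y) := by
  have h1 : (f.map (Int.castRingHom ℂ)).natDegree < f.natDegree + 1 :=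
    (natDegree_map_le).trans_lt (by omega)
  rw [eval_eq_sum_range' h1, Finset.mul_sum, form]
  push_cast
  refine Finset.sum_congr rfl fun i hi ↦ ?_
  rw [Finset.mem_range] at hi
  have hq' : (y : ℂ) ≠ 0 := by exact_mod_cast hy
  rw [coeff_map, eq_intCast, div_pow]
  obtain ⟨k, hk⟩ : ∃ k, f.natDegree = i + k := ⟨f.natDegree - i, by omega⟩
  rw [hk, Nat.add_sub_cancel_left, pow_add]
  field_simp

/-- A separable complex polynomial is bounded below by the distance to the nearest root. -/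
theorem exists_lower {g : ℂ[X]} (hg : 0 < g.natDegree) (hsep : g.Separable) :
    ∃ c : ℝ, 0 < c ∧ ∀ t : ℂ, ∃ r ∈ g.roots.toFinset, c * ‖t - r‖ ≤ ‖g.eval t‖ := by
  set S := g.roots.toFinset with hS
  have hg0 : g ≠ 0 := by rintro rfl; simp at hg
  have hSne : S.Nonempty := by
    obtain ⟨z, hz⟩ := IsAlgClosed.exists_root g (by
      rw [degree_eq_natDegree hg0]; exact_mod_cast hg.ne')
    exact ⟨z, by rw [hS, Multiset.mem_toFinset, mem_roots hg0]; exact hz⟩
  set T : Finset ℝ := insert 1 (((S ×ˢ S).filter (fun x ↦ x.1 ≠ x.2)).image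
    (fun x ↦ ‖x.1 - x.2‖ / 2)) with hT
  have hTne : T.Nonempty := ⟨1, Finset.mem_insert_self _ _⟩
  set γ := T.min' hTne with hγ
  have hγ1 : γ ≤ 1 := T.min'_le _ (Finset.mem_insert_self _ _)
  have hγ2 : ∀ r ∈ S, ∀ r' ∈ S, r ≠ r' → γ ≤ ‖r - r'‖ / 2 := by
    intro r hr r' hr' hrr
    refine T.min'_le _ (Finset.mem_insert_of_mem (Finset.mem_image.2 ⟨(r, r'), ?_, rfl⟩))
    rw [Finset.mem_filter, Finset.mem_product]
    exact ⟨⟨hr, hr'⟩, hrr⟩
  have hγ0 : 0 < γ := by
    have : γ ∈ T := T.min'_mem hTne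
    rw [hT, Finset.mem_insert, Finset.mem_image] at this
    rcases this with h | ⟨x, hx, h⟩
    · rw [h]; norm_num
    · rw [Finset.mem_filter] at hx
      rw [← h]
      have := norm_pos_iff.2 (sub_ne_zero.2 hx.2)
      positivity
  have hlc : 0 < ‖g.leadingCoeff‖ := norm_pos_iff.2 (leadingCoeff_ne_zero.2 hg0)
  refine ⟨‖g.leadingCoeff‖ * γ ^ S.card, by positivity, fun t ↦ ?_⟩
  obtain ⟨r₀, hr₀, hmin⟩ := Finset.exists_min_image S (fun r ↦ ‖t - r‖) hSne
  refine ⟨r₀, hr₀, ?_⟩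
  have h1 : g.eval t = g.leadingCoeff * ∏ r ∈ S, (t - r) := by
    rw [(IsAlgClosed.splits g).eval_eq_prod_roots, Finset.prod_eq_multiset_prod, hS,
      Multiset.toFinset_val, (nodup_roots hsep).dedup]
  rw [h1, norm_mul, norm_prod, ← Finset.mul_prod_erase S _ hr₀]
  have h2 : γ ^ S.card ≤ ∏ r ∈ S.erase r₀, ‖t - r‖ := by
    calc γ ^ S.card ≤ γ ^ (S.erase r₀).card :=
          pow_le_pow_of_le_one hγ0.le hγ1 (Finset.card_le_card (Finset.erase_subset _ _))
      _ = ∏ r ∈ S.erase r₀, γ := by rw [Finset.prod_const]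
      _ ≤ _ := by
          refine Finset.prod_le_prod (fun _ _ ↦ hγ0.le) fun r hr ↦ ?_
          rw [Finset.mem_erase] at hr
          have e1 := hγ2 r hr.2 r₀ hr₀ hr.1
          have e2 := hmin r hr.2
          have e3 : ‖r - r₀‖ ≤ ‖t - r‖ + ‖t - r₀‖ := by
            calc ‖r - r₀‖ = ‖(t - r₀) - (t - r)‖ := by congr 1; ring
              _ ≤ ‖t - r₀‖ + ‖t - r‖ := norm_sub_le _ _
              _ = _ := add_comm _ _
          linarith
  calc ‖g.leadingCoeff‖ * γ ^ S.card * ‖t - r₀‖ = ‖g.leadingCoeff‖ * (‖t - r₀‖ * γ ^ S.card) := by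
        ring
    _ ≤ _ := mul_le_mul_of_nonneg_left (mul_le_mul_of_nonneg_left h2 (norm_nonneg _)) hlc.le

/-- Rational approximations to one root. -/
theorem root_bound {f : ℤ[X]} (hd : 3 ≤ f.natDegree) {r : ℂ}
    (hr : (f.map (Int.castRingHom ℂ)).eval r = 0) (K : ℝ) :
    ∃ M : ℝ, ∀ x y : ℤ, y ≠ 0 → (x : ℂ) / y ≠ r →
      ‖(x : ℂ) / y - r‖ * |(y : ℝ)| ^ f.natDegree ≤ K → |(y : ℝ)| ≤ M := by
  have hf0 : f.map (Int.castRingHom ℚ) ≠ 0 := by
    rw [Ne, Polynomial.map_eq_zero_iff (Int.castRingHom ℚ).injective_int]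
    rintro rfl; simp at hd
  by_cases him : r.im = 0
  · set ρ : ℝ := r.re with hρ
    have hrρ : r = (ρ : ℂ) := by
      apply Complex.ext <;> simp [hρ, him]
    have hinj : Function.Injective (Int.castRingHom ℚ) := (Int.castRingHom ℚ).injective_int
    have hroot : aeval ρ (f.map (Int.castRingHom ℚ)) = 0 := by
      have h1 : (f.map (Int.castRingHom ℂ)) = (f.map (Int.castRingHom ℝ)).map (algebraMap ℝ ℂ) := by
        rw [Polynomial.map_map]; congr 1
      have h2 : aeval ρ (f.map (Int.castRingHom ℚ)) = (f.map (Int.castRingHom ℝ)).eval ρ := by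
        rw [← eval_map_algebraMap, Polynomial.map_map]; congr 2
      have h3 : ((f.map (Int.castRingHom ℝ)).map (algebraMap ℝ ℂ)).eval (algebraMap ℝ ℂ ρ) =
          algebraMap ℝ ℂ ((f.map (Int.castRingHom ℝ)).eval ρ) := by
        rw [eval_map, eval₂_at_apply]
      rw [h2]
      rw [h1, hrρ] at hr
      have h4 := h3.symm.trans hr
      exact Complex.ofReal_eq_zero.1 h4
    by_cases hirr : Irrational ρ
    · have halg : IsAlgebraic ℚ ρ := ⟨_, hf0, hroot⟩
      have hdeg : (minpoly ℚ ρ).natDegree ≤ f.natDegree := by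
        rw [← natDegree_map_eq_of_injective hinj f]
        exact natDegree_le_of_dvd (minpoly.dvd ℚ ρ hroot) hf0
      have hκ : ((minpoly ℚ ρ).natDegree : ℝ) / 2 + 1 < f.natDegree := by
        have h1 : ((minpoly ℚ ρ).natDegree : ℝ) ≤ f.natDegree := by exact_mod_cast hdeg
        have : (3 : ℝ) ≤ f.natDegree := by exact_mod_cast hd
        linarith
      obtain ⟨M, hM⟩ := thue_bound' halg hirr hκ K
      refine ⟨M, fun x y hy _ hxy ↦ ?_⟩
      have hy' : (y : ℝ) ≠ 0 := by exact_mod_cast hy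
      have hay : 0 < |(y : ℝ)| := abs_pos.2 hy'
      have hq : ((y.natAbs : ℕ) : ℝ) = |(y : ℝ)| := by rw [Nat.cast_natAbs, Int.cast_abs]
      have hdiv : ((x * y.sign : ℤ) : ℝ) / (y.natAbs : ℕ) = (x : ℝ) / y := by
        rw [hq, Int.cast_mul]
        rcases lt_or_gt_of_ne hy with h | h
        · rw [Int.sign_eq_neg_one_of_neg h, abs_of_neg (by exact_mod_cast h)]
          push_cast; field_simp
        · rw [Int.sign_eq_one_of_pos h, abs_of_pos (by exact_mod_cast h)]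
          push_cast; rw [mul_one]
      have h1 := hM (x * y.sign) y.natAbs (Int.natAbs_pos.2 hy) ?_
      · rwa [hq] at h1
      · rw [hdiv, hq, Real.rpow_neg hay.le, Real.rpow_natCast, ← div_eq_mul_inv,
          le_div_iff₀ (by positivity)]
        have : (x : ℂ) / y - r = (((x : ℝ) / y - ρ : ℝ) : ℂ) := by rw [hrρ]; push_cast; rfl
        rw [this, Complex.norm_real, Real.norm_eq_abs] at hxy
        exact hxy
    · -- a rational root
      obtain ⟨q, hq⟩ : ∃ q : ℚ, (q : ℝ) = ρ := by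
        rw [Irrational, not_not] at hirr; exact hirr
      refine ⟨K * q.den, fun x y hy hne hxy ↦ ?_⟩
      have hy' : (y : ℝ) ≠ 0 := by exact_mod_cast hy
      have hay : 0 < |(y : ℝ)| := abs_pos.2 hy'
      have hy1 : (1 : ℝ) ≤ |(y : ℝ)| := by
        rw [← Int.cast_abs]; exact_mod_cast Int.one_le_abs hy
      have hden : (0 : ℝ) < q.den := by exact_mod_cast q.den_pos
      have hqd : (q : ℝ) = q.num / q.den := by exact_mod_cast (Rat.num_div_den q).symm
      have h0 : (x : ℂ) / y - r = (((x : ℝ) / y - ρ : ℝ) : ℂ) := by rw [hrρ]; push_cast; rfl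
      have h1 : (x : ℝ) / y - ρ = ((x * q.den - q.num * y : ℤ) : ℝ) / (y * q.den) := by
        rw [← hq, hqd]; push_cast; field_simp
      have h2 : (x * q.den - q.num * y : ℤ) ≠ 0 := by
        intro h
        rw [h, Int.cast_zero, zero_div] at h1
        rw [h1, Complex.ofReal_zero, sub_eq_zero] at h0
        exact hne h0
      have h3 : 1 / (|(y : ℝ)| * q.den) ≤ ‖(x : ℂ) / y - r‖ := by
        rw [h0, Complex.norm_real, Real.norm_eq_abs, h1, abs_div, abs_mul, abs_of_pos hden]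
        refine div_le_div_of_nonneg_right ?_ (by positivity)
        rw [← Int.cast_abs]; exact_mod_cast Int.one_le_abs h2
      have h4 : 1 / (|(y : ℝ)| * q.den) * |(y : ℝ)| ^ f.natDegree ≤ K :=
        (mul_le_mul_of_nonneg_right h3 (by positivity)).trans hxy
      obtain ⟨e, he⟩ : ∃ e, f.natDegree = (e + 1) + 1 := ⟨f.natDegree - 2, by omega⟩
      rw [he, pow_succ] at h4
      have h5 : 1 / (|(y : ℝ)| * q.den) * (|(y : ℝ)| ^ (e + 1) * |(y : ℝ)|) =
          |(y : ℝ)| ^ (e + 1) / q.den := by field_simp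
      rw [h5, div_le_iff₀ hden] at h4
      exact (le_self_pow₀ hy1 (by omega)).trans h4
  · refine ⟨K / |r.im|, fun x y hy _ hxy ↦ ?_⟩
    have hi : 0 < |r.im| := abs_pos.2 him
    have hy1 : (1 : ℝ) ≤ |(y : ℝ)| := by
      rw [← Int.cast_abs]; exact_mod_cast Int.one_le_abs hy
    rw [le_div_iff₀ hi]
    have h1 : |r.im| ≤ ‖(x : ℂ) / y - r‖ := by
      have h2 := Complex.abs_im_le_norm ((x : ℂ) / y - r)
      have h3 : ((x : ℂ) / y - r).im = -r.im := by
        have : (x : ℂ) / y = (((x : ℝ) / y : ℝ) : ℂ) := by push_cast; rfl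
        rw [this, Complex.sub_im, Complex.ofReal_im, zero_sub]
      rwa [h3, abs_neg] at h2
    calc |(y : ℝ)| * |r.im| ≤ |(y : ℝ)| ^ f.natDegree * ‖(x : ℂ) / y - r‖ :=
          mul_le_mul (le_self_pow₀ hy1 (by omega)) h1 (abs_nonneg _) (by positivity)
      _ = ‖(x : ℂ) / y - r‖ * |(y : ℝ)| ^ f.natDegree := mul_comm _ _
      _ ≤ K := hxy

theorem thue_aux {f : ℤ[X]} (hf : (f.map (Int.castRingHom ℚ)).Separable)
    (hd : 3 ≤ f.natDegree) (k : ℤ) (H : ∀ x y : ℤ, y ≠ 0 → form f x y = k →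
      (f.map (Int.castRingHom ℂ)).eval ((x : ℂ) / y) ≠ 0) :
    {x : ℤ × ℤ | form f x.1 x.2 = k}.Finite := by
  have hfd : (f.map (Int.castRingHom ℂ)).natDegree = f.natDegree :=
    natDegree_map_eq_of_injective (Int.castRingHom ℂ).injective_int f
  have hsep : (f.map (Int.castRingHom ℂ)).Separable := by
    have h1 : f.map (Int.castRingHom ℂ) = (f.map (Int.castRingHom ℚ)).map (algebraMap ℚ ℂ) := by
      rw [Polynomial.map_map]; congr 1
    rw [h1]; exact hf.map
  obtain ⟨c, hc, hlow⟩ := exists_lower (by rw [hfd]; omega) hsep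
  set g := f.map (Int.castRingHom ℂ) with hg
  have hg0 : g ≠ 0 := by intro h; rw [h, natDegree_zero] at hfd; omega
  set S := g.roots.toFinset with hS
  have hSroot : ∀ r ∈ S, g.eval r = 0 := by
    intro r hr
    rw [hS, Multiset.mem_toFinset, mem_roots hg0] at hr
    exact hr
  set K : ℝ := |(k : ℝ)| / c with hK
  have hK0 : 0 ≤ K := by positivity
  choose! M hM using fun (r : ℂ) (hr : r ∈ S) ↦ root_bound hd (hSroot r hr) K
  set N : ℝ := ∑ r ∈ S, |M r| with hN
  set R : ℝ := ∑ r ∈ S, ‖r‖ with hR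
  have hN0 : 0 ≤ N := Finset.sum_nonneg fun _ _ ↦ abs_nonneg _
  have hR0 : 0 ≤ R := Finset.sum_nonneg fun _ _ ↦ norm_nonneg _
  set B : ℝ := N * (R + K) + |(k : ℝ)| + N with hB
  have hkey : ∀ x y : ℤ, form f x y = k → |(x : ℝ)| ≤ B ∧ |(y : ℝ)| ≤ B := by
    intro x y hxy
    by_cases hy : y = 0
    · subst hy
      have h1 : form f x 0 = f.coeff f.natDegree * x ^ f.natDegree := by
        rw [form, Finset.sum_eq_single f.natDegree]
        · simp
        · intro i hi hi'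
          rw [Finset.mem_range] at hi
          rw [zero_pow (by omega), mul_zero]
        · simp
      have hlc : f.coeff f.natDegree ≠ 0 := by
        rw [coeff_natDegree, leadingCoeff_ne_zero]
        rintro rfl; simp at hd
      have h2 : |x| ≤ |k| := by
        by_cases hx : x = 0
        · subst hx; simp
        · rw [← hxy, h1, abs_mul, abs_pow]
          have h3 : 1 ≤ |x| := Int.one_le_abs hx
          have h4 : 1 ≤ |f.coeff f.natDegree| := Int.one_le_abs hlc
          calc |x| ≤ |x| ^ f.natDegree := le_self_pow₀ h3 (by omega)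
            _ ≤ |f.coeff f.natDegree| * |x| ^ f.natDegree :=
                le_mul_of_one_le_left (by positivity) h4
      have h3 : |(x : ℝ)| ≤ |(k : ℝ)| := by exact_mod_cast h2
      have h4 : 0 ≤ N * (R + K) := by positivity
      refine ⟨by rw [hB]; linarith, ?_⟩
      rw [hB, Int.cast_zero, abs_zero]
      positivity
    · have hy' : (y : ℝ) ≠ 0 := by exact_mod_cast hy
      have hay : 0 < |(y : ℝ)| := abs_pos.2 hy'
      have hy1 : (1 : ℝ) ≤ |(y : ℝ)| := by
        rw [← Int.cast_abs]; exact_mod_cast Int.one_le_abs hy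
      obtain ⟨r, hr, hr2⟩ := hlow ((x : ℂ) / y)
      have h1 := form_eq f x hy
      rw [hxy, ← hg] at h1
      have h2 : |(k : ℝ)| = |(y : ℝ)| ^ f.natDegree * ‖g.eval ((x : ℂ) / y)‖ := by
        have := congrArg norm h1
        rwa [norm_mul, norm_pow, Complex.norm_intCast, Complex.norm_intCast] at this
      have h3 : ‖(x : ℂ) / y - r‖ * |(y : ℝ)| ^ f.natDegree ≤ K := by
        rw [hK, le_div_iff₀ hc, h2]
        calc ‖(x : ℂ) / y - r‖ * |(y : ℝ)| ^ f.natDegree * c =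
              |(y : ℝ)| ^ f.natDegree * (c * ‖(x : ℂ) / y - r‖) := by ring
          _ ≤ _ := mul_le_mul_of_nonneg_left hr2 (by positivity)
      have h4 : |(y : ℝ)| ≤ N := by
        refine (hM r hr x y hy ?_ h3).trans ((le_abs_self _).trans ?_)
        · intro h; exact H x y hy hxy (h ▸ hSroot r hr)
        · exact Finset.single_le_sum (f := fun r ↦ |M r|) (fun _ _ ↦ abs_nonneg _) hr
      have h5 : ‖(x : ℂ) / y - r‖ ≤ K :=
        (le_mul_of_one_le_right (norm_nonneg _) (one_le_pow₀ hy1)).trans h3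
      have h6 : ‖r‖ ≤ R := Finset.single_le_sum (f := fun r ↦ ‖r‖) (fun _ _ ↦ norm_nonneg _) hr
      have h7 : |(x : ℝ)| / |(y : ℝ)| ≤ R + K := by
        calc |(x : ℝ)| / |(y : ℝ)| = ‖(x : ℂ) / y‖ := by
              rw [norm_div, Complex.norm_intCast, Complex.norm_intCast]
          _ = ‖r + ((x : ℂ) / y - r)‖ := by congr 1; ring
          _ ≤ ‖r‖ + ‖(x : ℂ) / y - r‖ := norm_add_le _ _
          _ ≤ _ := add_le_add h6 h5
      rw [div_le_iff₀ hay] at h7
      have h8 : |(x : ℝ)| ≤ N * (R + K) := by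
        calc _ ≤ (R + K) * |(y : ℝ)| := h7
          _ ≤ (R + K) * N := mul_le_mul_of_nonneg_left h4 (by positivity)
          _ = _ := mul_comm _ _
      have h9 : 0 ≤ N * (R + K) := by positivity
      have h10 := abs_nonneg (k : ℝ)
      exact ⟨by rw [hB]; linarith, by rw [hB]; linarith⟩
  refine ((Set.finite_Icc (-⌈B⌉) ⌈B⌉).prod (Set.finite_Icc (-⌈B⌉) ⌈B⌉)).subset ?_
  rintro ⟨x, y⟩ hxy
  obtain ⟨h1, h2⟩ := hkey x y hxy
  have h3 : |(x : ℝ)| ≤ ⌈B⌉ := h1.trans (Int.le_ceil _)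
  have h4 : |(y : ℝ)| ≤ ⌈B⌉ := h2.trans (Int.le_ceil _)
  rw [← Int.cast_abs] at h3 h4
  have h5 : |x| ≤ ⌈B⌉ := by exact_mod_cast h3
  have h6 : |y| ≤ ⌈B⌉ := by exact_mod_cast h4
  exact ⟨abs_le.1 h5, abs_le.1 h6⟩

/-- **Thue's theorem** on binary forms: if `f` is irreducible over `ℚ` of degree `d ≥ 3`, then
`∑ fᵢ xⁱ y^(d-i) = k` has only finitely many integral solutions. -/
theorem thue_equation {f : ℤ[X]} (hf : Irreducible (f.map (Int.castRingHom ℚ)))
    (hd : 3 ≤ f.natDegree) (k : ℤ) : {x : ℤ × ℤ | form f x.1 x.2 = k}.Finite := by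
  refine thue_aux hf.separable hd k fun x y _ _ h ↦ ?_
  have h1 : f.map (Int.castRingHom ℂ) = (f.map (Int.castRingHom ℚ)).map (algebraMap ℚ ℂ) := by
    rw [Polynomial.map_map]; congr 1
  have h2 : (x : ℂ) / y = algebraMap ℚ ℂ ((x : ℚ) / y) := by simp
  rw [h1, h2, eval_map, eval₂_at_apply, map_eq_zero] at h
  have h3 : (f.map (Int.castRingHom ℚ)).natDegree = 1 :=
    natDegree_eq_of_degree_eq_some (degree_eq_one_of_irreducible_of_root hf h)
  rw [natDegree_map_eq_of_injective (Int.castRingHom ℚ).injective_int] at h3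
  omega

/-- **Thue's theorem** on binary forms, the general case: if `f` is separable over `ℚ` of degree
`d ≥ 3` and `k ≠ 0`, then `∑ fᵢ xⁱ y^(d-i) = k` has only finitely many integral solutions. -/
theorem thue_equation' {f : ℤ[X]} (hf : (f.map (Int.castRingHom ℚ)).Separable)
    (hd : 3 ≤ f.natDegree) {k : ℤ} (hk : k ≠ 0) : {x : ℤ × ℤ | form f x.1 x.2 = k}.Finite := by
  refine thue_aux hf hd k fun x y hy hxy h ↦ ?_
  have h1 := form_eq f x hy
  rw [hxy, h, mul_zero] at h1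
  exact hk (by exact_mod_cast h1)

/-- For `n ≥ 3` and `a, b, c ≠ 0` the equation `a xⁿ + b yⁿ = c` has only finitely many solutions
in integers. -/
theorem finite_axn_add_byn {a b c : ℤ} (ha : a ≠ 0) (hb : b ≠ 0) (hc : c ≠ 0) {n : ℕ}
    (hn : 3 ≤ n) : {x : ℤ × ℤ | a * x.1 ^ n + b * x.2 ^ n = c}.Finite := by
  set f : ℤ[X] := C a * X ^ n + C b with hf
  have hcoeff : ∀ i, f.coeff i = (if i = n then a else 0) + (if i = 0 then b else 0) := by
    intro i
    rw [hf, coeff_add, coeff_C_mul_X_pow, coeff_C]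
  have hfd : f.natDegree = n := by
    rw [hf, natDegree_add_C, natDegree_C_mul_X_pow n a ha]
  have hsep : (f.map (Int.castRingHom ℚ)).Separable := by
    have hfm : f.map (Int.castRingHom ℚ) = C (a : ℚ) * X ^ n + C (b : ℚ) := by
      rw [hf]; simp
    have haQ : (a : ℚ) ≠ 0 := by exact_mod_cast ha
    have hbQ : (b : ℚ) ≠ 0 := by exact_mod_cast hb
    have hnQ : (n : ℚ) ≠ 0 := by exact_mod_cast (show n ≠ 0 by omega)
    rw [hfm, separable_def']
    refine ⟨C (b : ℚ)⁻¹, -(C ((b : ℚ)⁻¹ * (n : ℚ)⁻¹) * X), ?_⟩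
    obtain ⟨e, rfl⟩ : ∃ e, n = e + 1 := ⟨n - 1, by omega⟩
    rw [derivative_add, derivative_C, derivative_C_mul_X_pow, add_zero, Nat.add_sub_cancel]
    have e1 : (C (b : ℚ)⁻¹ : ℚ[X]) * C (b : ℚ) = 1 := by rw [← C_mul, inv_mul_cancel₀ hbQ, C_1]
    have e2 : (C ((b : ℚ)⁻¹ * ((e + 1 : ℕ) : ℚ)⁻¹) : ℚ[X]) * C ((a : ℚ) * ((e + 1 : ℕ) : ℚ)) =
        C (b : ℚ)⁻¹ * C (a : ℚ) := by
      rw [← C_mul, ← C_mul]; congr 1; field_simp
    calc _ = C (b : ℚ)⁻¹ * C (a : ℚ) * X ^ (e + 1) + C (b : ℚ)⁻¹ * C (b : ℚ) -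
          (C ((b : ℚ)⁻¹ * ((e + 1 : ℕ) : ℚ)⁻¹) * C ((a : ℚ) * ((e + 1 : ℕ) : ℚ))) *
            X ^ (e + 1) := by ring
      _ = 1 := by rw [e1, e2]; ring
  have h := thue_equation' hsep (by rw [hfd]; exact hn) hc
  refine h.subset ?_
  rintro ⟨x, y⟩ hxy
  simp only [Set.mem_ofPred_eq] at hxy ⊢
  rw [form, hfd, ← hxy]
  have : ∀ i ∈ Finset.range (n + 1), f.coeff i * x ^ i * y ^ (n - i) =
      (if i = n then a * x ^ n else 0) + (if i = 0 then b * y ^ n else 0) := by
    intro i _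
    rw [hcoeff]
    by_cases h1 : i = n
    · subst h1
      rw [if_pos rfl, if_neg (by omega), if_pos rfl, if_neg (by omega)]; simp
    · rw [if_neg h1, if_neg h1]
      by_cases h2 : i = 0
      · subst h2; simp
      · rw [if_neg h2, if_neg h2]; ring
  rw [Finset.sum_congr rfl this, Finset.sum_add_distrib, Finset.sum_ite_eq', Finset.sum_ite_eq',
    if_pos (by simp), if_pos (by simp)]

/-- For example, `x³ - 2y³ = c` has only finitely many integral solutions (`c` arbitrary). -/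
theorem finite_xn_sub_pyn {p n : ℕ} (hp : p.Prime) (hn : 3 ≤ n) (c : ℤ) :
    {x : ℤ × ℤ | x.1 ^ n - p * x.2 ^ n = c}.Finite := by
  rcases eq_or_ne c 0 with rfl | hc
  · -- only `(0, 0)`
    refine (Set.finite_singleton ((0, 0) : ℤ × ℤ)).subset ?_
    rintro ⟨x, y⟩ hxy
    simp only [Set.mem_ofPred_eq, sub_eq_zero] at hxy
    by_contra hne
    have hy : y ≠ 0 := by
      rintro rfl
      rw [zero_pow (by omega), mul_zero] at hxy
      exact hne (by rw [eq_zero_of_pow_eq_zero hxy]; rfl)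
    have h1 : ((p : ℕ) : ℚ) = ((x : ℚ) / y) ^ n := by
      have hy' : (y : ℚ) ≠ 0 := by exact_mod_cast hy
      rw [div_pow, eq_div_iff (pow_ne_zero _ hy')]
      exact_mod_cast hxy.symm
    have h2 : IsIntegral ℤ ((x : ℚ) / y) := by
      refine IsIntegral.of_pow (n := n) (by omega) ?_
      rw [← h1]
      exact isIntegral_algebraMap (R := ℤ) (x := (p : ℤ)) |> fun h ↦ by simpa using h
    obtain ⟨z, hz⟩ := IsIntegrallyClosed.isIntegral_iff.1 h2
    rw [← hz, eq_intCast] at h1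
    have h3 : (p : ℤ) = z ^ n := by exact_mod_cast h1
    have h4 : p = z.natAbs ^ n := by
      rw [← Int.natAbs_pow, ← h3, Int.natAbs_natCast]
    rw [h4] at hp
    exact Nat.Prime.not_prime_pow (by omega) hp
  · have h := finite_axn_add_byn (a := 1) (b := -(p : ℤ)) one_ne_zero
      (neg_ne_zero.2 (by exact_mod_cast hp.ne_zero)) hc hn
    refine h.subset ?_
    rintro ⟨x, y⟩ hxy
    simp only [Set.mem_ofPred_eq] at hxy ⊢
    rw [← hxy]; ring

end Fermat.Agent.Cor.Thue
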