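import Mathlib
import Fermat.Agent.Cor.TorsionStr
import Fermat.Agent.FF.C16
import Fermat.Agent.RR.Genus
import Fermat.Agent.H20.Torsion

/-!
# The structure of torsion groups

* `pic0_torsion`: for a function field `F` of genus `g` over an algebraically closed field of characteristic zero,
  `Pic⁰(F)[n] ≅ (ℤ/n)^{2g}`;
* `jZero_torsion`: `J₀(N)(ℚ̄)[n] ≅ (ℤ/n)^{2 dim S₂(Γ₀(N))}`;
* `abelian_torsion`: the points of order dividing `n` of an abelian scheme of relative dimension `g` over an
  algebraically closed field form a group isomorphic to `(ℤ/n)^{2g}` if `n` is invertible;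
* `pic0_complex`: for a complex function field `F` of genus `g`, `Pic⁰(F) ≅ (ℝ/ℤ)^{2g}`.

This file is not used by any of the statement files.
-/

set_option autoImplicit false

noncomputable section

universe u

namespace Fermat.Agent.Cor.Tors

section Curve

open AlgebraicCurve

/-- **`Pic⁰(F)[n] ≅ (ℤ/n)^{2g}`** -/
theorem pic0_torsion_funField (K F : Type*) [Field K] [Field F] [Algebra K F] [IsAlgClosed K]
    [CharZero K] [Fermat.Agent.FF.FunField K F] {n : ℕ} (hn : n ≠ 0) :
    Nonempty (Pic0.torsion K F n ≃+ (Fin (2 * genusFF K F) → ZMod n)) := by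
  refine nonempty_equiv_ker (A := Pic0 K F) hn (fun d hd => ?_) _ fun x => ?_
  · rw [← Fermat.Agent.FF.card_torsion K F d (Nat.pos_of_dvd_of_pos hd (Nat.pos_of_ne_zero hn))]
    refine Nat.card_congr (Equiv.subtypeEquivRight fun x => ?_)
    rw [Pic0.mem_torsion, natCast_zsmul]
  · rw [Pic0.mem_torsion, natCast_zsmul]

/-- **`Pic⁰(F)[n] ≅ (ℤ/n)^{2g}`** for a curve over an algebraically closed field of characteristic zero -/
theorem pic0_torsion (K F : Type*) [Field K] [Field F] [Algebra K F] [IsAlgClosed K]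
    [CharZero K] [IsCurveOver K F] [Algebra.EssFiniteType K F] {n : ℕ} (hn : n ≠ 0) :
    Nonempty (Pic0.torsion K F n ≃+ (Fin (2 * genusFF K F) → ZMod n)) := by
  have hF : Fermat.Agent.FF.FunField K F := Fermat.Agent.FF.funField_of_isCurveOver
  exact pic0_torsion_funField K F hn

end Curve

section Modular

open AlgebraicCurve ModularCurve CongruenceSubgroup

/-- **`J₀(N)(ℚ̄)[n] ≅ (ℤ/n)^{2 dim S₂(Γ₀(N))}`** -/
theorem jZero_torsion (N : ℕ) [NeZero N] {n : ℕ} (hn : n ≠ 0) :
    Nonempty (Pic0.torsion (AlgebraicClosure ℚ) (modularFunctionFieldBar N) n ≃+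
      (Fin (2 * Module.finrank ℂ (CuspForm (Gamma0 N) 2)) → ZMod n)) := by
  rw [← Fermat.Agent.RR.genusFF_bar_eq_finrank N]
  exact pic0_torsion_funField _ _ hn

/-- `J₀(N)(ℚ̄)[n] ≅ (ℤ/n)^{2g}`, `g` the number given by the classical genus formula -/
theorem jZero_torsion_genusFormula (N : ℕ) [NeZero N] {n : ℕ} (hn : n ≠ 0) {g : ℕ}
    (hg : (g : ℚ) = genusFormula N) :
    Nonempty (Pic0.torsion (AlgebraicClosure ℚ) (modularFunctionFieldBar N) n ≃+
      (Fin (2 * g) → ZMod n)) := by
  have h : genusFF (AlgebraicClosure ℚ) (modularFunctionFieldBar N) = g := by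
    have := Fermat.Agent.RR.genusFF_bar N
    rw [← hg] at this
    exact_mod_cast this
  rw [← h]
  exact pic0_torsion_funField _ _ hn

end Modular

section Abelian

open CategoryTheory CategoryTheory.Limits AlgebraicGeometry NeronModelInfra GoodReductionJacobian

/-- the points over `t` of a commutative group scheme, as a group -/
def Pts {K : Type u} [CommRing K] {A : Scheme.{u}} {f : A ⟶ Spec (CommRingCat.of K)}
    (L : RelativeGroupLaw K f) (_hc : L.IsCommutative) {T : Scheme.{u}}
    (t : T ⟶ Spec (CommRingCat.of K)) : Type u :=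
  SchemeHomOver t f

section

variable {K : Type u} [CommRing K] {A : Scheme.{u}} {f : A ⟶ Spec (CommRingCat.of K)}
    (L : RelativeGroupLaw K f) (hc : L.IsCommutative) {T : Scheme.{u}}
    (t : T ⟶ Spec (CommRingCat.of K))

instance : Add (Pts L hc t) := ⟨L.mul t⟩
instance : Zero (Pts L hc t) := ⟨L.one t⟩
instance : Neg (Pts L hc t) := ⟨L.inv t⟩

instance : AddCommGroup (Pts L hc t) where
  add_assoc := L.mul_assoc t
  zero_add := L.one_mul t
  add_zero := L.mul_one t
  neg_add_cancel := L.inv_mul_cancel t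
  add_comm := hc t
  nsmul := nsmulRec
  zsmul := zsmulRec

theorem nsmul_eq_zero_iff (n : ℕ) (x : Pts L hc t) : n • x = 0 ↔ L.IsTorsionPoint t n x := by
  have h : ∀ d : ℕ, d • x = L.nsmul t d x := by
    intro d
    induction d with
    | zero => rw [zero_smul]; rfl
    | succ d ih =>
      rw [succ_nsmul, ih]
      rfl
  rw [h]
  rfl

end

/-- **`A[n] ≅ (ℤ/n)^{2g}`** for an abelian scheme `A` of relative dimension `g` over an algebraically closed field in
which `n` is invertible. -/
theorem abelian_torsion_equiv (K : Type u) [Field K] [IsAlgClosed K] {A : Scheme.{u}}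
    (f : A ⟶ Spec (CommRingCat.of K)) (L : RelativeGroupLaw K f) (hc : L.IsCommutative)
    (hA : AbelianSchemePropertyBundle K f) (g : ℕ) [SmoothOfRelativeDimension g f] (n : ℕ)
    (hn : (n : K) ≠ 0) :
    Nonempty ((nsmulAddMonoidHom n : Pts L hc (𝟙 (Spec (CommRingCat.of K))) →+
      Pts L hc (𝟙 (Spec (CommRingCat.of K)))).ker ≃+ (Fin (2 * g) → ZMod n)) := by
  have hn0 : n ≠ 0 := by
    rintro rfl
    exact hn Nat.cast_zero
  refine nonempty_equiv_ker hn0 (fun d hd => ?_) _ fun x => Iff.rfl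
  have hd' : (d : K) ≠ 0 := by
    rintro h
    obtain ⟨c, rfl⟩ := hd
    exact hn (by rw [Nat.cast_mul, h, zero_mul])
  have h := @Fermat.Agent.H20.card_torsion K _ _ A ⟨f⟩ L hc hA g ‹_› d hd'
  exact (Nat.card_congr (Equiv.subtypeEquivRight fun x => nsmul_eq_zero_iff L hc _ d x)).trans h

/-- **`A[n] ≅ (ℤ/n)^{2g}`**, in terms of the group law: there is an injective map from `(ℤ/n)^{2g}` to `A(K)`, with
image the points of order dividing `n`, which transforms addition to the group law of `A`. -/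
theorem abelian_torsion (K : Type u) [Field K] [IsAlgClosed K] {A : Scheme.{u}}
    (f : A ⟶ Spec (CommRingCat.of K)) (L : RelativeGroupLaw K f) (hc : L.IsCommutative)
    (hA : AbelianSchemePropertyBundle K f) (g : ℕ) [SmoothOfRelativeDimension g f] (n : ℕ)
    (hn : (n : K) ≠ 0) :
    ∃ e : (Fin (2 * g) → ZMod n) → SchemeHomOver (𝟙 (Spec (CommRingCat.of K))) f,
      Function.Injective e ∧
      Set.range e = {x | L.IsTorsionPoint (𝟙 (Spec (CommRingCat.of K))) n x} ∧
      ∀ a b, e (a + b) = L.mul (𝟙 (Spec (CommRingCat.of K))) (e a) (e b) := by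
  obtain ⟨e⟩ := abelian_torsion_equiv K f L hc hA g n hn
  have hmem : ∀ x : Pts L hc (𝟙 (Spec (CommRingCat.of K))),
      x ∈ (nsmulAddMonoidHom n : Pts L hc (𝟙 (Spec (CommRingCat.of K))) →+
        Pts L hc (𝟙 (Spec (CommRingCat.of K)))).ker ↔
      L.IsTorsionPoint (𝟙 (Spec (CommRingCat.of K))) n x := fun x =>
    nsmul_eq_zero_iff L hc _ n x
  refine ⟨fun a => (e.symm a).1, fun a b hab => e.symm.injective (Subtype.ext hab), ?_,
    fun a b => ?_⟩
  · ext x
    constructor
    · rintro ⟨a, rfl⟩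
      exact (hmem _).mp (e.symm a).2
    · intro hx
      exact ⟨e ⟨x, (hmem x).mpr hx⟩, congrArg Subtype.val (e.symm_apply_apply ⟨x, (hmem x).mpr hx⟩)⟩
  · exact congrArg Subtype.val (map_add e.symm a b)

end Abelian

section Complex

open AlgebraicCurve Filter Topology Metric

/-- A uniformised group is a torus. -/
theorem nonempty_equiv_addCircle {E G : Type*} [NormedAddCommGroup E] [NormedSpace ℝ E]
    [FiniteDimensional ℝ E] [AddCommGroup G] (Φ : E →+ G)
    (hdisc : ∀ᶠ h in 𝓝 (0 : E), Φ h = 0 → h = 0)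
    (M : ℝ) (hM : ∀ ξ, ∃ h, ‖h‖ ≤ M ∧ Φ h = ξ) :
    Nonempty (G ≃+ (Fin (Module.finrank ℝ E) → UnitAddCircle)) := by
  classical
  set L : Submodule ℤ E := AddSubgroup.toIntSubmodule Φ.ker with hL
  have hmem : ∀ x : E, x ∈ L ↔ Φ x = 0 := fun x => Iff.rfl
  have hdt : DiscreteTopology L := by
    apply discreteTopology_of_isOpen_singleton_zero
    obtain ⟨ε, hε, h⟩ := Metric.eventually_nhds_iff_ball.mp hdisc
    have h1 : ({0} : Set L) = (fun x : L => (x : E)) ⁻¹' ball 0 ε := by
      ext x
      constructor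
      · rintro rfl
        simpa using hε
      · intro hx
        have := h x hx ((hmem _).mp x.2)
        exact Subtype.ext this
    rw [h1]
    exact isOpen_ball.preimage continuous_subtype_val
  have hlat : IsZLattice ℝ L := by
    constructor
    by_contra hne
    obtain ⟨f, hf0, hf⟩ := Submodule.exists_le_ker_of_lt_top _ (lt_top_iff_ne_top.mpr hne)
    obtain ⟨x0, hx0⟩ : ∃ x0, f x0 ≠ 0 := by
      by_contra hcon
      push Not at hcon
      exact hf0 (LinearMap.ext hcon)
    set F := LinearMap.toContinuousLinearMap f with hF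
    have hbd : ∀ m : ℕ, (m : ℝ) * ‖f x0‖ ≤ ‖F‖ * M := by
      intro m
      obtain ⟨h, hh, hΦ⟩ := hM (Φ ((m : ℝ) • x0))
      have h1 : (m : ℝ) • x0 - h ∈ L := by
        rw [hmem, map_sub, hΦ, sub_self]
      have h2 : f ((m : ℝ) • x0 - h) = 0 := hf (Submodule.subset_span h1)
      rw [map_sub, map_smul, sub_eq_zero] at h2
      calc (m : ℝ) * ‖f x0‖ = ‖(m : ℝ) • f x0‖ := by
            rw [norm_smul, Real.norm_natCast]
        _ = ‖F h‖ := by rw [h2]; rfl
        _ ≤ ‖F‖ * ‖h‖ := F.le_opNorm h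
        _ ≤ ‖F‖ * M := by gcongr
    obtain ⟨m, hm⟩ := exists_nat_gt (‖F‖ * M / ‖f x0‖)
    rw [div_lt_iff₀ (norm_pos_iff.mpr hx0)] at hm
    exact absurd (hbd m) (not_le.mpr hm)
  have hfin : Module.Finite ℤ L := ZLattice.module_finite ℝ L
  have hfree : Module.Free ℤ L := ZLattice.module_free ℝ L
  have hrank : Module.finrank ℤ L = Module.finrank ℝ E := ZLattice.rank ℝ L
  let b := Module.finBasisOfFinrankEq ℤ L hrank
  let c := b.ofZLatticeBasis ℝ L
  -- the coordinates modulo `ℤ`
  let ψ : E →+ (Fin (Module.finrank ℝ E) → UnitAddCircle) :=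
    { toFun := fun x i => ((c.repr x i : ℝ) : UnitAddCircle)
      map_zero' := by funext i; simp
      map_add' := by
        intro x y
        funext i
        simp }
  have hψs : Function.Surjective ψ := by
    intro d
    choose s hs using fun i => QuotientAddGroup.mk_surjective (d i)
    refine ⟨c.equivFun.symm s, ?_⟩
    funext i
    change ((c.repr (c.equivFun.symm s) i : ℝ) : UnitAddCircle) = d i
    rw [← Module.Basis.equivFun_apply, LinearEquiv.apply_symm_apply]
    exact hs i
  have hψk : ψ.ker = Φ.ker := by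
    ext x
    rw [AddMonoidHom.mem_ker, ← show x ∈ L ↔ x ∈ Φ.ker from Iff.rfl]
    constructor
    · intro h
      have h1 : ∀ i, ∃ m : ℤ, (m : ℝ) = c.repr x i := by
        intro i
        have h2 : ((c.repr x i : ℝ) : UnitAddCircle) = 0 := congrFun h i
        rw [AddCircle.coe_eq_zero_iff] at h2
        obtain ⟨m, hm⟩ := h2
        exact ⟨m, by rw [← hm]; simp⟩
      choose m hm using h1
      have h3 : x = ∑ i, m i • (b i : E) := by
        conv_lhs => rw [← c.sum_repr x]
        refine Finset.sum_congr rfl fun i _ => ?_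
        rw [← hm, Module.Basis.ofZLatticeBasis_apply, Int.cast_smul_eq_zsmul]
      rw [h3]
      exact Submodule.sum_mem _ fun i _ => Submodule.smul_mem _ _ (b i).2
    · intro hx
      funext i
      change ((c.repr x i : ℝ) : UnitAddCircle) = 0
      have h4 : c.repr x i = ((b.repr ⟨x, hx⟩ i : ℤ) : ℝ) :=
        Module.Basis.ofZLatticeBasis_repr_apply ℝ L b ⟨x, hx⟩ i
      rw [h4, AddCircle.coe_eq_zero_iff]
      exact ⟨b.repr ⟨x, hx⟩ i, by simp⟩
  have hΦs : Function.Surjective Φ := fun ξ => (hM ξ).imp fun _ h => h.2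
  have e1 := QuotientAddGroup.quotientKerEquivOfSurjective Φ hΦs
  have e2 := QuotientAddGroup.quotientKerEquivOfSurjective ψ hψs
  exact ⟨e1.symm.trans ((QuotientAddGroup.quotientAddEquivOfEq hψk.symm).trans e2)⟩

/-- **`Pic⁰(F) ≅ (ℝ/ℤ)^{2g}`** for a complex function field `F` of genus `g` -/
theorem pic0_complex_funField (F : Type*) [Field F] [Algebra ℂ F] [Fermat.Agent.FF.FunField ℂ F] :
    Nonempty (Pic0 ℂ F ≃+ (Fin (2 * genusFF ℂ F) → UnitAddCircle)) := by
  obtain ⟨Φ, hΦ, M, hM⟩ := Fermat.Agent.FF.exists_uniformization (F := F)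
  have h := nonempty_equiv_addCircle Φ hΦ M hM
  have h1 : Module.finrank ℝ (Fin (genusFF ℂ F) → ℂ) = 2 * genusFF ℂ F := by
    rw [Module.finrank_pi_fintype]
    simp [Complex.finrank_real_complex]
    ring
  rwa [h1] at h

/-- **`Pic⁰(F) ≅ (ℝ/ℤ)^{2g}`** for the function field `F` of a complex curve of genus `g` -/
theorem pic0_complex (F : Type*) [Field F] [Algebra ℂ F] [IsCurveOver ℂ F]
    [Algebra.EssFiniteType ℂ F] :
    Nonempty (Pic0 ℂ F ≃+ (Fin (2 * genusFF ℂ F) → UnitAddCircle)) := by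
  have hF : Fermat.Agent.FF.FunField ℂ F := Fermat.Agent.FF.funField_of_isCurveOver
  exact pic0_complex_funField F

end Complex

end Fermat.Agent.Cor.Tors
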