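import Fermat.Agent.Cor.NewW
import Fermat.Agent.H25.GeoPf

/-!
# The trace of Frobenius at a prime `q ∥ N` is `(q + 1) a_q`
-/

set_option autoImplicit false
set_option linter.style.haveILetI false
set_option linter.unusedSectionVars false
set_option maxSynthPendingDepth 3

noncomputable section

open AlgebraicCurve ModularCurve CongruenceSubgroup

namespace Fermat.Agent.Cor.Bad

open Fermat.Agent.H05 Fermat.Agent.H26

local notation "Qb" => AlgebraicClosure ℚ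
local notation "Γℚ" => AlgebraicClosure ℚ ≃ₐ[ℚ] AlgebraicClosure ℚ

section Incl

variable {N : ℕ} [NeZero N] {S S' : Set ℕ}

variable (N) in
/-- the inclusion of Hecke algebras -/
def incS (h : S' ⊆ S) : CuspForm.heckeAlgebra N 2 S →+* CuspForm.heckeAlgebra N 2 S' :=
  (Subalgebra.inclusion (CuspForm.heckeAlgebra_mono h)).toRingHom

theorem incS_T (h : S' ⊆ S) {ℓ : ℕ} (hℓ : ℓ.Prime) (hℓN : ¬ ℓ ∣ N) (hℓS : ℓ ∉ S) :
    incS N h (CuspForm.heckeAlgebra.T hℓ hℓN hℓS) =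
      CuspForm.heckeAlgebra.T hℓ hℓN (fun h' => hℓS (h h')) := rfl

theorem coe_incS (h : S' ⊆ S) (x : CuspForm.heckeAlgebra N 2 S) :
    ((incS N h x : CuspForm.heckeAlgebra N 2 S') : Module.End ℂ (CuspForm (Gamma0 N) 2)) = x :=
  Subalgebra.coe_inclusion (CuspForm.heckeAlgebra_mono h) x

theorem awayIncl_incS (h : S' ⊆ S) (x : CuspForm.heckeAlgebra N 2 S) :
    H22.awayIncl N S' (incS N h x) = H22.awayIncl N S x := by
  apply Subtype.ext
  rw [H22.coe_awayIncl, H22.coe_awayIncl, coe_incS]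

theorem formsPartActAway_incS {W : Type} [AddCommGroup W] (ρ : HeckeAlg →+* Module.End ℤ W)
    (h : S' ⊆ S) (x : CuspForm.heckeAlgebra N 2 S) :
    H22.formsPartActAway N ρ S' (incS N h x) = H22.formsPartActAway N ρ S x := by
  unfold H22.formsPartActAway
  rw [RingHom.comp_apply, RingHom.comp_apply, awayIncl_incS]

theorem formsPartActAway_U {W : Type} [AddCommGroup W] (ρ : HeckeAlg →+* Module.End ℤ W)
    {q : ℕ} (hq : q.Prime) (hqN : q ∣ N) (hqS : q ∉ S) (w : H22.formsPart N ρ) :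
    ((H22.formsPartActAway N ρ S (CuspForm.heckeAlgebra.U hq hqN hqS) w :
      H22.formsPart N ρ) : W) = ρ (heckeGen ⟨q, hq⟩) w := by
  apply H22.formsPartActAway_apply
  rw [CuspForm.heckeEvalForms_heckeGen_of_dvd (q := ⟨q, hq⟩) hqN]
  rfl

end Incl

/-- algebra: a Hecke operator acting as `φ + q φ⁻¹` is `(q + 1) U_q` -/
theorem act_eq_zero {B W : Type*} [CommRing B] [AddCommGroup W] (act : B →+* Module.End ℤ W)
    (r : Γℚ →* Module.End ℤ W) (φ : Γℚ) (q : ℕ) (s U : B)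
    (hs : ∀ w, act s w = r φ w + q • r φ⁻¹ w)
    (hU : ∀ w, r φ (r φ w) + q • w = (q + 1) • act U (r φ w)) :
    act (s - (q + 1) * U) = 0 := by
  ext w
  have hinv : ∀ w, r φ (r φ⁻¹ w) = w := by
    intro w
    have : r φ * r φ⁻¹ = 1 := by rw [← map_mul, mul_inv_cancel, map_one]
    exact LinearMap.congr_fun this w
  have hinv' : ∀ w, r φ⁻¹ (r φ w) = w := by
    intro w
    have : r φ⁻¹ * r φ = 1 := by rw [← map_mul, inv_mul_cancel, map_one]
    exact LinearMap.congr_fun this w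
  obtain ⟨w', rfl⟩ : ∃ w', w = r φ w' := ⟨r φ⁻¹ w, by rw [hinv]⟩
  have h1 : act (((q : B) + 1) * U) (r φ w') = (q + 1) • act U (r φ w') := by
    have : ((q : B) + 1) = ((q + 1 : ℕ) : B) := by push_cast; rfl
    rw [this, map_mul, map_natCast, Module.End.mul_apply, Module.End.natCast_apply]
  rw [map_sub, LinearMap.sub_apply, hs, hinv', h1, hU, sub_self, LinearMap.zero_apply]

/-- congruences for exponents -/
theorem exponent_congr {p : ℕ} (hp : p.Prime) {K : ℕ} {ζ : Qb} (hζ : IsPrimitiveRoot ζ (p ^ K))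
    {c q : ℕ} (h : ζ ^ c = ζ ^ q) : ∃ d : ℤ, (c : ℤ) - q = (p ^ K : ℕ) * d := by
  have hζ0 : ζ ≠ 0 := hζ.ne_zero (pow_pos hp.pos _).ne'
  have : ((p ^ K : ℕ) : ℤ) ∣ (c : ℤ) - q := by
    rw [← hζ.zpow_eq_one_iff_dvd, zpow_sub₀ hζ0, zpow_natCast, zpow_natCast, h,
      div_self (pow_ne_zero _ hζ0)]
  obtain ⟨d, hd⟩ := this
  exact ⟨d, hd⟩

/-- the geometric input at `q ∥ N` with the operator `U_q` -/
def NewInputU (p N : ℕ) [NeZero N] (S : Set ℕ) (q : ℕ) {T : Type} [CommRing T] [IsLocalRing T]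
    (U : CuspForm.heckeAlgebra N 2 S) (π : CuspForm.heckeAlgebra N 2 S →+* T) : Prop :=
  ∀ n : ℕ, ∃ (W : Type) (_ : AddCommGroup W)
    (act : CuspForm.heckeAlgebra N 2 S →+* Module.End ℤ W) (r : Γℚ →* Module.End ℤ W) (m : ℕ),
    (∀ w : W, (p ^ m) • w = 0) ∧
    GaloisFactorsThroughFiniteLevel r ∧
    (∀ t : CuspForm.heckeAlgebra N 2 S, act t = 0 → π t ∈ IsLocalRing.maximalIdeal T ^ n) ∧
    (∀ (ℓ : ℕ) (hℓ : ℓ.Prime) (hℓN : ¬ ℓ ∣ N) (hℓS : ℓ ∉ S), ℓ ≠ p →
      ∀ A : ValuationSubring (AlgebraicClosure ℚ), A.LiesOverPrime ℓ →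
      ∀ φ : Γℚ, A.IsFrobeniusAt φ ℓ → ∀ w : W,
        r φ (r φ w) - act (CuspForm.heckeAlgebra.T hℓ hℓN hℓS) (r φ w) + ℓ • w = 0) ∧
    (∀ A : ValuationSubring (AlgebraicClosure ℚ), A.LiesOverPrime q →
      ∀ φ : Γℚ, A.IsFrobeniusAt φ q → ∀ w : W,
        r φ (r φ w) + q • w = (q + 1) • act U (r φ w))

/-- **The trace of Frobenius from the geometric input.** -/
theorem trace_of_input {p N : ℕ} [NeZero N] (hp : p.Prime)
    {S : Finset ℕ} {S' : Set ℕ} (hSS : S' ⊆ (↑S : Set ℕ)) (hpS : p ∈ S)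
    (hNS : ∀ q : ℕ, q.Prime → q ∣ N → q ∈ S)
    {T : Type} [CommRing T] [IsDomain T] [IsLocalRing T]
    [IsHausdorff (IsLocalRing.maximalIdeal T) T]
    (ρ : GaloisRepAdic T)
    (π : CuspForm.heckeAlgebra N 2 S' →+* T)
    (hfrob : ∀ (ℓ : ℕ) (hℓ : ℓ.Prime) (hℓN : ¬ ℓ ∣ N) (hℓS : ℓ ∉ (↑S : Set ℕ)),
      ∀ A : ValuationSubring (AlgebraicClosure ℚ), A.LiesOverPrime ℓ →
        ∀ σ : Γℚ, A.IsFrobeniusAt σ ℓ → LinearMap.charpoly (ρ.ρ σ) =
          Polynomial.X ^ 2 - Polynomial.C (π (CuspForm.heckeAlgebra.T hℓ hℓN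
            (fun h => hℓS (hSS h)))) * Polynomial.X + Polynomial.C ((ℓ : T)))
    (q : ℕ) (hq : q.Prime) (hqp : q ≠ p) (U : CuspForm.heckeAlgebra N 2 S')
    (hinput : NewInputU p N S' q U π)
    (A : ValuationSubring (AlgebraicClosure ℚ)) (hA : A.LiesOverPrime q)
    (φ : Γℚ) (hφ : A.IsFrobeniusAt φ q) :
    LinearMap.trace T ρ.V (ρ.ρ φ) = (q + 1) * π U := by
  rw [← sub_eq_zero]
  apply IsHausdorff.haus (inferInstance : IsHausdorff (IsLocalRing.maximalIdeal T) T)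
  intro n
  rw [SModEq.zero, smul_eq_mul, Ideal.mul_top]
  obtain ⟨W, instW, act, r, m, hW, hr, hfaith, hES, hnew⟩ := hinput n
  have hprim : ∃ ζ : AlgebraicClosure ℚ, IsPrimitiveRoot ζ (p ^ (m + n)) := by
    haveI : NeZero ((p ^ (m + n) : ℕ) : AlgebraicClosure ℚ) :=
      ⟨by exact_mod_cast (pow_pos hp.pos (m + n)).ne'⟩
    exact HasEnoughRootsOfUnity.exists_primitiveRoot (AlgebraicClosure ℚ) (p ^ (m + n))
  obtain ⟨ζ, hζ⟩ := hprim
  obtain ⟨s, c, hs1, -, hs3, hs4⟩ := exists_hecke_trace_det H25.weakChebotarev hp hpS hNS ρ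
    (π.comp (incS N hSS)) hfrob (act.comp (incS N hSS)) r hr
    (fun ℓ hℓ hℓN hℓS hℓp A hA φ hφ w =>
      hES ℓ hℓ hℓN (fun h => hℓS (hSS h)) hℓp A hA φ hφ w) n (m + n) ζ hζ.pow_eq_one φ
  have hφζ : φ ζ = ζ ^ q := IsFrobeniusAt.apply_rootOfUnity hq hA
    (fun h => hqp ((Nat.prime_dvd_prime_iff_eq hq hp).mp (hq.dvd_of_dvd_pow h))) hφ
    hζ.pow_eq_one
  obtain ⟨d, hd⟩ := exponent_congr hp hζ (hs4.symm.trans hφζ)
  have hs3' : ∀ w, act (incS N hSS s) w = r φ w + q • r φ⁻¹ w := by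
    intro w
    have h0 := hs3 w
    rw [RingHom.comp_apply] at h0
    rw [h0]
    congr 1
    have : (c : ℤ) • r φ⁻¹ w = (q : ℤ) • r φ⁻¹ w := by
      have h2 : (c : ℤ) = q + (p ^ (m + n) : ℕ) * d := by omega
      rw [h2, add_smul, mul_comm _ d, mul_smul, natCast_zsmul _ (p ^ (m + n)), pow_add,
        mul_comm (p ^ m), mul_smul, hW, smul_zero, smul_zero, add_zero]
    rwa [natCast_zsmul, natCast_zsmul] at this
  have h5 := hfaith _ (act_eq_zero act r φ q (incS N hSS s) U hs3' (hnew A hA φ hφ))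
  rw [map_sub, map_mul, map_add, map_natCast, map_one] at h5
  have h6 : LinearMap.trace T ρ.V (ρ.ρ φ) - (q + 1) * π U =
      (LinearMap.trace T ρ.V (ρ.ρ φ) - (π.comp (incS N hSS)) s) +
        (π (incS N hSS s) - (q + 1) * π U) := by
    rw [RingHom.comp_apply]; ring
  rw [h6]
  exact add_mem hs1 h5

section NewFrob

set_option maxHeartbeats 4000000 in
theorem newInputU_aux [Algebra (AlgebraicClosure ℚ) ℂ] {M q p : ℕ} [NeZero M] [NeZero q]
    (hp : p.Prime) (hq : q.Prime) (hqp : q ≠ p) (hqM : Nat.Coprime q M) {S S' : Set ℕ}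
    (hSS : S' ⊆ S) (hqS : q ∈ S) (hqS' : q ∉ S')
    {T : Type} [CommRing T] [IsDomain T] [IsDiscreteValuationRing T] [CharZero T]
    (hpT : (p : T) ∈ IsLocalRing.maximalIdeal T)
    (π : CuspForm.heckeAlgebra (M * q) 2 S' →+* T) (t₀ : awayPoly S)
    (ht₀ : CuspForm.heckeEvalForms M 2 (t₀ : HeckeAlg) = 0)
    (hπ : π (incS (M * q) hSS (awayEval (M * q) S t₀)) ≠ 0) :
    NewInputU p (M * q) S' q (CuspForm.heckeAlgebra.U hq (dvd_mul_left q M) hqS') π := by
  haveI : Fact q.Prime := ⟨hq⟩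
  have hNew := newAtW hp hqp hqM
  have hES := esAt_of_geom esHyp hp (M * q)
  intro n
  obtain ⟨e, he, hbound⟩ := exists_bound_torAct (N := M)
  have he0 : (e : T) ≠ 0 := by exact_mod_cast he.ne'
  obtain ⟨v, hv⟩ := exists_val_bound (mul_ne_zero he0 hπ)
  obtain ⟨m, -, hm⟩ := H22.exists_transport (N := M * q) S' hp (n + v)
  have hpm : p ^ m ≠ 0 := pow_ne_zero _ hp.ne_zero
  have : NeZero (p ^ m) := ⟨hpm⟩
  let ζ : ℂˣ := (Complex.isPrimitiveRoot_exp (p ^ m) hpm).isUnit hpm |>.unit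
  have hζ : IsPrimitiveRoot ζ (p ^ m) := by
    have := Complex.isPrimitiveRoot_exp (p ^ m) hpm
    exact IsPrimitiveRoot.coe_units_iff.mp this
  have hfaith : ∀ x : CuspForm.heckeAlgebra (M * q) 2 S',
      H22.formsPartActAway (M * q) (torAct (M * q) (p ^ m)) S' x = 0 →
        ∃ s : CuspForm.heckeAlgebra (M * q) 2 S', x = (p ^ (n + v) : ℕ) • s := by
    refine hm (torAct (M * q) (p ^ m)) (zetaHom ζ) (fun k hk => ?_) (kappa (M * q) (p ^ m))
      kappa_injective (fun ℓ w => ?_) (fun ψ hψ => exists_kappa_eq (surjC (M * q) hpm) hζ hψ)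
    · exact (hζ.zpow_eq_one_iff_dvd k).mp (Additive.ofMul.injective hk)
    · rw [torAct_heckeGen, kappa_heckeTor]
  refine ⟨newSub M q (p ^ m) hqM, inferInstance,
    restrictRing (H22.formsPartActAway (M * q) (torAct (M * q) (p ^ m)) S') (newSub M q (p ^ m) hqM)
      (hecke_mem_newSub' hq hqM S'),
    restrictMon (formsGal (M * q) (p ^ m)) (newSub M q (p ^ m) hqM) (galois_mem_newSub hqM), m,
    fun w => ?_, ?_, ?_, ?_, ?_⟩
  · exact Subtype.ext (Subtype.ext (Subtype.ext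
      (tor_nsmul ((w : torForms (M * q) (p ^ m)) : Tor (M * q) (p ^ m)))))
  · exact finiteLevel_restrictMon _ _ _ (formsGal_finiteLevel (M * q) (p ^ m))
  · intro x hx
    have h0 : ∀ w, H22.formsPartActAway (M * q) (torAct (M * q) (p ^ m)) S'
        (e * incS (M * q) hSS (awayEval (M * q) S t₀)) w ∈ newSub M q (p ^ m) hqM := by
      intro w
      have e1 : (e : CuspForm.heckeAlgebra (M * q) 2 S') *
          incS (M * q) hSS (awayEval (M * q) S t₀) =
          incS (M * q) hSS (e * awayEval (M * q) S t₀) := by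
        rw [map_mul, map_natCast]
      rw [e1, formsPartActAway_incS]
      exact bound_mem_newSub hq hqM hqS t₀ (fun y => hbound (p ^ m) y _ ht₀) w
    have h1 := mul_eq_zero_of_restrict _ _ _ x _ hx h0
    obtain ⟨s, hs⟩ := hfaith _ h1
    apply hv
    rw [← map_natCast π, ← map_mul, ← map_mul, hs, nsmul_eq_mul, map_mul, map_natCast,
      Nat.cast_pow]
    exact Ideal.mul_mem_right _ _ (Ideal.pow_mem_pow hpT _)
  · intro ℓ hℓ hℓN hℓS hℓp A hA φ hφ
    exact es_restrict _ _ _ _ _ _ φ ℓ (es_forms hES m hℓ hℓN hℓS hℓp A hA φ hφ)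
  · intro A hA φ hφ w
    refine Subtype.ext (Subtype.ext (Subtype.ext ?_))
    have hw := w.2
    rw [mem_newSub] at hw
    -- the vector `x` and its image `φ x`
    have hx0 := tor_nsmul ((w : torForms (M * q) (p ^ m)) : Tor (M * q) (p ^ m))
    have hx1 := congrArg (fun z : Tor M (p ^ m) => (z : JZero M)) hw.1
    have hx2 := congrArg (fun z : Tor M (p ^ m) => (z : JZero M)) hw.2
    have key := hNew m A hA φ hφ _ hx0 hx1 hx2
    have hφw := galois_mem_newSub hqM φ _ w.2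
    have hφn : ((formsGal (M * q) (p ^ m) φ (w : torForms (M * q) (p ^ m)) :
        torForms (M * q) (p ^ m)) : Tor (M * q) (p ^ m)) ∈ newT M q (p ^ m) hqM :=
      mem_newT.mpr ((mem_newSub hqM).mp hφw)
    have h3 := formsPartActAway_U (torAct (M * q) (p ^ m)) hq (dvd_mul_left q M) hqS'
      (formsGal (M * q) (p ^ m) φ (w : torForms (M * q) (p ^ m)))
    rw [torAct_q hq ⟨q, hq⟩ rfl hqM hφn] at h3
    have h4 := congrArg (fun z : Tor (M * q) (p ^ m) => (z : JZero (M * q))) h3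
    have h5 : ((H22.formsPartActAway (M * q) (torAct (M * q) (p ^ m)) S'
        (CuspForm.heckeAlgebra.U hq (dvd_mul_left q M) hqS')
        (formsGal (M * q) (p ^ m) φ (w : torForms (M * q) (p ^ m))) :
        torForms (M * q) (p ^ m)) : Tor (M * q) (p ^ m)) =
        -(wTor M q (p ^ m) hqM (formsGal (M * q) (p ^ m) φ (w : torForms (M * q) (p ^ m)) :
          torForms (M * q) (p ^ m))) := h3
    change φ • φ • (((w : torForms (M * q) (p ^ m)) : Tor (M * q) (p ^ m)) : JZero (M * q)) +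
      q • (((w : torForms (M * q) (p ^ m)) : Tor (M * q) (p ^ m)) : JZero (M * q)) =
      (q + 1) • (((H22.formsPartActAway (M * q) (torAct (M * q) (p ^ m)) S'
        (CuspForm.heckeAlgebra.U hq (dvd_mul_left q M) hqS')
        (formsGal (M * q) (p ^ m) φ (w : torForms (M * q) (p ^ m))) :
        torForms (M * q) (p ^ m)) : Tor (M * q) (p ^ m)) : JZero (M * q))
    rw [h5]
    change φ • φ • (((w : torForms (M * q) (p ^ m)) : Tor (M * q) (p ^ m)) : JZero (M * q)) +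
      q • (((w : torForms (M * q) (p ^ m)) : Tor (M * q) (p ^ m)) : JZero (M * q)) =
      (q + 1) • (-(Q.wS M q hqM • φ • (((w : torForms (M * q) (p ^ m)) :
        Tor (M * q) (p ^ m)) : JZero (M * q))))
    rw [← Q.galois_wS M q hqM φ, smul_neg]
    rw [eq_neg_iff_add_eq_zero, ← key]
    abel

theorem newInputU {M q p : ℕ} [NeZero M] [NeZero q]
    (hp : p.Prime) (hq : q.Prime) (hqp : q ≠ p) (hqM : Nat.Coprime q M) {S S' : Set ℕ}
    (hSS : S' ⊆ S) (hqS : q ∈ S) (hqS' : q ∉ S')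
    {T : Type} [CommRing T] [IsDomain T] [IsDiscreteValuationRing T] [CharZero T]
    (hpT : (p : T) ∈ IsLocalRing.maximalIdeal T)
    (π : CuspForm.heckeAlgebra (M * q) 2 S' →+* T) (t₀ : awayPoly S)
    (ht₀ : CuspForm.heckeEvalForms M 2 (t₀ : HeckeAlg) = 0)
    (hπ : π (incS (M * q) hSS (awayEval (M * q) S t₀)) ≠ 0) :
    NewInputU p (M * q) S' q (CuspForm.heckeAlgebra.U hq (dvd_mul_left q M) hqS') π := by
  letI : Algebra (AlgebraicClosure ℚ) ℂ :=
    (IsAlgClosed.lift : AlgebraicClosure ℚ →ₐ[ℚ] ℂ).toRingHom.toAlgebra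
  exact newInputU_aux hp hq hqp hqM hSS hqS hqS' hpT π t₀ ht₀ hπ

end NewFrob

end Fermat.Agent.Cor.Bad
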