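import Mathlib
import Fermat.Agent.Cor.Cheb5
import Fermat.Agent.Cor.Mazur
import Fermat.Agent.Cor.Surj
import Fermat.Agent.H11N.MZCurve

/-!
# The traces of Frobenius of a semistable elliptic curve

Let `W` be a semistable elliptic curve over `ℚ` and `a` an integer. The set of the primes `p` with `a_p(W) = a` has
Dirichlet density zero (Serre). In particular (`a = 0`) the supersingular primes have density zero.

Proof: Chebotarev's theorem for the fields of the `ℓ`-torsion points, `ℓ → ∞`, whose Galois groups are `GL₂(𝔽_ℓ)`.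

This file is not used by any of the statement files.
-/

set_option autoImplicit false
set_option linter.unusedSectionVars false
set_option linter.style.haveILetI false

open scoped Classical nonZeroDivisors Topology Pointwise

namespace Fermat.Agent.Cor.TraceDensity

open NumberField Filter Module IntermediateField Fermat.Agent.CFT Fermat.Agent.H03
  Fermat.Agent.ZC Fermat.Agent.DS Fermat.Agent.Cor.Cheb

local notation "Qb" => AlgebraicClosure ℚ
local notation "Γq" => AlgebraicClosure ℚ ≃ₐ[ℚ] AlgebraicClosure ℚ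

noncomputable section

section class_sum

variable (E : IntermediateField ℚ Qb) [NumberField E] [IsGalois ℚ E]

/-- the sum over a conjugacy class -/
theorem frob_sum_ge {p : ℕ} (S : Set Gal(E/ℚ)) (g₀ : Gal(E/ℚ))
    (hS : ∀ h : Gal(E/ℚ), h * g₀ * h⁻¹ ∈ S) (hF : ∀ h : Gal(E/ℚ), p ∈ FrobSet (h * g₀ * h⁻¹)) :
    (Nat.card Gal(E/ℚ) : ℝ) ≤ ∑ g : Gal(E/ℚ), (if g ∈ S then (1 : ℝ) else 0) *
      ((Nat.card (Subgroup.centralizer {g} : Subgroup Gal(E/ℚ)) : ℝ) *
        (if p ∈ FrobSet g then 1 else 0)) := by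
  have h1 : (Finset.univ : Finset Gal(E/ℚ)).card = ∑ g : Gal(E/ℚ),
      (Finset.univ.filter fun h : Gal(E/ℚ) => h * g₀ * h⁻¹ = g).card :=
    Finset.card_eq_sum_card_fiberwise fun _ _ => Finset.mem_coe.mpr (Finset.mem_univ _)
  rw [Nat.card_eq_fintype_card, ← Finset.card_univ, h1]
  push_cast
  refine Finset.sum_le_sum fun g _ => ?_
  by_cases hg : ∃ h₁ : Gal(E/ℚ), h₁ * g₀ * h₁⁻¹ = g
  · obtain ⟨h₁, rfl⟩ := hg
    rw [if_pos (hS h₁), if_pos (hF h₁), one_mul, mul_one]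
    have h2 : (Finset.univ.filter fun h : Gal(E/ℚ) => h * g₀ * h⁻¹ = h₁ * g₀ * h₁⁻¹).card ≤
        Nat.card (Subgroup.centralizer {h₁ * g₀ * h₁⁻¹} : Subgroup Gal(E/ℚ)) := by
      rw [← Fintype.card_subtype, ← Nat.card_eq_fintype_card]
      refine Nat.card_le_card_of_injective (fun h => ⟨h.1 * h₁⁻¹, ?_⟩) ?_
      · rw [Subgroup.mem_centralizer_singleton_iff]
        calc h.1 * h₁⁻¹ * (h₁ * g₀ * h₁⁻¹) = (h.1 * g₀ * h.1⁻¹) * (h.1 * h₁⁻¹) := by group
          _ = (h₁ * g₀ * h₁⁻¹) * (h.1 * h₁⁻¹) := by rw [h.2]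
      · intro a b hab
        have h3 : a.1 * h₁⁻¹ = b.1 * h₁⁻¹ := congrArg Subtype.val hab
        exact Subtype.ext (mul_right_cancel h3)
    exact_mod_cast h2
  · have h2 : (Finset.univ.filter fun h : Gal(E/ℚ) => h * g₀ * h⁻¹ = g) = ∅ := by
      rw [Finset.filter_eq_empty_iff]
      intro h _ h3
      exact hg ⟨h, h3⟩
    rw [h2, Finset.card_empty, Nat.cast_zero]
    refine mul_nonneg ?_ (mul_nonneg (Nat.cast_nonneg _) ?_) <;> split_ifs <;> norm_num

theorem qsum_nonneg' (T : Set ℕ) (s : ℝ) : 0 ≤ qsum T s := by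
  refine tsum_nonneg fun p => ?_
  split_ifs
  · positivity
  · exact le_rfl

theorem tendsto_qsum_univ : Tendsto (qsum Set.univ) (𝓝[>] (1 : ℝ)) atTop := by
  obtain ⟨C, hC⟩ := qsum_univ_bound
  refine tendsto_atTop_mono' _ ?_ (tendsto_atTop_add_const_right _ (-C) tendsto_ell)
  filter_upwards [hC] with s hs
  have := (abs_le.mp hs).1
  change ell s + -C ≤ _
  linarith

/-- the upper density of a set of primes whose Frobenius elements are in `S` -/
theorem density_le (S : Set Gal(E/ℚ)) (T B : Set ℕ) (hB : B.Finite)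
    (hT : ∀ p : ℕ, p.Prime → p ∈ T → p ∉ B → ∃ g₀ : Gal(E/ℚ),
      (∀ h : Gal(E/ℚ), h * g₀ * h⁻¹ ∈ S) ∧ ∀ h : Gal(E/ℚ), p ∈ FrobSet (h * g₀ * h⁻¹))
    {ε : ℝ} (hε : 0 < ε) : ∀ᶠ s in 𝓝[>] (1 : ℝ),
      qsum T s / qsum Set.univ s ≤ (Nat.card S : ℝ) / Nat.card Gal(E/ℚ) + ε := by
  have hG0 : (0 : ℝ) < Nat.card Gal(E/ℚ) := by exact_mod_cast Nat.card_pos
  set G : ℝ := (Nat.card Gal(E/ℚ) : ℝ) with hG
  -- the inequality of the sums
  have hmain : ∀ s : ℝ, 1 < s → G * qsum T s ≤ ∑ g : Gal(E/ℚ), (if g ∈ S then (1 : ℝ) else 0) *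
      ((Nat.card (Subgroup.centralizer {g} : Subgroup Gal(E/ℚ)) : ℝ) * qsum (FrobSet g) s) +
      G * qsum B s := by
    intro s hs
    simp only [qsum]
    simp_rw [← tsum_mul_left]
    rw [← Summable.tsum_finsetSum fun g _ => ((summable_qsum (FrobSet g) hs).mul_left _).mul_left _,
      ← (summable_sum fun g _ => ((summable_qsum (FrobSet g) hs).mul_left _).mul_left _).tsum_add
        ((summable_qsum B hs).mul_left _)]
    refine Summable.tsum_le_tsum (fun p => ?_) ((summable_qsum T hs).mul_left _)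
      ((summable_sum fun g _ => ((summable_qsum (FrobSet g) hs).mul_left _).mul_left _).add
        ((summable_qsum B hs).mul_left _))
    have hp0 : 0 ≤ 1 / ((p : ℕ) : ℝ) ^ s := by positivity
    have hnn : 0 ≤ ∑ g : Gal(E/ℚ), (if g ∈ S then (1 : ℝ) else 0) *
        ((Nat.card (Subgroup.centralizer {g} : Subgroup Gal(E/ℚ)) : ℝ) *
          (if (p : ℕ) ∈ FrobSet g then 1 / ((p : ℕ) : ℝ) ^ s else 0)) := by
      refine Finset.sum_nonneg fun g _ => mul_nonneg ?_ (mul_nonneg (Nat.cast_nonneg _) ?_)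
      · split_ifs <;> norm_num
      · split_ifs
        · exact hp0
        · exact le_rfl
    by_cases hpT : (p : ℕ) ∈ T
    · rw [if_pos hpT]
      by_cases hpB : (p : ℕ) ∈ B
      · rw [if_pos hpB]
        linarith
      · rw [if_neg hpB, mul_zero, add_zero]
        obtain ⟨g₀, h1, h2⟩ := hT p p.2 hpT hpB
        have h3 := mul_le_mul_of_nonneg_right (frob_sum_ge E S g₀ h1 h2) hp0
        refine h3.trans (le_of_eq ?_)
        rw [Finset.sum_mul]
        refine Finset.sum_congr rfl fun g _ => ?_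
        split_ifs <;> ring
    · rw [if_neg hpT, mul_zero]
      refine add_nonneg hnn (mul_nonneg hG0.le ?_)
      split_ifs
      · exact hp0
      · exact le_rfl
  -- the limits
  have hlim : Tendsto (fun s : ℝ => ∑ g : Gal(E/ℚ), (if g ∈ S then (1 : ℝ) else 0) *
      ((Nat.card (Subgroup.centralizer {g} : Subgroup Gal(E/ℚ)) : ℝ) *
        (qsum (FrobSet g) s / qsum Set.univ s))) (𝓝[>] 1) (𝓝 (Nat.card S : ℝ)) := by
    have h1 : (Nat.card S : ℝ) = ∑ g : Gal(E/ℚ), (if g ∈ S then (1 : ℝ) else 0) *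
        ((Nat.card (Subgroup.centralizer {g} : Subgroup Gal(E/ℚ)) : ℝ) *
          (1 / (Nat.card (Subgroup.centralizer {g} : Subgroup Gal(E/ℚ)) : ℝ))) := by
      have h2 : ∀ g : Gal(E/ℚ), (if g ∈ S then (1 : ℝ) else 0) *
          ((Nat.card (Subgroup.centralizer {g} : Subgroup Gal(E/ℚ)) : ℝ) *
          (1 / (Nat.card (Subgroup.centralizer {g} : Subgroup Gal(E/ℚ)) : ℝ))) =
          if g ∈ S then (1 : ℝ) else 0 := by
        intro g
        have h3 : (Nat.card (Subgroup.centralizer {g} : Subgroup Gal(E/ℚ)) : ℝ) ≠ 0 := by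
          exact_mod_cast Nat.card_pos.ne'
        rw [mul_one_div_cancel h3, mul_one]
      rw [Finset.sum_congr rfl fun g _ => h2 g, Finset.sum_ite, Finset.sum_const_zero, add_zero,
        Finset.sum_const, nsmul_eq_mul, mul_one, Nat.card_eq_fintype_card,
        ← Fintype.card_subtype]
    rw [h1]
    exact tendsto_finsetSum _ fun g _ => ((tendsto_class E g).const_mul _).const_mul _
  have hlimB : Tendsto (fun s : ℝ => qsum B s / qsum Set.univ s) (𝓝[>] 1) (𝓝 0) := by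
    obtain ⟨C, hC⟩ := bddQ_finite hB
    have h1 : Tendsto (fun s : ℝ => C / qsum Set.univ s) (𝓝[>] 1) (𝓝 0) :=
      tendsto_qsum_univ.const_div_atTop C
    refine squeeze_zero' ?_ ?_ h1
    · filter_upwards [tendsto_qsum_univ.eventually_gt_atTop 0] with s hs
      exact div_nonneg (qsum_nonneg' _ _) hs.le
    · filter_upwards [hC, tendsto_qsum_univ.eventually_gt_atTop 0] with s h2 h3
      exact div_le_div_of_nonneg_right h2 h3.le
  have hlim2 := (hlim.add (hlimB.const_mul G)).div_const G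
  have hlt : ((Nat.card S : ℝ) + G * 0) / G < (Nat.card S : ℝ) / G + ε := by
    rw [mul_zero, add_zero]; linarith
  filter_upwards [hlim2.eventually_lt_const hlt, self_mem_nhdsWithin,
    tendsto_qsum_univ.eventually_gt_atTop 0] with s h1 h2 h3
  refine le_trans ?_ h1.le
  rw [le_div_iff₀ hG0]
  have h4 := div_le_div_of_nonneg_right (hmain s h2) h3.le
  rw [add_div, Finset.sum_div, mul_div_assoc, mul_div_assoc] at h4
  rw [mul_comm]
  refine h4.trans (le_of_eq ?_)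
  congr 1
  refine Finset.sum_congr rfl fun g _ => ?_
  rw [mul_div_assoc, mul_div_assoc]

end class_sum

section counting

open Matrix

/-- the number of matrices of given trace -/
theorem card_trace_le {ℓ : ℕ} [Fact ℓ.Prime] (t : ZMod ℓ) :
    Nat.card {M : GL (Fin 2) (ZMod ℓ) // (M : Matrix (Fin 2) (Fin 2) (ZMod ℓ)).trace = t} ≤ ℓ ^ 3 := by
  have h1 : Nat.card (ZMod ℓ × ZMod ℓ × ZMod ℓ) = ℓ ^ 3 := by
    rw [Nat.card_prod, Nat.card_prod, Nat.card_zmod]; ring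
  rw [← h1]
  refine Nat.card_le_card_of_injective (fun M => ((M.1 : Matrix (Fin 2) (Fin 2) (ZMod ℓ)) 0 0,
    (M.1 : Matrix (Fin 2) (Fin 2) (ZMod ℓ)) 0 1, (M.1 : Matrix (Fin 2) (Fin 2) (ZMod ℓ)) 1 0)) ?_
  rintro ⟨M, hM⟩ ⟨N, hN⟩ h
  simp only [Prod.mk.injEq] at h
  obtain ⟨h2, h3, h4⟩ := h
  rw [Matrix.trace_fin_two] at hM hN
  apply Subtype.ext
  apply Units.ext
  ext i j
  fin_cases i <;> fin_cases j
  · exact h2
  · exact h3
  · exact h4
  · change (M : Matrix (Fin 2) (Fin 2) (ZMod ℓ)) 1 1 = (N : Matrix (Fin 2) (Fin 2) (ZMod ℓ)) 1 1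
    linear_combination hM - hN - h2

/-- the order of `GL₂(𝔽_ℓ)` -/
theorem card_GL_two {ℓ : ℕ} [Fact ℓ.Prime] :
    (Nat.card (GL (Fin 2) (ZMod ℓ)) : ℝ) = ((ℓ : ℝ) ^ 2 - 1) * ((ℓ : ℝ) ^ 2 - ℓ) := by
  have hℓ : 1 ≤ ℓ := (Fact.out : ℓ.Prime).one_lt.le
  have h1 := Matrix.card_GL_field (𝔽 := ZMod ℓ) 2
  rw [Fin.prod_univ_two, ZMod.card] at h1
  rw [h1]
  have h2 : ℓ ^ (0 : ℕ) ≤ ℓ ^ 2 := Nat.pow_le_pow_right hℓ (by norm_num)
  have h3 : ℓ ^ (1 : ℕ) ≤ ℓ ^ 2 := Nat.pow_le_pow_right hℓ (by norm_num)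
  simp only [Fin.val_zero, Fin.val_one]
  push_cast [Nat.cast_sub h2, Nat.cast_sub h3]
  ring

/-- the fraction of matrices of given trace under a surjective homomorphism -/
theorem fraction_le {G : Type*} [Group G] [Finite G] {ℓ : ℕ} [Fact ℓ.Prime] (hℓ3 : 3 ≤ ℓ)
    (f : G →* GL (Fin 2) (ZMod ℓ)) (hf : Function.Surjective f) (t : ZMod ℓ) (S : Set G)
    (hS : ∀ g ∈ S, (f g : Matrix (Fin 2) (Fin 2) (ZMod ℓ)).trace = t) :
    (Nat.card S : ℝ) / Nat.card G ≤ 2 / ℓ := by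
  have h1 : Nat.card G = Nat.card f.ker * Nat.card (GL (Fin 2) (ZMod ℓ)) := by
    rw [← Nat.card_congr (QuotientGroup.quotientKerEquivOfSurjective f hf).toEquiv, mul_comm]
    exact Subgroup.card_eq_card_quotient_mul_card_subgroup _
  have h2 : Nat.card S ≤ Nat.card f.ker * ℓ ^ 3 := by
    refine le_trans ?_ (Nat.mul_le_mul_left _ (card_trace_le t))
    rw [← Nat.card_prod]
    obtain ⟨s, hs⟩ := hf.hasRightInverse
    refine Nat.card_le_card_of_injective (fun g : S =>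
      ((⟨g.1 * (s (f g.1))⁻¹, ?_⟩ : f.ker), (⟨f g.1, hS g.1 g.2⟩ :
        {M : GL (Fin 2) (ZMod ℓ) // (M : Matrix (Fin 2) (Fin 2) (ZMod ℓ)).trace = t}))) ?_
    · rw [MonoidHom.mem_ker, map_mul, map_inv, hs, mul_inv_cancel]
    · rintro ⟨a, ha⟩ ⟨b, hb⟩ h
      rw [Prod.mk.injEq, Subtype.mk.injEq, Subtype.mk.injEq] at h
      obtain ⟨h3, h4⟩ := h
      rw [h4] at h3
      exact Subtype.ext (mul_right_cancel h3)
  have hk : (0 : ℝ) < Nat.card f.ker := by exact_mod_cast Nat.card_pos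
  have hℓ : (3 : ℝ) ≤ ℓ := by exact_mod_cast hℓ3
  have hgl : (0 : ℝ) < ((ℓ : ℝ) ^ 2 - 1) * ((ℓ : ℝ) ^ 2 - ℓ) := by
    apply mul_pos <;> nlinarith
  rw [h1, Nat.cast_mul, card_GL_two, div_le_div_iff₀ (mul_pos hk hgl) (by linarith)]
  have h3 : (Nat.card S : ℝ) ≤ Nat.card f.ker * (ℓ : ℝ) ^ 3 := by exact_mod_cast h2
  calc (Nat.card S : ℝ) * ℓ ≤ Nat.card f.ker * (ℓ : ℝ) ^ 3 * ℓ :=
        mul_le_mul_of_nonneg_right h3 (by linarith)
    _ = Nat.card f.ker * ((ℓ : ℝ) ^ 4) := by ring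
    _ ≤ Nat.card f.ker * (2 * (((ℓ : ℝ) ^ 2 - 1) * ((ℓ : ℝ) ^ 2 - ℓ))) := by
        apply mul_le_mul_of_nonneg_left _ hk.le
        have h4 : 0 ≤ (ℓ : ℝ) * ((ℓ : ℝ) - 3) := mul_nonneg (by linarith) (by linarith)
        have h5 : (ℓ : ℝ) ^ 3 - 2 * (ℓ : ℝ) ^ 2 - 2 * ℓ + 2 ≥ 0 := by nlinarith
        nlinarith [mul_nonneg (show (0 : ℝ) ≤ ℓ by linarith) h5]
    _ = 2 * (Nat.card f.ker * (((ℓ : ℝ) ^ 2 - 1) * ((ℓ : ℝ) ^ 2 - ℓ))) := by ring

end counting

section galois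

open Matrix Fermat.Agent.H11N Fermat.Agent.Ell Fermat.Agent.H12.LL Fermat.Agent.H05

/-- the upper density of the primes `p` with `a_p = c` for a representation with image `GL₂(𝔽_ℓ)` -/
theorem density_le_of_surjective {ℓ : ℕ} [Fact ℓ.Prime] {D : ℕ} {a : ℕ → ℤ} (P : MRep ℓ D a)
    (hD : D ≠ 0) (hℓ3 : 3 ≤ ℓ)
    (hsurj : ∀ M : GL (Fin 2) (ZMod ℓ), ∃ σ : Γq, P.ρ σ = (M : Matrix (Fin 2) (Fin 2) (ZMod ℓ)))
    (c : ℤ) {ε : ℝ} (hε : 0 < ε) :
    ∀ᶠ s in 𝓝[>] (1 : ℝ), qsum {p | a p = c} s / qsum Set.univ s ≤ 2 / ℓ + ε := by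
  have hg : IsGalois ℚ Qb := H51.isGalois_Qbar
  let E : IntermediateField ℚ Qb := normalClosure ℚ P.F Qb
  haveI : FiniteDimensional ℚ E := inferInstance
  haveI : NumberField E := { to_charZero := inferInstance, to_finiteDimensional := inferInstance }
  haveI : Normal ℚ Qb := hg.to_normal
  haveI : Normal ℚ E := normalClosure.normal ℚ P.F Qb
  haveI : IsGalois ℚ E := { to_isSeparable := inferInstance, to_normal := inferInstance }
  have hFE : P.F ≤ E := IntermediateField.le_normalClosure P.F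
  let res : Γq →* Gal(E/ℚ) := AlgEquiv.restrictNormalHom E
  have hres : Function.Surjective res := AlgEquiv.restrictNormalHom_surjective Qb
  have hker : res.ker ≤ P.ρ.toHomUnits.ker := by
    intro σ hσ
    have h1 := (mem_ker_restrict E).mp hσ
    rw [IntermediateField.mem_fixingSubgroup_iff] at h1
    rw [MonoidHom.mem_ker]
    apply Units.ext
    exact P.triv σ fun x hx => h1 x (hFE hx)
  let f : Gal(E/ℚ) →* GL (Fin 2) (ZMod ℓ) := res.liftOfSurjective hres ⟨P.ρ.toHomUnits, hker⟩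
  have hf : ∀ σ : Γq, f (res σ) = P.ρ.toHomUnits σ := fun σ =>
    MonoidHom.liftOfRightInverse_comp_apply res _ (Function.rightInverse_surjInv hres)
      ⟨P.ρ.toHomUnits, hker⟩ σ
  have hf' : ∀ σ : Γq, (f (res σ) : Matrix (Fin 2) (Fin 2) (ZMod ℓ)) = P.ρ σ := fun σ => by
    rw [hf]; rfl
  have hfs : Function.Surjective f := by
    intro M
    obtain ⟨σ, hσ⟩ := hsurj M
    refine ⟨res σ, Units.ext ?_⟩
    rw [hf', hσ]
  let S : Set Gal(E/ℚ) := {g | (f g : Matrix (Fin 2) (Fin 2) (ZMod ℓ)).trace = (c : ZMod ℓ)}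
  have h1 := density_le E S {p | a p = c} (D.divisors : Set ℕ) (Finset.finite_toSet _)
    (by
      intro p hp hpc hpD
      have hpD' : ¬ p ∣ D := fun h => hpD (Finset.mem_coe.mpr (Nat.mem_divisors.mpr ⟨h, hD⟩))
      obtain ⟨A, hA⟩ := exists_liesOverPrime Qb hp
      obtain ⟨φ, hφ⟩ := exists_isFrobeniusAt (L := Qb) hp hA
      have key : ∀ h : Gal(E/ℚ), ∃ (A' : ValuationSubring Qb) (φ' : Γq), A'.LiesOverPrime p ∧
          A'.IsFrobeniusAt φ' p ∧ res φ' = h * res φ * h⁻¹ := by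
        intro h
        obtain ⟨ψ, rfl⟩ := hres h
        exact ⟨ψ • A, ψ * φ * ψ⁻¹, (liesOverPrime_smul_iff ψ A p).mpr hA,
          IsFrobeniusAt.conj hp hA hφ ψ, by rw [map_mul, map_mul, map_inv]⟩
      refine ⟨res φ, fun h => ?_, fun h => ?_⟩
      · obtain ⟨A', φ', hA', hφ', he⟩ := key h
        rw [← he]
        change (f (res φ') : Matrix (Fin 2) (Fin 2) (ZMod ℓ)).trace = (c : ZMod ℓ)
        rw [hf', (P.frob p hp hpD' A' hA' φ' hφ').1]
        have h2 : a p = c := hpc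
        rw [h2]
      · obtain ⟨A', φ', hA', hφ', he⟩ := key h
        rw [← he]
        exact frobSet_of_isFrobeniusAt E hp hA' hφ') hε
  have h2 := fraction_le hℓ3 f hfs (c : ZMod ℓ) S (fun g hg => hg)
  filter_upwards [h1] with s hs
  linarith

/-- every invertible matrix is in the image of the representation on `W[ℓ]` -/
theorem exists_mat_eq {W : WeierstrassCurve ℤ} (hΔ : W.Δ ≠ 0) (hss : W.IsSemistableModel) {ℓ : ℕ}
    [hℓ : Fact ℓ.Prime] (hirr : W.ModRepIsIrreducible ℓ) (hℓ2 : ℓ ≠ 2) (M : GL (Fin 2) (ZMod ℓ)) :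
    ∃ σ : Γq, Surj.mat ℓ hΔ σ = (M : Matrix (Fin 2) (Fin 2) (ZMod ℓ)) := by
  haveI := isElliptic_WQ hΔ
  set m := mtx (redBasis (tB (p := ℓ) hΔ)) with hm
  let u : (Module.End (ZMod ℓ) (Fermat.Agent.EGal.VV (WQ W) ℓ))ˣ :=
    Units.map (m.symm : Matrix (Fin 2) (Fin 2) (ZMod ℓ) →* Module.End (ZMod ℓ) (Fermat.Agent.EGal.VV (WQ W) ℓ)) M
  obtain ⟨σ, hσ⟩ := Surj.surjective hΔ hss hirr hℓ2
    (LinearMap.GeneralLinearGroup.generalLinearEquiv (ZMod ℓ) _ u)
  refine ⟨σ, ?_⟩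
  rw [Surj.mat_eq hΔ σ, ← hm]
  have h1 : Fermat.Agent.EGal.rho (WQ W) ℓ σ = m.symm (M : Matrix (Fin 2) (Fin 2) (ZMod ℓ)) := by
    apply LinearMap.ext
    intro x
    exact hσ x
  rw [h1, AlgEquiv.apply_symm_apply]

/-- **The primes with given trace of Frobenius have density zero** (Serre): let `W` be a semistable elliptic curve over
`ℚ` and `c` an integer. The set of the primes `p` with `a_p(W) = c` has Dirichlet density zero. -/
theorem density_trace_eq_zero (W : WeierstrassCurve ℤ) (hΔ : W.Δ ≠ 0) (hss : W.IsSemistableModel)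
    (c : ℤ) :
    Tendsto (fun s : ℝ =>
      (∑' p : Nat.Primes, if W.apOfModel p = c then 1 / ((p : ℕ) : ℝ) ^ s else 0) /
        ∑' p : Nat.Primes, 1 / ((p : ℕ) : ℝ) ^ s) (𝓝[>] 1) (𝓝 0) := by
  have huniv : ∀ s : ℝ, qsum Set.univ s = ∑' p : Nat.Primes, 1 / ((p : ℕ) : ℝ) ^ s := by
    intro s
    rw [qsum]
    simp only [Set.mem_univ, if_true]
  have hT : ∀ s : ℝ, qsum {p | W.apOfModel p = c} s =
      ∑' p : Nat.Primes, if W.apOfModel p = c then 1 / ((p : ℕ) : ℝ) ^ s else 0 := by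
    intro s
    rw [qsum]
    refine tsum_congr fun p => ?_
    by_cases h : W.apOfModel p = c
    · have h' : (p : ℕ) ∈ {p | W.apOfModel p = c} := h
      rw [if_pos h, if_pos h']
    · have h' : (p : ℕ) ∉ {p | W.apOfModel p = c} := h
      rw [if_neg h, if_neg h']
  have hmain : Tendsto (fun s : ℝ => qsum {p | W.apOfModel p = c} s / qsum Set.univ s) (𝓝[>] 1) (𝓝 0) := by
    rw [Metric.tendsto_nhds]
    intro ε hε
    obtain ⟨ℓ, hle, hℓ⟩ := Nat.exists_infinite_primes (max 17 (⌈4 / ε⌉₊ + 1))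
    haveI : Fact ℓ.Prime := ⟨hℓ⟩
    have h17 : 17 ≤ ℓ := (le_max_left _ _).trans hle
    have h4 : 4 / ε < ℓ := by
      have h5 : ⌈4 / ε⌉₊ + 1 ≤ ℓ := (le_max_right _ _).trans hle
      have h6 : ((⌈4 / ε⌉₊ : ℕ) : ℝ) + 1 ≤ ℓ := by exact_mod_cast h5
      have h7 := Nat.le_ceil (4 / ε)
      linarith
    have hirr := Mazur.modRep_irreducible hΔ hss hℓ (by omega) (by omega)
    have hℓ2 : ℓ ≠ 2 := by omega
    let P : MRep ℓ (ℓ * W.Δ.natAbs) W.apOfModel := mrepCurve hΔ hirr hℓ2 (dvd_mul_right _ _)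
      (dvd_mul_left _ _)
    have hD : ℓ * W.Δ.natAbs ≠ 0 := mul_ne_zero hℓ.ne_zero (Int.natAbs_ne_zero.mpr hΔ)
    have h5 := density_le_of_surjective P hD (by omega) (exists_mat_eq hΔ hss hirr hℓ2) c
      (half_pos hε)
    filter_upwards [h5, tendsto_qsum_univ.eventually_gt_atTop 0] with s h6 h7
    rw [Real.dist_eq, sub_zero, abs_of_nonneg (div_nonneg (qsum_nonneg' _ _) h7.le)]
    refine h6.trans_lt ?_
    have hℓ0 : (0 : ℝ) < ℓ := by exact_mod_cast hℓ.pos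
    have h8 : 2 / (ℓ : ℝ) < ε / 2 := by
      rw [div_lt_iff₀ hε] at h4
      rw [div_lt_div_iff₀ hℓ0 (by norm_num)]
      linarith
    linarith
  refine hmain.congr fun s => ?_
  rw [huniv, hT]

/-- **The supersingular primes of a semistable elliptic curve over `ℚ` have density zero.** -/
theorem density_supersingular_eq_zero (W : WeierstrassCurve ℤ) (hΔ : W.Δ ≠ 0)
    (hss : W.IsSemistableModel) :
    Tendsto (fun s : ℝ =>
      (∑' p : Nat.Primes, if W.apOfModel p = 0 then 1 / ((p : ℕ) : ℝ) ^ s else 0) /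
        ∑' p : Nat.Primes, 1 / ((p : ℕ) : ℝ) ^ s) (𝓝[>] 1) (𝓝 0) :=
  density_trace_eq_zero W hΔ hss 0

/-- For every integer `c` there are infinitely many primes `p` with `a_p(W) ≠ c`. -/
theorem infinite_trace_ne (W : WeierstrassCurve ℤ) (hΔ : W.Δ ≠ 0) (hss : W.IsSemistableModel)
    (c : ℤ) : {p : ℕ | p.Prime ∧ W.apOfModel p ≠ c}.Infinite := by
  intro hfin
  obtain ⟨C, hC⟩ := bddQ_finite hfin
  have h1 := density_trace_eq_zero W hΔ hss c
  have h2 : ∀ᶠ s in 𝓝[>] (1 : ℝ), qsum Set.univ s ≤ 2 * C := by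
    filter_upwards [hC, h1.eventually_lt_const (show (0 : ℝ) < 1 / 2 by norm_num),
      self_mem_nhdsWithin, tendsto_qsum_univ.eventually_gt_atTop 0] with s h2 h3 h4 h5
    have h4' : 1 < s := h4
    have huniv : (∑' p : Nat.Primes, 1 / ((p : ℕ) : ℝ) ^ s) = qsum Set.univ s := by
      rw [qsum]
      simp only [Set.mem_univ, if_true]
    have h6 : qsum Set.univ s = qsum {p : ℕ | p.Prime ∧ W.apOfModel p ≠ c} s +
        ∑' p : Nat.Primes, (if W.apOfModel p = c then 1 / ((p : ℕ) : ℝ) ^ s else 0) := by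
      have hsum : Summable fun p : Nat.Primes =>
          if W.apOfModel p = c then 1 / ((p : ℕ) : ℝ) ^ s else 0 := by
        have h7 := summable_qsum {p : ℕ | W.apOfModel p = c} h4'
        refine h7.congr fun p => ?_
        by_cases h : W.apOfModel p = c
        · have h' : (p : ℕ) ∈ {p | W.apOfModel p = c} := h
          rw [if_pos h, if_pos h']
        · have h' : (p : ℕ) ∉ {p | W.apOfModel p = c} := h
          rw [if_neg h, if_neg h']
      rw [qsum, qsum, ← (summable_qsum {p : ℕ | p.Prime ∧ W.apOfModel p ≠ c} h4').tsum_add hsum]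
      refine tsum_congr fun p => ?_
      rw [if_pos (Set.mem_univ _)]
      by_cases h : W.apOfModel p = c
      · have h' : (p : ℕ) ∉ {p : ℕ | p.Prime ∧ W.apOfModel p ≠ c} := fun h' => h'.2 h
        rw [if_pos h, if_neg h', zero_add]
      · have h' : (p : ℕ) ∈ {p : ℕ | p.Prime ∧ W.apOfModel p ≠ c} := ⟨p.2, h⟩
        rw [if_neg h, if_pos h', add_zero]
    rw [huniv, div_lt_iff₀ h5] at h3
    linarith
  obtain ⟨s, h3, h4⟩ := (h2.and (tendsto_qsum_univ.eventually_gt_atTop (2 * C))).exists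
  linarith

/-- **Infinitely many ordinary primes.** -/
theorem infinite_ordinary (W : WeierstrassCurve ℤ) (hΔ : W.Δ ≠ 0) (hss : W.IsSemistableModel) :
    {p : ℕ | p.Prime ∧ W.apOfModel p ≠ 0}.Infinite :=
  infinite_trace_ne W hΔ hss 0

end galois

end

end Fermat.Agent.Cor.TraceDensity
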