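import Mathlib
import Fermat.Agent.Cor.TraceDensity

/-!
# The distribution of the traces of Frobenius modulo a prime

Let `W` be a semistable elliptic curve over `ℚ` and `ℓ` an odd prime such that `W[ℓ]` is irreducible (all primes
`ℓ ≥ 17` will do). The pairs `(a_p, p)` modulo `ℓ` are distributed like the pairs `(tr M, det M)` for `M` in
`GL₂(𝔽_ℓ)`: the set of the primes `p` for which `(a_p, p)` modulo `ℓ` is in a given set has a Dirichlet density, namely
the proportion of the matrices `M` for which `(tr M, det M)` is in this set.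

This file is not used by any of the statement files.
-/

set_option autoImplicit false
set_option linter.unusedSectionVars false
set_option linter.style.haveILetI false

open scoped Classical nonZeroDivisors Topology Pointwise

namespace Fermat.Agent.Cor.TraceDensity

open NumberField Filter Module IntermediateField Fermat.Agent.CFT Fermat.Agent.H03
  Fermat.Agent.ZC Fermat.Agent.DS Fermat.Agent.Cor.Cheb

local notation "Qb" => AlgebraicClosure ℚ
local notation "Γq" => AlgebraicClosure ℚ ≃ₐ[ℚ] AlgebraicClosure ℚ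

noncomputable section

/-- **Chebotarev's theorem** for sets of primes defined by their Frobenius elements, up to a finite set of primes -/
theorem tendsto_density (E : IntermediateField ℚ Qb) [NumberField E] [IsGalois ℚ E]
    (S : Set Gal(E/ℚ)) (T B : Set ℕ) (hB : B.Finite)
    (hT : ∀ p : ℕ, p.Prime → p ∉ B → ∃ g₀ : Gal(E/ℚ),
      (p ∈ T → ∀ h : Gal(E/ℚ), h * g₀ * h⁻¹ ∈ S) ∧ (p ∉ T → ∀ h : Gal(E/ℚ), h * g₀ * h⁻¹ ∉ S) ∧
        ∀ h : Gal(E/ℚ), p ∈ FrobSet (h * g₀ * h⁻¹)) :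
    Tendsto (fun s : ℝ => qsum T s / qsum Set.univ s) (𝓝[>] 1)
      (𝓝 ((Nat.card S : ℝ) / Nat.card Gal(E/ℚ))) := by
  have hG0 : (0 : ℝ) < Nat.card Gal(E/ℚ) := by exact_mod_cast Nat.card_pos
  have hup : ∀ ε : ℝ, 0 < ε → ∀ᶠ s in 𝓝[>] (1 : ℝ),
      qsum T s / qsum Set.univ s ≤ (Nat.card S : ℝ) / Nat.card Gal(E/ℚ) + ε := by
    intro ε hε
    refine density_le E S T B hB (fun p hp hpT hpB => ?_) hε
    obtain ⟨g₀, h1, -, h3⟩ := hT p hp hpB
    exact ⟨g₀, h1 hpT, h3⟩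
  have hlow : ∀ ε : ℝ, 0 < ε → ∀ᶠ s in 𝓝[>] (1 : ℝ),
      qsum Tᶜ s / qsum Set.univ s ≤ (Nat.card (Sᶜ : Set Gal(E/ℚ)) : ℝ) / Nat.card Gal(E/ℚ) + ε := by
    intro ε hε
    refine density_le E Sᶜ Tᶜ B hB (fun p hp hpT hpB => ?_) hε
    obtain ⟨g₀, -, h2, h3⟩ := hT p hp hpB
    exact ⟨g₀, h2 hpT, h3⟩
  have hcard : (Nat.card (Sᶜ : Set Gal(E/ℚ)) : ℝ) = Nat.card Gal(E/ℚ) - Nat.card S := by
    have h1 : Nat.card S + Nat.card (Sᶜ : Set Gal(E/ℚ)) = Nat.card Gal(E/ℚ) := by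
      rw [← Nat.card_sum]
      exact Nat.card_congr (Equiv.Set.sumCompl S)
    rw [← h1]
    push_cast
    ring
  have hadd : ∀ s : ℝ, 1 < s → qsum T s + qsum Tᶜ s = qsum Set.univ s := by
    intro s hs
    rw [qsum, qsum, qsum, ← (summable_qsum T hs).tsum_add (summable_qsum Tᶜ hs)]
    refine tsum_congr fun p => ?_
    rw [if_pos (Set.mem_univ _)]
    by_cases h : (p : ℕ) ∈ T
    · have h' : (p : ℕ) ∉ Tᶜ := fun h' => h' h
      rw [if_pos h, if_neg h', add_zero]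
    · have h' : (p : ℕ) ∈ Tᶜ := h
      rw [if_neg h, if_pos h', zero_add]
  rw [Metric.tendsto_nhds]
  intro ε hε
  filter_upwards [hup (ε / 2) (half_pos hε), hlow (ε / 2) (half_pos hε), self_mem_nhdsWithin,
    tendsto_qsum_univ.eventually_gt_atTop 0] with s h1 h2 h3 h4
  have h5 := hadd s h3
  have h6 : qsum Tᶜ s / qsum Set.univ s = 1 - qsum T s / qsum Set.univ s := by
    rw [← h5, eq_sub_iff_add_eq, ← add_div, add_comm, div_self]
    rw [h5]
    exact h4.ne'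
  rw [h6, hcard, sub_div, div_self hG0.ne'] at h2
  rw [Real.dist_eq, abs_lt]
  constructor <;> linarith

open Matrix Fermat.Agent.H11N Fermat.Agent.Ell Fermat.Agent.H12.LL Fermat.Agent.H05

/-- fibres of a surjective homomorphism of finite groups -/
theorem card_preimage_div {G H : Type*} [Group G] [Finite G] [Group H] (f : G →* H)
    (hf : Function.Surjective f) (S : Set H) :
    (Nat.card (f ⁻¹' S) : ℝ) / Nat.card G = (Nat.card S : ℝ) / Nat.card H := by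
  have hH : Finite H := Finite.of_surjective f hf
  have h1 : Nat.card G = Nat.card f.ker * Nat.card H := by
    rw [← Nat.card_congr (QuotientGroup.quotientKerEquivOfSurjective f hf).toEquiv, mul_comm]
    exact Subgroup.card_eq_card_quotient_mul_card_subgroup _
  have h2 : Nat.card (f ⁻¹' S) = Nat.card f.ker * Nat.card S := by
    rw [← Nat.card_prod]
    obtain ⟨s, hs⟩ := hf.hasRightInverse
    refine Nat.card_congr
      { toFun := fun g => (⟨g.1 * (s (f g.1))⁻¹, ?_⟩, ⟨f g.1, g.2⟩)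
        invFun := fun x => ⟨x.1.1 * s x.2.1, ?_⟩
        left_inv := fun g => ?_
        right_inv := fun x => ?_ }
    · rw [MonoidHom.mem_ker, map_mul, map_inv, hs, mul_inv_cancel]
    · rw [Set.mem_preimage, map_mul, MonoidHom.mem_ker.mp x.1.2, one_mul, hs]
      exact x.2.2
    · apply Subtype.ext
      change g.1 * (s (f g.1))⁻¹ * s (f g.1) = g.1
      rw [inv_mul_cancel_right]
    · have h3 : f (x.1.1 * s x.2.1) = x.2.1 := by
        rw [map_mul, MonoidHom.mem_ker.mp x.1.2, one_mul, hs]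
      refine Prod.ext (Subtype.ext ?_) (Subtype.ext h3)
      change x.1.1 * s x.2.1 * (s (f (x.1.1 * s x.2.1)))⁻¹ = x.1.1
      rw [h3, mul_inv_cancel_right]
  have hk : (Nat.card f.ker : ℝ) ≠ 0 := by exact_mod_cast Nat.card_pos.ne'
  rw [h1, h2, Nat.cast_mul, Nat.cast_mul, mul_div_mul_left _ _ hk]

/-- **Equidistribution** of `(a_p, p)` modulo `ℓ` for a representation with image `GL₂(𝔽_ℓ)` -/
theorem tendsto_of_surjective {ℓ : ℕ} [Fact ℓ.Prime] {D : ℕ} {a : ℕ → ℤ} (P : MRep ℓ D a)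
    (hD : D ≠ 0)
    (hsurj : ∀ M : GL (Fin 2) (ZMod ℓ), ∃ σ : Γq, P.ρ σ = (M : Matrix (Fin 2) (Fin 2) (ZMod ℓ)))
    (R : Set (ZMod ℓ × ZMod ℓ)) :
    Tendsto (fun s : ℝ => qsum {p | ((a p : ZMod ℓ), (p : ZMod ℓ)) ∈ R} s / qsum Set.univ s)
      (𝓝[>] 1) (𝓝 ((Nat.card {M : GL (Fin 2) (ZMod ℓ) //
        ((M : Matrix (Fin 2) (Fin 2) (ZMod ℓ)).trace, (M : Matrix (Fin 2) (Fin 2) (ZMod ℓ)).det) ∈ R} :
          ℝ) / Nat.card (GL (Fin 2) (ZMod ℓ)))) := by
  have hg : IsGalois ℚ Qb := H51.isGalois_Qbar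
  let E : IntermediateField ℚ Qb := normalClosure ℚ P.F Qb
  haveI : FiniteDimensional ℚ E := inferInstance
  haveI : NumberField E := { to_charZero := inferInstance, to_finiteDimensional := inferInstance }
  haveI : Normal ℚ Qb := hg.to_normal
  haveI : Normal ℚ E := normalClosure.normal ℚ P.F Qb
  haveI : IsGalois ℚ E := { to_isSeparable := inferInstance, to_normal := inferInstance }
  have hFE : P.F ≤ E := IntermediateField.le_normalClosure P.F
  let res : Γq →* Gal(E/ℚ) := AlgEquiv.restrictNormalHom E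
  have hres : Function.Surjective res := AlgEquiv.restrictNormalHom_surjective Qb
  have hker : res.ker ≤ P.ρ.toHomUnits.ker := by
    intro σ hσ
    have h1 := (mem_ker_restrict E).mp hσ
    rw [IntermediateField.mem_fixingSubgroup_iff] at h1
    rw [MonoidHom.mem_ker]
    apply Units.ext
    exact P.triv σ fun x hx => h1 x (hFE hx)
  let f : Gal(E/ℚ) →* GL (Fin 2) (ZMod ℓ) := res.liftOfSurjective hres ⟨P.ρ.toHomUnits, hker⟩
  have hf : ∀ σ : Γq, f (res σ) = P.ρ.toHomUnits σ := fun σ =>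
    MonoidHom.liftOfRightInverse_comp_apply res _ (Function.rightInverse_surjInv hres)
      ⟨P.ρ.toHomUnits, hker⟩ σ
  have hf' : ∀ σ : Γq, (f (res σ) : Matrix (Fin 2) (Fin 2) (ZMod ℓ)) = P.ρ σ := fun σ => by
    rw [hf]; rfl
  have hfs : Function.Surjective f := by
    intro M
    obtain ⟨σ, hσ⟩ := hsurj M
    refine ⟨res σ, Units.ext ?_⟩
    rw [hf', hσ]
  let S : Set (GL (Fin 2) (ZMod ℓ)) := {M | ((M : Matrix (Fin 2) (Fin 2) (ZMod ℓ)).trace,
    (M : Matrix (Fin 2) (Fin 2) (ZMod ℓ)).det) ∈ R}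
  have h1 := card_preimage_div f hfs S
  change Tendsto _ _ (𝓝 ((Nat.card S : ℝ) / Nat.card (GL (Fin 2) (ZMod ℓ))))
  rw [← h1]
  refine tendsto_density E (f ⁻¹' S) _ (D.divisors : Set ℕ) (Finset.finite_toSet _) ?_
  intro p hp hpD
  have hpD' : ¬ p ∣ D := fun h => hpD (Finset.mem_coe.mpr (Nat.mem_divisors.mpr ⟨h, hD⟩))
  obtain ⟨A, hA⟩ := exists_liesOverPrime Qb hp
  obtain ⟨φ, hφ⟩ := exists_isFrobeniusAt (L := Qb) hp hA
  have key : ∀ h : Gal(E/ℚ), ∃ (A' : ValuationSubring Qb) (φ' : Γq), A'.LiesOverPrime p ∧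
      A'.IsFrobeniusAt φ' p ∧ res φ' = h * res φ * h⁻¹ := by
    intro h
    obtain ⟨ψ, rfl⟩ := hres h
    exact ⟨ψ • A, ψ * φ * ψ⁻¹, (liesOverPrime_smul_iff ψ A p).mpr hA,
      IsFrobeniusAt.conj hp hA hφ ψ, by rw [map_mul, map_mul, map_inv]⟩
  have hmem : ∀ h : Gal(E/ℚ), h * res φ * h⁻¹ ∈ f ⁻¹' S ↔ ((a p : ZMod ℓ), (p : ZMod ℓ)) ∈ R := by
    intro h
    obtain ⟨A', φ', hA', hφ', he⟩ := key h
    rw [← he]
    change ((f (res φ') : Matrix (Fin 2) (Fin 2) (ZMod ℓ)).trace,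
      (f (res φ') : Matrix (Fin 2) (Fin 2) (ZMod ℓ)).det) ∈ R ↔ _
    rw [hf', (P.frob p hp hpD' A' hA' φ' hφ').1, (P.frob p hp hpD' A' hA' φ' hφ').2]
  refine ⟨res φ, fun hpT h => (hmem h).mpr hpT, fun hpT h hh => hpT ((hmem h).mp hh), fun h => ?_⟩
  obtain ⟨A', φ', hA', hφ', he⟩ := key h
  rw [← he]
  exact frobSet_of_isFrobeniusAt E hp hA' hφ'

/-- **The distribution of `(a_p, p)` modulo `ℓ`**: let `W` be a semistable elliptic curve over `ℚ`, `ℓ` an odd prime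
such that `W[ℓ]` is irreducible, and `R` a set of pairs of elements of `𝔽_ℓ`. The Dirichlet density of the set of the
primes `p` with `(a_p, p) mod ℓ` in `R` is the proportion of the elements `M` of `GL₂(𝔽_ℓ)` with `(tr M, det M)` in
`R`. -/
theorem equidistribution (W : WeierstrassCurve ℤ) (hΔ : W.Δ ≠ 0) (hss : W.IsSemistableModel) {ℓ : ℕ}
    (hℓ : ℓ.Prime) (hℓ2 : ℓ ≠ 2) (hirr : W.ModRepIsIrreducible ℓ) (R : Set (ZMod ℓ × ZMod ℓ)) :
    Tendsto (fun s : ℝ =>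
      (∑' p : Nat.Primes, if (((W.apOfModel p : ℤ) : ZMod ℓ), ((p : ℕ) : ZMod ℓ)) ∈ R then
        1 / ((p : ℕ) : ℝ) ^ s else 0) / ∑' p : Nat.Primes, 1 / ((p : ℕ) : ℝ) ^ s) (𝓝[>] 1)
      (𝓝 ((Nat.card {M : GL (Fin 2) (ZMod ℓ) //
        ((M : Matrix (Fin 2) (Fin 2) (ZMod ℓ)).trace, (M : Matrix (Fin 2) (Fin 2) (ZMod ℓ)).det) ∈ R} :
          ℝ) / Nat.card (GL (Fin 2) (ZMod ℓ)))) := by
  haveI : Fact ℓ.Prime := ⟨hℓ⟩
  let P : MRep ℓ (ℓ * W.Δ.natAbs) W.apOfModel := mrepCurve hΔ hirr hℓ2 (dvd_mul_right _ _)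
    (dvd_mul_left _ _)
  have hD : ℓ * W.Δ.natAbs ≠ 0 := mul_ne_zero hℓ.ne_zero (Int.natAbs_ne_zero.mpr hΔ)
  refine (tendsto_of_surjective P hD (exists_mat_eq hΔ hss hirr hℓ2) R).congr fun s => ?_
  rw [qsum, qsum]
  simp only [Set.mem_univ, if_true, Set.mem_ofPred_eq]

end

end Fermat.Agent.Cor.TraceDensity
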