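import Mathlib
import Fermat.Agent.Cor.TraceEqui

/-!
# Explicit densities for the traces of Frobenius modulo a prime

Let `W` be a semistable elliptic curve over `ℚ` and `ℓ` an odd prime such that `W[ℓ]` is irreducible.

* The density of the primes `p` with `ℓ ∣ a_p` is `ℓ / (ℓ² - 1)`.
* For `t` not divisible by `ℓ` the density of the primes `p` with `a_p ≡ t` modulo `ℓ` is
  `(ℓ² - ℓ - 1) / ((ℓ - 1)² (ℓ + 1))`.
* The density of the primes `p` for which `ℓ` divides the number of points `p + 1 - a_p` modulo `p` is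
  `(ℓ² - 2) / ((ℓ² - 1) (ℓ - 1))`.

This file is not used by any of the statement files.
-/

set_option autoImplicit false
set_option linter.unusedSectionVars false
set_option linter.style.haveILetI false

open scoped Classical Topology

namespace Fermat.Agent.Cor.TraceDensity

open Filter Matrix

noncomputable section

section count

variable {ℓ : ℕ} [hℓ : Fact ℓ.Prime]

/-- the number of roots of `a (t - a)` -/
theorem card_roots (t : ZMod ℓ) :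
    Nat.card {a : ZMod ℓ // a * (t - a) = 0} = if t = 0 then 1 else 2 := by
  have h1 : ∀ a : ZMod ℓ, a * (t - a) = 0 ↔ a ∈ ({0, t} : Finset (ZMod ℓ)) := by
    intro a
    rw [Finset.mem_insert, Finset.mem_singleton, mul_eq_zero, sub_eq_zero, eq_comm (a := t)]
  rw [Nat.card_congr (Equiv.subtypeEquivRight h1), Nat.card_eq_fintype_card, Fintype.card_coe]
  split_ifs with h
  · rw [h]; simp
  · exact Finset.card_pair (Ne.symm h)

/-- the number of singular matrices of trace `t` -/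
theorem card_singular (t : ZMod ℓ) :
    Nat.card {x : ZMod ℓ × ZMod ℓ × ZMod ℓ // x.2.1 * x.2.2 = x.1 * (t - x.1)} =
      if t = 0 then ℓ ^ 2 else ℓ ^ 2 + ℓ := by
  let e1 : {x : {x : ZMod ℓ × ZMod ℓ × ZMod ℓ // x.2.1 * x.2.2 = x.1 * (t - x.1)} // x.1.2.1 = 0} ≃
      {a : ZMod ℓ // a * (t - a) = 0} × ZMod ℓ :=
    { toFun := fun x => (⟨x.1.1.1, by rw [← x.1.2, x.2, zero_mul]⟩, x.1.1.2.2)
      invFun := fun y => ⟨⟨(y.1.1, 0, y.2), by simp only; rw [y.1.2, zero_mul]⟩, rfl⟩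
      left_inv := by
        rintro ⟨⟨⟨a, b, c⟩, h⟩, h'⟩
        simp only at h'
        subst h'
        rfl
      right_inv := fun y => rfl }
  let e2 : {x : {x : ZMod ℓ × ZMod ℓ × ZMod ℓ // x.2.1 * x.2.2 = x.1 * (t - x.1)} // ¬ x.1.2.1 = 0} ≃
      ZMod ℓ × {b : ZMod ℓ // b ≠ 0} :=
    { toFun := fun x => (x.1.1.1, ⟨x.1.1.2.1, x.2⟩)
      invFun := fun y => ⟨⟨(y.1, y.2.1, y.1 * (t - y.1) / y.2.1), by
        simp only
        rw [mul_div_cancel₀ _ y.2.2]⟩, y.2.2⟩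
      left_inv := by
        rintro ⟨⟨⟨a, b, c⟩, h⟩, h'⟩
        simp only at h h'
        apply Subtype.ext
        apply Subtype.ext
        simp only [Prod.mk.injEq, true_and]
        rw [← h, mul_div_cancel_left₀ _ h']
      right_inv := fun y => rfl }
  have h1 : Nat.card {b : ZMod ℓ // b ≠ 0} = ℓ - 1 := by
    rw [Nat.card_eq_fintype_card, Fintype.card_subtype_compl, ZMod.card]
    simp
  have h2 := Nat.card_congr (Equiv.sumCompl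
    (fun x : {x : ZMod ℓ × ZMod ℓ × ZMod ℓ // x.2.1 * x.2.2 = x.1 * (t - x.1)} => x.1.2.1 = 0))
  rw [Nat.card_sum, Nat.card_congr e1, Nat.card_congr e2, Nat.card_prod, Nat.card_prod, card_roots,
    h1, Nat.card_zmod] at h2
  rw [← h2]
  have hpos := hℓ.out.one_lt
  obtain ⟨k, hk⟩ : ∃ k, ℓ = k + 1 := ⟨ℓ - 1, by omega⟩
  split_ifs <;> (rw [hk, Nat.add_sub_cancel]; ring)

/-- **The number of invertible matrices of trace `t`** is `ℓ³ - ℓ²` for `t = 0`, and `ℓ³ - ℓ² - ℓ` for `t ≠ 0`. -/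
theorem card_GL_trace (t : ZMod ℓ) :
    Nat.card {M : GL (Fin 2) (ZMod ℓ) // (M : Matrix (Fin 2) (Fin 2) (ZMod ℓ)).trace = t} +
      (if t = 0 then ℓ ^ 2 else ℓ ^ 2 + ℓ) = ℓ ^ 3 := by
  let e : {M : GL (Fin 2) (ZMod ℓ) // (M : Matrix (Fin 2) (Fin 2) (ZMod ℓ)).trace = t} ≃
      {x : ZMod ℓ × ZMod ℓ × ZMod ℓ // ¬ x.2.1 * x.2.2 = x.1 * (t - x.1)} :=
    { toFun := fun M => ⟨((M.1 : Matrix (Fin 2) (Fin 2) (ZMod ℓ)) 0 0,
        (M.1 : Matrix (Fin 2) (Fin 2) (ZMod ℓ)) 0 1, (M.1 : Matrix (Fin 2) (Fin 2) (ZMod ℓ)) 1 0), by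
          intro h
          simp only at h
          have h1 := M.2
          rw [Matrix.trace_fin_two] at h1
          have h2 : (M.1 : Matrix (Fin 2) (Fin 2) (ZMod ℓ)).det = 0 := by
            rw [Matrix.det_fin_two]
            linear_combination (M.1 : Matrix (Fin 2) (Fin 2) (ZMod ℓ)) 0 0 * h1 - h
          exact (Matrix.isUnits_det_units M.1).ne_zero h2⟩
      invFun := fun x => ⟨GeneralLinearGroup.mkOfDetNeZero !![x.1.1, x.1.2.1; x.1.2.2, t - x.1.1] (by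
          rw [Matrix.det_fin_two_of]
          intro h
          exact x.2 (by linear_combination - h)), by
          change (!![x.1.1, x.1.2.1; x.1.2.2, t - x.1.1] : Matrix (Fin 2) (Fin 2) (ZMod ℓ)).trace = t
          rw [Matrix.trace_fin_two_of]
          ring⟩
      left_inv := by
        rintro ⟨M, hM⟩
        apply Subtype.ext
        apply Units.ext
        change (!![(M : Matrix (Fin 2) (Fin 2) (ZMod ℓ)) 0 0, (M : Matrix (Fin 2) (Fin 2) (ZMod ℓ)) 0 1;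
          (M : Matrix (Fin 2) (Fin 2) (ZMod ℓ)) 1 0, t - (M : Matrix (Fin 2) (Fin 2) (ZMod ℓ)) 0 0] :
          Matrix (Fin 2) (Fin 2) (ZMod ℓ)) = M
        rw [Matrix.trace_fin_two] at hM
        rw [← hM, add_sub_cancel_left, ← Matrix.eta_fin_two]
      right_inv := fun x => rfl }
  have h1 := Nat.card_congr (Equiv.sumCompl
    (fun x : ZMod ℓ × ZMod ℓ × ZMod ℓ => x.2.1 * x.2.2 = x.1 * (t - x.1)))
  rw [Nat.card_sum, card_singular, ← Nat.card_congr e, Nat.card_prod, Nat.card_prod, Nat.card_zmod] at h1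
  rw [add_comm, h1]
  ring

/-- **The number of invertible matrices with eigenvalue `1`** is `ℓ³ - 2 ℓ`. -/
theorem card_GL_eigenvalue_one :
    Nat.card {M : GL (Fin 2) (ZMod ℓ) // 1 - (M : Matrix (Fin 2) (Fin 2) (ZMod ℓ)).trace +
      (M : Matrix (Fin 2) (Fin 2) (ZMod ℓ)).det = 0} + 2 * ℓ = ℓ ^ 3 := by
  let e : {M : GL (Fin 2) (ZMod ℓ) // 1 - (M : Matrix (Fin 2) (Fin 2) (ZMod ℓ)).trace +
      (M : Matrix (Fin 2) (Fin 2) (ZMod ℓ)).det = 0} ≃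
      (Σ t : {t : ZMod ℓ // t ≠ -1}, {x : ZMod ℓ × ZMod ℓ × ZMod ℓ // x.2.1 * x.2.2 = x.1 * (t.1 - x.1)}) :=
    { toFun := fun M => ⟨⟨(M.1 : Matrix (Fin 2) (Fin 2) (ZMod ℓ)).trace - 2, by
          intro h
          have h1 := M.2
          have h2 : (M.1 : Matrix (Fin 2) (Fin 2) (ZMod ℓ)).det = 0 := by linear_combination h1 + h
          exact (Matrix.isUnits_det_units M.1).ne_zero h2⟩,
        ⟨((M.1 : Matrix (Fin 2) (Fin 2) (ZMod ℓ)) 0 0 - 1,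
          (M.1 : Matrix (Fin 2) (Fin 2) (ZMod ℓ)) 0 1, (M.1 : Matrix (Fin 2) (Fin 2) (ZMod ℓ)) 1 0), by
          have h1 := M.2
          rw [Matrix.trace_fin_two, Matrix.det_fin_two] at h1
          simp only
          rw [Matrix.trace_fin_two]
          linear_combination - h1⟩⟩
      invFun := fun y => ⟨GeneralLinearGroup.mkOfDetNeZero
          !![y.2.1.1 + 1, y.2.1.2.1; y.2.1.2.2, y.1.1 - y.2.1.1 + 1] (by
          rw [Matrix.det_fin_two_of]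
          intro h
          have h1 := y.2.2
          exact y.1.2 (by linear_combination h + h1)), by
          change 1 - (!![y.2.1.1 + 1, y.2.1.2.1; y.2.1.2.2, y.1.1 - y.2.1.1 + 1] :
            Matrix (Fin 2) (Fin 2) (ZMod ℓ)).trace + (!![y.2.1.1 + 1, y.2.1.2.1; y.2.1.2.2,
            y.1.1 - y.2.1.1 + 1] : Matrix (Fin 2) (Fin 2) (ZMod ℓ)).det = 0
          rw [Matrix.trace_fin_two_of, Matrix.det_fin_two_of]
          have h1 := y.2.2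
          linear_combination - h1⟩
      left_inv := by
        rintro ⟨M, hM⟩
        apply Subtype.ext
        apply Units.ext
        change (!![(M : Matrix (Fin 2) (Fin 2) (ZMod ℓ)) 0 0 - 1 + 1,
          (M : Matrix (Fin 2) (Fin 2) (ZMod ℓ)) 0 1; (M : Matrix (Fin 2) (Fin 2) (ZMod ℓ)) 1 0,
          (M : Matrix (Fin 2) (Fin 2) (ZMod ℓ)).trace - 2 -
            ((M : Matrix (Fin 2) (Fin 2) (ZMod ℓ)) 0 0 - 1) + 1] :
          Matrix (Fin 2) (Fin 2) (ZMod ℓ)) = M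
        rw [Matrix.trace_fin_two, sub_add_cancel,
          show (M : Matrix (Fin 2) (Fin 2) (ZMod ℓ)) 0 0 + (M : Matrix (Fin 2) (Fin 2) (ZMod ℓ)) 1 1 - 2 -
            ((M : Matrix (Fin 2) (Fin 2) (ZMod ℓ)) 0 0 - 1) + 1 =
            (M : Matrix (Fin 2) (Fin 2) (ZMod ℓ)) 1 1 by ring, ← Matrix.eta_fin_two]
      right_inv := by
        rintro ⟨⟨t, ht⟩, ⟨⟨a, b, c⟩, h⟩⟩
        have h1 : (!![a + 1, b; c, t - a + 1] : Matrix (Fin 2) (Fin 2) (ZMod ℓ)).trace - 2 = t := by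
          rw [Matrix.trace_fin_two_of]; ring
        have h2 : a + 1 - 1 = a := by ring
        refine Sigma.ext (Subtype.ext h1) ?_
        refine (Subtype.heq_iff_coe_eq ?_).mpr ?_
        · intro x
          change x.2.1 * x.2.2 = x.1 * ((!![a + 1, b; c, t - a + 1] :
            Matrix (Fin 2) (Fin 2) (ZMod ℓ)).trace - 2 - x.1) ↔ x.2.1 * x.2.2 = x.1 * (t - x.1)
          rw [h1]
        · change ((a + 1 - 1, b, c) : ZMod ℓ × ZMod ℓ × ZMod ℓ) = (a, b, c)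
          rw [h2] }
  have hpos := hℓ.out.one_lt
  rw [Nat.card_congr e, Nat.card_sigma]
  have h1 : ∑ t : {t : ZMod ℓ // t ≠ -1}, Nat.card {x : ZMod ℓ × ZMod ℓ × ZMod ℓ //
      x.2.1 * x.2.2 = x.1 * (t.1 - x.1)} + ∑ t : {t : ZMod ℓ // t ≠ -1}, (if t.1 = 0 then ℓ else 0) =
      (ℓ - 1) * (ℓ ^ 2 + ℓ) := by
    rw [← Finset.sum_add_distrib]
    have h2 : ∀ t : {t : ZMod ℓ // t ≠ -1}, Nat.card {x : ZMod ℓ × ZMod ℓ × ZMod ℓ //
        x.2.1 * x.2.2 = x.1 * (t.1 - x.1)} + (if t.1 = 0 then ℓ else 0) = ℓ ^ 2 + ℓ := by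
      intro t
      rw [card_singular]
      split_ifs <;> ring
    rw [Finset.sum_congr rfl fun t _ => h2 t, Finset.sum_const, smul_eq_mul, Finset.card_univ,
      Fintype.card_subtype_compl, ZMod.card]
    simp
  have h3 : ∑ t : {t : ZMod ℓ // t ≠ -1}, (if t.1 = 0 then ℓ else 0) = ℓ := by
    have h4 : (0 : ZMod ℓ) ≠ -1 := by
      intro h
      have : (1 : ZMod ℓ) = 0 := by linear_combination h
      exact one_ne_zero this
    have h5 : ∀ t : {t : ZMod ℓ // t ≠ -1}, (if t.1 = 0 then ℓ else 0) =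
        if t = (⟨0, h4⟩ : {t : ZMod ℓ // t ≠ -1}) then ℓ else 0 := by
      intro t
      by_cases h : t.1 = 0
      · rw [if_pos h, if_pos (Subtype.ext h)]
      · rw [if_neg h, if_neg (fun h' => h (congrArg Subtype.val h'))]
    rw [Finset.sum_congr rfl fun t _ => h5 t, Finset.sum_ite_eq' Finset.univ, if_pos (Finset.mem_univ _)]
  rw [h3] at h1
  obtain ⟨k, hk⟩ : ∃ k, ℓ = k + 1 := ⟨ℓ - 1, by omega⟩
  have h4 : (ℓ - 1) * (ℓ ^ 2 + ℓ) + ℓ = ℓ ^ 3 := by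
    rw [hk, Nat.add_sub_cancel]; ring
  omega

end count

section density

variable (W : WeierstrassCurve ℤ) (hΔ : W.Δ ≠ 0) (hss : W.IsSemistableModel) {ℓ : ℕ}
  (hℓ : ℓ.Prime) (hℓ2 : ℓ ≠ 2) (hirr : W.ModRepIsIrreducible ℓ)

include hΔ hss hℓ hℓ2 hirr

/-- **The density of the primes `p` with `ℓ ∣ a_p` is `ℓ / (ℓ² - 1)`.** -/
theorem density_dvd_trace :
    Tendsto (fun s : ℝ =>
      (∑' p : Nat.Primes, if (ℓ : ℤ) ∣ W.apOfModel p then 1 / ((p : ℕ) : ℝ) ^ s else 0) /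
        ∑' p : Nat.Primes, 1 / ((p : ℕ) : ℝ) ^ s) (𝓝[>] 1) (𝓝 ((ℓ : ℝ) / ((ℓ : ℝ) ^ 2 - 1))) := by
  haveI : Fact ℓ.Prime := ⟨hℓ⟩
  have h := equidistribution W hΔ hss hℓ hℓ2 hirr {x | x.1 = 0}
  have hℓ3 : (2 : ℝ) ≤ ℓ := by exact_mod_cast hℓ.two_le
  have hval : (Nat.card {M : GL (Fin 2) (ZMod ℓ) //
      ((M : Matrix (Fin 2) (Fin 2) (ZMod ℓ)).trace, (M : Matrix (Fin 2) (Fin 2) (ZMod ℓ)).det) ∈
        ({x | x.1 = 0} : Set (ZMod ℓ × ZMod ℓ))} : ℝ) / Nat.card (GL (Fin 2) (ZMod ℓ)) =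
      (ℓ : ℝ) / ((ℓ : ℝ) ^ 2 - 1) := by
    have h1 := card_GL_trace (ℓ := ℓ) 0
    rw [if_pos rfl] at h1
    have h2 : (Nat.card {M : GL (Fin 2) (ZMod ℓ) // (M : Matrix (Fin 2) (Fin 2) (ZMod ℓ)).trace = 0} : ℝ) =
        (ℓ : ℝ) ^ 3 - (ℓ : ℝ) ^ 2 := by
      rw [eq_sub_iff_add_eq]
      exact_mod_cast h1
    change (Nat.card {M : GL (Fin 2) (ZMod ℓ) // (M : Matrix (Fin 2) (Fin 2) (ZMod ℓ)).trace = 0} : ℝ) / _ = _
    rw [h2, card_GL_two]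
    have h3 : (ℓ : ℝ) ^ 2 - 1 ≠ 0 := by nlinarith
    have h4 : (ℓ : ℝ) ^ 2 - ℓ ≠ 0 := by nlinarith
    rw [div_eq_div_iff (mul_ne_zero h3 h4) h3]
    ring
  rw [hval] at h
  refine h.congr fun s => ?_
  congr 1
  refine tsum_congr fun p => ?_
  have h5 : ((((W.apOfModel p : ℤ) : ZMod ℓ), ((p : ℕ) : ZMod ℓ)) ∈
      ({x | x.1 = 0} : Set (ZMod ℓ × ZMod ℓ))) ↔ (ℓ : ℤ) ∣ W.apOfModel p :=
    ZMod.intCast_zmod_eq_zero_iff_dvd _ _
  by_cases h6 : (ℓ : ℤ) ∣ W.apOfModel p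
  · rw [if_pos h6, if_pos (h5.mpr h6)]
  · rw [if_neg h6, if_neg (fun h7 => h6 (h5.mp h7))]

/-- **The density of the primes `p` with `a_p ≡ t` modulo `ℓ`**, `ℓ ∤ t`, is `(ℓ² - ℓ - 1) / ((ℓ - 1)² (ℓ + 1))`. -/
theorem density_trace_mod {t : ℤ} (ht : ¬ (ℓ : ℤ) ∣ t) :
    Tendsto (fun s : ℝ =>
      (∑' p : Nat.Primes, if (ℓ : ℤ) ∣ W.apOfModel p - t then 1 / ((p : ℕ) : ℝ) ^ s else 0) /
        ∑' p : Nat.Primes, 1 / ((p : ℕ) : ℝ) ^ s) (𝓝[>] 1)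
      (𝓝 (((ℓ : ℝ) ^ 2 - ℓ - 1) / (((ℓ : ℝ) - 1) ^ 2 * (ℓ + 1)))) := by
  haveI : Fact ℓ.Prime := ⟨hℓ⟩
  have ht' : (t : ZMod ℓ) ≠ 0 := fun h => ht ((ZMod.intCast_zmod_eq_zero_iff_dvd _ _).mp h)
  have h := equidistribution W hΔ hss hℓ hℓ2 hirr {x | x.1 = (t : ZMod ℓ)}
  have hℓ3 : (2 : ℝ) ≤ ℓ := by exact_mod_cast hℓ.two_le
  have hval : (Nat.card {M : GL (Fin 2) (ZMod ℓ) //
      ((M : Matrix (Fin 2) (Fin 2) (ZMod ℓ)).trace, (M : Matrix (Fin 2) (Fin 2) (ZMod ℓ)).det) ∈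
        ({x | x.1 = (t : ZMod ℓ)} : Set (ZMod ℓ × ZMod ℓ))} : ℝ) / Nat.card (GL (Fin 2) (ZMod ℓ)) =
      ((ℓ : ℝ) ^ 2 - ℓ - 1) / (((ℓ : ℝ) - 1) ^ 2 * (ℓ + 1)) := by
    have h1 := card_GL_trace (ℓ := ℓ) (t : ZMod ℓ)
    rw [if_neg ht'] at h1
    have h2 : (Nat.card {M : GL (Fin 2) (ZMod ℓ) //
        (M : Matrix (Fin 2) (Fin 2) (ZMod ℓ)).trace = (t : ZMod ℓ)} : ℝ) =
        (ℓ : ℝ) ^ 3 - ((ℓ : ℝ) ^ 2 + ℓ) := by
      rw [eq_sub_iff_add_eq]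
      exact_mod_cast h1
    change (Nat.card {M : GL (Fin 2) (ZMod ℓ) //
      (M : Matrix (Fin 2) (Fin 2) (ZMod ℓ)).trace = (t : ZMod ℓ)} : ℝ) / _ = _
    rw [h2, card_GL_two]
    have h3 : (ℓ : ℝ) ^ 2 - 1 ≠ 0 := by nlinarith
    have h4 : (ℓ : ℝ) ^ 2 - ℓ ≠ 0 := by nlinarith
    have h5 : (ℓ : ℝ) - 1 ≠ 0 := by linarith
    have h6 : (ℓ : ℝ) + 1 ≠ 0 := by linarith
    rw [div_eq_div_iff (mul_ne_zero h3 h4) (mul_ne_zero (pow_ne_zero _ h5) h6)]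
    ring
  rw [hval] at h
  refine h.congr fun s => ?_
  congr 1
  refine tsum_congr fun p => ?_
  have h5 : ((((W.apOfModel p : ℤ) : ZMod ℓ), ((p : ℕ) : ZMod ℓ)) ∈
      ({x | x.1 = (t : ZMod ℓ)} : Set (ZMod ℓ × ZMod ℓ))) ↔ (ℓ : ℤ) ∣ W.apOfModel p - t := by
    rw [← ZMod.intCast_zmod_eq_zero_iff_dvd, Int.cast_sub, sub_eq_zero]
    exact Iff.rfl
  by_cases h6 : (ℓ : ℤ) ∣ W.apOfModel p - t
  · rw [if_pos h6, if_pos (h5.mpr h6)]
  · rw [if_neg h6, if_neg (fun h7 => h6 (h5.mp h7))]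

/-- **The density of the primes `p` for which `ℓ` divides `p + 1 - a_p`**, the number of points of `W` modulo `p` (if
`p ∤ Δ`), is `(ℓ² - 2) / ((ℓ² - 1) (ℓ - 1))`. -/
theorem density_dvd_card :
    Tendsto (fun s : ℝ =>
      (∑' p : Nat.Primes, if (ℓ : ℤ) ∣ (p : ℕ) + 1 - W.apOfModel p then 1 / ((p : ℕ) : ℝ) ^ s else 0) /
        ∑' p : Nat.Primes, 1 / ((p : ℕ) : ℝ) ^ s) (𝓝[>] 1)
      (𝓝 (((ℓ : ℝ) ^ 2 - 2) / (((ℓ : ℝ) ^ 2 - 1) * (ℓ - 1)))) := by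
  haveI : Fact ℓ.Prime := ⟨hℓ⟩
  have h := equidistribution W hΔ hss hℓ hℓ2 hirr {x | 1 - x.1 + x.2 = 0}
  have hℓ3 : (2 : ℝ) ≤ ℓ := by exact_mod_cast hℓ.two_le
  have hval : (Nat.card {M : GL (Fin 2) (ZMod ℓ) //
      ((M : Matrix (Fin 2) (Fin 2) (ZMod ℓ)).trace, (M : Matrix (Fin 2) (Fin 2) (ZMod ℓ)).det) ∈
        ({x | 1 - x.1 + x.2 = 0} : Set (ZMod ℓ × ZMod ℓ))} : ℝ) / Nat.card (GL (Fin 2) (ZMod ℓ)) =
      ((ℓ : ℝ) ^ 2 - 2) / (((ℓ : ℝ) ^ 2 - 1) * (ℓ - 1)) := by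
    have h1 := card_GL_eigenvalue_one (ℓ := ℓ)
    have h2 : (Nat.card {M : GL (Fin 2) (ZMod ℓ) // 1 - (M : Matrix (Fin 2) (Fin 2) (ZMod ℓ)).trace +
        (M : Matrix (Fin 2) (Fin 2) (ZMod ℓ)).det = 0} : ℝ) = (ℓ : ℝ) ^ 3 - 2 * ℓ := by
      rw [eq_sub_iff_add_eq]
      exact_mod_cast h1
    change (Nat.card {M : GL (Fin 2) (ZMod ℓ) // 1 - (M : Matrix (Fin 2) (Fin 2) (ZMod ℓ)).trace +
        (M : Matrix (Fin 2) (Fin 2) (ZMod ℓ)).det = 0} : ℝ) / _ = _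
    rw [h2, card_GL_two]
    have h3 : (ℓ : ℝ) ^ 2 - 1 ≠ 0 := by nlinarith
    have h4 : (ℓ : ℝ) ^ 2 - ℓ ≠ 0 := by nlinarith
    have h5 : (ℓ : ℝ) - 1 ≠ 0 := by linarith
    rw [div_eq_div_iff (mul_ne_zero h3 h4) (mul_ne_zero h3 h5)]
    ring
  rw [hval] at h
  refine h.congr fun s => ?_
  congr 1
  refine tsum_congr fun p => ?_
  have h5 : ((((W.apOfModel p : ℤ) : ZMod ℓ), ((p : ℕ) : ZMod ℓ)) ∈
      ({x | 1 - x.1 + x.2 = 0} : Set (ZMod ℓ × ZMod ℓ))) ↔ (ℓ : ℤ) ∣ (p : ℕ) + 1 - W.apOfModel p := by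
    rw [← ZMod.intCast_zmod_eq_zero_iff_dvd]
    push_cast
    change (1 - (W.apOfModel p : ZMod ℓ) + ((p : ℕ) : ZMod ℓ) = 0) ↔ _
    constructor
    · intro h; linear_combination h
    · intro h; linear_combination h
  by_cases h6 : (ℓ : ℤ) ∣ (p : ℕ) + 1 - W.apOfModel p
  · rw [if_pos h6, if_pos (h5.mpr h6)]
  · rw [if_neg h6, if_neg (fun h7 => h6 (h5.mp h7))]

end density

end

end Fermat.Agent.Cor.TraceDensity
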