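import Mathlib
import Fermat.Agent.Cor.TraceDensity
import Fermat.Agent.Cor.ChebotarevDens

/-!
# The traces of Frobenius are large for almost all primes

Let `W` be a semistable elliptic curve over `ℚ` and `B` an integer. The set of the primes `p` with `|a_p(W)| > B` has
Dirichlet density `1`.

This file is not used by any of the statement files.
-/

set_option autoImplicit false
set_option linter.unusedSectionVars false

open scoped Classical Topology

namespace Fermat.Agent.Cor.TraceDensity

open Filter Fermat.Agent.ZC Fermat.Agent.Cor.Cheb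

noncomputable section

/-- the primes with a given trace, in terms of `HasDensity` -/
theorem hasDensity_trace (W : WeierstrassCurve ℤ) (hΔ : W.Δ ≠ 0) (hss : W.IsSemistableModel)
    (c : ℤ) : HasDensity {p | W.apOfModel p = c} 0 := by
  have h := density_trace_eq_zero W hΔ hss c
  rw [HasDensity]
  refine h.congr fun s => ?_
  congr 1
  refine tsum_congr fun p => ?_
  by_cases h : W.apOfModel p = c
  · have h' : (p : ℕ) ∈ {p | W.apOfModel p = c} := h
    rw [if_pos h, if_pos h']
  · have h' : (p : ℕ) ∉ {p | W.apOfModel p = c} := h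
    rw [if_neg h, if_neg h']

/-- **The primes with bounded trace of Frobenius have density zero.** -/
theorem hasDensity_abs_le (W : WeierstrassCurve ℤ) (hΔ : W.Δ ≠ 0) (hss : W.IsSemistableModel)
    (B : ℤ) : HasDensity {p | |W.apOfModel p| ≤ B} 0 := by
  rw [hasDensity_iff]
  have hlim : Tendsto (fun s : ℝ => ∑ c ∈ Finset.Icc (-B) B,
      qsum {p | W.apOfModel p = c} s / qsum Set.univ s) (𝓝[>] 1) (𝓝 0) := by
    have h1 : (0 : ℝ) = ∑ c ∈ Finset.Icc (-B) B, 0 := by rw [Finset.sum_const_zero]
    rw [h1]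
    exact tendsto_finsetSum _ fun c _ => hasDensity_iff.mp (hasDensity_trace W hΔ hss c)
  refine squeeze_zero' ?_ ?_ hlim
  · filter_upwards [tendsto_qsum_univ.eventually_gt_atTop 0] with s hs
    exact div_nonneg (qsum_nonneg' _ _) hs.le
  · filter_upwards [tendsto_qsum_univ.eventually_gt_atTop 0, self_mem_nhdsWithin] with s hs hs1
    have hs2 : 1 < s := hs1
    rw [← Finset.sum_div]
    refine div_le_div_of_nonneg_right ?_ hs.le
    simp only [qsum]
    rw [← Summable.tsum_finsetSum fun c _ => summable_qsum {p | W.apOfModel p = c} hs2]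
    refine Summable.tsum_le_tsum (fun p => ?_) (summable_qsum _ hs2)
      (summable_sum fun c _ => summable_qsum {p | W.apOfModel p = c} hs2)
    have hp0 : 0 ≤ 1 / ((p : ℕ) : ℝ) ^ s := by positivity
    have hnn : ∀ c ∈ Finset.Icc (-B) B,
        0 ≤ (if (p : ℕ) ∈ {p | W.apOfModel p = c} then 1 / ((p : ℕ) : ℝ) ^ s else 0) := by
      intro c _
      split_ifs
      · exact hp0
      · exact le_rfl
    by_cases h : (p : ℕ) ∈ {p | |W.apOfModel p| ≤ B}
    · rw [if_pos h]
      have h2 : |W.apOfModel p| ≤ B := h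
      have h3 : W.apOfModel p ∈ Finset.Icc (-B) B := by
        rw [Finset.mem_Icc]
        exact abs_le.mp h2
      have h4 := Finset.single_le_sum hnn h3
      have h5 : (p : ℕ) ∈ {q | W.apOfModel q = W.apOfModel p} := rfl
      rw [if_pos h5] at h4
      convert h4
    · rw [if_neg h]
      have h4 := Finset.sum_nonneg hnn
      convert h4

/-- **`|a_p| > B` for almost all primes** (in the sense of Dirichlet density). -/
theorem hasDensity_lt_abs (W : WeierstrassCurve ℤ) (hΔ : W.Δ ≠ 0) (hss : W.IsSemistableModel)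
    (B : ℤ) : HasDensity {p | B < |W.apOfModel p|} 1 := by
  rw [hasDensity_iff]
  have h1 := (hasDensity_iff.mp (hasDensity_abs_le W hΔ hss B)).const_sub 1
  rw [sub_zero] at h1
  refine h1.congr' ?_
  filter_upwards [tendsto_qsum_univ.eventually_gt_atTop 0, self_mem_nhdsWithin] with s hs hs1
  have hs2 : 1 < s := hs1
  have hadd : qsum {p | |W.apOfModel p| ≤ B} s + qsum {p | B < |W.apOfModel p|} s =
      qsum Set.univ s := by
    rw [qsum, qsum, qsum, ← (summable_qsum _ hs2).tsum_add (summable_qsum _ hs2)]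
    refine tsum_congr fun p => ?_
    rw [if_pos (Set.mem_univ _)]
    by_cases h : |W.apOfModel p| ≤ B
    · have h' : (p : ℕ) ∈ {p | |W.apOfModel p| ≤ B} := h
      have h'' : (p : ℕ) ∉ {p | B < |W.apOfModel p|} := fun h2 => absurd h2 (not_lt.mpr h)
      rw [if_pos h', if_neg h'', add_zero]
    · have h' : (p : ℕ) ∉ {p | |W.apOfModel p| ≤ B} := h
      have h'' : (p : ℕ) ∈ {p | B < |W.apOfModel p|} := not_le.mp h
      rw [if_neg h', if_pos h'', zero_add]
  rw [← hadd]
  rw [← hadd] at hs
  rw [eq_comm, div_eq_iff hs.ne', sub_mul, div_mul_cancel₀ _ hs.ne']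
  ring

/-- there are infinitely many primes with `|a_p| > B` -/
theorem infinite_lt_abs (W : WeierstrassCurve ℤ) (hΔ : W.Δ ≠ 0) (hss : W.IsSemistableModel)
    (B : ℤ) : {p : ℕ | p.Prime ∧ B < |W.apOfModel p|}.Infinite := by
  intro hfin
  obtain ⟨C, hC⟩ := bddQ_finite hfin
  have h1 := hasDensity_iff.mp (hasDensity_lt_abs W hΔ hss B)
  have h2 : ∀ s, qsum {p | B < |W.apOfModel p|} s = qsum {p : ℕ | p.Prime ∧ B < |W.apOfModel p|} s := by
    intro s
    rw [qsum, qsum]
    refine tsum_congr fun p => ?_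
    by_cases h : B < |W.apOfModel p|
    · have h' : (p : ℕ) ∈ {p | B < |W.apOfModel p|} := h
      have h'' : (p : ℕ) ∈ {p : ℕ | p.Prime ∧ B < |W.apOfModel p|} := ⟨p.2, h⟩
      rw [if_pos h', if_pos h'']
    · have h' : (p : ℕ) ∉ {p | B < |W.apOfModel p|} := h
      have h'' : (p : ℕ) ∉ {p : ℕ | p.Prime ∧ B < |W.apOfModel p|} := fun h2 => h h2.2
      rw [if_neg h', if_neg h'']
  obtain ⟨s, h3, h4, h5, h6⟩ := (hC.and ((h1.eventually_const_lt (show (1 / 2 : ℝ) < 1 by norm_num)).and
    ((tendsto_qsum_univ.eventually_gt_atTop 0).and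
      (tendsto_qsum_univ.eventually_gt_atTop (2 * C))))).exists
  rw [lt_div_iff₀ h5, h2] at h4
  linarith

end

end Fermat.Agent.Cor.TraceDensity
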