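import Mathlib
import Fermat.Agent.AL.Level

/-!
# Quadratic twists of cusp forms

For a cusp form `f` of weight `k` on `Γ₀(N)` and a function `c` on `ℤ/M` with `c (d ^ 2 n) = c n` for all units `d`
(for instance a quadratic character modulo `M`) the series `∑ c(n) a_n(f) q ^ n` is a cusp form of weight `k` on
`Γ₀(N M ^ 2)`. If `f` is a normalised eigenform of weight `2` and `c = χ` a quadratic character modulo `M`, then the
twist `f ⊗ χ` is a normalised eigenform of level `N M ^ 2`.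

This file is not used by any of the statement files.
-/

set_option autoImplicit false

noncomputable section

namespace Fermat.Agent.Cor.Twist

open UpperHalfPlane Function ModularForm PowerSeries CongruenceSubgroup Filter
open ModularFormClass (qCoeff)
open scoped Manifold Topology MatrixGroups ModularForm Real
open Fermat.Agent.IntStr Fermat.Agent.AL

/-! ### Translates -/

section Translate

variable {M : ℕ} [NeZero M] {k : ℤ}

theorem M_pos : 0 < M := Nat.pos_of_ne_zero (NeZero.ne M)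

/-- the translate `f(z + u / M)` depends only on `u` modulo `M` -/
theorem translate_congr {f : ℍ → ℂ} (hf : ∀ z : ℍ, f ((1 : ℝ) +ᵥ z) = f z) {x y : ℤ}
    (h : (x : ZMod M) = (y : ZMod M)) (z : ℍ) : f (aff M M x z) = f (aff M M y z) := by
  have hM : (M : ℂ) ≠ 0 := by exact_mod_cast NeZero.ne M
  have key : ∀ (n : ℕ) (w : ℍ), f ((n : ℝ) +ᵥ w) = f w := by
    intro n
    induction n with
    | zero => intro w; simp
    | succ n ih =>
      intro w
      have : ((n + 1 : ℕ) : ℝ) +ᵥ w = (1 : ℝ) +ᵥ ((n : ℝ) +ᵥ w) := by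
        rw [vadd_vadd]; push_cast; rw [add_comm]
      rw [this, hf, ih]
  have key2 : ∀ (n : ℕ) (x : ℤ), f (aff M M (x + M * n) z) = f (aff M M x z) := by
    intro n x
    have : aff M M (x + M * n) z = (n : ℝ) +ᵥ aff M M x z := by
      apply UpperHalfPlane.ext
      rw [UpperHalfPlane.coe_vadd, coe_aff M_pos M_pos, coe_aff M_pos M_pos]
      push_cast
      field_simp
      ring
    rw [this, key]
  obtain ⟨t, ht⟩ := (ZMod.intCast_eq_intCast_iff_dvd_sub _ _ _).mp h
  rcases Int.eq_nat_or_neg t with ⟨n, rfl | rfl⟩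
  · rw [show y = x + M * n by linarith, key2]
  · rw [show x = y + M * n by linarith, key2]

/-- the slash action on a translate -/
theorem slash_translate {N : ℕ} {f : ℍ → ℂ} (hf : ∀ γ ∈ Gamma0 N, f ∣[k] γ = f) {γ : SL(2, ℤ)}
    (hγ : γ ∈ Gamma0 (N * M ^ 2)) (u : ℤ) :
    (fun z ↦ f (aff M M u z)) ∣[k] γ = fun z ↦ f (aff M M (u * γ 1 1 ^ 2) z) := by
  rw [mem_Gamma0_iff] at hγ
  obtain ⟨c, hc⟩ := hγ
  push_cast at hc
  have hdet := det_eq γ
  rw [hc] at hdet
  let δ : SL(2, ℤ) := ⟨!![γ 0 0 + u * (N * M * c),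
      γ 0 1 - u * γ 1 1 * γ 0 1 * (N * M * c) - u ^ 2 * N * c * γ 1 1 ^ 2;
      N * M ^ 2 * c, γ 1 1 - N * M * c * u * γ 1 1 ^ 2], by
    rw [Matrix.det_fin_two_of]
    linear_combination (1 - u * N * M * c * γ 1 1) * hdet⟩
  have h1 := slash_aff (k := k) f (a := M) (d := M) (a' := M) (d' := M) (b := u)
    (b' := u * γ 1 1 ^ 2) (γ := γ) (δ := δ) M_pos M_pos M_pos M_pos
    (by change _ = (γ 0 0 + u * (N * M * c)) * M; rw [hc]; ring)
    (by
      change _ = (γ 0 0 + u * (N * M * c)) * (u * γ 1 1 ^ 2) +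
        (γ 0 1 - u * γ 1 1 * γ 0 1 * (N * M * c) - u ^ 2 * N * c * γ 1 1 ^ 2) * M
      linear_combination (-(u * γ 1 1)) * hdet)
    (by change _ = (N * M ^ 2 * c) * M; rw [hc]; ring)
    (by
      change _ = (N * M ^ 2 * c) * (u * γ 1 1 ^ 2) +
        (γ 1 1 - N * M * c * u * γ 1 1 ^ 2) * M
      ring)
  rw [h1, hf δ (by rw [mem_Gamma0_iff]; exact ⟨M ^ 2 * c, by change N * M ^ 2 * c = _; ring⟩)]
  ext z
  simp

end Translate

/-! ### The twist -/

section Twist

variable {N M : ℕ} [NeZero N] [NeZero M] {k : ℤ}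

/-- the invariance of the function `c` on `ℤ/M` -/
def Inv (c : ZMod M → ℂ) : Prop := ∀ (d : (ZMod M)ˣ) (n : ZMod M), c ((d : ZMod M) ^ 2 * n) = c n

/-- the combination of translates with weights `w` -/
def comb (w : ZMod M → ℂ) (f : ℍ → ℂ) : ℍ → ℂ := fun z ↦ ∑ u : ZMod M, w u * f (aff M M u.val z)

omit [NeZero N] in
theorem one_vadd {f : ℍ → ℂ} (hf : ∀ γ ∈ Gamma0 N, f ∣[k] γ = f) (z : ℍ) :
    f ((1 : ℝ) +ᵥ z) = f z := by
  let γ : SL(2, ℤ) := ⟨!![1, 1; 0, 1], by simp [Matrix.det_fin_two_of]⟩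
  have h := congrFun (hf γ (by rw [mem_Gamma0_iff]; exact ⟨0, by change (0 : ℤ) = _; simp⟩)) z
  rw [SL_slash_apply] at h
  have hden : denom γ z = 1 := by
    rw [ModularGroup.denom_apply]
    change (((0 : ℤ) : ℂ) * z + ((1 : ℤ) : ℂ)) = 1
    simp
  have hpt : γ • z = (1 : ℝ) +ᵥ z := by
    apply UpperHalfPlane.ext
    rw [UpperHalfPlane.coe_vadd, coe_specialLinearGroup_apply]
    change ((((1 : ℤ) : ℝ) : ℂ) * z + (((1 : ℤ) : ℝ) : ℂ)) / ((((0 : ℤ) : ℝ) : ℂ) * z + (((1 : ℤ) : ℝ) : ℂ)) = _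
    simp
    ring
  rw [hden, hpt] at h
  simpa using h

omit [NeZero N] in
theorem comb_slash {w : ZMod M → ℂ} (hw : Inv w) {f : ℍ → ℂ} (hf : ∀ γ ∈ Gamma0 N, f ∣[k] γ = f)
    {γ : SL(2, ℤ)} (hγ : γ ∈ Gamma0 (N * M ^ 2)) : comb w f ∣[k] γ = comb w f := by
  have hper := one_vadd hf
  have h1 : comb w f ∣[k] γ = ∑ u : ZMod M, w u • ((fun z ↦ f (aff M M u.val z)) ∣[k] γ) := by
    have : comb w f = ∑ u : ZMod M, w u • (fun z ↦ f (aff M M u.val z)) := by
      ext z
      simp [comb, Finset.sum_apply]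
    rw [this, SL_slash, SlashAction.sum_slash]
    refine Finset.sum_congr rfl fun u _ => ?_
    rw [← SL_slash, ModularForm.SL_smul_slash]
  rw [h1]
  have hu : IsUnit ((γ 1 1 : ℤ) : ZMod M) := by
    have hdet := det_eq γ
    rw [mem_Gamma0_iff] at hγ
    obtain ⟨c, hc⟩ := hγ
    have h2 : ((γ 0 0 * γ 1 1 - γ 0 1 * γ 1 0 : ℤ) : ZMod M) = 1 := by rw [hdet]; simp
    rw [hc] at h2
    push_cast at h2
    rw [ZMod.natCast_self] at h2
    have h3 : ((γ 1 1 : ℤ) : ZMod M) * ((γ 0 0 : ℤ) : ZMod M) = 1 := by linear_combination h2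
    exact IsUnit.of_mul_eq_one _ h3
  obtain ⟨d, hd⟩ := hu
  ext z
  rw [Finset.sum_apply]
  have h2 : ∀ u : ZMod M, (w u • ((fun z ↦ f (aff M M u.val z)) ∣[k] γ)) z =
      w ((d : ZMod M) ^ 2 * u) * f (aff M M ((d : ZMod M) ^ 2 * u).val z) := by
    intro u
    rw [slash_translate hf hγ, Pi.smul_apply, smul_eq_mul, hw d u]
    congr 1
    apply translate_congr hper
    push_cast
    rw [← hd, ZMod.natCast_zmod_val, ZMod.natCast_zmod_val, mul_comm]
  rw [Finset.sum_congr rfl fun u _ => h2 u]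
  exact Equiv.sum_comp (Units.mulLeft (d ^ 2)) (fun u : ZMod M => w u * f (aff M M u.val z))

omit [NeZero N] in
theorem comb_cuspidal (w : ZMod M → ℂ) {f : ℍ → ℂ} (hf : IsCuspidal k f) :
    IsCuspidal k (comb w f) := by
  intro γ
  have h1 : comb w f ∣[k] γ = ∑ u : ZMod M, w u • ((fun z ↦ f (aff M M u.val z)) ∣[k] γ) := by
    have : comb w f = ∑ u : ZMod M, w u • (fun z ↦ f (aff M M u.val z)) := by
      ext z
      simp [comb, Finset.sum_apply]
    rw [this, SL_slash, SlashAction.sum_slash]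
    refine Finset.sum_congr rfl fun u _ => ?_
    rw [← SL_slash, ModularForm.SL_smul_slash]
  rw [h1]
  have h2 : Tendsto (fun z ↦ ∑ u : ZMod M, w u * ((fun z ↦ f (aff M M u.val z)) ∣[k] γ) z)
      atImInfty (𝓝 (∑ u : ZMod M, w u * 0)) :=
    tendsto_finsetSum _ fun u _ => (isCuspidal_aff hf M_pos M_pos γ).const_mul (w u)
  simp only [mul_zero, Finset.sum_const_zero] at h2
  refine h2.congr fun z => ?_
  rw [Finset.sum_apply]
  rfl

omit [NeZero N] in
theorem comb_holo (w : ZMod M → ℂ) {f : ℍ → ℂ} (hf : MDiff f) : MDiff (comb w f) := by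
  rw [UpperHalfPlane.mdifferentiable_iff]
  have h1 : ∀ u : ZMod M, DifferentiableOn ℂ ((fun z ↦ f (aff M M u.val z)) ∘ ofComplex)
      {z | 0 < z.im} := fun u =>
    UpperHalfPlane.mdifferentiable_iff.mp (mdiff_comp_aff hf M_pos M_pos _)
  have h2 : comb w f ∘ ofComplex = fun z ↦ ∑ u : ZMod M,
      w u * ((fun z ↦ f (aff M M u.val z)) ∘ ofComplex) z := rfl
  rw [h2]
  exact DifferentiableOn.fun_sum fun u _ => (h1 u).const_mul (w u)

/-- the combination of translates as a cusp form -/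
def combForm {w : ZMod M → ℂ} (hw : Inv w) (f : CuspForm (Gamma0 N) k) :
    CuspForm (Gamma0 (N * M ^ 2)) k :=
  IsMN.cuspForm (N := N * M ^ 2) (f := comb w f)
    { slash := fun γ hγ => comb_slash hw (isMN_coe f).slash hγ
      holo := comb_holo w (isMN_coe f).holo
      bdd := fun _ => (comb_cuspidal w (isCuspidal_coe f) _).isBoundedAtImInfty }
    (comb_cuspidal w (isCuspidal_coe f))

theorem qParam_aff (u : ℤ) (z : ℍ) : Periodic.qParam 1 (aff M M u z) =
    Periodic.qParam 1 z * ZMod.stdAddChar (u : ZMod M) := by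
  have hM : (M : ℂ) ≠ 0 := by exact_mod_cast NeZero.ne M
  rw [Periodic.qParam, Periodic.qParam, coe_aff M_pos M_pos, ZMod.stdAddChar_coe, ← Complex.exp_add]
  congr 1
  field_simp
  push_cast
  ring

/-- the coefficients of a combination of translates -/
theorem qCoeff_combForm {w : ZMod M → ℂ} (hw : Inv w) (f : CuspForm (Gamma0 N) k) (n : ℕ) :
    qCoeff (combForm hw f) n =
      (∑ u : ZMod M, w u * ZMod.stdAddChar (u * (n : ZMod M))) * qCoeff f n := by
  have hf := coe_mem_QR f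
  have hg := coe_mem_QR (combForm hw f)
  refine qExp_unique (c := fun n ↦ (∑ u : ZMod M, w u * ZMod.stdAddChar (u * (n : ZMod M))) *
    qCoeff f n) one_pos hg (fun z ↦ ?_) n
  have h1 : ∀ u : ZMod M, HasSum (fun m ↦ w u * (qCoeff f m • Periodic.qParam 1 (aff M M u.val z) ^ m))
      (w u * f (aff M M u.val z)) := fun u =>
    (UpperHalfPlane.hasSum_qExpansion one_pos hf.1 hf.2.1 hf.2.2 (aff M M u.val z)).mul_left (w u)
  have h2 := hasSum_sum (s := Finset.univ) fun u _ => h1 u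
  have e : combForm hw f z = ∑ u : ZMod M, w u * f (aff M M u.val z) := rfl
  rw [e]
  convert h2 using 1
  ext m
  rw [Finset.sum_mul, Finset.sum_smul]
  refine Finset.sum_congr rfl fun u _ => ?_
  rw [qParam_aff, mul_pow, Int.cast_natCast, ZMod.natCast_zmod_val, ← AddChar.map_nsmul_eq_pow,
    nsmul_eq_mul, mul_comm (m : ZMod M) u]
  simp only [smul_eq_mul]
  ring

/-- **Twists.** -/
theorem exists_twist (f : CuspForm (Gamma0 N) k) {c : ZMod M → ℂ} (hc : Inv c) :
    ∃ g : CuspForm (Gamma0 (N * M ^ 2)) k, ∀ n : ℕ, qCoeff g n = c n * qCoeff f n := by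
  let w : ZMod M → ℂ := fun u => (M : ℂ)⁻¹ * ZMod.dft c u
  have hw : Inv w := by
    intro d u
    change (M : ℂ)⁻¹ * ZMod.dft c _ = (M : ℂ)⁻¹ * ZMod.dft c _
    congr 1
    have h1 := ZMod.dft_comp_unitMul c ((d⁻¹) ^ 2) u
    have h2 : (fun j => c (((d⁻¹) ^ 2 : (ZMod M)ˣ) * j)) = c := by
      ext j
      have := hc d⁻¹ j
      rw [← Units.val_pow_eq_pow_val] at this
      exact this
    rw [h2] at h1
    rw [h1]
    congr 1
  refine ⟨combForm hw f, fun n => ?_⟩
  rw [qCoeff_combForm]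
  congr 1
  have h3 : (ZMod.dft.symm (ZMod.dft c)) (n : ZMod M) = c n := by
    rw [LinearEquiv.symm_apply_apply]
  rw [ZMod.invDFT_apply] at h3
  rw [← h3, Finset.smul_sum]
  refine Finset.sum_congr rfl fun u _ => ?_
  simp only [smul_eq_mul, w]
  ring

theorem inv_of_quadratic {χ : MulChar (ZMod M) ℂ} (hχ : χ.IsQuadratic) :
    Inv (fun x : ZMod M => χ x) := by
  intro d n
  have h1 : χ (d : ZMod M) ^ 2 = 1 := by
    have h2 : χ (d : ZMod M) ≠ 0 := (d.isUnit.map χ).ne_zero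
    rcases hχ (d : ZMod M) with h | h | h
    · exact absurd h h2
    · rw [h, one_pow]
    · rw [h]; norm_num
  change χ _ = χ _
  rw [map_mul, map_pow, h1, one_mul]

/-- **Quadratic twists of eigenforms**: `f ⊗ χ` is a normalised eigenform of level `N M ^ 2`. -/
theorem eigen_twist {f : CuspForm (Gamma0 N) 2} (hf : f.IsNormalizedEigenform)
    {χ : MulChar (ZMod M) ℂ} (hχ : χ.IsQuadratic) :
    ∃ g : CuspForm (Gamma0 (N * M ^ 2)) 2, g.IsNormalizedEigenform ∧
      ∀ n : ℕ, qCoeff g n = χ n * qCoeff f n := by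
  obtain ⟨g, hg⟩ := exists_twist f (inv_of_quadratic hχ)
  refine ⟨g, ⟨?_, ?_, ?_, ?_⟩, hg⟩
  · rw [hg, hf.qCoeff_one, Nat.cast_one, map_one, one_mul]
  · intro m n hmn
    rw [hg, hg, hg, hf.qCoeff_mul_of_coprime m n hmn, Nat.cast_mul, map_mul]
    ring
  · intro p r hp hpN
    have hpN' : ¬ p ∣ N := fun h => hpN (h.mul_right _)
    have hpM : ¬ p ∣ M := fun h => hpN ((dvd_pow h two_ne_zero).mul_left _)
    have hu : IsUnit (p : ZMod M) :=
      (ZMod.isUnit_iff_coprime p M).mpr ((Nat.Prime.coprime_iff_not_dvd hp).mpr hpM)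
    have h1 : χ (p : ZMod M) ^ 2 = 1 := by
      have h2 : χ (p : ZMod M) ≠ 0 := (hu.map χ).ne_zero
      rcases hχ (p : ZMod M) with h | h | h
      · exact absurd h h2
      · rw [h, one_pow]
      · rw [h]; norm_num
    rw [hg, hg, hg, hg, hf.qCoeff_prime_pow_of_not_dvd p r hp hpN']
    push_cast
    rw [map_pow, map_pow, map_pow]
    linear_combination (-(p * χ p ^ r * qCoeff f (p ^ r))) * h1
  · intro p r hp hpN
    rw [hg, hg, hg]
    push_cast
    rw [map_pow, map_pow]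
    by_cases hpN' : p ∣ N
    · rw [hf.qCoeff_prime_pow_of_dvd p r hp hpN']
      ring
    · have hpM : p ∣ M := hp.dvd_of_dvd_pow ((Nat.Prime.dvd_mul hp).mp hpN |>.resolve_left hpN')
      have h0 : χ (p : ZMod M) = 0 := by
        apply χ.map_nonunit
        rw [ZMod.isUnit_iff_coprime]
        intro h
        exact hp.one_lt.ne' (Nat.Coprime.eq_one_of_dvd h hpM)
      rw [h0]
      ring

end Twist

end Fermat.Agent.Cor.Twist
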