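import Mathlib
import Fermat.Agent.Cor.TwistForm
import Fermat.Agent.Frob.Count
import Fermat.Agent.Main

/-!
# Modularity of the quadratic twists of semistable elliptic curves

Let `W` be a semistable integral Weierstrass equation with `Δ ≠ 0` and `d ≠ 0` an integer. The quadratic twist of `W`
by `d` is modular: if `f` is the normalised eigenform of `W`, then the twist of `f` by the Jacobi symbol `(d / ·)` is
a normalised eigenform with eigenvalues `(d / ℓ) a_ℓ(W) = a_ℓ(W_d)`.

This file is not used by any of the statement files.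
-/

set_option autoImplicit false

noncomputable section

namespace Fermat.Agent.Cor.Twist

open WeierstrassCurve
open CongruenceSubgroup
open ModularFormClass (qCoeff)

/-! ### The Jacobi symbol as a character modulo `4 |d|` -/

section Jacobi

variable {d : ℤ}

theorem mul_natAbs_ne_zero (hd : d ≠ 0) : 4 * d.natAbs ≠ 0 := by
  have := Int.natAbs_ne_zero.mpr hd
  omega

theorem odd_mod_iff (d : ℤ) (n : ℕ) : Odd (n % (4 * d.natAbs)) ↔ Odd n := by
  rw [Nat.odd_iff, Nat.odd_iff, Nat.mod_mod_of_dvd _ ⟨2 * d.natAbs, by ring⟩]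

/-- the function `n ↦ (d / n)` for odd `n`, and `0` for even `n` -/
def jac (d : ℤ) (n : ℕ) : ℤ := if Odd n then jacobiSym d n else 0

theorem jac_mod (d : ℤ) (n : ℕ) : jac d (n % (4 * d.natAbs)) = jac d n := by
  unfold jac
  by_cases h : Odd n
  · rw [if_pos h, if_pos ((odd_mod_iff d n).mpr h), ← jacobiSym.mod_right d h]
  · rw [if_neg h, if_neg (fun h' => h ((odd_mod_iff d n).mp h'))]

theorem jac_mul (d : ℤ) (m n : ℕ) : jac d (m * n) = jac d m * jac d n := by
  unfold jac
  by_cases hm : Odd m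
  · by_cases hn : Odd n
    · have : NeZero m := ⟨hm.pos.ne'⟩
      have : NeZero n := ⟨hn.pos.ne'⟩
      rw [if_pos (hm.mul hn), if_pos hm, if_pos hn, jacobiSym.mul_right]
    · rw [if_neg hn, if_neg (fun h => hn (Nat.odd_mul.mp h).2), mul_zero]
  · rw [if_neg hm, if_neg (fun h => hm (Nat.odd_mul.mp h).1), zero_mul]

theorem jac_trichotomy (d : ℤ) (n : ℕ) : jac d n = 0 ∨ jac d n = 1 ∨ jac d n = -1 := by
  unfold jac
  split_ifs
  · exact jacobiSym.trichotomy d n
  · exact Or.inl rfl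

/-- the character `(d / ·)` modulo `4 |d|` -/
def chi (hd : d ≠ 0) : MulChar (ZMod (4 * d.natAbs)) ℂ where
  toFun x := (jac d x.val : ℂ)
  map_one' := by
    have : NeZero (4 * d.natAbs) := ⟨mul_natAbs_ne_zero hd⟩
    have h1 : 4 * d.natAbs ≠ 1 := by omega
    rw [ZMod.val_one'' h1]
    simp [jac]
  map_mul' x y := by
    rw [ZMod.val_mul, jac_mod, jac_mul]
    push_cast
    rfl
  map_nonunit' x hx := by
    have hne : NeZero (4 * d.natAbs) := ⟨mul_natAbs_ne_zero hd⟩
    change (jac d x.val : ℂ) = 0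
    rw [Int.cast_eq_zero]
    unfold jac
    split_ifs with h
    · have : NeZero x.val := ⟨h.pos.ne'⟩
      rw [jacobiSym.eq_zero_iff_not_coprime]
      intro hg
      apply hx
      rw [← ZMod.natCast_zmod_val x, ZMod.isUnit_iff_coprime]
      have h2 : Nat.Coprime x.val 4 := by
        have : Nat.Coprime x.val (2 ^ 2) := Nat.Coprime.pow_right 2 (Nat.coprime_two_right.mpr h)
        exact this
      refine Nat.Coprime.mul_right h2 ?_
      have h3 : Nat.gcd d.natAbs x.val = 1 := by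
        rw [Int.gcd_eq_natAbs, Int.natAbs_natCast] at hg
        exact hg
      exact (Nat.Coprime.symm h3)
    · rfl

theorem chi_natCast (hd : d ≠ 0) (n : ℕ) : chi hd (n : ZMod (4 * d.natAbs)) = (jac d n : ℂ) := by
  change (jac d (n : ZMod (4 * d.natAbs)).val : ℂ) = _
  rw [ZMod.val_natCast, jac_mod]

theorem chi_isQuadratic (hd : d ≠ 0) : (chi hd).IsQuadratic := by
  intro x
  change (jac d x.val : ℂ) = 0 ∨ (jac d x.val : ℂ) = 1 ∨ (jac d x.val : ℂ) = -1
  rcases jac_trichotomy d x.val with h | h | h <;> rw [h] <;> simp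

theorem chi_prime (hd : d ≠ 0) {p : ℕ} [Fact p.Prime] (hp2 : p ≠ 2) :
    chi hd (p : ZMod (4 * d.natAbs)) = (legendreSym p d : ℂ) := by
  have hodd : Odd p := (Fact.out : p.Prime).odd_of_ne_two hp2
  rw [chi_natCast, jac, if_pos hodd, jacobiSym.legendreSym.to_jacobiSym]

end Jacobi

/-! ### The number of points of a curve over a finite field of odd characteristic -/

section Count

variable {F : Type*} [Field F] [Fintype F] [DecidableEq F]

/-- `4 x ^ 3 + b₂ x ^ 2 + 2 b₄ x + b₆` -/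
def psi (V : WeierstrassCurve F) (x : F) : F := 4 * x ^ 3 + V.b₂ * x ^ 2 + 2 * V.b₄ * x + V.b₆

theorem card_fib (hF : ringChar F ≠ 2) (V : WeierstrassCurve F) (x : F) :
    ((Frob.fib V.toAffine x).card : ℤ) = quadraticChar F (psi V x) + 1 := by
  rw [← quadraticChar_card_sqrts hF]
  congr 1
  have h2 : (2 : F) ≠ 0 := Ring.two_ne_zero hF
  refine Finset.card_bij' (fun y _ => 2 * y + V.a₁ * x + V.a₃)
    (fun s _ => (s - V.a₁ * x - V.a₃) / 2) ?_ ?_ ?_ ?_
  · intro y hy
    rw [Frob.mem_fib, Affine.equation_iff] at hy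
    rw [Set.mem_toFinset, Set.mem_ofPred_eq, psi]
    simp only [WeierstrassCurve.b₂, WeierstrassCurve.b₄, WeierstrassCurve.b₆]
    linear_combination 4 * hy
  · intro s hs
    rw [Set.mem_toFinset, Set.mem_ofPred_eq, psi] at hs
    simp only [WeierstrassCurve.b₂, WeierstrassCurve.b₄, WeierstrassCurve.b₆] at hs
    rw [Frob.mem_fib, Affine.equation_iff]
    have h4 : (4 : F) ≠ 0 := by
      have : (4 : F) = 2 * 2 := by norm_num
      rw [this]; exact mul_ne_zero h2 h2
    apply mul_left_cancel₀ h4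
    field_simp
    linear_combination hs
  · intro y _
    field_simp
    ring
  · intro s _
    field_simp
    ring

theorem trace_eq (hF : ringChar F ≠ 2) (V : WeierstrassCurve F) [V.IsElliptic] :
    V.traceOfFrobenius = -∑ x : F, quadraticChar F (psi V x) := by
  have h1 : (Nat.card V.toAffine.Point : ℤ) = 1 + ∑ x : F, ((Frob.fib V.toAffine x).card : ℤ) := by
    rw [Frob.card_point_eq (W := V.toAffine)]
    push_cast
    rfl
  rw [WeierstrassCurve.traceOfFrobenius, WeierstrassCurve.card, h1,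
    Finset.sum_congr rfl fun x _ => card_fib hF V x, Finset.sum_add_distrib]
  simp only [Finset.sum_const, Finset.card_univ, nsmul_eq_mul, mul_one, Nat.card_eq_fintype_card]
  ring

end Count

/-! ### Quadratic twists of Weierstrass equations -/

section Model

/-- The quadratic twist by `d`: `y ^ 2 = x ^ 3 + d b₂ x ^ 2 + 8 d ^ 2 b₄ x + 16 d ^ 3 b₆`. -/
def twist {R : Type*} [CommRing R] (V : WeierstrassCurve R) (d : R) : WeierstrassCurve R where
  a₁ := 0
  a₂ := d * V.b₂
  a₃ := 0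
  a₄ := 8 * d ^ 2 * V.b₄
  a₆ := 16 * d ^ 3 * V.b₆

variable {R : Type*} [CommRing R] (V : WeierstrassCurve R) (d : R)

@[simp] theorem twist_b₂ : (twist V d).b₂ = 4 * d * V.b₂ := by
  simp only [twist, WeierstrassCurve.b₂]; ring
@[simp] theorem twist_b₄ : (twist V d).b₄ = 16 * d ^ 2 * V.b₄ := by
  simp only [twist, WeierstrassCurve.b₄]; ring
@[simp] theorem twist_b₆ : (twist V d).b₆ = 64 * d ^ 3 * V.b₆ := by
  simp only [twist, WeierstrassCurve.b₆]; ring

theorem twist_c₄ : (twist V d).c₄ = 2 ^ 4 * d ^ 2 * V.c₄ := by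
  rw [WeierstrassCurve.c₄, twist_b₂, twist_b₄, WeierstrassCurve.c₄]; ring

theorem twist_c₆ : (twist V d).c₆ = 2 ^ 6 * d ^ 3 * V.c₆ := by
  rw [WeierstrassCurve.c₆, twist_b₂, twist_b₄, twist_b₆, WeierstrassCurve.c₆]; ring

theorem twist_Δ : (twist V d).Δ = 2 ^ 12 * d ^ 6 * V.Δ := by
  simp only [twist, WeierstrassCurve.Δ, WeierstrassCurve.b₂, WeierstrassCurve.b₄,
    WeierstrassCurve.b₆, WeierstrassCurve.b₈]
  ring

theorem twist_map {S : Type*} [CommRing S] (φ : R →+* S) :
    (twist V d).map φ = twist (V.map φ) (φ d) := by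
  ext
  · simp [twist]
  · simp [twist]
  · simp [twist]
  · change φ (8 * d ^ 2 * V.b₄) = 8 * (φ d) ^ 2 * (V.map φ).b₄
    rw [map_mul, map_mul, map_pow, WeierstrassCurve.map_b₄, ← Nat.cast_ofNat (R := R),
      map_natCast, Nat.cast_ofNat]
  · change φ (16 * d ^ 3 * V.b₆) = 16 * (φ d) ^ 3 * (V.map φ).b₆
    rw [map_mul, map_mul, map_pow, WeierstrassCurve.map_b₆, ← Nat.cast_ofNat (R := R),
      map_natCast, Nat.cast_ofNat]

end Model

section Trace

variable {F : Type*} [Field F] [Fintype F] [DecidableEq F]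

omit [Fintype F] [DecidableEq F] in
theorem psi_twist (V : WeierstrassCurve F) (d u : F) :
    psi (twist V d) (4 * d * u) = (8 * d) ^ 2 * (d * psi V u) := by
  rw [psi, psi, twist_b₂, twist_b₄, twist_b₆]; ring

theorem trace_twist (hF : ringChar F ≠ 2) (V : WeierstrassCurve F) [V.IsElliptic] {d : F}
    (hd : d ≠ 0) : (twist V d).traceOfFrobenius = quadraticChar F d * V.traceOfFrobenius := by
  have h2 : (2 : F) ≠ 0 := Ring.two_ne_zero hF
  have h4 : (4 : F) ≠ 0 := by
    have : (4 : F) = 2 * 2 := by norm_num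
    rw [this]; exact mul_ne_zero h2 h2
  have h8 : (8 : F) ≠ 0 := by
    have : (8 : F) = 2 * 4 := by norm_num
    rw [this]; exact mul_ne_zero h2 h4
  have hΔ : (twist V d).Δ ≠ 0 := by
    rw [twist_Δ]
    exact mul_ne_zero (mul_ne_zero (pow_ne_zero _ h2) (pow_ne_zero _ hd)) V.isUnit_Δ.ne_zero
  have : (twist V d).IsElliptic := ⟨hΔ.isUnit⟩
  rw [trace_eq hF, trace_eq hF, mul_neg, Finset.mul_sum]
  congr 1
  let e : F ≃ F := Equiv.mulLeft₀ (4 * d) (mul_ne_zero h4 hd)
  rw [← Equiv.sum_comp e]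
  refine Finset.sum_congr rfl fun u _ => ?_
  change quadraticChar F (psi (twist V d) (4 * d * u)) = _
  rw [psi_twist, map_mul, map_mul, map_pow, quadraticChar_sq_one (mul_ne_zero h8 hd), one_mul]

end Trace

/-! ### Modularity -/

section Main

variable (W : WeierstrassCurve ℤ)

theorem apOfModel_twist {d : ℤ} {p : ℕ} [hp : Fact p.Prime] (hp2 : p ≠ 2) (hpd : ¬ (p : ℤ) ∣ d)
    (hΔ : ¬ (p : ℤ) ∣ W.Δ) :
    (twist W d).apOfModel p = legendreSym p d * W.apOfModel p := by
  have hne : NeZero p := ⟨hp.out.ne_zero⟩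
  have hF : ringChar (ZMod p) ≠ 2 := by rw [ZMod.ringChar_zmod_n]; exact hp2
  have h1 : (twist W d).reductionMod p = twist (W.reductionMod p) (d : ZMod p) := by
    rw [WeierstrassCurve.reductionMod, twist_map]
    rfl
  have hell : (W.reductionMod p).IsElliptic := by
    refine ⟨Ne.isUnit ?_⟩
    rw [WeierstrassCurve.reductionMod, WeierstrassCurve.map_Δ, eq_intCast, Ne,
      ZMod.intCast_zmod_eq_zero_iff_dvd]
    exact hΔ
  have hd : (d : ZMod p) ≠ 0 := by rwa [Ne, ZMod.intCast_zmod_eq_zero_iff_dvd]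
  rw [WeierstrassCurve.apOfModel, h1, trace_twist hF _ hd]
  rfl

/-- **The quadratic twists of a semistable elliptic curve are modular.** -/
theorem modular_twist (hΔ : W.Δ ≠ 0) (hss : W.IsSemistableModel) {d : ℤ} (hd : d ≠ 0) :
    (twist W d).IsModularModel := by
  obtain ⟨N, hN, -, hsupp, f, hf, hfW⟩ := Main.modular_of_semistable W hΔ hss
  have : NeZero N := ⟨hN.ne'⟩
  have : NeZero (4 * d.natAbs) := ⟨mul_natAbs_ne_zero hd⟩
  obtain ⟨g, hg, hgc⟩ := eigen_twist hf (chi_isQuadratic hd)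
  refine ⟨N * (4 * d.natAbs) ^ 2,
    Nat.pos_of_ne_zero (mul_ne_zero hN.ne' (pow_ne_zero _ (mul_natAbs_ne_zero hd))), g, hg, ?_⟩
  intro p hp _ hpN
  have hfact : Fact p.Prime := ⟨hp⟩
  have h1 : ¬ p ∣ N := fun h => hpN (h.mul_right _)
  have h2 : ¬ p ∣ 4 * d.natAbs := fun h => hpN ((dvd_pow h two_ne_zero).mul_left _)
  have hp2 : p ≠ 2 := by
    rintro rfl
    exact h2 ⟨2 * d.natAbs, by ring⟩
  have hpd : ¬ (p : ℤ) ∣ d := fun h => h2 ((Int.natCast_dvd.mp h).mul_left 4)
  have hpΔ : ¬ (p : ℤ) ∣ W.Δ := fun h => h1 ((hsupp p hp).mpr h)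
  rw [hgc, chi_prime hd hp2, hfW p hp hpΔ, apOfModel_twist W hp2 hpd hpΔ]
  push_cast
  rfl

/-- An elliptic curve over `ℚ` isomorphic to a quadratic twist of a semistable one is modular. -/
theorem isModular_of_isIntegralModelOf {E : WeierstrassCurve ℚ} (hΔ : W.Δ ≠ 0)
    (hss : W.IsSemistableModel) {d : ℤ} (hd : d ≠ 0) (hE : (twist W d).IsIntegralModelOf E) :
    E.IsModular :=
  ⟨twist W d, hE, modular_twist W hΔ hss hd⟩

end Main

end Fermat.Agent.Cor.Twist
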