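import Fermat.Agent.Cor.TwistHW

/-!
# The Hasse–Weil conjecture for quadratic twists of semistable elliptic curves, even discriminants

Let `W` be a semistable integral Weierstrass equation with `Δ ≠ 0` and conductor `N`, and `d ≡ 2, 3 mod 4` squarefree with
`(2 d, Δ) = 1`. The L-function of the quadratic twist of `W` by `d` has an analytic continuation to an entire function
and satisfies the functional equation with conductor `N (4 d)²` and root number `sign(d) (d / N) w(W)`. Together with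
`Cor/TwistHW.lean` (`d ≡ 1 mod 4`) this covers the twists by all fundamental discriminants prime to `Δ`.

This file is not used by any of the statement files.
-/

set_option autoImplicit false

noncomputable section

namespace Fermat.Agent.Cor.TwistEven

open WeierstrassCurve CongruenceSubgroup
open Fermat.Agent.Cor.AffCount Fermat.Agent.Cor.Twist Fermat.Agent.Cor.LFun
open Fermat.Agent.Cor.TwistHW
open scoped NumberTheorySymbols

/-! ### Equations whose traces of Frobenius differ by a quadratic character -/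

/-- `a_p(V) = c(p) a_p(W)` for all primes `p`, with `c` completely multiplicative -/
structure IsTw (V W : WeierstrassCurve ℤ) (c : ℕ → ℤ) : Prop where
  one : c 1 = 1
  mul : ∀ m n : ℕ, c (m * n) = c m * c n
  zero_or : ∀ p : ℕ, p.Prime → c p = 0 ∨ c p ^ 2 = 1
  ap : ∀ p : ℕ, p.Prime → AffCount.ap V p = c p * AffCount.ap W p
  dvd : ∀ p : ℕ, p.Prime → ((p : ℤ) ∣ V.Δ ↔ c p = 0 ∨ (p : ℤ) ∣ W.Δ)

section IsTw

variable {V W : WeierstrassCurve ℤ} {c : ℕ → ℤ}

theorem IsTw.apk (h : IsTw V W c) {p : ℕ} (hp : p.Prime) (n : ℕ) :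
    LWeil.apk V p n = c p ^ n * LWeil.apk W p n := by
  induction n using Nat.twoStepInduction with
  | zero => rw [LWeil.apk, LWeil.apk, pow_zero, one_mul]
  | one => rw [LWeil.apk, LWeil.apk, pow_one, h.ap p hp]
  | more n h1 h2 =>
    rw [LWeil.apk, LWeil.apk, h1, h2, h.ap p hp]
    by_cases hd : c p = 0
    · rw [if_pos ((h.dvd p hp).mpr (Or.inl hd)), hd]
      ring
    · have h3 := (h.zero_or p hp).resolve_left hd
      by_cases hΔ : (p : ℤ) ∣ W.Δ
      · rw [if_pos ((h.dvd p hp).mpr (Or.inr hΔ)), if_pos hΔ]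
        ring
      · rw [if_neg (fun h' => ((h.dvd p hp).mp h').elim hd hΔ), if_neg hΔ]
        linear_combination (p * c p ^ n * LWeil.apk W p n) * h3

theorem IsTw.pow (h : IsTw V W c) (p e : ℕ) : c (p ^ e) = c p ^ e := by
  induction e with
  | zero => rw [pow_zero, pow_zero, h.one]
  | succ e ih => rw [pow_succ, pow_succ, h.mul, ih]

theorem IsTw.aN (h : IsTw V W c) (n : ℕ) : LWeil.aN V n = c n * LWeil.aN W n := by
  rw [LWeil.aN, LWeil.aN]
  split_ifs with hn
  · rw [mul_zero]
  · rw [Nat.multiplicative_factorization c (fun a b _ => h.mul a b) h.one hn, Finsupp.prod,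
      Finsupp.prod, Finsupp.prod, ← Finset.prod_mul_distrib]
    refine Finset.prod_congr rfl fun p hp' => ?_
    have hp : p.Prime := Nat.prime_of_mem_primeFactors (by rwa [Nat.support_factorization] at hp')
    rw [h.apk hp, h.pow]

theorem IsTw.eulerFactor (h : IsTw V W c) {p : ℕ} (hp : p.Prime) (X : ℂ) :
    LWeil.eulerFactor V p X = LWeil.eulerFactor W p ((c p : ℂ) * X) := by
  rw [LWeil.eulerFactor, LWeil.eulerFactor, h.ap p hp]
  push_cast
  by_cases hd : c p = 0
  · rw [if_pos ((h.dvd p hp).mpr (Or.inl hd)), hd, Int.cast_zero]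
    ring
  · have h3 : ((c p : ℤ) : ℂ) ^ 2 = 1 := by exact_mod_cast (h.zero_or p hp).resolve_left hd
    by_cases hΔ : (p : ℤ) ∣ W.Δ
    · rw [if_pos ((h.dvd p hp).mpr (Or.inr hΔ)), if_pos hΔ]
      ring
    · rw [if_neg (fun h' => ((h.dvd p hp).mp h').elim hd hΔ), if_neg hΔ]
      linear_combination (-(p : ℂ) * X ^ 2) * h3

theorem IsTw.hasseWeil (h : IsTw V W c) (hΔ : W.Δ ≠ 0) (hW : W.IsSemistableModel) {M : ℕ}
    [NeZero M] {χ : DirichletCharacter ℂ M} (hχ : χ.IsPrimitive) (hq : MulChar.IsQuadratic χ)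
    (hco : W.conductorLevel.Coprime M) (hc : ∀ n : ℕ, χ (n : ZMod M) = (c n : ℂ)) {w : ℤ}
    (hw : χ (-(W.conductorLevel : ZMod M)) = (w : ℂ)) : ∃ L Λ : ℂ → ℂ,
      HasseWeil V (W.conductorLevel * M ^ 2) (w * LWeil.rootNumber W) L Λ := by
  obtain ⟨L, Λ, h'⟩ := TwistL.isTwistHasseWeil W hΔ hW hco hχ hq
  have hfun : (fun n : ℕ => (LWeil.aN V n : ℂ)) = fun n : ℕ => χ n * (LWeil.aN W n : ℂ) :=
    funext fun n => by rw [hc, h.aN]; push_cast; rfl
  refine ⟨L, Λ, fun s hs => ?_, fun s hs => ?_, h'.differentiable_L, h'.differentiable_Λ, h'.Λ_eq,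
    fun s => ?_, h'.neg_nat, h'.strip, ?_⟩
  · rw [hfun]
    exact h'.lSeriesHasSum s hs
  · convert h'.eulerProduct s hs using 3 with p
    rw [h.eulerFactor p.2, hc]
  · rw [h'.functional_equation, hw]
    push_cast
    rfl
  · obtain ⟨r, hr, hr'⟩ := h'.parity
    refine ⟨r, hr, ?_⟩
    rw [hw] at hr'
    exact_mod_cast hr'

end IsTw

/-! ### Primitivity -/

theorem isPrimitive_of {M : ℕ} [NeZero M] {χ : DirichletCharacter ℂ M}
    (h : ∀ p m : ℕ, p.Prime → M = p * m → ∃ n : ℕ, n ≡ 1 [MOD m] ∧ χ (n : ZMod M) = -1) :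
    χ.IsPrimitive := by
  rw [DirichletCharacter.isPrimitive_def]
  obtain ⟨m, hm⟩ := χ.conductor_dvd_level
  by_contra hne
  have hm1 : m ≠ 1 := by
    rintro rfl
    exact hne (by rw [mul_one] at hm; exact hm.symm)
  obtain ⟨p, hp, hpm⟩ := Nat.exists_prime_and_dvd hm1
  obtain ⟨t, ht⟩ := hpm
  obtain ⟨n, hn, hn1⟩ := h p (χ.conductor * t) hp (hm.trans (by rw [ht]; ring))
  have hun : IsUnit (n : ZMod M) := by
    by_contra h'
    have h1 := χ.map_nonunit h'
    rw [hn1] at h1
    norm_num at h1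
  have hfac := χ.factorsThrough_conductor
  rw [DirichletCharacter.factorsThrough_iff_ker_unitsMap χ.conductor_dvd_level] at hfac
  have h2 : hun.unit ∈ (ZMod.unitsMap χ.conductor_dvd_level).ker := by
    rw [MonoidHom.mem_ker]
    ext
    rw [ZMod.unitsMap_val, IsUnit.unit_spec, Units.val_one]
    have hn3 : (n : ZMod χ.conductor) = ((1 : ℕ) : ZMod χ.conductor) := by
      rw [ZMod.natCast_eq_natCast_iff]
      exact Nat.ModEq.of_mul_right t hn
    rw [Nat.cast_one] at hn3
    rw [← hn3]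
    exact ZMod.cast_natCast χ.conductor_dvd_level n
  have h3 := hfac h2
  rw [MonoidHom.mem_ker] at h3
  have h4 := congrArg Units.val h3
  rw [MulChar.coe_toUnitHom, IsUnit.unit_spec, Units.val_one, hn1] at h4
  norm_num at h4

/-- `(d / (2 |d| + 1)) = -1` for `d ≡ 2, 3 mod 4` -/
theorem jac_two_mul {d : ℤ} (hmod : d % 4 = 2 ∨ d % 4 = 3) : J(d | 2 * d.natAbs + 1) = -1 := by
  set n := 2 * d.natAbs + 1 with hn
  have hno : Odd n := ⟨d.natAbs, hn⟩
  rcases hmod with h | h
  · obtain ⟨e, he⟩ : ∃ e : ℤ, d = 2 * e := ⟨d / 2, by omega⟩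
    have hn' : n = 4 * e.natAbs + 1 := by omega
    have h1 : J(e | n) = 1 := by
      rw [jacobiSym.mod_right _ hno, hn', Nat.add_mod_left, Nat.mod_eq_of_lt (by omega),
        jacobiSym.one_right]
    rw [he, jacobiSym.mul_left, h1, mul_one, jacobiSym.at_two hno, ZMod.χ₈_nat_eq_if_mod_eight,
      if_neg (by omega), if_neg (by omega)]
  · rcases le_or_gt 0 d with h0 | h0
    · have h2 : (d.natAbs : ℤ) = d := by omega
      have h3 : d.natAbs % 4 = 3 := by omega
      have h4 : n % 4 = 3 := by omega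
      have h5 : J((n : ℤ) | d.natAbs) = 1 := by
        rw [jacobiSym.mod_left' (a₂ := 1), jacobiSym.one_left]
        exact Int.modEq_iff_dvd.mpr ⟨-2, by rw [hn]; push_cast; ring⟩
      rw [← h2, jacobiSym.quadratic_reciprocity_three_mod_four h3 h4, h5]
    · have h2 : d = -(d.natAbs : ℤ) := by omega
      have h3 : d.natAbs % 4 = 1 := by omega
      have h4 : n % 4 = 3 := by omega
      have h5 : J((n : ℤ) | d.natAbs) = 1 := by
        rw [jacobiSym.mod_left' (a₂ := 1), jacobiSym.one_left]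
        exact Int.modEq_iff_dvd.mpr ⟨-2, by rw [hn]; push_cast; ring⟩
      rw [h2, jacobiSym.neg _ hno, ZMod.χ₄_nat_three_mod_four h4,
        jacobiSym.quadratic_reciprocity_one_mod_four h3 hno, h5]
      norm_num

theorem chi_isPrimitive {d : ℤ} (hd : d ≠ 0) (hsq : Squarefree d)
    (hmod : d % 4 = 2 ∨ d % 4 = 3) :
    haveI : NeZero (4 * d.natAbs) := ⟨mul_natAbs_ne_zero hd⟩
    DirichletCharacter.IsPrimitive (chi hd) := by
  have : NeZero (4 * d.natAbs) := ⟨mul_natAbs_ne_zero hd⟩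
  refine isPrimitive_of fun p m hp hpm => ?_
  rcases eq_or_ne p 2 with rfl | hp2
  · refine ⟨2 * d.natAbs + 1, ?_, ?_⟩
    · have hm : m = 2 * d.natAbs := by omega
      rw [hm, Nat.ModEq, Nat.add_mod_left]
    · rw [chi_natCast, jac, if_pos ⟨d.natAbs, rfl⟩, jac_two_mul hmod]
      norm_num
  · have hpF := Fact.mk hp
    have hodd : Odd p := hp.odd_of_ne_two hp2
    have hpd : p ∣ d.natAbs := by
      have h1 : p ∣ 4 * d.natAbs := ⟨m, hpm⟩
      refine (Nat.Coprime.dvd_mul_left ?_).mp h1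
      rw [show 4 = 2 ^ 2 by norm_num]
      exact (Nat.coprime_pow_right_iff two_pos _ _).mpr ((Nat.coprime_primes hp Nat.prime_two).mpr hp2)
    obtain ⟨e, he⟩ : (p : ℤ) ∣ d := Int.natCast_dvd.mpr hpd
    have hm : m = 4 * e.natAbs := by
      rw [he, Int.natAbs_mul, Int.natAbs_natCast] at hpm
      have h1 : p * m = p * (4 * e.natAbs) := by rw [← hpm]; ring
      exact Nat.eq_of_mul_eq_mul_left hp.pos h1
    have he0 : e ≠ 0 := by
      rintro rfl
      exact hd (by rw [he, mul_zero])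
    have hpe : ¬ p ∣ e.natAbs := by
      intro h
      obtain ⟨t, ht⟩ := Int.natCast_dvd.mpr h
      have h1 : (p : ℤ) * p ∣ d := ⟨t, by rw [he, ht]; ring⟩
      exact (Nat.prime_iff_prime_int.mp hp).not_isUnit (hsq _ h1)
    have hcop : Nat.Coprime p (4 * e.natAbs) := by
      rw [Nat.Prime.coprime_iff_not_dvd hp]
      intro h
      rw [Nat.Prime.dvd_mul hp, show 4 = 2 ^ 2 by norm_num] at h
      rcases h with h | h
      · exact hp2 ((Nat.prime_dvd_prime_iff_eq hp Nat.prime_two).mp (hp.dvd_of_dvd_pow h))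
      · exact hpe h
    obtain ⟨a, ha⟩ : ∃ a : ZMod p, quadraticChar (ZMod p) a = -1 :=
      quadraticChar_exists_neg_one (by rwa [ZMod.ringChar_zmod_n])
    obtain ⟨n, hn1, hn2⟩ := Nat.chineseRemainder hcop a.val 1
    have hn4 : n % 4 = 1 := by
      have h1 : n ≡ 1 [MOD 4] := Nat.ModEq.of_mul_right _ hn2
      exact h1
    have hno : Odd n := by rw [Nat.odd_iff]; omega
    have hJ1 : J((n : ℤ) | p) = -1 := by
      rw [← jacobiSym.legendreSym.to_jacobiSym, ← ha, legendreSym]
      congr 1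
      have := (ZMod.natCast_eq_natCast_iff _ _ _).mpr hn1
      rw [ZMod.natCast_zmod_val] at this
      rw [← this]
      push_cast
      rfl
    have hJ2 : J(e | n) = 1 := by
      have h1 : n % (4 * e.natAbs) = 1 := by
        have h2 : n % (4 * e.natAbs) = 1 % (4 * e.natAbs) := hn2
        rwa [Nat.mod_eq_of_lt (show 1 < 4 * e.natAbs by
          have := Int.natAbs_pos.mpr he0
          omega)] at h2
      rw [jacobiSym.mod_right _ hno, h1, jacobiSym.one_right]
    refine ⟨n, by rw [hm]; exact hn2, ?_⟩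
    rw [chi_natCast, jac, if_pos hno, he, jacobiSym.mul_left, hJ2, mul_one,
      ← jacobiSym.quadratic_reciprocity_one_mod_four hn4 hodd, hJ1]
    norm_num

/-- `(d / (4 |d| - 1)) = sign(d)` -/
theorem jac_sign {d : ℤ} (hd : d ≠ 0) : J(d | 4 * d.natAbs - 1) = d.sign := by
  have h0 : 0 < d.natAbs := Int.natAbs_pos.mpr hd
  set n := 4 * d.natAbs - 1 with hn
  have hno : Odd n := by rw [Nat.odd_iff]; omega
  have hc : (n : ℤ) = 4 * d.natAbs - 1 := by omega
  have h5 := jacobiSym.mul_left d 4 n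
  rw [jacobiSym.at_four hno, mul_one] at h5
  rw [← h5]
  rcases lt_or_gt_of_ne hd with h | h
  · have h2 : (d.natAbs : ℤ) = -d := by omega
    rw [Int.sign_eq_neg_one_of_neg h, jacobiSym.mod_left' (a₂ := -1)
      (Int.modEq_iff_dvd.mpr ⟨1, by rw [hc, h2]; ring⟩), jacobiSym.at_neg_one hno]
    exact ZMod.χ₄_nat_three_mod_four (by omega)
  · have h2 : (d.natAbs : ℤ) = d := by omega
    rw [Int.sign_eq_one_of_pos h, jacobiSym.mod_left' (a₂ := 1)
      (Int.modEq_iff_dvd.mpr ⟨-1, by rw [hc, h2]; ring⟩), jacobiSym.one_left]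

theorem chi_neg {d : ℤ} (hd : d ≠ 0) {N : ℕ} (hN : Odd N) :
    chi hd (-(N : ZMod (4 * d.natAbs))) = ((d.sign * J(d | N) : ℤ) : ℂ) := by
  have h0 : 0 < d.natAbs := Int.natAbs_pos.mpr hd
  have h1 : (-1 : ZMod (4 * d.natAbs)) = ((4 * d.natAbs - 1 : ℕ) : ZMod (4 * d.natAbs)) := by
    rw [Nat.cast_sub (by omega), Nat.cast_one, ZMod.natCast_self, zero_sub]
  have hno : Odd (4 * d.natAbs - 1) := by rw [Nat.odd_iff]; omega
  rw [← neg_one_mul, map_mul, h1, chi_natCast, chi_natCast, jac, jac, if_pos hno, if_pos hN,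
    jac_sign hd]
  push_cast
  rfl

/-! ### The twists -/

variable {W : WeierstrassCurve ℤ} {d : ℤ}

theorem psi_twist_red {p : ℕ} [Fact p.Prime] (x : ZMod p) :
    psi ((twist W d).reductionMod p) x = 4 * x ^ 3 + (4 * d * (W.b₂ : ZMod p)) * x ^ 2 +
      2 * (16 * (d : ZMod p) ^ 2 * (W.b₄ : ZMod p)) * x + 64 * (d : ZMod p) ^ 3 * (W.b₆ : ZMod p) := by
  rw [psi, reductionMod, map_b₂, map_b₄, map_b₆, twist_b₂, twist_b₄, twist_b₆]
  simp only [eq_intCast]
  push_cast
  ring

theorem ap_twist_odd {p : ℕ} [hp : Fact p.Prime] (hp2 : p ≠ 2) :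
    AffCount.ap (twist W d) p = legendreSym p d * AffCount.ap W p := by
  have hF : ringChar (ZMod p) ≠ 2 := by rwa [ZMod.ringChar_zmod_n]
  have h2 : (2 : ZMod p) ≠ 0 := Ring.two_ne_zero hF
  have h4 : (4 : ZMod p) ≠ 0 := by
    have : (4 : ZMod p) = 2 * 2 := by norm_num
    rw [this]; exact mul_ne_zero h2 h2
  have h8 : (8 : ZMod p) ≠ 0 := by
    have : (8 : ZMod p) = 2 * 4 := by norm_num
    rw [this]; exact mul_ne_zero h2 h4
  rw [ap_eq_neg_sum _ hp2, ap_eq_neg_sum _ hp2]
  by_cases hd : (d : ZMod p) = 0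
  · have h1 : legendreSym p d = 0 := by rw [legendreSym.eq_zero_iff, hd]
    rw [h1, zero_mul, neg_eq_zero]
    have h3 : ∀ x : ZMod p, quadraticChar (ZMod p) (psi ((twist W d).reductionMod p) x) =
        quadraticChar (ZMod p) x := by
      intro x
      rw [psi_twist_red, hd]
      rw [show 4 * x ^ 3 + (4 * 0 * (W.b₂ : ZMod p)) * x ^ 2 +
        2 * (16 * 0 ^ 2 * (W.b₄ : ZMod p)) * x + 64 * 0 ^ 3 * (W.b₆ : ZMod p) =
          (2 * x) ^ 2 * x by ring, map_mul, map_pow]
      rcases eq_or_ne x 0 with h | h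
      · rw [h, quadraticChar_zero, mul_zero]
      · rw [quadraticChar_sq_one (mul_ne_zero h2 h), one_mul]
    rw [Finset.sum_congr rfl fun x _ => h3 x, quadraticChar_sum_zero hF]
  · rw [mul_neg, Finset.mul_sum]
    congr 1
    let e : ZMod p ≃ ZMod p := Equiv.mulLeft₀ (4 * (d : ZMod p)) (mul_ne_zero h4 hd)
    rw [← Equiv.sum_comp e]
    refine Finset.sum_congr rfl fun u _ => ?_
    change quadraticChar (ZMod p) (psi ((twist W d).reductionMod p) (4 * (d : ZMod p) * u)) = _
    have h3 : psi ((twist W d).reductionMod p) (4 * (d : ZMod p) * u) =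
        (8 * (d : ZMod p)) ^ 2 * ((d : ZMod p) * psi (W.reductionMod p) u) := by
      rw [psi_twist_red, psi_red]
      ring
    rw [h3, map_mul, map_mul, map_pow, quadraticChar_sq_one (mul_ne_zero h8 hd), one_mul,
      legendreSym]

theorem cnt_zero : ∀ a₂ a₄ a₆ : ZMod 2, cnt 0 a₂ 0 a₄ a₆ = 2 := by decide

theorem ap_twist_two : AffCount.ap (twist W d) 2 = 0 := by
  rw [ap_two]
  have h1 : (((twist W d).a₁ : ℤ) : ZMod 2) = 0 := by simp [twist]
  have h3 : (((twist W d).a₃ : ℤ) : ZMod 2) = 0 := by simp [twist]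
  rw [h1, h3, cnt_zero]
  norm_num

theorem isTw : IsTw (twist W d) W (jac d) where
  one := by rw [jac, if_pos odd_one, jacobiSym.one_right]
  mul := jac_mul d
  zero_or p _ := by
    rcases jac_trichotomy d p with h | h | h <;> rw [h] <;> norm_num
  ap p hp := by
    have := Fact.mk hp
    rcases eq_or_ne p 2 with rfl | hp2
    · rw [ap_twist_two, jac, if_neg (by decide), zero_mul]
    · rw [ap_twist_odd hp2, jac, if_pos (hp.odd_of_ne_two hp2),
        jacobiSym.legendreSym.to_jacobiSym]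
  dvd p hp := by
    have := Fact.mk hp
    have hp' := Nat.prime_iff_prime_int.mp hp
    rw [twist_Δ, hp'.dvd_mul, hp'.dvd_mul, hp'.dvd_pow_iff_dvd (by norm_num),
      hp'.dvd_pow_iff_dvd (by norm_num)]
    rcases eq_or_ne p 2 with rfl | hp2
    · rw [jac, if_neg (by decide)]
      simp
    · have h2 : ¬ (p : ℤ) ∣ 2 := by
        intro h
        exact hp2 ((Nat.prime_dvd_prime_iff_eq hp Nat.prime_two).mp (by exact_mod_cast h))
      rw [jac, if_pos (hp.odd_of_ne_two hp2), ← jacobiSym.legendreSym.to_jacobiSym,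
        legendreSym.eq_zero_iff, ZMod.intCast_zmod_eq_zero_iff_dvd]
      tauto

/-- **The Hasse–Weil conjecture for the quadratic twists of semistable elliptic curves, even discriminants**: `W`
semistable with conductor `N`, `d ≡ 2, 3 mod 4` squarefree, `2 d` prime to `Δ`. The Hasse–Weil L-function of the quadratic
twist of `W` by `d` has an analytic continuation to an entire function and satisfies the functional equation with
conductor `N (4 d)²` and root number `sign(d) (d / N) w(W)`. -/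
theorem hasseWeil_twist (hΔ : W.Δ ≠ 0) (hW : W.IsSemistableModel) (hsq : Squarefree d)
    (hmod : d % 4 = 2 ∨ d % 4 = 3) (hco : IsCoprime (2 * d) W.Δ) : ∃ L Λ : ℂ → ℂ,
      HasseWeil (twist W d) (W.conductorLevel * (4 * d.natAbs) ^ 2)
        (d.sign * J(d | W.conductorLevel) * LWeil.rootNumber W) L Λ := by
  have hd : d ≠ 0 := by omega
  have : NeZero (4 * d.natAbs) := ⟨mul_natAbs_ne_zero hd⟩
  have hcop : W.conductorLevel.Coprime (4 * d.natAbs) := by
    refine Nat.coprime_of_dvd fun p hp h1 h2 => ?_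
    have h3 := (W.prime_dvd_conductorLevel_iff hΔ hp).mp h1
    have h4 : (p : ℤ) ∣ 2 * d := by
      rw [Nat.Prime.dvd_mul hp, show 4 = 2 ^ 2 by norm_num] at h2
      rcases h2 with h2 | h2
      · have h5 : (p : ℤ) ∣ 2 := by exact_mod_cast hp.dvd_of_dvd_pow h2
        exact h5.mul_right _
      · exact (Int.natCast_dvd.mpr h2).mul_left _
    exact (Nat.prime_iff_prime_int.mp hp).not_isUnit (hco.isUnit_of_dvd' h4 h3)
  have hNo : Odd W.conductorLevel := by
    rw [← Nat.coprime_two_right]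
    exact hcop.coprime_dvd_right ⟨2 * d.natAbs, by ring⟩
  exact isTw.hasseWeil hΔ hW (chi_isPrimitive hd hsq hmod) (chi_isQuadratic hd) hcop
    (chi_natCast hd) (chi_neg hd hNo)

/-- the absolute value of the discriminant of `ℚ(√d)`, for `d` squarefree -/
def absDisc (d : ℤ) : ℕ := if d % 4 = 1 then d.natAbs else 4 * d.natAbs

/-- **The Hasse–Weil conjecture for quadratic twists of semistable elliptic curves**: for `W` semistable with conductor
`N` and `d` squarefree such that the discriminant of `ℚ(√d)` is prime to `Δ`, the quadratic twist of `W` by `d` has an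
integral equation `V` whose Hasse–Weil L-function has an analytic continuation to an entire function and satisfies the
functional equation with conductor `N disc(ℚ(√d))²`. -/
theorem hasseWeil_quadratic (hΔ : W.Δ ≠ 0) (hW : W.IsSemistableModel) (hsq : Squarefree d)
    (hco : IsCoprime (absDisc d : ℤ) W.Δ) : ∃ (V : WeierstrassCurve ℤ) (C : VariableChange ℚ) (w : ℤ)
      (L Λ : ℂ → ℂ), C • V.map (Int.castRingHom ℚ) = (twist W d).map (Int.castRingHom ℚ) ∧
      (w = 1 ∨ w = -1) ∧ HasseWeil V (W.conductorLevel * absDisc d ^ 2) w L Λ := by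
  by_cases h1 : d % 4 = 1
  · obtain ⟨k, rfl⟩ : ∃ k : ℤ, d = 4 * k + 1 := ⟨d / 4, by omega⟩
    rw [absDisc, if_pos h1] at hco ⊢
    obtain ⟨C, hC⟩ := TwistHW.exists_variableChange W k
    have hco' : IsCoprime (4 * k + 1) W.Δ := by
      rcases Int.natAbs_eq (4 * k + 1) with h | h
      · rw [h]
        exact hco
      · rw [h]
        exact hco.neg_left
    obtain ⟨L, Λ, h⟩ := hasseWeil_tw hΔ hW hsq hco'
    obtain ⟨r, -, hr⟩ := h.parity
    exact ⟨_, C, _, L, Λ, hC, by rw [← hr]; exact neg_one_pow_eq_or ℤ r, h⟩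
  · rw [absDisc, if_neg h1] at hco ⊢
    have h4 : ¬ (4 : ℤ) ∣ d := fun h => by
      have h2 : (2 : ℤ) * 2 ∣ d := by norm_num; exact h
      have h3 := hsq 2 h2
      rw [Int.isUnit_iff] at h3
      omega
    have hco' : IsCoprime (2 * d) W.Δ := by
      push_cast at hco
      have h2 : IsCoprime (2 * 2 * |d|) W.Δ := by
        rw [show (2 * 2 * |d| : ℤ) = 4 * |d| by ring]
        exact_mod_cast hco
      have h3 : IsCoprime (2 : ℤ) W.Δ := h2.of_mul_left_left.of_mul_left_left
      have h5 : IsCoprime d W.Δ := by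
        have h6 := h2.of_mul_left_right
        rcases abs_choice d with h | h <;> rw [h] at h6
        · exact h6
        · exact (IsCoprime.neg_left_iff d W.Δ).mp h6
      exact h3.mul_left h5
    obtain ⟨L, Λ, h⟩ := hasseWeil_twist hΔ hW hsq (by omega) hco'
    obtain ⟨r, -, hr⟩ := h.parity
    exact ⟨_, 1, _, L, Λ, one_smul _ _, by rw [← hr]; exact neg_one_pow_eq_or ℤ r, h⟩

end Fermat.Agent.Cor.TwistEven
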