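import Fermat.Agent.Cor.TwistParity
import Fermat.Agent.Cor.RankPoints
import Fermat.Agent.Cor.RankMin

/-!
# Twists with a zero of odd order at `s = 1` and infinitely many rational points

The quadratic twists of the semistable curves `11a, 14a, 15a, 17a, 19a, 30a, 34a` by
`-7, -11, -7, 5, -3, -7, -3` have root number `-1`, so their L-functions vanish at `s = 1` to odd order, and each of them
has a rational point of infinite order. They are not semistable: their conductors are `N d²`.

This file is not used by any of the statement files.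
-/

set_option autoImplicit false

noncomputable section

namespace Fermat.Agent.Cor.TwistExamples

open WeierstrassCurve
open Fermat.Agent.Cor.TwistHW Fermat.Agent.Cor.TwistParity
open Fermat.Agent.Cor.RankExamples Fermat.Agent.Cor.RankPoints
open scoped NumberTheorySymbols

/-- The statement: the L-function of `V` has an analytic continuation and a functional equation with conductor `N` and root
number `-1`, it vanishes to odd order at `s = 1`, and `V` has a rational point of infinite order. -/
structure OddExample (V : WeierstrassCurve ℤ) (N : ℕ) : Prop where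
  lFunction : ∃ L Λ : ℂ → ℂ, HasseWeil V N (-1) L Λ ∧ L 1 = 0 ∧
    ∃ r : ℕ, Odd r ∧ analyticOrderAt L 1 = r
  point : HasInfinitePoint V

theorem oddExample {W : WeierstrassCurve ℤ} (hΔ : W.Δ ≠ 0) (hg : Int.gcd W.Δ W.c₄ = 1)
    {S : Finset ℕ} (hS : ∀ p ∈ S, p.Prime) (h1 : ∀ p ∈ S, (p : ℤ) ∣ W.Δ) {m : ℕ}
    (h2 : W.Δ ∣ (∏ p ∈ S, (p : ℤ)) ^ m) {N : ℕ} (hSN : ∏ p ∈ S, p = N) (hN : N < 37) {k : ℤ} {q : ℕ}
    (hq : q.Prime) (hk : (4 * k + 1).natAbs = q) (hco : Int.gcd (4 * k + 1) W.Δ = 1)
    (hJ : J(-(N : ℤ) | q) = -1) (hP : HasInfinitePoint (tw W k)) :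
    OddExample (tw W k) (N * q ^ 2) := by
  have hW := isSemistableModel hg
  have hc := (conductorLevel_eq hΔ hS h1 h2).trans hSN
  have hd : Squarefree (4 * k + 1) := by
    rw [← Int.squarefree_natAbs, hk]
    exact (Nat.prime_iff.mp hq).squarefree
  obtain ⟨L, Λ, h⟩ := hasseWeil_tw hΔ hW hd (Int.isCoprime_iff_gcd_eq_one.mpr hco)
  rw [hc, hk, hJ, RankMin.rootNumber_eq_one hΔ hW (by rw [hc]; exact hN), mul_one] at h
  obtain ⟨r, hr, hr'⟩ := h.parity
  exact ⟨⟨L, Λ, h, h.one_eq_zero, r,
    (neg_one_pow_eq_neg_one_iff_odd (by norm_num)).mp hr', hr⟩, hP⟩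

/-! ### The curves -/

/-- `11a`: `y² + y = x³ - x²`; the twist by `-7` has conductor `539` -/
def W11 : WeierstrassCurve ℤ := ⟨0, -1, 1, 0, 0⟩

theorem oddExample_539 : OddExample (tw W11 (-2)) (11 * 7 ^ 2) :=
  oddExample (S := {11}) (m := 1) (by decide) (by decide) (by simp; norm_num) (by simp; decide)
    (by simp; decide) (by simp) (by norm_num) (by norm_num) (by decide) (by decide) (by norm_num)
    (hasInfinitePoint _ (by decide) 4 9 (104 / 19) (5401 / 361) (-480118 / 6859) (by decide) (by decide)
      (by simp [tw, W11]; norm_num) (by simp [tw, W11]; norm_num) (by simp [tw, W11]; norm_num)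
      (by norm_num) (by simp [tw, W11]; norm_num))

/-- `14a`: `y² + xy + y = x³ - x`; the twist by `-11` has conductor `1694` -/
def W14 : WeierstrassCurve ℤ := ⟨1, 0, 1, -1, 0⟩

theorem oddExample_1694 : OddExample (tw W14 (-3)) (14 * 11 ^ 2) :=
  oddExample (S := {2, 7}) (m := 2) (by decide) (by decide)
    (by intro p hp; fin_cases hp <;> norm_num) (by intro p hp; fin_cases hp <;> decide)
    (by decide +kernel) (by decide) (by norm_num) (by norm_num) (by decide) (by decide)
    (by norm_num)
    (hasInfinitePoint _ (by decide) 99 918 (115 / 8) (1665 / 64) (53317 / 512)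
      (by decide) (by decide) (by simp [tw, W14]; norm_num) (by simp [tw, W14]; norm_num)
      (by simp [tw, W14]; norm_num) (by norm_num) (by simp [tw, W14]; norm_num))

/-- `15a`: `y² + xy + y = x³ + x²`; the twist by `-7` has conductor `735` -/
def W15 : WeierstrassCurve ℤ := ⟨1, 1, 1, 0, 0⟩

theorem oddExample_735 : OddExample (tw W15 (-2)) (15 * 7 ^ 2) :=
  oddExample (S := {3, 5}) (m := 1) (by decide) (by decide)
    (by intro p hp; fin_cases hp <;> norm_num) (by intro p hp; fin_cases hp <;> decide)
    (by decide +kernel) (by decide) (by norm_num) (by norm_num) (by decide) (by decide)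
    (by norm_num)
    (hasInfinitePoint _ (by decide) 16 38 (466 / 93) (61567 / 8649) (-1298932 / 804357)
      (by decide) (by decide) (by simp [tw, W15]; norm_num) (by simp [tw, W15]; norm_num)
      (by simp [tw, W15]; norm_num) (by norm_num) (by simp [tw, W15]; norm_num))

/-- `17a`: `y² + xy + y = x³ - x² - x`; the twist by `5` has conductor `425` -/
def W17 : WeierstrassCurve ℤ := ⟨1, -1, 1, -1, 0⟩

theorem oddExample_425 : OddExample (tw W17 (1)) (17 * 5 ^ 2) :=
  oddExample (S := {17}) (m := 1) (by decide) (by decide)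
    (by intro p hp; fin_cases hp <;> norm_num) (by intro p hp; fin_cases hp <;> decide)
    (by decide +kernel) (by decide) (by norm_num) (by norm_num) (by decide) (by decide)
    (by norm_num)
    (hasInfinitePoint _ (by decide) 1 3 (-21 / 8) (401 / 64) (1821 / 512)
      (by decide) (by decide) (by simp [tw, W17]; norm_num) (by simp [tw, W17]; norm_num)
      (by simp [tw, W17]; norm_num) (by norm_num) (by simp [tw, W17]; norm_num))

/-- `19a`: `y² + y = x³ + x² + x`; the twist by `-3` has conductor `171` -/
def W19 : WeierstrassCurve ℤ := ⟨0, 1, 1, 1, 0⟩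

theorem oddExample_171 : OddExample (tw W19 (-1)) (19 * 3 ^ 2) :=
  oddExample (S := {19}) (m := 1) (by decide) (by decide)
    (by intro p hp; fin_cases hp <;> norm_num) (by intro p hp; fin_cases hp <;> decide)
    (by decide +kernel) (by decide) (by norm_num) (by norm_num) (by decide) (by decide)
    (by norm_num)
    (hasInfinitePoint _ (by decide) 37 216 (3894 / 433) (1851517 / 187489) (2186579015 / 81182737)
      (by decide) (by decide) (by simp [tw, W19]; norm_num) (by simp [tw, W19]; norm_num)
      (by simp [tw, W19]; norm_num) (by norm_num) (by simp [tw, W19]; norm_num))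

/-- `30a`: `y² + xy + y = x³ + x + 2`; the twist by `-7` has conductor `1470` -/
def W30 : WeierstrassCurve ℤ := ⟨1, 0, 1, 1, 2⟩

theorem oddExample_1470 : OddExample (tw W30 (-2)) (30 * 7 ^ 2) :=
  oddExample (S := {2, 3, 5}) (m := 4) (by decide) (by decide)
    (by intro p hp; fin_cases hp <;> norm_num) (by intro p hp; fin_cases hp <;> decide)
    (by decide +kernel) (by decide) (by norm_num) (by norm_num) (by decide) (by decide)
    (by norm_num)
    (hasInfinitePoint _ (by decide) 11 28 (91 / 17) (4048 / 289) (-290372 / 4913)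
      (by decide) (by decide) (by simp [tw, W30]; norm_num) (by simp [tw, W30]; norm_num)
      (by simp [tw, W30]; norm_num) (by norm_num) (by simp [tw, W30]; norm_num))

/-- `34a`: `y² + xy = x³ - 3x + 1`; the twist by `-3` has conductor `306` -/
def W34 : WeierstrassCurve ℤ := ⟨1, 0, 0, -3, 1⟩

theorem oddExample_306 : OddExample (tw W34 (-1)) (34 * 3 ^ 2) :=
  oddExample (S := {2, 17}) (m := 6) (by decide) (by decide)
    (by intro p hp; fin_cases hp <;> norm_num) (by intro p hp; fin_cases hp <;> decide)
    (by decide +kernel) (by decide) (by norm_num) (by norm_num) (by decide) (by decide)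
    (by norm_num)
    (hasInfinitePoint _ (by decide) 7 6 (100 / 19) (7207 / 361) (-646087 / 6859)
      (by decide) (by decide) (by simp [tw, W34]; norm_num) (by simp [tw, W34]; norm_num)
      (by simp [tw, W34]; norm_num) (by norm_num) (by simp [tw, W34]; norm_num))

end Fermat.Agent.Cor.TwistExamples
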