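import Fermat.Agent.Cor.TwistL
import Fermat.Agent.Cor.TwistCurve

/-!
# The Hasse–Weil conjecture for quadratic twists of semistable elliptic curves

Let `W` be a semistable integral Weierstrass equation with `Δ ≠ 0`, `N` its conductor, and `d = 4 k + 1` squarefree and
prime to `Δ`. The quadratic twist of `W` by `d` has the integral equation `tw W k` with discriminant `d ^ 6 Δ`, and
`a_n(tw W k) = (n / |d|) a_n(W)` for all `n`. Its L-function has an analytic continuation to an entire function and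
satisfies the functional equation with conductor `N d²` and root number `(-N / |d|) w(W)`.

This file is not used by any of the statement files.
-/

set_option autoImplicit false

noncomputable section

namespace Fermat.Agent.Cor.TwistHW

open WeierstrassCurve CongruenceSubgroup
open ModularFormClass (qCoeff)
open Fermat.Agent.Cor.AffCount Fermat.Agent.Cor.Twist Fermat.Agent.Cor.LFun
open scoped NumberTheorySymbols

/-! ### The Jacobi symbol as a Dirichlet character -/

section char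

variable (D : ℕ) [NeZero D]

/-- the Jacobi symbol `(· / D)` as a Dirichlet character modulo `D` -/
def jacChar : DirichletCharacter ℂ D where
  toFun x := (J((x.val : ℤ) | D) : ℂ)
  map_one' := by
    have h : (((1 : ZMod D).val : ℕ) : ℤ) = 1 % (D : ℤ) := by
      rw [← ZMod.val_intCast, Int.cast_one]
    rw [h, ← jacobiSym.mod_left, jacobiSym.one_left, Int.cast_one]
  map_mul' x y := by
    rw [ZMod.val_mul, Int.natCast_mod, ← jacobiSym.mod_left, Nat.cast_mul, jacobiSym.mul_left,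
      Int.cast_mul]
  map_nonunit' x hx := by
    have h : J((x.val : ℤ) | D) = 0 := by
      rw [jacobiSym.eq_zero_iff_not_coprime]
      intro h
      apply hx
      rw [← ZMod.natCast_zmod_val x, ZMod.isUnit_iff_coprime]
      rwa [Int.gcd_natCast_natCast] at h
    rw [h, Int.cast_zero]

theorem jacChar_intCast (n : ℤ) : jacChar D (n : ZMod D) = (J(n | D) : ℂ) := by
  change ((J((((n : ZMod D).val : ℕ) : ℤ) | D) : ℤ) : ℂ) = _
  rw [ZMod.val_intCast, ← jacobiSym.mod_left]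

theorem jacChar_natCast (n : ℕ) : jacChar D (n : ZMod D) = (J(n | D) : ℂ) := by
  rw [← jacChar_intCast]
  push_cast
  rfl

theorem jacChar_isQuadratic : MulChar.IsQuadratic (jacChar D) := by
  intro x
  rw [← ZMod.natCast_zmod_val x, jacChar_natCast]
  rcases jacobiSym.trichotomy (x.val : ℤ) D with h | h | h <;> rw [h] <;> simp

variable {D}

theorem jacChar_isPrimitive (hD : Odd D) (hsq : Squarefree D) : (jacChar D).IsPrimitive := by
  rw [DirichletCharacter.isPrimitive_def]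
  set c := (jacChar D).conductor with hc
  have hcD : c ∣ D := (jacChar D).conductor_dvd_level
  by_contra hne
  obtain ⟨m, hm⟩ := hcD
  have hm1 : m ≠ 1 := by
    rintro rfl
    exact hne (by rw [hm, mul_one])
  obtain ⟨p, hp, hpm⟩ := Nat.exists_prime_and_dvd hm1
  have hpF := Fact.mk hp
  obtain ⟨t, ht⟩ := hpm
  have hD' : D = p * (c * t) := by rw [hm, ht]; ring
  have hp2 : p ≠ 2 := by
    rintro rfl
    rw [hD'] at hD
    exact (Nat.not_odd_iff_even.mpr (even_two_mul _)) hD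
  have hct : c * t ≠ 0 := by
    intro h
    rw [h, mul_zero] at hD'
    exact NeZero.ne D hD'
  have hcop : Nat.Coprime p (c * t) := by
    rw [Nat.Prime.coprime_iff_not_dvd hp]
    intro h
    have h1 : p * p ∣ D := by rw [hD']; exact Nat.mul_dvd_mul_left p h
    exact hp.one_lt.ne' (Nat.isUnit_iff.mp (hsq p h1))
  -- a quadratic nonresidue modulo `p`
  obtain ⟨a, ha⟩ : ∃ a : ZMod p, quadraticChar (ZMod p) a = -1 :=
    quadraticChar_exists_neg_one (by rwa [ZMod.ringChar_zmod_n])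
  obtain ⟨n, hn1, hn2⟩ := Nat.chineseRemainder hcop a.val 1
  have hJ1 : J((n : ℤ) | p) = -1 := by
    rw [← jacobiSym.legendreSym.to_jacobiSym, ← ha, legendreSym]
    congr 1
    have := (ZMod.natCast_eq_natCast_iff _ _ _).mpr hn1
    rw [ZMod.natCast_zmod_val] at this
    rw [← this]
    push_cast
    rfl
  have hJ2 : J((n : ℤ) | c * t) = 1 := by
    rw [jacobiSym.mod_left' (a₂ := 1) (by exact_mod_cast hn2), jacobiSym.one_left]
  have hJ : J((n : ℤ) | D) = -1 := by
    have : NeZero (c * t) := ⟨hct⟩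
    have h1 : J((n : ℤ) | p * (c * t)) = J((n : ℤ) | p) * J((n : ℤ) | c * t) :=
      jacobiSym.mul_right' _ hp.ne_zero hct
    rw [hD', h1, hJ1, hJ2, mul_one]
  have hun : IsUnit (n : ZMod D) := by
    by_contra h
    have h1 := (jacChar D).map_nonunit h
    rw [jacChar_natCast, hJ] at h1
    norm_num at h1
  -- the character factors through the conductor
  have hfac := (jacChar D).factorsThrough_conductor
  rw [DirichletCharacter.factorsThrough_iff_ker_unitsMap
    (jacChar D).conductor_dvd_level] at hfac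
  have h2 : hun.unit ∈ (ZMod.unitsMap (jacChar D).conductor_dvd_level).ker := by
    rw [MonoidHom.mem_ker]
    ext
    rw [ZMod.unitsMap_val, IsUnit.unit_spec, Units.val_one]
    have hn3 : (n : ZMod c) = ((1 : ℕ) : ZMod c) := by
      rw [ZMod.natCast_eq_natCast_iff]
      exact Nat.ModEq.of_mul_right t hn2
    rw [Nat.cast_one] at hn3
    rw [← hn3]
    exact ZMod.cast_natCast (jacChar D).conductor_dvd_level n
  have h3 := hfac h2
  rw [MonoidHom.mem_ker] at h3
  have h4 := congrArg Units.val h3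
  rw [MulChar.coe_toUnitHom, IsUnit.unit_spec, Units.val_one, jacChar_natCast, hJ] at h4
  norm_num at h4

end char

/-! ### Reciprocity -/

theorem natAbs_mod_eight (k : ℤ) : ((4 * k + 1).natAbs % 4 = 1 ∧ ((4 * k + 1).natAbs : ℤ) = 4 * k + 1) ∨
    ((4 * k + 1).natAbs % 4 = 3 ∧ ((4 * k + 1).natAbs : ℤ) = -(4 * k + 1)) := by
  rcases le_or_gt 0 k with h | h
  · left
    omega
  · right
    omega

theorem odd_natAbs (k : ℤ) : Odd (4 * k + 1).natAbs := by
  rw [Nat.odd_iff]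
  omega

/-- quadratic reciprocity: `(d / p) = (p / |d|)` for `d ≡ 1 mod 4` and odd primes `p` -/
theorem legendre_eq (k : ℤ) {p : ℕ} [hp : Fact p.Prime] (hp2 : p ≠ 2) :
    legendreSym p (4 * k + 1) = J((p : ℤ) | (4 * k + 1).natAbs) := by
  have hodd : Odd p := hp.out.odd_of_ne_two hp2
  rw [jacobiSym.legendreSym.to_jacobiSym]
  set D := (4 * k + 1).natAbs with hD
  rcases natAbs_mod_eight k with ⟨h1, h2⟩ | ⟨h1, h2⟩
  · rw [← h2]
    exact jacobiSym.quadratic_reciprocity_one_mod_four h1 hodd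
  · have h3 : (4 * k + 1 : ℤ) = -(D : ℤ) := by rw [h2]; ring
    rw [h3, jacobiSym.neg _ hodd]
    have hDo : Odd D := odd_natAbs k
    rcases Nat.odd_mod_four_iff.mp (Nat.odd_iff.mp hodd) with h | h
    · rw [ZMod.χ₄_nat_one_mod_four h, one_mul]
      exact (jacobiSym.quadratic_reciprocity_one_mod_four h hDo).symm
    · rw [ZMod.χ₄_nat_three_mod_four h, jacobiSym.quadratic_reciprocity_three_mod_four h1 h]
      ring

/-- the supplement: `(2 / |d|) = (-1) ^ k` for `d = 4 k + 1` -/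
theorem two_eq (k : ℤ) : J(2 | (4 * k + 1).natAbs) = if Even k then 1 else -1 := by
  rw [jacobiSym.at_two (odd_natAbs k), ZMod.χ₈_nat_eq_if_mod_eight]
  have h1 := odd_natAbs k
  rw [Nat.odd_iff] at h1
  have h2 : Even k ↔ k % 2 = 0 := Int.even_iff
  rw [if_neg (by omega)]
  by_cases h : Even k
  · rw [if_pos h, if_pos]
    rw [h2] at h
    omega
  · rw [if_neg h, if_neg]
    rw [h2] at h
    omega

/-! ### The integral model of the twist -/

/-- the quadratic twist of `W` by `d = 4 k + 1` -/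
def tw (W : WeierstrassCurve ℤ) (k : ℤ) : WeierstrassCurve ℤ where
  a₁ := W.a₁
  a₂ := k * W.a₁ ^ 2 + (4 * k + 1) * W.a₂
  a₃ := W.a₃
  a₄ := (8 * k ^ 2 + 4 * k) * (W.a₁ * W.a₃) + (4 * k + 1) ^ 2 * W.a₄
  a₆ := (16 * k ^ 3 + 12 * k ^ 2 + 3 * k) * W.a₃ ^ 2 + (4 * k + 1) ^ 3 * W.a₆

variable {W : WeierstrassCurve ℤ} {k : ℤ}

theorem tw_b₂ : (tw W k).b₂ = (4 * k + 1) * W.b₂ := by
  simp only [tw, WeierstrassCurve.b₂]; ring

theorem tw_b₄ : (tw W k).b₄ = (4 * k + 1) ^ 2 * W.b₄ := by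
  simp only [tw, WeierstrassCurve.b₄]; ring

theorem tw_b₆ : (tw W k).b₆ = (4 * k + 1) ^ 3 * W.b₆ := by
  simp only [tw, WeierstrassCurve.b₆]; ring

theorem tw_c₄ : (tw W k).c₄ = (4 * k + 1) ^ 2 * W.c₄ := by
  rw [WeierstrassCurve.c₄, tw_b₂, tw_b₄, WeierstrassCurve.c₄]; ring

theorem tw_c₆ : (tw W k).c₆ = (4 * k + 1) ^ 3 * W.c₆ := by
  rw [WeierstrassCurve.c₆, tw_b₂, tw_b₄, tw_b₆, WeierstrassCurve.c₆]; ring

theorem tw_Δ : (tw W k).Δ = (4 * k + 1) ^ 6 * W.Δ := by
  simp only [tw, WeierstrassCurve.Δ, WeierstrassCurve.b₂, WeierstrassCurve.b₄,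
    WeierstrassCurve.b₆, WeierstrassCurve.b₈]
  ring

/-- Over `ℚ` the equation `tw W k` is isomorphic to the quadratic twist
`y ^ 2 = x ^ 3 + d b₂ x ^ 2 + 8 d ^ 2 b₄ x + 16 d ^ 3 b₆` of `W` by `d = 4 k + 1`. -/
theorem exists_variableChange (W : WeierstrassCurve ℤ) (k : ℤ) : ∃ C : VariableChange ℚ,
    C • (tw W k).map (Int.castRingHom ℚ) =
      (twist W (4 * k + 1)).map (Int.castRingHom ℚ) := by
  refine ⟨⟨Units.mk0 (1 / 2) (by norm_num), 0, -W.a₁ / 2, -W.a₃ / 2⟩, ?_⟩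
  ext <;> simp [variableChange_def, tw, twist, WeierstrassCurve.b₂, WeierstrassCurve.b₄,
    WeierstrassCurve.b₆] <;> ring

/-! ### The number of points of the twist -/

theorem ap_eq_sub_sum (V : WeierstrassCurve ℤ) {p : ℕ} [Fact p.Prime] :
    ap V p = p - ∑ x : ZMod p, ((Frob.fib (V.reductionMod p).toAffine x).card : ℤ) := by
  classical
  rw [ap]
  congr 1
  rw [← Nat.cast_sum]
  congr 1
  rw [Nat.card_eq_fintype_card, Fintype.card_subtype,
    Finset.card_eq_sum_card_fiberwise (f := Prod.fst) (t := Finset.univ) (by simp)]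
  refine Finset.sum_congr rfl fun c _ => ?_
  refine Finset.card_bij' (fun xy _ => xy.2) (fun y _ => (c, y)) ?_ ?_ ?_ ?_
  · intro xy hxy
    simp only [Finset.mem_filter, Finset.mem_univ, true_and] at hxy
    rw [Frob.mem_fib, ← hxy.2]
    exact hxy.1
  · intro y hy
    rw [Frob.mem_fib] at hy
    simp only [Finset.mem_filter, Finset.mem_univ, true_and]
    exact ⟨hy, trivial⟩
  · intro xy hxy
    simp only [Finset.mem_filter, Finset.mem_univ, true_and] at hxy
    exact Prod.ext hxy.2.symm rfl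
  · intro y _
    rfl

theorem ap_eq_neg_sum (V : WeierstrassCurve ℤ) {p : ℕ} [Fact p.Prime] (hp2 : p ≠ 2) :
    ap V p = -∑ x : ZMod p, quadraticChar (ZMod p) (psi (V.reductionMod p) x) := by
  have hF : ringChar (ZMod p) ≠ 2 := by rwa [ZMod.ringChar_zmod_n]
  rw [ap_eq_sub_sum, Finset.sum_congr rfl fun x _ => card_fib hF (V.reductionMod p) x,
    Finset.sum_add_distrib]
  simp only [Finset.sum_const, Finset.card_univ, nsmul_eq_mul, mul_one, ZMod.card]
  ring

theorem psi_tw {p : ℕ} [Fact p.Prime] (x : ZMod p) :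
    psi ((tw W k).reductionMod p) x = 4 * x ^ 3 + (4 * k + 1) * (W.b₂ : ZMod p) * x ^ 2 +
      2 * ((4 * k + 1) ^ 2 * (W.b₄ : ZMod p)) * x + (4 * k + 1) ^ 3 * (W.b₆ : ZMod p) := by
  rw [psi, reductionMod, map_b₂, map_b₄, map_b₆, tw_b₂, tw_b₄, tw_b₆]
  simp only [eq_intCast]
  push_cast
  ring

theorem psi_red {p : ℕ} [Fact p.Prime] (x : ZMod p) :
    psi (W.reductionMod p) x = 4 * x ^ 3 + (W.b₂ : ZMod p) * x ^ 2 +
      2 * (W.b₄ : ZMod p) * x + (W.b₆ : ZMod p) := by
  rw [psi, reductionMod, map_b₂, map_b₄, map_b₆]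
  simp only [eq_intCast]

theorem ap_tw_odd {p : ℕ} [hp : Fact p.Prime] (hp2 : p ≠ 2) :
    ap (tw W k) p = legendreSym p (4 * k + 1) * ap W p := by
  have hF : ringChar (ZMod p) ≠ 2 := by rwa [ZMod.ringChar_zmod_n]
  have h2 : (2 : ZMod p) ≠ 0 := Ring.two_ne_zero hF
  rw [ap_eq_neg_sum _ hp2, ap_eq_neg_sum _ hp2]
  have hcast : ((4 * k + 1 : ℤ) : ZMod p) = 4 * (k : ZMod p) + 1 := by push_cast; ring
  by_cases hd : (4 * (k : ZMod p) + 1) = 0
  · have h1 : legendreSym p (4 * k + 1) = 0 := by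
      rw [legendreSym.eq_zero_iff, hcast, hd]
    rw [h1, zero_mul, neg_eq_zero]
    have h3 : ∀ x : ZMod p, quadraticChar (ZMod p) (psi ((tw W k).reductionMod p) x) =
        quadraticChar (ZMod p) x := by
      intro x
      rw [psi_tw, hd]
      rw [show 4 * x ^ 3 + 0 * (W.b₂ : ZMod p) * x ^ 2 + 2 * (0 ^ 2 * (W.b₄ : ZMod p)) * x +
        0 ^ 3 * (W.b₆ : ZMod p) = (2 * x) ^ 2 * x by ring, map_mul, map_pow]
      rcases eq_or_ne x 0 with h | h
      · rw [h, quadraticChar_zero, mul_zero]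
      · rw [quadraticChar_sq_one (mul_ne_zero h2 h), one_mul]
    rw [Finset.sum_congr rfl fun x _ => h3 x, quadraticChar_sum_zero hF]
  · rw [mul_neg, Finset.mul_sum]
    congr 1
    let e : ZMod p ≃ ZMod p := Equiv.mulLeft₀ (4 * (k : ZMod p) + 1) hd
    rw [← Equiv.sum_comp e]
    refine Finset.sum_congr rfl fun u _ => ?_
    change quadraticChar (ZMod p) (psi ((tw W k).reductionMod p) ((4 * (k : ZMod p) + 1) * u)) = _
    have h3 : psi ((tw W k).reductionMod p) ((4 * (k : ZMod p) + 1) * u) =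
        (4 * (k : ZMod p) + 1) ^ 2 * ((4 * (k : ZMod p) + 1) * psi (W.reductionMod p) u) := by
      rw [psi_tw, psi_red]
      ring
    rw [h3, map_mul, map_mul, map_pow, quadraticChar_sq_one hd, one_mul, legendreSym, hcast]

/-- the number of affine points of a Weierstrass equation over `𝔽₂` -/
def cnt (a₁ a₂ a₃ a₄ a₆ : ZMod 2) : ℕ :=
  (Finset.univ.filter fun P : ZMod 2 × ZMod 2 =>
    P.2 ^ 2 + a₁ * P.1 * P.2 + a₃ * P.2 = P.1 ^ 3 + a₂ * P.1 ^ 2 + a₄ * P.1 + a₆).card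

theorem cnt_odd : ∀ a₁ a₂ a₃ a₄ a₆ : ZMod 2,
    cnt a₁ (a₁ ^ 2 + a₂) a₃ a₄ (a₃ ^ 2 + a₆) + cnt a₁ a₂ a₃ a₄ a₆ = 4 := by
  decide

theorem ap_two (V : WeierstrassCurve ℤ) : ap V 2 = 2 - cnt V.a₁ V.a₂ V.a₃ V.a₄ V.a₆ := by
  classical
  rw [ap]
  congr 1
  rw [Nat.cast_inj, Nat.card_eq_fintype_card, Fintype.card_subtype, cnt]
  congr 1
  ext P
  simp only [Finset.mem_filter, Finset.mem_univ, true_and]
  rw [WeierstrassCurve.Affine.equation_iff]
  rfl

theorem ap_tw_two : ap (tw W k) 2 = (if Even k then 1 else -1) * ap W 2 := by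
  have h8 : (8 : ZMod 2) = 0 := rfl
  have h4 : (4 : ZMod 2) = 0 := rfl
  have h16 : (16 : ZMod 2) = 0 := rfl
  have h12 : (12 : ZMod 2) = 0 := rfl
  have h3 : (3 : ZMod 2) = 1 := rfl
  rw [ap_two, ap_two]
  simp only [tw]
  push_cast
  rw [h8, h4, h16, h12, h3]
  by_cases hk : Even k
  · have hk0 : (k : ZMod 2) = 0 := by
      rw [ZMod.intCast_zmod_eq_zero_iff_dvd]
      exact_mod_cast hk.two_dvd
    rw [if_pos hk, hk0]
    simp
  · have hk1 : (k : ZMod 2) = 1 := by
      have h1 : Odd k := Int.not_even_iff_odd.mp hk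
      obtain ⟨m, hm⟩ := h1
      rw [hm]
      push_cast
      rw [show (2 : ZMod 2) = 0 from rfl]
      ring
    rw [if_neg hk, hk1]
    have h5 := cnt_odd (W.a₁ : ZMod 2) W.a₂ W.a₃ W.a₄ W.a₆
    have e1 : (1 : ZMod 2) * (W.a₁ : ZMod 2) ^ 2 + (0 * 1 + 1) * (W.a₂ : ZMod 2) =
      (W.a₁ : ZMod 2) ^ 2 + W.a₂ := by ring
    have e2 : ((0 : ZMod 2) * 1 ^ 2 + 0 * 1) * ((W.a₁ : ZMod 2) * W.a₃) +
      (0 * 1 + 1) ^ 2 * (W.a₄ : ZMod 2) = W.a₄ := by ring
    have e3 : ((0 : ZMod 2) * 1 ^ 3 + 0 * 1 ^ 2 + 1 * 1) * (W.a₃ : ZMod 2) ^ 2 +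
      (0 * 1 + 1) ^ 3 * (W.a₆ : ZMod 2) = (W.a₃ : ZMod 2) ^ 2 + W.a₆ := by ring
    rw [e1, e2, e3]
    omega

/-- **The traces of Frobenius of the twist**, all primes included. -/
theorem ap_tw {p : ℕ} (hp : p.Prime) : ap (tw W k) p = J((p : ℤ) | (4 * k + 1).natAbs) * ap W p := by
  have := Fact.mk hp
  rcases eq_or_ne p 2 with rfl | hp2
  · rw [ap_tw_two, Nat.cast_ofNat, two_eq]
  · rw [ap_tw_odd hp2, legendre_eq k hp2]

theorem natAbs_ne_zero (k : ℤ) : (4 * k + 1).natAbs ≠ 0 := by omega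

instance (k : ℤ) : NeZero (4 * k + 1).natAbs := ⟨natAbs_ne_zero k⟩

theorem jac_sq {k : ℤ} {p : ℕ} (hp : p.Prime) (h : ¬ (p : ℤ) ∣ 4 * k + 1) :
    J((p : ℤ) | (4 * k + 1).natAbs) ^ 2 = 1 := by
  refine jacobiSym.sq_one ?_
  rw [Int.gcd_natCast_natCast]
  exact (Nat.Prime.coprime_iff_not_dvd hp).mpr fun h' => h (Int.natCast_dvd.mpr h')

theorem jac_eq_zero {k : ℤ} {p : ℕ} (hp : p.Prime) (h : (p : ℤ) ∣ 4 * k + 1) :
    J((p : ℤ) | (4 * k + 1).natAbs) = 0 := by
  rw [jacobiSym.eq_zero_iff_not_coprime, Int.gcd_natCast_natCast]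
  intro h'
  exact hp.one_lt.ne' (Nat.Coprime.eq_one_of_dvd h' (Int.natCast_dvd.mp h))

theorem dvd_tw_Δ {p : ℕ} (hp : p.Prime) :
    (p : ℤ) ∣ (tw W k).Δ ↔ (p : ℤ) ∣ 4 * k + 1 ∨ (p : ℤ) ∣ W.Δ := by
  have hp' := Nat.prime_iff_prime_int.mp hp
  rw [tw_Δ, hp'.dvd_mul, hp'.dvd_pow_iff_dvd (by norm_num)]

theorem apk_tw {p : ℕ} (hp : p.Prime) (n : ℕ) : LWeil.apk (tw W k) p n =
    J((p : ℤ) | (4 * k + 1).natAbs) ^ n * LWeil.apk W p n := by
  induction n using Nat.twoStepInduction with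
  | zero => rw [LWeil.apk, LWeil.apk, pow_zero, one_mul]
  | one => rw [LWeil.apk, LWeil.apk, pow_one, ap_tw hp]
  | more n h1 h2 =>
    rw [LWeil.apk, LWeil.apk, h1, h2, ap_tw hp]
    by_cases hd : (p : ℤ) ∣ 4 * k + 1
    · rw [if_pos ((dvd_tw_Δ hp).mpr (Or.inl hd)), jac_eq_zero hp hd]
      ring
    · have h3 := jac_sq hp hd
      by_cases hΔ : (p : ℤ) ∣ W.Δ
      · rw [if_pos ((dvd_tw_Δ hp).mpr (Or.inr hΔ)), if_pos hΔ]
        ring
      · rw [if_neg (fun h => ((dvd_tw_Δ hp).mp h).elim hd hΔ), if_neg hΔ]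
        linear_combination (p * J((p : ℤ) | (4 * k + 1).natAbs) ^ n * LWeil.apk W p n) * h3

/-- **The coefficients of the L-function of the twist.** -/
theorem aN_tw (n : ℕ) : LWeil.aN (tw W k) n = J((n : ℤ) | (4 * k + 1).natAbs) * LWeil.aN W n := by
  rw [LWeil.aN, LWeil.aN]
  split_ifs with hn
  · rw [mul_zero]
  · have h1 : J((n : ℤ) | (4 * k + 1).natAbs) =
        n.factorization.prod fun p e => J(((p ^ e : ℕ) : ℤ) | (4 * k + 1).natAbs) :=
      Nat.multiplicative_factorization (fun m : ℕ => J((m : ℤ) | (4 * k + 1).natAbs))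
        (fun a b _ => by rw [Nat.cast_mul, jacobiSym.mul_left])
        (by rw [Nat.cast_one, jacobiSym.one_left]) hn
    rw [h1, Finsupp.prod, Finsupp.prod, Finsupp.prod, ← Finset.prod_mul_distrib]
    refine Finset.prod_congr rfl fun p hp' => ?_
    have hp : p.Prime := Nat.prime_of_mem_primeFactors (by rwa [Nat.support_factorization] at hp')
    rw [apk_tw hp, Nat.cast_pow, jacobiSym.pow_left]

/-! ### The Hasse–Weil conjecture for the twists -/

/-- **The analytic properties of the Hasse–Weil L-function** `L` of an integral equation `V`, with conductor `N` and root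
number `w`; `Λ` is the completed L-function. -/
structure HasseWeil (V : WeierstrassCurve ℤ) (N : ℕ) (w : ℤ) (L Λ : ℂ → ℂ) : Prop where
  /-- the Dirichlet series converges absolutely for `Re s > 3/2` and `L` is its sum -/
  lSeriesHasSum : ∀ s : ℂ, 3 / 2 < s.re → LSeriesHasSum (fun n => (LWeil.aN V n : ℂ)) s (L s)
  /-- the Euler product, over all primes, for `Re s > 3/2` -/
  eulerProduct : ∀ s : ℂ, 3 / 2 < s.re →
    HasProd (fun p : Nat.Primes => (LWeil.eulerFactor V p (((p : ℕ) : ℂ) ^ (-s)))⁻¹) (L s)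
  /-- analytic continuation to the whole plane -/
  differentiable_L : Differentiable ℂ L
  /-- the completed L-function is entire -/
  differentiable_Λ : Differentiable ℂ Λ
  /-- the completed L-function -/
  Λ_eq : ∀ s : ℂ, (∀ n : ℕ, s ≠ -n) →
    Λ s = (N : ℂ) ^ (s / 2) * (2 * Real.pi) ^ (-s) * Complex.Gamma s * L s
  /-- **the functional equation** -/
  functional_equation : ∀ s : ℂ, Λ (2 - s) = w * Λ s
  /-- the trivial zeros -/
  neg_nat : ∀ n : ℕ, L (-n) = 0
  /-- the other zeros are in the critical strip -/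
  strip : ∀ s : ℂ, L s = 0 → (∃ n : ℕ, s = -n) ∨ (1 / 2 ≤ s.re ∧ s.re ≤ 3 / 2)
  /-- the order of vanishing at `s = 1` is finite and its parity is given by the root number -/
  parity : ∃ r : ℕ, analyticOrderAt L 1 = r ∧ (-1) ^ r = w

theorem eulerFactor_tw {p : ℕ} (hp : p.Prime) (X : ℂ) : LWeil.eulerFactor (tw W k) p X =
    LWeil.eulerFactor W p ((J((p : ℤ) | (4 * k + 1).natAbs) : ℂ) * X) := by
  rw [LWeil.eulerFactor, LWeil.eulerFactor, ap_tw hp]
  push_cast
  by_cases hd : (p : ℤ) ∣ 4 * k + 1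
  · rw [if_pos ((dvd_tw_Δ hp).mpr (Or.inl hd)), jac_eq_zero hp hd, Int.cast_zero]
    ring
  · have h3 : ((J((p : ℤ) | (4 * k + 1).natAbs) : ℤ) : ℂ) ^ 2 = 1 := by exact_mod_cast jac_sq hp hd
    by_cases hΔ : (p : ℤ) ∣ W.Δ
    · rw [if_pos ((dvd_tw_Δ hp).mpr (Or.inr hΔ)), if_pos hΔ]
      ring
    · rw [if_neg (fun h => ((dvd_tw_Δ hp).mp h).elim hd hΔ), if_neg hΔ]
      linear_combination (-(p : ℂ) * X ^ 2) * h3

theorem coprime_conductor (hΔ : W.Δ ≠ 0) (hco : IsCoprime (4 * k + 1) W.Δ) :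
    W.conductorLevel.Coprime (4 * k + 1).natAbs := by
  refine Nat.coprime_of_dvd fun p hp h1 h2 => ?_
  have h3 := (W.prime_dvd_conductorLevel_iff hΔ hp).mp h1
  have h4 : (p : ℤ) ∣ 4 * k + 1 := Int.natCast_dvd.mpr h2
  have h5 := hco.isUnit_of_dvd' h4 h3
  exact (Nat.prime_iff_prime_int.mp hp).not_isUnit h5

/-- **The Hasse–Weil conjecture for the quadratic twists of semistable elliptic curves**: `W` semistable with
conductor `N`, `d = 4 k + 1` squarefree and prime to `Δ`. The Hasse–Weil L-function of the quadratic twist of `W` by `d`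
has an analytic continuation to an entire function and satisfies the functional equation with conductor `N d²` and
root number `(-N / |d|) w(W)`. -/
theorem hasseWeil_tw (hΔ : W.Δ ≠ 0) (hW : W.IsSemistableModel) (hd : Squarefree (4 * k + 1))
    (hco : IsCoprime (4 * k + 1) W.Δ) : ∃ L Λ : ℂ → ℂ,
      HasseWeil (tw W k) (W.conductorLevel * (4 * k + 1).natAbs ^ 2)
        (J(-(W.conductorLevel : ℤ) | (4 * k + 1).natAbs) * LWeil.rootNumber W) L Λ := by
  obtain ⟨L, Λ, h⟩ := TwistL.isTwistHasseWeil W hΔ hW (coprime_conductor hΔ hco)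
    (jacChar_isPrimitive (odd_natAbs k) (Int.squarefree_natAbs.mpr hd)) (jacChar_isQuadratic _)
  have e : jacChar (4 * k + 1).natAbs (-(W.conductorLevel : ZMod (4 * k + 1).natAbs)) =
      (J(-(W.conductorLevel : ℤ) | (4 * k + 1).natAbs) : ℂ) := by
    rw [← jacChar_intCast]
    push_cast
    rfl
  have hfun : (fun n : ℕ => (LWeil.aN (tw W k) n : ℂ)) =
      fun n : ℕ => jacChar (4 * k + 1).natAbs n * (LWeil.aN W n : ℂ) :=
    funext fun n => by rw [jacChar_natCast, aN_tw]; push_cast; rfl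
  refine ⟨L, Λ, fun s hs => ?_, fun s hs => ?_, h.differentiable_L, h.differentiable_Λ, h.Λ_eq,
    fun s => ?_, h.neg_nat, h.strip, ?_⟩
  · rw [hfun]
    exact h.lSeriesHasSum s hs
  · convert h.eulerProduct s hs using 3 with p
    rw [eulerFactor_tw p.2, jacChar_natCast]
  · rw [h.functional_equation, e]
    push_cast
    rfl
  · obtain ⟨r, hr, hr'⟩ := h.parity
    refine ⟨r, hr, ?_⟩
    rw [e] at hr'
    exact_mod_cast hr'

/-- If the root number is `-1`, the L-function vanishes at `s = 1`. -/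
theorem HasseWeil.one_eq_zero {V : WeierstrassCurve ℤ} {N : ℕ} {L Λ : ℂ → ℂ}
    (h : HasseWeil V N (-1) L Λ) : L 1 = 0 := by
  obtain ⟨r, hr, hr'⟩ := h.parity
  have h0 : r ≠ 0 := by
    rintro rfl
    norm_num at hr'
  by_contra hL
  have h1 := (h.differentiable_L.analyticAt 1).analyticOrderAt_eq_zero.mpr hL
  rw [hr] at h1
  exact h0 (by exact_mod_cast h1)

end Fermat.Agent.Cor.TwistHW
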