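import Mathlib
import Fermat.Agent.Cor.TwistCurve

/-!
# Modularity depends only on the `j`-invariant

Let `E` be an elliptic curve over `ℚ` whose `j`-invariant, different from `0` and `1728`, is the `j`-invariant of a
semistable elliptic curve. Then `E` is modular, since it is a quadratic twist of that curve.

This file is not used by any of the statement files.
-/

set_option autoImplicit false

noncomputable section

namespace Fermat.Agent.Cor.Twist

open WeierstrassCurve

section Short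

variable {K : Type*} [Field K] [CharZero K]

/-- The short form `y ^ 2 = x ^ 3 - c₄ / (48 u ^ 4) x - c₆ / (864 u ^ 6)`. -/
theorem exists_short (V : WeierstrassCurve K) (u : Kˣ) : ∃ C : VariableChange K,
    C • V = ⟨0, 0, 0, -((u⁻¹ : Kˣ) : K) ^ 4 * V.c₄ / 48, -((u⁻¹ : Kˣ) : K) ^ 6 * V.c₆ / 864⟩ := by
  refine ⟨⟨u, -(V.b₂ / 12), -(V.a₁ / 2), -((V.a₃ + (-(V.b₂ / 12)) * V.a₁) / 2)⟩, ?_⟩
  ext
  · simp only [variableChange_a₁]
    ring
  · simp only [variableChange_a₂, WeierstrassCurve.b₂]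
    ring
  · simp only [variableChange_a₃]
    ring
  · simp only [variableChange_a₄, WeierstrassCurve.c₄, WeierstrassCurve.b₂, WeierstrassCurve.b₄]
    ring
  · simp only [variableChange_a₆, WeierstrassCurve.c₆, WeierstrassCurve.b₂, WeierstrassCurve.b₄,
      WeierstrassCurve.b₆]
    ring

/-- Two Weierstrass equations in characteristic zero with `c₄' = λ ^ 4 c₄` and `c₆' = λ ^ 6 c₆` are isomorphic. -/
theorem exists_variableChange {V V' : WeierstrassCurve K} {l : K} (hl : l ≠ 0)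
    (h4 : V'.c₄ = l ^ 4 * V.c₄) (h6 : V'.c₆ = l ^ 6 * V.c₆) :
    ∃ C : VariableChange K, C • V = V' := by
  obtain ⟨C₁, h1⟩ := exists_short V (Units.mk0 l hl)⁻¹
  obtain ⟨C₂, h2⟩ := exists_short V' 1
  refine ⟨C₂⁻¹ * C₁, ?_⟩
  rw [mul_smul, inv_smul_eq_iff, h1, h2, h4, h6]
  simp

end Short

/-- **Modularity depends only on the `j`-invariant**: an elliptic curve over `ℚ` with the `j`-invariant, `≠ 0, 1728`, of
a semistable elliptic curve is modular. -/
theorem isModular_of_j_eq (E : WeierstrassCurve ℚ) [E.IsElliptic] (W : WeierstrassCurve ℤ)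
    [(W.map (Int.castRingHom ℚ)).IsElliptic] (hss : W.IsSemistableModel)
    (hj : E.j = (W.map (Int.castRingHom ℚ)).j) (h0 : E.j ≠ 0) (h1728 : E.j ≠ 1728) :
    E.IsModular := by
  set V := W.map (Int.castRingHom ℚ) with hV
  have hΔW : W.Δ ≠ 0 := by
    intro h
    have h1 : V.Δ ≠ 0 := V.isUnit_Δ.ne_zero
    rw [hV, WeierstrassCurve.map_Δ, h] at h1
    simp at h1
  have hΔE : E.Δ ≠ 0 := E.isUnit_Δ.ne_zero
  have hΔV : V.Δ ≠ 0 := V.isUnit_Δ.ne_zero
  have jE : E.j * E.Δ = E.c₄ ^ 3 := by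
    rw [WeierstrassCurve.j, ← E.coe_Δ', mul_right_comm, Units.inv_mul, one_mul]
  have jV : V.j * V.Δ = V.c₄ ^ 3 := by
    rw [WeierstrassCurve.j, ← V.coe_Δ', mul_right_comm, Units.inv_mul, one_mul]
  have e1 := E.c_relation
  have e2 := V.c_relation
  have hc4E : E.c₄ ≠ 0 := by
    intro h
    rw [h, zero_pow three_ne_zero] at jE
    exact (mul_ne_zero h0 hΔE) jE
  have hc4V : V.c₄ ≠ 0 := by
    intro h
    rw [h, zero_pow three_ne_zero, ← hj] at jV
    exact (mul_ne_zero h0 hΔV) jV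
  have hc6E : E.c₆ ≠ 0 := by
    intro h
    rw [h, ← jE] at e1
    apply h1728
    have : (1728 - E.j) * E.Δ = 0 := by linear_combination e1
    rcases mul_eq_zero.mp this with h3 | h3
    · linarith
    · exact absurd h3 hΔE
  have hc6V : V.c₆ ≠ 0 := by
    intro h
    rw [h, ← jV, ← hj] at e2
    apply h1728
    have : (1728 - E.j) * V.Δ = 0 := by linear_combination e2
    rcases mul_eq_zero.mp this with h3 | h3
    · linarith
    · exact absurd h3 hΔV
  have hcross : E.c₄ ^ 3 * V.c₆ ^ 2 = V.c₄ ^ 3 * E.c₆ ^ 2 := by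
    have h3 : E.c₄ ^ 3 * V.Δ = V.c₄ ^ 3 * E.Δ := by rw [← jE, ← jV, hj]; ring
    have h4 : V.c₆ ^ 2 = V.c₄ ^ 3 - 1728 * V.Δ := by linear_combination e2
    have h5 : E.c₆ ^ 2 = E.c₄ ^ 3 - 1728 * E.Δ := by linear_combination e1
    rw [h4, h5]
    linear_combination (-1728) * h3
  -- the twisting parameter
  set t : ℚ := E.c₆ * V.c₄ / (V.c₆ * E.c₄) with ht
  have ht0 : t ≠ 0 := by
    rw [ht]
    exact div_ne_zero (mul_ne_zero hc6E hc4V) (mul_ne_zero hc6V hc4E)
  have t2 : E.c₄ = t ^ 2 * V.c₄ := by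
    rw [ht]
    field_simp
    linear_combination hcross
  have t3 : E.c₆ = t ^ 3 * V.c₆ := by
    have h3 : t * (V.c₆ * E.c₄) = E.c₆ * V.c₄ := by
      rw [ht, div_mul_cancel₀ _ (mul_ne_zero hc6V hc4E)]
    apply mul_right_cancel₀ hc4V
    rw [← h3]
    nth_rewrite 1 [t2]
    ring
  set m : ℤ := (t.den : ℤ) with hm
  have hm0 : (m : ℚ) ≠ 0 := by
    rw [hm]
    exact_mod_cast t.den_ne_zero
  set d : ℤ := t.num * m with hd
  have hd0 : d ≠ 0 := by
    rw [hd]
    exact mul_ne_zero (Rat.num_ne_zero.mpr ht0) (by rw [hm]; exact_mod_cast t.den_ne_zero)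
  have htd : (d : ℚ) = t * m ^ 2 := by
    have h3 : t * (m : ℚ) = t.num := by
      rw [hm]
      exact_mod_cast Rat.mul_den_eq_num t
    rw [hd, Int.cast_mul, ← h3]
    ring
  refine isModular_of_isIntegralModelOf W hΔW hss hd0 ?_
  have h2m : (2 * m : ℚ) ≠ 0 := mul_ne_zero two_ne_zero hm0
  refine exists_variableChange h2m ?_ ?_
  · rw [twist_map, twist_c₄, t2, eq_intCast, htd]
    ring
  · rw [twist_map, twist_c₆, t3, eq_intCast, htd]
    ring

end Fermat.Agent.Cor.Twist
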