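import Fermat.Agent.Cor.TwistHW
import Mathlib.NumberTheory.LSeries.PrimesInAP

/-!
# Root numbers of the quadratic twists of a semistable elliptic curve

Let `W` be a semistable integral Weierstrass equation with `Δ ≠ 0` and conductor `N`.

* There are infinitely many quadratic twists of `W` with root number `1`, and infinitely many with root number `-1`; in
  particular `L(W_d, 1) = 0`, with odd order of vanishing, for infinitely many squarefree `d`.
* If `d < 0`, `d ≡ 1 mod 4` squarefree prime to `Δ` and all primes dividing `N` split in `ℚ(√d)` (the Heegner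
  hypothesis) then `L(W, s) L(W_d, s)` vanishes to odd order at `s = 1`.

This file is not used by any of the statement files.
-/

set_option autoImplicit false

noncomputable section

namespace Fermat.Agent.Cor.TwistParity

open WeierstrassCurve Fermat.Agent.Cor.TwistHW
open scoped NumberTheorySymbols

/-! ### Values of the Jacobi symbol -/

theorem jac_one {N p : ℕ} (hN : N ≠ 0) (hp : Odd p) (h : (p : ZMod (4 * N)) = 1) :
    J(-(N : ℤ) | p) = 1 := by
  rw [jacobiSym.mod_right _ hp, Int.natAbs_neg, Int.natAbs_natCast]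
  have h1 : p % (4 * N) = 1 := by
    have h2 := (ZMod.natCast_eq_natCast_iff' p 1 (4 * N)).mp (by rw [h, Nat.cast_one])
    rwa [Nat.mod_eq_of_lt (show 1 < 4 * N by omega)] at h2
  rw [h1, jacobiSym.one_right]

theorem jac_neg_one {N p : ℕ} (hN : N ≠ 0) (hp : Odd p) (h : (p : ZMod (4 * N)) = -1) :
    J(-(N : ℤ) | p) = -1 := by
  rw [jacobiSym.mod_right _ hp, Int.natAbs_neg, Int.natAbs_natCast]
  have h1 : p % (4 * N) = 4 * N - 1 := by
    have h2 : ((p : ℕ) : ZMod (4 * N)) = ((4 * N - 1 : ℕ) : ZMod (4 * N)) := by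
      rw [h, Nat.cast_sub (by omega), Nat.cast_one, ZMod.natCast_self, zero_sub]
    have h3 := (ZMod.natCast_eq_natCast_iff' _ _ _).mp h2
    rwa [Nat.mod_eq_of_lt (show 4 * N - 1 < 4 * N by omega)] at h3
  rw [h1]
  have hodd : Odd (4 * N - 1) := by rw [Nat.odd_iff]; omega
  have h4 : J(-(N : ℤ) | 4 * N - 1) = J(-1 | 4 * N - 1) := by
    have hc : ((4 * N - 1 : ℕ) : ℤ) = 4 * N - 1 := by omega
    have h5 := jacobiSym.mul_left (-(N : ℤ)) 4 (4 * N - 1)
    rw [jacobiSym.at_four hodd, mul_one] at h5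
    rw [← h5]
    apply jacobiSym.mod_left'
    exact Int.modEq_iff_dvd.mpr ⟨1, by rw [hc]; ring⟩
  rw [h4, jacobiSym.at_neg_one hodd]
  exact ZMod.χ₄_nat_three_mod_four (by omega)

theorem mod_four_one {N p : ℕ} (h : (p : ZMod (4 * N)) = 1) : p % 4 = 1 := by
  have h2 := (ZMod.natCast_eq_natCast_iff' p 1 (4 * N)).mp (by rw [h, Nat.cast_one])
  have h3 : p % (4 * N) % 4 = 1 % (4 * N) % 4 := by rw [h2]
  rw [Nat.mod_mul_right_mod, Nat.mod_mul_right_mod] at h3
  exact h3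

theorem mod_four_three {N p : ℕ} (hN : N ≠ 0) (h : (p : ZMod (4 * N)) = -1) : p % 4 = 3 := by
  have h1 : ((p : ℕ) : ZMod (4 * N)) = ((4 * N - 1 : ℕ) : ZMod (4 * N)) := by
    rw [h, Nat.cast_sub (by omega), Nat.cast_one, ZMod.natCast_self, zero_sub]
  have h2 := (ZMod.natCast_eq_natCast_iff' _ _ _).mp h1
  have h3 : p % (4 * N) % 4 = (4 * N - 1) % (4 * N) % 4 := by rw [h2]
  rw [Nat.mod_mul_right_mod, Nat.mod_mul_right_mod] at h3
  omega

variable {W : WeierstrassCurve ℤ}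

/-- the root number of the quadratic twist `tw W k` by `4 k + 1` -/
def twRoot (W : WeierstrassCurve ℤ) (k : ℤ) : ℤ :=
  J(-(W.conductorLevel : ℤ) | (4 * k + 1).natAbs) * LWeil.rootNumber W

/-- Primes in an arithmetic progression prime to `Δ`. -/
theorem infinite_primes (hΔ : W.Δ ≠ 0) {a : ZMod (4 * W.conductorLevel)} (ha : IsUnit a) :
    {p : ℕ | p.Prime ∧ ¬ (p : ℤ) ∣ W.Δ ∧ p ≠ 2 ∧ (p : ZMod (4 * W.conductorLevel)) = a}.Infinite := by
  have h1 := Nat.infinite_setOfPred_prime_and_eq_mod ha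
  have h2 : ({p : ℕ | p ∣ W.Δ.natAbs} ∪ {2}).Finite :=
    (Set.Finite.subset (Finset.finite_toSet (W.Δ.natAbs.divisors)) fun p hp => by
      rw [Finset.mem_coe, Nat.mem_divisors]
      exact ⟨hp, Int.natAbs_ne_zero.mpr hΔ⟩).union (Set.finite_singleton 2)
  refine (h1.sdiff h2).mono ?_
  rintro p ⟨⟨hp1, hp2⟩, hp3⟩
  rw [Set.mem_union, not_or] at hp3
  exact ⟨hp1, fun h => hp3.1 (Int.natCast_dvd.mp h), hp3.2, hp2⟩

/-- the twists by `p` for primes `p ≡ 1 mod 4 N` have the root number of `W` -/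
theorem infinite_twRoot_eq (hΔ : W.Δ ≠ 0) : {k : ℤ | 0 < 4 * k + 1 ∧
    Squarefree (4 * k + 1) ∧ IsCoprime (4 * k + 1) W.Δ ∧
    twRoot W k = LWeil.rootNumber W}.Infinite := by
  have hN : W.conductorLevel ≠ 0 := NeZero.ne _
  have h1 := infinite_primes hΔ (a := 1) isUnit_one
  refine Set.infinite_of_injOn_mapsTo (f := fun p : ℕ => ((p : ℤ) - 1) / 4) ?_ ?_ h1
  · rintro p ⟨hp1, hp2, hp3, hp4⟩ q ⟨hq1, hq2, hq3, hq4⟩ h
    have e1 := mod_four_one hp4
    have e2 := mod_four_one hq4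
    simp only at h
    omega
  · rintro p ⟨hp1, hp2, hp3, hp4⟩
    have e1 := mod_four_one hp4
    have e2 : 4 * (((p : ℤ) - 1) / 4) + 1 = p := by omega
    have hpi := Nat.prime_iff_prime_int.mp hp1
    refine ⟨?_, ?_, ?_, ?_⟩
    · rw [e2]
      exact_mod_cast hp1.pos
    · rw [e2]
      exact hpi.squarefree
    · rw [e2]
      exact (hpi.coprime_iff_not_dvd).mpr hp2
    · rw [twRoot, e2, Int.natAbs_natCast, jac_one hN (hp1.odd_of_ne_two hp3) hp4, one_mul]

/-- the twists by `-p` for primes `p ≡ -1 mod 4 N` have the root number opposite to that of `W` -/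
theorem infinite_twRoot_eq_neg (hΔ : W.Δ ≠ 0) : {k : ℤ | 4 * k + 1 < 0 ∧
    Squarefree (4 * k + 1) ∧ IsCoprime (4 * k + 1) W.Δ ∧
    twRoot W k = -LWeil.rootNumber W}.Infinite := by
  have hN : W.conductorLevel ≠ 0 := NeZero.ne _
  have h1 := infinite_primes hΔ (a := -1) isUnit_one.neg
  refine Set.infinite_of_injOn_mapsTo (f := fun p : ℕ => (-(p : ℤ) - 1) / 4) ?_ ?_ h1
  · rintro p ⟨hp1, hp2, hp3, hp4⟩ q ⟨hq1, hq2, hq3, hq4⟩ h
    have e1 := mod_four_three hN hp4
    have e2 := mod_four_three hN hq4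
    simp only at h
    omega
  · rintro p ⟨hp1, hp2, hp3, hp4⟩
    have e1 := mod_four_three hN hp4
    have e2 : 4 * ((-(p : ℤ) - 1) / 4) + 1 = -p := by omega
    have hpi := Nat.prime_iff_prime_int.mp hp1
    have hp0 : (0 : ℤ) < p := by exact_mod_cast hp1.pos
    refine ⟨?_, ?_, ?_, ?_⟩
    · rw [e2]
      omega
    · rw [e2, ← Int.squarefree_natAbs, Int.natAbs_neg]
      exact Int.squarefree_natAbs.mpr hpi.squarefree
    · rw [e2]
      exact ((hpi.coprime_iff_not_dvd).mpr hp2).neg_left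
    · rw [twRoot, e2, Int.natAbs_neg, Int.natAbs_natCast,
        jac_neg_one hN (hp1.odd_of_ne_two hp3) hp4, neg_one_mul]

/-- **Infinitely many quadratic twists of each root number.** -/
theorem infinite_twRoot (hΔ : W.Δ ≠ 0) (hW : W.IsSemistableModel) {ε : ℤ} (hε : ε = 1 ∨ ε = -1) :
    {k : ℤ | Squarefree (4 * k + 1) ∧ IsCoprime (4 * k + 1) W.Δ ∧ twRoot W k = ε}.Infinite := by
  by_cases h : LWeil.rootNumber W = ε
  · exact (infinite_twRoot_eq hΔ).mono fun k hk => ⟨hk.2.1, hk.2.2.1, hk.2.2.2.trans h⟩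
  · have h1 : -LWeil.rootNumber W = ε := by
      rcases LWeil.rootNumber_eq_one_or hΔ hW with h2 | h2 <;> rcases hε with h3 | h3 <;> omega
    exact (infinite_twRoot_eq_neg hΔ).mono fun k hk => ⟨hk.2.1, hk.2.2.1, hk.2.2.2.trans h1⟩

/-- **Infinitely many quadratic twists of a semistable elliptic curve have odd analytic rank**; in particular their
L-function vanishes at `s = 1`. -/
theorem infinite_odd_rank (hΔ : W.Δ ≠ 0) (hW : W.IsSemistableModel) :
    {k : ℤ | Squarefree (4 * k + 1) ∧ ∃ L Λ : ℂ → ℂ,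
      HasseWeil (tw W k) (W.conductorLevel * (4 * k + 1).natAbs ^ 2) (-1) L Λ ∧ L 1 = 0 ∧
      ∃ r : ℕ, Odd r ∧ analyticOrderAt L 1 = r}.Infinite := by
  refine (infinite_twRoot hΔ hW (Or.inr rfl)).mono ?_
  rintro k ⟨h1, h2, h3⟩
  obtain ⟨L, Λ, h⟩ := hasseWeil_tw hΔ hW h1 h2
  change HasseWeil _ _ (twRoot W k) L Λ at h
  rw [h3] at h
  obtain ⟨r, hr, hr'⟩ := h.parity
  exact ⟨h1, L, Λ, h, h.one_eq_zero, r, neg_one_pow_eq_neg_one_iff_odd (by norm_num) |>.mp hr', hr⟩

/-- **Infinitely many quadratic twists of a semistable elliptic curve have even analytic rank.** -/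
theorem infinite_even_rank (hΔ : W.Δ ≠ 0) (hW : W.IsSemistableModel) :
    {k : ℤ | Squarefree (4 * k + 1) ∧ ∃ L Λ : ℂ → ℂ,
      HasseWeil (tw W k) (W.conductorLevel * (4 * k + 1).natAbs ^ 2) 1 L Λ ∧
      ∃ r : ℕ, Even r ∧ analyticOrderAt L 1 = r}.Infinite := by
  refine (infinite_twRoot hΔ hW (Or.inl rfl)).mono ?_
  rintro k ⟨h1, h2, h3⟩
  obtain ⟨L, Λ, h⟩ := hasseWeil_tw hΔ hW h1 h2
  change HasseWeil _ _ (twRoot W k) L Λ at h
  rw [h3] at h
  obtain ⟨r, hr, hr'⟩ := h.parity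
  exact ⟨h1, L, Λ, h, r, neg_one_pow_eq_one_iff_even (by norm_num) |>.mp hr', hr⟩

/-! ### The Heegner hypothesis -/

theorem jac_eq_one_of_split {D : ℕ} (n : ℕ) (h : ∀ q : ℕ, q.Prime → q ∣ n → J((q : ℤ) | D) = 1)
    (hn : n ≠ 0) : J((n : ℤ) | D) = 1 := by
  induction n using induction_on_primes with
  | zero => exact absurd rfl hn
  | one => rw [Nat.cast_one, jacobiSym.one_left]
  | prime_mul p a hp ih =>
    rw [Nat.cast_mul, jacobiSym.mul_left, h p hp (dvd_mul_right p a),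
      ih (fun q hq hqa => h q hq (hqa.mul_left p)) (right_ne_zero_of_mul hn), mul_one]

/-- Under the Heegner hypothesis the root numbers of `W` and `W_d` are opposite. -/
theorem twRoot_heegner {k : ℤ} (hneg : 4 * k + 1 < 0)
    (hsplit : ∀ q : ℕ, q.Prime → q ∣ W.conductorLevel → J((q : ℤ) | (4 * k + 1).natAbs) = 1) :
    twRoot W k = -LWeil.rootNumber W := by
  rw [twRoot, jacobiSym.neg _ (odd_natAbs k), jac_eq_one_of_split _ hsplit (NeZero.ne _),
    ZMod.χ₄_nat_three_mod_four (by omega)]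
  ring

/-- **The Heegner hypothesis**: `W` semistable, `d = 4 k + 1 < 0` squarefree and prime to `Δ`, all primes dividing the
conductor split in `ℚ(√d)`. Then `L(W, s) L(W_d, s)`, the L-function of `W` over `ℚ(√d)`, has a zero of odd order at
`s = 1`. -/
theorem heegner (hΔ : W.Δ ≠ 0) (hW : W.IsSemistableModel) {k : ℤ} (hd : Squarefree (4 * k + 1))
    (hco : IsCoprime (4 * k + 1) W.Δ) (hneg : 4 * k + 1 < 0)
    (hsplit : ∀ q : ℕ, q.Prime → q ∣ W.conductorLevel → J((q : ℤ) | (4 * k + 1).natAbs) = 1) :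
    ∃ L Λ L' Λ' : ℂ → ℂ, LWeil.IsHasseWeil W L Λ ∧
      HasseWeil (tw W k) (W.conductorLevel * (4 * k + 1).natAbs ^ 2) (-LWeil.rootNumber W) L' Λ' ∧
      (∀ s : ℂ, Λ (2 - s) * Λ' (2 - s) = -(Λ s * Λ' s)) ∧
      (∃ r : ℕ, Odd r ∧ analyticOrderAt (fun s => L s * L' s) 1 = r) ∧ L 1 * L' 1 = 0 := by
  obtain ⟨L, Λ, h⟩ := LWeil.hasseWeil W hΔ hW
  obtain ⟨L', Λ', h'⟩ := hasseWeil_tw hΔ hW hd hco
  change HasseWeil _ _ (twRoot W k) L' Λ' at h'
  rw [twRoot_heegner hneg hsplit] at h'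
  have hw : LWeil.rootNumber W * LWeil.rootNumber W = 1 := by
    rcases LWeil.rootNumber_eq_one_or hΔ hW with h2 | h2 <;> rw [h2] <;> norm_num
  obtain ⟨r, hr, hr2⟩ := h.parity
  obtain ⟨r', hr', hr2'⟩ := h'.parity
  have hodd : Odd (r + r') := by
    refine neg_one_pow_eq_neg_one_iff_odd (R := ℤ) (by norm_num) |>.mp ?_
    rw [pow_add, hr2, hr2', mul_neg, hw]
  have hord : analyticOrderAt (fun s => L s * L' s) 1 = ((r + r' : ℕ) : ℕ∞) := by
    have h1 := analyticOrderAt_mul (h.differentiable_L.analyticAt 1)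
      (h'.differentiable_L.analyticAt 1)
    rw [hr, hr'] at h1
    rw [Nat.cast_add, ← h1]
    rfl
  refine ⟨L, Λ, L', Λ', h, h', fun s => ?_, ⟨r + r', hodd, hord⟩, ?_⟩
  · rw [h.functional_equation, h'.functional_equation]
    have hw' : (LWeil.rootNumber W : ℂ) * LWeil.rootNumber W = 1 := by exact_mod_cast hw
    push_cast
    linear_combination (-(Λ s * Λ' s)) * hw'
  · by_contra hL
    have h1 : AnalyticAt ℂ (fun s => L s * L' s) 1 :=
      (h.differentiable_L.analyticAt 1).mul (h'.differentiable_L.analyticAt 1)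
    have h2 := h1.analyticOrderAt_eq_zero.mpr hL
    rw [hord] at h2
    have h3 : r + r' = 0 := by exact_mod_cast h2
    rw [h3] at hodd
    exact (Nat.not_odd_iff_even.mpr Even.zero) hodd

end Fermat.Agent.Cor.TwistParity
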