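import Mathlib
import Fermat.Agent.Cor.TwistJ
import Fermat.Agent.Cor.H09Frey

/-!
# Modularity of elliptic curves with full rational `2`-torsion

Let `a` and `b` be integers with `a b (a + b) ≠ 0`, and let `g` be their greatest common divisor. If
`16 g ^ 3 ∣ a b (a + b)`, then the elliptic curve `y ^ 2 = x (x - a) (x + b)` is modular: it is a quadratic twist of a
semistable Frey curve.

This file is not used by any of the statement files.
-/

set_option autoImplicit false

noncomputable section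

namespace Fermat.Agent.Cor.Twist

open WeierstrassCurve

/-- the curve `y ^ 2 = x (x - a) (x + b)` over `ℚ` -/
def legendre (a b : ℤ) : WeierstrassCurve ℚ := ⟨0, b - a, 0, -(a * b), 0⟩

theorem legendre_c₄ (a b : ℤ) : (legendre a b).c₄ = 16 * (a ^ 2 + a * b + b ^ 2) := by
  simp only [legendre, WeierstrassCurve.c₄, WeierstrassCurve.b₂, WeierstrassCurve.b₄]
  ring

theorem legendre_c₆ (a b : ℤ) :
    (legendre a b).c₆ = -32 * ((b - a) * (2 * a + b) * (a + 2 * b)) := by
  simp only [legendre, WeierstrassCurve.c₆, WeierstrassCurve.b₂, WeierstrassCurve.b₄,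
    WeierstrassCurve.b₆]
  ring

theorem frey_c₆ {W : WeierstrassCurve ℤ} {A B : ℤ} (h : H09.IsFrey W A B) :
    2 * W.c₆ = -((B - A) * (2 * A + B) * (A + 2 * B)) := by
  rw [WeierstrassCurve.c₆, h.b₂, h.b₆]
  linear_combination 9 * (B - A) * h.b₄

/-- A curve `y ^ 2 = x (x - a) (x + b)` with the invariants of the twist by `e` of a Frey curve is modular. -/
theorem isModular_of_invariants {a b A B e : ℤ} (he : e ≠ 0) (hA : A % 4 = 3) (hB : (16 : ℤ) ∣ B)
    (hcop : IsCoprime A B) (h0 : A * B * (A + B) ≠ 0)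
    (h4 : a ^ 2 + a * b + b ^ 2 = e ^ 2 * (A ^ 2 + A * B + B ^ 2))
    (h6 : (b - a) * (2 * a + b) * (a + 2 * b) = e ^ 3 * ((B - A) * (2 * A + B) * (A + 2 * B))) :
    (legendre a b).IsModular := by
  have hF := H09.isFrey_FW hA hB hcop h0
  refine isModular_of_isIntegralModelOf (H09.FW A B) hF.Δ_ne_zero hF.semistable he ?_
  refine exists_variableChange (l := 1) one_ne_zero ?_ ?_
  · rw [twist_map, twist_c₄, legendre_c₄, WeierstrassCurve.map_c₄, hF.c₄, eq_intCast, eq_intCast]
    have := congrArg (Int.cast : ℤ → ℚ) h4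
    push_cast at this ⊢
    linear_combination (-16) * this
  · rw [twist_map, twist_c₆, legendre_c₆, WeierstrassCurve.map_c₆, eq_intCast, eq_intCast]
    have h1 := congrArg (Int.cast : ℤ → ℚ) (frey_c₆ hF)
    have h2 := congrArg (Int.cast : ℤ → ℚ) h6
    push_cast at h1 h2 ⊢
    linear_combination (32 * (e : ℚ) ^ 3) * h1 + 32 * h2

/-- with the sign of `A` arbitrary -/
theorem isModular_of_invariants' {a b A B e : ℤ} (he : e ≠ 0) (hB : (16 : ℤ) ∣ B)
    (hcop : IsCoprime A B) (h0 : A * B * (A + B) ≠ 0)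
    (h4 : a ^ 2 + a * b + b ^ 2 = e ^ 2 * (A ^ 2 + A * B + B ^ 2))
    (h6 : (b - a) * (2 * a + b) * (a + 2 * b) = e ^ 3 * ((B - A) * (2 * A + B) * (A + 2 * B))) :
    (legendre a b).IsModular := by
  have hA : ¬ (2 : ℤ) ∣ A := fun h =>
    Int.prime_two.not_isUnit (hcop.isUnit_of_dvd' h (dvd_trans (by norm_num) hB))
  have h : A % 4 = 3 ∨ (-A) % 4 = 3 := by omega
  rcases h with h | h
  · exact isModular_of_invariants he h hB hcop h0 h4 h6
  · refine isModular_of_invariants (A := -A) (B := -B) (e := -e) (neg_ne_zero.mpr he) h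
      (dvd_neg.mpr hB) hcop.neg_neg ?_ ?_ ?_
    · intro h1
      apply h0
      linear_combination -h1
    · rw [h4]; ring
    · rw [h6]; ring

/-- **Modularity of elliptic curves with full rational `2`-torsion**, with a condition at `2`: the curve
`y ^ 2 = x (x - a) (x + b)` is modular if `16 gcd(a, b) ^ 3 ∣ a b (a + b) ≠ 0`. -/
theorem isModular_legendre {a b : ℤ} (h0 : a * b * (a + b) ≠ 0)
    (h16 : 16 * (Int.gcd a b : ℤ) ^ 3 ∣ a * b * (a + b)) : (legendre a b).IsModular := by
  have ha : a ≠ 0 := left_ne_zero_of_mul (left_ne_zero_of_mul h0)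
  have hg : Int.gcd a b ≠ 0 := fun h => ha (Int.gcd_eq_zero_iff.mp h).1
  obtain ⟨g, hgdef⟩ : ∃ g : ℤ, g = Int.gcd a b := ⟨_, rfl⟩
  have hg0 : g ≠ 0 := by rw [hgdef]; exact_mod_cast hg
  rw [← hgdef] at h16
  obtain ⟨a', b', hcop, h1, h2⟩ : ∃ a' b' : ℤ, IsCoprime a' b' ∧ a = g * a' ∧ b = g * b' := by
    obtain ⟨a', h1⟩ := Int.gcd_dvd_left (a := a) (b := b)
    obtain ⟨b', h2⟩ := Int.gcd_dvd_right (a := a) (b := b)
    refine ⟨a', b', ?_, by rw [hgdef]; exact h1, by rw [hgdef]; exact h2⟩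
    have h3 := Int.gcd_mul_left (Int.gcd a b : ℤ) a' b'
    rw [← h1, ← h2, Int.natAbs_natCast] at h3
    have h4 : Int.gcd a' b' = 1 := by
      have : Int.gcd a b * Int.gcd a' b' = Int.gcd a b * 1 := by rw [mul_one]; exact h3.symm
      exact Nat.eq_of_mul_eq_mul_left (Nat.pos_of_ne_zero hg) this
    exact Int.isCoprime_iff_gcd_eq_one.mpr h4
  have h0' : a' * b' * (a' + b') ≠ 0 := by
    intro h
    apply h0
    rw [h1, h2]
    linear_combination g ^ 3 * h
  have h16' : (16 : ℤ) ∣ a' * b' * (a' + b') := by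
    obtain ⟨k, hk⟩ := h16
    refine ⟨k, ?_⟩
    have hg3 : g ^ 3 ≠ 0 := pow_ne_zero _ hg0
    apply mul_left_cancel₀ hg3
    rw [h1, h2] at hk
    linear_combination hk
  have hcop1 : IsCoprime b' (-a' - b') := by
    obtain ⟨u, v, huv⟩ := hcop
    exact ⟨v - u, -u, by rw [← huv]; ring⟩
  have hcop2 : IsCoprime a' (a' + b') := by
    obtain ⟨u, v, huv⟩ := hcop
    exact ⟨u - v, v, by rw [← huv]; ring⟩
  -- exactly one of the three numbers is even
  have hodd : ∀ x : ℤ, ¬ (2 : ℤ) ∣ x → IsCoprime (16 : ℤ) x := by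
    intro x hx
    have : IsCoprime (2 : ℤ) x := (Int.prime_two.coprime_iff_not_dvd).mpr hx
    have h3 := this.pow_left (m := 4)
    norm_num at h3
    exact h3
  have key : (16 : ℤ) ∣ a' ∨ (16 : ℤ) ∣ b' ∨ (16 : ℤ) ∣ (a' + b') := by
    by_cases ha2 : (2 : ℤ) ∣ a'
    · have hb2 : ¬ (2 : ℤ) ∣ b' := fun h => Int.prime_two.not_isUnit (hcop.isUnit_of_dvd' ha2 h)
      have hc2 : ¬ (2 : ℤ) ∣ a' + b' := fun h => hb2 ((dvd_add_right ha2).mp h)
      left
      exact (hodd _ hb2).dvd_of_dvd_mul_right ((hodd _ hc2).dvd_of_dvd_mul_right h16')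
    · by_cases hb2 : (2 : ℤ) ∣ b'
      · have hc2 : ¬ (2 : ℤ) ∣ a' + b' := fun h => ha2 ((dvd_add_left hb2).mp h)
        right; left
        exact (hodd _ ha2).dvd_of_dvd_mul_left ((hodd _ hc2).dvd_of_dvd_mul_right h16')
      · right; right
        rw [mul_assoc] at h16'
        exact (hodd _ hb2).dvd_of_dvd_mul_left ((hodd _ ha2).dvd_of_dvd_mul_left h16')
  rw [h1, h2]
  rcases key with h | h | h
  · refine isModular_of_invariants' (A := b') (B := a') (e := -g) (neg_ne_zero.mpr hg0) h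
      hcop.symm ?_ (by ring) (by ring)
    intro h3
    exact h0' (by linear_combination h3)
  · exact isModular_of_invariants' (A := a') (B := b') (e := g) hg0 h hcop h0' (by ring) (by ring)
  · refine isModular_of_invariants' (A := b') (B := -a' - b') (e := g) hg0 ?_ hcop1 ?_
      (by ring) (by ring)
    · have : -a' - b' = -(a' + b') := by ring
      rw [this]
      exact dvd_neg.mpr h
    · intro h3
      exact h0' (by linear_combination h3)

end Fermat.Agent.Cor.Twist
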