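import Mathlib
import Fermat.Agent.Cor.VeluC

/-!
# The uniformisation theorem for complex elliptic curves

* `disc_ne`: `g₂ ^ 3 - 27 g₃ ^ 2 ≠ 0` for every lattice in `ℂ`;
* `exists_lattice`: every elliptic curve `V` over `ℂ` has the invariants of a lattice `L`;
* `quotientEquiv`: `ℂ / L ≃+ V(ℂ)`, `z ↦ (℘(z) - b₂/12, (℘'(z) - a₁ x - a₃)/2)`;
* `lattice_eq`: the lattice is unique;
* `circleEquiv`: `V(ℂ) ≃+ (ℝ/ℤ) × (ℝ/ℤ)`; `V(ℂ)` is divisible;
* `exists_isogeny`: every finite subgroup of `V(ℂ)` is the kernel of an isogeny `V → V'`, given by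
  an inclusion of lattices.

This file is not used by any of the statement files.
-/

set_option autoImplicit false

open WeierstrassCurve WeierstrassCurve.Affine WeierstrassCurve.Affine.Point
open UpperHalfPlane hiding I
open PeriodPair Filter Topology
open scoped Real

noncomputable section

namespace Fermat.Agent.Cor.Uniform

open Fermat.Agent.H24 Fermat.Agent.Cor.VeluC
open Fermat.Agent.H14 (pp gR coe_gR_smul)
open Fermat.Agent.H08 (px py psi2)

/-! ### every lattice is `l (ℤ τ + ℤ)` -/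

theorem exists_pp_eq (L : PeriodPair) : ∃ (τ : ℍ) (l : ℂ) (hl : l ≠ 0),
    L.lattice = (pp τ l hl).lattice := by
  have hind := LinearIndependent.pair_iff.mp L.indep
  have h2 : L.ω₂ ≠ 0 := by
    intro h0
    have := (hind 0 1 (by rw [h0]; simp)).2
    exact one_ne_zero this
  have him : (L.ω₁ / L.ω₂).im ≠ 0 := by
    intro h0
    have e : ((L.ω₁ / L.ω₂).re : ℂ) = L.ω₁ / L.ω₂ := by
      apply Complex.ext <;> simp [h0]
    have := (hind 1 (-(L.ω₁ / L.ω₂).re) (by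
      simp only [Complex.real_smul]
      push_cast
      rw [e]
      field_simp
      ring)).1
    exact one_ne_zero this
  rcases lt_or_gt_of_ne him with h | h
  · refine ⟨⟨-(L.ω₁ / L.ω₂), by rw [Complex.neg_im]; linarith⟩, L.ω₂, h2, ?_⟩
    ext z
    rw [PeriodPair.mem_lattice, PeriodPair.mem_lattice]
    change (∃ m n : ℤ, m * L.ω₁ + n * L.ω₂ = z) ↔
      ∃ m n : ℤ, m * (L.ω₂ * (-(L.ω₁ / L.ω₂))) + n * L.ω₂ = z
    have e : L.ω₂ * (-(L.ω₁ / L.ω₂)) = -L.ω₁ := by field_simp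
    rw [e]
    constructor
    · rintro ⟨m, n, rfl⟩
      exact ⟨-m, n, by push_cast; ring⟩
    · rintro ⟨m, n, rfl⟩
      exact ⟨-m, n, by push_cast; ring⟩
  · refine ⟨⟨L.ω₁ / L.ω₂, h⟩, L.ω₂, h2, ?_⟩
    ext z
    rw [PeriodPair.mem_lattice, PeriodPair.mem_lattice]
    change (∃ m n : ℤ, m * L.ω₁ + n * L.ω₂ = z) ↔
      ∃ m n : ℤ, m * (L.ω₂ * (L.ω₁ / L.ω₂)) + n * L.ω₂ = z
    have e : L.ω₂ * (L.ω₁ / L.ω₂) = L.ω₁ := by field_simp
    rw [e]

/-- **The discriminant of a lattice is not zero.** -/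
theorem disc_ne (L : PeriodPair) : L.g₂ ^ 3 - 27 * L.g₃ ^ 2 ≠ 0 := by
  obtain ⟨τ, l, hl, h⟩ := exists_pp_eq L
  rw [g₂_congr h, g₃_congr h]
  exact disc_pp_ne τ l hl

/-- the Weierstrass curve of a lattice: `y² = x³ - (g₂/4) x - g₃/4` -/
def curve (L : PeriodPair) : WeierstrassCurve ℂ := ⟨0, 0, 0, -L.g₂ / 4, -L.g₃ / 4⟩

lemma curve_c₄ (L : PeriodPair) : (curve L).c₄ = 12 * L.g₂ := by
  simp [curve, WeierstrassCurve.c₄, WeierstrassCurve.b₂, WeierstrassCurve.b₄]; ring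

lemma curve_c₆ (L : PeriodPair) : (curve L).c₆ = 216 * L.g₃ := by
  simp [curve, WeierstrassCurve.c₆, WeierstrassCurve.b₂, WeierstrassCurve.b₄,
    WeierstrassCurve.b₆]; ring

lemma curve_Δ (L : PeriodPair) : (curve L).Δ = L.g₂ ^ 3 - 27 * L.g₃ ^ 2 := by
  have := (curve L).c_relation
  rw [curve_c₄, curve_c₆] at this
  linear_combination this / 1728

theorem curve_Δ_ne (L : PeriodPair) : (curve L).Δ ≠ 0 := by
  rw [curve_Δ]; exact disc_ne L

/-! ### the uniformisation -/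

section

variable {V : WeierstrassCurve ℂ}

/-- **Every complex elliptic curve has the invariants of a lattice.** -/
theorem exists_lattice (hΔ : V.Δ ≠ 0) :
    ∃ L : PeriodPair, V.c₄ = 12 * L.g₂ ∧ V.c₆ = 216 * L.g₃ := by
  obtain ⟨τ, l, hl, h4, h6⟩ := exists_pp (c := V.c₄) (d := V.c₆) (by
    rw [← V.c_relation]; exact mul_ne_zero (by norm_num) hΔ)
  exact ⟨pp τ l hl, h4, h6⟩

variable {L : PeriodPair} (h4 : V.c₄ = 12 * L.g₂) (h6 : V.c₆ = 216 * L.g₃) (hΔ : V.Δ ≠ 0)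

lemma ker_Phi : (Phi h4 h6 hΔ).ker = L.lattice.toAddSubgroup := by
  ext z
  rw [AddMonoidHom.mem_ker, Phi_eq_zero_iff]
  rfl

/-- **The uniformisation isomorphism** `ℂ / L ≃+ V(ℂ)`. -/
def quotientEquiv : ℂ ⧸ L.lattice.toAddSubgroup ≃+ V.toAffine.Point :=
  (QuotientAddGroup.quotientAddEquivOfEq (ker_Phi h4 h6 hΔ).symm).trans
    (QuotientAddGroup.quotientKerEquivOfSurjective _ (Phi_surjective h4 h6 hΔ))

@[simp] lemma quotientEquiv_mk (z : ℂ) :
    quotientEquiv h4 h6 hΔ (z : ℂ ⧸ L.lattice.toAddSubgroup) = Phi h4 h6 hΔ z := rfl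

lemma px_quotientEquiv {z : ℂ} (hz : z ∉ L.lattice) :
    px (quotientEquiv h4 h6 hΔ (z : ℂ ⧸ L.lattice.toAddSubgroup)) =
      L.weierstrassP z - V.b₂ / 12 := px_Phi h4 h6 hΔ hz

lemma psi2_quotientEquiv {z : ℂ} (hz : z ∉ L.lattice) :
    psi2 (quotientEquiv h4 h6 hΔ (z : ℂ ⧸ L.lattice.toAddSubgroup)) =
      L.derivWeierstrassP z := psi2_Phi h4 h6 hΔ hz

end

/-- **Uniformisation theorem**: for every elliptic curve `V` over `ℂ` there are a lattice `L` and
an isomorphism of groups `ℂ / L ≃+ V(ℂ)` with `x = ℘(z) - b₂/12`, `2 y + a₁ x + a₃ = ℘'(z)`. -/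
theorem uniformisation {V : WeierstrassCurve ℂ} (hΔ : V.Δ ≠ 0) : ∃ (L : PeriodPair)
    (e : ℂ ⧸ L.lattice.toAddSubgroup ≃+ V.toAffine.Point), ∀ z : ℂ, z ∉ L.lattice →
      px (e (z : ℂ ⧸ L.lattice.toAddSubgroup)) = L.weierstrassP z - V.b₂ / 12 ∧
      psi2 (e (z : ℂ ⧸ L.lattice.toAddSubgroup)) = L.derivWeierstrassP z := by
  obtain ⟨L, h4, h6⟩ := exists_lattice hΔ
  exact ⟨L, quotientEquiv h4 h6 hΔ, fun z hz =>
    ⟨px_quotientEquiv h4 h6 hΔ hz, psi2_quotientEquiv h4 h6 hΔ hz⟩⟩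

/-- **Every lattice occurs.** -/
theorem uniformisation_lattice (L : PeriodPair) : ∃ (V : WeierstrassCurve ℂ)
    (e : ℂ ⧸ L.lattice.toAddSubgroup ≃+ V.toAffine.Point), V.Δ ≠ 0 ∧ ∀ z : ℂ, z ∉ L.lattice →
      px (e (z : ℂ ⧸ L.lattice.toAddSubgroup)) = L.weierstrassP z ∧
      psi2 (e (z : ℂ ⧸ L.lattice.toAddSubgroup)) = L.derivWeierstrassP z := by
  refine ⟨curve L, quotientEquiv (curve_c₄ L) (curve_c₆ L) (curve_Δ_ne L), curve_Δ_ne L,
    fun z hz => ⟨?_, psi2_quotientEquiv _ _ _ hz⟩⟩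
  rw [px_quotientEquiv _ _ _ hz]
  have : (curve L).b₂ = 0 := by simp [curve, WeierstrassCurve.b₂]
  rw [this]; ring

/-! ### the group structure -/

/-- the coordinates of `z` with respect to the periods, mod `1` -/
def toCircles (L : PeriodPair) : ℂ →+ AddCircle (1 : ℝ) × AddCircle (1 : ℝ) where
  toFun z := (((L.basis.repr z 0 : ℝ) : AddCircle (1 : ℝ)), ((L.basis.repr z 1 : ℝ) : AddCircle (1 : ℝ)))
  map_zero' := by simp
  map_add' z w := by simp

lemma toCircles_surjective (L : PeriodPair) : Function.Surjective (toCircles L) := by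
  rintro ⟨a, b⟩
  obtain ⟨s, rfl⟩ := QuotientAddGroup.mk_surjective a
  obtain ⟨t, rfl⟩ := QuotientAddGroup.mk_surjective b
  refine ⟨s • L.basis 0 + t • L.basis 1, ?_⟩
  simp only [toCircles, AddMonoidHom.coe_mk, ZeroHom.coe_mk, map_add, map_smul,
    Module.Basis.repr_self, Finsupp.smul_apply, smul_eq_mul]
  simp

lemma ker_toCircles (L : PeriodPair) : (toCircles L).ker = L.lattice.toAddSubgroup := by
  ext z
  rw [AddMonoidHom.mem_ker]
  have hz := L.basis.sum_repr z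
  rw [Fin.sum_univ_two, L.basis_zero, L.basis_one] at hz
  simp only [Complex.real_smul] at hz
  have e : z ∈ L.lattice.toAddSubgroup ↔ z ∈ L.lattice := Iff.rfl
  rw [e, PeriodPair.mem_lattice]
  simp only [toCircles, AddMonoidHom.coe_mk, ZeroHom.coe_mk, Prod.mk_eq_zero,
    AddCircle.coe_eq_zero_iff]
  constructor
  · rintro ⟨⟨m, hm⟩, ⟨n, hn⟩⟩
    refine ⟨m, n, ?_⟩
    rw [← hz, ← hm, ← hn]
    push_cast
    simp
  · rintro ⟨m, n, h⟩
    have hind := LinearIndependent.pair_iff.mp L.indep (m - L.basis.repr z 0)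
      (n - L.basis.repr z 1) (by
        simp only [Complex.real_smul]
        push_cast
        linear_combination h - hz)
    refine ⟨⟨m, ?_⟩, ⟨n, ?_⟩⟩
    · rw [zsmul_eq_mul, mul_one]; linarith [hind.1]
    · rw [zsmul_eq_mul, mul_one]; linarith [hind.2]

/-- **`V(ℂ)` is a torus**: `V(ℂ) ≃+ (ℝ/ℤ) × (ℝ/ℤ)`. -/
theorem circleEquiv {V : WeierstrassCurve ℂ} (hΔ : V.Δ ≠ 0) :
    Nonempty (V.toAffine.Point ≃+ AddCircle (1 : ℝ) × AddCircle (1 : ℝ)) := by
  obtain ⟨L, h4, h6⟩ := exists_lattice hΔ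
  exact ⟨(quotientEquiv h4 h6 hΔ).symm.trans
    ((QuotientAddGroup.quotientAddEquivOfEq (ker_toCircles L).symm).trans
      (QuotientAddGroup.quotientKerEquivOfSurjective _ (toCircles_surjective L)))⟩

/-- **`V(ℂ)` is divisible.** -/
theorem divisible {V : WeierstrassCurve ℂ} (hΔ : V.Δ ≠ 0) {n : ℕ} (hn : n ≠ 0)
    (P : V.toAffine.Point) : ∃ Q, n • Q = P := by
  obtain ⟨L, h4, h6⟩ := exists_lattice hΔ
  obtain ⟨z, rfl⟩ := Phi_surjective h4 h6 hΔ P
  refine ⟨Phi h4 h6 hΔ (z / n), ?_⟩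
  have hn' : (n : ℂ) ≠ 0 := by exact_mod_cast hn
  rw [← map_nsmul, nsmul_eq_mul, mul_div_cancel₀ _ hn']

/-! ### isogenies -/

/-- a subgroup of `ℂ` containing a lattice with finite index is a lattice -/
theorem exists_periodPair (L : PeriodPair) (M₀ : AddSubgroup ℂ)
    (hL : ∀ z ∈ L.lattice, z ∈ M₀) {n : ℕ} (hn : n ≠ 0) (hM : ∀ z ∈ M₀, n • z ∈ L.lattice) :
    ∃ M : PeriodPair, ∀ z, z ∈ M.lattice ↔ z ∈ M₀ := by
  let S : Submodule ℤ ℂ := AddSubgroup.toIntSubmodule M₀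
  have hS : ∀ z, z ∈ S ↔ z ∈ M₀ := fun z => Iff.rfl
  let f : S →ₗ[ℤ] L.lattice :=
    { toFun := fun z => ⟨n • (z : ℂ), hM _ z.2⟩
      map_add' := fun z w => Subtype.ext (by simp)
      map_smul' := fun c z => Subtype.ext (by
        simp only [Submodule.coe_smul, RingHom.id_apply]
        rw [smul_comm]) }
  have hf : Function.Injective f := by
    intro z w h
    have h1 : n • (z : ℂ) = n • (w : ℂ) := congrArg Subtype.val h
    rw [nsmul_eq_mul, nsmul_eq_mul] at h1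
    have hn' : (n : ℂ) ≠ 0 := by exact_mod_cast hn
    exact Subtype.ext (mul_left_cancel₀ hn' h1)
  let g : L.lattice →ₗ[ℤ] S := Submodule.inclusion (fun z hz => hL z hz)
  have hg : Function.Injective g := Submodule.inclusion_injective _
  have hLfin : Module.Finite ℤ L.lattice := Module.Finite.of_basis L.latticeBasis
  have hSfin : Module.Finite ℤ S := Module.Finite.of_injective f hf
  have hrank : Module.finrank ℤ S = 2 := by
    apply le_antisymm
    · rw [← L.finrank_lattice]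
      exact LinearMap.finrank_le_finrank_of_injective hf
    · rw [← L.finrank_lattice]
      exact LinearMap.finrank_le_finrank_of_injective hg
  have hfree : Module.Free ℤ S := inferInstance
  let b : Module.Basis (Fin 2) ℤ S := Module.finBasisOfFinrankEq ℤ S hrank
  have hspan : Submodule.span ℤ {(b 0 : ℂ), (b 1 : ℂ)} = S := by
    have h1 := congrArg (Submodule.map S.subtype) b.span_eq
    rw [Submodule.map_span, Submodule.map_subtype_top] at h1
    refine Eq.trans ?_ h1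
    congr 1
    ext z
    simp only [Set.mem_insert_iff, Set.mem_singleton_iff, Set.mem_image, Set.mem_range,
      Submodule.subtype_apply, exists_exists_eq_and]
    constructor
    · rintro (rfl | rfl)
      · exact ⟨0, rfl⟩
      · exact ⟨1, rfl⟩
    · rintro ⟨i, rfl⟩
      fin_cases i
      · exact Or.inl rfl
      · exact Or.inr rfl
  have hind : LinearIndependent ℝ ![(b 0 : ℂ), (b 1 : ℂ)] := by
    apply linearIndependent_of_top_le_span_of_card_eq_finrank
    · rw [← L.basis.span_eq, Submodule.span_le]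
      have hin : ∀ z ∈ L.lattice, z ∈ Submodule.span ℝ (Set.range ![(b 0 : ℂ), (b 1 : ℂ)]) := by
        intro z hz
        have h1 : z ∈ Submodule.span ℤ {(b 0 : ℂ), (b 1 : ℂ)} := by
          rw [hspan]; exact hL z hz
        have h2 := Submodule.span_le_restrictScalars ℤ ℝ {(b 0 : ℂ), (b 1 : ℂ)} h1
        have h3 : ({(b 0 : ℂ), (b 1 : ℂ)} : Set ℂ) = Set.range ![(b 0 : ℂ), (b 1 : ℂ)] := by
          rw [Matrix.range_cons, Matrix.range_cons, Matrix.range_empty, Set.union_empty]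
          rfl
        rw [h3] at h2
        exact h2
      rintro _ ⟨i, rfl⟩
      fin_cases i
      · change L.basis 0 ∈ _
        rw [L.basis_zero]
        exact hin _ L.ω₁_mem_lattice
      · change L.basis 1 ∈ _
        rw [L.basis_one]
        exact hin _ L.ω₂_mem_lattice
    · simp
  refine ⟨⟨b 0, b 1, hind⟩, fun z => ?_⟩
  have : (⟨b 0, b 1, hind⟩ : PeriodPair).lattice = S := hspan
  rw [this]
  exact hS z

/-- **Isogenies with given kernel.** Every finite subgroup `C` of `V(ℂ)` is the kernel of a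
surjective homomorphism `V(ℂ) → V'(ℂ)` induced by an inclusion of lattices `L ⊆ M`. -/
theorem exists_isogeny {V : WeierstrassCurve ℂ} (hΔ : V.Δ ≠ 0)
    (C : AddSubgroup V.toAffine.Point) [Finite C] :
    ∃ (V' : WeierstrassCurve ℂ) (hΔ' : V'.Δ ≠ 0) (L M : PeriodPair)
      (h4 : V.c₄ = 12 * L.g₂) (h6 : V.c₆ = 216 * L.g₃)
      (h4' : V'.c₄ = 12 * M.g₂) (h6' : V'.c₆ = 216 * M.g₃)
      (φ : V.toAffine.Point →+ V'.toAffine.Point),
      L.lattice ≤ M.lattice ∧ (∀ z, φ (Phi h4 h6 hΔ z) = Phi h4' h6' hΔ' z) ∧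
      φ.ker = C ∧ Function.Surjective φ := by
  obtain ⟨L, h4, h6⟩ := exists_lattice hΔ
  have hn : Nat.card C ≠ 0 := Nat.card_pos.ne'
  obtain ⟨M, hM⟩ := exists_periodPair L (C.comap (Phi h4 h6 hΔ))
    (fun z hz => by
      rw [AddSubgroup.mem_comap, (Phi_eq_zero_iff h4 h6 hΔ).mpr hz]
      exact C.zero_mem) hn
    (fun z hz => by
      rw [AddSubgroup.mem_comap] at hz
      rw [← Phi_eq_zero_iff h4 h6 hΔ, map_nsmul]
      have h1 : Nat.card C • (⟨_, hz⟩ : C) = 0 := card_nsmul_eq_zero'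
      have h2 := congrArg C.subtype h1
      rw [map_nsmul, _root_.map_zero] at h2
      exact h2)
  have hle : (Phi h4 h6 hΔ).ker ≤ (Phi (curve_c₄ M) (curve_c₆ M) (curve_Δ_ne M)).ker := by
    intro z hz
    rw [AddMonoidHom.mem_ker] at hz ⊢
    rw [Phi_eq_zero_iff, hM, AddSubgroup.mem_comap, hz]
    exact C.zero_mem
  have hsurj := Phi_surjective h4 h6 hΔ
  let φ : V.toAffine.Point →+ (curve M).toAffine.Point :=
    (Phi h4 h6 hΔ).liftOfRightInverse (Function.surjInv hsurj)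
      (Function.rightInverse_surjInv hsurj)
      ⟨Phi (curve_c₄ M) (curve_c₆ M) (curve_Δ_ne M), hle⟩
  have hφ : ∀ z, φ (Phi h4 h6 hΔ z) = Phi (curve_c₄ M) (curve_c₆ M) (curve_Δ_ne M) z := fun z =>
    AddMonoidHom.liftOfRightInverse_comp_apply _ _ _ _ z
  refine ⟨curve M, curve_Δ_ne M, L, M, h4, h6, curve_c₄ M, curve_c₆ M, φ, ?_, hφ, ?_, ?_⟩
  · intro z hz
    rw [hM, AddSubgroup.mem_comap, (Phi_eq_zero_iff h4 h6 hΔ).mpr hz]
    exact C.zero_mem
  · ext Q
    obtain ⟨z, rfl⟩ := hsurj Q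
    rw [AddMonoidHom.mem_ker, hφ, Phi_eq_zero_iff, hM, AddSubgroup.mem_comap]
  · intro Q
    obtain ⟨z, rfl⟩ := Phi_surjective (curve_c₄ M) (curve_c₆ M) (curve_Δ_ne M) Q
    exact ⟨Phi h4 h6 hΔ z, hφ z⟩

end Fermat.Agent.Cor.Uniform
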