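import Mathlib
import Fermat.Agent.Cor.Uniform

/-!
# The lattice of a complex elliptic curve is unique

* `lattice_eq`: a lattice in `ℂ` is determined by `g₂` and `g₃`;
* `exists_unique_lattice`: for every elliptic curve `V` over `ℂ` there is exactly one subgroup
  `Λ` of `ℂ` which is a lattice with the invariants of `V`.

This file is not used by any of the statement files.
-/

set_option autoImplicit false

open PeriodPair Filter Topology

noncomputable section

namespace Fermat.Agent.Cor.Uniform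

open Fermat.Agent.H24

lemma P_eq_except (L : PeriodPair) {z : ℂ} :
    L.weierstrassP z = L.weierstrassPExcept 0 z + 1 / z ^ 2 := by
  have h := L.weierstrassPExcept_add 0 z
  simp only [ZeroMemClass.coe_zero, sub_zero, ne_eq, OfNat.ofNat_ne_zero, not_false_eq_true,
    zero_pow, div_zero] at h
  exact h.symm

/-- the difference of two `℘`-functions with the same invariants vanishes near `0` -/
lemma except_eq {L M : PeriodPair} (h2 : L.g₂ = M.g₂) (h3 : L.g₃ = M.g₃) :
    ∀ᶠ z in 𝓝 (0 : ℂ), L.weierstrassPExcept 0 z - M.weierstrassPExcept 0 z = 0 := by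
  have hana : AnalyticAt ℂ (fun z => L.weierstrassPExcept 0 z - M.weierstrassPExcept 0 z) 0 :=
    (L.analyticAt_weierstrassPExcept 0).sub (M.analyticAt_weierstrassPExcept 0)
  by_contra hcon
  obtain ⟨m, h, hh, hh0, hD⟩ := (hana.exists_eventuallyEq_pow_smul_nonzero_iff).mpr hcon
  simp only [sub_zero, smul_eq_mul] at hD
  -- `℘_L - ℘_M = z ^ m h`
  have hPD : ∀ᶠ z in 𝓝 (0 : ℂ), L.weierstrassP z - M.weierstrassP z = z ^ m * h z := by
    filter_upwards [hD] with z hz
    rw [P_eq_except L, P_eq_except M, ← hz]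
    ring
  -- the derivative
  have hdD : ∀ᶠ z in 𝓝[≠] (0 : ℂ), z * (L.derivWeierstrassP z - M.derivWeierstrassP z) =
      (m * h z + z * deriv h z) * z ^ m := by
    have e1 : ∀ᶠ z in 𝓝 (0 : ℂ), ∀ᶠ y in 𝓝 z,
        L.weierstrassP y - M.weierstrassP y = y ^ m * h y := eventually_eventually_nhds.mpr hPD
    filter_upwards [mem_nhdsWithin_of_mem_nhds e1, eventually_notMem L, eventually_notMem M,
      mem_nhdsWithin_of_mem_nhds hh.eventually_analyticAt, self_mem_nhdsWithin]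
      with z hz hzL hzM hhz hz0
    have hz0' : z ≠ 0 := hz0
    have d1 : HasDerivAt (fun y => L.weierstrassP y - M.weierstrassP y)
        (L.derivWeierstrassP z - M.derivWeierstrassP z) z :=
      (hasDerivAt_P L hzL).sub (hasDerivAt_P M hzM)
    have d2 : HasDerivAt (fun y => y ^ m * h y)
        ((m : ℂ) * z ^ (m - 1) * h z + z ^ m * deriv h z) z := by
      have := (hasDerivAt_pow m z).mul hhz.differentiableAt.hasDerivAt
      exact this
    have hd := (d1.congr_of_eventuallyEq (hz.mono fun y hy => hy.symm)).unique d2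
    rw [hd]
    rcases Nat.eq_zero_or_pos m with h0 | h0
    · subst h0
      simp
    · have e2 : z ^ m = z * z ^ (m - 1) := by
        rw [← pow_succ']
        congr 1
        omega
      rw [e2]
      ring
  -- the differential equation
  have hODE : ∀ᶠ z in 𝓝[≠] (0 : ℂ),
      (m * h z + z * deriv h z) *
        (z ^ 3 * L.derivWeierstrassP z + z ^ 3 * M.derivWeierstrassP z) =
      h z * (4 * ((z ^ 2 * L.weierstrassP z) ^ 2 + (z ^ 2 * L.weierstrassP z) *
        (z ^ 2 * M.weierstrassP z) + (z ^ 2 * M.weierstrassP z) ^ 2) - L.g₂ * z ^ 4) := by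
    filter_upwards [hdD, mem_nhdsWithin_of_mem_nhds hPD, eventually_notMem L, eventually_notMem M,
      self_mem_nhdsWithin] with z hz hPz hzL hzM hz0
    have hz0' : z ≠ 0 := hz0
    have o1 := L.derivWeierstrassP_sq z hzL
    have o2 := M.derivWeierstrassP_sq z hzM
    rw [← h2, ← h3] at o2
    have hzm : z ^ m ≠ 0 := pow_ne_zero _ hz0'
    apply mul_left_cancel₀ hzm
    linear_combination (-(z ^ 3 * L.derivWeierstrassP z + z ^ 3 * M.derivWeierstrassP z)) * hz +
      z ^ 4 * (o1 - o2) + (4 * z ^ 4 * (L.weierstrassP z ^ 2 + L.weierstrassP z * M.weierstrassP z +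
      M.weierstrassP z ^ 2) - L.g₂ * z ^ 4) * hPz
  -- limits
  have t1 : Tendsto (fun z => (m * h z + z * deriv h z) *
      (z ^ 3 * L.derivWeierstrassP z + z ^ 3 * M.derivWeierstrassP z)) (𝓝[≠] 0)
      (𝓝 ((m * h 0 + 0 * deriv h 0) * (-2 + -2))) := by
    refine Tendsto.mul ?_ ((tendsto_cube_mul_dP L).add (tendsto_cube_mul_dP M))
    have hc : ContinuousAt (fun z => m * h z + z * deriv h z) 0 := by
      have c1 := hh.continuousAt
      have c2 := hh.deriv.continuousAt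
      fun_prop
    exact hc.tendsto.mono_left nhdsWithin_le_nhds
  have t2 : Tendsto (fun z => h z * (4 * ((z ^ 2 * L.weierstrassP z) ^ 2 +
      (z ^ 2 * L.weierstrassP z) * (z ^ 2 * M.weierstrassP z) + (z ^ 2 * M.weierstrassP z) ^ 2) -
      L.g₂ * z ^ 4)) (𝓝[≠] 0) (𝓝 (h 0 * (4 * (1 ^ 2 + 1 * 1 + 1 ^ 2) - L.g₂ * 0 ^ 4))) := by
    have a1 := tendsto_sq_mul_P L
    have a2 := tendsto_sq_mul_P M
    have a3 : Tendsto h (𝓝[≠] 0) (𝓝 (h 0)) := hh.continuousAt.tendsto.mono_left nhdsWithin_le_nhds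
    have a4 : Tendsto (fun z : ℂ => L.g₂ * z ^ 4) (𝓝[≠] 0) (𝓝 (L.g₂ * 0 ^ 4)) := by
      have : ContinuousAt (fun z : ℂ => L.g₂ * z ^ 4) 0 := by fun_prop
      exact this.tendsto.mono_left nhdsWithin_le_nhds
    exact a3.mul (((((a1.pow 2).add (a1.mul a2)).add (a2.pow 2)).const_mul 4).sub a4)
  have key := tendsto_nhds_unique (t1.congr' hODE) t2
  have hm : (m : ℂ) = -3 := by
    apply mul_left_cancel₀ hh0
    linear_combination -key / 4
  have hre := congrArg Complex.re hm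
  simp at hre
  have : (0 : ℝ) ≤ m := Nat.cast_nonneg m
  linarith

/-- one inclusion -/
lemma lattice_le {L M : PeriodPair} (h2 : L.g₂ = M.g₂) (h3 : L.g₃ = M.g₃) :
    L.lattice ≤ M.lattice := by
  have hnear : ∀ᶠ z in 𝓝[≠] (0 : ℂ), L.weierstrassP z = M.weierstrassP z := by
    filter_upwards [mem_nhdsWithin_of_mem_nhds (except_eq h2 h3)] with z hz
    rw [P_eq_except L, P_eq_except M, sub_eq_zero.mp hz]
  have key := eqOn_of_near (S := (L.lattice : Set ℂ) ∪ (M.lattice : Set ℂ))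
    ((countable_lattice L).union (countable_lattice M))
    (L.isClosed_lattice.union M.isClosed_lattice) (f := L.weierstrassP) (g := M.weierstrassP)
    (L.analyticOnNhd_weierstrassP.mono (by
      intro z hz h; exact hz (Or.inl h)))
    (M.analyticOnNhd_weierstrassP.mono (by
      intro z hz h; exact hz (Or.inr h))) hnear
  intro z₀ hz₀
  by_contra hM
  -- `z ↦ z - z₀`
  have hshift : Tendsto (fun u => u - z₀) (𝓝[≠] z₀) (𝓝[≠] 0) := by
    rw [tendsto_nhdsWithin_iff]
    refine ⟨?_, ?_⟩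
    · have : ContinuousAt (fun u : ℂ => u - z₀) z₀ := by fun_prop
      have := this.tendsto.mono_left (nhdsWithin_le_nhds (s := {z₀}ᶜ))
      simpa using this
    · filter_upwards [self_mem_nhdsWithin] with u hu
      exact sub_ne_zero.mpr hu
  have hL : ∀ᶠ u in 𝓝[≠] z₀, u ∉ L.lattice := by
    filter_upwards [hshift.eventually (eventually_notMem L)] with u hu hu'
    exact hu (L.lattice.sub_mem hu' hz₀)
  have hM' : ∀ᶠ u in 𝓝[≠] z₀, u ∉ M.lattice :=
    mem_nhdsWithin_of_mem_nhds (eventually_notMem_of_notMem M hM)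
  have t1 : Tendsto (fun u => ‖L.weierstrassP u‖) (𝓝[≠] z₀) atTop := by
    refine ((tendsto_P_atTop L).comp hshift).congr fun u => ?_
    simp only [Function.comp_apply]
    rw [L.weierstrassP_sub_coe u ⟨z₀, hz₀⟩]
  have t2 : Tendsto (fun u => ‖M.weierstrassP u‖) (𝓝[≠] z₀) (𝓝 ‖M.weierstrassP z₀‖) :=
    ((M.analyticOnNhd_weierstrassP z₀ hM).continuousAt.norm.tendsto).mono_left nhdsWithin_le_nhds
  have t3 : Tendsto (fun u => ‖M.weierstrassP u‖) (𝓝[≠] z₀) atTop := by
    refine t1.congr' ?_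
    filter_upwards [hL, hM'] with u h1 h2
    rw [key (x := u) (by rintro (h | h); exacts [h1 h, h2 h])]
  exact not_tendsto_atTop_of_tendsto_nhds t2 t3

/-- **A lattice is determined by its invariants.** -/
theorem lattice_eq {L M : PeriodPair} (h2 : L.g₂ = M.g₂) (h3 : L.g₃ = M.g₃) :
    L.lattice = M.lattice :=
  le_antisymm (lattice_le h2 h3) (lattice_le h2.symm h3.symm)

/-- **Uniformisation, existence and uniqueness**: for every elliptic curve over `ℂ` there is exactly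
one lattice with its invariants. -/
theorem exists_unique_lattice {V : WeierstrassCurve ℂ} (hΔ : V.Δ ≠ 0) :
    ∃! Λ : Submodule ℤ ℂ, ∃ L : PeriodPair, L.lattice = Λ ∧ V.c₄ = 12 * L.g₂ ∧
      V.c₆ = 216 * L.g₃ := by
  obtain ⟨L, h4, h6⟩ := exists_lattice hΔ
  refine ⟨L.lattice, ⟨L, rfl, h4, h6⟩, ?_⟩
  rintro Λ ⟨M, rfl, k4, k6⟩
  refine lattice_eq ?_ ?_
  · have : (12 : ℂ) * M.g₂ = 12 * L.g₂ := by rw [← h4, ← k4]
    exact mul_left_cancel₀ (by norm_num) this
  · have : (216 : ℂ) * M.g₃ = 216 * L.g₃ := by rw [← h6, ← k6]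
    exact mul_left_cancel₀ (by norm_num) this

/-- **Homothetic lattices**: `u L = M` as soon as `g₂(L) = u⁴ g₂(M)`, `g₃(L) = u⁶ g₃(M)`. -/
theorem homothety {L M : PeriodPair} {u : ℂ} (hu : u ≠ 0) (h2 : L.g₂ = u ^ 4 * M.g₂)
    (h3 : L.g₃ = u ^ 6 * M.g₃) (z : ℂ) : z ∈ M.lattice ↔ z / u ∈ L.lattice := by
  -- the lattice `M / u`
  have hind : LinearIndependent ℝ ![M.ω₁ / u, M.ω₂ / u] := by
    rw [LinearIndependent.pair_iff]
    intro s t h
    simp only [Complex.real_smul] at h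
    refine LinearIndependent.pair_iff.mp M.indep s t ?_
    simp only [Complex.real_smul]
    have e : (s : ℂ) * M.ω₁ + t * M.ω₂ = u * (s * (M.ω₁ / u) + t * (M.ω₂ / u)) := by
      field_simp
    rw [e, h, mul_zero]
  let M' : PeriodPair := ⟨M.ω₁ / u, M.ω₂ / u, hind⟩
  have e1 : M.ω₁ = u * M'.ω₁ := by
    change M.ω₁ = u * (M.ω₁ / u); field_simp
  have e2 : M.ω₂ = u * M'.ω₂ := by
    change M.ω₂ = u * (M.ω₂ / u); field_simp
  have hG : ∀ n : ℕ, M'.G n = u ^ n * M.G n := by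
    intro n
    rw [PeriodPair.G, PeriodPair.G, ← (VeluC.scaleEquiv M M').tsum_eq, ← tsum_mul_left]
    refine tsum_congr fun m => ?_
    rw [VeluC.coe_scaleEquiv e1 e2, mul_pow, mul_inv, ← mul_assoc,
      mul_inv_cancel₀ (pow_ne_zero _ hu), one_mul]
  have g2 : M'.g₂ = L.g₂ := by
    rw [h2, PeriodPair.g₂, PeriodPair.g₂, hG]; ring
  have g3 : M'.g₃ = L.g₃ := by
    rw [h3, PeriodPair.g₃, PeriodPair.g₃, hG]; ring
  rw [← lattice_eq g2 g3, VeluC.mem_scale hu e1 e2]

/-- The invariants are proportional exactly when the lattices are homothetic. -/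
theorem scale_iff {V W : WeierstrassCurve ℂ} {L M : PeriodPair}
    (h4 : V.c₄ = 12 * L.g₂) (h6 : V.c₆ = 216 * L.g₃) (k4 : W.c₄ = 12 * M.g₂)
    (k6 : W.c₆ = 216 * M.g₃) :
    (∃ u : ℂ, u ≠ 0 ∧ V.c₄ = u ^ 4 * W.c₄ ∧ V.c₆ = u ^ 6 * W.c₆) ↔
      ∃ u : ℂ, u ≠ 0 ∧ ∀ z, z ∈ M.lattice ↔ z / u ∈ L.lattice := by
  constructor
  · rintro ⟨u, hu, e4, e6⟩
    refine ⟨u, hu, homothety hu ?_ ?_⟩
    · have : (12 : ℂ) * L.g₂ = 12 * (u ^ 4 * M.g₂) := by rw [← h4, e4, k4]; ring
      exact mul_left_cancel₀ (by norm_num) this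
    · have : (216 : ℂ) * L.g₃ = 216 * (u ^ 6 * M.g₃) := by rw [← h6, e6, k6]; ring
      exact mul_left_cancel₀ (by norm_num) this
  · rintro ⟨u, hu, h⟩
    have hind : LinearIndependent ℝ ![M.ω₁ / u, M.ω₂ / u] := by
      rw [LinearIndependent.pair_iff]
      intro s t h
      simp only [Complex.real_smul] at h
      refine LinearIndependent.pair_iff.mp M.indep s t ?_
      simp only [Complex.real_smul]
      have e : (s : ℂ) * M.ω₁ + t * M.ω₂ = u * (s * (M.ω₁ / u) + t * (M.ω₂ / u)) := by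
        field_simp
      rw [e, h, mul_zero]
    let M' : PeriodPair := ⟨M.ω₁ / u, M.ω₂ / u, hind⟩
    have e1 : M.ω₁ = u * M'.ω₁ := by
      change M.ω₁ = u * (M.ω₁ / u); field_simp
    have e2 : M.ω₂ = u * M'.ω₂ := by
      change M.ω₂ = u * (M.ω₂ / u); field_simp
    have hG : ∀ n : ℕ, M'.G n = u ^ n * M.G n := by
      intro n
      rw [PeriodPair.G, PeriodPair.G, ← (VeluC.scaleEquiv M M').tsum_eq, ← tsum_mul_left]
      refine tsum_congr fun m => ?_
      rw [VeluC.coe_scaleEquiv e1 e2, mul_pow, mul_inv, ← mul_assoc,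
        mul_inv_cancel₀ (pow_ne_zero _ hu), one_mul]
    have hlat : L.lattice = M'.lattice := by
      ext w
      have hw : w = (w * u) / u := by field_simp
      rw [hw, ← h, VeluC.mem_scale hu e1 e2]
    refine ⟨u, hu, ?_, ?_⟩
    · rw [h4, k4, g₂_congr hlat, PeriodPair.g₂, PeriodPair.g₂, hG]; ring
    · rw [h6, k6, g₃_congr hlat, PeriodPair.g₃, PeriodPair.g₃, hG]; ring

/-- **Isomorphic curves have homothetic lattices**, and conversely: `j(V) = j(W)` if and only if
the lattices of `V` and `W` are homothetic. -/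
theorem j_eq_iff {V W : WeierstrassCurve ℂ} [V.IsElliptic] [W.IsElliptic] {L M : PeriodPair}
    (h4 : V.c₄ = 12 * L.g₂) (h6 : V.c₆ = 216 * L.g₃) (k4 : W.c₄ = 12 * M.g₂)
    (k6 : W.c₆ = 216 * M.g₃) :
    V.j = W.j ↔ ∃ u : ℂ, u ≠ 0 ∧ ∀ z, z ∈ M.lattice ↔ z / u ∈ L.lattice := by
  rw [← scale_iff h4 h6 k4 k6]
  have hVΔ : V.Δ ≠ 0 := V.isUnit_Δ.ne_zero
  have hWΔ : W.Δ ≠ 0 := W.isUnit_Δ.ne_zero
  have jV : V.j = V.c₄ ^ 3 / V.Δ := by
    rw [WeierstrassCurve.j, Units.val_inv_eq_inv_val, V.coe_Δ']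
    field_simp
  have jW : W.j = W.c₄ ^ 3 / W.Δ := by
    rw [WeierstrassCurve.j, Units.val_inv_eq_inv_val, W.coe_Δ']
    field_simp
  constructor
  · intro hj
    obtain ⟨C, hC⟩ := WeierstrassCurve.exists_variableChange_of_j_eq V W hj
    have hu : (C.u : ℂ) ≠ 0 := C.u.ne_zero
    have hu' : ((C.u⁻¹ : ℂˣ) : ℂ) = (C.u : ℂ)⁻¹ := Units.val_inv_eq_inv_val _
    refine ⟨C.u, hu, ?_, ?_⟩
    · rw [← hC, WeierstrassCurve.variableChange_c₄, hu']
      field_simp
    · rw [← hC, WeierstrassCurve.variableChange_c₆, hu']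
      field_simp
  · rintro ⟨u, hu, e4, e6⟩
    have r1 := V.c_relation
    have r2 := W.c_relation
    have hΔ : V.Δ = u ^ 12 * W.Δ := by
      rw [e4, e6] at r1
      linear_combination (r1 - u ^ 12 * r2) / 1728
    rw [jV, jW, hΔ, e4]
    field_simp

end Fermat.Agent.Cor.Uniform
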