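import Fermat.Agent.N4.Final

/-!
# Torsion points near a node: the tent recursion for the `x`-coordinate

`W : y² + a₁xy = x³ + a₂x² + a₆` over a valued field (any residue characteristic), `v a₆ < 1`, slopes `α, β` at
the node with `v (β - α) = 1`.  For a point `P` of odd prime order `p` reducing to the node,
`v (x(P)) ^ p` is a power of `v a₆` (`exists_k`).  Not used by any of the statement files.
-/

set_option autoImplicit false

noncomputable section

namespace Fermat.Agent.Cor.Unr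

open WeierstrassCurve WeierstrassCurve.Affine WeierstrassCurve.Affine.Point
open Fermat.Agent.H08 Fermat.Agent.H09

variable {F : Type*} [Field F] [DecidableEq F] {Γ₀ : Type*} [LinearOrderedCommGroupWithZero Γ₀]
  {v : Valuation F Γ₀} {W : WeierstrassCurve.Affine F} {α β : F}

/-- the standing hypotheses -/
structure Nd (v : Valuation F Γ₀) (W : WeierstrassCurve.Affine F) (α β : F) : Prop where
  int : IsIntegralFor v W
  sl : NodeSlopes v W α β
  a6 : v W.a₆ < 1

/-- points reducing to the node, not in the middle component -/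
structure Nr (v : Valuation F Γ₀) {W : WeierstrassCurve.Affine F} (P : W.Point) : Prop where
  one : ¬ InE0 v P
  two : ¬ InE0 v (P + P)

omit [DecidableEq F] in
theorem ne_and_lt {P : W.Point} (hP : ¬ InE0 v P) : P ≠ 0 ∧ v (px P) < 1 := by
  unfold InE0 at hP
  push Not at hP
  exact hP

omit [DecidableEq F] in
theorem Nd.val_py_lt (h : Nd v W α β) {P : W.Point} (hP : P ≠ 0) (hx : v (px P) < 1) :
    v (py P) < 1 := by
  have e := eqn_of_ne_zero hP
  rw [h.sl.a₃, h.sl.a₄] at e
  have e2 : py P * (py P + W.a₁ * px P) = px P ^ 3 + W.a₂ * px P ^ 2 + W.a₆ := by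
    linear_combination e
  have hR : v (px P ^ 3 + W.a₂ * px P ^ 2 + W.a₆) < 1 :=
    v_add_lt_one (v_add_lt_one (v_pow_lt_one hx (by norm_num))
      (v_mul_lt_one_right h.int.h₂ (v_pow_lt_one hx two_ne_zero))) h.a6
  by_contra hcon
  push Not at hcon
  have h5 : v (py P + W.a₁ * px P) = v (py P) := by
    apply Valuation.map_add_eq_of_lt_left
    exact lt_of_lt_of_le (v_mul_lt_one_right h.int.h₁ hx) hcon
  rw [← e2, map_mul, h5] at hR
  exact absurd hR (not_lt.mpr (one_le_mul hcon hcon))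

omit [DecidableEq F] in
theorem Nd.u_neg (h : Nd v W α β) {P : W.Point} (hP : P ≠ 0) :
    py (-P) - α * px (-P) = -(py P - β * px P) ∧
      py (-P) - β * px (-P) = -(py P - α * px P) := by
  rw [px_neg, py_neg hP, h.sl.a₃]
  constructor
  · linear_combination (-px P) * h.sl.sum
  · linear_combination (-px P) * h.sl.sum

theorem neg_ne {P : W.Point} (hP : P ≠ 0) : -P ≠ 0 := fun h => hP (by
  have := congrArg (fun Q => -Q) h
  simpa using this)

theorem Nd.val_ne (h : Nd v W α β) {P : W.Point} (hP : Nr v P) :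
    v (py P - α * px P) ≠ v (py P - β * px P) := by
  intro he
  obtain ⟨h0, hx⟩ := ne_and_lt hP.one
  apply hP.two
  obtain ⟨u1, u2⟩ := h.u_neg h0
  have hn : -P ≠ 0 := neg_ne h0
  have hxn : v (px (-P)) < 1 := by rw [px_neg]; exact hx
  have := component_lemma h.sl hn h0 hxn (h.val_py_lt hn hxn) hx
    (by rw [u1, Valuation.map_neg]; exact he) (by rw [u2, Valuation.map_neg]; exact he.symm)
  rwa [sub_neg_eq_add] at this

omit [DecidableEq F] in
theorem Nd.val_px (h : Nd v W α β) {P : W.Point}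
    (hne : v (py P - α * px P) ≠ v (py P - β * px P)) :
    v (px P) = max (v (py P - α * px P)) (v (py P - β * px P)) := by
  have e : (β - α) * px P = (py P - α * px P) - (py P - β * px P) := by ring
  have h1 := congrArg v e
  rw [map_mul, h.sl.diff, one_mul] at h1
  rw [h1]
  exact KHyp.val_sub_of_val_ne hne

theorem Nd.a₆_lt (h : Nd v W α β) {P : W.Point} (hP : Nr v P) : v W.a₆ < v (px P) ^ 2 := by
  obtain ⟨h0, hx⟩ := ne_and_lt hP.one
  have hne := h.val_ne hP
  have hmax := h.val_px hne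
  have hmul := h.sl.mul_eq h0
  set u := py P - α * px P with hu
  set w := py P - β * px P with hw
  have hpos : 0 < v (px P) := by
    rw [hmax]
    rcases lt_or_gt_of_ne hne with h1 | h1
    · exact lt_max_of_lt_right (lt_of_le_of_lt zero_le h1)
    · exact lt_max_of_lt_left (lt_of_le_of_lt zero_le h1)
  have huw : v (u * w) < v (px P) ^ 2 := by
    rw [map_mul, sq]
    rcases lt_or_gt_of_ne hne with h1 | h1
    · rw [max_eq_right h1.le] at hmax
      rw [← hmax] at h1 ⊢
      exact mul_lt_mul_of_pos_right h1 hpos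
    · rw [max_eq_left h1.le] at hmax
      rw [← hmax] at h1 ⊢
      exact mul_lt_mul_of_pos_left h1 hpos
  have h3 : v (px P ^ 3) < v (px P) ^ 2 := by
    rw [map_pow, pow_succ]
    calc v (px P) ^ 2 * v (px P) < v (px P) ^ 2 * 1 :=
          mul_lt_mul_of_pos_left hx (pow_pos hpos 2)
      _ = _ := mul_one _
  have e : W.a₆ = u * w - px P ^ 3 := by rw [hmul]; ring
  rw [e]
  exact v.map_sub_lt huw h3

theorem Nd.px_ne_zero (h : Nd v W α β) {P : W.Point} (hP : Nr v P) : px P ≠ 0 := by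
  intro h0
  have := h.a₆_lt hP
  rw [h0, _root_.map_zero, zero_pow two_ne_zero] at this
  exact absurd this (by simp)

omit [DecidableEq F] in
theorem Nd.b₂_eq (h : Nd v W α β) : v W.b₂ = 1 := by
  have : W.b₂ = (β - α) ^ 2 := by
    rw [WeierstrassCurve.b₂]
    linear_combination (W.a₁ - α - β) * h.sl.sum + 4 * h.sl.prod
  rw [this, map_pow, h.sl.diff, one_pow]

omit [DecidableEq F] in
theorem Nd.b₄_eq (h : Nd v W α β) : W.b₄ = 0 := by
  rw [WeierstrassCurve.b₄, h.sl.a₃, h.sl.a₄]; ring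

omit [DecidableEq F] in
theorem Nd.b₆_eq (h : Nd v W α β) : W.b₆ = 4 * W.a₆ := by
  rw [WeierstrassCurve.b₆, h.sl.a₃]; ring

omit [DecidableEq F] in
theorem Nd.b₈_eq (h : Nd v W α β) : W.b₈ = W.b₂ * W.a₆ := by
  rw [WeierstrassCurve.b₈, WeierstrassCurve.b₂, h.sl.a₃, h.sl.a₄]; ring

/-! ### logarithmic form -/

variable {w : F → ℝ}

theorem Nd.log_px (h : Nd v W α β) (hw : IsLogVal v w) {P : W.Point} (hP : Nr v P) :
    0 < w (px P) ∧ 2 * w (px P) < w W.a₆ := by
  have h0 := h.px_ne_zero hP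
  refine ⟨(hw.pos_iff h0).mp (ne_and_lt hP.one).2, ?_⟩
  have h1 := h.a₆_lt hP
  rw [← map_pow, hw.lt_iff _ _ h.sl.a₆ (pow_ne_zero 2 h0), hw.pow h0] at h1
  exact_mod_cast h1

/-- duplication -/
theorem Nd.log_double (h : Nd v W α β) (hw : IsLogVal v w) {P : W.Point} (hP : Nr v P)
    (h2P : Nr v (P + P)) :
    w (px (P + P)) = min (2 * w (px P)) (w W.a₆ - 2 * w (px P)) := by
  have h0 := h.px_ne_zero hP
  have h0' := h.px_ne_zero h2P
  obtain ⟨l1, l2⟩ := h.log_px hw hP
  obtain ⟨l3, l4⟩ := h.log_px hw h2P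
  obtain ⟨hP0, hx⟩ := ne_and_lt hP.one
  have ha6 := h.sl.a₆
  have hd := px_double hP0 (ne_and_lt h2P.one).1
  rw [h.b₄_eq, h.b₆_eq, h.b₈_eq] at hd
  set x := px P with hxd
  set X := px (P + P) with hX
  have hxpos : 0 < v x := zero_lt_iff.mpr ((Valuation.ne_zero_iff v).mpr h0)
  have ha6pos : 0 < v W.a₆ := zero_lt_iff.mpr ((Valuation.ne_zero_iff v).mpr ha6)
  have ha6lt := h.a₆_lt hP
  rw [← hxd] at ha6lt
  -- the denominator
  have hD : v (4 * x ^ 3 + W.b₂ * x ^ 2 + 2 * 0 * x + 4 * W.a₆) = v (x ^ 2) := by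
    have e1 : v (W.b₂ * x ^ 2) = v (x ^ 2) := by rw [map_mul, h.b₂_eq, one_mul]
    have e2 : v (4 * x ^ 3 + 4 * W.a₆) < v (x ^ 2) := by
      apply v.map_add_lt
      · rw [map_mul, map_pow, map_pow, pow_succ, ← mul_assoc]
        calc v 4 * v x ^ 2 * v x ≤ 1 * v x ^ 2 * v x :=
              mul_le_mul' (mul_le_mul' (v_ofNat_le_one v 4) le_rfl) le_rfl
          _ = v x ^ 2 * v x := by rw [one_mul]
          _ < v x ^ 2 * 1 := mul_lt_mul_of_pos_left hx (pow_pos hxpos 2)
          _ = v x ^ 2 := mul_one _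
      · rw [map_mul, map_pow]
        calc v 4 * v W.a₆ ≤ 1 * v W.a₆ := mul_le_mul' (v_ofNat_le_one v 4) le_rfl
          _ = v W.a₆ := one_mul _
          _ < v x ^ 2 := ha6lt
    have e3 : 4 * x ^ 3 + W.b₂ * x ^ 2 + 2 * 0 * x + 4 * W.a₆ =
        W.b₂ * x ^ 2 + (4 * x ^ 3 + 4 * W.a₆) := by ring
    rw [e3, Valuation.map_add_eq_of_lt_left, e1]
    rw [e1]; exact e2
  have hD0 : 4 * x ^ 3 + W.b₂ * x ^ 2 + 2 * 0 * x + 4 * W.a₆ ≠ 0 := by
    rw [← Valuation.ne_zero_iff v, hD, Valuation.ne_zero_iff]; exact pow_ne_zero 2 h0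
  have hwD : w (4 * x ^ 3 + W.b₂ * x ^ 2 + 2 * 0 * x + 4 * W.a₆) = 2 * w x := by
    rw [(hw.eq_iff hD0 (pow_ne_zero 2 h0)).mp hD, hw.pow h0]; norm_num
  have hN0 : x ^ 4 - 0 * x ^ 2 - 2 * (4 * W.a₆) * x - W.b₂ * W.a₆ ≠ 0 := by
    rw [← hd]; exact mul_ne_zero h0' hD0
  have hwN := congrArg w hd
  rw [hw.map_mul _ _ h0' hD0, hwD] at hwN
  -- the numerator
  have v8 : v (2 * (4 * W.a₆) * x) < v W.a₆ := by
    rw [map_mul, map_mul, map_mul]
    calc v 2 * (v 4 * v W.a₆) * v x ≤ 1 * (1 * v W.a₆) * v x :=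
          mul_le_mul' (mul_le_mul' (v_ofNat_le_one v 2)
            (mul_le_mul' (v_ofNat_le_one v 4) le_rfl)) le_rfl
      _ = v W.a₆ * v x := by rw [one_mul, one_mul]
      _ < v W.a₆ * 1 := mul_lt_mul_of_pos_left hx ha6pos
      _ = v W.a₆ := mul_one _
  have vb : v (W.b₂ * W.a₆) = v W.a₆ := by rw [map_mul, h.b₂_eq, one_mul]
  have vsum : v (2 * (4 * W.a₆) * x + W.b₂ * W.a₆) = v W.a₆ := by
    rw [Valuation.map_add_eq_of_lt_right, vb]
    rw [vb]; exact v8
  have eN : x ^ 4 - 0 * x ^ 2 - 2 * (4 * W.a₆) * x - W.b₂ * W.a₆ =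
      x ^ 4 - (2 * (4 * W.a₆) * x + W.b₂ * W.a₆) := by ring
  have hw4 : w (x ^ 4) = 4 * w x := by rw [hw.pow h0]; norm_num
  rcases lt_trichotomy (4 * w x) (w W.a₆) with hlt | heq | hlt
  · have h1 : v W.a₆ < v (x ^ 4) := by
      rw [hw.lt_iff _ _ ha6 (pow_ne_zero 4 h0), hw4]; exact hlt
    have h2 : v (x ^ 4 - (2 * (4 * W.a₆) * x + W.b₂ * W.a₆)) = v (x ^ 4) := by
      apply Valuation.map_sub_eq_of_lt_left
      rw [vsum]; exact h1
    rw [eN, (hw.eq_iff (eN ▸ hN0) (pow_ne_zero 4 h0)).mp h2, hw4] at hwN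
    rw [min_eq_left (by linarith)]
    linarith
  · exfalso
    have h1 : v (x ^ 4) = v W.a₆ := by
      rw [hw.eq_iff (pow_ne_zero 4 h0) ha6, hw4]; exact heq
    have h2 : v (x ^ 4 - (2 * (4 * W.a₆) * x + W.b₂ * W.a₆)) ≤ v W.a₆ :=
      v.map_sub_le h1.le vsum.le
    rw [eN] at hwN hN0
    rw [hw.le_iff hN0 ha6] at h2
    linarith
  · have h1 : v (x ^ 4) < v W.a₆ := by
      rw [hw.lt_iff _ _ (pow_ne_zero 4 h0) ha6, hw4]; exact hlt
    have h2 : v (x ^ 4 - (2 * (4 * W.a₆) * x + W.b₂ * W.a₆)) = v W.a₆ := by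
      rw [Valuation.map_sub_eq_of_lt_right, vsum]
      rw [vsum]; exact h1
    rw [eN, (hw.eq_iff (eN ▸ hN0) ha6).mp h2] at hwN
    rw [min_eq_right (by linarith)]
    linarith

/-- addition -/
theorem Nd.log_add (h : Nd v W α β) (hw : IsLogVal v w) {P Q : W.Point} (hP : Nr v P)
    (hQ : Nr v Q) (hS : Nr v (P + Q)) (hD : Nr v (P - Q)) (hne : w (px P) ≠ w (px Q)) :
    w (px (P + Q)) + w (px (P - Q)) = |w (px P) - w (px Q)| +
      min (w (px P) + w (px Q)) (w W.a₆ - (w (px P) + w (px Q))) := by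
  have hx0 := h.px_ne_zero hP
  have hy0 := h.px_ne_zero hQ
  have hX0 := h.px_ne_zero hS
  have hY0 := h.px_ne_zero hD
  obtain ⟨l1, l2⟩ := h.log_px hw hP
  obtain ⟨l3, l4⟩ := h.log_px hw hQ
  obtain ⟨l5, l6⟩ := h.log_px hw hS
  obtain ⟨l7, l8⟩ := h.log_px hw hD
  obtain ⟨hP0, hx⟩ := ne_and_lt hP.one
  obtain ⟨hQ0, hy⟩ := ne_and_lt hQ.one
  have ha6 := h.sl.a₆
  have hxy : px P ≠ px Q := fun e => hne (by rw [e])
  have hpr := px_add_sub_prod hP0 hQ0 hxy
  have hsm := px_add_sub_sum hP0 hQ0 hxy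
  rw [h.b₄_eq, h.b₆_eq, h.b₈_eq] at hpr
  rw [h.b₄_eq, h.b₆_eq] at hsm
  set x := px P with hxd
  set y := px Q with hyd
  set X := px (P + Q) with hXd
  set Y := px (P - Q) with hYd
  have hxpos : 0 < v x := zero_lt_iff.mpr ((Valuation.ne_zero_iff v).mpr hx0)
  have hypos : 0 < v y := zero_lt_iff.mpr ((Valuation.ne_zero_iff v).mpr hy0)
  have ha6pos : 0 < v W.a₆ := zero_lt_iff.mpr ((Valuation.ne_zero_iff v).mpr ha6)
  have hd0 : x - y ≠ 0 := sub_ne_zero.mpr hxy
  have hvne : v x ≠ v y := fun e => hne ((hw.eq_iff hx0 hy0).mp e)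
  have hwd : w (x - y) = min (w x) (w y) :=
    KHyp.w_eq_min hw hx0 hy0 hd0 (KHyp.val_sub_of_val_ne hvne)
  have hwxy : w (x * y) = w x + w y := hw.map_mul _ _ hx0 hy0
  have hwxy2 : w (x ^ 2 * y ^ 2) = 2 * (w x + w y) := by
    rw [hw.map_mul _ _ (pow_ne_zero 2 hx0) (pow_ne_zero 2 hy0), hw.pow hx0, hw.pow hy0]
    push_cast; ring
  -- the right hand side of the product formula
  set R := x ^ 2 * y ^ 2 - 0 * (x * y) - 4 * W.a₆ * (x + y) - W.b₂ * W.a₆ with hR
  have eR : R = x ^ 2 * y ^ 2 - (4 * W.a₆ * (x + y) + W.b₂ * W.a₆) := by rw [hR]; ring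
  have hR0 : R ≠ 0 := by
    rw [← hpr]; exact mul_ne_zero (mul_ne_zero hX0 hY0) (pow_ne_zero 2 hd0)
  have hwR : w R = w X + w Y + 2 * min (w x) (w y) := by
    rw [← hpr, hw.map_mul _ _ (mul_ne_zero hX0 hY0) (pow_ne_zero 2 hd0),
      hw.map_mul _ _ hX0 hY0, hw.pow hd0, hwd]
    push_cast; ring
  have vxy : v (x + y) < 1 := v.map_add_lt hx hy
  have v8 : v (4 * W.a₆ * (x + y)) < v W.a₆ := by
    rw [map_mul, map_mul]
    calc v 4 * v W.a₆ * v (x + y) ≤ 1 * v W.a₆ * v (x + y) :=
          mul_le_mul' (mul_le_mul' (v_ofNat_le_one v 4) le_rfl) le_rfl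
      _ = v W.a₆ * v (x + y) := by rw [one_mul]
      _ < v W.a₆ * 1 := mul_lt_mul_of_pos_left vxy ha6pos
      _ = v W.a₆ := mul_one _
  have vb : v (W.b₂ * W.a₆) = v W.a₆ := by rw [map_mul, h.b₂_eq, one_mul]
  have vsum : v (4 * W.a₆ * (x + y) + W.b₂ * W.a₆) = v W.a₆ := by
    rw [Valuation.map_add_eq_of_lt_right, vb]
    rw [vb]; exact v8
  have hxy20 : x ^ 2 * y ^ 2 ≠ 0 := mul_ne_zero (pow_ne_zero 2 hx0) (pow_ne_zero 2 hy0)
  have habs : |w x - w y| = w x + w y - 2 * min (w x) (w y) := by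
    rcases le_total (w x) (w y) with h1 | h1
    · rw [min_eq_left h1, abs_of_nonpos (by linarith)]; ring
    · rw [min_eq_right h1, abs_of_nonneg (by linarith)]; ring
  have hminpos : 0 < min (w x) (w y) := lt_min l1 l3
  rw [habs]
  rcases lt_trichotomy (2 * (w x + w y)) (w W.a₆) with hlt | heq | hlt
  · have h1 : v W.a₆ < v (x ^ 2 * y ^ 2) := by
      rw [hw.lt_iff _ _ ha6 hxy20, hwxy2]; exact hlt
    have h2 : v R = v (x ^ 2 * y ^ 2) := by
      rw [eR]
      apply Valuation.map_sub_eq_of_lt_left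
      rw [vsum]; exact h1
    rw [(hw.eq_iff hR0 hxy20).mp h2, hwxy2] at hwR
    rw [min_eq_left (a := w x + w y) (by linarith)]
    linarith
  · exfalso
    have h1 : v (x ^ 2 * y ^ 2) = v W.a₆ := by
      rw [hw.eq_iff hxy20 ha6, hwxy2]; exact heq
    have h2 : v R ≤ v W.a₆ := by
      rw [eR]; exact v.map_sub_le h1.le vsum.le
    rw [hw.le_iff hR0 ha6, hwR] at h2
    -- the sum formula
    set T := 2 * x * y * (x + y) + W.b₂ * (x * y) + 0 * (x + y) + 4 * W.a₆ with hT
    have vbx : v (W.b₂ * (x * y)) = v (x * y) := by rw [map_mul, h.b₂_eq, one_mul]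
    have vt1 : v (2 * x * y * (x + y)) < v (x * y) := by
      have e1 : 2 * x * y * (x + y) = 2 * (x * y) * (x + y) := by ring
      rw [e1, map_mul, map_mul]
      calc v 2 * v (x * y) * v (x + y) ≤ 1 * v (x * y) * v (x + y) :=
            mul_le_mul' (mul_le_mul' (v_ofNat_le_one v 2) le_rfl) le_rfl
        _ = v (x * y) * v (x + y) := by rw [one_mul]
        _ < v (x * y) * 1 := mul_lt_mul_of_pos_left vxy (by
            rw [map_mul]; exact mul_pos hxpos hypos)
        _ = v (x * y) := mul_one _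
    have vt2 : v (4 * W.a₆) < v (x * y) := by
      have e1 : v W.a₆ < v (x * y) := by
        rw [hw.lt_iff _ _ ha6 (mul_ne_zero hx0 hy0), hwxy]; linarith
      rw [map_mul]
      calc v 4 * v W.a₆ ≤ 1 * v W.a₆ := mul_le_mul' (v_ofNat_le_one v 4) le_rfl
        _ = v W.a₆ := one_mul _
        _ < v (x * y) := e1
    have vT : v T = v (x * y) := by
      have e1 : T = W.b₂ * (x * y) + (2 * x * y * (x + y) + 4 * W.a₆) := by rw [hT]; ring
      rw [e1, Valuation.map_add_eq_of_lt_left, vbx]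
      rw [vbx]; exact v.map_add_lt vt1 vt2
    have hxy0 : x * y ≠ 0 := mul_ne_zero hx0 hy0
    have hT0 : T ≠ 0 := by
      rw [← Valuation.ne_zero_iff v, vT, Valuation.ne_zero_iff]; exact hxy0
    have hXY0 : X + Y ≠ 0 := by
      intro e
      rw [e, zero_mul] at hsm
      exact hT0 hsm.symm
    have hwT : w (X + Y) + 2 * min (w x) (w y) = w x + w y := by
      have e1 := congrArg w hsm
      rw [hw.map_mul _ _ hXY0 (pow_ne_zero 2 hd0), hw.pow hd0, hwd,
        (hw.eq_iff hT0 hxy0).mp vT, hwxy] at e1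
      push_cast at e1
      exact e1
    by_cases hXY : w X = w Y
    · have h3 : v (X + Y) ≤ v X :=
        v.map_add_le le_rfl ((hw.eq_iff hX0 hY0).mpr hXY).ge
      rw [hw.le_iff hXY0 hX0] at h3
      linarith
    · have h3 : v (X + Y) = max (v X) (v Y) :=
        v.map_add_of_distinct_val (fun e => hXY ((hw.eq_iff hX0 hY0).mp e))
      have h4 : w (X + Y) = min (w X) (w Y) := KHyp.w_eq_min hw hX0 hY0 hXY0 h3
      rcases le_total (w X) (w Y) with h5 | h5
      · rw [min_eq_left h5] at h4; linarith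
      · rw [min_eq_right h5] at h4; linarith
  · have h1 : v (x ^ 2 * y ^ 2) < v W.a₆ := by
      rw [hw.lt_iff _ _ hxy20 ha6, hwxy2]; exact hlt
    have h2 : v R = v W.a₆ := by
      rw [eR, Valuation.map_sub_eq_of_lt_right, vsum]
      rw [vsum]; exact h1
    rw [(hw.eq_iff hR0 ha6).mp h2] at hwR
    rw [min_eq_right (a := w x + w y) (by linarith)]
    linarith

/-- the component is determined by the valuation of `x`, up to sign -/
theorem Nd.inE0_of_eq (h : Nd v W α β) {P Q : W.Point} (hP : Nr v P) (hQ : Nr v Q)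
    (hv : v (px P) = v (px Q)) (h3 : v (px P) ^ 3 ≠ v W.a₆) :
    InE0 v (P - Q) ∨ InE0 v (P + Q) := by
  obtain ⟨hP0, hx⟩ := ne_and_lt hP.one
  obtain ⟨hQ0, hy⟩ := ne_and_lt hQ.one
  have hneP := h.val_ne hP
  have hneQ := h.val_ne hQ
  have hmP := h.val_px hneP
  have hmQ := h.val_px hneQ
  have huP := h.sl.mul_eq hP0
  have huQ := h.sl.mul_eq hQ0
  have vP := congrArg v huP
  have vQ := congrArg v huQ
  have v3P : v (px P ^ 3 + W.a₆) = max (v (px P ^ 3)) (v W.a₆) :=
    v.map_add_of_distinct_val (by rw [map_pow]; exact h3)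
  have v3Q : v (px Q ^ 3 + W.a₆) = max (v (px Q ^ 3)) (v W.a₆) :=
    v.map_add_of_distinct_val (by rw [map_pow, ← hv]; exact h3)
  rw [v3P, map_mul, map_pow] at vP
  rw [v3Q, map_mul, map_pow, ← hv] at vQ
  rw [← vP] at vQ
  have hpx0 := h.px_ne_zero hP
  have hpos : 0 < v (px P) := zero_lt_iff.mpr ((Valuation.ne_zero_iff v).mpr hpx0)
  obtain ⟨n1, n2⟩ := h.u_neg hQ0
  have hnQ := neg_ne hQ0
  have hxn : v (px (-Q)) < 1 := by rw [px_neg]; exact hy
  set uP := py P - α * px P
  set wP := py P - β * px P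
  set uQ := py Q - α * px Q
  set wQ := py Q - β * px Q
  have same : v uP = v uQ → v wP = v wQ → InE0 v (P - Q) := fun e1 e2 =>
    component_lemma h.sl hQ0 hP0 hy (h.val_py_lt hQ0 hy) hx e1 e2
  have opp : v uP = v wQ → v wP = v uQ → InE0 v (P + Q) := by
    intro e1 e2
    have := component_lemma h.sl hnQ hP0 hxn (h.val_py_lt hnQ hxn) hx
      (by rw [n1, Valuation.map_neg]; exact e1) (by rw [n2, Valuation.map_neg]; exact e2)
    rwa [sub_neg_eq_add] at this
  rcases lt_or_gt_of_ne hneP with a | a <;> rcases lt_or_gt_of_ne hneQ with b | b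
  · rw [max_eq_right a.le] at hmP
    rw [max_eq_right b.le] at hmQ
    have e2 : v wP = v wQ := by rw [← hmP, hv, hmQ]
    left
    refine same ?_ e2
    rw [← e2] at vQ
    exact (mul_right_cancel₀ (by rw [← hmP]; exact hpos.ne') vQ).symm
  · rw [max_eq_right a.le] at hmP
    rw [max_eq_left b.le] at hmQ
    have e2 : v wP = v uQ := by rw [← hmP, hv, hmQ]
    right
    refine opp ?_ e2
    rw [← e2, mul_comm (v wP)] at vQ
    exact (mul_right_cancel₀ (by rw [← hmP]; exact hpos.ne') vQ).symm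
  · rw [max_eq_left a.le] at hmP
    rw [max_eq_right b.le] at hmQ
    have e2 : v uP = v wQ := by rw [← hmP, hv, hmQ]
    right
    refine opp e2 ?_
    rw [← e2, mul_comm (v uP) (v wP)] at vQ
    exact (mul_right_cancel₀ (by rw [← hmP]; exact hpos.ne') vQ).symm
  · rw [max_eq_left a.le] at hmP
    rw [max_eq_left b.le] at hmQ
    have e2 : v uP = v uQ := by rw [← hmP, hv, hmQ]
    left
    refine same e2 ?_
    rw [← e2, mul_comm (v uP), mul_comm (v uP)] at vQ
    exact (mul_right_cancel₀ (by rw [← hmP]; exact hpos.ne') vQ).symm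

/-- the borderline case `v(x)³ = v(a₆)` -/
theorem Nd.inE0_triple (h : Nd v W α β) (hw : IsLogVal v w) {P : W.Point} (hP : Nr v P)
    (h2P : Nr v (P + P)) (h3 : v (px P) ^ 3 = v W.a₆) : InE0 v (P + P + P) := by
  have hx0 := h.px_ne_zero hP
  have hX0 := h.px_ne_zero h2P
  obtain ⟨hP0, hx⟩ := ne_and_lt hP.one
  obtain ⟨h2P0, hX⟩ := ne_and_lt h2P.one
  obtain ⟨l1, l2⟩ := h.log_px hw hP
  have ha6 := h.sl.a₆
  have hw3 : 3 * w (px P) = w W.a₆ := by
    rw [← map_pow, hw.eq_iff (pow_ne_zero 3 hx0) ha6, hw.pow hx0] at h3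
    exact_mod_cast h3
  have hdb := h.log_double hw hP h2P
  rw [min_eq_right (by linarith)] at hdb
  have hdb' : w (px (P + P)) = w (px P) := by linarith
  have hvx : v (px (P + P)) = v (px P) := (hw.eq_iff hX0 hx0).mpr hdb'
  by_cases hxx : px (P + P) = px P
  · rcases (px_eq_iff h2P0 hP0).mp hxx with e | e
    · exact absurd (add_eq_left.mp e) hP0
    · rw [e, neg_add_cancel]; exact InE0.zero
  · have hpr := px_add_sub_prod h2P0 hP0 hxx
    rw [h.b₄_eq, h.b₆_eq, h.b₈_eq, add_sub_cancel_right] at hpr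
    have hd0 : px (P + P) - px P ≠ 0 := sub_ne_zero.mpr hxx
    set x := px P with hxd
    set X := px (P + P) with hXd
    have hxpos : 0 < v x := zero_lt_iff.mpr ((Valuation.ne_zero_iff v).mpr hx0)
    have ha6pos : 0 < v W.a₆ := zero_lt_iff.mpr ((Valuation.ne_zero_iff v).mpr ha6)
    have vR : v (X ^ 2 * x ^ 2 - 0 * (X * x) - 4 * W.a₆ * (X + x) - W.b₂ * W.a₆) = v W.a₆ := by
      have e1 : X ^ 2 * x ^ 2 - 0 * (X * x) - 4 * W.a₆ * (X + x) - W.b₂ * W.a₆ =
          (X ^ 2 * x ^ 2 - 4 * W.a₆ * (X + x)) - W.b₂ * W.a₆ := by ring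
      have vb : v (W.b₂ * W.a₆) = v W.a₆ := by rw [map_mul, h.b₂_eq, one_mul]
      rw [e1, Valuation.map_sub_eq_of_lt_right, vb]
      rw [vb]
      apply v.map_sub_lt
      · rw [map_mul, map_pow, map_pow, hvx, ← h3]
        calc v x ^ 2 * v x ^ 2 = v x ^ 3 * v x := by rw [← pow_add, ← pow_succ]
          _ < v x ^ 3 * 1 := mul_lt_mul_of_pos_left hx (pow_pos hxpos 3)
          _ = v x ^ 3 := mul_one _
      · rw [map_mul, map_mul]
        calc v 4 * v W.a₆ * v (X + x) ≤ 1 * v W.a₆ * v (X + x) :=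
              mul_le_mul' (mul_le_mul' (v_ofNat_le_one v 4) le_rfl) le_rfl
          _ = v W.a₆ * v (X + x) := by rw [one_mul]
          _ < v W.a₆ * 1 := mul_lt_mul_of_pos_left (v.map_add_lt hX hx) ha6pos
          _ = v W.a₆ := mul_one _
    have e2 := congrArg v hpr
    rw [vR, map_mul, map_mul, map_pow, ← h3] at e2
    have hle : v (X - x) ≤ v x := v.map_sub_le hvx.le le_rfl
    right
    by_contra hcon
    push Not at hcon
    have : v (px (P + P + P)) * v x * v (X - x) ^ 2 < v x ^ 3 := by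
      calc v (px (P + P + P)) * v x * v (X - x) ^ 2
          ≤ v (px (P + P + P)) * v x * v x ^ 2 :=
            mul_le_mul' le_rfl (pow_le_pow_left₀ zero_le hle 2)
        _ = v (px (P + P + P)) * v x ^ 3 := by rw [mul_assoc, ← pow_succ']
        _ < 1 * v x ^ 3 := mul_lt_mul_of_pos_right hcon (pow_pos hxpos 3)
        _ = v x ^ 3 := one_mul _
    exact this.ne e2

theorem Nd.not_inE0_nsmul (h : Nd v W α β) {p : ℕ} (hp : p.Prime) {P : W.Point}
    (hP : ¬ InE0 v P) (hpP : p • P = 0) {m : ℕ} (hm : ¬ p ∣ m) : ¬ InE0 v (m • P) := by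
  intro hE
  apply hP
  obtain ⟨k, -, hk⟩ := Nat.exists_mul_mod_eq_one_of_coprime
    (((Nat.Prime.coprime_iff_not_dvd hp).mpr hm).symm) hp.one_lt
  have e : k • (m • P) = P := by
    rw [← mul_smul, mul_comm, ← Nat.div_add_mod (m * k) p, hk, add_smul, one_smul, mul_comm p,
      mul_smul, hpP, smul_zero, zero_add]
  rw [← e]
  have b4 : v W.b₄ < 1 := by rw [h.b₄_eq]; simp
  have b6 : v W.b₆ < 1 := by
    rw [h.b₆_eq]; exact v_mul_lt_one_right (v_ofNat_le_one v 4) h.a6
  have b8 : v W.b₈ < 1 := by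
    rw [h.b₈_eq]; exact v_mul_lt_one_right h.b₂_eq.le h.a6
  exact hE.nsmul h.int b4 b6 b8 k

theorem Nd.nr_nsmul (h : Nd v W α β) {p : ℕ} (hp : p.Prime) (hp2 : p ≠ 2) {P : W.Point}
    (hP : ¬ InE0 v P) (hpP : p • P = 0) {m : ℕ} (hm : ¬ p ∣ m) : Nr v (m • P) := by
  refine ⟨h.not_inE0_nsmul hp hP hpP hm, ?_⟩
  have e : m • P + m • P = (2 * m) • P := by rw [two_mul, add_smul]
  rw [e]
  refine h.not_inE0_nsmul hp hP hpP fun hd => ?_
  rcases (Nat.Prime.dvd_mul hp).mp hd with h1 | h1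
  · exact hp2 ((Nat.prime_dvd_prime_iff_eq hp Nat.prime_two).mp h1)
  · exact hm h1

/-- **The valuation of `x(P)`**, `P` of odd prime order reducing to the node. -/
theorem Nd.exists_k (h : Nd v W α β) (hw : IsLogVal v w) {p : ℕ} (hp : p.Prime) (hp2 : p ≠ 2)
    {P : W.Point} (hP : ¬ InE0 v P) (hpP : p • P = 0) :
    ∃ k : ℤ, p * w (px P) = k * w W.a₆ := by
  have hnr : ∀ m : ℕ, 1 ≤ m → m ≤ p - 1 → Nr v (m • P) := by
    intro m h1 h2
    refine h.nr_nsmul hp hp2 hP hpP fun hd => ?_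
    have := Nat.le_of_dvd (by omega) hd
    have := hp.two_le
    omega
  have hp3 : 3 ≤ p := by
    have := hp.two_le
    omega
  have hP1 : Nr v P := by simpa using hnr 1 le_rfl (by omega)
  have h2P : Nr v (P + P) := by
    have := hnr 2 (by omega) (by omega)
    rwa [two_smul] at this
  rcases (show p = 3 ∨ 5 ≤ p by
      by_contra hc
      push Not at hc
      have h4 : p = 4 := by omega
      subst h4
      exact absurd hp (by norm_num)) with rfl | hp5
  · refine ⟨1, ?_⟩
    have hd := h.log_double hw hP1 h2P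
    have e : P + P = -P := by
      have : P + P + P = 0 := by
        rw [← hpP, succ_nsmul, two_smul]
      exact eq_neg_of_add_eq_zero_left this
    rw [e, px_neg] at hd
    obtain ⟨l1, l2⟩ := h.log_px hw hP1
    rcases min_choice (2 * w (px P)) (w W.a₆ - 2 * w (px P)) with h1 | h1
    · rw [h1] at hd; linarith
    · rw [h1] at hd
      push_cast
      linarith
  · set r : ℕ → ℝ := fun m => if m = 0 then 0 else w (px (m • P)) with hr
    have hr0 : r 0 = 0 := by simp [hr]
    have hrm : ∀ m, 1 ≤ m → r m = w (px (m • P)) := by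
      intro m hm; simp [hr, show m ≠ 0 by omega]
    have hr1 : r 1 = w (px P) := by rw [hrm 1 le_rfl, one_nsmul]
    obtain ⟨l1, l2⟩ := h.log_px hw hP1
    have hN : 0 < w W.a₆ / 2 := by linarith
    have h3 : v (px P) ^ 3 ≠ v W.a₆ := by
      intro h3
      have h4 := h.inE0_triple hw hP1 h2P h3
      refine (hnr 3 (by omega) (by omega)).one ?_
      have : (3 : ℕ) • P = P + P + P := by rw [succ_nsmul, two_smul]
      rw [this]; exact h4
    have key := tent_final hN hp5 (r := r) hr0 ?_ ?_ ?_ ?_ ?_ ?_ ?_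
    · obtain ⟨k, hk⟩ := key
      refine ⟨k, ?_⟩
      rw [hr1] at hk
      rw [hk]; ring
    · intro m hm
      by_cases hm0 : m = 0
      · rw [hm0, hr0]
      · rw [hrm m (by omega)]
        exact (h.log_px hw (hnr m (by omega) hm)).1.le
    · intro m hm
      by_cases hm0 : m = 0
      · rw [hm0, hr0]; exact hN.le
      · rw [hrm m (by omega)]
        have := (h.log_px hw (hnr m (by omega) hm)).2
        linarith
    · intro m hm
      by_cases hm0 : m = 0
      · subst hm0
        rw [hr0, hrm 2 (by omega), two_smul, h.log_double hw hP1 h2P, zero_add, hr1, sub_self,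
          abs_zero, zero_add, add_zero]
        congr 1 <;> ring
      · rw [hrm (m + 2) (by omega), hrm m (by omega), hrm (m + 1) (by omega), hr1]
        have e1 : (m + 1) • P + P = (m + 2) • P := by rw [← succ_nsmul]
        have e2 : (m + 1) • P - P = m • P := by rw [succ_nsmul, add_sub_cancel_right]
        have a1 := hnr (m + 1) (by omega) (by omega)
        have a2 := hnr (m + 2) (by omega) (by omega)
        have a3 := hnr m (by omega) (by omega)
        have hne : w (px ((m + 1) • P)) ≠ w (px P) := by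
          intro he
          have hv : v (px P) = v (px ((m + 1) • P)) :=
            ((hw.eq_iff (h.px_ne_zero a1) (h.px_ne_zero hP1)).mpr he).symm
          rcases h.inE0_of_eq a1 hP1 hv.symm (by rw [← hv]; exact h3) with h5 | h5
          · rw [e2] at h5; exact a3.one h5
          · rw [e1] at h5; exact a2.one h5
        have := h.log_add hw a1 hP1 (by rw [e1]; exact a2) (by rw [e2]; exact a3) hne
        rw [e1, e2] at this
        rw [this]
        congr 2
        ring
    · rw [hr1]; exact l1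
    · rw [hr1]; linarith
    · rw [hrm _ (by omega), hr1]
      have : (p - 1) • P = -P := by
        have e : (p - 1) • P + P = 0 := by rw [← succ_nsmul, show p - 1 + 1 = p by omega, hpP]
        exact eq_neg_of_add_eq_zero_left e
      rw [this, px_neg]
    · rw [hrm _ (by omega), hrm 2 (by omega)]
      have : (p - 2) • P = -(2 • P) := by
        have e : (p - 2) • P + 2 • P = 0 := by
          rw [← add_nsmul, show p - 2 + 2 = p by omega, hpP]
        exact eq_neg_of_add_eq_zero_left e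
      rw [this, px_neg]

/-- **Close points**: two points in the same component, not the middle one, whose `x`-coordinates are
congruent, differ by an element of `E₁`, or are opposite. -/
theorem Nd.inE1_of_close (h : Nd v W α β) {P P' : W.Point} (hP : Nr v P) (hP' : P' ≠ 0)
    (hu : v (py P' - α * px P') = v (py P - α * px P))
    (hw : v (py P' - β * px P') = v (py P - β * px P))
    (hx : v (px P' - px P) < v (px P)) : InE1 v (P' - P) ∨ P' = -P := by
  obtain ⟨hP0, hx1⟩ := ne_and_lt hP.one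
  have hne := h.val_ne hP
  have hm := h.val_px hne
  have hpx0 := h.px_ne_zero hP
  have hpos : 0 < v (px P) := zero_lt_iff.mpr ((Valuation.ne_zero_iff v).mpr hpx0)
  by_cases hxx : px P' = px P
  · rcases (px_eq_iff hP' hP0).mp hxx with e | e
    · left; rw [e, sub_self]; exact InE1.zero
    · right; exact e
  · left
    have hn := neg_ne hP0
    have hsum : P' + -P ≠ 0 := by
      rw [← sub_eq_add_neg]
      intro h0
      exact hxx (by rw [sub_eq_zero.mp h0])
    obtain ⟨ℓ, ν, y1, y2, -, s1, -, -⟩ := exists_line hP' hn hsum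
    obtain ⟨n1, n2⟩ := h.u_neg hP0
    rw [px_neg] at y2 s1 n1 n2
    rw [← sub_eq_add_neg] at s1
    set x := px P
    set x' := px P'
    set u := py P - α * x
    set w' := py P' - β * x'
    set w₀ := py P - β * x
    set u' := py P' - α * x'
    have hd0 : x' - x ≠ 0 := sub_ne_zero.mpr hxx
    -- `S = u' + w`, `R = w' + u`
    have eS : (ℓ - α) * (x' - x) = u' + w₀ := by
      linear_combination (-1 : F) * y1 + y2 - n1
    have eR : (ℓ - β) * (x' - x) = w' + u := by
      linear_combination (-1 : F) * y1 + y2 - n2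
    have vS : v (u' + w₀) = v x := by
      rcases lt_or_gt_of_ne hne with a | a
      · rw [max_eq_right a.le] at hm
        rw [Valuation.map_add_eq_of_lt_right, ← hm]
        rw [hu]; exact a
      · rw [max_eq_left a.le] at hm
        rw [Valuation.map_add_eq_of_lt_left, hu, ← hm]
        rw [hu]; exact a
    have vR : v (w' + u) = v x := by
      rcases lt_or_gt_of_ne hne with a | a
      · rw [max_eq_right a.le] at hm
        rw [Valuation.map_add_eq_of_lt_left, hw, ← hm]
        rw [hw]; exact a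
      · rw [max_eq_left a.le] at hm
        rw [Valuation.map_add_eq_of_lt_right, ← hm]
        rw [hw]; exact a
    have hvd : 0 < v (x' - x) := zero_lt_iff.mpr ((Valuation.ne_zero_iff v).mpr hd0)
    have v1 : v (ℓ - α) * v (x' - x) = v x := by rw [← map_mul, eS, vS]
    have v2 : v (ℓ - β) * v (x' - x) = v x := by rw [← map_mul, eR, vR]
    have g1 : 1 < v (ℓ - α) := by
      by_contra hc
      push Not at hc
      have : v (ℓ - α) * v (x' - x) ≤ 1 * v (x' - x) := mul_le_mul' hc le_rfl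
      rw [v1, one_mul] at this
      exact absurd hx (not_lt.mpr this)
    have g2 : 1 < v (ℓ - β) := by
      by_contra hc
      push Not at hc
      have : v (ℓ - β) * v (x' - x) ≤ 1 * v (x' - x) := mul_le_mul' hc le_rfl
      rw [v2, one_mul] at this
      exact absurd hx (not_lt.mpr this)
    have g3 : 1 < v ((ℓ - α) * (ℓ - β)) := by
      rw [map_mul]
      exact one_lt_mul_of_lt_of_le g1 g2.le
    have hx' : v x' < 1 := by
      have : x' = x + (x' - x) := by ring
      rw [this]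
      exact v.map_add_lt hx1 (hx.trans hx1)
    have e3 : px (P' - P) = (ℓ - α) * (ℓ - β) - (x' + x) := by
      have : ℓ ^ 2 + W.a₁ * ℓ - W.a₂ = (ℓ - α) * (ℓ - β) := by
        linear_combination ℓ * h.sl.sum - h.sl.prod
      linear_combination s1 + this
    right
    rw [e3, Valuation.map_sub_eq_of_lt_left]
    · exact g3
    · exact (v.map_add_lt hx' hx1).trans g3

end Fermat.Agent.Cor.Unr
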