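import Mathlib
import Fermat.Agent.Cor.VeluD
import Fermat.Agent.Cor.H09Isog

set_option autoImplicit false

/-!
# Surjectivity of the Velu isogeny on `ℚ̄`-points, dual isogenies
-/

open WeierstrassCurve WeierstrassCurve.Affine WeierstrassCurve.Affine.Point

namespace Fermat.Agent.Cor.VeluS

open Fermat.Agent.H08 Fermat.Agent.Frob Fermat.Agent.Cor.VeluD Polynomial

local notation "Qb" => AlgebraicClosure ℚ
local notation "GQ" => AlgebraicClosure ℚ ≃ₐ[ℚ] AlgebraicClosure ℚ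

section Poly

variable {K : Type*} [Field K]

/-- Solving `x + ∑ (tᵢ x + cᵢ) / (x - xᵢ) ^ 2 = y`. -/
theorem exists_solution [IsAlgClosed K] (s : Finset ℕ) (xs t c : ℕ → K)
    (hinj : ∀ i ∈ s, ∀ j ∈ s, xs i = xs j → i = j)
    (hne : ∀ i ∈ s, t i * xs i + c i ≠ 0) (y : K) :
    ∃ x : K, (∀ i ∈ s, x ≠ xs i) ∧ x + ∑ i ∈ s, (t i * x + c i) / (x - xs i) ^ 2 = y := by
  classical
  set D : K[X] := ∏ j ∈ s, (X - C (xs j)) ^ 2 with hD
  set Di : ℕ → K[X] := fun i => ∏ j ∈ s.erase i, (X - C (xs j)) ^ 2 with hDi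
  set S : K[X] := ∑ i ∈ s, (C (t i) * X + C (c i)) * Di i with hS
  set G : K[X] := (X - C y) * D + S with hG
  have hdD : D.degree = ((2 * s.card : ℕ) : WithBot ℕ) := by
    rw [hD, degree_prod, Finset.sum_congr rfl (g := fun _ => (2 : WithBot ℕ))]
    · rw [Finset.sum_const, nsmul_eq_mul]
      push_cast
      rw [mul_comm]
    · intro i _
      rw [degree_pow, degree_X_sub_C]
      rfl
  have hdD1 : ((X - C y) * D).degree = ((2 * s.card + 1 : ℕ) : WithBot ℕ) := by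
    rw [degree_mul, degree_X_sub_C, hdD]
    push_cast
    rw [add_comm]
  have hdS : S.degree < ((2 * s.card + 1 : ℕ) : WithBot ℕ) := by
    rw [hS]
    refine lt_of_le_of_lt (degree_sum_le _ _) ?_
    rw [Finset.sup_lt_iff (WithBot.bot_lt_coe _)]
    intro i hi
    rw [degree_mul]
    have h1 : (C (t i) * X + C (c i)).degree ≤ 1 := degree_linear_le
    have h2 : (Di i).degree = ((2 * (s.card - 1) : ℕ) : WithBot ℕ) := by
      rw [hDi]
      simp only
      rw [degree_prod, Finset.sum_congr rfl (g := fun _ => (2 : WithBot ℕ))]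
      · rw [Finset.sum_const, nsmul_eq_mul, Finset.card_erase_of_mem hi, mul_comm]
        push_cast
        rfl
      · intro i _
        rw [degree_pow, degree_X_sub_C]
        rfl
    have hpos : 0 < s.card := Finset.card_pos.mpr ⟨i, hi⟩
    rw [h2]
    refine lt_of_le_of_lt (add_le_add_left h1 _) ?_
    have h3 : (1 : WithBot ℕ) + ((2 * (s.card - 1) : ℕ) : WithBot ℕ) =
      ((1 + 2 * (s.card - 1) : ℕ) : WithBot ℕ) := by push_cast; rfl
    rw [h3]
    exact_mod_cast (by omega : 1 + 2 * (s.card - 1) < 2 * s.card + 1)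
  have hdG : G.degree = ((2 * s.card + 1 : ℕ) : WithBot ℕ) := by
    rw [hG, degree_add_eq_left_of_degree_lt (by rw [hdD1]; exact hdS), hdD1]
  obtain ⟨x, hx⟩ := IsAlgClosed.exists_root G (by
    rw [hdG]
    intro h
    have : (2 * s.card + 1 : ℕ) = 0 := by exact_mod_cast h
    omega)
  have heval : (x - y) * ∏ j ∈ s, (x - xs j) ^ 2 +
      ∑ i ∈ s, (t i * x + c i) * ∏ j ∈ s.erase i, (x - xs j) ^ 2 = 0 := by
    have h := hx
    rw [IsRoot.def, hG, hS, hD, eval_add, eval_mul, eval_finsetSum, eval_prod] at h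
    simp only [eval_sub, eval_X, eval_C, eval_pow, eval_mul, eval_add, hDi, eval_prod] at h
    exact h
  have hxs : ∀ i ∈ s, x ≠ xs i := by
    intro i hi hxi
    have h1 : ∏ j ∈ s, (x - xs j) ^ 2 = 0 :=
      Finset.prod_eq_zero hi (by rw [hxi]; ring)
    rw [h1, mul_zero, zero_add] at heval
    rw [Finset.sum_eq_single_of_mem i hi] at heval
    · rcases mul_eq_zero.mp heval with h2 | h2
      · rw [hxi] at h2
        exact hne i hi h2
      · rw [Finset.prod_eq_zero_iff] at h2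
        obtain ⟨j, hj, h3⟩ := h2
        rw [Finset.mem_erase] at hj
        have h4 : x = xs j := sub_eq_zero.mp (pow_eq_zero_iff (two_ne_zero)|>.mp h3)
        exact hj.1 (hinj i hi j hj.2 (by rw [← hxi, h4])).symm
    · intro j hj hji
      have h5 : ∏ k ∈ s.erase j, (x - xs k) ^ 2 = 0 :=
        Finset.prod_eq_zero (Finset.mem_erase.mpr ⟨hji.symm, hi⟩) (by rw [hxi]; ring)
      rw [h5, mul_zero]
  refine ⟨x, hxs, ?_⟩
  have hD0 : ∏ j ∈ s, (x - xs j) ^ 2 ≠ 0 :=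
    Finset.prod_ne_zero_iff.mpr fun j hj => pow_ne_zero 2 (sub_ne_zero.mpr (hxs j hj))
  have hterm : ∀ i ∈ s, (t i * x + c i) * ∏ j ∈ s.erase i, (x - xs j) ^ 2 =
      ((t i * x + c i) / (x - xs i) ^ 2) * ∏ j ∈ s, (x - xs j) ^ 2 := by
    intro i hi
    rw [← Finset.mul_prod_erase s _ hi]
    have := sub_ne_zero.mpr (hxs i hi)
    field_simp
  rw [Finset.sum_congr rfl hterm, ← Finset.sum_mul, ← add_mul] at heval
  rcases mul_eq_zero.mp heval with h | h
  · linear_combination h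
  · exact absurd h hD0

end Poly

section Main

variable {W W' : WeierstrassCurve ℤ} {p : ℕ}
  {C : AddSubgroup ((W.map (Int.castRingHom ℚ))⁄Qb).Point}

/-- The Velu isogeny over `ℚ̄` with its formula for `x`. -/
theorem exists_isog_coord {u : ℚ} (hu : u ≠ 0) (hΔ : W.Δ ≠ 0)
    (hp : p.Prime) (hp2 : p ≠ 2) (hC : Nat.card C = p)
    (hst : ∀ σ : Qb ≃ₐ[ℚ] Qb, ∀ Q ∈ C, σ • Q ∈ C)
    (h4 : (W'.c₄ : Qb) = (u : Qb) ^ 4 *
        H24.veluC4 ((W.map (Int.castRingHom ℚ))⁄Qb) (C : Set _))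
    (h6 : (W'.c₆ : Qb) = (u : Qb) ^ 6 *
        H24.veluC6 ((W.map (Int.castRingHom ℚ))⁄Qb) (C : Set _)) :
    ∃ φ : ((W.map (Int.castRingHom ℚ))⁄Qb).Point →+ ((W'.map (Int.castRingHom ℚ))⁄Qb).Point,
      (∀ P, φ P = 0 ↔ P ∈ C) ∧ (∀ P, P ∉ C →
        px (φ P) = (u : Qb) ^ 2 * (px P + ((W.map (Int.castRingHom ℚ))⁄Qb).b₂ / 12 +
          ∑ᶠ Q ∈ (C : Set ((W.map (Int.castRingHom ℚ))⁄Qb).Point) \ {0},
            (px (P + Q) - px Q)) - ((W'.map (Int.castRingHom ℚ))⁄Qb).b₂ / 12) ∧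
      (∀ (σ : Qb ≃ₐ[ℚ] Qb) P, φ (σ • P) = σ • φ P) := by
  have hne : NeZero p := ⟨hp.ne_zero⟩
  have halg : Algebra.IsAlgebraic ℚ Qb := AlgebraicClosure.isAlgebraic ℚ
  let f : Qb →ₐ[ℚ] ℂ := IsAlgClosed.lift (R := ℚ) (S := Qb) (M := ℂ)
  have hinj : Function.Injective f := f.toRingHom.injective
  have hfin : Finite C := Nat.finite_of_card_ne_zero (by rw [hC]; exact hp.ne_zero)
  have hfin' : (C : Set ((W.map (Int.castRingHom ℚ))⁄Qb).Point).Finite := Set.toFinite _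
  have hΔ' : ((W.map (Int.castRingHom ℚ))⁄ℂ).Δ ≠ 0 := by
    have : ((W.map (Int.castRingHom ℚ))⁄ℂ).Δ = algebraMap ℚ ℂ (W.map (Int.castRingHom ℚ)).Δ :=
      WeierstrassCurve.map_Δ (W.map (Int.castRingHom ℚ)) _
    rw [this, Ne, map_eq_zero_iff _ (algebraMap ℚ ℂ).injective, map_Δ]
    simpa using hΔ
  set C' := C.map (Point.map (W' := W.map (Int.castRingHom ℚ)) f) with hC'
  have e : ((C' : AddSubgroup ((W.map (Int.castRingHom ℚ))⁄ℂ).Point) :
      Set ((W.map (Int.castRingHom ℚ))⁄ℂ).Point) =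
    Point.map (W' := W.map (Int.castRingHom ℚ)) f ''
      (C : Set ((W.map (Int.castRingHom ℚ))⁄Qb).Point) := rfl
  have hmem : ∀ P, Point.map (W' := W.map (Int.castRingHom ℚ)) f P ∈ C' ↔ P ∈ C := by
    intro P
    constructor
    · rintro ⟨Q, hQ, hQP⟩
      rwa [← Point.map_injective (W' := W.map (Int.castRingHom ℚ)) f hQP]
    · intro hP
      exact ⟨P, hP, rfl⟩
  have huC : ((u : ℚ) : ℂ) ≠ 0 := by exact_mod_cast hu
  have h4' : ((W'.map (Int.castRingHom ℚ))⁄ℂ).c₄ = ((u : ℚ) : ℂ) ^ 4 *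
      H24.veluC4 ((W.map (Int.castRingHom ℚ))⁄ℂ) (C' : Set _) := by
    rw [e, H24.veluC4_map f hfin', ← H24.map_c4_eq f, VeluZ.c₄_Qb, h4, map_mul, map_pow,
      map_ratCast]
  have h6' : ((W'.map (Int.castRingHom ℚ))⁄ℂ).c₆ = ((u : ℚ) : ℂ) ^ 6 *
      H24.veluC6 ((W.map (Int.castRingHom ℚ))⁄ℂ) (C' : Set _) := by
    rw [e, H24.veluC6_map f hfin', ← H24.map_c6_eq f, VeluZ.c₆_Qb, h6, map_mul, map_pow,
      map_ratCast]
  obtain ⟨φc, hker, hsurj, hform⟩ := VeluC.velu_isog (V := ((W.map (Int.castRingHom ℚ))⁄ℂ))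
    (V' := ((W'.map (Int.castRingHom ℚ))⁄ℂ)) hΔ' hp hp2 (C := C')
    (by rw [hC', H24.card_map_point, hC]) huC h4' h6'
  -- the values
  have hcoord : ∀ P, P ∉ C →
      px (φc (Point.map (W' := W.map (Int.castRingHom ℚ)) f P)) =
        f ((u : Qb) ^ 2 * (px P + ((W.map (Int.castRingHom ℚ))⁄Qb).b₂ / 12 +
          ∑ᶠ Q ∈ (C : Set ((W.map (Int.castRingHom ℚ))⁄Qb).Point) \ {0},
            (px (P + Q) - px Q)) - ((W'.map (Int.castRingHom ℚ))⁄Qb).b₂ / 12) ∧
      psi2 (φc (Point.map (W' := W.map (Int.castRingHom ℚ)) f P)) =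
        f ((u : Qb) ^ 3 * ∑ᶠ Q ∈ (C : Set ((W.map (Int.castRingHom ℚ))⁄Qb).Point),
          psi2 (P + Q)) := by
    intro P hP
    obtain ⟨h1, h2⟩ := hform (Point.map (W' := W.map (Int.castRingHom ℚ)) f P)
      (fun h => hP ((hmem P).mp h))
    have hset : ((C' : Set ((W.map (Int.castRingHom ℚ))⁄ℂ).Point) \ {0}) =
        Point.map (W' := W.map (Int.castRingHom ℚ)) f ''
          ((C : Set ((W.map (Int.castRingHom ℚ))⁄Qb).Point) \ {0}) := by
      rw [Set.image_sdiff (Point.map_injective (W' := W.map (Int.castRingHom ℚ)) f), e,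
        Set.image_singleton, Point.map_zero]
    have hs1 : ∑ᶠ Q ∈ (C' : Set ((W.map (Int.castRingHom ℚ))⁄ℂ).Point) \ {0},
        (px (Point.map (W' := W.map (Int.castRingHom ℚ)) f P + Q) - px Q) =
        f (∑ᶠ Q ∈ (C : Set ((W.map (Int.castRingHom ℚ))⁄Qb).Point) \ {0},
          (px (P + Q) - px Q)) := by
      have h := AddMonoidHom.map_finsum_mem (fun Q => px (P + Q) - px Q)
        ((f : Qb →+* ℂ) : Qb →+ ℂ) (hfin'.subset (Set.sdiff_subset (t := {0})))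
      rw [hset, finsum_mem_image
        ((Point.map_injective (W' := W.map (Int.castRingHom ℚ)) f).injOn)]
      refine Eq.trans ?_ h.symm
      refine finsum_mem_congr rfl fun Q _ => ?_
      rw [← map_add, px_map, px_map]
      exact (map_sub f _ _).symm
    have hs2 : ∑ᶠ Q ∈ (C' : Set ((W.map (Int.castRingHom ℚ))⁄ℂ).Point),
        psi2 (Point.map (W' := W.map (Int.castRingHom ℚ)) f P + Q) =
        f (∑ᶠ Q ∈ (C : Set ((W.map (Int.castRingHom ℚ))⁄Qb).Point), psi2 (P + Q)) := by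
      have h := AddMonoidHom.map_finsum_mem (fun Q => psi2 (P + Q))
        ((f : Qb →+* ℂ) : Qb →+ ℂ) hfin'
      rw [e, finsum_mem_image
        ((Point.map_injective (W' := W.map (Int.castRingHom ℚ)) f).injOn)]
      refine Eq.trans ?_ h.symm
      refine finsum_mem_congr rfl fun Q _ => ?_
      rw [← map_add, psi2_map]
      rfl
    have e1 : ((W.map (Int.castRingHom ℚ))⁄ℂ).b₂ =
        f ((W.map (Int.castRingHom ℚ))⁄Qb).b₂ := (H24.map_b2_eq f).symm
    have e2 : ((W'.map (Int.castRingHom ℚ))⁄ℂ).b₂ =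
        f ((W'.map (Int.castRingHom ℚ))⁄Qb).b₂ := (H24.map_b2_eq f).symm
    rw [hs1, px_map] at h1
    rw [hs2] at h2
    constructor
    · rw [map_sub, map_mul, map_add, map_add, map_div₀, map_div₀, map_pow, map_ratCast,
        map_ofNat, ← e1, ← e2, ← h1]
      ring
    · rw [map_mul, map_pow, map_ratCast]
      exact h2
  have hφ0 : ∀ P, φc (Point.map (W' := W.map (Int.castRingHom ℚ)) f P) = 0 ↔ P ∈ C := by
    intro P
    rw [← AddMonoidHom.mem_ker, hker, hmem]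
  have hex : ∀ P : ((W.map (Int.castRingHom ℚ))⁄Qb).Point,
      ∃ R : ((W'.map (Int.castRingHom ℚ))⁄Qb).Point,
        Point.map (W' := W'.map (Int.castRingHom ℚ)) f R =
          φc (Point.map (W' := W.map (Int.castRingHom ℚ)) f P) := by
    intro P
    by_cases hP : P ∈ C
    · exact ⟨0, by rw [Point.map_zero, (hφ0 P).mpr hP]⟩
    · obtain ⟨h1, h2⟩ := hcoord P hP
      exact exists_descent f (fun h => hP ((hφ0 P).mp h)) h1 h2
  choose g hg using hex
  have hginj := Point.map_injective (W' := W'.map (Int.castRingHom ℚ)) f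
  let φ : ((W.map (Int.castRingHom ℚ))⁄Qb).Point →+
      ((W'.map (Int.castRingHom ℚ))⁄Qb).Point :=
    { toFun := g
      map_zero' := by
        apply hginj
        rw [hg, Point.map_zero, _root_.map_zero, Point.map_zero]
      map_add' := by
        intro P Q
        apply hginj
        rw [hg, map_add, map_add, map_add, hg, hg] }
  have hφg : ∀ P, Point.map (W' := W'.map (Int.castRingHom ℚ)) f (φ P) =
      φc (Point.map (W' := W.map (Int.castRingHom ℚ)) f P) := hg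
  have hφC : ∀ P, φ P = 0 ↔ P ∈ C := by
    intro P
    rw [← hφ0, ← hφg]
    constructor
    · intro h; rw [h, Point.map_zero]
    · intro h
      apply hginj
      rw [h, Point.map_zero]
  have hcoord' : ∀ P, P ∉ C →
      px (φ P) = (u : Qb) ^ 2 * (px P + ((W.map (Int.castRingHom ℚ))⁄Qb).b₂ / 12 +
          ∑ᶠ Q ∈ (C : Set ((W.map (Int.castRingHom ℚ))⁄Qb).Point) \ {0},
            (px (P + Q) - px Q)) - ((W'.map (Int.castRingHom ℚ))⁄Qb).b₂ / 12 ∧
      psi2 (φ P) = (u : Qb) ^ 3 * ∑ᶠ Q ∈ (C : Set ((W.map (Int.castRingHom ℚ))⁄Qb).Point),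
          psi2 (P + Q) := by
    intro P hP
    obtain ⟨h1, h2⟩ := hcoord P hP
    rw [← hφg, px_map] at h1
    rw [← hφg, psi2_map] at h2
    exact ⟨hinj h1, hinj h2⟩
  refine ⟨φ, hφC, fun P hP => (hcoord' P hP).1, ?_⟩
  · intro σ P
    by_cases hP : P ∈ C
    · rw [(hφC P).mpr hP, (hφC _).mpr (hst σ P hP)]
      exact (H09.smul_zero_pt σ).symm
    · have hstiff : ∀ Q, σ • Q ∈ C ↔ Q ∈ C := by
        intro Q
        constructor
        · intro hQ
          have := hst σ⁻¹ _ hQ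
          rwa [inv_smul_smul] at this
        · exact hst σ Q
      have hσP : σ • P ∉ C := fun h => hP ((hstiff P).mp h)
      have hφP : φ P ≠ 0 := fun h => hP ((hφC P).mp h)
      have hφσP : φ (σ • P) ≠ 0 := fun h => hσP ((hφC _).mp h)
      obtain ⟨h1, h2⟩ := hcoord' P hP
      obtain ⟨h3, h4⟩ := hcoord' (σ • P) hσP
      have hσs : ∀ Q : ((W.map (Int.castRingHom ℚ))⁄Qb).Point, σ • Q = 0 ↔ Q = 0 := fun Q => by
        constructor
        · intro h
          by_contra hne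
          exact H09.smul_ne_zero' σ hne h
        · rintro rfl
          exact H09.smul_zero_pt σ
      have hbij1 : Set.BijOn (fun Q => σ • Q)
          ((C : Set ((W.map (Int.castRingHom ℚ))⁄Qb).Point) \ {0})
          ((C : Set ((W.map (Int.castRingHom ℚ))⁄Qb).Point) \ {0}) := by
        refine ⟨fun Q hQ => ⟨hst σ Q hQ.1, fun h => hQ.2 ((hσs Q).mp h)⟩,
          fun a _ b _ h => smul_left_cancel σ h, fun Q hQ => ⟨σ⁻¹ • Q, ⟨hst σ⁻¹ Q hQ.1, ?_⟩,
            smul_inv_smul σ Q⟩⟩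
        intro h
        apply hQ.2
        have h5 : σ⁻¹ • Q = 0 := h
        have h6 := (hσs _).mpr h5
        rwa [smul_inv_smul] at h6
      have hbij2 : Set.BijOn (fun Q => σ • Q)
          (C : Set ((W.map (Int.castRingHom ℚ))⁄Qb).Point)
          (C : Set ((W.map (Int.castRingHom ℚ))⁄Qb).Point) :=
        ⟨fun Q hQ => hst σ Q hQ, fun a _ b _ h => smul_left_cancel σ h,
          fun Q hQ => ⟨σ⁻¹ • Q, hst σ⁻¹ Q hQ, smul_inv_smul σ Q⟩⟩
      have hs1 : σ (∑ᶠ Q ∈ (C : Set ((W.map (Int.castRingHom ℚ))⁄Qb).Point) \ {0},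
          (px (P + Q) - px Q)) =
          ∑ᶠ Q ∈ (C : Set ((W.map (Int.castRingHom ℚ))⁄Qb).Point) \ {0},
            (px (σ • P + Q) - px Q) := by
        have h := AddMonoidHom.map_finsum_mem (fun Q => px (P + Q) - px Q)
          ((σ : Qb →+* Qb) : Qb →+ Qb) (hfin'.subset (Set.sdiff_subset (t := {0})))
        refine Eq.trans h ?_
        refine finsum_mem_eq_of_bijOn _ hbij1 fun Q _ => ?_
        have e3 : σ • P + σ • Q = σ • (P + Q) := (smul_add σ P Q).symm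
        change σ (px (P + Q) - px Q) = px (σ • P + σ • Q) - px (σ • Q)
        rw [e3, px_smul, px_smul, map_sub]
      have hs2 : σ (∑ᶠ Q ∈ (C : Set ((W.map (Int.castRingHom ℚ))⁄Qb).Point), psi2 (P + Q)) =
          ∑ᶠ Q ∈ (C : Set ((W.map (Int.castRingHom ℚ))⁄Qb).Point), psi2 (σ • P + Q) := by
        have h := AddMonoidHom.map_finsum_mem (fun Q => psi2 (P + Q))
          ((σ : Qb →+* Qb) : Qb →+ Qb) hfin'
        refine Eq.trans h ?_
        refine finsum_mem_eq_of_bijOn _ hbij2 fun Q _ => ?_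
        have e3 : σ • P + σ • Q = σ • (P + Q) := (smul_add σ P Q).symm
        change σ (psi2 (P + Q)) = psi2 (σ • P + σ • Q)
        rw [e3, psi2_smul]
      have hb : σ ((W.map (Int.castRingHom ℚ))⁄Qb).b₂ = ((W.map (Int.castRingHom ℚ))⁄Qb).b₂ := by
        rw [VeluZ.b₂_Qb, map_intCast]
      have hb' : σ ((W'.map (Int.castRingHom ℚ))⁄Qb).b₂ =
          ((W'.map (Int.castRingHom ℚ))⁄Qb).b₂ := by
        rw [VeluZ.b₂_Qb, map_intCast]
      apply ext_psi2 hφσP (H09.smul_ne_zero' σ hφP)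
      · rw [h3, px_smul σ (φ P), h1, map_sub, map_mul, map_add, map_add, map_div₀, map_div₀, map_pow,
          map_ratCast, map_ofNat, hb, hb', hs1, px_smul]
      · rw [h4, psi2_smul (P := φ P), h2, map_mul, map_pow, map_ratCast, hs2]

/-- the sum over `C ∖ {0}` -/
theorem sum_eq {F : Type*} [Field F] [CharZero F] [DecidableEq F] {E : WeierstrassCurve.Affine F}
    {p r : ℕ} (hp : p.Prime) (hr : p = 2 * r + 1) {C : AddSubgroup E.Point}
    (hC : Nat.card C = p) {T : E.Point} (hT : T ∈ C) (hT0 : T ≠ 0) (hord : addOrderOf T = p)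
    {P : E.Point} (hP0 : P ≠ 0) (hx : ∀ i ∈ Finset.Ico 1 (r + 1), px P ≠ px (i • T)) :
    ∑ᶠ Q ∈ (C : Set E.Point) \ {0}, (px (P + Q) - px Q) =
      ∑ i ∈ Finset.Ico 1 (r + 1), ((6 * px (i • T) ^ 2 + E.b₂ * px (i • T) + E.b₄) * px P +
        (E.b₄ * px (i • T) + E.b₆ - 2 * px (i • T) ^ 3)) / (px P - px (i • T)) ^ 2 := by
  classical
  have hpT : p • T = 0 := by rw [← hord]; exact addOrderOf_nsmul_eq_zero T
  have hset : (C : Set E.Point) \ {0} = ((H09.cyc p T : Finset E.Point) : Set E.Point) := by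
    ext Q
    rw [Finset.mem_coe, VeluZ.mem_cyc_iff hp hC hT hT0 hord]
    rfl
  rw [hset, finsum_mem_coe_finset]
  unfold H09.cyc
  rw [Finset.sum_image (H09.cyc_injOn hord)]
  have h1 : ∑ j ∈ Finset.Ico 1 (r + 1), (px (P + (p - j) • T) - px ((p - j) • T)) =
      ∑ j ∈ Finset.Ico (r + 1) p, (px (P + j • T) - px (j • T)) := by
    have := Finset.sum_Ico_reflect (fun j => px (P + j • T) - px (j • T)) 1 (m := r + 1)
      (n := 2 * r + 1) (by omega)
    rw [hr]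
    rw [this]
    congr 1
    congr 1
    all_goals omega
  rw [← Finset.sum_Ico_consecutive _ (show 1 ≤ r + 1 by omega) (show r + 1 ≤ p by omega), ← h1,
    ← Finset.sum_add_distrib]
  apply Finset.sum_congr rfl
  intro i hi
  have hi' := hi
  rw [Finset.mem_Ico] at hi'
  have hiT : i • T ≠ 0 := VeluZ.smul_ne_zero_of_lt hord (by rw [Finset.mem_Ico]; omega)
  have e1 : (p - i) • T = -(i • T) := by
    rw [eq_neg_iff_add_eq_zero, ← add_nsmul, Nat.sub_add_cancel (by omega), hpT]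
  have e2 := px_add_sub_sum hP0 hiT (hx i hi)
  have hne := sub_ne_zero.mpr (hx i hi)
  rw [e1, ← sub_eq_add_neg, px_neg]
  field_simp
  linear_combination e2

/-- **Surjectivity**: `W(ℚ̄) → W'(ℚ̄)` is surjective. -/
theorem exists_isog_surj {u : ℚ} (hu : u ≠ 0) (hΔ : W.Δ ≠ 0)
    (hp : p.Prime) (hp2 : p ≠ 2) (hC : Nat.card C = p)
    (hst : ∀ σ : Qb ≃ₐ[ℚ] Qb, ∀ Q ∈ C, σ • Q ∈ C)
    (h4 : (W'.c₄ : Qb) = (u : Qb) ^ 4 *
        H24.veluC4 ((W.map (Int.castRingHom ℚ))⁄Qb) (C : Set _))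
    (h6 : (W'.c₆ : Qb) = (u : Qb) ^ 6 *
        H24.veluC6 ((W.map (Int.castRingHom ℚ))⁄Qb) (C : Set _)) :
    ∃ φ : ((W.map (Int.castRingHom ℚ))⁄Qb).Point →+ ((W'.map (Int.castRingHom ℚ))⁄Qb).Point,
      (∀ P, φ P = 0 ↔ P ∈ C) ∧ Function.Surjective φ ∧
      (∀ (σ : Qb ≃ₐ[ℚ] Qb) P, φ (σ • P) = σ • φ P) := by
  obtain ⟨φ, h1, h2, h3⟩ := exists_isog_coord hu hΔ hp hp2 hC hst h4 h6
  refine ⟨φ, h1, fun Q' => ?_, h3⟩
  by_cases hQ' : Q' = 0
  · exact ⟨0, by rw [_root_.map_zero, hQ']⟩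
  obtain ⟨T, hT, hT0, hpT⟩ := H24.exists_gen_of_card hp hC
  have hfact : Fact p.Prime := ⟨hp⟩
  have hord : addOrderOf T = p := addOrderOf_eq_prime hpT hT0
  obtain ⟨r, hr⟩ := hp.odd_of_ne_two hp2
  have huQ : (u : Qb) ≠ 0 := by exact_mod_cast hu
  have hiT : ∀ i ∈ Finset.Ico 1 (r + 1), i • T ≠ 0 := fun i hi =>
    VeluZ.smul_ne_zero_of_lt hord (by rw [Finset.mem_Ico] at hi ⊢; omega)
  have hinj : ∀ i ∈ Finset.Ico 1 (r + 1), ∀ j ∈ Finset.Ico 1 (r + 1),
      px (i • T) = px (j • T) → i = j := by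
    intro i hi j hj hij
    have hi0 := hiT i hi
    have hj0 := hiT j hj
    rw [Finset.mem_Ico] at hi hj
    rcases (px_eq_iff hi0 hj0).mp hij with h | h
    · have h4 : ((i : ℤ) - j) • T = 0 := by
        rw [sub_smul, natCast_zsmul, natCast_zsmul, h, sub_self]
      have h5 : (p : ℤ) ∣ (i : ℤ) - j := by
        rw [← hord]; exact addOrderOf_dvd_iff_zsmul_eq_zero.mpr h4
      have h6 := Int.eq_zero_of_abs_lt_dvd h5 (by rw [abs_lt]; constructor <;> omega)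
      omega
    · have h4 : (i + j) • T = 0 := by
        rw [add_smul, h, neg_add_cancel]
      have h5 : p ∣ i + j := by
        rw [← hord]; exact addOrderOf_dvd_of_nsmul_eq_zero h4
      have := Nat.le_of_dvd (by omega) h5
      omega
  -- no point of order two
  have hψ : ∀ i ∈ Finset.Ico 1 (r + 1), psi2 (i • T) ≠ 0 := by
    intro i hi h0
    have h5 : i • T = -(i • T) := by
      apply pt_ext (hiT i hi) (neg_ne_zero.mpr (hiT i hi)) (px_neg _).symm
      rw [py_neg (hiT i hi)]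
      rw [psi2] at h0
      linear_combination h0
    have h6 : (2 * i) • T = 0 := by
      rw [mul_nsmul', two_nsmul]
      nth_rewrite 1 [h5]
      exact neg_add_cancel _
    have h7 : p ∣ 2 * i := by rw [← hord]; exact addOrderOf_dvd_of_nsmul_eq_zero h6
    rw [Finset.mem_Ico] at hi
    have := Nat.le_of_dvd (by omega) h7
    omega
  obtain ⟨x, hxne, hx⟩ := exists_solution (Finset.Ico 1 (r + 1)) (fun i => px (i • T))
    (fun i => 6 * px (i • T) ^ 2 + ((W.map (Int.castRingHom ℚ))⁄Qb).b₂ * px (i • T) +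
      ((W.map (Int.castRingHom ℚ))⁄Qb).b₄)
    (fun i => ((W.map (Int.castRingHom ℚ))⁄Qb).b₄ * px (i • T) +
      ((W.map (Int.castRingHom ℚ))⁄Qb).b₆ - 2 * px (i • T) ^ 3) hinj (by
      intro i hi h0
      apply hψ i hi
      have h5 := psi2_sq (hiT i hi)
      have h6 : psi2 (i • T) ^ 2 = 0 := by rw [h5]; linear_combination h0
      exact pow_eq_zero_iff (two_ne_zero) |>.mp h6)
    ((px Q' + ((W'.map (Int.castRingHom ℚ))⁄Qb).b₂ / 12) / (u : Qb) ^ 2 -
      ((W.map (Int.castRingHom ℚ))⁄Qb).b₂ / 12)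
  have hΔ0 : ((W.map (Int.castRingHom ℚ))⁄Qb).Δ ≠ 0 := H09.Δ_Qb_ne_zero hΔ
  obtain ⟨P, hP0, hPx⟩ := H09.exists_point_of_x hΔ0 x
  rw [H09.xc_eq_px] at hPx
  have hPC : P ∉ C := by
    intro hPC
    have h5 : P ∈ H09.cyc p T := (VeluZ.mem_cyc_iff hp hC hT hT0 hord).mpr ⟨hPC, hP0⟩
    obtain ⟨k, hk1, hk2, hk, -, -⟩ := H09.mem_cyc hord h5
    rcases Nat.lt_or_ge k (r + 1) with h | h
    · exact hxne k (Finset.mem_Ico.mpr ⟨hk1, h⟩) (by rw [← hPx, hk])
    · refine hxne (p - k) (Finset.mem_Ico.mpr ⟨by omega, by omega⟩) ?_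
      rw [← hPx, hk]
      exact (VeluZ.px_sub_smul hpT hk2).symm
  have h5 := h2 P hPC
  rw [sum_eq hp hr hC hT hT0 hord hP0 (fun i hi => by rw [hPx]; exact hxne i hi), hPx] at h5
  have h6 : px (φ P) = px Q' := by
    rw [h5]
    have e : (x + ((W.map (Int.castRingHom ℚ))⁄Qb).b₂ / 12 +
        ∑ i ∈ Finset.Ico 1 (r + 1), ((6 * px (i • T) ^ 2 +
          ((W.map (Int.castRingHom ℚ))⁄Qb).b₂ * px (i • T) +
          ((W.map (Int.castRingHom ℚ))⁄Qb).b₄) * x +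
          (((W.map (Int.castRingHom ℚ))⁄Qb).b₄ * px (i • T) +
          ((W.map (Int.castRingHom ℚ))⁄Qb).b₆ - 2 * px (i • T) ^ 3)) / (x - px (i • T)) ^ 2) =
        (px Q' + ((W'.map (Int.castRingHom ℚ))⁄Qb).b₂ / 12) / (u : Qb) ^ 2 := by
      linear_combination hx
    rw [e]
    field_simp
    ring
  have h7 : φ P ≠ 0 := fun h => hPC ((h1 P).mp h)
  rcases (px_eq_iff h7 hQ').mp h6 with h | h
  · exact ⟨P, h⟩
  · exact ⟨-P, by rw [map_neg, h, neg_neg]⟩

/-- **The quotient curve and the isogeny**, surjective on `ℚ̄`-points. -/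
theorem exists_quot (hΔ : W.Δ ≠ 0) (hp : p.Prime) (hp2 : p ≠ 2) (hC : Nat.card C = p)
    (hst : ∀ σ : Qb ≃ₐ[ℚ] Qb, ∀ Q ∈ C, σ • Q ∈ C) :
    ∃ (W' : WeierstrassCurve ℤ)
      (φ : ((W.map (Int.castRingHom ℚ))⁄Qb).Point →+ ((W'.map (Int.castRingHom ℚ))⁄Qb).Point),
      W'.Δ ≠ 0 ∧ (∀ P, φ P = 0 ↔ P ∈ C) ∧ Function.Surjective φ ∧
      (∀ (σ : Qb ≃ₐ[ℚ] Qb) P, φ (σ • P) = σ • φ P) := by
  obtain ⟨W', k, h4, h6, -, hΔ', -⟩ := VeluZ.exists_model hΔ hp hp2 hC hst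
  have hu : ((p : ℚ) ^ k) ≠ 0 := pow_ne_zero _ (Nat.cast_ne_zero.mpr hp.ne_zero)
  obtain ⟨φ, h1, h2, h3⟩ := exists_isog_surj (W' := W') hu hΔ hp hp2 hC hst
    (by rw [h4]; push_cast; rfl) (by rw [h6]; push_cast; rfl)
  exact ⟨W', φ, hΔ', h1, h2, h3⟩

end Main

section Dual

open Fermat.Agent.Cor.H09I

variable {W W' W'' : WeierstrassCurve ℤ}

/-- **The dual isogeny.** -/
theorem exists_dual
    {φ : ((W.map (Int.castRingHom ℚ))⁄Qb).Point →+ ((W'.map (Int.castRingHom ℚ))⁄Qb).Point}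
    (hφ : IsIsog W W' φ) (hs : Function.Surjective φ) (hΔ : W.Δ ≠ 0) :
    ∃ ψ : ((W'.map (Int.castRingHom ℚ))⁄Qb).Point →+ ((W.map (Int.castRingHom ℚ))⁄Qb).Point,
      IsIsog W' W ψ ∧ Function.Surjective ψ ∧ (∀ P, ψ (φ P) = Nat.card φ.ker • P) ∧
        ∀ Q, φ (ψ Q) = Nat.card φ.ker • Q := by
  have hfin := hφ.ker
  have hn : Nat.card φ.ker ≠ 0 := Nat.card_pos.ne'
  have hk : ∀ P, φ P = 0 → Nat.card φ.ker • P = 0 := by
    intro P hP
    have h2 : Nat.card φ.ker • (⟨P, hP⟩ : φ.ker) = 0 := card_nsmul_eq_zero'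
    exact congrArg Subtype.val h2
  choose g hg using hs
  have hwd : ∀ P, Nat.card φ.ker • g (φ P) = Nat.card φ.ker • P := by
    intro P
    have h1 : φ (g (φ P) - P) = 0 := by rw [map_sub, hg, sub_self]
    have h2 := hk _ h1
    rwa [nsmul_sub, sub_eq_zero] at h2
  let ψ : ((W'.map (Int.castRingHom ℚ))⁄Qb).Point →+ ((W.map (Int.castRingHom ℚ))⁄Qb).Point :=
    { toFun := fun Q => Nat.card φ.ker • g Q
      map_zero' := by
        have := hwd 0
        rwa [_root_.map_zero, nsmul_zero] at this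
      map_add' := by
        intro Q R
        have := hwd (g Q + g R)
        rw [map_add, hg, hg] at this
        rw [this, nsmul_add] }
  have hψ : ∀ Q, ψ Q = Nat.card φ.ker • g Q := fun _ => rfl
  have h1 : ∀ P, ψ (φ P) = Nat.card φ.ker • P := hwd
  have h2 : ∀ Q, φ (ψ Q) = Nat.card φ.ker • Q := by
    intro Q
    rw [hψ, map_nsmul, hg]
  have hell : (W.map (Int.castRingHom ℚ)).IsElliptic :=
    ⟨isUnit_iff_ne_zero.mpr (by rw [map_Δ]; simpa using hΔ)⟩
  refine ⟨ψ, ⟨?_, ?_⟩, ?_, h1, h2⟩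
  · -- the kernel is the image of the `n`-torsion
    have hcard := card_torsion (K := Qb) (W.map (Int.castRingHom ℚ)) hn
    have hfinT : Finite {P : ((W.map (Int.castRingHom ℚ))⁄Qb).Point // Nat.card φ.ker • P = 0} :=
      Nat.finite_of_card_ne_zero (by rw [hcard]; exact pow_ne_zero 2 hn)
    refine Finite.of_surjective (fun P : {P : ((W.map (Int.castRingHom ℚ))⁄Qb).Point //
      Nat.card φ.ker • P = 0} => (⟨φ P.1, by rw [AddMonoidHom.mem_ker, h1, P.2]⟩ : ψ.ker)) ?_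
    rintro ⟨Q, hQ⟩
    refine ⟨⟨g Q, ?_⟩, Subtype.ext (hg Q)⟩
    exact hQ
  · intro σ Q
    obtain ⟨P, rfl⟩ : ∃ P, φ P = Q := ⟨g Q, hg Q⟩
    rw [← hφ.equiv, h1, h1]
    exact smul_comm _ σ P
  · intro P
    obtain ⟨R, hR⟩ := nsmul_surjective (K := Qb) (W.map (Int.castRingHom ℚ)) hn P
    exact ⟨φ R, by rw [h1]; exact hR⟩

/-- isogenous curves over `ℚ` -/
def Isogenous (W W' : WeierstrassCurve ℤ) : Prop :=
  ∃ φ : ((W.map (Int.castRingHom ℚ))⁄Qb).Point →+ ((W'.map (Int.castRingHom ℚ))⁄Qb).Point,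
    IsIsog W W' φ ∧ Function.Surjective φ

theorem Isogenous.refl (W : WeierstrassCurve ℤ) : Isogenous W W := by
  refine ⟨AddMonoidHom.id _, ⟨?_, fun σ P => rfl⟩, Function.surjective_id⟩
  have h : (AddMonoidHom.id ((W.map (Int.castRingHom ℚ))⁄Qb).Point).ker = ⊥ := by
    rw [AddMonoidHom.ker_eq_bot_iff]
    exact Function.injective_id
  rw [h]
  infer_instance

theorem Isogenous.symm (hΔ : W.Δ ≠ 0) (h : Isogenous W W') : Isogenous W' W := by
  obtain ⟨φ, hφ, hs⟩ := h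
  obtain ⟨ψ, hψ, hs', -, -⟩ := exists_dual hφ hs hΔ
  exact ⟨ψ, hψ, hs'⟩

theorem Isogenous.trans (h : Isogenous W W') (h' : Isogenous W' W'') : Isogenous W W'' := by
  obtain ⟨φ, hφ, hs⟩ := h
  obtain ⟨ψ, hψ, hs'⟩ := h'
  refine ⟨ψ.comp φ, ⟨?_, fun σ P => ?_⟩, hs'.comp hs⟩
  · have hf1 := hφ.ker
    have hf2 := hψ.ker
    have hfib : Finite (φ ⁻¹' (ψ.ker : Set ((W'.map (Int.castRingHom ℚ))⁄Qb).Point)) := by
      rw [Set.finite_coe_iff]
      apply Set.Finite.preimage' (Set.toFinite _)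
      intro Q _
      by_cases hQ : ∃ P, φ P = Q
      · obtain ⟨P, rfl⟩ := hQ
        refine ((Set.toFinite (φ.ker : Set _)).image (fun R => R + P)).subset ?_
        intro R hR
        refine ⟨R - P, ?_, sub_add_cancel R P⟩
        change φ (R - P) = 0
        rw [map_sub, sub_eq_zero]
        exact hR
      · have : φ ⁻¹' {Q} = ∅ := by
          ext P
          simp only [Set.mem_preimage, Set.mem_singleton_iff, Set.mem_empty_iff_false, iff_false]
          exact fun h => hQ ⟨P, h⟩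
        rw [this]
        exact Set.finite_empty
    exact hfib
  · change ψ (φ (σ • P)) = σ • ψ (φ P)
    rw [hφ.equiv, hψ.equiv]

/-- A curve and its quotient by a rational subgroup of odd prime order are isogenous. -/
theorem exists_isogenous {p : ℕ} {C : AddSubgroup ((W.map (Int.castRingHom ℚ))⁄Qb).Point}
    (hΔ : W.Δ ≠ 0) (hp : p.Prime) (hp2 : p ≠ 2) (hC : Nat.card C = p)
    (hst : ∀ σ : Qb ≃ₐ[ℚ] Qb, ∀ Q ∈ C, σ • Q ∈ C) :
    ∃ W' : WeierstrassCurve ℤ, W'.Δ ≠ 0 ∧ Isogenous W W' ∧ Isogenous W' W := by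
  obtain ⟨W', φ, hΔ', h1, h2, h3⟩ := exists_quot hΔ hp hp2 hC hst
  have hker : φ.ker = C := by
    ext P
    rw [AddMonoidHom.mem_ker]
    exact h1 P
  have hI : Isogenous W W' := ⟨φ, ⟨by
    rw [hker]
    exact Nat.finite_of_card_ne_zero (by rw [hC]; exact hp.ne_zero), h3⟩, h2⟩
  exact ⟨W', hΔ', hI, hI.symm hΔ⟩

/-- isogenous curves have the same `a_ℓ` -/
theorem Isogenous.apOfModel_eq (h : Isogenous W W') (hΔ : W.Δ ≠ 0) {ℓ : ℕ} (hℓ : ℓ.Prime)
    (h1 : W.IsGoodPrimeFor ℓ) (h2 : W'.IsGoodPrimeFor ℓ) : W'.apOfModel ℓ = W.apOfModel ℓ := by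
  obtain ⟨φ, hφ, -⟩ := h
  exact hφ.apOfModel_eq hΔ hℓ h1 h2

end Dual

end Fermat.Agent.Cor.VeluS
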