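import Mathlib
import Fermat.Agent.Cor.VeluDual
import Fermat.Agent.Cor.H09Mult

set_option autoImplicit false

/-!
# Quotients by rational subgroups of odd order
-/

open WeierstrassCurve WeierstrassCurve.Affine WeierstrassCurve.Affine.Point

namespace Fermat.Agent.Cor.VeluQ

open Fermat.Agent.H08 Fermat.Agent.H05 Fermat.Agent.H09 Fermat.Agent.Frob
open Fermat.Agent.Cor.H09I

local notation "Qb" => AlgebraicClosure ℚ
local notation "GQ" => AlgebraicClosure ℚ ≃ₐ[ℚ] AlgebraicClosure ℚ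

/-- good reduction at `ℓ` is preserved, multiplicative reduction at `ℓ` is preserved -/
def RedLe (ℓ : ℕ) (W W' : WeierstrassCurve ℤ) : Prop :=
  (¬ (ℓ : ℤ) ∣ W.Δ → ¬ (ℓ : ℤ) ∣ W'.Δ) ∧
    ((ℓ : ℤ) ∣ W.Δ → ¬ (ℓ : ℤ) ∣ W.c₄ → (ℓ : ℤ) ∣ W'.Δ ∧ ¬ (ℓ : ℤ) ∣ W'.c₄)

theorem RedLe.refl (ℓ : ℕ) (W : WeierstrassCurve ℤ) : RedLe ℓ W W :=
  ⟨id, fun h h' => ⟨h, h'⟩⟩

theorem RedLe.trans {ℓ : ℕ} {W W' W'' : WeierstrassCurve ℤ} (h : RedLe ℓ W W')
    (h' : RedLe ℓ W' W'') : RedLe ℓ W W'' :=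
  ⟨fun hg => h'.1 (h.1 hg), fun hd hc => h'.2 (h.2 hd hc).1 (h.2 hd hc).2⟩

/-- **The quotient by a rational subgroup of odd prime order.** -/
theorem step {W : WeierstrassCurve ℤ} {p : ℕ}
    {C : AddSubgroup ((W.map (Int.castRingHom ℚ))⁄Qb).Point}
    (hΔ : W.Δ ≠ 0) (hp : p.Prime) (hp2 : p ≠ 2) (hC : Nat.card C = p)
    (hst : ∀ σ : GQ, ∀ Q ∈ C, σ • Q ∈ C) :
    ∃ (W' : WeierstrassCurve ℤ)
      (φ : ((W.map (Int.castRingHom ℚ))⁄Qb).Point →+ ((W'.map (Int.castRingHom ℚ))⁄Qb).Point),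
      W'.Δ ≠ 0 ∧ (∀ P, φ P = 0 ↔ P ∈ C) ∧ Function.Surjective φ ∧
      (∀ (σ : GQ) P, φ (σ • P) = σ • φ P) ∧ ∀ ℓ : ℕ, ℓ.Prime → ℓ ≠ p → RedLe ℓ W W' := by
  obtain ⟨W', k, h4, h6, hD, hΔ', hℓ'⟩ := VeluZ.exists_model hΔ hp hp2 hC hst
  have hu : ((p : ℚ) ^ k) ≠ 0 := pow_ne_zero _ (Nat.cast_ne_zero.mpr hp.ne_zero)
  obtain ⟨φ, h1, h2, h3⟩ := VeluS.exists_isog_surj (W' := W') hu hΔ hp hp2 hC hst
    (by rw [h4]; push_cast; rfl) (by rw [h6]; push_cast; rfl)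
  refine ⟨W', φ, hΔ', h1, h2, h3, fun ℓ hℓ hℓp => ⟨(hℓ' ℓ hℓ hℓp).1, fun hd hc => ?_⟩⟩
  obtain ⟨A, hA⟩ := exists_liesOverPrime Qb hℓ
  by_cases hI : ∀ Q ∈ C, W.InZeroComponentAt A Q
  · exact (hℓ' ℓ hℓ hℓp).2 hd hc ⟨A, hA, hI⟩
  · exact H09Q.typeII hΔ hp hp2 hC h4 hD hℓ hℓp hd hc hA hI

theorem quot_aux (n : ℕ) : ∀ (W : WeierstrassCurve ℤ)
    (G : AddSubgroup ((W.map (Int.castRingHom ℚ))⁄Qb).Point), W.Δ ≠ 0 → Finite G →
    Nat.card G ≤ n → Odd (Nat.card G) → (∀ σ : GQ, ∀ Q ∈ G, σ • Q ∈ G) →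
    ∃ (W' : WeierstrassCurve ℤ)
      (φ : ((W.map (Int.castRingHom ℚ))⁄Qb).Point →+ ((W'.map (Int.castRingHom ℚ))⁄Qb).Point),
      W'.Δ ≠ 0 ∧ (∀ P, φ P = 0 ↔ P ∈ G) ∧ Function.Surjective φ ∧
      (∀ (σ : GQ) P, φ (σ • P) = σ • φ P) ∧
      ∀ ℓ : ℕ, ℓ.Prime → ¬ ℓ ∣ Nat.card G → RedLe ℓ W W' := by
  induction n with
  | zero =>
    intro W G _ hfin hcard
    have := Nat.card_pos (α := G)
    omega
  | succ n ih =>
    intro W G hΔ hfin hcard hodd hst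
    by_cases h1 : Nat.card G = 1
    · refine ⟨W, AddMonoidHom.id _, hΔ, fun P => ?_, Function.surjective_id, fun σ P => rfl,
        fun ℓ _ _ => RedLe.refl ℓ W⟩
      have hbot : G = ⊥ := AddSubgroup.card_eq_one.mp h1
      rw [hbot, AddSubgroup.mem_bot]
      rfl
    · obtain ⟨p, hp, hpd⟩ := Nat.exists_prime_and_dvd h1
      have hfact : Fact p.Prime := ⟨hp⟩
      have hp2 : p ≠ 2 := by
        rintro rfl
        obtain ⟨m, hm⟩ := hodd
        omega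
      have hell : (W.map (Int.castRingHom ℚ)).IsElliptic :=
        ⟨isUnit_iff_ne_zero.mpr (by rw [map_Δ]; simpa using hΔ)⟩
      obtain ⟨x₀, hx₀⟩ := exists_prime_addOrderOf_dvd_card' (G := G) p hpd
      have hx00 : (x₀ : ((W.map (Int.castRingHom ℚ))⁄Qb).Point) ≠ 0 := by
        intro h0
        have h2 : x₀ = 0 := Subtype.ext h0
        rw [h2, addOrderOf_zero] at hx₀
        exact hp.one_lt.ne hx₀
      have hpx₀ : p • (x₀ : ((W.map (Int.castRingHom ℚ))⁄Qb).Point) = 0 := by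
        have h2 := addOrderOf_nsmul_eq_zero x₀
        rw [hx₀] at h2
        exact congrArg Subtype.val h2
      -- the general facts on the image of `G`
      have key : ∀ (W₁ : WeierstrassCurve ℤ) (f : ((W.map (Int.castRingHom ℚ))⁄Qb).Point →+
          ((W₁.map (Int.castRingHom ℚ))⁄Qb).Point) (_ : W₁.Δ ≠ 0)
          (_ : f (x₀ : ((W.map (Int.castRingHom ℚ))⁄Qb).Point) = 0)
          (_ : ∀ (σ : GQ) P, f (σ • P) = σ • f P) (_ : Function.Surjective f)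
          (_ : ∀ P, f P = 0 → P ∈ G),
          ∃ (W' : WeierstrassCurve ℤ) (φ : ((W.map (Int.castRingHom ℚ))⁄Qb).Point →+
            ((W'.map (Int.castRingHom ℚ))⁄Qb).Point),
            W'.Δ ≠ 0 ∧ (∀ P, φ P = 0 ↔ P ∈ G) ∧ Function.Surjective φ ∧
            (∀ (σ : GQ) P, φ (σ • P) = σ • φ P) ∧
            ∀ ℓ : ℕ, ℓ.Prime → ¬ ℓ ∣ Nat.card G → RedLe ℓ W₁ W' := by
        intro W₁ f hΔ₁ hf0 hfσ hfs hfG
        let g : G →+ ((W₁.map (Int.castRingHom ℚ))⁄Qb).Point := f.comp G.subtype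
        have hg : ∀ x : G, g x = f (x : ((W.map (Int.castRingHom ℚ))⁄Qb).Point) := fun x => rfl
        have hfinr : Finite g.range := Finite.of_surjective _ g.rangeRestrict_surjective
        have hcardr : Nat.card g.range * Nat.card g.ker = Nat.card G := by
          rw [mul_comm, ← AddSubgroup.index_ker, mul_comm]
          exact AddSubgroup.index_mul_card _
        have hker : 1 < Nat.card g.ker := by
          have hfink : Finite g.ker := inferInstance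
          rw [Finite.one_lt_card_iff_nontrivial]
          refine ⟨⟨⟨x₀, ?_⟩, 0, ?_⟩⟩
          · rw [AddMonoidHom.mem_ker, hg]
            exact hf0
          · intro h0
            exact hx00 (congrArg Subtype.val (congrArg Subtype.val h0))
        have hpos := Nat.card_pos (α := g.range)
        have hdvd : Nat.card g.range ∣ Nat.card G := ⟨_, hcardr.symm⟩
        obtain ⟨W', ψ, hΔ', k1, k2, k3, k4⟩ := ih W₁ g.range hΔ₁ hfinr (by nlinarith)
          (hodd.of_dvd_nat hdvd) (by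
            rintro σ _ ⟨x, rfl⟩
            refine ⟨⟨σ • (x : ((W.map (Int.castRingHom ℚ))⁄Qb).Point), hst σ x x.2⟩, ?_⟩
            rw [hg, hg]
            exact hfσ σ _)
        refine ⟨W', ψ.comp f, hΔ', fun P => ?_, k2.comp hfs, fun σ P => ?_,
          fun ℓ hℓ hd => k4 ℓ hℓ (fun h => hd (h.trans hdvd))⟩
        · change ψ (f P) = 0 ↔ P ∈ G
          rw [k1]
          constructor
          · rintro ⟨y, hy⟩
            rw [hg] at hy
            have h2 : P - y ∈ G := hfG _ (by rw [map_sub, hy, sub_self])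
            have h3 := G.add_mem h2 y.2
            rwa [sub_add_cancel] at h3
          · intro hP
            exact ⟨⟨P, hP⟩, rfl⟩
        · change ψ (f (σ • P)) = σ • ψ (f P)
          rw [hfσ, k3]
      by_cases hall : ∀ P : ((W.map (Int.castRingHom ℚ))⁄Qb).Point, p • P = 0 → P ∈ G
      · -- `W[p] ⊂ G`
        exact key W (nsmulAddMonoidHom p) hΔ hpx₀ (fun σ P => smul_comm p σ P)
          (fun P => nsmul_surjective (K := Qb) (W.map (Int.castRingHom ℚ)) hp.ne_zero P) hall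
      · -- `G ∩ W[p]` has order `p`
        let T : AddSubgroup ((W.map (Int.castRingHom ℚ))⁄Qb).Point := (nsmulAddMonoidHom p).ker
        have hT : ∀ P, P ∈ T ↔ p • P = 0 := fun P => Iff.rfl
        have hTc : Nat.card T = p ^ 2 :=
          card_torsion (K := Qb) (W.map (Int.castRingHom ℚ)) hp.ne_zero
        have hTfin : Finite T := Nat.finite_of_card_ne_zero (by
          rw [hTc]; exact pow_ne_zero 2 hp.ne_zero)
        have hCst : ∀ σ : GQ, ∀ Q ∈ G ⊓ T, σ • Q ∈ G ⊓ T := by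
          intro σ Q hQ
          refine ⟨hst σ Q hQ.1, ?_⟩
          have h2 : p • Q = 0 := hQ.2
          change p • (σ • Q) = 0
          rw [smul_comm, h2]
          rfl
        have hCc : Nat.card (G ⊓ T : AddSubgroup ((W.map (Int.castRingHom ℚ))⁄Qb).Point) = p := by
          have hd : Nat.card (G ⊓ T : AddSubgroup ((W.map (Int.castRingHom ℚ))⁄Qb).Point) ∣ p ^ 2 := by
            rw [← hTc]; exact AddSubgroup.card_dvd_of_le inf_le_right
          obtain ⟨k, hk, hk'⟩ := (Nat.dvd_prime_pow hp).mp hd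
          interval_cases k
          · exfalso
            rw [pow_zero] at hk'
            have hb := AddSubgroup.card_eq_one.mp hk'
            apply hx00
            have : (x₀ : ((W.map (Int.castRingHom ℚ))⁄Qb).Point) ∈ G ⊓ T := ⟨x₀.2, hpx₀⟩
            rwa [hb, AddSubgroup.mem_bot] at this
          · rw [hk', pow_one]
          · exfalso
            have heq : G ⊓ T = T := AddSubgroup.eq_of_le_of_card_ge inf_le_right (by
              rw [hk', hTc])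
            apply hall
            intro P hP
            have : P ∈ G ⊓ T := by rw [heq]; exact hP
            exact this.1
        obtain ⟨W₁, f, hΔ₁, k1, k2, k3, k4⟩ := step hΔ hp hp2 hCc hCst
        obtain ⟨W', φ, l1, l2, l3, l4, l5⟩ := key W₁ f hΔ₁ ((k1 _).mpr ⟨x₀.2, hpx₀⟩) k3 k2
          (fun P hP => ((k1 P).mp hP).1)
        exact ⟨W', φ, l1, l2, l3, l4, fun ℓ hℓ hd => RedLe.trans
          (k4 ℓ hℓ (fun h => hd (by rw [h]; exact hpd))) (l5 ℓ hℓ hd)⟩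

variable {W : WeierstrassCurve ℤ} {G : AddSubgroup ((W.map (Int.castRingHom ℚ))⁄Qb).Point}

/-- **Quotients by rational subgroups of odd order.** For `W` over `ℤ` with `Δ ≠ 0` and a finite
Galois stable subgroup `G` of `W(ℚ̄)` of odd order there are `W'` over `ℤ` and a surjective Galois
equivariant homomorphism `W(ℚ̄) → W'(ℚ̄)` with kernel `G`; at the primes not dividing the order of
`G` good (multiplicative) reduction is preserved. -/
theorem exists_quot_of_odd (hΔ : W.Δ ≠ 0) [Finite G] (hodd : Odd (Nat.card G))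
    (hst : ∀ σ : GQ, ∀ Q ∈ G, σ • Q ∈ G) :
    ∃ (W' : WeierstrassCurve ℤ)
      (φ : ((W.map (Int.castRingHom ℚ))⁄Qb).Point →+ ((W'.map (Int.castRingHom ℚ))⁄Qb).Point),
      W'.Δ ≠ 0 ∧ (∀ P, φ P = 0 ↔ P ∈ G) ∧ Function.Surjective φ ∧
      (∀ (σ : GQ) P, φ (σ • P) = σ • φ P) ∧
      ∀ ℓ : ℕ, ℓ.Prime → ¬ ℓ ∣ Nat.card G → RedLe ℓ W W' :=
  quot_aux (Nat.card G) W G hΔ inferInstance le_rfl hodd hst

/-- The quotient of a semistable curve `W` by a rational subgroup of odd order is modular of level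
the conductor of `W`. -/
theorem exists_quot_modular (hΔ : W.Δ ≠ 0) (hss : W.IsSemistableModel) [Finite G]
    (hodd : Odd (Nat.card G)) (hst : ∀ σ : GQ, ∀ Q ∈ G, σ • Q ∈ G) :
    ∃ (W' : WeierstrassCurve ℤ)
      (φ : ((W.map (Int.castRingHom ℚ))⁄Qb).Point →+ ((W'.map (Int.castRingHom ℚ))⁄Qb).Point),
      W'.Δ ≠ 0 ∧ φ.ker = G ∧ Function.Surjective φ ∧ IsIsog W W' φ ∧
      W'.IsModularModelOfLevel W.conductorLevel ∧
      (∀ ℓ : ℕ, ℓ.Prime → ¬ ℓ ∣ Nat.card G → ((ℓ : ℤ) ∣ W'.Δ ↔ (ℓ : ℤ) ∣ W.Δ)) ∧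
      ∀ ℓ : ℕ, ℓ.Prime → ¬ ℓ ∣ Nat.card G → (ℓ : ℤ) ∣ W'.Δ → ¬ (ℓ : ℤ) ∣ W'.c₄ := by
  obtain ⟨W', φ, h1, h2, h3, h4, h5⟩ := exists_quot_of_odd hΔ hodd hst
  have hker : φ.ker = G := by
    ext P
    rw [AddMonoidHom.mem_ker]
    exact h2 P
  have hI : IsIsog W W' φ := ⟨by rw [hker]; infer_instance, h4⟩
  refine ⟨W', φ, h1, hker, h3, hI, hI.isModularModelOfLevel_conductorLevel hΔ hss,
    fun ℓ hℓ hd => ⟨fun h => ?_, fun h => ((h5 ℓ hℓ hd).2 h (hss ℓ hℓ h)).1⟩,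
    fun ℓ hℓ hd h => ?_⟩
  · by_contra hcon
    exact (h5 ℓ hℓ hd).1 hcon h
  · have h' : (ℓ : ℤ) ∣ W.Δ := by
      by_contra hcon
      exact (h5 ℓ hℓ hd).1 hcon h
    exact ((h5 ℓ hℓ hd).2 h' (hss ℓ hℓ h')).2

end Fermat.Agent.Cor.VeluQ
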