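import Fermat.Agent.S48
import Fermat.Agent.H23.Residual
import Fermat.Agent.Cor.Ramanujan

/-!
# The Ramanujan--Petersson bound in weight one

Consequences of the theorem of Deligne and Serre (`S48`): the Satake parameters of a weight one eigenform are roots
of unity; `|a_p| ≤ 2` and `|a_n| ≤ d(n)` for `n` prime to the level.

This file is not used by any of the statement files.
-/

set_option autoImplicit false

namespace Fermat.Agent.Cor.Bounds

open CongruenceSubgroup ModularFormClass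
open scoped MatrixGroups

local notation "Γℚ" => (AlgebraicClosure ℚ ≃ₐ[ℚ] AlgebraicClosure ℚ)

/-- A `2 × 2` matrix of finite order has eigenvalues which are roots of unity. -/
lemma exists_roots_of_pow_eq_one {M : Matrix (Fin 2) (Fin 2) ℂ} {n : ℕ} (hM : M ^ n = 1) :
    ∃ α β : ℂ, α + β = M.trace ∧ α * β = M.det ∧ α ^ n = 1 ∧ β ^ n = 1 := by
  obtain ⟨α, β, hαβ⟩ : ∃ α β : ℂ, M.charpoly.roots = {α, β} := by
    have h1 : Multiset.card M.charpoly.roots = 2 := by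
      rw [← (IsAlgClosed.splits M.charpoly).natDegree_eq_card_roots, Matrix.charpoly_natDegree_eq_dim,
        Fintype.card_fin]
    exact Multiset.card_eq_two.mp h1
  have hroot : ∀ z ∈ M.charpoly.roots, z ^ n = 1 := by
    intro z hz
    have h1 : z ∈ spectrum ℂ M := by
      rw [Matrix.mem_spectrum_iff_isRoot_charpoly]
      exact Polynomial.isRoot_of_mem_roots hz
    have h2 := spectrum.pow_mem_pow M n h1
    rw [hM, spectrum.one_eq, Set.mem_singleton_iff] at h2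
    exact h2
  refine ⟨α, β, ?_, ?_, hroot α (by rw [hαβ]; simp), hroot β (by rw [hαβ]; simp)⟩
  · rw [Matrix.trace_eq_sum_roots_charpoly, hαβ]; simp
  · rw [Matrix.det_eq_prod_roots_charpoly, hαβ]; simp

lemma norm_eq_one_of_pow {z : ℂ} {n : ℕ} (hn : n ≠ 0) (h : z ^ n = 1) : ‖z‖ = 1 :=
  Complex.norm_eq_one_of_pow_eq_one h hn

/-- **The Satake parameters of a weight one eigenform are roots of unity.** -/
theorem weightOne_satake (N : ℕ) [NeZero N] (ε : DirichletCharacter ℂ N) (f : CuspForm (Gamma1 N) 1)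
    (hf₁ : qCoeff f 1 = 1)
    (hT : ∀ p : ℕ, p.Prime → ¬ p ∣ N → ∀ n : ℕ,
        qCoeff f (p * n) + ε (p : ZMod N) * (if p ∣ n then qCoeff f (n / p) else 0) =
          qCoeff f p * qCoeff f n) :
    ∃ m : ℕ, m ≠ 0 ∧ ∀ p : ℕ, p.Prime → ¬ p ∣ N → ∃ α β : ℂ, α + β = qCoeff f p ∧
      α * β = ε (p : ZMod N) ∧ α ^ m = 1 ∧ β ^ m = 1 := by
  obtain ⟨ρ, hρ, -, hloc⟩ := Fermat.Agent.S48.result N ε f hf₁ hT
  have hfin := H23.finite_range_of_finiteLevel ρ hρ
  have hfin' : Finite ρ.range := hfin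
  refine ⟨Nat.card ρ.range, Nat.card_pos.ne', fun p hp hpN => ?_⟩
  obtain ⟨A, hA⟩ := H05.exists_liesOverPrime (AlgebraicClosure ℚ) hp
  obtain ⟨σ, hσ⟩ := H05.exists_isFrobeniusAt hp hA
  obtain ⟨-, h2⟩ := hloc p hp hpN A hA
  obtain ⟨htr, hdet⟩ := h2 σ hσ
  have h3 : (⟨ρ σ, σ, rfl⟩ : ρ.range) ^ Nat.card ρ.range = 1 := pow_card_eq_one'
  have h4 : ((ρ σ : GL (Fin 2) ℂ) : Matrix (Fin 2) (Fin 2) ℂ) ^ Nat.card ρ.range = 1 := by
    have h5 := congrArg (fun x : ρ.range => ((x : GL (Fin 2) ℂ) : Matrix (Fin 2) (Fin 2) ℂ)) h3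
    simpa using h5
  rw [← htr, ← hdet]
  exact exists_roots_of_pow_eq_one h4

/-- **`|a_p| ≤ 2` in weight one.** -/
theorem weightOne_norm_prime_le (N : ℕ) [NeZero N] (ε : DirichletCharacter ℂ N)
    (f : CuspForm (Gamma1 N) 1) (hf₁ : qCoeff f 1 = 1)
    (hT : ∀ p : ℕ, p.Prime → ¬ p ∣ N → ∀ n : ℕ,
        qCoeff f (p * n) + ε (p : ZMod N) * (if p ∣ n then qCoeff f (n / p) else 0) =
          qCoeff f p * qCoeff f n) {p : ℕ} (hp : p.Prime) (hpN : ¬ p ∣ N) : ‖qCoeff f p‖ ≤ 2 := by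
  obtain ⟨m, hm, h⟩ := weightOne_satake N ε f hf₁ hT
  obtain ⟨α, β, h1, -, h3, h4⟩ := h p hp hpN
  rw [← h1]
  refine (norm_add_le _ _).trans ?_
  rw [norm_eq_one_of_pow hm h3, norm_eq_one_of_pow hm h4]
  norm_num

/-- **The Ramanujan--Petersson bound in weight one**: `|a_n| ≤ d(n)` for `n` prime to the level. -/
theorem weightOne_norm_le (N : ℕ) [NeZero N] (ε : DirichletCharacter ℂ N)
    (f : CuspForm (Gamma1 N) 1) (hf₁ : qCoeff f 1 = 1)
    (hT : ∀ p : ℕ, p.Prime → ¬ p ∣ N → ∀ n : ℕ,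
        qCoeff f (p * n) + ε (p : ZMod N) * (if p ∣ n then qCoeff f (n / p) else 0) =
          qCoeff f p * qCoeff f n) {n : ℕ} (hn : n ≠ 0) (hnN : n.Coprime N) :
    ‖qCoeff f n‖ ≤ n.divisors.card := by
  obtain ⟨m, hm, h⟩ := weightOne_satake N ε f hf₁ hT
  have hrel : HeckeRel (qCoeff f) N (fun p => ε (p : ZMod N)) := hT
  have h1 := hrel.norm_le hf₁ (w := 0) (fun p hp hpN => by
    obtain ⟨α, β, h1, h2, h3, h4⟩ := h p hp hpN
    refine ⟨α, β, h1, h2, ?_, ?_⟩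
    · rw [norm_eq_one_of_pow hm h3, Real.rpow_zero]
    · rw [norm_eq_one_of_pow hm h4, Real.rpow_zero]) hn hnN
  rwa [Real.rpow_zero, mul_one] at h1

end Fermat.Agent.Cor.Bounds
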