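import Fermat.Agent.Cor.EntireOrder
import Fermat.Agent.Cor.RankBound
import Mathlib.NumberTheory.LSeries.Nonvanishing
import Mathlib.NumberTheory.LSeries.RiemannZeta

/-!
# The Riemann zeta function has infinitely many zeros in the critical strip

Proof (Hadamard): the entire function `ξ(s) = s (s - 1) Λ(s)` satisfies `|ξ(s)| ≤ exp(A (1 + |s|) ^ (3 / 2))`. If it had only
finitely many zeros then `ξ(s) = P(s) exp(a + b s)` (`Cor/EntireOrder`), which contradicts `|ξ(2n)| ≥ n! / π ^ n`.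

This file is not used by any of the statement files.
-/

set_option autoImplicit false

noncomputable section

namespace Fermat.Agent.Cor.ZetaZeros

open Complex Filter MeasureTheory Set
open scoped Real Topology Nat

/-- a bound for a Mellin transform in a vertical strip -/
theorem exists_bound_mellin {f : ℝ → ℂ} {a b : ℝ} (ha : MellinConvergent f a)
    (hb : MellinConvergent f b) :
    ∃ B : ℝ, ∀ s : ℂ, a ≤ s.re → s.re ≤ b → ‖mellin f s‖ ≤ B := by
  refine ⟨∫ t in Ioi (0 : ℝ), (‖(t : ℂ) ^ ((a : ℂ) - 1) • f t‖ + ‖(t : ℂ) ^ ((b : ℂ) - 1) • f t‖),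
    fun s h1 h2 => ?_⟩
  rw [mellin]
  refine (norm_integral_le_integral_norm _).trans ?_
  refine integral_mono_of_nonneg (Eventually.of_forall fun t => norm_nonneg _)
    (ha.norm.add hb.norm) ?_
  refine (ae_restrict_mem measurableSet_Ioi).mono fun t (ht : 0 < t) => ?_
  simp only [norm_smul]
  rw [Complex.norm_cpow_eq_rpow_re_of_pos ht, Complex.norm_cpow_eq_rpow_re_of_pos ht,
    Complex.norm_cpow_eq_rpow_re_of_pos ht, ← add_mul]
  refine mul_le_mul_of_nonneg_right ?_ (norm_nonneg _)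
  have e1 : (s - 1).re = s.re - 1 := by simp
  have e2 : ((a : ℂ) - 1).re = a - 1 := by simp
  have e3 : ((b : ℂ) - 1).re = b - 1 := by simp
  rw [e1, e2, e3]
  rcases le_total t 1 with ht1 | ht1
  · have h3 : t ^ (s.re - 1) ≤ t ^ (a - 1) :=
      Real.rpow_le_rpow_of_exponent_ge ht ht1 (by linarith)
    have h4 : 0 ≤ t ^ (b - 1) := Real.rpow_nonneg ht.le _
    linarith
  · have h3 : t ^ (s.re - 1) ≤ t ^ (b - 1) :=
      Real.rpow_le_rpow_of_exponent_le ht1 (by linarith)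
    have h4 : 0 ≤ t ^ (a - 1) := Real.rpow_nonneg ht.le _
    linarith

theorem exists_bound_strip :
    ∃ B : ℝ, ∀ s : ℂ, -3 ≤ s.re → s.re ≤ 4 → ‖completedRiemannZeta₀ s‖ ≤ B := by
  have hm : ∀ s : ℂ, MellinConvergent (HurwitzZeta.hurwitzEvenFEPair 0).f_modif s := fun s =>
    ((HurwitzZeta.hurwitzEvenFEPair 0).isStrongFEPair_toStrongFEPair.hasMellin s).1
  obtain ⟨B, hB⟩ := exists_bound_mellin (a := -3 / 2) (b := 2) (hm _) (hm _)
  refine ⟨B / 2, fun s h1 h2 => ?_⟩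
  have e : completedRiemannZeta₀ s =
      mellin (HurwitzZeta.hurwitzEvenFEPair 0).f_modif (s / 2) / 2 := rfl
  have hre : (s / 2).re = s.re / 2 := by simp
  rw [e, norm_div]
  have h3 := hB (s / 2) (by rw [hre]; linarith) (by rw [hre]; linarith)
  have h4 : ‖(2 : ℂ)‖ = 2 := by norm_num
  rw [h4]
  linarith

/-- Riemann's function `ξ(s) = s (s - 1) Λ(s)` -/
def xi (s : ℂ) : ℂ := s * (s - 1) * completedRiemannZeta₀ s + 1

theorem differentiable_xi : Differentiable ℂ xi :=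
  ((differentiable_id.mul (differentiable_id.sub_const 1)).mul
    differentiable_completedZeta₀).add_const 1

theorem xi_one_sub (s : ℂ) : xi (1 - s) = xi s := by
  rw [xi, xi, completedRiemannZeta₀_one_sub]
  ring

theorem xi_eq {s : ℂ} (h0 : s ≠ 0) (h1 : s ≠ 1) : xi s = s * (s - 1) * completedRiemannZeta s := by
  have h2 : 1 - s ≠ 0 := fun h => h1 (by linear_combination -h)
  rw [xi, completedRiemannZeta_eq]
  field_simp
  ring

theorem xi_eq' {s : ℂ} (hs : 1 < s.re) :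
    xi s = s * (s - 1) * (((π : ℂ) ^ (-s / 2) * Complex.Gamma (s / 2)) * riemannZeta s) := by
  have h0 : s ≠ 0 := by
    rintro rfl
    norm_num at hs
  have h1 : s ≠ 1 := by
    rintro rfl
    norm_num at hs
  rw [xi_eq h0 h1, riemannZeta_def_of_ne_zero h0, ← Gammaℝ_def, mul_div_cancel₀]
  exact Gammaℝ_ne_zero_of_re_pos (by linarith)

theorem norm_pi_cpow (s : ℂ) : ‖(π : ℂ) ^ (-s / 2)‖ = π ^ (-s.re / 2) := by
  rw [Complex.norm_cpow_eq_rpow_re_of_pos Real.pi_pos]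
  congr 1
  simp

theorem exists_bound_zeta : ∃ B : ℝ, ∀ s : ℂ, 4 ≤ s.re → ‖riemannZeta s‖ ≤ B := by
  refine ⟨∑' n : ℕ, 1 / (n : ℝ) ^ 4, fun s hs => ?_⟩
  rw [zeta_eq_tsum_one_div_nat_cpow (by linarith)]
  refine tsum_of_norm_bounded (Real.summable_one_div_nat_pow.mpr (by norm_num)).hasSum fun n => ?_
  rcases Nat.eq_zero_or_pos n with rfl | hn
  · have : s ≠ 0 := by
      rintro rfl
      norm_num at hs
    simp [this]
  · rw [norm_div, norm_one, Complex.norm_natCast_cpow_of_pos hn]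
    have h1 : (1 : ℝ) ≤ n := by exact_mod_cast hn
    have h2 : (n : ℝ) ^ 4 ≤ (n : ℝ) ^ s.re := by
      rw [← Real.rpow_natCast]
      exact Real.rpow_le_rpow_of_exponent_le h1 (by exact_mod_cast hs)
    exact one_div_le_one_div_of_le (by positivity) h2

theorem Gamma_le {σ : ℝ} (hσ : 2 ≤ σ) :
    Real.Gamma σ ≤ Real.exp (2 * (1 + σ) ^ (3 / 2 : ℝ)) := by
  have hc1 : (⌈σ⌉₊ : ℝ) ≤ 1 + σ := by
    have := (Nat.ceil_lt_add_one (show 0 ≤ σ by linarith)).le
    linarith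
  have hc2 : σ ≤ (⌈σ⌉₊ : ℝ) := Nat.le_ceil σ
  have h1 : Real.Gamma σ ≤ Real.Gamma ((⌈σ⌉₊ : ℝ) + 1) :=
    Real.Gamma_strictMonoOn_Ici.monotoneOn hσ (show (2 : ℝ) ≤ _ by linarith) (by linarith)
  rw [Real.Gamma_nat_eq_factorial] at h1
  have h2 : ((⌈σ⌉₊)! : ℝ) ≤ (⌈σ⌉₊ : ℝ) ^ ⌈σ⌉₊ := by exact_mod_cast Nat.factorial_le_pow _
  have h4 : (⌈σ⌉₊ : ℝ) ^ ⌈σ⌉₊ ≤ (1 + σ) ^ ⌈σ⌉₊ := pow_le_pow_left₀ (by positivity) hc1 _
  have hpos : 0 < 1 + σ := by linarith
  have h5 : (1 + σ) ^ ⌈σ⌉₊ = Real.exp (⌈σ⌉₊ * Real.log (1 + σ)) := by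
    rw [Real.exp_nat_mul, Real.exp_log hpos]
  have h6 : Real.log (1 + σ) ≤ (1 + σ) ^ (1 / 2 : ℝ) / (1 / 2) :=
    Real.log_le_rpow_div hpos.le (by norm_num)
  have h7 : 0 ≤ Real.log (1 + σ) := Real.log_nonneg (by linarith)
  refine (h1.trans (h2.trans h4)).trans ?_
  rw [h5]
  refine Real.exp_le_exp.mpr ?_
  calc (⌈σ⌉₊ : ℝ) * Real.log (1 + σ) ≤ (1 + σ) * ((1 + σ) ^ (1 / 2 : ℝ) / (1 / 2)) :=
        mul_le_mul hc1 h6 h7 hpos.le
    _ = 2 * ((1 + σ) ^ (1 : ℝ) * (1 + σ) ^ (1 / 2 : ℝ)) := by rw [Real.rpow_one]; ring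
    _ = 2 * (1 + σ) ^ (3 / 2 : ℝ) := by
        rw [← Real.rpow_add hpos]
        norm_num

theorem one_le_rpow' {x : ℝ} (hx : 0 ≤ x) : 1 ≤ (1 + x) ^ (3 / 2 : ℝ) :=
  Real.one_le_rpow (by linarith) (by norm_num)

/-- `|s (s - 1)| ≤ exp(2 (1 + |s|) ^ (3 / 2))` -/
theorem norm_factor_le (s : ℂ) : ‖s * (s - 1)‖ ≤ Real.exp (2 * (1 + ‖s‖) ^ (3 / 2 : ℝ)) := by
  have h0 := norm_nonneg s
  have h1 : ‖s * (s - 1)‖ ≤ (1 + ‖s‖) * (1 + ‖s‖) := by
    rw [norm_mul]
    refine mul_le_mul (by linarith) ?_ (norm_nonneg _) (by linarith)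
    refine (norm_sub_le _ _).trans ?_
    rw [norm_one]
    linarith
  have h2 : 1 + ‖s‖ ≤ Real.exp ((1 + ‖s‖) ^ (3 / 2 : ℝ)) := by
    have h3 := Real.add_one_le_exp ((1 + ‖s‖) ^ (3 / 2 : ℝ))
    have h4 : (1 + ‖s‖) ^ (1 : ℝ) ≤ (1 + ‖s‖) ^ (3 / 2 : ℝ) :=
      Real.rpow_le_rpow_of_exponent_le (by linarith) (by norm_num)
    rw [Real.rpow_one] at h4
    linarith
  calc ‖s * (s - 1)‖ ≤ (1 + ‖s‖) * (1 + ‖s‖) := h1
    _ ≤ Real.exp ((1 + ‖s‖) ^ (3 / 2 : ℝ)) * Real.exp ((1 + ‖s‖) ^ (3 / 2 : ℝ)) :=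
        mul_le_mul h2 h2 (by linarith) (by positivity)
    _ = Real.exp (2 * (1 + ‖s‖) ^ (3 / 2 : ℝ)) := by
        rw [← Real.exp_add]
        congr 1
        ring

theorem exists_bound_right :
    ∃ A : ℝ, 0 ≤ A ∧ ∀ s : ℂ, 4 ≤ s.re → ‖xi s‖ ≤ Real.exp (A * (1 + ‖s‖) ^ (3 / 2 : ℝ)) := by
  obtain ⟨B, hB⟩ := exists_bound_zeta
  refine ⟨4 + |B|, by positivity, fun s hs => ?_⟩
  have hX := one_le_rpow' (norm_nonneg s)
  have hre : (s / 2).re = s.re / 2 := by simp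
  have hle : s.re ≤ ‖s‖ := Complex.re_le_norm s
  rw [xi_eq' (by linarith), norm_mul, norm_mul (_ * _), norm_mul (_ ^ _), norm_pi_cpow]
  have e1 := norm_factor_le s
  have e2 : π ^ (-s.re / 2) ≤ 1 :=
    Real.rpow_le_one_of_one_le_of_nonpos (by linarith [Real.pi_gt_three]) (by linarith)
  have e3 : ‖Complex.Gamma (s / 2)‖ ≤ Real.exp (2 * (1 + ‖s‖) ^ (3 / 2 : ℝ)) := by
    refine (RankBound.norm_Gamma_le (by rw [hre]; linarith)).trans
      ((Gamma_le (by rw [hre]; linarith)).trans ?_)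
    refine Real.exp_le_exp.mpr (mul_le_mul_of_nonneg_left ?_ (by norm_num))
    exact Real.rpow_le_rpow (by rw [hre]; linarith) (by rw [hre]; linarith) (by norm_num)
  have e4 : ‖riemannZeta s‖ ≤ Real.exp (|B| * (1 + ‖s‖) ^ (3 / 2 : ℝ)) := by
    refine (hB s hs).trans ((le_abs_self B).trans ?_)
    have h1 := Real.add_one_le_exp (|B| * (1 + ‖s‖) ^ (3 / 2 : ℝ))
    have h3 := abs_nonneg B
    nlinarith
  have h1 := mul_le_mul e2 e3 (norm_nonneg _) zero_le_one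
  have h2 := mul_le_mul h1 e4 (norm_nonneg _) (by positivity)
  have h3 := mul_le_mul e1 h2 (by positivity) (by positivity)
  refine h3.trans (le_of_eq ?_)
  rw [one_mul, ← Real.exp_add, ← Real.exp_add]
  congr 1
  ring

theorem exists_growth : ∃ A : ℝ, ∀ s : ℂ, ‖xi s‖ ≤ Real.exp (A * (1 + ‖s‖) ^ (3 / 2 : ℝ)) := by
  obtain ⟨A1, hA1, h1⟩ := exists_bound_right
  obtain ⟨B, hB⟩ := exists_bound_strip
  refine ⟨A1 * 3 ^ (3 / 2 : ℝ) + A1 + (3 + |B|), fun s => ?_⟩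
  have hX := one_le_rpow' (norm_nonneg s)
  have hfac := norm_factor_le s
  set X := (1 + ‖s‖) ^ (3 / 2 : ℝ) with hXdef
  have h3 : (0 : ℝ) < 3 ^ (3 / 2 : ℝ) := by positivity
  have hB0 := abs_nonneg B
  have h4 : 0 ≤ A1 * 3 ^ (3 / 2 : ℝ) := by positivity
  rcases le_or_gt 4 s.re with hs | hs
  · refine (h1 s hs).trans (Real.exp_le_exp.mpr ?_)
    exact mul_le_mul_of_nonneg_right (by linarith) (by linarith)
  rcases le_or_gt (-3) s.re with hs' | hs'
  · have h5 : ‖xi s‖ ≤ Real.exp (2 * X) * |B| + 1 := by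
      rw [xi]
      refine (norm_add_le _ _).trans ?_
      rw [norm_mul, norm_one]
      have := mul_le_mul hfac ((hB s hs' hs.le).trans (le_abs_self B)) (norm_nonneg _)
        (Real.exp_pos _).le
      linarith
    have h6 : Real.exp (2 * X) * |B| + 1 ≤ Real.exp ((3 + |B|) * X) := by
      have h7 : 1 ≤ Real.exp (2 * X) := Real.one_le_exp (by linarith)
      have h8 : |B| + 1 ≤ Real.exp ((1 + |B|) * X) := by
        have := Real.add_one_le_exp ((1 + |B|) * X)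
        nlinarith
      have h9 : Real.exp ((3 + |B|) * X) = Real.exp (2 * X) * Real.exp ((1 + |B|) * X) := by
        rw [← Real.exp_add]
        congr 1
        ring
      rw [h9]
      nlinarith
    refine (h5.trans h6).trans (Real.exp_le_exp.mpr ?_)
    exact mul_le_mul_of_nonneg_right (by linarith) (by linarith)
  · rw [← xi_one_sub]
    refine (h1 (1 - s) (by rw [Complex.sub_re, Complex.one_re]; linarith)).trans
      (Real.exp_le_exp.mpr ?_)
    have h5 : ‖1 - s‖ ≤ 1 + ‖s‖ := by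
      refine (norm_sub_le _ _).trans ?_
      rw [norm_one]
    have h6 : (1 + ‖1 - s‖) ^ (3 / 2 : ℝ) ≤ 3 ^ (3 / 2 : ℝ) * X := by
      rw [hXdef, ← Real.mul_rpow (by norm_num) (by positivity)]
      refine Real.rpow_le_rpow (by positivity) ?_ (by norm_num)
      have := norm_nonneg s
      linarith
    calc A1 * (1 + ‖1 - s‖) ^ (3 / 2 : ℝ) ≤ A1 * (3 ^ (3 / 2 : ℝ) * X) :=
          mul_le_mul_of_nonneg_left h6 hA1
      _ = (A1 * 3 ^ (3 / 2 : ℝ)) * X := by ring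
      _ ≤ (A1 * 3 ^ (3 / 2 : ℝ) + A1 + (3 + |B|)) * X :=
          mul_le_mul_of_nonneg_right (by linarith) (by linarith)

/-! ### The contradiction -/

theorem norm_eval_le (P : Polynomial ℂ) : ∃ C : ℝ, 0 ≤ C ∧ ∀ z : ℂ, ‖P.eval z‖ ≤ C * Real.exp ‖z‖ := by
  refine ⟨∑ i ∈ P.support, ‖P.coeff i‖ * (i ! : ℝ), Finset.sum_nonneg fun i _ => by positivity,
    fun z => ?_⟩
  rw [Polynomial.eval_eq_sum, Polynomial.sum, Finset.sum_mul]
  refine (norm_sum_le _ _).trans (Finset.sum_le_sum fun i _ => ?_)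
  rw [norm_mul, norm_pow, mul_assoc]
  refine mul_le_mul_of_nonneg_left ?_ (norm_nonneg _)
  have h := Real.pow_div_factorial_le_exp ‖z‖ (norm_nonneg z) i
  rwa [div_le_iff₀ (by positivity), mul_comm] at h

/-- `n! ≤ |ξ(2n)| π ^ n` -/
theorem factorial_le (n : ℕ) (hn : 1 ≤ n) : (n ! : ℝ) ≤ ‖xi ((2 * n : ℕ) : ℂ)‖ * π ^ n := by
  have hn' : (1 : ℝ) ≤ n := by exact_mod_cast hn
  have hs : (1 : ℝ) < (((2 * n : ℕ) : ℂ)).re := by
    rw [Complex.natCast_re]
    push_cast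
    linarith
  have hz : 1 ≤ ‖riemannZeta ((2 * n : ℕ) : ℂ)‖ := by
    have h1 : riemannZeta ((2 * n : ℕ) : ℂ) = ((∑' m : ℕ, 1 / (m : ℝ) ^ (2 * n) : ℝ) : ℂ) := by
      rw [zeta_nat_eq_tsum_of_gt_one (by omega)]
      push_cast
      rfl
    have hsum : Summable fun m : ℕ => 1 / (m : ℝ) ^ (2 * n) :=
      Real.summable_one_div_nat_pow.mpr (by omega)
    have h2 : (1 : ℝ) ≤ ∑' m : ℕ, 1 / (m : ℝ) ^ (2 * n) := by
      have := hsum.le_tsum 1 fun m _ => by positivity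
      simpa using this
    rw [h1, Complex.norm_real, Real.norm_of_nonneg (by linarith)]
    exact h2
  have hG : ‖Complex.Gamma (((2 * n : ℕ) : ℂ) / 2)‖ = ((n - 1)! : ℝ) := by
    obtain ⟨m, rfl⟩ : ∃ m, n = m + 1 := ⟨n - 1, by omega⟩
    have e : (((2 * (m + 1) : ℕ) : ℂ) / 2) = (m : ℂ) + 1 := by
      push_cast
      ring
    rw [e, Complex.Gamma_nat_eq_factorial, Complex.norm_natCast]
    rfl
  have hpi : ‖(π : ℂ) ^ (-((2 * n : ℕ) : ℂ) / 2)‖ = (π ^ n)⁻¹ := by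
    rw [norm_pi_cpow, Complex.natCast_re]
    have : -((2 * n : ℕ) : ℝ) / 2 = -(n : ℝ) := by
      push_cast
      ring
    rw [this, Real.rpow_neg Real.pi_pos.le, Real.rpow_natCast]
  have hfac : (n : ℝ) ≤ ‖((2 * n : ℕ) : ℂ) * (((2 * n : ℕ) : ℂ) - 1)‖ := by
    have e : ((2 * n : ℕ) : ℂ) * (((2 * n : ℕ) : ℂ) - 1) = ((2 * n * (2 * n - 1) : ℝ) : ℂ) := by
      push_cast
      ring
    rw [e, Complex.norm_real, Real.norm_of_nonneg (by nlinarith)]
    nlinarith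
  have hpn : (0 : ℝ) < π ^ n := by positivity
  have e2 : (n ! : ℝ) = n * ((n - 1)! : ℝ) := by
    obtain ⟨m, rfl⟩ : ∃ m, n = m + 1 := ⟨n - 1, by omega⟩
    rw [Nat.factorial_succ]
    push_cast
    rfl
  rw [xi_eq' hs, norm_mul, norm_mul (_ * _), norm_mul (_ ^ _), hG, hpi, e2]
  have h5 : (0 : ℝ) ≤ ((n - 1)! : ℝ) := by positivity
  calc (n : ℝ) * ((n - 1)! : ℝ)
      ≤ ‖((2 * n : ℕ) : ℂ) * (((2 * n : ℕ) : ℂ) - 1)‖ * (((n - 1)! : ℝ) *
        ‖riemannZeta ((2 * n : ℕ) : ℂ)‖) :=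
        mul_le_mul hfac (le_mul_of_one_le_right h5 hz) h5 (norm_nonneg _)
    _ = ‖((2 * n : ℕ) : ℂ) * (((2 * n : ℕ) : ℂ) - 1)‖ * ((π ^ n)⁻¹ * ((n - 1)! : ℝ) *
        ‖riemannZeta ((2 * n : ℕ) : ℂ)‖) * π ^ n := by
        field_simp

theorem infinite_zeros_xi : {s | xi s = 0}.Infinite := by
  intro hfin
  obtain ⟨A, hA⟩ := exists_growth
  obtain ⟨P, a, b, -, hF⟩ := EntireOrder.exists_eq_poly_mul_exp differentiable_xi
    ⟨0, by rw [xi]; simp⟩ hfin hA
  obtain ⟨C, hC0, hC⟩ := norm_eval_le P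
  set c : ℝ := Real.exp (2 + 2 * b.re) * π with hc
  have h1 : ∀ n : ℕ, 1 ≤ n → (1 : ℝ) ≤ C * Real.exp a.re * (c ^ n / n !) := by
    intro n hn
    have h2 := factorial_le n hn
    rw [hF, norm_mul, Complex.norm_exp] at h2
    have h3 := hC ((2 * n : ℕ) : ℂ)
    rw [Complex.norm_natCast] at h3
    have h4 : (a + b * ((2 * n : ℕ) : ℂ)).re = a.re + b.re * (2 * n) := by
      simp
    rw [h4] at h2
    have h5 : (n ! : ℝ) ≤ C * Real.exp ((2 * n : ℕ) : ℝ) * Real.exp (a.re + b.re * (2 * n)) * π ^ n := by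
      refine h2.trans ?_
      refine mul_le_mul_of_nonneg_right ?_ (by positivity)
      exact mul_le_mul_of_nonneg_right h3 (Real.exp_pos _).le
    have h6 : C * Real.exp ((2 * n : ℕ) : ℝ) * Real.exp (a.re + b.re * (2 * n)) * π ^ n =
        C * Real.exp a.re * c ^ n := by
      rw [hc, mul_pow, ← Real.exp_nat_mul]
      have : Real.exp ((2 * n : ℕ) : ℝ) * Real.exp (a.re + b.re * (2 * n)) =
          Real.exp a.re * Real.exp (n * (2 + 2 * b.re)) := by
        rw [← Real.exp_add, ← Real.exp_add]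
        congr 1
        push_cast
        ring
      linear_combination (C * π ^ n) * this
    rw [h6] at h5
    have hfpos : (0 : ℝ) < (n ! : ℝ) := by positivity
    rw [mul_div_assoc', le_div_iff₀ hfpos, one_mul]
    exact h5
  have h7 : Tendsto (fun n : ℕ => C * Real.exp a.re * (c ^ n / n !)) atTop (𝓝 0) := by
    have := (FloorSemiring.tendsto_pow_div_factorial_atTop c).const_mul (C * Real.exp a.re)
    simpa using this
  have h8 := ge_of_tendsto h7 ((eventually_ge_atTop 1).mono h1)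
  norm_num at h8

theorem of_xi_eq_zero {s : ℂ} (hs : xi s = 0) : riemannZeta s = 0 ∧ 0 < s.re ∧ s.re < 1 := by
  have h0 : s ≠ 0 := by
    rintro rfl
    rw [xi] at hs
    simp at hs
  have h1 : s ≠ 1 := by
    rintro rfl
    rw [xi] at hs
    simp at hs
  have h2 : completedRiemannZeta s = 0 := by
    rw [xi_eq h0 h1] at hs
    rcases mul_eq_zero.mp hs with h | h
    · rcases mul_eq_zero.mp h with h | h
      · exact absurd h h0
      · exact absurd (sub_eq_zero.mp h) h1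
    · exact h
  have h3 : riemannZeta s = 0 := by rw [riemannZeta_def_of_ne_zero h0, h2, zero_div]
  refine ⟨h3, ?_, ?_⟩
  · by_contra h
    push Not at h
    have h4 : 1 - s ≠ 0 := fun h => h1 (by linear_combination -h)
    have h5 : riemannZeta (1 - s) = 0 := by
      rw [riemannZeta_def_of_ne_zero h4, completedRiemannZeta_one_sub, h2, zero_div]
    refine riemannZeta_ne_zero_of_one_le_re ?_ h5
    rw [Complex.sub_re, Complex.one_re]
    linarith
  · by_contra h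
    push Not at h
    exact riemannZeta_ne_zero_of_one_le_re h h3

/-- **The Riemann zeta function has infinitely many zeros in the critical strip.** -/
theorem infinite_zeros : {s : ℂ | riemannZeta s = 0 ∧ 0 < s.re ∧ s.re < 1}.Infinite :=
  infinite_zeros_xi.mono fun _ hs => of_xi_eq_zero hs

/-- The nontrivial zeros of the Riemann zeta function have unbounded imaginary parts. -/
theorem exists_zero_im_gt (T : ℝ) :
    ∃ s : ℂ, riemannZeta s = 0 ∧ 0 < s.re ∧ s.re < 1 ∧ T < |s.im| := by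
  by_contra hcon
  push Not at hcon
  have hsub : {s : ℂ | xi s = 0} ⊆ Metric.closedBall 0 (1 + |T|) := by
    intro s (hs : xi s = 0)
    obtain ⟨h1, h2, h3⟩ := of_xi_eq_zero hs
    rw [mem_closedBall_zero_iff]
    have h4 := hcon s h1 h2 h3
    have h5 := Complex.norm_le_abs_re_add_abs_im s
    have h6 : |s.re| = s.re := abs_of_nonneg (by linarith)
    have h7 := le_abs_self T
    linarith
  obtain ⟨x, -, hacc⟩ := infinite_zeros_xi.exists_accPt_of_subset_isCompact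
    (isCompact_closedBall 0 _) hsub
  have h1 : AnalyticOnNhd ℂ xi univ := fun z _ => differentiable_xi.analyticAt z
  have h2 : AnalyticOnNhd ℂ (fun _ : ℂ => (0 : ℂ)) univ := fun z _ => analyticAt_const
  have h3 : ∃ᶠ z in 𝓝[≠] x, xi z = (fun _ : ℂ => (0 : ℂ)) z := by
    rw [accPt_iff_frequently_nhdsNE] at hacc
    exact hacc.mono fun z hz => hz
  have h4 := congrFun (h1.eq_of_frequently_eq h2 h3) 0
  rw [xi] at h4
  simp at h4

end Fermat.Agent.Cor.ZetaZeros
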